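import Fermat.Agent.T8.helper6_UFD2

/-!
# T8 (row 38, at risk), helper6: the abstract form of [SLOPE]

`R` a noetherian local domain, `y` in the maximal ideal with `R ⧸ (y)` a principal ideal domain
(so `R` is a UFD, `helper6_UFD2`), `red : R →+* E` a ring homomorphism into a domain whose kernel
is contained in `(y)`, and `ord : E → ℤ` a function which is additive on products of nonzero
elements and vanishes on the images of the units of `R`.

`slope_abs` : if `a, b ∈ R` are not divisible by `y` and their exact multiplicities at every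
prime element of `R` are congruent modulo `n`, then `ord (red a) ≡ ord (red b) mod n`.

In the application `R` is the local ring at a double point `s` of the `I`-fixed integral regular
functions, `y = b0` the weight-one unit (`ker red₂ = y R`), `E = k(C₂)`, `ord = ord_s`, and
`a / b = u0` is a function with `p ∣ ord_P u0` at all places centred at `s` and
`w₁ u0 = w₂ u0 = 0`.
-/

set_option autoImplicit false
set_option linter.unusedSectionVars false

namespace Fermat.Agent.T8.helper6

open Ideal IsLocalRing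

section Slope

variable {R : Type*} [CommRing R] [IsDomain R] [IsNoetherianRing R] [IsLocalRing R]
  {E : Type*} [CommRing E] [IsDomain E]

/-- **[SLOPE], abstract UFD form.**  `R` any UFD, `red : R →+* E`, `ord` additive on nonzero
products and zero on images of units: congruent prime multiplicities of `a`, `b` give congruent
orders of the reductions, provided `red a`, `red b ≠ 0`. -/
theorem slope_of_ufm {R : Type*} [CommRing R] [IsDomain R] [UniqueFactorizationMonoid R]
    (red : R →+* E) (ord : E → ℤ)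
    (hmul : ∀ x y : E, x ≠ 0 → y ≠ 0 → ord (x * y) = ord x + ord y)
    (hunit : ∀ u : Rˣ, ord (red u) = 0)
    (n : ℕ) (hn : 0 < n) {a b : R} (ha : red a ≠ 0) (hb : red b ≠ 0)
    (h : ∀ π : R, Prime π → ∀ k l : ℕ, π ^ k ∣ a → ¬ π ^ (k + 1) ∣ a →
      π ^ l ∣ b → ¬ π ^ (l + 1) ∣ b → k ≡ l [MOD n]) :
    (n : ℤ) ∣ ord (red a) - ord (red b) := by
  have ha0 : a ≠ 0 := fun h0 => ha (by rw [h0, map_zero])
  have hb0 : b ≠ 0 := fun h0 => hb (by rw [h0, map_zero])
  obtain ⟨u, d, hud⟩ := exists_unit_mul_pow_of_forall_modEq n hn a b ha0 hb0 h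
  have hred : red a * red b ^ n = red u * red b * red d ^ n := by
    rw [← map_pow, ← map_mul, hud, map_mul, map_mul, map_pow]
  have hu0 : red (u : R) ≠ 0 := (u.isUnit.map red).ne_zero
  have hd0 : red d ≠ 0 := by
    intro h0
    rw [h0, zero_pow hn.ne', mul_zero] at hred
    exact mul_ne_zero ha (pow_ne_zero n hb) hred
  have hpow : ∀ (x : E), x ≠ 0 → ∀ m : ℕ, ord (x ^ (m + 1)) = (m + 1 : ℕ) * ord x := by
    intro x hx m
    induction m with
    | zero => simp
    | succ m ih =>
      rw [pow_succ, hmul _ _ (pow_ne_zero _ hx) hx, ih]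
      push_cast
      ring
  obtain ⟨m, rfl⟩ : ∃ m, n = m + 1 := ⟨n - 1, by omega⟩
  have h1 := congrArg ord hred
  rw [hmul _ _ ha (pow_ne_zero _ hb), hmul _ _ (mul_ne_zero hu0 hb) (pow_ne_zero _ hd0),
    hmul _ _ hu0 hb, hunit u, hpow _ hb, hpow _ hd0] at h1
  refine ⟨ord (red d) - ord (red b), ?_⟩
  linear_combination h1

/-- **[SLOPE], abstract local form** (with [UFD2]): `R` noetherian local domain, `y ∈ 𝔪`,
`R ⧸ (y)` a principal ideal domain. -/
theorem slope_abs {y : R} (hy : y ∈ maximalIdeal R)
    [IsDomain (R ⧸ Ideal.span {y})] [IsPrincipalIdealRing (R ⧸ Ideal.span {y})]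
    (red : R →+* E) (ord : E → ℤ)
    (hmul : ∀ x y : E, x ≠ 0 → y ≠ 0 → ord (x * y) = ord x + ord y)
    (hunit : ∀ u : Rˣ, ord (red u) = 0)
    (n : ℕ) (hn : 0 < n) {a b : R} (ha : red a ≠ 0) (hb : red b ≠ 0)
    (h : ∀ π : R, Prime π → ∀ k l : ℕ, π ^ k ∣ a → ¬ π ^ (k + 1) ∣ a →
      π ^ l ∣ b → ¬ π ^ (l + 1) ∣ b → k ≡ l [MOD n]) :
    (n : ℤ) ∣ ord (red a) - ord (red b) := by
  have : UniqueFactorizationMonoid R := ufm_of_quotient hy
  exact slope_of_ufm red ord hmul hunit n hn ha hb h

end Slope

end Fermat.Agent.T8.helper6
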