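import Mathlib
import Fermat.Agent.T8.helper6_SlopeAbs

/-!
# T8 (row 38, at risk), leaf [RING-X] (helper16): the abstract LOCAL theorem

Used for `X` (`R⁰ = ringX`, `O` = the valuation ring of a closed point `Q` of `C₁`) and meant for
the cover `X'` as well (same `xx`, `R'⁰` = the integral functions of the cover, `O` = the
valuation ring of the point of the sheet `(1, i)` over `Q`).

Setting: `R⁰` a noetherian domain, `O` a local principal ideal domain (a discrete valuation ring
or a field), `φ : R⁰ →+* O` ("reduction to the component, germ at `Q`") with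

* `ker φ = xx R⁰`                                  ((KER), `hker`, `hxx`),
* every `g ∈ O` is `φ a / φ s` with `φ s` a unit    ((SURJ), local form, `hsurj`).

`P := φ⁻¹ (𝔪_O)`; `R` any localisation of `R⁰` at `P` which is a domain.  Then

* `isNoetherianRing_loc`, `isLocalRing_loc` : `R` is a noetherian local ring;
* `redLoc : R →+* O` extends `φ`, is surjective (`redLoc_surjective`) with kernel `xx R`
  (`redLoc_eq_zero_iff`), maps units to units;
* `ufm_loc` : **`R` is a unique factorisation domain** (`helper6.ufm_of_quotient` at `xx`);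
* `slope_loc` : **the slope**: if the exact multiplicities of `a, b ∈ R` at every prime element
  of `R` are congruent modulo `n`, then `n ∣ ord (redLoc a) - ord (redLoc b)` for every function
  `ord : O → ℤ` which is additive on nonzero products and vanishes on the units.

The second half of the file realises the localisation as a SUBRING of a field
(`locSub R⁰ S`, `isLocalization_locSub`), the shape needed by the dictionary
(`helper23.DictStatement`).
-/

set_option autoImplicit false
set_option linter.unusedSectionVars false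
set_option linter.unusedVariables false
set_option linter.style.longLine false
set_option linter.style.haveILetI false

noncomputable section

namespace Fermat.Agent.T8.helper16

open Ideal IsLocalRing

/-! ### The abstract local theorem -/

section Abstract

variable {R0 : Type*} [CommRing R0] [IsDomain R0]
  {O : Type*} [CommRing O] [IsDomain O] [IsLocalRing O]
  (φ : R0 →+* O)
  (R : Type*) [CommRing R] [Algebra R0 R]
  [IsLocalization.AtPrime R ((maximalIdeal O).comap φ)]

/-- the elements outside `P = φ⁻¹ 𝔪` are mapped to units -/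
theorem isUnit_of_primeCompl (s : ((maximalIdeal O).comap φ).primeCompl) : IsUnit (φ s) := by
  by_contra h
  exact s.2 (Ideal.mem_comap.mpr ((mem_maximalIdeal _).mpr h))

include φ in
/-- `R` is a local ring -/
theorem isLocalRing_loc : IsLocalRing R :=
  IsLocalization.AtPrime.isLocalRing R ((maximalIdeal O).comap φ)

include φ in
/-- `R` is noetherian -/
theorem isNoetherianRing_loc [IsNoetherianRing R0] : IsNoetherianRing R :=
  IsLocalization.isNoetherianRing ((maximalIdeal O).comap φ).primeCompl R inferInstance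

/-- **the reduction on the local ring** -/
def redLoc : R →+* O :=
  IsLocalization.lift (M := ((maximalIdeal O).comap φ).primeCompl) (S := R) (g := φ)
    (isUnit_of_primeCompl φ)

theorem redLoc_algebraMap (a : R0) : redLoc φ R (algebraMap R0 R a) = φ a :=
  IsLocalization.lift_eq _ a

theorem redLoc_comp : (redLoc φ R).comp (algebraMap R0 R) = φ :=
  RingHom.ext (redLoc_algebraMap φ R)

/-- (SURJ) ⟹ the reduction of the local ring is onto `O` -/
theorem redLoc_surjective
    (hsurj : ∀ g : O, ∃ a s : R0, IsUnit (φ s) ∧ g * φ s = φ a) :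
    Function.Surjective (redLoc φ R) := by
  intro g
  obtain ⟨a, s, hs, e⟩ := hsurj g
  have hsP : s ∈ ((maximalIdeal O).comap φ).primeCompl := by
    intro h
    exact (mem_maximalIdeal _).mp (Ideal.mem_comap.mp h) hs
  refine ⟨IsLocalization.mk' R a ⟨s, hsP⟩, ?_⟩
  have h1 : redLoc φ R (IsLocalization.mk' R a ⟨s, hsP⟩) * φ s = φ a := by
    rw [← redLoc_algebraMap φ R s, ← map_mul]
    have : IsLocalization.mk' R a ⟨s, hsP⟩ * algebraMap R0 R s = algebraMap R0 R a :=
      IsLocalization.mk'_spec R a ⟨s, hsP⟩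
    rw [this, redLoc_algebraMap]
  exact hs.mul_left_injective (show _ * φ s = _ * φ s by rw [h1, e])

/-- (KER) ⟹ the kernel of the reduction of the local ring is `xx R` -/
theorem dvd_of_redLoc_eq_zero {xx : R0} (hker : ∀ r : R0, φ r = 0 → xx ∣ r) {r : R}
    (h : redLoc φ R r = 0) : algebraMap R0 R xx ∣ r := by
  obtain ⟨a, s, rfl⟩ := IsLocalization.exists_mk'_eq ((maximalIdeal O).comap φ).primeCompl r
  have h1 : redLoc φ R (IsLocalization.mk' R a s) * φ s = φ a := by
    rw [← redLoc_algebraMap φ R s, ← map_mul]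
    have : IsLocalization.mk' R a s * algebraMap R0 R s = algebraMap R0 R a :=
      IsLocalization.mk'_spec R a s
    rw [this, redLoc_algebraMap]
  rw [h, zero_mul] at h1
  obtain ⟨a', rfl⟩ := hker a h1.symm
  refine ⟨IsLocalization.mk' R a' s, ?_⟩
  rw [IsLocalization.mk'_eq_iff_eq_mul, mul_assoc, IsLocalization.mk'_spec, map_mul]

theorem redLoc_eq_zero_iff {xx : R0} (hxx : φ xx = 0) (hker : ∀ r : R0, φ r = 0 → xx ∣ r)
    {r : R} : redLoc φ R r = 0 ↔ algebraMap R0 R xx ∣ r := by
  refine ⟨dvd_of_redLoc_eq_zero φ R hker, ?_⟩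
  rintro ⟨c, rfl⟩
  rw [map_mul, redLoc_algebraMap, hxx, zero_mul]

theorem ker_redLoc {xx : R0} (hxx : φ xx = 0) (hker : ∀ r : R0, φ r = 0 → xx ∣ r) :
    RingHom.ker (redLoc φ R) = Ideal.span {algebraMap R0 R xx} := by
  ext r
  rw [RingHom.mem_ker, redLoc_eq_zero_iff φ R hxx hker, Ideal.mem_span_singleton]

/-- the units of `R` reduce to units -/
theorem isUnit_redLoc (u : Rˣ) : IsUnit (redLoc φ R u) := u.isUnit.map (redLoc φ R)

/-- `xx` lies in the maximal ideal of `R` -/
theorem xx_mem_maximalIdeal {xx : R0} (hxx : φ xx = 0) [IsLocalRing R] :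
    algebraMap R0 R xx ∈ maximalIdeal R := by
  rw [mem_maximalIdeal, mem_nonunits_iff]
  intro h
  have := h.map (redLoc φ R)
  rw [redLoc_algebraMap, hxx] at this
  exact not_isUnit_zero this

/-- **[RING-X], abstract local theorem**: `R` is a unique factorisation domain. -/
theorem ufm_loc [IsNoetherianRing R0] [IsPrincipalIdealRing O] [IsDomain R]
    {xx : R0} (hxx : φ xx = 0) (hker : ∀ r : R0, φ r = 0 → xx ∣ r)
    (hsurj : ∀ g : O, ∃ a s : R0, IsUnit (φ s) ∧ g * φ s = φ a) :
    UniqueFactorizationMonoid R := by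
  haveI : IsLocalRing R := isLocalRing_loc φ R
  haveI : IsNoetherianRing R := isNoetherianRing_loc φ R
  have hk := ker_redLoc φ R hxx hker
  let e : (R ⧸ Ideal.span {algebraMap R0 R xx}) ≃+* O :=
    (Ideal.quotEquivOfEq hk.symm).trans
      (RingHom.quotientKerEquivOfSurjective (redLoc_surjective φ R hsurj))
  haveI : IsDomain (R ⧸ Ideal.span {algebraMap R0 R xx}) := e.toMulEquiv.isDomain O
  haveI : IsPrincipalIdealRing (R ⧸ Ideal.span {algebraMap R0 R xx}) :=
    IsPrincipalIdealRing.of_surjective (e.symm : O →+* _) e.symm.surjective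
  exact Fermat.Agent.T8.helper6.ufm_of_quotient (xx_mem_maximalIdeal φ R hxx)

/-- **[RING-X], abstract slope**: congruent prime multiplicities of `a`, `b` in the local ring
give congruent orders of the reductions. -/
theorem slope_loc [IsNoetherianRing R0] [IsPrincipalIdealRing O] [IsDomain R]
    {xx : R0} (hxx : φ xx = 0) (hker : ∀ r : R0, φ r = 0 → xx ∣ r)
    (hsurj : ∀ g : O, ∃ a s : R0, IsUnit (φ s) ∧ g * φ s = φ a)
    (ord : O → ℤ) (hmul : ∀ x y : O, x ≠ 0 → y ≠ 0 → ord (x * y) = ord x + ord y)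
    (hunit : ∀ x : O, IsUnit x → ord x = 0)
    (n : ℕ) (hn : 0 < n) {a b : R} (ha : redLoc φ R a ≠ 0) (hb : redLoc φ R b ≠ 0)
    (h : ∀ π : R, Prime π → ∀ k l : ℕ, π ^ k ∣ a → ¬ π ^ (k + 1) ∣ a →
      π ^ l ∣ b → ¬ π ^ (l + 1) ∣ b → k ≡ l [MOD n]) :
    (n : ℤ) ∣ ord (redLoc φ R a) - ord (redLoc φ R b) := by
  haveI : UniqueFactorizationMonoid R := ufm_loc φ R hxx hker hsurj
  exact Fermat.Agent.T8.helper6.slope_of_ufm (redLoc φ R) ord hmul
    (fun u => hunit _ (isUnit_redLoc φ R u)) n hn ha hb h

end Abstract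

/-! ### The localisation as a subring of a field -/

section Sub

variable {F : Type*} [Field F]

/-- the localisation of the subring `R⁰` of the field `F` at the submonoid `S`, as a subring
of `F`: `{a / s : a ∈ R⁰, s ∈ S}`. -/
def locSub (R0 : Subring F) (S : Submonoid R0) : Subring F where
  carrier := {f | ∃ a : R0, ∃ s ∈ S, f * ((s : R0) : F) = (a : F)}
  mul_mem' := by
    rintro f g ⟨a, s, hs, e⟩ ⟨b, t, ht, e'⟩
    refine ⟨a * b, s * t, S.mul_mem hs ht, ?_⟩
    show f * g * ((s : F) * (t : F)) = (a : F) * (b : F)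
    rw [← e, ← e']
    ring
  one_mem' := ⟨1, 1, S.one_mem, by simp⟩
  add_mem' := by
    rintro f g ⟨a, s, hs, e⟩ ⟨b, t, ht, e'⟩
    refine ⟨a * t + b * s, s * t, S.mul_mem hs ht, ?_⟩
    show (f + g) * ((s : F) * (t : F)) = (a : F) * (t : F) + (b : F) * (s : F)
    rw [← e, ← e']
    ring
  zero_mem' := ⟨0, 1, S.one_mem, by simp⟩
  neg_mem' := by
    rintro f ⟨a, s, hs, e⟩
    refine ⟨-a, s, hs, ?_⟩
    show -f * (s : F) = -(a : F)
    rw [← e]
    ring

variable (R0 : Subring F) (S : Submonoid R0)

theorem mem_locSub {f : F} :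
    f ∈ locSub R0 S ↔ ∃ a : R0, ∃ s ∈ S, f * ((s : R0) : F) = (a : F) := Iff.rfl

theorem le_locSub : R0 ≤ locSub R0 S := fun f hf => ⟨⟨f, hf⟩, 1, S.one_mem, by simp⟩

/-- the inclusion `R⁰ → R⁰[S⁻¹]` -/
def locSubIncl : R0 →+* locSub R0 S := Subring.inclusion (le_locSub R0 S)

theorem coe_locSubIncl (a : R0) : ((locSubIncl R0 S a : locSub R0 S) : F) = (a : F) := rfl

/-- the algebra structure of the localisation (a local instance) -/
@[reducible] def locSubAlgebra : Algebra R0 (locSub R0 S) := (locSubIncl R0 S).toAlgebra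

/-- the subring `R⁰[S⁻¹]` is a localisation of `R⁰` at `S` (if `0 ∉ S`). -/
theorem isLocalization_locSub (h0 : (0 : R0) ∉ S) :
    @IsLocalization R0 _ S (locSub R0 S) _ (locSubAlgebra R0 S) := by
  letI := locSubAlgebra R0 S
  have hne : ∀ s : S, ((s : R0) : F) ≠ 0 := by
    intro s h
    apply h0
    have : (s : R0) = 0 := Subtype.ext h
    rw [← this]
    exact s.2
  refine ⟨?_, ?_, ?_⟩
  · intro s
    have hinv : (((s : R0) : F))⁻¹ ∈ locSub R0 S :=
      ⟨1, s, s.2, by rw [inv_mul_cancel₀ (hne s)]; rfl⟩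
    refine ⟨⟨locSubIncl R0 S s, ⟨_, hinv⟩, ?_, ?_⟩, rfl⟩
    · apply Subtype.ext
      show ((s : R0) : F) * (((s : R0) : F))⁻¹ = 1
      exact mul_inv_cancel₀ (hne s)
    · apply Subtype.ext
      show (((s : R0) : F))⁻¹ * ((s : R0) : F) = 1
      exact inv_mul_cancel₀ (hne s)
  · rintro ⟨f, a, s, hs, e⟩
    refine ⟨(a, ⟨s, hs⟩), ?_⟩
    apply Subtype.ext
    exact e
  · intro x y hxy
    refine ⟨1, ?_⟩
    have h1 : ((x : R0) : F) = ((y : R0) : F) := congrArg (fun z : locSub R0 S => (z : F)) hxy
    have : x = y := Subtype.ext h1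
    rw [this]

end Sub

end Fermat.Agent.T8.helper16
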