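import Fermat.Agent.P2.helper93_CoreWire

/-!
# T8 (row 38, at risk), leaf [RING-X] / [COVER-RING], sub-box DICTIONARY (helper23): contract

**Places `↔` horizontal height-one primes, `ord_q = ord_P`.**

Abstract form (`DictStatement`), for ANY function field `F / K` (so for `X` and for the cover
`X'`) with a set `Φ` of ring automorphisms of `F` (the coefficientwise action of the inertia
group): for a subring `R` of `F` consisting of `Φ`-fixed functions whose fraction field is the
field of all `Φ`-fixed functions, and a prime element `π` of `R` which is HORIZONTAL (no integer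
`n ≠ 0` is divisible by `π`) with finite multiplicities, there is a place `𝔓` of `F / K` with

  `ord_𝔓 r = multiplicity of π in r`   for every `r ∈ R`

(EXACT equality: the constant field extension `F / F^Φ` is unramified, `e = 1`).  In particular
`0 ≤ ord_𝔓 r` on `R` ("`𝔓` is centred on `Spec R`") and `0 < ord_𝔓 π`.

`DictSetting K F Φ` collects the properties of `(K, F, Φ)` used by the proof; it holds for
`F = FF M`, `K = ℚ̄`, `Φ = galF M '' Γ` for ANY subset `Γ` of `Gal(ℚ̄ / ℚ)` (`DictStatementFF`).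

Consumer ([SLOPE], `helper6.slope_of_ufm` / `helper5.slope_abstract`): for `a, b ∈ R` and
`u0 = a / b` with `p ∣ ord_𝔓 u0` at every place centred on `Spec R`, the exact multiplicities
`k` of `π` in `a` and `l` in `b` satisfy `k ≡ l mod p` (`DictModEqStatement`).
-/

set_option autoImplicit false
set_option linter.unusedSectionVars false
set_option linter.style.longLine false

noncomputable section

namespace Fermat.Agent.T8.helper23

open AlgebraicCurve ModularCurve
open Fermat.Agent.S18.helper19 Fermat.Agent.P2.helper93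

section General

variable (K F : Type*) [Field K] [Field F] [Algebra K F]

/-- The properties of a function field `F / K` with a set `Φ` of ring automorphisms used by
the dictionary. -/
structure DictSetting (Φ : Set (F ≃+* F)) : Prop where
  /-- (D5) every valuation subring `≠ ⊤` containing the constants is a place -/
  d5 : ∀ V : ValuationSubring F, (∀ a : K, algebraMap K F a ∈ V) → V ≠ ⊤ →
    ∃ 𝔓 : Place K F, 𝔓.toValuationSubring = V
  /-- the residue field of every place is `K` -/
  residue : ∀ (v : Place K F) (f : F), 0 ≤ v.ord f →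
    ∃ a : K, f = algebraMap K F a ∨ 0 < v.ord (f - algebraMap K F a)
  /-- every constant lies in a finite `Φ`-stable set of constants -/
  orbit : ∀ c : K, ∃ S : Finset K, c ∈ S ∧
    ∀ g ∈ Φ, ∀ b ∈ S, ∃ b' ∈ S, g (algebraMap K F b) = algebraMap K F b'
  /-- `F` is generated, as a field, by the constants and the `Φ`-fixed elements -/
  gen : ∀ t : F, t ∈ Subfield.closure
    (Set.range (algebraMap K F) ∪ {f : F | ∀ g ∈ Φ, g f = f})
  /-- the constants are algebraic over the prime field: a valuation subring in which every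
  integer `n ≠ 0` is invertible contains the constants -/
  const : ∀ V : ValuationSubring F, (∀ n : ℕ, n ≠ 0 → ((n : F))⁻¹ ∈ V) →
    ∀ c : K, algebraMap K F c ∈ V

/-- **Dictionary, abstract contract.** -/
def DictStatement (Φ : Set (F ≃+* F)) : Prop :=
  ∀ (R : Subring F), (∀ r ∈ R, ∀ g ∈ Φ, g r = r) →
    (∀ f : F, (∀ g ∈ Φ, g f = f) → ∃ a ∈ R, ∃ b ∈ R, b ≠ 0 ∧ f * b = a) →
    ∀ π : R, Prime π → (∀ n : ℕ, n ≠ 0 → ¬ π ∣ (n : R)) →
      (∀ r : R, r ≠ 0 → ∃ k : ℕ, ¬ π ^ (k + 1) ∣ r) →
      ∃ 𝔓 : Place K F, ∀ (r : R) (k : ℕ), π ^ k ∣ r → ¬ π ^ (k + 1) ∣ r →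
        𝔓.ord (r : F) = (k : ℤ)

/-- **Dictionary, consumer form for [SLOPE]**: if `n ∣ ord_𝔓 (a / b)` at every place `𝔓` of
`F / K` centred on `Spec R`, then the exact multiplicities of every horizontal prime of `R` in
`a` and in `b` are congruent modulo `n`. -/
def DictModEqStatement (Φ : Set (F ≃+* F)) : Prop :=
  ∀ (R : Subring F), (∀ r ∈ R, ∀ g ∈ Φ, g r = r) →
    (∀ f : F, (∀ g ∈ Φ, g f = f) → ∃ a ∈ R, ∃ b ∈ R, b ≠ 0 ∧ f * b = a) →
    ∀ (n : ℕ) (a b : R), a ≠ 0 → b ≠ 0 →
      (∀ 𝔓 : Place K F, (∀ r : R, 0 ≤ 𝔓.ord (r : F)) →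
        (n : ℤ) ∣ 𝔓.ord (a : F) - 𝔓.ord (b : F)) →
      ∀ π : R, Prime π → (∀ m : ℕ, m ≠ 0 → ¬ π ∣ (m : R)) →
        (∀ r : R, r ≠ 0 → ∃ k : ℕ, ¬ π ^ (k + 1) ∣ r) →
        ∀ k l : ℕ, π ^ k ∣ a → ¬ π ^ (k + 1) ∣ a → π ^ l ∣ b → ¬ π ^ (l + 1) ∣ b →
          k ≡ l [MOD n]

end General

section Modular

variable (M : ℕ) [NeZero M]

/-- the coefficientwise action of a set `Γ` of automorphisms of `ℚ̄` on `FF M` -/
def galSet (Γ : Set (Kb ≃ₐ[ℚ] Kb)) : Set (FF M ≃+* FF M) :=
  {g | ∃ σ ∈ Γ, g = galF M σ}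

/-- **Dictionary on `X₀(M)`**: the abstract contract for `F = FF M` and the coefficientwise
action of any set `Γ` of automorphisms of `ℚ̄` (the inertia group of `A` in the application). -/
def DictStatementFF (Γ : Set (Kb ≃ₐ[ℚ] Kb)) : Prop :=
  DictStatement Kb (FF M) (galSet M Γ)

/-- consumer form on `X₀(M)` -/
def DictModEqStatementFF (Γ : Set (Kb ≃ₐ[ℚ] Kb)) : Prop :=
  DictModEqStatement Kb (FF M) (galSet M Γ)

end Modular

end Fermat.Agent.T8.helper23
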