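import Mathlib
import Fermat.Agent.T3.helper16_UnitReal
import Fermat.Agent.T3.helper5_Gauss3CGauss
import Fermat.Agent.T2.helper58_ScaleBad
import Fermat.Agent.T2.helper45_IntegralityAll
import Fermat.Agent.T2.helper22_CoreDefs

/-!
# T8 / [RING-X], sub-box `ker red2 = y R` (helper63)

Level `N q` (`q` prime, `q ∤ N`; in T8: `q = p`, `N = N' = 4 M'`), `W = atkinLehner N q`,
`A` a valuation subring of `ℚ̄` over `q`, `I = A.inertiaSubgroupIn ℚ`, and the weight-one unit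
`b₀` of T3 (`helper16.IsUnit0`: `q`-expansion `B ∈ 1 + t ℤ[[t]]`, `W b₀ · b₀ = ε q`,
`b₀^{±1}` integral over `ℚ̄[j]`).  Put `y := b₀` (`w₁ = 0`, `w₂ = 1`), `xx := W b₀`
(`w₁ = 1`, `w₂ = 0`), `ν := red B`.

`IsRX A hq hqN g Y₁ Y₂` : `g` lies in the ring `R` of [RING-X]: `I`-fixed, regular where `j` is
finite (`helper98.IsRegJ`), with the integral pair of expansions `(Y₁, Y₂)` (`helper22.IsRep`).

* `kerRed2` : `g ∈ R`, `red₂ g = 0`  ⟹  `g / y ∈ R`, `red₁ (g / y) · ν = red₁ g`.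
* `kerRed1` : `g ∈ R`, `red₁ g = 0`  ⟹  `g / xx ∈ R`, `red₂ (g / xx) · ν = red₂ g`.
* `isRX_unit`, `isRX_unitW` : `y, xx ∈ R` with reductions `(ν, 0)` and `(0, ν)`.
* `KerRedStatement`, `kerRedStatement` : the contract and its proof.

The divisibility is the discreteness of the Gauss valuation on the `I`-fixed functions
(helper5 `gaussIs_fixI`, T2 `scaleStatement_bad`) and [T2-VAL-INT] in the `j`-regular form
(helper45 `integrality_of_isQuotInt`).
-/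

set_option autoImplicit false
set_option synthInstance.maxHeartbeats 400000
set_option maxHeartbeats 1000000
set_option linter.unusedSectionVars false
set_option linter.unusedVariables false
set_option linter.style.haveILetI false
set_option linter.style.longLine false

noncomputable section

open HahnSeries IntermediateField AlgebraicCurve ModularCurve
open Fermat.Agent.S18.helper19 Fermat.Agent.P2.helper29 Fermat.Agent.T2.helper36

namespace Fermat.Agent.T8.helper63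

open Fermat.Agent.P2.helper66 (iota inv1)
open Fermat.Agent.T3.helper16 (IsUnit0)
open Fermat.Agent.T3.helper74 (IsFixI)
open Fermat.Agent.T3.helper36 (RhoQ GaussIs)
open Fermat.Agent.T3.helper98 (IsRegJ)
open Fermat.Agent.T2.helper22 (IsRep)

/-! ### Gauss values and divisibility (abstract) -/

section Gauss

variable (A : ValuationSubring Kb)

theorem natCast_mem_A (n : ℕ) : (n : Kb) ∈ A := by
  induction n with
  | zero => simp
  | succ n ih =>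
    rw [Nat.cast_succ]
    exact A.add_mem _ _ ih A.one_mem

/-- an element with Gauss value `q ^ k`, `k ≥ 0`, is Gauss-integral -/
theorem exists_rhoQ_of_gaussIs_natPow {g : LaurentSeries Kb} {q k : ℕ}
    (h : GaussIs A g ((q : Kb) ^ k)) : ∃ r : LaurentSeries (kA A), RhoQ A g r := by
  obtain ⟨hc, r, -, hr⟩ := h
  have hmem : (q : Kb) ^ k ∈ A := A.pow_mem (natCast_mem_A A q) k
  have h1 := (Fermat.Agent.T3.helper36.rhoQ_algebraMap (A := A) ⟨(q : Kb) ^ k, hmem⟩).mul hr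
  have e : algebraMap Kb (LaurentSeries Kb) (((⟨(q : Kb) ^ k, hmem⟩ : A) : Kb)) *
      (algebraMap Kb (LaurentSeries Kb) ((q : Kb) ^ k)⁻¹ * g) = g := by
    rw [← mul_assoc, ← map_mul]
    show algebraMap Kb (LaurentSeries Kb) ((q : Kb) ^ k * ((q : Kb) ^ k)⁻¹) * g = g
    rw [mul_inv_cancel₀ hc, map_one, one_mul]
  rw [e] at h1
  exact ⟨_, h1⟩

/-- an element of Gauss value `q ^ m` with reduction `0` has `m ≥ 1` -/
theorem one_le_of_gaussIs_of_red_zero {g : LaurentSeries Kb} {q : ℕ} {m : ℤ}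
    (h : GaussIs A g ((q : Kb) ^ m)) (h0 : RhoQ A g 0) : 1 ≤ m := by
  by_contra hm
  rw [not_le] at hm
  obtain ⟨hc, r, hr0, hr⟩ := h
  obtain ⟨k, hk⟩ : ∃ k : ℕ, m = -(k : ℤ) := ⟨(-m).toNat, by omega⟩
  have hmem : (q : Kb) ^ k ∈ A := A.pow_mem (natCast_mem_A A q) k
  have e : ((q : Kb) ^ m)⁻¹ = (((⟨(q : Kb) ^ k, hmem⟩ : A) : Kb)) := by
    show ((q : Kb) ^ m)⁻¹ = (q : Kb) ^ k
    rw [hk, zpow_neg, inv_inv, zpow_natCast]
  rw [e] at hr
  have h1 := (Fermat.Agent.T3.helper36.rhoQ_algebraMap (A := A) ⟨(q : Kb) ^ k, hmem⟩).mul h0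
  rw [mul_zero] at h1
  exact hr0 (hr.unique h1)

/-- **divisibility**: `g` of Gauss value `q ^ m` with reduction `0`, `b` of Gauss value `q`:
`g / b` is Gauss-integral. -/
theorem exists_rhoQ_div_of_red_zero {g b : LaurentSeries Kb} {q : ℕ} {m : ℤ}
    (h : GaussIs A g ((q : Kb) ^ m)) (h0 : RhoQ A g 0) (hb : GaussIs A b (q : Kb)) :
    ∃ r : LaurentSeries (kA A), RhoQ A (g * b⁻¹) r := by
  have hm := one_le_of_gaussIs_of_red_zero A h h0
  obtain ⟨k, hk⟩ : ∃ k : ℕ, m = (k : ℤ) + 1 := ⟨(m - 1).toNat, by omega⟩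
  have hq0 : (q : Kb) ≠ 0 := hb.1
  have h1 := h.mul hb.inv
  have e : (q : Kb) ^ m * (q : Kb)⁻¹ = (q : Kb) ^ k := by
    rw [hk, zpow_add₀ hq0, zpow_one, zpow_natCast, mul_assoc, mul_inv_cancel₀ hq0, mul_one]
  rw [e] at h1
  exact exists_rhoQ_of_gaussIs_natPow A h1

end Gauss

/-! ### the ring `R` of [RING-X] -/

section Ring

variable {N q : ℕ} [NeZero N] [NeZero q]

/-- `g` lies in the ring `R` of [RING-X] at the bad pair `(N q, atkinLehner N q, A)`: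
inertia-fixed, regular where `j` is finite, with the integral pair of expansions `(Y₁, Y₂)`. -/
def IsRX (A : ValuationSubring Kb) (hq : q.Prime) (hqN : ¬ q ∣ N) (g : FF (N * q))
    (Y₁ Y₂ : LaurentSeries A) : Prop :=
  IsFixI A (N * q) g ∧ IsRegJ (N * q) g ∧ IsRep A (atkinLehner N q hq hqN) g Y₁ Y₂

variable {hq : q.Prime} {hqN : ¬ q ∣ N} {A : ValuationSubring Kb}

theorem IsRX.swap {g : FF (N * q)} {Y₁ Y₂ : LaurentSeries A} (h : IsRX A hq hqN g Y₁ Y₂) :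
    IsRX A hq hqN (atkinLehner N q hq hqN g) Y₂ Y₁ :=
  ⟨Fermat.Agent.T3.helper98.isFixI_atkinLehner A h.1,
    Fermat.Agent.T3.helper98.isRegJ_atkinLehner h.2.1,
    h.2.2.swap (atkinLehner_atkinLehner N q hq hqN)⟩

theorem IsRX.mul {f g : FF (N * q)} {Y₁ Y₂ Z₁ Z₂ : LaurentSeries A}
    (hf : IsRX A hq hqN f Y₁ Y₂) (hg : IsRX A hq hqN g Z₁ Z₂) :
    IsRX A hq hqN (f * g) (Y₁ * Z₁) (Y₂ * Z₂) :=
  ⟨Fermat.Agent.T3.helper98.isFixI_mul A hf.1 hg.1, hf.2.1.mul hg.2.1, hf.2.2.mul hg.2.2⟩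

theorem IsRX.add {f g : FF (N * q)} {Y₁ Y₂ Z₁ Z₂ : LaurentSeries A}
    (hf : IsRX A hq hqN f Y₁ Y₂) (hg : IsRX A hq hqN g Z₁ Z₂) :
    IsRX A hq hqN (f + g) (Y₁ + Z₁) (Y₂ + Z₂) :=
  ⟨Fermat.Agent.T3.helper98.isFixI_add A hf.1 hg.1, hf.2.1.add hg.2.1, hf.2.2.add hg.2.2⟩

theorem isRX_zero : IsRX A hq hqN (0 : FF (N * q)) 0 0 :=
  ⟨fun σ _ => map_zero _, Fermat.Agent.T3.helper98.isRegJ_zero,
    Fermat.Agent.T2.helper22.isRep_zero⟩

end Ring

/-! ### the unit -/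

section Unit

variable {N q : ℕ} [NeZero N] [NeZero q] {hq : q.Prime} {hqN : ¬ q ∣ N}
variable {b0 : FF (N * q)} {B : PowerSeries ℤ} {ε : ℤ} (h : IsUnit0 hq hqN b0 B ε)
variable (A : ValuationSubring Kb)

include h in
/-- `ν ≠ 0` -/
theorem nu_ne_zero : iota (kA A) B ≠ 0 :=
  Fermat.Agent.T3.helper16.iota_ne_zero_of_coeff (R := kA A) h.const

include h in
/-- `w₁(W b₀) = v(q)` -/
theorem gaussIs_unitW :
    GaussIs A ((atkinLehner N q hq hqN b0 : FF (N * q)) : LaurentSeries Kb) (q : Kb) := by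
  refine ⟨h.q_ne_zero, _, Fermat.Agent.T3.helper16.sgn_mul_iota_ne_zero A h.sign
    (Fermat.Agent.T3.helper16.constantCoeff_inv1 h.const), ?_⟩
  have e : algebraMap Kb (LaurentSeries Kb) (q : Kb)⁻¹ *
      ((atkinLehner N q hq hqN b0 : FF (N * q)) : LaurentSeries Kb) =
      incl A (Fermat.Agent.T3.helper16.sgnModel A ε (inv1 B)) := by
    rw [h.coe_al, h.scale_aux, Fermat.Agent.T3.helper16.incl_sgnModel]
  rw [e, ← Fermat.Agent.T3.helper16.red_sgnModel]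
  exact Fermat.Agent.T3.helper36.rhoQ_incl _

include h in
/-- `y = b₀ ∈ R`, reductions `(ν, 0)` -/
theorem isRX_unit (hA : A.LiesOverPrime q) : ∃ Y₁ Y₂ : LaurentSeries A,
    IsRX A hq hqN b0 Y₁ Y₂ ∧ red A Y₁ = iota (kA A) B ∧ red A Y₂ = 0 := by
  obtain ⟨Y, hY, hY0⟩ := h.model_al A hA
  refine ⟨iota ↥A B, Y, ⟨h.isFixI A, Fermat.Agent.T3.helper16.isRegJ_of_isIntegral h.int,
    ?_, hY⟩, Fermat.Agent.T3.helper16.red_iota A B, hY0⟩
  rw [Fermat.Agent.T3.helper16.incl_iota, h.coe_eq]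

include h in
/-- `xx = W b₀ ∈ R`, reductions `(0, ν)` -/
theorem isRX_unitW (hA : A.LiesOverPrime q) : ∃ Y₁ Y₂ : LaurentSeries A,
    IsRX A hq hqN (atkinLehner N q hq hqN b0) Y₁ Y₂ ∧ red A Y₁ = 0 ∧
      red A Y₂ = iota (kA A) B := by
  obtain ⟨Y₁, Y₂, hR, h1, h2⟩ := isRX_unit h A hA
  exact ⟨Y₂, Y₁, hR.swap, h2, h1⟩

include h in
/-- `1 / y` is inertia-fixed and regular where `j` is finite -/
theorem isRegJ_unit_inv : IsRegJ (N * q) b0⁻¹ :=
  Fermat.Agent.T3.helper16.isRegJ_of_isIntegral h.int_inv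

end Unit

/-! ### `ker red2 = y R` and `ker red1 = xx R` -/

section Ker

variable {N q : ℕ} [NeZero N] [NeZero q] {hq : q.Prime} {hqN : ¬ q ∣ N}
variable {b0 : FF (N * q)} {B : PowerSeries ℤ} {ε : ℤ} (h : IsUnit0 hq hqN b0 B ε)
variable (A : ValuationSubring Kb)

include h in
/-- **[RING-X] `ker red2 = y R`**: a function of `R` with `red₂ = 0` is divisible by `y = b₀`
in `R`, and `red₁ (g / y) · ν = red₁ g`. -/
theorem kerRed2 (hA : A.LiesOverPrime q) (g : FF (N * q)) (Y₁ Y₂ : LaurentSeries A)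
    (hg : IsRX A hq hqN g Y₁ Y₂) (h2 : red A Y₂ = 0) :
    ∃ Z₁ Z₂ : LaurentSeries A, IsRX A hq hqN (g * b0⁻¹) Z₁ Z₂ ∧
      red A Z₁ * iota (kA A) B = red A Y₁ := by
  rcases eq_or_ne g 0 with rfl | hg0
  · refine ⟨0, 0, ?_, ?_⟩
    · rw [zero_mul]
      exact isRX_zero
    · have h1 : incl A Y₁ = 0 := by
        rw [hg.2.2.1]
        rfl
      have h3 : Y₁ = 0 := by
        apply Fermat.Agent.T2.helper36.incl_injective_val A
        rw [h1, map_zero]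
      rw [h3, map_zero, zero_mul]
  obtain ⟨hfix, hreg, hrep1, hrep2⟩ := hg
  set W := atkinLehner N q hq hqN with hW
  have hWg0 : W g ≠ 0 := (map_ne_zero_iff _ W.injective).mpr hg0
  have hWfix : IsFixI A (N * q) (W g) := Fermat.Agent.T3.helper98.isFixI_atkinLehner A hfix
  have hSC : ScaleStatement (N * q) A :=
    Fermat.Agent.T2.helper58.scaleStatement_bad N q hq hqN A hA
  obtain ⟨m, hm⟩ := Fermat.Agent.T3.helper5.gaussIs_fixI hq hA hSC hWg0 hWfix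
  have h0 : RhoQ A ((W g : FF (N * q)) : LaurentSeries Kb) 0 := by
    have := Fermat.Agent.T3.helper36.rhoQ_incl (A := A) Y₂
    rwa [hrep2, h2] at this
  obtain ⟨r0, hr0⟩ := exists_rhoQ_div_of_red_zero A hm h0 (gaussIs_unitW h A)
  -- the function `g / y`
  have hfix' : IsFixI A (N * q) (g * b0⁻¹) :=
    Fermat.Agent.T3.helper98.isFixI_mul A hfix (Fermat.Agent.T3.helper98.isFixI_inv A (h.isFixI A))
  have hreg' : IsRegJ (N * q) (g * b0⁻¹) := hreg.mul (isRegJ_unit_inv h)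
  have hWreg' : IsRegJ (N * q) (W (g * b0⁻¹)) :=
    Fermat.Agent.T3.helper98.isRegJ_atkinLehner hreg'
  -- the second expansion is integral
  have hcoe : ((W (g * b0⁻¹) : FF (N * q)) : LaurentSeries Kb) =
      ((W g : FF (N * q)) : LaurentSeries Kb) * ((W b0 : FF (N * q)) : LaurentSeries Kb)⁻¹ := by
    rw [map_mul, map_inv₀]
    rfl
  have hq : Fermat.Agent.T2.helper45.IsQuotInt A
      ((W (g * b0⁻¹) : FF (N * q)) : LaurentSeries Kb) := by
    obtain ⟨U₁, U₂, hU2, hU, -⟩ := hr0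
    rw [hcoe]
    exact ⟨U₁, U₂, hU2, hU⟩
  have hx : Fermat.Agent.S24.xJ (N * q) = jElt (N * q) :=
    (Fermat.Agent.T3.helper48.jElt_eq_xJ (M := N * q)).symm
  obtain ⟨Z₂, hZ₂⟩ := Fermat.Agent.T2.helper45.integrality_of_isQuotInt (N * q) A
    ((W (g * b0⁻¹) : FF (N * q)) : LaurentSeries Kb) (W (g * b0⁻¹)).2
    (fun Q hQ => by
      rw [hx] at hQ
      exact hWreg' Q hQ) hq
  -- the first expansion
  refine ⟨Y₁ * iota ↥A (inv1 B), Z₂, ⟨hfix', hreg', ?_, hZ₂⟩, ?_⟩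
  · have hb : ((b0⁻¹ : FF (N * q)) : LaurentSeries Kb) = iota Kb (inv1 B) := by
      have h1 : ((b0⁻¹ : FF (N * q)) : LaurentSeries Kb) = (b0 : LaurentSeries Kb)⁻¹ := rfl
      rw [h1, h.coe_eq]
      exact inv_eq_of_mul_eq_one_right (Fermat.Agent.T3.helper16.iota_mul_inv1 Kb h.const)
    show incl A (Y₁ * iota ↥A (inv1 B)) = ((g * b0⁻¹ : FF (N * q)) : LaurentSeries Kb)
    rw [map_mul, hrep1, Fermat.Agent.T3.helper16.incl_iota]
    show (g : LaurentSeries Kb) * iota Kb (inv1 B) =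
      (g : LaurentSeries Kb) * ((b0⁻¹ : FF (N * q)) : LaurentSeries Kb)
    rw [hb]
  · rw [map_mul, Fermat.Agent.T3.helper16.red_iota, mul_assoc, mul_comm (iota (kA A) (inv1 B)),
      Fermat.Agent.T3.helper16.iota_mul_inv1 (kA A) h.const, mul_one]

include h in
/-- **[RING-X] `ker red1 = xx R`**: a function of `R` with `red₁ = 0` is divisible by
`xx = W b₀` in `R`, and `red₂ (g / xx) · ν = red₂ g`. -/
theorem kerRed1 (hA : A.LiesOverPrime q) (g : FF (N * q)) (Y₁ Y₂ : LaurentSeries A)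
    (hg : IsRX A hq hqN g Y₁ Y₂) (h1 : red A Y₁ = 0) :
    ∃ Z₁ Z₂ : LaurentSeries A, IsRX A hq hqN (g * (atkinLehner N q hq hqN b0)⁻¹) Z₁ Z₂ ∧
      red A Z₂ * iota (kA A) B = red A Y₂ := by
  obtain ⟨Z₁, Z₂, hZ, hr⟩ := kerRed2 h A hA (atkinLehner N q hq hqN g) Y₂ Y₁ hg.swap h1
  refine ⟨Z₂, Z₁, ?_, hr⟩
  have := hZ.swap
  rwa [map_mul, map_inv₀, atkinLehner_atkinLehner] at this

/-- **contract of the sub-box `ker red = (generator) R` of [RING-X]** at the bad pair. -/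
def KerRedStatement (N q : ℕ) [NeZero N] [NeZero q] (hq : q.Prime) (hqN : ¬ q ∣ N)
    (A : ValuationSubring Kb) (b0 : FF (N * q)) (B : PowerSeries ℤ) : Prop :=
  (∃ Y₁ Y₂ : LaurentSeries A, IsRX A hq hqN b0 Y₁ Y₂ ∧ red A Y₁ = iota (kA A) B ∧
      red A Y₂ = 0) ∧
  (∃ Y₁ Y₂ : LaurentSeries A, IsRX A hq hqN (atkinLehner N q hq hqN b0) Y₁ Y₂ ∧
      red A Y₁ = 0 ∧ red A Y₂ = iota (kA A) B) ∧
  (∀ (g : FF (N * q)) (Y₁ Y₂ : LaurentSeries A), IsRX A hq hqN g Y₁ Y₂ → red A Y₂ = 0 →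
    ∃ Z₁ Z₂ : LaurentSeries A, IsRX A hq hqN (g * b0⁻¹) Z₁ Z₂ ∧
      red A Z₁ * iota (kA A) B = red A Y₁) ∧
  (∀ (g : FF (N * q)) (Y₁ Y₂ : LaurentSeries A), IsRX A hq hqN g Y₁ Y₂ → red A Y₁ = 0 →
    ∃ Z₁ Z₂ : LaurentSeries A, IsRX A hq hqN (g * (atkinLehner N q hq hqN b0)⁻¹) Z₁ Z₂ ∧
      red A Z₂ * iota (kA A) B = red A Y₂)

include h in
theorem kerRedStatement (hA : A.LiesOverPrime q) : KerRedStatement N q hq hqN A b0 B :=
  ⟨isRX_unit h A hA, isRX_unitW h A hA, kerRed2 h A hA, kerRed1 h A hA⟩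

/-- the contract holds at every bad pair with `4 ∣ N` or `9 ∣ N`. -/
theorem exists_kerRedStatement (hq : q.Prime) (hqN : ¬ q ∣ N) (hN : 4 ∣ N ∨ 9 ∣ N)
    (hA : A.LiesOverPrime q) :
    ∃ (b0 : FF (N * q)) (B : PowerSeries ℤ) (ε : ℤ), IsUnit0 hq hqN b0 B ε ∧
      KerRedStatement N q hq hqN A b0 B := by
  obtain ⟨b0, B, ε, h⟩ := Fermat.Agent.T3.helper16.exists_isUnit0 hq hqN hN
  exact ⟨b0, B, ε, h, kerRedStatement h A hA⟩

end Ker

end Fermat.Agent.T8.helper63
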