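import Mathlib
import Fermat.Agent.T8.helper63_KerRed
import Fermat.Agent.T8.helper23_DictContract
import Fermat.Agent.T3.helper98_Hnu

/-!
# T8 (row 38, at risk), leaf [RING-X] (helper16, owner): CONTRACT

Level `N q` (`q` prime, `q ∤ N`; in T8 `q = p`, `N = N' = 4 M'`), `W = atkinLehner N q`, `A` a
valuation subring of `ℚ̄` over `q`, `I` its inertia group, `b₀` the weight-one unit of T3
(`y := b₀`, `xx := W b₀`, `xx · y = ε q`, `ν := red₁ b₀ = iota B`).

## Objects (defined here)

* `ringX A hq hqN : Subring (FF (N q))` : the ring `R⁰` of the functions which are `I`-fixed,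
  regular where `j` is finite, with an `A`-integral pair of expansions (`helper63.IsRX`);
* `red1X : R⁰ →+* k((t))` : the reduction of the first expansion (the component `C₁ ∋ ∞`);
* `ordAt Q x` : the order at a place `Q` of the special fibre field `FFb A N` of a series `x`
  (`0` if `x ∉ FFb A N`);
* `IsUnitAt Q s` : `s ∈ R⁰` does not vanish at `Q` (`red₁ s ∈ FFb A N`, `ord_Q (red₁ s) = 0`);
* `locX A hq hqN Q : Subring (FF (N q))` : the local ring `R_Q = {a / s : a, s ∈ R⁰, s(Q) ≠ 0}`
  at a closed point `Q` of `C₁` where `j̄` is finite.  (Points of `C₂` : apply `W`.)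

## Sub-contracts and owners

* (KER)   `helper63.KerRedStatement`  : `ker red₁ = xx R⁰`, `ker red₂ = y R⁰`  (helper63, DONE);
* (NOETH) `NoethXStatement`           : `R⁰` is noetherian  (helper1; from T3
          `helper48.isIntegralElem_level_q` + `helper97.completeO` +
          `helper84.isNoetherianRing_of_fix_integral`);
* (SURJ)  `LocSurjXStatement`         : every function of `C₁` regular at `Q` is
          `red₁ a / red₁ s`, `a, s ∈ R⁰`, `s(Q) ≠ 0`  (helper96 [SURJ-X] + helper95 `locBt`);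
* (UFD)   `UfdXStatement`             : `R_Q` is a UFD  (helper16: localisation + `helper6`
          `ufm_of_quotient` from (KER), (NOETH), (SURJ));
* (DICT)  `helper23.DictModEqStatementFF (N q) I` at `R = R_Q`  (helper23);
* (VERT)  the primes of `R_Q` over `q` are `xx` and (at the double points) `y`, with
          multiplicities `w₁`, `w₂`  (helper48, abstract glue + (KER)).

## Consumer ([SLOPE], [CONCL])

* `SlopeXStatement` : for an `I`-fixed function `u ≠ 0` with `n ∣ ord_P u` at all places `P` where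
  `j` is finite, with Gauss values `w₁ u = a₁`, `w₂ u = a₂` (`u / q^a₁` has the reduction
  `r₁ ≠ 0` at the first expansion, `W u / q^a₂` is a Gauss unit), at EVERY closed point `Q` of
  `C₁` where `j̄` is finite (smooth points and double points):

    `n ∣ ord_Q r₁ + (a₁ - a₂) · ord_Q ν`.

  (`u₀ := u xx^(-a₁) y^(-a₂)` has `w₁ = w₂ = 0`, is a unit times an `n`-th power in the UFD
  `R_Q`, and `red₁ u₀ = const · r₁ · ν^(a₁ - a₂)`.)  The statement for `C₂` is the same statement
  for `W u` (Gauss values `(a₂, a₁)`).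
-/

set_option autoImplicit false
set_option linter.unusedSectionVars false
set_option linter.unusedVariables false
set_option linter.style.longLine false

noncomputable section

open HahnSeries IntermediateField AlgebraicCurve ModularCurve
open Fermat.Agent.S18.helper19 Fermat.Agent.P2.helper29 Fermat.Agent.T2.helper36

namespace Fermat.Agent.T8.helper16

open Fermat.Agent.P2.helper66 (iota)
open Fermat.Agent.T3.helper74 (IsFixI)
open Fermat.Agent.T3.helper36 (RhoQ GaussIs)
open Fermat.Agent.T3.helper98 (IsRegJ)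
open Fermat.Agent.T2.helper22 (IsRep)
open Fermat.Agent.T8.helper63 (IsRX isRX_zero)

section Ring

variable {N q : ℕ} [NeZero N] [NeZero q] {A : ValuationSubring Kb} {hq : q.Prime}
  {hqN : ¬ q ∣ N}

theorem isRX_one : IsRX A hq hqN (1 : FF (N * q)) 1 1 := by
  refine ⟨Fermat.Agent.T3.helper98.isFixI_one A, Fermat.Agent.T3.helper98.isRegJ_one, ?_, ?_⟩
  · rw [map_one]; rfl
  · rw [map_one, map_one]; rfl

theorem isRX_neg {g : FF (N * q)} {Y₁ Y₂ : LaurentSeries A} (h : IsRX A hq hqN g Y₁ Y₂) :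
    IsRX A hq hqN (-g) (-Y₁) (-Y₂) := by
  refine ⟨Fermat.Agent.T3.helper98.isFixI_neg A h.1, h.2.1.neg, ?_, ?_⟩
  · rw [map_neg, h.2.2.1]; rfl
  · rw [map_neg, map_neg, h.2.2.2]; rfl

/-- the first expansion determines the integral model -/
theorem isRX_unique₁ {g : FF (N * q)} {Y₁ Y₂ Z₁ Z₂ : LaurentSeries A}
    (h : IsRX A hq hqN g Y₁ Y₂) (h' : IsRX A hq hqN g Z₁ Z₂) : Y₁ = Z₁ :=
  Fermat.Agent.T2.helper36.incl_injective_val A (h.2.2.1.trans h'.2.2.1.symm)

theorem isRX_unique₂ {g : FF (N * q)} {Y₁ Y₂ Z₁ Z₂ : LaurentSeries A}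
    (h : IsRX A hq hqN g Y₁ Y₂) (h' : IsRX A hq hqN g Z₁ Z₂) : Y₂ = Z₂ :=
  Fermat.Agent.T2.helper36.incl_injective_val A (h.2.2.2.trans h'.2.2.2.symm)

variable (A hq hqN)

/-- **the ring `R⁰` of [RING-X]**: the functions of level `N q` which are inertia-fixed, regular
where `j` is finite, with an `A`-integral pair of expansions. -/
def ringX : Subring (FF (N * q)) where
  carrier := {g | ∃ Y₁ Y₂ : LaurentSeries A, IsRX A hq hqN g Y₁ Y₂}
  mul_mem' := by
    rintro f g ⟨Y₁, Y₂, hf⟩ ⟨Z₁, Z₂, hg⟩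
    exact ⟨_, _, hf.mul hg⟩
  one_mem' := ⟨1, 1, isRX_one⟩
  add_mem' := by
    rintro f g ⟨Y₁, Y₂, hf⟩ ⟨Z₁, Z₂, hg⟩
    exact ⟨_, _, hf.add hg⟩
  zero_mem' := ⟨0, 0, isRX_zero⟩
  neg_mem' := by
    rintro f ⟨Y₁, Y₂, hf⟩
    exact ⟨_, _, isRX_neg hf⟩

variable {A hq hqN}

theorem mem_ringX {g : FF (N * q)} :
    g ∈ ringX A hq hqN ↔ ∃ Y₁ Y₂ : LaurentSeries A, IsRX A hq hqN g Y₁ Y₂ := Iff.rfl

/-- the integral model of the first expansion -/
def model1 (g : ringX A hq hqN) : LaurentSeries A := Classical.choose g.2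

/-- the integral model of the second expansion -/
def model2 (g : ringX A hq hqN) : LaurentSeries A := Classical.choose (Classical.choose_spec g.2)

theorem isRX_model (g : ringX A hq hqN) :
    IsRX A hq hqN (g : FF (N * q)) (model1 g) (model2 g) :=
  Classical.choose_spec (Classical.choose_spec g.2)

theorem model1_eq {g : ringX A hq hqN} {Y₁ Y₂ : LaurentSeries A}
    (h : IsRX A hq hqN (g : FF (N * q)) Y₁ Y₂) : model1 g = Y₁ :=
  isRX_unique₁ (isRX_model g) h

theorem model2_eq {g : ringX A hq hqN} {Y₁ Y₂ : LaurentSeries A}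
    (h : IsRX A hq hqN (g : FF (N * q)) Y₁ Y₂) : model2 g = Y₂ :=
  isRX_unique₂ (isRX_model g) h

variable (A hq hqN)

/-- **`red₁ : R⁰ →+* k((t))`**, the reduction of the first expansion. -/
def red1X : ringX A hq hqN →+* LaurentSeries (kA A) where
  toFun g := red A (model1 g)
  map_one' := by
    have h : model1 (1 : ringX A hq hqN) = 1 := model1_eq isRX_one
    rw [h, map_one]
  map_mul' f g := by
    have h : model1 (f * g) = model1 f * model1 g := model1_eq ((isRX_model f).mul (isRX_model g))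
    rw [h, map_mul]
  map_zero' := by
    have h : model1 (0 : ringX A hq hqN) = 0 := model1_eq isRX_zero
    rw [h, map_zero]
  map_add' f g := by
    have h : model1 (f + g) = model1 f + model1 g := model1_eq ((isRX_model f).add (isRX_model g))
    rw [h, map_add]

/-- **`red₂ : R⁰ →+* k((t))`**, the reduction of the second expansion (of `W g`). -/
def red2X : ringX A hq hqN →+* LaurentSeries (kA A) where
  toFun g := red A (model2 g)
  map_one' := by
    have h : model2 (1 : ringX A hq hqN) = 1 := model2_eq isRX_one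
    rw [h, map_one]
  map_mul' f g := by
    have h : model2 (f * g) = model2 f * model2 g := model2_eq ((isRX_model f).mul (isRX_model g))
    rw [h, map_mul]
  map_zero' := by
    have h : model2 (0 : ringX A hq hqN) = 0 := model2_eq isRX_zero
    rw [h, map_zero]
  map_add' f g := by
    have h : model2 (f + g) = model2 f + model2 g := model2_eq ((isRX_model f).add (isRX_model g))
    rw [h, map_add]

variable {A hq hqN}

theorem red1X_eq {g : ringX A hq hqN} {Y₁ Y₂ : LaurentSeries A}
    (h : IsRX A hq hqN (g : FF (N * q)) Y₁ Y₂) : red1X A hq hqN g = red A Y₁ := by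
  show red A (model1 g) = red A Y₁
  rw [model1_eq h]

theorem red2X_eq {g : ringX A hq hqN} {Y₁ Y₂ : LaurentSeries A}
    (h : IsRX A hq hqN (g : FF (N * q)) Y₁ Y₂) : red2X A hq hqN g = red A Y₂ := by
  show red A (model2 g) = red A Y₂
  rw [model2_eq h]

end Ring

/-! ### Points of the special fibre -/

section Points

variable {N : ℕ} [NeZero N] {A : ValuationSubring Kb}

/-- the order at the place `Q` of the special fibre of a series `x` (`0` if `x` is not a
function of the special fibre). -/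
def ordAt (Q : Place (kA A) (FFb A N)) (x : LaurentSeries (kA A)) : ℤ :=
  open Classical in if h : x ∈ FFb A N then Q.ord (⟨x, h⟩ : FFb A N) else 0

theorem ordAt_of_mem (Q : Place (kA A) (FFb A N)) {x : LaurentSeries (kA A)}
    (h : x ∈ FFb A N) : ordAt Q x = Q.ord (⟨x, h⟩ : FFb A N) := by
  unfold ordAt
  rw [dif_pos h]

theorem ordAt_one (Q : Place (kA A) (FFb A N)) : ordAt Q (1 : LaurentSeries (kA A)) = 0 := by
  rw [ordAt_of_mem Q (FFb A N).one_mem]
  exact Place.ord_one Q

theorem ordAt_mul (Q : Place (kA A) (FFb A N)) {x y : LaurentSeries (kA A)}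
    (hx : x ∈ FFb A N) (hy : y ∈ FFb A N) (hx0 : x ≠ 0) (hy0 : y ≠ 0) :
    ordAt Q (x * y) = ordAt Q x + ordAt Q y := by
  rw [ordAt_of_mem Q hx, ordAt_of_mem Q hy, ordAt_of_mem Q ((FFb A N).mul_mem hx hy)]
  have e : (⟨x * y, (FFb A N).mul_mem hx hy⟩ : FFb A N) = ⟨x, hx⟩ * ⟨y, hy⟩ := rfl
  rw [e]
  exact Place.ord_mul Q (fun h => hx0 (congrArg Subtype.val h))
    (fun h => hy0 (congrArg Subtype.val h))

/-- `Q` is a closed point of the special fibre where `j̄` is finite (not a cusp). -/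
def IsFinitePt (Q : Place (kA A) (FFb A N)) : Prop := 0 ≤ Q.ord (jBar A N)

end Points

/-! ### The local rings -/

section Local

variable {N q : ℕ} [NeZero N] [NeZero q] (A : ValuationSubring Kb) (hq : q.Prime)
  (hqN : ¬ q ∣ N)

/-- `s ∈ R⁰` is a unit at the point `Q` of the component `C₁`: its first reduction is a nonzero
function of the special fibre of order `0` at `Q`. -/
def IsUnitAt (Q : Place (kA A) (FFb A N)) (s : ringX A hq hqN) : Prop :=
  red1X A hq hqN s ∈ FFb A N ∧ red1X A hq hqN s ≠ 0 ∧ ordAt Q (red1X A hq hqN s) = 0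

variable {A hq hqN}

theorem isUnitAt_one (Q : Place (kA A) (FFb A N)) : IsUnitAt A hq hqN Q 1 := by
  refine ⟨?_, ?_, ?_⟩
  · rw [map_one]; exact (FFb A N).one_mem
  · rw [map_one]; exact one_ne_zero
  · rw [map_one]; exact ordAt_one Q

theorem IsUnitAt.mul {Q : Place (kA A) (FFb A N)} {s t : ringX A hq hqN}
    (hs : IsUnitAt A hq hqN Q s) (ht : IsUnitAt A hq hqN Q t) : IsUnitAt A hq hqN Q (s * t) := by
  refine ⟨?_, ?_, ?_⟩
  · rw [map_mul]; exact (FFb A N).mul_mem hs.1 ht.1
  · rw [map_mul]; exact mul_ne_zero hs.2.1 ht.2.1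
  · rw [map_mul, ordAt_mul Q hs.1 ht.1 hs.2.1 ht.2.1, hs.2.2, ht.2.2, add_zero]

theorem IsUnitAt.ne_zero {Q : Place (kA A) (FFb A N)} {s : ringX A hq hqN}
    (hs : IsUnitAt A hq hqN Q s) : (s : FF (N * q)) ≠ 0 := by
  intro h
  have h0 : s = 0 := Subtype.ext h
  apply hs.2.1
  rw [h0, map_zero]

variable (A hq hqN)

/-- **the local ring `R_Q` of [RING-X]** at the point `Q` of the component `C₁`:
`{a / s : a, s ∈ R⁰, s(Q) ≠ 0}`. -/
def locX (Q : Place (kA A) (FFb A N)) : Subring (FF (N * q)) where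
  carrier := {f | ∃ a s : ringX A hq hqN, IsUnitAt A hq hqN Q s ∧
    f * (s : FF (N * q)) = (a : FF (N * q))}
  mul_mem' := by
    rintro f g ⟨a, s, hs, e⟩ ⟨b, t, ht, e'⟩
    refine ⟨a * b, s * t, hs.mul ht, ?_⟩
    show f * g * ((s : FF (N * q)) * (t : FF (N * q))) = (a : FF (N * q)) * (b : FF (N * q))
    rw [← e, ← e']
    ring
  one_mem' := ⟨1, 1, isUnitAt_one Q, by simp⟩
  add_mem' := by
    rintro f g ⟨a, s, hs, e⟩ ⟨b, t, ht, e'⟩
    refine ⟨a * t + b * s, s * t, hs.mul ht, ?_⟩
    show (f + g) * ((s : FF (N * q)) * (t : FF (N * q))) =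
      (a : FF (N * q)) * (t : FF (N * q)) + (b : FF (N * q)) * (s : FF (N * q))
    rw [← e, ← e']
    ring
  zero_mem' := ⟨0, 1, isUnitAt_one Q, by simp⟩
  neg_mem' := by
    rintro f ⟨a, s, hs, e⟩
    refine ⟨-a, s, hs, ?_⟩
    show -f * (s : FF (N * q)) = -(a : FF (N * q))
    rw [← e]
    ring

variable {A hq hqN}

theorem mem_locX {Q : Place (kA A) (FFb A N)} {f : FF (N * q)} :
    f ∈ locX A hq hqN Q ↔ ∃ a s : ringX A hq hqN, IsUnitAt A hq hqN Q s ∧
      f * (s : FF (N * q)) = (a : FF (N * q)) := Iff.rfl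

theorem ringX_le_locX (Q : Place (kA A) (FFb A N)) : ringX A hq hqN ≤ locX A hq hqN Q :=
  fun f hf => ⟨⟨f, hf⟩, 1, isUnitAt_one Q, by simp⟩

end Local

/-! ### The contracts -/

section Contracts

variable (N q : ℕ) [NeZero N] [NeZero q] (hq : q.Prime) (hqN : ¬ q ∣ N)
  (A : ValuationSubring Kb)

/-- **(NOETH)** the ring `R⁰` is noetherian. -/
def NoethXStatement : Prop := IsNoetherianRing (ringX A hq hqN)

/-- **(SURJ), local form**: every function of the special fibre which is regular at the point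
`Q` (where `j̄` is finite) is `red₁ a / red₁ s` with `a, s ∈ R⁰`, `s` a unit at `Q`. -/
def LocSurjXStatement : Prop :=
  ∀ Q : Place (kA A) (FFb A N), IsFinitePt Q → ∀ g : FFb A N, 0 ≤ Q.ord g →
    ∃ a s : ringX A hq hqN, IsUnitAt A hq hqN Q s ∧
      (g : LaurentSeries (kA A)) * red1X A hq hqN s = red1X A hq hqN a

/-- **(UFD)** the local rings `R_Q` are unique factorisation domains. -/
def UfdXStatement : Prop :=
  ∀ Q : Place (kA A) (FFb A N), IsFinitePt Q →
    UniqueFactorizationMonoid (locX A hq hqN Q)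

/-- **[RING-X], consumer statement (the slope at every closed point)**.  `ν = iota B` is the
first reduction of the unit `b₀`. -/
def SlopeXStatement (B : PowerSeries ℤ) : Prop :=
  ∀ (n : ℕ), 0 < n → ∀ u : FF (N * q), u ≠ 0 → IsFixI A (N * q) u →
    (∀ P : Place Kb (FF (N * q)), 0 ≤ P.ord (jElt (N * q)) → (n : ℤ) ∣ P.ord u) →
    ∀ (a₁ a₂ : ℤ) (r₁ : LaurentSeries (kA A)), r₁ ≠ 0 →
      RhoQ A (algebraMap Kb (LaurentSeries Kb) ((q : Kb) ^ a₁)⁻¹ * (u : LaurentSeries Kb)) r₁ →
      GaussIs A ((atkinLehner N q hq hqN u : FF (N * q)) : LaurentSeries Kb) ((q : Kb) ^ a₂) →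
      r₁ ∈ FFb A N ∧ ∀ Q : Place (kA A) (FFb A N), IsFinitePt Q →
        (n : ℤ) ∣ ordAt Q r₁ + (a₁ - a₂) * ordAt Q (iota (kA A) B)

end Contracts

end Fermat.Agent.T8.helper16
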