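import Mathlib
import Fermat.Agent.T8.helper16_RingXDefs
import Fermat.Agent.T3.helper84_FGInst
import Fermat.Agent.T3.helper48_CompleteA
import Fermat.Agent.T3.helper97_CompleteO

/-!
# T8 (row 38, at risk), leaf [RING-X], sub-box (NOETH) (helper16): `R⁰ = ringX` is noetherian

Route (all on main, T3 [FG]): `g ∈ R⁰`
⟹ (`helper98.isIntegralElem_evK_of_isRegJ`) `g` integral over `ℚ̄[j]`
⟹ (`helper48.isIntegralElem_level_q`, the two integral expansions) integral over `A[j]`
⟹ (`helper97.completeO`) integral over `O[j]`, `O = A^I`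
⟹ (`helper84.isNoetherianRing_of_fix_integral`) `R⁰` is noetherian.

* `isRX_alpha`       : the pull-back `α x` of an `I`-fixed integral `j`-regular function of level
                       `N` lies in `R⁰`, with the pair `(Y, Y(t^q))`;
* `xJ_mem_ringX`, `const_mem_ringX`, `evO_mem_ringX` : `O[j] ⊆ R⁰`;
* `isIntegralElem_of_mem_ringX` : the elements of `R⁰` are integral over `O[j]`;
* `noethX`           : **`NoethXStatement`**.
-/

set_option autoImplicit false
set_option synthInstance.maxHeartbeats 400000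
set_option linter.unusedSectionVars false
set_option linter.unusedVariables false
set_option linter.style.longLine false
set_option linter.style.haveILetI false

noncomputable section

open Polynomial HahnSeries IntermediateField AlgebraicCurve ModularCurve
open Fermat.Agent.S18.helper19 Fermat.Agent.P2.helper29 Fermat.Agent.T2.helper36
open Fermat.Agent.S24

namespace Fermat.Agent.T8.helper16

open Fermat.Agent.T3.helper74 (IsFixI)
open Fermat.Agent.T3.helper98 (IsRegJ)
open Fermat.Agent.T2.helper22 (IsRep)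
open Fermat.Agent.T8.helper63 (IsRX)
open Fermat.Agent.T3.helper84 (k0Ring)

section Noeth

variable {N q : ℕ} [NeZero N] [NeZero q] {A : ValuationSubring Kb} {hq : q.Prime}
  {hqN : ¬ q ∣ N}

/-- `j ∈ R⁰` -/
theorem xJ_mem_ringX : xJ (N * q) ∈ ringX A hq hqN := by
  refine ⟨jqModC A, qExpand A q (jqModC A), Fermat.Agent.T3.helper84.isFixI_xJ A (N * q), ?_,
    ?_, ?_⟩
  · rw [← Fermat.Agent.T3.helper48.jElt_eq_xJ]
    exact Fermat.Agent.T3.helper98.isRegJ_jElt
  · exact (Fermat.Agent.S18.helper19.coe_xJ' (A := A) (M := N * q)).symm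
  · rw [← Fermat.Agent.P2.helper93.alpha_xJ (N := N) (ℓ := q), atkinLehner_heckeAlphaBar,
      coe_heckeBetaBar, Fermat.Agent.T2.helper96.incl_qExpand]
    congr 1
    exact (Fermat.Agent.S18.helper19.coe_xJ' (A := A) (M := N)).symm

/-- the constants of `O = A^I` lie in `R⁰` -/
theorem const_mem_ringX (a : k0Ring A) :
    algebraMap Kb (FF (N * q)) (a : Kb) ∈ ringX A hq hqN := by
  refine ⟨HahnSeries.C (⟨(a : Kb), a.2.1⟩ : A), HahnSeries.C (⟨(a : Kb), a.2.1⟩ : A), ?_,
    Fermat.Agent.T3.helper98.isRegJ_algebraMap _,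
    Fermat.Agent.T2.helper22.isRep_algebraMap (⟨(a : Kb), a.2.1⟩ : A)⟩
  intro σ hσ
  have h := arithmeticRingAut_algebraMap (modularFunctionFieldFull (N * q)) σ (a : Kb)
  rw [a.2.2 σ hσ] at h
  exact h

/-- `O[j] ⊆ R⁰` -/
theorem evO_mem_ringX (P : (k0Ring A)[X]) :
    Fermat.Agent.T3.helper97.evO A (N * q) P ∈ ringX A hq hqN := by
  induction P using Polynomial.induction_on' with
  | add p r hp hr =>
    rw [map_add]
    exact Subring.add_mem _ hp hr
  | monomial k a =>
    rw [← Polynomial.C_mul_X_pow_eq_monomial, map_mul, map_pow,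
      Fermat.Agent.T3.helper97.evO_C, Fermat.Agent.T3.helper97.evO_X]
    exact Subring.mul_mem _ (const_mem_ringX a) (Subring.pow_mem _ xJ_mem_ringX k)

/-- the elements of `R⁰` are integral over `O[j]` -/
theorem isIntegralElem_of_mem_ringX (hA : A.LiesOverPrime q) {f : FF (N * q)}
    (hf : f ∈ ringX A hq hqN) :
    (Fermat.Agent.T3.helper97.evO A (N * q)).IsIntegralElem f := by
  obtain ⟨Y₁, Y₂, -, hreg, h1, h2⟩ := hf
  exact Fermat.Agent.T3.helper97.completeO A (N * q)
    (Fermat.Agent.T3.helper48.isIntegralElem_level_q A N q hq hqN hA f ⟨Y₁, h1⟩ ⟨Y₂, h2⟩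
      (Fermat.Agent.T3.helper98.isIntegralElem_evK_of_isRegJ (N * q) hreg))

/-- **(NOETH)** the ring `R⁰` of [RING-X] is noetherian. -/
theorem noethX (hA : A.LiesOverPrime q) : NoethXStatement N q hq hqN A :=
  Fermat.Agent.T3.helper84.isNoetherianRing_of_fix_integral hq A hA (N * q) _
    evO_mem_ringX (fun f hf => by
      obtain ⟨Y₁, Y₂, hfix, -⟩ := hf
      exact hfix)
    (fun f hf => isIntegralElem_of_mem_ringX hA hf)

end Noeth

end Fermat.Agent.T8.helper16
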