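/-
T8 (row 38, S44), helper96, leaf [SURJ-X] (sub-box of [RING-X]).

**Inertia-fixed surjectivity of the reduction at the bad pair** `(N * p, W)`,
`W = helper36.atkinLehner N p hp hpN`, `A` over `p`, `p ∤ N`, `4 ∣ N ∨ 9 ∣ N`:

every function `f` of the special fibre which is regular off the cusp at infinity is the
reduction on the SECOND / FIRST branch of a function `g` of level `N * p` which is regular off
the two cusps, has an integral pair of expansions and is FIXED by the inertia group of `A`.

* `SurjXStatement N p hp hpN A`   : lifts with `red Y₁ = f`, `red Y₂ = f (t ^ p)`;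
* `SurjXStatement' N p hp hpN A`  : the mirror, `red Y₂ = f`, `red Y₁ = f (t ^ p)`;
* `surjX_bad`, `surjX_bad'`       : both, UNCONDITIONAL;
* `surjX_coeffFix`                : the form with inertia-fixed COEFFICIENTS of both series.

Inputs on main: `T3.helper96.surjRedFix_good` (inertia-fixed lifts at the good level `N`),
`T2.helper72.regAlphaStatement`, `helper36.atkinLehner_alpha`,
`helper36.atkinLehner_arithmeticRingAut`.
-/
import Mathlib
import Fermat.Agent.T3.helper96_FixLift
import Fermat.Agent.T2.helper72_SNInst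
import Fermat.Agent.T2.helper72_SNGood

set_option autoImplicit false
set_option synthInstance.maxHeartbeats 400000
set_option maxHeartbeats 1000000
set_option linter.style.haveILetI false
set_option linter.unusedSectionVars false
set_option linter.unusedVariables false
set_option linter.style.longLine false

noncomputable section

open HahnSeries IntermediateField AlgebraicCurve ModularCurve
open Fermat.Agent.S18.helper19 Fermat.Agent.P2.helper29 Fermat.Agent.P2
open Fermat.Agent.T2.helper36 Fermat.Agent.T2.helper96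

namespace Fermat.Agent.T8.helper96

variable (N p : ℕ) [NeZero N] [NeZero p] (hp : p.Prime) (hpN : ¬ p ∣ N)
variable (A : ValuationSubring Kb)

/-- the coefficients of the integral series `Y` are fixed by the inertia group of `A` -/
def CoeffFixI (Y : LaurentSeries A) : Prop :=
  ∀ σ ∈ A.inertiaSubgroupIn ℚ, ∀ k : ℤ, σ ((Y.coeff k : A) : Kb) = ((Y.coeff k : A) : Kb)

/-- **[SURJ-X]**, first branch: every `f ∈ Bt` is `red₁` of an inertia-fixed function of level
`N * p`, regular off the two cusps, with an integral pair of expansions with inertia-fixed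
coefficients; the second reduction is the Frobenius twist `f (t ^ p)`. -/
def SurjXStatement : Prop :=
  ∀ f : LaurentSeries (kA A), f ∈ Fermat.Agent.T2.helper22.Bt A (N * p) →
    ∃ (g : FF (N * p)) (Y₁ Y₂ : LaurentSeries A),
      Fermat.Agent.T2.helper22.IsReg2 (atkinLehner N p hp hpN) g ∧
      Fermat.Agent.T2.helper22.IsRep A (atkinLehner N p hp hpN) g Y₁ Y₂ ∧
      red A Y₁ = f ∧ red A Y₂ = qExpand (kA A) p f ∧
      CoeffFixI A Y₁ ∧ CoeffFixI A Y₂ ∧
      ∀ σ ∈ A.inertiaSubgroupIn ℚ, Fermat.Agent.P2.helper93.galF (N * p) σ g = g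

/-- **[SURJ-X]**, second branch (the mirror): every `f ∈ Bt` is `red₂` of an inertia-fixed
function of level `N * p`, regular off the two cusps, with an integral pair of expansions with
inertia-fixed coefficients; the first reduction is the Frobenius twist `f (t ^ p)`. -/
def SurjXStatement' : Prop :=
  ∀ f : LaurentSeries (kA A), f ∈ Fermat.Agent.T2.helper22.Bt A (N * p) →
    ∃ (g : FF (N * p)) (Y₁ Y₂ : LaurentSeries A),
      Fermat.Agent.T2.helper22.IsReg2 (atkinLehner N p hp hpN) g ∧
      Fermat.Agent.T2.helper22.IsRep A (atkinLehner N p hp hpN) g Y₁ Y₂ ∧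
      red A Y₂ = f ∧ red A Y₁ = qExpand (kA A) p f ∧
      CoeffFixI A Y₁ ∧ CoeffFixI A Y₂ ∧
      ∀ σ ∈ A.inertiaSubgroupIn ℚ, Fermat.Agent.P2.helper93.galF (N * p) σ g = g

variable {N p hp hpN A}

/-- a function of level `M` with an integral expansion with inertia-fixed coefficients is fixed
by the inertia group -/
theorem galF_eq_of_coeffFixI {M : ℕ} [NeZero M] {g : FF M} {Y : LaurentSeries A}
    (hY : incl A Y = (g : LaurentSeries Kb)) (hfix : CoeffFixI A Y)
    (σ : Kb ≃ₐ[ℚ] Kb) (hσ : σ ∈ A.inertiaSubgroupIn ℚ) :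
    Fermat.Agent.P2.helper93.galF M σ g = g := by
  apply Subtype.ext
  rw [Fermat.Agent.P2.helper93.coe_galF, ← hY]
  ext k
  rw [coeffMap_coeff, coeffMap_coeff]
  exact hfix σ hσ k

theorem coeffFixI_qExpand {Y : LaurentSeries A} (hfix : CoeffFixI A Y) (n : ℕ) [NeZero n] :
    CoeffFixI A (qExpand A n Y) := by
  intro σ hσ k
  by_cases hk : (n : ℤ) ∣ k
  · obtain ⟨j, rfl⟩ := hk
    rw [qExpand_coeff_mul]
    exact hfix σ hσ j
  · rw [qExpand_coeff_of_not_dvd n Y hk]
    simp

section Main

variable (N p hp hpN A)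
variable (hA : A.LiesOverPrime p)

include hA in
/-- **[SURJ-X]**, first branch, UNCONDITIONAL at the bad pair. -/
theorem surjX_bad (hN : 4 ∣ N ∨ 9 ∣ N) : SurjXStatement N p hp hpN A := by
  intro f hf
  obtain ⟨n, hn⟩ := hf
  rw [FFb_mul_eq N A hp hA] at hn
  obtain ⟨c, hc⟩ := Fermat.Agent.T3.helper96.surjRedFix_good (N := N) (A := A) hp hpN hA hN
  obtain ⟨Y, hY, hYf, hYfix⟩ := hc (max n c) (le_max_right _ _) f (hn.mono (le_max_left _ _))
  have hx : incl A Y ∈ FF N := hY.1
  have hrep : Fermat.Agent.T2.helper22.IsRep A (atkinLehner N p hp hpN)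
      (⟨incl A Y, mem_FF_mul N p hx⟩ : FF (N * p)) Y (qExpand A p Y) := by
    refine ⟨rfl, ?_⟩
    rw [atkinLehner_alpha N p hp hpN hx]
    exact incl_qExpand p A Y
  refine ⟨⟨incl A Y, mem_FF_mul N p hx⟩, Y, qExpand A p Y,
    Fermat.Agent.T2.helper72.regAlphaStatement N p hp hpN _ _ hY _, hrep, hYf, ?_, hYfix,
    coeffFixI_qExpand hYfix p, fun σ hσ => galF_eq_of_coeffFixI rfl hYfix σ hσ⟩
  rw [red_qExpand, hYf]

include hA in
/-- **[SURJ-X]**, second branch, UNCONDITIONAL at the bad pair. -/
theorem surjX_bad' (hN : 4 ∣ N ∨ 9 ∣ N) : SurjXStatement' N p hp hpN A := by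
  intro f hf
  obtain ⟨g, Y₁, Y₂, hg, hrep, h1, h2, hf1, hf2, hfix⟩ := surjX_bad N p hp hpN A hA hN f hf
  have hWW : ∀ f, atkinLehner N p hp hpN (atkinLehner N p hp hpN f) = f :=
    atkinLehner_atkinLehner N p hp hpN
  refine ⟨atkinLehner N p hp hpN g, Y₂, Y₁, hg.map hWW, hrep.swap hWW, h1, h2, hf2, hf1,
    fun σ hσ => ?_⟩
  have h := atkinLehner_arithmeticRingAut N p hp hpN σ g
  have e : Fermat.Agent.P2.helper93.galF (N * p) σ (atkinLehner N p hp hpN g) =
      atkinLehner N p hp hpN (Fermat.Agent.P2.helper93.galF (N * p) σ g) := h.symm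
  rw [e, hfix σ hσ]

end Main

end Fermat.Agent.T8.helper96

end
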