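import Mathlib
import Fermat.Agent.T8.helper16_RingXNoeth
import Fermat.Agent.T8.helper16_RingXLoc
import Fermat.Agent.T8.helper96_SurjX
import Fermat.Agent.T3.helper95_LocBt
import Fermat.Agent.T2.helper45_Integrality2
import Fermat.Agent.P2.helper98_RootN

/-!
# T8 (row 38, at risk), leaf [RING-X] (helper16): the local rings `R_Q` are UFDs

`Q` a closed point of the component `C₁` where `j̄` is finite (`IsFinitePt Q`), `O_Q` its
valuation ring (a discrete valuation ring, Prelude).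

* `red1X_mem_BtAll`, `red1F : R⁰ →+* FFb A N`, `red1Q : R⁰ →+* O_Q` : the reduction with values
  in the function field of the special fibre / in the local ring of `Q`;
* `isUnit_red1Q_iff` : `red₁ s` is a unit of `O_Q` iff `IsUnitAt Q s`;
* `xxX : R⁰` (`= W b₀`), `red1Q_xxX`, `dvd_of_red1Q_eq_zero` : (KER) in the shape of the abstract
  local theorem;
* `isRegJ_of_isReg2` : regular off the two cusps ⟹ regular where `j` is finite;
* `locSurjX` : **(SURJ), local form** (`LocSurjXStatement`), from `helper96.surjX_bad` and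
  `helper95.locBt`;
* `primeX Q` : the prime ideal `𝔪_Q` of `R⁰`; `locX_eq` : `locX Q = locSub R⁰ (R⁰ ∖ 𝔪_Q)`;
* `ufdX` : **(UFD)** (`UfdXStatement`): the local rings `R_Q` are unique factorisation domains.
-/

set_option autoImplicit false
set_option synthInstance.maxHeartbeats 400000
set_option maxHeartbeats 1000000
set_option linter.unusedSectionVars false
set_option linter.unusedVariables false
set_option linter.style.longLine false
set_option linter.style.haveILetI false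

noncomputable section

open HahnSeries IntermediateField AlgebraicCurve ModularCurve
open Fermat.Agent.S18.helper19 Fermat.Agent.P2.helper29 Fermat.Agent.T2.helper36
open Fermat.Agent.S24

namespace Fermat.Agent.T8.helper16

open Fermat.Agent.P2.helper66 (iota)
open Fermat.Agent.T3.helper16 (IsUnit0)
open Fermat.Agent.T3.helper74 (IsFixI)
open Fermat.Agent.T3.helper98 (IsRegJ)
open Fermat.Agent.T3.helper95 (BtAll mem_BtAll)
open Fermat.Agent.T2.helper22 (IsRep IsReg2 IsInfty2 Bt mem_Bt)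
open Fermat.Agent.T8.helper63 (IsRX KerRedStatement)

section Red

variable {N q : ℕ} [NeZero N] [NeZero q] {A : ValuationSubring Kb} {hq : q.Prime}
  {hqN : ¬ q ∣ N}

/-- the first reduction of a function of `R⁰` is regular where `j̄` is finite -/
theorem red1X_mem_BtAll (hA : A.LiesOverPrime q) (g : ringX A hq hqN) :
    red1X A hq hqN g ∈ BtAll N A := by
  have h := isRX_model g
  rw [red1X_eq h]
  exact Fermat.Agent.T3.helper98.mem_BtAll_of_incl_q hq hqN hA h.2.1 _ _ h.2.2.1 h.2.2.2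

theorem red1X_mem_FFb (hA : A.LiesOverPrime q) (g : ringX A hq hqN) :
    red1X A hq hqN g ∈ FFb A N :=
  (mem_BtAll.mp (red1X_mem_BtAll hA g)).1

/-- **`red₁ : R⁰ →+* FFb A N`** -/
def red1F (hA : A.LiesOverPrime q) : ringX A hq hqN →+* FFb A N :=
  (red1X A hq hqN).codRestrict (FFb A N) (red1X_mem_FFb hA)

theorem coe_red1F (hA : A.LiesOverPrime q) (g : ringX A hq hqN) :
    ((red1F hA g : FFb A N) : LaurentSeries (kA A)) = red1X A hq hqN g := rfl

theorem ord_red1F_nonneg (hA : A.LiesOverPrime q) (Q : Place (kA A) (FFb A N))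
    (hQ : IsFinitePt Q) (g : ringX A hq hqN) : 0 ≤ Q.ord (red1F hA g) :=
  (mem_BtAll.mp (red1X_mem_BtAll hA g)).2 Q hQ

/-- **`red₁ : R⁰ →+* O_Q`** -/
def red1Q (hA : A.LiesOverPrime q) (Q : Place (kA A) (FFb A N)) (hQ : IsFinitePt Q) :
    ringX A hq hqN →+* Q.toValuationSubring :=
  (red1F hA).codRestrict Q.toValuationSubring
    (fun g => (helper82.mem_iff_ord_nonneg Q).mpr (ord_red1F_nonneg hA Q hQ g))

theorem coe_red1Q (hA : A.LiesOverPrime q) (Q : Place (kA A) (FFb A N)) (hQ : IsFinitePt Q)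
    (g : ringX A hq hqN) : ((red1Q hA Q hQ g : Q.toValuationSubring) : FFb A N) = red1F hA g :=
  rfl

theorem red1Q_eq_zero_iff (hA : A.LiesOverPrime q) (Q : Place (kA A) (FFb A N))
    (hQ : IsFinitePt Q) (g : ringX A hq hqN) : red1Q hA Q hQ g = 0 ↔ red1X A hq hqN g = 0 := by
  constructor
  · intro h
    have h1 := congrArg (fun x : Q.toValuationSubring => ((x : FFb A N) : LaurentSeries (kA A))) h
    exact h1
  · intro h
    apply Subtype.ext
    apply Subtype.ext
    exact h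

/-- the units of `O_Q` -/
theorem isUnit_iff_ord_eq_zero (Q : Place (kA A) (FFb A N)) (x : Q.toValuationSubring) :
    IsUnit x ↔ x ≠ 0 ∧ Q.ord (x : FFb A N) = 0 := by
  constructor
  · intro h
    refine ⟨h.ne_zero, ?_⟩
    have := Q.ord_coe_unit h.unit
    rwa [IsUnit.unit_spec] at this
  · rintro ⟨h0, h⟩
    by_contra hu
    have hm : x ∈ IsLocalRing.maximalIdeal Q.toValuationSubring := by
      rw [IsLocalRing.mem_maximalIdeal, mem_nonunits_iff]
      exact hu
    have := helper82.ord_pos_of_mem_maximalIdeal Q hm h0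
    omega

theorem isUnit_red1Q_iff (hA : A.LiesOverPrime q) (Q : Place (kA A) (FFb A N))
    (hQ : IsFinitePt Q) (s : ringX A hq hqN) :
    IsUnit (red1Q hA Q hQ s) ↔ IsUnitAt A hq hqN Q s := by
  rw [isUnit_iff_ord_eq_zero]
  constructor
  · rintro ⟨h0, h⟩
    refine ⟨red1X_mem_FFb hA s, fun h1 => h0 ((red1Q_eq_zero_iff hA Q hQ s).mpr h1), ?_⟩
    rw [ordAt_of_mem Q (red1X_mem_FFb hA s)]
    exact h
  · rintro ⟨h1, h0, h⟩
    refine ⟨fun h2 => h0 ((red1Q_eq_zero_iff hA Q hQ s).mp h2), ?_⟩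
    rw [ordAt_of_mem Q h1] at h
    exact h

end Red

/-! ### (KER) in the shape of the abstract local theorem -/

section Ker

variable {N q : ℕ} [NeZero N] [NeZero q] {A : ValuationSubring Kb} {hq : q.Prime}
  {hqN : ¬ q ∣ N} {b0 : FF (N * q)} {B : PowerSeries ℤ}

/-- `xx = W b₀` as an element of `R⁰` -/
def xxX (hK : KerRedStatement N q hq hqN A b0 B) : ringX A hq hqN :=
  ⟨atkinLehner N q hq hqN b0, by
    obtain ⟨Y₁, Y₂, h, -⟩ := hK.2.1
    exact ⟨Y₁, Y₂, h⟩⟩

/-- `y = b₀` as an element of `R⁰` -/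
def yyX (hK : KerRedStatement N q hq hqN A b0 B) : ringX A hq hqN :=
  ⟨b0, by
    obtain ⟨Y₁, Y₂, h, -⟩ := hK.1
    exact ⟨Y₁, Y₂, h⟩⟩

theorem red1X_xxX (hK : KerRedStatement N q hq hqN A b0 B) :
    red1X A hq hqN (xxX hK) = 0 := by
  obtain ⟨Y₁, Y₂, h, h1, -⟩ := hK.2.1
  have e : red1X A hq hqN (xxX hK) = red A Y₁ := red1X_eq (g := xxX hK) h
  rw [e, h1]

theorem red2X_xxX (hK : KerRedStatement N q hq hqN A b0 B) :
    red2X A hq hqN (xxX hK) = iota (kA A) B := by
  obtain ⟨Y₁, Y₂, h, -, h2⟩ := hK.2.1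
  have e : red2X A hq hqN (xxX hK) = red A Y₂ := red2X_eq (g := xxX hK) h
  rw [e, h2]

theorem red1X_yyX (hK : KerRedStatement N q hq hqN A b0 B) :
    red1X A hq hqN (yyX hK) = iota (kA A) B := by
  obtain ⟨Y₁, Y₂, h, h1, -⟩ := hK.1
  have e : red1X A hq hqN (yyX hK) = red A Y₁ := red1X_eq (g := yyX hK) h
  rw [e, h1]

theorem red2X_yyX (hK : KerRedStatement N q hq hqN A b0 B) :
    red2X A hq hqN (yyX hK) = 0 := by
  obtain ⟨Y₁, Y₂, h, -, h2⟩ := hK.1
  have e : red2X A hq hqN (yyX hK) = red A Y₂ := red2X_eq (g := yyX hK) h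
  rw [e, h2]

/-- (KER₁) in `R⁰` -/
theorem xxX_dvd_of_red1X_eq_zero (hK : KerRedStatement N q hq hqN A b0 B)
    (hb : atkinLehner N q hq hqN b0 ≠ 0) {g : ringX A hq hqN}
    (h : red1X A hq hqN g = 0) : xxX hK ∣ g := by
  have hg := isRX_model g
  rw [red1X_eq hg] at h
  obtain ⟨Z₁, Z₂, hZ, -⟩ := hK.2.2.2 g _ _ hg h
  refine ⟨⟨_, Z₁, Z₂, hZ⟩, ?_⟩
  apply Subtype.ext
  show (g : FF (N * q)) = atkinLehner N q hq hqN b0 * ((g : FF (N * q)) *
    (atkinLehner N q hq hqN b0)⁻¹)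
  field_simp

/-- (KER₂) in `R⁰` -/
theorem yyX_dvd_of_red2X_eq_zero (hK : KerRedStatement N q hq hqN A b0 B)
    (hb : b0 ≠ 0) {g : ringX A hq hqN}
    (h : red2X A hq hqN g = 0) : yyX hK ∣ g := by
  have hg := isRX_model g
  rw [red2X_eq hg] at h
  obtain ⟨Z₁, Z₂, hZ, -⟩ := hK.2.2.1 g _ _ hg h
  refine ⟨⟨_, Z₁, Z₂, hZ⟩, ?_⟩
  apply Subtype.ext
  show (g : FF (N * q)) = b0 * ((g : FF (N * q)) * b0⁻¹)
  field_simp

end Ker

/-! ### (SURJ), local form -/

section Surj

variable {N q : ℕ} [NeZero N] [NeZero q] {A : ValuationSubring Kb} {hq : q.Prime}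
  {hqN : ¬ q ∣ N}

/-- regular off the two cusps `∞`, `∞₂` ⟹ regular where `j` is finite -/
theorem isRegJ_of_isReg2 {f : FF (N * q)} (hf : IsReg2 (atkinLehner N q hq hqN) f) :
    IsRegJ (N * q) f := by
  intro P hP
  rw [Fermat.Agent.T3.helper48.jElt_eq_xJ] at hP
  refine hf P ?_ ?_
  · intro hinf
    have h1 := hinf (xJ (N * q)) (Fermat.Agent.P2.helper98.xJ_ne_zero (N * q))
    rw [Fermat.Agent.T2.helper45.coe_xJ, Fermat.Agent.T2.helper36.order_jqModC_val] at h1
    omega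
  · intro hinf
    have h1 := hinf (xJ (N * q)) (Fermat.Agent.P2.helper98.xJ_ne_zero (N * q))
    rw [Fermat.Agent.T2.helper45.order_atkinLehner_xJ N q hq hqN] at h1
    have := hq.pos
    omega

/-- a point where `j̄` is finite is not the cusp `∞` -/
theorem not_isInfty_of_isFinitePt {Q : Place (kA A) (FFb A N)} (hQ : IsFinitePt Q) :
    ¬ IsInfty Q := by
  intro h
  have := Fermat.Agent.T3.helper95.ord_jBar_neg (N := N) (A := A) h
  have h2 : 0 ≤ Q.ord (jBar A N) := hQ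
  omega

/-- the lift of an element of `Bt` to `R⁰` -/
theorem exists_lift_Bt (hA : A.LiesOverPrime q) (hN : 4 ∣ N ∨ 9 ∣ N)
    {x : LaurentSeries (kA A)} (hx : x ∈ Bt A N) :
    ∃ a : ringX A hq hqN, red1X A hq hqN a = x := by
  have hx' : x ∈ Bt A (N * q) := by
    obtain ⟨n, hn⟩ := hx
    refine ⟨n, ?_⟩
    rw [Fermat.Agent.T2.helper96.FFb_mul_eq N A hq hA]
    exact hn
  obtain ⟨g, Y₁, Y₂, hreg, hrep, h1, -, -, -, hfix⟩ :=
    Fermat.Agent.T8.helper96.surjX_bad N q hq hqN A hA hN x hx'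
  have hRX : IsRX A hq hqN g Y₁ Y₂ := ⟨hfix, isRegJ_of_isReg2 hreg, hrep⟩
  refine ⟨⟨g, Y₁, Y₂, hRX⟩, ?_⟩
  rw [red1X_eq (g := ⟨g, Y₁, Y₂, hRX⟩) hRX, h1]

/-- **(SURJ), local form.** -/
theorem locSurjX (hA : A.LiesOverPrime q) (hN : 4 ∣ N ∨ 9 ∣ N) :
    LocSurjXStatement N q hq hqN A := by
  intro Q hQ g hg
  obtain ⟨x, s, hx, hs, hs0, hsQ, e⟩ :=
    Fermat.Agent.T3.helper95.locBt N A Q (not_isInfty_of_isFinitePt hQ) g hg
  obtain ⟨a, ha⟩ := exists_lift_Bt (hq := hq) (hqN := hqN) hA hN hx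
  obtain ⟨t, ht⟩ := exists_lift_Bt (hq := hq) (hqN := hqN) hA hN hs
  refine ⟨a, t, ⟨?_, ?_, ?_⟩, ?_⟩
  · rw [ht]; exact s.2
  · rw [ht]
    exact fun h => hs0 (Subtype.ext h)
  · rw [ht, ordAt_of_mem Q s.2]
    exact hsQ
  · rw [ht, ha, ← e]
    rfl

end Surj

/-! ### The local rings are unique factorisation domains -/

section Ufd

variable {N q : ℕ} [NeZero N] [NeZero q] {A : ValuationSubring Kb} {hq : q.Prime}
  {hqN : ¬ q ∣ N}

/-- the prime ideal `𝔪_Q` of `R⁰` -/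
def primeX (hA : A.LiesOverPrime q) (Q : Place (kA A) (FFb A N)) (hQ : IsFinitePt Q) :
    Ideal (ringX A hq hqN) :=
  (IsLocalRing.maximalIdeal Q.toValuationSubring).comap (red1Q hA Q hQ)

instance primeX_isPrime (hA : A.LiesOverPrime q) (Q : Place (kA A) (FFb A N))
    (hQ : IsFinitePt Q) : (primeX (hq := hq) (hqN := hqN) hA Q hQ).IsPrime :=
  Ideal.comap_isPrime _ _

theorem mem_primeCompl_iff (hA : A.LiesOverPrime q) (Q : Place (kA A) (FFb A N))
    (hQ : IsFinitePt Q) (s : ringX A hq hqN) :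
    s ∈ (primeX hA Q hQ).primeCompl ↔ IsUnitAt A hq hqN Q s := by
  rw [← isUnit_red1Q_iff hA Q hQ]
  show ¬ (red1Q hA Q hQ s ∈ IsLocalRing.maximalIdeal Q.toValuationSubring) ↔ _
  rw [IsLocalRing.mem_maximalIdeal, mem_nonunits_iff, not_not]

/-- the local ring `R_Q` is the localisation of `R⁰` at `𝔪_Q` -/
theorem locX_eq (hA : A.LiesOverPrime q) (Q : Place (kA A) (FFb A N)) (hQ : IsFinitePt Q) :
    locX A hq hqN Q = locSub (ringX A hq hqN) (primeX hA Q hQ).primeCompl := by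
  ext f
  constructor
  · rintro ⟨a, s, hs, e⟩
    exact ⟨a, s, (mem_primeCompl_iff hA Q hQ s).mpr hs, e⟩
  · rintro ⟨a, s, hs, e⟩
    exact ⟨a, s, (mem_primeCompl_iff hA Q hQ s).mp hs, e⟩

theorem zero_notMem_primeCompl (hA : A.LiesOverPrime q) (Q : Place (kA A) (FFb A N))
    (hQ : IsFinitePt Q) : (0 : ringX A hq hqN) ∉ (primeX hA Q hQ).primeCompl := by
  intro h
  exact h (Ideal.zero_mem _)

/-- (SURJ) in the shape of the abstract local theorem -/
theorem hsurj_red1Q (hA : A.LiesOverPrime q) (hS : LocSurjXStatement N q hq hqN A)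
    (Q : Place (kA A) (FFb A N)) (hQ : IsFinitePt Q) (g : Q.toValuationSubring) :
    ∃ a s : ringX A hq hqN, IsUnit (red1Q hA Q hQ s) ∧
      g * red1Q hA Q hQ s = red1Q hA Q hQ a := by
  obtain ⟨a, s, hs, e⟩ := hS Q hQ (g : FFb A N) ((helper82.mem_iff_ord_nonneg Q).mp g.2)
  refine ⟨a, s, (isUnit_red1Q_iff hA Q hQ s).mpr hs, ?_⟩
  apply Subtype.ext
  apply Subtype.ext
  exact e

/-- **(UFD), localisation form**: the localisation of `R⁰` at `𝔪_Q`, as a subring of the
function field, is a unique factorisation domain. -/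
theorem ufd_locSub {b0 : FF (N * q)} {B : PowerSeries ℤ} (hA : A.LiesOverPrime q)
    (hK : KerRedStatement N q hq hqN A b0 B) (hb : atkinLehner N q hq hqN b0 ≠ 0)
    (hNoeth : NoethXStatement N q hq hqN A) (hS : LocSurjXStatement N q hq hqN A)
    (Q : Place (kA A) (FFb A N)) (hQ : IsFinitePt Q) :
    UniqueFactorizationMonoid (locSub (ringX A hq hqN) (primeX hA Q hQ).primeCompl) := by
  haveI : IsNoetherianRing (ringX A hq hqN) := hNoeth
  letI := locSubAlgebra (ringX A hq hqN) (primeX hA Q hQ).primeCompl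
  haveI : IsLocalization.AtPrime
      (locSub (ringX A hq hqN) (primeX hA Q hQ).primeCompl)
      ((IsLocalRing.maximalIdeal Q.toValuationSubring).comap (red1Q hA Q hQ)) :=
    isLocalization_locSub _ _ (zero_notMem_primeCompl hA Q hQ)
  exact ufm_loc (red1Q hA Q hQ) (locSub (ringX A hq hqN) (primeX hA Q hQ).primeCompl)
    (xx := xxX hK) ((red1Q_eq_zero_iff hA Q hQ _).mpr (red1X_xxX hK))
    (fun r hr => xxX_dvd_of_red1X_eq_zero hK hb ((red1Q_eq_zero_iff hA Q hQ r).mp hr))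
    (hsurj_red1Q hA hS Q hQ)

/-- **(UFD)** the local rings `R_Q` of [RING-X] are unique factorisation domains. -/
theorem ufdX_of {b0 : FF (N * q)} {B : PowerSeries ℤ} (hA : A.LiesOverPrime q)
    (hK : KerRedStatement N q hq hqN A b0 B) (hb : atkinLehner N q hq hqN b0 ≠ 0)
    (hNoeth : NoethXStatement N q hq hqN A) (hS : LocSurjXStatement N q hq hqN A) :
    UfdXStatement N q hq hqN A := by
  intro Q hQ
  rw [locX_eq hA Q hQ]
  exact ufd_locSub hA hK hb hNoeth hS Q hQ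

/-- **(UFD), unconditional** (`4 ∣ N` or `9 ∣ N`, `A` over `q`, `q ∤ N`). -/
theorem ufdX (hA : A.LiesOverPrime q) (hN : 4 ∣ N ∨ 9 ∣ N) : UfdXStatement N q hq hqN A := by
  obtain ⟨b0, B, ε, h, hK⟩ :=
    Fermat.Agent.T8.helper63.exists_kerRedStatement (A := A) hq hqN hN hA
  have hb : atkinLehner N q hq hqN b0 ≠ 0 :=
    (map_ne_zero_iff _ (atkinLehner N q hq hqN).injective).mpr h.ne_zero
  exact ufdX_of hA hK hb (noethX hA) (locSurjX hA hN)

end Ufd

end Fermat.Agent.T8.helper16
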