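import Mathlib
import Fermat.Agent.T8.helper16_RingXPt
import Fermat.Agent.P2.helper95_FFlInst
import Fermat.Agent.T6.helper26_PVal

/-!
# T8 (row 38, at risk), leaf [RING-X] (helper16, owner): the LOCAL API of `R_Q = locX Q`

For the instance of [SLOPE] on the cover (the local wiring at `locX Q`, `helper6.sheets_local`):
`Q` a closed point of the component `C₁` where `j̄` is finite, `R_Q = locX A hq hqN Q`.

* `isLocalization_locX` : `R_Q` is the localisation of `R⁰ = ringX` at the prime `primeX Q`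
  (algebra structure `locXAlgebra Q` = the inclusion `locXIncl Q`);
* `isLocalRing_locX`, `isNoetherianRing_locX` : `R_Q` is a noetherian local ring;
* `redQ : R_Q →+* O_Q` : the reduction with values in the valuation ring of `Q`
  (`redQ_incl`, `redQ_spec`, `redQ_surjective`, `redQ_eq_zero_iff` : `ker redQ = xx R_Q`);
* `isUnit_iff_redQ` : `r` is a unit of `R_Q` iff `redQ r` is a unit of `O_Q`
  (the maximal ideal of `R_Q` is `{r : redQ r` vanishes at `Q}`);
* `redL : R_Q →+* k((t))` : the reduction as a Laurent series, `rhoQ_redL` (it IS the reduction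
  `RhoQ` of the expansion), `redL_incl` (`= red1X` on `R⁰`), `natCast_redL` (`q = 0`);
* `evQ : R_Q →+* k` : the value at `Q` (`k = kA A`, algebraically closed), surjective, its kernel
  is the set of non-units (`evQ_eq_zero_iff`): the residue field of `R_Q` is `k`;
* `exists_root_locX` : every monic polynomial of positive degree over `R_Q` has a root modulo
  the maximal ideal.
-/

set_option autoImplicit false
set_option synthInstance.maxHeartbeats 400000
set_option maxHeartbeats 1000000
set_option linter.unusedSectionVars false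
set_option linter.unusedVariables false
set_option linter.style.longLine false
set_option linter.style.haveILetI false

noncomputable section

open HahnSeries IntermediateField AlgebraicCurve ModularCurve
open Fermat.Agent.S18.helper19 Fermat.Agent.P2.helper29 Fermat.Agent.T2.helper36
open Fermat.Agent.S24

namespace Fermat.Agent.T8.helper16

open Fermat.Agent.P2.helper66 (iota)
open Fermat.Agent.T3.helper16 (IsUnit0)
open Fermat.Agent.T3.helper74 (IsFixI)
open Fermat.Agent.T3.helper36 (RhoQ GaussIs)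
open Fermat.Agent.T8.helper63 (IsRX KerRedStatement)

/-! ### Transport of a localisation along an equality of subrings -/

section Congr

variable {F : Type*} [Field F]

theorem isLocalization_subring_congr (R0 : Subring F) (M : Submonoid R0)
    {S₁ S₂ : Subring F} (h : S₁ = S₂) (h₁ : R0 ≤ S₁) (h₂ : R0 ≤ S₂)
    (H : @IsLocalization R0 _ M S₁ _ (Subring.inclusion h₁).toAlgebra) :
    @IsLocalization R0 _ M S₂ _ (Subring.inclusion h₂).toAlgebra := by
  subst h
  exact H

end Congr

section LocalX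

variable {N q : ℕ} [NeZero N] [NeZero q] {A : ValuationSubring Kb} {hq : q.Prime}
  {hqN : ¬ q ∣ N}

/-- the inclusion `R⁰ → R_Q` -/
def locXIncl (Q : Place (kA A) (FFb A N)) : ringX A hq hqN →+* locX A hq hqN Q :=
  Subring.inclusion (ringX_le_locX Q)

theorem coe_locXIncl (Q : Place (kA A) (FFb A N)) (a : ringX A hq hqN) :
    ((locXIncl Q a : locX A hq hqN Q) : FF (N * q)) = (a : FF (N * q)) := rfl

theorem locXIncl_injective (Q : Place (kA A) (FFb A N)) :
    Function.Injective (locXIncl (A := A) (hq := hq) (hqN := hqN) Q) := by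
  intro a b h
  exact Subtype.ext (congrArg (fun z : locX A hq hqN Q => (z : FF (N * q))) h)

/-- the algebra structure of `R_Q` over `R⁰` (a local instance) -/
@[reducible] def locXAlgebra (Q : Place (kA A) (FFb A N)) :
    Algebra (ringX A hq hqN) (locX A hq hqN Q) := (locXIncl Q).toAlgebra

/-- **`R_Q` is the localisation of `R⁰` at the prime `𝔪_Q`** -/
theorem isLocalization_locX (hA : A.LiesOverPrime q) (Q : Place (kA A) (FFb A N))
    (hQ : IsFinitePt Q) :
    @IsLocalization (ringX A hq hqN) _ (primeX hA Q hQ).primeCompl (locX A hq hqN Q) _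
      (locXAlgebra Q) :=
  isLocalization_subring_congr (ringX A hq hqN) (primeX hA Q hQ).primeCompl
    (locX_eq hA Q hQ).symm (le_locSub _ _) (ringX_le_locX Q)
    (isLocalization_locSub _ _ (zero_notMem_primeCompl hA Q hQ))

/-- **`R_Q` is a local ring** -/
theorem isLocalRing_locX (hA : A.LiesOverPrime q) (Q : Place (kA A) (FFb A N))
    (hQ : IsFinitePt Q) : IsLocalRing (locX A hq hqN Q) := by
  letI := locXAlgebra (A := A) (hq := hq) (hqN := hqN) Q
  haveI : IsLocalization.AtPrime (locX A hq hqN Q) (primeX hA Q hQ) :=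
    isLocalization_locX hA Q hQ
  exact IsLocalization.AtPrime.isLocalRing (locX A hq hqN Q) (primeX hA Q hQ)

/-- **`R_Q` is noetherian** -/
theorem isNoetherianRing_locX (hA : A.LiesOverPrime q) (Q : Place (kA A) (FFb A N))
    (hQ : IsFinitePt Q) : IsNoetherianRing (locX A hq hqN Q) := by
  letI := locXAlgebra (A := A) (hq := hq) (hqN := hqN) Q
  haveI : IsLocalization.AtPrime (locX A hq hqN Q) (primeX hA Q hQ) :=
    isLocalization_locX hA Q hQ
  haveI : IsNoetherianRing (ringX A hq hqN) := noethX hA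
  exact IsLocalization.isNoetherianRing (primeX hA Q hQ).primeCompl (locX A hq hqN Q)
    inferInstance

/-- **the reduction `R_Q →+* O_Q`** -/
def redQ (hA : A.LiesOverPrime q) (Q : Place (kA A) (FFb A N)) (hQ : IsFinitePt Q) :
    locX A hq hqN Q →+* Q.toValuationSubring :=
  letI := locXAlgebra (A := A) (hq := hq) (hqN := hqN) Q
  haveI : IsLocalization.AtPrime (locX A hq hqN Q)
      ((IsLocalRing.maximalIdeal Q.toValuationSubring).comap (red1Q hA Q hQ)) :=
    isLocalization_locX hA Q hQ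
  redLoc (red1Q hA Q hQ) (locX A hq hqN Q)

theorem redQ_incl (hA : A.LiesOverPrime q) (Q : Place (kA A) (FFb A N)) (hQ : IsFinitePt Q)
    (a : ringX A hq hqN) : redQ hA Q hQ (locXIncl Q a) = red1Q hA Q hQ a := by
  letI := locXAlgebra (A := A) (hq := hq) (hqN := hqN) Q
  haveI : IsLocalization.AtPrime (locX A hq hqN Q)
      ((IsLocalRing.maximalIdeal Q.toValuationSubring).comap (red1Q hA Q hQ)) :=
    isLocalization_locX hA Q hQ
  exact redLoc_algebraMap (red1Q hA Q hQ) (locX A hq hqN Q) a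

/-- the reduction of a quotient -/
theorem redQ_spec (hA : A.LiesOverPrime q) (Q : Place (kA A) (FFb A N)) (hQ : IsFinitePt Q)
    {r : locX A hq hqN Q} {a s : ringX A hq hqN}
    (e : (r : FF (N * q)) * (s : FF (N * q)) = (a : FF (N * q))) :
    redQ hA Q hQ r * red1Q hA Q hQ s = red1Q hA Q hQ a := by
  have e' : r * locXIncl Q s = locXIncl Q a := Subtype.ext e
  rw [← redQ_incl hA Q hQ s, ← redQ_incl hA Q hQ a, ← map_mul, e']

end LocalX

section Red

variable {N q : ℕ} [NeZero N] [NeZero q] {A : ValuationSubring Kb} {hq : q.Prime}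
  {hqN : ¬ q ∣ N}

/-- **the reduction `R_Q → O_Q` is onto** -/
theorem redQ_surjective (hA : A.LiesOverPrime q) (hN : 4 ∣ N ∨ 9 ∣ N)
    (Q : Place (kA A) (FFb A N)) (hQ : IsFinitePt Q) :
    Function.Surjective (redQ (hq := hq) (hqN := hqN) hA Q hQ) := by
  letI := locXAlgebra (A := A) (hq := hq) (hqN := hqN) Q
  haveI : IsLocalization.AtPrime (locX A hq hqN Q)
      ((IsLocalRing.maximalIdeal Q.toValuationSubring).comap (red1Q hA Q hQ)) :=
    isLocalization_locX hA Q hQ
  exact redLoc_surjective (red1Q hA Q hQ) (locX A hq hqN Q)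
    (hsurj_red1Q hA (locSurjX hA hN) Q hQ)

/-- **the kernel of the reduction is `xx R_Q`** -/
theorem redQ_eq_zero_iff {b0 : FF (N * q)} {B : PowerSeries ℤ} (hA : A.LiesOverPrime q)
    (hK : KerRedStatement N q hq hqN A b0 B) (hb : atkinLehner N q hq hqN b0 ≠ 0)
    (Q : Place (kA A) (FFb A N)) (hQ : IsFinitePt Q) {r : locX A hq hqN Q} :
    redQ hA Q hQ r = 0 ↔ locXIncl Q (xxX hK) ∣ r := by
  letI := locXAlgebra (A := A) (hq := hq) (hqN := hqN) Q
  haveI : IsLocalization.AtPrime (locX A hq hqN Q)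
      ((IsLocalRing.maximalIdeal Q.toValuationSubring).comap (red1Q hA Q hQ)) :=
    isLocalization_locX hA Q hQ
  exact redLoc_eq_zero_iff (red1Q hA Q hQ) (locX A hq hqN Q)
    ((red1Q_eq_zero_iff hA Q hQ _).mpr (red1X_xxX hK))
    (fun r hr => xxX_dvd_of_red1X_eq_zero hK hb ((red1Q_eq_zero_iff hA Q hQ r).mp hr))

/-- **the units of `R_Q`**: `r` is a unit iff its reduction does not vanish at `Q` -/
theorem isUnit_iff_redQ (hA : A.LiesOverPrime q) (Q : Place (kA A) (FFb A N))
    (hQ : IsFinitePt Q) (r : locX A hq hqN Q) : IsUnit r ↔ IsUnit (redQ hA Q hQ r) := by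
  constructor
  · intro h
    exact h.map (redQ hA Q hQ)
  · intro h
    obtain ⟨a, s, hs, e⟩ := r.2
    have h1 := redQ_spec hA Q hQ (r := r) e
    have hsU : IsUnit (red1Q hA Q hQ s) := (isUnit_red1Q_iff hA Q hQ s).mpr hs
    have haU : IsUnit (red1Q hA Q hQ a) := by
      rw [← h1]
      exact h.mul hsU
    have haQ : IsUnitAt A hq hqN Q a := (isUnit_red1Q_iff hA Q hQ a).mp haU
    have ha0 : (a : FF (N * q)) ≠ 0 := haQ.ne_zero
    have hs0 : (s : FF (N * q)) ≠ 0 := hs.ne_zero
    have hinv : (s : FF (N * q)) * (a : FF (N * q))⁻¹ ∈ locX A hq hqN Q :=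
      ⟨s, a, haQ, by rw [mul_assoc, inv_mul_cancel₀ ha0, mul_one]⟩
    refine IsUnit.of_mul_eq_one (⟨_, hinv⟩ : locX A hq hqN Q) (Subtype.ext ?_)
    show (r : FF (N * q)) * ((s : FF (N * q)) * (a : FF (N * q))⁻¹) = 1
    rw [← mul_assoc, e, mul_inv_cancel₀ ha0]

/-- **the reduction as a Laurent series** -/
def redL (hA : A.LiesOverPrime q) (Q : Place (kA A) (FFb A N)) (hQ : IsFinitePt Q) :
    locX A hq hqN Q →+* LaurentSeries (kA A) :=
  ((FFb A N).val : FFb A N →+* LaurentSeries (kA A)).comp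
    ((Q.toValuationSubring.subtype).comp (redQ hA Q hQ))

theorem redL_apply (hA : A.LiesOverPrime q) (Q : Place (kA A) (FFb A N)) (hQ : IsFinitePt Q)
    (r : locX A hq hqN Q) :
    redL hA Q hQ r = (((redQ hA Q hQ r : Q.toValuationSubring) : FFb A N) :
      LaurentSeries (kA A)) := rfl

theorem redL_incl (hA : A.LiesOverPrime q) (Q : Place (kA A) (FFb A N)) (hQ : IsFinitePt Q)
    (a : ringX A hq hqN) : redL hA Q hQ (locXIncl Q a) = red1X A hq hqN a := by
  rw [redL_apply, redQ_incl]
  rfl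

theorem redL_mem_FFb (hA : A.LiesOverPrime q) (Q : Place (kA A) (FFb A N)) (hQ : IsFinitePt Q)
    (r : locX A hq hqN Q) : redL hA Q hQ r ∈ FFb A N :=
  ((redQ hA Q hQ r : Q.toValuationSubring) : FFb A N).2

theorem ordAt_redL_nonneg (hA : A.LiesOverPrime q) (Q : Place (kA A) (FFb A N))
    (hQ : IsFinitePt Q) (r : locX A hq hqN Q) : 0 ≤ ordAt Q (redL hA Q hQ r) := by
  rw [ordAt_of_mem Q (redL_mem_FFb hA Q hQ r)]
  exact (helper82.mem_iff_ord_nonneg Q).mp (redQ hA Q hQ r).2

theorem redL_eq_zero_iff (hA : A.LiesOverPrime q) (Q : Place (kA A) (FFb A N))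
    (hQ : IsFinitePt Q) (r : locX A hq hqN Q) : redL hA Q hQ r = 0 ↔ redQ hA Q hQ r = 0 := by
  constructor
  · intro h
    apply Subtype.ext
    apply Subtype.ext
    exact h
  · intro h
    rw [redL_apply, h]
    rfl

/-- **`redL` is the reduction of the expansion** -/
theorem rhoQ_redL (hA : A.LiesOverPrime q) (Q : Place (kA A) (FFb A N)) (hQ : IsFinitePt Q)
    (r : locX A hq hqN Q) :
    RhoQ A (((r : locX A hq hqN Q) : FF (N * q)) : LaurentSeries Kb) (redL hA Q hQ r) := by
  obtain ⟨a, s, hs, e⟩ := r.2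
  have h1 := redQ_spec hA Q hQ (r := r) e
  have h2 : redL hA Q hQ r * red1X A hq hqN s = red1X A hq hqN a :=
    congrArg (fun z : Q.toValuationSubring => ((z : FFb A N) : LaurentSeries (kA A))) h1
  have hm_a := isRX_model a
  have hm_s := isRX_model s
  refine ⟨model1 a, model1 s, ?_, ?_, ?_⟩
  · rw [← red1X_eq hm_s]
    exact hs.2.1
  · rw [hm_a.2.2.1, hm_s.2.2.1]
    exact (congrArg (fun z : FF (N * q) => (z : LaurentSeries Kb)) e).symm
  · rw [← red1X_eq hm_a, ← red1X_eq hm_s]
    exact h2.symm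

/-- `q = 0` in the reduction -/
theorem redL_natCast_self (hA : A.LiesOverPrime q) (Q : Place (kA A) (FFb A N))
    (hQ : IsFinitePt Q) : ((q : ℕ) : LaurentSeries (kA A)) = 0 := by
  have hqA : (q : Kb) ∈ A := Fermat.Agent.T8.helper63.natCast_mem_A A q
  have h1 : IsLocalRing.residue A ⟨(q : Kb), hqA⟩ = 0 := by
    rw [IsLocalRing.residue_eq_zero_iff]
    exact (A.valuation_lt_one_iff (⟨(q : Kb), hqA⟩ : A)).2 (A.mem_nonunits_iff.mp hA)
  have h2 : (⟨(q : Kb), hqA⟩ : A) = ((q : ℕ) : A) := Subtype.ext (by simp)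
  rw [h2, map_natCast] at h1
  have h3 := congrArg (algebraMap (kA A) (LaurentSeries (kA A))) h1
  rwa [map_natCast, map_zero] at h3

end Red

section Ev

variable {N q : ℕ} [NeZero N] [NeZero q] {A : ValuationSubring Kb} {hq : q.Prime}
  {hqN : ¬ q ∣ N}

/-- **the value at `Q`**: `R_Q →+* k`, `k = kA A` the (algebraically closed) residue field -/
def evQ (hA : A.LiesOverPrime q) (Q : Place (kA A) (FFb A N)) (hQ : IsFinitePt Q) :
    locX A hq hqN Q →+* kA A :=
  ((Fermat.Agent.T6.helper26.pvalHom (Fermat.Agent.P2.helper95.riemannSetting_FFb N A) Q :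
    Q.toValuationSubring →ₐ[kA A] kA A) : Q.toValuationSubring →+* kA A).comp (redQ hA Q hQ)

theorem evQ_apply (hA : A.LiesOverPrime q) (Q : Place (kA A) (FFb A N)) (hQ : IsFinitePt Q)
    (r : locX A hq hqN Q) :
    evQ hA Q hQ r = Fermat.Agent.T6.helper26.pval Q
      ((redQ hA Q hQ r : Q.toValuationSubring) : FFb A N) := rfl

/-- the value at `Q` is onto `k` -/
theorem evQ_surjective (hA : A.LiesOverPrime q) (hN : 4 ∣ N ∨ 9 ∣ N)
    (Q : Place (kA A) (FFb A N)) (hQ : IsFinitePt Q) :
    Function.Surjective (evQ (hq := hq) (hqN := hqN) hA Q hQ) := by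
  intro c
  obtain ⟨r, hr⟩ := redQ_surjective (hq := hq) (hqN := hqN) hA hN Q hQ
    (algebraMap (kA A) Q.toValuationSubring c)
  refine ⟨r, ?_⟩
  rw [evQ_apply, hr]
  exact Fermat.Agent.T6.helper26.pval_algebraMap Q c

/-- **the kernel of the value at `Q` is the maximal ideal of `R_Q`** (the non-units) -/
theorem evQ_eq_zero_iff (hA : A.LiesOverPrime q) (Q : Place (kA A) (FFb A N))
    (hQ : IsFinitePt Q) (r : locX A hq hqN Q) : evQ hA Q hQ r = 0 ↔ ¬ IsUnit r := by
  have hS := Fermat.Agent.P2.helper95.riemannSetting_FFb N A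
  rw [isUnit_iff_redQ hA Q hQ r, isUnit_iff_ord_eq_zero, evQ_apply]
  have h0 : 0 ≤ Q.ord ((redQ hA Q hQ r : Q.toValuationSubring) : FFb A N) :=
    (helper82.mem_iff_ord_nonneg Q).mp (redQ hA Q hQ r).2
  by_cases hx : redQ hA Q hQ r = 0
  · rw [hx]
    constructor
    · rintro - ⟨h1, -⟩
      exact h1 rfl
    · intro _
      exact Fermat.Agent.T6.helper26.pval_zero Q
  · have hx' : ((redQ hA Q hQ r : Q.toValuationSubring) : FFb A N) ≠ 0 :=
      fun h => hx (Subtype.ext h)
    have key := Fermat.Agent.T6.helper26.pval_eq_zero_iff hS (P := Q) hx' h0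
    constructor
    · rintro h ⟨-, h2⟩
      have := key.1 h
      omega
    · intro h
      apply key.2
      by_contra hh
      exact h ⟨hx, by omega⟩

theorem evQ_incl_natCast_self (hA : A.LiesOverPrime q) (Q : Place (kA A) (FFb A N))
    (hQ : IsFinitePt Q) : ((q : ℕ) : kA A) = 0 := by
  have hqA : (q : Kb) ∈ A := Fermat.Agent.T8.helper63.natCast_mem_A A q
  have h1 : IsLocalRing.residue A ⟨(q : Kb), hqA⟩ = 0 := by
    rw [IsLocalRing.residue_eq_zero_iff]
    exact (A.valuation_lt_one_iff (⟨(q : Kb), hqA⟩ : A)).2 (A.mem_nonunits_iff.mp hA)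
  have h2 : (⟨(q : Kb), hqA⟩ : A) = ((q : ℕ) : A) := Subtype.ext (by simp)
  rwa [h2, map_natCast] at h1

/-- **every monic polynomial of positive degree over `R_Q` has a root modulo the maximal
ideal** (the residue field `k` is algebraically closed) -/
theorem exists_root_locX (hA : A.LiesOverPrime q) (hN : 4 ∣ N ∨ 9 ∣ N)
    (Q : Place (kA A) (FFb A N)) (hQ : IsFinitePt Q)
    (f : Polynomial (locX A hq hqN Q)) (hf : f.Monic) (hdeg : 0 < f.natDegree) :
    ∃ a : locX A hq hqN Q, ¬ IsUnit (f.eval a) := by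
  haveI : IsAlgClosed (kA A) := Fermat.Agent.P2.helper95.isAlgClosed_residueField A
  have hdeg' : (f.map (evQ hA Q hQ)).degree ≠ 0 := by
    have h1 : (f.map (evQ hA Q hQ)).natDegree = f.natDegree := hf.natDegree_map _
    intro h0
    have h2 : (f.map (evQ hA Q hQ)).natDegree = 0 :=
      Polynomial.natDegree_eq_zero_iff_degree_le_zero.2 h0.le
    rw [h1] at h2
    exact hdeg.ne' h2
  obtain ⟨c, hc⟩ := IsAlgClosed.exists_root (f.map (evQ hA Q hQ)) hdeg'
  obtain ⟨a, rfl⟩ := evQ_surjective (hq := hq) (hqN := hqN) hA hN Q hQ c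
  refine ⟨a, (evQ_eq_zero_iff hA Q hQ _).1 ?_⟩
  have h1 : (f.map (evQ hA Q hQ)).eval (evQ hA Q hQ a) = evQ hA Q hQ (f.eval a) := by
    rw [Polynomial.eval_map, Polynomial.eval₂_at_apply]
  rw [← h1]
  exact hc

/-- with the local ring instance: the maximal ideal of `R_Q` is the kernel of `evQ` -/
theorem mem_maximalIdeal_locX_iff (hA : A.LiesOverPrime q) (Q : Place (kA A) (FFb A N))
    (hQ : IsFinitePt Q) (r : locX A hq hqN Q) :
    r ∈ @IsLocalRing.maximalIdeal (locX A hq hqN Q) _ (isLocalRing_locX hA Q hQ) ↔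
      evQ hA Q hQ r = 0 := by
  haveI := isLocalRing_locX (hq := hq) (hqN := hqN) hA Q hQ
  rw [IsLocalRing.mem_maximalIdeal, mem_nonunits_iff, evQ_eq_zero_iff]

end Ev

end Fermat.Agent.T8.helper16
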