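/-
T8 (row 38, S44), helper96, leaf (SURJ) of [RING-X]: `helper16.LocSurjXStatement`, verbatim.

Every function of the special fibre which is regular at a point `Q` where `j̄` is finite is
`red₁ a / red₁ s` with `a, s ∈ R⁰ = helper16.ringX`, `s` a unit at `Q`.

* `exists_ringX_red1` : `red₁ : R⁰ → k((t))` is ONTO `Bt A N` (from `helper96.surjX_bad`);
* `exists_ringX_red2` : `red₂ : R⁰ → k((t))` is ONTO `Bt A N` (from `helper96.surjX_bad'`);
* `locSurjX`          : `helper16.LocSurjXStatement N q hq hqN A`, UNCONDITIONAL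
                        (`4 ∣ N ∨ 9 ∣ N`, `q ∤ N`, `A` over `q`), with T3 `helper95.locBt`.
-/
import Mathlib
import Fermat.Agent.T8.helper96_SurjX
import Fermat.Agent.T8.helper16_RingXDefs
import Fermat.Agent.T3.helper95_LocBt
import Fermat.Agent.T2.helper74_RootEndInst

set_option autoImplicit false
set_option synthInstance.maxHeartbeats 400000
set_option maxHeartbeats 1000000
set_option linter.style.haveILetI false
set_option linter.unusedSectionVars false
set_option linter.unusedVariables false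
set_option linter.style.longLine false

noncomputable section

open HahnSeries IntermediateField AlgebraicCurve ModularCurve
open Fermat.Agent.S18.helper19 Fermat.Agent.P2.helper29 Fermat.Agent.P2
open Fermat.Agent.T2.helper36 Fermat.Agent.T2.helper96

namespace Fermat.Agent.T8.helper96

open Fermat.Agent.T8.helper16 (ringX red1X red2X red1X_eq red2X_eq IsUnitAt ordAt ordAt_of_mem
  IsFinitePt LocSurjXStatement)
open Fermat.Agent.T8.helper63 (IsRX)

variable (N q : ℕ) [NeZero N] [NeZero q] (hq : q.Prime) (hqN : ¬ q ∣ N)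
variable (A : ValuationSubring Kb) (hA : A.LiesOverPrime q)

/-- a function of level `N q` which is regular off the two cusps is regular where `j` is
finite -/
theorem isRegJ_of_isReg2 {g : FF (N * q)}
    (hg : Fermat.Agent.T2.helper22.IsReg2 (atkinLehner N q hq hqN) g) :
    Fermat.Agent.T3.helper98.IsRegJ (N * q) g := by
  intro P hP
  obtain ⟨h1, h2⟩ := Fermat.Agent.T2.helper74.off_cusps_of_ord_jElt_nonneg
    (atkinLehner N q hq hqN) (Fermat.Agent.T2.helper74.order_atkinLehner_jElt N q hq hqN) P hP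
  exact hg P h1 h2

include hq hA in
theorem mem_Bt_mul {z : LaurentSeries (kA A)} (hz : z ∈ Fermat.Agent.T2.helper22.Bt A N) :
    z ∈ Fermat.Agent.T2.helper22.Bt A (N * q) := by
  obtain ⟨n, hn⟩ := hz
  refine ⟨n, ?_⟩
  rw [FFb_mul_eq N A hq hA]
  exact hn

include hA in
/-- `red₁ : R⁰ → k((t))` is onto `Bt A N`; the second reduction of the lift is the Frobenius
twist. -/
theorem exists_ringX_red1 (hN : 4 ∣ N ∨ 9 ∣ N) {z : LaurentSeries (kA A)}
    (hz : z ∈ Fermat.Agent.T2.helper22.Bt A N) :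
    ∃ a : ringX A hq hqN, red1X A hq hqN a = z ∧ red2X A hq hqN a = qExpand (kA A) q z := by
  obtain ⟨G, Y₁, Y₂, hreg, hrep, h1, h2, hf1, hf2, hfix⟩ :=
    surjX_bad N q hq hqN A hA hN z (mem_Bt_mul N q hq A hA hz)
  have hRX : IsRX A hq hqN G Y₁ Y₂ :=
    ⟨fun σ hσ => hfix σ hσ, isRegJ_of_isReg2 N q hq hqN hreg, hrep⟩
  refine ⟨⟨G, Y₁, Y₂, hRX⟩, ?_, ?_⟩
  · rw [red1X_eq (g := ⟨G, Y₁, Y₂, hRX⟩) hRX]
    exact h1
  · rw [red2X_eq (g := ⟨G, Y₁, Y₂, hRX⟩) hRX]
    exact h2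

include hA in
/-- `red₂ : R⁰ → k((t))` is onto `Bt A N`; the first reduction of the lift is the Frobenius
twist. -/
theorem exists_ringX_red2 (hN : 4 ∣ N ∨ 9 ∣ N) {z : LaurentSeries (kA A)}
    (hz : z ∈ Fermat.Agent.T2.helper22.Bt A N) :
    ∃ a : ringX A hq hqN, red2X A hq hqN a = z ∧ red1X A hq hqN a = qExpand (kA A) q z := by
  obtain ⟨G, Y₁, Y₂, hreg, hrep, h1, h2, hf1, hf2, hfix⟩ :=
    surjX_bad' N q hq hqN A hA hN z (mem_Bt_mul N q hq A hA hz)
  have hRX : IsRX A hq hqN G Y₁ Y₂ :=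
    ⟨fun σ hσ => hfix σ hσ, isRegJ_of_isReg2 N q hq hqN hreg, hrep⟩
  refine ⟨⟨G, Y₁, Y₂, hRX⟩, ?_, ?_⟩
  · rw [red2X_eq (g := ⟨G, Y₁, Y₂, hRX⟩) hRX]
    exact h1
  · rw [red1X_eq (g := ⟨G, Y₁, Y₂, hRX⟩) hRX]
    exact h2

include hA in
/-- **(SURJ), local form** of [RING-X] = `helper16.LocSurjXStatement`, UNCONDITIONAL. -/
theorem locSurjX (hN : 4 ∣ N ∨ 9 ∣ N) : LocSurjXStatement N q hq hqN A := by
  intro Q hQ g hg
  have hQinf : ¬ IsInfty Q := fun h =>
    absurd hQ (not_le.mpr (Fermat.Agent.T3.helper95.ord_jBar_neg h))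
  obtain ⟨x, s, hx, hs, hs0, hse, hxy⟩ := Fermat.Agent.T3.helper95.locBt N A Q hQinf g hg
  obtain ⟨a, ha, -⟩ := exists_ringX_red1 N q hq hqN A hA hN hx
  obtain ⟨s', hs', -⟩ := exists_ringX_red1 N q hq hqN A hA hN hs
  refine ⟨a, s', ⟨?_, ?_, ?_⟩, ?_⟩
  · rw [hs']
    exact s.2
  · rw [hs']
    exact fun h => hs0 (Subtype.ext h)
  · rw [hs', ordAt_of_mem Q s.2]
    exact hse
  · rw [hs', ha]
    exact congrArg Subtype.val hxy

end Fermat.Agent.T8.helper96

end
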