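import Mathlib
import Fermat.Agent.T8.helper16_RingXLocal
import Fermat.Agent.T8.helper96_LocSurjX
import Fermat.Agent.P2.helper62_DiscPlace

/-!
# T8 (row 38, at risk), leaf [SLOPE-X'], piece (DVR) (helper16): `R_Q / (xx)` and `R_Q / (y)`

`Q` a closed point of the component `C₁` where `j̄` is finite, `R_Q = locX A hq hqN Q`,
`xx = W b₀`, `y = b₀`, `ν = iota B = red₁ y`.

* (a) `dvr_quot_xx` : `R_Q / (xx)` is a domain and a principal ideal ring (it is `O_Q`, by
  `redQ_surjective` and `redQ_eq_zero_iff`);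
* (b) at a DOUBLE point (`0 < ord_Q ν`):
  * `red2Loc : R_Q →+* FFb A N` : the reduction on the second sheet (it extends `red₂`),
    `red2Loc_eq_zero_iff` : its kernel is `y R_Q`;
  * `red2L : R_Q →+* k((t))`, `rhoQ_red2L` : it IS the reduction `RhoQ` of the expansion of `W r`;
  * `exists_mirror` : there is a finite place `Q₂` of the special fibre (the point `Q` seen on the
    component `C₂`) such that `red2Loc` is ONTO the valuation ring `O_{Q₂}`, and `0 < ord_{Q₂} ν`;
  * `dvr_quot_yy` : **`R_Q / (y)` is a domain and a principal ideal ring** (it is `O_{Q₂}`: the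
    branch `C₂` is unibranch at `Q`).

No gluing of the two branches, no Igusa: the local ring `red₂ (R_Q)` is dominated by a valuation
ring `V` of the function field of the special fibre (Mathlib
`IsLocalRing.exists_factor_valuationRing`), `V` contains the constants and `j̄`, so `V = O_{Q₂}`
for a finite place `Q₂` (`helper62.exists_place_of_valuationSubring`), every function regular at
`Q₂` is a quotient of elements of `Bt` with denominator a unit at `Q₂` (`helper95.locBt`), the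
elements of `Bt` are second reductions (`helper96.exists_ringX_red2`), and the domination makes
the denominators units of `R_Q`.
-/

set_option autoImplicit false
set_option synthInstance.maxHeartbeats 400000
set_option maxHeartbeats 1000000
set_option linter.unusedSectionVars false
set_option linter.unusedVariables false
set_option linter.style.longLine false
set_option linter.style.haveILetI false

noncomputable section

open HahnSeries IntermediateField AlgebraicCurve ModularCurve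
open Fermat.Agent.S18.helper19 Fermat.Agent.P2.helper29 Fermat.Agent.T2.helper36
open Fermat.Agent.S24

namespace Fermat.Agent.T8.helper16

open Fermat.Agent.P2.helper66 (iota)
open Fermat.Agent.T3.helper16 (IsUnit0)
open Fermat.Agent.T3.helper74 (IsFixI)
open Fermat.Agent.T3.helper36 (RhoQ GaussIs)
open Fermat.Agent.T3.helper95 (BtAll mem_BtAll)
open Fermat.Agent.T2.helper22 (Bt)
open Fermat.Agent.T8.helper63 (IsRX KerRedStatement)

/-! ### The involution `W` on `R⁰` -/

section Swap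

variable {N q : ℕ} [NeZero N] [NeZero q] {A : ValuationSubring Kb} {hq : q.Prime}
  {hqN : ¬ q ∣ N}

/-- `W g ∈ R⁰` for `g ∈ R⁰` -/
def wX (g : ringX A hq hqN) : ringX A hq hqN :=
  ⟨atkinLehner N q hq hqN (g : FF (N * q)), model2 g, model1 g, (isRX_model g).swap⟩

theorem coe_wX (g : ringX A hq hqN) :
    ((wX g : ringX A hq hqN) : FF (N * q)) = atkinLehner N q hq hqN (g : FF (N * q)) := rfl

theorem red1X_wX (g : ringX A hq hqN) : red1X A hq hqN (wX g) = red2X A hq hqN g := by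
  rw [red1X_eq (g := wX g) (isRX_model g).swap]
  rfl

theorem red2X_wX (g : ringX A hq hqN) : red2X A hq hqN (wX g) = red1X A hq hqN g := by
  rw [red2X_eq (g := wX g) (isRX_model g).swap]
  rfl

/-- the second reduction of a function of `R⁰` is regular where `j̄` is finite -/
theorem red2X_mem_BtAll (hA : A.LiesOverPrime q) (g : ringX A hq hqN) :
    red2X A hq hqN g ∈ BtAll N A := by
  rw [← red1X_wX]
  exact red1X_mem_BtAll hA (wX g)

theorem red2X_mem_FFb (hA : A.LiesOverPrime q) (g : ringX A hq hqN) :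
    red2X A hq hqN g ∈ FFb A N :=
  (mem_BtAll.mp (red2X_mem_BtAll hA g)).1

/-- **`red₂ : R⁰ →+* FFb A N`** -/
def red2F (hA : A.LiesOverPrime q) : ringX A hq hqN →+* FFb A N :=
  (red2X A hq hqN).codRestrict (FFb A N) (red2X_mem_FFb hA)

theorem coe_red2F (hA : A.LiesOverPrime q) (g : ringX A hq hqN) :
    ((red2F hA g : FFb A N) : LaurentSeries (kA A)) = red2X A hq hqN g := rfl

theorem red2F_eq_zero_iff (hA : A.LiesOverPrime q) (g : ringX A hq hqN) :
    red2F hA g = 0 ↔ red2X A hq hqN g = 0 := by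
  constructor
  · intro h
    exact congrArg (fun x : FFb A N => (x : LaurentSeries (kA A))) h
  · intro h
    exact Subtype.ext h

end Swap

/-! ### (a) `R_Q / (xx) = O_Q` -/

section QuotXX

variable {N q : ℕ} [NeZero N] [NeZero q] {A : ValuationSubring Kb} {hq : q.Prime}
  {hqN : ¬ q ∣ N} {b0 : FF (N * q)} {B : PowerSeries ℤ} {ε : ℤ}

/-- a quotient by the kernel of a surjection onto a principal ideal domain -/
theorem quot_of_surjective {R O : Type*} [CommRing R] [CommRing O] [IsDomain O]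
    [IsPrincipalIdealRing O] (ρ : R →+* O) (hρ : Function.Surjective ρ) (y : R)
    (hker : ∀ r : R, ρ r = 0 ↔ y ∣ r) :
    IsDomain (R ⧸ Ideal.span {y}) ∧ IsPrincipalIdealRing (R ⧸ Ideal.span {y}) := by
  have hk : RingHom.ker ρ = Ideal.span {y} := by
    ext r
    rw [RingHom.mem_ker, hker, Ideal.mem_span_singleton]
  have hprime : (Ideal.span {y}).IsPrime := by
    rw [← hk]
    exact RingHom.ker_isPrime ρ
  refine ⟨Ideal.Quotient.isDomain _, ?_⟩
  let e : (R ⧸ RingHom.ker ρ) ≃+* O := RingHom.quotientKerEquivOfSurjective hρ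
  let e' : (R ⧸ Ideal.span {y}) ≃+* O := (Ideal.quotEquivOfEq hk.symm).trans e
  exact IsPrincipalIdealRing.of_surjective (e'.symm : O →+* (R ⧸ Ideal.span {y}))
    e'.symm.surjective

/-- **(a)** `R_Q / (xx)` is a domain and a principal ideal ring (it is `O_Q`). -/
theorem dvr_quot_xx (h : IsUnit0 hq hqN b0 B ε) (hA : A.LiesOverPrime q) (hN : 4 ∣ N ∨ 9 ∣ N)
    (Q : Place (kA A) (FFb A N)) (hQ : IsFinitePt Q) (x : locX A hq hqN Q)
    (hx : (x : FF (N * q)) = atkinLehner N q hq hqN b0) :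
    IsDomain (locX A hq hqN Q ⧸ Ideal.span {x}) ∧
      IsPrincipalIdealRing (locX A hq hqN Q ⧸ Ideal.span {x}) := by
  have hK := Fermat.Agent.T8.helper63.kerRedStatement h A hA
  have hb : atkinLehner N q hq hqN b0 ≠ 0 :=
    (map_ne_zero_iff _ (atkinLehner N q hq hqN).injective).mpr h.ne_zero
  have hx' : x = locXIncl Q (xxX hK) := Subtype.ext hx
  rw [hx']
  exact quot_of_surjective (redQ hA Q hQ) (redQ_surjective hA hN Q hQ) _
    (fun r => redQ_eq_zero_iff hA hK hb Q hQ)

end QuotXX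

/-! ### (b) the second sheet at a double point -/

section Double

variable {N q : ℕ} [NeZero N] [NeZero q] {A : ValuationSubring Kb} {hq : q.Prime}
  {hqN : ¬ q ∣ N} {b0 : FF (N * q)} {B : PowerSeries ℤ} {ε : ℤ}

/-- `xx ∈ 𝔪_Q` -/
theorem xxX_mem_primeX (hA : A.LiesOverPrime q) (hK : KerRedStatement N q hq hqN A b0 B)
    (Q : Place (kA A) (FFb A N)) (hQ : IsFinitePt Q) : xxX hK ∈ primeX hA Q hQ := by
  by_contra hn
  have h1 : IsUnitAt A hq hqN Q (xxX hK) := (mem_primeCompl_iff hA Q hQ _).mp hn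
  exact h1.2.1 (red1X_xxX hK)

/-- at a double point `y ∈ 𝔪_Q` -/
theorem yyX_mem_primeX (hA : A.LiesOverPrime q) (hK : KerRedStatement N q hq hqN A b0 B)
    (Q : Place (kA A) (FFb A N)) (hQ : IsFinitePt Q) (hd : 0 < ordAt Q (iota (kA A) B)) :
    yyX hK ∈ primeX hA Q hQ := by
  by_contra hn
  have h1 : IsUnitAt A hq hqN Q (yyX hK) := (mem_primeCompl_iff hA Q hQ _).mp hn
  have h2 := h1.2.2
  rw [red1X_yyX hK] at h2
  omega

/-- at a double point the second reduction of a unit at `Q` is not zero -/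
theorem isUnit_red2F (h : IsUnit0 hq hqN b0 B ε) (hA : A.LiesOverPrime q)
    (Q : Place (kA A) (FFb A N)) (hQ : IsFinitePt Q) (hd : 0 < ordAt Q (iota (kA A) B))
    (s : (primeX (hq := hq) (hqN := hqN) hA Q hQ).primeCompl) :
    IsUnit (red2F hA (s : ringX A hq hqN)) := by
  have hK := Fermat.Agent.T8.helper63.kerRedStatement h A hA
  rw [isUnit_iff_ne_zero]
  intro h0
  obtain ⟨c, hc⟩ := yyX_dvd_of_red2X_eq_zero hK h.ne_zero ((red2F_eq_zero_iff hA _).mp h0)
  apply s.2
  rw [hc]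
  exact Ideal.mul_mem_right _ _ (yyX_mem_primeX hA hK Q hQ hd)

/-- **the reduction on the second sheet** of the local ring of a double point -/
def red2Loc (h : IsUnit0 hq hqN b0 B ε) (hA : A.LiesOverPrime q)
    (Q : Place (kA A) (FFb A N)) (hQ : IsFinitePt Q) (hd : 0 < ordAt Q (iota (kA A) B)) :
    locX A hq hqN Q →+* FFb A N :=
  letI := locXAlgebra (A := A) (hq := hq) (hqN := hqN) Q
  haveI : IsLocalization (primeX hA Q hQ).primeCompl (locX A hq hqN Q) :=
    isLocalization_locX hA Q hQ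
  IsLocalization.lift (M := (primeX hA Q hQ).primeCompl) (S := locX A hq hqN Q)
    (g := red2F hA) (isUnit_red2F h hA Q hQ hd)

theorem red2Loc_incl (h : IsUnit0 hq hqN b0 B ε) (hA : A.LiesOverPrime q)
    (Q : Place (kA A) (FFb A N)) (hQ : IsFinitePt Q) (hd : 0 < ordAt Q (iota (kA A) B))
    (a : ringX A hq hqN) : red2Loc h hA Q hQ hd (locXIncl Q a) = red2F hA a := by
  letI := locXAlgebra (A := A) (hq := hq) (hqN := hqN) Q
  haveI : IsLocalization (primeX hA Q hQ).primeCompl (locX A hq hqN Q) :=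
    isLocalization_locX hA Q hQ
  exact IsLocalization.lift_eq (M := (primeX hA Q hQ).primeCompl) (S := locX A hq hqN Q)
    (isUnit_red2F h hA Q hQ hd) a

/-- the second reduction of a quotient -/
theorem red2Loc_spec (h : IsUnit0 hq hqN b0 B ε) (hA : A.LiesOverPrime q)
    (Q : Place (kA A) (FFb A N)) (hQ : IsFinitePt Q) (hd : 0 < ordAt Q (iota (kA A) B))
    {r : locX A hq hqN Q} {a s : ringX A hq hqN}
    (e : (r : FF (N * q)) * (s : FF (N * q)) = (a : FF (N * q))) :
    red2Loc h hA Q hQ hd r * red2F hA s = red2F hA a := by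
  have e' : r * locXIncl Q s = locXIncl Q a := Subtype.ext e
  rw [← red2Loc_incl h hA Q hQ hd s, ← red2Loc_incl h hA Q hQ hd a, ← map_mul, e']

/-- a unit at `Q` is a unit of `R_Q` -/
theorem isUnit_locXIncl (hA : A.LiesOverPrime q) (Q : Place (kA A) (FFb A N))
    (hQ : IsFinitePt Q) {s : ringX A hq hqN} (hs : IsUnitAt A hq hqN Q s) :
    IsUnit (locXIncl Q s) := by
  rw [isUnit_iff_redQ hA Q hQ, redQ_incl, isUnit_red1Q_iff]
  exact hs

/-- **the kernel of the reduction on the second sheet is `y R_Q`** -/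
theorem red2Loc_eq_zero_iff (h : IsUnit0 hq hqN b0 B ε) (hA : A.LiesOverPrime q)
    (Q : Place (kA A) (FFb A N)) (hQ : IsFinitePt Q) (hd : 0 < ordAt Q (iota (kA A) B))
    (r : locX A hq hqN Q) :
    red2Loc h hA Q hQ hd r = 0 ↔
      locXIncl Q (yyX (Fermat.Agent.T8.helper63.kerRedStatement h A hA)) ∣ r := by
  have hK := Fermat.Agent.T8.helper63.kerRedStatement h A hA
  constructor
  · intro h0
    obtain ⟨a, s, hs, e⟩ := r.2
    have h1 := red2Loc_spec h hA Q hQ hd (r := r) e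
    rw [h0, zero_mul] at h1
    obtain ⟨c, hc⟩ := yyX_dvd_of_red2X_eq_zero hK h.ne_zero
      ((red2F_eq_zero_iff hA _).mp h1.symm)
    obtain ⟨u, hu⟩ := isUnit_locXIncl hA Q hQ hs
    have e' : r * locXIncl Q s = locXIncl Q a := Subtype.ext e
    refine ⟨locXIncl Q c * ((u⁻¹ : (locX A hq hqN Q)ˣ) : locX A hq hqN Q), ?_⟩
    have h2 : r = locXIncl Q a * ((u⁻¹ : (locX A hq hqN Q)ˣ) : locX A hq hqN Q) := by
      rw [← e', ← hu, mul_assoc, Units.mul_inv, mul_one]
    rw [h2, hc, map_mul, mul_assoc]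
  · rintro ⟨c, rfl⟩
    rw [map_mul, red2Loc_incl]
    have : red2F hA (yyX hK) = 0 := (red2F_eq_zero_iff hA _).mpr (red2X_yyX hK)
    rw [this, zero_mul]

/-- the reduction on the second sheet as a Laurent series -/
def red2L (h : IsUnit0 hq hqN b0 B ε) (hA : A.LiesOverPrime q)
    (Q : Place (kA A) (FFb A N)) (hQ : IsFinitePt Q) (hd : 0 < ordAt Q (iota (kA A) B)) :
    locX A hq hqN Q →+* LaurentSeries (kA A) :=
  ((FFb A N).val : FFb A N →+* LaurentSeries (kA A)).comp (red2Loc h hA Q hQ hd)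

theorem red2L_apply (h : IsUnit0 hq hqN b0 B ε) (hA : A.LiesOverPrime q)
    (Q : Place (kA A) (FFb A N)) (hQ : IsFinitePt Q) (hd : 0 < ordAt Q (iota (kA A) B))
    (r : locX A hq hqN Q) :
    red2L h hA Q hQ hd r = ((red2Loc h hA Q hQ hd r : FFb A N) : LaurentSeries (kA A)) := rfl

theorem red2L_incl (h : IsUnit0 hq hqN b0 B ε) (hA : A.LiesOverPrime q)
    (Q : Place (kA A) (FFb A N)) (hQ : IsFinitePt Q) (hd : 0 < ordAt Q (iota (kA A) B))
    (a : ringX A hq hqN) : red2L h hA Q hQ hd (locXIncl Q a) = red2X A hq hqN a := by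
  rw [red2L_apply, red2Loc_incl]
  rfl

theorem red2L_mem_FFb (h : IsUnit0 hq hqN b0 B ε) (hA : A.LiesOverPrime q)
    (Q : Place (kA A) (FFb A N)) (hQ : IsFinitePt Q) (hd : 0 < ordAt Q (iota (kA A) B))
    (r : locX A hq hqN Q) : red2L h hA Q hQ hd r ∈ FFb A N :=
  (red2Loc h hA Q hQ hd r).2

theorem red2L_eq_zero_iff (h : IsUnit0 hq hqN b0 B ε) (hA : A.LiesOverPrime q)
    (Q : Place (kA A) (FFb A N)) (hQ : IsFinitePt Q) (hd : 0 < ordAt Q (iota (kA A) B))
    (r : locX A hq hqN Q) :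
    red2L h hA Q hQ hd r = 0 ↔
      locXIncl Q (yyX (Fermat.Agent.T8.helper63.kerRedStatement h A hA)) ∣ r := by
  rw [← red2Loc_eq_zero_iff h hA Q hQ hd r, red2L_apply]
  constructor
  · intro h0
    exact Subtype.ext h0
  · intro h0
    rw [h0]
    rfl

/-- `red2L xx = ν` -/
theorem red2L_xx (h : IsUnit0 hq hqN b0 B ε) (hA : A.LiesOverPrime q)
    (Q : Place (kA A) (FFb A N)) (hQ : IsFinitePt Q) (hd : 0 < ordAt Q (iota (kA A) B)) :
    red2L h hA Q hQ hd (locXIncl Q (xxX (Fermat.Agent.T8.helper63.kerRedStatement h A hA))) =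
      iota (kA A) B := by
  rw [red2L_incl, red2X_xxX]

theorem red2L_xx_ne_zero (h : IsUnit0 hq hqN b0 B ε) (hA : A.LiesOverPrime q)
    (Q : Place (kA A) (FFb A N)) (hQ : IsFinitePt Q) (hd : 0 < ordAt Q (iota (kA A) B)) :
    red2L h hA Q hQ hd (locXIncl Q (xxX (Fermat.Agent.T8.helper63.kerRedStatement h A hA))) ≠
      0 := by
  rw [red2L_xx]
  exact Fermat.Agent.T8.helper63.nu_ne_zero h A

/-- `xx` is not a unit of `R_Q` -/
theorem not_isUnit_xx (hA : A.LiesOverPrime q) (hK : KerRedStatement N q hq hqN A b0 B)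
    (Q : Place (kA A) (FFb A N)) (hQ : IsFinitePt Q) : ¬ IsUnit (locXIncl Q (xxX hK)) := by
  rw [isUnit_iff_redQ hA Q hQ, redQ_incl]
  intro hu
  exact ((isUnit_red1Q_iff hA Q hQ _).mp hu).2.1 (red1X_xxX hK)

/-- at a double point `y` is not a unit of `R_Q` -/
theorem not_isUnit_yy (hA : A.LiesOverPrime q) (hK : KerRedStatement N q hq hqN A b0 B)
    (Q : Place (kA A) (FFb A N)) (hQ : IsFinitePt Q) (hd : 0 < ordAt Q (iota (kA A) B)) :
    ¬ IsUnit (locXIncl Q (yyX hK)) := by
  rw [isUnit_iff_redQ hA Q hQ, redQ_incl]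
  intro hu
  have h2 := ((isUnit_red1Q_iff hA Q hQ _).mp hu).2.2
  rw [red1X_yyX hK] at h2
  omega

/-- **`red2L` is the reduction of the expansion on the second sheet** -/
theorem rhoQ_red2L (h : IsUnit0 hq hqN b0 B ε) (hA : A.LiesOverPrime q)
    (Q : Place (kA A) (FFb A N)) (hQ : IsFinitePt Q) (hd : 0 < ordAt Q (iota (kA A) B))
    (r : locX A hq hqN Q) :
    RhoQ A ((atkinLehner N q hq hqN ((r : locX A hq hqN Q) : FF (N * q)) : FF (N * q)) :
      LaurentSeries Kb) (red2L h hA Q hQ hd r) := by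
  obtain ⟨a, s, hs, e⟩ := r.2
  have h1 := red2Loc_spec h hA Q hQ hd (r := r) e
  have h2 : red2L h hA Q hQ hd r * red2X A hq hqN s = red2X A hq hqN a :=
    congrArg (fun z : FFb A N => (z : LaurentSeries (kA A))) h1
  have hm_a := isRX_model a
  have hm_s := isRX_model s
  have hs0 : red2X A hq hqN s ≠ 0 := by
    intro h0
    have hsP : s ∈ (primeX hA Q hQ).primeCompl := (mem_primeCompl_iff hA Q hQ s).mpr hs
    exact (isUnit_red2F h hA Q hQ hd ⟨s, hsP⟩).ne_zero ((red2F_eq_zero_iff hA s).mpr h0)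
  refine ⟨model2 a, model2 s, ?_, ?_, ?_⟩
  · rw [← red2X_eq hm_s]
    exact hs0
  · rw [hm_a.2.2.2, hm_s.2.2.2, ← e, map_mul]
    rfl
  · rw [← red2X_eq hm_a, ← red2X_eq hm_s]
    exact h2.symm

end Double

/-! ### (b) the mirror point `Q₂` and `R_Q / (y) = O_{Q₂}` -/

section Mirror

variable {N q : ℕ} [NeZero N] [NeZero q] {A : ValuationSubring Kb} {hq : q.Prime}
  {hqN : ¬ q ∣ N} {b0 : FF (N * q)} {B : PowerSeries ℤ} {ε : ℤ}

/-- `j̄ = red₂ (W j)` -/
theorem red2X_wX_xJ :
    red2X A hq hqN (wX (⟨xJ (N * q), xJ_mem_ringX⟩ : ringX A hq hqN)) = jqModC (kA A) := by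
  rw [red2X_wX]
  have hm := isRX_model (⟨xJ (N * q), xJ_mem_ringX⟩ : ringX A hq hqN)
  have e : model1 (⟨xJ (N * q), xJ_mem_ringX⟩ : ringX A hq hqN) = jqModC A := by
    apply Fermat.Agent.T2.helper36.incl_injective_val A
    rw [hm.2.2.1]
    exact Fermat.Agent.S18.helper19.coe_xJ' (A := A) (M := N * q)
  show red A (model1 _) = _
  rw [e]
  exact red_jqModC_val A

/-- **the mirror point**: at a double point `Q` of `C₁` there is a finite place `Q₂` (the point
`Q` on the component `C₂`) such that the reduction on the second sheet maps `R_Q` ONTO the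
valuation ring of `Q₂`, the non-units to the maximal ideal. -/
theorem exists_mirror (h : IsUnit0 hq hqN b0 B ε) (hA : A.LiesOverPrime q)
    (hN : 4 ∣ N ∨ 9 ∣ N) (Q : Place (kA A) (FFb A N)) (hQ : IsFinitePt Q)
    (hd : 0 < ordAt Q (iota (kA A) B)) :
    ∃ Q₂ : Place (kA A) (FFb A N), IsFinitePt Q₂ ∧
      (∀ r : locX A hq hqN Q, 0 ≤ Q₂.ord (red2Loc h hA Q hQ hd r)) ∧
      (∀ g : FFb A N, 0 ≤ Q₂.ord g → ∃ r : locX A hq hqN Q, red2Loc h hA Q hQ hd r = g) ∧
      (∀ r : locX A hq hqN Q, ¬ IsUnit r → red2Loc h hA Q hQ hd r ≠ 0 →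
        0 < Q₂.ord (red2Loc h hA Q hQ hd r)) := by
  classical
  have hK := Fermat.Agent.T8.helper63.kerRedStatement h A hA
  haveI := isLocalRing_locX (hq := hq) (hqN := hqN) hA Q hQ
  obtain ⟨V, hV, hloc⟩ := IsLocalRing.exists_factor_valuationRing (red2Loc h hA Q hQ hd)
  -- the elements of `Bt` are second reductions
  have hBt : ∀ z : LaurentSeries (kA A), z ∈ Bt A N → ∃ a : ringX A hq hqN,
      ((red2Loc h hA Q hQ hd (locXIncl Q a) : FFb A N) : LaurentSeries (kA A)) = z := by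
    intro z hz
    obtain ⟨a, ha, -⟩ := Fermat.Agent.T8.helper96.exists_ringX_red2 N q hq hqN A hA hN hz
    exact ⟨a, by rw [red2Loc_incl, coe_red2F, ha]⟩
  have hconst : ∀ c : kA A, algebraMap (kA A) (FFb A N) c ∈ V := by
    intro c
    obtain ⟨a, ha⟩ := hBt _ ((Bt A N).algebraMap_mem c)
    have e : red2Loc h hA Q hQ hd (locXIncl Q a) = algebraMap (kA A) (FFb A N) c :=
      Subtype.ext ha
    rw [← e]
    exact hV _
  have hxx : ¬ IsUnit (locXIncl Q (xxX hK)) := by
    rw [isUnit_iff_redQ hA Q hQ, redQ_incl]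
    intro hu
    exact ((isUnit_red1Q_iff hA Q hQ _).mp hu).2.1 (red1X_xxX hK)
  have hν : red2Loc h hA Q hQ hd (locXIncl Q (xxX hK)) ≠ 0 := by
    intro h0
    have h1 : red2L h hA Q hQ hd (locXIncl Q (xxX hK)) = 0 := by
      rw [red2L_apply, h0]
      rfl
    rw [red2L_xx] at h1
    exact Fermat.Agent.T8.helper63.nu_ne_zero h A h1
  have hVtop : V ≠ ⊤ := by
    intro htop
    apply hxx
    apply hloc.map_nonunit
    have hinv : (red2Loc h hA Q hQ hd (locXIncl Q (xxX hK)))⁻¹ ∈ V.toSubring := by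
      show _ ∈ V
      rw [htop]
      exact ValuationSubring.mem_top _
    refine IsUnit.of_mul_eq_one ⟨_, hinv⟩ (Subtype.ext ?_)
    exact mul_inv_cancel₀ hν
  haveI := Fermat.Agent.P2.helper95.finiteDimensional_jBar N A
  haveI : IsAlgClosed (kA A) := Fermat.Agent.P2.helper95.isAlgClosed_residueField A
  obtain ⟨Q₂, hQ₂⟩ := Fermat.Agent.P2.helper62.exists_place_of_valuationSubring (jBar A N)
    (Fermat.Agent.P2.helper95.transcendental_jBar N A) V hconst hVtop
  subst hQ₂
  have hfin : IsFinitePt Q₂ := by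
    have e : red2Loc h hA Q hQ hd
        (locXIncl Q (wX (⟨xJ (N * q), xJ_mem_ringX⟩ : ringX A hq hqN))) = jBar A N := by
      apply Subtype.ext
      rw [red2Loc_incl, coe_red2F, red2X_wX_xJ]
      rfl
    show 0 ≤ Q₂.ord (jBar A N)
    rw [← e]
    exact (helper82.mem_iff_ord_nonneg Q₂).mp (hV _)
  refine ⟨Q₂, hfin, fun r => (helper82.mem_iff_ord_nonneg Q₂).mp (hV r), ?_, ?_⟩
  · intro g hg
    obtain ⟨x, s, hx, hs, hs0, hsQ, e⟩ :=
      Fermat.Agent.T3.helper95.locBt N A Q₂ (not_isInfty_of_isFinitePt hfin) g hg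
    obtain ⟨a, ha⟩ := hBt _ hx
    obtain ⟨t, ht⟩ := hBt _ hs
    have ha' : red2Loc h hA Q hQ hd (locXIncl Q a) = x := Subtype.ext ha
    have ht' : red2Loc h hA Q hQ hd (locXIncl Q t) = s := Subtype.ext ht
    have htU : IsUnit (locXIncl Q t) := by
      apply hloc.map_nonunit
      have hsV : s⁻¹ ∈ Q₂.toValuationSubring.toSubring := by
        show s⁻¹ ∈ Q₂.toValuationSubring
        rw [helper82.mem_iff_ord_nonneg, Place.ord_inv, hsQ]
        norm_num
      refine IsUnit.of_mul_eq_one ⟨s⁻¹, hsV⟩ (Subtype.ext ?_)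
      show red2Loc h hA Q hQ hd (locXIncl Q t) * s⁻¹ = 1
      rw [ht']
      exact mul_inv_cancel₀ hs0
    obtain ⟨u, hu⟩ := htU
    refine ⟨locXIncl Q a * ((u⁻¹ : (locX A hq hqN Q)ˣ) : locX A hq hqN Q), ?_⟩
    have h1 : red2Loc h hA Q hQ hd
        (locXIncl Q a * ((u⁻¹ : (locX A hq hqN Q)ˣ) : locX A hq hqN Q)) * s = g * s := by
      rw [e, ← ha', ← ht', ← map_mul, ← hu, mul_assoc, Units.inv_mul, mul_one]
    exact mul_right_cancel₀ hs0 h1
  · intro r hr h0
    by_contra hpos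
    have h0' : 0 ≤ Q₂.ord (red2Loc h hA Q hQ hd r) :=
      (helper82.mem_iff_ord_nonneg Q₂).mp (hV r)
    have hz : Q₂.ord (red2Loc h hA Q hQ hd r) = 0 := by omega
    apply hr
    apply hloc.map_nonunit
    have hinv : (red2Loc h hA Q hQ hd r)⁻¹ ∈ Q₂.toValuationSubring.toSubring := by
      show _ ∈ Q₂.toValuationSubring
      rw [helper82.mem_iff_ord_nonneg, Place.ord_inv, hz]
      norm_num
    refine IsUnit.of_mul_eq_one ⟨_, hinv⟩ (Subtype.ext ?_)
    exact mul_inv_cancel₀ h0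

/-- **(b)** at a double point `R_Q / (y)` is a domain and a principal ideal ring (it is the
valuation ring of the mirror point). -/
theorem dvr_quot_yy (h : IsUnit0 hq hqN b0 B ε) (hA : A.LiesOverPrime q) (hN : 4 ∣ N ∨ 9 ∣ N)
    (Q : Place (kA A) (FFb A N)) (hQ : IsFinitePt Q) (hd : 0 < ordAt Q (iota (kA A) B))
    (y : locX A hq hqN Q) (hy : (y : FF (N * q)) = b0) :
    IsDomain (locX A hq hqN Q ⧸ Ideal.span {y}) ∧
      IsPrincipalIdealRing (locX A hq hqN Q ⧸ Ideal.span {y}) := by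
  have hK := Fermat.Agent.T8.helper63.kerRedStatement h A hA
  have hy' : y = locXIncl Q (yyX hK) := Subtype.ext hy
  obtain ⟨Q₂, hfin, hmem, hsurj, -⟩ := exists_mirror h hA hN Q hQ hd
  have hmem' : ∀ r : locX A hq hqN Q,
      red2Loc h hA Q hQ hd r ∈ Q₂.toValuationSubring.toSubring :=
    fun r => (helper82.mem_iff_ord_nonneg Q₂).mpr (hmem r)
  let ρ : locX A hq hqN Q →+* Q₂.toValuationSubring :=
    (red2Loc h hA Q hQ hd).codRestrict Q₂.toValuationSubring.toSubring hmem'
  have hρ : Function.Surjective ρ := by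
    intro g
    obtain ⟨r, hr⟩ := hsurj (g : FFb A N) ((helper82.mem_iff_ord_nonneg Q₂).mp g.2)
    exact ⟨r, Subtype.ext hr⟩
  rw [hy']
  refine quot_of_surjective ρ hρ _ (fun r => ?_)
  rw [← red2Loc_eq_zero_iff h hA Q hQ hd r]
  constructor
  · intro h0
    exact congrArg Subtype.val h0
  · intro h0
    exact Subtype.ext h0

end Mirror

end Fermat.Agent.T8.helper16
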