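import Mathlib

/-!
# T8 / [SPLIT] + [DESC], abstract layer (helper34): Kummer descent by a Vandermonde sum

`exists_descent` : let a group `G` act on a field `E` by ring homomorphisms, `H ≤ G`, `u ≠ 0`
with FINITE `H`-orbit, `p ≠ 0`, and let `Nrm` be a normalisation (multiplicative, `H`-stable,
with unique normalised `p`-th roots).  If for every `σ ∈ H` there is a normalised `v` with
`σ u = v ^ p * u`, then there is `h ≠ 0` with `σ (h ^ p * u) = h ^ p * u` for all `σ ∈ H`.

This is Hilbert 90 for the cocycle `σ ↦ v_σ`, proved WITHOUT fixed fields: with `V w` the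
normalised root of `w / u` (`w` in the orbit `O` of `u`), the sums `h_k = ∑_{w ∈ O} V w * w ^ k`
satisfy `σ h_k = h_k / v_σ`, and some `h_k` is nonzero by Lagrange interpolation.
-/

set_option autoImplicit false

namespace Fermat.Agent.T8.helper34

open Polynomial

section Abstract

variable {E : Type*} [Field E] {G : Type*} [Group G]

/-- If all the moments `∑_{w ∈ O} V w * w ^ k` vanish, then `V` vanishes on `O`. -/
theorem eq_zero_of_moments_eq_zero (O : Finset E) (V : E → E)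
    (h : ∀ k : ℕ, ∑ w ∈ O, V w * w ^ k = 0) : ∀ w ∈ O, V w = 0 := by
  classical
  have hpoly : ∀ Q : E[X], ∑ w ∈ O, V w * Q.eval w = 0 := by
    intro Q
    have e : ∀ w : E, V w * Q.eval w = ∑ k ∈ Finset.range (Q.natDegree + 1),
        Q.coeff k * (V w * w ^ k) := by
      intro w
      rw [Polynomial.eval_eq_sum_range, Finset.mul_sum]
      refine Finset.sum_congr rfl fun k _ => ?_
      ring
    simp_rw [e]
    rw [Finset.sum_comm]
    refine Finset.sum_eq_zero fun k _ => ?_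
    rw [← Finset.mul_sum, h k, mul_zero]
  intro w₀ hw₀
  have h1 := hpoly (Lagrange.basis O id w₀)
  rw [Finset.sum_eq_single w₀] at h1
  · have h2 : (Lagrange.basis O id w₀).eval w₀ = 1 :=
      Lagrange.eval_basis_self (v := id) (Set.injOn_id _) hw₀
    rw [h2, mul_one] at h1
    exact h1
  · intro w hw hne
    have h2 : (Lagrange.basis O id w₀).eval w = 0 :=
      Lagrange.eval_basis_of_ne (v := id) (Ne.symm hne) hw
    rw [h2, mul_zero]
  · intro hn
    exact absurd hw₀ hn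

/-- **Kummer descent (Hilbert 90 by a Vandermonde sum).** -/
theorem exists_descent (act : G → E →+* E)
    (hact_one : ∀ x, act 1 x = x)
    (hact_mul : ∀ σ τ x, act (σ * τ) x = act σ (act τ x))
    (H : Subgroup G) {p : ℕ} (hp : p ≠ 0) (Nrm : E → Prop)
    (hN_mul : ∀ a b, Nrm a → Nrm b → Nrm (a * b))
    (hN_act : ∀ σ ∈ H, ∀ a, Nrm a → Nrm (act σ a))
    (hN_uniq : ∀ a b, Nrm a → Nrm b → a ^ p = b ^ p → a = b)
    {u : E} (hu : u ≠ 0)
    (hfin : (Set.range fun σ : H => act (σ : G) u).Finite)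
    (hroot : ∀ σ ∈ H, ∃ v : E, Nrm v ∧ act σ u = v ^ p * u) :
    ∃ h : E, h ≠ 0 ∧ ∀ σ ∈ H, act σ (h ^ p * u) = h ^ p * u := by
  classical
  -- the orbit
  set O : Finset E := hfin.toFinset with hO
  have memO : ∀ w : E, w ∈ O ↔ ∃ σ ∈ H, act σ u = w := by
    intro w
    rw [hO, Set.Finite.mem_toFinset]
    constructor
    · rintro ⟨σ, rfl⟩
      exact ⟨σ, σ.2, rfl⟩
    · rintro ⟨σ, hσ, rfl⟩
      exact ⟨⟨σ, hσ⟩, rfl⟩
  -- the normalised root of `w / u`
  have hex : ∀ w ∈ O, ∃ v : E, Nrm v ∧ w = v ^ p * u := by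
    intro w hw
    obtain ⟨σ, hσ, rfl⟩ := (memO w).mp hw
    exact hroot σ hσ
  let V : E → E := fun w => if hw : w ∈ O then (hex w hw).choose else 0
  have hV : ∀ w ∈ O, Nrm (V w) ∧ w = V w ^ p * u := by
    intro w hw
    have := (hex w hw).choose_spec
    simpa only [V, dif_pos hw] using this
  have hVuniq : ∀ w ∈ O, ∀ v : E, Nrm v → w = v ^ p * u → V w = v := by
    intro w hw v hv hvw
    refine hN_uniq _ _ (hV w hw).1 hv ?_
    have h1 : V w ^ p * u = v ^ p * u := (hV w hw).2.symm.trans hvw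
    exact mul_right_cancel₀ hu h1
  have hO_act : ∀ τ ∈ H, ∀ w ∈ O, act τ w ∈ O := by
    intro τ hτ w hw
    obtain ⟨σ, hσ, rfl⟩ := (memO w).mp hw
    exact (memO _).mpr ⟨τ * σ, H.mul_mem hτ hσ, hact_mul τ σ u⟩
  have huO : u ∈ O := (memO u).mpr ⟨1, H.one_mem, hact_one u⟩
  have hτuO : ∀ τ ∈ H, act τ u ∈ O := fun τ hτ => hO_act τ hτ u huO
  have hVne : ∀ w ∈ O, w ≠ 0 → V w ≠ 0 := by
    intro w hw hw0 h0
    have h1 := (hV w hw).2
    rw [h0, zero_pow hp, zero_mul] at h1
    exact hw0 h1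
  have hτu_ne : ∀ τ : G, act τ u ≠ 0 := fun τ => (map_ne_zero (act τ)).mpr hu
  -- the cocycle relation
  have hcoc : ∀ τ ∈ H, ∀ w ∈ O, V (act τ w) = act τ (V w) * V (act τ u) := by
    intro τ hτ w hw
    refine hVuniq _ (hO_act τ hτ w hw) _
      (hN_mul _ _ (hN_act τ hτ _ (hV w hw).1) (hV _ (hτuO τ hτ)).1) ?_
    have h1 : act τ w = act τ (V w) ^ p * act τ u := by
      conv_lhs => rw [(hV w hw).2]
      rw [map_mul, map_pow]
    rw [h1]
    conv_lhs => rw [(hV _ (hτuO τ hτ)).2]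
    ring
  -- the sums
  let hk : ℕ → E := fun k => ∑ w ∈ O, V w * w ^ k
  have hk_act : ∀ τ ∈ H, ∀ k, act τ (hk k) * V (act τ u) = hk k := by
    intro τ hτ k
    have hτinv : τ⁻¹ ∈ H := H.inv_mem hτ
    show act τ (∑ w ∈ O, V w * w ^ k) * V (act τ u) = ∑ w ∈ O, V w * w ^ k
    rw [map_sum, Finset.sum_mul]
    refine Finset.sum_bij' (fun w _ => act τ w) (fun w _ => act τ⁻¹ w)
      (fun w hw => hO_act τ hτ w hw) (fun w hw => hO_act τ⁻¹ hτinv w hw) ?_ ?_ ?_
    · intro w _
      show act τ⁻¹ (act τ w) = w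
      rw [← hact_mul, inv_mul_cancel, hact_one]
    · intro w _
      show act τ (act τ⁻¹ w) = w
      rw [← hact_mul, mul_inv_cancel, hact_one]
    · intro w hw
      rw [hcoc τ hτ w hw, map_mul, map_pow]
      ring
  -- some sum is nonzero
  have hex_k : ∃ k, hk k ≠ 0 := by
    by_contra hcon
    have hall : ∀ k, hk k = 0 := fun k => by_contra fun h => hcon ⟨k, h⟩
    exact hVne u huO hu (eq_zero_of_moments_eq_zero O V hall u huO)
  obtain ⟨k, hk0⟩ := hex_k
  refine ⟨hk k, hk0, fun τ hτ => ?_⟩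
  have h1 := hk_act τ hτ k
  have h2 := (hV _ (hτuO τ hτ)).2
  calc act τ (hk k ^ p * u) = act τ (hk k) ^ p * act τ u := by rw [map_mul, map_pow]
    _ = act τ (hk k) ^ p * (V (act τ u) ^ p * u) := by rw [← h2]
    _ = (act τ (hk k) * V (act τ u)) ^ p * u := by ring
    _ = hk k ^ p * u := by rw [h1]

end Abstract

end Fermat.Agent.T8.helper34
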