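import Mathlib

/-!
# T8 [COVER-ALG] (helper86): the abstract Kummer cover

Abstract, Mathlib-only algebra behind the cyclic cover `F' = F(Z)`, `Z ^ p = K`, of the T8 route
(notes of helper16).  Setting: a field extension `Ω / F`, a prime `p`, `K : F` which is not a
`p`-th power in `F` and `Z : Ω` with `Z ^ p = K`  (`IsKummerRoot p K Z`).  The cover is the simple
extension `F⟮Z⟯ : IntermediateField F Ω`.

* `IsKummerRoot.minpoly_eq`, `IsKummerRoot.finrank_eq` : `minpoly F Z = X ^ p - C K`, degree `p`;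
  `IsKummerRoot.of_not_mem_range` : with `ζ ∈ F` primitive, `Z ∉ F` suffices;
* `IsKummerRoot.exists_sum_pow` / `IsKummerRoot.coeff_unique` : every element of `F⟮Z⟯` is a
  unique `∑ i < p, c i * Z ^ i`;  `prod_deck_mem_range` : the norm `∏ i < p, ρ ^ i x` lies in `F`;
* `coverLift` : for a ring hom `j : F →+* S` and `Z₂ : S` with `Z₂ ^ p = j K` the ring hom
  `F⟮Z⟯ →+* S` extending `j` with `Z ↦ Z₂` (this gives the `2 p` expansions of the cover);
  `coverHom_ext` : a ring hom out of `F⟮Z⟯` is determined by its values on `F` and at `Z`;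
* `deck` : the deck transformation `ρ : F⟮Z⟯ ≃ₐ[F] F⟮Z⟯`, `ρ Z = ζ Z` for `ζ ^ p = 1`;
  `deck_pow_gen`, `deck_pow_prime`, `mem_range_of_deck_fixed` (fixed field of `ρ` is `F` for a
  primitive `ζ`), `coverLift_comp_deck` (`ι_{i+1} = ι_i ∘ ρ`);
* `semiMap` : a ring endomorphism `σ` of `Ω` with `σ F ⊆ F` and `σ Z ∈ F⟮Z⟯` restricts to
  `F⟮Z⟯`; `semiMap_comm_deck` : it commutes with `ρ` when `σ ζ = ζ ^ a`, `σ Z = w * Z ^ a`,
  `w ∈ F`;
* `hilbert90_of_pow_eq_one` : Hilbert 90 for a ring automorphism of finite order of a field,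
  in the Lagrange-resolvent form (no Galois group, no finiteness hypothesis on the extension);
  `hilbert90_deck` : the same for the deck transformation.
-/

set_option autoImplicit false

noncomputable section

namespace Fermat.Agent.T8.helper86

open Polynomial IntermediateField

variable {F Ω : Type*} [Field F] [Field Ω] [Algebra F Ω]

/-- `Z` is a `p`-th root (`p` prime) of `K ∈ F`, and `K` is not a `p`-th power in `F`. -/
structure IsKummerRoot (p : ℕ) (K : F) (Z : Ω) : Prop where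
  prime : p.Prime
  pow_eq : Z ^ p = algebraMap F Ω K
  not_pow : ∀ b : F, b ^ p ≠ K

namespace IsKummerRoot

variable {p : ℕ} {K : F} {Z : Ω}

theorem irreducible (h : IsKummerRoot p K Z) : Irreducible (X ^ p - C K : F[X]) :=
  X_pow_sub_C_irreducible_of_prime h.prime h.not_pow

theorem aeval_eq_zero (h : IsKummerRoot p K Z) : aeval Z (X ^ p - C K : F[X]) = 0 := by
  simp [h.pow_eq]

theorem isIntegral (h : IsKummerRoot p K Z) : IsIntegral F Z :=
  ⟨X ^ p - C K, monic_X_pow_sub_C K h.prime.ne_zero, by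
    simpa [aeval_def] using h.aeval_eq_zero⟩

theorem minpoly_eq (h : IsKummerRoot p K Z) : minpoly F Z = X ^ p - C K :=
  (minpoly.eq_of_irreducible_of_monic h.irreducible h.aeval_eq_zero
    (monic_X_pow_sub_C K h.prime.ne_zero)).symm

theorem natDegree_minpoly (h : IsKummerRoot p K Z) : (minpoly F Z).natDegree = p := by
  rw [h.minpoly_eq, natDegree_X_pow_sub_C]

theorem finrank_eq (h : IsKummerRoot p K Z) : Module.finrank F F⟮Z⟯ = p := by
  rw [adjoin.finrank h.isIntegral, h.natDegree_minpoly]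

theorem ne_zero (h : IsKummerRoot p K Z) : Z ≠ 0 := by
  rintro rfl
  have h0 : algebraMap F Ω K = 0 := by rw [← h.pow_eq, zero_pow h.prime.ne_zero]
  have hK : K = 0 := by
    have := (algebraMap F Ω).injective (a₁ := K) (a₂ := 0) (by simpa using h0)
    exact this
  exact h.not_pow 0 (by rw [hK, zero_pow h.prime.ne_zero])

theorem not_mem_range (h : IsKummerRoot p K Z) : Z ∉ Set.range (algebraMap F Ω) := by
  rintro ⟨b, rfl⟩
  refine h.not_pow b ((algebraMap F Ω).injective ?_)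
  rw [map_pow, h.pow_eq]

theorem gen_pow (h : IsKummerRoot p K Z) :
    (AdjoinSimple.gen F Z) ^ p = algebraMap F F⟮Z⟯ K := by
  apply Subtype.ext
  simpa using h.pow_eq

theorem gen_ne_zero (h : IsKummerRoot p K Z) : AdjoinSimple.gen F Z ≠ 0 := by
  intro h0
  apply h.ne_zero
  have := congrArg (fun x : F⟮Z⟯ => (x : Ω)) h0
  simpa using this

end IsKummerRoot

/-- in the presence of a primitive `p`-th root of unity in `F`: a `p`-th root `Z ∉ F` of `K ∈ F`
is a Kummer root (`K` is not a `p`-th power in `F`). -/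
theorem IsKummerRoot.of_not_mem_range {p : ℕ} {K : F} {Z : Ω} (hp : p.Prime) {ζ : F}
    (hζ : IsPrimitiveRoot ζ p) (hpow : Z ^ p = algebraMap F Ω K)
    (hZ : Z ∉ Set.range (algebraMap F Ω)) : IsKummerRoot p K Z := by
  refine ⟨hp, hpow, fun b hb => hZ ?_⟩
  by_cases hb0 : b = 0
  · refine ⟨0, ?_⟩
    have hK : K = 0 := by rw [← hb, hb0, zero_pow hp.ne_zero]
    rw [hK, map_zero] at hpow
    rw [map_zero]
    exact (pow_eq_zero_iff hp.ne_zero).mp hpow |>.symm
  · have hb0' : algebraMap F Ω b ≠ 0 := fun h0 =>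
      hb0 ((algebraMap F Ω).injective (by rw [h0, map_zero]))
    have hone : (Z / algebraMap F Ω b) ^ p = 1 := by
      rw [div_pow, hpow, ← hb, map_pow]
      exact div_self (pow_ne_zero _ hb0')
    have hζ' : IsPrimitiveRoot (algebraMap F Ω ζ) p :=
      hζ.map_of_injective (algebraMap F Ω).injective
    have : NeZero p := ⟨hp.ne_zero⟩
    obtain ⟨i, -, hi⟩ := hζ'.eq_pow_of_pow_eq_one hone
    refine ⟨ζ ^ i * b, ?_⟩
    rw [map_mul, map_pow, hi, div_mul_cancel₀ _ hb0']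

/-! ### Ring homs out of the cover -/

section Lift

variable {p : ℕ} {K : F} {Z : Ω} {S : Type*} [CommRing S]

/-- every element of `F⟮Z⟯` is a polynomial in `Z` (for `Z` integral). -/
theorem exists_aeval_gen (hZ : IsIntegral F Z) (x : F⟮Z⟯) :
    ∃ q : F[X], x = aeval (AdjoinSimple.gen F Z) q := by
  obtain ⟨q, -, hq⟩ := (adjoin.powerBasis hZ).exists_eq_aeval x
  exact ⟨q, by rw [hq, adjoin.powerBasis_gen]⟩

/-- a ring hom out of `F⟮Z⟯` is determined by its restriction to `F` and its value at `Z`. -/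
theorem coverHom_ext (hZ : IsIntegral F Z) {T : Type*} [Semiring T] {φ ψ : F⟮Z⟯ →+* T}
    (hF : ∀ x : F, φ (algebraMap F F⟮Z⟯ x) = ψ (algebraMap F F⟮Z⟯ x))
    (hgen : φ (AdjoinSimple.gen F Z) = ψ (AdjoinSimple.gen F Z)) : φ = ψ := by
  ext x
  obtain ⟨q, rfl⟩ := exists_aeval_gen hZ x
  induction q using Polynomial.induction_on' with
  | add a b ha hb => simp only [map_add, ha, hb]
  | monomial n a =>
    rw [← C_mul_X_pow_eq_monomial]
    simp only [map_mul, map_pow, aeval_C, aeval_X, hF, hgen]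

/-- the ring hom `F⟮Z⟯ →+* S` extending `j : F →+* S` with `Z ↦ Z₂`, where `Z₂ ^ p = j K`. -/
def coverLift (h : IsKummerRoot p K Z) (j : F →+* S) (Z₂ : S) (h₂ : Z₂ ^ p = j K) :
    F⟮Z⟯ →+* S :=
  (AdjoinRoot.lift j Z₂ (by
      rw [h.minpoly_eq]
      simp [eval₂_sub, eval₂_pow, h₂])).comp
    (adjoinRootEquivAdjoin F h.isIntegral).symm.toRingEquiv.toRingHom

theorem coverLift_gen (h : IsKummerRoot p K Z) (j : F →+* S) (Z₂ : S) (h₂ : Z₂ ^ p = j K) :
    coverLift h j Z₂ h₂ (AdjoinSimple.gen F Z) = Z₂ := by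
  have : (adjoinRootEquivAdjoin F h.isIntegral).symm (AdjoinSimple.gen F Z) =
      AdjoinRoot.root (minpoly F Z) := by
    rw [AlgEquiv.symm_apply_eq, adjoinRootEquivAdjoin_apply_root]
  simp [coverLift, this]

theorem coverLift_algebraMap (h : IsKummerRoot p K Z) (j : F →+* S) (Z₂ : S)
    (h₂ : Z₂ ^ p = j K) (x : F) :
    coverLift h j Z₂ h₂ (algebraMap F F⟮Z⟯ x) = j x := by
  have : (adjoinRootEquivAdjoin F h.isIntegral).symm (algebraMap F F⟮Z⟯ x) =
      AdjoinRoot.of (minpoly F Z) x := by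
    rw [AlgEquiv.symm_apply_eq]
    exact ((adjoinRootEquivAdjoin F h.isIntegral).commutes x).symm
  simp [coverLift, this]

theorem coverLift_unique (h : IsKummerRoot p K Z) (j : F →+* S) (Z₂ : S) (h₂ : Z₂ ^ p = j K)
    (φ : F⟮Z⟯ →+* S) (hF : ∀ x : F, φ (algebraMap F F⟮Z⟯ x) = j x)
    (hgen : φ (AdjoinSimple.gen F Z) = Z₂) : φ = coverLift h j Z₂ h₂ :=
  coverHom_ext h.isIntegral (fun x => by rw [hF, coverLift_algebraMap])
    (by rw [hgen, coverLift_gen])

theorem coverLift_injective [Nontrivial S] (h : IsKummerRoot p K Z) (j : F →+* S) (Z₂ : S)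
    (h₂ : Z₂ ^ p = j K) : Function.Injective (coverLift h j Z₂ h₂) :=
  (coverLift h j Z₂ h₂).injective

end Lift

/-! ### The power basis -/

section Basis

variable {p : ℕ} {K : F} {Z : Ω}

/-- every element of the cover is `∑ i < p, c i * Z ^ i` with `c i ∈ F`. -/
theorem IsKummerRoot.exists_sum_pow (h : IsKummerRoot p K Z) (x : F⟮Z⟯) :
    ∃ c : ℕ → F, x = ∑ i ∈ Finset.range p,
      algebraMap F F⟮Z⟯ (c i) * AdjoinSimple.gen F Z ^ i := by
  obtain ⟨q, hq, hx⟩ := (adjoin.powerBasis h.isIntegral).exists_eq_aeval x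
  rw [adjoin.powerBasis_dim, h.natDegree_minpoly] at hq
  rw [adjoin.powerBasis_gen] at hx
  refine ⟨fun i => q.coeff i, ?_⟩
  rw [hx, aeval_eq_sum_range' hq]
  refine Finset.sum_congr rfl fun i _ => ?_
  rw [Algebra.smul_def]

/-- the coefficients of `∑ i < p, c i * Z ^ i` are unique (statement in `Ω`). -/
theorem IsKummerRoot.coeff_unique' (h : IsKummerRoot p K Z) (c : ℕ → F)
    (hc : ∑ i ∈ Finset.range p, algebraMap F Ω (c i) * Z ^ i = 0) :
    ∀ i, i < p → c i = 0 := by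
  classical
  set q : F[X] := ∑ i ∈ Finset.range p, C (c i) * X ^ i with hqdef
  have hqeval : aeval Z q = 0 := by
    rw [hqdef, map_sum, ← hc]
    refine Finset.sum_congr rfl fun i _ => ?_
    simp
  have hqdeg : q.degree < p := by
    rw [degree_lt_iff_coeff_zero]
    intro m hm
    rw [hqdef, finsetSum_coeff]
    refine Finset.sum_eq_zero fun i hi => ?_
    have hne : m ≠ i := by
      have := Finset.mem_range.mp hi
      omega
    rw [coeff_C_mul, coeff_X_pow, if_neg hne, mul_zero]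
  have hq0 : q = 0 := by
    by_contra hne
    have := minpoly.degree_le_of_ne_zero F Z hne hqeval
    rw [h.minpoly_eq, degree_X_pow_sub_C h.prime.pos] at this
    exact absurd (lt_of_le_of_lt this hqdeg) (lt_irrefl _)
  intro i hi
  have hcoeff : q.coeff i = c i := by
    rw [hqdef, finsetSum_coeff]
    rw [Finset.sum_eq_single i]
    · simp
    · intro j _ hj
      rw [coeff_C_mul, coeff_X_pow, if_neg (Ne.symm hj), mul_zero]
    · intro hi'
      exact absurd (Finset.mem_range.mpr hi) hi'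
  rw [← hcoeff, hq0, coeff_zero]

/-- the coefficients of `∑ i < p, c i * Z ^ i` are unique (statement in the cover). -/
theorem IsKummerRoot.coeff_unique (h : IsKummerRoot p K Z) (c : ℕ → F)
    (hc : ∑ i ∈ Finset.range p, algebraMap F F⟮Z⟯ (c i) * AdjoinSimple.gen F Z ^ i = 0) :
    ∀ i, i < p → c i = 0 := by
  apply h.coeff_unique' c
  have := congrArg (fun x : F⟮Z⟯ => (x : Ω)) hc
  simpa using this

end Basis

/-! ### The deck transformation -/

section Deck

variable {p : ℕ} {K : F} {Z : Ω}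

theorem IsKummerRoot.mul_gen_pow (h : IsKummerRoot p K Z) (ζ : F) (hζ : ζ ^ p = 1) :
    (algebraMap F F⟮Z⟯ ζ * AdjoinSimple.gen F Z) ^ p = algebraMap F F⟮Z⟯ K := by
  rw [mul_pow, ← map_pow, hζ, map_one, one_mul, h.gen_pow]

/-- the deck transformation of the cover as an algebra endomorphism: `Z ↦ ζ Z`. -/
def deckHom (h : IsKummerRoot p K Z) (ζ : F) (hζ : ζ ^ p = 1) : F⟮Z⟯ →ₐ[F] F⟮Z⟯ :=
  { coverLift h (algebraMap F F⟮Z⟯) (algebraMap F F⟮Z⟯ ζ * AdjoinSimple.gen F Z)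
      (h.mul_gen_pow ζ hζ) with
    commutes' := fun x => coverLift_algebraMap h _ _ (h.mul_gen_pow ζ hζ) x }

theorem deckHom_gen (h : IsKummerRoot p K Z) (ζ : F) (hζ : ζ ^ p = 1) :
    deckHom h ζ hζ (AdjoinSimple.gen F Z) = algebraMap F F⟮Z⟯ ζ * AdjoinSimple.gen F Z :=
  coverLift_gen h _ _ (h.mul_gen_pow ζ hζ)

/-- the deck transformation `ρ` of the cover: an `F`-automorphism with `ρ Z = ζ Z`. -/
def deck (h : IsKummerRoot p K Z) (ζ : F) (hζ : ζ ^ p = 1) : F⟮Z⟯ ≃ₐ[F] F⟮Z⟯ :=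
  haveI : FiniteDimensional F F⟮Z⟯ := adjoin.finiteDimensional h.isIntegral
  AlgEquiv.ofBijective (deckHom h ζ hζ) (Algebra.IsAlgebraic.algHom_bijective _)

theorem deck_gen (h : IsKummerRoot p K Z) (ζ : F) (hζ : ζ ^ p = 1) :
    deck h ζ hζ (AdjoinSimple.gen F Z) = algebraMap F F⟮Z⟯ ζ * AdjoinSimple.gen F Z :=
  deckHom_gen h ζ hζ

theorem deck_pow_gen (h : IsKummerRoot p K Z) (ζ : F) (hζ : ζ ^ p = 1) (i : ℕ) :
    ((deck h ζ hζ) ^ i) (AdjoinSimple.gen F Z) =
      algebraMap F F⟮Z⟯ (ζ ^ i) * AdjoinSimple.gen F Z := by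
  induction i with
  | zero => simp
  | succ i ih =>
    rw [pow_succ', AlgEquiv.mul_apply, ih, map_mul, AlgEquiv.commutes, deck_gen, ← mul_assoc,
      ← map_mul, ← pow_succ]

theorem deck_pow_prime (h : IsKummerRoot p K Z) (ζ : F) (hζ : ζ ^ p = 1) :
    (deck h ζ hζ) ^ p = 1 := by
  apply AlgEquiv.coe_toAlgHom_injective
  apply (adjoin.powerBasis h.isIntegral).algHom_ext
  rw [adjoin.powerBasis_gen]
  change ((deck h ζ hζ) ^ p) (AdjoinSimple.gen F Z) = (1 : F⟮Z⟯ ≃ₐ[F] F⟮Z⟯) (AdjoinSimple.gen F Z)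
  rw [deck_pow_gen, hζ, map_one, one_mul, AlgEquiv.one_apply]

theorem deck_pow_prime_apply (h : IsKummerRoot p K Z) (ζ : F) (hζ : ζ ^ p = 1) (x : F⟮Z⟯) :
    ((deck h ζ hζ) ^ p) x = x := by
  rw [deck_pow_prime, AlgEquiv.one_apply]

theorem deck_pow_apply_pow (h : IsKummerRoot p K Z) (ζ : F) (hζ : ζ ^ p = 1) (i n : ℕ) :
    ((deck h ζ hζ) ^ i) (AdjoinSimple.gen F Z ^ n) =
      algebraMap F F⟮Z⟯ (ζ ^ (i * n)) * AdjoinSimple.gen F Z ^ n := by
  rw [map_pow, deck_pow_gen, mul_pow, ← map_pow, ← pow_mul]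

/-- the fixed field of the deck transformation is `F` (for a primitive root of unity `ζ`). -/
theorem mem_range_of_deck_fixed (h : IsKummerRoot p K Z) {ζ : F} (hζ : IsPrimitiveRoot ζ p)
    (x : F⟮Z⟯) (hx : deck h ζ hζ.pow_eq_one x = x) : x ∈ Set.range (algebraMap F F⟮Z⟯) := by
  classical
  obtain ⟨c, rfl⟩ := h.exists_sum_pow x
  have hdiff : ∑ i ∈ Finset.range p, algebraMap F F⟮Z⟯ (c i * (ζ ^ i - 1)) *
      AdjoinSimple.gen F Z ^ i = 0 := by
    have h1 : deck h ζ hζ.pow_eq_one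
        (∑ i ∈ Finset.range p, algebraMap F F⟮Z⟯ (c i) * AdjoinSimple.gen F Z ^ i) =
        ∑ i ∈ Finset.range p, algebraMap F F⟮Z⟯ (c i * ζ ^ i) * AdjoinSimple.gen F Z ^ i := by
      rw [map_sum]
      refine Finset.sum_congr rfl fun i _ => ?_
      have := deck_pow_apply_pow h ζ hζ.pow_eq_one 1 i
      rw [pow_one, one_mul] at this
      rw [map_mul, AlgEquiv.commutes, this, ← mul_assoc, ← map_mul]
    rw [h1] at hx
    rw [← sub_eq_zero, ← Finset.sum_sub_distrib] at hx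
    rw [← hx]
    refine Finset.sum_congr rfl fun i _ => ?_
    rw [← sub_mul, ← map_sub, mul_sub, mul_one]
  have hzero := h.coeff_unique _ hdiff
  have hc : ∀ i, i < p → i ≠ 0 → c i = 0 := by
    intro i hip hi
    rcases mul_eq_zero.mp (hzero i hip) with h0 | h0
    · exact h0
    · exfalso
      have hpow : ζ ^ i = 1 := sub_eq_zero.mp h0
      have hdvd := (hζ.pow_eq_one_iff_dvd _).mp hpow
      exact hi (Nat.eq_zero_of_dvd_of_lt hdvd hip)
  refine ⟨c 0, ?_⟩
  rw [Finset.sum_eq_single 0]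
  · simp
  · intro i hi hi0
    rw [hc i (Finset.mem_range.mp hi) hi0, map_zero, zero_mul]
  · intro h0; exact absurd (Finset.mem_range.mpr h.prime.pos) h0

/-- the norm `∏ i < p, ρ ^ i x` lies in `F`. -/
theorem prod_deck_mem_range (h : IsKummerRoot p K Z) {ζ : F} (hζ : IsPrimitiveRoot ζ p)
    (x : F⟮Z⟯) :
    ∏ i ∈ Finset.range p, ((deck h ζ hζ.pow_eq_one) ^ i) x ∈
      Set.range (algebraMap F F⟮Z⟯) := by
  by_cases hx0 : x = 0
  · subst hx0
    refine ⟨0, ?_⟩
    rw [map_zero]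
    exact (Finset.prod_eq_zero (Finset.mem_range.mpr h.prime.pos) (by simp)).symm
  apply mem_range_of_deck_fixed h hζ
  rw [map_prod]
  have key : ∀ i, deck h ζ hζ.pow_eq_one (((deck h ζ hζ.pow_eq_one) ^ i) x) =
      ((deck h ζ hζ.pow_eq_one) ^ (i + 1)) x := by
    intro i
    rw [pow_succ', AlgEquiv.mul_apply]
  simp only [key]
  have h1 := Finset.prod_range_succ' (fun i => ((deck h ζ hζ.pow_eq_one) ^ i) x) p
  have h2 := Finset.prod_range_succ (fun i => ((deck h ζ hζ.pow_eq_one) ^ i) x) p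
  rw [h1] at h2
  simp only [pow_zero, AlgEquiv.one_apply, deck_pow_prime_apply] at h2
  exact mul_right_cancel₀ hx0 h2

/-- the other expansions: `ι ∘ ρ` is the lift with `Z₂` replaced by `j ζ * Z₂`. -/
theorem coverLift_comp_deck {S : Type*} [CommRing S] (h : IsKummerRoot p K Z) (ζ : F)
    (hζ : ζ ^ p = 1) (j : F →+* S) (Z₂ : S) (h₂ : Z₂ ^ p = j K) :
    (coverLift h j Z₂ h₂).comp (deck h ζ hζ : F⟮Z⟯ →+* F⟮Z⟯) =
      coverLift h j (j ζ * Z₂) (by rw [mul_pow, ← map_pow, hζ, map_one, one_mul, h₂]) := by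
  apply coverLift_unique
  · intro x
    simp [coverLift_algebraMap]
  · simp [deck_gen, coverLift_algebraMap, coverLift_gen]

end Deck

/-! ### Semilinear endomorphisms of the ambient field -/

section Semi

variable {p : ℕ} {K : F} {Z : Ω}

/-- a ring endomorphism `σ` of `Ω` which maps `F` into `F` and `Z` into `F⟮Z⟯` maps the cover
into itself. -/
theorem semi_mem (hZ : IsIntegral F Z) (σ : Ω →+* Ω)
    (hσF : ∀ x : F, σ (algebraMap F Ω x) ∈ Set.range (algebraMap F Ω))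
    (hσZ : σ Z ∈ F⟮Z⟯) (x : F⟮Z⟯) : σ (x : Ω) ∈ F⟮Z⟯ := by
  obtain ⟨q, rfl⟩ := exists_aeval_gen hZ x
  induction q using Polynomial.induction_on' with
  | add a b ha hb =>
    rw [map_add]
    push_cast
    rw [map_add]
    exact add_mem ha hb
  | monomial n a =>
    rw [← C_mul_X_pow_eq_monomial]
    simp only [map_mul, map_pow, aeval_C, aeval_X]
    push_cast
    rw [map_mul, map_pow]
    refine mul_mem ?_ (pow_mem ?_ n)
    · obtain ⟨y, hy⟩ := hσF a
      rw [← hy]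
      exact F⟮Z⟯.algebraMap_mem y
    · simpa using hσZ

/-- the restriction of `σ` to the cover. -/
def semiMap (hZ : IsIntegral F Z) (σ : Ω →+* Ω)
    (hσF : ∀ x : F, σ (algebraMap F Ω x) ∈ Set.range (algebraMap F Ω))
    (hσZ : σ Z ∈ F⟮Z⟯) : F⟮Z⟯ →+* F⟮Z⟯ :=
  (σ.comp (algebraMap F⟮Z⟯ Ω)).codRestrict F⟮Z⟯ (fun x => semi_mem hZ σ hσF hσZ x)

@[simp] theorem coe_semiMap (hZ : IsIntegral F Z) (σ : Ω →+* Ω)
    (hσF : ∀ x : F, σ (algebraMap F Ω x) ∈ Set.range (algebraMap F Ω))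
    (hσZ : σ Z ∈ F⟮Z⟯) (x : F⟮Z⟯) :
    ((semiMap hZ σ hσF hσZ x : F⟮Z⟯) : Ω) = σ (x : Ω) := rfl

/-- `σ` commutes with the deck transformation, if `σ ζ = ζ ^ a` and `σ Z = w * Z ^ a` with
`w ∈ F`. -/
theorem semiMap_comm_deck (h : IsKummerRoot p K Z) (ζ : F) (hζ : ζ ^ p = 1) (σ : Ω →+* Ω)
    (hσF : ∀ x : F, σ (algebraMap F Ω x) ∈ Set.range (algebraMap F Ω))
    (hσZ : σ Z ∈ F⟮Z⟯) (a : ℕ) (w : F)
    (hσζ : σ (algebraMap F Ω ζ) = algebraMap F Ω (ζ ^ a))
    (hσZ' : σ Z = algebraMap F Ω w * Z ^ a) (x : F⟮Z⟯) :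
    semiMap h.isIntegral σ hσF hσZ (deck h ζ hζ x) =
      deck h ζ hζ (semiMap h.isIntegral σ hσF hσZ x) := by
  have hgen : semiMap h.isIntegral σ hσF hσZ (AdjoinSimple.gen F Z) =
      algebraMap F F⟮Z⟯ w * AdjoinSimple.gen F Z ^ a := by
    apply Subtype.ext
    rw [coe_semiMap]
    simpa using hσZ'
  have hF : ∀ y : F, ∃ y' : F, semiMap h.isIntegral σ hσF hσZ (algebraMap F F⟮Z⟯ y) =
      algebraMap F F⟮Z⟯ y' ∧ σ (algebraMap F Ω y) = algebraMap F Ω y' := by
    intro y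
    obtain ⟨y', hy'⟩ := hσF y
    refine ⟨y', ?_, hy'.symm⟩
    apply Subtype.ext
    rw [coe_semiMap]
    exact hy'.symm
  have key : (semiMap h.isIntegral σ hσF hσZ).comp (deck h ζ hζ : F⟮Z⟯ →+* F⟮Z⟯) =
      (deck h ζ hζ : F⟮Z⟯ →+* F⟮Z⟯).comp (semiMap h.isIntegral σ hσF hσZ) := by
    apply coverHom_ext h.isIntegral
    · intro y
      obtain ⟨y', hy', -⟩ := hF y
      simp only [RingHom.comp_apply, RingHom.coe_coe, AlgEquiv.commutes, hy']
    · simp only [RingHom.comp_apply, RingHom.coe_coe, deck_gen, map_mul, hgen, map_pow,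
        AlgEquiv.commutes]
      obtain ⟨z', hz', hz''⟩ := hF ζ
      rw [hz']
      have : z' = ζ ^ a := (algebraMap F Ω).injective (by rw [← hz'', hσζ])
      rw [this, mul_pow, ← map_pow]
      ring
  exact congrArg (fun f : F⟮Z⟯ →+* F⟮Z⟯ => f x) key

end Semi

/-! ### Hilbert 90 for an automorphism of finite order -/

section Hilbert90

variable {E : Type*} [Field E]

/-- **Hilbert 90** in Lagrange-resolvent form: let `τ` be a ring automorphism of a field `E` with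
`τ ^ n = 1` and `τ ^ i ≠ 1` for `0 < i < n`.  If `∏ i < n, τ ^ i θ = 1`, then `θ * τ h = h` for
some `h ≠ 0`. -/
theorem hilbert90_of_pow_eq_one (τ : E ≃+* E) {n : ℕ} (hn : 0 < n)
    (hτn : ∀ x, (τ ^ n) x = x) (hfaith : ∀ i, 0 < i → i < n → ∃ x, (τ ^ i) x ≠ x)
    (θ : E) (hθ : ∏ i ∈ Finset.range n, (τ ^ i) θ = 1) :
    ∃ h : E, h ≠ 0 ∧ θ * τ h = h := by
  classical
  -- the partial products
  set c : ℕ → E := fun i => ∏ j ∈ Finset.range i, (τ ^ j) θ with hc
  have hc0 : c 0 = 1 := by simp [hc]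
  have hcn : c n = 1 := hθ
  have hcsucc : ∀ i, c (i + 1) = θ * τ (c i) := by
    intro i
    simp only [hc]
    rw [Finset.prod_range_succ', map_prod, pow_zero, RingAut.one_apply, mul_comm]
    congr 1
    refine Finset.prod_congr rfl fun j _ => ?_
    rw [pow_succ', RingAut.mul_apply]
  -- the characters `τ ^ i`, `i < n`, are pairwise distinct
  let χ : Fin n → (E →* E) := fun i => ((τ ^ (i : ℕ) : E ≃+* E) : E →+* E)
  have hχinj : Function.Injective χ := by
    intro i j hij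
    by_contra hne
    wlog hlt : (i : ℕ) < (j : ℕ) generalizing i j
    · exact this hij.symm (Ne.symm hne)
        (lt_of_le_of_ne (not_lt.mp hlt) (fun h => hne (Fin.ext h.symm)))
    obtain ⟨x, hx⟩ := hfaith ((j : ℕ) - (i : ℕ)) (by omega) (by omega)
    apply hx
    have h1 : ∀ y, (τ ^ (i : ℕ)) y = (τ ^ (j : ℕ)) y := fun y =>
      congrArg (fun f : E →* E => f y) hij
    have h2 : (τ ^ (j : ℕ)) x = (τ ^ (i : ℕ)) ((τ ^ ((j : ℕ) - (i : ℕ))) x) := by
      rw [← RingAut.mul_apply, ← pow_add]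
      congr 2
      omega
    have h3 := (h1 x).trans h2
    exact ((τ ^ (i : ℕ)).injective h3).symm
  have hli : LinearIndependent E (fun i : Fin n => (χ i : E → E)) :=
    (linearIndependent_monoidHom E E).comp χ hχinj
  -- so the resolvent does not vanish identically
  have hex : ∃ b : E, ∑ i : Fin n, c i * (τ ^ (i : ℕ)) b ≠ 0 := by
    by_contra hall
    have hall : ∀ b : E, ∑ i : Fin n, c i * (τ ^ (i : ℕ)) b = 0 := fun b =>
      not_not.mp (fun hb => hall ⟨b, hb⟩)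
    have hzero : ∑ i : Fin n, c i • (χ i : E → E) = 0 := by
      funext b
      simpa [χ] using hall b
    have := (Fintype.linearIndependent_iff.mp hli) (fun i => c i) hzero ⟨0, hn⟩
    simp [hc0] at this
  obtain ⟨b, hb⟩ := hex
  refine ⟨∑ i : Fin n, c i * (τ ^ (i : ℕ)) b, hb, ?_⟩
  rw [Fin.sum_univ_eq_sum_range (fun i => c i * (τ ^ i) b) n] at hb ⊢
  rw [map_sum, Finset.mul_sum]
  have hstep : ∀ i, θ * τ (c i * (τ ^ i) b) = c (i + 1) * (τ ^ (i + 1)) b := by
    intro i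
    rw [map_mul, ← mul_assoc, ← hcsucc, pow_succ', RingAut.mul_apply]
  simp only [hstep]
  have h1 := Finset.sum_range_succ' (fun i => c i * (τ ^ i) b) n
  have h2 := Finset.sum_range_succ (fun i => c i * (τ ^ i) b) n
  rw [h1] at h2
  simp only [pow_zero, RingAut.one_apply, hc0, hcn, hτn, one_mul] at h2
  exact add_right_cancel h2

end Hilbert90

/-- **Hilbert 90 for the deck transformation** of the Kummer cover: an element `θ` of the cover
with `∏ i < p, ρ ^ i θ = 1` is of the form `θ * ρ h = h`, `h ≠ 0`. -/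
theorem hilbert90_deck {p : ℕ} {K : F} {Z : Ω} (h : IsKummerRoot p K Z) {ζ : F}
    (hζ : IsPrimitiveRoot ζ p) (θ : F⟮Z⟯)
    (hθ : ∏ i ∈ Finset.range p, ((deck h ζ hζ.pow_eq_one) ^ i) θ = 1) :
    ∃ g : F⟮Z⟯, g ≠ 0 ∧ θ * deck h ζ hζ.pow_eq_one g = g := by
  have hpow : ∀ i : ℕ, ∀ x : F⟮Z⟯,
      (((deck h ζ hζ.pow_eq_one).toRingEquiv : F⟮Z⟯ ≃+* F⟮Z⟯) ^ i) x =
        ((deck h ζ hζ.pow_eq_one) ^ i) x := by
    intro i
    induction i with
    | zero => intro x; rfl
    | succ i ih =>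
      intro x
      rw [pow_succ', pow_succ', RingAut.mul_apply, AlgEquiv.mul_apply, ih]
      rfl
  obtain ⟨g, hg, hg'⟩ := hilbert90_of_pow_eq_one
    ((deck h ζ hζ.pow_eq_one).toRingEquiv) h.prime.pos
    (fun x => by rw [hpow, deck_pow_prime_apply])
    (fun i hi hip => ⟨AdjoinSimple.gen F Z, by
      rw [hpow, deck_pow_gen]
      intro heq
      have h1 : (algebraMap F F⟮Z⟯ (ζ ^ i) - 1) * AdjoinSimple.gen F Z = 0 := by
        rw [sub_mul, one_mul, heq, sub_self]
      rcases mul_eq_zero.mp h1 with h2 | h2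
      · have h3 : algebraMap F F⟮Z⟯ (ζ ^ i) = algebraMap F F⟮Z⟯ 1 := by
          rw [map_one]; exact sub_eq_zero.mp h2
        have h4 : ζ ^ i = 1 := (algebraMap F F⟮Z⟯).injective h3
        have hdvd := (hζ.pow_eq_one_iff_dvd _).mp h4
        exact absurd (Nat.eq_zero_of_dvd_of_lt hdvd hip) (by omega)
      · exact h.gen_ne_zero h2⟩)
    θ (by simpa only [hpow] using hθ)
  exact ⟨g, hg, hg'⟩

end Fermat.Agent.T8.helper86
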