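import Mathlib
import Fermat.Agent.T7.helper22_AttNF
import Fermat.Agent.T2.helper72_Interface

/-!
# T8 = row 38 via S44, leaf [SPLIT] (helper98, owner): CONTRACT

Split (tame) case of the wall: the inertia subgroup `I_K1 = {σ ∈ I_A : σ fixes μ_p}` fixes the
class `x` of the Kummer function `u`.  Then `u` can be replaced by a `K1`-RATIONAL Kummer function
`u' = c₀ * G ^ p * u` of the same class (Hilbert 90 in Poincare-series form, after normalising the
leading coefficient at `∞`).  The `K1`-version of the SLOPE corollary on `X` (leaf [SLOPE]) applied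
to `u'` gives `c(x) = β m`.  No cover.

* `IsIK1 A p σ`               : `σ ∈ I_A` and `σ` fixes the `p`-th roots of unity;
* `ClassFixedBy H n u`        : Kummer form of "`σ x = x` for all `σ ∈ H`";
* `FixedBy H u`               : `galF M σ u = u` for all `σ ∈ H`;
* `DescStatement M H n`       : the descent for a subgroup `H` of `Gal(ℚ̄/ℚ)` and an exponent `n`;
* `SplitDescStatement M A p`  : the descent for `I_K1` (predicate form, used by the chain).
-/

set_option autoImplicit false
set_option linter.unusedSectionVars false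
set_option linter.unusedVariables false

noncomputable section

namespace Fermat.Agent.T8.helper98

open HahnSeries ModularCurve
open Fermat.Agent.S18.helper19 Fermat.Agent.P2.helper29 Fermat.Agent.P2.helper93

/-- `σ` lies in the inertia group of `A` and fixes the `p`-th roots of unity (`σ ∈ I_K1`). -/
def IsIK1 (A : ValuationSubring Kb) (p : ℕ) (σ : Kb ≃ₐ[ℚ] Kb) : Prop :=
  σ ∈ A.inertiaSubgroupIn ℚ ∧ ∀ z : Kb, z ^ p = 1 → σ z = z

/-- Kummer form of "`σ x = x` for every `σ ∈ H`" for the class `x` of the function `u`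
(`n ∣ div u`): `σ u = c * v ^ n * u`. -/
def ClassFixedBy (M : ℕ) (H : (Kb ≃ₐ[ℚ] Kb) → Prop) (n : ℕ) (u : FF M) : Prop :=
  ∀ σ, H σ → ∃ (c : Kb) (v : FF M), galF M σ u = algebraMap Kb (FF M) c * v ^ n * u

/-- `u` is fixed by every `σ ∈ H` (coefficients in the fixed field of `H`). -/
def FixedBy (M : ℕ) (H : (Kb ≃ₐ[ℚ] Kb) → Prop) (u : FF M) : Prop :=
  ∀ σ, H σ → galF M σ u = u

/-- **[SPLIT-DESC]** for a subgroup `H` of `Gal(ℚ̄/ℚ)`: a Kummer function whose class is fixed by
`H` can be multiplied by a constant and an `n`-th power to become `H`-fixed, with leading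
coefficient `1` at `∞`. -/
def DescStatement (M : ℕ) (H : Subgroup (Kb ≃ₐ[ℚ] Kb)) (n : ℕ) : Prop :=
  ∀ u : FF M, u ≠ 0 → ClassFixedBy M (· ∈ H) n u →
    ∃ (c₀ : Kb) (G : FF M), c₀ ≠ 0 ∧ G ≠ 0 ∧
      FixedBy M (· ∈ H) (algebraMap Kb (FF M) c₀ * G ^ n * u) ∧
      ((algebraMap Kb (FF M) c₀ * G ^ n * u : FF M) : LaurentSeries Kb).leadingCoeff = 1

/-- **[SPLIT-DESC]** at `I_K1`: if `I_K1` fixes the class of `u`, there is a `K1`-rational Kummer
function `c₀ * G ^ p * u` of the same class, normalised at `∞`. -/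
def SplitDescStatement (M : ℕ) (A : ValuationSubring Kb) (p : ℕ) : Prop :=
  ∀ u : FF M, u ≠ 0 → ClassFixedBy M (IsIK1 A p) p u →
    ∃ (c₀ : Kb) (G : FF M), c₀ ≠ 0 ∧ G ≠ 0 ∧
      FixedBy M (IsIK1 A p) (algebraMap Kb (FF M) c₀ * G ^ p * u) ∧
      ((algebraMap Kb (FF M) c₀ * G ^ p * u : FF M) : LaurentSeries Kb).leadingCoeff = 1

end Fermat.Agent.T8.helper98

end
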