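import Mathlib
import Fermat.Agent.T8.helper86_CoverAlg
import Fermat.Agent.T8.helper98_SplitContract

/-!
# T8 = row 38 via S44, leaf [DESC] (helper83, owner): CONTRACT in project vocabulary

Level `M`, `F = FF M` inside `Ω = ℚ̄((q))`, `A` a valuation subring of `ℚ̄` over `p`,
`I_K1 = {σ ∈ I_A : σ fixes μ_p}` (`helper98.IsIK1`).  The cover is `F' = F⟮Z⟯`, `Z ^ p = K`,
`K` not a `p`-th power in `F` (`helper86.IsKummerRoot p K Z`), `ρ` = the deck transformation
`Z ↦ ζ Z` (`helper86.deck`).  `I_K1` acts on `Ω` coefficientwise (`coeffMap σ`).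

* `DescInput M A p K u Z ζ α` : the hypotheses.
    - `galZ` : `σ Z = w Z` with `w ∈ F` for `σ ∈ I_K1`
               (= the pair form of [COVER-GAL], `helper88.CoverGalPairStatement`, with `a = 1`);
    - `galu` : `σ α = ζ ^ j α` and `σ u = c v ^ p u K ^ j` for `σ ∈ I_K1`
               (= the last clause of `helper29.PeuShape`).
  NO normalisation of `K`, `Z`, `u` is asked from the consumer, NO choice of a generator `τ`,
  NO case distinction split / non-split: the normalisation by leading coefficients is internal.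
* `DescOutput hK hζ A u α` : **(D2)** there are a constant `c₀ ≠ 0` and `h ≠ 0` in `F'` such that
  `u' = h ^ p * (c₀ u)` is fixed by `I_K1` (the pull-back of the class of `u` to the cover is
  rational over `K1`); **(D3)** there is `g₁ ≠ 0` in `F'`, fixed by `I_K1`, with
  `ρ u' * α ^ p = g₁ ^ p * u'`.
* `DescStatement M A p` : **[DESC]** `DescInput ⟹ DescOutput`.

Formula `(*)` of the blueprint follows from `DescOutput` by `helper83.desc_star`-type
bookkeeping: for every valuation `w` on `F'`, `w (ρ u') = w u' + p w g₁ - w (α ^ p)`.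
-/

set_option autoImplicit false
set_option linter.unusedSectionVars false
set_option linter.unusedVariables false

noncomputable section

namespace Fermat.Agent.T8.helper83

open HahnSeries IntermediateField ModularCurve
open Fermat.Agent.S18.helper19 Fermat.Agent.P2.helper29 Fermat.Agent.P2.helper93

variable {M : ℕ} [NeZero M]

/-- the hypotheses of [DESC] -/
structure DescInput (M : ℕ) [NeZero M] (A : ValuationSubring Kb) (p : ℕ) (K u : FF M)
    (Z : LaurentSeries Kb) (ζ α : Kb) : Prop where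
  /-- `Z ^ p = K`, `K` is not a `p`-th power in `F` -/
  root : Fermat.Agent.T8.helper86.IsKummerRoot p K Z
  /-- `ζ` is a `p`-th root of unity -/
  zeta : ζ ^ p = 1
  alpha : α ≠ 0
  u_ne : u ≠ 0
  /-- the coefficientwise action of `I_K1` on the generator of the cover -/
  galZ : ∀ σ : Kb ≃ₐ[ℚ] Kb, Fermat.Agent.T8.helper98.IsIK1 A p σ →
    ∃ w : FF M, coeffMap (σ : Kb →+* Kb) Z = (w : LaurentSeries Kb) * Z
  /-- `I_K1` moves the class of `u` inside the line of `K` through the Kummer character of `α` -/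
  galu : ∀ σ : Kb ≃ₐ[ℚ] Kb, Fermat.Agent.T8.helper98.IsIK1 A p σ →
    ∃ (j : ℕ) (c : Kb) (v : FF M), σ α = ζ ^ j * α ∧ c ≠ 0 ∧ v ≠ 0 ∧
      galF M σ u = algebraMap Kb (FF M) c * v ^ p * u * K ^ j

/-- `ζ` as a `p`-th root of unity of `F` -/
theorem zeta_pow_FF {p : ℕ} {ζ : Kb} (hζ : ζ ^ p = 1) :
    (algebraMap Kb (FF M) ζ) ^ p = 1 := by
  rw [← map_pow, hζ, map_one]

/-- the conclusion of [DESC] -/
def DescOutput {p : ℕ} {K : FF M} {Z : LaurentSeries Kb} {ζ : Kb}
    (hK : Fermat.Agent.T8.helper86.IsKummerRoot p K Z) (hζ : ζ ^ p = 1)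
    (A : ValuationSubring Kb) (u : FF M) (α : Kb) : Prop :=
  ∃ (c₀ : Kb) (h g₁ u' : (FF M)⟮Z⟯), c₀ ≠ 0 ∧ h ≠ 0 ∧ g₁ ≠ 0 ∧
    u' = h ^ p * algebraMap (FF M) (FF M)⟮Z⟯ (algebraMap Kb (FF M) c₀ * u) ∧
    (∀ σ : Kb ≃ₐ[ℚ] Kb, Fermat.Agent.T8.helper98.IsIK1 A p σ →
      coeffMap (σ : Kb →+* Kb) (u' : LaurentSeries Kb) = (u' : LaurentSeries Kb)) ∧
    (∀ σ : Kb ≃ₐ[ℚ] Kb, Fermat.Agent.T8.helper98.IsIK1 A p σ →
      coeffMap (σ : Kb →+* Kb) (g₁ : LaurentSeries Kb) = (g₁ : LaurentSeries Kb)) ∧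
    Fermat.Agent.T8.helper86.deck hK (algebraMap Kb (FF M) ζ) (zeta_pow_FF hζ) u'
        * algebraMap (FF M) (FF M)⟮Z⟯ (algebraMap Kb (FF M) (α ^ p))
      = g₁ ^ p * u'

/-- **[DESC]** Kummer descent on the cyclic cover. -/
def DescStatement (M : ℕ) [NeZero M] (A : ValuationSubring Kb) (p : ℕ) : Prop :=
  ∀ (K u : FF M) (Z : LaurentSeries Kb) (ζ α : Kb) (hI : DescInput M A p K u Z ζ α),
    DescOutput hI.root hI.zeta A u α

end Fermat.Agent.T8.helper83

end
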