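import Mathlib
import Fermat.Agent.T8.helper98_SplitContract

/-!
# T8 = row 38 via S44, leaf [SPLIT] (helper98, owner): the descent (Hilbert 90, Poincare series)

`desc_statement : DescStatement M H n` for every subgroup `H` of `Gal(ℚ̄/ℚ)` and every `n > 0`:
a Kummer function `u` whose class is fixed by `H` (`σ u = c v ^ n u` for `σ ∈ H`) is, up to a
constant and an `n`-th power, fixed by `H`.  `splitDesc_statement : SplitDescStatement M A p`.

Proof.  Normalise the leading coefficient at `∞`: `u₁ = u / lc(u)`.  For `σ ∈ H` there is a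
UNIQUE `w_σ` with `lc(w_σ) = 1`, `σ u₁ = w_σ ^ n u₁`; uniqueness gives the cocycle relation
`w_{στ} = w_σ σ(w_τ)` and shows that `w_σ` only depends on the restriction of `σ` to a number
field `E₀` containing the coefficients of `u₁`.  Poincare series
`h = ∑_s w_s * s(θ)` over the finite set of restrictions `s = σ|E₀`, `σ ∈ H`; `τ h = h / w_τ`,
and `h ≠ 0` for a suitable `θ ∈ E₀` by Dedekind's independence of characters.
Then `h ^ n * u₁` is `H`-fixed.
-/

set_option autoImplicit false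
set_option linter.unusedSectionVars false
set_option linter.unusedVariables false

noncomputable section

namespace Fermat.Agent.T8.helper98

open HahnSeries ModularCurve
open Fermat.Agent.S18.helper19 Fermat.Agent.P2.helper93

variable {M : ℕ} [NeZero M]

/-! ### Leading coefficients -/

/-- the leading coefficient of the expansion at `∞` -/
def lcF (f : FF M) : Kb := (f : LaurentSeries Kb).leadingCoeff

theorem lcF_mul (f g : FF M) : lcF (f * g) = lcF f * lcF g := by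
  unfold lcF
  exact HahnSeries.leadingCoeff_mul _ _

theorem lcF_one : lcF (1 : FF M) = 1 := by
  unfold lcF
  exact HahnSeries.leadingCoeff_one

theorem lcF_pow (f : FF M) (n : ℕ) : lcF (f ^ n) = lcF f ^ n := by
  induction n with
  | zero => rw [pow_zero, pow_zero, lcF_one]
  | succ k ih => rw [pow_succ, lcF_mul, ih, pow_succ]

theorem coe_algebraMap_FF (c : Kb) :
    ((algebraMap Kb (FF M) c : FF M) : LaurentSeries Kb) = HahnSeries.single 0 c := by
  rw [← Fermat.Agent.P2.helper44.algebraMap_laurent_eq_single0]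
  rfl

theorem lcF_algebraMap (c : Kb) : lcF (algebraMap Kb (FF M) c) = c := by
  unfold lcF
  rw [coe_algebraMap_FF, HahnSeries.leadingCoeff_of_single]

theorem lcF_galF (σ : Kb ≃ₐ[ℚ] Kb) (f : FF M) : lcF (galF M σ f) = σ (lcF f) := by
  unfold lcF
  rw [HahnSeries.leadingCoeff_eq, HahnSeries.leadingCoeff_eq, coe_galF,
    Fermat.Agent.P2.helper44.order_coeffMap_of_injective _ (σ : Kb →+* Kb).injective,
    coeffMap_coeff]
  rfl

theorem lcF_ne_zero {f : FF M} (hf : f ≠ 0) : lcF f ≠ 0 := by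
  unfold lcF
  rw [HahnSeries.leadingCoeff_ne_zero]
  exact fun h => hf (Subtype.ext h)

theorem ne_zero_of_lcF_eq_one {f : FF M} (hf : lcF f = 1) : f ≠ 0 := by
  rintro rfl
  unfold lcF at hf
  rw [show (((0 : FF M) : LaurentSeries Kb)) = 0 from rfl, HahnSeries.leadingCoeff_zero] at hf
  exact zero_ne_one hf

/-- `n`-th roots with leading coefficient `1` are unique -/
theorem eq_of_pow_eq_of_lcF {n : ℕ} (hn : 0 < n) {w w' : FF M} (h : w ^ n = w' ^ n)
    (hw : lcF w = 1) (hw' : lcF w' = 1) : w = w' := by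
  have hw'0 : w' ≠ 0 := ne_zero_of_lcF_eq_one hw'
  have hρ : (w / w') ^ n = 1 := by rw [div_pow, h, div_self (pow_ne_zero _ hw'0)]
  have hρL : (((w / w' : FF M) : LaurentSeries Kb)) ^ n = 1 := by
    have := congrArg (fun z : FF M => (z : LaurentSeries Kb)) hρ
    simpa using this
  obtain ⟨ζ, -, hζeq⟩ := Fermat.Agent.T7.helper22.exists_const_of_pow_eq_one hn _ hρL
  have hρeq : w / w' = algebraMap Kb (FF M) ζ := by
    apply Subtype.ext
    rw [hζeq]
    rfl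
  have hlc : lcF (w / w') = 1 := by
    have h1 : lcF (w / w' * w') = lcF w := by rw [div_mul_cancel₀ _ hw'0]
    rw [lcF_mul, hw, hw', mul_one] at h1
    exact h1
  rw [hρeq, lcF_algebraMap] at hlc
  rw [hlc, map_one] at hρeq
  exact (div_eq_one_iff_eq hw'0).1 hρeq

/-! ### Normalisation and the cocycle -/

/-- the normalised Kummer function `u / lc(u)` -/
def normF (u : FF M) : FF M := algebraMap Kb (FF M) (lcF u)⁻¹ * u

theorem normF_ne_zero {u : FF M} (hu : u ≠ 0) : normF u ≠ 0 :=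
  mul_ne_zero ((map_ne_zero _).2 (inv_ne_zero (lcF_ne_zero hu))) hu

theorem lcF_normF {u : FF M} (hu : u ≠ 0) : lcF (normF u) = 1 := by
  unfold normF
  rw [lcF_mul, lcF_algebraMap, inv_mul_cancel₀ (lcF_ne_zero hu)]

/-- the normalised root: `σ u₁ = w ^ n u₁` with `lc(w) = 1` -/
theorem exists_root_of_classFixed {n : ℕ} (hn : 0 < n) {u : FF M} (hu : u ≠ 0)
    (σ : Kb ≃ₐ[ℚ] Kb)
    (h : ∃ (c : Kb) (v : FF M), galF M σ u = algebraMap Kb (FF M) c * v ^ n * u) :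
    ∃ w : FF M, lcF w = 1 ∧ galF M σ (normF u) = w ^ n * normF u := by
  obtain ⟨c, v, hcv⟩ := h
  have hσu : galF M σ u ≠ 0 := (map_ne_zero _).2 hu
  have hv0 : v ^ n ≠ 0 := by
    intro h0
    rw [h0, mul_zero, zero_mul] at hcv
    exact hσu hcv
  have hlv : lcF v ^ n ≠ 0 := by
    rw [← lcF_pow]
    exact lcF_ne_zero hv0
  have hlu : lcF u ≠ 0 := lcF_ne_zero hu
  have hlc : σ (lcF u) = c * lcF v ^ n * lcF u := by
    rw [← lcF_galF, hcv, lcF_mul, lcF_mul, lcF_algebraMap, lcF_pow]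
  refine ⟨algebraMap Kb (FF M) (lcF v)⁻¹ * v, ?_, ?_⟩
  · rw [lcF_mul, lcF_algebraMap]
    refine inv_mul_cancel₀ ?_
    intro h0
    rw [h0] at hlv
    exact hlv (zero_pow hn.ne')
  · unfold normF
    rw [map_mul, galF_algebraMap, hcv, mul_pow, ← map_pow]
    have hσ0 : σ (lcF u) ≠ 0 := by rw [hlc]; exact mul_ne_zero (mul_ne_zero (by
      intro h0; rw [h0, map_zero, zero_mul, zero_mul] at hcv; exact hσu hcv) hlv) hlu
    have key : (σ (lcF u)⁻¹) * c = ((lcF v)⁻¹) ^ n * (lcF u)⁻¹ := by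
      rw [map_inv₀, hlc, inv_pow]
      have hc0 : c ≠ 0 := by
        intro h0; rw [h0, map_zero, zero_mul, zero_mul] at hcv; exact hσu hcv
      field_simp
    calc algebraMap Kb (FF M) (σ (lcF u)⁻¹) * (algebraMap Kb (FF M) c * v ^ n * u)
        = algebraMap Kb (FF M) (σ (lcF u)⁻¹ * c) * v ^ n * u := by
          rw [map_mul]; ring
      _ = algebraMap Kb (FF M) (((lcF v)⁻¹) ^ n * (lcF u)⁻¹) * v ^ n * u := by rw [key]
      _ = algebraMap Kb (FF M) ((lcF v)⁻¹ ^ n) * v ^ n * (algebraMap Kb (FF M) (lcF u)⁻¹ * u) := by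
          rw [map_mul]; ring

theorem galF_mul (σ τ : Kb ≃ₐ[ℚ] Kb) (f : FF M) :
    galF M (σ * τ) f = galF M σ (galF M τ f) := by
  apply Subtype.ext
  rw [coe_galF, coe_galF, coe_galF, coeffMap_coeffMap]
  rfl

/-- `galF σ f` only depends on the restriction of `σ` to a field containing the coefficients -/
theorem galF_eq_of_agree (E₀ : IntermediateField ℚ Kb) {f : FF M}
    (hf : ∀ j, (f : LaurentSeries Kb).coeff j ∈ E₀) {σ τ : Kb ≃ₐ[ℚ] Kb}
    (h : ∀ x ∈ E₀, σ x = τ x) : galF M σ f = galF M τ f := by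
  apply Subtype.ext
  rw [coe_galF, coe_galF]
  ext j
  rw [coeffMap_coeff, coeffMap_coeff]
  exact h _ (hf j)

/-! ### The Poincare series -/

section Poincare

variable (H : Subgroup (Kb ≃ₐ[ℚ] Kb)) {n : ℕ}

/-- **Hilbert 90** in Poincare-series form: a normalised `u₁` with `σ u₁ = w_σ ^ n u₁`
(`lc(w_σ) = 1`) for all `σ ∈ H` becomes `H`-fixed after multiplication by an `n`-th power. -/
theorem exists_fixed_of_roots (hn : 0 < n) (u₁ : FF M) (hu₁ : lcF u₁ = 1)
    (hroot : ∀ σ ∈ H, ∃ w : FF M, lcF w = 1 ∧ galF M σ u₁ = w ^ n * u₁) :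
    ∃ h : FF M, h ≠ 0 ∧ ∀ τ ∈ H, galF M τ (h ^ n * u₁) = h ^ n * u₁ := by
  classical
  have hu₁0 : u₁ ≠ 0 := ne_zero_of_lcF_eq_one hu₁
  -- choose the roots
  have hroot' : ∀ σ : Kb ≃ₐ[ℚ] Kb, ∃ w : FF M,
      σ ∈ H → (lcF w = 1 ∧ galF M σ u₁ = w ^ n * u₁) := by
    intro σ
    by_cases hσ : σ ∈ H
    · obtain ⟨w, hw⟩ := hroot σ hσ
      exact ⟨w, fun _ => hw⟩
    · exact ⟨1, fun h => absurd h hσ⟩
  choose w hw using hroot'
  -- uniqueness
  have huniq : ∀ σ ∈ H, ∀ w' : FF M, lcF w' = 1 → galF M σ u₁ = w' ^ n * u₁ → w' = w σ := by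
    intro σ hσ w' hw'1 hw'
    apply eq_of_pow_eq_of_lcF hn _ hw'1 (hw σ hσ).1
    have h1 := (hw σ hσ).2
    rw [hw'] at h1
    exact mul_right_cancel₀ hu₁0 h1
  -- the cocycle relation
  have hcoc : ∀ σ ∈ H, ∀ τ ∈ H, w (σ * τ) = w σ * galF M σ (w τ) := by
    intro σ hσ τ hτ
    symm
    apply huniq (σ * τ) (H.mul_mem hσ hτ)
    · rw [lcF_mul, (hw σ hσ).1, lcF_galF, (hw τ hτ).1, map_one, mul_one]
    · rw [galF_mul, (hw τ hτ).2, map_mul, map_pow, (hw σ hσ).2]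
      ring
  -- the number field of the coefficients
  obtain ⟨S₀, hS₀⟩ :=
    Fermat.Agent.T7.helper22.exists_finset_coeff_mem M ⊤ (u₁ : LaurentSeries Kb) u₁.2
  obtain ⟨E₀, hE₀⟩ : ∃ E₀ : IntermediateField ℚ Kb,
      E₀ = IntermediateField.adjoin ℚ (S₀ : Set Kb) := ⟨_, rfl⟩
  have hfd : FiniteDimensional ℚ E₀ := by
    rw [hE₀]
    exact Fermat.Agent.T7.helper22.finiteDimensional_adjoin_finset' S₀
  have hcoef : ∀ j, (u₁ : LaurentSeries Kb).coeff j ∈ E₀ :=
    hS₀ E₀ (by rw [hE₀]; exact IntermediateField.subset_adjoin ℚ _)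
  -- restriction to `E₀`
  obtain ⟨res, hresdef⟩ : ∃ res : (Kb ≃ₐ[ℚ] Kb) → (E₀ →ₐ[ℚ] Kb),
      ∀ σ (x : E₀), res σ x = σ (x : Kb) :=
    ⟨fun σ => (σ : Kb →ₐ[ℚ] Kb).comp E₀.val, fun σ x => rfl⟩
  have hres : ∀ σ τ, res σ = res τ → ∀ x ∈ E₀, σ x = τ x := by
    intro σ τ h x hx
    have h1 := congrArg (fun f : E₀ →ₐ[ℚ] Kb => f ⟨x, hx⟩) h
    simp only [hresdef] at h1
    exact h1
  have hwres : ∀ σ ∈ H, ∀ τ ∈ H, res σ = res τ → w σ = w τ := by
    intro σ hσ τ hτ h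
    apply huniq τ hτ (w σ) (hw σ hσ).1
    rw [← galF_eq_of_agree E₀ hcoef (hres σ τ h)]
    exact (hw σ hσ).2
  -- the finite index type
  obtain ⟨T, hTiff⟩ : ∃ T : Set (E₀ →ₐ[ℚ] Kb), ∀ s, s ∈ T ↔ ∃ σ ∈ H, res σ = s :=
    ⟨{s | ∃ σ ∈ H, res σ = s}, fun s => Iff.rfl⟩
  have : Fintype T := Fintype.ofFinite T
  have hTmem : ∀ s : T, ∃ σ, σ ∈ H ∧ res σ = s.1 := by
    intro s
    obtain ⟨σ, hσ, h2⟩ := (hTiff s.1).1 s.2
    exact ⟨σ, hσ, h2⟩
  choose lift hlift using hTmem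
  have hmemT : ∀ σ ∈ H, res σ ∈ T := fun σ hσ => (hTiff _).2 ⟨σ, hσ, rfl⟩
  have hW0 : ∀ s : T, w (lift s) ≠ 0 := fun s => ne_zero_of_lcF_eq_one (hw _ (hlift s).1).1
  -- the action of `H` on the index type
  obtain ⟨act, hactdef⟩ : ∃ act : H → T → T, ∀ (τ : H) (s : T),
      (act τ s).1 = res (τ.1 * lift s) :=
    ⟨fun τ s => ⟨res (τ.1 * lift s), hmemT _ (H.mul_mem τ.2 (hlift s).1)⟩, fun τ s => rfl⟩
  have hact_val : ∀ (τ : H) (s : T) (x : E₀), (act τ s).1 x = τ.1 (s.1 x) := by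
    intro τ s x
    rw [hactdef, hresdef, ← (hlift s).2, hresdef]
    rfl
  have hact_inj : ∀ τ : H, Function.Injective (act τ) := by
    intro τ s s' h
    apply Subtype.ext
    ext x
    have h1 : (act τ s).1 x = (act τ s').1 x := by rw [h]
    rw [hact_val, hact_val] at h1
    exact τ.1.injective h1
  have hact_bij : ∀ τ : H, Function.Bijective (act τ) := fun τ =>
    Finite.injective_iff_bijective.1 (hact_inj τ)
  -- the Poincare series
  obtain ⟨hser, hserdef⟩ : ∃ hser : E₀ → FF M,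
      ∀ θ, hser θ = ∑ s : T, w (lift s) * algebraMap Kb (FF M) (s.1 θ) := ⟨_, fun θ => rfl⟩
  have htrans : ∀ τ ∈ H, ∀ θ, galF M τ (hser θ) * w τ = hser θ := by
    intro τ hτ θ
    rw [hserdef, map_sum, Finset.sum_mul,
      ← (hact_bij ⟨τ, hτ⟩).sum_comp (fun s => w (lift s) * algebraMap Kb (FF M) (s.1 θ))]
    refine Finset.sum_congr rfl fun s _ => ?_
    rw [map_mul, galF_algebraMap]
    have h1 : w (lift (act ⟨τ, hτ⟩ s)) = w τ * galF M τ (w (lift s)) := by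
      have h2 : w (lift (act ⟨τ, hτ⟩ s)) = w (τ * lift s) :=
        hwres _ (hlift _).1 _ (H.mul_mem hτ (hlift s).1)
          ((hlift (act ⟨τ, hτ⟩ s)).2.trans (hactdef ⟨τ, hτ⟩ s))
      rw [h2, hcoc τ hτ _ (hlift s).1]
    have h3 : (act ⟨τ, hτ⟩ s).1 θ = τ (s.1 θ) := hact_val ⟨τ, hτ⟩ s θ
    rw [h1, h3]
    ring
  -- nonvanishing by Dedekind
  have hne : ∃ θ, hser θ ≠ 0 := by
    by_contra hall
    push Not at hall
    obtain ⟨φ, hφdef⟩ : ∃ φ : T → (E₀ →* FF M),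
        ∀ (s : T) (θ : E₀), φ s θ = algebraMap Kb (FF M) (s.1 θ) :=
      ⟨fun s => ((algebraMap Kb (FF M)).comp (s.1 : E₀ →+* Kb) : E₀ →* FF M), fun s θ => rfl⟩
    have hφinj : Function.Injective φ := by
      intro s s' h
      apply Subtype.ext
      ext x
      have h1 : φ s x = φ s' x := by rw [h]
      rw [hφdef, hφdef] at h1
      exact (algebraMap Kb (FF M)).injective h1
    have hli := (linearIndependent_monoidHom E₀ (FF M)).comp φ hφinj
    have h0 := Fintype.linearIndependent_iff.1 hli (fun s => w (lift s)) (by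
      funext θ
      have h1 := hall θ
      rw [hserdef] at h1
      simp only [Function.comp_apply, Finset.sum_apply, Pi.smul_apply, smul_eq_mul, Pi.zero_apply]
      rw [← h1]
      refine Finset.sum_congr rfl fun s _ => ?_
      rw [hφdef])
    exact hW0 ⟨res 1, hmemT 1 H.one_mem⟩ (h0 _)
  obtain ⟨θ, hθ⟩ := hne
  refine ⟨hser θ, hθ, fun τ hτ => ?_⟩
  rw [map_mul, map_pow, (hw τ hτ).2]
  calc galF M τ (hser θ) ^ n * (w τ ^ n * u₁)
      = (galF M τ (hser θ) * w τ) ^ n * u₁ := by ring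
    _ = hser θ ^ n * u₁ := by rw [htrans τ hτ θ]

/-- **[SPLIT-DESC]** for every subgroup `H` and every `n > 0`. -/
theorem desc_statement (hn : 0 < n) : DescStatement M H n := by
  intro u hu hcl
  have hroot : ∀ σ ∈ H, ∃ w : FF M, lcF w = 1 ∧ galF M σ (normF u) = w ^ n * normF u :=
    fun σ hσ => exists_root_of_classFixed hn hu σ (hcl σ hσ)
  obtain ⟨h, hh0, hfix⟩ := exists_fixed_of_roots H hn (normF u) (lcF_normF hu) hroot
  have hlh : lcF h ^ n ≠ 0 := pow_ne_zero _ (lcF_ne_zero hh0)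
  have hlu : lcF u ≠ 0 := lcF_ne_zero hu
  have hform : algebraMap Kb (FF M) ((lcF h ^ n)⁻¹ * (lcF u)⁻¹) * h ^ n * u
      = algebraMap Kb (FF M) (lcF h ^ n)⁻¹ * (h ^ n * normF u) := by
    unfold normF
    rw [map_mul]
    ring
  have hlcu' : lcF (h ^ n * normF u) = lcF h ^ n := by
    rw [lcF_mul, lcF_pow, lcF_normF hu, mul_one]
  refine ⟨(lcF h ^ n)⁻¹ * (lcF u)⁻¹, h, mul_ne_zero (inv_ne_zero hlh) (inv_ne_zero hlu), hh0,
    ?_, ?_⟩
  · intro τ hτ
    rw [hform, map_mul, galF_algebraMap, hfix τ hτ]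
    have h1 : τ (lcF h ^ n) = lcF h ^ n := by
      rw [← hlcu', ← lcF_galF, hfix τ hτ]
    rw [map_inv₀, h1]
  · rw [hform]
    show lcF (algebraMap Kb (FF M) (lcF h ^ n)⁻¹ * (h ^ n * normF u)) = 1
    rw [lcF_mul, lcF_algebraMap, hlcu', inv_mul_cancel₀ hlh]

end Poincare

/-! ### The subgroup `I_K1` -/

/-- the subgroup `I_K1` of the inertia group of `A` fixing the `p`-th roots of unity -/
def ik1Subgroup (A : ValuationSubring Kb) (p : ℕ) : Subgroup (Kb ≃ₐ[ℚ] Kb) where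
  carrier := {σ | IsIK1 A p σ}
  mul_mem' := by
    intro σ τ hσ hτ
    refine ⟨(A.inertiaSubgroupIn ℚ).mul_mem hσ.1 hτ.1, fun z hz => ?_⟩
    show σ (τ z) = z
    rw [hτ.2 z hz, hσ.2 z hz]
  one_mem' := ⟨(A.inertiaSubgroupIn ℚ).one_mem, fun z _ => rfl⟩
  inv_mem' := by
    intro σ hσ
    refine ⟨(A.inertiaSubgroupIn ℚ).inv_mem hσ.1, fun z hz => ?_⟩
    have h1 : σ z = z := hσ.2 z hz
    calc σ⁻¹ z = σ⁻¹ (σ z) := by rw [h1]
      _ = z := by
          show σ.symm (σ z) = z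
          exact σ.symm_apply_apply z

theorem mem_ik1Subgroup {A : ValuationSubring Kb} {p : ℕ} {σ : Kb ≃ₐ[ℚ] Kb} :
    σ ∈ ik1Subgroup A p ↔ IsIK1 A p σ := Iff.rfl

/-- **[SPLIT-DESC]** at `I_K1`. -/
theorem splitDesc_statement (A : ValuationSubring Kb) {p : ℕ} (hp : 0 < p) :
    SplitDescStatement M A p := by
  intro u hu hcl
  obtain ⟨c₀, G, hc₀, hG, hfix, hlc⟩ := desc_statement (M := M) (ik1Subgroup A p) hp u hu
    (fun σ hσ => hcl σ (mem_ik1Subgroup.1 hσ))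
  exact ⟨c₀, G, hc₀, hG, fun σ hσ => hfix σ (mem_ik1Subgroup.2 hσ), hlc⟩

end Fermat.Agent.T8.helper98

end
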