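import Mathlib
import Fermat.Agent.T8.helper83_DescContract
import Fermat.Agent.T8.helper34_H90
import Fermat.Agent.T8.helper98_SplitDesc

/-!
# T8 = row 38 via S44, leaf [DESC] (helper83, owner): PROOF of the contract

`descStatement : DescStatement M A p` for every level `M`, every valuation subring `A` and every
`p` (the primality of `p` is part of `DescInput.root`).

Proof.  Normalise `u` by its leading coefficient at `∞`: `u₁ = u / lc(u)`.  The group `I_K1`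
acts on the cover `E = F⟮Z⟯` coefficientwise (`galZ`).  `Nrm x := lc(x) = 1` has unique
normalised `p`-th roots (a `p`-th root of unity of `ℚ̄((q))` is a constant).  For `σ ∈ I_K1` the
normalised root of `σ u₁ / u₁` is `v_σ = f Z ^ j`, `f ∈ F`, where `σ α = ζ ^ j α` (`galu`).  The
orbit of `u₁` is finite (its coefficients lie in a number field), so
`helper34.exists_descent` gives `h ≠ 0` with `u' = h ^ p u₁` fixed by `I_K1`.  Then
`σ h = ε h / v_σ` with a constant `ε`, the deck transformation `ρ` commutes with `σ`, and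
`ρ v_σ = ζ ^ j v_σ`, hence `g₁ = α ρ(h) / h` is fixed by `I_K1`; `ρ u' α ^ p = g₁ ^ p u'`.
-/

set_option autoImplicit false
set_option linter.unusedSectionVars false
set_option linter.unusedVariables false
set_option linter.style.longLine false

noncomputable section

namespace Fermat.Agent.T8.helper83

open HahnSeries IntermediateField ModularCurve
open Fermat.Agent.S18.helper19 Fermat.Agent.P2.helper29 Fermat.Agent.P2.helper93
open Fermat.Agent.T8.helper98 (IsIK1 lcF normF)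

/-! ### Laurent series: leading coefficients -/

/-- the leading coefficient of the conjugate series -/
theorem lc_coeffMap (σ : Kb ≃ₐ[ℚ] Kb) (x : LaurentSeries Kb) :
    (coeffMap (σ : Kb →+* Kb) x).leadingCoeff = σ x.leadingCoeff := by
  rw [HahnSeries.leadingCoeff_eq, HahnSeries.leadingCoeff_eq,
    Fermat.Agent.P2.helper44.order_coeffMap_of_injective _ (σ : Kb →+* Kb).injective,
    coeffMap_coeff]
  rfl

/-- `n`-th roots with leading coefficient `1` are unique in `ℚ̄((q))` -/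
theorem eq_of_pow_eq_of_lc {n : ℕ} (hn : 0 < n) {a b : LaurentSeries Kb} (h : a ^ n = b ^ n)
    (ha : a.leadingCoeff = 1) (hb : b.leadingCoeff = 1) : a = b := by
  have hb0 : b ≠ 0 := by
    rintro rfl
    rw [HahnSeries.leadingCoeff_zero] at hb
    exact zero_ne_one hb
  have hρ : (a / b) ^ n = 1 := by rw [div_pow, h, div_self (pow_ne_zero _ hb0)]
  obtain ⟨ε, -, hε⟩ := Fermat.Agent.T7.helper22.exists_const_of_pow_eq_one hn _ hρ
  have hab : a = algebraMap Kb (LaurentSeries Kb) ε * b := by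
    rw [← hε, div_mul_cancel₀ _ hb0]
  have hlc : a.leadingCoeff = ε * b.leadingCoeff := by
    rw [hab, HahnSeries.leadingCoeff_mul,
      Fermat.Agent.P2.helper44.algebraMap_laurent_eq_single0, HahnSeries.leadingCoeff_of_single]
  rw [ha, hb, mul_one] at hlc
  rw [hab, ← hlc, map_one, one_mul]

/-! ### Finite orbits -/

variable {M : ℕ} [NeZero M]

/-- the Galois orbit of a modular function is finite -/
theorem finite_range_galF (f : FF M) :
    (Set.range fun σ : Kb ≃ₐ[ℚ] Kb => galF M σ f).Finite := by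
  classical
  obtain ⟨S₀, hS₀⟩ :=
    Fermat.Agent.T7.helper22.exists_finset_coeff_mem M ⊤ (f : LaurentSeries Kb) f.2
  obtain ⟨E₀, hE₀⟩ : ∃ E₀ : IntermediateField ℚ Kb,
      E₀ = IntermediateField.adjoin ℚ (S₀ : Set Kb) := ⟨_, rfl⟩
  have hfd : FiniteDimensional ℚ E₀ := by
    rw [hE₀]
    exact Fermat.Agent.T7.helper22.finiteDimensional_adjoin_finset' S₀
  have hcoef : ∀ j, (f : LaurentSeries Kb).coeff j ∈ E₀ :=
    hS₀ E₀ (by rw [hE₀]; exact IntermediateField.subset_adjoin ℚ _)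
  obtain ⟨res, hresdef⟩ : ∃ res : (Kb ≃ₐ[ℚ] Kb) → (E₀ →ₐ[ℚ] Kb),
      ∀ σ (x : E₀), res σ x = σ (x : Kb) :=
    ⟨fun σ => (σ : Kb →ₐ[ℚ] Kb).comp E₀.val, fun σ x => rfl⟩
  have hres : ∀ σ τ, res σ = res τ → ∀ x ∈ E₀, σ x = τ x := by
    intro σ τ h x hx
    have h1 := congrArg (fun g : E₀ →ₐ[ℚ] Kb => g ⟨x, hx⟩) h
    simp only [hresdef] at h1
    exact h1
  let g : (E₀ →ₐ[ℚ] Kb) → FF M := fun s =>
    if hs : ∃ σ, res σ = s then galF M hs.choose f else 0
  have hfin : (Set.range g).Finite := Set.finite_range g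
  refine hfin.subset ?_
  rintro _ ⟨σ, rfl⟩
  have hs : ∃ τ, res τ = res σ := ⟨σ, rfl⟩
  refine ⟨res σ, ?_⟩
  show (if hs : ∃ τ, res τ = res σ then galF M hs.choose f else 0) = galF M σ f
  rw [dif_pos hs]
  exact Fermat.Agent.T8.helper98.galF_eq_of_agree E₀ hcoef (hres _ _ hs.choose_spec)

/-! ### The action of `I_K1` on the cover -/

section Action

variable {A : ValuationSubring Kb} {p : ℕ} {K u : FF M} {Z : LaurentSeries Kb} {ζ α : Kb}

/-- the coefficientwise action maps `F` into `F` -/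
theorem coeffMap_mem_range_FF (σ : Kb ≃ₐ[ℚ] Kb) (x : FF M) :
    coeffMap (σ : Kb →+* Kb) (algebraMap (FF M) (LaurentSeries Kb) x)
      ∈ Set.range (algebraMap (FF M) (LaurentSeries Kb)) :=
  ⟨galF M σ x, rfl⟩

/-- the coefficientwise action of `I_K1` maps `Z` into the cover -/
theorem coeffMap_gen_mem (hI : DescInput M A p K u Z ζ α) (σ : Kb ≃ₐ[ℚ] Kb)
    (hσ : IsIK1 A p σ) : coeffMap (σ : Kb →+* Kb) Z ∈ (FF M)⟮Z⟯ := by
  obtain ⟨w, hw⟩ := hI.galZ σ hσ
  rw [hw]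
  exact mul_mem ((FF M)⟮Z⟯.algebraMap_mem w) (mem_adjoin_simple_self (FF M) Z)

/-- the action of `I_K1` on the cover -/
def actE (hI : DescInput M A p K u Z ζ α) (σ : Fermat.Agent.T8.helper98.ik1Subgroup A p) :
    (FF M)⟮Z⟯ →+* (FF M)⟮Z⟯ :=
  Fermat.Agent.T8.helper86.semiMap hI.root.isIntegral
    (coeffMap (((σ : Kb ≃ₐ[ℚ] Kb)) : Kb →+* Kb)) (coeffMap_mem_range_FF (σ : Kb ≃ₐ[ℚ] Kb))
    (coeffMap_gen_mem hI σ.1 σ.2)

theorem coe_actE (hI : DescInput M A p K u Z ζ α)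
    (σ : Fermat.Agent.T8.helper98.ik1Subgroup A p) (x : (FF M)⟮Z⟯) :
    ((actE hI σ x : (FF M)⟮Z⟯) : LaurentSeries Kb)
      = coeffMap (((σ : Kb ≃ₐ[ℚ] Kb)) : Kb →+* Kb) (x : LaurentSeries Kb) := rfl

theorem actE_one (hI : DescInput M A p K u Z ζ α) (x : (FF M)⟮Z⟯) : actE hI 1 x = x := by
  apply Subtype.ext
  rw [coe_actE]
  have h1 : (((1 : Fermat.Agent.T8.helper98.ik1Subgroup A p) : Kb ≃ₐ[ℚ] Kb) : Kb →+* Kb)
      = RingHom.id Kb := by
    ext a
    rfl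
  rw [coeffMap_congr h1, coeffMap_id]

theorem actE_mul (hI : DescInput M A p K u Z ζ α)
    (σ τ : Fermat.Agent.T8.helper98.ik1Subgroup A p) (x : (FF M)⟮Z⟯) :
    actE hI (σ * τ) x = actE hI σ (actE hI τ x) := by
  apply Subtype.ext
  rw [coe_actE, coe_actE, coe_actE, coeffMap_coeffMap]
  rfl

theorem actE_algebraMap (hI : DescInput M A p K u Z ζ α)
    (σ : Fermat.Agent.T8.helper98.ik1Subgroup A p) (f : FF M) :
    actE hI σ (algebraMap (FF M) (FF M)⟮Z⟯ f)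
      = algebraMap (FF M) (FF M)⟮Z⟯ (galF M (σ : Kb ≃ₐ[ℚ] Kb) f) := by
  apply Subtype.ext
  rw [coe_actE]
  rfl

/-- the action commutes with the deck transformation -/
theorem deck_actE (hI : DescInput M A p K u Z ζ α)
    (σ : Fermat.Agent.T8.helper98.ik1Subgroup A p) (x : (FF M)⟮Z⟯) :
    Fermat.Agent.T8.helper86.deck hI.root (algebraMap Kb (FF M) ζ) (zeta_pow_FF hI.zeta)
        (actE hI σ x)
      = actE hI σ (Fermat.Agent.T8.helper86.deck hI.root (algebraMap Kb (FF M) ζ)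
          (zeta_pow_FF hI.zeta) x) := by
  obtain ⟨w, hw⟩ := hI.galZ σ.1 σ.2
  have hσζ : coeffMap (((σ : Kb ≃ₐ[ℚ] Kb)) : Kb →+* Kb)
      (algebraMap (FF M) (LaurentSeries Kb) (algebraMap Kb (FF M) ζ))
      = algebraMap (FF M) (LaurentSeries Kb) ((algebraMap Kb (FF M) ζ) ^ 1) := by
    rw [pow_one]
    have h1 : galF M (σ : Kb ≃ₐ[ℚ] Kb) (algebraMap Kb (FF M) ζ) = algebraMap Kb (FF M) ζ := by
      rw [galF_algebraMap, σ.2.2 ζ hI.zeta]
    exact congrArg (fun y : FF M => (y : LaurentSeries Kb)) h1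
  have hσZ : coeffMap (((σ : Kb ≃ₐ[ℚ] Kb)) : Kb →+* Kb) Z
      = algebraMap (FF M) (LaurentSeries Kb) w * Z ^ 1 := by
    rw [pow_one]
    exact hw
  exact (Fermat.Agent.T8.helper86.semiMap_comm_deck hI.root (algebraMap Kb (FF M) ζ)
    (zeta_pow_FF hI.zeta) (coeffMap (((σ : Kb ≃ₐ[ℚ] Kb)) : Kb →+* Kb))
    (coeffMap_mem_range_FF (σ : Kb ≃ₐ[ℚ] Kb)) (coeffMap_gen_mem hI σ.1 σ.2) 1 w hσζ hσZ x).symm

end Action

/-! ### The normalised roots -/

section Roots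

variable {A : ValuationSubring Kb} {p : ℕ} {K u : FF M} {Z : LaurentSeries Kb} {ζ α : Kb}

theorem lc_pow (x : LaurentSeries Kb) (n : ℕ) : (x ^ n).leadingCoeff = x.leadingCoeff ^ n := by
  induction n with
  | zero => rw [pow_zero, pow_zero, HahnSeries.leadingCoeff_one]
  | succ k ih => rw [pow_succ, HahnSeries.leadingCoeff_mul, ih, pow_succ]

/-- the leading coefficient of `K` is the `p`-th power of the leading coefficient of `Z` -/
theorem lcF_root (hI : DescInput M A p K u Z ζ α) : lcF K = Z.leadingCoeff ^ p := by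
  unfold lcF
  rw [← lc_pow, hI.root.pow_eq]
  rfl

/-- **the normalised root of `σ u₁ / u₁`**: it is `f Z ^ j` with `f ∈ F` and `σ α = ζ ^ j α`. -/
theorem exists_root (hI : DescInput M A p K u Z ζ α)
    (σ : Fermat.Agent.T8.helper98.ik1Subgroup A p) :
    ∃ (j : ℕ) (f : FF M), (σ : Kb ≃ₐ[ℚ] Kb) α = ζ ^ j * α ∧
      (((algebraMap (FF M) (FF M)⟮Z⟯ f * AdjoinSimple.gen (FF M) Z ^ j : (FF M)⟮Z⟯) :
        LaurentSeries Kb)).leadingCoeff = 1 ∧
      actE hI σ (algebraMap (FF M) (FF M)⟮Z⟯ (normF u))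
        = (algebraMap (FF M) (FF M)⟮Z⟯ f * AdjoinSimple.gen (FF M) Z ^ j) ^ p
          * algebraMap (FF M) (FF M)⟮Z⟯ (normF u) := by
  obtain ⟨j, c, v, hα, hc, hv, hgal⟩ := hI.galu σ.1 σ.2
  have hp : 0 < p := hI.root.prime.pos
  have hu0 : lcF u ≠ 0 := Fermat.Agent.T8.helper98.lcF_ne_zero hI.u_ne
  have hvl : lcF v ≠ 0 := Fermat.Agent.T8.helper98.lcF_ne_zero hv
  have hZ0 : Z ≠ 0 := hI.root.ne_zero
  have hZl : Z.leadingCoeff ≠ 0 := HahnSeries.leadingCoeff_ne_zero.2 hZ0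
  obtain ⟨l, hl⟩ : ∃ l : Kb, l = lcF v * Z.leadingCoeff ^ j := ⟨_, rfl⟩
  have hl0 : l ≠ 0 := by
    rw [hl]
    exact mul_ne_zero hvl (pow_ne_zero _ hZl)
  -- the equation of the leading coefficients
  have hlc : (σ : Kb ≃ₐ[ℚ] Kb) (lcF u) = c * l ^ p * lcF u := by
    have h1 := congrArg lcF hgal
    rw [Fermat.Agent.T8.helper98.lcF_galF, Fermat.Agent.T8.helper98.lcF_mul,
      Fermat.Agent.T8.helper98.lcF_mul, Fermat.Agent.T8.helper98.lcF_mul,
      Fermat.Agent.T8.helper98.lcF_algebraMap, Fermat.Agent.T8.helper98.lcF_pow,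
      Fermat.Agent.T8.helper98.lcF_pow, lcF_root hI] at h1
    rw [h1, hl]
    ring
  have hσu0 : (σ : Kb ≃ₐ[ℚ] Kb) (lcF u) ≠ 0 := by
    rw [hlc]
    exact mul_ne_zero (mul_ne_zero hc (pow_ne_zero _ hl0)) hu0
  have hconst : (σ : Kb ≃ₐ[ℚ] Kb) (lcF u)⁻¹ * c = (l⁻¹) ^ p * (lcF u)⁻¹ := by
    rw [map_inv₀, hlc, inv_pow]
    field_simp
  -- the conjugate of the normalised function
  have hF : galF M (σ : Kb ≃ₐ[ℚ] Kb) (normF u)
      = (algebraMap Kb (FF M) l⁻¹ * v) ^ p * K ^ j * normF u := by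
    unfold normF
    rw [map_mul, galF_algebraMap, hgal]
    calc algebraMap Kb (FF M) ((σ : Kb ≃ₐ[ℚ] Kb) (lcF u)⁻¹)
          * (algebraMap Kb (FF M) c * v ^ p * u * K ^ j)
        = algebraMap Kb (FF M) ((σ : Kb ≃ₐ[ℚ] Kb) (lcF u)⁻¹ * c) * v ^ p * u * K ^ j := by
          rw [map_mul]; ring
      _ = algebraMap Kb (FF M) ((l⁻¹) ^ p * (lcF u)⁻¹) * v ^ p * u * K ^ j := by rw [hconst]
      _ = (algebraMap Kb (FF M) l⁻¹ * v) ^ p * K ^ j
            * (algebraMap Kb (FF M) (lcF u)⁻¹ * u) := by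
          rw [map_mul, map_pow]; ring
  refine ⟨j, algebraMap Kb (FF M) l⁻¹ * v, hα, ?_, ?_⟩
  · have e : (((algebraMap (FF M) (FF M)⟮Z⟯ (algebraMap Kb (FF M) l⁻¹ * v)
        * AdjoinSimple.gen (FF M) Z ^ j : (FF M)⟮Z⟯) : LaurentSeries Kb))
        = ((algebraMap Kb (FF M) l⁻¹ : FF M) : LaurentSeries Kb) * (v : LaurentSeries Kb)
          * Z ^ j := rfl
    rw [e, HahnSeries.leadingCoeff_mul, HahnSeries.leadingCoeff_mul, lc_pow]
    have e1 : (((algebraMap Kb (FF M) l⁻¹ : FF M) : LaurentSeries Kb)).leadingCoeff = l⁻¹ :=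
      Fermat.Agent.T8.helper98.lcF_algebraMap l⁻¹
    have e2 : ((v : LaurentSeries Kb)).leadingCoeff = lcF v := rfl
    rw [e1, e2, mul_assoc, ← hl, inv_mul_cancel₀ hl0]
  · rw [actE_algebraMap, hF, map_mul, map_mul, map_pow, map_pow, ← hI.root.gen_pow]
    ring

end Roots

/-! ### The descent -/

section Main

variable {A : ValuationSubring Kb} {p : ℕ} {K u : FF M} {Z : LaurentSeries Kb} {ζ α : Kb}

/-- a `p`-th root of unity of the cover is a constant, hence fixed by the deck transformation -/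
theorem deck_eq_of_pow_eq_one (hI : DescInput M A p K u Z ζ α) {ε : (FF M)⟮Z⟯}
    (hε : ε ^ p = 1) :
    Fermat.Agent.T8.helper86.deck hI.root (algebraMap Kb (FF M) ζ) (zeta_pow_FF hI.zeta) ε
      = ε := by
  have h1 : ((ε : (FF M)⟮Z⟯) : LaurentSeries Kb) ^ p = 1 := by
    have := congrArg (fun x : (FF M)⟮Z⟯ => (x : LaurentSeries Kb)) hε
    simpa using this
  obtain ⟨ε₀, -, hε₀⟩ :=
    Fermat.Agent.T7.helper22.exists_const_of_pow_eq_one hI.root.prime.pos _ h1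
  have h2 : ε = algebraMap (FF M) (FF M)⟮Z⟯ (algebraMap Kb (FF M) ε₀) := by
    apply Subtype.ext
    rw [hε₀]
    rfl
  rw [h2, AlgEquiv.commutes]

/-- the final relation, in any field -/
theorem final_rel {E : Type*} [Field E] {a r h U : E} (p : ℕ) (hh : h ≠ 0) :
    r ^ p * U * a ^ p = (a * r / h) ^ p * (h ^ p * U) := by
  have hhp : h ^ p ≠ 0 := pow_ne_zero _ hh
  rw [div_pow, mul_pow]
  field_simp

/-- **[DESC]**: the contract holds at every level, for every valuation subring and every `p`. -/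
theorem descStatement (M : ℕ) [NeZero M] (A : ValuationSubring Kb) (p : ℕ) :
    DescStatement M A p := by
  intro K u Z ζ α hI
  classical
  have hp : 0 < p := hI.root.prime.pos
  have hu₁0 : normF u ≠ 0 := Fermat.Agent.T8.helper98.normF_ne_zero hI.u_ne
  obtain ⟨U, hUdef⟩ : ∃ U : (FF M)⟮Z⟯, U = algebraMap (FF M) (FF M)⟮Z⟯ (normF u) := ⟨_, rfl⟩
  have hU0 : U ≠ 0 := by
    rw [hUdef]
    exact (map_ne_zero _).2 hu₁0
  obtain ⟨ρ, hρdef⟩ : ∃ ρ : (FF M)⟮Z⟯ ≃ₐ[FF M] (FF M)⟮Z⟯,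
      ρ = Fermat.Agent.T8.helper86.deck hI.root (algebraMap Kb (FF M) ζ)
        (zeta_pow_FF hI.zeta) := ⟨_, rfl⟩
  -- the normalisation
  obtain ⟨Nrm, hNrm⟩ : ∃ Nrm : (FF M)⟮Z⟯ → Prop,
      ∀ x, Nrm x ↔ ((x : (FF M)⟮Z⟯) : LaurentSeries Kb).leadingCoeff = 1 :=
    ⟨fun x => ((x : (FF M)⟮Z⟯) : LaurentSeries Kb).leadingCoeff = 1, fun x => Iff.rfl⟩
  have hN_mul : ∀ a b, Nrm a → Nrm b → Nrm (a * b) := by
    intro a b ha hb
    rw [hNrm] at ha hb ⊢
    have e : (((a * b : (FF M)⟮Z⟯)) : LaurentSeries Kb)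
        = (a : LaurentSeries Kb) * (b : LaurentSeries Kb) := rfl
    rw [e, HahnSeries.leadingCoeff_mul, ha, hb, mul_one]
  have hN_act : ∀ σ ∈ (⊤ : Subgroup (Fermat.Agent.T8.helper98.ik1Subgroup A p)),
      ∀ a, Nrm a → Nrm (actE hI σ a) := by
    intro σ _ a ha
    rw [hNrm] at ha ⊢
    rw [coe_actE, lc_coeffMap, ha, map_one]
  have hN_uniq : ∀ a b, Nrm a → Nrm b → a ^ p = b ^ p → a = b := by
    intro a b ha hb hab
    rw [hNrm] at ha hb
    apply Subtype.ext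
    refine eq_of_pow_eq_of_lc hp ?_ ha hb
    have := congrArg (fun x : (FF M)⟮Z⟯ => (x : LaurentSeries Kb)) hab
    simpa using this
  -- the orbit is finite
  have hfin : (Set.range fun σ : (⊤ : Subgroup (Fermat.Agent.T8.helper98.ik1Subgroup A p)) =>
      actE hI (σ : Fermat.Agent.T8.helper98.ik1Subgroup A p) U).Finite := by
    refine ((finite_range_galF (normF u)).image (algebraMap (FF M) (FF M)⟮Z⟯)).subset ?_
    rintro _ ⟨σ, rfl⟩
    refine ⟨galF M ((σ : Fermat.Agent.T8.helper98.ik1Subgroup A p) : Kb ≃ₐ[ℚ] Kb) (normF u),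
      ⟨_, rfl⟩, ?_⟩
    show algebraMap (FF M) (FF M)⟮Z⟯ (galF M _ (normF u)) = actE hI _ U
    rw [hUdef, actE_algebraMap]
  -- the roots
  have hroot : ∀ σ ∈ (⊤ : Subgroup (Fermat.Agent.T8.helper98.ik1Subgroup A p)),
      ∃ v : (FF M)⟮Z⟯, Nrm v ∧ actE hI σ U = v ^ p * U := by
    intro σ _
    obtain ⟨j, f, -, h1, h2⟩ := exists_root hI σ
    refine ⟨_, (hNrm _).2 h1, ?_⟩
    rw [hUdef]
    exact h2
  obtain ⟨h, hh0, hfix⟩ := Fermat.Agent.T8.helper34.exists_descent (actE hI) (actE_one hI)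
    (actE_mul hI) ⊤ hp.ne' Nrm hN_mul hN_act hN_uniq hU0 hfin hroot
  -- (D3)
  have hρh0 : ρ h ≠ 0 := (map_ne_zero _).2 hh0
  have hα0 : algebraMap (FF M) (FF M)⟮Z⟯ (algebraMap Kb (FF M) α) ≠ 0 :=
    (map_ne_zero _).2 ((map_ne_zero _).2 hI.alpha)
  have hζ0 : algebraMap (FF M) (FF M)⟮Z⟯ (algebraMap Kb (FF M) ζ) ≠ 0 := by
    refine (map_ne_zero _).2 ((map_ne_zero _).2 ?_)
    intro h0
    have := hI.zeta
    rw [h0, zero_pow hp.ne'] at this
    exact zero_ne_one this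
  obtain ⟨g₁, hg₁def⟩ : ∃ g₁ : (FF M)⟮Z⟯,
      g₁ = algebraMap (FF M) (FF M)⟮Z⟯ (algebraMap Kb (FF M) α) * ρ h / h := ⟨_, rfl⟩
  have hg₁0 : g₁ ≠ 0 := by
    rw [hg₁def]
    exact div_ne_zero (mul_ne_zero hα0 hρh0) hh0
  have hg₁fix : ∀ σ : Fermat.Agent.T8.helper98.ik1Subgroup A p, actE hI σ g₁ = g₁ := by
    intro σ
    obtain ⟨j, f, hσα, -, hact⟩ := exists_root hI σ
    rw [← hUdef] at hact
    obtain ⟨V, hVdef⟩ : ∃ V : (FF M)⟮Z⟯,
        V = algebraMap (FF M) (FF M)⟮Z⟯ f * AdjoinSimple.gen (FF M) Z ^ j := ⟨_, rfl⟩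
    rw [← hVdef] at hact
    have hσU0 : actE hI σ U ≠ 0 := (map_ne_zero _).2 hU0
    have hV0 : V ≠ 0 := by
      rintro rfl
      rw [zero_pow hp.ne', zero_mul] at hact
      exact hσU0 hact
    have hρV : ρ V = (algebraMap (FF M) (FF M)⟮Z⟯ (algebraMap Kb (FF M) ζ)) ^ j * V := by
      rw [hVdef, map_mul, map_pow, hρdef, AlgEquiv.commutes,
        Fermat.Agent.T8.helper86.deck_gen]
      ring
    have h1 := hfix σ (Subgroup.mem_top σ)
    rw [map_mul, map_pow, hact] at h1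
    have h2 : (actE hI σ h * V / h) ^ p = 1 := by
      have h3 : (actE hI σ h * V) ^ p = h ^ p := by
        apply mul_right_cancel₀ hU0
        rw [← h1]
        ring
      rw [div_pow, h3, div_self (pow_ne_zero _ hh0)]
    obtain ⟨ε, hεdef⟩ : ∃ ε : (FF M)⟮Z⟯, ε = actE hI σ h * V / h := ⟨_, rfl⟩
    rw [← hεdef] at h2
    have hρε : ρ ε = ε := by
      rw [hρdef]
      exact deck_eq_of_pow_eq_one hI h2
    have hε0 : ε ≠ 0 := by
      rintro rfl
      rw [zero_pow hp.ne'] at h2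
      exact zero_ne_one h2
    have hσh : actE hI σ h = ε * h / V := by
      rw [hεdef]
      field_simp
    have hσρh : actE hI σ (ρ h) = ε * ρ h
        / ((algebraMap (FF M) (FF M)⟮Z⟯ (algebraMap Kb (FF M) ζ)) ^ j * V) := by
      have h4 : actE hI σ (ρ h) = ρ (actE hI σ h) := by
        rw [hρdef]
        exact (deck_actE hI σ h).symm
      rw [h4, hσh, map_div₀, map_mul, hρε, hρV]
    have hσα' : actE hI σ (algebraMap (FF M) (FF M)⟮Z⟯ (algebraMap Kb (FF M) α))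
        = (algebraMap (FF M) (FF M)⟮Z⟯ (algebraMap Kb (FF M) ζ)) ^ j
          * algebraMap (FF M) (FF M)⟮Z⟯ (algebraMap Kb (FF M) α) := by
      rw [actE_algebraMap, galF_algebraMap, hσα, map_mul, map_mul, map_pow, map_pow]
    rw [hg₁def, map_div₀, map_mul, hσα', hσρh, hσh]
    have hζj : (algebraMap (FF M) (FF M)⟮Z⟯ (algebraMap Kb (FF M) ζ)) ^ j ≠ 0 :=
      pow_ne_zero _ hζ0
    field_simp
  -- the output
  refine ⟨(lcF u)⁻¹, h, g₁, h ^ p * U, inv_ne_zero (Fermat.Agent.T8.helper98.lcF_ne_zero hI.u_ne),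
    hh0, hg₁0, ?_, ?_, ?_, ?_⟩
  · rw [hUdef]
    rfl
  · intro σ hσ
    have h1 := hfix ⟨σ, hσ⟩ (Subgroup.mem_top _)
    exact congrArg (fun x : (FF M)⟮Z⟯ => (x : LaurentSeries Kb)) h1
  · intro σ hσ
    have h1 := hg₁fix ⟨σ, hσ⟩
    exact congrArg (fun x : (FF M)⟮Z⟯ => (x : LaurentSeries Kb)) h1
  · rw [← hρdef, map_mul, map_pow]
    have hρU : ρ U = U := by
      rw [hUdef, hρdef, AlgEquiv.commutes]
    rw [hρU, hg₁def, map_pow, map_pow]
    exact final_rel p hh0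

end Main

end Fermat.Agent.T8.helper83

end
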