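/-
T8 (row 38), leaf [COVER-GAL] (helper88 owner, helper87 second): CONTRACT, pair form.

`F' = F(Z₁)` inside `Kb((q))`, `Z₁ ^ p = K`, `K` strongly split at the bad pair, `(Z₁, Z₂)` the
integral pair of `p`-th roots of the pair of expansions `(K, W K)`, reduction `(1, 1)`.

* `CoverGalPairStatement M W A p` : for every `σ` in the inertia group acting on `μ_p` by
  `z ↦ z ^ a` there is ONE function `w ≠ 0` of `F` with
  `σ Z₁ = w Z₁ ^ a` (expansion at `∞`) and `σ Z₂ = (W w) Z₂ ^ a` (expansion at `∞₂`).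
  Consequences (abstract core, helper87): the coefficientwise action of `σ` maps `F'` into
  itself, commutes with the deck map `ρ` (`Z₁ ↦ ζ Z₁`), and commutes with the second embedding
  `ι₂ : F' → Kb((q))`, `f ↦ W f`, `Z₁ ↦ Z₂`, hence with all `2 p` sheets
  `ι₁ ∘ ρ ^ i`, `ι₂ ∘ ρ ^ j`.
* `coverGalPair_bad` : the contract holds at every bad pair (`N * p`, `atkinLehner N p`),
  `4 ∣ N` or `9 ∣ N`, `A` over `p`, unconditionally.
-/
import Mathlib
import Fermat.Agent.T8.helper88_B4Sheet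

set_option autoImplicit false
set_option linter.unusedSectionVars false
set_option linter.unusedVariables false

noncomputable section

open HahnSeries IntermediateField AlgebraicCurve ModularCurve
open Fermat.Agent.S18.helper19 Fermat.Agent.P2.helper29
open Fermat.Agent.P2.helper22 Fermat.Agent.P2.helper74 Fermat.Agent.P2.helper93
open Fermat.Agent.T2.helper74 Fermat.Agent.T2.helper36

namespace Fermat.Agent.T8.helper88

/-- **Contract [COVER-GAL], pair form.** -/
def CoverGalPairStatement (M : ℕ) (W : FF M ≃ₐ[Kb] FF M) (A : ValuationSubring Kb)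
    (p : ℕ) : Prop :=
  ∀ K : FF M, Fermat.Agent.T2.IsA0One M W A K →
    ∀ Z₁ Z₂ : LaurentSeries A, incl A Z₁ ^ p = (K : LaurentSeries Kb) →
      incl A Z₂ ^ p = ((W K : FF M) : LaurentSeries Kb) → red A Z₁ = 1 → red A Z₂ = 1 →
      ∀ σ ∈ A.inertiaSubgroupIn ℚ, ∀ a : ℕ, a ≤ p → (∀ z : Kb, z ^ p = 1 → σ z = z ^ a) →
        ∃ w : FF M, w ≠ 0 ∧
          coeffMap (σ : Kb →+* Kb) (incl A Z₁) = (w : LaurentSeries Kb) * incl A Z₁ ^ a ∧
          coeffMap (σ : Kb →+* Kb) (incl A Z₂) =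
            ((W w : FF M) : LaurentSeries Kb) * incl A Z₂ ^ a

/-- **[COVER-GAL], pair form, at the bad pair**: unconditional. -/
theorem coverGalPair_bad (N p : ℕ) [NeZero N] [NeZero p] (hp : p.Prime) (hpN : ¬ p ∣ N)
    (hN : 4 ∣ N ∨ 9 ∣ N) (A : ValuationSubring Kb) (hA : A.LiesOverPrime p) :
    CoverGalPairStatement (N * p) (atkinLehner N p hp hpN) A p :=
  fun K hK Z₁ Z₂ h1 h2 hr1 hr2 σ hσ a hap hζ =>
    b4_pair_bad N p hp hpN hN A hA K hK Z₁ Z₂ h1 h2 hr1 hr2 σ hσ a hap hζ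

end Fermat.Agent.T8.helper88

end
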