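/-
T8 (row 38), leaf [COVER-GAL] (helper88 owner): INSTANCE WIRING.

The cover `F' = F⟮Z⟯ ⊆ Kb((q))`, `F = FF M`, `Z = incl A Z₁`, `Z ^ p = K`, with the second
root `incl A Z₂`, `(incl A Z₂) ^ p = W K`.  The data are bundled in `CovData M W A p`; the only
non-formal field is `pair` (the pair form for THIS `K`, `Z₁`, `Z₂`), provided at every bad pair
by `CovData.ofBad` (from `helper88.b4_pair_bad`).

* `CovData.act σ hσ`      : **[STABLE]** the coefficientwise action of `σ` in the inertia group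
                            on `F'`;  `coe_act : (act σ x : Kb((q))) = coeffMap σ x`;
* `act_one`, `act_mul`, `actEquiv` : it is an action by automorphisms;
* `act_algebraMap`        : on `F` it is `galF M σ`;   `act_gen` : `σ Z = w Z ^ a`;
* `act_comm_deck`, `act_comm_deck_pow` : **[DECK]** it commutes with the deck map `ρ`;
* `sheet2`, `sheet2_act`  : **[SHEETS]** the second embedding `ι₂ : F' → Kb((q))`
                            (`f ↦ W f`, `Z ↦ incl A Z₂`) is equivariant;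
* `sheet1_pow_act`, `sheet2_pow_act` : all `2 p` sheets `ι₁ ∘ ρ ^ i`, `ι₂ ∘ ρ ^ j` are
                            equivariant: the inertia group FIXES EVERY SHEET.

Inputs: the pair form (`helper88_CoverGal`) and the abstract cover (`helper86_CoverAlg`).
-/
import Mathlib
import Fermat.Agent.T8.helper88_CoverGal
import Fermat.Agent.T8.helper86_CoverAlg

set_option autoImplicit false
set_option synthInstance.maxHeartbeats 400000
set_option linter.unusedSectionVars false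
set_option linter.unusedVariables false
set_option linter.style.haveILetI false

noncomputable section

open HahnSeries IntermediateField AlgebraicCurve ModularCurve
open Fermat.Agent.S18.helper19 Fermat.Agent.P2.helper29
open Fermat.Agent.P2.helper22 Fermat.Agent.P2.helper74 Fermat.Agent.P2.helper93
open Fermat.Agent.T2.helper74 Fermat.Agent.T2.helper36
open Fermat.Agent.T8.helper86

namespace Fermat.Agent.T8.helper88

/-- every automorphism acts on the `p`-th roots of unity by a power `a ≤ p` -/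
theorem exists_cyclo_exp_le {p : ℕ} (hp : p.Prime) (σ : Kb ≃ₐ[ℚ] Kb) :
    ∃ a : ℕ, a ≤ p ∧ ∀ z : Kb, z ^ p = 1 → σ z = z ^ a := by
  haveI : NeZero p := ⟨hp.ne_zero⟩
  obtain ⟨ζ, hζ⟩ := HasEnoughRootsOfUnity.exists_primitiveRoot Kb p
  have h1 : (σ ζ) ^ p = 1 := by rw [← map_pow, hζ.pow_eq_one, map_one]
  obtain ⟨a, hap, ha⟩ := hζ.eq_pow_of_pow_eq_one h1
  refine ⟨a, hap.le, fun z hz => ?_⟩
  obtain ⟨i, -, rfl⟩ := hζ.eq_pow_of_pow_eq_one hz
  rw [map_pow, ← ha, ← pow_mul, ← pow_mul, mul_comm]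

/-- the cover `F⟮Z⟯` inside `Kb((q))` -/
abbrev Cov (M : ℕ) (Z : LaurentSeries Kb) : IntermediateField (FF M) (LaurentSeries Kb) :=
  (FF M)⟮Z⟯

theorem isIntegral_of_pow {M : ℕ} {p : ℕ} {Z : LaurentSeries Kb} {K : FF M} (hp : p ≠ 0)
    (h1 : Z ^ p = (K : LaurentSeries Kb)) : IsIntegral (FF M) Z := by
  refine ⟨Polynomial.X ^ p - Polynomial.C K, Polynomial.monic_X_pow_sub_C K hp, ?_⟩
  rw [Polynomial.eval₂_sub, Polynomial.eval₂_pow, Polynomial.eval₂_X, Polynomial.eval₂_C, h1]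
  exact sub_self _

theorem coeffMap_mem_range {M : ℕ} [NeZero M] (σ : Kb ≃ₐ[ℚ] Kb) (x : FF M) :
    coeffMap (σ : Kb →+* Kb) (algebraMap (FF M) (LaurentSeries Kb) x) ∈
      Set.range (algebraMap (FF M) (LaurentSeries Kb)) :=
  ⟨galF M σ x, rfl⟩

/-- **The data of the cover** at `(M, W, A, p)`: a function `K` with the integral pair of
`p`-th roots `(Z₁, Z₂)` of its pair of expansions, and the pair form of the inertia action. -/
structure CovData (M : ℕ) [NeZero M] (W : FF M ≃ₐ[Kb] FF M) (A : ValuationSubring Kb)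
    (p : ℕ) where
  /-- `p` is prime -/
  hp : p.Prime
  /-- the Kummer function of the toric class -/
  K : FF M
  /-- the root at `∞` -/
  Z₁ : LaurentSeries A
  /-- the root at `∞₂` -/
  Z₂ : LaurentSeries A
  h1 : incl A Z₁ ^ p = (K : LaurentSeries Kb)
  h2 : incl A Z₂ ^ p = ((W K : FF M) : LaurentSeries Kb)
  /-- `W` commutes with the coefficientwise Galois action -/
  hWgal : ∀ (σ : Kb ≃ₐ[ℚ] Kb) (x : FF M), W (galF M σ x) = galF M σ (W x)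
  /-- the pair form -/
  pair : ∀ σ ∈ A.inertiaSubgroupIn ℚ, ∀ a : ℕ, a ≤ p → (∀ z : Kb, z ^ p = 1 → σ z = z ^ a) →
    ∃ w : FF M, w ≠ 0 ∧
      coeffMap (σ : Kb →+* Kb) (incl A Z₁) = (w : LaurentSeries Kb) * incl A Z₁ ^ a ∧
      coeffMap (σ : Kb →+* Kb) (incl A Z₂) = ((W w : FF M) : LaurentSeries Kb) * incl A Z₂ ^ a

namespace CovData

variable {M : ℕ} [NeZero M] {W : FF M ≃ₐ[Kb] FF M} {A : ValuationSubring Kb} {p : ℕ}
  (D : CovData M W A p)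

/-- the generator of the cover, as a Laurent series over `Kb` -/
def Z : LaurentSeries Kb := incl A D.Z₁

/-- the second root, as a Laurent series over `Kb` -/
def Z' : LaurentSeries Kb := incl A D.Z₂

theorem Z_pow : D.Z ^ p = algebraMap (FF M) (LaurentSeries Kb) D.K := D.h1

theorem Z'_pow : D.Z' ^ p = algebraMap (FF M) (LaurentSeries Kb) (W D.K) := D.h2

theorem isIntegral : IsIntegral (FF M) D.Z := isIntegral_of_pow D.hp.ne_zero D.h1

/-- the generator, as an element of the cover -/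
def gen : Cov M D.Z := AdjoinSimple.gen (FF M) D.Z

@[simp] theorem coe_gen : ((D.gen : Cov M D.Z) : LaurentSeries Kb) = D.Z := rfl

theorem root_mem (σ : Kb ≃ₐ[ℚ] Kb) (hσ : σ ∈ A.inertiaSubgroupIn ℚ) :
    coeffMap (σ : Kb →+* Kb) D.Z ∈ Cov M D.Z := by
  obtain ⟨a, hap, hζ⟩ := exists_cyclo_exp_le D.hp σ
  obtain ⟨w, -, hw1, -⟩ := D.pair σ hσ a hap hζ
  show coeffMap (σ : Kb →+* Kb) (incl A D.Z₁) ∈ Cov M D.Z
  rw [hw1]
  exact mul_mem ((Cov M D.Z).algebraMap_mem w)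
    (pow_mem (mem_adjoin_simple_self (FF M) D.Z) a)

/-- **[STABLE]** the coefficientwise action of the inertia group on the cover -/
def act (σ : Kb ≃ₐ[ℚ] Kb) (hσ : σ ∈ A.inertiaSubgroupIn ℚ) : Cov M D.Z →+* Cov M D.Z :=
  semiMap D.isIntegral (coeffMap (σ : Kb →+* Kb)) (coeffMap_mem_range σ) (D.root_mem σ hσ)

@[simp] theorem coe_act (σ : Kb ≃ₐ[ℚ] Kb) (hσ : σ ∈ A.inertiaSubgroupIn ℚ) (x : Cov M D.Z) :
    ((D.act σ hσ x : Cov M D.Z) : LaurentSeries Kb) = coeffMap (σ : Kb →+* Kb) x := rfl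

theorem act_one (x : Cov M D.Z) : D.act 1 (one_mem _) x = x := by
  apply Subtype.ext
  rw [coe_act]
  exact coeffMap_id _

theorem act_mul (σ τ : Kb ≃ₐ[ℚ] Kb) (hσ : σ ∈ A.inertiaSubgroupIn ℚ)
    (hτ : τ ∈ A.inertiaSubgroupIn ℚ) (x : Cov M D.Z) :
    D.act (σ * τ) (mul_mem hσ hτ) x = D.act σ hσ (D.act τ hτ x) := by
  apply Subtype.ext
  rw [coe_act, coe_act, coe_act, coeffMap_coeffMap]
  rfl

theorem act_inv_act (σ : Kb ≃ₐ[ℚ] Kb) (hσ : σ ∈ A.inertiaSubgroupIn ℚ) (x : Cov M D.Z) :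
    D.act σ⁻¹ (inv_mem hσ) (D.act σ hσ x) = x := by
  apply Subtype.ext
  rw [coe_act, coe_act, coeffMap_coeffMap]
  have e : ((σ⁻¹ : Kb ≃ₐ[ℚ] Kb) : Kb →+* Kb).comp (σ : Kb →+* Kb) = RingHom.id Kb := by
    ext c
    exact σ.symm_apply_apply c
  rw [e, coeffMap_id]

theorem act_act_inv (σ : Kb ≃ₐ[ℚ] Kb) (hσ : σ ∈ A.inertiaSubgroupIn ℚ) (x : Cov M D.Z) :
    D.act σ hσ (D.act σ⁻¹ (inv_mem hσ) x) = x := by
  apply Subtype.ext
  rw [coe_act, coe_act, coeffMap_coeffMap]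
  have e : (σ : Kb →+* Kb).comp ((σ⁻¹ : Kb ≃ₐ[ℚ] Kb) : Kb →+* Kb) = RingHom.id Kb := by
    ext c
    exact σ.apply_symm_apply c
  rw [e, coeffMap_id]

/-- the action, as a ring automorphism of the cover -/
def actEquiv (σ : Kb ≃ₐ[ℚ] Kb) (hσ : σ ∈ A.inertiaSubgroupIn ℚ) :
    Cov M D.Z ≃+* Cov M D.Z where
  toFun := D.act σ hσ
  invFun := D.act σ⁻¹ (inv_mem hσ)
  left_inv := D.act_inv_act σ hσ
  right_inv := D.act_act_inv σ hσ
  map_mul' := map_mul _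
  map_add' := map_add _

@[simp] theorem actEquiv_apply (σ : Kb ≃ₐ[ℚ] Kb) (hσ : σ ∈ A.inertiaSubgroupIn ℚ)
    (x : Cov M D.Z) : D.actEquiv σ hσ x = D.act σ hσ x := rfl

/-- on `F` the action is `galF M σ` -/
theorem act_algebraMap (σ : Kb ≃ₐ[ℚ] Kb) (hσ : σ ∈ A.inertiaSubgroupIn ℚ) (f : FF M) :
    D.act σ hσ (algebraMap (FF M) (Cov M D.Z) f) = algebraMap (FF M) (Cov M D.Z) (galF M σ f) :=
  Subtype.ext rfl

/-- on the constants the action is `σ` -/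
theorem act_const (σ : Kb ≃ₐ[ℚ] Kb) (hσ : σ ∈ A.inertiaSubgroupIn ℚ) (c : Kb) :
    D.act σ hσ (algebraMap (FF M) (Cov M D.Z) (algebraMap Kb (FF M) c))
      = algebraMap (FF M) (Cov M D.Z) (algebraMap Kb (FF M) (σ c)) := by
  rw [act_algebraMap, galF_algebraMap]

/-- `σ Z = w Z ^ a` in the cover -/
theorem act_gen (σ : Kb ≃ₐ[ℚ] Kb) (hσ : σ ∈ A.inertiaSubgroupIn ℚ) (a : ℕ) (hap : a ≤ p)
    (hζ : ∀ z : Kb, z ^ p = 1 → σ z = z ^ a) :
    ∃ w : FF M, w ≠ 0 ∧ D.act σ hσ D.gen = algebraMap (FF M) (Cov M D.Z) w * D.gen ^ a ∧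
      coeffMap (σ : Kb →+* Kb) D.Z' =
        algebraMap (FF M) (LaurentSeries Kb) (W w) * D.Z' ^ a := by
  obtain ⟨w, hw0, hw1, hw2⟩ := D.pair σ hσ a hap hζ
  exact ⟨w, hw0, Subtype.ext hw1, hw2⟩

/-! ### The deck map and the sheets -/

section Deck

theorem zeta_pow (ζ₀ : Kb) (hζ₀ : ζ₀ ^ p = 1) : (algebraMap Kb (FF M) ζ₀) ^ p = 1 := by
  rw [← map_pow, hζ₀, map_one]

/-- the deck map `ρ` of the cover: `Z ↦ ζ₀ Z` -/
def rho (hKum : IsKummerRoot p D.K D.Z) (ζ₀ : Kb) (hζ₀ : ζ₀ ^ p = 1) :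
    Cov M D.Z ≃ₐ[FF M] Cov M D.Z :=
  deck hKum (algebraMap Kb (FF M) ζ₀) (zeta_pow ζ₀ hζ₀)

theorem rho_gen (hKum : IsKummerRoot p D.K D.Z) (ζ₀ : Kb) (hζ₀ : ζ₀ ^ p = 1) :
    D.rho hKum ζ₀ hζ₀ D.gen
      = algebraMap (FF M) (Cov M D.Z) (algebraMap Kb (FF M) ζ₀) * D.gen :=
  deck_gen hKum _ _

/-- **[DECK]** the inertia action commutes with the deck map -/
theorem act_comm_deck (hKum : IsKummerRoot p D.K D.Z) (ζ₀ : Kb) (hζ₀ : ζ₀ ^ p = 1)
    (σ : Kb ≃ₐ[ℚ] Kb) (hσ : σ ∈ A.inertiaSubgroupIn ℚ) (x : Cov M D.Z) :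
    D.act σ hσ (D.rho hKum ζ₀ hζ₀ x) = D.rho hKum ζ₀ hζ₀ (D.act σ hσ x) := by
  obtain ⟨a, hap, hζ⟩ := exists_cyclo_exp_le D.hp σ
  obtain ⟨w, -, hw1, -⟩ := D.pair σ hσ a hap hζ
  refine semiMap_comm_deck hKum (algebraMap Kb (FF M) ζ₀) (zeta_pow ζ₀ hζ₀)
    (coeffMap (σ : Kb →+* Kb)) (coeffMap_mem_range σ) (D.root_mem σ hσ) a w ?_ hw1 x
  have e1 : coeffMap (σ : Kb →+* Kb)
      (algebraMap (FF M) (LaurentSeries Kb) (algebraMap Kb (FF M) ζ₀))
      = algebraMap (FF M) (LaurentSeries Kb) (galF M σ (algebraMap Kb (FF M) ζ₀)) := rfl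
  rw [e1, galF_algebraMap, hζ ζ₀ hζ₀, map_pow]

theorem act_comm_deck_pow (hKum : IsKummerRoot p D.K D.Z) (ζ₀ : Kb) (hζ₀ : ζ₀ ^ p = 1)
    (σ : Kb ≃ₐ[ℚ] Kb) (hσ : σ ∈ A.inertiaSubgroupIn ℚ) (i : ℕ) (x : Cov M D.Z) :
    D.act σ hσ (((D.rho hKum ζ₀ hζ₀) ^ i) x) = ((D.rho hKum ζ₀ hζ₀) ^ i) (D.act σ hσ x) := by
  induction i generalizing x with
  | zero => rfl
  | succ i ih =>
    rw [pow_succ, AlgEquiv.mul_apply, ih, act_comm_deck, AlgEquiv.mul_apply]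

/-- the second embedding `ι₂` of the cover: `f ↦ W f` on `F`, `Z ↦ incl A Z₂` -/
def sheet2 (hKum : IsKummerRoot p D.K D.Z) : Cov M D.Z →+* LaurentSeries Kb :=
  coverLift hKum ((algebraMap (FF M) (LaurentSeries Kb)).comp (W : FF M →+* FF M)) D.Z'
    D.Z'_pow

theorem sheet2_algebraMap (hKum : IsKummerRoot p D.K D.Z) (f : FF M) :
    D.sheet2 hKum (algebraMap (FF M) (Cov M D.Z) f) = ((W f : FF M) : LaurentSeries Kb) :=
  coverLift_algebraMap hKum _ _ _ f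

theorem sheet2_gen (hKum : IsKummerRoot p D.K D.Z) : D.sheet2 hKum D.gen = D.Z' :=
  coverLift_gen hKum _ _ _

/-- **[SHEETS]** the second embedding is equivariant for the inertia action -/
theorem sheet2_act (hKum : IsKummerRoot p D.K D.Z)
    (σ : Kb ≃ₐ[ℚ] Kb) (hσ : σ ∈ A.inertiaSubgroupIn ℚ) (x : Cov M D.Z) :
    D.sheet2 hKum (D.act σ hσ x) = coeffMap (σ : Kb →+* Kb) (D.sheet2 hKum x) := by
  obtain ⟨a, hap, hζ⟩ := exists_cyclo_exp_le D.hp σ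
  obtain ⟨w, -, hw1, hw2⟩ := D.act_gen σ hσ a hap hζ
  have key : (D.sheet2 hKum).comp (D.act σ hσ)
      = (coeffMap (σ : Kb →+* Kb)).comp (D.sheet2 hKum) := by
    apply coverHom_ext D.isIntegral
    · intro f
      rw [RingHom.comp_apply, RingHom.comp_apply, act_algebraMap, sheet2_algebraMap,
        sheet2_algebraMap, D.hWgal]
      rfl
    · show D.sheet2 hKum (D.act σ hσ D.gen) = coeffMap (σ : Kb →+* Kb) (D.sheet2 hKum D.gen)
      rw [hw1, map_mul, map_pow, sheet2_algebraMap, sheet2_gen, hw2]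
      rfl
  exact congrArg (fun f : Cov M D.Z →+* LaurentSeries Kb => f x) key

/-- the sheets `ι₁ ∘ ρ ^ i` are equivariant -/
theorem sheet1_pow_act (hKum : IsKummerRoot p D.K D.Z) (ζ₀ : Kb) (hζ₀ : ζ₀ ^ p = 1)
    (σ : Kb ≃ₐ[ℚ] Kb) (hσ : σ ∈ A.inertiaSubgroupIn ℚ) (i : ℕ) (x : Cov M D.Z) :
    ((((D.rho hKum ζ₀ hζ₀) ^ i) (D.act σ hσ x) : Cov M D.Z) : LaurentSeries Kb)
      = coeffMap (σ : Kb →+* Kb) ((((D.rho hKum ζ₀ hζ₀) ^ i) x : Cov M D.Z) :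
          LaurentSeries Kb) := by
  rw [← act_comm_deck_pow, coe_act]

/-- the sheets `ι₂ ∘ ρ ^ j` are equivariant -/
theorem sheet2_pow_act (hKum : IsKummerRoot p D.K D.Z) (ζ₀ : Kb) (hζ₀ : ζ₀ ^ p = 1)
    (σ : Kb ≃ₐ[ℚ] Kb) (hσ : σ ∈ A.inertiaSubgroupIn ℚ) (j : ℕ) (x : Cov M D.Z) :
    D.sheet2 hKum (((D.rho hKum ζ₀ hζ₀) ^ j) (D.act σ hσ x))
      = coeffMap (σ : Kb →+* Kb) (D.sheet2 hKum (((D.rho hKum ζ₀ hζ₀) ^ j) x)) := by
  rw [← act_comm_deck_pow, sheet2_act]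

end Deck

end CovData

/-! ### The bad pair -/

/-- the data of the cover at a bad pair, from a function `K` with `IsA0One` and an integral
pair of `p`-th roots of reduction `(1, 1)` -/
def CovData.ofBad (N p : ℕ) [NeZero N] [NeZero p] (hp : p.Prime) (hpN : ¬ p ∣ N)
    (hN : 4 ∣ N ∨ 9 ∣ N) (A : ValuationSubring Kb) (hA : A.LiesOverPrime p)
    (K : FF (N * p)) (hK : Fermat.Agent.T2.IsA0One (N * p) (atkinLehner N p hp hpN) A K)
    (Z₁ Z₂ : LaurentSeries A)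
    (h1 : incl A Z₁ ^ p = (K : LaurentSeries Kb))
    (h2 : incl A Z₂ ^ p = ((atkinLehner N p hp hpN K : FF (N * p)) : LaurentSeries Kb))
    (hr1 : red A Z₁ = 1) (hr2 : red A Z₂ = 1) :
    CovData (N * p) (atkinLehner N p hp hpN) A p where
  hp := hp
  K := K
  Z₁ := Z₁
  Z₂ := Z₂
  h1 := h1
  h2 := h2
  hWgal := fun σ x => atkinLehner_arithmeticRingAut N p hp hpN σ x
  pair := fun σ hσ a hap hζ =>
    b4_pair_bad N p hp hpN hN A hA K hK Z₁ Z₂ h1 h2 hr1 hr2 σ hσ a hap hζ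

end Fermat.Agent.T8.helper88

end
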