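import Fermat.Agent.T8.helper29_Concl
import Fermat.Agent.T8.helper83_DescInst
import Fermat.Agent.T8.helper88_CoverGalInst

/-!
# T8 [CONCL] / [COVER] glue (helper86): the dichotomy behind `helper29.PeuShape`

`helper29.PeuShape W A p u` (the input of [CONCL]) contains a strongly split `K` but does NOT say
whether `K` is a `p`-th power in `FF M`.  The two cases are the two instance layers of the wall:

* `K = g ^ p` : then `σ u = c (v g ^ j) ^ p u` for every `σ ∈ I_K1`, i.e. the class of `u` is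
  fixed by `I_K1` (`helper98.ClassFixedBy`) : the SPLIT case, on `X` itself ([SPLIT]);
* `K` is not a `p`-th power : the integral roots `Z₁`, `Z₂` of `StronglySplit` are Kummer roots
  (`helper86.IsKummerRoot`), the cover `F⟮incl A Z₁⟯` exists, and at a bad pair all the data of
  the cover are there: `helper88.CovData` (pair form of the inertia action), the hypotheses
  `helper83.DescInput` of [DESC] and hence its conclusion `helper83.DescOutput`.

* `classFixedBy_of_pow`   : the first case (any level, any `W`);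
* `peuShape_cases`        : the dichotomy, any level: `ClassFixedBy` or Kummer roots;
* `peuShape_cases_bad`    : the dichotomy at a bad pair: `ClassFixedBy` or
                            `CovData` + `DescInput` + `DescOutput`.
-/

set_option autoImplicit false
set_option linter.unusedSectionVars false
set_option linter.unusedVariables false
set_option linter.style.longLine false
set_option synthInstance.maxHeartbeats 400000

noncomputable section

namespace Fermat.Agent.T8.helper86

open HahnSeries IntermediateField AlgebraicCurve ModularCurve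
open Fermat.Agent.S18.helper19 Fermat.Agent.P2.helper29 Fermat.Agent.P2.helper93
open Fermat.Agent.T2 Fermat.Agent.T2.helper36

variable {M : ℕ} [NeZero M]

/-- **the split case**: if `K = g ^ p` then the relation of `PeuShape` says that the class of `u`
is fixed by `I_K1`. -/
theorem classFixedBy_of_pow {A : ValuationSubring Kb} {p : ℕ} {u K g : FF M} {ζ α : Kb}
    (hg : g ^ p = K)
    (hgal : ∀ σ : Kb ≃ₐ[ℚ] Kb, Fermat.Agent.T8.helper98.IsIK1 A p σ →
      ∃ (j : ℕ) (c : Kb) (v : FF M), σ α = ζ ^ j * α ∧ c ≠ 0 ∧ v ≠ 0 ∧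
        galF M σ u = algebraMap Kb (FF M) c * v ^ p * u * K ^ j) :
    Fermat.Agent.T8.helper98.ClassFixedBy M (Fermat.Agent.T8.helper98.IsIK1 A p) p u := by
  intro σ hσ
  obtain ⟨j, c, v, -, -, -, h⟩ := hgal σ hσ
  refine ⟨c, v * g ^ j, ?_⟩
  rw [h, ← hg, mul_pow, ← pow_mul, ← pow_mul, mul_comm j p]
  ring

/-- **the dichotomy of `PeuShape`**, any level: either the class of `u` is fixed by `I_K1`
(split case) or the strongly split `K` has Kummer roots `Z₁` (over `K`) and `Z₂` (over `W K`). -/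
theorem peuShape_cases {W : FF M ≃ₐ[Kb] FF M} {A : ValuationSubring Kb} {p : ℕ} (hp : p.Prime)
    {u : FF M} (h : Fermat.Agent.T8.helper29.PeuShape W A p u) :
    Fermat.Agent.T8.helper98.ClassFixedBy M (Fermat.Agent.T8.helper98.IsIK1 A p) p u ∨
    ∃ (K : FF M) (ζ α : Kb) (Z₁ Z₂ : LaurentSeries A),
      Fermat.Agent.T7.helper27.StronglySplit M W A p K ∧
      IsPrimitiveRoot ζ p ∧ α ≠ 0 ∧ A.valuation (α ^ p) = 1 ∧
      (∀ σ : Kb ≃ₐ[ℚ] Kb, Fermat.Agent.T8.helper98.IsIK1 A p σ →
        ∃ (j : ℕ) (c : Kb) (v : FF M), σ α = ζ ^ j * α ∧ c ≠ 0 ∧ v ≠ 0 ∧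
          galF M σ u = algebraMap Kb (FF M) c * v ^ p * u * K ^ j) ∧
      incl A Z₁ ^ p = (K : LaurentSeries Kb) ∧
      incl A Z₂ ^ p = ((W K : FF M) : LaurentSeries Kb) ∧
      red A Z₁ = 1 ∧ red A Z₂ = 1 ∧
      IsKummerRoot (F := FF M) (Ω := LaurentSeries Kb) p K (incl A Z₁) ∧
      IsKummerRoot (F := FF M) (Ω := LaurentSeries Kb) p (W K) (incl A Z₂) := by
  obtain ⟨K, ζ, α, hSS, hζ, hα, hval, hgal⟩ := h
  by_cases hpow : ∃ g : FF M, g ^ p = K
  · obtain ⟨g, hg⟩ := hpow
    exact Or.inl (classFixedBy_of_pow hg hgal)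
  · right
    have hnp : ∀ g : FF M, g ^ p ≠ K := fun g hg => hpow ⟨g, hg⟩
    obtain ⟨Z₁, Z₂, e1, e2, r1, r2⟩ := hSS.2.2
    refine ⟨K, ζ, α, Z₁, Z₂, hSS, hζ, hα, hval, hgal, e1, e2, r1, r2, ⟨hp, e1, hnp⟩,
      ⟨hp, e2, fun b hb => hnp (W.symm b) ?_⟩⟩
    rw [← map_pow, hb, AlgEquiv.symm_apply_apply]

/-- **the dichotomy of `PeuShape` at a bad pair**: either the class of `u` is fixed by `I_K1`
(split case, on `X`), or the whole cover package is there: `helper88.CovData` with Kummer roots,
the hypotheses `helper83.DescInput` of [DESC] and its conclusion `helper83.DescOutput`. -/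
theorem peuShape_cases_bad (N p : ℕ) [NeZero N] [NeZero p] (hp : p.Prime) (hpN : ¬ p ∣ N)
    (hN : 4 ∣ N ∨ 9 ∣ N) (A : ValuationSubring Kb) (hA : A.LiesOverPrime p)
    {u : FF (N * p)} (hu : u ≠ 0)
    (h : Fermat.Agent.T8.helper29.PeuShape (atkinLehner N p hp hpN) A p u) :
    Fermat.Agent.T8.helper98.ClassFixedBy (N * p) (Fermat.Agent.T8.helper98.IsIK1 A p) p u ∨
    ∃ (C : Fermat.Agent.T8.helper88.CovData (N * p) (atkinLehner N p hp hpN) A p) (ζ α : Kb),
      Fermat.Agent.T7.helper27.StronglySplit (N * p) (atkinLehner N p hp hpN) A p C.K ∧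
      red A C.Z₁ = 1 ∧ red A C.Z₂ = 1 ∧
      IsPrimitiveRoot ζ p ∧ A.valuation (α ^ p) = 1 ∧
      IsKummerRoot (F := FF (N * p)) (Ω := LaurentSeries Kb) p C.K C.Z ∧
      IsKummerRoot (F := FF (N * p)) (Ω := LaurentSeries Kb) p
        (atkinLehner N p hp hpN C.K) C.Z' ∧
      ∃ hI : Fermat.Agent.T8.helper83.DescInput (N * p) A p C.K u C.Z ζ α,
        Fermat.Agent.T8.helper83.DescOutput hI.root hI.zeta A u α := by
  rcases peuShape_cases hp h with h1 | ⟨K, ζ, α, Z₁, Z₂, hSS, hζ, hα, hval, hgal, e1, e2, r1, r2,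
    k1, k2⟩
  · exact Or.inl h1
  · right
    let C : Fermat.Agent.T8.helper88.CovData (N * p) (atkinLehner N p hp hpN) A p :=
      Fermat.Agent.T8.helper88.CovData.ofBad N p hp hpN hN A hA K hSS.1 Z₁ Z₂ e1 e2 r1 r2
    have hI : Fermat.Agent.T8.helper83.DescInput (N * p) A p C.K u C.Z ζ α :=
      { root := k1
        zeta := hζ.pow_eq_one
        alpha := hα
        u_ne := hu
        galZ := fun σ hσ => by
          obtain ⟨w, -, hw, -⟩ := C.pair σ hσ.1 1 hp.one_le
            (fun z hz => by rw [pow_one]; exact hσ.2 z hz)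
          refine ⟨w, ?_⟩
          rw [pow_one] at hw
          exact hw
        galu := hgal }
    exact ⟨C, ζ, α, hSS, r1, r2, hζ, hval, k1, k2, hI,
      Fermat.Agent.T8.helper83.descStatement (N * p) A p C.K u C.Z ζ α hI⟩

end Fermat.Agent.T8.helper86
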