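import Mathlib
import Fermat.Prelude.Def_FLTPrelim_FreyPackage
import Fermat.Prelude.Def_FLTPrelim_Ramification
import Fermat.Prelude.Def_FLTPrelim_GaloisRep

/-!
# T8 (row 38), box [W-MULT] (helper47): the CONTRACT

Curve side of the wall, Frey curve at `p ∣ a b c` (multiplicative reduction at `p`,
`v_p (Δ) = 2 p v_p (a b c)`): the extension cut out by `E[p]` over the inertia field is
PEU ramifie.  Consumer form (no Tate curve, no Kummer generator on the curve side):

for every `p`-torsion point `T` of the Frey curve over `Qbar` and every `τ` in the inertia group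
of a valuation subring `A` over `p` with `τ T ≠ T` there is an INTEGRAL `z`, fixed by every
automorphism fixing `T` (`z` is a `ℚ`-rational function of the coordinates of `T`), with
`v (τ z - z) ^ (p - 1) = v p`, i.e. depth EXACTLY `1 / (p - 1) = v (ζ_p - 1)`.

helper89's `tres_depth` (T8/helper89_TresDepth) says that in a very ramified Kummer extension
every integral `z` has `τ z - z ∈ (ζ - 1) * (non-units)`, i.e. depth `> 1 / (p - 1)`.

`WMultStatement'` is the same statement in the shape `¬ ∃ w ∈ A.nonunits, (τ z - z)^(p-1) = p * w`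
(finding #3485); `wMult'_of_wMult` derives it.
-/

set_option autoImplicit false

open WeierstrassCurve WeierstrassCurve.Affine

namespace Fermat.Agent.T8.helper47

/-- **[W-MULT] contract** (valuation form, depth exactly `1 / (p - 1)`). -/
def WMultStatement : Prop :=
  ∀ (P : FreyPackage) (A : ValuationSubring (AlgebraicClosure ℚ)), A.LiesOverPrime P.p →
    (P.p : ℤ) ∣ P.a * P.b * P.c →
    ∀ T : ((P.freyCurve : Affine ℚ)⁄(AlgebraicClosure ℚ)).Point, (P.p : ℤ) • T = 0 →
    ∀ τ ∈ A.inertiaSubgroupIn ℚ, τ • T ≠ T →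
      ∃ z ∈ A, (∀ σ : AlgebraicClosure ℚ ≃ₐ[ℚ] AlgebraicClosure ℚ, σ • T = T → σ z = z) ∧
        A.valuation (τ z - z) ^ (P.p - 1) = A.valuation ((P.p : ℕ) : AlgebraicClosure ℚ)

/-- **[W-MULT] contract**, shape of finding #3485: `(τ z - z) ^ (p - 1)` is NOT `p` times a
non-unit. -/
def WMultStatement' : Prop :=
  ∀ (P : FreyPackage) (A : ValuationSubring (AlgebraicClosure ℚ)), A.LiesOverPrime P.p →
    (P.p : ℤ) ∣ P.a * P.b * P.c →
    ∀ T : ((P.freyCurve : Affine ℚ)⁄(AlgebraicClosure ℚ)).Point, (P.p : ℤ) • T = 0 →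
    ∀ τ ∈ A.inertiaSubgroupIn ℚ, τ • T ≠ T →
      ∃ z ∈ A, (∀ σ : AlgebraicClosure ℚ ≃ₐ[ℚ] AlgebraicClosure ℚ, σ • T = T → σ z = z) ∧
        ¬ ∃ w ∈ A.nonunits, (τ z - z) ^ (P.p - 1) = ((P.p : ℕ) : AlgebraicClosure ℚ) * w

theorem wMult'_of_wMult (h : WMultStatement) : WMultStatement' := by
  intro P A hA hdiv T hT τ hτ hne
  obtain ⟨z, hz, hfix, hval⟩ := h P A hA hdiv T hT τ hτ hne
  refine ⟨z, hz, hfix, ?_⟩
  rintro ⟨w, hw, he⟩
  have h1 := congrArg A.valuation he
  rw [map_pow, hval, map_mul] at h1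
  have hw1 : A.valuation w < 1 := (ValuationSubring.mem_nonunits_iff A).mp hw
  have hp0 : A.valuation ((P.p : ℕ) : AlgebraicClosure ℚ) ≠ 0 := by
    rw [ne_eq, map_eq_zero]
    exact_mod_cast P.pp.ne_zero
  have h2 : A.valuation ((P.p : ℕ) : AlgebraicClosure ℚ) * A.valuation w
      < A.valuation ((P.p : ℕ) : AlgebraicClosure ℚ) := by
    calc A.valuation ((P.p : ℕ) : AlgebraicClosure ℚ) * A.valuation w
        < A.valuation ((P.p : ℕ) : AlgebraicClosure ℚ) * 1 :=
          mul_lt_mul_of_pos_left hw1 (zero_lt_iff.mpr hp0)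
      _ = _ := mul_one _
  rw [← h1] at h2
  exact lt_irrefl _ h2

/-- the consumer form against helper89's `tres_depth`: `τ z - z` is NOT `(ζ - 1)` times a
non-unit, for any `ζ` with `v (ζ - 1) ^ (p - 1) = v p` (every primitive `p`-th root of unity). -/
theorem not_exists_of_val_pow_eq {A : ValuationSubring (AlgebraicClosure ℚ)} {p : ℕ}
    {d l : AlgebraicClosure ℚ}
    (hd : A.valuation d ^ (p - 1) = A.valuation ((p : ℕ) : AlgebraicClosure ℚ))
    (hl : A.valuation l ^ (p - 1) = A.valuation ((p : ℕ) : AlgebraicClosure ℚ))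
    (hp : 2 ≤ p) (hp0 : ((p : ℕ) : AlgebraicClosure ℚ) ≠ 0) :
    ¬ ∃ y ∈ A.nonunits, d = l * y := by
  rintro ⟨y, hy, he⟩
  have hy1 : A.valuation y < 1 := (ValuationSubring.mem_nonunits_iff A).mp hy
  have hpv : A.valuation ((p : ℕ) : AlgebraicClosure ℚ) ≠ 0 := by
    rw [ne_eq, map_eq_zero]; exact hp0
  have hl0 : A.valuation l ≠ 0 := by
    intro h0
    rw [h0, zero_pow (by omega)] at hl
    exact hpv hl.symm
  have h1 : A.valuation d < A.valuation l := by
    rw [he, map_mul]
    calc A.valuation l * A.valuation y < A.valuation l * 1 :=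
          mul_lt_mul_of_pos_left hy1 (zero_lt_iff.mpr hl0)
      _ = _ := mul_one _
  have h2 : A.valuation d ^ (p - 1) < A.valuation l ^ (p - 1) :=
    pow_lt_pow_left₀ h1 zero_le (by omega)
  rw [hd, hl] at h2
  exact lt_irrefl _ h2

end Fermat.Agent.T8.helper47
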