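import Fermat.Agent.S05.MainA

/-!
# T8 (row 38), box [W-MULT] (helper47): the local core (valuation calculus)

Short model `y² = x³ + a₂ x² + a₄ x` (`IsTwoNF`), multiplicative reduction (`v a₂ = 1`,
`v a₄ < 1`), over any valued field.  `Q` a point of the kernel of reduction `E₁`, `T` a point
with integral `x`-coordinate.  Translation by `Q` moves

* `α = y / x` by exactly `v (t Q)` when `v (x T) = 1`              (`trans_alpha`),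
* `x` by exactly `v (x T) * v (t Q)` when `T` reduces to the node   (`trans_x`),
* `t = x / y` by exactly `v (t Q)` when `T ∈ E₁`, `v (t T) ≤ v (t Q)` (S05 `E1_add`).

`wmult_core`: for a `p`-torsion point `T` moved by a map `f` induced by a ring endomorphism `τ`
with `f T - T ∈ E₁`, and GIVEN the depth of the `p`-torsion of `E₁` (hypothesis `hdepth`:
`v (t Q) ^ (p - 1) = v p`), one of `z = x / y`, `z = y / x`, `z = x / ϖ ^ k` is integral with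
`v (τ z - z) ^ (p - 1) = v p`.
-/

set_option autoImplicit false
set_option linter.unusedSectionVars false
set_option linter.unusedVariables false

namespace Fermat.Agent.T8.helper47

open WeierstrassCurve WeierstrassCurve.Affine
open Fermat.Agent.S05

variable {K : Type*} [Field K] [DecidableEq K]
variable {Γ₀ : Type*} [LinearOrderedCommGroupWithZero Γ₀]
variable {v : Valuation K Γ₀} {W : Affine K}

/-- the sum `Q + T` of a point `Q = (x₁, y₁)` of `E₁` and a point `T = (x₂, y₂)` with integral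
`α₂ = y₂ / x₂`: the exact formulas and the valuations of `s` and `d`. -/
lemma add_E1_left (hW : IsTwoNF W) (ha : v W.a₂ ≤ 1) (hb : v W.a₄ ≤ 1)
    {x₁ y₁ x₂ y₂ : K} (h₁ : W.Nonsingular x₁ y₁) (h₂ : W.Nonsingular x₂ y₂)
    (hx₁ : 1 < v x₁) (hx₂0 : x₂ ≠ 0) (hbx : v W.a₄ ≤ v x₂) (hα₂ : v (y₂ / x₂) ≤ 1) :
    ∃ x₃ y₃ h₃, Point.some x₁ y₁ h₁ + Point.some x₂ y₂ h₂ = Point.some x₃ y₃ h₃ ∧
      x₃ ≠ 0 ∧
      v (y₁ / x₁ + y₂ / x₂) = v (y₁ / x₁) ∧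
      v (x₁ * x₂ - W.a₄) = v x₁ * v x₂ ∧
      y₃ / x₃ - y₂ / x₂ = (y₁ / x₁ + y₂ / x₂) * W.a₄ / (x₁ * x₂ - W.a₄)
        - (x₁ * x₂ - W.a₄) / (x₁ * (y₁ / x₁ + y₂ / x₂)) ∧
      (x₃ - x₂) * (x₁ * x₂ * (y₁ / x₁ + y₂ / x₂) ^ 2) =
        (x₁ * x₂ - W.a₄) ^ 2 - x₂ * (x₁ * x₂ * (y₁ / x₁ + y₂ / x₂) ^ 2) := by
  have hx₁0 : x₁ ≠ 0 := ne_zero_of_one_lt_val v hx₁
  have hA := hW.val_alpha_sq_of_one_lt v ha hb h₁ hx₁
  have hA1 : 1 < v (y₁ / x₁) := one_lt_of_one_lt_sq (by rw [hA]; exact hx₁)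
  have hvs : v (y₁ / x₁ + y₂ / x₂) = v (y₁ / x₁) :=
    v.map_add_eq_of_lt_left (lt_of_le_of_lt hα₂ hA1)
  have hs : y₁ / x₁ + y₂ / x₂ ≠ 0 := by
    intro h0
    rw [h0, map_zero] at hvs
    rw [← hvs] at hA1
    exact not_lt.mpr zero_le_one hA1
  have hX₂ : 0 < v x₂ := val_pos v hx₂0
  have hvd : v (x₁ * x₂ - W.a₄) = v x₁ * v x₂ := by
    rw [← map_mul]
    apply v.map_sub_eq_of_lt_left
    rw [map_mul]
    calc v W.a₄ ≤ v x₂ := hbx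
      _ = 1 * v x₂ := (one_mul _).symm
      _ < v x₁ * v x₂ := mul_lt_mul_of_pos_right hx₁ hX₂
  have hd0 : x₁ * x₂ - W.a₄ ≠ 0 := by
    intro h0
    rw [h0, map_zero] at hvd
    have : 0 < v x₁ * v x₂ := mul_pos (lt_trans zero_lt_one hx₁) hX₂
    rw [← hvd] at this
    exact lt_irrefl _ this
  obtain ⟨x₃, y₃, h₃, hadd, hx₃, hy₃⟩ := hW.add_sd h₁ h₂ hx₁0 hx₂0 hs
  have hx₃0 : x₃ ≠ 0 := by
    rintro rfl
    rw [zero_mul] at hx₃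
    exact hd0 (pow_eq_zero_iff (by norm_num) |>.mp hx₃.symm)
  obtain ⟨f1, -⟩ := alpha3_formulas x₁ x₂ (y₁ / x₁) (y₂ / x₂) W.a₄ x₃ y₃
    (y₁ / x₁ + y₂ / x₂) (x₁ * x₂ - W.a₄) hx₁0 hx₂0 hs hd0 hx₃0 rfl rfl hx₃ hy₃
  refine ⟨x₃, y₃, h₃, hadd, hx₃0, hvs, hvd, f1, ?_⟩
  rw [sub_mul, hx₃]

/-- **translation of `α = y / x`**: for `T` with `v (x T) = 1` and `Q ∈ E₁`,
`v (α (Q + T) - α T) = v (t Q)`. -/
lemma trans_alpha (hW : IsTwoNF W) (ha : v W.a₂ ≤ 1) (hb : v W.a₄ < 1)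
    {x₁ y₁ x₂ y₂ : K} (h₁ : W.Nonsingular x₁ y₁) (h₂ : W.Nonsingular x₂ y₂)
    (hx₁ : 1 < v x₁) (hx₂ : v x₂ = 1) :
    v (y₂ / x₂) ≤ 1 ∧
    ∃ x₃ y₃ h₃, Point.some x₁ y₁ h₁ + Point.some x₂ y₂ h₂ = Point.some x₃ y₃ h₃ ∧
      x₃ ≠ 0 ∧ v (y₃ / x₃ - y₂ / x₂) = v (x₁ / y₁) := by
  have hx₁0 : x₁ ≠ 0 := ne_zero_of_one_lt_val v hx₁
  have hx₂0 : x₂ ≠ 0 := ne_zero_of_val_eq_one v hx₂
  have hα₂ : v (y₂ / x₂) ≤ 1 := by
    apply le_one_of_sq_le_one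
    have := hW.val_alpha_sq_le v ha hb.le h₂ hx₂.ge
    rwa [hx₂] at this
  refine ⟨hα₂, ?_⟩
  obtain ⟨x₃, y₃, h₃, hadd, hx₃0, hvs, hvd, f1, -⟩ :=
    add_E1_left hW ha hb.le h₁ h₂ hx₁ hx₂0 (by rw [hx₂]; exact hb.le) hα₂
  refine ⟨x₃, y₃, h₃, hadd, hx₃0, ?_⟩
  have hA := hW.val_alpha_sq_of_one_lt v ha hb.le h₁ hx₁
  have hA1 : 1 < v (y₁ / x₁) := one_lt_of_one_lt_sq (by rw [hA]; exact hx₁)
  have hApos : 0 < v (y₁ / x₁) := lt_trans zero_lt_one hA1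
  have hA0 : v (y₁ / x₁) ≠ 0 := hApos.ne'
  have hX₁ : v x₁ ≠ 0 := (lt_trans zero_lt_one hx₁).ne'
  have ht : v (x₁ / y₁) = (v (y₁ / x₁))⁻¹ := by
    rw [← map_inv₀, inv_div]
  obtain ⟨ρ, hρ⟩ : ∃ ρ, ρ = v (y₁ / x₁) := ⟨_, rfl⟩
  rw [← hρ] at hvs hA hA1 hApos hA0 ht
  -- the two terms
  have e2 : v ((x₁ * x₂ - W.a₄) / (x₁ * (y₁ / x₁ + y₂ / x₂))) = ρ⁻¹ := by
    rw [map_div₀, hvd, map_mul, hvs, hx₂, mul_one, div_mul_cancel_left₀ hX₁]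
  have e1 : v ((y₁ / x₁ + y₂ / x₂) * W.a₄ / (x₁ * x₂ - W.a₄)) < ρ⁻¹ := by
    rw [map_div₀, map_mul, hvs, hvd, hx₂, mul_one, ← hA]
    have : ρ * v W.a₄ / ρ ^ 2 = v W.a₄ * ρ⁻¹ := by field_simp
    rw [this]
    calc v W.a₄ * ρ⁻¹ < 1 * ρ⁻¹ := mul_lt_mul_of_pos_right hb (inv_pos.mpr hApos)
      _ = _ := one_mul _
  rw [f1, ht, ← e2]
  apply v.map_sub_eq_of_lt_right
  rw [e2]; exact e1

/-- **translation of `x`** at a point `T` with `v a₄ < v (x T) ≤ 1` and `α T` a unit, by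
`Q ∈ E₁`: `v (x (Q + T) - x T) = v (x T) * v (t Q)`. -/
lemma trans_x (hW : IsTwoNF W) (hv2 : v 2 = 1) (ha : v W.a₂ ≤ 1) (hb : v W.a₄ < 1)
    {x₁ y₁ x₂ y₂ : K} (h₁ : W.Nonsingular x₁ y₁) (h₂ : W.Nonsingular x₂ y₂)
    (hx₁ : 1 < v x₁) (hbx : v W.a₄ < v x₂) (hx₂ : v x₂ ≤ 1) (hα₂ : v (y₂ / x₂) = 1) :
    ∃ x₃ y₃ h₃, Point.some x₁ y₁ h₁ + Point.some x₂ y₂ h₂ = Point.some x₃ y₃ h₃ ∧
      v (x₃ - x₂) = v x₂ * v (x₁ / y₁) := by
  have hx₁0 : x₁ ≠ 0 := ne_zero_of_one_lt_val v hx₁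
  have hx₂0 : x₂ ≠ 0 := by rintro rfl; simp at hbx
  have hX₂ : 0 < v x₂ := val_pos v hx₂0
  obtain ⟨x₃, y₃, h₃, hadd, hx₃0, hvs, hvd, -, f2⟩ :=
    add_E1_left hW ha hb.le h₁ h₂ hx₁ hx₂0 hbx.le hα₂.le
  refine ⟨x₃, y₃, h₃, hadd, ?_⟩
  have hA := hW.val_alpha_sq_of_one_lt v ha hb.le h₁ hx₁
  have hA1 : 1 < v (y₁ / x₁) := one_lt_of_one_lt_sq (by rw [hA]; exact hx₁)
  have hApos : 0 < v (y₁ / x₁) := lt_trans zero_lt_one hA1
  have hX₁ : 0 < v x₁ := lt_trans zero_lt_one hx₁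
  have ht : v (x₁ / y₁) = (v (y₁ / x₁))⁻¹ := by
    rw [← map_inv₀, inv_div]
  have e₁ := hW.alpha_sq h₁ hx₁0
  obtain ⟨α₁, hα₁⟩ : ∃ α₁, α₁ = y₁ / x₁ := ⟨_, rfl⟩
  obtain ⟨α₂, hα₂'⟩ : ∃ α₂, α₂ = y₂ / x₂ := ⟨_, rfl⟩
  rw [← hα₁] at hvs hA hA1 hApos ht e₁ f2
  rw [← hα₂'] at hvs hα₂ f2
  obtain ⟨ρ, hρ⟩ : ∃ ρ, ρ = v α₁ := ⟨_, rfl⟩
  obtain ⟨ξ, hξ⟩ : ∃ ξ, ξ = v x₂ := ⟨_, rfl⟩
  rw [← hρ] at hvs hA hA1 hApos ht
  rw [← hξ] at hX₂ hbx hx₂ ⊢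
  have hvx₁ : v x₁ = ρ ^ 2 := hA.symm
  -- the numerator
  have hN : (x₁ * x₂ - W.a₄) ^ 2 - x₂ * (x₁ * x₂ * (α₁ + α₂) ^ 2) =
      -(2 * x₂ ^ 2 * x₁ * α₂ * α₁) + (-(2 * W.a₄ * x₂ * x₁) + W.a₄ ^ 2 - x₂ ^ 2 * x₁ * α₂ ^ 2
        - W.a₂ * x₂ ^ 2 * x₁ - W.a₄ * x₂ ^ 2) := by
    linear_combination (-(x₂ ^ 2)) * e₁
  have hdom : v (-(2 * x₂ ^ 2 * x₁ * α₂ * α₁)) = ξ ^ 2 * ρ ^ 3 := by
    rw [Valuation.map_neg, map_mul, map_mul, map_mul, map_mul, map_pow, hv2, hα₂, ← hρ, ← hξ,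
      hvx₁, one_mul, mul_one, pow_succ ρ 2, mul_assoc]
  have hξρ : 0 < ξ ^ 2 * ρ ^ 2 := mul_pos (pow_pos hX₂ 2) (pow_pos hApos 2)
  have hlt : ξ ^ 2 * ρ ^ 2 < ξ ^ 2 * ρ ^ 3 := by
    calc ξ ^ 2 * ρ ^ 2 = ξ ^ 2 * ρ ^ 2 * 1 := (mul_one _).symm
      _ < ξ ^ 2 * ρ ^ 2 * ρ := mul_lt_mul_of_pos_left hA1 hξρ
      _ = ξ ^ 2 * ρ ^ 3 := by rw [pow_succ ρ 2, mul_assoc]
  have hξ2 : ξ ^ 2 ≤ ξ ^ 2 * ρ ^ 2 := by
    calc ξ ^ 2 = ξ ^ 2 * 1 := (mul_one _).symm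
      _ ≤ ξ ^ 2 * ρ ^ 2 := by
        gcongr
        exact one_le_pow₀ hA1.le
  have hrest : v (-(2 * W.a₄ * x₂ * x₁) + W.a₄ ^ 2 - x₂ ^ 2 * x₁ * α₂ ^ 2
        - W.a₂ * x₂ ^ 2 * x₁ - W.a₄ * x₂ ^ 2) ≤ ξ ^ 2 * ρ ^ 2 := by
    apply v.map_sub_le
    · apply v.map_sub_le
      · apply v.map_sub_le
        · apply v.map_add_le
          · rw [Valuation.map_neg, map_mul, map_mul, map_mul, hv2, one_mul, ← hξ, hvx₁]
            calc v W.a₄ * ξ * ρ ^ 2 ≤ ξ * ξ * ρ ^ 2 := by gcongr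
              _ = ξ ^ 2 * ρ ^ 2 := by rw [← pow_two]
          · rw [map_pow]
            calc v W.a₄ ^ 2 ≤ ξ ^ 2 := by gcongr
              _ ≤ ξ ^ 2 * ρ ^ 2 := hξ2
        · rw [map_mul, map_mul, map_pow, map_pow, hα₂, ← hξ, hvx₁, one_pow, mul_one]
      · rw [map_mul, map_mul, map_pow, ← hξ, hvx₁]
        calc v W.a₂ * ξ ^ 2 * ρ ^ 2 ≤ 1 * ξ ^ 2 * ρ ^ 2 := by gcongr
          _ = ξ ^ 2 * ρ ^ 2 := by rw [one_mul]
    · rw [map_mul, map_pow, ← hξ]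
      calc v W.a₄ * ξ ^ 2 ≤ 1 * ξ ^ 2 := by gcongr
        _ = ξ ^ 2 := one_mul _
        _ ≤ ξ ^ 2 * ρ ^ 2 := hξ2
  have hvN : v ((x₁ * x₂ - W.a₄) ^ 2 - x₂ * (x₁ * x₂ * (α₁ + α₂) ^ 2)) = ξ ^ 2 * ρ ^ 3 := by
    rw [hN, ← hdom]
    apply v.map_add_eq_of_lt_left
    rw [hdom]
    exact lt_of_le_of_lt hrest hlt
  have h3 := congrArg v f2
  rw [hvN, map_mul, map_mul, map_mul, map_pow, hvs, ← hξ, hvx₁] at h3
  rw [ht]
  have hden : 0 < ρ ^ 2 * ξ * ρ ^ 2 := mul_pos (mul_pos (pow_pos hApos 2) hX₂) (pow_pos hApos 2)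
  apply mul_right_cancel₀ hden.ne'
  rw [h3]
  field_simp

lemma inE1_nsmul' (hW : IsTwoNF W) (ha : v W.a₂ ≤ 1) (hb : v W.a₄ ≤ 1) {P : W.Point}
    (hP : InE1 v P) (n : ℕ) : InE1 v (n • P) := by
  induction n with
  | zero => rw [zero_smul]; exact Or.inl rfl
  | succ k ih =>
    rw [succ_nsmul]
    have hr : (0 : Γ₀) < max (max (v (tC (k • P))) (v (tC P))) 1 :=
      lt_of_lt_of_le zero_lt_one (le_max_right _ _)
    exact (hW.E1_add v ha hb ih hP hr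
      (le_trans (le_max_left _ _) (le_max_left _ _))
      (le_trans (le_max_right _ _) (le_max_left _ _))).1

/-- the `2`-torsion point `(0, 0)` is not in the kernel of reduction -/
lemma not_inE1_T (hW : IsTwoNF W) (hb0 : W.a₄ ≠ 0) :
    ¬ InE1 v (Point.some 0 0 (hW.nonsingular_zero hb0)) := by
  rintro (h0 | ⟨x, y, h, e, hx⟩)
  · exact Point.some_ne_zero _ h0
  · rw [Point.some.injEq] at e
    obtain ⟨rfl, rfl⟩ := e
    simp at hx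

/-- **the local core of [W-MULT]**. -/
theorem wmult_core (hW : IsTwoNF W) (hv2 : v 2 = 1) (ha : v W.a₂ = 1) (hb0 : W.a₄ ≠ 0)
    (hb : v W.a₄ < 1) (p : ℕ) (hp : p.Prime) (hp2 : p ≠ 2)
    (ϖ : K) (m : ℕ) (hβ : v W.a₄ = v ϖ ^ (p * m))
    (hdepth : ∀ Q : W.Point, InE1 v Q → Q ≠ 0 → p • Q = 0 → v (tC Q) ^ (p - 1) = v (p : K))
    (τ : K →+* K) (hτϖ : τ ϖ = ϖ) (f : W.Point →+ W.Point)
    (hf : ∀ x y (h : W.Nonsingular x y), ∃ h', f (Point.some x y h) = Point.some (τ x) (τ y) h')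
    (T : W.Point) (hT : p • T = 0) (hne : f T ≠ T) (hQ : InE1 v (f T - T)) :
    ∃ x y, ∃ h : W.Nonsingular x y, T = Point.some x y h ∧
      ∃ z : K, (z = x / y ∨ z = y / x ∨ ∃ k : ℕ, z = x / ϖ ^ k) ∧ v z ≤ 1 ∧
        v (τ z - z) ^ (p - 1) = v (p : K) := by
  rcases T with _ | ⟨x, y, h⟩
  · exact absurd (map_zero f) hne
  refine ⟨x, y, h, rfl, ?_⟩
  -- the point `Q`
  have hQ0 : f (Point.some x y h) - Point.some x y h ≠ 0 := sub_ne_zero.mpr hne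
  have hpQ : p • (f (Point.some x y h) - Point.some x y h) = 0 := by
    rw [smul_sub, ← map_nsmul, hT, map_zero, sub_zero]
  have hd := hdepth _ hQ hQ0 hpQ
  have hsum : (f (Point.some x y h) - Point.some x y h) + Point.some x y h =
      f (Point.some x y h) := sub_add_cancel _ _
  obtain ⟨hτ, hfT⟩ := hf x y h
  rcases hQ with hzero | ⟨x₁, y₁, h₁, hQe, hx₁⟩
  · exact absurd hzero hQ0
  rw [hQe] at hd hsum
  rw [hfT] at hsum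
  rw [tC_some] at hd
  have hx₁0 : x₁ ≠ 0 := ne_zero_of_one_lt_val v hx₁
  have hA := hW.val_alpha_sq_of_one_lt v ha.le hb.le h₁ hx₁
  have hA1 : 1 < v (y₁ / x₁) := one_lt_of_one_lt_sq (by rw [hA]; exact hx₁)
  have ht : v (x₁ / y₁) = (v (y₁ / x₁))⁻¹ := by
    rw [← map_inv₀, inv_div]
  have hr1 : v (x₁ / y₁) < 1 := by
    rw [ht]; exact inv_lt_one_of_one_lt₀ hA1
  have hr0 : 0 < v (x₁ / y₁) := by
    rw [ht]; exact inv_pos.mpr (lt_trans zero_lt_one hA1)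
  have hp1 : p - 1 ≠ 0 := by
    have := hp.two_le; omega
  -- the `2`-torsion point
  have hTT := hW.T_add_T hb0
  have h2T : (2 : ℕ) • Point.some 0 0 (hW.nonsingular_zero hb0) = 0 := by
    rw [two_smul]; exact hTT
  have hpT : p • Point.some 0 0 (hW.nonsingular_zero hb0) =
      Point.some 0 0 (hW.nonsingular_zero hb0) := by
    obtain ⟨k, hk⟩ := hp.odd_of_ne_two hp2
    rw [hk, add_smul, one_smul, mul_comm, mul_smul, h2T, smul_zero, zero_add]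
  have hfT0 : f (Point.some 0 0 (hW.nonsingular_zero hb0)) =
      Point.some 0 0 (hW.nonsingular_zero hb0) := by
    obtain ⟨h', hf'⟩ := hf 0 0 (hW.nonsingular_zero hb0)
    rw [hf']
    obtain ⟨h'', e⟩ := some_congr h' (map_zero τ) (map_zero τ)
    exact e
  rcases lt_trichotomy (v x) 1 with hx | hx | hx
  · -- `v x < 1`
    by_cases hx0 : x = 0
    · exfalso
      subst hx0
      have hy : y = 0 := by
        have := hW.eq_of_nonsingular h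
        simpa using this
      subst hy
      rw [hpT] at hT
      exact Point.some_ne_zero _ hT
    have hX : 0 < v x := val_pos v hx0
    obtain ⟨h', hadd⟩ := hW.add_T hb0 h hx0
    rcases lt_trichotomy (v x) (v W.a₄) with hc | hc | hc
    · -- `T + (0,0) ∈ E₁`: impossible
      exfalso
      have h1 : InE1 v (Point.some x y h + Point.some 0 0 (hW.nonsingular_zero hb0)) := by
        rw [hadd]
        refine Or.inr ⟨_, _, h', rfl, ?_⟩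
        rw [map_div₀, one_lt_div₀ hX]
        exact hc
      have h2 := inE1_nsmul' hW ha.le hb.le h1 p
      rw [smul_add, hT, zero_add, hpT] at h2
      exact not_inE1_T hW hb0 h2
    · -- `T + (0,0)` has a unit `x`-coordinate
      have hu : v (W.a₄ / x) = 1 := by
        rw [map_div₀, hc, div_self (val_pos v hb0).ne']
      obtain ⟨hα', x₃, y₃, h₃, hadd₃, hx₃0, hval⟩ := trans_alpha hW ha.le hb h₁ h' hx₁ hu
      obtain ⟨hτ', hfT'⟩ := hf _ _ h'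
      have e1 : Point.some x₁ y₁ h₁ + Point.some (W.a₄ / x) (-(W.a₄ * y / x ^ 2)) h' =
          Point.some (τ (W.a₄ / x)) (τ (-(W.a₄ * y / x ^ 2))) hτ' := by
        rw [← hfT', ← hadd, map_add, hfT0, hfT, ← hsum]
        abel
      rw [e1, Point.some.injEq] at hadd₃
      obtain ⟨rfl, rfl⟩ := hadd₃
      have hb0' : W.a₄ ≠ 0 := hb0
      have e2 : -(W.a₄ * y / x ^ 2) / (W.a₄ / x) = -(y / x) := by
        field_simp
      rw [← map_div₀, e2, map_neg] at hval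
      rw [e2, Valuation.map_neg] at hα'
      refine ⟨y / x, Or.inr (Or.inl rfl), hα', ?_⟩
      have e3 : τ (y / x) - y / x = -(-τ (y / x) - -(y / x)) := by ring
      rw [e3, Valuation.map_neg, hval, hd]
    · -- the node case
      have hα := hW.val_alpha_node v ha h hc hx
      obtain ⟨i, j, hij⟩ := hW.node_torsion_val ha hb0 hb hv2 h hc hx p hT
      obtain ⟨k, hk⟩ := val_eq_pow_of_pow_eq hp.ne_zero (val_pos v hb0).ne' hb hx.le hβ hij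
      have hϖ0 : ϖ ≠ 0 := by
        rintro rfl
        rw [map_zero] at hk
        rcases Nat.eq_zero_or_pos k with h0 | h0
        · rw [h0, pow_zero] at hk
          rw [hk] at hx
          exact lt_irrefl _ hx
        · rw [zero_pow h0.ne'] at hk
          exact hX.ne' hk
      have hπk : 0 < v ϖ ^ k := pow_pos (val_pos v hϖ0) k
      obtain ⟨x₃, y₃, h₃, hadd₃, hval⟩ := trans_x hW hv2 ha.le hb h₁ h hx₁ hc hx.le hα
      rw [hsum, Point.some.injEq] at hadd₃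
      obtain ⟨rfl, rfl⟩ := hadd₃
      refine ⟨x / ϖ ^ k, Or.inr (Or.inr ⟨k, rfl⟩), ?_, ?_⟩
      · rw [map_div₀, map_pow, hk, div_self hπk.ne']
      · have e3 : τ (x / ϖ ^ k) - x / ϖ ^ k = (τ x - x) / ϖ ^ k := by
          rw [map_div₀, map_pow, hτϖ]; ring
        rw [e3, map_div₀, hval, map_pow, hk, mul_comm, mul_div_assoc, div_self hπk.ne', mul_one,
          hd]
  · -- `v x = 1`
    obtain ⟨hα', x₃, y₃, h₃, hadd₃, hx₃0, hval⟩ := trans_alpha hW ha.le hb h₁ h hx₁ hx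
    rw [hsum, Point.some.injEq] at hadd₃
    obtain ⟨rfl, rfl⟩ := hadd₃
    refine ⟨y / x, Or.inr (Or.inl rfl), hα', ?_⟩
    rw [map_div₀, hval, hd]
  · -- `T ∈ E₁`
    have hTE : InE1 v (Point.some x y h) := Or.inr ⟨x, y, h, rfl, hx⟩
    have hdT := hdepth _ hTE (Point.some_ne_zero _) hT
    rw [tC_some] at hdT
    have heq : v (x / y) = v (x₁ / y₁) :=
      (pow_left_inj₀ zero_le zero_le hp1).mp (hdT.trans hd.symm)
    have hadd := hW.E1_add v ha.le hb.le hTE (Or.inr ⟨x₁, y₁, h₁, rfl, hx₁⟩) hr0 heq.le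
      (le_refl _)
    have e1 : Point.some x y h + Point.some x₁ y₁ h₁ = Point.some (τ x) (τ y) hτ := by
      rw [← hsum]; abel
    rw [e1, tC_some, tC_some, tC_some, ← map_div₀] at hadd
    refine ⟨x / y, Or.inl rfl, ?_, ?_⟩
    · rw [heq]; exact hr1.le
    · have e3 : τ (x / y) - x / y = x₁ / y₁ + (τ (x / y) - x / y - x₁ / y₁) := by ring
      rw [e3, v.map_add_eq_of_lt_left hadd.2, hd]

end Fermat.Agent.T8.helper47
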