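import Fermat.Agent.S13.helper60_AtP
import Fermat.Agent.T8.helper47_WMultCore
import Fermat.Agent.T8.helper47_WMultContract

/-!
# T8 (row 38), box [W-MULT] (helper47): the Frey instance

`wMult_of_depth` : the contract `WMultStatement` from the DEPTH of the `p`-torsion of the kernel
of reduction (`DepthAt`, input (b) of the box: helper11 / helper35) — via the short models of
S05 (`isShift_ab`, `isShift_c`), S13.helper60 `sub_map_mem_E1` and the local core `wmult_core`.
-/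

set_option autoImplicit false
set_option linter.unusedSectionVars false
set_option linter.unusedVariables false

namespace Fermat.Agent.T8.helper47

open WeierstrassCurve WeierstrassCurve.Affine
open Fermat.Agent.S05 Fermat.Agent.S05.helper92

section Frey

variable {K : Type*} [Field K] [DecidableEq K] [Algebra ℚ K] [CharZero K]

/-- **input (b), DEPTH**: on a short model with multiplicative reduction and `v a₄ < v p`, every
nonzero `p`-torsion point of the kernel of reduction has `v (t) ^ (p - 1) = v p`. -/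
def DepthAt (A : ValuationSubring K) (p : ℕ) : Prop :=
  ∀ (W : Affine K), IsTwoNF W → A.valuation 2 = 1 → A.valuation W.a₂ = 1 →
    (∃ s0 : K, W.a₂ = s0 ^ 2) → A.valuation W.a₄ < A.valuation (p : K) →
    ∀ Q : W.Point, InE1 A.valuation Q → Q ≠ 0 → p • Q = 0 →
      A.valuation (tC Q) ^ (p - 1) = A.valuation (p : K)

omit [Algebra ℚ K] [CharZero K] in
/-- `v (n ^ p) < v p` for an integer `n` divisible by `p`. -/
lemma val_pow_lt_of_dvd {A : ValuationSubring K} {p : ℕ} (hp : p.Prime)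
    (hA : A.LiesOverPrime p) (hp0 : (p : K) ≠ 0) {n : ℤ} (hn : (p : ℤ) ∣ n) :
    A.valuation ((n : ℤ) : K) ^ p < A.valuation (p : K) := by
  obtain ⟨k, rfl⟩ := hn
  have hp1 : A.valuation (p : K) < 1 := (ValuationSubring.mem_nonunits_iff A).mp hA
  have hppos : 0 < A.valuation (p : K) := by
    rw [zero_lt_iff, ne_eq, map_eq_zero]; exact hp0
  have hk : A.valuation ((k : ℤ) : K) ≤ 1 := (A.valuation_le_one_iff _).mpr (intCast_mem A k)
  have h1 : A.valuation (((p : ℤ) * k : ℤ) : K) ≤ A.valuation (p : K) := by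
    push_cast
    rw [map_mul]
    calc A.valuation (p : K) * A.valuation (k : K) ≤ A.valuation (p : K) * 1 := by gcongr
      _ = _ := mul_one _
  calc A.valuation (((p : ℤ) * k : ℤ) : K) ^ p ≤ A.valuation (p : K) ^ p := by gcongr
    _ = A.valuation (p : K) ^ (p - 1) * A.valuation (p : K) := by
        rw [← pow_succ]
        congr 1
        have := hp.two_le
        omega
    _ < 1 * A.valuation (p : K) := by
        apply mul_lt_mul_of_pos_right _ hppos
        exact pow_lt_one₀ zero_le hp1 (by have := hp.two_le; omega)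
    _ = _ := one_mul _

/-- The general step on a short model. -/
lemma wmult_of_shift (P : FreyPackage) (A : ValuationSubring K) (hA : A.LiesOverPrime P.p)
    (hdepth : DepthAt A P.p) (hsq : ∀ a : K, ∃ s0 : K, a = s0 ^ 2)
    (τ : K ≃ₐ[ℚ] K) (hτ : τ ∈ A.inertiaSubgroupIn ℚ)
    {W₀' : Affine ℚ} {e : K} (h : IsShift (freyK P K) (W₀'⁄K) e)
    (he : ∀ σ : K ≃ₐ[ℚ] K, σ e = e)
    (ha : A.valuation (W₀'⁄K).a₂ = 1) (hb : A.valuation (W₀'⁄K).a₄ < 1)
    (hb0 : (W₀'⁄K).a₄ ≠ 0) (n : ℤ) (hn : (P.p : ℤ) ∣ n)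
    (hβ : A.valuation (W₀'⁄K).a₄ = A.valuation ((n : ℤ) : K) ^ P.p)
    (T : (freyK P K).Point) (hT : (P.p : ℤ) • T = 0) (hne : τ • T ≠ T) :
    ∃ z ∈ A, (∀ σ : K ≃ₐ[ℚ] K, σ • T = T → σ z = z) ∧
      A.valuation (τ z - z) ^ (P.p - 1) = A.valuation ((P.p : ℕ) : K) := by
  have hp2 : P.p ≠ 2 := by have := P.hp5; omega
  have hv2 : A.valuation (2 : K) = 1 := valuation_two P.pp hA hp2
  have hp0 : ((P.p : ℕ) : K) ≠ 0 := by exact_mod_cast P.pp.ne_zero
  have hτ' : ∀ x : K, A.valuation x ≤ 1 → A.valuation ((τ : K →+* K) x - x) < 1 := by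
    intro x hx
    have hxA : x ∈ A := (A.valuation_le_one_iff x).mp hx
    have := apply_sub_mem_nonunits_of_mem_inertiaSubgroupIn hτ hxA
    exact A.mem_nonunits_iff.mp this
  have hτb : (τ : K →+* K) (W₀'⁄K).a₄ = (W₀'⁄K).a₄ := by
    show τ (algebraMap ℚ K W₀'.a₄) = algebraMap ℚ K W₀'.a₄
    exact τ.commutes _
  have hP : P.p • h.hom T = 0 := by
    rw [← map_nsmul]
    have : P.p • T = 0 := by
      rw [← natCast_zsmul]; exact hT
    rw [this, map_zero]
  have hβ' : A.valuation (W₀'⁄K).a₄ = A.valuation ((n : ℤ) : K) ^ (P.p * 1) := by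
    rw [mul_one]; exact hβ
  have hE1 := Fermat.Agent.S13.helper60.sub_map_mem_E1 (v := A.valuation) h.nf hv2 ha.le hb.le
    hb0 P.p P.pp hp2 (τ : K →+* K) hτ' hτb
    (Point.map (W' := W₀') τ.toAlgHom) (fun x y hxy => ⟨_, Point.map_some _ hxy⟩)
    (Or.inr ⟨ha, hb, ((n : ℤ) : K), 1, map_intCast τ n, hβ'⟩) (h.hom T) hP
  have hE1' : InE1 A.valuation (Point.map (W' := W₀') τ.toAlgHom (h.hom T) - h.hom T) := by
    have := Fermat.Agent.S13.helper60.inE1_neg h.nf hE1
    rwa [neg_sub] at this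
  have e1 : h.hom (τ • T) = Point.map (W' := W₀') τ.toAlgHom (h.hom T) := h.hom_map τ (he τ) T
  have hne' : Point.map (W' := W₀') τ.toAlgHom (h.hom T) ≠ h.hom T := by
    rw [← e1]
    exact fun hh => hne (h.hom_injective hh)
  have hbp : A.valuation (W₀'⁄K).a₄ < A.valuation ((P.p : ℕ) : K) := by
    rw [hβ]; exact val_pow_lt_of_dvd P.pp hA hp0 hn
  obtain ⟨x', y', hxy', hT', z, hz, hz1, hzd⟩ := wmult_core (v := A.valuation) h.nf hv2 ha hb0 hb
    P.p P.pp hp2 ((n : ℤ) : K) 1 hβ'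
    (fun Q hQ hQ0 hpQ => hdepth _ h.nf hv2 ha (hsq _) hbp Q hQ hQ0 hpQ)
    (τ : K →+* K) (map_intCast τ n)
    (Point.map (W' := W₀') τ.toAlgHom) (fun x y hxy => ⟨_, Point.map_some _ hxy⟩)
    (h.hom T) hP hne' hE1'
  refine ⟨z, (A.valuation_le_one_iff z).mp hz1, ?_, hzd⟩
  intro σ hσ
  -- the coordinates of `h.hom T` are fixed by `σ`
  have e2 : Point.map (W' := W₀') σ.toAlgHom (h.hom T) = h.hom T := by
    rw [← h.hom_map σ (he σ) T]
    exact congrArg h.hom hσ
  rw [hT', Point.map_some, Point.some.injEq] at e2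
  obtain ⟨ex, ey⟩ := e2
  have ex' : σ x' = x' := ex
  have ey' : σ y' = y' := ey
  rcases hz with rfl | rfl | ⟨k, rfl⟩
  · rw [map_div₀, ex', ey']
  · rw [map_div₀, ex', ey']
  · rw [map_div₀, map_pow, ex', map_intCast]

/-- **[W-MULT] for the Frey curve at `p ∣ a b c`**, from the depth input. -/
theorem frey_wmult (P : FreyPackage) (A : ValuationSubring K) (hA : A.LiesOverPrime P.p)
    (hdepth : DepthAt A P.p) (hsq : ∀ a : K, ∃ s0 : K, a = s0 ^ 2)
    (hdiv : (P.p : ℤ) ∣ P.a * P.b * P.c)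
    (T : (freyK P K).Point) (hT : (P.p : ℤ) • T = 0)
    (τ : K ≃ₐ[ℚ] K) (hτ : τ ∈ A.inertiaSubgroupIn ℚ) (hne : τ • T ≠ T) :
    ∃ z ∈ A, (∀ σ : K ≃ₐ[ℚ] K, σ • T = T → σ z = z) ∧
      A.valuation (τ z - z) ^ (P.p - 1) = A.valuation ((P.p : ℕ) : K) := by
  have hq2 : P.p ≠ 2 := by have := P.hp5; omega
  by_cases hc : (P.p : ℤ) ∣ P.c
  · have hu := c₂_c_unit P (K := K) P.pp hA hq2 hc
    have hn := c₁_c_mem_nonunits P (K := K) P.pp hA hq2 hc
    refine wmult_of_shift P A hA hdepth hsq τ hτ (isShift_c P K)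
      (fun σ => apply_fA_div_four P σ) ?_ ?_ ?_ (P.a * P.c) (Dvd.dvd.mul_left hc _) ?_ T hT hne
    · rw [shortC_a₂]; exact valuation_eq_one_iff.mpr hu
    · rw [shortC_a₄]; exact A.mem_nonunits_iff.mp hn
    · rw [shortC_a₄]; exact c₁_c_ne_zero P
    · rw [shortC_a₄]; exact valuation_c₁_c P P.pp hA hq2
  · have hab : (P.p : ℤ) ∣ P.a * P.b := by
      have hq' : Prime (P.p : ℤ) := Nat.prime_iff_prime_int.1 P.pp
      rcases hq'.dvd_mul.mp hdiv with h | h
      · exact h
      · exact absurd h hc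
    have hu := c₂_ab_unit P (K := K) P.pp hA hq2 hab
    have hn := c₁_ab_mem_nonunits P (K := K) P.pp hA hq2 hab
    refine wmult_of_shift P A hA hdepth hsq τ hτ (isShift_ab P K)
      (fun σ => map_zero σ) ?_ ?_ ?_ (P.a * P.b) hab ?_ T hT hne
    · rw [shortAB_a₂]; exact valuation_eq_one_iff.mpr hu
    · rw [shortAB_a₄]; exact A.mem_nonunits_iff.mp hn
    · rw [shortAB_a₄]; exact c₁_ab_ne_zero P
    · rw [shortAB_a₄]; exact valuation_c₁_ab P P.pp hA hq2

end Frey

/-- **the contract from the depth input** (`K = Qbar`). -/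
theorem wMult_of_depth
    (hdepth : ∀ (P : FreyPackage) (A : ValuationSubring (AlgebraicClosure ℚ)),
      A.LiesOverPrime P.p → DepthAt A P.p) : WMultStatement := by
  intro P A hA hdiv T hT τ hτ hne
  refine frey_wmult P A hA (hdepth P A hA) ?_ hdiv T hT τ hτ hne
  intro a
  obtain ⟨s0, hs0⟩ := IsAlgClosed.exists_pow_nat_eq a (n := 2) (by norm_num)
  exact ⟨s0, hs0.symm⟩

end Fermat.Agent.T8.helper47
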