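import Fermat.Agent.T8.helper35_Toric
import Fermat.Agent.T8.helper47_WMultFrey

/-!
# T8 (row 38), box [W-MULT] (helper47): the box is CLOSED

* `val_one_add_pow_sub_one_shallow` : `v p < v δ ^ (p - 1)`, `v δ < 1` ⟹
  `v ((1 + δ) ^ p - 1) = v δ ^ p`;
* `E1_torsion_depth_eq` : the depth of the `p`-torsion of the kernel of reduction is EXACTLY
  `v (t) ^ (p - 1) = v p` (`≥` is helper35's `E1_torsion_depth`, `≤` is the shallow case, from
  the same toric congruence `helper35.nu_nsmul`);
* `depthAt` : the input `DepthAt` of `helper47_WMultFrey`;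
* `wMult : WMultStatement`, `wMult' : WMultStatement'` — the contract of the box, UNCONDITIONAL.
-/

set_option autoImplicit false
set_option linter.unusedSectionVars false
set_option linter.unusedVariables false

namespace Fermat.Agent.T8.helper47

open WeierstrassCurve WeierstrassCurve.Affine
open Fermat.Agent.S05

section Val

variable {K : Type*} [Field K]
variable {Γ₀ : Type*} [LinearOrderedCommGroupWithZero Γ₀]
variable (v : Valuation K Γ₀)

/-- **`p`-th powers of shallow one-units**: if `v p < v δ ^ (p - 1)` and `v δ < 1` then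
`v ((1 + δ) ^ p - 1) = v δ ^ p`. -/
lemma val_one_add_pow_sub_one_shallow {p : ℕ} (hp : p.Prime) {δ : K} (hδ1 : v δ < 1)
    (hsh : v (p : K) < v δ ^ (p - 1)) : v ((1 + δ) ^ p - 1) = v δ ^ p := by
  have hδpos : 0 < v δ := by
    rw [zero_lt_iff]
    intro h0
    rw [h0, zero_pow (by have := hp.two_le; omega)] at hsh
    exact not_lt.mpr zero_le hsh
  obtain ⟨n, hn⟩ : ∃ n, p = n + 1 := ⟨p - 1, by have := hp.two_le; omega⟩
  have hexp' : ∀ n : ℕ, (1 + δ) ^ (n + 1) - 1 = δ ^ (n + 1) +
      ∑ m ∈ Finset.range n, δ ^ (m + 1) * (((n + 1).choose (m + 1) : ℕ) : K) := by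
    intro n
    rw [add_comm 1 δ, add_pow, Finset.sum_range_succ, Finset.sum_range_succ']
    simp only [one_pow, mul_one, pow_zero, Nat.choose_zero_right, Nat.cast_one, Nat.choose_self]
    ring
  have hexp : (1 + δ) ^ p - 1 = δ ^ p +
      ∑ m ∈ Finset.range n, δ ^ (m + 1) * ((p.choose (m + 1) : ℕ) : K) := by
    rw [hn]; exact hexp' n
  have hpp : v δ ^ p = v δ ^ (p - 1) * v δ := by
    rw [← pow_succ]; congr 1; have := hp.two_le; omega
  have hsum : v (∑ m ∈ Finset.range n, δ ^ (m + 1) * ((p.choose (m + 1) : ℕ) : K)) <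
      v δ ^ p := by
    apply Valuation.map_sum_lt v (pow_pos hδpos p).ne'
    intro m hm
    rw [Finset.mem_range] at hm
    rw [map_mul, map_pow]
    have hdvd : p ∣ p.choose (m + 1) := hp.dvd_choose_self (by omega) (by omega)
    obtain ⟨c, hc⟩ := hdvd
    have h1 : v ((p.choose (m + 1) : ℕ) : K) ≤ v (p : K) := by
      rw [hc]; push_cast
      rw [map_mul]
      calc v (p : K) * v (c : K) ≤ v (p : K) * 1 := by
            gcongr; exact val_natCast_le_one v c
        _ = v (p : K) := mul_one _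
    have h2 : v δ ^ (m + 1) ≤ v δ := by
      calc v δ ^ (m + 1) = v δ ^ m * v δ := pow_succ _ _
        _ ≤ 1 * v δ := by
            gcongr
            exact pow_le_one₀ zero_le hδ1.le
        _ = v δ := one_mul _
    calc v δ ^ (m + 1) * v ((p.choose (m + 1) : ℕ) : K) ≤ v δ * v (p : K) := by gcongr
      _ < v δ * v δ ^ (p - 1) := mul_lt_mul_of_pos_left hsh hδpos
      _ = v δ ^ p := by rw [hpp, mul_comm]
  rw [hexp, v.map_add_eq_of_lt_left (by rw [map_pow]; exact hsum), map_pow]

variable [DecidableEq K] {W : Affine K}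

/-- **DEPTH, exact**: a nonzero `p`-torsion point of the kernel of reduction of
`y² = x³ + a₂ x² + a₄ x` (`v 2 = 1`, `v a₂ = 1`, `v a₄ < v p`) has `v (t) ^ (p - 1) = v p`. -/
theorem E1_torsion_depth_eq (hW : IsTwoNF W) (ha : v W.a₂ = 1) (hv2 : v 2 = 1) {β : K}
    (hβ : β ^ 2 = W.a₂) {p : ℕ} (hp : p.Prime) (hbp : v W.a₄ < v (p : K))
    {x y : K} (h : W.Nonsingular x y) (hx : 1 < v x) (hpQ : p • Point.some x y h = 0) :
    v (x / y) ^ (p - 1) = v (p : K) := by
  refine le_antisymm ?_ (helper35.E1_torsion_depth v hW ha hv2 hβ hp hbp h hx hpQ)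
  by_contra hsh
  rw [not_le] at hsh
  have hb : v W.a₄ ≤ 1 := hbp.le.trans (val_natCast_le_one v p)
  have hQ : InE1 v (Point.some x y h) := Or.inr ⟨x, y, h, rfl, hx⟩
  have hvβ : v β = 1 := by
    apply eq_one_of_sq_eq_one
    rw [← map_pow, hβ]; exact ha
  have hδ := helper35.val_nu_sub_one v hW ha.le hb hvβ hv2 hQ
  rw [tC_some] at hδ
  have hA := hW.val_alpha_sq_of_one_lt v ha.le hb h hx
  have hA1 : 1 < v (y / x) := one_lt_of_one_lt_sq (by rw [hA]; exact hx)
  have ht : v (x / y) = (v (y / x))⁻¹ := by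
    rw [← map_inv₀, inv_div]
  have hr1 : v (x / y) < 1 := by
    rw [ht]; exact inv_lt_one_of_one_lt₀ hA1
  have hr : 0 < v (x / y) := by
    rw [ht]; exact inv_pos.mpr (lt_trans zero_lt_one hA1)
  have key := helper35.nu_nsmul v hW ha.le hb hβ hQ p
  rw [hpQ, helper35.nu_zero, tC_some, Valuation.map_sub_swap] at key
  have e : helper35.nu β (Point.some x y h) = 1 + (helper35.nu β (Point.some x y h) - 1) := by
    ring
  rw [e, val_one_add_pow_sub_one_shallow v hp (by rw [hδ]; exact hr1) (by rw [hδ]; exact hsh),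
    hδ] at key
  have hpp : v (x / y) ^ p = v (x / y) ^ (p - 1) * v (x / y) := by
    rw [← pow_succ]; congr 1; have := hp.two_le; omega
  rw [hpp] at key
  have := le_of_mul_le_mul_right key hr
  exact absurd (lt_trans hbp hsh) (not_lt.mpr this)

end Val

section Frey

variable {K : Type*} [Field K] [DecidableEq K] [Algebra ℚ K] [CharZero K]

/-- the depth input of `helper47_WMultFrey` holds. -/
theorem depthAt (A : ValuationSubring K) {p : ℕ} (hp : p.Prime) : DepthAt A p := by
  intro W hW hv2 ha ⟨s0, hs0⟩ hbp Q hQ hQ0 hpQ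
  rcases hQ with rfl | ⟨x, y, h, rfl, hx⟩
  · exact absurd rfl hQ0
  · rw [tC_some]
    exact E1_torsion_depth_eq A.valuation hW ha hv2 hs0.symm hp hbp h hx hpQ

end Frey

/-- **[W-MULT], the contract of the box** (unconditional). -/
theorem wMult : WMultStatement :=
  wMult_of_depth fun P A _ => depthAt A P.pp

/-- **[W-MULT]**, shape of finding #3485. -/
theorem wMult' : WMultStatement' := wMult'_of_wMult wMult

end Fermat.Agent.T8.helper47
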