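import Fermat.Agent.T8.helper89_PeuW
import Fermat.Agent.T8.helper47_WMult

/-!
# T8 (row 38), helper89: the NON-SPLIT case of the wall, with [W-MULT] discharged

`helper47.wMult'` (box [W-MULT], closed on main) is plugged into `nonSplitWall_of_concl`:

* `peuShape_ctx`          : in the context of the wall, every Kummer function `u` of a class
                            `x ∈ V` moved by some `τ ∈ I_K1` has `helper29.PeuShape`
                            (UNCONDITIONAL);
* `nonSplitWall_of_conclFrey` : **`ConclFreyStatement` ⟹
                            `helper38.NonSplitWallStatement π helper29.wallBN`** for every `π`.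

So box 6 of the chain (`NonSplitWallStatement`) is reduced to the single Prop
`ConclFreyStatement` (= `helper29.ConclStatementN` at the bad pair of a Frey package).
-/

set_option autoImplicit false
set_option linter.unusedSectionVars false
set_option linter.unusedVariables false
set_option linter.style.longLine false
set_option linter.style.haveILetI false

noncomputable section

namespace Fermat.Agent.T8.helper89

open HahnSeries IntermediateField AlgebraicCurve ModularCurve
open Fermat.Agent.S18.helper19 Fermat.Agent.P2.helper29 Fermat.Agent.P2.helper93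
open Fermat.Agent.T2 Fermat.Agent.T2.helper36
open Fermat.Agent.T7 Fermat.Agent.T8.helper72 Fermat.Agent.T8.helper38

variable {π : PullData} {P : FreyPackage} {W : WeierstrassCurve ℤ} {M' : ℕ} [NeZero M']
  {hpN : ¬ P.p ∣ 4 * M'} {A : ValuationSubring (AlgebraicClosure ℚ)}
  {V0 : AddSubgroup (JZero (M' * P.p))}

/-- **`PeuShape` in the context of the wall** (non-split case), unconditional. -/
theorem peuShape_ctx (ctx : WallCtx π P W M' hpN A V0) {x : JZero (4 * M' * P.p)}
    (hx : x ∈ V0.map (π M' P.p)) {τ : AlgebraicClosure ℚ ≃ₐ[ℚ] AlgebraicClosure ℚ}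
    (hτ : helper98.IsIK1 A P.p τ) (hτx : τ • x ≠ x)
    {D : Divisor.degZero (K := Kb) (F := FF (4 * M' * P.p))} {u : FF (4 * M' * P.p)}
    (hD : (Pic0.mk D : JZero (4 * M' * P.p)) = x)
    (H : IsRootDiv P.p (D : Divisor Kb (FF (4 * M' * P.p))) u) :
    Fermat.Agent.T8.helper29.PeuShape (atkinLehner (4 * M') P.p P.pp hpN) A P.p u :=
  peuShape_of_ctx Fermat.Agent.T8.helper47.wMult' ctx hx hτ hτx hD H

/-- **the NON-SPLIT case of the wall from [CONCL] alone**, with `B := helper29.wallBN`. -/
theorem nonSplitWall_of_conclFrey (π : PullData) (hC : ConclFreyStatement) :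
    NonSplitWallStatement π Fermat.Agent.T8.helper29.wallBN :=
  nonSplitWall_of_concl π Fermat.Agent.T8.helper47.wMult' hC

end Fermat.Agent.T8.helper89

end
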