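/-
T8 (row 38 via S44), helper22: THREADING NEWNESS through the non-split wall.

`helper29.PeuShape` carries a strongly split `K` but not the NEWNESS of `K`; the residue field
of the sheets of the cover `F(K^(1/p))` is `FFb A N` only for NEW `K` ([SHEET-FFB],
`helper22.goodIn_cov₁`).  The producer of `PeuShape` in the context of the wall
(`helper89.peuShape_of_ctx`) HAS the newness (`K` is a Kummer function of the new class
`l₀ = τ • x - x`).  This file restates the non-split chain with it: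

* `PeuShapeN N p W A u`      : `PeuShape` + `T7.helper27.IsNewN N p K`;
* `PeuShapeN.toPeuShape`, `peuShapeN_atkinLehner`;
* `ConclStatementNN`, `ConclFreyStatementN` : the contracts of [CONCL] with `PeuShapeN`
                               (WEAKER than `helper29.ConclStatementN` /
                               `helper89.ConclFreyStatement`: more hypotheses);
* `exists_peuShapeN_of_ctx`  : the context of the wall produces `PeuShapeN` (unconditional);
* `nonSplitWall_of_conclFreyN` : **`ConclFreyStatementN` ⟹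
                               `helper38.NonSplitWallStatement π helper29.wallBN`**;
* `conclFreyN_of_conclFrey`  : the old contract implies the new one;
* `peuShapeN_cases_bad`      : the dichotomy of `helper86.peuShape_cases_bad` with, in the
                               non-split case, `IsNewN N p C.K` and the two `GoodIn` of
                               [SHEET-FFB].
-/
import Mathlib
import Fermat.Agent.T8.helper89_NonSplit
import Fermat.Agent.T8.helper86_PeuCases
import Fermat.Agent.T8.helper22_SheetFFb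

set_option autoImplicit false
set_option linter.unusedSectionVars false
set_option linter.unusedVariables false
set_option linter.style.longLine false
set_option linter.style.haveILetI false
set_option synthInstance.maxHeartbeats 400000

noncomputable section

namespace Fermat.Agent.T8.helper22

open HahnSeries IntermediateField AlgebraicCurve ModularCurve
open Fermat.Agent.S18.helper19 Fermat.Agent.P2.helper29 Fermat.Agent.P2.helper93
open Fermat.Agent.T2 Fermat.Agent.T2.helper36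
open Fermat.Agent.T7 Fermat.Agent.T8.helper72 Fermat.Agent.T8.helper38
open Fermat.Agent.T8.helper54 (IsRed1 DvdOff ModEqOff)
open Fermat.Agent.P3.helper94 (IsKummerRep)
open Fermat.Agent.T3.helper16 (IsUnit0)

section Bad

variable (N p : ℕ) [NeZero N] [NeZero p]

/-- **`PeuShape` with the newness of `K`.** -/
def PeuShapeN (W : FF (N * p) ≃ₐ[Kb] FF (N * p)) (A : ValuationSubring Kb)
    (u : FF (N * p)) : Prop :=
  ∃ (K : FF (N * p)) (ζ α : Kb), Fermat.Agent.T7.helper27.StronglySplit (N * p) W A p K ∧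
    Fermat.Agent.T7.helper27.IsNewN N p K ∧
    IsPrimitiveRoot ζ p ∧ α ≠ 0 ∧ A.valuation (α ^ p) = 1 ∧
    ∀ σ : Kb ≃ₐ[ℚ] Kb, Fermat.Agent.T8.helper98.IsIK1 A p σ →
      ∃ (j : ℕ) (c : Kb) (v : FF (N * p)), σ α = ζ ^ j * α ∧ c ≠ 0 ∧ v ≠ 0 ∧
        galF (N * p) σ u = algebraMap Kb (FF (N * p)) c * v ^ p * u * K ^ j

variable {N p}

theorem PeuShapeN.toPeuShape {W : FF (N * p) ≃ₐ[Kb] FF (N * p)} {A : ValuationSubring Kb}
    {u : FF (N * p)} (h : PeuShapeN N p W A u) :
    Fermat.Agent.T8.helper29.PeuShape W A p u := by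
  obtain ⟨K, ζ, α, hK, -, hζ, hα0, hαv, hσ⟩ := h
  exact ⟨K, ζ, α, hK, hζ, hα0, hαv, hσ⟩

variable (N p) (hp : p.Prime) (hpN : ¬ p ∣ N)

/-- **`PeuShapeN` is stable under the Atkin-Lehner involution.** -/
theorem peuShapeN_atkinLehner {A : ValuationSubring Kb} {u : FF (N * p)}
    (h : PeuShapeN N p (atkinLehner N p hp hpN) A u) :
    PeuShapeN N p (atkinLehner N p hp hpN) A (atkinLehner N p hp hpN u) := by
  obtain ⟨K, ζ, α, hK, hnew, hζ, hα0, hαv, hσ⟩ := h
  refine ⟨atkinLehner N p hp hpN K, ζ, α,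
    Fermat.Agent.T8.helper89.stronglySplit_W (atkinLehner N p hp hpN)
      (atkinLehner_atkinLehner N p hp hpN) hK,
    isNewN_atkinLehner N p hp hpN hnew, hζ, hα0, hαv, fun σ hs => ?_⟩
  obtain ⟨j, c, v, h1, hc, hv, e⟩ := hσ σ hs
  refine ⟨j, c, atkinLehner N p hp hpN v, h1, hc,
    (map_ne_zero (atkinLehner N p hp hpN)).mpr hv, ?_⟩
  rw [← Fermat.Agent.T7.helper23.hWgal_atkinLehner N p hp hpN, e, map_mul, map_mul, map_mul,
    map_pow, map_pow, AlgEquiv.commutes]

/-- **[CONCL] with newness**: the period formula for the Kummer functions of shape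
`PeuShapeN`. -/
def ConclStatementNN (A : ValuationSubring Kb) (ν : FFb A N) : Prop :=
  ∀ u : FF (N * p), u ≠ 0 → (∀ P : Place Kb (FF (N * p)), (p : ℤ) ∣ P.ord u) →
    PeuShapeN N p (atkinLehner N p hp hpN) A u → Fermat.Agent.T8.helper29.SlopeOutN A N p ν u

/-- the contract without newness implies the contract with newness -/
theorem conclNN_of_conclN {A : ValuationSubring Kb} {ν : FFb A N}
    (h : Fermat.Agent.T8.helper29.ConclStatementN A N p (atkinLehner N p hp hpN) ν) :
    ConclStatementNN N p hp hpN A ν :=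
  fun u hu hdiv hpeu => h u hu hdiv hpeu.toPeuShape

/-- **[CONCL] in class form, both components**, from the contract with newness. -/
theorem isWallBN2_of_conclNN {A : ValuationSubring Kb} {ν : FFb A N}
    (hC : ConclStatementNN N p hp hpN A ν)
    {x : JZero (N * p)} {u : FF (N * p)} (hk : IsKummerRep p x u)
    (hpeu : PeuShapeN N p (atkinLehner N p hp hpN) A u) :
    Fermat.Agent.T8.helper29.IsWallBN2 A N p (atkinLehner N p hp hpN) ν x := by
  obtain ⟨hu0, D, hD, hdiv⟩ := hk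
  have hdvd : ∀ P : Place Kb (FF (N * p)), (p : ℤ) ∣ P.ord u := fun P =>
    ⟨(D : Divisor Kb (FF (N * p))) P, (hdiv P).symm⟩
  obtain ⟨f₁, β₁, a1, a2⟩ := hC u hu0 hdvd hpeu
  obtain ⟨f₂, β₂, b1, b2⟩ := hC (atkinLehner N p hp hpN u)
    ((map_ne_zero (atkinLehner N p hp hpN)).mpr hu0)
    (Fermat.Agent.T8.helper89.dvd_ord_W _ hdvd)
    (peuShapeN_atkinLehner N p hp hpN hpeu)
  exact ⟨u, f₁, f₂, β₁, β₂, ⟨hu0, D, hD, hdiv⟩, a1, a2, b1, b2⟩

/-- **the function-level half of `PeuShapeN`** (`helper89.peuShape_of_shift` with newness). -/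
theorem peuShapeN_of_shift (A : ValuationSubring Kb) {x l : JZero (N * p)}
    {D E : Divisor.degZero (K := Kb) (F := FF (N * p))} {u K : FF (N * p)}
    (hD : (Pic0.mk D : JZero (N * p)) = x) (H : IsRootDiv p (D : Divisor Kb (FF (N * p))) u)
    (hE : (Pic0.mk E : JZero (N * p)) = l) (HK : IsRootDiv p (E : Divisor Kb (FF (N * p))) K)
    (hK : Fermat.Agent.T7.helper27.StronglySplit (N * p) (atkinLehner N p hp hpN) A p K)
    (hnew : Fermat.Agent.T7.helper27.IsNewN N p K)
    {ζ α : Kb} (hζ : IsPrimitiveRoot ζ p) (hα0 : α ≠ 0) (hαv : A.valuation (α ^ p) = 1)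
    (hσ : ∀ σ : Kb ≃ₐ[ℚ] Kb, helper98.IsIK1 A p σ →
      ∃ j : ℕ, σ α = ζ ^ j * α ∧ σ • x = x + j • l) :
    PeuShapeN N p (atkinLehner N p hp hpN) A u := by
  refine ⟨K, ζ, α, hK, hnew, hζ, hα0, hαv, fun σ hs => ?_⟩
  obtain ⟨j, hj1, hj2⟩ := hσ σ hs
  have HKj : IsRootDiv p ((j • E : Divisor.degZero (K := Kb) (F := FF (N * p))) :
      Divisor Kb (FF (N * p))) (K ^ j) := by
    rw [AddSubgroup.coe_nsmul]
    exact HK.pow j
  have hjE : (Pic0.mk (j • E) : JZero (N * p)) = j • l := by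
    have : (Pic0.mk (j • E) : JZero (N * p)) = j • (Pic0.mk E : JZero (N * p)) := rfl
    rw [this, hE]
  have h : σ • (Pic0.mk D : JZero (N * p)) = Pic0.mk D + Pic0.mk (j • E) := by
    rw [hD, hjE]
    exact hj2
  obtain ⟨c, v, hc, hv, e⟩ := galF_eq_of_smul_eq_add σ H HKj h
  refine ⟨j, c, v, hj1, hc, hv, ?_⟩
  rw [e]
  ring

/-- **the dichotomy at a bad pair, with newness**: split case, or the cover package with
`IsNewN N p C.K` and the residue fields of both sheets equal to `FFb A N`. -/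
theorem peuShapeN_cases_bad (hN : 4 ∣ N ∨ 9 ∣ N) (A : ValuationSubring Kb)
    (hA : A.LiesOverPrime p) {u : FF (N * p)} (hu : u ≠ 0)
    (h : PeuShapeN N p (atkinLehner N p hp hpN) A u) :
    Fermat.Agent.T8.helper98.ClassFixedBy (N * p) (Fermat.Agent.T8.helper98.IsIK1 A p) p u ∨
    ∃ (C : Fermat.Agent.T8.helper88.CovData (N * p) (atkinLehner N p hp hpN) A p) (ζ α : Kb),
      Fermat.Agent.T7.helper27.StronglySplit (N * p) (atkinLehner N p hp hpN) A p C.K ∧
      Fermat.Agent.T7.helper27.IsNewN N p C.K ∧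
      Fermat.Agent.T8.helper29.GoodIn A N (SheetGood (N * p) A C.Z) ∧
      Fermat.Agent.T8.helper29.GoodIn A N (SheetGood (N * p) A C.Z') ∧
      red A C.Z₁ = 1 ∧ red A C.Z₂ = 1 ∧
      IsPrimitiveRoot ζ p ∧ A.valuation (α ^ p) = 1 ∧
      Fermat.Agent.T8.helper86.IsKummerRoot (F := FF (N * p)) (Ω := LaurentSeries Kb) p C.K C.Z ∧
      Fermat.Agent.T8.helper86.IsKummerRoot (F := FF (N * p)) (Ω := LaurentSeries Kb) p
        (atkinLehner N p hp hpN C.K) C.Z' ∧
      ∃ hI : Fermat.Agent.T8.helper83.DescInput (N * p) A p C.K u C.Z ζ α,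
        Fermat.Agent.T8.helper83.DescOutput hI.root hI.zeta A u α := by
  obtain ⟨K, ζ, α, hSS, hnew, hζ, hα, hval, hgal⟩ := h
  by_cases hpow : ∃ g : FF (N * p), g ^ p = K
  · obtain ⟨g, hg⟩ := hpow
    exact Or.inl (Fermat.Agent.T8.helper86.classFixedBy_of_pow hg hgal)
  · right
    have hnp : ∀ g : FF (N * p), g ^ p ≠ K := fun g hg => hpow ⟨g, hg⟩
    obtain ⟨Z₁, Z₂, e1, e2, r1, r2⟩ := hSS.2.2
    have k1 : Fermat.Agent.T8.helper86.IsKummerRoot (F := FF (N * p))
        (Ω := LaurentSeries Kb) p K (incl A Z₁) := ⟨hp, e1, hnp⟩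
    have k2 : Fermat.Agent.T8.helper86.IsKummerRoot (F := FF (N * p))
        (Ω := LaurentSeries Kb) p (atkinLehner N p hp hpN K) (incl A Z₂) := by
      refine ⟨hp, e2, fun b hb => hnp ((atkinLehner N p hp hpN).symm b) ?_⟩
      rw [← map_pow, hb, AlgEquiv.symm_apply_apply]
    let C : Fermat.Agent.T8.helper88.CovData (N * p) (atkinLehner N p hp hpN) A p :=
      Fermat.Agent.T8.helper88.CovData.ofBad N p hp hpN hN A hA K hSS.1 Z₁ Z₂ e1 e2 r1 r2
    have hI : Fermat.Agent.T8.helper83.DescInput (N * p) A p C.K u C.Z ζ α :=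
      { root := k1
        zeta := hζ.pow_eq_one
        alpha := hα
        u_ne := hu
        galZ := fun σ hσ => by
          obtain ⟨w, -, hw, -⟩ := C.pair σ hσ.1 1 hp.one_le
            (fun z hz => by rw [pow_one]; exact hσ.2 z hz)
          refine ⟨w, ?_⟩
          rw [pow_one] at hw
          exact hw
        galu := hgal }
    exact ⟨C, ζ, α, hSS, hnew, goodIn_cov₁ N p hp hpN hA C hnew r1,
      goodIn_cov₂ N p hp hpN hA C hnew r2, r1, r2, hζ, hval, k1, k2, hI,
      Fermat.Agent.T8.helper83.descStatement (N * p) A p C.K u C.Z ζ α hI⟩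

end Bad

/-- **the instance contract of [CONCL] at the level of the wall, with newness.** -/
def ConclFreyStatementN : Prop :=
  ∀ (P : FreyPackage) (M' : ℕ) [NeZero M'] (hpN : ¬ P.p ∣ 4 * M')
    (A : ValuationSubring (AlgebraicClosure ℚ)), A.LiesOverPrime P.p →
    ∀ (b0 : FF (4 * M' * P.p)) (B : PowerSeries ℤ) (ε : ℤ), IsUnit0 P.pp hpN b0 B ε →
      ∀ ν : FFb A (4 * M'), IsRed1 A (4 * M') P.p b0 ν →
        ConclStatementNN (4 * M') P.p P.pp hpN A ν

/-- the old contract implies the new one -/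
theorem conclFreyN_of_conclFrey (h : Fermat.Agent.T8.helper89.ConclFreyStatement) :
    ConclFreyStatementN :=
  fun P M' _ hpN A hA b0 B ε hb0 ν hν =>
    conclNN_of_conclN (4 * M') P.p P.pp hpN (h P M' hpN A hA b0 B ε hb0 ν hν)

variable {π : PullData} {P : FreyPackage} {W : WeierstrassCurve ℤ} {M' : ℕ} [NeZero M']
  {hpN : ¬ P.p ∣ 4 * M'} {A : ValuationSubring (AlgebraicClosure ℚ)}
  {V0 : AddSubgroup (JZero (M' * P.p))}

/-- **the context of the wall produces `PeuShapeN`** (non-split case), unconditional. -/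
theorem exists_peuShapeN_of_ctx (ctx : WallCtx π P W M' hpN A V0) {x : JZero (4 * M' * P.p)}
    (hx : x ∈ V0.map (π M' P.p)) {τ : AlgebraicClosure ℚ ≃ₐ[ℚ] AlgebraicClosure ℚ}
    (hτ : helper98.IsIK1 A P.p τ) (hτx : τ • x ≠ x) :
    ∃ (D : Divisor.degZero (K := Kb) (F := FF (4 * M' * P.p))) (u : FF (4 * M' * P.p)),
      (Pic0.mk D : JZero (4 * M' * P.p)) = x ∧
      IsRootDiv P.p (D : Divisor Kb (FF (4 * M' * P.p))) u ∧ u ≠ 0 ∧
      (∀ Q : Place Kb (FF (4 * M' * P.p)), (P.p : ℤ) ∣ Q.ord u) ∧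
      PeuShapeN (4 * M') P.p (atkinLehner (4 * M') P.p P.pp hpN) A u := by
  obtain ⟨D, u, hD, H⟩ := exists_isRootDiv_of_nsmul_eq_zero (ctx.real.tors x hx)
  obtain ⟨ζ, α, hζ, hα0, hαv, -, hσ⟩ :=
    Fermat.Agent.T8.helper89.exists_peu_alpha Fermat.Agent.T8.helper47.wMult' ctx hx hτ hτx
  obtain ⟨E, K, hE, HK, hK⟩ :=
    Fermat.Agent.T8.helper89.exists_stronglySplit_of_isT0_new (4 * M') P.p P.pp hpN
      (Or.inl (Dvd.intro M' rfl)) A ctx.liesOver (nonSplit_isT0 ctx hx hτ.1)
      (nonSplit_new ctx hx τ)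
  have hnew : Fermat.Agent.T7.helper27.IsNewN (4 * M') P.p K :=
    isNewN_of_isRootDiv (4 * M') P.p (nonSplit_new ctx hx τ) hE HK
  exact ⟨D, u, hD, H, H.1, fun Q => ⟨(D : Divisor Kb (FF (4 * M' * P.p))) Q, (H.2 Q).symm⟩,
    peuShapeN_of_shift (4 * M') P.p P.pp hpN A hD H hE HK hK hnew hζ hα0 hαv hσ⟩

/-- **the NON-SPLIT case of the wall from [CONCL] with newness**, `B := helper29.wallBN`. -/
theorem nonSplitWall_of_conclFreyN (π : PullData) (hC : ConclFreyStatementN) :
    NonSplitWallStatement π Fermat.Agent.T8.helper29.wallBN := by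
  intro P W M' _ hpN A V0 ctx x hx τ hτ hτx hpN' b0 B ε hb0 ν hν
  obtain ⟨D, u, hD, H, hu0, hdvd, hpeu⟩ := exists_peuShapeN_of_ctx ctx hx hτ hτx
  exact isWallBN2_of_conclNN (4 * M') P.p P.pp hpN'
    (hC P M' hpN' A ctx.liesOver b0 B ε hb0 ν hν) ⟨H.1, D, hD, H.2⟩ hpeu

end Fermat.Agent.T8.helper22

end
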