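import Fermat.Agent.T8.helper72_ChainDefs
import Fermat.Agent.T8.helper98_SplitContract

/-!
# T8 = row 38 via S44, [CHAIN] middle layer (M2) (helper38): the wall from its boxes

Target: `helper72.WallStatement π C` (contract (E) of the top chain `helper72.s44_of_boxes`).

The wall is cut into three class-level contracts, parametric in the pull-back `π`, in the wall
predicate `C` ("`c(x) = 0`", fixed by [CONCL] / [D-HECKE]) and in an intermediate predicate
`B` ("`c(x) = β m` for some `β`", fixed by [CONCL] / [SLOPE]):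

* `WallCtx π P W M' hpN A V0` : the hypotheses of `helper72.WallStatement`, bundled;
* `SplitWallStatement π B`    : SPLIT case - `x ∈ V` is fixed by `I_K1` (the elements of the
  inertia group of `A` which fix `μ_p`)  ⟹  `B x`
  (boxes [SPLIT] + [SLOPE] K1-version on `X` + [RING-X]);
* `NonSplitWallStatement π B` : NON-SPLIT case - some `τ ∈ I_K1` moves `x ∈ V`  ⟹  `B x`
  (boxes [W-MULT] + [COVER] + [DESC] + [SLOPE] on `X'` + [CONCL], peu ramifie);
* `PhiWallStatement π B C`    : `B` on all of `V`  ⟹  `C` on all of `V`  (box [PHI]: `β = 0`);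
* `wall_of_boxes`             : the three contracts give `helper72.WallStatement π C`.

The case distinction is by excluded middle on "`I_K1` fixes `x`"; the facts which the non-split
box may use for `l₀ := τ • x - x` are proved here from what is on main:
`l₀ ∈ V`, `p • l₀ = 0`, `l₀` is `p`-new, `l₀ ∈ T0` (T7 [RAM-T0]) - see `nonSplit_data`.
-/

set_option autoImplicit false
set_option linter.unusedSectionVars false
set_option linter.unusedVariables false
set_option linter.style.longLine false
set_option linter.style.haveILetI false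

noncomputable section

namespace Fermat.Agent.T8.helper38

open ModularCurve WeierstrassCurve WeierstrassCurve.Affine WeierstrassCurve.Affine.Point
open Fermat.Agent.T7 Fermat.Agent.T8.helper72

/-- the hypotheses of the wall `helper72.WallStatement`, bundled -/
structure WallCtx (π : PullData) (P : FreyPackage) (W : WeierstrassCurve ℤ) (M' : ℕ) [NeZero M']
    (hpN : ¬ P.p ∣ 4 * M') (A : ValuationSubring (AlgebraicClosure ℚ))
    (V0 : AddSubgroup (JZero (M' * P.p))) : Prop where
  model : W.IsIntegralModelOf P.freyCurve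
  cond : P.IsConductorLevel (M' * P.p)
  irr : GaloisRepIsIrreducible (K := AlgebraicClosure ℚ) ℚ P.freyCurve P.p
  liesOver : A.LiesOverPrime P.p
  real0 : FreyReal P W (M' * P.p) V0
  new0 : V0 ≤ helper43.newPart M' P.p
  real : FreyReal P W (4 * M' * P.p) (V0.map (π M' P.p))
  new : V0.map (π M' P.p) ≤ helper43.newPart (4 * M') P.p
  notT0 : ¬ (∀ x ∈ V0.map (π M' P.p), helper2.IsT0 (4 * M') P.p P.pp hpN A P.p x)

/-- **SPLIT case** of the wall: a class of `V` fixed by `I_K1` satisfies `B`. -/
def SplitWallStatement (π : PullData) (B : WallData) : Prop :=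
  ∀ (P : FreyPackage) (W : WeierstrassCurve ℤ) (M' : ℕ) [NeZero M'] (hpN : ¬ P.p ∣ 4 * M')
    (A : ValuationSubring (AlgebraicClosure ℚ)) (V0 : AddSubgroup (JZero (M' * P.p))),
    WallCtx π P W M' hpN A V0 →
    ∀ x ∈ V0.map (π M' P.p),
      (∀ σ : AlgebraicClosure ℚ ≃ₐ[ℚ] AlgebraicClosure ℚ, helper98.IsIK1 A P.p σ → σ • x = x) →
      B P M' A x

/-- **NON-SPLIT case** of the wall (peu ramifie, cover route): a class of `V` moved by some
`τ ∈ I_K1` satisfies `B`. -/
def NonSplitWallStatement (π : PullData) (B : WallData) : Prop :=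
  ∀ (P : FreyPackage) (W : WeierstrassCurve ℤ) (M' : ℕ) [NeZero M'] (hpN : ¬ P.p ∣ 4 * M')
    (A : ValuationSubring (AlgebraicClosure ℚ)) (V0 : AddSubgroup (JZero (M' * P.p))),
    WallCtx π P W M' hpN A V0 →
    ∀ x ∈ V0.map (π M' P.p),
      ∀ τ : AlgebraicClosure ℚ ≃ₐ[ℚ] AlgebraicClosure ℚ, helper98.IsIK1 A P.p τ → τ • x ≠ x →
      B P M' A x

/-- **[PHI]**: `c(x) = β(x) m` on all of `V` forces `c(x) = 0` on all of `V`. -/
def PhiWallStatement (π : PullData) (B C : WallData) : Prop :=
  ∀ (P : FreyPackage) (W : WeierstrassCurve ℤ) (M' : ℕ) [NeZero M'] (hpN : ¬ P.p ∣ 4 * M')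
    (A : ValuationSubring (AlgebraicClosure ℚ)) (V0 : AddSubgroup (JZero (M' * P.p))),
    WallCtx π P W M' hpN A V0 →
    (∀ x ∈ V0.map (π M' P.p), B P M' A x) → ∀ x ∈ V0.map (π M' P.p), C P M' A x

/-- **The wall from its three class-level boxes.** -/
theorem wall_of_boxes (π : PullData) (B C : WallData)
    (hS : SplitWallStatement π B) (hNS : NonSplitWallStatement π B)
    (hPhi : PhiWallStatement π B C) : WallStatement π C := by
  intro P W M' _ hW hcond hirr hpN A hA V0 hV0 hnew0 hV hnew hnot
  have ctx : WallCtx π P W M' hpN A V0 := ⟨hW, hcond, hirr, hA, hV0, hnew0, hV, hnew, hnot⟩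
  refine hPhi P W M' hpN A V0 ctx (fun x hx => ?_)
  by_cases hfix : ∀ σ : AlgebraicClosure ℚ ≃ₐ[ℚ] AlgebraicClosure ℚ,
      helper98.IsIK1 A P.p σ → σ • x = x
  · exact hS P W M' hpN A V0 ctx x hx hfix
  · obtain ⟨τ, hτ'⟩ := not_forall.mp hfix
    obtain ⟨hτ, hτx⟩ := Classical.not_imp.mp hτ'
    exact hNS P W M' hpN A V0 ctx x hx τ hτ hτx

end Fermat.Agent.T8.helper38

end
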