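import Fermat.Prelude.Def_FLTPrelim_FreyPackage
import Fermat.Prelude.Def_FLTPrelim_GaloisRep
import Fermat.Prelude.Def_FLTPrelim_Modularity
import Fermat.Prelude.Def_FLTPrelim_ModularRep
import Fermat.Prelude.Def_FLTPrelim_Ramification
import Fermat.Prelude.Def_FreyPackage_IsConductorLevel
import Fermat.Prelude.Def_ModularCurve_HeckeModule
import Fermat.Agent.T7.helper43_GExt
import Fermat.Agent.T7.helper2_RamT0

/-!
# T8 / S44 (helper72, assembler): shared vocabulary and the contracts of the top chain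

Notation of the blueprint (`NOTES_helper96_T8_BLUEPRINT.lean`): `N = M' * p` squarefree,
`p = P.p ≥ 5`, `E` the Frey curve, levels `M' * p` (where the eigenform lives) and `4 * M' * p`
(the bad pair `(N' * p, atkinLehner N' p, A)` of T7, `N' = 4 * M'`).

* `FreyReal P W M V` : `V ⊆ J₀(M)` is a realisation of `E[p]`: killed by `p`, the Hecke operators
  `T_ℓ` (`ℓ` good for the integral model `W`, `ℓ ∤ M`, `ℓ ≠ p`) act on `V` through `a_ℓ(W)`, and `V`
  is isomorphic to `E[p]` as a module over the absolute Galois group of `ℚ`.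
* the top chain is parametric in two pieces of data which the box owners fix:
  `π` (the pull-back `J₀(M' p) → J₀(4 M' p)`, box [AUX]) and `C` (the wall predicate
  `c(x) = 0`, boxes [CONCL] / [PHI] / [D-HECKE]).
* contracts: `RealStatement` (A), `OldLiftStatement` (C), `AuxStatement π` (D),
  `WallStatement π C` (E), `DHeckeStatement π C` (F), `G1EndStatement` (G).

The chain itself is in `helper72_Chain.lean`.
-/

set_option autoImplicit false
set_option linter.unusedSectionVars false
set_option linter.style.longLine false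
set_option linter.unusedVariables false
set_option linter.style.haveILetI false

noncomputable section

namespace Fermat.Agent.T8.helper72

open ModularCurve WeierstrassCurve WeierstrassCurve.Affine WeierstrassCurve.Affine.Point
open Fermat.Agent.T7

/-- the prime of a Frey package is not zero -/
instance neZero_p72 (P : FreyPackage) : NeZero P.p := ⟨P.pp.ne_zero⟩

/-- `E[p]` for the Frey curve of `P`, over `ℚ̄` -/
abbrev FreyTors (P : FreyPackage) : Type :=
  ↥(Submodule.torsionBy ℤ ((P.freyCurve : Affine ℚ)⁄(AlgebraicClosure ℚ)).Point P.p)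

/-- `x` is an eigenclass for the Hecke operators `T_ℓ`, `ℓ` good for `W`, `ℓ ∤ M`, `ℓ ≠ p`, with the
eigenvalues `a_ℓ(W)` -/
def IsFreyEigen (P : FreyPackage) (W : WeierstrassCurve ℤ) (M : ℕ) [NeZero M] (x : JZero M) : Prop :=
  ∀ ℓ : Nat.Primes, W.IsGoodPrimeFor (ℓ : ℕ) → ¬ (ℓ : ℕ) ∣ M → (ℓ : ℕ) ≠ P.p →
    heckeOperatorBar M ℓ x = W.apOfModel (ℓ : ℕ) • x

/-- **a realisation of `E[p]` inside `J₀(M)`** -/
structure FreyReal (P : FreyPackage) (W : WeierstrassCurve ℤ) (M : ℕ) [NeZero M]
    (V : AddSubgroup (JZero M)) : Prop where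
  /-- `V` is killed by `p` -/
  tors : ∀ x ∈ V, P.p • x = 0
  /-- `V` is an eigenspace for the eigensystem of the Frey curve -/
  eigen : ∀ x ∈ V, IsFreyEigen P W M x
  /-- `V` is isomorphic to `E[p]`, equivariantly for the absolute Galois group of `ℚ` -/
  iso : ∃ e : FreyTors P ≃+ V, ∀ (σ : AlgebraicClosure ℚ ≃ₐ[ℚ] AlgebraicClosure ℚ)
    (x : FreyTors P), ((e (σ • x) : V) : JZero M) = σ • ((e x : V) : JZero M)

/-- the type of the pull-back maps `π^* : J₀(M' p) → J₀(4 M' p)` (fixed by box [AUX]) -/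
abbrev PullData : Type :=
  ∀ (M' p : ℕ) [NeZero M'] [NeZero p], JZero (M' * p) →+ JZero (4 * M' * p)

/-- the type of the wall predicates `c(x) = 0` (fixed by boxes [CONCL] / [PHI] / [D-HECKE]) -/
abbrev WallData : Type :=
  ∀ (P : FreyPackage) (M' : ℕ) [NeZero M'], ValuationSubring (AlgebraicClosure ℚ) →
    JZero (4 * M' * P.p) → Prop

/-- **Contract (A) [REAL]**: a congruent eigenform of level `M' p` gives a realisation of `E[p]`
inside `J₀(M' p)`. -/
def RealStatement : Prop :=
  ∀ (P : FreyPackage) (M' : ℕ) [NeZero M'], P.IsConductorLevel (M' * P.p) →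
    GaloisRepIsIrreducible (K := AlgebraicClosure ℚ) ℚ P.freyCurve P.p →
    P.ModularRepOfLevel (M' * P.p) →
    ∃ (W : WeierstrassCurve ℤ) (V0 : AddSubgroup (JZero (M' * P.p))),
      W.IsIntegralModelOf P.freyCurve ∧ FreyReal P W (M' * P.p) V0

/-- **Contract (C) [OLD-LIFT]**: a realisation at level `M' p` which is not `p`-new gives a
congruent eigenform of level `M'`. -/
def OldLiftStatement : Prop :=
  ∀ (P : FreyPackage) (W : WeierstrassCurve ℤ) (M' : ℕ) [NeZero M'],
    W.IsIntegralModelOf P.freyCurve → P.IsConductorLevel (M' * P.p) →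
    GaloisRepIsIrreducible (K := AlgebraicClosure ℚ) ℚ P.freyCurve P.p →
    ∀ V0 : AddSubgroup (JZero (M' * P.p)), FreyReal P W (M' * P.p) V0 →
      ¬ V0 ≤ helper43.newPart M' P.p → P.ModularRepOfLevel M'

/-- **Contract (D) [AUX]**: the pull-back of a `p`-new realisation at level `M' p` is a `p`-new
realisation at level `4 M' p`. -/
def AuxStatement (π : PullData) : Prop :=
  ∀ (P : FreyPackage) (W : WeierstrassCurve ℤ) (M' : ℕ) [NeZero M'],
    W.IsIntegralModelOf P.freyCurve → P.IsConductorLevel (M' * P.p) →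
    GaloisRepIsIrreducible (K := AlgebraicClosure ℚ) ℚ P.freyCurve P.p →
    ∀ V0 : AddSubgroup (JZero (M' * P.p)), FreyReal P W (M' * P.p) V0 →
      V0 ≤ helper43.newPart M' P.p →
      FreyReal P W (4 * M' * P.p) (V0.map (π M' P.p)) ∧
        V0.map (π M' P.p) ≤ helper43.newPart (4 * M') P.p

/-- **Contract (E) [WALL]**: `c(x) = 0` for every `x` of a `p`-new realisation at level `4 M' p`
which is pulled back from level `M' p` and is not contained in the kernel of reduction. -/
def WallStatement (π : PullData) (C : WallData) : Prop :=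
  ∀ (P : FreyPackage) (W : WeierstrassCurve ℤ) (M' : ℕ) [NeZero M'],
    W.IsIntegralModelOf P.freyCurve → P.IsConductorLevel (M' * P.p) →
    GaloisRepIsIrreducible (K := AlgebraicClosure ℚ) ℚ P.freyCurve P.p →
    ∀ (hpN : ¬ P.p ∣ 4 * M') (A : ValuationSubring (AlgebraicClosure ℚ)), A.LiesOverPrime P.p →
    ∀ V0 : AddSubgroup (JZero (M' * P.p)), FreyReal P W (M' * P.p) V0 →
      V0 ≤ helper43.newPart M' P.p →
      FreyReal P W (4 * M' * P.p) (V0.map (π M' P.p)) →
      V0.map (π M' P.p) ≤ helper43.newPart (4 * M') P.p →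
      ¬ (∀ x ∈ V0.map (π M' P.p), helper2.IsT0 (4 * M') P.p P.pp hpN A P.p x) →
      ∀ x ∈ V0.map (π M' P.p), C P M' A x

/-- **Contract (F) [D-HECKE]**: if `c = 0` on the realisation, then either there is a congruent
eigenform of level `M'` or the realisation lies in the kernel of reduction `T0` at exponent `p`. -/
def DHeckeStatement (π : PullData) (C : WallData) : Prop :=
  ∀ (P : FreyPackage) (W : WeierstrassCurve ℤ) (M' : ℕ) [NeZero M'],
    W.IsIntegralModelOf P.freyCurve → P.IsConductorLevel (M' * P.p) →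
    GaloisRepIsIrreducible (K := AlgebraicClosure ℚ) ℚ P.freyCurve P.p →
    ∀ (hpN : ¬ P.p ∣ 4 * M') (A : ValuationSubring (AlgebraicClosure ℚ)), A.LiesOverPrime P.p →
    ∀ V0 : AddSubgroup (JZero (M' * P.p)), FreyReal P W (M' * P.p) V0 →
      V0 ≤ helper43.newPart M' P.p →
      FreyReal P W (4 * M' * P.p) (V0.map (π M' P.p)) →
      V0.map (π M' P.p) ≤ helper43.newPart (4 * M') P.p →
      (∀ x ∈ V0.map (π M' P.p), C P M' A x) →
      P.ModularRepOfLevel M' ∨
        ∀ x ∈ V0.map (π M' P.p), helper2.IsT0 (4 * M') P.p P.pp hpN A P.p x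

/-- **Contract (G) [G1-END]**: a `p`-new realisation of `E[p]` at level `4 M' p` is not contained
in the kernel of reduction `T0` at exponent `p`. -/
def G1EndStatement : Prop :=
  ∀ (P : FreyPackage) (W : WeierstrassCurve ℤ) (M' : ℕ) [NeZero M'],
    W.IsIntegralModelOf P.freyCurve →
    GaloisRepIsIrreducible (K := AlgebraicClosure ℚ) ℚ P.freyCurve P.p →
    ∀ (hpN : ¬ P.p ∣ 4 * M') (A : ValuationSubring (AlgebraicClosure ℚ)), A.LiesOverPrime P.p →
    ∀ V : AddSubgroup (JZero (4 * M' * P.p)), FreyReal P W (4 * M' * P.p) V →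
      V ≤ helper43.newPart (4 * M') P.p →
      ¬ (∀ x ∈ V, helper2.IsT0 (4 * M') P.p P.pp hpN A P.p x)

end Fermat.Agent.T8.helper72

end
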