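import Fermat.Agent.T7.helper27_G1Asm
import Fermat.Agent.T8.helper72_ChainDefs
import Fermat.Agent.T8.helper98_SplitContract

/-!
# T8 = row 38 via S44, leaf [CONCL] (helper29, owner; second helper80): CONTRACT

Vocabulary of T2 / T7: level `M`, `W : FF M ≃ₐ[Kb] FF M` (the Atkin-Lehner involution),
`A : ValuationSubring Kb` over `p`, pair of expansions `(u, W u)`, `incl A`, `red A`, the special
fibre field `FFb A M` with its places.  Everything is in KUMMER FORM (statements about a Kummer
function `u`, `p ∣ div u`); the class form is at the end.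

* `jbar A M`                : the reduction of `j` in `FFb A M`; a place `Q` of `FFb A M` is
                              NON-CUSPIDAL when `0 ≤ Q.ord (jbar A M)`;
* `IsRedPair W A u f₁ f₂`   : `f₁`, `f₂` are the two reductions of `u` (first and second
                              expansion, each scaled by a nonzero constant), both nonzero;
* `SlopeForm W A p ν β₁ β₂ u` : the period formula `c(x) = β m`:
                              `ord_Q f₁ = β₁ ord_Q ν`, `ord_Q f₂ = β₂ ord_Q ν` mod `p` at the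
                              non-cuspidal places, `p ∣ ord_Q f_i` at the cuspidal places `≠ ∞`
                              (`ν` = the reduction of the weight-one unit `b₀`; at the smooth
                              non-cuspidal points `ord_Q ν = 0`);
* `RedDivDvd W A p u`       : the OUTPUT OF THE WALL, `c(x) = 0`: `p ∣ ord_Q f_i` at every place
                              `Q ≠ ∞` of the special fibre, `i = 1, 2`;
* `PeuShape W A p u`        : the INPUT: the inertia group `I_K1` moves the class of `u` inside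
                              the line of a strongly split function `K`, through the Kummer
                              character of an `α` with `α ^ p` a UNIT ("peu ramifie");
* `ConclStatement M W A p ν` : **[CONCL]**  `PeuShape u ⟹ ∃ β₁ β₂, SlopeForm β₁ β₂ u`;
* `IsWallC`, `wallC`        : the wall predicate in class form (`helper72.WallData`).

`redDivDvd_of_slopeForm` : `SlopeForm β₁ β₂ u` with `p ∣ β₁`, `p ∣ β₂` (box [PHI]) gives
`RedDivDvd u`.
-/

set_option autoImplicit false
set_option linter.unusedSectionVars false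
set_option linter.unusedVariables false
set_option linter.style.longLine false

noncomputable section

namespace Fermat.Agent.T8.helper29

open HahnSeries IntermediateField AlgebraicCurve ModularCurve
open Fermat.Agent.S18.helper19 Fermat.Agent.P2.helper29 Fermat.Agent.P2.helper93
open Fermat.Agent.T2 Fermat.Agent.T2.helper36

variable {M : ℕ} [NeZero M]

/-- the reduction of `j`, an element of the special fibre field -/
def jbar (A : ValuationSubring Kb) (M : ℕ) [NeZero M] : FFb A M :=
  ⟨jqModC (kA A), jqModC_mem_full (kA A) M⟩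

/-- `f₁`, `f₂` are the reductions of the two expansions of `u`, each scaled by a nonzero
constant; both are nonzero. -/
def IsRedPair (W : FF M ≃ₐ[Kb] FF M) (A : ValuationSubring Kb) (u : FF M)
    (f₁ f₂ : FFb A M) : Prop :=
  ∃ (κ₁ κ₂ : Kb) (Y₁ Y₂ : LaurentSeries A), κ₁ ≠ 0 ∧ κ₂ ≠ 0 ∧
    incl A Y₁ = HahnSeries.C κ₁ * (u : LaurentSeries Kb) ∧
    incl A Y₂ = HahnSeries.C κ₂ * ((W u : FF M) : LaurentSeries Kb) ∧
    red A Y₁ = (f₁ : LaurentSeries (kA A)) ∧ red A Y₂ = (f₂ : LaurentSeries (kA A)) ∧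
    f₁ ≠ 0 ∧ f₂ ≠ 0

/-- **the period formula `c(x) = β m`** for the Kummer function `u`. -/
def SlopeForm (W : FF M ≃ₐ[Kb] FF M) (A : ValuationSubring Kb) (p : ℕ) (ν : FFb A M)
    (β₁ β₂ : ℤ) (u : FF M) : Prop :=
  ∃ f₁ f₂ : FFb A M, IsRedPair W A u f₁ f₂ ∧
    ∀ Q : Place (kA A) (FFb A M), ¬ IsInfty Q →
      (0 ≤ Q.ord (jbar A M) →
        (p : ℤ) ∣ Q.ord f₁ - β₁ * Q.ord ν ∧ (p : ℤ) ∣ Q.ord f₂ - β₂ * Q.ord ν) ∧
      (Q.ord (jbar A M) < 0 → (p : ℤ) ∣ Q.ord f₁ ∧ (p : ℤ) ∣ Q.ord f₂)

/-- **the output of the wall, `c(x) = 0`**: the two reductions of `u` have divisor divisible by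
`p` off `∞`. -/
def RedDivDvd (W : FF M ≃ₐ[Kb] FF M) (A : ValuationSubring Kb) (p : ℕ) (u : FF M) : Prop :=
  ∃ f₁ f₂ : FFb A M, IsRedPair W A u f₁ f₂ ∧
    ∀ Q : Place (kA A) (FFb A M), ¬ IsInfty Q → (p : ℤ) ∣ Q.ord f₁ ∧ (p : ℤ) ∣ Q.ord f₂

/-- **the input of [CONCL]**: `I_K1` moves the class of `u` inside the line generated by the
class of a strongly split `K`, through the Kummer character of `α`, and `α ^ p` is a unit of
`A` ("peu ramifie").  The split case is the case where all the exponents `j` vanish. -/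
def PeuShape (W : FF M ≃ₐ[Kb] FF M) (A : ValuationSubring Kb) (p : ℕ) (u : FF M) : Prop :=
  ∃ (K : FF M) (ζ α : Kb), Fermat.Agent.T7.helper27.StronglySplit M W A p K ∧
    IsPrimitiveRoot ζ p ∧ α ≠ 0 ∧ A.valuation (α ^ p) = 1 ∧
    ∀ σ : Kb ≃ₐ[ℚ] Kb, Fermat.Agent.T8.helper98.IsIK1 A p σ →
      ∃ (j : ℕ) (c : Kb) (v : FF M), σ α = ζ ^ j * α ∧ c ≠ 0 ∧ v ≠ 0 ∧
        galF M σ u = algebraMap Kb (FF M) c * v ^ p * u * K ^ j

/-- **[CONCL]** the period formula in the peu ramifie case. -/
def ConclStatement (M : ℕ) [NeZero M] (W : FF M ≃ₐ[Kb] FF M) (A : ValuationSubring Kb)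
    (p : ℕ) (ν : FFb A M) : Prop :=
  ∀ u : FF M, u ≠ 0 → (∀ P : Place Kb (FF M), (p : ℤ) ∣ P.ord u) → PeuShape W A p u →
    ∃ β₁ β₂ : ℤ, SlopeForm W A p ν β₁ β₂ u

/-- [PHI] kills the constants: the output of the wall. -/
theorem redDivDvd_of_slopeForm {W : FF M ≃ₐ[Kb] FF M} {A : ValuationSubring Kb} {p : ℕ}
    {ν : FFb A M} {β₁ β₂ : ℤ} {u : FF M} (h : SlopeForm W A p ν β₁ β₂ u)
    (h₁ : (p : ℤ) ∣ β₁) (h₂ : (p : ℤ) ∣ β₂) : RedDivDvd W A p u := by
  obtain ⟨f₁, f₂, hf, hQ⟩ := h
  refine ⟨f₁, f₂, hf, fun Q hQi => ?_⟩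
  obtain ⟨hfin, hcusp⟩ := hQ Q hQi
  rcases lt_or_ge (Q.ord (jbar A M)) 0 with hj | hj
  · exact hcusp hj
  · obtain ⟨a, b⟩ := hfin hj
    constructor
    · have := dvd_add a (Dvd.dvd.mul_right h₁ (Q.ord ν))
      simpa using this
    · have := dvd_add b (Dvd.dvd.mul_right h₂ (Q.ord ν))
      simpa using this

/-! ### Class form -/

/-- the wall predicate `c(x) = 0` on classes: `x` has a Kummer generator `u` (`p • D = div u`,
`[D] = x`) with `RedDivDvd u`. -/
def IsWallC (N q : ℕ) [NeZero N] [NeZero q] (hq : q.Prime) (hqN : ¬ q ∣ N)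
    (A : ValuationSubring Kb) (x : JZero (N * q)) : Prop :=
  ∃ (D : Divisor.degZero (K := Kb) (F := FF (N * q))) (u : FF (N * q)),
    (Pic0.mk D : JZero (N * q)) = x ∧ IsRootDiv q (D : Divisor Kb (FF (N * q))) u ∧
      RedDivDvd (atkinLehner N q hq hqN) A q u

/-- the wall predicate as `helper72.WallData` (level `4 M' p`, bad pair `(4 M', p)`). -/
def wallC : Fermat.Agent.T8.helper72.WallData := fun P M' _ A x =>
  ∀ hpN : ¬ P.p ∣ 4 * M', IsWallC (4 * M') P.p P.pp hpN A x

end Fermat.Agent.T8.helper29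

end
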