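import Fermat.Agent.T8.helper72_ChainDefs
import Fermat.Agent.T8.helper98_SplitContract

/-!
# T8 = row 38 via S44, [CHAIN] middle layer (helper38): Kummer glue for the wall

The wall (E) of the blueprint starts from CLASS-level information on a realisation `V` of `E[p]`
inside `J₀(4 M' p)` (`σ • x = x`, `τ • x = x + l₀`), while the boxes [SPLIT] / [DESC] / [CONCL]
speak about Kummer FUNCTIONS.  This file is the dictionary in the direction
class level ⟹ function level (the converse direction is T7 [KUM-END]).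

* `galF_eq_of_smul_eq_add` : `n D = div u`, `n E = div K`, `σ • [D] = [D] + [E]`  ⟹
  `galF σ u = c * v ^ n * (K * u)` with a constant `c ≠ 0` and `v ≠ 0`;
* `galF_eq_of_smul_eq`     : the case `E = 0`: `σ • [D] = [D]`  ⟹  `galF σ u = c * v ^ n * u`;
* `classFixedBy_of_smul_eq`: the hypothesis `helper98.ClassFixedBy` of the contract [SPLIT] from
  "every `σ` with `H σ` fixes the class of `u`";
* `exists_isRootDiv_of_nsmul_eq_zero` : every class killed by `n` has a Kummer function.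
-/

set_option autoImplicit false
set_option linter.unusedSectionVars false
set_option linter.unusedVariables false
set_option linter.style.longLine false
set_option linter.style.haveILetI false

noncomputable section

open HahnSeries IntermediateField AlgebraicCurve ModularCurve

namespace Fermat.Agent.T8.helper38

open Fermat.Agent.S18.helper19 Fermat.Agent.P2.helper29 Fermat.Agent.P2.helper93

variable {M : ℕ} [NeZero M]

/-- every class killed by `n` has a Kummer function -/
theorem exists_isRootDiv_of_nsmul_eq_zero {n : ℕ} {x : JZero M} (hx : n • x = 0) :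
    ∃ (D : Divisor.degZero (K := Kb) (F := FF M)) (u : FF M),
      (Pic0.mk D : JZero M) = x ∧ IsRootDiv n (D : Divisor Kb (FF M)) u := by
  obtain ⟨D, rfl⟩ := Pic0.mk_surjective x
  obtain ⟨u, hu⟩ := kum_exists_root (n := n) (D := D) hx
  exact ⟨D, u, rfl, hu⟩

/-- a principal class: `[E] = 0` gives a function with divisor `E` -/
theorem exists_ord_eq_of_mk_eq_zero {E : Divisor.degZero (K := Kb) (F := FF M)}
    (h : (Pic0.mk E : JZero M) = 0) :
    ∃ v : FF M, v ≠ 0 ∧ ∀ P : Place Kb (FF M), P.ord v = (E : Divisor Kb (FF M)) P := by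
  have h2 := (QuotientAddGroup.eq_zero_iff _).mp h
  rw [AddSubgroup.mem_addSubgroupOf] at h2
  obtain ⟨f, hf0, hf⟩ := h2
  exact ⟨f, hf0, fun P => (hf P).symm⟩

/-- **class level ⟹ function level**: if `σ • [D] = [D] + [E]`, the Kummer functions satisfy
`galF σ u = c * v ^ n * (K * u)`. -/
theorem galF_eq_of_smul_eq_add (σ : Kb ≃ₐ[ℚ] Kb) {n : ℕ}
    {D E : Divisor.degZero (K := Kb) (F := FF M)} {u K : FF M}
    (H : IsRootDiv n (D : Divisor Kb (FF M)) u) (HK : IsRootDiv n (E : Divisor Kb (FF M)) K)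
    (h : σ • (Pic0.mk D : JZero M) = Pic0.mk D + Pic0.mk E) :
    ∃ (c : Kb) (v : FF M), c ≠ 0 ∧ v ≠ 0 ∧
      galF M σ u = algebraMap Kb (FF M) c * v ^ n * (K * u) := by
  obtain ⟨D1, e1, H1⟩ := kum_galois (M := M) σ H
  have hu0 : u ≠ 0 := H.1
  have hK0 : K ≠ 0 := HK.1
  have hσu0 : galF M σ u ≠ 0 := H1.1
  have key : (Pic0.mk (D1 - (D + E)) : JZero M) = 0 := by
    have : (Pic0.mk (D1 - (D + E)) : JZero M)
        = (Pic0.mk D1 : JZero M) - ((Pic0.mk D : JZero M) + (Pic0.mk E : JZero M)) := rfl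
    rw [this, ← e1, h, sub_self]
  obtain ⟨v, hv0, hv⟩ := exists_ord_eq_of_mk_eq_zero key
  have hb0 : v ^ n * (K * u) ≠ 0 := mul_ne_zero (pow_ne_zero _ hv0) (mul_ne_zero hK0 hu0)
  have hg : ∀ P : Place Kb (FF M), P.ord (galF M σ u * (v ^ n * (K * u))⁻¹) = 0 := by
    intro P
    have hvn : P.ord (v ^ n) = (n : ℤ) * P.ord v := by
      have := P.ord_zpow v (n : ℤ)
      rwa [zpow_natCast] at this
    have e6 : ((D1 - (D + E) : Divisor.degZero (K := Kb) (F := FF M)) : Divisor Kb (FF M)) P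
        = (D1 : Divisor Kb (FF M)) P - ((D : Divisor Kb (FF M)) P + (E : Divisor Kb (FF M)) P) := by
      rw [AddSubgroup.coe_sub, AddSubgroup.coe_add, Finsupp.sub_apply, Finsupp.add_apply]
    rw [P.ord_mul hσu0 (inv_ne_zero hb0), P.ord_inv, P.ord_mul (pow_ne_zero _ hv0)
      (mul_ne_zero hK0 hu0), P.ord_mul hK0 hu0, hvn, hv P, e6, ← H1.2 P, ← H.2 P, ← HK.2 P]
    ring
  obtain ⟨c, hc⟩ := const_of_ord_eq_zero M (galF M σ u * (v ^ n * (K * u))⁻¹) hg
  have hab : galF M σ u * (v ^ n * (K * u))⁻¹ ≠ 0 := mul_ne_zero hσu0 (inv_ne_zero hb0)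
  refine ⟨c, v, ?_, hv0, ?_⟩
  · rintro rfl
    rw [map_zero] at hc
    exact hab hc.symm
  · have : galF M σ u = galF M σ u * (v ^ n * (K * u))⁻¹ * (v ^ n * (K * u)) := by
      rw [mul_assoc, inv_mul_cancel₀ hb0, mul_one]
    rw [hc, mul_assoc]
    exact this

/-- the case `E = 0`: a fixed class. -/
theorem galF_eq_of_smul_eq (σ : Kb ≃ₐ[ℚ] Kb) {n : ℕ}
    {D : Divisor.degZero (K := Kb) (F := FF M)} {u : FF M}
    (H : IsRootDiv n (D : Divisor Kb (FF M)) u)
    (h : σ • (Pic0.mk D : JZero M) = Pic0.mk D) :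
    ∃ (c : Kb) (v : FF M), galF M σ u = algebraMap Kb (FF M) c * v ^ n * u := by
  have H0 : IsRootDiv n ((0 : Divisor.degZero (K := Kb) (F := FF M)) : Divisor Kb (FF M))
      (1 : FF M) := by
    refine ⟨one_ne_zero, fun P => ?_⟩
    rw [Place.ord_one]
    simp
  have h' : σ • (Pic0.mk D : JZero M)
      = Pic0.mk D + Pic0.mk (0 : Divisor.degZero (K := Kb) (F := FF M)) := by
    rw [h]
    have : (Pic0.mk (0 : Divisor.degZero (K := Kb) (F := FF M)) : JZero M) = 0 := rfl
    rw [this, add_zero]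
  obtain ⟨c, v, -, -, e⟩ := galF_eq_of_smul_eq_add σ H H0 h'
  exact ⟨c, v, by rw [e, one_mul]⟩

/-- the hypothesis `ClassFixedBy` of the contract [SPLIT] from the class-level statement. -/
theorem classFixedBy_of_smul_eq (H : (Kb ≃ₐ[ℚ] Kb) → Prop) {n : ℕ}
    {D : Divisor.degZero (K := Kb) (F := FF M)} {u : FF M}
    (HD : IsRootDiv n (D : Divisor Kb (FF M)) u)
    (h : ∀ σ, H σ → σ • (Pic0.mk D : JZero M) = Pic0.mk D) :
    helper98.ClassFixedBy M H n u :=
  fun σ hσ => galF_eq_of_smul_eq σ HD (h σ hσ)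

end Fermat.Agent.T8.helper38

end
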