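import Fermat.Agent.T8.helper89_PeuAlpha
import Fermat.Agent.T8.helper38_WallGlue
import Fermat.Agent.T8.helper29_Concl

/-!
# T8 (row 38), helper89: the INPUT of [CONCL] in the non-split case: `helper29.PeuShape`

Context of the wall (`helper38.WallCtx`), `x ∈ V`, `τ ∈ I_K1` with `τ • x ≠ x`,
`l₀ := τ • x - x`.

* `exists_stronglySplit_of_isT0_new` : a `p`-new class of `T0` (exponent `p`, bad pair `(N, p)`,
  `4 ∣ N` or `9 ∣ N`) has a STRONGLY SPLIT Kummer function `K`
  (T7 [T0-REP] `helper27.t0RepStatement_bad` + T7 [B3] `helper38.b3_bad`);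
* `peuShape_of_shift` : the function-level half: a strongly split Kummer function `K` of `l₀`,
  and for every `σ ∈ I_K1` a `j` with `σ α = ζ ^ j α` and `σ • x = x + j • l₀`, give
  `helper29.PeuShape` for EVERY Kummer function `u` of `x`;
* `peuShape_of_ctx` : **`helper47.WMultStatement'` + `WallCtx` ⟹ `PeuShape`** for every Kummer
  function `u` of `x` (non-split case);
* `exists_peuShape_of_ctx` : the same, producing a Kummer function `u` of `x` together with
  `u ≠ 0` and `p ∣ div u` (the three hypotheses of `helper29.ConclStatement`).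

The curve contract is discharged by `helper47.wMult'` (heavier closure, file
`helper47_WMult`): apply `peuShape_of_ctx helper47.wMult'`.
-/

set_option autoImplicit false
set_option linter.unusedSectionVars false
set_option linter.unusedVariables false
set_option linter.style.longLine false
set_option linter.style.haveILetI false

noncomputable section

namespace Fermat.Agent.T8.helper89

open HahnSeries IntermediateField AlgebraicCurve ModularCurve
open Fermat.Agent.S18.helper19 Fermat.Agent.P2.helper29 Fermat.Agent.P2.helper93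
open Fermat.Agent.T2 Fermat.Agent.T2.helper36
open Fermat.Agent.T7 Fermat.Agent.T8.helper72 Fermat.Agent.T8.helper38

/-- **a strongly split Kummer function** of a `p`-new class of `T0` at the bad pair. -/
theorem exists_stronglySplit_of_isT0_new (N p : ℕ) [NeZero N] [NeZero p] (hp : p.Prime)
    (hpN : ¬ p ∣ N) (hN : 4 ∣ N ∨ 9 ∣ N) (A : ValuationSubring Kb) (hA : A.LiesOverPrime p)
    {y : JZero (N * p)} (hy : helper2.IsT0 N p hp hpN A p y)
    (hnew : y ∈ helper43.newPart N p) :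
    ∃ (E : Divisor.degZero (K := Kb) (F := FF (N * p))) (K : FF (N * p)),
      (Pic0.mk E : JZero (N * p)) = y ∧ IsRootDiv p (E : Divisor Kb (FF (N * p))) K ∧
        Fermat.Agent.T7.helper27.StronglySplit (N * p) (atkinLehner N p hp hpN) A p K := by
  obtain ⟨D, u, e, H, r1, r2⟩ := hy
  obtain ⟨hα, hβ⟩ := (helper43.mem_newPart N p).mp hnew
  have hK : Fermat.Agent.P3.helper94.IsKummerRep p y u := ⟨H.1, D, e, H.2⟩
  have hNu : helper27.IsNewN N p u := helper27.isNewN_of_push hK hα hβ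
  have hdiv : ∀ P : Place Kb (FF (N * p)), (p : ℤ) ∣ P.ord u := fun P =>
    ⟨(D : Divisor Kb (FF (N * p))) P, (H.2 P).symm⟩
  obtain ⟨G, hG0, hGA⟩ := helper27.t0RepStatement_bad N p hp hpN hN A hA u H.1 hdiv r1 r2
  haveI : HasPrincipalDivisors Kb (FF (N * p)) := hasPD (N * p)
  obtain ⟨DG, hDG, hdeg⟩ := HasPrincipalDivisors.exists_divisor (K := Kb) G hG0
  let EG : Divisor.degZero (K := Kb) (F := FF (N * p)) := ⟨DG, hdeg⟩
  have hEG : (Pic0.mk EG : JZero (N * p)) = 0 := kum_mk_eq_zero_of_ord hG0 hDG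
  have hdivK : ∀ P : Place Kb (FF (N * p)), (p : ℤ) ∣ P.ord (G ^ p * u) := by
    intro P
    have h1 : P.ord (G ^ p) = (p : ℤ) * P.ord G := by
      have := P.ord_zpow G (p : ℤ)
      rwa [zpow_natCast] at this
    rw [P.ord_mul (pow_ne_zero _ hG0) H.1, h1]
    exact dvd_add (Dvd.intro _ rfl) (hdiv P)
  refine ⟨EG + D, G ^ p * u, ?_, ⟨mul_ne_zero (pow_ne_zero _ hG0) H.1, fun P => ?_⟩, ?_⟩
  · have : (Pic0.mk (EG + D) : JZero (N * p)) = Pic0.mk EG + Pic0.mk D := rfl
    rw [this, hEG, zero_add, e]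
  · have h1 : P.ord (G ^ p) = (p : ℤ) * P.ord G := by
      have := P.ord_zpow G (p : ℤ)
      rwa [zpow_natCast] at this
    rw [AddSubgroup.coe_add, Finsupp.add_apply, P.ord_mul (pow_ne_zero _ hG0) H.1, h1, ← H.2 P,
      mul_add]
    have : ((EG : Divisor.degZero (K := Kb) (F := FF (N * p))) : Divisor Kb (FF (N * p))) P
        = P.ord G := hDG P
    rw [this]
  · exact helper38.b3_bad N p hp hpN A hA (G ^ p * u) hGA hdivK
      (helper27.isNewN_mul_pow u G hG0 hNu)

/-- **the function-level half of `PeuShape`**. -/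
theorem peuShape_of_shift {M : ℕ} [NeZero M] (W : FF M ≃ₐ[Kb] FF M) (A : ValuationSubring Kb)
    (p : ℕ) {x l : JZero M}
    {D E : Divisor.degZero (K := Kb) (F := FF M)} {u K : FF M}
    (hD : (Pic0.mk D : JZero M) = x) (H : IsRootDiv p (D : Divisor Kb (FF M)) u)
    (hE : (Pic0.mk E : JZero M) = l) (HK : IsRootDiv p (E : Divisor Kb (FF M)) K)
    (hK : Fermat.Agent.T7.helper27.StronglySplit M W A p K)
    {ζ α : Kb} (hζ : IsPrimitiveRoot ζ p) (hα0 : α ≠ 0) (hαv : A.valuation (α ^ p) = 1)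
    (hσ : ∀ σ : Kb ≃ₐ[ℚ] Kb, helper98.IsIK1 A p σ →
      ∃ j : ℕ, σ α = ζ ^ j * α ∧ σ • x = x + j • l) :
    Fermat.Agent.T8.helper29.PeuShape W A p u := by
  refine ⟨K, ζ, α, hK, hζ, hα0, hαv, fun σ hs => ?_⟩
  obtain ⟨j, hj1, hj2⟩ := hσ σ hs
  have HKj : IsRootDiv p ((j • E : Divisor.degZero (K := Kb) (F := FF M)) : Divisor Kb (FF M))
      (K ^ j) := by
    rw [AddSubgroup.coe_nsmul]
    exact HK.pow j
  have hjE : (Pic0.mk (j • E) : JZero M) = j • l := by
    have : (Pic0.mk (j • E) : JZero M) = j • (Pic0.mk E : JZero M) := rfl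
    rw [this, hE]
  have h : σ • (Pic0.mk D : JZero M) = Pic0.mk D + Pic0.mk (j • E) := by
    rw [hD, hjE]
    exact hj2
  obtain ⟨c, v, hc, hv, e⟩ := galF_eq_of_smul_eq_add σ H HKj h
  refine ⟨j, c, v, hj1, hc, hv, ?_⟩
  rw [e]
  ring

variable {π : PullData} {P : FreyPackage} {W : WeierstrassCurve ℤ} {M' : ℕ} [NeZero M']
  {hpN : ¬ P.p ∣ 4 * M'} {A : ValuationSubring (AlgebraicClosure ℚ)}
  {V0 : AddSubgroup (JZero (M' * P.p))}

/-- **[W-MULT] + the context of the wall ⟹ `PeuShape`** (non-split case): every Kummer function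
`u` of a class `x ∈ V` moved by some `τ ∈ I_K1` has the shape consumed by [CONCL]. -/
theorem peuShape_of_ctx (hW : Fermat.Agent.T8.helper47.WMultStatement')
    (ctx : WallCtx π P W M' hpN A V0) {x : JZero (4 * M' * P.p)}
    (hx : x ∈ V0.map (π M' P.p)) {τ : AlgebraicClosure ℚ ≃ₐ[ℚ] AlgebraicClosure ℚ}
    (hτ : helper98.IsIK1 A P.p τ) (hτx : τ • x ≠ x)
    {D : Divisor.degZero (K := Kb) (F := FF (4 * M' * P.p))} {u : FF (4 * M' * P.p)}
    (hD : (Pic0.mk D : JZero (4 * M' * P.p)) = x)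
    (H : IsRootDiv P.p (D : Divisor Kb (FF (4 * M' * P.p))) u) :
    haveI : NeZero P.p := ⟨P.pp.ne_zero⟩
    Fermat.Agent.T8.helper29.PeuShape (atkinLehner (4 * M') P.p P.pp hpN) A P.p u := by
  haveI : NeZero P.p := ⟨P.pp.ne_zero⟩
  obtain ⟨ζ, α, hζ, hα0, hαv, -, hσ⟩ := exists_peu_alpha hW ctx hx hτ hτx
  obtain ⟨E, K, hE, HK, hK⟩ := exists_stronglySplit_of_isT0_new (4 * M') P.p P.pp hpN
    (Or.inl (Dvd.intro M' rfl)) A ctx.liesOver (nonSplit_isT0 ctx hx hτ.1) (nonSplit_new ctx hx τ)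
  exact peuShape_of_shift _ A P.p hD H hE HK hK hζ hα0 hαv hσ

/-- the same, producing the Kummer function: every class `x ∈ V` moved by some `τ ∈ I_K1` HAS a
Kummer function, and all of them have `PeuShape`. -/
theorem exists_peuShape_of_ctx (hW : Fermat.Agent.T8.helper47.WMultStatement')
    (ctx : WallCtx π P W M' hpN A V0) {x : JZero (4 * M' * P.p)}
    (hx : x ∈ V0.map (π M' P.p)) {τ : AlgebraicClosure ℚ ≃ₐ[ℚ] AlgebraicClosure ℚ}
    (hτ : helper98.IsIK1 A P.p τ) (hτx : τ • x ≠ x) :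
    haveI : NeZero P.p := ⟨P.pp.ne_zero⟩
    ∃ (D : Divisor.degZero (K := Kb) (F := FF (4 * M' * P.p))) (u : FF (4 * M' * P.p)),
      (Pic0.mk D : JZero (4 * M' * P.p)) = x ∧
      IsRootDiv P.p (D : Divisor Kb (FF (4 * M' * P.p))) u ∧ u ≠ 0 ∧
      (∀ Q : Place Kb (FF (4 * M' * P.p)), (P.p : ℤ) ∣ Q.ord u) ∧
      Fermat.Agent.T8.helper29.PeuShape (atkinLehner (4 * M') P.p P.pp hpN) A P.p u := by
  haveI : NeZero P.p := ⟨P.pp.ne_zero⟩
  obtain ⟨D, u, hD, H⟩ := exists_isRootDiv_of_nsmul_eq_zero (ctx.real.tors x hx)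
  exact ⟨D, u, hD, H, H.1, fun Q => ⟨(D : Divisor Kb (FF (4 * M' * P.p))) Q, (H.2 Q).symm⟩,
    peuShape_of_ctx hW ctx hx hτ hτx hD H⟩

end Fermat.Agent.T8.helper89

end
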