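import Fermat.Agent.T8.helper29_PeuAl
import Fermat.Agent.T8.helper89_PeuShape
import Fermat.Agent.T8.helper47_WMult
import Fermat.Agent.T8.helper38_WallChain

/-!
# T8 = row 38 via S44, box 5 of the frontier (helper29): the NON-SPLIT wall from [CONCL]

`nonSplitWall_of_concl` : the function-level contract `ConclStatementN` at every bad pair
`(4 M', p)` gives `helper38.NonSplitWallStatement π wallBN`, for every pull-back `π`.

Inputs on main: `helper47.wMult'` ([W-MULT], closed), `helper89.exists_peuShape_of_ctx`
(class ⟹ `PeuShape`), `isWallBN2_of_concl_bad` (`PeuShape` is stable under `W`).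
So box 5 of `helper72` status board 2 is EXACTLY the Prop `ConclAll` below.
-/

set_option autoImplicit false
set_option linter.unusedSectionVars false
set_option linter.unusedVariables false
set_option linter.style.longLine false

noncomputable section

namespace Fermat.Agent.T8.helper29

open HahnSeries IntermediateField AlgebraicCurve ModularCurve
open Fermat.Agent.S18.helper19 Fermat.Agent.P2.helper29 Fermat.Agent.P2.helper93
open Fermat.Agent.T2 Fermat.Agent.T2.helper36
open Fermat.Agent.T8.helper54 (IsRed1 DvdOff ModEqOff)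
open Fermat.Agent.P3.helper94 (IsKummerRep)
open Fermat.Agent.T3.helper16 (IsUnit0)
open Fermat.Agent.T8.helper72 Fermat.Agent.T8.helper38

/-- **[CONCL] at every bad pair `(4 M', p)` of a Frey package**: the only open input of the
non-split wall. -/
def ConclAll : Prop :=
  ∀ (P : FreyPackage) (M' : ℕ) [NeZero M'] (hpN : ¬ P.p ∣ 4 * M')
    (A : ValuationSubring Kb), A.LiesOverPrime P.p →
    ∀ (b0 : FF (4 * M' * P.p)) (B : PowerSeries ℤ) (ε : ℤ), IsUnit0 P.pp hpN b0 B ε →
    ∀ ν : FFb A (4 * M'), IsRed1 A (4 * M') P.p b0 ν →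
      ConclStatementN A (4 * M') P.p (atkinLehner (4 * M') P.p P.pp hpN) ν

/-- **the non-split wall from [CONCL]** -/
theorem nonSplitWall_of_concl (π : PullData) (hC : ConclAll) :
    NonSplitWallStatement π wallBN := by
  intro P W M' _ hpN A V0 ctx x hx τ hτ hτx
  intro hpN' b0 B ε hb ν hν
  obtain ⟨D, u, hD, H, hu0, -, hpeu⟩ :=
    Fermat.Agent.T8.helper89.exists_peuShape_of_ctx Fermat.Agent.T8.helper47.wMult' ctx hx hτ hτx
  have hk : IsKummerRep P.p x u := ⟨hu0, D, hD, H.2⟩
  exact isWallBN2_of_concl_bad P.pp hpN' (hC P M' hpN' A ctx.liesOver b0 B ε hb ν hν) hk hpeu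

end Fermat.Agent.T8.helper29

end
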