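import Mathlib
import Fermat.Agent.T8.helper86_CoverAlg

/-!
# T8 (row 38 via S44), [DESC] / [COVER] glue (helper59): change of the Kummer generator

The cover `F⟮Z⟯`, `Z ^ p = K`, does not depend on the choice of `K` in its class: for `g ≠ 0`
in `F` the element `Z' = g * Z` is a Kummer root of `K' = g ^ p * K`, `F⟮Z'⟯ = F⟮Z⟯`, and the two
deck transformations agree.  This lets [DESC] work with the NORMALISED `K1`-rational `K'` while
[COVER-VAL] / [COVER-RING] keep the INTEGRAL root of the strongly split `K`.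

* `isKummerRoot_mul_left`   : `Z' = g * Z` is a Kummer root of `g ^ p * K`;
* `adjoin_mul_le`, `adjoin_mul_eq` : `F⟮g * Z⟯ = F⟮Z⟯`;
* `transport`               : the `F`-algebra map `F⟮g * Z⟯ → F⟮Z⟯` (the identity on elements
                              of `Ω`), `coe_transport`, `transport_gen`;
* `deck_transport`          : `deck h ζ (transport x) = transport (deck h' ζ x)`.

Mathlib + `helper86_CoverAlg` only.
-/

set_option autoImplicit false
set_option linter.unusedSectionVars false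
set_option linter.unusedVariables false

noncomputable section

namespace Fermat.Agent.T8.helper59

open IntermediateField
open Fermat.Agent.T8.helper86

variable {F Ω : Type*} [Field F] [Field Ω] [Algebra F Ω]

/-- `g * Z` is a Kummer root of `g ^ p * K` -/
theorem isKummerRoot_mul_left {p : ℕ} {K : F} {Z : Ω} (h : IsKummerRoot p K Z) {g : F}
    (hg : g ≠ 0) : IsKummerRoot p (g ^ p * K) (algebraMap F Ω g * Z) where
  prime := h.prime
  pow_eq := by rw [mul_pow, h.pow_eq, map_mul, map_pow]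
  not_pow := fun b hb => h.not_pow (b / g) (by
    rw [div_pow, hb]
    field_simp)

/-- `F⟮g * Z⟯ ≤ F⟮Z⟯` -/
theorem adjoin_mul_le (g : F) (Z : Ω) : F⟮algebraMap F Ω g * Z⟯ ≤ F⟮Z⟯ := by
  rw [adjoin_simple_le_iff]
  exact mul_mem (F⟮Z⟯.algebraMap_mem g) (mem_adjoin_simple_self F Z)

/-- `F⟮g * Z⟯ = F⟮Z⟯` for `g ≠ 0` -/
theorem adjoin_mul_eq {g : F} (hg : g ≠ 0) (Z : Ω) : F⟮algebraMap F Ω g * Z⟯ = F⟮Z⟯ := by
  refine le_antisymm (adjoin_mul_le g Z) ?_
  rw [adjoin_simple_le_iff]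
  have hmem : algebraMap F Ω g⁻¹ * (algebraMap F Ω g * Z) ∈ F⟮algebraMap F Ω g * Z⟯ :=
    mul_mem ((F⟮algebraMap F Ω g * Z⟯).algebraMap_mem g⁻¹) (mem_adjoin_simple_self F _)
  rwa [← mul_assoc, ← map_mul, inv_mul_cancel₀ hg, map_one, one_mul] at hmem

/-- the transport `F⟮g * Z⟯ → F⟮Z⟯`, the identity on the underlying elements of `Ω` -/
def transport (g : F) (Z : Ω) : F⟮algebraMap F Ω g * Z⟯ →ₐ[F] F⟮Z⟯ :=
  IntermediateField.inclusion (adjoin_mul_le g Z)

theorem coe_transport (g : F) (Z : Ω) (x : F⟮algebraMap F Ω g * Z⟯) :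
    ((transport g Z x : F⟮Z⟯) : Ω) = (x : Ω) :=
  IntermediateField.coe_inclusion (adjoin_mul_le g Z) x

theorem transport_injective (g : F) (Z : Ω) : Function.Injective (transport g Z) :=
  (transport g Z).toRingHom.injective

theorem transport_ne_zero (g : F) (Z : Ω) {x : F⟮algebraMap F Ω g * Z⟯} (hx : x ≠ 0) :
    transport g Z x ≠ 0 := (map_ne_zero (transport g Z)).2 hx

theorem transport_gen (g : F) (Z : Ω) :
    transport g Z (AdjoinSimple.gen F (algebraMap F Ω g * Z))
      = algebraMap F F⟮Z⟯ g * AdjoinSimple.gen F Z := by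
  apply Subtype.ext
  rw [coe_transport, AdjoinSimple.coe_gen]
  push_cast
  rw [AdjoinSimple.coe_gen]

/-- the deck transformations of `F⟮g * Z⟯` and `F⟮Z⟯` agree -/
theorem deck_transport {p : ℕ} {K : F} {Z : Ω} (h : IsKummerRoot p K Z) {g : F} (hg : g ≠ 0)
    (ζ : F) (hζ : ζ ^ p = 1) (x : F⟮algebraMap F Ω g * Z⟯) :
    deck h ζ hζ (transport g Z x) = transport g Z (deck (isKummerRoot_mul_left h hg) ζ hζ x) := by
  have key : ((deck h ζ hζ : F⟮Z⟯ ≃ₐ[F] F⟮Z⟯) : F⟮Z⟯ →+* F⟮Z⟯).comp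
        (transport g Z : F⟮algebraMap F Ω g * Z⟯ →+* F⟮Z⟯)
      = (transport g Z : F⟮algebraMap F Ω g * Z⟯ →+* F⟮Z⟯).comp
        ((deck (isKummerRoot_mul_left h hg) ζ hζ : F⟮algebraMap F Ω g * Z⟯ ≃ₐ[F] F⟮algebraMap F Ω g * Z⟯) :
          F⟮algebraMap F Ω g * Z⟯ →+* F⟮algebraMap F Ω g * Z⟯) := by
    apply coverHom_ext (isKummerRoot_mul_left h hg).isIntegral
    · intro y
      simp only [RingHom.comp_apply, RingHom.coe_coe, AlgHom.commutes, AlgEquiv.commutes]
    · simp only [RingHom.comp_apply, RingHom.coe_coe]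
      rw [transport_gen, deck_gen, map_mul, map_mul, AlgEquiv.commutes, deck_gen,
        AlgHom.commutes, transport_gen]
      ring
  exact congrArg (fun f : F⟮algebraMap F Ω g * Z⟯ →+* F⟮Z⟯ => f x) key

end Fermat.Agent.T8.helper59

end
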