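import Mathlib

/-!
# T8 [DESC] (helper83, owner): Kummer descent on the cyclic cover, abstract form

Pure field theory, no project vocabulary; consumers instantiate `E := F'` (the function field of
the cyclic cover), `τ` := the coefficientwise action of the wild inertia element with
`τ x = x + l0`, `S` := the coefficientwise actions of the elements of `I_K1` fixing `x`,
`ρ` := the deck transformation `Z ↦ ζ Z`.  All maps are ring homomorphisms `E →+* E`
(coerce algebra or ring automorphisms); no finiteness, no Galois theory, any universe.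

Input (all normalised by leading coefficient `1` at `∞`, so that the cocycle constants are `1`):

* `τ u = θ ^ p * u`          (`u = u_x`, `θ = h_τ * Z`),
* `b p = 1`                   (`b i = θ * τ θ * ⋯ * τ^(i-1) θ`, the partial norms; NO norm
                               surjectivity, NO Galois theory),
* the Lagrange resolvent `h = ∑_{i<p} (b i)⁻¹` is not zero (`resolvent_ne_zero_of_subfield`:
  automatic when `θ = c * Z`, `τ Z = Z`, `c` in a `τ`-stable subfield over which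
  `1, Z, …, Z^(p-1)` are linearly independent),
* `η u = u`, `η (b i) = b i` for `η ∈ S`; `ρ` commutes with `τ` and with `S`, `ρ u = u`,
  `ρ θ = ζ θ`; `τ α = ζ α`, `η α = α`.

Output (`desc_main`): `h ≠ 0` with `τ h = θ h`, `η h = h`; `u' = u / h ^ p` is fixed by `τ` and
by `S` (the pull-back of `x` to the cover is rational over `K1`); `g₁ = ρ h / (h α)` is fixed by
`τ` and `S`, and `ρ u' * (α ^ p * g₁ ^ p) = u'`, i.e. `ρ u' = a⁻¹ g₁⁻ᵖ u'` with `a = α ^ p`.

`desc_star`: for every multiplicative valuation-like map `w` the values of `u'` on two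
consecutive sheets differ by `- w a - p • w g₁`  (formula `(*)` of the blueprint).
-/

set_option autoImplicit false

namespace Fermat.Agent.T8.helper83

open Finset

variable {E : Type*} [Field E]

/-- the partial norms `b i = θ * τ θ * ⋯ * τ^(i-1) θ`, defined by `b 0 = 1`,
`b (i + 1) = θ * τ (b i)`. -/
def partialNorm (τ : E →+* E) (θ : E) : ℕ → E
  | 0 => 1
  | (i + 1) => θ * τ (partialNorm τ θ i)

@[simp] theorem partialNorm_zero (τ : E →+* E) (θ : E) : partialNorm τ θ 0 = 1 := rfl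

theorem partialNorm_succ (τ : E →+* E) (θ : E) (i : ℕ) :
    partialNorm τ θ (i + 1) = θ * τ (partialNorm τ θ i) := rfl

theorem partialNorm_one (τ : E →+* E) (θ : E) : partialNorm τ θ 1 = θ := by
  rw [partialNorm_succ, partialNorm_zero, map_one, mul_one]

theorem partialNorm_ne_zero (τ : E →+* E) {θ : E} (hθ : θ ≠ 0) (i : ℕ) :
    partialNorm τ θ i ≠ 0 := by
  induction i with
  | zero => rw [partialNorm_zero]; exact one_ne_zero
  | succ i ih =>
    rw [partialNorm_succ]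
    exact mul_ne_zero hθ (fun h0 => ih ((map_eq_zero τ).1 h0))

/-- `(b i) ^ p = τ^i u / u` when `θ ^ p = τ u / u`. -/
theorem partialNorm_pow (τ : E →+* E) {u θ : E} (p : ℕ)
    (hτu : τ u = θ ^ p * u) (i : ℕ) :
    partialNorm τ θ i ^ p * u = (⇑τ)^[i] u := by
  induction i with
  | zero => rw [partialNorm_zero, one_pow, one_mul]; rfl
  | succ i ih =>
    rw [partialNorm_succ, mul_pow, ← map_pow, Function.iterate_succ_apply', ← ih, map_mul, hτu]
    ring

/-- if `τ^p u = u` then the `p`-th partial norm is a `p`-th root of unity (it is `1` after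
normalisation of the leading coefficients). -/
theorem partialNorm_pow_eq_one (τ : E →+* E) {u θ : E} (p : ℕ) (hu : u ≠ 0)
    (hτu : τ u = θ ^ p * u) (hfix : (⇑τ)^[p] u = u) :
    partialNorm τ θ p ^ p = 1 := by
  have h := partialNorm_pow τ p hτu p
  rw [hfix] at h
  exact mul_right_cancel₀ hu (by rw [h, one_mul])

/-- if `θ = c * Z` with `τ Z = Z` then `b i (θ) = b i (c) * Z ^ i`. -/
theorem partialNorm_mul_fixed (τ : E →+* E) {c Z : E} (hZ : τ Z = Z) (i : ℕ) :
    partialNorm τ (c * Z) i = partialNorm τ c i * Z ^ i := by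
  induction i with
  | zero => rw [partialNorm_zero, partialNorm_zero, pow_zero, mul_one]
  | succ i ih =>
    rw [partialNorm_succ, partialNorm_succ, ih, map_mul, map_pow, hZ]
    ring

/-- the partial norms of an element of a `τ`-stable subfield lie in the subfield. -/
theorem partialNorm_mem (τ : E →+* E) (F₀ : Subfield E) (hτ : ∀ x ∈ F₀, τ x ∈ F₀) {c : E}
    (hc : c ∈ F₀) (i : ℕ) : partialNorm τ c i ∈ F₀ := by
  induction i with
  | zero => rw [partialNorm_zero]; exact F₀.one_mem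
  | succ i ih => rw [partialNorm_succ]; exact F₀.mul_mem hc (hτ _ ih)

/-- the Lagrange resolvent `h = ∑_{i<p} (b i)⁻¹`. -/
def resolvent (τ : E →+* E) (θ : E) (p : ℕ) : E :=
  ∑ i ∈ range p, (partialNorm τ θ i)⁻¹

/-- **Hilbert 90, explicit form**: if the `p`-th partial norm is `1` then `τ h = θ h` for the
resolvent `h`. -/
theorem map_resolvent (τ : E →+* E) {θ : E} (hθ : θ ≠ 0) {p : ℕ} (hp : 0 < p)
    (hN : partialNorm τ θ p = 1) :
    τ (resolvent τ θ p) = θ * resolvent τ θ p := by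
  have hstep : ∀ i, τ ((partialNorm τ θ i)⁻¹) = θ * (partialNorm τ θ (i + 1))⁻¹ := by
    intro i
    have h1 : τ (partialNorm τ θ i) ≠ 0 := fun h0 =>
      partialNorm_ne_zero τ hθ i ((map_eq_zero τ).1 h0)
    rw [map_inv₀, partialNorm_succ, mul_inv, ← mul_assoc, mul_inv_cancel₀ hθ, one_mul]
  unfold resolvent
  rw [map_sum, mul_sum]
  have h2 : ∑ i ∈ range p, τ ((partialNorm τ θ i)⁻¹)
      = ∑ i ∈ range p, θ * (partialNorm τ θ (i + 1))⁻¹ :=
    sum_congr rfl (fun i _ => hstep i)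
  rw [h2, ← mul_sum, ← mul_sum]
  congr 1
  -- shift of the index, using `b p = 1 = b 0`
  obtain ⟨m, rfl⟩ : ∃ m, p = m + 1 := ⟨p - 1, by omega⟩
  rw [sum_range_succ, hN, sum_range_succ', partialNorm_zero]

/-- the resolvent is not zero when `b i = c i * Z ^ i` with `c 0 ≠ 0` and
`1, Z, …, Z ^ (p - 1)` are linearly independent over a set `F₀` containing the `(c i)⁻¹`. -/
theorem resolvent_ne_zero (τ : E →+* E) {θ Z : E} {p : ℕ} (hp : 0 < p) (hZ : Z ≠ 0)
    (F₀ : Set E) (c : ℕ → E) (hc : ∀ i, (c i)⁻¹ ∈ F₀) (hc0 : c 0 ≠ 0)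
    (hb : ∀ i, partialNorm τ θ i = c i * Z ^ i)
    (hind : ∀ f : ℕ → E, (∀ i, f i ∈ F₀) → ∑ i ∈ range p, f i * Z ^ i = 0 →
      ∀ i, i < p → f i = 0) :
    resolvent τ θ p ≠ 0 := by
  intro h0
  have h1 : ∑ i ∈ range p, (c (p - 1 - i))⁻¹ * Z ^ i = 0 := by
    have h2 : ∑ i ∈ range p, (c (p - 1 - i))⁻¹ * Z ^ i
        = ∑ i ∈ range p, (c i)⁻¹ * Z ^ (p - 1 - i) := by
      rw [← sum_range_reflect]
      refine sum_congr rfl (fun i hi => ?_)
      have hi' : i < p := mem_range.1 hi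
      have e1 : p - 1 - (p - 1 - i) = i := by omega
      rw [e1]
    rw [h2]
    have h3 : ∑ i ∈ range p, (c i)⁻¹ * Z ^ (p - 1 - i) = Z ^ (p - 1) * resolvent τ θ p := by
      unfold resolvent
      rw [mul_sum]
      refine sum_congr rfl (fun i hi => ?_)
      have hi' : i < p := mem_range.1 hi
      rw [hb i, mul_inv]
      have e2 : Z ^ (p - 1) = Z ^ (p - 1 - i) * Z ^ i := by
        rw [← pow_add]; congr 1; omega
      rw [e2]
      have hZi : Z ^ i ≠ 0 := pow_ne_zero _ hZ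
      field_simp
    rw [h3, h0, mul_zero]
  have h4 := hind (fun i => (c (p - 1 - i))⁻¹) (fun i => hc _) h1 (p - 1) (by omega)
  have h5 : (c 0)⁻¹ = 0 := by
    have : p - 1 - (p - 1) = 0 := by omega
    simpa [this] using h4
  exact hc0 (inv_eq_zero.1 h5)

/-- the resolvent of `θ = c * Z` is not zero: `c ≠ 0` in a `τ`-stable subfield `F₀`, `τ Z = Z`,
`Z ≠ 0` and `1, Z, …, Z ^ (p - 1)` linearly independent over `F₀`. -/
theorem resolvent_ne_zero_of_subfield (τ : E →+* E) (F₀ : Subfield E)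
    (hτ : ∀ x ∈ F₀, τ x ∈ F₀) {c Z : E} {p : ℕ} (hp : 0 < p) (hc : c ∈ F₀)
    (hZ0 : Z ≠ 0) (hZ : τ Z = Z)
    (hind : ∀ f : ℕ → E, (∀ i, f i ∈ F₀) → ∑ i ∈ range p, f i * Z ^ i = 0 →
      ∀ i, i < p → f i = 0) :
    resolvent τ (c * Z) p ≠ 0 := by
  refine resolvent_ne_zero τ hp hZ0 (F₀ : Set E) (fun i => partialNorm τ c i) ?_ ?_ ?_ hind
  · intro i
    exact F₀.inv_mem (partialNorm_mem τ F₀ hτ hc i)
  · rw [partialNorm_zero]; exact one_ne_zero
  · intro i
    exact partialNorm_mul_fixed τ hZ i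

/-- **[DESC] (D2) + (D3)**, explicit form, no Galois theory. -/
theorem desc_main (p : ℕ) (hp : 0 < p) (τ ρ : E →+* E) (S : Set (E →+* E))
    (hρτ : ∀ x : E, ρ (τ x) = τ (ρ x)) (hρS : ∀ η ∈ S, ∀ x : E, ρ (η x) = η (ρ x))
    {u θ ζ α : E} (hθ : θ ≠ 0) (hα : α ≠ 0)
    (hτu : τ u = θ ^ p * u) (hN : partialNorm τ θ p = 1)
    (hres : resolvent τ θ p ≠ 0)
    (hSu : ∀ η ∈ S, η u = u) (hSb : ∀ η ∈ S, ∀ i, η (partialNorm τ θ i) = partialNorm τ θ i)
    (hSα : ∀ η ∈ S, η α = α)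
    (hρu : ρ u = u) (hρθ : ρ θ = ζ * θ) (hτα : τ α = ζ * α) :
    ∃ h g₁ : E, h ≠ 0 ∧ g₁ ≠ 0 ∧ τ h = θ * h ∧ (∀ η ∈ S, η h = h) ∧
      τ (u / h ^ p) = u / h ^ p ∧ (∀ η ∈ S, η (u / h ^ p) = u / h ^ p) ∧
      τ g₁ = g₁ ∧ (∀ η ∈ S, η g₁ = g₁) ∧ ρ h = α * g₁ * h ∧
      ρ (u / h ^ p) * (α ^ p * g₁ ^ p) = u / h ^ p := by
  set h : E := resolvent τ θ p with hh
  have hτh : τ h = θ * h := map_resolvent τ hθ hp hN
  have hSh : ∀ η ∈ S, η h = h := by
    intro η hη
    rw [hh]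
    unfold resolvent
    rw [map_sum]
    refine sum_congr rfl (fun i _ => ?_)
    rw [map_inv₀, hSb η hη i]
  have hhp : h ^ p ≠ 0 := pow_ne_zero _ hres
  have hρh0 : ρ h ≠ 0 := fun h0 => hres ((map_eq_zero ρ).1 h0)
  have hζ0 : ζ ≠ 0 := by
    rintro rfl
    rw [zero_mul] at hτα
    exact hα ((map_eq_zero τ).1 hτα)
  set g₁ : E := ρ h / (h * α) with hg
  have hg0 : g₁ ≠ 0 := div_ne_zero hρh0 (mul_ne_zero hres hα)
  have hρh : ρ h = α * g₁ * h := by
    rw [hg]; field_simp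
  have hτu' : τ (u / h ^ p) = u / h ^ p := by
    rw [map_div₀, map_pow, hτu, hτh, mul_pow]
    exact mul_div_mul_left _ _ (pow_ne_zero _ hθ)
  have hSu' : ∀ η ∈ S, η (u / h ^ p) = u / h ^ p := by
    intro η hη
    rw [map_div₀, map_pow, hSu η hη, hSh η hη]
  have hτg : τ g₁ = g₁ := by
    rw [hg, map_div₀, map_mul, ← hρτ, hτh, map_mul, hρθ, hτα]
    field_simp
  have hSg : ∀ η ∈ S, η g₁ = g₁ := by
    intro η hη
    rw [hg, map_div₀, map_mul, ← hρS η hη, hSh η hη, hSα η hη]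
  refine ⟨h, g₁, hres, hg0, hτh, hSh, hτu', hSu', hτg, hSg, hρh, ?_⟩
  rw [map_div₀, map_pow, hρu, hρh]
  have hden : (α * g₁ * h) ^ p ≠ 0 :=
    pow_ne_zero _ (mul_ne_zero (mul_ne_zero hα hg0) hres)
  rw [div_mul_eq_mul_div, div_eq_div_iff hden hhp]
  ring

/-- **formula `(*)`**: for a multiplicative map `w` to an additive group (a valuation on the
nonzero elements), the value of `u'` on the next sheet `w ∘ ρ` differs from the value on the
sheet `w` by `- w (α ^ p) - p • w g₁`. -/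
theorem desc_star {Γ : Type*} [AddCommGroup Γ] (w : E → Γ)
    (hw : ∀ x y : E, x ≠ 0 → y ≠ 0 → w (x * y) = w x + w y)
    (p : ℕ) (ρ : E →+* E) {u' α g₁ : E} (hu' : u' ≠ 0) (hα : α ≠ 0) (hg : g₁ ≠ 0)
    (hρ : ρ u' * (α ^ p * g₁ ^ p) = u') :
    w (ρ u') = w u' - w (α ^ p) - p • w g₁ := by
  have hρu0 : ρ u' ≠ 0 := fun h0 => hu' ((map_eq_zero ρ).1 h0)
  have hαp : α ^ p ≠ 0 := pow_ne_zero _ hα
  have hgp : g₁ ^ p ≠ 0 := pow_ne_zero _ hg
  have hw1 : w 1 = 0 := by
    have h := hw 1 1 one_ne_zero one_ne_zero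
    rw [mul_one] at h
    have h' : w 1 + 0 = w 1 + w 1 := by rw [add_zero]; exact h
    exact (add_left_cancel h').symm
  have hpow : ∀ n : ℕ, w (g₁ ^ n) = n • w g₁ := by
    intro n
    induction n with
    | zero => rw [pow_zero, zero_nsmul, hw1]
    | succ n ih => rw [pow_succ, hw _ _ (pow_ne_zero _ hg) hg, succ_nsmul, ih]
  have hgpw : w (g₁ ^ p) = p • w g₁ := hpow p
  have h1 : w u' = w (ρ u') + (w (α ^ p) + w (g₁ ^ p)) := by
    conv_lhs => rw [← hρ]
    rw [hw _ _ hρu0 (mul_ne_zero hαp hgp), hw _ _ hαp hgp]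
  rw [h1, hgpw]
  abel

end Fermat.Agent.T8.helper83
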