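import Mathlib
import Fermat.Agent.T8.helper83_Desc

/-!
# T8 [DESC] (helper83): the inputs of `desc_main` from leading-coefficient normalisation

`Nm : E → Prop` is an abstract predicate "normalised" (in the application: the leading
coefficient of the expansion at `∞` on the sheet `(1, 0)` is `1`): it contains `1`, is closed
under products and inverses, is stable under `τ` and under the maps of `S`, and is RIGID: a
normalised `p`-th root of unity is `1`.

* `nm_partialNorm`               : the partial norms of a normalised `θ` are normalised;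
* `partialNorm_eq_one_of_nm`     : `τ u = θ ^ p * u`, `τ^p u = u`, `θ` normalised  ⟹  the `p`-th
                                   partial norm is `1`  (input (2) of `desc_main`; this replaces
                                   norm surjectivity);
* `map_partialNorm_of_nm`        : `η` fixes `u` and all `τ^i u`  ⟹  `η` fixes the partial norms
                                   (input (4) of `desc_main`);
* `desc_of_normalised`           : **[DESC]** in consumer form, `θ = c * Z`: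
    inputs  `τ u = (c * Z) ^ p * u`, `τ^p u = u`, `η (τ^i u) = τ^i u`, `c` in a `τ`-stable
            subfield `F₀`, `τ Z = Z`, `1, Z, …, Z^(p-1)` independent over `F₀`, `c`, `Z`
            normalised, `ρ` commutes with `τ` and `S`, `ρ u = u`, `ρ c = c`, `ρ Z = ζ Z`,
            `τ α = ζ α`, `η α = α`;
    output  as in `desc_main`.
-/

set_option autoImplicit false

namespace Fermat.Agent.T8.helper83

open Finset

variable {E : Type*} [Field E]

/-- the abstract normalisation predicate. -/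
structure IsNormalisation (p : ℕ) (Nm : E → Prop) : Prop where
  /-- `1` is normalised -/
  one : Nm 1
  /-- products of normalised elements are normalised -/
  mul : ∀ x y : E, Nm x → Nm y → Nm (x * y)
  /-- inverses of normalised elements are normalised -/
  inv : ∀ x : E, Nm x → Nm x⁻¹
  /-- rigidity: a normalised `p`-th root of unity is `1` -/
  rigid : ∀ x : E, x ^ p = 1 → Nm x → x = 1

theorem nm_partialNorm {p : ℕ} {Nm : E → Prop} (hNm : IsNormalisation p Nm) (τ : E →+* E)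
    (hτ : ∀ x : E, Nm x → Nm (τ x)) {θ : E} (hθ : Nm θ) (i : ℕ) :
    Nm (partialNorm τ θ i) := by
  induction i with
  | zero => rw [partialNorm_zero]; exact hNm.one
  | succ i ih => rw [partialNorm_succ]; exact hNm.mul _ _ hθ (hτ _ ih)

/-- input (2) of `desc_main` from normalisation. -/
theorem partialNorm_eq_one_of_nm {p : ℕ} {Nm : E → Prop} (hNm : IsNormalisation p Nm)
    (τ : E →+* E) (hτ : ∀ x : E, Nm x → Nm (τ x)) {u θ : E} (hu : u ≠ 0) (hθ : Nm θ)
    (hτu : τ u = θ ^ p * u) (hfix : (⇑τ)^[p] u = u) :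
    partialNorm τ θ p = 1 :=
  hNm.rigid _ (partialNorm_pow_eq_one τ p hu hτu hfix) (nm_partialNorm hNm τ hτ hθ p)

/-- input (4) of `desc_main` from normalisation. -/
theorem map_partialNorm_of_nm {p : ℕ} {Nm : E → Prop} (hNm : IsNormalisation p Nm)
    (τ η : E →+* E) (hτ : ∀ x : E, Nm x → Nm (τ x)) (hη : ∀ x : E, Nm x → Nm (η x))
    {u θ : E} (hu : u ≠ 0) (hθ0 : θ ≠ 0) (hθ : Nm θ) (hτu : τ u = θ ^ p * u)
    (hηu : ∀ i : ℕ, η ((⇑τ)^[i] u) = (⇑τ)^[i] u) (i : ℕ) :
    η (partialNorm τ θ i) = partialNorm τ θ i := by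
  have hb0 : partialNorm τ θ i ≠ 0 := partialNorm_ne_zero τ hθ0 i
  have hηu0 : η u = u := hηu 0
  have h1 : η (partialNorm τ θ i) ^ p * u = partialNorm τ θ i ^ p * u := by
    have h2 := congrArg η (partialNorm_pow τ p hτu i)
    rw [map_mul, map_pow, hηu0, hηu i] at h2
    rw [h2, partialNorm_pow τ p hτu i]
  have h3 : η (partialNorm τ θ i) ^ p = partialNorm τ θ i ^ p := mul_right_cancel₀ hu h1
  have h4 : (η (partialNorm τ θ i) * (partialNorm τ θ i)⁻¹) ^ p = 1 := by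
    rw [mul_pow, inv_pow, h3]
    exact mul_inv_cancel₀ (pow_ne_zero _ hb0)
  have hnb : Nm (partialNorm τ θ i) := nm_partialNorm hNm τ hτ hθ i
  have h5 := hNm.rigid _ h4 (hNm.mul _ _ (hη _ hnb) (hNm.inv _ hnb))
  calc η (partialNorm τ θ i)
      = η (partialNorm τ θ i) * (partialNorm τ θ i)⁻¹ * partialNorm τ θ i := by
        rw [mul_assoc, inv_mul_cancel₀ hb0, mul_one]
    _ = partialNorm τ θ i := by rw [h5, one_mul]

/-- **[DESC]**, consumer form with `θ = c * Z`. -/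
theorem desc_of_normalised {p : ℕ} (hp : 0 < p) {Nm : E → Prop} (hNm : IsNormalisation p Nm)
    (τ ρ : E →+* E) (S : Set (E →+* E))
    (hNmτ : ∀ x : E, Nm x → Nm (τ x)) (hNmS : ∀ η ∈ S, ∀ x : E, Nm x → Nm (η x))
    (hρτ : ∀ x : E, ρ (τ x) = τ (ρ x)) (hρS : ∀ η ∈ S, ∀ x : E, ρ (η x) = η (ρ x))
    (F₀ : Subfield E) (hτF : ∀ x ∈ F₀, τ x ∈ F₀)
    {u c Z ζ α : E} (hu : u ≠ 0) (hc : c ∈ F₀) (hc0 : c ≠ 0) (hZ0 : Z ≠ 0) (hα : α ≠ 0)
    (hcN : Nm c) (hZN : Nm Z) (hτZ : τ Z = Z)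
    (hind : ∀ f : ℕ → E, (∀ i, f i ∈ F₀) → ∑ i ∈ range p, f i * Z ^ i = 0 →
      ∀ i, i < p → f i = 0)
    (hτu : τ u = (c * Z) ^ p * u) (hfix : (⇑τ)^[p] u = u)
    (hSu : ∀ η ∈ S, ∀ i : ℕ, η ((⇑τ)^[i] u) = (⇑τ)^[i] u) (hSα : ∀ η ∈ S, η α = α)
    (hρu : ρ u = u) (hρc : ρ c = c) (hρZ : ρ Z = ζ * Z) (hτα : τ α = ζ * α) :
    ∃ h g₁ : E, h ≠ 0 ∧ g₁ ≠ 0 ∧ τ h = c * Z * h ∧ (∀ η ∈ S, η h = h) ∧
      τ (u / h ^ p) = u / h ^ p ∧ (∀ η ∈ S, η (u / h ^ p) = u / h ^ p) ∧
      τ g₁ = g₁ ∧ (∀ η ∈ S, η g₁ = g₁) ∧ ρ h = α * g₁ * h ∧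
      ρ (u / h ^ p) * (α ^ p * g₁ ^ p) = u / h ^ p := by
  have hθ0 : c * Z ≠ 0 := mul_ne_zero hc0 hZ0
  have hθN : Nm (c * Z) := hNm.mul _ _ hcN hZN
  have hN : partialNorm τ (c * Z) p = 1 :=
    partialNorm_eq_one_of_nm hNm τ hNmτ hu hθN hτu hfix
  have hres : resolvent τ (c * Z) p ≠ 0 :=
    resolvent_ne_zero_of_subfield τ F₀ hτF hp hc hZ0 hτZ hind
  have hSb : ∀ η ∈ S, ∀ i, η (partialNorm τ (c * Z) i) = partialNorm τ (c * Z) i :=
    fun η hη i => map_partialNorm_of_nm hNm τ η hNmτ (hNmS η hη) hu hθ0 hθN hτu (hSu η hη) i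
  have hρθ : ρ (c * Z) = ζ * (c * Z) := by rw [map_mul, hρc, hρZ]; ring
  exact desc_main p hp τ ρ S hρτ hρS hθ0 hα hτu hN hres (fun η hη => hSu η hη 0) hSb hSα hρu
    hρθ hτα

end Fermat.Agent.T8.helper83
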