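import Mathlib
import Fermat.Agent.T8.helper83_DescNorm
import Fermat.Agent.T8.helper86_CoverAlg

/-!
# T8 (row 38 via S44), leaf [DESC], instance glue (helper59): [DESC] on the abstract Kummer cover

This file wires `helper83.desc_of_normalised` (abstract descent, any field `E` with ring
endomorphisms `τ`, `ρ`, `S`) to `helper86` (the abstract Kummer cover `F⟮Z⟯ ⊆ Ω`, `Z ^ p = K`,
deck transformation `deck`, restriction `semiMap` of ring endomorphisms of `Ω`).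

All hypotheses are stated in the ambient field `Ω` (in the application `Ω = ℚ̄((q))`, the maps
`τ`, `η ∈ S` are coefficientwise Galois actions and `Nm` is "leading coefficient `1`"), the
conclusion in the cover `F⟮Z⟯`.

* `isNormalisation_cover` : a normalisation predicate on `Ω` restricts to the cover;
* `coe_iterate_semiMap`   : iterates of the restriction are restrictions of the iterates;
* `desc_cover`            : **[DESC] on the cover**: from `τ u = (c Z)^p u`, `τ^p u = u`,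
  `η (τ^i u) = τ^i u`, `τ Z = Z`, `η Z = Z`, `c`, `Z` normalised, `τ α = ζ α`, `η α = α`
  (`u c α ζ ∈ F`) we get `h, g₁, u' ∈ F⟮Z⟯` with `u' * h ^ p = u`, `u'` and `g₁` fixed by `τ`
  and by every `η ∈ S`, and `ρ u' * (α ^ p * g₁ ^ p) = u'` for the deck transformation `ρ`;
* `desc_cover_star`       : formula `(*)` for `u'` and any multiplicative `w` on the cover.
-/

set_option autoImplicit false
set_option linter.unusedSectionVars false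
set_option linter.unusedVariables false

noncomputable section

namespace Fermat.Agent.T8.helper59

open IntermediateField Finset
open Fermat.Agent.T8.helper83 Fermat.Agent.T8.helper86

variable {F Ω : Type*} [Field F] [Field Ω] [Algebra F Ω]

/-- a normalisation predicate on the ambient field restricts to the cover -/
theorem isNormalisation_cover {p : ℕ} {Nm : Ω → Prop} (hNm : IsNormalisation p Nm) (Z : Ω) :
    IsNormalisation p (fun x : F⟮Z⟯ => Nm (x : Ω)) where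
  one := hNm.one
  mul := fun x y hx hy => hNm.mul _ _ hx hy
  inv := fun x hx => hNm.inv _ hx
  rigid := fun x hx hN => by
    apply Subtype.ext
    have h1 : ((x : F⟮Z⟯) : Ω) ^ p = 1 := by
      have := congrArg (fun z : F⟮Z⟯ => (z : Ω)) hx
      simpa using this
    exact hNm.rigid _ h1 hN

/-- iterates of the restriction of `σ` to the cover -/
theorem coe_iterate_semiMap {Z : Ω} (hZ : IsIntegral F Z) (σ : Ω →+* Ω)
    (hσF : ∀ x : F, σ (algebraMap F Ω x) ∈ Set.range (algebraMap F Ω))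
    (hσZ : σ Z ∈ F⟮Z⟯) (i : ℕ) (x : F⟮Z⟯) :
    (((⇑(semiMap hZ σ hσF hσZ))^[i] x : F⟮Z⟯) : Ω) = (⇑σ)^[i] (x : Ω) := by
  induction i with
  | zero => rfl
  | succ i ih =>
    rw [Function.iterate_succ_apply', Function.iterate_succ_apply', coe_semiMap, ih]

/-- the restriction of `σ` on the image of `F` -/
theorem semiMap_algebraMap {Z : Ω} (hZ : IsIntegral F Z) (σ : Ω →+* Ω)
    (hσF : ∀ x : F, σ (algebraMap F Ω x) ∈ Set.range (algebraMap F Ω))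
    (hσZ : σ Z ∈ F⟮Z⟯) {x y : F} (hxy : σ (algebraMap F Ω x) = algebraMap F Ω y) :
    semiMap hZ σ hσF hσZ (algebraMap F F⟮Z⟯ x) = algebraMap F F⟮Z⟯ y := by
  apply Subtype.ext
  rw [coe_semiMap]
  exact hxy

/-- **[DESC] on the abstract Kummer cover.** -/
theorem desc_cover {p : ℕ} {K : F} {Z : Ω} (h : IsKummerRoot p K Z) (ζ : F) (hζ : ζ ^ p = 1)
    {Nm : Ω → Prop} (hNm : IsNormalisation p Nm)
    (τ : Ω →+* Ω) (S : Set (Ω →+* Ω))
    (hτF : ∀ x : F, τ (algebraMap F Ω x) ∈ Set.range (algebraMap F Ω))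
    (hSF : ∀ η ∈ S, ∀ x : F, η (algebraMap F Ω x) ∈ Set.range (algebraMap F Ω))
    (hτZ : τ Z = Z) (hSZ : ∀ η ∈ S, η Z = Z)
    (hτζ : τ (algebraMap F Ω ζ) = algebraMap F Ω ζ)
    (hSζ : ∀ η ∈ S, η (algebraMap F Ω ζ) = algebraMap F Ω ζ)
    (hNmτ : ∀ x : Ω, Nm x → Nm (τ x)) (hNmS : ∀ η ∈ S, ∀ x : Ω, Nm x → Nm (η x))
    {u c α : F} (hu : u ≠ 0) (hc0 : c ≠ 0) (hα : α ≠ 0)
    (hcN : Nm (algebraMap F Ω c)) (hZN : Nm Z)
    (hτu : τ (algebraMap F Ω u) = (algebraMap F Ω c * Z) ^ p * algebraMap F Ω u)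
    (hfix : (⇑τ)^[p] (algebraMap F Ω u) = algebraMap F Ω u)
    (hSu : ∀ η ∈ S, ∀ i : ℕ, η ((⇑τ)^[i] (algebraMap F Ω u)) = (⇑τ)^[i] (algebraMap F Ω u))
    (hSα : ∀ η ∈ S, η (algebraMap F Ω α) = algebraMap F Ω α)
    (hτα : τ (algebraMap F Ω α) = algebraMap F Ω ζ * algebraMap F Ω α) :
    ∃ h' g₁ u' : F⟮Z⟯, h' ≠ 0 ∧ g₁ ≠ 0 ∧ u' ≠ 0 ∧ u' * h' ^ p = algebraMap F F⟮Z⟯ u ∧
      τ (h' : Ω) = algebraMap F Ω c * Z * (h' : Ω) ∧ (∀ η ∈ S, η (h' : Ω) = (h' : Ω)) ∧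
      τ (u' : Ω) = (u' : Ω) ∧ (∀ η ∈ S, η (u' : Ω) = (u' : Ω)) ∧
      τ (g₁ : Ω) = (g₁ : Ω) ∧ (∀ η ∈ S, η (g₁ : Ω) = (g₁ : Ω)) ∧
      deck h ζ hζ h' = algebraMap F F⟮Z⟯ α * g₁ * h' ∧
      deck h ζ hζ u' * (algebraMap F F⟮Z⟯ α ^ p * g₁ ^ p) = u' := by
  classical
  have hZint : IsIntegral F Z := h.isIntegral
  have hZmem : Z ∈ F⟮Z⟯ := mem_adjoin_simple_self F Z
  have hτZ' : τ Z ∈ F⟮Z⟯ := by rw [hτZ]; exact hZmem
  have hSZ' : ∀ η ∈ S, η Z ∈ F⟮Z⟯ := fun η hη => by rw [hSZ η hη]; exact hZmem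
  set τ' : F⟮Z⟯ →+* F⟮Z⟯ := semiMap hZint τ hτF hτZ' with hτ'
  set ρ : F⟮Z⟯ →+* F⟮Z⟯ := ((deck h ζ hζ : F⟮Z⟯ ≃ₐ[F] F⟮Z⟯) : F⟮Z⟯ →+* F⟮Z⟯) with hρ
  set S' : Set (F⟮Z⟯ →+* F⟮Z⟯) :=
    {φ | ∃ (η : Ω →+* Ω) (hη : η ∈ S), φ = semiMap hZint η (hSF η hη) (hSZ' η hη)} with hS'
  set gen : F⟮Z⟯ := AdjoinSimple.gen F Z with hgen
  have hgenc : (gen : Ω) = Z := AdjoinSimple.coe_gen F Z
  have hcoe : ∀ x : F, ((algebraMap F F⟮Z⟯ x : F⟮Z⟯) : Ω) = algebraMap F Ω x := fun _ => rfl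
  have hNm' : IsNormalisation p (fun x : F⟮Z⟯ => Nm (x : Ω)) := isNormalisation_cover hNm Z
  let F₀ : Subfield F⟮Z⟯ := (algebraMap F F⟮Z⟯).fieldRange
  have hF₀ : ∀ x : F⟮Z⟯, x ∈ F₀ ↔ ∃ y : F, algebraMap F F⟮Z⟯ y = x := fun x => RingHom.mem_fieldRange
  have hp : 0 < p := h.prime.pos
  -- the hypotheses of `desc_of_normalised`
  have hρτ : ∀ x : F⟮Z⟯, ρ (τ' x) = τ' (ρ x) := by
    intro x
    have := semiMap_comm_deck h ζ hζ τ hτF hτZ' 1 1 (by rw [pow_one]; exact hτζ)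
      (by rw [map_one, one_mul, pow_one]; exact hτZ) x
    exact this.symm
  have hρS : ∀ η ∈ S', ∀ x : F⟮Z⟯, ρ (η x) = η (ρ x) := by
    rintro φ ⟨η, hη, rfl⟩ x
    have := semiMap_comm_deck h ζ hζ η (hSF η hη) (hSZ' η hη) 1 1
      (by rw [pow_one]; exact hSζ η hη)
      (by rw [map_one, one_mul, pow_one]; exact hSZ η hη) x
    exact this.symm
  have hτF₀ : ∀ x ∈ F₀, τ' x ∈ F₀ := by
    intro x hx
    obtain ⟨y, rfl⟩ := (hF₀ x).1 hx
    obtain ⟨y', hy'⟩ := hτF y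
    exact (hF₀ _).2 ⟨y', (semiMap_algebraMap hZint τ hτF hτZ' hy'.symm).symm⟩
  have hu' : algebraMap F F⟮Z⟯ u ≠ 0 := (map_ne_zero _).2 hu
  have hc' : algebraMap F F⟮Z⟯ c ≠ 0 := (map_ne_zero _).2 hc0
  have hα' : algebraMap F F⟮Z⟯ α ≠ 0 := (map_ne_zero _).2 hα
  have hgen0 : gen ≠ 0 := h.gen_ne_zero
  have hτgen : τ' gen = gen := by
    apply Subtype.ext
    rw [coe_semiMap, hgenc, hτZ]
  have hind : ∀ f : ℕ → F⟮Z⟯, (∀ i, f i ∈ F₀) → ∑ i ∈ range p, f i * gen ^ i = 0 →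
      ∀ i, i < p → f i = 0 := by
    intro f hf hsum
    choose c' hc' using fun i => (hF₀ (f i)).1 (hf i)
    have hsum' : ∑ i ∈ range p, algebraMap F F⟮Z⟯ (c' i) * AdjoinSimple.gen F Z ^ i = 0 := by
      rw [← hsum]
      exact Finset.sum_congr rfl (fun i _ => by rw [hc' i])
    intro i hi
    rw [← hc' i, h.coeff_unique c' hsum' i hi, map_zero]
  have hτu' : τ' (algebraMap F F⟮Z⟯ u) = (algebraMap F F⟮Z⟯ c * gen) ^ p * algebraMap F F⟮Z⟯ u := by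
    apply Subtype.ext
    rw [coe_semiMap]
    push_cast
    rw [hgenc]
    exact hτu
  have hfix' : (⇑τ')^[p] (algebraMap F F⟮Z⟯ u) = algebraMap F F⟮Z⟯ u := by
    apply Subtype.ext
    rw [coe_iterate_semiMap, hcoe]
    exact hfix
  have hSu' : ∀ η ∈ S', ∀ i : ℕ, η ((⇑τ')^[i] (algebraMap F F⟮Z⟯ u))
      = (⇑τ')^[i] (algebraMap F F⟮Z⟯ u) := by
    rintro φ ⟨η, hη, rfl⟩ i
    apply Subtype.ext
    rw [coe_semiMap, coe_iterate_semiMap, hcoe]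
    exact hSu η hη i
  have hSα' : ∀ η ∈ S', η (algebraMap F F⟮Z⟯ α) = algebraMap F F⟮Z⟯ α := by
    rintro φ ⟨η, hη, rfl⟩
    exact semiMap_algebraMap hZint η (hSF η hη) (hSZ' η hη) (hSα η hη)
  have hρu : ρ (algebraMap F F⟮Z⟯ u) = algebraMap F F⟮Z⟯ u := (deck h ζ hζ).commutes u
  have hρc : ρ (algebraMap F F⟮Z⟯ c) = algebraMap F F⟮Z⟯ c := (deck h ζ hζ).commutes c
  have hρZ : ρ gen = algebraMap F F⟮Z⟯ ζ * gen := deck_gen h ζ hζ
  have hτα' : τ' (algebraMap F F⟮Z⟯ α) = algebraMap F F⟮Z⟯ ζ * algebraMap F F⟮Z⟯ α := by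
    apply Subtype.ext
    rw [coe_semiMap]
    push_cast
    exact hτα
  obtain ⟨h', g₁, hh0, hg0, hτh, hSh, hτu'', hSu'', hτg, hSg, hρh, hρu'⟩ :=
    desc_of_normalised (E := F⟮Z⟯) hp hNm' τ' ρ S'
      (fun x hx => hNmτ _ hx)
      (by
        rintro φ ⟨η, hη, rfl⟩ x hx
        exact hNmS η hη _ hx)
      hρτ hρS F₀ hτF₀ hu' ((hF₀ _).2 ⟨c, rfl⟩) hc' hgen0 hα'
      (by rw [hcoe]; exact hcN) (by rw [hgenc]; exact hZN) hτgen hind hτu' hfix' hSu' hSα'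
      hρu hρc hρZ hτα'
  have hhp : h' ^ p ≠ 0 := pow_ne_zero _ hh0
  have hmemS : ∀ η (hη : η ∈ S), semiMap hZint η (hSF η hη) (hSZ' η hη) ∈ S' :=
    fun η hη => ⟨η, hη, rfl⟩
  refine ⟨h', g₁, algebraMap F F⟮Z⟯ u / h' ^ p, hh0, hg0, div_ne_zero hu' hhp,
    div_mul_cancel₀ _ hhp, ?_, ?_, ?_, ?_, ?_, ?_, hρh, hρu'⟩
  · have := congrArg (fun z : F⟮Z⟯ => (z : Ω)) hτh
    simp only [coe_semiMap, hτ'] at this
    rw [this]
    push_cast
    rw [hgenc]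
  · intro η hη
    have := congrArg (fun z : F⟮Z⟯ => (z : Ω)) (hSh _ (hmemS η hη))
    simpa only [coe_semiMap] using this
  · have := congrArg (fun z : F⟮Z⟯ => (z : Ω)) hτu''
    simpa only [coe_semiMap, hτ'] using this
  · intro η hη
    have := congrArg (fun z : F⟮Z⟯ => (z : Ω)) (hSu'' _ (hmemS η hη))
    simpa only [coe_semiMap] using this
  · have := congrArg (fun z : F⟮Z⟯ => (z : Ω)) hτg
    simpa only [coe_semiMap, hτ'] using this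
  · intro η hη
    have := congrArg (fun z : F⟮Z⟯ => (z : Ω)) (hSg _ (hmemS η hη))
    simpa only [coe_semiMap] using this

/-- **formula `(*)` on the cover**: for a multiplicative `w` on the cover, the values of `u'`
on two consecutive sheets differ by `- w (α ^ p) - p • w g₁`. -/
theorem desc_cover_star {p : ℕ} {K : F} {Z : Ω} (h : IsKummerRoot p K Z) (ζ : F)
    (hζ : ζ ^ p = 1) {Γ : Type*} [AddCommGroup Γ] (w : F⟮Z⟯ → Γ)
    (hw : ∀ x y : F⟮Z⟯, x ≠ 0 → y ≠ 0 → w (x * y) = w x + w y)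
    {α : F} {u' g₁ : F⟮Z⟯} (hu' : u' ≠ 0) (hα : α ≠ 0) (hg : g₁ ≠ 0)
    (hρ : deck h ζ hζ u' * (algebraMap F F⟮Z⟯ α ^ p * g₁ ^ p) = u') :
    w (deck h ζ hζ u') = w u' - w (algebraMap F F⟮Z⟯ α ^ p) - p • w g₁ :=
  desc_star w hw p ((deck h ζ hζ : F⟮Z⟯ ≃ₐ[F] F⟮Z⟯) : F⟮Z⟯ →+* F⟮Z⟯) hu'
    ((map_ne_zero _).2 hα) hg hρ

end Fermat.Agent.T8.helper59

end
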