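import Mathlib
import Fermat.Agent.T8.helper59_DescCover
import Fermat.Agent.T8.helper98_SplitDesc

/-!
# T8 (row 38 via S44), leaf [DESC], the INSTANCE on `F = FF M`, `Ω = ℚ̄((q))` (helper59)

`desc_cover` (abstract Kummer cover) instantiated with the coefficientwise Galois action on
Laurent series and the normalisation "leading coefficient `1`".

* `NmL`, `isNormalisation_nmL`, `nmL_coeffMap` : the normalisation on `ℚ̄((q))`;
* `coeffMap_root_eq`   : a normalised `p`-th root `Z` of a `σ`-fixed `K` is `σ`-fixed;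
* `exists_normalised_cocycle` : from the class-level relation `σ u = c₀ * v ^ p * (K * u)`
  (`helper38.galF_eq_of_smul_eq_add`) with `u`, `K` normalised: `σ u = c ^ p * K * u` with
  `lc c = 1`;
* `desc_laurent`       : **[DESC] at `FF M`**.  Data: a Kummer root `Z` of `K` (`lc Z = 1`),
  `τ` and a subgroup `H` of `Gal(ℚ̄/ℚ)` fixing `K` and `ζ`, `u` fixed by `H`, `τ ^ p ∈ H`, `τ`
  normalises `H`, `τ u = c ^ p * K * u` (`lc c = 1`), `α ∈ ℚ̄` with `τ α = ζ α`, `η α = α`.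
  Output: `h, g₁, u' ∈ (FF M)⟮Z⟯` with `u' * h ^ p = u`, `u'` and `g₁` fixed by the coefficientwise
  action of `τ` and of every `η ∈ H`, and `ρ u' * (α ^ p * g₁ ^ p) = u'` for the deck
  transformation `ρ : Z ↦ ζ Z`.
-/

set_option autoImplicit false
set_option linter.unusedSectionVars false
set_option linter.unusedVariables false
set_option linter.style.longLine false

noncomputable section

namespace Fermat.Agent.T8.helper59

open HahnSeries IntermediateField ModularCurve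
open Fermat.Agent.S18.helper19 Fermat.Agent.P2.helper93
open Fermat.Agent.T8.helper83 Fermat.Agent.T8.helper86 Fermat.Agent.T8.helper98

/-! ### The normalisation on Laurent series -/

/-- "leading coefficient `1`" -/
def NmL (x : LaurentSeries Kb) : Prop := x.leadingCoeff = 1

theorem nmL_ne_zero {x : LaurentSeries Kb} (hx : NmL x) : x ≠ 0 := by
  rintro rfl
  unfold NmL at hx
  rw [HahnSeries.leadingCoeff_zero] at hx
  exact zero_ne_one hx

theorem isNormalisation_nmL {p : ℕ} (hp : 0 < p) : IsNormalisation p NmL where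
  one := HahnSeries.leadingCoeff_one
  mul := fun x y hx hy => by
    unfold NmL at *
    rw [HahnSeries.leadingCoeff_mul, hx, hy, mul_one]
  inv := fun x hx => by
    have hx0 : x ≠ 0 := nmL_ne_zero hx
    unfold NmL at *
    have h1 := HahnSeries.leadingCoeff_mul x x⁻¹
    rw [mul_inv_cancel₀ hx0, HahnSeries.leadingCoeff_one, hx, one_mul] at h1
    exact h1.symm
  rigid := fun x hx hN => by
    obtain ⟨ζ, -, hζ⟩ := Fermat.Agent.T7.helper22.exists_const_of_pow_eq_one hp x hx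
    unfold NmL at hN
    rw [hζ, Fermat.Agent.P2.helper44.algebraMap_laurent_eq_single0,
      HahnSeries.leadingCoeff_of_single] at hN
    rw [hζ, hN, map_one]

theorem leadingCoeff_coeffMap_equiv (σ : Kb ≃ₐ[ℚ] Kb) (x : LaurentSeries Kb) :
    (coeffMap (σ : Kb →+* Kb) x).leadingCoeff = σ x.leadingCoeff := by
  rw [HahnSeries.leadingCoeff_eq, HahnSeries.leadingCoeff_eq,
    Fermat.Agent.P2.helper44.order_coeffMap_of_injective _ (σ : Kb →+* Kb).injective,
    coeffMap_coeff]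
  rfl

theorem nmL_coeffMap (σ : Kb ≃ₐ[ℚ] Kb) (x : LaurentSeries Kb) (hx : NmL x) :
    NmL (coeffMap (σ : Kb →+* Kb) x) := by
  unfold NmL at *
  rw [leadingCoeff_coeffMap_equiv, hx, map_one]

variable {M : ℕ} [NeZero M]

theorem coe_algebraMap_FF' (x : FF M) :
    algebraMap (FF M) (LaurentSeries Kb) x = (x : LaurentSeries Kb) := rfl

theorem coeffMap_coe_FF (σ : Kb ≃ₐ[ℚ] Kb) (x : FF M) :
    coeffMap (σ : Kb →+* Kb) (algebraMap (FF M) (LaurentSeries Kb) x)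
      = algebraMap (FF M) (LaurentSeries Kb) (galF M σ x) := by
  rw [coe_algebraMap_FF', coe_algebraMap_FF', coe_galF]

/-- a normalised `p`-th root of a `σ`-fixed function is `σ`-fixed -/
theorem coeffMap_root_eq {p : ℕ} (hp : 0 < p) {K : FF M} {Z : LaurentSeries Kb}
    (hZ : Z ^ p = algebraMap (FF M) (LaurentSeries Kb) K) (hZN : NmL Z)
    (σ : Kb ≃ₐ[ℚ] Kb) (hσK : galF M σ K = K) :
    coeffMap (σ : Kb →+* Kb) Z = Z := by
  have hZ0 : Z ≠ 0 := nmL_ne_zero hZN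
  have hN := isNormalisation_nmL hp
  have h1 : (coeffMap (σ : Kb →+* Kb) Z) ^ p = Z ^ p := by
    rw [← map_pow, hZ, coeffMap_coe_FF, hσK]
  have h2 : (coeffMap (σ : Kb →+* Kb) Z * Z⁻¹) ^ p = 1 := by
    rw [mul_pow, h1, inv_pow, mul_inv_cancel₀ (pow_ne_zero _ hZ0)]
  have h3 := hN.rigid _ h2 (hN.mul _ _ (nmL_coeffMap σ Z hZN) (hN.inv _ hZN))
  calc coeffMap (σ : Kb →+* Kb) Z = coeffMap (σ : Kb →+* Kb) Z * Z⁻¹ * Z := by
        rw [mul_assoc, inv_mul_cancel₀ hZ0, mul_one]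
    _ = Z := by rw [h3, one_mul]

/-- iterates of the coefficientwise action -/
theorem iterate_coeffMap (τ : Kb ≃ₐ[ℚ] Kb) (i : ℕ) (x : LaurentSeries Kb) :
    (⇑(coeffMap ((τ : Kb ≃ₐ[ℚ] Kb) : Kb →+* Kb)))^[i] x
      = coeffMap (((τ ^ i : Kb ≃ₐ[ℚ] Kb)) : Kb →+* Kb) x := by
  induction i with
  | zero =>
    rw [Function.iterate_zero, id_eq, pow_zero]
    ext j
    rw [coeffMap_coeff]
    rfl
  | succ i ih =>
    rw [Function.iterate_succ_apply', ih, pow_succ', coeffMap_coeffMap]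
    rfl

/-- from the class-level relation to the normalised cocycle: if `u` and `K` are normalised and
`σ u = c₀ * v ^ p * (K * u)`, then `σ u = c ^ p * K * u` with `lc c = 1`. -/
theorem exists_normalised_cocycle {p : ℕ} (hp : 0 < p) {u K : FF M} (hu : lcF u = 1)
    (hK : lcF K = 1) (σ : Kb ≃ₐ[ℚ] Kb) {c₀ : Kb} {v : FF M}
    (h : galF M σ u = algebraMap Kb (FF M) c₀ * v ^ p * (K * u)) :
    ∃ c : FF M, lcF c = 1 ∧ galF M σ u = c ^ p * K * u := by
  have hu0 : u ≠ 0 := ne_zero_of_lcF_eq_one hu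
  have hσu : galF M σ u ≠ 0 := (map_ne_zero _).2 hu0
  have hv0 : v ≠ 0 := by
    rintro rfl
    rw [zero_pow hp.ne', mul_zero, zero_mul] at h
    exact hσu h
  have hlv : lcF v ≠ 0 := lcF_ne_zero hv0
  have hlc : (1 : Kb) = c₀ * lcF v ^ p := by
    have h1 : lcF (galF M σ u) = σ (lcF u) := lcF_galF σ u
    rw [hu, map_one, h, lcF_mul, lcF_mul, lcF_mul, lcF_algebraMap, lcF_pow, hK, hu, mul_one,
      mul_one] at h1
    exact h1.symm
  refine ⟨algebraMap Kb (FF M) (lcF v)⁻¹ * v, ?_, ?_⟩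
  · rw [lcF_mul, lcF_algebraMap, inv_mul_cancel₀ hlv]
  · rw [h, mul_pow, ← map_pow]
    have key : c₀ = ((lcF v)⁻¹) ^ p := by
      rw [inv_pow]
      have hlvp : lcF v ^ p ≠ 0 := pow_ne_zero _ hlv
      field_simp
      exact hlc.symm
    rw [key]
    ring

/-- **[DESC] at `FF M`** (coefficientwise Galois action, leading-coefficient normalisation). -/
theorem desc_laurent {p : ℕ} {K : FF M} {Z : LaurentSeries Kb}
    (h : IsKummerRoot p K Z) (hZN : NmL Z) (ζ : Kb) (hζ : ζ ^ p = 1)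
    (τ : Kb ≃ₐ[ℚ] Kb) (H : Subgroup (Kb ≃ₐ[ℚ] Kb))
    (hτK : galF M τ K = K) (hHK : ∀ η ∈ H, galF M η K = K)
    (hτζ : τ ζ = ζ) (hHζ : ∀ η ∈ H, η ζ = ζ)
    (hτp : τ ^ p ∈ H) (hnorm : ∀ η ∈ H, ∀ i : ℕ, (τ ^ i)⁻¹ * η * τ ^ i ∈ H)
    {u c : FF M} {α : Kb} (hu : u ≠ 0) (hα : α ≠ 0) (hcN : lcF c = 1)
    (hHu : ∀ η ∈ H, galF M η u = u)
    (hτu : galF M τ u = c ^ p * K * u)
    (hHα : ∀ η ∈ H, η α = α) (hτα : τ α = ζ * α) :
    ∃ h' g₁ u' : (FF M)⟮Z⟯, h' ≠ 0 ∧ g₁ ≠ 0 ∧ u' ≠ 0 ∧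
      u' * h' ^ p = algebraMap (FF M) (FF M)⟮Z⟯ u ∧
      coeffMap (τ : Kb →+* Kb) (u' : LaurentSeries Kb) = (u' : LaurentSeries Kb) ∧
      (∀ η ∈ H, coeffMap (η : Kb →+* Kb) (u' : LaurentSeries Kb) = (u' : LaurentSeries Kb)) ∧
      coeffMap (τ : Kb →+* Kb) (g₁ : LaurentSeries Kb) = (g₁ : LaurentSeries Kb) ∧
      (∀ η ∈ H, coeffMap (η : Kb →+* Kb) (g₁ : LaurentSeries Kb) = (g₁ : LaurentSeries Kb)) ∧
      deck h (algebraMap Kb (FF M) ζ) (by rw [← map_pow, hζ, map_one]) u' *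
        (algebraMap (FF M) (FF M)⟮Z⟯ (algebraMap Kb (FF M) α) ^ p * g₁ ^ p) = u' := by
  have hp : 0 < p := h.prime.pos
  have hζ' : (algebraMap Kb (FF M) ζ) ^ p = 1 := by rw [← map_pow, hζ, map_one]
  have hc0 : c ≠ 0 := ne_zero_of_lcF_eq_one hcN
  have hgalα : ∀ σ : Kb ≃ₐ[ℚ] Kb, ∀ a : Kb,
      coeffMap (σ : Kb →+* Kb) (algebraMap (FF M) (LaurentSeries Kb) (algebraMap Kb (FF M) a))
        = algebraMap (FF M) (LaurentSeries Kb) (algebraMap Kb (FF M) (σ a)) := by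
    intro σ a
    rw [coeffMap_coe_FF, galF_algebraMap]
  -- iterates of `τ` on `u`
  have hiter : ∀ i : ℕ, (⇑(coeffMap (τ : Kb →+* Kb)))^[i]
      (algebraMap (FF M) (LaurentSeries Kb) u)
      = algebraMap (FF M) (LaurentSeries Kb) (galF M (τ ^ i) u) := by
    intro i
    rw [iterate_coeffMap, coeffMap_coe_FF]
  have hfixH : ∀ η ∈ H, ∀ i : ℕ, galF M η (galF M (τ ^ i) u) = galF M (τ ^ i) u := by
    intro η hη i
    have h1 : η * τ ^ i = τ ^ i * ((τ ^ i)⁻¹ * η * τ ^ i) := by group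
    rw [← galF_mul, h1, galF_mul, hHu _ (hnorm η hη i)]
  obtain ⟨h', g₁, u', hh0, hg0, hu'0, hu'h, -, -, hτu', hHu', hτg, hHg, -, hdeck⟩ :=
    desc_cover (F := FF M) (Ω := LaurentSeries Kb) h (algebraMap Kb (FF M) ζ) hζ'
      (isNormalisation_nmL hp) (coeffMap (τ : Kb →+* Kb))
      {φ | ∃ η ∈ H, φ = coeffMap ((η : Kb ≃ₐ[ℚ] Kb) : Kb →+* Kb)}
      (fun x => ⟨galF M τ x, (coeffMap_coe_FF τ x).symm⟩)
      (by
        rintro φ ⟨η, hη, rfl⟩ x
        exact ⟨galF M η x, (coeffMap_coe_FF η x).symm⟩)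
      (coeffMap_root_eq hp h.pow_eq hZN τ hτK)
      (by
        rintro φ ⟨η, hη, rfl⟩
        exact coeffMap_root_eq hp h.pow_eq hZN η (hHK η hη))
      (by rw [hgalα, hτζ])
      (by
        rintro φ ⟨η, hη, rfl⟩
        rw [hgalα, hHζ η hη])
      (fun x hx => nmL_coeffMap τ x hx)
      (by
        rintro φ ⟨η, hη, rfl⟩ x hx
        exact nmL_coeffMap η x hx)
      (u := u) (c := c) (α := algebraMap Kb (FF M) α) hu hc0
      ((map_ne_zero _).2 hα) hcN hZN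
      (by
        rw [coeffMap_coe_FF, hτu, mul_pow, h.pow_eq]
        simp only [map_mul, map_pow])
      (by rw [hiter, hHu _ hτp])
      (by
        rintro φ ⟨η, hη, rfl⟩ i
        rw [hiter, coeffMap_coe_FF, hfixH η hη i])
      (by
        rintro φ ⟨η, hη, rfl⟩
        rw [hgalα, hHα η hη])
      (by rw [hgalα, hτα, map_mul, map_mul])
  refine ⟨h', g₁, u', hh0, hg0, hu'0, hu'h, hτu', ?_, hτg, ?_, hdeck⟩
  · intro η hη
    exact hHu' _ ⟨η, hη, rfl⟩
  · intro η hη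
    exact hHg _ ⟨η, hη, rfl⟩

end Fermat.Agent.T8.helper59

end
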