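import Mathlib
import Fermat.Agent.T8.helper59_DescLaurent
import Fermat.Agent.T8.helper59_CoverTransport

/-!
# T8 (row 38 via S44), leaf [DESC], consumer form (helper59): `desc_inst`

Inputs = the fields of `helper29.PeuShape` (unpacked) in the NON-SPLIT case, for ANY Kummer root
`Z` of `K` (in the application the INTEGRAL root `incl A Z₁` of the strongly split `K`, neither
normalised nor `K1`-rational):

* `h  : IsKummerRoot p K Z`;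
* `hK : ClassFixedBy M (IsIK1 A p) p K` (T7 [B4] at `a = 1`);
* `ζ` a primitive `p`-th root of unity, `α ≠ 0`;
* for every `σ ∈ I_K1` there are `j c v` with `σ α = ζ ^ j * α` and
  `galF σ u = c * v ^ p * u * K ^ j`;
* some `σ ∈ I_K1` moves `α`.

Output: `c₁ ≠ 0` in `ℚ̄` and `h', g₁, u' ∈ (FF M)⟮Z⟯`, nonzero, with `u' * h' ^ p = c₁ * u`,
`u'` and `g₁` fixed by the coefficientwise action of EVERY `σ ∈ I_K1`, and
`ρ u' * (α ^ p * g₁ ^ p) = u'` for the deck transformation `ρ : Z ↦ ζ Z`.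

Internally `K` and `u` are replaced by their normalised `I_K1`- resp. `H`-fixed representatives
(`helper98.desc_statement`, `H` = the stabiliser of `α` in `I_K1`), `Z` by the normalised root
`g * Z` (`g ∈ F`), `desc_laurent` is applied and the result is transported back along
`(FF M)⟮g * Z⟯ = (FF M)⟮Z⟯` (`helper59_CoverTransport`).
-/

set_option autoImplicit false
set_option linter.unusedSectionVars false
set_option linter.unusedVariables false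
set_option linter.style.longLine false

noncomputable section

namespace Fermat.Agent.T8.helper59

open HahnSeries IntermediateField ModularCurve
open Fermat.Agent.S18.helper19 Fermat.Agent.P2.helper93
open Fermat.Agent.T8.helper83 Fermat.Agent.T8.helper86 Fermat.Agent.T8.helper98

/-! ### Group theory of `I_K1` and the Kummer character of `α` -/

/-- the stabiliser of `α` in `I_K1` -/
def ik1Stab (A : ValuationSubring Kb) (p : ℕ) (α : Kb) : Subgroup (Kb ≃ₐ[ℚ] Kb) where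
  carrier := {σ | IsIK1 A p σ ∧ σ α = α}
  mul_mem' := by
    intro σ τ hσ hτ
    refine ⟨(ik1Subgroup A p).mul_mem hσ.1 hτ.1, ?_⟩
    show σ (τ α) = α
    rw [hτ.2, hσ.2]
  one_mem' := ⟨(ik1Subgroup A p).one_mem, rfl⟩
  inv_mem' := by
    intro σ hσ
    refine ⟨(ik1Subgroup A p).inv_mem hσ.1, ?_⟩
    have h1 : σ α = α := hσ.2
    calc σ⁻¹ α = σ⁻¹ (σ α) := by rw [h1]
      _ = α := σ.symm_apply_apply α

theorem mem_ik1Stab {A : ValuationSubring Kb} {p : ℕ} {α : Kb} {σ : Kb ≃ₐ[ℚ] Kb} :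
    σ ∈ ik1Stab A p α ↔ IsIK1 A p σ ∧ σ α = α := Iff.rfl

theorem isIK1_pow {A : ValuationSubring Kb} {p : ℕ} {σ : Kb ≃ₐ[ℚ] Kb} (hσ : IsIK1 A p σ)
    (m : ℕ) : IsIK1 A p (σ ^ m) :=
  (ik1Subgroup A p).pow_mem hσ m

theorem isIK1_mul {A : ValuationSubring Kb} {p : ℕ} {σ τ : Kb ≃ₐ[ℚ] Kb} (hσ : IsIK1 A p σ)
    (hτ : IsIK1 A p τ) : IsIK1 A p (σ * τ) :=
  (ik1Subgroup A p).mul_mem hσ hτ

theorem isIK1_inv {A : ValuationSubring Kb} {p : ℕ} {σ : Kb ≃ₐ[ℚ] Kb} (hσ : IsIK1 A p σ) :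
    IsIK1 A p σ⁻¹ :=
  (ik1Subgroup A p).inv_mem hσ

/-- elements of `I_K1` fix the powers of `ζ` -/
theorem isIK1_fix_pow {A : ValuationSubring Kb} {p : ℕ} {σ : Kb ≃ₐ[ℚ] Kb} (hσ : IsIK1 A p σ)
    {ζ : Kb} (hζ : ζ ^ p = 1) (k : ℕ) : σ (ζ ^ k) = ζ ^ k :=
  hσ.2 (ζ ^ k) (by rw [← pow_mul, mul_comm, pow_mul, hζ, one_pow])

/-- powers of an eigen-automorphism -/
theorem pow_apply_of_eigen {σ : Kb ≃ₐ[ℚ] Kb} {ζ α : Kb} {j : ℕ}
    (hζ : ∀ k : ℕ, σ (ζ ^ k) = ζ ^ k) (hα : σ α = ζ ^ j * α) (m : ℕ) :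
    (σ ^ m) α = ζ ^ (j * m) * α := by
  induction m with
  | zero => simp
  | succ m ih =>
    rw [pow_succ', AlgEquiv.mul_apply, ih, map_mul, hζ, hα, ← mul_assoc, ← _root_.pow_add,
      mul_add, mul_one]

/-- the coefficientwise action is multiplicative -/
theorem coeffMap_mul_equiv (σ τ : Kb ≃ₐ[ℚ] Kb) (x : LaurentSeries Kb) :
    coeffMap ((σ * τ : Kb ≃ₐ[ℚ] Kb) : Kb →+* Kb) x
      = coeffMap (σ : Kb →+* Kb) (coeffMap (τ : Kb →+* Kb) x) := by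
  rw [coeffMap_coeffMap]
  rfl

/-- an element fixed by `τ` is fixed by its powers -/
theorem coeffMap_pow_fixed {τ : Kb ≃ₐ[ℚ] Kb} {x : LaurentSeries Kb}
    (h : coeffMap (τ : Kb →+* Kb) x = x) (m : ℕ) :
    coeffMap ((τ ^ m : Kb ≃ₐ[ℚ] Kb) : Kb →+* Kb) x = x := by
  rw [← iterate_coeffMap]
  exact Function.iterate_fixed h m

/-- leading coefficients of powers -/
theorem leadingCoeff_pow_L (x : LaurentSeries Kb) (n : ℕ) :
    (x ^ n).leadingCoeff = x.leadingCoeff ^ n := by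
  induction n with
  | zero => rw [pow_zero, pow_zero]; exact HahnSeries.leadingCoeff_one
  | succ n ih => rw [pow_succ, pow_succ, HahnSeries.leadingCoeff_mul, ih]

/-- the algebra of the cocycle of `τ` on the normalised representatives -/
theorem cocycle_alg {F : Type*} [Field F] (a b c1 g G1 X v K u : F) (k p : ℕ) (hc1 : c1 ≠ 0)
    (hg : g ≠ 0) (hG1 : G1 ≠ 0) :
    a * X ^ p * (b * v ^ p * u * K ^ (1 + p * k))
      = (a * b * c1⁻¹) * (X * v * K ^ k * (g * G1)⁻¹) ^ p * (g ^ p * K * (c1 * G1 ^ p * u)) := by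
  have e1 : K ^ (1 + p * k) = K * (K ^ k) ^ p := by
    rw [_root_.pow_add, pow_one, mul_comm p k, pow_mul]
  have e2 : (X * v * K ^ k * (g * G1)⁻¹) ^ p * (g ^ p * G1 ^ p) = X ^ p * v ^ p * (K ^ k) ^ p := by
    rw [← mul_pow g G1, ← mul_pow, mul_assoc (X * v * K ^ k), inv_mul_cancel₀ (mul_ne_zero hg hG1),
      mul_one, mul_pow, mul_pow]
  rw [e1]
  calc a * X ^ p * (b * v ^ p * u * (K * (K ^ k) ^ p))
      = a * b * (c1⁻¹ * c1) * (X ^ p * v ^ p * (K ^ k) ^ p) * (K * u) := by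
        rw [inv_mul_cancel₀ hc1]; ring
    _ = a * b * (c1⁻¹ * c1) * ((X * v * K ^ k * (g * G1)⁻¹) ^ p * (g ^ p * G1 ^ p)) * (K * u) := by
        rw [e2]
    _ = _ := by ring

/-! ### The consumer form of [DESC] -/

variable {M : ℕ} [NeZero M]

/-- **Step 1**: the normalised `I_K1`-fixed representative `g ^ p * K` of the class of `K` and
its normalised root `g * Z`. -/
theorem exists_normalised_root {p : ℕ} {K : FF M} {Z : LaurentSeries Kb}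
    (h : IsKummerRoot p K Z) (A : ValuationSubring Kb)
    (hK : ClassFixedBy M (IsIK1 A p) p K) :
    ∃ g : FF M, g ≠ 0 ∧
      (∀ σ : Kb ≃ₐ[ℚ] Kb, IsIK1 A p σ → galF M σ (g ^ p * K) = g ^ p * K) ∧
      lcF (g ^ p * K) = 1 ∧ NmL (algebraMap (FF M) (LaurentSeries Kb) g * Z) := by
  have hpp : p.Prime := h.prime
  have hp : 0 < p := hpp.pos
  have hK0 : K ≠ 0 := by
    rintro rfl
    exact h.not_pow 0 (zero_pow hp.ne')
  obtain ⟨c₀, G, hc₀, hG, hK₁fix, hK₁lc⟩ := desc_statement (M := M) (ik1Subgroup A p) hp K hK0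
    (fun σ hσ' => hK σ (mem_ik1Subgroup.1 hσ'))
  obtain ⟨γ₀, hγ₀⟩ := IsAlgClosed.exists_pow_nat_eq c₀ hp
  have hγ₀0 : γ₀ ≠ 0 := by
    rintro rfl
    rw [zero_pow hp.ne'] at hγ₀
    exact hc₀ hγ₀.symm
  have hg₀0 : algebraMap Kb (FF M) γ₀ * G ≠ 0 := mul_ne_zero ((map_ne_zero _).2 hγ₀0) hG
  have hg₀K : (algebraMap Kb (FF M) γ₀ * G) ^ p * K = algebraMap Kb (FF M) c₀ * G ^ p * K := by
    rw [mul_pow, ← map_pow, hγ₀]
  have hZ0 : Z ≠ 0 := h.ne_zero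
  have hlcZ : lcF (algebraMap Kb (FF M) γ₀ * G) * Z.leadingCoeff ≠ 0 :=
    mul_ne_zero (lcF_ne_zero hg₀0) (HahnSeries.leadingCoeff_ne_zero.2 hZ0)
  have hεp : (lcF (algebraMap Kb (FF M) γ₀ * G) * Z.leadingCoeff) ^ p = 1 := by
    have h1 : (((algebraMap Kb (FF M) γ₀ * G) ^ p * K : FF M) : LaurentSeries Kb).leadingCoeff
        = 1 := by
      rw [hg₀K]
      exact hK₁lc
    have h2 : (((algebraMap Kb (FF M) γ₀ * G) ^ p * K : FF M) : LaurentSeries Kb)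
        = ((algebraMap Kb (FF M) γ₀ * G : FF M) : LaurentSeries Kb) ^ p * Z ^ p := by
      rw [h.pow_eq]
      rfl
    rw [h2, HahnSeries.leadingCoeff_mul, leadingCoeff_pow_L, leadingCoeff_pow_L,
      ← mul_pow] at h1
    exact h1
  have hgK : (algebraMap Kb (FF M) (lcF (algebraMap Kb (FF M) γ₀ * G) * Z.leadingCoeff)⁻¹
      * (algebraMap Kb (FF M) γ₀ * G)) ^ p * K = algebraMap Kb (FF M) c₀ * G ^ p * K := by
    rw [mul_pow (algebraMap Kb (FF M) _), ← map_pow, inv_pow, hεp, inv_one, map_one, one_mul,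
      hg₀K]
  refine ⟨algebraMap Kb (FF M) (lcF (algebraMap Kb (FF M) γ₀ * G) * Z.leadingCoeff)⁻¹
      * (algebraMap Kb (FF M) γ₀ * G),
    mul_ne_zero ((map_ne_zero _).2 (inv_ne_zero hlcZ)) hg₀0, ?_, ?_, ?_⟩
  · intro σ hσ'
    rw [hgK]
    exact hK₁fix σ (mem_ik1Subgroup.2 hσ')
  · rw [hgK]
    exact hK₁lc
  · unfold NmL
    rw [HahnSeries.leadingCoeff_mul]
    have h1 : ∀ x : FF M, (algebraMap (FF M) (LaurentSeries Kb) x).leadingCoeff = lcF x :=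
      fun _ => rfl
    rw [h1, lcF_mul, lcF_algebraMap, mul_assoc, inv_mul_cancel₀ hlcZ]

/-- **Step 2**: an element `τ ∈ I_K1` with `τ α = ζ α`. -/
theorem exists_tau {p : ℕ} (hpp : p.Prime) (A : ValuationSubring Kb) {ζ α : Kb}
    (hζ : IsPrimitiveRoot ζ p)
    (hσ : ∀ σ : Kb ≃ₐ[ℚ] Kb, IsIK1 A p σ → ∃ j : ℕ, σ α = ζ ^ j * α)
    (hns : ∃ σ : Kb ≃ₐ[ℚ] Kb, IsIK1 A p σ ∧ σ α ≠ α) :
    ∃ τ : Kb ≃ₐ[ℚ] Kb, IsIK1 A p τ ∧ τ α = ζ * α := by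
  have hζp : ζ ^ p = 1 := hζ.pow_eq_one
  obtain ⟨σ₀, hσ₀, hσ₀α⟩ := hns
  obtain ⟨j₀, hj₀⟩ := hσ σ₀ hσ₀
  have hj₀p : ¬ p ∣ j₀ := by
    intro hdvd
    apply hσ₀α
    obtain ⟨k, rfl⟩ := hdvd
    rw [hj₀, pow_mul, hζp, one_pow, one_mul]
  obtain ⟨m, hm⟩ : ∃ m : ℕ, ζ ^ (j₀ * m) = ζ := by
    have hcop : Nat.Coprime j₀ p := ((Nat.Prime.coprime_iff_not_dvd hpp).mpr hj₀p).symm
    obtain ⟨r, -, hr⟩ := Nat.exists_mul_mod_eq_one_of_coprime hcop hpp.one_lt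
    refine ⟨r, ?_⟩
    conv_lhs => rw [← Nat.mod_add_div (j₀ * r) p]
    rw [hr, _root_.pow_add, pow_one, pow_mul, hζp, one_pow, mul_one]
  refine ⟨σ₀ ^ m, isIK1_pow hσ₀ m, ?_⟩
  rw [pow_apply_of_eigen (fun k => isIK1_fix_pow hσ₀ hζp k) hj₀ m, hm]

/-- powers of `τ` on `α` -/
theorem tau_pow_apply {p : ℕ} {A : ValuationSubring Kb} {ζ α : Kb} (hζp : ζ ^ p = 1)
    {τ : Kb ≃ₐ[ℚ] Kb} (hτI : IsIK1 A p τ) (hτα : τ α = ζ * α) (i : ℕ) :
    (τ ^ i) α = ζ ^ i * α := by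
  have hτα1 : τ α = ζ ^ 1 * α := by rw [pow_one]; exact hτα
  have := pow_apply_of_eigen (fun k => isIK1_fix_pow hτI hζp k) hτα1 i
  rwa [one_mul] at this

/-- **Step 6**: an element fixed by `τ` and by the stabiliser of `α` is fixed by `I_K1`. -/
theorem fixed_of_tau_stab {p : ℕ} (hp : 0 < p) {A : ValuationSubring Kb} {ζ α : Kb}
    (hζp : ζ ^ p = 1)
    (hσ : ∀ σ : Kb ≃ₐ[ℚ] Kb, IsIK1 A p σ → ∃ j : ℕ, σ α = ζ ^ j * α)
    {τ : Kb ≃ₐ[ℚ] Kb} (hτI : IsIK1 A p τ) (hτα : τ α = ζ * α)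
    {x : LaurentSeries Kb} (hτx : coeffMap (τ : Kb →+* Kb) x = x)
    (hHx : ∀ η ∈ ik1Stab A p α, coeffMap (η : Kb →+* Kb) x = x)
    (σ : Kb ≃ₐ[ℚ] Kb) (hσ' : IsIK1 A p σ) : coeffMap (σ : Kb →+* Kb) x = x := by
  obtain ⟨j, hjα⟩ := hσ σ hσ'
  have hjn : ζ ^ (p - j % p + j) = 1 := by
    have h1 : p - j % p + j = p * (1 + j / p) := by
      have h2 := Nat.mod_add_div j p
      have h3 : j % p < p := Nat.mod_lt j hp
      rw [mul_add, mul_one]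
      omega
    rw [h1, pow_mul, hζp, one_pow]
  have hη : σ * τ ^ (p - j % p) ∈ ik1Stab A p α := by
    refine ⟨isIK1_mul hσ' (isIK1_pow hτI _), ?_⟩
    show σ ((τ ^ (p - j % p)) α) = α
    rw [tau_pow_apply hζp hτI hτα, map_mul, isIK1_fix_pow hσ' hζp, hjα, ← mul_assoc,
      ← _root_.pow_add, hjn, one_mul]
  have h4 := hHx _ hη
  rw [coeffMap_mul_equiv, coeffMap_pow_fixed hτx] at h4
  exact h4

/-- the class of `u` is fixed by the stabiliser of `α` -/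
theorem classFixedBy_stab {p : ℕ} {K u : FF M} (A : ValuationSubring Kb) {ζ α : Kb}
    (hζ : IsPrimitiveRoot ζ p) (hα : α ≠ 0)
    (hσ : ∀ σ : Kb ≃ₐ[ℚ] Kb, IsIK1 A p σ → ∃ (j : ℕ) (c : Kb) (v : FF M),
      σ α = ζ ^ j * α ∧ c ≠ 0 ∧ v ≠ 0 ∧
      galF M σ u = algebraMap Kb (FF M) c * v ^ p * u * K ^ j) :
    ClassFixedBy M (· ∈ ik1Stab A p α) p u := by
  intro η hη
  obtain ⟨j, c, v, hjα, hc, hv, hgal⟩ := hσ η hη.1
  have hj1 : ζ ^ j = 1 := by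
    have h1 : ζ ^ j * α = 1 * α := by rw [← hjα, hη.2, one_mul]
    exact mul_right_cancel₀ hα h1
  obtain ⟨k, rfl⟩ := (hζ.pow_eq_one_iff_dvd j).1 hj1
  refine ⟨c, v * K ^ k, ?_⟩
  rw [hgal]
  ring

/-- **Step 4**: the normalised cocycle of `τ` on the normalised representatives. -/
theorem exists_cocycle_tau {p : ℕ} (hpp : p.Prime) {K u g G₁ : FF M} {c₁ : Kb}
    (A : ValuationSubring Kb) {ζ α : Kb} (hζ : IsPrimitiveRoot ζ p) (hα : α ≠ 0)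
    (hg0 : g ≠ 0) (hG₁ : G₁ ≠ 0) (hc₁ : c₁ ≠ 0)
    (hu₁lc : lcF (algebraMap Kb (FF M) c₁ * G₁ ^ p * u) = 1) (hK'lc : lcF (g ^ p * K) = 1)
    {τ : Kb ≃ₐ[ℚ] Kb} (hτα : τ α = ζ * α)
    (hστ : ∃ (j : ℕ) (c : Kb) (v : FF M),
      τ α = ζ ^ j * α ∧ c ≠ 0 ∧ v ≠ 0 ∧
      galF M τ u = algebraMap Kb (FF M) c * v ^ p * u * K ^ j) :
    ∃ c : FF M, lcF c = 1 ∧ galF M τ (algebraMap Kb (FF M) c₁ * G₁ ^ p * u)
      = c ^ p * (g ^ p * K) * (algebraMap Kb (FF M) c₁ * G₁ ^ p * u) := by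
  have hp : 0 < p := hpp.pos
  obtain ⟨j', c', v', hj'α, hc', hv', hgal'⟩ := hστ
  have hj'1 : ζ ^ j' = ζ := mul_right_cancel₀ hα (by rw [← hj'α, hτα])
  obtain ⟨k, hk⟩ : ∃ k, j' = 1 + p * k := by
    rcases Nat.eq_zero_or_pos j' with h0 | hpos
    · exfalso
      rw [h0, pow_zero] at hj'1
      exact hζ.ne_one hpp.one_lt hj'1.symm
    · obtain ⟨i, rfl⟩ : ∃ i, j' = i + 1 := ⟨j' - 1, by omega⟩
      have h1 : ζ ^ i = 1 := by
        have h2 : ζ ^ i * ζ = 1 * ζ := by rw [one_mul, ← pow_succ]; exact hj'1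
        exact mul_right_cancel₀ (hζ.ne_zero hp.ne') h2
      obtain ⟨k, rfl⟩ := (hζ.pow_eq_one_iff_dvd i).1 h1
      exact ⟨k, by ring⟩
  have hc₁' : algebraMap Kb (FF M) c₁ ≠ 0 := (map_ne_zero _).2 hc₁
  have hcocy : galF M τ (algebraMap Kb (FF M) c₁ * G₁ ^ p * u)
      = algebraMap Kb (FF M) (τ c₁ * c' * c₁⁻¹) * (galF M τ G₁ * v' * K ^ k * (g * G₁)⁻¹) ^ p
        * (g ^ p * K * (algebraMap Kb (FF M) c₁ * G₁ ^ p * u)) := by
    rw [map_mul, map_mul, map_pow, galF_algebraMap, hgal', hk, map_mul, map_mul, map_inv₀]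
    exact cocycle_alg _ _ _ g G₁ _ v' K u k p hc₁' hg0 hG₁
  exact exists_normalised_cocycle hp hu₁lc hK'lc τ hcocy

/-- **[DESC], consumer form** (non-split case of `helper29.PeuShape`, any Kummer root). -/
theorem desc_inst {p : ℕ} {K : FF M} {Z : LaurentSeries Kb} (h : IsKummerRoot p K Z)
    (A : ValuationSubring Kb) (ζ α : Kb) (hζ : IsPrimitiveRoot ζ p) (hα : α ≠ 0)
    (hK : ClassFixedBy M (IsIK1 A p) p K)
    {u : FF M} (hu : u ≠ 0)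
    (hσ : ∀ σ : Kb ≃ₐ[ℚ] Kb, IsIK1 A p σ → ∃ (j : ℕ) (c : Kb) (v : FF M),
      σ α = ζ ^ j * α ∧ c ≠ 0 ∧ v ≠ 0 ∧
      galF M σ u = algebraMap Kb (FF M) c * v ^ p * u * K ^ j)
    (hns : ∃ σ : Kb ≃ₐ[ℚ] Kb, IsIK1 A p σ ∧ σ α ≠ α) :
    ∃ (c₁ : Kb) (h' g₁ u' : (FF M)⟮Z⟯), c₁ ≠ 0 ∧ h' ≠ 0 ∧ g₁ ≠ 0 ∧ u' ≠ 0 ∧
      u' * h' ^ p = algebraMap (FF M) (FF M)⟮Z⟯ (algebraMap Kb (FF M) c₁ * u) ∧
      (∀ σ : Kb ≃ₐ[ℚ] Kb, IsIK1 A p σ →
        coeffMap (σ : Kb →+* Kb) (u' : LaurentSeries Kb) = (u' : LaurentSeries Kb)) ∧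
      (∀ σ : Kb ≃ₐ[ℚ] Kb, IsIK1 A p σ →
        coeffMap (σ : Kb →+* Kb) (g₁ : LaurentSeries Kb) = (g₁ : LaurentSeries Kb)) ∧
      deck h (algebraMap Kb (FF M) ζ) (by rw [← map_pow, hζ.pow_eq_one, map_one]) u' *
        (algebraMap (FF M) (FF M)⟮Z⟯ (algebraMap Kb (FF M) α) ^ p * g₁ ^ p) = u' := by
  classical
  have hpp : p.Prime := h.prime
  have hp : 0 < p := hpp.pos
  have hζp : ζ ^ p = 1 := hζ.pow_eq_one
  have hζ' : (algebraMap Kb (FF M) ζ) ^ p = 1 := by rw [← map_pow, hζp, map_one]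
  have hσα : ∀ σ : Kb ≃ₐ[ℚ] Kb, IsIK1 A p σ → ∃ j : ℕ, σ α = ζ ^ j * α := by
    intro σ hσ'
    obtain ⟨j, -, -, hj, -⟩ := hσ σ hσ'
    exact ⟨j, hj⟩
  obtain ⟨g, hg0, hK'fix, hK'lc, hZ'N⟩ := exists_normalised_root h A hK
  obtain ⟨τ, hτI, hτα⟩ := exists_tau hpp A hζ hσα hns
  obtain ⟨c₁, G₁, hc₁, hG₁, hu₁fix, hu₁lc⟩ :=
    desc_statement (M := M) (ik1Stab A p α) hp u hu (classFixedBy_stab A hζ hα hσ)
  have hu₁0 : algebraMap Kb (FF M) c₁ * G₁ ^ p * u ≠ 0 :=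
    mul_ne_zero (mul_ne_zero ((map_ne_zero _).2 hc₁) (pow_ne_zero _ hG₁)) hu
  obtain ⟨c, hcN, hτu₁⟩ := exists_cocycle_tau hpp A hζ hα hg0 hG₁ hc₁ hu₁lc hK'lc hτα
    (hσ τ hτI)
  -- [DESC] on the normalised cover
  obtain ⟨h₂, g₂, u₂, hh₂, hg₂, hu₂, hu₂h, hτu₂, hHu₂, hτg₂, hHg₂, hdeck⟩ :=
    desc_laurent (isKummerRoot_mul_left h hg0) hZ'N ζ hζp τ (ik1Stab A p α)
      (hK'fix _ hτI) (fun η hη => hK'fix η hη.1) (hτI.2 ζ hζp) (fun η hη => hη.1.2 ζ hζp)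
      (by
        refine ⟨isIK1_pow hτI p, ?_⟩
        rw [tau_pow_apply hζp hτI hτα p, hζp, one_mul])
      (by
        intro η hη i
        refine ⟨isIK1_mul (isIK1_mul (isIK1_inv (isIK1_pow hτI i)) hη.1) (isIK1_pow hτI i), ?_⟩
        show (τ ^ i)⁻¹ (η ((τ ^ i) α)) = α
        rw [tau_pow_apply hζp hτI hτα i, map_mul, isIK1_fix_pow hη.1 hζp i, hη.2,
          ← tau_pow_apply hζp hτI hτα i]
        exact (τ ^ i).symm_apply_apply α)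
      hu₁0 hα hcN (fun η hη => hu₁fix η hη) hτu₁ (fun η hη => hη.2) hτα
  -- transport to `(FF M)⟮Z⟯`
  have hG₁' : algebraMap (FF M) (FF M)⟮Z⟯ G₁ ≠ 0 := (map_ne_zero _).2 hG₁
  refine ⟨c₁, transport g Z h₂ * (algebraMap (FF M) (FF M)⟮Z⟯ G₁)⁻¹, transport g Z g₂,
    transport g Z u₂, hc₁, mul_ne_zero (transport_ne_zero g Z hh₂) (inv_ne_zero hG₁'),
    transport_ne_zero g Z hg₂, transport_ne_zero g Z hu₂, ?_, ?_, ?_, ?_⟩
  · have h1 : transport g Z u₂ * transport g Z h₂ ^ p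
        = algebraMap (FF M) (FF M)⟮Z⟯ (algebraMap Kb (FF M) c₁ * G₁ ^ p * u) := by
      rw [← map_pow, ← map_mul, hu₂h, AlgHom.commutes]
    rw [mul_pow, inv_pow, ← mul_assoc, h1, map_mul, map_mul, map_mul, map_pow]
    have hGp : algebraMap (FF M) (FF M)⟮Z⟯ G₁ ^ p ≠ 0 := pow_ne_zero _ hG₁'
    field_simp
  · intro σ hσ'
    rw [coe_transport]
    exact fixed_of_tau_stab hp hζp hσα hτI hτα hτu₂ hHu₂ σ hσ'
  · intro σ hσ'
    rw [coe_transport]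
    exact fixed_of_tau_stab hp hζp hσα hτI hτα hτg₂ hHg₂ σ hσ'
  · rw [deck_transport h hg0 (algebraMap Kb (FF M) ζ) hζ' u₂]
    have h2 := congrArg (transport g Z) hdeck
    have h3 : transport g Z (algebraMap (FF M)
          (FF M)⟮algebraMap (FF M) (LaurentSeries Kb) g * Z⟯ (algebraMap Kb (FF M) α))
        = algebraMap (FF M) (FF M)⟮Z⟯ (algebraMap Kb (FF M) α) := (transport g Z).commutes _
    rw [← h3, ← map_pow (transport g Z) _ p, ← map_pow (transport g Z) g₂ p,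
      ← map_mul (transport g Z), ← map_mul (transport g Z)]
    exact h2

end Fermat.Agent.T8.helper59

end
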