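import Mathlib
import Fermat.Agent.T8.helper59_DescInst
import Fermat.Agent.T8.helper83_DescContract

/-!
# T8 (row 38 via S44), leaf [DESC] (helper59): the contract `helper83.DescOutput` for a
PRIMITIVE `ζ`

`descOutput_of_primitive` : `helper83.DescInput M A p K u Z ζ α` and `IsPrimitiveRoot ζ p` give
`helper83.DescOutput` - this is the contract [DESC] of `helper83_DescContract` in the only case
used by the consumer (`helper29.PeuShape` contains `IsPrimitiveRoot ζ p`).

* non-split case (some `σ ∈ I_K1` moves `α`): `desc_inst`;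
* split case (all of `I_K1` fixes `α`): the class of `u` is fixed by `I_K1` on `X` itself,
  `helper98.desc_statement` gives the `K1`-rational `u' = c₀ G ^ p u ∈ F`, and `g₁ = α`.

`classFixedBy_of_galZ` : the hypothesis `galZ` (`σ Z = w Z`) gives `σ K = w ^ p K`.
-/

set_option autoImplicit false
set_option linter.unusedSectionVars false
set_option linter.unusedVariables false
set_option linter.style.longLine false

noncomputable section

namespace Fermat.Agent.T8.helper59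

open HahnSeries IntermediateField ModularCurve
open Fermat.Agent.S18.helper19 Fermat.Agent.P2.helper93
open Fermat.Agent.T8.helper83 Fermat.Agent.T8.helper86 Fermat.Agent.T8.helper98

variable {M : ℕ} [NeZero M]

/-- `σ Z = w Z` for `σ ∈ I_K1` gives `σ K = w ^ p K`: the class of `K` is fixed by `I_K1` -/
theorem classFixedBy_of_galZ {p : ℕ} {K : FF M} {Z : LaurentSeries Kb} (A : ValuationSubring Kb)
    (hZ : Z ^ p = algebraMap (FF M) (LaurentSeries Kb) K)
    (galZ : ∀ σ : Kb ≃ₐ[ℚ] Kb, IsIK1 A p σ →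
      ∃ w : FF M, coeffMap (σ : Kb →+* Kb) Z = (w : LaurentSeries Kb) * Z) :
    ClassFixedBy M (IsIK1 A p) p K := by
  intro σ hσ
  obtain ⟨w, hw⟩ := galZ σ hσ
  refine ⟨1, w, ?_⟩
  apply Subtype.ext
  rw [coe_galF]
  have h1 : ((K : FF M) : LaurentSeries Kb) = Z ^ p := hZ.symm
  rw [h1, map_pow, hw, mul_pow, map_one, one_mul]
  push_cast
  rw [h1]

/-- the algebra of the output conversion -/
theorem deck_alg {E : Type*} [Field E] (D a g u : E) (hg : g ≠ 0) (p : ℕ)
    (h : D * (a ^ p * g ^ p) = u) : D * a ^ p = g⁻¹ ^ p * u := by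
  have hgp : g ^ p ≠ 0 := pow_ne_zero _ hg
  rw [← h, inv_pow]
  field_simp

/-- **[DESC]**: the contract of `helper83_DescContract` for a primitive `ζ`. -/
theorem descOutput_of_primitive {A : ValuationSubring Kb} {p : ℕ} {K u : FF M}
    {Z : LaurentSeries Kb} {ζ α : Kb} (hI : DescInput M A p K u Z ζ α)
    (hζ : IsPrimitiveRoot ζ p) : DescOutput hI.root hI.zeta A u α := by
  classical
  have hp : 0 < p := hI.root.prime.pos
  have hK : ClassFixedBy M (IsIK1 A p) p K := classFixedBy_of_galZ A hI.root.pow_eq hI.galZ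
  by_cases hns : ∃ σ : Kb ≃ₐ[ℚ] Kb, IsIK1 A p σ ∧ σ α ≠ α
  · -- non-split
    obtain ⟨c₁, h', g₁, u', hc₁, hh', hg₁, hu', huh, hfu, hfg, hdeck⟩ :=
      desc_inst hI.root A ζ α hζ hI.alpha hK hI.u_ne hI.galu hns
    have hh'p : h' ^ p ≠ 0 := pow_ne_zero _ hh'
    have hg₁p : g₁ ^ p ≠ 0 := pow_ne_zero _ hg₁
    refine ⟨c₁, h'⁻¹, g₁⁻¹, u', hc₁, inv_ne_zero hh', inv_ne_zero hg₁, ?_, hfu, ?_, ?_⟩
    · rw [← huh, inv_pow]
      field_simp
    · intro σ hσ
      have h1 : ((g₁⁻¹ : (FF M)⟮Z⟯) : LaurentSeries Kb) = ((g₁ : (FF M)⟮Z⟯) : LaurentSeries Kb)⁻¹ :=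
        rfl
      rw [h1, map_inv₀, hfg σ hσ]
    · have h2 : deck hI.root (algebraMap Kb (FF M) ζ) (zeta_pow_FF hI.zeta) u' *
          (algebraMap (FF M) (FF M)⟮Z⟯ (algebraMap Kb (FF M) α) ^ p * g₁ ^ p) = u' := hdeck
      have e : algebraMap (FF M) (FF M)⟮Z⟯ (algebraMap Kb (FF M) (α ^ p))
          = (algebraMap (FF M) (FF M)⟮Z⟯ (algebraMap Kb (FF M) α)) ^ p := by
        rw [map_pow, map_pow]
      rw [e]
      exact deck_alg _ _ _ _ hg₁ p h2
  · -- split: every element of `I_K1` fixes `α`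
    have hfixα : ∀ σ : Kb ≃ₐ[ℚ] Kb, IsIK1 A p σ → σ α = α := by
      intro σ hσ
      by_contra hne
      exact hns ⟨σ, hσ, hne⟩
    have hclu : ClassFixedBy M (· ∈ ik1Subgroup A p) p u := by
      intro η hη
      obtain ⟨j, c, v, hjα, hc, hv, hgal⟩ := hI.galu η (mem_ik1Subgroup.1 hη)
      have hj1 : ζ ^ j = 1 := by
        have h1 : ζ ^ j * α = 1 * α := by
          rw [← hjα, hfixα η (mem_ik1Subgroup.1 hη), one_mul]
        exact mul_right_cancel₀ hI.alpha h1
      obtain ⟨k, rfl⟩ := (hζ.pow_eq_one_iff_dvd j).1 hj1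
      refine ⟨c, v * K ^ k, ?_⟩
      rw [hgal]
      ring
    obtain ⟨c₀, G, hc₀, hG, hfix, -⟩ :=
      desc_statement (M := M) (ik1Subgroup A p) hp u hI.u_ne hclu
    have hα' : algebraMap (FF M) (FF M)⟮Z⟯ (algebraMap Kb (FF M) α) ≠ 0 :=
      (map_ne_zero _).2 ((map_ne_zero _).2 hI.alpha)
    refine ⟨c₀, algebraMap (FF M) (FF M)⟮Z⟯ G,
      algebraMap (FF M) (FF M)⟮Z⟯ (algebraMap Kb (FF M) α),
      algebraMap (FF M) (FF M)⟮Z⟯ (algebraMap Kb (FF M) c₀ * G ^ p * u), hc₀,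
      (map_ne_zero _).2 hG, hα', ?_, ?_, ?_, ?_⟩
    · rw [← map_pow, ← map_mul]
      congr 1
      ring
    · intro σ hσ
      have h1 := hfix σ (mem_ik1Subgroup.2 hσ)
      have h2 : ((algebraMap (FF M) (FF M)⟮Z⟯ (algebraMap Kb (FF M) c₀ * G ^ p * u) :
          (FF M)⟮Z⟯) : LaurentSeries Kb)
          = ((algebraMap Kb (FF M) c₀ * G ^ p * u : FF M) : LaurentSeries Kb) := rfl
      rw [h2, ← coe_galF, h1]
    · intro σ hσ
      have h2 : ((algebraMap (FF M) (FF M)⟮Z⟯ (algebraMap Kb (FF M) α) :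
          (FF M)⟮Z⟯) : LaurentSeries Kb)
          = ((algebraMap Kb (FF M) α : FF M) : LaurentSeries Kb) := rfl
      rw [h2, ← coe_galF, galF_algebraMap, hfixα σ hσ]
    · have e : algebraMap (FF M) (FF M)⟮Z⟯ (algebraMap Kb (FF M) (α ^ p))
          = (algebraMap (FF M) (FF M)⟮Z⟯ (algebraMap Kb (FF M) α)) ^ p := by
        rw [map_pow, map_pow]
      rw [e, AlgEquiv.commutes]
      ring

end Fermat.Agent.T8.helper59

end
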