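/-
T8 [SLOPE], K1-VERSION BY NORM, abstract core (helper65).  Mathlib only.

A group `G` acts on a commutative monoid `F` (the nonzero functions, or the functions) through
`act : G → F → F` (multiplicative in `F`, compatible with products in `G`); `I` is a subgroup
(the inertia group), `H ≤ I` a subgroup of finite index (the subgroup fixing `ζ_p`).

* `normCoset act I H u` : the product of `act c u` over representatives `c` of `I / H`;
* `act_normCoset` : for `u` fixed by `H` the norm is fixed by `I`;
* `map_normCoset` : an additive invariant `φ` (`φ (u * v) = φ u + φ v`, `φ (act σ u) = φ u` for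
  `σ ∈ I`) takes the value `[I : H] * φ u` at the norm;
* `k1_of_k0` : **K1-version from the K0-version**: if every `I`-fixed `u` with the (local)
  divisibility property `Loc` satisfies `p ∣ φ u - δ u * m`, then every `H`-fixed `u` with `Loc`
  satisfies `p ∣ [I : H] * φ u - δ (N u) * m`;
* `k1_of_k0'` : the same for `[I : H] = p - 1`: `p ∣ φ u + δ (N u) * m`.
-/
import Mathlib

set_option autoImplicit false
set_option linter.style.haveILetI false
set_option linter.unusedSectionVars false

namespace Fermat.Agent.T8.helper65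

open scoped BigOperators

section Norm

variable {G : Type*} [Group G] {F : Type*} [CommMonoid F]

/-- the data of an action of `G` on `F` by monoid endomorphisms, in unbundled form -/
structure IsActFam (act : G → F → F) : Prop where
  mul : ∀ σ τ u, act (σ * τ) u = act σ (act τ u)
  map_mul : ∀ σ u v, act σ (u * v) = act σ u * act σ v
  map_one : ∀ σ, act σ 1 = 1

variable (act : G → F → F) (I H : Subgroup G) [(H.subgroupOf I).FiniteIndex]

/-- the norm from the `H`-fixed elements to the `I`-fixed elements: product over representatives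
of the left cosets of `H` in `I`. -/
noncomputable def normCoset (u : F) : F :=
  letI : Fintype (I ⧸ H.subgroupOf I) := Subgroup.fintypeQuotientOfFiniteIndex
  ∏ c : I ⧸ H.subgroupOf I, act ((Quotient.out c : I) : G) u

variable {act I H}

theorem act_eq_of_coset (hact : IsActFam act) {u : F} (hu : ∀ h ∈ H, act h u = u)
    {a b : I} (hab : (QuotientGroup.mk a : I ⧸ H.subgroupOf I) = QuotientGroup.mk b) :
    act (a : G) u = act (b : G) u := by
  rw [QuotientGroup.eq] at hab
  have hmem : ((a⁻¹ * b : I) : G) ∈ H := Subgroup.mem_subgroupOf.mp hab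
  have h1 : (b : G) = (a : G) * ((a⁻¹ * b : I) : G) := by
    push_cast
    group
  rw [h1, hact.mul, hu _ hmem]

theorem act_prod (hact : IsActFam act) (σ : G) {ι : Type*} (s : Finset ι) (f : ι → F) :
    act σ (∏ i ∈ s, f i) = ∏ i ∈ s, act σ (f i) := by
  classical
  induction s using Finset.induction_on with
  | empty => simp [hact.map_one]
  | insert a s ha ih => rw [Finset.prod_insert ha, Finset.prod_insert ha, hact.map_mul, ih]

/-- the norm of an `H`-fixed element is `I`-fixed -/
theorem act_normCoset (hact : IsActFam act) {u : F} (hu : ∀ h ∈ H, act h u = u)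
    {τ : G} (hτ : τ ∈ I) : act τ (normCoset act I H u) = normCoset act I H u := by
  classical
  letI : Fintype (I ⧸ H.subgroupOf I) := Subgroup.fintypeQuotientOfFiniteIndex
  unfold normCoset
  rw [act_prod hact]
  let τ' : I := ⟨τ, hτ⟩
  have key : ∀ c : I ⧸ H.subgroupOf I,
      act τ (act ((Quotient.out c : I) : G) u) =
        act ((Quotient.out (τ' • c) : I) : G) u := by
    intro c
    rw [← hact.mul]
    have h1 : (τ : G) * ((Quotient.out c : I) : G) = ((τ' * Quotient.out c : I) : G) := rfl
    rw [h1]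
    apply act_eq_of_coset hact hu
    rw [QuotientGroup.out_eq']
    conv_rhs => rw [← QuotientGroup.out_eq' c]
    rfl
  rw [Finset.prod_congr rfl fun c _ => key c]
  exact Fintype.prod_equiv (MulAction.toPerm τ') _ _ fun c => rfl

/-- an additive `I`-invariant function takes the value `[I : H] * φ u` at the norm -/
theorem map_normCoset {M : Type*} [AddCommMonoid M] (φ : F → M)
    (hφ_mul : ∀ u v, φ (u * v) = φ u + φ v) (hφ_one : φ 1 = 0)
    (hφ_act : ∀ σ ∈ I, ∀ u, φ (act σ u) = φ u) (u : F) :
    φ (normCoset act I H u) = (H.subgroupOf I).index • φ u := by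
  classical
  letI : Fintype (I ⧸ H.subgroupOf I) := Subgroup.fintypeQuotientOfFiniteIndex
  unfold normCoset
  have hprod : ∀ (s : Finset (I ⧸ H.subgroupOf I)) (f : (I ⧸ H.subgroupOf I) → F),
      φ (∏ c ∈ s, f c) = ∑ c ∈ s, φ (f c) := by
    intro s f
    induction s using Finset.induction_on with
    | empty => simp [hφ_one]
    | insert a s ha ih => rw [Finset.prod_insert ha, Finset.sum_insert ha, hφ_mul, ih]
  rw [hprod]
  have h2 : ∀ c : I ⧸ H.subgroupOf I, φ (act ((Quotient.out c : I) : G) u) = φ u :=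
    fun c => hφ_act _ (Quotient.out c : I).2 u
  simp only [h2, Finset.sum_const, Finset.card_univ]
  rw [Subgroup.index_eq_card, Nat.card_eq_fintype_card]

/-- a property stable under products and under `I` holds for the norm -/
theorem prop_normCoset (P : F → Prop) (hP_mul : ∀ u v, P u → P v → P (u * v)) (hP_one : P 1)
    (hP_act : ∀ σ ∈ I, ∀ u, P u → P (act σ u)) {u : F} (hu : P u) :
    P (normCoset act I H u) := by
  classical
  letI : Fintype (I ⧸ H.subgroupOf I) := Subgroup.fintypeQuotientOfFiniteIndex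
  unfold normCoset
  have hprod : ∀ (s : Finset (I ⧸ H.subgroupOf I)) (f : (I ⧸ H.subgroupOf I) → F),
      (∀ c, P (f c)) → P (∏ c ∈ s, f c) := by
    intro s f hf
    induction s using Finset.induction_on with
    | empty => simpa using hP_one
    | insert a s ha ih => rw [Finset.prod_insert ha]; exact hP_mul _ _ (hf a) ih
  exact hprod _ _ fun c => hP_act _ (Quotient.out c : I).2 u hu

/-- **K1-version from the K0-version** (abstract form). -/
theorem k1_of_k0 (hact : IsActFam act) (Loc : F → Prop) (φ δ : F → ℤ) (m : ℤ) (p : ℕ)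
    (hK0 : ∀ u, (∀ σ ∈ I, act σ u = u) → Loc u → (p : ℤ) ∣ φ u - δ u * m)
    (hφ_mul : ∀ u v, φ (u * v) = φ u + φ v) (hφ_one : φ 1 = 0)
    (hφ_act : ∀ σ ∈ I, ∀ u, φ (act σ u) = φ u)
    (hLoc_mul : ∀ u v, Loc u → Loc v → Loc (u * v)) (hLoc_one : Loc 1)
    (hLoc_act : ∀ σ ∈ I, ∀ u, Loc u → Loc (act σ u))
    {u : F} (hu : ∀ h ∈ H, act h u = u) (hLu : Loc u) :
    (p : ℤ) ∣ ((H.subgroupOf I).index : ℤ) * φ u - δ (normCoset act I H u) * m := by
  have h1 := hK0 (normCoset act I H u) (fun σ hσ => act_normCoset hact hu hσ)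
    (prop_normCoset Loc hLoc_mul hLoc_one hLoc_act hLu)
  rw [map_normCoset φ hφ_mul hφ_one hφ_act] at h1
  simpa using h1

/-- **K1-version from the K0-version**, index `p - 1`. -/
theorem k1_of_k0' (hact : IsActFam act) (Loc : F → Prop) (φ δ : F → ℤ) (m : ℤ) (p : ℕ)
    (hp : 0 < p) (hidx : (H.subgroupOf I).index = p - 1)
    (hK0 : ∀ u, (∀ σ ∈ I, act σ u = u) → Loc u → (p : ℤ) ∣ φ u - δ u * m)
    (hφ_mul : ∀ u v, φ (u * v) = φ u + φ v) (hφ_one : φ 1 = 0)
    (hφ_act : ∀ σ ∈ I, ∀ u, φ (act σ u) = φ u)
    (hLoc_mul : ∀ u v, Loc u → Loc v → Loc (u * v)) (hLoc_one : Loc 1)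
    (hLoc_act : ∀ σ ∈ I, ∀ u, Loc u → Loc (act σ u))
    {u : F} (hu : ∀ h ∈ H, act h u = u) (hLu : Loc u) :
    (p : ℤ) ∣ φ u + δ (normCoset act I H u) * m := by
  have h1 := k1_of_k0 hact Loc φ δ m p hK0 hφ_mul hφ_one hφ_act hLoc_mul hLoc_one hLoc_act hu hLu
  rw [hidx, Nat.cast_sub hp] at h1
  obtain ⟨k, hk⟩ := h1
  refine ⟨φ u - k, ?_⟩
  push_cast at hk
  linear_combination -hk

end Norm

end Fermat.Agent.T8.helper65
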