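/-
T8 [SLOPE], K1-VERSION BY NORM, instance layer (helper65).

`I = A.inertiaSubgroupIn ℚ`, `H ≤ Gal(ℚ̄/ℚ)` any subgroup with `H ∩ I` of finite index in `I`
(in the application `H` = the subgroup fixing `μ_p`, index `p - 1`).  The norm
`N u = ∏_{c ∈ I / (H ∩ I)} σ_c u` (coefficientwise action) of an `H ∩ I`-fixed function is
`I`-fixed, and scaling, reductions and divisibility of the divisor pass to the norm:

* `HasRed Good c f r` : `f = c * Y₁ / Y₂` with `Good` integral series `Y₁, Y₂` and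
  `r = red Y₁ / red Y₂` (generic in the class `Good`, so that the same lemmas serve `X` and the
  cover `X'`; `goodClass_isGood` is the instance `Good = IsGood A M`);
* `hasRed_normCoset` : `HasRed c f r → HasRed (N c) (N f) (r ^ [I : H ∩ I])`;
* `normCoset_const_div_mem`, `normCoset_const_div_mem'` : `N c / c ^ d` is a unit of `A`;
* `galF_normF` : the norm of an `H ∩ I`-fixed `u ∈ FF M` is fixed by `I`;
* `coe_normF`, `map_normF` (compatibility with an involution `W` commuting with the Galois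
  action), `dvd_ord_normF` (divisibility of the divisor).
-/
import Mathlib
import Fermat.Agent.T2.helper20_Kum
import Fermat.Agent.T2.helper22_PairIdeal
import Fermat.Agent.T8.helper65_NormK1

set_option autoImplicit false
set_option linter.unusedSectionVars false
set_option linter.style.haveILetI false

noncomputable section

namespace Fermat.Agent.T8.helper65

open HahnSeries IntermediateField AlgebraicCurve ModularCurve
open Fermat.Agent.S18.helper19 Fermat.Agent.P2.helper29 Fermat.Agent.P2.helper93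
open Fermat.Agent.T2 Fermat.Agent.T2.helper20 Fermat.Agent.T2.helper22

/-! ### The three actions -/

/-- the coefficientwise action on Laurent series -/
def cwAct (σ : Kb ≃ₐ[ℚ] Kb) (f : LaurentSeries Kb) : LaurentSeries Kb :=
  coeffMap (σ : Kb →+* Kb) f

/-- the action on the constants -/
def cAct (σ : Kb ≃ₐ[ℚ] Kb) (c : Kb) : Kb := σ c

/-- the action on the function field -/
def fAct (M : ℕ) (σ : Kb ≃ₐ[ℚ] Kb) (u : FF M) : FF M := galF M σ u

theorem isActFam_cwAct : IsActFam (G := Kb ≃ₐ[ℚ] Kb) cwAct where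
  mul σ τ u := by
    unfold cwAct
    rw [coeffMap_coeffMap]
    exact coeffMap_congr (RingHom.ext fun a => rfl) u
  map_mul σ u v := map_mul _ u v
  map_one σ := map_one _

theorem isActFam_cAct : IsActFam (G := Kb ≃ₐ[ℚ] Kb) cAct where
  mul σ τ u := rfl
  map_mul σ u v := map_mul σ u v
  map_one σ := map_one σ

theorem coe_fAct (M : ℕ) (σ : Kb ≃ₐ[ℚ] Kb) (u : FF M) :
    ((fAct M σ u : FF M) : LaurentSeries Kb) = cwAct σ (u : LaurentSeries Kb) := rfl

theorem isActFam_fAct (M : ℕ) : IsActFam (G := Kb ≃ₐ[ℚ] Kb) (fAct M) where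
  mul σ τ u := by
    apply Subtype.ext
    rw [coe_fAct, coe_fAct, coe_fAct]
    exact isActFam_cwAct.mul σ τ _
  map_mul σ u v := map_mul (galF M σ) u v
  map_one σ := map_one (galF M σ)

theorem cwAct_algebraMap (σ : Kb ≃ₐ[ℚ] Kb) (c : Kb) :
    cwAct σ (algebraMap Kb (LaurentSeries Kb) c) = algebraMap Kb (LaurentSeries Kb) (cAct σ c) := by
  unfold cwAct cAct
  rw [algebraMap_laurentSeries_eq_single, algebraMap_laurentSeries_eq_single, coeffMap_single]
  rfl

/-! ### Good classes and scaled reductions -/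

variable {A : ValuationSubring Kb}

/-- a class of integral series closed under products and under the coefficientwise action of
the inertia group. -/
structure GoodClass (A : ValuationSubring Kb) (Good : LaurentSeries A → Prop) : Prop where
  one : Good 1
  mul : ∀ {Y Z : LaurentSeries A}, Good Y → Good Z → Good (Y * Z)
  act : ∀ {σ : Kb ≃ₐ[ℚ] Kb} (_ : σ ∈ A.inertiaSubgroupIn ℚ)
    (hσ' : σ ∈ A.decompositionSubgroup ℚ) {Y : LaurentSeries A}, Good Y → Good (actA σ hσ' Y)

theorem goodClass_isGood (M : ℕ) : GoodClass A (IsGood A M) where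
  one := isGood_one
  mul h h' := h.mul h'
  act _ hσ' _ h := isGood_actA hσ' h

/-- `f = c * Y₁ / Y₂` with good integral series `Y₁`, `Y₂`, and `r = red Y₁ / red Y₂`. -/
def HasRed (Good : LaurentSeries A → Prop) (c : Kb) (f : LaurentSeries Kb)
    (r : LaurentSeries (kA A)) : Prop :=
  ∃ Y₁ Y₂ : LaurentSeries A, Good Y₁ ∧ Good Y₂ ∧
    algebraMap Kb (LaurentSeries Kb) c * incl A Y₁ = f * incl A Y₂ ∧ r * red A Y₂ = red A Y₁

variable {Good : LaurentSeries A → Prop}

theorem hasRed_one (hG : GoodClass A Good) : HasRed Good 1 1 (1 : LaurentSeries (kA A)) :=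
  ⟨1, 1, hG.one, hG.one, by simp, by simp⟩

theorem HasRed.mul (hG : GoodClass A Good) {c c' : Kb} {f f' : LaurentSeries Kb}
    {r r' : LaurentSeries (kA A)} (h : HasRed Good c f r) (h' : HasRed Good c' f' r') :
    HasRed Good (c * c') (f * f') (r * r') := by
  obtain ⟨Y₁, Y₂, g₁, g₂, e, er⟩ := h
  obtain ⟨Z₁, Z₂, k₁, k₂, e', er'⟩ := h'
  refine ⟨Y₁ * Z₁, Y₂ * Z₂, hG.mul g₁ k₁, hG.mul g₂ k₂, ?_, ?_⟩
  · rw [map_mul, map_mul, map_mul]
    linear_combination (algebraMap Kb (LaurentSeries Kb) c' * incl A Z₁) * e +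
      (f * incl A Y₂) * e'
  · rw [map_mul, map_mul]
    linear_combination (r' * red A Z₂) * er + (red A Y₁) * er'

theorem HasRed.act (hG : GoodClass A Good) {c : Kb} {f : LaurentSeries Kb}
    {r : LaurentSeries (kA A)} (h : HasRed Good c f r)
    {σ : Kb ≃ₐ[ℚ] Kb} (hσ : σ ∈ A.inertiaSubgroupIn ℚ) :
    HasRed Good (cAct σ c) (cwAct σ f) r := by
  obtain ⟨Y₁, Y₂, g₁, g₂, e, er⟩ := h
  obtain ⟨hσ', -⟩ := decK_eq_id_of_mem_inertia hσ
  refine ⟨actA σ hσ' Y₁, actA σ hσ' Y₂, hG.act hσ hσ' g₁, hG.act hσ hσ' g₂, ?_, ?_⟩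
  · have h1 := congrArg (cwAct σ) e
    rw [isActFam_cwAct.map_mul, isActFam_cwAct.map_mul, cwAct_algebraMap] at h1
    have e1 : incl A (actA σ hσ' Y₁) = cwAct σ (incl A Y₁) := coeffMap_subtype_actA σ hσ' Y₁
    have e2 : incl A (actA σ hσ' Y₂) = cwAct σ (incl A Y₂) := coeffMap_subtype_actA σ hσ' Y₂
    rw [e1, e2]
    exact h1
  · rw [red_actA_of_mem_inertia hσ hσ', red_actA_of_mem_inertia hσ hσ']
    exact er

theorem HasRed.prod (hG : GoodClass A Good) {ι : Type*} (s : Finset ι) (c : ι → Kb)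
    (f : ι → LaurentSeries Kb) (r : ι → LaurentSeries (kA A))
    (h : ∀ i ∈ s, HasRed Good (c i) (f i) (r i)) :
    HasRed Good (∏ i ∈ s, c i) (∏ i ∈ s, f i) (∏ i ∈ s, r i) := by
  classical
  induction s using Finset.induction_on with
  | empty => simpa using hasRed_one hG
  | insert a s ha ih =>
    rw [Finset.prod_insert ha, Finset.prod_insert ha, Finset.prod_insert ha]
    exact (h a (Finset.mem_insert_self a s)).mul hG
      (ih fun i hi => h i (Finset.mem_insert_of_mem hi))

/-! ### The norm -/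

section NormInst

variable (A) (H : Subgroup (Kb ≃ₐ[ℚ] Kb))
  [((H ⊓ A.inertiaSubgroupIn ℚ).subgroupOf (A.inertiaSubgroupIn ℚ)).FiniteIndex]

/-- the inertia group -/
abbrev IA : Subgroup (Kb ≃ₐ[ℚ] Kb) := A.inertiaSubgroupIn ℚ

/-- the index `[I : H ∩ I]` -/
def idx : ℕ := ((H ⊓ IA A).subgroupOf (IA A)).index

/-- the norm on Laurent series -/
def normL (f : LaurentSeries Kb) : LaurentSeries Kb := normCoset cwAct (IA A) (H ⊓ IA A) f

/-- the norm on constants -/
def normC (c : Kb) : Kb := normCoset cAct (IA A) (H ⊓ IA A) c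

/-- the norm on the function field -/
def normF (M : ℕ) (u : FF M) : FF M := normCoset (fAct M) (IA A) (H ⊓ IA A) u

variable {A H}

/-- scaling and reduction of the norm -/
theorem hasRed_normCoset (hG : GoodClass A Good) {c : Kb} {f : LaurentSeries Kb}
    {r : LaurentSeries (kA A)} (h : HasRed Good c f r) :
    HasRed Good (normC A H c) (normL A H f) (r ^ idx A H) := by
  classical
  letI : Fintype (IA A ⧸ (H ⊓ IA A).subgroupOf (IA A)) := Subgroup.fintypeQuotientOfFiniteIndex
  have h1 := HasRed.prod hG (Finset.univ : Finset (IA A ⧸ (H ⊓ IA A).subgroupOf (IA A)))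
    (fun q => cAct ((Quotient.out q : IA A) : Kb ≃ₐ[ℚ] Kb) c)
    (fun q => cwAct ((Quotient.out q : IA A) : Kb ≃ₐ[ℚ] Kb) f) (fun _ => r)
    (fun q _ => h.act hG (Quotient.out q : IA A).2)
  have h2 : (∏ _q : IA A ⧸ (H ⊓ IA A).subgroupOf (IA A), r) = r ^ idx A H := by
    rw [Finset.prod_const, Finset.card_univ, idx, Subgroup.index_eq_card,
      Nat.card_eq_fintype_card]
  rw [h2] at h1
  exact h1

/-- `N c / c ^ d ∈ A` -/
theorem normCoset_const_div_mem {c : Kb} (hc : c ≠ 0) : normC A H c / c ^ idx A H ∈ A := by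
  classical
  letI : Fintype (IA A ⧸ (H ⊓ IA A).subgroupOf (IA A)) := Subgroup.fintypeQuotientOfFiniteIndex
  have h1 : normC A H c / c ^ idx A H =
      ∏ q : IA A ⧸ (H ⊓ IA A).subgroupOf (IA A),
        (cAct ((Quotient.out q : IA A) : Kb ≃ₐ[ℚ] Kb) c / c) := by
    rw [Finset.prod_div_distrib, Finset.prod_const, Finset.card_univ, idx,
      Subgroup.index_eq_card, Nat.card_eq_fintype_card]
    rfl
  rw [h1]
  refine Subring.prod_mem A.toSubring fun q _ => ?_
  obtain ⟨hσ', -⟩ := decK_eq_id_of_mem_inertia (Quotient.out q : IA A).2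
  exact div_mem_of_mem_decomp hσ' c hc

/-- `c ^ d / N c ∈ A` -/
theorem normCoset_const_div_mem' {c : Kb} (hc : c ≠ 0) : c ^ idx A H / normC A H c ∈ A := by
  classical
  letI : Fintype (IA A ⧸ (H ⊓ IA A).subgroupOf (IA A)) := Subgroup.fintypeQuotientOfFiniteIndex
  have h1 : c ^ idx A H / normC A H c =
      ∏ q : IA A ⧸ (H ⊓ IA A).subgroupOf (IA A),
        (c / cAct ((Quotient.out q : IA A) : Kb ≃ₐ[ℚ] Kb) c) := by
    rw [Finset.prod_div_distrib, Finset.prod_const, Finset.card_univ, idx,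
      Subgroup.index_eq_card, Nat.card_eq_fintype_card]
    rfl
  rw [h1]
  refine Subring.prod_mem A.toSubring fun q _ => ?_
  obtain ⟨hσ', -⟩ := decK_eq_id_of_mem_inertia (Quotient.out q : IA A).2
  exact div_mem_of_mem_decomp' hσ' c hc

/-- the norm of a constant is fixed by the inertia group if the constant is fixed by `H ∩ I` -/
theorem cAct_normC {c : Kb} (hc : ∀ σ ∈ H ⊓ IA A, σ c = c) {τ : Kb ≃ₐ[ℚ] Kb} (hτ : τ ∈ IA A) :
    τ (normC A H c) = normC A H c :=
  act_normCoset isActFam_cAct hc hτ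

variable {M : ℕ}

/-- **the norm of an `H ∩ I`-fixed function is `I`-fixed** -/
theorem galF_normF {u : FF M} (hu : ∀ σ ∈ H ⊓ IA A, galF M σ u = u)
    {τ : Kb ≃ₐ[ℚ] Kb} (hτ : τ ∈ IA A) : galF M τ (normF A H M u) = normF A H M u :=
  act_normCoset (isActFam_fAct M) hu hτ

/-- the expansion of the norm is the norm of the expansion -/
theorem coe_normF (u : FF M) :
    ((normF A H M u : FF M) : LaurentSeries Kb) = normL A H (u : LaurentSeries Kb) := by
  classical
  letI : Fintype (IA A ⧸ (H ⊓ IA A).subgroupOf (IA A)) := Subgroup.fintypeQuotientOfFiniteIndex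
  unfold normF normL normCoset
  have h := map_prod (FF M).val.toRingHom
    (fun q : IA A ⧸ (H ⊓ IA A).subgroupOf (IA A) =>
      fAct M ((Quotient.out q : IA A) : Kb ≃ₐ[ℚ] Kb) u) Finset.univ
  exact h

/-- the norm commutes with every ring endomorphism commuting with the Galois action -/
theorem map_normF (W : FF M →+* FF M)
    (hW : ∀ (σ : Kb ≃ₐ[ℚ] Kb) (x : FF M), W (galF M σ x) = galF M σ (W x)) (u : FF M) :
    W (normF A H M u) = normF A H M (W u) := by
  classical
  letI : Fintype (IA A ⧸ (H ⊓ IA A).subgroupOf (IA A)) := Subgroup.fintypeQuotientOfFiniteIndex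
  unfold normF normCoset
  rw [map_prod]
  exact Finset.prod_congr rfl fun q _ => hW _ u

theorem normF_ne_zero {u : FF M} (hu : u ≠ 0) : normF A H M u ≠ 0 := by
  classical
  letI : Fintype (IA A ⧸ (H ⊓ IA A).subgroupOf (IA A)) := Subgroup.fintypeQuotientOfFiniteIndex
  unfold normF normCoset
  rw [Finset.prod_ne_zero_iff]
  intro q _
  exact (map_ne_zero_iff _ (galF M _).injective).mpr hu

/-- divisibility of the divisor passes to the norm -/
theorem dvd_ord_normF [NeZero M] {n : ℕ} {u : FF M} (hu : u ≠ 0)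
    (h : ∀ P : Place Kb (FF M), (n : ℤ) ∣ P.ord u) (P : Place Kb (FF M)) :
    (n : ℤ) ∣ P.ord (normF A H M u) := by
  classical
  letI : Fintype (IA A ⧸ (H ⊓ IA A).subgroupOf (IA A)) := Subgroup.fintypeQuotientOfFiniteIndex
  unfold normF normCoset
  have key : ∀ s : Finset (IA A ⧸ (H ⊓ IA A).subgroupOf (IA A)),
      (∏ q ∈ s, fAct M ((Quotient.out q : IA A) : Kb ≃ₐ[ℚ] Kb) u) ≠ 0 ∧
      (n : ℤ) ∣ P.ord (∏ q ∈ s, fAct M ((Quotient.out q : IA A) : Kb ≃ₐ[ℚ] Kb) u) := by
    intro s
    induction s using Finset.induction_on with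
    | empty =>
      refine ⟨by simp, ?_⟩
      rw [Finset.prod_empty, Place.ord_one]
      exact dvd_zero _
    | insert a s ha ih =>
      have hne : fAct M ((Quotient.out a : IA A) : Kb ≃ₐ[ℚ] Kb) u ≠ 0 :=
        (map_ne_zero_iff _ (galF M _).injective).mpr hu
      rw [Finset.prod_insert ha]
      refine ⟨mul_ne_zero hne ih.1, ?_⟩
      rw [P.ord_mul hne ih.1]
      refine dvd_add ?_ ih.2
      rw [show fAct M ((Quotient.out a : IA A) : Kb ≃ₐ[ℚ] Kb) u = galF M _ u from rfl, ord_galF]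
      exact h _
  exact (key Finset.univ).2

end NormInst

end Fermat.Agent.T8.helper65

end
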