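/-
T8 [SLOPE], K1-VERSION BY NORM (helper65): the index `[I_A : I_A ∩ Fix(μ_p)] = p - 1`.

* `muFix p` : the subgroup of `Gal(ℚ̄/ℚ)` fixing the `p`-th roots of unity (`I_K1 = muFix p ⊓ I_A`);
* `index_muFix` : for `A` over `p` the index of `I_K1` in `I_A` is `p - 1` (the mod `p`
  cyclotomic character is onto on inertia: `T7.helper84.exists_mem_inertia_zeta_pow`);
* `finiteIndex_muFix` : the instance needed by `normF`, `normL`, `normC`.
-/
import Mathlib
import Fermat.Agent.T7.helper84_InertiaZeta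
import Fermat.Agent.T8.helper65_NormInst

set_option autoImplicit false
set_option linter.unusedSectionVars false
set_option linter.style.haveILetI false

noncomputable section

namespace Fermat.Agent.T8.helper65

open Fermat.Agent.S18.helper19

/-- the subgroup of `Gal(ℚ̄/ℚ)` fixing the `p`-th roots of unity -/
def muFix (p : ℕ) : Subgroup (Kb ≃ₐ[ℚ] Kb) where
  carrier := {σ | ∀ μ : Kb, μ ^ p = 1 → σ μ = μ}
  one_mem' := fun _ _ => rfl
  mul_mem' := by
    intro σ τ hσ hτ μ hμ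
    show σ (τ μ) = μ
    rw [hτ μ hμ, hσ μ hμ]
  inv_mem' := by
    intro σ hσ μ hμ
    have h := hσ μ hμ
    calc σ⁻¹ μ = σ⁻¹ (σ μ) := by rw [h]
      _ = μ := σ.symm_apply_apply μ

theorem mem_muFix {p : ℕ} {σ : Kb ≃ₐ[ℚ] Kb} :
    σ ∈ muFix p ↔ ∀ μ : Kb, μ ^ p = 1 → σ μ = μ := Iff.rfl

variable {p : ℕ} [Fact p.Prime]

theorem exists_primitiveRoot_Kb : ∃ ζ : Kb, IsPrimitiveRoot ζ p := by
  haveI : NeZero p := ⟨(Fact.out : p.Prime).ne_zero⟩
  haveI : NeZero ((p : ℕ) : Kb) := ⟨by exact_mod_cast (Fact.out : p.Prime).ne_zero⟩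
  exact HasEnoughRootsOfUnity.exists_primitiveRoot Kb p

theorem mem_muFix_iff {ζ : Kb} (hζ : IsPrimitiveRoot ζ p) {σ : Kb ≃ₐ[ℚ] Kb} :
    σ ∈ muFix p ↔ σ ζ = ζ := by
  haveI : NeZero p := ⟨(Fact.out : p.Prime).ne_zero⟩
  constructor
  · intro h
    exact h ζ hζ.pow_eq_one
  · intro h μ hμ
    obtain ⟨i, -, rfl⟩ := hζ.eq_pow_of_pow_eq_one hμ
    rw [map_pow, h]

/-- **the index of `I_K1` in `I_A` is `p - 1`** -/
theorem index_muFix (A : ValuationSubring Kb) (hA : A.LiesOverPrime p) :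
    ((muFix p ⊓ IA A).subgroupOf (IA A)).index = p - 1 := by
  have hp : p.Prime := Fact.out
  haveI : NeZero p := ⟨hp.ne_zero⟩
  obtain ⟨ζ, hζ⟩ := exists_primitiveRoot_Kb (p := p)
  let χ : (Kb ≃ₐ[ℚ] Kb) →* (ZMod p)ˣ := hζ.autToPow ℚ
  let f : IA A →* (ZMod p)ˣ := χ.comp (IA A).subtype
  have hker : f.ker = (muFix p ⊓ IA A).subgroupOf (IA A) := by
    ext σ
    rw [MonoidHom.mem_ker, Subgroup.mem_subgroupOf, Subgroup.mem_inf]
    have hspec : ζ ^ ((χ (σ : Kb ≃ₐ[ℚ] Kb) : (ZMod p)ˣ) : ZMod p).val = (σ : Kb ≃ₐ[ℚ] Kb) ζ :=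
      hζ.autToPow_spec ℚ (σ : Kb ≃ₐ[ℚ] Kb)
    constructor
    · intro h
      refine ⟨(mem_muFix_iff hζ).mpr ?_, σ.2⟩
      have h1 : χ (σ : Kb ≃ₐ[ℚ] Kb) = 1 := h
      rw [h1] at hspec
      rw [← hspec]
      have hp1 : 1 < p := hp.one_lt
      haveI : Fact (1 < p) := ⟨hp1⟩
      rw [Units.val_one, ZMod.val_one, pow_one]
    · rintro ⟨h, -⟩
      have h1 : (σ : Kb ≃ₐ[ℚ] Kb) ζ = ζ := (mem_muFix_iff hζ).mp h
      rw [h1] at hspec
      have h2 : ((χ (σ : Kb ≃ₐ[ℚ] Kb) : (ZMod p)ˣ) : ZMod p).val = 1 := by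
        have hp1 : 1 < p := hp.one_lt
        have h3 := hζ.pow_inj (ZMod.val_lt _) hp1 (hspec.trans (pow_one ζ).symm)
        exact h3
      show χ (σ : Kb ≃ₐ[ℚ] Kb) = 1
      apply Units.ext
      have hp1 : 1 < p := hp.one_lt
      haveI : Fact (1 < p) := ⟨hp1⟩
      rw [Units.val_one, ← ZMod.natCast_zmod_val ((χ (σ : Kb ≃ₐ[ℚ] Kb) : (ZMod p)ˣ) : ZMod p), h2,
        Nat.cast_one]
  have hsurj : Function.Surjective f := by
    intro a
    have hcop : ((a : ZMod p).val).Coprime p := by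
      rw [Nat.coprime_comm, hp.coprime_iff_not_dvd]
      intro hd
      have h0 : ((a : ZMod p).val : ZMod p) = 0 := (ZMod.natCast_eq_zero_iff _ _).mpr hd
      rw [ZMod.natCast_zmod_val] at h0
      exact a.ne_zero h0
    obtain ⟨σ, hσ, hσζ⟩ :=
      Fermat.Agent.T7.helper84.exists_mem_inertia_zeta_pow A hA hζ hcop
    refine ⟨⟨σ, hσ⟩, ?_⟩
    have hspec : ζ ^ ((χ σ : (ZMod p)ˣ) : ZMod p).val = σ ζ := hζ.autToPow_spec ℚ σ
    rw [hσζ] at hspec
    have h3 := hζ.pow_inj (ZMod.val_lt _) (ZMod.val_lt _) hspec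
    apply Units.ext
    show ((χ σ : (ZMod p)ˣ) : ZMod p) = (a : ZMod p)
    exact ZMod.val_injective p h3
  rw [← hker, Subgroup.index_ker, MonoidHom.range_eq_top.mpr hsurj]
  rw [Nat.card_congr (Subgroup.topEquiv (G := (ZMod p)ˣ)).toEquiv, Nat.card_eq_fintype_card,
    ZMod.card_units_eq_totient, Nat.totient_prime hp]

/-- the instance needed by the norm -/
theorem finiteIndex_muFix (A : ValuationSubring Kb) (hA : A.LiesOverPrime p) :
    ((muFix p ⊓ IA A).subgroupOf (IA A)).FiniteIndex := by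
  have hp : p.Prime := Fact.out
  refine ⟨?_⟩
  rw [index_muFix A hA]
  have := hp.two_le
  omega

theorem idx_muFix (A : ValuationSubring Kb) (hA : A.LiesOverPrime p) :
    haveI := finiteIndex_muFix (p := p) A hA
    idx A (muFix p) = p - 1 :=
  index_muFix A hA

end Fermat.Agent.T8.helper65

end
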