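/-
T8 [SLOPE], K1-VERSION BY NORM on `X` (helper65): `k1CorAt_of_k0CorAt`.

Contract shapes (generic in the class `Good` of integral series and in the order function `ordQ`
at a closed point `Q` of the special fibre; `m = ord_Q red1(b0)`):

* `K0CorAt M W A p Good ordQ m` : **K0-COROLLARY** at `Q`.  For every `I`-fixed `u ≠ 0` with
  `p ∣ div u`, scalings `u = c₁ * good / good` (reduction `r₁`), `W u = c₂ * good / good`
  (reduction `r₂`) and `k : ℤ` with `c₂ / c₁ = p ^ k * unit`:  `p ∣ ordQ r₁ - k * m`.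
  (`k = (w₂ - w₁)(u)`; this is `ord_Q red1(u p^(-w₁ u)) = (w₂ - w₁)(u) m_Q mod p`.)
* `K1CorAt M W A p Good ordQ m` : **K1-VERSION**.  For every `u ≠ 0` fixed by
  `I_K1 = muFix p ⊓ I_A` with `p ∣ div u`, scalings as above and `k : ℤ` with
  `(c₂ / c₁) ^ (p - 1) = p ^ k * unit`:  `p ∣ ordQ r₁ + k * m`.
  (`k = (p - 1)(w₂ - w₁)(u)`; this is `ord_Q red1(u) = - ((p - 1)(w₂ - w₁)(u)) m_Q mod p`.)
* `k1CorAt_of_k0CorAt` : K0 ⟹ K1, by the norm `N u = ∏_{I / I_K1} σ u`.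
-/
import Mathlib
import Fermat.Agent.T8.helper65_NormIdx

set_option autoImplicit false
set_option linter.unusedSectionVars false
set_option linter.style.haveILetI false

noncomputable section

namespace Fermat.Agent.T8.helper65

open HahnSeries IntermediateField AlgebraicCurve ModularCurve
open Fermat.Agent.S18.helper19 Fermat.Agent.P2.helper29 Fermat.Agent.P2.helper93

/-- `r` is a quotient of reductions of good series -/
def IsRedQuot {A : ValuationSubring Kb} (Good : LaurentSeries A → Prop)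
    (r : LaurentSeries (kA A)) : Prop :=
  ∃ Y₁ Y₂ : LaurentSeries A, Good Y₁ ∧ Good Y₂ ∧ r * red A Y₂ = red A Y₁

theorem HasRed.isRedQuot {A : ValuationSubring Kb} {Good : LaurentSeries A → Prop} {c : Kb}
    {f : LaurentSeries Kb} {r : LaurentSeries (kA A)} (h : HasRed Good c f r) :
    IsRedQuot Good r := by
  obtain ⟨Y₁, Y₂, g₁, g₂, -, er⟩ := h
  exact ⟨Y₁, Y₂, g₁, g₂, er⟩

/-- **K0-COROLLARY** at one closed point (contract shape). -/
def K0CorAt (M : ℕ) (W : FF M →+* FF M) (A : ValuationSubring Kb) (p : ℕ)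
    (Good : LaurentSeries A → Prop) (ordQ : LaurentSeries (kA A) → ℤ) (m : ℤ) : Prop :=
  ∀ u : FF M, u ≠ 0 → (∀ σ ∈ IA A, galF M σ u = u) →
    (∀ P : Place Kb (FF M), (p : ℤ) ∣ P.ord u) →
    ∀ (c₁ c₂ : Kb) (r₁ r₂ : LaurentSeries (kA A)) (k : ℤ), c₁ ≠ 0 → c₂ ≠ 0 →
      HasRed Good c₁ (u : LaurentSeries Kb) r₁ →
      HasRed Good c₂ ((W u : FF M) : LaurentSeries Kb) r₂ →
      c₂ / (c₁ * (p : Kb) ^ k) ∈ A → (c₁ * (p : Kb) ^ k) / c₂ ∈ A →
      (p : ℤ) ∣ ordQ r₁ - k * m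

/-- **K1-VERSION** at one closed point (contract shape). -/
def K1CorAt (M : ℕ) (W : FF M →+* FF M) (A : ValuationSubring Kb) (p : ℕ)
    (Good : LaurentSeries A → Prop) (ordQ : LaurentSeries (kA A) → ℤ) (m : ℤ) : Prop :=
  ∀ u : FF M, u ≠ 0 → (∀ σ ∈ muFix p ⊓ IA A, galF M σ u = u) →
    (∀ P : Place Kb (FF M), (p : ℤ) ∣ P.ord u) →
    ∀ (c₁ c₂ : Kb) (r₁ r₂ : LaurentSeries (kA A)) (k : ℤ), c₁ ≠ 0 → c₂ ≠ 0 →
      HasRed Good c₁ (u : LaurentSeries Kb) r₁ →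
      HasRed Good c₂ ((W u : FF M) : LaurentSeries Kb) r₂ →
      (c₂ / c₁) ^ (p - 1) / (p : Kb) ^ k ∈ A → (p : Kb) ^ k / (c₂ / c₁) ^ (p - 1) ∈ A →
      (p : ℤ) ∣ ordQ r₁ + k * m

variable {M : ℕ} [NeZero M] {A : ValuationSubring Kb} {p : ℕ} [Fact p.Prime]
  {Good : LaurentSeries A → Prop}

/-- **K0 ⟹ K1** by the norm from `K1` to `K0`. -/
theorem k1CorAt_of_k0CorAt (hA : A.LiesOverPrime p) (hG : GoodClass A Good)
    (W : FF M →+* FF M)
    (hWgal : ∀ (σ : Kb ≃ₐ[ℚ] Kb) (x : FF M), W (galF M σ x) = galF M σ (W x))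
    (ordQ : LaurentSeries (kA A) → ℤ) (m : ℤ)
    (hord : ∀ (r : LaurentSeries (kA A)) (n : ℕ), IsRedQuot Good r →
      ordQ (r ^ n) = n * ordQ r)
    (h0 : K0CorAt M W A p Good ordQ m) : K1CorAt M W A p Good ordQ m := by
  have hp : p.Prime := Fact.out
  haveI := finiteIndex_muFix (p := p) A hA
  have hidx : idx A (muFix p) = p - 1 := idx_muFix A hA
  intro u hu hfix hdiv c₁ c₂ r₁ r₂ k hc₁ hc₂ hr₁ hr₂ hk hk'
  -- the norm
  have hU0 : normF A (muFix p) M u ≠ 0 := normF_ne_zero hu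
  have hUfix : ∀ σ ∈ IA A, galF M σ (normF A (muFix p) M u) = normF A (muFix p) M u :=
    fun σ hσ => galF_normF hfix hσ
  have hUdiv : ∀ P : Place Kb (FF M), (p : ℤ) ∣ P.ord (normF A (muFix p) M u) :=
    dvd_ord_normF hu hdiv
  have hR₁ : HasRed Good (normC A (muFix p) c₁)
      ((normF A (muFix p) M u : FF M) : LaurentSeries Kb) (r₁ ^ (p - 1)) := by
    rw [coe_normF, ← hidx]
    exact hasRed_normCoset hG hr₁
  have hR₂ : HasRed Good (normC A (muFix p) c₂)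
      ((W (normF A (muFix p) M u) : FF M) : LaurentSeries Kb) (r₂ ^ (p - 1)) := by
    rw [map_normF W hWgal, coe_normF, ← hidx]
    exact hasRed_normCoset hG hr₂
  -- the constants
  have hN₁ : normC A (muFix p) c₁ ≠ 0 := by
    classical
    letI : Fintype (IA A ⧸ (muFix p ⊓ IA A).subgroupOf (IA A)) :=
      Subgroup.fintypeQuotientOfFiniteIndex
    unfold normC normCoset
    rw [Finset.prod_ne_zero_iff]
    intro q _
    exact (map_ne_zero _).mpr hc₁
  have hN₂ : normC A (muFix p) c₂ ≠ 0 := by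
    classical
    letI : Fintype (IA A ⧸ (muFix p ⊓ IA A).subgroupOf (IA A)) :=
      Subgroup.fintypeQuotientOfFiniteIndex
    unfold normC normCoset
    rw [Finset.prod_ne_zero_iff]
    intro q _
    exact (map_ne_zero _).mpr hc₂
  have hpk : ((p : Kb) ^ k) ≠ 0 := zpow_ne_zero _ (by exact_mod_cast hp.ne_zero)
  have hd₁ : c₁ ^ (p - 1) ≠ 0 := pow_ne_zero _ hc₁
  have hd₂ : c₂ ^ (p - 1) ≠ 0 := pow_ne_zero _ hc₂
  have ha₁ := normCoset_const_div_mem (A := A) (H := muFix p) hc₁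
  have ha₁' := normCoset_const_div_mem' (A := A) (H := muFix p) hc₁
  have ha₂ := normCoset_const_div_mem (A := A) (H := muFix p) hc₂
  have ha₂' := normCoset_const_div_mem' (A := A) (H := muFix p) hc₂
  rw [hidx] at ha₁ ha₁' ha₂ ha₂'
  have hK : normC A (muFix p) c₂ / (normC A (muFix p) c₁ * (p : Kb) ^ k) ∈ A := by
    have e : normC A (muFix p) c₂ / (normC A (muFix p) c₁ * (p : Kb) ^ k) =
        (normC A (muFix p) c₂ / c₂ ^ (p - 1)) * (c₁ ^ (p - 1) / normC A (muFix p) c₁) *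
          ((c₂ / c₁) ^ (p - 1) / (p : Kb) ^ k) := by
      rw [div_pow]
      field_simp
    rw [e]
    exact A.mul_mem _ _ (A.mul_mem _ _ ha₂ ha₁') hk
  have hK' : (normC A (muFix p) c₁ * (p : Kb) ^ k) / normC A (muFix p) c₂ ∈ A := by
    have e : (normC A (muFix p) c₁ * (p : Kb) ^ k) / normC A (muFix p) c₂ =
        (normC A (muFix p) c₁ / c₁ ^ (p - 1)) * (c₂ ^ (p - 1) / normC A (muFix p) c₂) *
          ((p : Kb) ^ k / (c₂ / c₁) ^ (p - 1)) := by
      rw [div_pow]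
      field_simp
    rw [e]
    exact A.mul_mem _ _ (A.mul_mem _ _ ha₁ ha₂') hk'
  have key := h0 (normF A (muFix p) M u) hU0 hUfix hUdiv _ _ _ _ k hN₁ hN₂ hR₁ hR₂ hK hK'
  rw [hord r₁ (p - 1) hr₁.isRedQuot, Nat.cast_sub hp.one_lt.le] at key
  obtain ⟨t, ht⟩ := key
  refine ⟨ordQ r₁ - t, ?_⟩
  push_cast at ht
  linear_combination -ht

end Fermat.Agent.T8.helper65

end
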