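import Fermat.Agent.T8.helper29_ConclCover
import Fermat.Agent.T8.helper59_DescStmt
import Fermat.Agent.T8.helper65_K1Cor
import Fermat.Agent.T8.helper29_NonSplitWall

/-!
# T8 = row 38 via S44, leaf [CONCL] (helper29, owner): ASSEMBLY

`conclStatementN_of_slopes` : the contract `ConclStatementN A N p (atkinLehner N p) ν` from the two
K1-corollaries

* on `X`  : `helper65.K1CorAt (N p) W A p (IsGood A (N p)) (ordAt Q) (ord_Q ν)` at every closed
            point `Q` of the special fibre where `j̄` is finite ([SLOPE] K1-version on `X`,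
            helper65 `K1SlopeX`);
* on `X'` : `SlopeCoverStatement D hKum ζ hζp ν` for every cover datum `D` ([SLOPE] on `X'`).

Everything else is on main: `helper88.CovData.ofBad` ([COVER-GAL]), `helper59.descOutput_of_primitive`
([DESC]), `helper22` ([COVER-VAL]), `helper98.desc_statement` ([SPLIT-DESC]),
`T2.helper58.scaleStatement_bad`.

Case distinction on the strongly split `K` of `PeuShape`: if `K` is a `p`-th power in `F`, the class
of `u` is fixed by `I_K1` and the K1-corollary on `X` is applied to the `K1`-rational Kummer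
function `c₀ G ^ p u` (`slopeOutN_of_fixed`, trivial sheet families); otherwise `Z₁` is a Kummer
root and `slopeOutN_of_descOutput` applies.

`conclAll_of_slopes` : the Prop `ConclAll` (box 5 of the frontier) from the two K1-corollaries at
all bad pairs `(4 M', p)`.
-/

set_option autoImplicit false
set_option linter.unusedSectionVars false
set_option linter.unusedVariables false
set_option linter.style.longLine false
set_option linter.style.haveILetI false

noncomputable section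

namespace Fermat.Agent.T8.helper29

open HahnSeries IntermediateField AlgebraicCurve ModularCurve
open Fermat.Agent.S18.helper19 Fermat.Agent.P2.helper29 Fermat.Agent.P2.helper93
open Fermat.Agent.T2 Fermat.Agent.T2.helper36
open Fermat.Agent.T8.helper65 Fermat.Agent.T8.helper80
open Fermat.Agent.T8.helper54 (IsRed1 DvdOff ModEqOff)
open Fermat.Agent.T3.helper36 (RhoQ)
open Fermat.Agent.T8.helper88 (CovData Cov)
open Fermat.Agent.T8.helper22 (SheetGood SheetAtt SheetVG)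
open Fermat.Agent.T8.helper86 (IsKummerRoot)
open Fermat.Agent.T8.helper98 (IsIK1)
open Fermat.Agent.T8.helper16 (ordAt)

variable {A : ValuationSubring Kb}

/-! ### Scalings on `X` -/

section Scale

variable {M : ℕ} [NeZero M] {p : ℕ}

theorem isGood_sheetGood (Z : LaurentSeries Kb) {Y : LaurentSeries A} (h : IsGood A M Y) :
    SheetGood M A Z Y :=
  ⟨Fermat.Agent.T8.helper22.mem_sheet_of_mem Z h.1, h.2.2⟩

/-- every nonzero function has a scaling in the class `IsGood` -/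
theorem exists_isGood_scaling (hSc : ScaleStatement M A) {f : FF M} (hf : f ≠ 0) :
    ∃ (γ : Kb) (rg : LaurentSeries (kA A)), γ ≠ 0 ∧ rg ≠ 0 ∧
      HasRed (IsGood A M) γ (f : LaurentSeries Kb) rg := by
  obtain ⟨c, Y₁, Y₂, hc, hY₁, hY₂, hrel⟩ := hSc f f.2 (fun h => hf (Subtype.ext h))
  have h1' : red A Y₁ ≠ 0 := hY₁.2.2
  have h2' : red A Y₂ ≠ 0 := hY₂.2.2
  exact ⟨c, red A Y₁ * (red A Y₂)⁻¹, hc, mul_ne_zero h1' (inv_ne_zero h2'), Y₁, Y₂, hY₁, hY₂,
    hrel, by rw [mul_assoc, inv_mul_cancel₀ h2', mul_one]⟩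

/-- a nonzero `K1`-rational function has a scaling in the class `IsGood` with a constant of tame
valuation -/
theorem exists_isGood_scaling_fixed (hp : p.Prime) (hA : A.LiesOverPrime p)
    (hSc : ScaleStatement M A) {ζ : Kb} (hζ : IsPrimitiveRoot ζ p) {f : FF M} (hf : f ≠ 0)
    (hfix : ∀ σ : Kb ≃ₐ[ℚ] Kb, IsIK1 A p σ → galF M σ f = f) :
    ∃ (γ : Kb) (rg : LaurentSeries (kA A)) (eg : ℤ), γ ≠ 0 ∧ rg ≠ 0 ∧
      HasRed (IsGood A M) γ (f : LaurentSeries Kb) rg ∧ IsVal A p γ eg := by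
  obtain ⟨γ, rg, hγ, hrg, hred⟩ := exists_isGood_scaling hSc hf
  have hred' : HasRed (SheetGood M A (1 : LaurentSeries Kb)) γ (f : LaurentSeries Kb) rg := by
    obtain ⟨Y₁, Y₂, g₁, g₂, e, er⟩ := hred
    exact ⟨Y₁, Y₂, isGood_sheetGood 1 g₁, isGood_sheetGood 1 g₂, e, er⟩
  have h1 : (1 : LaurentSeries Kb) ^ p ∈ FF M := by
    rw [one_pow]
    exact one_mem _
  obtain ⟨m, k1, k2⟩ :=
    Fermat.Agent.T8.helper22.sheetVG_muFix hp hA hζ hp.ne_zero (1 : LaurentSeries Kb) h1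
      (f : LaurentSeries Kb) γ rg hγ hred'
      (fun σ hσ => congrArg (fun z : FF M => (z : LaurentSeries Kb))
        (hfix σ (isIK1_iff_mem.mp hσ)))
  exact ⟨γ, rg, m, hγ, hrg, hred, isVal_of_zeta hp hζ hγ k1 k2⟩

end Scale

/-! ### The split case -/

section Split

variable {N p : ℕ} [NeZero N] [NeZero p]

theorem goodIn_isGood (hp : p.Prime) (hA : A.LiesOverPrime p) :
    GoodIn A N (IsGood A (N * p)) :=
  ⟨fun Y h => h.2.2, fun Y h => by
    rw [← Fermat.Agent.T2.helper96.FFb_mul_eq N A hp hA]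
    exact h.2.1⟩

/-- the trivial sheet family -/
theorem sheetFam_const (Good : LaurentSeries A → Prop) (hG : GoodClass A Good) (p : ℕ)
    (U : LaurentSeries Kb) :
    SheetFam A Good p 1 (fun _ => U) (fun _ => 1) :=
  ⟨fun _ => by rw [map_one, one_pow, mul_one, mul_one], fun _ => one_ne_zero,
    fun _ => ⟨1, 1, 0, one_ne_zero, one_ne_zero, hasRed_one hG, isVal_of_isU isU_one⟩⟩

/-- **[CONCL], split case**: a Kummer function `u` with a `K1`-rational multiple
`u₁ = c₀ G ^ p u`, from the K1-corollary on `X`. -/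
theorem slopeOutN_of_fixed (hp : p.Prime) (hpN : ¬ p ∣ N) (hA : A.LiesOverPrime p)
    (W : FF (N * p) ≃ₐ[Kb] FF (N * p))
    (hWgal : ∀ (σ : Kb ≃ₐ[ℚ] Kb) (x : FF (N * p)), W (galF (N * p) σ x) = galF (N * p) σ (W x))
    {u G : FF (N * p)} {c₀ : Kb} (hu : u ≠ 0) (hc₀ : c₀ ≠ 0) (hG : G ≠ 0)
    (hdiv : ∀ P : Place Kb (FF (N * p)), (p : ℤ) ∣ P.ord u)
    (hfix : ∀ σ : Kb ≃ₐ[ℚ] Kb, IsIK1 A p σ →
      galF (N * p) σ (algebraMap Kb (FF (N * p)) c₀ * G ^ p * u) =
        algebraMap Kb (FF (N * p)) c₀ * G ^ p * u)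
    (ν : FFb A N)
    (hX : ∀ Q : Place (kA A) (FFb A N), 0 ≤ Q.ord (jBar A N) →
      K1CorAt (N * p) (W : FF (N * p) →+* FF (N * p)) A p (IsGood A (N * p)) (ordAt Q)
        (Q.ord ν)) :
    SlopeOutN A N p ν u := by
  haveI : Fact p.Prime := ⟨hp⟩
  obtain ⟨ζ, hζ⟩ := exists_primitiveRoot_Kb (p := p)
  have hSc : ScaleStatement (N * p) A :=
    Fermat.Agent.T2.helper58.scaleStatement_bad N p hp hpN A hA
  set u₁ : FF (N * p) := algebraMap Kb (FF (N * p)) c₀ * G ^ p * u with hu₁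
  have hu₁0 : u₁ ≠ 0 :=
    mul_ne_zero (mul_ne_zero ((map_ne_zero _).mpr hc₀) (pow_ne_zero _ hG)) hu
  have hWu₁0 : W u₁ ≠ 0 := (map_ne_zero W).mpr hu₁0
  have hWfix : ∀ σ : Kb ≃ₐ[ℚ] Kb, IsIK1 A p σ → galF (N * p) σ (W u₁) = W u₁ := by
    intro σ hσ
    rw [← hWgal, hfix σ hσ]
  obtain ⟨c₁, r₁, e₁, hc₁, hr₁, h₁, hv₁⟩ := exists_isGood_scaling_fixed hp hA hSc hζ hu₁0 hfix
  obtain ⟨c₂, r₂, e₂, hc₂, hr₂, h₂, hv₂⟩ := exists_isGood_scaling_fixed hp hA hSc hζ hWu₁0 hWfix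
  have hGi : G⁻¹ ≠ 0 := inv_ne_zero hG
  obtain ⟨ch, rh, hch, hrh, hh⟩ := exists_isGood_scaling hSc hGi
  have hrel : (u₁ : LaurentSeries Kb) * ((G⁻¹ : FF (N * p)) : LaurentSeries Kb) ^ p =
      algebraMap Kb (LaurentSeries Kb) c₀ * (u : LaurentSeries Kb) := by
    have e1 : u₁ * G⁻¹ ^ p = algebraMap Kb (FF (N * p)) c₀ * u := by
      rw [hu₁, inv_pow]
      have hGp : G ^ p ≠ 0 := pow_ne_zero _ hG
      field_simp
    exact congrArg (fun z : FF (N * p) => (z : LaurentSeries Kb)) e1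
  have hdiv₁ : ∀ P : Place Kb (FF (N * p)), (p : ℤ) ∣ P.ord u₁ := by
    intro P
    rw [hu₁, Place.ord_mul P (mul_ne_zero ((map_ne_zero _).mpr hc₀) (pow_ne_zero _ hG)) hu,
      Place.ord_mul P ((map_ne_zero _).mpr hc₀) (pow_ne_zero _ hG),
      Fermat.Agent.T6.helper26.ord_const P c₀, zero_add, Fermat.Agent.P2.helper18.ord_pow P G p]
    exact dvd_add (dvd_mul_right _ _) (hdiv P)
  have hGC := goodClass_isGood (A := A) (N * p)
  have hI : GoodIn A N (IsGood A (N * p)) := goodIn_isGood hp hA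
  have hIU : IsU A (1 : Kb) := isU_one
  refine slopeOutN_of_sheetOrd2 hp hpN hA hGC hGC hI.red_ne hIU
    (sheetFam_const _ hGC p (u₁ : LaurentSeries Kb))
    (sheetFam_const _ hGC p ((W u₁ : FF (N * p)) : LaurentSeries Kb))
    hc₁ hc₂ hr₁ h₁ h₂ hv₁ hv₂ hu hch hc₀ hrh hh hrel ν (fun Q hQ => ?_)
  refine ⟨ordAt Q, hI.sheetOrd Q, 0, 0, ?_⟩
  intro d₁ d₂ s₁ s₂ k hd₁ hd₂ hs₁ hs₂ hk hk'
  exact hX Q hQ u₁ hu₁0 (fun σ hσ => hfix σ (isIK1_iff_mem.mp hσ)) hdiv₁ d₁ d₂ s₁ s₂ k hd₁ hd₂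
    hs₁ hs₂ hk hk'

end Split


/-! ### The assembly -/

section Asm

/-- the divisor `(1 / p) div K` -/
theorem exists_divisor_of_dvd {M : ℕ} [NeZero M] {p : ℕ} {K : FF M} (hK0 : K ≠ 0)
    (h : ∀ P : Place Kb (FF M), (p : ℤ) ∣ P.ord K) :
    ∃ E : Divisor Kb (FF M), ∀ v : Place Kb (FF M), v.ord K = p * E v := by
  haveI : HasPrincipalDivisors Kb (FF M) := hasPD M
  obtain ⟨DG, hDG, -⟩ := HasPrincipalDivisors.exists_divisor (K := Kb) K hK0
  refine ⟨DG.mapRange (fun n => n / (p : ℤ)) (by simp), fun v => ?_⟩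
  rw [Finsupp.mapRange_apply, hDG v]
  exact (Int.mul_ediv_cancel' (h v)).symm

variable {N p : ℕ} [NeZero N] [NeZero p]

/-- **[CONCL] = the two K1-corollaries** (on `X` and on the covers `X'`). -/
theorem conclStatementN_of_slopes (hp : p.Prime) (hpN : ¬ p ∣ N) (hN : 4 ∣ N ∨ 9 ∣ N)
    (hA : A.LiesOverPrime p) (ν : FFb A N)
    (hX : ∀ Q : Place (kA A) (FFb A N), 0 ≤ Q.ord (jBar A N) →
      K1CorAt (N * p) (atkinLehner N p hp hpN : FF (N * p) →+* FF (N * p)) A p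
        (IsGood A (N * p)) (ordAt Q) (Q.ord ν))
    (hX' : ∀ (D : CovData (N * p) (atkinLehner N p hp hpN) A p)
      (hKum : IsKummerRoot p D.K D.Z) (ζ : Kb) (hζp : ζ ^ p = 1), IsPrimitiveRoot ζ p →
      SlopeCoverStatement D hKum ζ hζp ν) :
    ConclStatementN A N p (atkinLehner N p hp hpN) ν := by
  intro u hu hdiv hpeu
  obtain ⟨K, ζ, α, hK, hζ, hα, hv, hgal⟩ := hpeu
  obtain ⟨hA0, hKdiv, Z₁, Z₂, h1, h2, hr1, hr2⟩ := hK
  have hWgal : ∀ (σ : Kb ≃ₐ[ℚ] Kb) (x : FF (N * p)),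
      atkinLehner N p hp hpN (galF (N * p) σ x) = galF (N * p) σ (atkinLehner N p hp hpN x) :=
    fun σ x => atkinLehner_arithmeticRingAut N p hp hpN σ x
  by_cases hpow : ∃ b : FF (N * p), b ^ p = K
  · -- split case: `K` is a `p`-th power
    obtain ⟨b, hb⟩ := hpow
    have hcl : Fermat.Agent.T8.helper98.ClassFixedBy (N * p)
        (· ∈ Fermat.Agent.T8.helper98.ik1Subgroup A p) p u := by
      intro σ hσ
      obtain ⟨j, c, v, -, -, -, hg⟩ := hgal σ (Fermat.Agent.T8.helper98.mem_ik1Subgroup.1 hσ)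
      refine ⟨c, v * b ^ j, ?_⟩
      rw [hg, ← hb]
      ring
    obtain ⟨c₀, G, hc₀, hG, hfix, -⟩ :=
      Fermat.Agent.T8.helper98.desc_statement (M := N * p)
        (Fermat.Agent.T8.helper98.ik1Subgroup A p) hp.pos u hu hcl
    exact slopeOutN_of_fixed hp hpN hA (atkinLehner N p hp hpN) hWgal hu hc₀ hG hdiv
      (fun σ hσ => hfix σ (Fermat.Agent.T8.helper98.mem_ik1Subgroup.2 hσ)) ν hX
  · -- the cover
    have hK0 : K ≠ 0 := fun h0 => hpow ⟨0, by rw [h0, zero_pow hp.ne_zero]⟩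
    let D : CovData (N * p) (atkinLehner N p hp hpN) A p :=
      CovData.ofBad N p hp hpN hN A hA K hA0 Z₁ Z₂ h1 h2 hr1 hr2
    have hKum : IsKummerRoot p D.K D.Z := ⟨hp, h1, fun b hb => hpow ⟨b, hb⟩⟩
    have hI : Fermat.Agent.T8.helper83.DescInput (N * p) A p K u D.Z ζ α :=
      { root := hKum
        zeta := hζ.pow_eq_one
        alpha := hα
        u_ne := hu
        galZ := by
          intro σ hσ
          obtain ⟨w, -, hw, -⟩ := D.pair σ hσ.1 1 hp.one_lt.le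
            (fun z hz => by rw [pow_one]; exact hσ.2 z hz)
          refine ⟨w, ?_⟩
          rw [pow_one] at hw
          exact hw
        galu := hgal }
    have hD := Fermat.Agent.T8.helper59.descOutput_of_primitive hI hζ
    obtain ⟨E, hE⟩ := exists_divisor_of_dvd hK0 hKdiv
    exact slopeOutN_of_descOutput D hKum ζ hζ.pow_eq_one hp hpN hA hζ hE hu hdiv hv hD ν
      (hX' D hKum ζ hζ.pow_eq_one hζ)

end Asm

/-! ### Box 5 of the frontier -/

section Frontier

open Fermat.Agent.T3.helper16 (IsUnit0)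

/-- **[SLOPE] K1-version on `X`**, at every bad pair `(4 M', p)` of a Frey package and every
first-component reduction `ν` of a weight-one unit. -/
def SlopeXAll : Prop :=
  ∀ (P : FreyPackage) (M' : ℕ) [NeZero M'] (hpN : ¬ P.p ∣ 4 * M')
    (A : ValuationSubring Kb), A.LiesOverPrime P.p →
    ∀ (b0 : FF (4 * M' * P.p)) (B : PowerSeries ℤ) (ε : ℤ), IsUnit0 P.pp hpN b0 B ε →
    ∀ ν : FFb A (4 * M'), IsRed1 A (4 * M') P.p b0 ν →
    ∀ Q : Place (kA A) (FFb A (4 * M')), 0 ≤ Q.ord (jBar A (4 * M')) →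
      K1CorAt (4 * M' * P.p)
        (atkinLehner (4 * M') P.p P.pp hpN : FF (4 * M' * P.p) →+* FF (4 * M' * P.p)) A P.p
        (IsGood A (4 * M' * P.p)) (ordAt Q) (Q.ord ν)

/-- **[SLOPE] K1-version on the covers `X'`**, at every bad pair `(4 M', p)` of a Frey package
and every first-component reduction `ν` of a weight-one unit. -/
def SlopeCoverAll : Prop :=
  ∀ (P : FreyPackage) (M' : ℕ) [NeZero M'] (hpN : ¬ P.p ∣ 4 * M')
    (A : ValuationSubring Kb), A.LiesOverPrime P.p →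
    ∀ (b0 : FF (4 * M' * P.p)) (B : PowerSeries ℤ) (ε : ℤ), IsUnit0 P.pp hpN b0 B ε →
    ∀ ν : FFb A (4 * M'), IsRed1 A (4 * M') P.p b0 ν →
    ∀ (D : CovData (4 * M' * P.p) (atkinLehner (4 * M') P.p P.pp hpN) A P.p)
      (hKum : IsKummerRoot P.p D.K D.Z) (ζ : Kb) (hζp : ζ ^ P.p = 1), IsPrimitiveRoot ζ P.p →
      SlopeCoverStatement D hKum ζ hζp ν

/-- **box 5 of the frontier = the two K1-corollaries** -/
theorem conclAll_of_slopes (hX : SlopeXAll) (hX' : SlopeCoverAll) : ConclAll := by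
  intro P M' _ hpN A hA b0 B ε hb ν hν
  exact conclStatementN_of_slopes P.pp hpN (Or.inl (Dvd.intro M' rfl)) hA ν
    (hX P M' hpN A hA b0 B ε hb ν hν) (hX' P M' hpN A hA b0 B ε hb ν hν)

/-- **the non-split wall from the two K1-corollaries** -/
theorem nonSplitWall_of_slopes (π : Fermat.Agent.T8.helper72.PullData) (hX : SlopeXAll)
    (hX' : SlopeCoverAll) : Fermat.Agent.T8.helper38.NonSplitWallStatement π wallBN :=
  nonSplitWall_of_concl π (conclAll_of_slopes hX hX')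

end Frontier

end Fermat.Agent.T8.helper29

end
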