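/-
T8 (row 38 via S44), leaf [COVER-VAL] (helper22 owner, helper83 second): CONTRACT.

The `2 p` sheets of the cyclic cover `F' = F(Z₁)`, `Z₁ ^ p = K`, are the embeddings
`ι₁ ∘ ρ ^ i : F' → Kb((q))` (`Z₁ ↦ ζ ^ i Z₁`, `F` by the expansion at `∞`) and
`ι₂ ∘ ρ ^ j` (`Z₁ ↦ ζ ^ j Z₂`, `f ↦ W f`).  The image of a sheet of the first kind is the subfield
`F(Z₁)` of `Kb((q))`, the image of a sheet of the second kind is `F(Z₂)`  (`W` is an
automorphism of `F`, `ζ ∈ Kb ⊆ F`).  So the Gauss valuations `w1_i`, `w2_j` and the reductions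
are statements about the elements `G` of ONE sheet field `F(Z) ⊆ Kb((q))`,
`Z` an INTEGRAL series with `Z ^ p ∈ F`:

* `SheetGood M A Z Y`   : `Y` integral, `red Y ≠ 0`, `incl Y ∈ F(Z)`  (the class `Good` of
                          `helper65.HasRed` for the sheet; NO claim `red Y ∈ FFb`: the residue
                          field of the sheet is generated over `FFb` by an Artin - Schreier root);
* `SheetAtt M A Z`      : **(ATT)** every `G ≠ 0` of `F(Z)` is `c * Y₁ / Y₂`, `c ≠ 0`,
                          `Y₁`, `Y₂` sheet-good (`helper65.HasRed`): the Gauss valuation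
                          `w(G) = v(c)` and the reduction `r = red Y₁ / red Y₂ ≠ 0` exist.
                          (The expansion of `G` itself has UNBOUNDED denominators in general.)
* `SheetVG M A Z H π`   : **(VG)** UNRAMIFIED: if `G` is coefficientwise fixed by `H ∩ I`
                          then `c = π ^ m * unit`;  used for `H = ⊤`, `π = p` (`K0`-rational `G`)
                          and `H = muFix p`, `π = 1 - ζ` (`K1`-rational `G`);
* `CoverValStatement M A p` : (ATT) + (VG) for `K0` and `K1` + the class `SheetGood` is a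
                          `helper65.GoodClass` as soon as the inertia group maps `Z` into `F(Z)`
                          ([COVER-GAL]).

Multiplicativity of `(c, r)`, compatibility with the coefficientwise inertia action and with
norms are then the generic lemmas `helper65.HasRed.mul / .act / .prod / hasRed_normCoset`.
-/
import Mathlib
import Fermat.Agent.T8.helper65_NormIdx

set_option autoImplicit false
set_option linter.unusedSectionVars false
set_option linter.unusedVariables false
set_option linter.style.longLine false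

noncomputable section

namespace Fermat.Agent.T8.helper22

open HahnSeries IntermediateField AlgebraicCurve ModularCurve
open Fermat.Agent.S18.helper19 Fermat.Agent.P2.helper29 Fermat.Agent.P2.helper93
open Fermat.Agent.T8.helper65

/-- the good series of the sheet field `F(Z) ⊆ Kb((q))` -/
def SheetGood (M : ℕ) [NeZero M] (A : ValuationSubring Kb) (Z : LaurentSeries Kb)
    (Y : LaurentSeries A) : Prop :=
  incl A Y ∈ (FF M)⟮Z⟯ ∧ red A Y ≠ 0

/-- **(ATT)** the Gauss valuation and the reduction exist on the sheet field `F(Z)`. -/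
def SheetAtt (M : ℕ) [NeZero M] (A : ValuationSubring Kb) (Z : LaurentSeries Kb) : Prop :=
  ∀ G : LaurentSeries Kb, G ∈ (FF M)⟮Z⟯ → G ≠ 0 →
    ∃ (c : Kb) (r : LaurentSeries (kA A)), c ≠ 0 ∧ r ≠ 0 ∧ HasRed (SheetGood M A Z) c G r

/-- **(VG)** the value group of the Gauss valuation on the `H ∩ I`-rational elements of the sheet
field is generated by the value of `π`. -/
def SheetVG (M : ℕ) [NeZero M] (A : ValuationSubring Kb) (Z : LaurentSeries Kb)
    (H : Subgroup (Kb ≃ₐ[ℚ] Kb)) (π : Kb) : Prop :=
  ∀ (G : LaurentSeries Kb) (c : Kb) (r : LaurentSeries (kA A)), c ≠ 0 →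
    HasRed (SheetGood M A Z) c G r → (∀ σ ∈ H ⊓ IA A, cwAct σ G = G) →
    ∃ m : ℤ, c / π ^ m ∈ A ∧ π ^ m / c ∈ A

/-- **Contract [COVER-VAL].** -/
def CoverValStatement (M : ℕ) [NeZero M] (A : ValuationSubring Kb) (p : ℕ) : Prop :=
  ∀ Z : LaurentSeries A, incl A Z ^ p ∈ FF M →
    SheetAtt M A (incl A Z) ∧
    SheetVG M A (incl A Z) ⊤ (p : Kb) ∧
    (∀ ζ : Kb, IsPrimitiveRoot ζ p → SheetVG M A (incl A Z) (muFix p) (1 - ζ)) ∧
    ((∀ σ ∈ IA A, cwAct σ (incl A Z) ∈ (FF M)⟮incl A Z⟯) →
      GoodClass A (SheetGood M A (incl A Z)))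

end Fermat.Agent.T8.helper22

end
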