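/-
T8 (row 38 via S44), leaf [COVER-VAL] (helper22): PROOF, part 1 = (ATT).

`sheetAtt` : `helper22.SheetAtt M A (incl Z)` for every integral `Z` with `Z ^ n ∈ F`, `n ≠ 0`,
from the scaling statement `helper29.ScaleStatement M A` of the level.

Proof: `G = ∑ c_i Z ^ i` (`Z` is integral over `F`), `c_i = γ_i N_i / D_i` (scaling), common
denominator `D = ∏ D_i`, `G D = γ * T` with `T` integral, coefficients in ONE number field
(`helper82.CoeffNF`), hence attained content (`T7.helper22.exists_smul_of_coeff_mem`).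
-/
import Mathlib
import Fermat.Agent.T8.helper22_CoverVal
import Fermat.Agent.T8.helper86_CoverAlg
import Fermat.Agent.T7.helper82_AttNF
import Fermat.Agent.T7.helper22_AttNF
import Fermat.Agent.T2.helper58_ScaleCore

set_option autoImplicit false
set_option linter.unusedSectionVars false
set_option linter.unusedVariables false
set_option linter.style.longLine false
set_option linter.style.haveILetI false

noncomputable section

namespace Fermat.Agent.T8.helper22

open HahnSeries IntermediateField AlgebraicCurve ModularCurve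
open Fermat.Agent.S18.helper19 Fermat.Agent.P2.helper29 Fermat.Agent.P2.helper93
open Fermat.Agent.T8.helper65 Fermat.Agent.T7.helper82

variable {M : ℕ} [NeZero M] {A : ValuationSubring Kb}

/-! ### The sheet field -/

theorem coe_mem_sheet (Z : LaurentSeries Kb) (f : FF M) : (f : LaurentSeries Kb) ∈ (FF M)⟮Z⟯ :=
  (FF M)⟮Z⟯.algebraMap_mem f

theorem mem_sheet_of_mem (Z : LaurentSeries Kb) {f : LaurentSeries Kb} (hf : f ∈ FF M) :
    f ∈ (FF M)⟮Z⟯ :=
  coe_mem_sheet Z ⟨f, hf⟩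

theorem const_mem_sheet (Z : LaurentSeries Kb) (c : Kb) :
    algebraMap Kb (LaurentSeries Kb) c ∈ (FF M)⟮Z⟯ :=
  mem_sheet_of_mem Z ((FF M).algebraMap_mem c)

theorem gen_mem_sheet (Z : LaurentSeries Kb) : Z ∈ (FF M)⟮Z⟯ :=
  mem_adjoin_simple_self (FF M) Z

theorem isIntegral_of_pow_mem {n : ℕ} (hn : n ≠ 0) {Z : LaurentSeries Kb} (hZ : Z ^ n ∈ FF M) :
    IsIntegral (FF M) Z := by
  refine IsIntegral.of_pow (Nat.pos_of_ne_zero hn) ?_
  have h : Z ^ n = algebraMap (FF M) (LaurentSeries Kb) ⟨Z ^ n, hZ⟩ := rfl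
  rw [h]
  exact isIntegral_algebraMap

/-- every element of the sheet field is a polynomial in `Z` -/
theorem exists_aeval_of_mem {Z : LaurentSeries Kb} (hZ : IsIntegral (FF M) Z)
    {G : LaurentSeries Kb} (hG : G ∈ (FF M)⟮Z⟯) :
    ∃ P : Polynomial (FF M), G = Polynomial.aeval Z P := by
  obtain ⟨P, hP⟩ := Fermat.Agent.T8.helper86.exists_aeval_gen hZ (⟨G, hG⟩ : (FF M)⟮Z⟯)
  refine ⟨P, ?_⟩
  have h1 := congrArg ((FF M)⟮Z⟯.val) hP
  rw [← Polynomial.aeval_algHom_apply] at h1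
  exact h1

/-- every element of the sheet field is a finite sum `∑ c_i Z ^ i` -/
theorem exists_sum_of_mem {Z : LaurentSeries Kb} (hZ : IsIntegral (FF M) Z)
    {G : LaurentSeries Kb} (hG : G ∈ (FF M)⟮Z⟯) :
    ∃ (d : ℕ) (c : ℕ → FF M), G = ∑ i ∈ Finset.range d, (c i : LaurentSeries Kb) * Z ^ i := by
  obtain ⟨P, rfl⟩ := exists_aeval_of_mem hZ hG
  refine ⟨P.natDegree + 1, P.coeff, ?_⟩
  rw [Polynomial.aeval_eq_sum_range]
  refine Finset.sum_congr rfl fun i _ => ?_
  rw [Algebra.smul_def]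
  rfl

theorem isAlgebraic_Kb' : Algebra.IsAlgebraic ℚ Kb := AlgebraicClosure.isAlgebraic ℚ

/-- the coefficients of an element of the sheet field lie in ONE number field -/
theorem coeffNF_of_mem_sheet {n : ℕ} (hn : n ≠ 0) {Z : LaurentSeries Kb} (hZ : Z ^ n ∈ FF M)
    {G : LaurentSeries Kb} (hG : G ∈ (FF M)⟮Z⟯) : CoeffNF G := by
  haveI := isAlgebraic_Kb'
  have hZnf : CoeffNF Z := CoeffNF.of_pow n hn (coeffNF_FF (⟨Z ^ n, hZ⟩ : FF M))
  obtain ⟨d, c, rfl⟩ := exists_sum_of_mem (isIntegral_of_pow_mem hn hZ) hG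
  refine Finset.sum_induction _ CoeffNF (fun a b ha hb => ha.add hb) coeffNF_zero ?_
  intro i _
  exact (coeffNF_FF (c i)).mul (hZnf.pow i)

/-! ### (ATT) -/

/-- scaling of a possibly zero function: `f = γ N / D`, `D` good, `N` integral in `F` -/
theorem exists_scale (hSc : ScaleStatement M A) (f : FF M) :
    ∃ (γ : Kb) (N D : LaurentSeries A), γ ≠ 0 ∧ incl A N ∈ FF M ∧ IsGood A M D ∧
      algebraMap Kb (LaurentSeries Kb) γ * incl A N = (f : LaurentSeries Kb) * incl A D := by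
  rcases eq_or_ne f 0 with rfl | hf
  · refine ⟨1, 0, 1, one_ne_zero, ?_, isGood_one, ?_⟩
    · rw [map_zero]
      exact zero_mem _
    · simp
  · obtain ⟨c, Y₁, Y₂, hc, h1, h2, h⟩ := hSc f f.2 (fun h => hf (Subtype.ext h))
    exact ⟨c, Y₁, Y₂, hc, h1.1, h2, h⟩

theorem incl_single_zero (a : A) :
    incl A (HahnSeries.single 0 a) = algebraMap Kb (LaurentSeries Kb) (a : Kb) := by
  rw [algebraMap_laurentSeries_eq_single]
  exact coeffMap_single _ _ _

theorem incl_ne_zero_of_red {Y : LaurentSeries A} (h : red A Y ≠ 0) : incl A Y ≠ 0 := by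
  intro h0
  apply h
  have hY : Y = 0 := by
    ext j
    have h1 := congrArg (fun z : LaurentSeries Kb => z.coeff j) h0
    simp only [coeffMap_coeff, HahnSeries.coeff_zero] at h1
    rw [HahnSeries.coeff_zero]
    simpa using h1
  rw [hY, map_zero]

/-- **(ATT)** on the sheet field `F(Z)`, `Z` integral with `Z ^ n ∈ F`. -/
theorem sheetAtt (hSc : ScaleStatement M A) {n : ℕ} (hn : n ≠ 0) (Z : LaurentSeries A)
    (hZ : incl A Z ^ n ∈ FF M) : SheetAtt M A (incl A Z) := by
  classical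
  intro G hG hG0
  obtain ⟨d, c, hGsum⟩ := exists_sum_of_mem (isIntegral_of_pow_mem hn hZ) hG
  choose γ N D hγ hN hD hND using fun i => exists_scale hSc (c i)
  have hsne : (Finset.range d).Nonempty := by
    by_contra h
    rw [Finset.not_nonempty_iff_eq_empty] at h
    rw [h, Finset.sum_empty] at hGsum
    exact hG0 hGsum
  -- the common denominator
  obtain ⟨Dt, hDt⟩ : ∃ Dt : LaurentSeries A, Dt = ∏ i ∈ Finset.range d, D i := ⟨_, rfl⟩
  have hDtg : IsGood A M Dt := by
    rw [hDt]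
    exact Fermat.Agent.T2.helper58.isGood_prod _ D (fun i _ => hD i)
  obtain ⟨E, hE⟩ : ∃ E : ℕ → LaurentSeries A,
      E = fun i => ∏ m ∈ (Finset.range d).erase i, D m := ⟨_, rfl⟩
  have hDE : ∀ i ∈ Finset.range d, Dt = D i * E i := by
    intro i hi
    rw [hDt, hE]
    exact (Finset.mul_prod_erase (Finset.range d) D hi).symm
  obtain ⟨T, hT⟩ : ∃ T : ℕ → LaurentSeries A, T = fun i => N i * E i * Z ^ i := ⟨_, rfl⟩
  have hterm : ∀ i ∈ Finset.range d, (c i : LaurentSeries Kb) * incl A Z ^ i * incl A Dt =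
      algebraMap Kb (LaurentSeries Kb) (γ i) * incl A (T i) := by
    intro i hi
    rw [hDE i hi, hT]
    simp only [map_mul, map_pow]
    linear_combination (-(incl A (E i) * incl A Z ^ i)) * hND i
  have hX : G * incl A Dt =
      ∑ i ∈ Finset.range d, algebraMap Kb (LaurentSeries Kb) (γ i) * incl A (T i) := by
    rw [hGsum, Finset.sum_mul]
    exact Finset.sum_congr rfl hterm
  -- the maximal constant
  obtain ⟨i₀, hi₀, hmax⟩ :=
    Finset.exists_max_image (Finset.range d) (fun i => A.valuation (γ i)) hsne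
  have hδ : ∀ i, i ∈ Finset.range d → γ i / γ i₀ ∈ A := by
    intro i hi
    rw [← A.valuation_le_one_iff, map_div₀]
    exact div_le_one_of_le₀ (hmax i hi) zero_le
  obtain ⟨δ, hδdef⟩ : ∃ δ : ℕ → A, ∀ i ∈ Finset.range d, ((δ i : A) : Kb) = γ i / γ i₀ := by
    refine ⟨fun i => if hi : i ∈ Finset.range d then ⟨γ i / γ i₀, hδ i hi⟩ else 0, ?_⟩
    intro i hi
    simp only [dif_pos hi]
  obtain ⟨Tt, hTtdef⟩ : ∃ Tt : LaurentSeries A,
      Tt = ∑ i ∈ Finset.range d, HahnSeries.single 0 (δ i) * T i := ⟨_, rfl⟩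
  have hTt : G * incl A Dt = algebraMap Kb (LaurentSeries Kb) (γ i₀) * incl A Tt := by
    rw [hX, hTtdef, map_sum, Finset.mul_sum]
    refine Finset.sum_congr rfl fun i hi => ?_
    rw [map_mul, incl_single_zero, hδdef i hi, ← mul_assoc, ← map_mul,
      mul_div_cancel₀ _ (hγ i₀)]
  have hDt0 : incl A Dt ≠ 0 := incl_ne_zero_of_red hDtg.2.2
  have hTt0 : Tt ≠ 0 := by
    intro h0
    rw [h0, map_zero, mul_zero] at hTt
    rcases mul_eq_zero.mp hTt with h | h
    · exact hG0 h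
    · exact hDt0 h
  -- the number field
  have hDtS : incl A Dt ∈ (FF M)⟮incl A Z⟯ := mem_sheet_of_mem _ hDtg.1
  have hTtS : incl A Tt ∈ (FF M)⟮incl A Z⟯ := by
    have h1 : incl A Tt = algebraMap Kb (LaurentSeries Kb) (γ i₀)⁻¹ * (G * incl A Dt) := by
      rw [hTt, ← mul_assoc, ← map_mul, inv_mul_cancel₀ (hγ i₀), map_one, one_mul]
    rw [h1]
    exact mul_mem (const_mem_sheet _ _) (mul_mem hG hDtS)
  obtain ⟨K₁, hK₁, hco⟩ := coeffNF_of_mem_sheet hn hZ hTtS
  haveI := hK₁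
  obtain ⟨g, Y', hg, hY', hred⟩ := Fermat.Agent.T7.helper22.exists_smul_of_coeff_mem A
    (IsLocalRing.residue A) K₁ (fun _ : Unit => Tt) (fun h => hTt0 (congrFun h ()))
    (fun _ j => by
      have := hco j
      rwa [coeffMap_coeff] at this)
  have hY1 : Tt = HahnSeries.single 0 g * Y' () := by
    have h1 := congrFun hY' ()
    rw [h1]
    show g • Y' () = HahnSeries.single 0 g * Y' ()
    rw [← HahnSeries.C_apply, HahnSeries.C_mul_eq_smul]
  have hred1 : red A (Y' ()) ≠ 0 := by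
    intro h0
    apply hred
    funext u
    cases u
    exact h0
  have hg0 : ((g : A) : Kb) ≠ 0 := fun h => hg (Subtype.ext h)
  have hfin : algebraMap Kb (LaurentSeries Kb) (γ i₀ * (g : Kb)) * incl A (Y' ()) =
      G * incl A Dt := by
    rw [hTt, hY1, map_mul (incl A), incl_single_zero, map_mul, mul_assoc]
  have hY'S : incl A (Y' ()) ∈ (FF M)⟮incl A Z⟯ := by
    have h1 : incl A (Y' ()) =
        algebraMap Kb (LaurentSeries Kb) (γ i₀ * (g : Kb))⁻¹ * (G * incl A Dt) := by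
      rw [← hfin, ← mul_assoc, ← map_mul, inv_mul_cancel₀ (mul_ne_zero (hγ i₀) hg0), map_one,
        one_mul]
    rw [h1]
    exact mul_mem (const_mem_sheet _ _) (mul_mem hG hDtS)
  refine ⟨γ i₀ * (g : Kb), red A (Y' ()) / red A Dt, mul_ne_zero (hγ i₀) hg0,
    div_ne_zero hred1 hDtg.2.2, Y' (), Dt, ⟨hY'S, hred1⟩, ⟨hDtS, hDtg.2.2⟩, hfin, ?_⟩
  exact div_mul_cancel₀ _ hDtg.2.2

end Fermat.Agent.T8.helper22

end
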