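/-
T8 (row 38 via S44), leaf [COVER-VAL] (helper22): PROOF, part 2 = (VG) + GoodClass + the instance.

* `exists_zpow_of_fixed` : the abstract UNRAMIFIED statement.  `G = c * Y₁ / Y₂` with integral
  `Y₁`, `Y₂` of nonzero reduction, `Y₂` with coefficients in a number field, `G` coefficientwise
  fixed by `H ∩ I`; if the values of the `H ∩ I`-fixed constants are the powers of `v(π)`,
  then `c = π ^ m * unit`.  (Norm of the denominator over its finite `H ∩ I`-orbit; the inertia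
  group does not change reductions.)
* `sheetVG_top`, `sheetVG_muFix` : `SheetVG` for `(⊤, p)` and `(muFix p, 1 - ζ)`
  (T3 `helper84.k0_disc`, `k0_disc_zeta`).
* `goodClass_sheetGood` : `SheetGood` is a `helper65.GoodClass` when the inertia group maps `Z`
  into `F(Z)`.
* `coverValStatement_of_scale`, `coverVal_bad` : **[COVER-VAL]**, at every bad pair.
-/
import Mathlib
import Fermat.Agent.T8.helper22_CoverValAtt
import Fermat.Agent.T3.helper84_K0Zeta
import Fermat.Agent.T2.helper58_ScaleBad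

set_option autoImplicit false
set_option linter.unusedSectionVars false
set_option linter.unusedVariables false
set_option linter.style.longLine false
set_option linter.style.haveILetI false

noncomputable section

namespace Fermat.Agent.T8.helper22

open HahnSeries IntermediateField AlgebraicCurve ModularCurve
open Fermat.Agent.S18.helper19 Fermat.Agent.P2.helper29 Fermat.Agent.P2.helper93
open Fermat.Agent.T8.helper65 Fermat.Agent.T7.helper82

variable {M : ℕ} [NeZero M] {A : ValuationSubring Kb}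

/-! ### The coefficientwise action -/

theorem cwAct_one (Y : LaurentSeries Kb) : cwAct 1 Y = Y := by
  unfold cwAct
  ext j
  rw [coeffMap_coeff]
  rfl

theorem cwAct_mul' (σ : Kb ≃ₐ[ℚ] Kb) (x y : LaurentSeries Kb) :
    cwAct σ (x * y) = cwAct σ x * cwAct σ y := isActFam_cwAct.map_mul σ x y

theorem cwAct_injective (σ : Kb ≃ₐ[ℚ] Kb) : Function.Injective (cwAct σ) := by
  intro x y h
  have h1 := congrArg (cwAct σ⁻¹) h
  rw [← isActFam_cwAct.mul, ← isActFam_cwAct.mul, inv_mul_cancel, cwAct_one, cwAct_one] at h1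
  exact h1

theorem cwAct_coeff (σ : Kb ≃ₐ[ℚ] Kb) (x : LaurentSeries Kb) (j : ℤ) :
    (cwAct σ x).coeff j = σ (x.coeff j) := rfl

theorem cwAct_prod (σ : Kb ≃ₐ[ℚ] Kb) (s : Finset (LaurentSeries Kb)) :
    cwAct σ (∏ T ∈ s, T) = ∏ T ∈ s, cwAct σ T :=
  map_prod (coeffMap (σ : Kb →+* Kb)) (fun T => T) s

/-- the orbit of a series with coefficients in a number field is finite -/
theorem finite_orbit {Y : LaurentSeries Kb} (hY : CoeffNF Y) :
    (Set.range fun σ : Kb ≃ₐ[ℚ] Kb => cwAct σ Y).Finite := by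
  obtain ⟨K₀, hK₀, hco⟩ := hY
  haveI := hK₀
  obtain ⟨Y₀, hY₀⟩ : ∃ Y₀ : LaurentSeries K₀, coeffMap (algebraMap K₀ Kb) Y₀ = Y :=
    (mem_coeffSubfield_iff K₀ Y).mpr hco
  refine (Set.finite_range fun τ : K₀ →ₐ[ℚ] Kb => coeffMap (τ : K₀ →+* Kb) Y₀).subset ?_
  rintro _ ⟨σ, rfl⟩
  refine ⟨(σ : Kb →ₐ[ℚ] Kb).comp K₀.val, ?_⟩
  show coeffMap _ Y₀ = cwAct σ Y
  rw [← hY₀]
  unfold cwAct
  rw [coeffMap_coeffMap]
  exact coeffMap_congr (RingHom.ext fun a => rfl) Y₀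

/-! ### The abstract unramified statement -/

/-- **(VG), abstract form.** -/
theorem exists_zpow_of_fixed (H : Subgroup (Kb ≃ₐ[ℚ] Kb)) (π : Kb)
    (hπ : ∀ x : Kb, x ≠ 0 → (∀ σ ∈ H ⊓ IA A, σ x = x) →
      ∃ m : ℤ, A.valuation x = A.valuation (π ^ m))
    {G : LaurentSeries Kb} {c : Kb} (hc : c ≠ 0) {Y₁ Y₂ : LaurentSeries A}
    (h1 : red A Y₁ ≠ 0) (h2 : red A Y₂ ≠ 0) (hnf : CoeffNF (incl A Y₂))
    (he : algebraMap Kb (LaurentSeries Kb) c * incl A Y₁ = G * incl A Y₂)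
    (hfix : ∀ σ ∈ H ⊓ IA A, cwAct σ G = G) :
    ∃ m : ℤ, c / π ^ m ∈ A ∧ π ^ m / c ∈ A := by
  classical
  -- the orbit of the denominator
  have hfin : {T : LaurentSeries Kb | ∃ σ ∈ H ⊓ IA A, T = cwAct σ (incl A Y₂)}.Finite := by
    refine (finite_orbit hnf).subset ?_
    rintro T ⟨σ, -, rfl⟩
    exact ⟨σ, rfl⟩
  obtain ⟨S, hS⟩ : ∃ S : Finset (LaurentSeries Kb),
      ∀ T, T ∈ S ↔ ∃ σ ∈ H ⊓ IA A, T = cwAct σ (incl A Y₂) :=
    ⟨hfin.toFinset, fun T => by rw [Set.Finite.mem_toFinset]; rfl⟩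
  have hY₂S : incl A Y₂ ∈ S := (hS _).mpr ⟨1, one_mem _, (cwAct_one _).symm⟩
  -- the elements of the orbit are integral with the same reduction
  have hSint : ∀ T ∈ S, ∃ Y : LaurentSeries A, incl A Y = T ∧ red A Y ≠ 0 := by
    intro T hT
    obtain ⟨σ, hσ, rfl⟩ := (hS T).mp hT
    obtain ⟨hσ', -⟩ := decK_eq_id_of_mem_inertia (Subgroup.mem_inf.mp hσ).2
    refine ⟨actA σ hσ' Y₂, coeffMap_subtype_actA σ hσ' Y₂, ?_⟩
    rw [Fermat.Agent.T2.helper20.red_actA_of_mem_inertia (Subgroup.mem_inf.mp hσ).2 hσ']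
    exact h2
  -- the norm
  obtain ⟨Nm, hNm⟩ : ∃ Nm : LaurentSeries Kb, Nm = ∏ T ∈ S, T := ⟨_, rfl⟩
  have hNfix : ∀ τ ∈ H ⊓ IA A, cwAct τ Nm = Nm := by
    intro τ hτ
    have himg : S.image (cwAct τ) = S := by
      refine Finset.eq_of_subset_of_card_le ?_ ?_
      · intro T hT
        obtain ⟨T', hT', rfl⟩ := Finset.mem_image.mp hT
        obtain ⟨σ, hσ, rfl⟩ := (hS T').mp hT'
        exact (hS _).mpr ⟨τ * σ, mul_mem hτ hσ, (isActFam_cwAct.mul τ σ _).symm⟩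
      · rw [Finset.card_image_of_injective _ (cwAct_injective τ)]
    rw [hNm, cwAct_prod]
    conv_rhs => rw [← himg]
    rw [Finset.prod_image fun x _ y _ h => cwAct_injective τ h]
  -- the cofactor
  obtain ⟨Y', hY', hY'red⟩ : ∃ Y' : LaurentSeries A,
      incl A Y' = ∏ T ∈ S.erase (incl A Y₂), T ∧ red A Y' ≠ 0 := by
    have := Finset.prod_induction (fun T : LaurentSeries Kb => T)
      (fun T => ∃ Y : LaurentSeries A, incl A Y = T ∧ red A Y ≠ 0)
      (by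
        rintro _ _ ⟨Ya, rfl, ha⟩ ⟨Yb, rfl, hb⟩
        exact ⟨Ya * Yb, map_mul _ _ _, by rw [map_mul]; exact mul_ne_zero ha hb⟩)
      ⟨1, map_one _, by rw [map_one]; exact one_ne_zero⟩
      (s := S.erase (incl A Y₂)) (fun T hT => hSint T (Finset.mem_of_mem_erase hT))
    exact this
  have hNsplit : Nm = incl A Y₂ * incl A Y' := by
    rw [hNm, hY']
    exact (Finset.mul_prod_erase S (fun T => T) hY₂S).symm
  have hGN : G * Nm = algebraMap Kb (LaurentSeries Kb) c * incl A (Y₁ * Y') := by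
    rw [hNsplit, ← mul_assoc, ← he, map_mul, mul_assoc]
  have hGNfix : ∀ τ ∈ H ⊓ IA A, cwAct τ (G * Nm) = G * Nm := by
    intro τ hτ
    rw [cwAct_mul', hfix τ hτ, hNfix τ hτ]
  -- a unit coefficient
  have hred : red A (Y₁ * Y') ≠ 0 := by
    rw [map_mul]
    exact mul_ne_zero h1 hY'red
  obtain ⟨j₀, hj₀⟩ : ∃ j : ℤ, (red A (Y₁ * Y')).coeff j ≠ 0 := by
    by_contra h
    push Not at h
    exact hred (HahnSeries.ext (funext fun j => by rw [h j]; rfl))
  rw [coeffMap_coeff] at hj₀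
  have hu : IsUnit ((Y₁ * Y').coeff j₀) := by
    by_contra hnu
    exact hj₀ ((IsLocalRing.residue_eq_zero_iff _).mpr ((IsLocalRing.mem_maximalIdeal _).mpr hnu))
  have hvu : A.valuation (((Y₁ * Y').coeff j₀ : A) : Kb) = 1 :=
    (A.valuation_eq_one_iff _).mp hu
  have hu0 : (((Y₁ * Y').coeff j₀ : A) : Kb) ≠ 0 := by
    intro h0
    rw [h0, map_zero] at hvu
    exact zero_ne_one hvu
  -- the fixed constant
  have hx : (G * Nm).coeff j₀ = c * (((Y₁ * Y').coeff j₀ : A) : Kb) := by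
    rw [hGN, Fermat.Agent.P2.helper44.coeff_algebraMap_mul, coeffMap_coeff]
    rfl
  have hxfix : ∀ σ ∈ H ⊓ IA A, σ ((G * Nm).coeff j₀) = (G * Nm).coeff j₀ := by
    intro σ hσ
    rw [← cwAct_coeff, hGNfix σ hσ]
  have hx0 : (G * Nm).coeff j₀ ≠ 0 := by
    rw [hx]
    exact mul_ne_zero hc hu0
  obtain ⟨m, hm⟩ := hπ _ hx0 hxfix
  rw [hx, map_mul, hvu, mul_one] at hm
  have hπm : A.valuation (π ^ m) ≠ 0 := by
    rw [← hm]
    exact (Valuation.ne_zero_iff _).mpr hc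
  refine ⟨m, ?_, ?_⟩
  · rw [← A.valuation_le_one_iff, map_div₀, hm, div_self hπm]
  · rw [← A.valuation_le_one_iff, map_div₀, hm, div_self hπm]

/-! ### (VG) on the sheet fields -/

theorem sheetVG_of (H : Subgroup (Kb ≃ₐ[ℚ] Kb)) (π : Kb)
    (hπ : ∀ x : Kb, x ≠ 0 → (∀ σ ∈ H ⊓ IA A, σ x = x) →
      ∃ m : ℤ, A.valuation x = A.valuation (π ^ m))
    {n : ℕ} (hn : n ≠ 0) (Z : LaurentSeries Kb) (hZ : Z ^ n ∈ FF M) : SheetVG M A Z H π := by
  intro G c r hc hred hfix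
  obtain ⟨Y₁, Y₂, g₁, g₂, e, -⟩ := hred
  exact exists_zpow_of_fixed H π hπ hc g₁.2 g₂.2 (coeffNF_of_mem_sheet hn hZ g₂.1) e hfix

/-- the value group of `K0 = ℚ̄ ^ I` is generated by `v(p)` (T3 `k0_disc`) -/
theorem val_fixed_top {p : ℕ} (hp : p.Prime) (hA : A.LiesOverPrime p) (x : Kb) (hx : x ≠ 0)
    (hfix : ∀ σ ∈ (⊤ : Subgroup (Kb ≃ₐ[ℚ] Kb)) ⊓ IA A, σ x = x) :
    ∃ m : ℤ, A.valuation x = A.valuation ((p : Kb) ^ m) :=
  Fermat.Agent.T3.helper84.k0_disc hp A hA hx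
    (fun σ hσ => hfix σ (Subgroup.mem_inf.mpr ⟨Subgroup.mem_top σ, hσ⟩))

/-- the value group of `K1 = K0(ζ_p)` is generated by `v(1 - ζ)` (T3 `k0_disc_zeta`) -/
theorem val_fixed_muFix {p : ℕ} (hp : p.Prime) (hA : A.LiesOverPrime p) {ζ : Kb}
    (hζ : IsPrimitiveRoot ζ p) (x : Kb) (hx : x ≠ 0)
    (hfix : ∀ σ ∈ muFix p ⊓ IA A, σ x = x) :
    ∃ m : ℤ, A.valuation x = A.valuation ((1 - ζ) ^ m) := by
  haveI : Fact p.Prime := ⟨hp⟩
  exact Fermat.Agent.T3.helper84.k0_disc_zeta hp A hA hζ hx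
    (fun σ hσ hσζ => hfix σ (Subgroup.mem_inf.mpr ⟨(mem_muFix_iff hζ).mpr hσζ, hσ⟩))

/-- **(VG)** for the `K0`-rational elements of a sheet field -/
theorem sheetVG_top {p : ℕ} (hp : p.Prime) (hA : A.LiesOverPrime p) {n : ℕ} (hn : n ≠ 0)
    (Z : LaurentSeries Kb) (hZ : Z ^ n ∈ FF M) : SheetVG M A Z ⊤ (p : Kb) :=
  sheetVG_of ⊤ _ (val_fixed_top hp hA) hn Z hZ

/-- **(VG)** for the `K1`-rational elements of a sheet field -/
theorem sheetVG_muFix {p : ℕ} (hp : p.Prime) (hA : A.LiesOverPrime p) {ζ : Kb}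
    (hζ : IsPrimitiveRoot ζ p) {n : ℕ} (hn : n ≠ 0)
    (Z : LaurentSeries Kb) (hZ : Z ^ n ∈ FF M) : SheetVG M A Z (muFix p) (1 - ζ) :=
  sheetVG_of (muFix p) _ (val_fixed_muFix hp hA hζ) hn Z hZ

/-! ### The good class of a sheet -/

/-- a coefficientwise automorphism which maps `Z` into `F(Z)` maps `F(Z)` into itself -/
theorem cwAct_mem_sheet {Z : LaurentSeries Kb} (hZint : IsIntegral (FF M) Z)
    {σ : Kb ≃ₐ[ℚ] Kb} (hσZ : cwAct σ Z ∈ (FF M)⟮Z⟯) {G : LaurentSeries Kb}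
    (hG : G ∈ (FF M)⟮Z⟯) : cwAct σ G ∈ (FF M)⟮Z⟯ := by
  obtain ⟨d, c, rfl⟩ := exists_sum_of_mem hZint hG
  have h1 : cwAct σ (∑ i ∈ Finset.range d, (c i : LaurentSeries Kb) * Z ^ i) =
      ∑ i ∈ Finset.range d, ((galF M σ (c i) : FF M) : LaurentSeries Kb) * cwAct σ Z ^ i := by
    unfold cwAct
    rw [map_sum]
    refine Finset.sum_congr rfl fun i _ => ?_
    rw [map_mul, map_pow]
    rfl
  rw [h1]
  exact sum_mem fun i _ => mul_mem (coe_mem_sheet Z _) (pow_mem hσZ i)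

theorem goodClass_sheetGood {n : ℕ} (hn : n ≠ 0) (Z : LaurentSeries Kb) (hZ : Z ^ n ∈ FF M)
    (hσ : ∀ σ ∈ IA A, cwAct σ Z ∈ (FF M)⟮Z⟯) : GoodClass A (SheetGood M A Z) where
  one := ⟨by rw [map_one]; exact one_mem _, by rw [map_one]; exact one_ne_zero⟩
  mul := fun h h' => ⟨by rw [map_mul]; exact mul_mem h.1 h'.1,
    by rw [map_mul]; exact mul_ne_zero h.2 h'.2⟩
  act := fun {σ} hσI hσ' {Y} h =>
    ⟨by
      show incl A (actA σ hσ' Y) ∈ _
      rw [show incl A (actA σ hσ' Y) = cwAct σ (incl A Y) from coeffMap_subtype_actA σ hσ' Y]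
      exact cwAct_mem_sheet (isIntegral_of_pow_mem hn hZ) (hσ σ hσI) h.1,
     by
      rw [Fermat.Agent.T2.helper20.red_actA_of_mem_inertia hσI hσ']
      exact h.2⟩

/-! ### The contract -/

/-- **[COVER-VAL]** from the scaling statement of the level. -/
theorem coverValStatement_of_scale {p : ℕ} (hp : p.Prime) (hA : A.LiesOverPrime p)
    (hSc : ScaleStatement M A) : CoverValStatement M A p := by
  intro Z hZ
  exact ⟨sheetAtt hSc hp.ne_zero Z hZ, sheetVG_top hp hA hp.ne_zero _ hZ,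
    fun ζ hζ => sheetVG_muFix hp hA hζ hp.ne_zero _ hZ,
    fun h => goodClass_sheetGood hp.ne_zero _ hZ h⟩

/-- **[COVER-VAL] at every bad pair**, unconditional. -/
theorem coverVal_bad (N p : ℕ) [NeZero N] [NeZero p] (hp : p.Prime) (hpN : ¬ p ∣ N)
    (A : ValuationSubring Kb) (hA : A.LiesOverPrime p) : CoverValStatement (N * p) A p :=
  coverValStatement_of_scale hp hA (Fermat.Agent.T2.helper58.scaleStatement_bad N p hp hpN A hA)

end Fermat.Agent.T8.helper22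

end
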