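/-
T8 (row 38, S44, at risk), leaf [COVER-FIELD] (helper9, owner; second helper86).

**The cyclic cover `F' = F(Z)`, `Z ^ p = h`, `div h = p D`, as a function field of one variable:
places, orders, fibres, deck action.**

Algebra layer: `helper86_CoverAlg` (`IsKummerRoot`, `deck`, `coverLift`; the cover is the simple
extension `F⟮Z⟯ : IntermediateField F Ω`).  Place layer: the T6 Kummer-cover API
(`T6.helper9.IsKummerCover`), instantiated here on `F⟮Z⟯`.

Generic part (`K` algebraically closed of characteristic `0`, `F / K` a function field of one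
variable given by a transcendental `x` with `[F : K(x)] < ∞`, `Ω / F` any field extension):

* `deckK`                 : the deck transformation `Z ↦ ζ Z` as a `K`-automorphism of `F⟮Z⟯`;
* `isKummerCover`         : `T6.helper9.IsKummerCover p h D (gen) ζ (deckK ..)`;
* `cover_riemannSetting`  : `F⟮Z⟯` is a `RiemannSetting` (principal divisors, residue field `K`);
* `cover_d5`              : every valuation subring `≠ ⊤` of `F⟮Z⟯` containing `K` is a place;
* `cover_ord_algebraMap`  : `ord_w f = ord_(w ∩ F) f` for `f ∈ F` (the cover is UNRAMIFIED);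
* `cover_dvd_ord`         : `n ∣ div_F u  ⟹  n ∣ div_F' u`;
* `cover_ord_gen`         : `ord_w Z = D (w ∩ F)`;
* `cover_restrict_surjective`, `cover_exists_pow_smul_eq`, `cover_card_fiber` : over every place
  of `F` there are exactly `p` places of `F⟮Z⟯`, permuted simply transitively by the deck group;
* `cover_ord_deck`        : `ord_w (ρ f) = ord_(ρ⁻¹ w) f`;
* `cover_const`           : a valuation subring in which all integers `n ≠ 0` are invertible
                            contains the (algebraic) constants;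
* `CoverFieldStatement`   : the CONTRACT (all of the above in one Prop);
  `coverFieldStatement`   : its proof.

Instance `F = FF M` (`x = xJ M`), `Ω = ℚ̄((q))` : `coverFieldStatement_FF`, and the three
place-theoretic fields of `helper23.DictSetting` for the cover (`dictSetting_cover`, with the two
fields `orbit`, `gen` about the inertia action as hypotheses: they belong to [COVER-GAL]).
-/
import Mathlib
import Fermat.Agent.T6.helper9_CoverField
import Fermat.Agent.P2.helper62_DiscPlace
import Fermat.Agent.P2.helper74_RieInst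
import Fermat.Agent.T8.helper86_CoverAlg
import Fermat.Agent.T8.helper23_DictContract

set_option autoImplicit false
set_option linter.unusedSectionVars false
set_option linter.style.haveILetI false
set_option linter.unusedVariables false
set_option linter.style.longLine false

noncomputable section

namespace Fermat.Agent.T8.helper9

open AlgebraicCurve IntermediateField
open Fermat.Agent.P2.helper74 (RiemannSetting)

section Generic

variable {K F Ω : Type*} [Field K] [Field F] [Field Ω] [Algebra K F] [Algebra F Ω]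
  [Algebra K Ω] [IsScalarTower K F Ω]

variable {p : ℕ} {h : F} {Z : Ω}

/-- the deck transformation `Z ↦ ζ Z` of the cover as a `K`-algebra automorphism -/
def deckK (H : helper86.IsKummerRoot p h Z) (ζ : K) (hζ : ζ ^ p = 1) : F⟮Z⟯ ≃ₐ[K] F⟮Z⟯ :=
  (helper86.deck H (algebraMap K F ζ) (by rw [← map_pow, hζ, map_one])).restrictScalars K

theorem deckK_algebraMap (H : helper86.IsKummerRoot p h Z) (ζ : K) (hζ : ζ ^ p = 1) (f : F) :
    deckK H ζ hζ (algebraMap F F⟮Z⟯ f) = algebraMap F F⟮Z⟯ f :=
  (helper86.deck H (algebraMap K F ζ) (by rw [← map_pow, hζ, map_one])).commutes f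

theorem deckK_gen (H : helper86.IsKummerRoot p h Z) (ζ : K) (hζ : ζ ^ p = 1) :
    deckK H ζ hζ (AdjoinSimple.gen F Z) = algebraMap K F⟮Z⟯ ζ * AdjoinSimple.gen F Z := by
  have h1 := helper86.deck_gen H (algebraMap K F ζ) (by rw [← map_pow, hζ, map_one])
  rw [← IsScalarTower.algebraMap_apply] at h1
  exact h1

theorem deckK_apply (H : helper86.IsKummerRoot p h Z) (ζ : K) (hζ : ζ ^ p = 1) (y : F⟮Z⟯) :
    deckK H ζ hζ y
      = helper86.deck H (algebraMap K F ζ) (by rw [← map_pow, hζ, map_one]) y := rfl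

theorem finiteDimensional_cover (H : helper86.IsKummerRoot p h Z) :
    FiniteDimensional F F⟮Z⟯ :=
  adjoin.finiteDimensional H.isIntegral

/-- **the cover is a Kummer cover in the sense of T6** -/
theorem isKummerCover (H : helper86.IsKummerRoot p h Z) {D : Divisor K F}
    (hD : ∀ v : Place K F, v.ord h = p * D v) {ζ : K} (hζ : IsPrimitiveRoot ζ p) :
    Fermat.Agent.T6.helper9.IsKummerCover p h D (AdjoinSimple.gen F Z) ζ
      (deckK H ζ hζ.pow_eq_one) where
  two_le := H.prime.two_le
  h_ne := by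
    rintro rfl
    exact H.not_pow 0 (zero_pow H.prime.ne_zero)
  pow_eq := H.gen_pow
  ord_h := hD
  zeta := hζ
  tau_fix := deckK_algebraMap H ζ hζ.pow_eq_one
  tau_z := deckK_gen H ζ hζ.pow_eq_one

/-- the order at a conjugate place -/
theorem ord_algEquiv' {E : Type*} [Field E] [Algebra K E] (σ : E ≃ₐ[K] E) (w : Place K E)
    (f : E) : w.ord (σ f) = (σ⁻¹ • w).ord f := by
  have h1 := Place.ord_smul σ (σ⁻¹ • w) f
  rw [smul_inv_smul] at h1
  exact h1

end Generic

section Curve

variable {K F Ω : Type*} [Field K] [Field F] [Field Ω] [Algebra K F] [Algebra F Ω]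
  [Algebra K Ω] [IsScalarTower K F Ω] [IsAlgClosed K] [CharZero K]

variable {p : ℕ} {h : F} {Z : Ω}

variable (x : F) (hx : Transcendental K x) [FiniteDimensional K⟮x⟯ F]

omit [FiniteDimensional K⟮x⟯ F] in
/-- a primitive `p`-th root of unity among the constants -/
theorem exists_primitiveRoot_const (hp : p.Prime) : ∃ ζ : K, IsPrimitiveRoot ζ p := by
  haveI : NeZero p := ⟨hp.ne_zero⟩
  haveI : NeZero (p : K) := ⟨by exact_mod_cast hp.ne_zero⟩
  exact HasEnoughRootsOfUnity.exists_primitiveRoot K p

include hx in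
/-- **the cover is a function field of one variable** (`RiemannSetting`) -/
theorem cover_riemannSetting (H : helper86.IsKummerRoot p h Z) : RiemannSetting K F⟮Z⟯ :=
  haveI := finiteDimensional_cover H
  Fermat.Agent.T6.helper9.riemannSetting_cover (F' := F⟮Z⟯) x hx

include hx in
theorem cover_hasPrincipalDivisors (H : helper86.IsKummerRoot p h Z) :
    HasPrincipalDivisors K F⟮Z⟯ :=
  haveI := finiteDimensional_cover H
  Fermat.Agent.T6.helper9.hasPrincipalDivisors_cover (F' := F⟮Z⟯) x hx

include hx in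
/-- **(D5) on the cover**: every valuation subring `≠ ⊤` containing the constants is a place -/
theorem cover_d5 (H : helper86.IsKummerRoot p h Z) (V : ValuationSubring F⟮Z⟯)
    (hK : ∀ a : K, algebraMap K F⟮Z⟯ a ∈ V) (hV : V ≠ ⊤) :
    ∃ 𝔓 : Place K F⟮Z⟯, 𝔓.toValuationSubring = V :=
  haveI := finiteDimensional_cover H
  haveI := Fermat.Agent.T6.helper9.finiteDimensional_adjoin_of_tower (K := K) (F' := F⟮Z⟯) x
  Fermat.Agent.P2.helper62.exists_place_of_valuationSubring (algebraMap F F⟮Z⟯ x)
    (Fermat.Agent.T6.helper9.transcendental_algebraMap_of_transcendental hx) V hK hV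

include hx in
/-- the residue field of every place of the cover is `K` -/
theorem cover_residue (H : helper86.IsKummerRoot p h Z) (v : Place K F⟮Z⟯) (f : F⟮Z⟯)
    (hf : 0 ≤ v.ord f) :
    ∃ a : K, f = algebraMap K F⟮Z⟯ a ∨ 0 < v.ord (f - algebraMap K F⟮Z⟯ a) :=
  (cover_riemannSetting x hx H).residue v f hf

variable (hS : RiemannSetting K F) [FiniteDimensional F F⟮Z⟯]

include hx hS in
/-- **the cover is unramified**: orders of elements of `F` are unchanged -/
theorem cover_ord_algebraMap (H : helper86.IsKummerRoot p h Z) {D : Divisor K F}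
    (hD : ∀ v : Place K F, v.ord h = p * D v) (w : Place K F⟮Z⟯) (f : F) :
    w.ord (algebraMap F F⟮Z⟯ f) = (w.restrict F).ord f := by
  haveI := cover_hasPrincipalDivisors x hx H
  haveI := Fermat.Agent.T6.helper9.fundamentalIdentity_cover (F' := F⟮Z⟯) x hx
  obtain ⟨ζ, hζ⟩ := exists_primitiveRoot_const (K := K) H.prime
  exact (isKummerCover H hD hζ).ord_algebraMap hS (cover_riemannSetting x hx H) H.finrank_eq w f

include hx hS in
/-- `n ∣ div_F u ⟹ n ∣ div_F' u` -/
theorem cover_dvd_ord (H : helper86.IsKummerRoot p h Z) {D : Divisor K F}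
    (hD : ∀ v : Place K F, v.ord h = p * D v) {n : ℤ} {u : F}
    (hu : ∀ v : Place K F, n ∣ v.ord u) (w : Place K F⟮Z⟯) :
    n ∣ w.ord (algebraMap F F⟮Z⟯ u) := by
  rw [cover_ord_algebraMap x hx hS H hD w u]
  exact hu _

include hx hS in
/-- the order of the generator: `ord_w Z = D (w ∩ F)` -/
theorem cover_ord_gen (H : helper86.IsKummerRoot p h Z) {D : Divisor K F}
    (hD : ∀ v : Place K F, v.ord h = p * D v) (w : Place K F⟮Z⟯) :
    w.ord (AdjoinSimple.gen F Z) = D (w.restrict F) := by
  haveI := cover_hasPrincipalDivisors x hx H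
  haveI := Fermat.Agent.T6.helper9.fundamentalIdentity_cover (F' := F⟮Z⟯) x hx
  obtain ⟨ζ, hζ⟩ := exists_primitiveRoot_const (K := K) H.prime
  exact (isKummerCover H hD hζ).ord_z_eq hS (cover_riemannSetting x hx H) H.finrank_eq w

include hx hS in
/-- every place of `F` lies under a place of the cover -/
theorem cover_restrict_surjective (H : helper86.IsKummerRoot p h Z) {D : Divisor K F}
    (hD : ∀ v : Place K F, v.ord h = p * D v) (v : Place K F) :
    ∃ w : Place K F⟮Z⟯, w.restrict F = v := by
  haveI := cover_hasPrincipalDivisors x hx H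
  haveI := Fermat.Agent.T6.helper9.fundamentalIdentity_cover (F' := F⟮Z⟯) x hx
  obtain ⟨ζ, hζ⟩ := exists_primitiveRoot_const (K := K) H.prime
  exact (isKummerCover H hD hζ).restrict_surjective hS (cover_riemannSetting x hx H)
    H.finrank_eq v

include hx hS in
/-- two places of the cover over the same place of `F` are conjugate under the deck group -/
theorem cover_exists_pow_smul_eq (H : helper86.IsKummerRoot p h Z) {D : Divisor K F}
    (hD : ∀ v : Place K F, v.ord h = p * D v) {ζ : K} (hζ : IsPrimitiveRoot ζ p)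
    {w w' : Place K F⟮Z⟯} (hww' : w.restrict F = w'.restrict F) :
    ∃ i ∈ Finset.range p, (deckK H ζ hζ.pow_eq_one) ^ i • w = w' := by
  haveI := cover_hasPrincipalDivisors x hx H
  haveI := Fermat.Agent.T6.helper9.fundamentalIdentity_cover (F' := F⟮Z⟯) x hx
  exact (isKummerCover H hD hζ).exists_pow_smul_eq hS (cover_riemannSetting x hx H)
    H.finrank_eq hww'

include hx hS in
/-- the deck group acts freely on the places -/
theorem cover_pow_smul_injOn (H : helper86.IsKummerRoot p h Z) {D : Divisor K F}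
    (hD : ∀ v : Place K F, v.ord h = p * D v) {ζ : K} (hζ : IsPrimitiveRoot ζ p)
    (w : Place K F⟮Z⟯) :
    Set.InjOn (fun i : ℕ => (deckK H ζ hζ.pow_eq_one) ^ i • w) (Finset.range p : Set ℕ) := by
  haveI := cover_hasPrincipalDivisors x hx H
  haveI := Fermat.Agent.T6.helper9.fundamentalIdentity_cover (F' := F⟮Z⟯) x hx
  exact (isKummerCover H hD hζ).pow_smul_injOn' hS (cover_riemannSetting x hx H)
    H.finrank_eq w

include hx hS in
/-- the fibres have exactly `p` elements -/
theorem cover_card_fiber [HasPrincipalDivisors K F⟮Z⟯] (H : helper86.IsKummerRoot p h Z)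
    {D : Divisor K F} (hD : ∀ v : Place K F, v.ord h = p * D v) (v : Place K F) :
    (v.fiber F⟮Z⟯).card = p := by
  haveI := Fermat.Agent.T6.helper9.fundamentalIdentity_cover (F' := F⟮Z⟯) x hx
  obtain ⟨ζ, hζ⟩ := exists_primitiveRoot_const (K := K) H.prime
  exact (isKummerCover H hD hζ).card_fiber hS (cover_riemannSetting x hx H) H.finrank_eq v

/-- the deck transformation preserves the place below -/
theorem cover_restrict_deck (H : helper86.IsKummerRoot p h Z) {D : Divisor K F}
    (hD : ∀ v : Place K F, v.ord h = p * D v) {ζ : K} (hζ : IsPrimitiveRoot ζ p)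
    (w : Place K F⟮Z⟯) :
    ((deckK H ζ hζ.pow_eq_one) • w).restrict F = w.restrict F :=
  (isKummerCover H hD hζ).restrict_smul w

/-- orders and the deck transformation -/
theorem cover_ord_deck (H : helper86.IsKummerRoot p h Z) (ζ : K) (hζ : ζ ^ p = 1)
    (w : Place K F⟮Z⟯) (f : F⟮Z⟯) :
    w.ord (deckK H ζ hζ f) = ((deckK H ζ hζ)⁻¹ • w).ord f :=
  ord_algEquiv' _ w f

end Curve

/-! ### Constants -/

section Const

open Fermat.Agent.S18.helper19

/-- **constants are algebraic**: a valuation subring (of any field over `ℚ̄`) in which every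
integer `n ≠ 0` is invertible contains the constants. -/
theorem const_mem_of_inv_mem {E : Type*} [Field E] [Algebra Kb E] (V : ValuationSubring E)
    (hV : ∀ n : ℕ, n ≠ 0 → ((n : E))⁻¹ ∈ V) (c : Kb) : algebraMap Kb E c ∈ V := by
  haveI : Algebra.IsAlgebraic ℚ Kb := AlgebraicClosure.isAlgebraic ℚ
  have hcQ : IsAlgebraic ℚ c := Algebra.IsAlgebraic.isAlgebraic c
  have hcZ : IsAlgebraic ℤ c := (IsFractionRing.isAlgebraic_iff ℤ ℚ Kb).mpr hcQ
  obtain ⟨y, hy0, hy⟩ := hcZ.exists_integral_multiple
  -- `y • c` maps to an element of `V`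
  have h1 : IsIntegral ℤ (algebraMap Kb E (y • c)) := hy.map (Algebra.ofId Kb E).toIntAlgHom
  have h2 : IsIntegral V (algebraMap Kb E (y • c)) := h1.tower_top
  obtain ⟨z, hz⟩ := IsIntegrallyClosed.isIntegral_iff.mp h2
  have h3 : algebraMap Kb E (y • c) ∈ V := hz ▸ z.2
  -- `y⁻¹ ∈ V`
  have hyE : ((y : ℤ) : E)⁻¹ ∈ V := by
    obtain ⟨n, hn⟩ : ∃ n : ℕ, y = n ∨ y = -n := ⟨y.natAbs, Int.natAbs_eq y⟩
    have hn0 : n ≠ 0 := by
      rintro rfl
      rcases hn with h | h
      · exact hy0 (by simpa using h)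
      · exact hy0 (by simpa using h)
    have h4 := hV n hn0
    rcases hn with h | h
    · rw [h, Int.cast_natCast]
      exact h4
    · rw [h, Int.cast_neg, Int.cast_natCast, inv_neg]
      exact V.neg_mem _ h4
  have hchar : ((y : ℤ) : E) ≠ 0 := by
    haveI : CharZero E := charZero_of_injective_algebraMap (algebraMap Kb E).injective
    exact_mod_cast hy0
  have h6 : algebraMap Kb E c = ((y : ℤ) : E)⁻¹ * algebraMap Kb E (y • c) := by
    rw [zsmul_eq_mul, map_mul, map_intCast, ← mul_assoc, inv_mul_cancel₀ hchar, one_mul]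
  rw [h6]
  exact V.mul_mem _ _ hyE h3

end Const

/-! ### The instance `F = FF M` -/

section Modular

open Fermat.Agent.S18.helper19 ModularCurve

variable (M : ℕ) [NeZero M] {p : ℕ} {h : FF M} {Z : LaurentSeries Kb}

/-- the cover of `X₀(M)` is a `RiemannSetting` -/
theorem riemannSetting_coverFF (H : helper86.IsKummerRoot p h Z) :
    RiemannSetting Kb (FF M)⟮Z⟯ :=
  haveI := Fermat.Agent.S24.helper77.an_finiteDimensional M
  cover_riemannSetting (Fermat.Agent.S24.xJ M) (Fermat.Agent.S24.helper77.an_transcendental M) H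

theorem hasPrincipalDivisors_coverFF (H : helper86.IsKummerRoot p h Z) :
    HasPrincipalDivisors Kb (FF M)⟮Z⟯ :=
  haveI := Fermat.Agent.S24.helper77.an_finiteDimensional M
  cover_hasPrincipalDivisors (Fermat.Agent.S24.xJ M)
    (Fermat.Agent.S24.helper77.an_transcendental M) H

/-- (D5) on the cover of `X₀(M)` -/
theorem d5_coverFF (H : helper86.IsKummerRoot p h Z) (V : ValuationSubring (FF M)⟮Z⟯)
    (hK : ∀ a : Kb, algebraMap Kb (FF M)⟮Z⟯ a ∈ V) (hV : V ≠ ⊤) :
    ∃ 𝔓 : Place Kb (FF M)⟮Z⟯, 𝔓.toValuationSubring = V :=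
  haveI := Fermat.Agent.S24.helper77.an_finiteDimensional M
  cover_d5 (Fermat.Agent.S24.xJ M) (Fermat.Agent.S24.helper77.an_transcendental M) H V hK hV

variable [FiniteDimensional (FF M) (FF M)⟮Z⟯]

/-- **the cover of `X₀(M)` is unramified** -/
theorem ord_algebraMap_coverFF (H : helper86.IsKummerRoot p h Z) {D : Divisor Kb (FF M)}
    (hD : ∀ v : Place Kb (FF M), v.ord h = p * D v) (w : Place Kb (FF M)⟮Z⟯) (f : FF M) :
    w.ord (algebraMap (FF M) (FF M)⟮Z⟯ f) = (w.restrict (FF M)).ord f :=
  haveI := Fermat.Agent.S24.helper77.an_finiteDimensional M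
  cover_ord_algebraMap (Fermat.Agent.S24.xJ M) (Fermat.Agent.S24.helper77.an_transcendental M)
    (Fermat.Agent.P2.helper74.riemannSetting_FF M) H hD w f

/-- `n ∣ div u` on `X₀(M)` implies `n ∣ div u` on the cover -/
theorem dvd_ord_coverFF (H : helper86.IsKummerRoot p h Z) {D : Divisor Kb (FF M)}
    (hD : ∀ v : Place Kb (FF M), v.ord h = p * D v) {n : ℤ} {u : FF M}
    (hu : ∀ v : Place Kb (FF M), n ∣ v.ord u) (w : Place Kb (FF M)⟮Z⟯) :
    n ∣ w.ord (algebraMap (FF M) (FF M)⟮Z⟯ u) :=
  haveI := Fermat.Agent.S24.helper77.an_finiteDimensional M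
  cover_dvd_ord (Fermat.Agent.S24.xJ M) (Fermat.Agent.S24.helper77.an_transcendental M)
    (Fermat.Agent.P2.helper74.riemannSetting_FF M) H hD hu w

/-- the order of the generator `Z` on the cover of `X₀(M)` -/
theorem ord_gen_coverFF (H : helper86.IsKummerRoot p h Z) {D : Divisor Kb (FF M)}
    (hD : ∀ v : Place Kb (FF M), v.ord h = p * D v) (w : Place Kb (FF M)⟮Z⟯) :
    w.ord (AdjoinSimple.gen (FF M) Z) = D (w.restrict (FF M)) :=
  haveI := Fermat.Agent.S24.helper77.an_finiteDimensional M
  cover_ord_gen (Fermat.Agent.S24.xJ M) (Fermat.Agent.S24.helper77.an_transcendental M)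
    (Fermat.Agent.P2.helper74.riemannSetting_FF M) H hD w

/-- every place of `X₀(M)` lies under a place of the cover -/
theorem restrict_surjective_coverFF (H : helper86.IsKummerRoot p h Z) {D : Divisor Kb (FF M)}
    (hD : ∀ v : Place Kb (FF M), v.ord h = p * D v) (v : Place Kb (FF M)) :
    ∃ w : Place Kb (FF M)⟮Z⟯, w.restrict (FF M) = v :=
  haveI := Fermat.Agent.S24.helper77.an_finiteDimensional M
  cover_restrict_surjective (Fermat.Agent.S24.xJ M)
    (Fermat.Agent.S24.helper77.an_transcendental M)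
    (Fermat.Agent.P2.helper74.riemannSetting_FF M) H hD v

/-- the deck group is transitive on the fibres -/
theorem exists_pow_smul_eq_coverFF (H : helper86.IsKummerRoot p h Z) {D : Divisor Kb (FF M)}
    (hD : ∀ v : Place Kb (FF M), v.ord h = p * D v) {ζ : Kb} (hζ : IsPrimitiveRoot ζ p)
    {w w' : Place Kb (FF M)⟮Z⟯} (hww' : w.restrict (FF M) = w'.restrict (FF M)) :
    ∃ i ∈ Finset.range p, (deckK H ζ hζ.pow_eq_one) ^ i • w = w' :=
  haveI := Fermat.Agent.S24.helper77.an_finiteDimensional M
  cover_exists_pow_smul_eq (Fermat.Agent.S24.xJ M)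
    (Fermat.Agent.S24.helper77.an_transcendental M)
    (Fermat.Agent.P2.helper74.riemannSetting_FF M) H hD hζ hww'

/-- the deck group acts freely on the places of the cover -/
theorem pow_smul_injOn_coverFF (H : helper86.IsKummerRoot p h Z) {D : Divisor Kb (FF M)}
    (hD : ∀ v : Place Kb (FF M), v.ord h = p * D v) {ζ : Kb} (hζ : IsPrimitiveRoot ζ p)
    (w : Place Kb (FF M)⟮Z⟯) :
    Set.InjOn (fun i : ℕ => (deckK H ζ hζ.pow_eq_one) ^ i • w) (Finset.range p : Set ℕ) :=
  haveI := Fermat.Agent.S24.helper77.an_finiteDimensional M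
  cover_pow_smul_injOn (Fermat.Agent.S24.xJ M)
    (Fermat.Agent.S24.helper77.an_transcendental M)
    (Fermat.Agent.P2.helper74.riemannSetting_FF M) H hD hζ w

omit [FiniteDimensional (FF M) (FF M)⟮Z⟯] in
/-- **the place-theoretic fields of `helper23.DictSetting` for the cover**; the two fields about
the automorphisms `Φ` (`orbit`, `gen`) are hypotheses: they belong to [COVER-GAL]. -/
theorem dictSetting_cover (H : helper86.IsKummerRoot p h Z) (Φ : Set ((FF M)⟮Z⟯ ≃+* (FF M)⟮Z⟯))
    (horbit : ∀ c : Kb, ∃ S : Finset Kb, c ∈ S ∧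
      ∀ g ∈ Φ, ∀ b ∈ S, ∃ b' ∈ S,
        g (algebraMap Kb (FF M)⟮Z⟯ b) = algebraMap Kb (FF M)⟮Z⟯ b')
    (hgen : ∀ t : (FF M)⟮Z⟯, t ∈ Subfield.closure
      (Set.range (algebraMap Kb (FF M)⟮Z⟯) ∪ {f : (FF M)⟮Z⟯ | ∀ g ∈ Φ, g f = f})) :
    Fermat.Agent.T8.helper23.DictSetting Kb (FF M)⟮Z⟯ Φ where
  d5 := d5_coverFF M H
  residue := (riemannSetting_coverFF M H).residue
  orbit := horbit
  gen := hgen
  const := fun V hV c => const_mem_of_inv_mem V hV c

end Modular

end Fermat.Agent.T8.helper9

end
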