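import Fermat.Agent.T8.helper29_ConclSheet2
import Fermat.Agent.T8.helper88_CoverGalInst
import Fermat.Agent.T8.helper22_CoverValVG
import Fermat.Agent.T8.helper83_DescContract
import Fermat.Agent.T8.helper9_CoverField
import Fermat.Agent.T3.helper84_K0Zeta

/-!
# T8 = row 38 via S44, leaf [CONCL] (helper29, owner): wiring on the cover

`D : helper88.CovData M W A p` (the cover `F' = Cov M D.Z = F(Z₁)`, the inertia action `D.act`,
the deck map `D.rho`, the second sheet `D.sheet2`), `helper83.DescOutput` (the functions `u'`,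
`h`, `g₁` of [DESC]), `helper22` ([COVER-VAL]: scalings on the sheet fields and their constants).

* `isVal_of_zeta`        : `c = (1 - ζ) ^ m * unit` gives `IsVal A p c m`;
* `exists_scaling_fixed` : a nonzero element of a sheet field which is fixed by `I_K1` has a
                           scaling with a constant of tame valuation;
* `sheet2_mem`           : the second sheet maps the cover into the sheet field `F(Z₂)`;
* `sheetFam_one`, `sheetFam_two` : the two sheet families `SheetFam` of `u'`, `g₁⁻¹`;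
* `SlopeCoverStatement`  : **the open input** = the K1-corollary on the cover ([SLOPE] on `X'`);
* `slopeOutN_of_descOutput` : `DescOutput` + `SlopeCoverStatement` ⟹ `SlopeOutN`.
-/

set_option autoImplicit false
set_option linter.unusedSectionVars false
set_option linter.unusedVariables false
set_option linter.style.longLine false
set_option linter.style.haveILetI false

noncomputable section

namespace Fermat.Agent.T8.helper29

open HahnSeries IntermediateField AlgebraicCurve ModularCurve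
open Fermat.Agent.S18.helper19 Fermat.Agent.P2.helper29 Fermat.Agent.P2.helper93
open Fermat.Agent.T8.helper65 Fermat.Agent.T8.helper80
open Fermat.Agent.T8.helper54 (IsRed1 DvdOff ModEqOff)
open Fermat.Agent.T3.helper36 (RhoQ)
open Fermat.Agent.T8.helper88 (CovData Cov)
open Fermat.Agent.T8.helper22 (SheetGood SheetAtt SheetVG)
open Fermat.Agent.T8.helper86 (IsKummerRoot)
open Fermat.Agent.T8.helper98 (IsIK1)

variable {A : ValuationSubring Kb}

/-! ### Constants -/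

/-- `c = (1 - ζ) ^ m * unit` gives `(p - 1) v(c) = m v(p)` -/
theorem isVal_of_zeta {p : ℕ} (hp : p.Prime) {ζ : Kb} (hζ : IsPrimitiveRoot ζ p) {c : Kb}
    {m : ℤ} (hc : c ≠ 0) (h1 : c / (1 - ζ) ^ m ∈ A) (h2 : (1 - ζ) ^ m / c ∈ A) :
    IsVal A p c m := by
  have hζ1 : (1 - ζ) ≠ 0 := by
    intro h
    have : ζ = 1 := (sub_eq_zero.mp h).symm
    exact hp.one_lt.ne' (hζ.eq_orderOf.trans (by rw [this, orderOf_one]))
  have hπm : (1 - ζ) ^ m ≠ 0 := zpow_ne_zero _ hζ1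
  have hu : A.valuation (c / (1 - ζ) ^ m) = 1 := isU_div_of_mem hc hπm h1 h2
  have hv := Fermat.Agent.T3.helper84.k0_zeta_val hp A hζ
  have hp0 : ((p : ℕ) : Kb) ≠ 0 := Nat.cast_ne_zero.mpr hp.ne_zero
  have hvp : A.valuation ((p : ℕ) : Kb) ≠ 0 := (Valuation.ne_zero_iff _).mpr hp0
  have hvc : A.valuation c = A.valuation (1 - ζ) ^ m := by
    rw [map_div₀, map_zpow₀] at hu
    have hne : A.valuation (1 - ζ) ^ m ≠ 0 :=
      zpow_ne_zero _ ((Valuation.ne_zero_iff _).mpr hζ1)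
    exact (div_eq_one_iff_eq hne).mp hu
  show A.valuation (c ^ (p - 1) / (p : Kb) ^ m) = 1
  rw [map_div₀, map_pow, map_zpow₀, hvc, ← hv, ← zpow_natCast (A.valuation (1 - ζ) ^ m),
    ← zpow_mul, ← zpow_natCast (A.valuation (1 - ζ)), ← zpow_mul, mul_comm m]
  exact div_self (zpow_ne_zero _ ((Valuation.ne_zero_iff _).mpr hζ1))

theorem isIK1_iff_mem {p : ℕ} {σ : Kb ≃ₐ[ℚ] Kb} : σ ∈ muFix p ⊓ IA A ↔ IsIK1 A p σ := by
  rw [Subgroup.mem_inf]
  exact ⟨fun h => ⟨h.2, h.1⟩, fun h => ⟨h.2, h.1⟩⟩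

section Sheet

variable {M : ℕ} [NeZero M] {p : ℕ}

/-- **scalings with tame constants**: a nonzero element of the sheet field `F(Z)` which is
coefficientwise fixed by `I_K1` has a scaling whose constant `γ` satisfies `IsVal A p γ e`. -/
theorem exists_scaling_fixed (hp : p.Prime) (hA : A.LiesOverPrime p)
    (hSc : ScaleStatement M A) {ζ : Kb} (hζ : IsPrimitiveRoot ζ p)
    (Z : LaurentSeries A) (hZ : incl A Z ^ p ∈ FF M) {G : LaurentSeries Kb}
    (hG : G ∈ (FF M)⟮incl A Z⟯) (hG0 : G ≠ 0)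
    (hfix : ∀ σ : Kb ≃ₐ[ℚ] Kb, IsIK1 A p σ → coeffMap (σ : Kb →+* Kb) G = G) :
    ∃ (γ : Kb) (rg : LaurentSeries (kA A)) (eg : ℤ), γ ≠ 0 ∧ rg ≠ 0 ∧
      HasRed (SheetGood M A (incl A Z)) γ G rg ∧ IsVal A p γ eg := by
  obtain ⟨γ, rg, hγ, hrg, hred⟩ :=
    Fermat.Agent.T8.helper22.sheetAtt hSc hp.ne_zero Z hZ G hG hG0
  obtain ⟨m, h1, h2⟩ :=
    Fermat.Agent.T8.helper22.sheetVG_muFix hp hA hζ hp.ne_zero (incl A Z) hZ G γ rg hγ hred
      (fun σ hσ => hfix σ (isIK1_iff_mem.mp hσ))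
  exact ⟨γ, rg, m, hγ, hrg, hred, isVal_of_zeta hp hζ hγ h1 h2⟩

/-- scalings exist on a sheet field -/
theorem exists_scaling (hp : p.Prime) (hSc : ScaleStatement M A)
    (Z : LaurentSeries A) (hZ : incl A Z ^ p ∈ FF M) {G : LaurentSeries Kb}
    (hG : G ∈ (FF M)⟮incl A Z⟯) (hG0 : G ≠ 0) :
    ∃ (γ : Kb) (rg : LaurentSeries (kA A)), γ ≠ 0 ∧ rg ≠ 0 ∧
      HasRed (SheetGood M A (incl A Z)) γ G rg :=
  Fermat.Agent.T8.helper22.sheetAtt hSc hp.ne_zero Z hZ G hG hG0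

end Sheet


/-! ### The cover -/

section Cover

variable {M : ℕ} [NeZero M] {W : FF M ≃ₐ[Kb] FF M} {p : ℕ} (D : CovData M W A p)

theorem Z_pow_mem : incl A D.Z₁ ^ p ∈ FF M := by
  rw [D.h1]
  exact D.K.2

theorem Z'_pow_mem : incl A D.Z₂ ^ p ∈ FF M := by
  rw [D.h2]
  exact (W D.K).2

/-- the inertia group maps `Z₂` into the sheet field `F(Z₂)` -/
theorem root2_mem (σ : Kb ≃ₐ[ℚ] Kb) (hσ : σ ∈ A.inertiaSubgroupIn ℚ) :
    coeffMap (σ : Kb →+* Kb) D.Z' ∈ (FF M)⟮D.Z'⟯ := by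
  obtain ⟨a, hap, hζ⟩ := Fermat.Agent.T8.helper88.exists_cyclo_exp_le D.hp σ
  obtain ⟨w, -, -, hw2⟩ := D.pair σ hσ a hap hζ
  show coeffMap (σ : Kb →+* Kb) (incl A D.Z₂) ∈ _
  rw [hw2]
  exact mul_mem ((FF M)⟮D.Z'⟯.algebraMap_mem (W w))
    (pow_mem (mem_adjoin_simple_self (FF M) D.Z') a)

theorem goodClass_one : GoodClass A (SheetGood M A D.Z) :=
  Fermat.Agent.T8.helper22.goodClass_sheetGood D.hp.ne_zero D.Z (Z_pow_mem D)
    (fun σ hσ => D.root_mem σ hσ)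

theorem goodClass_two : GoodClass A (SheetGood M A D.Z') :=
  Fermat.Agent.T8.helper22.goodClass_sheetGood D.hp.ne_zero D.Z' (Z'_pow_mem D)
    (fun σ hσ => root2_mem D σ hσ)

variable (hKum : IsKummerRoot p D.K D.Z)

/-- the second sheet maps the cover into the sheet field `F(Z₂)` -/
theorem sheet2_mem (x : Cov M D.Z) : D.sheet2 hKum x ∈ (FF M)⟮D.Z'⟯ := by
  obtain ⟨c, rfl⟩ := hKum.exists_sum_pow x
  rw [map_sum]
  refine sum_mem fun i _ => ?_
  rw [map_mul, map_pow]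
  have h1 : D.sheet2 hKum (algebraMap (FF M) (Cov M D.Z) (c i)) =
      ((W (c i) : FF M) : LaurentSeries Kb) := D.sheet2_algebraMap hKum (c i)
  have h2 : D.sheet2 hKum (AdjoinSimple.gen (FF M) D.Z) = D.Z' := D.sheet2_gen hKum
  rw [h1, h2]
  exact mul_mem ((FF M)⟮D.Z'⟯.algebraMap_mem (W (c i)))
    (pow_mem (mem_adjoin_simple_self (FF M) D.Z') i)

end Cover


/-! ### The sheets -/

section Fam

variable {M : ℕ} [NeZero M] {W : FF M ≃ₐ[Kb] FF M} {p : ℕ} (D : CovData M W A p)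
  (hKum : IsKummerRoot p D.K D.Z) (ζ : Kb) (hζp : ζ ^ p = 1)

/-- the sheet `(1, i)` of the cover: `ι₁ ∘ ρ ^ i` -/
def sh1 (i : ℕ) : Cov M D.Z →+* LaurentSeries Kb :=
  ((Cov M D.Z).val : Cov M D.Z →+* LaurentSeries Kb).comp
    (((D.rho hKum ζ hζp) ^ i : Cov M D.Z ≃ₐ[FF M] Cov M D.Z) : Cov M D.Z →+* Cov M D.Z)

/-- the sheet `(2, j)` of the cover: `ι₂ ∘ ρ ^ j` -/
def sh2 (j : ℕ) : Cov M D.Z →+* LaurentSeries Kb :=
  (D.sheet2 hKum).comp
    (((D.rho hKum ζ hζp) ^ j : Cov M D.Z ≃ₐ[FF M] Cov M D.Z) : Cov M D.Z →+* Cov M D.Z)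

theorem sh1_apply (i : ℕ) (x : Cov M D.Z) :
    sh1 D hKum ζ hζp i x = ((((D.rho hKum ζ hζp) ^ i) x : Cov M D.Z) : LaurentSeries Kb) := rfl

theorem sh2_apply (j : ℕ) (x : Cov M D.Z) :
    sh2 D hKum ζ hζp j x = D.sheet2 hKum (((D.rho hKum ζ hζp) ^ j) x) := rfl

theorem sh1_zero (x : Cov M D.Z) : sh1 D hKum ζ hζp 0 x = (x : LaurentSeries Kb) := rfl

theorem sh1_mem (i : ℕ) (x : Cov M D.Z) : sh1 D hKum ζ hζp i x ∈ (FF M)⟮D.Z⟯ :=
  (((D.rho hKum ζ hζp) ^ i) x).2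

theorem sh2_mem (j : ℕ) (x : Cov M D.Z) : sh2 D hKum ζ hζp j x ∈ (FF M)⟮D.Z'⟯ :=
  sheet2_mem D hKum _

theorem sh1_ne_zero (i : ℕ) {x : Cov M D.Z} (hx : x ≠ 0) : sh1 D hKum ζ hζp i x ≠ 0 :=
  (map_ne_zero (sh1 D hKum ζ hζp i)).mpr hx

theorem sh2_ne_zero (j : ℕ) {x : Cov M D.Z} (hx : x ≠ 0) : sh2 D hKum ζ hζp j x ≠ 0 :=
  (map_ne_zero (sh2 D hKum ζ hζp j)).mpr hx

theorem sh1_succ (i : ℕ) (x : Cov M D.Z) :
    sh1 D hKum ζ hζp (i + 1) x = sh1 D hKum ζ hζp i (D.rho hKum ζ hζp x) := by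
  rw [sh1_apply, sh1_apply, pow_succ, AlgEquiv.mul_apply]

theorem sh2_succ (j : ℕ) (x : Cov M D.Z) :
    sh2 D hKum ζ hζp (j + 1) x = sh2 D hKum ζ hζp j (D.rho hKum ζ hζp x) := by
  rw [sh2_apply, sh2_apply, pow_succ, AlgEquiv.mul_apply]

theorem sh1_const (i : ℕ) (c : Kb) :
    sh1 D hKum ζ hζp i (algebraMap (FF M) (Cov M D.Z) (algebraMap Kb (FF M) c)) =
      algebraMap Kb (LaurentSeries Kb) c := by
  rw [sh1_apply, AlgEquiv.commutes]
  rfl

theorem sh2_const (j : ℕ) (c : Kb) :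
    sh2 D hKum ζ hζp j (algebraMap (FF M) (Cov M D.Z) (algebraMap Kb (FF M) c)) =
      algebraMap Kb (LaurentSeries Kb) c := by
  rw [sh2_apply, AlgEquiv.commutes, D.sheet2_algebraMap hKum, AlgEquiv.commutes]
  rfl

/-- the sheets `(1, i)` commute with the action of the inertia group -/
theorem sh1_fixed (i : ℕ) {x : Cov M D.Z}
    (hx : ∀ σ : Kb ≃ₐ[ℚ] Kb, IsIK1 A p σ →
      coeffMap (σ : Kb →+* Kb) (x : LaurentSeries Kb) = (x : LaurentSeries Kb))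
    (σ : Kb ≃ₐ[ℚ] Kb) (hσ : IsIK1 A p σ) :
    coeffMap (σ : Kb →+* Kb) (sh1 D hKum ζ hζp i x) = sh1 D hKum ζ hζp i x := by
  have h1 : D.act σ hσ.1 x = x := Subtype.ext (hx σ hσ)
  rw [sh1_apply, ← D.sheet1_pow_act hKum ζ hζp σ hσ.1 i x, h1]

/-- the sheets `(2, j)` commute with the action of the inertia group -/
theorem sh2_fixed (j : ℕ) {x : Cov M D.Z}
    (hx : ∀ σ : Kb ≃ₐ[ℚ] Kb, IsIK1 A p σ →
      coeffMap (σ : Kb →+* Kb) (x : LaurentSeries Kb) = (x : LaurentSeries Kb))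
    (σ : Kb ≃ₐ[ℚ] Kb) (hσ : IsIK1 A p σ) :
    coeffMap (σ : Kb →+* Kb) (sh2 D hKum ζ hζp j x) = sh2 D hKum ζ hζp j x := by
  have h1 : D.act σ hσ.1 x = x := Subtype.ext (hx σ hσ)
  rw [sh2_apply, ← D.sheet2_pow_act hKum ζ hζp σ hσ.1 j x, h1]

/-- fixed elements are stable under inversion -/
theorem fixed_inv {x : Cov M D.Z}
    (hx : ∀ σ : Kb ≃ₐ[ℚ] Kb, IsIK1 A p σ →
      coeffMap (σ : Kb →+* Kb) (x : LaurentSeries Kb) = (x : LaurentSeries Kb))
    (σ : Kb ≃ₐ[ℚ] Kb) (hσ : IsIK1 A p σ) :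
    coeffMap (σ : Kb →+* Kb) ((x⁻¹ : Cov M D.Z) : LaurentSeries Kb) =
      ((x⁻¹ : Cov M D.Z) : LaurentSeries Kb) := by
  have h1 : D.act σ hσ.1 x = x := Subtype.ext (hx σ hσ)
  have h2 : D.act σ hσ.1 x⁻¹ = x⁻¹ := by rw [map_inv₀, h1]
  exact congrArg (fun z : Cov M D.Z => (z : LaurentSeries Kb)) h2

/-- the relation of [DESC] on the sheets -/
theorem sh_rel (φ : ℕ → Cov M D.Z →+* LaurentSeries Kb)
    (hsucc : ∀ i x, φ (i + 1) x = φ i (D.rho hKum ζ hζp x))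
    (hconst : ∀ i c, φ i (algebraMap (FF M) (Cov M D.Z) (algebraMap Kb (FF M) c)) =
      algebraMap Kb (LaurentSeries Kb) c)
    {u' g₁ : Cov M D.Z} (hg : g₁ ≠ 0) {a : Kb}
    (hdeck : D.rho hKum ζ hζp u' * algebraMap (FF M) (Cov M D.Z) (algebraMap Kb (FF M) a)
      = g₁ ^ p * u') (i : ℕ) :
    φ (i + 1) u' * (algebraMap Kb (LaurentSeries Kb) a * φ i g₁⁻¹ ^ p) = φ i u' := by
  have h1 : D.rho hKum ζ hζp u' *
      (algebraMap (FF M) (Cov M D.Z) (algebraMap Kb (FF M) a) * g₁⁻¹ ^ p) = u' := by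
    rw [← mul_assoc, hdeck, inv_pow]
    have hgp : g₁ ^ p ≠ 0 := pow_ne_zero _ hg
    field_simp
  have h2 := congrArg (φ i) h1
  rw [map_mul, map_mul, map_pow, hconst, ← hsucc] at h2
  exact h2

end Fam


/-! ### The exit from the output of [DESC] -/

section Exit

variable {N p : ℕ} [NeZero N] [NeZero p] {W : FF (N * p) ≃ₐ[Kb] FF (N * p)}
  (D : CovData (N * p) W A p) (hKum : IsKummerRoot p D.K D.Z) (ζ : Kb) (hζp : ζ ^ p = 1)

/-- **THE OPEN INPUT of [CONCL]: the K1-corollary on the cover** ([SLOPE] on `X'`, with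
[COVER-RING] and [SHEETS]).  For every nonzero `V` of the cover, coefficientwise fixed by `I_K1`,
with `p ∣ div V` on the cover, and every closed point `Q` of the special fibre where `j̄` is
finite: there are an order function `ordS` at a point of the cover over `Q` (`SheetOrd`) and a
pair of sheets `(1, i)`, `(2, j)` through that point with

  `p ∣ ordS r₁ + k * ord_Q ν`

for all scalings `(c₁, r₁)` of `V` on `(1, i)`, `(c₂, r₂)` of `V` on `(2, j)` and all `k` with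
`(c₂ / c₁) ^ (p - 1) / p ^ k` a unit of `A`. -/
def SlopeCoverStatement (ν : FFb A N) : Prop :=
  ∀ V : Cov (N * p) D.Z, V ≠ 0 →
    (∀ σ : Kb ≃ₐ[ℚ] Kb, IsIK1 A p σ →
      coeffMap (σ : Kb →+* Kb) (V : LaurentSeries Kb) = (V : LaurentSeries Kb)) →
    (∀ w : Place Kb (Cov (N * p) D.Z), (p : ℤ) ∣ w.ord V) →
    ∀ Q : Place (kA A) (FFb A N), 0 ≤ Q.ord (jBar A N) →
      ∃ ordS : LaurentSeries (kA A) → ℤ, SheetOrd A N (SheetGood (N * p) A D.Z) Q ordS ∧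
        ∃ i j : ℕ, K1CorSheet2 A (SheetGood (N * p) A D.Z) (SheetGood (N * p) A D.Z') p ordS
          (Q.ord ν) (sh1 D hKum ζ hζp i V) (sh2 D hKum ζ hζp j V)

/-- **[CONCL] from [DESC] and the K1-corollary on the cover.** -/
theorem slopeOutN_of_descOutput (hp : p.Prime) (hpN : ¬ p ∣ N) (hA : A.LiesOverPrime p)
    (hζ : IsPrimitiveRoot ζ p) {E : Divisor Kb (FF (N * p))}
    (hE : ∀ v : Place Kb (FF (N * p)), v.ord D.K = p * E v)
    {u : FF (N * p)} (hu : u ≠ 0)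
    (hdiv : ∀ P : Place Kb (FF (N * p)), (p : ℤ) ∣ P.ord u)
    {α : Kb} (hα : A.valuation (α ^ p) = 1)
    (hD : Fermat.Agent.T8.helper83.DescOutput hKum hζp A u α)
    (ν : FFb A N) (hS : SlopeCoverStatement D hKum ζ hζp ν) :
    SlopeOutN A N p ν u := by
  have hSc : ScaleStatement (N * p) A :=
    Fermat.Agent.T2.helper58.scaleStatement_bad N p hp hpN A hA
  obtain ⟨c₀, h, g₁, u', hc₀, hh0, hg0, hu', fixU, fixG, hdeck⟩ := hD
  have hemb0 : algebraMap (FF (N * p)) (Cov (N * p) D.Z)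
      (algebraMap Kb (FF (N * p)) c₀ * u) ≠ 0 :=
    (map_ne_zero _).mpr (mul_ne_zero ((map_ne_zero _).mpr hc₀) hu)
  have hu'0 : u' ≠ 0 := by
    rw [hu']
    exact mul_ne_zero (pow_ne_zero _ hh0) hemb0
  have hdeck' : D.rho hKum ζ hζp u' *
      algebraMap (FF (N * p)) (Cov (N * p) D.Z) (algebraMap Kb (FF (N * p)) (α ^ p))
      = g₁ ^ p * u' := hdeck
  have hginv : g₁⁻¹ ≠ 0 := inv_ne_zero hg0
  have fixGi := fixed_inv D fixG
  -- the two families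
  have hF₁ : SheetFam A (SheetGood (N * p) A D.Z) p (α ^ p)
      (fun i => sh1 D hKum ζ hζp i u') (fun i => sh1 D hKum ζ hζp i g₁⁻¹) :=
    ⟨fun i => sh_rel D hKum ζ hζp (sh1 D hKum ζ hζp) (sh1_succ D hKum ζ hζp)
        (sh1_const D hKum ζ hζp) hg0 hdeck' i,
      fun i => sh1_ne_zero D hKum ζ hζp i hginv,
      fun i => exists_scaling_fixed hp hA hSc hζ D.Z₁ (Z_pow_mem D)
        (sh1_mem D hKum ζ hζp i _) (sh1_ne_zero D hKum ζ hζp i hginv)
        (sh1_fixed D hKum ζ hζp i fixGi)⟩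
  have hF₂ : SheetFam A (SheetGood (N * p) A D.Z') p (α ^ p)
      (fun j => sh2 D hKum ζ hζp j u') (fun j => sh2 D hKum ζ hζp j g₁⁻¹) :=
    ⟨fun j => sh_rel D hKum ζ hζp (sh2 D hKum ζ hζp) (sh2_succ D hKum ζ hζp)
        (sh2_const D hKum ζ hζp) hg0 hdeck' j,
      fun j => sh2_ne_zero D hKum ζ hζp j hginv,
      fun j => exists_scaling_fixed hp hA hSc hζ D.Z₂ (Z'_pow_mem D)
        (sh2_mem D hKum ζ hζp j _) (sh2_ne_zero D hKum ζ hζp j hginv)
        (sh2_fixed D hKum ζ hζp j fixGi)⟩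
  -- the base scalings
  obtain ⟨c₁, r₁, e₁, hc₁, hr₁, h₁, hv₁⟩ :=
    exists_scaling_fixed hp hA hSc hζ D.Z₁ (Z_pow_mem D)
      (sh1_mem D hKum ζ hζp 0 u') (sh1_ne_zero D hKum ζ hζp 0 hu'0)
      (sh1_fixed D hKum ζ hζp 0 fixU)
  obtain ⟨c₂, r₂, e₂, hc₂, hr₂, h₂, hv₂⟩ :=
    exists_scaling_fixed hp hA hSc hζ D.Z₂ (Z'_pow_mem D)
      (sh2_mem D hKum ζ hζp 0 u') (sh2_ne_zero D hKum ζ hζp 0 hu'0)
      (sh2_fixed D hKum ζ hζp 0 fixU)
  have hhinv : h⁻¹ ≠ 0 := inv_ne_zero hh0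
  obtain ⟨ch, rh, hch, hrh, hh⟩ :=
    exists_scaling hp hSc D.Z₁ (Z_pow_mem D)
      (sh1_mem D hKum ζ hζp 0 h⁻¹) (sh1_ne_zero D hKum ζ hζp 0 hhinv)
  -- the relation on the base sheet
  have hrel : sh1 D hKum ζ hζp 0 u' * sh1 D hKum ζ hζp 0 h⁻¹ ^ p =
      algebraMap Kb (LaurentSeries Kb) c₀ * (u : LaurentSeries Kb) := by
    have e1 : u' * h⁻¹ ^ p = algebraMap (FF (N * p)) (Cov (N * p) D.Z)
        (algebraMap Kb (FF (N * p)) c₀ * u) := by
      rw [hu', inv_pow]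
      have hhp : h ^ p ≠ 0 := pow_ne_zero _ hh0
      field_simp
    have e2 := congrArg (sh1 D hKum ζ hζp 0) e1
    rw [map_mul, map_pow] at e2
    rw [e2]
    rfl
  -- the divisor of `u'` on the cover
  haveI := Fermat.Agent.T8.helper9.finiteDimensional_cover hKum
  have hdivc : ∀ v : Place Kb (FF (N * p)),
      (p : ℤ) ∣ v.ord (algebraMap Kb (FF (N * p)) c₀ * u) := by
    intro v
    rw [Place.ord_mul v ((map_ne_zero _).mpr hc₀) hu,
      Fermat.Agent.T6.helper26.ord_const v c₀, zero_add]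
    exact hdiv v
  have hdiv' : ∀ w : Place Kb (Cov (N * p) D.Z), (p : ℤ) ∣ w.ord u' := by
    intro w
    rw [hu', Place.ord_mul w (pow_ne_zero _ hh0) hemb0,
      Fermat.Agent.P2.helper18.ord_pow w h p]
    exact dvd_add (dvd_mul_right _ _)
      (Fermat.Agent.T8.helper9.dvd_ord_coverFF (N * p) hKum hE hdivc w)
  -- the exit
  have hαU : IsU A (α ^ p) := hα
  exact slopeOutN_of_sheetOrd2 hp hpN hA (goodClass_one D) (goodClass_two D)
    (fun Y hY => hY.2) hαU hF₁ hF₂ hc₁ hc₂ hr₁ h₁ h₂ hv₁ hv₂ hu hch hc₀ hrh hh hrel ν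
    (fun Q hQ => hS u' hu'0 fixU hdiv' Q hQ)

end Exit

end Fermat.Agent.T8.helper29

end
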