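import Fermat.Agent.T8.helper80_ConclK
import Fermat.Agent.T8.helper65_K1Cor

/-!
# T8 = row 38 via S44, leaf [CONCL] (helper29, owner): the sheet induction

Vocabulary of `helper65_NormInst` / `helper80_ConclK` (`HasRed Good c f r`, `IsVal A p c e`).
Everything is stated for FAMILIES OF LAURENT SERIES, so that the cover `F' = (FF M)⟮Z⟯` enters only
through the images of `u'`, `g₁`, `h` under its `2 p` sheet maps
(`U₁ i = s₁ (ρ ^ i u')`, `G₁ i = s₁ (ρ ^ i g₁)`, `U₂ j = s₂ (ρ ^ j u')`, ...).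

* `SheetFam A Good p a U G` : one component of the cover: `U (i + 1) * (a * G i ^ p) = U i`
  (formula `ρ u' * (α ^ p * g₁ ^ p) = u'` of [DESC] read on the sheet `i`), and every `G i` has a
  scaling whose constant has tame valuation (`IsVal`, the `G i` are `K1`-rational);
* `sheet_induction` : the scaling of `U i` from the scaling of `U 0`: the exponent is the same
  mod `p` (peu ramifie: `a` is a unit) and the reduction differs by a `p`-th power;
* `concl_at_point` : **[CONCL] at one point**: the K1-corollary on the cover at ONE pair of sheets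
  `(i, j)` gives `p ∣ ord_Q r₁ + (e₂ - e₁) m`, where `r₁`, `e₁`, `e₂` belong to the BASE sheets;
* `concl_transfer` : the same for the reduction `r₁ * rh ^ p` of `u = u' * h ^ p`;
* `concl_family` : **[CONCL]**, all points at once: one scaling `(κ, f)` of `u` and one exponent
  `k₀ = e₂ - e₁` with `p ∣ ord_Q f + k₀ m_Q` at every point `Q` of a set of points.
-/

set_option autoImplicit false
set_option linter.unusedSectionVars false
set_option linter.unusedVariables false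
set_option linter.style.longLine false
set_option linter.style.haveILetI false

noncomputable section

namespace Fermat.Agent.T8.helper29

open HahnSeries
open Fermat.Agent.S18.helper19 Fermat.Agent.P2.helper29 Fermat.Agent.T8.helper65
open Fermat.Agent.T8.helper80

variable {A : ValuationSubring Kb} {Good : LaurentSeries A → Prop} {p : ℕ}

/-! ### Quotients of reductions -/

theorem isRedQuot_one (hG : GoodClass A Good) : IsRedQuot Good (1 : LaurentSeries (kA A)) :=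
  ⟨1, 1, hG.one, hG.one, by rw [one_mul]⟩

theorem isRedQuot_mul (hG : GoodClass A Good) {r s : LaurentSeries (kA A)}
    (hr : IsRedQuot Good r) (hs : IsRedQuot Good s) : IsRedQuot Good (r * s) := by
  obtain ⟨Y₁, Y₂, g₁, g₂, e⟩ := hr
  obtain ⟨Z₁, Z₂, k₁, k₂, e'⟩ := hs
  refine ⟨Y₁ * Z₁, Y₂ * Z₂, hG.mul g₁ k₁, hG.mul g₂ k₂, ?_⟩
  rw [map_mul, map_mul, ← e, ← e']
  ring

theorem isRedQuot_pow (hG : GoodClass A Good) {r : LaurentSeries (kA A)}
    (hr : IsRedQuot Good r) (n : ℕ) : IsRedQuot Good (r ^ n) := by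
  induction n with
  | zero => rw [pow_zero]; exact isRedQuot_one hG
  | succ n ih => rw [pow_succ]; exact isRedQuot_mul hG ih hr

/-- multiplicativity of an order function on the nonzero quotients of reductions -/
def OrdMul (Good : LaurentSeries A → Prop) (ordQ : LaurentSeries (kA A) → ℤ) : Prop :=
  ∀ r s : LaurentSeries (kA A), IsRedQuot Good r → IsRedQuot Good s → r ≠ 0 → s ≠ 0 →
    ordQ (r * s) = ordQ r + ordQ s

theorem OrdMul.pow (hG : GoodClass A Good) {ordQ : LaurentSeries (kA A) → ℤ}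
    (h : OrdMul Good ordQ) {s : LaurentSeries (kA A)} (hs : IsRedQuot Good s) (hs0 : s ≠ 0) :
    ∀ n : ℕ, 0 < n → ordQ (s ^ n) = n * ordQ s := by
  intro n hn
  induction n with
  | zero => exact absurd hn (lt_irrefl 0)
  | succ n ih =>
    rcases Nat.eq_zero_or_pos n with h0 | h0
    · subst h0
      rw [zero_add, pow_one]
      push_cast
      ring
    · rw [pow_succ, h _ _ (isRedQuot_pow hG hs n) hs (pow_ne_zero _ hs0) hs0, ih h0]
      push_cast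
      ring

theorem OrdMul.mul_pow (hG : GoodClass A Good) {ordQ : LaurentSeries (kA A) → ℤ}
    (h : OrdMul Good ordQ) {r s : LaurentSeries (kA A)} (hr : IsRedQuot Good r)
    (hs : IsRedQuot Good s) (hr0 : r ≠ 0) (hs0 : s ≠ 0) {n : ℕ} (hn : 0 < n) :
    ordQ (r * s ^ n) = ordQ r + n * ordQ s := by
  rw [h _ _ hr (isRedQuot_pow hG hs n) hr0 (pow_ne_zero _ hs0), h.pow hG hs hs0 n hn]

/-! ### One component of the cover -/

/-- **one component of the cover**: the images `U i` of `u'` and `G i` of `g₁` on the sheets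
`i = 0, 1, 2, …` of the component satisfy `U (i + 1) * (a * G i ^ p) = U i`, and the `G i` have
scalings with constants of tame valuation. -/
structure SheetFam (A : ValuationSubring Kb) (Good : LaurentSeries A → Prop) (p : ℕ) (a : Kb)
    (U G : ℕ → LaurentSeries Kb) : Prop where
  rel : ∀ i, U (i + 1) * (algebraMap Kb (LaurentSeries Kb) a * G i ^ p) = U i
  gne : ∀ i, G i ≠ 0
  gred : ∀ i, ∃ (γ : Kb) (rg : LaurentSeries (kA A)) (eg : ℤ), γ ≠ 0 ∧ rg ≠ 0 ∧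
    HasRed Good γ (G i) rg ∧ IsVal A p γ eg

/-- **the sheet induction**: scaling of `U i` from the scaling of `U 0`. -/
theorem sheet_induction (hG : GoodClass A Good) (hp : (p : Kb) ≠ 0) {a : Kb} (ha : IsU A a)
    {U G : ℕ → LaurentSeries Kb} (hF : SheetFam A Good p a U G)
    {c : Kb} {r : LaurentSeries (kA A)} {e : ℤ} (hc : c ≠ 0)
    (h0 : HasRed Good c (U 0) r) (hv : IsVal A p c e) (i : ℕ) :
    ∃ (c' : Kb) (r' s : LaurentSeries (kA A)) (e' : ℤ), c' ≠ 0 ∧ HasRed Good c' (U i) r' ∧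
      IsVal A p c' e' ∧ e' ≡ e [ZMOD p] ∧ IsRedQuot Good s ∧ s ≠ 0 ∧ r' * s ^ p = r := by
  induction i with
  | zero =>
    exact ⟨c, r, 1, e, hc, h0, hv, Int.ModEq.refl e, isRedQuot_one hG, one_ne_zero, by
      rw [one_pow, mul_one]⟩
  | succ i ih =>
    obtain ⟨c', r', s, e', hc', hr', hv', he', hs, hs0, hrs⟩ := ih
    obtain ⟨γ, rg, eg, hγ, hrg, hg, hvg⟩ := hF.gred i
    have ha0 : a ≠ 0 := ha.ne_zero
    refine ⟨c' / (a * γ ^ p), r' / rg ^ p, rg * s, e' - p * eg,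
      div_ne_zero hc' (mul_ne_zero ha0 (pow_ne_zero _ hγ)),
      hasRed_sheet_shift hG hr' hg ha0 hγ (hF.gne i) hrg (hF.rel i),
      hv'.sheet_shift hp ha hvg, ?_, isRedQuot_mul hG hg.isRedQuot hs, mul_ne_zero hrg hs0, ?_⟩
    · have h1 : e' - p * eg ≡ e' [ZMOD p] := by
        have h2 : (p : ℤ) * eg ≡ 0 [ZMOD p] :=
          Int.modEq_zero_iff_dvd.mpr (dvd_mul_right _ _)
        have h3 := (Int.ModEq.refl e').sub h2
        rwa [sub_zero] at h3
      exact h1.trans he'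
    · rw [← hrs, mul_pow]
      have hrgp : rg ^ p ≠ 0 := pow_ne_zero _ hrg
      field_simp

/-! ### The conclusion -/

/-- **the K1-corollary on the cover at one pair of sheets** (shape of `helper65.K1CorAt`, read on
the images `V₁`, `V₂` of an `I_K1`-fixed function of the cover on the two sheets through the
point). -/
def K1CorSheet (A : ValuationSubring Kb) (Good : LaurentSeries A → Prop) (p : ℕ)
    (ordQ : LaurentSeries (kA A) → ℤ) (m : ℤ) (V₁ V₂ : LaurentSeries Kb) : Prop :=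
  ∀ (c₁ c₂ : Kb) (r₁ r₂ : LaurentSeries (kA A)) (k : ℤ), c₁ ≠ 0 → c₂ ≠ 0 →
    HasRed Good c₁ V₁ r₁ → HasRed Good c₂ V₂ r₂ →
    (c₂ / c₁) ^ (p - 1) / (p : Kb) ^ k ∈ A → (p : Kb) ^ k / (c₂ / c₁) ^ (p - 1) ∈ A →
    (p : ℤ) ∣ ordQ r₁ + k * m

/-- **[CONCL] at one point**: from the K1-corollary at the pair of sheets `(i, j)` to the base
sheets. -/
theorem concl_at_point (hG : GoodClass A Good) (hp : (p : Kb) ≠ 0) (hp0 : 0 < p) {a : Kb}
    (ha : IsU A a) {U₁ G₁ U₂ G₂ : ℕ → LaurentSeries Kb}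
    (hF₁ : SheetFam A Good p a U₁ G₁) (hF₂ : SheetFam A Good p a U₂ G₂)
    {c₁ c₂ : Kb} {r₁ r₂ : LaurentSeries (kA A)} {e₁ e₂ : ℤ} (hc₁ : c₁ ≠ 0) (hc₂ : c₂ ≠ 0)
    (hr₁0 : r₁ ≠ 0)
    (h₁ : HasRed Good c₁ (U₁ 0) r₁) (h₂ : HasRed Good c₂ (U₂ 0) r₂)
    (hv₁ : IsVal A p c₁ e₁) (hv₂ : IsVal A p c₂ e₂)
    {ordQ : LaurentSeries (kA A) → ℤ} (hord : OrdMul Good ordQ) {m : ℤ} (i j : ℕ)
    (hS : K1CorSheet A Good p ordQ m (U₁ i) (U₂ j)) :
    (p : ℤ) ∣ ordQ r₁ + (e₂ - e₁) * m := by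
  obtain ⟨d₁, s₁, t₁, f₁, hd₁, hs₁, hw₁, hf₁, ht₁, ht₁0, hrel₁⟩ :=
    sheet_induction hG hp ha hF₁ hc₁ h₁ hv₁ i
  obtain ⟨d₂, s₂, t₂, f₂, hd₂, hs₂, hw₂, hf₂, -, -, -⟩ :=
    sheet_induction hG hp ha hF₂ hc₂ h₂ hv₂ j
  have hk := (isU_k_of_isVal hp hw₁ hw₂).div_mem
  have key := hS d₁ d₂ s₁ s₂ (f₂ - f₁) hd₁ hd₂ hs₁ hs₂ hk.1 hk.2
  have hs₁0 : s₁ ≠ 0 := by
    rintro rfl
    rw [zero_mul] at hrel₁
    exact hr₁0 hrel₁.symm
  have hordr : ordQ r₁ = ordQ s₁ + p * ordQ t₁ := by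
    rw [← hrel₁]
    exact hord.mul_pow hG hs₁.isRedQuot ht₁ hs₁0 ht₁0 hp0
  have hmod : f₂ - f₁ ≡ e₂ - e₁ [ZMOD p] := hf₂.sub hf₁
  have h3 : (p : ℤ) ∣ (f₂ - f₁) - (e₂ - e₁) := (Int.modEq_iff_dvd.mp hmod.symm)
  have h4 : ordQ r₁ + (e₂ - e₁) * m =
      (ordQ s₁ + (f₂ - f₁) * m) - ((f₂ - f₁) - (e₂ - e₁)) * m + p * ordQ t₁ := by
    rw [hordr]; ring
  rw [h4]
  exact dvd_add (dvd_sub key (Dvd.dvd.mul_right h3 m)) (dvd_mul_right _ _)

/-- **transfer to `u = u' * h ^ p`**: the scaling of `u` on the base sheet and its order. -/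
theorem concl_transfer (hG : GoodClass A Good) (hp0 : 0 < p)
    {uL U H : LaurentSeries Kb} {c₁ ch : Kb} {r₁ rh : LaurentSeries (kA A)}
    (h₁ : HasRed Good c₁ U r₁) (hh : HasRed Good ch H rh) (hr₁0 : r₁ ≠ 0) (hrh0 : rh ≠ 0)
    (hrel : U * H ^ p = uL)
    {ordQ : LaurentSeries (kA A) → ℤ} (hord : OrdMul Good ordQ) {m k₀ : ℤ}
    (hdvd : (p : ℤ) ∣ ordQ r₁ + k₀ * m) :
    HasRed Good (c₁ * ch ^ p) uL (r₁ * rh ^ p) ∧ (p : ℤ) ∣ ordQ (r₁ * rh ^ p) + k₀ * m := by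
  refine ⟨?_, ?_⟩
  · rw [← hrel]
    exact HasRed.mul hG h₁ (hasRed_pow hG hh p)
  · rw [hord.mul_pow hG h₁.isRedQuot hh.isRedQuot hr₁0 hrh0 hp0]
    have e : ordQ r₁ + p * ordQ rh + k₀ * m = (ordQ r₁ + k₀ * m) + p * ordQ rh := by ring
    rw [e]
    exact dvd_add hdvd (dvd_mul_right _ _)

/-- **[CONCL], all points at once** (abstract form).  `T` is the type of the points; at every
point `Q` the K1-corollary on the cover holds at SOME pair of sheets.  Output: one scaling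
`(κ, f)` of `u` and the exponent `k₀ = e₂ - e₁` of the base sheets. -/
theorem concl_family (hG : GoodClass A Good) (hp : (p : Kb) ≠ 0) (hp0 : 0 < p) {a : Kb}
    (ha : IsU A a) {U₁ G₁ U₂ G₂ : ℕ → LaurentSeries Kb}
    (hF₁ : SheetFam A Good p a U₁ G₁) (hF₂ : SheetFam A Good p a U₂ G₂)
    {c₁ c₂ : Kb} {r₁ r₂ : LaurentSeries (kA A)} {e₁ e₂ : ℤ} (hc₁ : c₁ ≠ 0) (hc₂ : c₂ ≠ 0)
    (hr₁0 : r₁ ≠ 0)
    (h₁ : HasRed Good c₁ (U₁ 0) r₁) (h₂ : HasRed Good c₂ (U₂ 0) r₂)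
    (hv₁ : IsVal A p c₁ e₁) (hv₂ : IsVal A p c₂ e₂)
    {uL H : LaurentSeries Kb} {ch : Kb} {rh : LaurentSeries (kA A)} (hch : ch ≠ 0)
    (hrh0 : rh ≠ 0) (hh : HasRed Good ch H rh) (hrel : U₁ 0 * H ^ p = uL)
    {T : Type*} (ordQ : T → LaurentSeries (kA A) → ℤ) (m : T → ℤ)
    (hord : ∀ Q, OrdMul Good (ordQ Q))
    (hS : ∀ Q, ∃ i j : ℕ, K1CorSheet A Good p (ordQ Q) (m Q) (U₁ i) (U₂ j)) :
    ∃ (κ : Kb) (f : LaurentSeries (kA A)), κ ≠ 0 ∧ f ≠ 0 ∧ IsRedQuot Good f ∧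
      HasRed Good κ uL f ∧ ∀ Q, (p : ℤ) ∣ ordQ Q f + (e₂ - e₁) * m Q := by
  refine ⟨c₁ * ch ^ p, r₁ * rh ^ p, mul_ne_zero hc₁ (pow_ne_zero _ hch),
    mul_ne_zero hr₁0 (pow_ne_zero _ hrh0),
    isRedQuot_mul hG h₁.isRedQuot (isRedQuot_pow hG hh.isRedQuot p), ?_, fun Q => ?_⟩
  · rw [← hrel]
    exact HasRed.mul hG h₁ (hasRed_pow hG hh p)
  · obtain ⟨i, j, hij⟩ := hS Q
    have h := concl_at_point hG hp hp0 ha hF₁ hF₂ hc₁ hc₂ hr₁0 h₁ h₂ hv₁ hv₂ (hord Q) i j hij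
    exact (concl_transfer hG hp0 h₁ hh hr₁0 hrh0 hrel (hord Q) h).2

end Fermat.Agent.T8.helper29

end
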