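/-
T8 [SLOPE] / [CONCL], K1-VERSION BY NORM on the COVER (helper65): the norm API for an arbitrary
field `F'` with an action of `Gal(ℚ̄/ℚ)` (in the application `F' = F(Z₁)`, the action of
[COVER-GAL]) and an arbitrary family of SHEETS, i.e. multiplicative maps
`ι : F' → ℚ̄((q))` which are equivariant for the inertia group (`ι (σ u) = σ (ι u)`
coefficientwise; "the inertia group fixes the sheets").

* `normCoset_map` : an equivariant multiplicative map commutes with the norm (abstract);
* `sheet_normCoset` : `ι (N u) = normL (ι u)` on every sheet;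
* `hasRed_sheet_normCoset` : `HasRed c (ι u) r → HasRed (normC c) (ι (N u)) (r ^ (p - 1))`;
* `goodClass_redNe` : the class `Good Y := red Y ≠ 0` (the T3 vocabulary `RhoQ` / `GaussIs`);
* `hasRed_redNe_iff` : `HasRed (red · ≠ 0) c g r ↔ RhoQ (c⁻¹ g) r ∧ r ≠ 0` for `c ≠ 0`.
-/
import Mathlib
import Fermat.Agent.T3.helper36_RhoQ
import Fermat.Agent.T8.helper65_NormIdx

set_option autoImplicit false
set_option linter.unusedSectionVars false
set_option linter.style.haveILetI false

noncomputable section

namespace Fermat.Agent.T8.helper65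

open HahnSeries IntermediateField AlgebraicCurve ModularCurve
open Fermat.Agent.S18.helper19 Fermat.Agent.P2.helper29 Fermat.Agent.P2.helper93

/-! ### Equivariant maps and the norm (abstract) -/

section Abstract

variable {G : Type*} [Group G] {F F' : Type*} [CommMonoid F] [CommMonoid F']

/-- a multiplicative map which is equivariant for the elements of `I` commutes with the norm -/
theorem normCoset_map {act' : G → F' → F'} {act : G → F → F} {I H : Subgroup G}
    [(H.subgroupOf I).FiniteIndex] (ι : F' →* F)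
    (hι : ∀ σ ∈ I, ∀ u, ι (act' σ u) = act σ (ι u)) (u : F') :
    ι (normCoset act' I H u) = normCoset act I H (ι u) := by
  classical
  letI : Fintype (I ⧸ H.subgroupOf I) := Subgroup.fintypeQuotientOfFiniteIndex
  unfold normCoset
  rw [map_prod]
  exact Finset.prod_congr rfl fun c _ => hι _ (Quotient.out c : I).2 u

end Abstract

/-! ### Sheets -/

section Sheets

variable {A : ValuationSubring Kb} {H : Subgroup (Kb ≃ₐ[ℚ] Kb)}
  [((H ⊓ IA A).subgroupOf (IA A)).FiniteIndex]
  {F' : Type*} [CommMonoid F'] {act' : (Kb ≃ₐ[ℚ] Kb) → F' → F'}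

/-- the expansion of the norm on a sheet is the norm of the expansion -/
theorem sheet_normCoset (ι : F' →* LaurentSeries Kb)
    (hι : ∀ σ ∈ IA A, ∀ u, ι (act' σ u) = cwAct σ (ι u)) (u : F') :
    ι (normCoset act' (IA A) (H ⊓ IA A) u) = normL A H (ι u) :=
  normCoset_map ι hι u

/-- scaling and reduction of the norm on a sheet -/
theorem hasRed_sheet_normCoset {Good : LaurentSeries A → Prop} (hG : GoodClass A Good)
    (ι : F' →* LaurentSeries Kb)
    (hι : ∀ σ ∈ IA A, ∀ u, ι (act' σ u) = cwAct σ (ι u)) {u : F'} {c : Kb}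
    {r : LaurentSeries (kA A)} (h : HasRed Good c (ι u) r) :
    HasRed Good (normC A H c) (ι (normCoset act' (IA A) (H ⊓ IA A) u)) (r ^ idx A H) := by
  rw [sheet_normCoset ι hι]
  exact hasRed_normCoset hG h

end Sheets

/-! ### The T3 vocabulary -/

section Rho

open Fermat.Agent.T3.helper36 (RhoQ GaussIs)
open Fermat.Agent.T2.helper20 (red_actA_of_mem_inertia)

variable {A : ValuationSubring Kb}

/-- the class of integral series with nonzero reduction -/
theorem goodClass_redNe : GoodClass A (fun Y : LaurentSeries A => red A Y ≠ 0) where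
  one := by rw [map_one]; exact one_ne_zero
  mul h h' := by rw [map_mul]; exact mul_ne_zero h h'
  act hσ hσ' _ h := by rw [red_actA_of_mem_inertia hσ hσ']; exact h

/-- `HasRed` for the class `red Y ≠ 0` is the T3 predicate `RhoQ` with nonzero reduction. -/
theorem hasRed_redNe_iff {c : Kb} (hc : c ≠ 0) {g : LaurentSeries Kb}
    {r : LaurentSeries (kA A)} :
    HasRed (fun Y : LaurentSeries A => red A Y ≠ 0) c g r ↔
      (RhoQ A (algebraMap Kb (LaurentSeries Kb) c⁻¹ * g) r ∧ r ≠ 0) := by
  have hcc : algebraMap Kb (LaurentSeries Kb) c * algebraMap Kb (LaurentSeries Kb) c⁻¹ = 1 := by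
    rw [← map_mul, mul_inv_cancel₀ hc, map_one]
  constructor
  · rintro ⟨Y₁, Y₂, g₁, g₂, e, er⟩
    refine ⟨⟨Y₁, Y₂, g₂, ?_, er.symm⟩, ?_⟩
    · have : incl A Y₁ =
          (algebraMap Kb (LaurentSeries Kb) c⁻¹ * algebraMap Kb (LaurentSeries Kb) c) *
            incl A Y₁ := by
        rw [mul_comm (algebraMap Kb (LaurentSeries Kb) c⁻¹), hcc, one_mul]
      rw [this, mul_assoc, e]
      ring
    · intro h0
      rw [h0, zero_mul] at er
      exact g₁ er.symm
  · rintro ⟨⟨Y₁, Y₂, g₂, e, er⟩, hr⟩
    refine ⟨Y₁, Y₂, ?_, g₂, ?_, er.symm⟩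
    · show red A Y₁ ≠ 0
      rw [er]
      exact mul_ne_zero hr g₂
    · rw [e]
      calc algebraMap Kb (LaurentSeries Kb) c *
            (algebraMap Kb (LaurentSeries Kb) c⁻¹ * g * incl A Y₂)
          = (algebraMap Kb (LaurentSeries Kb) c * algebraMap Kb (LaurentSeries Kb) c⁻¹) *
              (g * incl A Y₂) := by ring
        _ = g * incl A Y₂ := by rw [hcc, one_mul]

/-- `GaussIs g c` in terms of `HasRed` -/
theorem gaussIs_iff_hasRed {c : Kb} {g : LaurentSeries Kb} :
    GaussIs A g c ↔
      c ≠ 0 ∧ ∃ r : LaurentSeries (kA A),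
        HasRed (fun Y : LaurentSeries A => red A Y ≠ 0) c g r := by
  constructor
  · rintro ⟨hc, r, hr, h⟩
    exact ⟨hc, r, (hasRed_redNe_iff hc).mpr ⟨h, hr⟩⟩
  · rintro ⟨hc, r, h⟩
    obtain ⟨h1, h2⟩ := (hasRed_redNe_iff hc).mp h
    exact ⟨hc, r, h2, h1⟩

end Rho

end Fermat.Agent.T8.helper65

end
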