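/-
T8 [SLOPE on X'], NORM STEP on the COVER (helper65): from the K0-corollary on the cover (for the
functions fixed by the whole inertia group `I_A`) to the K1-corollary on the cover in the shape
`helper29.K1CorSheet` consumed by [CONCL] (`helper29.concl_family`, `slopeOutN_of_sheetOrd`).

* `k1CorSheet_of_k0` : ABSTRACT.  `F'` any commutative monoid with a family `act'` of maps,
  `ι₁ ι₂ : F' →* ℚ̄((q))` two sheets which are equivariant for the inertia group, `ι₁` injective,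
  `Loc` any predicate on `F'` closed under `1`, products and the inertia action (e.g. "`U ≠ 0` and
  `p ∣ ord_P U` at the places of `X'` over the point").  If the K0-corollary holds for every
  `I_A`-fixed `U` with `Loc U` (shape of `helper65.K0CorAt`, read on the sheet pair), then
  `helper29.K1CorSheet A Good p ordQ m (ι₁ u) (ι₂ u)` for every `u` fixed by
  `I_K1 = muFix p ⊓ I_A` with `Loc u`.
* `k1CorSheet_cov` : the INSTANCE on the cover `Cov M D.Z` of `helper88.CovData`, for the sheet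
  pair `(ι₁ ∘ ρ ^ i, ι₂ ∘ ρ ^ j)`.
-/
import Mathlib
import Fermat.Agent.T8.helper65_NormCover
import Fermat.Agent.T8.helper29_ConclSheet
import Fermat.Agent.T8.helper88_CoverGalInst

set_option autoImplicit false
set_option linter.unusedSectionVars false
set_option linter.unusedVariables false
set_option linter.style.haveILetI false
set_option linter.style.longLine false

noncomputable section

namespace Fermat.Agent.T8.helper65

open HahnSeries IntermediateField AlgebraicCurve ModularCurve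
open Fermat.Agent.S18.helper19 Fermat.Agent.P2.helper29 Fermat.Agent.P2.helper93
open Fermat.Agent.T8.helper29 (K1CorSheet)

/-! ### The abstract norm step -/

section Abstract

variable {A : ValuationSubring Kb} {p : ℕ} {Good : LaurentSeries A → Prop}
  {F' : Type*} [CommMonoid F']

/-- the norm of a constant is nonzero -/
theorem normC_ne_zero' (H : Subgroup (Kb ≃ₐ[ℚ] Kb))
    [((H ⊓ IA A).subgroupOf (IA A)).FiniteIndex] {c : Kb} (hc : c ≠ 0) :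
    normC A H c ≠ 0 := by
  classical
  letI : Fintype (IA A ⧸ (H ⊓ IA A).subgroupOf (IA A)) :=
    Subgroup.fintypeQuotientOfFiniteIndex
  unfold normC normCoset
  rw [Finset.prod_ne_zero_iff]
  intro x _
  exact (map_ne_zero _).mpr hc

/-- **the norm step on a pair of sheets**: K0-corollary for the `I_A`-fixed elements ⟹
K1-corollary (`helper29.K1CorSheet`) for the `I_K1`-fixed elements. -/
theorem k1CorSheet_of_k0 (hp : p.Prime) (hA : A.LiesOverPrime p) (hG : GoodClass A Good)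
    (act' : (Kb ≃ₐ[ℚ] Kb) → F' → F')
    (ι₁ ι₂ : F' →* LaurentSeries Kb)
    (hι₁ : ∀ σ ∈ IA A, ∀ u, ι₁ (act' σ u) = cwAct σ (ι₁ u))
    (hι₂ : ∀ σ ∈ IA A, ∀ u, ι₂ (act' σ u) = cwAct σ (ι₂ u))
    (hinj : Function.Injective ι₁)
    (ordQ : LaurentSeries (kA A) → ℤ) (m : ℤ)
    (hord : ∀ (r : LaurentSeries (kA A)) (n : ℕ), IsRedQuot Good r →
      ordQ (r ^ n) = n * ordQ r)
    (Loc : F' → Prop) (hLoc_one : Loc 1) (hLoc_mul : ∀ u v, Loc u → Loc v → Loc (u * v))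
    (hLoc_act : ∀ σ ∈ IA A, ∀ u, Loc u → Loc (act' σ u))
    (h0 : ∀ U : F', (∀ σ ∈ IA A, act' σ U = U) → Loc U →
      ∀ (c₁ c₂ : Kb) (r₁ r₂ : LaurentSeries (kA A)) (k : ℤ), c₁ ≠ 0 → c₂ ≠ 0 →
        HasRed Good c₁ (ι₁ U) r₁ → HasRed Good c₂ (ι₂ U) r₂ →
        c₂ / (c₁ * (p : Kb) ^ k) ∈ A → (c₁ * (p : Kb) ^ k) / c₂ ∈ A →
        (p : ℤ) ∣ ordQ r₁ - k * m)
    {u : F'} (hfix : ∀ σ ∈ muFix p ⊓ IA A, act' σ u = u) (hLoc : Loc u) :
    K1CorSheet A Good p ordQ m (ι₁ u) (ι₂ u) := by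
  haveI : Fact p.Prime := ⟨hp⟩
  haveI := finiteIndex_muFix (p := p) A hA
  have hidx : idx A (muFix p) = p - 1 := idx_muFix A hA
  intro c₁ c₂ r₁ r₂ k hc₁ hc₂ hr₁ hr₂ hk hk'
  -- the norm
  set U : F' := normCoset act' (IA A) (muFix p ⊓ IA A) u with hU
  have hsh₁ : ι₁ U = normL A (muFix p) (ι₁ u) := sheet_normCoset ι₁ hι₁ u
  have hfixL : ∀ σ ∈ muFix p ⊓ IA A, cwAct σ (ι₁ u) = ι₁ u := by
    intro σ hσ
    rw [← hι₁ σ hσ.2, hfix σ hσ]
  have hUfix : ∀ σ ∈ IA A, act' σ U = U := by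
    intro τ hτ
    apply hinj
    rw [hι₁ τ hτ, hsh₁]
    exact act_normCoset isActFam_cwAct hfixL hτ
  have hULoc : Loc U := prop_normCoset Loc hLoc_mul hLoc_one hLoc_act hLoc
  have hR₁ : HasRed Good (normC A (muFix p) c₁) (ι₁ U) (r₁ ^ (p - 1)) := by
    rw [← hidx]
    exact hasRed_sheet_normCoset hG ι₁ hι₁ hr₁
  have hR₂ : HasRed Good (normC A (muFix p) c₂) (ι₂ U) (r₂ ^ (p - 1)) := by
    rw [← hidx]
    exact hasRed_sheet_normCoset hG ι₂ hι₂ hr₂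
  -- the constants
  have hN₁ : normC A (muFix p) c₁ ≠ 0 := normC_ne_zero' _ hc₁
  have hN₂ : normC A (muFix p) c₂ ≠ 0 := normC_ne_zero' _ hc₂
  have hpk : ((p : Kb) ^ k) ≠ 0 := zpow_ne_zero _ (by exact_mod_cast hp.ne_zero)
  have hd₁ : c₁ ^ (p - 1) ≠ 0 := pow_ne_zero _ hc₁
  have hd₂ : c₂ ^ (p - 1) ≠ 0 := pow_ne_zero _ hc₂
  have ha₁ := normCoset_const_div_mem (A := A) (H := muFix p) hc₁
  have ha₁' := normCoset_const_div_mem' (A := A) (H := muFix p) hc₁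
  have ha₂ := normCoset_const_div_mem (A := A) (H := muFix p) hc₂
  have ha₂' := normCoset_const_div_mem' (A := A) (H := muFix p) hc₂
  rw [hidx] at ha₁ ha₁' ha₂ ha₂'
  have hK : normC A (muFix p) c₂ / (normC A (muFix p) c₁ * (p : Kb) ^ k) ∈ A := by
    have e : normC A (muFix p) c₂ / (normC A (muFix p) c₁ * (p : Kb) ^ k) =
        (normC A (muFix p) c₂ / c₂ ^ (p - 1)) * (c₁ ^ (p - 1) / normC A (muFix p) c₁) *
          ((c₂ / c₁) ^ (p - 1) / (p : Kb) ^ k) := by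
      rw [div_pow]
      field_simp
    rw [e]
    exact A.mul_mem _ _ (A.mul_mem _ _ ha₂ ha₁') hk
  have hK' : (normC A (muFix p) c₁ * (p : Kb) ^ k) / normC A (muFix p) c₂ ∈ A := by
    have e : (normC A (muFix p) c₁ * (p : Kb) ^ k) / normC A (muFix p) c₂ =
        (normC A (muFix p) c₁ / c₁ ^ (p - 1)) * (c₂ ^ (p - 1) / normC A (muFix p) c₂) *
          ((p : Kb) ^ k / (c₂ / c₁) ^ (p - 1)) := by
      rw [div_pow]
      field_simp
    rw [e]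
    exact A.mul_mem _ _ (A.mul_mem _ _ ha₁ ha₂') hk'
  have key := h0 U hUfix hULoc _ _ _ _ k hN₁ hN₂ hR₁ hR₂ hK hK'
  rw [hord r₁ (p - 1) hr₁.isRedQuot, Nat.cast_sub hp.one_lt.le] at key
  obtain ⟨t, ht⟩ := key
  refine ⟨ordQ r₁ - t, ?_⟩
  push_cast at ht
  linear_combination -ht

end Abstract

/-! ### The instance on the cover of `helper88.CovData` -/

section Cover

open Fermat.Agent.T8.helper86 Fermat.Agent.T8.helper88

variable {M : ℕ} [NeZero M] {W : FF M ≃ₐ[Kb] FF M} {A : ValuationSubring Kb} {p : ℕ}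
  {Good : LaurentSeries A → Prop} (D : CovData M W A p)

/-- the inertia action on the cover, extended by the identity outside the inertia group -/
def covAct (σ : Kb ≃ₐ[ℚ] Kb) (x : Cov M D.Z) : Cov M D.Z :=
  open Classical in if h : σ ∈ A.inertiaSubgroupIn ℚ then D.act σ h x else x

theorem covAct_of_mem {σ : Kb ≃ₐ[ℚ] Kb} (hσ : σ ∈ A.inertiaSubgroupIn ℚ) (x : Cov M D.Z) :
    covAct D σ x = D.act σ hσ x := by
  unfold covAct
  rw [dif_pos hσ]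

/-- the sheet `ι₁ ∘ ρ ^ i` of the cover -/
def covSheet1 (hKum : IsKummerRoot p D.K D.Z) (ζ₀ : Kb) (hζ₀ : ζ₀ ^ p = 1) (i : ℕ) :
    Cov M D.Z →* LaurentSeries Kb where
  toFun x := ((((D.rho hKum ζ₀ hζ₀) ^ i) x : Cov M D.Z) : LaurentSeries Kb)
  map_one' := by rw [map_one]; rfl
  map_mul' x y := by rw [map_mul]; rfl

/-- the sheet `ι₂ ∘ ρ ^ j` of the cover -/
def covSheet2 (hKum : IsKummerRoot p D.K D.Z) (ζ₀ : Kb) (hζ₀ : ζ₀ ^ p = 1) (j : ℕ) :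
    Cov M D.Z →* LaurentSeries Kb where
  toFun x := D.sheet2 hKum (((D.rho hKum ζ₀ hζ₀) ^ j) x)
  map_one' := by rw [map_one, map_one]
  map_mul' x y := by rw [map_mul, map_mul]

theorem covSheet1_apply (hKum : IsKummerRoot p D.K D.Z) (ζ₀ : Kb) (hζ₀ : ζ₀ ^ p = 1) (i : ℕ)
    (x : Cov M D.Z) :
    covSheet1 D hKum ζ₀ hζ₀ i x =
      ((((D.rho hKum ζ₀ hζ₀) ^ i) x : Cov M D.Z) : LaurentSeries Kb) := rfl

theorem covSheet2_apply (hKum : IsKummerRoot p D.K D.Z) (ζ₀ : Kb) (hζ₀ : ζ₀ ^ p = 1) (j : ℕ)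
    (x : Cov M D.Z) :
    covSheet2 D hKum ζ₀ hζ₀ j x = D.sheet2 hKum (((D.rho hKum ζ₀ hζ₀) ^ j) x) := rfl

theorem covSheet1_injective (hKum : IsKummerRoot p D.K D.Z) (ζ₀ : Kb) (hζ₀ : ζ₀ ^ p = 1)
    (i : ℕ) : Function.Injective (covSheet1 D hKum ζ₀ hζ₀ i) := by
  intro x y h
  have h1 : ((D.rho hKum ζ₀ hζ₀) ^ i) x = ((D.rho hKum ζ₀ hζ₀) ^ i) y := Subtype.ext h
  exact ((D.rho hKum ζ₀ hζ₀) ^ i).injective h1

/-- **the K1-corollary on the cover, from the K0-corollary on the cover**, at the sheet pair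
`(ι₁ ∘ ρ ^ i, ι₂ ∘ ρ ^ j)`, in the shape `helper29.K1CorSheet`. -/
theorem k1CorSheet_cov (hKum : IsKummerRoot p D.K D.Z) (ζ₀ : Kb) (hζ₀ : ζ₀ ^ p = 1)
    (i j : ℕ) (hA : A.LiesOverPrime p) (hG : GoodClass A Good)
    (ordQ : LaurentSeries (kA A) → ℤ) (m : ℤ)
    (hord : ∀ (r : LaurentSeries (kA A)) (n : ℕ), IsRedQuot Good r →
      ordQ (r ^ n) = n * ordQ r)
    (Loc : Cov M D.Z → Prop) (hLoc_one : Loc 1) (hLoc_mul : ∀ u v, Loc u → Loc v → Loc (u * v))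
    (hLoc_act : ∀ (σ : Kb ≃ₐ[ℚ] Kb) (hσ : σ ∈ A.inertiaSubgroupIn ℚ) (u : Cov M D.Z),
      Loc u → Loc (D.act σ hσ u))
    (h0 : ∀ U : Cov M D.Z,
      (∀ (σ : Kb ≃ₐ[ℚ] Kb) (hσ : σ ∈ A.inertiaSubgroupIn ℚ), D.act σ hσ U = U) → Loc U →
      ∀ (c₁ c₂ : Kb) (r₁ r₂ : LaurentSeries (kA A)) (k : ℤ), c₁ ≠ 0 → c₂ ≠ 0 →
        HasRed Good c₁ ((((D.rho hKum ζ₀ hζ₀) ^ i) U : Cov M D.Z) : LaurentSeries Kb) r₁ →
        HasRed Good c₂ (D.sheet2 hKum (((D.rho hKum ζ₀ hζ₀) ^ j) U)) r₂ →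
        c₂ / (c₁ * (p : Kb) ^ k) ∈ A → (c₁ * (p : Kb) ^ k) / c₂ ∈ A →
        (p : ℤ) ∣ ordQ r₁ - k * m)
    {u : Cov M D.Z}
    (hfix : ∀ (σ : Kb ≃ₐ[ℚ] Kb) (hσ : σ ∈ A.inertiaSubgroupIn ℚ),
      (∀ z : Kb, z ^ p = 1 → σ z = z) → D.act σ hσ u = u)
    (hLoc : Loc u) :
    K1CorSheet A Good p ordQ m
      ((((D.rho hKum ζ₀ hζ₀) ^ i) u : Cov M D.Z) : LaurentSeries Kb)
      (D.sheet2 hKum (((D.rho hKum ζ₀ hζ₀) ^ j) u)) := by
  refine k1CorSheet_of_k0 D.hp hA hG (covAct D) (covSheet1 D hKum ζ₀ hζ₀ i)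
    (covSheet2 D hKum ζ₀ hζ₀ j) ?_ ?_ (covSheet1_injective D hKum ζ₀ hζ₀ i) ordQ m hord Loc
    hLoc_one hLoc_mul ?_ ?_ ?_ hLoc
  · intro σ hσ x
    rw [covAct_of_mem D hσ, covSheet1_apply, covSheet1_apply]
    exact D.sheet1_pow_act hKum ζ₀ hζ₀ σ hσ i x
  · intro σ hσ x
    rw [covAct_of_mem D hσ, covSheet2_apply, covSheet2_apply]
    exact D.sheet2_pow_act hKum ζ₀ hζ₀ σ hσ j x
  · intro σ hσ x hx
    rw [covAct_of_mem D hσ]
    exact hLoc_act σ hσ x hx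
  · intro U hU hL c₁ c₂ r₁ r₂ k hc₁ hc₂ hr₁ hr₂ hk hk'
    refine h0 U (fun σ hσ => ?_) hL c₁ c₂ r₁ r₂ k hc₁ hc₂ hr₁ hr₂ hk hk'
    rw [← covAct_of_mem D hσ]
    exact hU σ hσ
  · intro σ hσ
    rw [covAct_of_mem D hσ.2]
    exact hfix σ hσ.2 (mem_muFix.mp hσ.1)

end Cover

end Fermat.Agent.T8.helper65

end
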