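import Fermat.Agent.T8.helper29_ConclOrd

/-!
# T8 = row 38 via S44, leaf [CONCL] (helper29, owner): the exit with TWO classes of good series

The two components of the cover have different sheet fields (`F(Z₁)` and `F(Z₂)` inside
`ℚ̄((q))`, `helper22.SheetGood M A Z`), hence different classes of good series.  Only the
reductions on the FIRST component enter the formula, so the order function is asked to be
multiplicative only on the reductions of the first class.  The relation `u' * h ^ p = c₀ * u` of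
`helper83.DescOutput` has a constant `c₀`; it is allowed here.

* `K1CorSheet2 A Good₁ Good₂ p ordS m V₁ V₂` : the K1-corollary on the cover at one sheet pair;
* `concl_at_point2`, `dvd_of_sheets_at2`, `modEqOff_of_sheets2`, `slopeOutN_of_sheetOrd2` : the
  two-class versions of the theorems of `helper29_ConclSheet` / `helper29_ConclOrd`.
-/

set_option autoImplicit false
set_option linter.unusedSectionVars false
set_option linter.unusedVariables false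
set_option linter.style.longLine false
set_option linter.style.haveILetI false

noncomputable section

namespace Fermat.Agent.T8.helper29

open HahnSeries IntermediateField AlgebraicCurve ModularCurve
open Fermat.Agent.S18.helper19 Fermat.Agent.P2.helper29 Fermat.Agent.P2.helper93
open Fermat.Agent.T8.helper65 Fermat.Agent.T8.helper80
open Fermat.Agent.T8.helper54 (IsRed1 DvdOff ModEqOff)
open Fermat.Agent.T3.helper36 (RhoQ)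

variable {A : ValuationSubring Kb} {Good₁ Good₂ : LaurentSeries A → Prop} {p : ℕ}

/-- **the K1-corollary on the cover at one pair of sheets**, two classes of good series. -/
def K1CorSheet2 (A : ValuationSubring Kb) (Good₁ Good₂ : LaurentSeries A → Prop) (p : ℕ)
    (ordS : LaurentSeries (kA A) → ℤ) (m : ℤ) (V₁ V₂ : LaurentSeries Kb) : Prop :=
  ∀ (c₁ c₂ : Kb) (r₁ r₂ : LaurentSeries (kA A)) (k : ℤ), c₁ ≠ 0 → c₂ ≠ 0 →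
    HasRed Good₁ c₁ V₁ r₁ → HasRed Good₂ c₂ V₂ r₂ →
    (c₂ / c₁) ^ (p - 1) / (p : Kb) ^ k ∈ A → (p : Kb) ^ k / (c₂ / c₁) ^ (p - 1) ∈ A →
    (p : ℤ) ∣ ordS r₁ + k * m

theorem K1CorSheet.two {Good : LaurentSeries A → Prop} {ordS : LaurentSeries (kA A) → ℤ}
    {m : ℤ} {V₁ V₂ : LaurentSeries Kb} (h : K1CorSheet A Good p ordS m V₁ V₂) :
    K1CorSheet2 A Good Good p ordS m V₁ V₂ := h

/-- **[CONCL] at one point**, two classes. -/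
theorem concl_at_point2 (hG₁ : GoodClass A Good₁) (hG₂ : GoodClass A Good₂)
    (hp : (p : Kb) ≠ 0) (hp0 : 0 < p) {a : Kb}
    (ha : IsU A a) {U₁ G₁ U₂ G₂ : ℕ → LaurentSeries Kb}
    (hF₁ : SheetFam A Good₁ p a U₁ G₁) (hF₂ : SheetFam A Good₂ p a U₂ G₂)
    {c₁ c₂ : Kb} {r₁ r₂ : LaurentSeries (kA A)} {e₁ e₂ : ℤ} (hc₁ : c₁ ≠ 0) (hc₂ : c₂ ≠ 0)
    (hr₁0 : r₁ ≠ 0)
    (h₁ : HasRed Good₁ c₁ (U₁ 0) r₁) (h₂ : HasRed Good₂ c₂ (U₂ 0) r₂)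
    (hv₁ : IsVal A p c₁ e₁) (hv₂ : IsVal A p c₂ e₂)
    {ordQ : LaurentSeries (kA A) → ℤ} (hord : OrdMul Good₁ ordQ) {m : ℤ} (i j : ℕ)
    (hS : K1CorSheet2 A Good₁ Good₂ p ordQ m (U₁ i) (U₂ j)) :
    (p : ℤ) ∣ ordQ r₁ + (e₂ - e₁) * m := by
  obtain ⟨d₁, s₁, t₁, f₁, hd₁, hs₁, hw₁, hf₁, ht₁, ht₁0, hrel₁⟩ :=
    sheet_induction hG₁ hp ha hF₁ hc₁ h₁ hv₁ i
  obtain ⟨d₂, s₂, t₂, f₂, hd₂, hs₂, hw₂, hf₂, -, -, -⟩ :=
    sheet_induction hG₂ hp ha hF₂ hc₂ h₂ hv₂ j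
  have hk := (isU_k_of_isVal hp hw₁ hw₂).div_mem
  have key := hS d₁ d₂ s₁ s₂ (f₂ - f₁) hd₁ hd₂ hs₁ hs₂ hk.1 hk.2
  have hs₁0 : s₁ ≠ 0 := by
    rintro rfl
    rw [zero_mul] at hrel₁
    exact hr₁0 hrel₁.symm
  have hordr : ordQ r₁ = ordQ s₁ + p * ordQ t₁ := by
    rw [← hrel₁]
    exact hord.mul_pow hG₁ hs₁.isRedQuot ht₁ hs₁0 ht₁0 hp0
  have hmod : f₂ - f₁ ≡ e₂ - e₁ [ZMOD p] := hf₂.sub hf₁
  have h3 : (p : ℤ) ∣ (f₂ - f₁) - (e₂ - e₁) := (Int.modEq_iff_dvd.mp hmod.symm)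
  have h4 : ordQ r₁ + (e₂ - e₁) * m =
      (ordQ s₁ + (f₂ - f₁) * m) - ((f₂ - f₁) - (e₂ - e₁)) * m + p * ordQ t₁ := by
    rw [hordr]; ring
  rw [h4]
  exact dvd_add (dvd_sub key (Dvd.dvd.mul_right h3 m)) (dvd_mul_right _ _)

section Level

variable {N : ℕ} [NeZero N] [NeZero p]

/-- a first-component reduction of `c₀ * u` is a first-component reduction of `u` -/
theorem isRed1_of_const_mul {c₀ : Kb} (hc₀ : c₀ ≠ 0) {u : FF (N * p)} {f : FFb A N}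
    (h : IsRed1 A N p (algebraMap Kb (FF (N * p)) c₀ * u) f) : IsRed1 A N p u f := by
  obtain ⟨hf, κ, hκ, hr⟩ := h
  refine ⟨hf, κ / c₀, div_ne_zero hκ hc₀, ?_⟩
  have e : algebraMap Kb (LaurentSeries Kb) (κ / c₀)⁻¹ * (u : LaurentSeries Kb) =
      algebraMap Kb (LaurentSeries Kb) κ⁻¹ *
        ((algebraMap Kb (FF (N * p)) c₀ * u : FF (N * p)) : LaurentSeries Kb) := by
    have e1 : ((algebraMap Kb (FF (N * p)) c₀ * u : FF (N * p)) : LaurentSeries Kb) =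
        algebraMap Kb (LaurentSeries Kb) c₀ * (u : LaurentSeries Kb) := rfl
    rw [e1, ← mul_assoc, ← map_mul]
    congr 2
    field_simp
  rw [e]
  exact hr

theorem isRed1_const_mul {c₀ : Kb} (hc₀ : c₀ ≠ 0) {u : FF (N * p)} {f : FFb A N}
    (h : IsRed1 A N p u f) : IsRed1 A N p (algebraMap Kb (FF (N * p)) c₀ * u) f := by
  obtain ⟨hf, κ, hκ, hr⟩ := h
  refine ⟨hf, κ * c₀, mul_ne_zero hκ hc₀, ?_⟩
  have e : algebraMap Kb (LaurentSeries Kb) (κ * c₀)⁻¹ *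
      ((algebraMap Kb (FF (N * p)) c₀ * u : FF (N * p)) : LaurentSeries Kb) =
      algebraMap Kb (LaurentSeries Kb) κ⁻¹ * (u : LaurentSeries Kb) := by
    have e1 : ((algebraMap Kb (FF (N * p)) c₀ * u : FF (N * p)) : LaurentSeries Kb) =
        algebraMap Kb (LaurentSeries Kb) c₀ * (u : LaurentSeries Kb) := rfl
    rw [e1, ← mul_assoc, ← map_mul]
    congr 2
    field_simp
  rw [e]
  exact hr

/-- **[CONCL] at one point**, two classes, relation `u' * h ^ p = c₀ * u`. -/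
theorem dvd_of_sheets_at2 (hG₁ : GoodClass A Good₁) (hG₂ : GoodClass A Good₂)
    (hne : ∀ Y : LaurentSeries A, Good₁ Y → red A Y ≠ 0)
    (hp : (p : Kb) ≠ 0) {a : Kb} (ha : IsU A a)
    {U₁ G₁ U₂ G₂ : ℕ → LaurentSeries Kb}
    (hF₁ : SheetFam A Good₁ p a U₁ G₁) (hF₂ : SheetFam A Good₂ p a U₂ G₂)
    {c₁ c₂ : Kb} {r₁ r₂ : LaurentSeries (kA A)} {e₁ e₂ : ℤ} (hc₁ : c₁ ≠ 0) (hc₂ : c₂ ≠ 0)
    (hr₁0 : r₁ ≠ 0)
    (h₁ : HasRed Good₁ c₁ (U₁ 0) r₁) (h₂ : HasRed Good₂ c₂ (U₂ 0) r₂)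
    (hv₁ : IsVal A p c₁ e₁) (hv₂ : IsVal A p c₂ e₂)
    {u : FF (N * p)} {H : LaurentSeries Kb} {ch c₀ : Kb} {rh : LaurentSeries (kA A)}
    (hch : ch ≠ 0) (hc₀ : c₀ ≠ 0) (hrh0 : rh ≠ 0) (hh : HasRed Good₁ ch H rh)
    (hrel : U₁ 0 * H ^ p = algebraMap Kb (LaurentSeries Kb) c₀ * (u : LaurentSeries Kb))
    {f₀ : FFb A N} (hf₀ : IsRed1 A N p u f₀)
    (Q : Place (kA A) (FFb A N)) {ordS : LaurentSeries (kA A) → ℤ}
    (hO : SheetOrd A N Good₁ Q ordS) {m : ℤ} (i j : ℕ)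
    (hS : K1CorSheet2 A Good₁ Good₂ p ordS m (U₁ i) (U₂ j)) :
    (p : ℤ) ∣ Q.ord f₀ + (e₂ - e₁) * m := by
  have hp0 : 0 < p := Nat.pos_of_ne_zero (NeZero.ne p)
  have h := concl_at_point2 hG₁ hG₂ hp hp0 ha hF₁ hF₂ hc₁ hc₂ hr₁0 h₁ h₂ hv₁ hv₂ hO.mul i j hS
  have hrel' : U₁ 0 * H ^ p =
      ((algebraMap Kb (FF (N * p)) c₀ * u : FF (N * p)) : LaurentSeries Kb) := hrel
  obtain ⟨hf, hdvd⟩ := concl_transfer hG₁ hp0 h₁ hh hr₁0 hrh0 hrel' hO.mul h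
  have hκ : c₁ * ch ^ p ≠ 0 := mul_ne_zero hc₁ (pow_ne_zero _ hch)
  have hf0 : r₁ * rh ^ p ≠ 0 := mul_ne_zero hr₁0 (pow_ne_zero _ hrh0)
  have hR : HasRed (fun Y : LaurentSeries A => red A Y ≠ 0) (c₁ * ch ^ p)
      ((algebraMap Kb (FF (N * p)) c₀ * u : FF (N * p)) : LaurentSeries Kb)
      (r₁ * rh ^ p) := by
    obtain ⟨Y₁, Y₂, g₁, g₂, e, er⟩ := hf
    exact ⟨Y₁, Y₂, hne Y₁ g₁, hne Y₂ g₂, e, er⟩
  obtain ⟨k1, -⟩ := (hasRed_redNe_iff hκ).mp hR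
  obtain ⟨hf₀0, κ₀, hκ₀, k0⟩ := isRed1_const_mul hc₀ hf₀
  have hf₀0' : (f₀ : LaurentSeries (kA A)) ≠ 0 := fun h0 => hf₀0 (Subtype.ext h0)
  obtain ⟨c, hc, hcf⟩ := rhoQ_unique_const hκ₀ hκ hf₀0' hf0 k0 k1
  have hmem : r₁ * rh ^ p ∈ FFb A N := by
    rw [hcf]
    exact (FFb A N).mul_mem ((FFb A N).algebraMap_mem c) f₀.2
  have hord : ordS (r₁ * rh ^ p) = Q.ord f₀ := by
    rw [hO.compat _ hmem hf0]
    have e1 : (⟨r₁ * rh ^ p, hmem⟩ : FFb A N) = algebraMap (kA A) (FFb A N) c * f₀ :=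
      Subtype.ext hcf
    rw [e1, Place.ord_mul Q ((map_ne_zero _).mpr hc) hf₀0,
      Fermat.Agent.T6.helper26.ord_const Q c, zero_add]
  rw [hord] at hdvd
  exact hdvd

/-- **[CONCL], exit for a given reduction `f₀` of `u`**, off the cusps, two classes. -/
theorem modEqOff_of_sheets2 (hG₁ : GoodClass A Good₁) (hG₂ : GoodClass A Good₂)
    (hne : ∀ Y : LaurentSeries A, Good₁ Y → red A Y ≠ 0)
    (hp : (p : Kb) ≠ 0) {a : Kb} (ha : IsU A a)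
    {U₁ G₁ U₂ G₂ : ℕ → LaurentSeries Kb}
    (hF₁ : SheetFam A Good₁ p a U₁ G₁) (hF₂ : SheetFam A Good₂ p a U₂ G₂)
    {c₁ c₂ : Kb} {r₁ r₂ : LaurentSeries (kA A)} {e₁ e₂ : ℤ} (hc₁ : c₁ ≠ 0) (hc₂ : c₂ ≠ 0)
    (hr₁0 : r₁ ≠ 0)
    (h₁ : HasRed Good₁ c₁ (U₁ 0) r₁) (h₂ : HasRed Good₂ c₂ (U₂ 0) r₂)
    (hv₁ : IsVal A p c₁ e₁) (hv₂ : IsVal A p c₂ e₂)
    {u : FF (N * p)} {H : LaurentSeries Kb} {ch c₀ : Kb} {rh : LaurentSeries (kA A)}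
    (hch : ch ≠ 0) (hc₀ : c₀ ≠ 0) (hrh0 : rh ≠ 0) (hh : HasRed Good₁ ch H rh)
    (hrel : U₁ 0 * H ^ p = algebraMap Kb (LaurentSeries Kb) c₀ * (u : LaurentSeries Kb))
    {f₀ : FFb A N} (hf₀ : IsRed1 A N p u f₀) (ν : FFb A N)
    (hS : ∀ Q : Place (kA A) (FFb A N), 0 ≤ Q.ord (jBar A N) →
      ∃ ordS : LaurentSeries (kA A) → ℤ, SheetOrd A N Good₁ Q ordS ∧
        ∃ i j : ℕ, K1CorSheet2 A Good₁ Good₂ p ordS (Q.ord ν) (U₁ i) (U₂ j)) :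
    ModEqOff A N p (e₁ - e₂) f₀ ν := by
  intro Q hQ
  obtain ⟨ordS, hO, i, j, hij⟩ := hS Q hQ
  have h := dvd_of_sheets_at2 hG₁ hG₂ hne hp ha hF₁ hF₂ hc₁ hc₂ hr₁0 h₁ h₂ hv₁ hv₂ hch hc₀
    hrh0 hh hrel hf₀ Q hO i j hij
  apply Int.ModEq.symm
  rw [Int.modEq_iff_dvd]
  have e : Q.ord f₀ - (e₁ - e₂) * Q.ord ν = Q.ord f₀ + (e₂ - e₁) * Q.ord ν := by ring
  rw [e]
  exact h

/-- **[CONCL], the exit `SlopeOutN`**, two classes, relation `u' * h ^ p = c₀ * u`. -/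
theorem slopeOutN_of_sheetOrd2 (hpp : p.Prime) (hpN : ¬ p ∣ N) (hA : A.LiesOverPrime p)
    (hG₁ : GoodClass A Good₁) (hG₂ : GoodClass A Good₂)
    (hne : ∀ Y : LaurentSeries A, Good₁ Y → red A Y ≠ 0)
    {a : Kb} (ha : IsU A a)
    {U₁ G₁ U₂ G₂ : ℕ → LaurentSeries Kb}
    (hF₁ : SheetFam A Good₁ p a U₁ G₁) (hF₂ : SheetFam A Good₂ p a U₂ G₂)
    {c₁ c₂ : Kb} {r₁ r₂ : LaurentSeries (kA A)} {e₁ e₂ : ℤ} (hc₁ : c₁ ≠ 0) (hc₂ : c₂ ≠ 0)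
    (hr₁0 : r₁ ≠ 0)
    (h₁ : HasRed Good₁ c₁ (U₁ 0) r₁) (h₂ : HasRed Good₂ c₂ (U₂ 0) r₂)
    (hv₁ : IsVal A p c₁ e₁) (hv₂ : IsVal A p c₂ e₂)
    {u : FF (N * p)} (hu : u ≠ 0) {H : LaurentSeries Kb} {ch c₀ : Kb}
    {rh : LaurentSeries (kA A)}
    (hch : ch ≠ 0) (hc₀ : c₀ ≠ 0) (hrh0 : rh ≠ 0) (hh : HasRed Good₁ ch H rh)
    (hrel : U₁ 0 * H ^ p = algebraMap Kb (LaurentSeries Kb) c₀ * (u : LaurentSeries Kb))
    (ν : FFb A N)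
    (hS : ∀ Q : Place (kA A) (FFb A N), 0 ≤ Q.ord (jBar A N) →
      ∃ ordS : LaurentSeries (kA A) → ℤ, SheetOrd A N Good₁ Q ordS ∧
        ∃ i j : ℕ, K1CorSheet2 A Good₁ Good₂ p ordS (Q.ord ν) (U₁ i) (U₂ j)) :
    SlopeOutN A N p ν u := by
  obtain ⟨f₀, hf₀⟩ := exists_isRed1 hpp hpN hA hu
  have hp : (p : Kb) ≠ 0 := Nat.cast_ne_zero.mpr hpp.ne_zero
  exact ⟨f₀, e₁ - e₂, hf₀,
    modEqOff_of_sheets2 hG₁ hG₂ hne hp ha hF₁ hF₂ hc₁ hc₂ hr₁0 h₁ h₂ hv₁ hv₂ hch hc₀ hrh0 hh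
      hrel hf₀ ν hS⟩

end Level

end Fermat.Agent.T8.helper29

end
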