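/-
T8 = row 38 via S44, leaf [CONCL] (helper80, second): the K1-corollary on the COVER at one pair
of sheets from the K0-corollary, by the norm over `I_A / I_K1`.

Vocabulary of `helper65_NormInst` / `helper65_NormCover` / `helper29_ConclSheet`.

* `K0CorSheet A Good p ordQ m V₁ V₂` : the K0-corollary read on the images `V₁`, `V₂` (on the two
  sheets through the point) of an `I_A`-fixed function of the cover: for all scalings
  `V₁ = c₁ * good / good` (reduction `r₁`), `V₂ = c₂ * good / good` and `k` with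
  `c₂ / c₁ = p ^ k * unit`:  `p ∣ ordQ r₁ - k * m`.   (Shape of `helper65.K0CorAt`.)
* `k1CorSheet_of_normL` : `K0CorSheet` at the norms `(normL V₁, normL V₂)` gives
  `helper29.K1CorSheet` at `(V₁, V₂)`.
* `k1CorSheet_of_cover` : the same for an arbitrary cover `F'` with an action `act'` of the Galois
  group and two sheets `ι₁`, `ι₂` (multiplicative, equivariant for the inertia group): if the
  K0-corollary holds for all `I_A`-fixed `U` with `Loc U` (`Loc` stable under products and under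
  the inertia group, e.g. `U ≠ 0` and `p ∣ div U`), then the K1-corollary holds for all
  `I_K1`-fixed `u` with `Loc u`.
-/
import Mathlib
import Fermat.Agent.T8.helper29_ConclSheet
import Fermat.Agent.T8.helper65_NormCover

set_option autoImplicit false
set_option linter.unusedSectionVars false
set_option linter.unusedVariables false
set_option linter.style.longLine false
set_option linter.style.haveILetI false

noncomputable section

namespace Fermat.Agent.T8.helper80

open HahnSeries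
open Fermat.Agent.S18.helper19 Fermat.Agent.P2.helper29 Fermat.Agent.T8.helper65
open Fermat.Agent.T8.helper29 (K1CorSheet)

/-- **the K0-corollary on the cover at one pair of sheets** (shape of `helper65.K0CorAt`, read on
the images `V₁`, `V₂` of an `I_A`-fixed function of the cover on the two sheets through the
point). -/
def K0CorSheet (A : ValuationSubring Kb) (Good : LaurentSeries A → Prop) (p : ℕ)
    (ordQ : LaurentSeries (kA A) → ℤ) (m : ℤ) (V₁ V₂ : LaurentSeries Kb) : Prop :=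
  ∀ (c₁ c₂ : Kb) (r₁ r₂ : LaurentSeries (kA A)) (k : ℤ), c₁ ≠ 0 → c₂ ≠ 0 →
    HasRed Good c₁ V₁ r₁ → HasRed Good c₂ V₂ r₂ →
    c₂ / (c₁ * (p : Kb) ^ k) ∈ A → (c₁ * (p : Kb) ^ k) / c₂ ∈ A →
    (p : ℤ) ∣ ordQ r₁ - k * m

variable {A : ValuationSubring Kb} {Good : LaurentSeries A → Prop} {p : ℕ} [Fact p.Prime]

/-- **K0 at the norms ⟹ K1**, on Laurent series. -/
theorem k1CorSheet_of_normL (hA : A.LiesOverPrime p) (hG : GoodClass A Good)
    (ordQ : LaurentSeries (kA A) → ℤ) (m : ℤ)
    (hord : ∀ (r : LaurentSeries (kA A)) (n : ℕ), IsRedQuot Good r →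
      ordQ (r ^ n) = n * ordQ r)
    {V₁ V₂ : LaurentSeries Kb}
    (h0 : haveI := finiteIndex_muFix (p := p) A hA
      K0CorSheet A Good p ordQ m (normL A (muFix p) V₁) (normL A (muFix p) V₂)) :
    K1CorSheet A Good p ordQ m V₁ V₂ := by
  have hp : p.Prime := Fact.out
  haveI := finiteIndex_muFix (p := p) A hA
  have hidx : idx A (muFix p) = p - 1 := idx_muFix A hA
  intro c₁ c₂ r₁ r₂ k hc₁ hc₂ hr₁ hr₂ hk hk'
  have hR₁ : HasRed Good (normC A (muFix p) c₁) (normL A (muFix p) V₁) (r₁ ^ (p - 1)) := by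
    rw [← hidx]
    exact hasRed_normCoset hG hr₁
  have hR₂ : HasRed Good (normC A (muFix p) c₂) (normL A (muFix p) V₂) (r₂ ^ (p - 1)) := by
    rw [← hidx]
    exact hasRed_normCoset hG hr₂
  have hN₁ : normC A (muFix p) c₁ ≠ 0 := by
    classical
    letI : Fintype (IA A ⧸ (muFix p ⊓ IA A).subgroupOf (IA A)) :=
      Subgroup.fintypeQuotientOfFiniteIndex
    unfold normC normCoset
    rw [Finset.prod_ne_zero_iff]
    intro q _
    exact (map_ne_zero _).mpr hc₁
  have hN₂ : normC A (muFix p) c₂ ≠ 0 := by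
    classical
    letI : Fintype (IA A ⧸ (muFix p ⊓ IA A).subgroupOf (IA A)) :=
      Subgroup.fintypeQuotientOfFiniteIndex
    unfold normC normCoset
    rw [Finset.prod_ne_zero_iff]
    intro q _
    exact (map_ne_zero _).mpr hc₂
  have hpk : ((p : Kb) ^ k) ≠ 0 := zpow_ne_zero _ (by exact_mod_cast hp.ne_zero)
  have hd₁ : c₁ ^ (p - 1) ≠ 0 := pow_ne_zero _ hc₁
  have hd₂ : c₂ ^ (p - 1) ≠ 0 := pow_ne_zero _ hc₂
  have ha₁ := normCoset_const_div_mem (A := A) (H := muFix p) hc₁
  have ha₁' := normCoset_const_div_mem' (A := A) (H := muFix p) hc₁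
  have ha₂ := normCoset_const_div_mem (A := A) (H := muFix p) hc₂
  have ha₂' := normCoset_const_div_mem' (A := A) (H := muFix p) hc₂
  rw [hidx] at ha₁ ha₁' ha₂ ha₂'
  have hK : normC A (muFix p) c₂ / (normC A (muFix p) c₁ * (p : Kb) ^ k) ∈ A := by
    have e : normC A (muFix p) c₂ / (normC A (muFix p) c₁ * (p : Kb) ^ k) =
        (normC A (muFix p) c₂ / c₂ ^ (p - 1)) * (c₁ ^ (p - 1) / normC A (muFix p) c₁) *
          ((c₂ / c₁) ^ (p - 1) / (p : Kb) ^ k) := by
      rw [div_pow]
      field_simp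
    rw [e]
    exact A.mul_mem _ _ (A.mul_mem _ _ ha₂ ha₁') hk
  have hK' : (normC A (muFix p) c₁ * (p : Kb) ^ k) / normC A (muFix p) c₂ ∈ A := by
    have e : (normC A (muFix p) c₁ * (p : Kb) ^ k) / normC A (muFix p) c₂ =
        (normC A (muFix p) c₁ / c₁ ^ (p - 1)) * (c₂ ^ (p - 1) / normC A (muFix p) c₂) *
          ((p : Kb) ^ k / (c₂ / c₁) ^ (p - 1)) := by
      rw [div_pow]
      field_simp
    rw [e]
    exact A.mul_mem _ _ (A.mul_mem _ _ ha₁ ha₂') hk'
  have key := h0 _ _ _ _ k hN₁ hN₂ hR₁ hR₂ hK hK'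
  rw [hord r₁ (p - 1) hr₁.isRedQuot, Nat.cast_sub hp.one_lt.le] at key
  obtain ⟨t, ht⟩ := key
  refine ⟨ordQ r₁ - t, ?_⟩
  push_cast at ht
  linear_combination -ht

/-- **K0 ⟹ K1 on a cover**: `F'` any commutative monoid (the nonzero elements of the cover
field, or the field itself) with an action `act'` of the Galois group, `ι₁`, `ι₂` two sheets
(multiplicative maps to Laurent series, equivariant for the inertia group), `Loc` a property
stable under products and under the inertia group. -/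
theorem k1CorSheet_of_cover (hA : A.LiesOverPrime p) (hG : GoodClass A Good)
    (ordQ : LaurentSeries (kA A) → ℤ) (m : ℤ)
    (hord : ∀ (r : LaurentSeries (kA A)) (n : ℕ), IsRedQuot Good r →
      ordQ (r ^ n) = n * ordQ r)
    {F' : Type*} [CommMonoid F'] {act' : (Kb ≃ₐ[ℚ] Kb) → F' → F'} (hact : IsActFam act')
    (ι₁ ι₂ : F' →* LaurentSeries Kb)
    (hι₁ : ∀ σ ∈ IA A, ∀ u, ι₁ (act' σ u) = cwAct σ (ι₁ u))
    (hι₂ : ∀ σ ∈ IA A, ∀ u, ι₂ (act' σ u) = cwAct σ (ι₂ u))
    (Loc : F' → Prop) (hLoc_mul : ∀ u v, Loc u → Loc v → Loc (u * v)) (hLoc_one : Loc 1)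
    (hLoc_act : ∀ σ ∈ IA A, ∀ u, Loc u → Loc (act' σ u))
    (h0 : ∀ U : F', (∀ σ ∈ IA A, act' σ U = U) → Loc U →
      K0CorSheet A Good p ordQ m (ι₁ U) (ι₂ U))
    {u : F'} (hu : ∀ σ ∈ muFix p ⊓ IA A, act' σ u = u) (hLu : Loc u) :
    K1CorSheet A Good p ordQ m (ι₁ u) (ι₂ u) := by
  haveI := finiteIndex_muFix (p := p) A hA
  refine k1CorSheet_of_normL hA hG ordQ m hord ?_
  have h1 := h0 (normCoset act' (IA A) (muFix p ⊓ IA A) u)
    (fun σ hσ => act_normCoset hact hu hσ)
    (prop_normCoset Loc hLoc_mul hLoc_one hLoc_act hLu)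
  rw [sheet_normCoset (H := muFix p) ι₁ hι₁, sheet_normCoset (H := muFix p) ι₂ hι₂] at h1
  exact h1

end Fermat.Agent.T8.helper80

end
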