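/-
T8 = row 38 via S44, leaf [CONCL] (helper80, second): the open input of [CONCL],
`helper29.SlopeCoverStatement` (the K1-corollary on the cover), from its K0-form.

* `k1CorSheet2_of_ordMul` : the norm step `K0CorSheet2` at the norms ⟹ `helper29.K1CorSheet2`
  for an order function which is only multiplicative on the NONZERO quotients of reductions
  (`helper29.OrdMul`, the first field of `helper29.SheetOrd`);
* `semiAct`, `dvd_ord_act` : the inertia action on the cover is semilinear, hence it permutes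
  the places of the cover: `n ∣ div V ⟹ n ∣ div (σ V)`;
* `K0CoverStatement D hKum ζ hζp ν` : **the K0-corollary on the cover** = the statement
  `helper29.SlopeCoverStatement` for the functions `U` of the cover which are coefficientwise
  fixed by the WHOLE inertia group `I_A`, with the K0-shape `helper80.K0CorSheet2`
  (`c₂ / c₁ = p ^ k * unit ⟹ p ∣ ordS r₁ - k * ord_Q ν`);
* `slopeCoverStatement_of_k0` : **`K0CoverStatement ⟹ helper29.SlopeCoverStatement`** (norm over
  `I_A / I_K1`, index `p - 1`).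

So the non-split wall (`helper29.conclStatementN_of_slopes`) hangs only on `K0CoverStatement`.
-/
import Mathlib
import Fermat.Agent.T8.helper29_ConclCover
import Fermat.Agent.T8.helper80_K1Sheet2
import Fermat.Agent.T8.helper65_K1Sheet

set_option autoImplicit false
set_option linter.unusedSectionVars false
set_option linter.unusedVariables false
set_option linter.style.longLine false
set_option linter.style.haveILetI false

noncomputable section

namespace Fermat.Agent.T8.helper80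

open HahnSeries IntermediateField AlgebraicCurve ModularCurve
open Fermat.Agent.S18.helper19 Fermat.Agent.P2.helper29 Fermat.Agent.P2.helper93
open Fermat.Agent.T8.helper65
open Fermat.Agent.T8.helper29 (K1CorSheet2 SheetOrd SlopeCoverStatement sh1 sh2 OrdMul
  isRedQuot_one goodClass_one goodClass_two isIK1_iff_mem)
open Fermat.Agent.T8.helper88 (CovData Cov)
open Fermat.Agent.T8.helper22 (SheetGood)
open Fermat.Agent.T8.helper86 (IsKummerRoot)
open Fermat.Agent.T8.helper98 (IsIK1)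

variable {A : ValuationSubring Kb}

/-! ### The norm step for order functions multiplicative on nonzero reductions -/

section OrdMul

variable {Good₁ Good₂ : LaurentSeries A → Prop} {p : ℕ} [Fact p.Prime]

theorem hasRed_ne_zero (hne : ∀ Y : LaurentSeries A, Good₁ Y → red A Y ≠ 0) {c : Kb}
    {f : LaurentSeries Kb} {r : LaurentSeries (kA A)} (h : HasRed Good₁ c f r) : r ≠ 0 := by
  obtain ⟨Y₁, Y₂, g₁, g₂, -, er⟩ := h
  rintro rfl
  rw [zero_mul] at er
  exact hne Y₁ g₁ er.symm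

/-- **K0 at the norms ⟹ K1**, for `helper29.OrdMul` order functions. -/
theorem k1CorSheet2_of_ordMul (hA : A.LiesOverPrime p) (hG₁ : GoodClass A Good₁)
    (hG₂ : GoodClass A Good₂) (hne : ∀ Y : LaurentSeries A, Good₁ Y → red A Y ≠ 0)
    {ordS : LaurentSeries (kA A) → ℤ} (hO : OrdMul Good₁ ordS) (m : ℤ)
    {V₁ V₂ : LaurentSeries Kb}
    (h0 : haveI := finiteIndex_muFix (p := p) A hA
      K0CorSheet2 A Good₁ Good₂ p ordS m (normL A (muFix p) V₁) (normL A (muFix p) V₂)) :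
    K1CorSheet2 A Good₁ Good₂ p ordS m V₁ V₂ := by
  classical
  haveI := finiteIndex_muFix (p := p) A hA
  let ordS' : LaurentSeries (kA A) → ℤ := fun r => if r = 0 then 0 else ordS r
  have hS' : ∀ r : LaurentSeries (kA A), r ≠ 0 → ordS' r = ordS r := fun r hr => if_neg hr
  have hS'0 : ordS' 0 = 0 := if_pos rfl
  have hone : ordS 1 = 0 := by
    have h := hO 1 1 (isRedQuot_one hG₁) (isRedQuot_one hG₁) one_ne_zero one_ne_zero
    rw [mul_one] at h
    linarith
  have h0' : K0CorSheet2 A Good₁ Good₂ p ordS' m (normL A (muFix p) V₁)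
      (normL A (muFix p) V₂) := by
    intro c₁ c₂ r₁ r₂ k hc₁ hc₂ hr₁ hr₂ hk hk'
    rw [hS' r₁ (hasRed_ne_zero hne hr₁)]
    exact h0 c₁ c₂ r₁ r₂ k hc₁ hc₂ hr₁ hr₂ hk hk'
  have hord' : ∀ (r : LaurentSeries (kA A)) (n : ℕ), IsRedQuot Good₁ r →
      ordS' (r ^ n) = n * ordS' r := by
    intro r n hr
    rcases Nat.eq_zero_or_pos n with rfl | hn
    · rw [pow_zero, hS' 1 one_ne_zero, hone]
      simp
    · by_cases hr0 : r = 0
      · subst hr0
        rw [zero_pow hn.ne', hS'0, mul_zero]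
      · rw [hS' _ (pow_ne_zero _ hr0), hS' r hr0]
        exact Fermat.Agent.T8.helper29.OrdMul.pow hG₁ hO hr hr0 n hn
  have key := k1CorSheet2_of_normL hA hG₁ hG₂ ordS' m hord' h0'
  intro c₁ c₂ r₁ r₂ k hc₁ hc₂ hr₁ hr₂ hk hk'
  have h := key c₁ c₂ r₁ r₂ k hc₁ hc₂ hr₁ hr₂ hk hk'
  rwa [hS' r₁ (hasRed_ne_zero hne hr₁)] at h

end OrdMul

/-! ### The inertia action on the places of the cover -/

section Semi

variable {M : ℕ} [NeZero M] {W : FF M ≃ₐ[Kb] FF M} {p : ℕ} (D : CovData M W A p)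

/-- the inertia action on the cover, as a semilinear automorphism -/
def semiAct (σ : Kb ≃ₐ[ℚ] Kb) (hσ : σ ∈ A.inertiaSubgroupIn ℚ) :
    SemilinearAut Kb (Cov M D.Z) :=
  ⟨(D.actEquiv σ hσ, (σ : Kb ≃ₐ[ℚ] Kb).toRingEquiv), fun a => D.act_const σ hσ a⟩

theorem semiAct_smul (σ : Kb ≃ₐ[ℚ] Kb) (hσ : σ ∈ A.inertiaSubgroupIn ℚ) (x : Cov M D.Z) :
    semiAct D σ hσ • x = D.act σ hσ x := rfl

/-- the inertia action preserves the divisibility of the divisor -/
theorem dvd_ord_act {n : ℕ} {V : Cov M D.Z}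
    (h : ∀ w : Place Kb (Cov M D.Z), (n : ℤ) ∣ w.ord V)
    (σ : Kb ≃ₐ[ℚ] Kb) (hσ : σ ∈ A.inertiaSubgroupIn ℚ) (w : Place Kb (Cov M D.Z)) :
    (n : ℤ) ∣ w.ord (D.act σ hσ V) := by
  have h1 := SemilinearAut.ord_smul (semiAct D σ hσ) ((semiAct D σ hσ)⁻¹ • w) V
  rw [smul_inv_smul, semiAct_smul] at h1
  rw [h1]
  exact h _

end Semi

/-! ### The K0-corollary on the cover -/

section Exit

variable {N p : ℕ} [NeZero N] [NeZero p] {W : FF (N * p) ≃ₐ[Kb] FF (N * p)}
  (D : CovData (N * p) W A p) (hKum : IsKummerRoot p D.K D.Z) (ζ : Kb) (hζp : ζ ^ p = 1)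

/-- **the K0-corollary on the cover** ([SLOPE] on `X'`): the statement of
`helper29.SlopeCoverStatement` for the functions of the cover which are coefficientwise fixed by
the whole inertia group, in the K0-shape. -/
def K0CoverStatement (ν : FFb A N) : Prop :=
  ∀ U : Cov (N * p) D.Z, U ≠ 0 →
    (∀ σ : Kb ≃ₐ[ℚ] Kb, σ ∈ A.inertiaSubgroupIn ℚ →
      coeffMap (σ : Kb →+* Kb) (U : LaurentSeries Kb) = (U : LaurentSeries Kb)) →
    (∀ w : Place Kb (Cov (N * p) D.Z), (p : ℤ) ∣ w.ord U) →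
    ∀ Q : Place (kA A) (FFb A N), 0 ≤ Q.ord (jBar A N) →
      ∃ ordS : LaurentSeries (kA A) → ℤ, SheetOrd A N (SheetGood (N * p) A D.Z) Q ordS ∧
        ∃ i j : ℕ, K0CorSheet2 A (SheetGood (N * p) A D.Z) (SheetGood (N * p) A D.Z') p ordS
          (Q.ord ν) (sh1 D hKum ζ hζp i U) (sh2 D hKum ζ hζp j U)

/-- **`K0CoverStatement ⟹ helper29.SlopeCoverStatement`**. -/
theorem slopeCoverStatement_of_k0 (hA : A.LiesOverPrime p) (ν : FFb A N)
    (h0 : K0CoverStatement D hKum ζ hζp ν) : SlopeCoverStatement D hKum ζ hζp ν := by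
  classical
  haveI : Fact p.Prime := ⟨D.hp⟩
  haveI := finiteIndex_muFix (p := p) A hA
  intro V hV hfix hdiv Q hQ
  -- equivariance of the sheets
  have hι₁ : ∀ i : ℕ, ∀ σ ∈ IA A, ∀ u : Cov (N * p) D.Z,
      ((sh1 D hKum ζ hζp i : Cov (N * p) D.Z →+* LaurentSeries Kb) :
        Cov (N * p) D.Z →* LaurentSeries Kb) (covAct D σ u) =
      cwAct σ (((sh1 D hKum ζ hζp i : Cov (N * p) D.Z →+* LaurentSeries Kb) :
        Cov (N * p) D.Z →* LaurentSeries Kb) u) := by
    intro i σ hσ u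
    rw [covAct_of_mem D hσ]
    exact D.sheet1_pow_act hKum ζ hζp σ hσ i u
  have hι₂ : ∀ j : ℕ, ∀ σ ∈ IA A, ∀ u : Cov (N * p) D.Z,
      ((sh2 D hKum ζ hζp j : Cov (N * p) D.Z →+* LaurentSeries Kb) :
        Cov (N * p) D.Z →* LaurentSeries Kb) (covAct D σ u) =
      cwAct σ (((sh2 D hKum ζ hζp j : Cov (N * p) D.Z →+* LaurentSeries Kb) :
        Cov (N * p) D.Z →* LaurentSeries Kb) u) := by
    intro j σ hσ u
    rw [covAct_of_mem D hσ]
    exact D.sheet2_pow_act hKum ζ hζp σ hσ j u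
  -- the norm
  set U : Cov (N * p) D.Z := normCoset (covAct D) (IA A) (muFix p ⊓ IA A) V with hU
  have hsh₁ : ∀ i : ℕ, sh1 D hKum ζ hζp i U = normL A (muFix p) (sh1 D hKum ζ hζp i V) :=
    fun i => sheet_normCoset (H := muFix p) _ (hι₁ i) V
  have hsh₂ : ∀ j : ℕ, sh2 D hKum ζ hζp j U = normL A (muFix p) (sh2 D hKum ζ hζp j V) :=
    fun j => sheet_normCoset (H := muFix p) _ (hι₂ j) V
  -- the norm is fixed by the inertia group
  have hUfix : ∀ σ : Kb ≃ₐ[ℚ] Kb, σ ∈ A.inertiaSubgroupIn ℚ →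
      coeffMap (σ : Kb →+* Kb) (U : LaurentSeries Kb) = (U : LaurentSeries Kb) := by
    intro τ hτ
    have h1 : (U : LaurentSeries Kb) = normL A (muFix p) (V : LaurentSeries Kb) := hsh₁ 0
    rw [h1]
    exact act_normCoset isActFam_cwAct
      (fun σ hσ => hfix σ (isIK1_iff_mem.mp hσ)) hτ
  -- the norm is nonzero with divisor divisible by `p`
  have hLoc : U ≠ 0 ∧ ∀ w : Place Kb (Cov (N * p) D.Z), (p : ℤ) ∣ w.ord U := by
    refine prop_normCoset (fun x : Cov (N * p) D.Z => x ≠ 0 ∧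
      ∀ w : Place Kb (Cov (N * p) D.Z), (p : ℤ) ∣ w.ord x) ?_ ?_ ?_ ⟨hV, hdiv⟩
    · rintro u v ⟨hu, hu'⟩ ⟨hv, hv'⟩
      refine ⟨mul_ne_zero hu hv, fun w => ?_⟩
      rw [Place.ord_mul w hu hv]
      exact dvd_add (hu' w) (hv' w)
    · refine ⟨one_ne_zero, fun w => ?_⟩
      rw [Place.ord_one]
      exact dvd_zero _
    · rintro σ hσ u ⟨hu, hu'⟩
      rw [covAct_of_mem D hσ]
      exact ⟨(map_ne_zero (D.act σ hσ)).mpr hu, fun w => dvd_ord_act D hu' σ hσ w⟩
  obtain ⟨ordS, hO, i, j, hK0⟩ := h0 U hLoc.1 hUfix hLoc.2 Q hQ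
  refine ⟨ordS, hO, i, j, ?_⟩
  rw [hsh₁ i, hsh₂ j] at hK0
  exact k1CorSheet2_of_ordMul hA (goodClass_one D) (goodClass_two D) (fun Y hY => hY.2) hO.mul
    (Q.ord ν) hK0

end Exit

end Fermat.Agent.T8.helper80

end
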