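/-
T8 (row 38 via S44), helper22: THE NON-SPLIT WALL FROM THE K0-COROLLARY ON THE COVERS OF NEW
CLASSES, with the order function `ordAt Q`.

`helper29.SlopeCoverAll` quantifies over ALL cover data; the order function of its statement
exists by [SHEET-FFB] only when the Kummer function `D.K` is NEW.  Here:

* `K0CoverOrdStatement D hKum ζ hζp ν` : the K0-corollary on the cover with the order function
      FIXED: `ordS := helper16.ordAt Q` (no `SheetOrd` to provide);
* `k0Cover_of_ord`       : `IsNewN N p D.K`, `red D.Z₁ = 1` + `K0CoverOrdStatement`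
                           ⟹ `helper80.K0CoverStatement` (hence `helper29.SlopeCoverStatement`);
* `SlopeCoverNewAll`     : `helper29.SlopeCoverAll` with the extra hypotheses
                           `StronglySplit D.K`, `IsNewN (4 M') p D.K`, `red D.Z₁ = 1`,
                           `red D.Z₂ = 1`;
* `K0CoverNewAll`        : the same for `K0CoverOrdStatement` (THE TARGET of the cover provers);
* `slopeCoverNewAll_of_k0` : `K0CoverNewAll → SlopeCoverNewAll`;
* `conclStatementNN_of_slopes` : [CONCL] with newness from the two K1-corollaries;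
* `nonSplitWall_of_slopesNew` : **`SlopeXAll → SlopeCoverNewAll →
                           helper38.NonSplitWallStatement π wallBN`**;
* `nonSplitWall_of_k0New`     : **`SlopeXAll → K0CoverNewAll →
                           helper38.NonSplitWallStatement π wallBN`**.
-/
import Mathlib
import Fermat.Agent.T8.helper22_PeuNew
import Fermat.Agent.T8.helper29_ConclAsm
import Fermat.Agent.T8.helper80_SlopeCoverK0

set_option autoImplicit false
set_option linter.unusedSectionVars false
set_option linter.unusedVariables false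
set_option linter.style.longLine false
set_option linter.style.haveILetI false
set_option synthInstance.maxHeartbeats 400000

noncomputable section

namespace Fermat.Agent.T8.helper22

open HahnSeries IntermediateField AlgebraicCurve ModularCurve
open Fermat.Agent.S18.helper19 Fermat.Agent.P2.helper29 Fermat.Agent.P2.helper93
open Fermat.Agent.T2 Fermat.Agent.T2.helper36
open Fermat.Agent.T8.helper65 Fermat.Agent.T8.helper80
open Fermat.Agent.T8.helper54 (IsRed1 DvdOff ModEqOff)
open Fermat.Agent.T8.helper88 (CovData Cov)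
open Fermat.Agent.T8.helper86 (IsKummerRoot)
open Fermat.Agent.T8.helper98 (IsIK1)
open Fermat.Agent.T8.helper16 (ordAt)
open Fermat.Agent.T8.helper29 (SlopeCoverStatement SlopeXAll sh1 sh2 SheetOrd K1CorSheet2
  SlopeOutN wallBN)
open Fermat.Agent.T3.helper16 (IsUnit0)

variable {A : ValuationSubring Kb}

section Cover

variable {N p : ℕ} [NeZero N] [NeZero p] (hp : p.Prime) (hpN : ¬ p ∣ N)
  (D : CovData (N * p) (atkinLehner N p hp hpN) A p) (hKum : IsKummerRoot p D.K D.Z) (ζ : Kb)
  (hζp : ζ ^ p = 1)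

/-- **the K0-corollary on the cover, with the order function `ordAt Q`**: for every nonzero `U`
of the cover, coefficientwise fixed by the inertia group, with `p ∣ div U` on the cover, and
every closed point `Q` of the special fibre where `j̄` is finite, there is a pair of sheets
`(1, i)`, `(2, j)` with the K0-shape for `ordAt Q`. -/
def K0CoverOrdStatement (ν : FFb A N) : Prop :=
  ∀ U : Cov (N * p) D.Z, U ≠ 0 →
    (∀ σ : Kb ≃ₐ[ℚ] Kb, σ ∈ A.inertiaSubgroupIn ℚ →
      coeffMap (σ : Kb →+* Kb) (U : LaurentSeries Kb) = (U : LaurentSeries Kb)) →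
    (∀ w : Place Kb (Cov (N * p) D.Z), (p : ℤ) ∣ w.ord U) →
    ∀ Q : Place (kA A) (FFb A N), 0 ≤ Q.ord (jBar A N) →
      ∃ i j : ℕ, K0CorSheet2 A (SheetGood (N * p) A D.Z) (SheetGood (N * p) A D.Z') p (ordAt Q)
        (Q.ord ν) (sh1 D hKum ζ hζp i U) (sh2 D hKum ζ hζp j U)

/-- for a NEW Kummer function the order function of the K0-corollary is `ordAt Q` -/
theorem k0Cover_of_ord (hA : A.LiesOverPrime p)
    (hnew : Fermat.Agent.T7.helper27.IsNewN N p D.K) (hr : red A D.Z₁ = 1) (ν : FFb A N)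
    (h : K0CoverOrdStatement hp hpN D hKum ζ hζp ν) :
    K0CoverStatement D hKum ζ hζp ν := by
  intro U hU hfix hdiv Q hQ
  exact ⟨ordAt Q, sheetOrd_cov₁ N p hp hpN hA D hnew hr Q, h U hU hfix hdiv Q hQ⟩

/-- for a NEW Kummer function: K0-corollary with `ordAt Q` ⟹ `helper29.SlopeCoverStatement` -/
theorem slopeCover_of_ord (hA : A.LiesOverPrime p)
    (hnew : Fermat.Agent.T7.helper27.IsNewN N p D.K) (hr : red A D.Z₁ = 1) (ν : FFb A N)
    (h : K0CoverOrdStatement hp hpN D hKum ζ hζp ν) :
    SlopeCoverStatement D hKum ζ hζp ν :=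
  slopeCoverStatement_of_k0 D hKum ζ hζp hA ν (k0Cover_of_ord hp hpN D hKum ζ hζp hA hnew hr ν h)

end Cover

section Asm

variable {N p : ℕ} [NeZero N] [NeZero p]

/-- **[CONCL] with newness = the two K1-corollaries** (on `X`, and on the covers `X'` of NEW
strongly split functions). -/
theorem conclStatementNN_of_slopes (hp : p.Prime) (hpN : ¬ p ∣ N) (hN : 4 ∣ N ∨ 9 ∣ N)
    (hA : A.LiesOverPrime p) (ν : FFb A N)
    (hX : ∀ Q : Place (kA A) (FFb A N), 0 ≤ Q.ord (jBar A N) →
      K1CorAt (N * p) (atkinLehner N p hp hpN : FF (N * p) →+* FF (N * p)) A p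
        (IsGood A (N * p)) (ordAt Q) (Q.ord ν))
    (hX' : ∀ (D : CovData (N * p) (atkinLehner N p hp hpN) A p)
      (hKum : IsKummerRoot p D.K D.Z) (ζ : Kb) (hζp : ζ ^ p = 1), IsPrimitiveRoot ζ p →
      Fermat.Agent.T7.helper27.StronglySplit (N * p) (atkinLehner N p hp hpN) A p D.K →
      Fermat.Agent.T7.helper27.IsNewN N p D.K → red A D.Z₁ = 1 → red A D.Z₂ = 1 →
      SlopeCoverStatement D hKum ζ hζp ν) :
    ConclStatementNN N p hp hpN A ν := by
  intro u hu hdiv hpeu
  obtain ⟨K, ζ, α, hK, hnew, hζ, hα, hv, hgal⟩ := hpeu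
  have hK' := hK
  obtain ⟨hA0, hKdiv, Z₁, Z₂, h1, h2, hr1, hr2⟩ := hK
  have hWgal : ∀ (σ : Kb ≃ₐ[ℚ] Kb) (x : FF (N * p)),
      atkinLehner N p hp hpN (galF (N * p) σ x) = galF (N * p) σ (atkinLehner N p hp hpN x) :=
    fun σ x => atkinLehner_arithmeticRingAut N p hp hpN σ x
  by_cases hpow : ∃ b : FF (N * p), b ^ p = K
  · -- split case: `K` is a `p`-th power
    obtain ⟨b, hb⟩ := hpow
    have hcl : Fermat.Agent.T8.helper98.ClassFixedBy (N * p)
        (· ∈ Fermat.Agent.T8.helper98.ik1Subgroup A p) p u := by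
      intro σ hσ
      obtain ⟨j, c, v, -, -, -, hg⟩ := hgal σ (Fermat.Agent.T8.helper98.mem_ik1Subgroup.1 hσ)
      refine ⟨c, v * b ^ j, ?_⟩
      rw [hg, ← hb]
      ring
    obtain ⟨c₀, G, hc₀, hG, hfix, -⟩ :=
      Fermat.Agent.T8.helper98.desc_statement (M := N * p)
        (Fermat.Agent.T8.helper98.ik1Subgroup A p) hp.pos u hu hcl
    exact Fermat.Agent.T8.helper29.slopeOutN_of_fixed hp hpN hA (atkinLehner N p hp hpN) hWgal
      hu hc₀ hG hdiv
      (fun σ hσ => hfix σ (Fermat.Agent.T8.helper98.mem_ik1Subgroup.2 hσ)) ν hX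
  · -- the cover
    have hK0 : K ≠ 0 := fun h0 => hpow ⟨0, by rw [h0, zero_pow hp.ne_zero]⟩
    let D : CovData (N * p) (atkinLehner N p hp hpN) A p :=
      CovData.ofBad N p hp hpN hN A hA K hA0 Z₁ Z₂ h1 h2 hr1 hr2
    have hKum : IsKummerRoot p D.K D.Z := ⟨hp, h1, fun b hb => hpow ⟨b, hb⟩⟩
    have hI : Fermat.Agent.T8.helper83.DescInput (N * p) A p K u D.Z ζ α :=
      { root := hKum
        zeta := hζ.pow_eq_one
        alpha := hα
        u_ne := hu
        galZ := by
          intro σ hσ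
          obtain ⟨w, -, hw, -⟩ := D.pair σ hσ.1 1 hp.one_lt.le
            (fun z hz => by rw [pow_one]; exact hσ.2 z hz)
          refine ⟨w, ?_⟩
          rw [pow_one] at hw
          exact hw
        galu := hgal }
    have hD := Fermat.Agent.T8.helper59.descOutput_of_primitive hI hζ
    obtain ⟨E, hE⟩ := Fermat.Agent.T8.helper29.exists_divisor_of_dvd hK0 hKdiv
    exact Fermat.Agent.T8.helper29.slopeOutN_of_descOutput D hKum ζ hζ.pow_eq_one hp hpN hA hζ
      hE hu hdiv hv hD ν (hX' D hKum ζ hζ.pow_eq_one hζ hK' hnew hr1 hr2)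

end Asm

section Frontier

/-- **[SLOPE] K1-version on the covers `X'` of NEW functions**, at every bad pair `(4 M', p)` of
a Frey package and every first-component reduction `ν` of a weight-one unit. -/
def SlopeCoverNewAll : Prop :=
  ∀ (P : FreyPackage) (M' : ℕ) [NeZero M'] (hpN : ¬ P.p ∣ 4 * M')
    (A : ValuationSubring Kb), A.LiesOverPrime P.p →
    ∀ (b0 : FF (4 * M' * P.p)) (B : PowerSeries ℤ) (ε : ℤ), IsUnit0 P.pp hpN b0 B ε →
    ∀ ν : FFb A (4 * M'), IsRed1 A (4 * M') P.p b0 ν →
    ∀ (D : CovData (4 * M' * P.p) (atkinLehner (4 * M') P.p P.pp hpN) A P.p)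
      (hKum : IsKummerRoot P.p D.K D.Z) (ζ : Kb) (hζp : ζ ^ P.p = 1), IsPrimitiveRoot ζ P.p →
      Fermat.Agent.T7.helper27.StronglySplit (4 * M' * P.p)
        (atkinLehner (4 * M') P.p P.pp hpN) A P.p D.K →
      Fermat.Agent.T7.helper27.IsNewN (4 * M') P.p D.K → red A D.Z₁ = 1 → red A D.Z₂ = 1 →
      SlopeCoverStatement D hKum ζ hζp ν

/-- **the K0-corollary with `ordAt Q` on the covers `X'` of NEW functions** (the target of the
provers of [SLOPE] on `X'`). -/
def K0CoverNewAll : Prop :=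
  ∀ (P : FreyPackage) (M' : ℕ) [NeZero M'] (hpN : ¬ P.p ∣ 4 * M')
    (A : ValuationSubring Kb), A.LiesOverPrime P.p →
    ∀ (b0 : FF (4 * M' * P.p)) (B : PowerSeries ℤ) (ε : ℤ), IsUnit0 P.pp hpN b0 B ε →
    ∀ ν : FFb A (4 * M'), IsRed1 A (4 * M') P.p b0 ν →
    ∀ (D : CovData (4 * M' * P.p) (atkinLehner (4 * M') P.p P.pp hpN) A P.p)
      (hKum : IsKummerRoot P.p D.K D.Z) (ζ : Kb) (hζp : ζ ^ P.p = 1), IsPrimitiveRoot ζ P.p →
      Fermat.Agent.T7.helper27.StronglySplit (4 * M' * P.p)
        (atkinLehner (4 * M') P.p P.pp hpN) A P.p D.K →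
      Fermat.Agent.T7.helper27.IsNewN (4 * M') P.p D.K → red A D.Z₁ = 1 → red A D.Z₂ = 1 →
      K0CoverOrdStatement P.pp hpN D hKum ζ hζp ν

theorem slopeCoverNewAll_of_k0 (h : K0CoverNewAll) : SlopeCoverNewAll :=
  fun P M' _ hpN A hA b0 B ε hb ν hν D hKum ζ hζp hζ hSS hnew hr1 hr2 =>
    slopeCover_of_ord P.pp hpN D hKum ζ hζp hA hnew hr1 ν
      (h P M' hpN A hA b0 B ε hb ν hν D hKum ζ hζp hζ hSS hnew hr1 hr2)

/-- the contract without newness implies the contract with newness -/
theorem slopeCoverNewAll_of_all (h : Fermat.Agent.T8.helper29.SlopeCoverAll) :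
    SlopeCoverNewAll :=
  fun P M' _ hpN A hA b0 B ε hb ν hν D hKum ζ hζp hζ _ _ _ _ =>
    h P M' hpN A hA b0 B ε hb ν hν D hKum ζ hζp hζ

/-- **[CONCL] with newness at the bad pairs of a Frey package** from the two K1-corollaries -/
theorem conclFreyN_of_slopes (hX : SlopeXAll) (hX' : SlopeCoverNewAll) :
    ConclFreyStatementN := by
  intro P M' _ hpN A hA b0 B ε hb ν hν
  exact conclStatementNN_of_slopes P.pp hpN (Or.inl (Dvd.intro M' rfl)) hA ν
    (hX P M' hpN A hA b0 B ε hb ν hν) (hX' P M' hpN A hA b0 B ε hb ν hν)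

/-- **the non-split wall from the two K1-corollaries, with newness** -/
theorem nonSplitWall_of_slopesNew (π : Fermat.Agent.T8.helper72.PullData) (hX : SlopeXAll)
    (hX' : SlopeCoverNewAll) : Fermat.Agent.T8.helper38.NonSplitWallStatement π wallBN :=
  nonSplitWall_of_conclFreyN π (conclFreyN_of_slopes hX hX')

/-- **the non-split wall from the K1-corollary on `X` and the K0-corollary (order function
`ordAt Q`) on the covers of new functions** -/
theorem nonSplitWall_of_k0New (π : Fermat.Agent.T8.helper72.PullData) (hX : SlopeXAll)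
    (hX' : K0CoverNewAll) : Fermat.Agent.T8.helper38.NonSplitWallStatement π wallBN :=
  nonSplitWall_of_slopesNew π hX (slopeCoverNewAll_of_k0 hX')

end Frontier

end Fermat.Agent.T8.helper22

end
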