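import Fermat.Agent.T8.helper23_DictContract

/-!
# T8 (row 38, at risk), DICTIONARY (helper23): the form for an abstract ring `R → F`

The contracts `DictStatement` / `DictModEqStatement` are stated for a `Subring F`.  For a ring
`R` given as a TYPE with an injective ring homomorphism `ι : R →+* F` (for instance a
`Localization.AtPrime`), `dict_hom` / `dictModEq_hom` give the same conclusions for the prime
elements of `R` itself (transport along `R ≃+* ι.range`), in the exact shape of hypothesis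
`hhor` of `helper48.vert_glue` / `h` of `helper6.slope_of_ufm` at the horizontal primes.
-/

set_option autoImplicit false
set_option linter.unusedSectionVars false
set_option linter.style.longLine false

noncomputable section

namespace Fermat.Agent.T8.helper23

open AlgebraicCurve

section Hom

variable {K F : Type*} [Field K] [Field F] [Algebra K F]
variable {R : Type*} [CommRing R]

/-- **Dictionary for `ι : R →+* F` injective.** -/
theorem dict_hom {Φ : Set (F ≃+* F)} (hD : DictStatement K F Φ)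
    (ι : R →+* F) (hι : Function.Injective ι)
    (hfix : ∀ r : R, ∀ g ∈ Φ, g (ι r) = ι r)
    (hfrac : ∀ f : F, (∀ g ∈ Φ, g f = f) → ∃ a b : R, b ≠ 0 ∧ f * ι b = ι a)
    (π : R) (hπ : Prime π) (hchar : ∀ n : ℕ, n ≠ 0 → ¬ π ∣ (n : R))
    (hfin : ∀ r : R, r ≠ 0 → ∃ k : ℕ, ¬ π ^ (k + 1) ∣ r) :
    ∃ 𝔓 : Place K F, ∀ (r : R) (k : ℕ), π ^ k ∣ r → ¬ π ^ (k + 1) ∣ r →
      𝔓.ord (ι r) = (k : ℤ) := by
  let e : R ≃+* ι.range := RingEquiv.ofBijective ι.rangeRestrict
    ⟨fun x y h => hι (congrArg Subtype.val h), ι.rangeRestrict_surjective⟩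
  have he : ∀ r : R, ((e r : ι.range) : F) = ι r := fun r => rfl
  have hdvd : ∀ a b : R, e a ∣ e b ↔ a ∣ b := fun a b => map_dvd_iff e
  obtain ⟨𝔓, h𝔓⟩ := hD ι.range
    (by
      rintro _ ⟨r, rfl⟩ g hg
      exact hfix r g hg)
    (by
      intro f hf
      obtain ⟨a, b, hb, hab⟩ := hfrac f hf
      exact ⟨ι a, ⟨a, rfl⟩, ι b, ⟨b, rfl⟩, fun h => hb (hι (h.trans (map_zero ι).symm)), hab⟩)
    (e π) ((MulEquiv.prime_iff e.toMulEquiv).mpr hπ)
    (by
      intro n hn h
      apply hchar n hn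
      rw [← hdvd]
      simpa using h)
    (by
      intro r hr
      obtain ⟨k, hk⟩ := hfin (e.symm r) (by simpa using hr)
      refine ⟨k, fun h => hk ?_⟩
      rw [← hdvd, map_pow, e.apply_symm_apply]
      exact h)
  refine ⟨𝔓, fun r k hk hk1 => ?_⟩
  rw [← he r]
  apply h𝔓 (e r) k
  · rw [← map_pow, hdvd]
    exact hk
  · rw [← map_pow, hdvd]
    exact hk1

/-- **Dictionary, consumer form, for `ι : R →+* F` injective**: the horizontal-prime hypothesis
of `helper48.vert_glue` for `a, b : R`. -/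
theorem dictModEq_hom {Φ : Set (F ≃+* F)} (hD : DictStatement K F Φ)
    (ι : R →+* F) (hι : Function.Injective ι)
    (hfix : ∀ r : R, ∀ g ∈ Φ, g (ι r) = ι r)
    (hfrac : ∀ f : F, (∀ g ∈ Φ, g f = f) → ∃ a b : R, b ≠ 0 ∧ f * ι b = ι a)
    (hfin : ∀ π : R, Prime π → ∀ r : R, r ≠ 0 → ∃ k : ℕ, ¬ π ^ (k + 1) ∣ r)
    (n : ℕ) (a b : R)
    (hab : ∀ 𝔓 : Place K F, (∀ r : R, 0 ≤ 𝔓.ord (ι r)) →
      (n : ℤ) ∣ 𝔓.ord (ι a) - 𝔓.ord (ι b)) :
    ∀ π : R, Prime π → (∀ m : ℕ, m ≠ 0 → ¬ π ∣ (m : R)) →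
      ∀ k l : ℕ, π ^ k ∣ a → ¬ π ^ (k + 1) ∣ a → π ^ l ∣ b → ¬ π ^ (l + 1) ∣ b →
        k ≡ l [MOD n] := by
  classical
  intro π hπ hchar k l hk hk1 hl hl1
  obtain ⟨𝔓, h𝔓⟩ := dict_hom hD ι hι hfix hfrac π hπ hchar (hfin π hπ)
  have hnn : ∀ r : R, 0 ≤ 𝔓.ord (ι r) := by
    intro r
    rcases eq_or_ne r 0 with rfl | hr
    · simp
    · have hex := hfin π hπ r hr
      have hspec := Nat.find_spec hex
      have hdiv : π ^ (Nat.find hex) ∣ r := by
        rcases Nat.eq_zero_or_pos (Nat.find hex) with h0 | hpos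
        · rw [h0, pow_zero]
          exact one_dvd _
        · have hlt : Nat.find hex - 1 < Nat.find hex := by omega
          have := Nat.find_min hex hlt
          rw [not_not] at this
          have e : Nat.find hex - 1 + 1 = Nat.find hex := by omega
          rwa [e] at this
      rw [h𝔓 r _ hdiv hspec]
      exact Int.natCast_nonneg _
  have h1 := hab 𝔓 hnn
  rw [h𝔓 a k hk hk1, h𝔓 b l hl hl1] at h1
  have h2 : (l : ℤ) ≡ (k : ℤ) [ZMOD (n : ℤ)] := Int.modEq_iff_dvd.mpr h1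
  exact (Int.natCast_modEq_iff.mp h2).symm

end Hom

end Fermat.Agent.T8.helper23
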