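import Fermat.Agent.T8.helper23_ClearPoles
import Fermat.Agent.T8.helper16_RingXDefs

/-!
# T8 (row 38, at risk), [RING-X] (DICT) instance (helper23): the dictionary at `R = locX Q`

Level `N q`, `A` over `q`, `I` the inertia group of `A`, `ringX` / `locX Q` the rings of
`helper16_RingXDefs`.

* `scale_isRX` : an `I`-fixed function `g ≠ 0`, regular where `j` is finite, has `q ^ k * g ∈
  ringX` for all large `k` (Gauss values of `I`-fixed functions are powers of `q`).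
* `hfrac_ringX` / `hfrac_locX` : every `I`-fixed function is `a / b` with `a, b ∈ ringX`.
* `hfix_locX` : the elements of `locX Q` are `I`-fixed.
* `dict_locX` : a horizontal prime element `π` of `locX Q` with finite multiplicities gives a
  place `𝔓` of `FF (N q)`, where `j` is finite, with `ord_𝔓 r = mult_π r` on `locX Q`.
* `dictModEq_locX` : for `a, b ∈ locX Q` nonzero with `n ∣ ord_P a - ord_P b` at all places `P`
  where `j` is finite, the exact multiplicities of every horizontal prime of `locX Q` in `a`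
  and `b` are congruent mod `n` (hypothesis `hhor` of `helper48.vert_glue`).
-/

set_option autoImplicit false
set_option linter.unusedSectionVars false
set_option linter.unusedVariables false
set_option linter.style.longLine false

noncomputable section

namespace Fermat.Agent.T8.helper23

open HahnSeries IntermediateField AlgebraicCurve ModularCurve
open Fermat.Agent.S18.helper19 Fermat.Agent.P2.helper29 Fermat.Agent.P2.helper93
open Fermat.Agent.T2.helper36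
open Fermat.Agent.T3.helper74 (IsFixI)
open Fermat.Agent.T3.helper36 (RhoQ GaussIs)
open Fermat.Agent.T3.helper98 (IsRegJ)
open Fermat.Agent.T2.helper22 (IsRep)
open Fermat.Agent.T8.helper63 (IsRX)
open Fermat.Agent.T8.helper16 (ringX locX IsUnitAt mem_ringX mem_locX ringX_le_locX)
open Fermat.Agent.T6.helper26

section LocX

variable {N q : ℕ} [NeZero N] [NeZero q] {A : ValuationSubring Kb} {hq : q.Prime}
  {hqN : ¬ q ∣ N}

theorem isFixI_qpow (k : ℕ) :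
    IsFixI A (N * q) (algebraMap Kb (FF (N * q)) ((q : Kb) ^ k)) := by
  intro σ _
  rw [arithmeticRingAut_algebraMap, map_pow, map_natCast]

theorem qpow_ne_zero (k : ℕ) : ((q : Kb) ^ k) ≠ 0 :=
  pow_ne_zero _ (Nat.cast_ne_zero.mpr (NeZero.ne q))

/-- integrality of the expansion of `q ^ k * g` from the Gauss value `q ^ m` of `g`,
`k + m ≥ 0`. -/
theorem exists_incl_of_gaussIs {g : FF (N * q)} (hreg : IsRegJ (N * q) g) {m : ℤ}
    (hm : GaussIs A (g : LaurentSeries Kb) ((q : Kb) ^ m)) (k : ℕ) (hk : 0 ≤ (k : ℤ) + m) :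
    ∃ Y : LaurentSeries A, incl A Y =
      ((algebraMap Kb (FF (N * q)) ((q : Kb) ^ k) * g : FF (N * q)) : LaurentSeries Kb) := by
  have hq0 : (q : Kb) ≠ 0 := Nat.cast_ne_zero.mpr (NeZero.ne q)
  have h1 := hm.const_mul (qpow_ne_zero (q := q) k)
  obtain ⟨n, hn⟩ : ∃ n : ℕ, (k : ℤ) + m = n := ⟨((k : ℤ) + m).toNat, (Int.toNat_of_nonneg hk).symm⟩
  have e : (q : Kb) ^ k * (q : Kb) ^ m = (q : Kb) ^ n := by
    rw [← zpow_natCast, ← zpow_add₀ hq0, hn, zpow_natCast]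
  rw [e] at h1
  obtain ⟨r, hr⟩ := Fermat.Agent.T8.helper63.exists_rhoQ_of_gaussIs_natPow A h1
  obtain ⟨U₁, U₂, hU2, hU, -⟩ := hr
  have hquot : Fermat.Agent.T2.helper45.IsQuotInt A
      ((algebraMap Kb (FF (N * q)) ((q : Kb) ^ k) * g : FF (N * q)) : LaurentSeries Kb) :=
    ⟨U₁, U₂, hU2, hU⟩
  have hx : Fermat.Agent.S24.xJ (N * q) = jElt (N * q) :=
    (Fermat.Agent.T3.helper48.jElt_eq_xJ (M := N * q)).symm
  have hreg' : IsRegJ (N * q) (algebraMap Kb (FF (N * q)) ((q : Kb) ^ k) * g) :=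
    (Fermat.Agent.T3.helper98.isRegJ_algebraMap _).mul hreg
  exact Fermat.Agent.T2.helper45.integrality_of_isQuotInt (N * q) A _
    (algebraMap Kb (FF (N * q)) ((q : Kb) ^ k) * g).2
    (fun Q hQ => by
      rw [hx] at hQ
      exact hreg' Q hQ) hquot

/-- **Scaling into `ringX`.** -/
theorem scale_isRX (hA : A.LiesOverPrime q) {g : FF (N * q)} (hg0 : g ≠ 0)
    (hfix : IsFixI A (N * q) g) (hreg : IsRegJ (N * q) g) :
    ∃ k₀ : ℕ, ∀ k : ℕ, k₀ ≤ k →
      algebraMap Kb (FF (N * q)) ((q : Kb) ^ k) * g ∈ ringX A hq hqN := by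
  have hSC : ScaleStatement (N * q) A :=
    Fermat.Agent.T2.helper58.scaleStatement_bad N q hq hqN A hA
  have hWg0 : atkinLehner N q hq hqN g ≠ 0 :=
    (map_ne_zero_iff _ (atkinLehner N q hq hqN).injective).mpr hg0
  have hWfix : IsFixI A (N * q) (atkinLehner N q hq hqN g) :=
    Fermat.Agent.T3.helper98.isFixI_atkinLehner A hfix
  have hWreg : IsRegJ (N * q) (atkinLehner N q hq hqN g) :=
    Fermat.Agent.T3.helper98.isRegJ_atkinLehner hreg
  obtain ⟨m₁, hm₁⟩ := Fermat.Agent.T3.helper5.gaussIs_fixI hq hA hSC hg0 hfix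
  obtain ⟨m₂, hm₂⟩ := Fermat.Agent.T3.helper5.gaussIs_fixI hq hA hSC hWg0 hWfix
  refine ⟨max (-m₁).toNat (-m₂).toNat, fun k hk => ?_⟩
  have hk1 : 0 ≤ (k : ℤ) + m₁ := by
    have := le_max_left (-m₁).toNat (-m₂).toNat
    have h2 := Int.self_le_toNat (-m₁)
    omega
  have hk2 : 0 ≤ (k : ℤ) + m₂ := by
    have := le_max_right (-m₁).toNat (-m₂).toNat
    have h2 := Int.self_le_toNat (-m₂)
    omega
  obtain ⟨Y₁, hY₁⟩ := exists_incl_of_gaussIs hreg hm₁ k hk1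
  obtain ⟨Y₂, hY₂⟩ := exists_incl_of_gaussIs hWreg hm₂ k hk2
  refine ⟨Y₁, Y₂, Fermat.Agent.T3.helper98.isFixI_mul A (isFixI_qpow k) hfix,
    (Fermat.Agent.T3.helper98.isRegJ_algebraMap _).mul hreg, hY₁, ?_⟩
  rw [hY₂, map_mul, AlgEquiv.commutes]

/-- the `I`-fixed functions in the language of `galSet` -/
theorem isFixI_iff_galSet {M : ℕ} [NeZero M] {f : FF M} :
    IsFixI A M f ↔ ∀ g ∈ galSet M (A.inertiaSubgroupIn ℚ : Set (Kb ≃ₐ[ℚ] Kb)), g f = f := by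
  constructor
  · rintro h g ⟨σ, hσ, rfl⟩
    exact h σ hσ
  · intro h σ hσ
    exact h (galF M σ) ⟨σ, hσ, rfl⟩

/-- **`hfrac` for `ringX`**: every `I`-fixed function is a ratio of elements of `ringX`. -/
theorem hfrac_ringX (hA : A.LiesOverPrime q) {f : FF (N * q)} (hf : IsFixI A (N * q) f) :
    ∃ a ∈ ringX A hq hqN, ∃ b ∈ ringX A hq hqN, b ≠ 0 ∧ f * b = a := by
  rcases eq_or_ne f 0 with rfl | hf0
  · exact ⟨0, zero_mem _, 1, one_mem _, one_ne_zero, by simp⟩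
  obtain ⟨b₀, hb₀, hb₀fix, hb₀reg, hfb₀reg⟩ := exists_clear_poles (N * q) f
  have hb₀I : IsFixI A (N * q) b₀ := fun σ _ => hb₀fix σ
  have hfb₀I : IsFixI A (N * q) (f * b₀) := Fermat.Agent.T3.helper98.isFixI_mul A hf hb₀I
  obtain ⟨k₁, hk₁⟩ := scale_isRX (hq := hq) (hqN := hqN) hA hb₀ hb₀I hb₀reg
  obtain ⟨k₂, hk₂⟩ := scale_isRX (hq := hq) (hqN := hqN) hA (mul_ne_zero hf0 hb₀) hfb₀I hfb₀reg
  refine ⟨_, hk₂ (max k₁ k₂) (le_max_right _ _), _, hk₁ (max k₁ k₂) (le_max_left _ _), ?_, ?_⟩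
  · refine mul_ne_zero ?_ hb₀
    intro h
    exact qpow_ne_zero (q := q) (max k₁ k₂)
      ((algebraMap Kb (FF (N * q))).injective (h.trans (map_zero _).symm))
  · ring

/-- **`hfix` for `locX`.** -/
theorem hfix_locX (Q : Place (kA A) (FFb A N)) {r : FF (N * q)} (hr : r ∈ locX A hq hqN Q) :
    IsFixI A (N * q) r := by
  obtain ⟨a, s, hs, e⟩ := hr
  obtain ⟨_, _, ha⟩ := a.2
  obtain ⟨_, _, hs'⟩ := s.2
  have hs0 : (s : FF (N * q)) ≠ 0 := hs.ne_zero
  intro σ hσ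
  have h1 := congrArg (arithmeticRingAut (modularFunctionFieldFull (N * q)) σ) e
  rw [map_mul, ha.1 σ hσ, hs'.1 σ hσ, ← e] at h1
  exact mul_right_cancel₀ hs0 h1

/-- **`hfrac` for `locX`.** -/
theorem hfrac_locX (hA : A.LiesOverPrime q) (Q : Place (kA A) (FFb A N)) {f : FF (N * q)}
    (hf : IsFixI A (N * q) f) :
    ∃ a ∈ locX A hq hqN Q, ∃ b ∈ locX A hq hqN Q, b ≠ 0 ∧ f * b = a := by
  obtain ⟨a, ha, b, hb, hb0, e⟩ := hfrac_ringX (hq := hq) (hqN := hqN) hA hf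
  exact ⟨a, ringX_le_locX Q ha, b, ringX_le_locX Q hb, hb0, e⟩

/-- a place centred on `locX Q` is a place where `j` is finite -/
theorem ord_jElt_nonneg_of_centred (hA : A.LiesOverPrime q) (Q : Place (kA A) (FFb A N))
    {𝔓 : Place Kb (FF (N * q))}
    (h : ∀ r : locX A hq hqN Q, 0 ≤ 𝔓.ord (r : FF (N * q))) : 0 ≤ 𝔓.ord (jElt (N * q)) := by
  have hj0 : jElt (N * q) ≠ 0 := by
    have := jElt_sub_const_ne_zero (N * q) 0
    rwa [map_zero, sub_zero] at this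
  have hjfix : IsFixI A (N * q) (jElt (N * q)) := fun σ _ => galF_jElt (N * q) σ
  obtain ⟨k, hk⟩ := scale_isRX (hq := hq) (hqN := hqN) hA hj0 hjfix
    Fermat.Agent.T3.helper98.isRegJ_jElt
  have h1 := h ⟨_, ringX_le_locX Q (hk k le_rfl)⟩
  have hc0 : algebraMap Kb (FF (N * q)) ((q : Kb) ^ k) ≠ 0 := by
    intro h
    exact qpow_ne_zero (q := q) k
      ((algebraMap Kb (FF (N * q))).injective (h.trans (map_zero _).symm))
  change 0 ≤ 𝔓.ord (algebraMap Kb (FF (N * q)) ((q : Kb) ^ k) * jElt (N * q)) at h1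
  rwa [𝔓.ord_mul hc0 hj0, ord_const, zero_add] at h1

/-- **The dictionary at `locX Q`**: a horizontal prime gives a place where `j` is finite with
`ord = multiplicity`. -/
theorem dict_locX (hA : A.LiesOverPrime q) (Q : Place (kA A) (FFb A N))
    (π : locX A hq hqN Q) (hπ : Prime π)
    (hchar : ∀ n : ℕ, n ≠ 0 → ¬ π ∣ (n : locX A hq hqN Q))
    (hfin : ∀ r : locX A hq hqN Q, r ≠ 0 → ∃ k : ℕ, ¬ π ^ (k + 1) ∣ r) :
    ∃ 𝔓 : Place Kb (FF (N * q)), 0 ≤ 𝔓.ord (jElt (N * q)) ∧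
      ∀ (r : locX A hq hqN Q) (k : ℕ), π ^ k ∣ r → ¬ π ^ (k + 1) ∣ r →
        𝔓.ord (r : FF (N * q)) = (k : ℤ) := by
  obtain ⟨𝔓, h𝔓⟩ := dict_FF (N * q) (A.inertiaSubgroupIn ℚ : Set (Kb ≃ₐ[ℚ] Kb))
    (locX A hq hqN Q)
    (fun r hr => isFixI_iff_galSet.mp (hfix_locX Q hr))
    (fun f hf => hfrac_locX hA Q (isFixI_iff_galSet.mpr hf))
    π hπ hchar hfin
  refine ⟨𝔓, ?_, h𝔓⟩
  apply ord_jElt_nonneg_of_centred (hq := hq) (hqN := hqN) hA Q
  intro r
  rcases eq_or_ne r 0 with rfl | hr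
  · simp
  · obtain ⟨m, hm, hm1⟩ := exists_exact_mult π r (hfin r hr)
    rw [h𝔓 r m hm hm1]
    exact Int.natCast_nonneg m

/-- **The dictionary at `locX Q`, consumer form** (hypothesis `hhor` of `helper48.vert_glue`,
`h` of `helper6.slope_of_ufm` at the horizontal primes). -/
theorem dictModEq_locX (hA : A.LiesOverPrime q) (Q : Place (kA A) (FFb A N)) (n : ℕ)
    (a b : locX A hq hqN Q)
    (hab : ∀ P : Place Kb (FF (N * q)), 0 ≤ P.ord (jElt (N * q)) →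
      (n : ℤ) ∣ P.ord (a : FF (N * q)) - P.ord (b : FF (N * q)))
    (π : locX A hq hqN Q) (hπ : Prime π)
    (hchar : ∀ m : ℕ, m ≠ 0 → ¬ π ∣ (m : locX A hq hqN Q))
    (hfin : ∀ r : locX A hq hqN Q, r ≠ 0 → ∃ k : ℕ, ¬ π ^ (k + 1) ∣ r)
    (k l : ℕ) (hk : π ^ k ∣ a) (hk1 : ¬ π ^ (k + 1) ∣ a) (hl : π ^ l ∣ b)
    (hl1 : ¬ π ^ (l + 1) ∣ b) : k ≡ l [MOD n] := by
  obtain ⟨𝔓, hj, h𝔓⟩ := dict_locX hA Q π hπ hchar hfin
  have h1 := hab 𝔓 hj
  rw [h𝔓 a k hk hk1, h𝔓 b l hl hl1] at h1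
  have h2 : (l : ℤ) ≡ (k : ℤ) [ZMOD (n : ℤ)] := Int.modEq_iff_dvd.mpr h1
  exact (Int.natCast_modEq_iff.mp h2).symm

end LocX

end Fermat.Agent.T8.helper23
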