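import Mathlib

/-!
# T8 (row 38, at risk), DICTIONARY instance side (helper23): `hfrac` on a monogenic cover

Abstract (Mathlib only).  `F' / F` a field extension with a power basis `1, t, …, t ^ (n - 1)`,
`Φ` / `Φ'` sets of ring automorphisms of `F` / `F'` such that every `g ∈ Φ` is the restriction of
some `g' ∈ Φ'`, and `t` is fixed by `Φ'`.  If every `Φ`-fixed element of `F` is a ratio of
elements of the subring `R` of `F`, then every `Φ'`-fixed element of `F'` is a ratio `a / b`
with `a ∈ S`, `b ∈ R` (`b ≠ 0`), for any subring `S` of `F'` containing `R` and `t`: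

* `hfrac_of_powers`     : coordinates given by hypotheses `hrep` / `hind`;
* `hfrac_of_powerBasis` : the same for a `PowerBasis F F'` with generator `t`.

This is hypothesis `hfrac` of `helper23.DictStatement` for the local rings `R'` of the cover
`X'` (`S = R[t]`, `t` the inertia-fixed generator), from `hfrac` on `X`
(`helper23.hfrac_ringX`).  The coordinates of a fixed element are fixed because the powers of
`t` are linearly independent over `F`: no Galois descent.
-/

set_option autoImplicit false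
set_option linter.unusedSectionVars false
set_option linter.style.longLine false

noncomputable section

namespace Fermat.Agent.T8.helper23

open Finset

section FracCover

variable {F F' : Type*} [Field F] [Field F'] [Algebra F F']

/-- **`hfrac` on a monogenic cover**, coordinates form. -/
theorem hfrac_of_powers (Φ : Set (F ≃+* F)) (Φ' : Set (F' ≃+* F'))
    (hext : ∀ g ∈ Φ, ∃ g' ∈ Φ', ∀ f : F, g' (algebraMap F F' f) = algebraMap F F' (g f))
    (t : F') (ht : ∀ g' ∈ Φ', g' t = t) (n : ℕ)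
    (hrep : ∀ f' : F', ∃ a : Fin n → F, f' = ∑ k : Fin n, algebraMap F F' (a k) * t ^ (k : ℕ))
    (hind : ∀ a b : Fin n → F,
      (∑ k : Fin n, algebraMap F F' (a k) * t ^ (k : ℕ)) =
        (∑ k : Fin n, algebraMap F F' (b k) * t ^ (k : ℕ)) → a = b)
    (R : Subring F)
    (hfrac : ∀ f : F, (∀ g ∈ Φ, g f = f) → ∃ a ∈ R, ∃ b ∈ R, b ≠ 0 ∧ f * b = a)
    (S : Subring F') (hRS : ∀ r ∈ R, algebraMap F F' r ∈ S) (htS : t ∈ S)
    (f' : F') (hf' : ∀ g' ∈ Φ', g' f' = f') :
    ∃ a ∈ S, ∃ b ∈ R, b ≠ 0 ∧ f' * algebraMap F F' b = a := by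
  classical
  obtain ⟨c, hc⟩ := hrep f'
  -- the coordinates are fixed
  have hcfix : ∀ k : Fin n, ∀ g ∈ Φ, g (c k) = c k := by
    intro k g hg
    obtain ⟨g', hg', hgg'⟩ := hext g hg
    have h1 : g' f' = ∑ k : Fin n, algebraMap F F' (g (c k)) * t ^ (k : ℕ) := by
      rw [hc, map_sum]
      refine Finset.sum_congr rfl fun k _ => ?_
      rw [map_mul, map_pow, ht g' hg', hgg']
    rw [hf' g' hg'] at h1
    have h2 := hind (fun k => g (c k)) c (h1.symm.trans hc)
    exact congrFun h2 k
  -- denominators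
  have hden : ∀ k : Fin n, ∃ β : F, β ∈ R ∧ β ≠ 0 ∧ c k * β ∈ R := by
    intro k
    obtain ⟨a, ha, b, hb, hb0, e⟩ := hfrac (c k) (hcfix k)
    exact ⟨b, hb, hb0, by rw [e]; exact ha⟩
  choose β hβR hβ0 hβ using hden
  refine ⟨f' * algebraMap F F' (∏ k : Fin n, β k), ?_, ∏ k : Fin n, β k,
    Subring.prod_mem R fun k _ => hβR k, Finset.prod_ne_zero_iff.mpr fun k _ => hβ0 k, rfl⟩
  have e : f' * algebraMap F F' (∏ k : Fin n, β k) =
      ∑ k : Fin n, algebraMap F F' (c k * ∏ j : Fin n, β j) * t ^ (k : ℕ) := by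
    rw [hc, Finset.sum_mul]
    refine Finset.sum_congr rfl fun k _ => ?_
    rw [map_mul]
    ring
  rw [e]
  refine Subring.sum_mem S fun k _ => ?_
  refine S.mul_mem (hRS _ ?_) (S.pow_mem htS _)
  have e2 : c k * ∏ j : Fin n, β j = (c k * β k) * ∏ j ∈ (Finset.univ.erase k), β j := by
    rw [mul_assoc, Finset.mul_prod_erase Finset.univ β (Finset.mem_univ k)]
  rw [e2]
  exact R.mul_mem (hβ k) (Subring.prod_mem R fun j _ => hβR j)

/-- **`hfrac` on a monogenic cover**, `PowerBasis` form. -/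
theorem hfrac_of_powerBasis (Φ : Set (F ≃+* F)) (Φ' : Set (F' ≃+* F'))
    (hext : ∀ g ∈ Φ, ∃ g' ∈ Φ', ∀ f : F, g' (algebraMap F F' f) = algebraMap F F' (g f))
    (pb : PowerBasis F F') (ht : ∀ g' ∈ Φ', g' pb.gen = pb.gen)
    (R : Subring F)
    (hfrac : ∀ f : F, (∀ g ∈ Φ, g f = f) → ∃ a ∈ R, ∃ b ∈ R, b ≠ 0 ∧ f * b = a)
    (S : Subring F') (hRS : ∀ r ∈ R, algebraMap F F' r ∈ S) (htS : pb.gen ∈ S)
    (f' : F') (hf' : ∀ g' ∈ Φ', g' f' = f') :
    ∃ a ∈ S, ∃ b ∈ R, b ≠ 0 ∧ f' * algebraMap F F' b = a := by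
  refine hfrac_of_powers Φ Φ' hext pb.gen ht pb.dim ?_ ?_ R hfrac S hRS htS f' hf'
  · intro x
    refine ⟨fun k => pb.basis.repr x k, ?_⟩
    conv_lhs => rw [← pb.basis.sum_repr x]
    refine Finset.sum_congr rfl fun k _ => ?_
    rw [PowerBasis.coe_basis, Algebra.smul_def]
  · intro a b h
    have hli := pb.basis.linearIndependent
    have h1 : ∑ k : Fin pb.dim, (a k - b k) • pb.basis k = 0 := by
      have : ∀ k : Fin pb.dim, (a k - b k) • pb.basis k =
          algebraMap F F' (a k) * pb.gen ^ (k : ℕ) - algebraMap F F' (b k) * pb.gen ^ (k : ℕ) := by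
        intro k
        rw [PowerBasis.coe_basis, Algebra.smul_def, map_sub, sub_mul]
      rw [Finset.sum_congr rfl fun k _ => this k, Finset.sum_sub_distrib, h, sub_self]
    have h2 := Fintype.linearIndependent_iff.mp hli (fun k => a k - b k) h1
    funext k
    exact sub_eq_zero.mp (h2 k)

end FracCover

end Fermat.Agent.T8.helper23
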