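import Fermat.Agent.T8.helper23_DictCov
import Fermat.Agent.T8.helper23_FracCover
import Fermat.Agent.T8.helper23_DictLocX
import Fermat.Agent.T8.helper23_DictHom

/-!
# T8 (row 38, at risk), DICTIONARY (helper23): the instance at the local rings of the COVER

Level `N q`, `A` over `q`, `I` the inertia group of `A`, `D : helper88.CovData (N q) W A p` the
data of the cyclic cover `F' = Cov (N q) D.Z = F(Z)`, `covSet D` the inertia action on `F'`.

Input: an inertia-fixed generator `t` of `F' / F` (`F⟮t⟯ = ⊤`; in the application the tame trace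
of `helper97`), and ANY subring `S` of `F'` which consists of inertia-fixed elements and contains
the image of `helper16.ringX` and `t` (for instance the image of `(locX Q)[t]` or of its
localisation `T` at an etale point).

* `powerBasisOfGen`   : the power basis `1, t, …` of `F' / F` for a generator `t` (Mathlib only);
* `hfrac_of_adjoin`   : `hfrac` on `F'` from `hfrac` on `F` (Mathlib only);
* `hfrac_covRing`     : every inertia-fixed element of the cover is `a / b`, `a, b ∈ S`;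
* `dict_covRing`      : a horizontal prime element `π` of `S` with finite multiplicities gives a
                        place `𝔓` of `F'`, where `j` is finite, with `ord_𝔓 r = mult_π r` on `S`;
* `dictModEq_covRing` : consumer form (`hhor` of `helper48.vert_glue`, `h` of
                        `helper6.slope_of_ufm`, `helper14.horDvd_of_places`);
* `dict_covHom` / `dictModEq_covHom` : the same for a ring `T` given as a TYPE with an injective
                        ring homomorphism `ι : T →+* F'` (e.g. a `Localization`).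
-/

set_option autoImplicit false
set_option linter.unusedSectionVars false
set_option linter.unusedVariables false
set_option linter.style.longLine false

noncomputable section

namespace Fermat.Agent.T8.helper23

open HahnSeries IntermediateField AlgebraicCurve ModularCurve
open Fermat.Agent.S18.helper19 Fermat.Agent.P2.helper29 Fermat.Agent.P2.helper93
open Fermat.Agent.T3.helper74 (IsFixI)
open Fermat.Agent.T8.helper16 (ringX locX ringX_le_locX)
open Fermat.Agent.T8.helper88 (CovData Cov)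
open Fermat.Agent.T6.helper26

section Adjoin

variable {F F' : Type*} [Field F] [Field F'] [Algebra F F']

/-- the power basis of `F' / F` attached to a generator `t` (`F⟮t⟯ = ⊤`, `t` integral) -/
def powerBasisOfGen (t : F') (ht : IsIntegral F t) (hgen : F⟮t⟯ = ⊤) : PowerBasis F F' :=
  (IntermediateField.adjoin.powerBasis ht).map
    ((IntermediateField.equivOfEq hgen).trans IntermediateField.topEquiv)

theorem powerBasisOfGen_gen (t : F') (ht : IsIntegral F t) (hgen : F⟮t⟯ = ⊤) :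
    (powerBasisOfGen t ht hgen).gen = t := by
  unfold powerBasisOfGen
  rw [PowerBasis.map_gen, IntermediateField.adjoin.powerBasis_gen]
  rfl

/-- **`hfrac` on a cover generated by one fixed element.** -/
theorem hfrac_of_adjoin (Φ : Set (F ≃+* F)) (Φ' : Set (F' ≃+* F'))
    (hext : ∀ g ∈ Φ, ∃ g' ∈ Φ', ∀ f : F, g' (algebraMap F F' f) = algebraMap F F' (g f))
    (t : F') (ht : IsIntegral F t) (hgen : F⟮t⟯ = ⊤) (htfix : ∀ g' ∈ Φ', g' t = t)
    (R : Subring F)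
    (hfrac : ∀ f : F, (∀ g ∈ Φ, g f = f) → ∃ a ∈ R, ∃ b ∈ R, b ≠ 0 ∧ f * b = a)
    (S : Subring F') (hRS : ∀ r ∈ R, algebraMap F F' r ∈ S) (htS : t ∈ S)
    (f' : F') (hf' : ∀ g' ∈ Φ', g' f' = f') :
    ∃ a ∈ S, ∃ b ∈ S, b ≠ 0 ∧ f' * b = a := by
  obtain ⟨a, ha, b, hb, hb0, e⟩ := hfrac_of_powerBasis Φ Φ' hext (powerBasisOfGen t ht hgen)
    (by rw [powerBasisOfGen_gen]; exact htfix) R hfrac S hRS
    (by rw [powerBasisOfGen_gen]; exact htS) f' hf'
  refine ⟨a, ha, algebraMap F F' b, hRS b hb, ?_, e⟩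
  intro h
  exact hb0 ((algebraMap F F').injective (h.trans (map_zero _).symm))

end Adjoin

section CovRing

variable {N q : ℕ} [NeZero N] [NeZero q] {A : ValuationSubring Kb} {hq : q.Prime}
  {hqN : ¬ q ∣ N} {W : FF (N * q) ≃ₐ[Kb] FF (N * q)} {p : ℕ}

/-- every inertia automorphism of `F` extends to the cover -/
theorem hext_cov (D : CovData (N * q) W A p) :
    ∀ g ∈ galSet (N * q) (A.inertiaSubgroupIn ℚ : Set (Kb ≃ₐ[ℚ] Kb)),
      ∃ g' ∈ covSet D, ∀ f : FF (N * q),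
        g' (algebraMap (FF (N * q)) (Cov (N * q) D.Z) f) =
          algebraMap (FF (N * q)) (Cov (N * q) D.Z) (g f) := by
  rintro g ⟨σ, hσ, rfl⟩
  exact ⟨D.actEquiv σ hσ, ⟨σ, hσ, rfl⟩, fun f => D.act_algebraMap σ hσ f⟩

/-- the elements of the cover are integral over `F` -/
theorem isIntegral_cov (D : CovData (N * q) W A p) (t : Cov (N * q) D.Z) :
    IsIntegral (FF (N * q)) t := by
  haveI : FiniteDimensional (FF (N * q)) (Cov (N * q) D.Z) :=
    IntermediateField.adjoin.finiteDimensional D.isIntegral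
  exact IsIntegral.of_finite (FF (N * q)) t

/-- **`hfrac` for the rings of the cover.** -/
theorem hfrac_covRing (hA : A.LiesOverPrime q) (D : CovData (N * q) W A p)
    (t : Cov (N * q) D.Z) (hgen : (FF (N * q))⟮t⟯ = ⊤) (htfix : ∀ g ∈ covSet D, g t = t)
    (S : Subring (Cov (N * q) D.Z))
    (hRS : ∀ r ∈ ringX A hq hqN, algebraMap (FF (N * q)) (Cov (N * q) D.Z) r ∈ S)
    (htS : t ∈ S) (f' : Cov (N * q) D.Z) (hf' : ∀ g ∈ covSet D, g f' = f') :
    ∃ a ∈ S, ∃ b ∈ S, b ≠ 0 ∧ f' * b = a :=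
  hfrac_of_adjoin (galSet (N * q) (A.inertiaSubgroupIn ℚ : Set (Kb ≃ₐ[ℚ] Kb))) (covSet D)
    (hext_cov D) t (isIntegral_cov D t) hgen htfix (ringX A hq hqN)
    (fun f hf => hfrac_ringX (hq := hq) (hqN := hqN) hA (isFixI_iff_galSet.mpr hf))
    S hRS htS f' hf'

/-- the function `j` on the cover -/
def jCov (D : CovData (N * q) W A p) : Cov (N * q) D.Z :=
  algebraMap (FF (N * q)) (Cov (N * q) D.Z) (jElt (N * q))

/-- a place of the cover centred on a ring containing the image of `ringX` is a place where `j`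
is finite -/
theorem ord_jCov_nonneg_of_centred (hA : A.LiesOverPrime q) (D : CovData (N * q) W A p)
    (S : Subring (Cov (N * q) D.Z))
    (hRS : ∀ r ∈ ringX A hq hqN, algebraMap (FF (N * q)) (Cov (N * q) D.Z) r ∈ S)
    {𝔓 : Place Kb (Cov (N * q) D.Z)} (h : ∀ r : S, 0 ≤ 𝔓.ord (r : Cov (N * q) D.Z)) :
    0 ≤ 𝔓.ord (jCov D) := by
  have hj0 : jElt (N * q) ≠ 0 := by
    have := jElt_sub_const_ne_zero (N * q) 0
    rwa [map_zero, sub_zero] at this
  have hjfix : IsFixI A (N * q) (jElt (N * q)) := fun σ _ => galF_jElt (N * q) σ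
  obtain ⟨k, hk⟩ := scale_isRX (hq := hq) (hqN := hqN) hA hj0 hjfix
    Fermat.Agent.T3.helper98.isRegJ_jElt
  have h1 := h ⟨_, hRS _ (hk k le_rfl)⟩
  have hc0 : algebraMap Kb (Cov (N * q) D.Z) ((q : Kb) ^ k) ≠ 0 := by
    intro h
    exact qpow_ne_zero (q := q) k
      ((algebraMap Kb (Cov (N * q) D.Z)).injective (h.trans (map_zero _).symm))
  have hjc0 : jCov D ≠ 0 := by
    intro h
    exact hj0 ((algebraMap (FF (N * q)) (Cov (N * q) D.Z)).injective
      (h.trans (map_zero _).symm))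
  have e : algebraMap (FF (N * q)) (Cov (N * q) D.Z)
      (algebraMap Kb (FF (N * q)) ((q : Kb) ^ k) * jElt (N * q)) =
      algebraMap Kb (Cov (N * q) D.Z) ((q : Kb) ^ k) * jCov D := by
    rw [map_mul, ← IsScalarTower.algebraMap_apply]
    rfl
  change 0 ≤ 𝔓.ord (algebraMap (FF (N * q)) (Cov (N * q) D.Z)
    (algebraMap Kb (FF (N * q)) ((q : Kb) ^ k) * jElt (N * q))) at h1
  rwa [e, 𝔓.ord_mul hc0 hjc0, ord_const, zero_add] at h1

/-- **The dictionary at the rings of the cover**: a horizontal prime gives a place of the cover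
where `j` is finite with `ord = multiplicity`. -/
theorem dict_covRing (hA : A.LiesOverPrime q) (D : CovData (N * q) W A p)
    (hKum : helper86.IsKummerRoot p D.K D.Z)
    {Dv : Divisor Kb (FF (N * q))} (hDv : ∀ v : Place Kb (FF (N * q)), v.ord D.K = p * Dv v)
    (t : Cov (N * q) D.Z) (hgen : (FF (N * q))⟮t⟯ = ⊤) (htfix : ∀ g ∈ covSet D, g t = t)
    (S : Subring (Cov (N * q) D.Z)) (hSfix : ∀ r ∈ S, ∀ g ∈ covSet D, g r = r)
    (hRS : ∀ r ∈ ringX A hq hqN, algebraMap (FF (N * q)) (Cov (N * q) D.Z) r ∈ S)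
    (htS : t ∈ S)
    (π : S) (hπ : Prime π) (hchar : ∀ n : ℕ, n ≠ 0 → ¬ π ∣ (n : S))
    (hfin : ∀ r : S, r ≠ 0 → ∃ k : ℕ, ¬ π ^ (k + 1) ∣ r) :
    ∃ 𝔓 : Place Kb (Cov (N * q) D.Z), 0 ≤ 𝔓.ord (jCov D) ∧
      ∀ (r : S) (k : ℕ), π ^ k ∣ r → ¬ π ^ (k + 1) ∣ r →
        𝔓.ord (r : Cov (N * q) D.Z) = (k : ℤ) := by
  obtain ⟨𝔓, h𝔓⟩ := dict_cov D hKum hDv S hSfix
    (hfrac_covRing (hq := hq) (hqN := hqN) hA D t hgen htfix S hRS htS) π hπ hchar hfin
  refine ⟨𝔓, ?_, h𝔓⟩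
  apply ord_jCov_nonneg_of_centred (hq := hq) (hqN := hqN) hA D S hRS
  intro r
  rcases eq_or_ne r 0 with rfl | hr
  · simp
  · obtain ⟨m, hm, hm1⟩ := exists_exact_mult π r (hfin r hr)
    rw [h𝔓 r m hm hm1]
    exact Int.natCast_nonneg m

/-- **The dictionary at the rings of the cover, consumer form.** -/
theorem dictModEq_covRing (hA : A.LiesOverPrime q) (D : CovData (N * q) W A p)
    (hKum : helper86.IsKummerRoot p D.K D.Z)
    {Dv : Divisor Kb (FF (N * q))} (hDv : ∀ v : Place Kb (FF (N * q)), v.ord D.K = p * Dv v)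
    (t : Cov (N * q) D.Z) (hgen : (FF (N * q))⟮t⟯ = ⊤) (htfix : ∀ g ∈ covSet D, g t = t)
    (S : Subring (Cov (N * q) D.Z)) (hSfix : ∀ r ∈ S, ∀ g ∈ covSet D, g r = r)
    (hRS : ∀ r ∈ ringX A hq hqN, algebraMap (FF (N * q)) (Cov (N * q) D.Z) r ∈ S)
    (htS : t ∈ S) (n : ℕ) (a b : S)
    (hab : ∀ P : Place Kb (Cov (N * q) D.Z), 0 ≤ P.ord (jCov D) →
      (n : ℤ) ∣ P.ord (a : Cov (N * q) D.Z) - P.ord (b : Cov (N * q) D.Z))
    (π : S) (hπ : Prime π) (hchar : ∀ m : ℕ, m ≠ 0 → ¬ π ∣ (m : S))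
    (hfin : ∀ r : S, r ≠ 0 → ∃ k : ℕ, ¬ π ^ (k + 1) ∣ r)
    (k l : ℕ) (hk : π ^ k ∣ a) (hk1 : ¬ π ^ (k + 1) ∣ a) (hl : π ^ l ∣ b)
    (hl1 : ¬ π ^ (l + 1) ∣ b) : k ≡ l [MOD n] := by
  obtain ⟨𝔓, hj, h𝔓⟩ := dict_covRing (hq := hq) (hqN := hqN) hA D hKum hDv t hgen htfix S hSfix
    hRS htS π hπ hchar hfin
  have h1 := hab 𝔓 hj
  rw [h𝔓 a k hk hk1, h𝔓 b l hl hl1] at h1
  have h2 : (l : ℤ) ≡ (k : ℤ) [ZMOD (n : ℤ)] := Int.modEq_iff_dvd.mpr h1
  exact (Int.natCast_modEq_iff.mp h2).symm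

end CovRing

section CovHom

variable {N q : ℕ} [NeZero N] [NeZero q] {A : ValuationSubring Kb} {hq : q.Prime}
  {hqN : ¬ q ∣ N} {W : FF (N * q) ≃ₐ[Kb] FF (N * q)} {p : ℕ}
  {T : Type*} [CommRing T]

/-- **The dictionary for `ι : T →+* F'` injective** (`T` a type, e.g. a localisation). -/
theorem dict_covHom (hA : A.LiesOverPrime q) (D : CovData (N * q) W A p)
    (hKum : helper86.IsKummerRoot p D.K D.Z)
    {Dv : Divisor Kb (FF (N * q))} (hDv : ∀ v : Place Kb (FF (N * q)), v.ord D.K = p * Dv v)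
    (t : Cov (N * q) D.Z) (hgen : (FF (N * q))⟮t⟯ = ⊤) (htfix : ∀ g ∈ covSet D, g t = t)
    (ι : T →+* Cov (N * q) D.Z) (hι : Function.Injective ι)
    (hTfix : ∀ r : T, ∀ g ∈ covSet D, g (ι r) = ι r)
    (hRT : ∀ r ∈ ringX A hq hqN, ∃ r' : T,
      ι r' = algebraMap (FF (N * q)) (Cov (N * q) D.Z) r)
    (htT : ∃ t' : T, ι t' = t)
    (π : T) (hπ : Prime π) (hchar : ∀ n : ℕ, n ≠ 0 → ¬ π ∣ (n : T))
    (hfin : ∀ r : T, r ≠ 0 → ∃ k : ℕ, ¬ π ^ (k + 1) ∣ r) :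
    ∃ 𝔓 : Place Kb (Cov (N * q) D.Z), 0 ≤ 𝔓.ord (jCov D) ∧
      ∀ (r : T) (k : ℕ), π ^ k ∣ r → ¬ π ^ (k + 1) ∣ r → 𝔓.ord (ι r) = (k : ℤ) := by
  have hRS : ∀ r ∈ ringX A hq hqN,
      algebraMap (FF (N * q)) (Cov (N * q) D.Z) r ∈ ι.range := by
    intro r hr
    obtain ⟨r', e⟩ := hRT r hr
    exact ⟨r', e⟩
  have hfrac : ∀ f : Cov (N * q) D.Z, (∀ g ∈ covSet D, g f = f) →
      ∃ a b : T, b ≠ 0 ∧ f * ι b = ι a := by
    intro f hf
    obtain ⟨a, ⟨a', rfl⟩, b, ⟨b', rfl⟩, hb0, e⟩ :=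
      hfrac_covRing (hq := hq) (hqN := hqN) hA D t hgen htfix ι.range hRS htT f hf
    refine ⟨a', b', ?_, e⟩
    rintro rfl
    exact hb0 (map_zero ι)
  obtain ⟨𝔓, h𝔓⟩ := dict_hom (dict_cov D hKum hDv) ι hι hTfix hfrac π hπ hchar hfin
  refine ⟨𝔓, ?_, h𝔓⟩
  apply ord_jCov_nonneg_of_centred (hq := hq) (hqN := hqN) hA D ι.range hRS
  rintro ⟨_, r, rfl⟩
  rcases eq_or_ne r 0 with rfl | hr
  · simp
  · obtain ⟨m, hm, hm1⟩ := exists_exact_mult π r (hfin r hr)
    show 0 ≤ 𝔓.ord (ι r)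
    rw [h𝔓 r m hm hm1]
    exact Int.natCast_nonneg m

/-- **The dictionary for `ι : T →+* F'` injective, consumer form.** -/
theorem dictModEq_covHom (hA : A.LiesOverPrime q) (D : CovData (N * q) W A p)
    (hKum : helper86.IsKummerRoot p D.K D.Z)
    {Dv : Divisor Kb (FF (N * q))} (hDv : ∀ v : Place Kb (FF (N * q)), v.ord D.K = p * Dv v)
    (t : Cov (N * q) D.Z) (hgen : (FF (N * q))⟮t⟯ = ⊤) (htfix : ∀ g ∈ covSet D, g t = t)
    (ι : T →+* Cov (N * q) D.Z) (hι : Function.Injective ι)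
    (hTfix : ∀ r : T, ∀ g ∈ covSet D, g (ι r) = ι r)
    (hRT : ∀ r ∈ ringX A hq hqN, ∃ r' : T,
      ι r' = algebraMap (FF (N * q)) (Cov (N * q) D.Z) r)
    (htT : ∃ t' : T, ι t' = t) (n : ℕ) (a b : T)
    (hab : ∀ P : Place Kb (Cov (N * q) D.Z), 0 ≤ P.ord (jCov D) →
      (n : ℤ) ∣ P.ord (ι a) - P.ord (ι b))
    (π : T) (hπ : Prime π) (hchar : ∀ m : ℕ, m ≠ 0 → ¬ π ∣ (m : T))
    (hfin : ∀ r : T, r ≠ 0 → ∃ k : ℕ, ¬ π ^ (k + 1) ∣ r)
    (k l : ℕ) (hk : π ^ k ∣ a) (hk1 : ¬ π ^ (k + 1) ∣ a) (hl : π ^ l ∣ b)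
    (hl1 : ¬ π ^ (l + 1) ∣ b) : k ≡ l [MOD n] := by
  obtain ⟨𝔓, hj, h𝔓⟩ := dict_covHom (hq := hq) (hqN := hqN) hA D hKum hDv t hgen htfix ι hι
    hTfix hRT htT π hπ hchar hfin
  have h1 := hab 𝔓 hj
  rw [h𝔓 a k hk hk1, h𝔓 b l hl hl1] at h1
  have h2 : (l : ℤ) ≡ (k : ℤ) [ZMOD (n : ℤ)] := Int.modEq_iff_dvd.mpr h1
  exact (Int.natCast_modEq_iff.mp h2).symm

end CovHom

end Fermat.Agent.T8.helper23
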