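import Fermat.Agent.T8.helper29_ConclNew

/-!
# T8 = row 38 via S44, leaf [CONCL] (helper29, owner): the wiring with RATIONAL ROOTS

The instance of [SLOPE-X'] (the regular model of the cover over the unramified base) needs a
Kummer function whose integral roots `Z₁`, `Z₂` are coefficientwise FIXED by
`I_K1 = muFix p ⊓ I_A` (`RootFix`; shape of the hypotheses `hfix1`, `hfix2` of `helper97`).
This is not a consequence of `StronglySplit` + `IsNewN`.  This file threads it:

* `RootFix A p Z`     : `Z` is coefficientwise fixed by `I_K1`;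
* `KRatStatement`     : **the box [K-RAT]** at a bad pair: every strongly split, new Kummer
                        function `K` which is not a `p`-th power has a multiple
                        `K' = c₀ G ^ p K` (same Kummer class) with `IsA0One K'` and integral roots
                        of reduction `1` at both cusps which are fixed by `I_K1`;
* `PeuShapeFix`       : `PeuShapeNew` with such a `K`;
* `peuShapeFix_of_kRat` : `KRatStatement → PeuShapeNew u → PeuShapeFix u`;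
* `CovPtFix`, `K0CoverFix`, `SlopeCoverFix` : the frontier Props of `helper29_ConclNew` with the
                        two extra hypotheses `RootFix A p D.Z₁`, `RootFix A p D.Z₂`;
* `nonSplitWall_of_covPtFix π : KRatAll → CovPtFix → NonSplitWallStatement π wallBN`
  (and the K0 / K1 forms).
-/

set_option autoImplicit false
set_option linter.unusedSectionVars false
set_option linter.unusedVariables false
set_option linter.style.longLine false
set_option linter.style.haveILetI false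

noncomputable section

namespace Fermat.Agent.T8.helper29

open HahnSeries IntermediateField AlgebraicCurve ModularCurve
open Fermat.Agent.S18.helper19 Fermat.Agent.P2.helper29 Fermat.Agent.P2.helper93
open Fermat.Agent.T2 Fermat.Agent.T2.helper36
open Fermat.Agent.T8.helper65 (HasRed GoodClass)
open Fermat.Agent.T8.helper54 (IsRed1 DvdOff ModEqOff)
open Fermat.Agent.T3.helper36 (RhoQ)
open Fermat.Agent.T8.helper88 (CovData Cov)
open Fermat.Agent.T8.helper22 (SheetGood)
open Fermat.Agent.T8.helper86 (IsKummerRoot)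
open Fermat.Agent.T8.helper98 (IsIK1)
open Fermat.Agent.T8.helper16 (ordAt)
open Fermat.Agent.T3.helper16 (IsUnit0)

variable {A : ValuationSubring Kb}

/-- the integral series `Z` is coefficientwise fixed by `I_K1 = muFix p ⊓ I_A` -/
def RootFix (A : ValuationSubring Kb) (p : ℕ) (Z : LaurentSeries A) : Prop :=
  ∀ σ ∈ Fermat.Agent.T8.helper65.muFix p ⊓ Fermat.Agent.T8.helper65.IA A,
    Fermat.Agent.T8.helper65.cwAct σ (incl A Z) = incl A Z

section Bad

variable (N p : ℕ) [NeZero N] [NeZero p] (hp : p.Prime) (hpN : ¬ p ∣ N)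

/-- **the box [K-RAT]** at a bad pair: a strongly split, new Kummer function which is not a
`p`-th power has a multiple `c₀ G ^ p K` in the same Kummer class, regular off the two cusps,
with integral roots of reduction `1` at both cusps which are fixed by `I_K1`. -/
def KRatStatement (A : ValuationSubring Kb) : Prop :=
  ∀ K : FF (N * p),
    Fermat.Agent.T7.helper27.StronglySplit (N * p) (atkinLehner N p hp hpN) A p K →
    Fermat.Agent.T7.helper27.IsNewN N p K → (∀ g : FF (N * p), g ^ p ≠ K) →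
    ∃ (c₀ : Kb) (G : FF (N * p)) (Z₁ Z₂ : LaurentSeries A), c₀ ≠ 0 ∧ G ≠ 0 ∧
      Fermat.Agent.T2.IsA0One (N * p) (atkinLehner N p hp hpN) A
        (algebraMap Kb (FF (N * p)) c₀ * G ^ p * K) ∧
      Fermat.Agent.T7.helper27.IsNewN N p (algebraMap Kb (FF (N * p)) c₀ * G ^ p * K) ∧
      incl A Z₁ ^ p = ((algebraMap Kb (FF (N * p)) c₀ * G ^ p * K : FF (N * p)) :
        LaurentSeries Kb) ∧
      incl A Z₂ ^ p = ((atkinLehner N p hp hpN (algebraMap Kb (FF (N * p)) c₀ * G ^ p * K) :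
        FF (N * p)) : LaurentSeries Kb) ∧
      red A Z₁ = 1 ∧ red A Z₂ = 1 ∧ RootFix A p Z₁ ∧ RootFix A p Z₂

/-- **`PeuShapeNew` with rational roots**: the Kummer function `K` comes with integral roots
`Z₁`, `Z₂` of reduction `1` which are fixed by `I_K1`. -/
def PeuShapeFix (A : ValuationSubring Kb) (u : FF (N * p)) : Prop :=
  ∃ (K : FF (N * p)) (ζ α : Kb) (Z₁ Z₂ : LaurentSeries A),
    Fermat.Agent.T2.IsA0One (N * p) (atkinLehner N p hp hpN) A K ∧
    (∀ P : Place Kb (FF (N * p)), (p : ℤ) ∣ P.ord K) ∧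
    incl A Z₁ ^ p = (K : LaurentSeries Kb) ∧
    incl A Z₂ ^ p = ((atkinLehner N p hp hpN K : FF (N * p)) : LaurentSeries Kb) ∧
    red A Z₁ = 1 ∧ red A Z₂ = 1 ∧ RootFix A p Z₁ ∧ RootFix A p Z₂ ∧
    Fermat.Agent.T7.helper27.IsNewN N p K ∧ (∀ g : FF (N * p), g ^ p ≠ K) ∧
    IsPrimitiveRoot ζ p ∧ α ≠ 0 ∧ A.valuation (α ^ p) = 1 ∧
    ∀ σ : Kb ≃ₐ[ℚ] Kb, IsIK1 A p σ →
      ∃ (j : ℕ) (c : Kb) (v : FF (N * p)), σ α = ζ ^ j * α ∧ c ≠ 0 ∧ v ≠ 0 ∧
        galF (N * p) σ u = algebraMap Kb (FF (N * p)) c * v ^ p * u * K ^ j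

variable {N p hp hpN}

/-- **[K-RAT] ⟹ `PeuShapeFix`**: the Kummer function of `PeuShapeNew` may be replaced by any
multiple `c₀ G ^ p K`. -/
theorem peuShapeFix_of_kRat (hR : KRatStatement N p hp hpN A) {u : FF (N * p)}
    (h : Fermat.Agent.T8.helper89.PeuShapeNew N p hp hpN A u) :
    PeuShapeFix N p hp hpN A u := by
  obtain ⟨K, ζ, α, hK, hnew, hnp, hζ, hα, hv, -, hgal⟩ := h
  obtain ⟨c₀, G, Z₁, Z₂, hc₀, hG, hA0, hnew', h1, h2, hr1, hr2, hf1, hf2⟩ := hR K hK hnew hnp
  have hC : algebraMap Kb (FF (N * p)) c₀ ≠ 0 := (map_ne_zero _).mpr hc₀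
  have hGp : G ^ p ≠ 0 := pow_ne_zero _ hG
  have hK0 : K ≠ 0 := fun h0 => hnp 0 (by rw [h0, zero_pow hp.ne_zero])
  refine ⟨algebraMap Kb (FF (N * p)) c₀ * G ^ p * K, ζ, α, Z₁, Z₂, hA0, fun P => ?_, h1, h2,
    hr1, hr2, hf1, hf2, hnew', fun g hg => ?_, hζ, hα, hv, fun σ hσ => ?_⟩
  · rw [Place.ord_mul P (mul_ne_zero hC hGp) hK0, Place.ord_mul P hC hGp,
      Fermat.Agent.T6.helper26.ord_const P c₀, zero_add, Fermat.Agent.P2.helper18.ord_pow P G p]
    exact dvd_add (dvd_mul_right _ _) (hK.2.1 P)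
  · obtain ⟨γ, hγ⟩ := IsAlgClosed.exists_pow_nat_eq c₀ hp.pos
    have hγ0 : γ ≠ 0 := by
      rintro rfl
      rw [zero_pow hp.ne_zero] at hγ
      exact hc₀ hγ.symm
    have hCγ : algebraMap Kb (FF (N * p)) γ ≠ 0 := (map_ne_zero _).mpr hγ0
    refine hnp (g * (algebraMap Kb (FF (N * p)) γ * G)⁻¹) ?_
    rw [mul_pow, inv_pow, mul_pow, ← map_pow, hγ, hg]
    field_simp
  · obtain ⟨j, c, v, e1, hc, hv0, e2⟩ := hgal σ hσ
    have hCj : algebraMap Kb (FF (N * p)) (c₀ ^ j) ≠ 0 :=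
      (map_ne_zero _).mpr (pow_ne_zero _ hc₀)
    have hGj : G ^ j ≠ 0 := pow_ne_zero _ hG
    refine ⟨j, c * (c₀ ^ j)⁻¹, v * (G ^ j)⁻¹, e1, mul_ne_zero hc (inv_ne_zero (pow_ne_zero _ hc₀)),
      mul_ne_zero hv0 (inv_ne_zero hGj), ?_⟩
    rw [e2, map_mul, map_inv₀, map_pow]
    have hCc : algebraMap Kb (FF (N * p)) c₀ ^ j ≠ 0 := pow_ne_zero _ hC
    have h1 : (algebraMap Kb (FF (N * p)) c₀ * G ^ p * K) ^ j =
        algebraMap Kb (FF (N * p)) c₀ ^ j * (G ^ j) ^ p * K ^ j := by ring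
    have h2 : (algebraMap Kb (FF (N * p)) c₀ ^ j)⁻¹ * algebraMap Kb (FF (N * p)) c₀ ^ j = 1 :=
      inv_mul_cancel₀ hCc
    have h3 : ((G ^ j) ^ p)⁻¹ * (G ^ j) ^ p = 1 := inv_mul_cancel₀ (pow_ne_zero _ hGj)
    rw [h1, mul_pow, inv_pow]
    calc algebraMap Kb (FF (N * p)) c * v ^ p * u * K ^ j
        = algebraMap Kb (FF (N * p)) c * v ^ p * u * K ^ j *
            ((algebraMap Kb (FF (N * p)) c₀ ^ j)⁻¹ * algebraMap Kb (FF (N * p)) c₀ ^ j) *
            (((G ^ j) ^ p)⁻¹ * (G ^ j) ^ p) := by rw [h2, h3, mul_one, mul_one]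
      _ = _ := by ring

/-- **[CONCL] with rational roots** -/
def ConclFixStatement (N p : ℕ) [NeZero N] [NeZero p] (hp : p.Prime) (hpN : ¬ p ∣ N)
    (A : ValuationSubring Kb) (ν : FFb A N) : Prop :=
  ∀ u : FF (N * p), u ≠ 0 → (∀ P : Place Kb (FF (N * p)), (p : ℤ) ∣ P.ord u) →
    PeuShapeFix N p hp hpN A u → SlopeOutN A N p ν u

theorem conclNew_of_conclFix (hR : KRatStatement N p hp hpN A) {ν : FFb A N}
    (h : ConclFixStatement N p hp hpN A ν) :
    Fermat.Agent.T8.helper89.ConclNewStatement N p hp hpN A ν :=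
  fun u hu hdiv hpeu => h u hu hdiv (peuShapeFix_of_kRat hR hpeu)

/-- **[CONCL] with rational roots = the K1-corollary on the covers with rational roots**. -/
theorem conclFix_of_slopeCover (hp : p.Prime) (hpN : ¬ p ∣ N) (hN : 4 ∣ N ∨ 9 ∣ N)
    (hA : A.LiesOverPrime p) (ν : FFb A N)
    (hX' : ∀ (D : CovData (N * p) (atkinLehner N p hp hpN) A p)
      (hKum : IsKummerRoot p D.K D.Z) (ζ : Kb) (hζp : ζ ^ p = 1), IsPrimitiveRoot ζ p →
      Fermat.Agent.T7.helper27.StronglySplit (N * p) (atkinLehner N p hp hpN) A p D.K →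
      Fermat.Agent.T7.helper27.IsNewN N p D.K → red A D.Z₁ = 1 → red A D.Z₂ = 1 →
      RootFix A p D.Z₁ → RootFix A p D.Z₂ →
      SlopeCoverStatement D hKum ζ hζp ν) :
    ConclFixStatement N p hp hpN A ν := by
  intro u hu hdiv hpeu
  obtain ⟨K, ζ, α, Z₁, Z₂, hA0, hKdiv, h1, h2, hr1, hr2, hf1, hf2, hnew, hnp, hζ, hα, hv,
    hgal⟩ := hpeu
  have hK0 : K ≠ 0 := fun h0 => hnp 0 (by rw [h0, zero_pow hp.ne_zero])
  let D : CovData (N * p) (atkinLehner N p hp hpN) A p :=
    CovData.ofBad N p hp hpN hN A hA K hA0 Z₁ Z₂ h1 h2 hr1 hr2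
  have hKum : IsKummerRoot p D.K D.Z := ⟨hp, h1, hnp⟩
  have hI : Fermat.Agent.T8.helper83.DescInput (N * p) A p K u D.Z ζ α :=
    { root := hKum
      zeta := hζ.pow_eq_one
      alpha := hα
      u_ne := hu
      galZ := by
        intro σ hσ
        obtain ⟨w, -, hw, -⟩ := D.pair σ hσ.1 1 hp.one_lt.le
          (fun z hz => by rw [pow_one]; exact hσ.2 z hz)
        refine ⟨w, ?_⟩
        rw [pow_one] at hw
        exact hw
      galu := hgal }
  have hD := Fermat.Agent.T8.helper59.descOutput_of_primitive hI hζ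
  obtain ⟨E, hE⟩ := exists_divisor_of_dvd hK0 hKdiv
  exact slopeOutN_of_descOutput D hKum ζ hζ.pow_eq_one hp hpN hA hζ hE hu hdiv hv hD ν
    (hX' D hKum ζ hζ.pow_eq_one hζ ⟨hA0, hKdiv, Z₁, Z₂, h1, h2, hr1, hr2⟩ hnew hr1 hr2 hf1 hf2)

end Bad

/-! ### The frontier with rational roots -/

section Frontier

/-- **frontier, K1-form, rational roots** -/
def SlopeCoverFix : Prop :=
  CoverNewAll (fun N p _ _ hp hpN A D hKum ζ hζp ν =>
    RootFix A p D.Z₁ → RootFix A p D.Z₂ → SlopeCoverStatement D hKum ζ hζp ν)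

/-- **frontier, K0-form, rational roots** -/
def K0CoverFix : Prop :=
  CoverNewAll (fun N p _ _ hp hpN A D hKum ζ hζp ν =>
    RootFix A p D.Z₁ → RootFix A p D.Z₂ →
      Fermat.Agent.T8.helper80.K0CoverStatement D hKum ζ hζp ν)

/-- **frontier, point form, rational roots** -/
def CovPtFix : Prop :=
  CoverNewAll (fun N p _ _ hp hpN A D hKum ζ hζp ν =>
    RootFix A p D.Z₁ → RootFix A p D.Z₂ → CovPtStatement D hKum ζ hζp ν)

/-- **the box [K-RAT]** at the bad pairs of the Frey packages -/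
def KRatAll : Prop :=
  ∀ (P : FreyPackage) (M' : ℕ) [NeZero M'] (hpN : ¬ P.p ∣ 4 * M')
    (A : ValuationSubring Kb), A.LiesOverPrime P.p →
    (P.p : ℤ) ∣ P.a * P.b * P.c →
    WeierstrassCurve.Affine.Point.GaloisRepIsIrreducible (K := AlgebraicClosure ℚ) ℚ
      P.freyCurve P.p →
    KRatStatement (4 * M') P.p P.pp hpN A

theorem slopeCoverFix_of_k0 (h : K0CoverFix) : SlopeCoverFix := by
  intro P M' _ hpN A hA hdvd hirr b0 B ε hb ν hν D hKum ζ hζp hζ hK hnew hr1 hr2 hf1 hf2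
  exact Fermat.Agent.T8.helper80.slopeCoverStatement_of_k0 D hKum ζ hζp hA ν
    (h P M' hpN A hA hdvd hirr b0 B ε hb ν hν D hKum ζ hζp hζ hK hnew hr1 hr2 hf1 hf2)

theorem k0CoverFix_of_covPt (h : CovPtFix) : K0CoverFix := by
  intro P M' _ hpN A hA hdvd hirr b0 B ε hb ν hν D hKum ζ hζp hζ hK hnew hr1 hr2 hf1 hf2
  have hK0 : D.K ≠ 0 := fun h0 => hKum.not_pow 0 (by rw [h0, zero_pow P.pp.ne_zero])
  obtain ⟨E, hE⟩ := exists_divisor_of_dvd hK0 hK.2.1
  exact k0CoverStatement_of_covPt D hKum ζ hζp hA hE ν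
    (h P M' hpN A hA hdvd hirr b0 B ε hb ν hν D hKum ζ hζp hζ hK hnew hr1 hr2 hf1 hf2)

/-- the frontier without the rational roots implies the frontier with them -/
theorem slopeCoverFix_of_new (h : SlopeCoverNew) : SlopeCoverFix :=
  fun P M' _ hpN A hA hdvd hirr b0 B ε hb ν hν D hKum ζ hζp hζ hK hnew hr1 hr2 _ _ =>
    h P M' hpN A hA hdvd hirr b0 B ε hb ν hν D hKum ζ hζp hζ hK hnew hr1 hr2

/-- **[CONCL] with newness from [K-RAT] and the K1-corollary on the covers with rational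
roots** -/
theorem conclNewFrey_of_slopeCoverFix (hR : KRatAll) (h : SlopeCoverFix) :
    Fermat.Agent.T8.helper89.ConclNewFreyStatement := by
  intro P M' _ hpN A hA hdvd hirr b0 B ε hb ν hν
  exact conclNew_of_conclFix (hR P M' hpN A hA hdvd hirr)
    (conclFix_of_slopeCover P.pp hpN (Or.inl (Dvd.intro M' rfl)) hA ν
      (fun D hKum ζ hζp hζ hK hnew hr1 hr2 hf1 hf2 =>
        h P M' hpN A hA hdvd hirr b0 B ε hb ν hν D hKum ζ hζp hζ hK hnew hr1 hr2 hf1 hf2))

/-- **the non-split wall from [K-RAT] and the K1-corollary on the covers with rational roots** -/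
theorem nonSplitWall_of_slopeCoverFix (π : Fermat.Agent.T8.helper72.PullData)
    (hR : KRatAll) (h : SlopeCoverFix) :
    Fermat.Agent.T8.helper38.NonSplitWallStatement π wallBN :=
  Fermat.Agent.T8.helper89.nonSplitWall_of_conclNew π (conclNewFrey_of_slopeCoverFix hR h)

/-- **the non-split wall from [K-RAT] and the K0-corollary on the covers with rational roots** -/
theorem nonSplitWall_of_k0CoverFix (π : Fermat.Agent.T8.helper72.PullData)
    (hR : KRatAll) (h : K0CoverFix) :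
    Fermat.Agent.T8.helper38.NonSplitWallStatement π wallBN :=
  nonSplitWall_of_slopeCoverFix π hR (slopeCoverFix_of_k0 h)

/-- **the non-split wall from [K-RAT] and the local rings of the covers with rational roots** -/
theorem nonSplitWall_of_covPtFix (π : Fermat.Agent.T8.helper72.PullData)
    (hR : KRatAll) (h : CovPtFix) :
    Fermat.Agent.T8.helper38.NonSplitWallStatement π wallBN :=
  nonSplitWall_of_k0CoverFix π hR (k0CoverFix_of_covPt h)

end Frontier

end Fermat.Agent.T8.helper29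

end
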