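import Fermat.Agent.T8.helper5_SlopeLoc2
import Fermat.Agent.T8.helper16_RingXPt
import Fermat.Agent.T8.helper23_DictLocX

/-!
# T8 [SLOPE] / [RING-X]: FINAL ASSEMBLY of `helper16.SlopeXStatement` (helper5)

* `slopeLoc_locX` : the local ring `helper16.locX Q` at a closed point `Q` of `C₁` where `j̄` is
  finite satisfies `SlopeLoc` (smooth points: `ord_Q ν = 0`, `y = b₀` is a unit of `locX Q`;
  double points: `ord_Q ν > 0`, every denominator has a nonzero second reduction).
* `mem_FFb_of_rhoQ` : the reduction of a scaled function of level `N q` lies in `FFb A N`.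
* `slopeX_of_ufd` : `UfdXStatement ⟹ SlopeXStatement`.
* `slopeX` : `SlopeXStatement N q hq hqN A B`, unconditional for `4 ∣ N` or `9 ∣ N`.
-/

set_option autoImplicit false
set_option synthInstance.maxHeartbeats 400000
set_option maxHeartbeats 1000000
set_option linter.unusedSectionVars false
set_option linter.unusedVariables false
set_option linter.style.haveILetI false
set_option linter.style.longLine false

noncomputable section

open HahnSeries IntermediateField AlgebraicCurve ModularCurve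
open Fermat.Agent.S18.helper19 Fermat.Agent.P2.helper29 Fermat.Agent.T2.helper36

namespace Fermat.Agent.T8.helper5

open Fermat.Agent.P2.helper66 (iota inv1)
open Fermat.Agent.T3.helper16 (IsUnit0)
open Fermat.Agent.T3.helper74 (IsFixI)
open Fermat.Agent.T3.helper36 (RhoQ GaussIs)
open Fermat.Agent.T8.helper63 (IsRX)
open Fermat.Agent.T8.helper16 (ordAt ringX locX IsUnitAt IsFinitePt red1X red2X model1 model2
  isRX_model red1X_eq red2X_eq ringX_le_locX UfdXStatement SlopeXStatement)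

section Inst

variable {N q : ℕ} [NeZero N] [NeZero q] {hq : q.Prime} {hqN : ¬ q ∣ N}
variable {A : ValuationSubring Kb} {b0 : FF (N * q)} {B : PowerSeries ℤ} {ε : ℤ}

/-- the order at a finite point of the first reduction of an element of `R⁰` is `≥ 0` -/
theorem ordAt_red1X_nonneg (hA : A.LiesOverPrime q) (Q : Place (kA A) (FFb A N))
    (hQ : IsFinitePt Q) (g : ringX A hq hqN) : 0 ≤ ordAt Q (red1X A hq hqN g) := by
  rw [Fermat.Agent.T8.helper16.ordAt_of_mem Q (Fermat.Agent.T8.helper16.red1X_mem_FFb hA g)]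
  exact Fermat.Agent.T8.helper16.ord_red1F_nonneg hA Q hQ g

theorem ordAt_zero' (Q : Place (kA A) (FFb A N)) : ordAt Q (0 : LaurentSeries (kA A)) = 0 := by
  rw [Fermat.Agent.T8.helper16.ordAt_of_mem Q (FFb A N).zero_mem]
  exact Place.ord_zero Q

/-- the first expansion of an element of `locX Q` -/
theorem rhoQ1_locX {Q : Place (kA A) (FFb A N)} {r : FF (N * q)} {a s : ringX A hq hqN}
    (hs : red1X A hq hqN s ≠ 0) (e : r * (s : FF (N * q)) = (a : FF (N * q))) :
    RhoQ A ((r : FF (N * q)) : LaurentSeries Kb) (red1X A hq hqN a / red1X A hq hqN s) := by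
  have ha := isRX_model a
  have hs' := isRX_model s
  have h1 := Fermat.Agent.T3.helper36.rhoQ_quot (model1 a) (model1 s) hs
  rw [ha.2.2.1, hs'.2.2.1] at h1
  have hs0 : ((s : FF (N * q)) : LaurentSeries Kb) ≠ 0 := by
    intro h0
    have h2 : incl A (model1 s) = 0 := by rw [hs'.2.2.1]; exact h0
    have h3 : model1 s = 0 :=
      Fermat.Agent.T2.helper36.incl_injective_val A (h2.trans (map_zero _).symm)
    apply hs
    show red A (model1 s) = 0
    rw [h3, map_zero]
  have e' : ((r : FF (N * q)) : LaurentSeries Kb) =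
      ((a : FF (N * q)) : LaurentSeries Kb) / ((s : FF (N * q)) : LaurentSeries Kb) := by
    rw [eq_div_iff hs0]
    exact congrArg (fun z : FF (N * q) => (z : LaurentSeries Kb)) e
  rw [e']
  exact h1

/-- the second expansion of an element of `locX Q` -/
theorem rhoQ2_locX {r : FF (N * q)} {a s : ringX A hq hqN}
    (hs : red2X A hq hqN s ≠ 0) (e : r * (s : FF (N * q)) = (a : FF (N * q))) :
    RhoQ A ((atkinLehner N q hq hqN r : FF (N * q)) : LaurentSeries Kb)
      (red2X A hq hqN a / red2X A hq hqN s) := by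
  have ha := isRX_model a
  have hs' := isRX_model s
  have h1 := Fermat.Agent.T3.helper36.rhoQ_quot (model2 a) (model2 s) hs
  rw [ha.2.2.2, hs'.2.2.2] at h1
  have hs0 : ((atkinLehner N q hq hqN (s : FF (N * q)) : FF (N * q)) : LaurentSeries Kb) ≠ 0 := by
    intro h0
    have h2 : incl A (model2 s) = 0 := by rw [hs'.2.2.2]; exact h0
    have h3 : model2 s = 0 :=
      Fermat.Agent.T2.helper36.incl_injective_val A (h2.trans (map_zero _).symm)
    apply hs
    show red A (model2 s) = 0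
    rw [h3, map_zero]
  have e' : ((atkinLehner N q hq hqN r : FF (N * q)) : LaurentSeries Kb) =
      ((atkinLehner N q hq hqN (a : FF (N * q)) : FF (N * q)) : LaurentSeries Kb) /
        ((atkinLehner N q hq hqN (s : FF (N * q)) : FF (N * q)) : LaurentSeries Kb) := by
    rw [eq_div_iff hs0]
    have := congrArg (atkinLehner N q hq hqN) e
    rw [map_mul] at this
    exact congrArg (fun z : FF (N * q) => (z : LaurentSeries Kb)) this
  rw [e']
  exact h1

/-- **[RING-X] ⟹ the setting of [SLOPE] at every closed point `Q` where `j̄` is finite.** -/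
theorem slopeLoc_locX (h : IsUnit0 hq hqN b0 B ε) (hA : A.LiesOverPrime q)
    (Q : Place (kA A) (FFb A N)) (hQ : IsFinitePt Q)
    (hUfd : UniqueFactorizationMonoid (locX A hq hqN Q)) :
    SlopeLoc A hq hqN b0 Q (locX A hq hqN Q) := by
  obtain ⟨Yy₁, Yy₂, hYy, hYy1, hYy2⟩ := Fermat.Agent.T8.helper63.isRX_unit h A hA
  obtain ⟨Yx₁, Yx₂, hYx, hYx1, hYx2⟩ := Fermat.Agent.T8.helper63.isRX_unitW h A hA
  set yR : ringX A hq hqN := ⟨b0, ⟨Yy₁, Yy₂, hYy⟩⟩ with hyR
  have hredy : red1X A hq hqN yR = iota (kA A) B := by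
    rw [red1X_eq (g := yR) hYy, hYy1]
  have hν0 : iota (kA A) B ≠ 0 := Fermat.Agent.T8.helper63.nu_ne_zero h A
  have hνnn : 0 ≤ ordAt Q (iota (kA A) B) := by
    rw [← hredy]
    exact ordAt_red1X_nonneg hA Q hQ yR
  -- the first expansions
  have hint1 : ∀ r ∈ locX A hq hqN Q, ∃ s : LaurentSeries (kA A),
      RhoQ A ((r : FF (N * q)) : LaurentSeries Kb) s ∧ s ∈ FFb A N ∧ 0 ≤ ordAt Q s := by
    rintro r ⟨a, s, hs, e⟩
    refine ⟨_, rhoQ1_locX (Q := Q) hs.2.1 e,
      (FFb A N).div_mem (Fermat.Agent.T8.helper16.red1X_mem_FFb hA a) hs.1, ?_⟩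
    rcases eq_or_ne (red1X A hq hqN a) 0 with h0 | h0
    · rw [h0, zero_div, ordAt_zero']
    · rw [ordAt_div Q (Fermat.Agent.T8.helper16.red1X_mem_FFb hA a) hs.1 h0 hs.2.1, hs.2.2,
        sub_zero]
      exact ordAt_red1X_nonneg hA Q hQ a
  have hker1 : ∀ r ∈ locX A hq hqN Q, RhoQ A ((r : FF (N * q)) : LaurentSeries Kb) 0 →
      r * (atkinLehner N q hq hqN b0)⁻¹ ∈ locX A hq hqN Q := by
    rintro r ⟨a, s, hs, e⟩ h0
    have h1 := (rhoQ1_locX (Q := Q) hs.2.1 e).unique h0
    have h2 : red1X A hq hqN a = 0 := by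
      rcases div_eq_zero_iff.1 h1 with h3 | h3
      · exact h3
      · exact absurd h3 hs.2.1
    obtain ⟨U₁, U₂, hU, -⟩ := Fermat.Agent.T8.helper63.kerRed1 h A hA (a : FF (N * q)) _ _
      (isRX_model a) h2
    refine ⟨⟨_, ⟨U₁, U₂, hU⟩⟩, s, hs, ?_⟩
    show r * (atkinLehner N q hq hqN b0)⁻¹ * (s : FF (N * q)) =
      (a : FF (N * q)) * (atkinLehner N q hq hqN b0)⁻¹
    rw [← e]
    ring
  refine ⟨fun r hr => Fermat.Agent.T8.helper23.hfix_locX Q hr,
    fun f hf => Fermat.Agent.T8.helper23.hfrac_locX hA Q hf, hUfd, hint1, hker1,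
    ringX_le_locX Q ⟨Yy₁, Yy₂, hYy⟩, ringX_le_locX Q ⟨Yx₁, Yx₂, hYx⟩, ?_, ?_, ?_⟩
  · intro m hm
    obtain ⟨Y₁, Y₂, hY⟩ := Fermat.Agent.T8.helper48.isRX_inv_natCast (N := N) (A := A) hq hqN hA
      m hm
    exact ringX_le_locX Q ⟨Y₁, Y₂, hY⟩
  · intro P hP
    exact Fermat.Agent.T8.helper23.ord_jElt_nonneg_of_centred (hq := hq) (hqN := hqN) hA Q hP
  · rcases eq_or_lt_of_le hνnn with h0 | hpos
    · -- smooth point
      left
      refine ⟨1, yR, ⟨?_, ?_, ?_⟩, ?_⟩
      · rw [hredy, ← hredy]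
        exact Fermat.Agent.T8.helper16.red1X_mem_FFb hA yR
      · rw [hredy]
        exact hν0
      · rw [hredy]
        exact h0.symm
      · show b0⁻¹ * b0 = ((1 : ringX A hq hqN) : FF (N * q))
        rw [inv_mul_cancel₀ h.ne_zero]
        rfl
    · -- double point
      right
      have key : ∀ s : ringX A hq hqN, IsUnitAt A hq hqN Q s → red2X A hq hqN s ≠ 0 := by
        intro s hs h2
        obtain ⟨Z₁, Z₂, hZ, hZr⟩ := Fermat.Agent.T8.helper63.kerRed2 h A hA (s : FF (N * q)) _ _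
          (isRX_model s) h2
        set t : ringX A hq hqN := ⟨_, ⟨Z₁, Z₂, hZ⟩⟩ with ht
        have hredt : red1X A hq hqN t = red A Z₁ := red1X_eq (g := t) hZ
        have hprod : red1X A hq hqN t * iota (kA A) B = red1X A hq hqN s := by
          rw [hredt]
          exact hZr
        have ht0 : red1X A hq hqN t ≠ 0 := by
          intro h3
          rw [h3, zero_mul] at hprod
          exact hs.2.1 hprod.symm
        have hνm : iota (kA A) B ∈ FFb A N := by
          rw [← hredy]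
          exact Fermat.Agent.T8.helper16.red1X_mem_FFb hA yR
        have h4 := Fermat.Agent.T8.helper16.ordAt_mul Q
          (Fermat.Agent.T8.helper16.red1X_mem_FFb hA t) hνm ht0 hν0
        rw [hprod, hs.2.2] at h4
        have h5 := ordAt_red1X_nonneg hA Q hQ t
        omega
      constructor
      · rintro r ⟨a, s, hs, e⟩
        exact ⟨_, rhoQ2_locX (key s hs) e⟩
      · rintro r ⟨a, s, hs, e⟩ h0
        have h1 := (rhoQ2_locX (key s hs) e).unique h0
        have h2 : red2X A hq hqN a = 0 := by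
          rcases div_eq_zero_iff.1 h1 with h3 | h3
          · exact h3
          · exact absurd h3 (key s hs)
        obtain ⟨U₁, U₂, hU, -⟩ := Fermat.Agent.T8.helper63.kerRed2 h A hA (a : FF (N * q)) _ _
          (isRX_model a) h2
        refine ⟨⟨_, ⟨U₁, U₂, hU⟩⟩, s, hs, ?_⟩
        show r * b0⁻¹ * (s : FF (N * q)) = (a : FF (N * q)) * b0⁻¹
        rw [← e]
        ring

end Inst

/-! ### the reduction of a scaled function lies in the special fibre field -/

section Mem

variable {N q : ℕ} [NeZero N] [NeZero q] {hq : q.Prime} {hqN : ¬ q ∣ N}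
variable {A : ValuationSubring Kb}

/-- two scalings of the same series: the reductions differ by a nonzero constant -/
theorem exists_const_of_rhoQ {f : LaurentSeries Kb} {c d : Kb} {r s : LaurentSeries (kA A)}
    (hc : c ≠ 0) (hd : d ≠ 0) (hr : r ≠ 0) (hs : s ≠ 0)
    (h1 : RhoQ A (algebraMap Kb (LaurentSeries Kb) c⁻¹ * f) r)
    (h2 : RhoQ A (algebraMap Kb (LaurentSeries Kb) d⁻¹ * f) s) :
    ∃ κ : kA A, κ ≠ 0 ∧ r = algebraMap (kA A) (LaurentSeries (kA A)) κ * s := by
  have hv : A.valuation c = A.valuation d :=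
    Fermat.Agent.T3.helper36.GaussIs.valuation_eq (A := A) (g := f) ⟨hc, r, hr, h1⟩
      ⟨hd, s, hs, h2⟩
  have hθ : A.valuation (d * c⁻¹) = 1 := by
    rw [map_mul, map_inv₀, hv, mul_inv_cancel₀]
    exact (Valuation.ne_zero_iff _).2 hd
  have hθA : d * c⁻¹ ∈ A := (A.valuation_le_one_iff _).1 hθ.le
  have hk := Fermat.Agent.T3.helper36.rhoQ_algebraMap (A := A) ⟨d * c⁻¹, hθA⟩
  have hprod := hk.mul h2
  have e : algebraMap Kb (LaurentSeries Kb) (((⟨d * c⁻¹, hθA⟩ : A) : Kb)) *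
      (algebraMap Kb (LaurentSeries Kb) d⁻¹ * f) =
      algebraMap Kb (LaurentSeries Kb) c⁻¹ * f := by
    rw [← mul_assoc, ← map_mul]
    congr 2
    show d * c⁻¹ * d⁻¹ = c⁻¹
    field_simp
  rw [e] at hprod
  refine ⟨IsLocalRing.residue A ⟨d * c⁻¹, hθA⟩, ?_, h1.unique hprod⟩
  intro h0
  rw [IsLocalRing.residue_eq_zero_iff] at h0
  have h3 : A.valuation ((⟨d * c⁻¹, hθA⟩ : A) : Kb) < 1 :=
    (A.valuation_lt_one_iff (⟨d * c⁻¹, hθA⟩ : A)).1 h0
  exact (ne_of_lt h3) hθ

/-- the reduction of a scaled function of level `N q` lies in `FFb A N` -/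
theorem mem_FFb_of_rhoQ (hq : q.Prime) (hqN : ¬ q ∣ N) (hA : A.LiesOverPrime q)
    {u : FF (N * q)} (hu : u ≠ 0) {c : Kb} (hc : c ≠ 0) {r : LaurentSeries (kA A)}
    (hr : r ≠ 0)
    (h1 : RhoQ A (algebraMap Kb (LaurentSeries Kb) c⁻¹ * (u : LaurentSeries Kb)) r) :
    r ∈ FFb A N := by
  have hSC : ScaleStatement (N * q) A :=
    Fermat.Agent.T2.helper58.scaleStatement_bad N q hq hqN A hA
  have hu' : (u : LaurentSeries Kb) ≠ 0 := fun h0 => hu (Subtype.ext h0)
  obtain ⟨d, Y₁, Y₂, hd, g₁, g₂, e⟩ := hSC (u : LaurentSeries Kb) u.2 hu'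
  have h2 : RhoQ A (algebraMap Kb (LaurentSeries Kb) d⁻¹ * (u : LaurentSeries Kb))
      (red A Y₁ / red A Y₂) := by
    refine ⟨Y₁, Y₂, g₂.2.2, ?_, ?_⟩
    · rw [mul_assoc, ← e, ← mul_assoc, ← map_mul, inv_mul_cancel₀ hd, map_one, one_mul]
    · rw [div_mul_cancel₀ _ g₂.2.2]
  have hs0 : red A Y₁ / red A Y₂ ≠ 0 := div_ne_zero g₁.2.2 g₂.2.2
  obtain ⟨κ, -, hκ⟩ := exists_const_of_rhoQ hc hd hr hs0 h1 h2
  have hm : r ∈ FFb A (N * q) := by
    rw [hκ]
    exact (FFb A (N * q)).mul_mem ((FFb A (N * q)).algebraMap_mem κ)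
      ((FFb A (N * q)).div_mem g₁.2.1 g₂.2.1)
  rwa [Fermat.Agent.T2.helper96.FFb_mul_eq N A hq hA] at hm

end Mem

/-! ### the statement -/

section Statement

variable {N q : ℕ} [NeZero N] [NeZero q] {hq : q.Prime} {hqN : ¬ q ∣ N}
variable {A : ValuationSubring Kb} {b0 : FF (N * q)} {B : PowerSeries ℤ} {ε : ℤ}

/-- **[SLOPE] on `X`, from [UFD]**. -/
theorem slopeX_of_ufd (h : IsUnit0 hq hqN b0 B ε) (hA : A.LiesOverPrime q)
    (hUfd : UfdXStatement N q hq hqN A) : SlopeXStatement N q hq hqN A B := by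
  intro n hn u hu hfix hdiv a₁ a₂ r₁ hr₁ h1 h2
  refine ⟨mem_FFb_of_rhoQ hq hqN hA hu (zpow_ne_zero _ h.q_ne_zero) hr₁ h1, ?_⟩
  intro Q hQ
  exact ((slopeLoc_locX h hA Q hQ (hUfd Q hQ)).slopeAt h hA n hu hfix hdiv a₁ a₂ hr₁ h1 h2).2

/-- **[SLOPE] on `X`**: `helper16.SlopeXStatement`, unconditional (`4 ∣ N` or `9 ∣ N`). -/
theorem slopeX (h : IsUnit0 hq hqN b0 B ε) (hA : A.LiesOverPrime q) (hN : 4 ∣ N ∨ 9 ∣ N) :
    SlopeXStatement N q hq hqN A B :=
  slopeX_of_ufd h hA (Fermat.Agent.T8.helper16.ufdX hA hN)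

end Statement

end Fermat.Agent.T8.helper5

end
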