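/-
T8 [SLOPE], K1-VERSION INSTANCE on `X` (helper65): from the consumer contract of [RING-X],
`helper16.SlopeXStatement N q hq hqN A B` (the slope at every finite closed point for the
`I`-fixed functions), to the K0-COROLLARY and the K1-VERSION in the vocabulary
`HasRed (IsGood A (N q)) c f r` (= `helper29.IsRedQ`), at EVERY finite closed point `Q` of the
special fibre.

* `k0CorAt_of_slopeX` : `SlopeXStatement → K0CorAt (N q) W A q (IsGood A (N q)) (ordAt Q) m_Q`;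
* `k1CorAt_of_slopeX` : `SlopeXStatement → K1CorAt (N q) W A q (IsGood A (N q)) (ordAt Q) m_Q`
  (`m_Q = ordAt Q ν`, `ν = iota B` the first reduction of the unit `b₀`);
* `exists_k1Slope`    : EXISTS-form: for `u ≠ 0` fixed by `I_K1 = muFix q ⊓ I_A` with `q ∣ div u`
  and scalings `(c₁, r₁)` of `u`, `(c₂, r₂)` of `W u`, there is `k : ℤ` with
  `v ((c₂ / c₁) ^ (q - 1)) = v (q ^ k)` and, at every finite `Q`,
  `q ∣ ordAt Q r₁ + k m_Q`.
-/
import Mathlib
import Fermat.Agent.T8.helper16_RingXDefs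
import Fermat.Agent.T8.helper65_K1Cor
import Fermat.Agent.T8.helper65_NormCover

set_option autoImplicit false
set_option linter.unusedSectionVars false
set_option linter.unusedVariables false
set_option linter.style.haveILetI false
set_option linter.style.longLine false

noncomputable section

namespace Fermat.Agent.T8.helper65

open HahnSeries IntermediateField AlgebraicCurve ModularCurve
open Fermat.Agent.S18.helper19 Fermat.Agent.P2.helper29 Fermat.Agent.P2.helper93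
open Fermat.Agent.T2.helper36
open Fermat.Agent.P2.helper66 (iota)
open Fermat.Agent.T3.helper36 (RhoQ GaussIs)
open Fermat.Agent.T3.helper74 (IsFixI)
open Fermat.Agent.T8.helper16 (ordAt IsFinitePt SlopeXStatement)

/-! ### Generalities on `HasRed`, `RhoQ`, `ordAt` -/

section Basic

variable {A : ValuationSubring Kb}

/-- `HasRed` is monotone in the class of good series -/
theorem HasRed.mono {Good Good' : LaurentSeries A → Prop} (h : ∀ Y, Good Y → Good' Y)
    {c : Kb} {f : LaurentSeries Kb} {r : LaurentSeries (kA A)} (hr : HasRed Good c f r) :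
    HasRed Good' c f r := by
  obtain ⟨Y₁, Y₂, g₁, g₂, e, er⟩ := hr
  exact ⟨Y₁, Y₂, h _ g₁, h _ g₂, e, er⟩

/-- the T3 form of a scaling with good series -/
theorem HasRed.rhoQ_isGood {M : ℕ} {c : Kb} (hc : c ≠ 0) {g : LaurentSeries Kb}
    {r : LaurentSeries (kA A)} (h : HasRed (IsGood A M) c g r) :
    RhoQ A (algebraMap Kb (LaurentSeries Kb) c⁻¹ * g) r ∧ r ≠ 0 :=
  (hasRed_redNe_iff hc).mp (h.mono fun Y hY => hY.2.2)

/-- the reduction of a scaling with good series is a function of the special fibre -/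
theorem HasRed.mem_FFb {M : ℕ} {c : Kb} {g : LaurentSeries Kb}
    {r : LaurentSeries (kA A)} (h : HasRed (IsGood A M) c g r) : r ∈ FFb A M := by
  obtain ⟨Y₁, Y₂, g₁, g₂, -, er⟩ := h
  have h2 : red A Y₂ ≠ 0 := g₂.2.2
  have e : r = red A Y₁ * (red A Y₂)⁻¹ := by
    rw [← er, mul_assoc, mul_inv_cancel₀ h2, mul_one]
  rw [e]
  exact (FFb A M).mul_mem g₁.2.1 ((FFb A M).inv_mem g₂.2.1)

theorem IsRedQuot.mem_FFb {M : ℕ} {r : LaurentSeries (kA A)}
    (h : IsRedQuot (IsGood A M) r) : r ∈ FFb A M := by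
  obtain ⟨Y₁, Y₂, g₁, g₂, er⟩ := h
  have h2 : red A Y₂ ≠ 0 := g₂.2.2
  have e : r = red A Y₁ * (red A Y₂)⁻¹ := by
    rw [← er, mul_assoc, mul_inv_cancel₀ h2, mul_one]
  rw [e]
  exact (FFb A M).mul_mem g₁.2.1 ((FFb A M).inv_mem g₂.2.1)

/-- change of the scaling constant by a unit of `A`: the reduction is multiplied by a nonzero
constant -/
theorem rhoQ_rescale {c d : Kb} (hc : c ≠ 0) (hd : d ≠ 0)
    (hv : A.valuation c = A.valuation d) {g : LaurentSeries Kb} {r : LaurentSeries (kA A)}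
    (h : RhoQ A (algebraMap Kb (LaurentSeries Kb) c⁻¹ * g) r) :
    ∃ e : kA A, e ≠ 0 ∧ RhoQ A (algebraMap Kb (LaurentSeries Kb) d⁻¹ * g)
      (algebraMap (kA A) (LaurentSeries (kA A)) e * r) := by
  have hu : A.valuation (c * d⁻¹) = 1 := by
    rw [map_mul, map_inv₀, hv, mul_inv_cancel₀]
    exact (Valuation.ne_zero_iff _).2 hd
  have ha : c * d⁻¹ ∈ A := (A.valuation_le_one_iff _).1 hu.le
  refine ⟨IsLocalRing.residue A ⟨c * d⁻¹, ha⟩, ?_, ?_⟩
  · intro h0
    rw [IsLocalRing.residue_eq_zero_iff] at h0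
    have h3 : A.valuation ((⟨c * d⁻¹, ha⟩ : A) : Kb) < 1 :=
      (A.valuation_lt_one_iff (⟨c * d⁻¹, ha⟩ : A)).1 h0
    exact (ne_of_lt h3) hu
  · have h1 := (Fermat.Agent.T3.helper36.rhoQ_algebraMap (A := A) ⟨c * d⁻¹, ha⟩).mul h
    have e : algebraMap Kb (LaurentSeries Kb) (((⟨c * d⁻¹, ha⟩ : A) : Kb)) *
        (algebraMap Kb (LaurentSeries Kb) c⁻¹ * g) =
        algebraMap Kb (LaurentSeries Kb) d⁻¹ * g := by
      rw [← mul_assoc, ← map_mul]
      congr 2
      show c * d⁻¹ * c⁻¹ = d⁻¹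
      field_simp
    rwa [e] at h1

variable {N : ℕ} [NeZero N]

theorem ordAt_zero (Q : Place (kA A) (FFb A N)) : ordAt Q (0 : LaurentSeries (kA A)) = 0 := by
  rw [Fermat.Agent.T8.helper16.ordAt_of_mem Q (FFb A N).zero_mem]
  exact Place.ord_zero Q

theorem ordAt_const (Q : Place (kA A) (FFb A N)) (e : kA A) :
    ordAt Q (algebraMap (kA A) (LaurentSeries (kA A)) e) = 0 := by
  rw [Fermat.Agent.T8.helper16.ordAt_of_mem Q ((FFb A N).algebraMap_mem e)]
  exact Fermat.Agent.S24.helper82.ord_algebraMap Q e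

theorem ordAt_const_mul (Q : Place (kA A) (FFb A N)) {e : kA A} (he : e ≠ 0)
    {r : LaurentSeries (kA A)} (hr : r ∈ FFb A N) :
    ordAt Q (algebraMap (kA A) (LaurentSeries (kA A)) e * r) = ordAt Q r := by
  rcases eq_or_ne r 0 with rfl | hr0
  · rw [mul_zero]
  · have he0 : algebraMap (kA A) (LaurentSeries (kA A)) e ≠ 0 := by
      rw [Ne, map_eq_zero_iff _ (algebraMap (kA A) (LaurentSeries (kA A))).injective]
      exact he
    rw [Fermat.Agent.T8.helper16.ordAt_mul Q ((FFb A N).algebraMap_mem e) hr he0 hr0,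
      ordAt_const, zero_add]

theorem ordAt_pow (Q : Place (kA A) (FFb A N)) {r : LaurentSeries (kA A)}
    (hr : r ∈ FFb A N) (n : ℕ) : ordAt Q (r ^ n) = n * ordAt Q r := by
  rcases eq_or_ne r 0 with rfl | hr0
  · rcases Nat.eq_zero_or_pos n with rfl | hn
    · rw [pow_zero, Fermat.Agent.T8.helper16.ordAt_one]; simp
    · rw [zero_pow hn.ne', ordAt_zero, mul_zero]
  induction n with
  | zero => rw [pow_zero, Fermat.Agent.T8.helper16.ordAt_one]; simp
  | succ n ih =>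
    rw [pow_succ, Fermat.Agent.T8.helper16.ordAt_mul Q (pow_mem hr n : r ^ n ∈ FFb A N) hr
      (pow_ne_zero _ hr0) hr0, ih]
    push_cast
    ring

end Basic

/-! ### The instance -/

section Main

variable {N q : ℕ} [NeZero N] [NeZero q] {A : ValuationSubring Kb} {hq : q.Prime}
  {hqN : ¬ q ∣ N} {B : PowerSeries ℤ}

/-- the valuation of `q` separates the powers of `q` -/
theorem zpow_eq_of_valuation_eq (hA : A.LiesOverPrime q) (hq0 : (q : Kb) ≠ 0) {a b : ℤ}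
    (h : A.valuation ((q : Kb) ^ a) = A.valuation ((q : Kb) ^ b)) : a = b := by
  have hvq : A.valuation (q : Kb) < 1 := A.mem_nonunits_iff.mp hA
  have hv0 : A.valuation (q : Kb) ≠ 0 := (Valuation.ne_zero_iff _).2 hq0
  have key : ∀ a b : ℤ, a < b →
      A.valuation ((q : Kb) ^ a) ≠ A.valuation ((q : Kb) ^ b) := by
    intro a b hab h
    obtain ⟨n, hn⟩ : ∃ n : ℕ, b = a + ((n + 1 : ℕ) : ℤ) := ⟨(b - a - 1).toNat, by omega⟩
    rw [hn, zpow_add₀ hq0, map_mul, zpow_natCast, map_pow] at h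
    have h1 : A.valuation ((q : Kb) ^ a) ≠ 0 := (Valuation.ne_zero_iff _).2 (zpow_ne_zero _ hq0)
    have h2 : A.valuation (q : Kb) ^ (n + 1) = 1 := by
      have h3 : A.valuation ((q : Kb) ^ a) * 1 =
          A.valuation ((q : Kb) ^ a) * A.valuation (q : Kb) ^ (n + 1) := by
        rw [mul_one]; exact h
      exact (mul_left_cancel₀ h1 h3).symm
    have h4 : A.valuation (q : Kb) ^ (n + 1) < 1 := pow_lt_one₀ zero_le hvq (Nat.succ_ne_zero n)
    exact (ne_of_lt h4) h2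
  rcases lt_trichotomy a b with hab | hab | hab
  · exact absurd h (key a b hab)
  · exact hab
  · exact absurd h.symm (key b a hab)

variable (hq hqN) in
/-- the Atkin-Lehner involution as a ring endomorphism -/
def wX : FF (N * q) →+* FF (N * q) :=
  ((atkinLehner N q hq hqN : FF (N * q) ≃ₐ[Kb] FF (N * q)) : FF (N * q) →+* FF (N * q))

theorem wX_apply (u : FF (N * q)) : wX hq hqN u = atkinLehner N q hq hqN u := rfl

theorem wX_galF (σ : Kb ≃ₐ[ℚ] Kb) (x : FF (N * q)) :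
    wX hq hqN (galF (N * q) σ x) = galF (N * q) σ (wX hq hqN x) :=
  atkinLehner_arithmeticRingAut N q hq hqN σ x

/-- **K0-COROLLARY at every finite point**, from the consumer contract of [RING-X]. -/
theorem k0CorAt_of_slopeX (hA : A.LiesOverPrime q) (hS : SlopeXStatement N q hq hqN A B)
    (Q : Place (kA A) (FFb A N)) (hQ : IsFinitePt Q) :
    K0CorAt (N * q) (wX hq hqN) A q (IsGood A (N * q)) (ordAt Q)
      (ordAt Q (iota (kA A) B)) := by
  intro u hu hfix hdiv c₁ c₂ r₁ r₂ k hc₁ hc₂ hr₁ hr₂ hk hk'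
  rw [wX_apply] at hr₂
  have hq0 : (q : Kb) ≠ 0 := Nat.cast_ne_zero.mpr hq.ne_zero
  have hSC : ScaleStatement (N * q) A :=
    Fermat.Agent.T2.helper58.scaleStatement_bad N q hq hqN A hA
  have hfixI : IsFixI A (N * q) u := fun σ hσ => hfix σ hσ
  have hWu0 : atkinLehner N q hq hqN u ≠ 0 :=
    (map_ne_zero_iff _ (atkinLehner N q hq hqN).injective).mpr hu
  have hWfix : IsFixI A (N * q) (atkinLehner N q hq hqN u) :=
    Fermat.Agent.T3.helper98.isFixI_atkinLehner A hfixI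
  obtain ⟨a₁, ha₁⟩ := Fermat.Agent.T3.helper5.gaussIs_fixI hq hA hSC hu hfixI
  obtain ⟨a₂, ha₂⟩ := Fermat.Agent.T3.helper5.gaussIs_fixI hq hA hSC hWu0 hWfix
  obtain ⟨h1, hr₁0⟩ := hr₁.rhoQ_isGood hc₁
  obtain ⟨h2, hr₂0⟩ := hr₂.rhoQ_isGood hc₂
  have g1 : GaussIs A (u : LaurentSeries Kb) c₁ := ⟨hc₁, r₁, hr₁0, h1⟩
  have g2 : GaussIs A ((atkinLehner N q hq hqN u : FF (N * q)) : LaurentSeries Kb) c₂ :=
    ⟨hc₂, r₂, hr₂0, h2⟩
  have v1 : A.valuation c₁ = A.valuation ((q : Kb) ^ a₁) := g1.valuation_eq ha₁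
  have v2 : A.valuation c₂ = A.valuation ((q : Kb) ^ a₂) := g2.valuation_eq ha₂
  have hpk : ((q : Kb) ^ k) ≠ 0 := zpow_ne_zero _ hq0
  -- `k = a₂ - a₁`
  have vk : A.valuation (c₂ / (c₁ * (q : Kb) ^ k)) = 1 := by
    refine le_antisymm ((A.valuation_le_one_iff _).2 hk) ?_
    have h3 : A.valuation ((c₁ * (q : Kb) ^ k) / c₂) ≤ 1 := (A.valuation_le_one_iff _).2 hk'
    have h4 : (c₁ * (q : Kb) ^ k) / c₂ = (c₂ / (c₁ * (q : Kb) ^ k))⁻¹ := by
      rw [inv_div]
    rw [h4, map_inv₀] at h3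
    have h5 : A.valuation (c₂ / (c₁ * (q : Kb) ^ k)) ≠ 0 :=
      (Valuation.ne_zero_iff _).2 (div_ne_zero hc₂ (mul_ne_zero hc₁ hpk))
    exact (inv_le_one₀ (zero_lt_iff.2 h5)).1 h3
  have hkeq : k = a₂ - a₁ := by
    apply zpow_eq_of_valuation_eq hA hq0
    have hv1 : A.valuation c₁ ≠ 0 := (Valuation.ne_zero_iff _).2 hc₁
    have hvk : A.valuation ((q : Kb) ^ k) ≠ 0 := (Valuation.ne_zero_iff _).2 hpk
    have hva : A.valuation ((q : Kb) ^ a₁) ≠ 0 :=
      (Valuation.ne_zero_iff _).2 (zpow_ne_zero _ hq0)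
    rw [map_div₀, map_mul, div_eq_one_iff_eq (mul_ne_zero hv1 hvk)] at vk
    rw [zpow_sub₀ hq0, map_div₀, ← v2, ← v1, vk, mul_comm, mul_div_assoc, div_self hv1,
      mul_one]
  -- rescaling to `q ^ a₁`
  obtain ⟨e, he, h1'⟩ := rhoQ_rescale hc₁ (zpow_ne_zero a₁ hq0) v1 h1
  have hmem : r₁ ∈ FFb A N := by
    have := hr₁.mem_FFb
    rwa [Fermat.Agent.T2.helper96.FFb_mul_eq N A hq hA] at this
  have he0 : algebraMap (kA A) (LaurentSeries (kA A)) e ≠ 0 := by
    rw [Ne, map_eq_zero_iff _ (algebraMap (kA A) (LaurentSeries (kA A))).injective]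
    exact he
  obtain ⟨-, hS'⟩ := hS q hq.pos u hu hfixI (fun P _ => hdiv P) a₁ a₂ _
    (mul_ne_zero he0 hr₁0) h1' ha₂
  have key := hS' Q hQ
  rw [ordAt_const_mul Q he hmem] at key
  rw [hkeq]
  have e2 : ordAt Q r₁ - (a₂ - a₁) * ordAt Q (iota (kA A) B) =
      ordAt Q r₁ + (a₁ - a₂) * ordAt Q (iota (kA A) B) := by ring
  rw [e2]
  exact key

/-- **K1-VERSION at every finite point**, from the consumer contract of [RING-X]. -/
theorem k1CorAt_of_slopeX (hA : A.LiesOverPrime q) (hS : SlopeXStatement N q hq hqN A B)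
    (Q : Place (kA A) (FFb A N)) (hQ : IsFinitePt Q) :
    K1CorAt (N * q) (wX hq hqN) A q (IsGood A (N * q)) (ordAt Q)
      (ordAt Q (iota (kA A) B)) := by
  haveI : Fact q.Prime := ⟨hq⟩
  refine k1CorAt_of_k0CorAt hA (goodClass_isGood (N * q)) (wX hq hqN) wX_galF (ordAt Q) _ ?_
    (k0CorAt_of_slopeX hA hS Q hQ)
  intro r n hr
  have hmem : r ∈ FFb A N := by
    have := hr.mem_FFb
    rwa [Fermat.Agent.T2.helper96.FFb_mul_eq N A hq hA] at this
  exact ordAt_pow Q hmem n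

/-- the norm of a nonzero constant is nonzero -/
theorem normC_ne_zero (H : Subgroup (Kb ≃ₐ[ℚ] Kb))
    [((H ⊓ IA A).subgroupOf (IA A)).FiniteIndex] {c : Kb} (hc : c ≠ 0) :
    normC A H c ≠ 0 := by
  classical
  letI : Fintype (IA A ⧸ (H ⊓ IA A).subgroupOf (IA A)) :=
    Subgroup.fintypeQuotientOfFiniteIndex
  unfold normC normCoset
  rw [Finset.prod_ne_zero_iff]
  intro x _
  exact (map_ne_zero _).mpr hc

/-- `v (N c) = v (c ^ d)` -/
theorem valuation_normC (H : Subgroup (Kb ≃ₐ[ℚ] Kb))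
    [((H ⊓ IA A).subgroupOf (IA A)).FiniteIndex] {c : Kb} (hc : c ≠ 0) :
    A.valuation (normC A H c) = A.valuation (c ^ idx A H) := by
  have h1 : A.valuation (normC A H c / c ^ idx A H) ≤ 1 :=
    (A.valuation_le_one_iff _).2 (normCoset_const_div_mem hc)
  have h2 : A.valuation (c ^ idx A H / normC A H c) ≤ 1 :=
    (A.valuation_le_one_iff _).2 (normCoset_const_div_mem' hc)
  have hN : A.valuation (normC A H c) ≠ 0 := (Valuation.ne_zero_iff _).2 (normC_ne_zero H hc)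
  have hP : A.valuation (c ^ idx A H) ≠ 0 := (Valuation.ne_zero_iff _).2 (pow_ne_zero _ hc)
  rw [map_div₀, div_le_one₀ (zero_lt_iff.2 hP)] at h1
  rw [map_div₀, div_le_one₀ (zero_lt_iff.2 hN)] at h2
  exact le_antisymm h1 h2

/-- `x / y ∈ A` if `v x = v y` -/
theorem div_mem_of_valuation_eq {x y : Kb} (hy : y ≠ 0) (h : A.valuation x = A.valuation y) :
    x / y ∈ A := by
  rw [← A.valuation_le_one_iff, map_div₀, h, div_self ((Valuation.ne_zero_iff _).2 hy)]

/-- **K1-VERSION, EXISTS-form, both components**: for `u ≠ 0` fixed by `I_K1 = muFix q ⊓ I_A`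
with `q ∣ div u` and scalings `(c₁, r₁)` of `u`, `(c₂, r₂)` of `W u` there is `k : ℤ` with
`v ((c₂ / c₁) ^ (q - 1)) = v (q ^ k)` such that at EVERY finite closed point `Q`
`q ∣ ord_Q r₁ + k m_Q` and `q ∣ ord_Q r₂ - k m_Q`, `m_Q = ord_Q ν`. -/
theorem exists_k1Slope (hA : A.LiesOverPrime q) (hS : SlopeXStatement N q hq hqN A B)
    {u : FF (N * q)} (hu : u ≠ 0) (hfix : ∀ σ ∈ muFix q ⊓ IA A, galF (N * q) σ u = u)
    (hdiv : ∀ P : Place Kb (FF (N * q)), (q : ℤ) ∣ P.ord u)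
    {c₁ c₂ : Kb} {r₁ r₂ : LaurentSeries (kA A)} (hc₁ : c₁ ≠ 0) (hc₂ : c₂ ≠ 0)
    (h₁ : HasRed (IsGood A (N * q)) c₁ (u : LaurentSeries Kb) r₁)
    (h₂ : HasRed (IsGood A (N * q)) c₂
      ((atkinLehner N q hq hqN u : FF (N * q)) : LaurentSeries Kb) r₂) :
    ∃ k : ℤ, A.valuation ((c₂ / c₁) ^ (q - 1)) = A.valuation ((q : Kb) ^ k) ∧
      ∀ Q : Place (kA A) (FFb A N), IsFinitePt Q →
        (q : ℤ) ∣ ordAt Q r₁ + k * ordAt Q (iota (kA A) B) ∧
        (q : ℤ) ∣ ordAt Q r₂ - k * ordAt Q (iota (kA A) B) := by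
  haveI : Fact q.Prime := ⟨hq⟩
  haveI := finiteIndex_muFix (p := q) A hA
  have hidx : idx A (muFix q) = q - 1 := idx_muFix A hA
  have hq0 : (q : Kb) ≠ 0 := Nat.cast_ne_zero.mpr hq.ne_zero
  have hSC : ScaleStatement (N * q) A :=
    Fermat.Agent.T2.helper58.scaleStatement_bad N q hq hqN A hA
  -- the norm
  set U : FF (N * q) := normF A (muFix q) (N * q) u with hU
  have hU0 : U ≠ 0 := normF_ne_zero hu
  have hUfix : IsFixI A (N * q) U := fun σ hσ => galF_normF hfix hσ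
  have hWU0 : atkinLehner N q hq hqN U ≠ 0 :=
    (map_ne_zero_iff _ (atkinLehner N q hq hqN).injective).mpr hU0
  have hWUfix : IsFixI A (N * q) (atkinLehner N q hq hqN U) :=
    Fermat.Agent.T3.helper98.isFixI_atkinLehner A hUfix
  obtain ⟨a₁, ha₁⟩ := Fermat.Agent.T3.helper5.gaussIs_fixI hq hA hSC hU0 hUfix
  obtain ⟨a₂, ha₂⟩ := Fermat.Agent.T3.helper5.gaussIs_fixI hq hA hSC hWU0 hWUfix
  have hN₁ : normC A (muFix q) c₁ ≠ 0 := normC_ne_zero _ hc₁
  have hN₂ : normC A (muFix q) c₂ ≠ 0 := normC_ne_zero _ hc₂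
  have g1 : GaussIs A (U : LaurentSeries Kb) (normC A (muFix q) c₁) := by
    have h := (hasRed_normCoset (H := muFix q) (goodClass_isGood (A := A) (N * q)) h₁)
    rw [← coe_normF] at h
    obtain ⟨h3, h4⟩ := h.rhoQ_isGood hN₁
    exact ⟨hN₁, _, h4, h3⟩
  have g2 : GaussIs A ((atkinLehner N q hq hqN U : FF (N * q)) : LaurentSeries Kb)
      (normC A (muFix q) c₂) := by
    have h := (hasRed_normCoset (H := muFix q) (goodClass_isGood (A := A) (N * q)) h₂)
    rw [← coe_normF, ← wX_apply, ← map_normF (wX hq hqN) wX_galF] at h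
    obtain ⟨h3, h4⟩ := h.rhoQ_isGood hN₂
    exact ⟨hN₂, _, h4, h3⟩
  have v1 : A.valuation (c₁ ^ (q - 1)) = A.valuation ((q : Kb) ^ a₁) := by
    rw [← hidx, ← valuation_normC (muFix q) hc₁]
    exact g1.valuation_eq ha₁
  have v2 : A.valuation (c₂ ^ (q - 1)) = A.valuation ((q : Kb) ^ a₂) := by
    rw [← hidx, ← valuation_normC (muFix q) hc₂]
    exact g2.valuation_eq ha₂
  have vk : A.valuation ((c₂ / c₁) ^ (q - 1)) = A.valuation ((q : Kb) ^ (a₂ - a₁)) := by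
    rw [div_pow, map_div₀, v1, v2, zpow_sub₀ hq0, map_div₀]
  refine ⟨a₂ - a₁, vk, fun Q hQ => ⟨?_, ?_⟩⟩
  · -- first component
    have hk : (c₂ / c₁) ^ (q - 1) / (q : Kb) ^ (a₂ - a₁) ∈ A :=
      div_mem_of_valuation_eq (zpow_ne_zero _ hq0) vk
    have hk' : (q : Kb) ^ (a₂ - a₁) / (c₂ / c₁) ^ (q - 1) ∈ A :=
      div_mem_of_valuation_eq (pow_ne_zero _ (div_ne_zero hc₂ hc₁)) vk.symm
    exact k1CorAt_of_slopeX hA hS Q hQ u hu hfix hdiv c₁ c₂ r₁ r₂ (a₂ - a₁) hc₁ hc₂ h₁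
      (by rw [wX_apply]; exact h₂) hk hk'
  · -- second component: the same for `W u`
    have hWu0 : atkinLehner N q hq hqN u ≠ 0 :=
      (map_ne_zero_iff _ (atkinLehner N q hq hqN).injective).mpr hu
    have hWfix : ∀ σ ∈ muFix q ⊓ IA A,
        galF (N * q) σ (atkinLehner N q hq hqN u) = atkinLehner N q hq hqN u := by
      intro σ hσ
      have := wX_galF (hq := hq) (hqN := hqN) σ u
      rw [wX_apply, wX_apply, hfix σ hσ] at this
      exact this.symm
    have hWdiv : ∀ P : Place Kb (FF (N * q)), (q : ℤ) ∣ P.ord (atkinLehner N q hq hqN u) := by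
      intro P
      rw [Fermat.Agent.T2.helper22.ord_map]
      exact hdiv _
    have vk' : A.valuation ((c₁ / c₂) ^ (q - 1)) = A.valuation ((q : Kb) ^ (-(a₂ - a₁))) := by
      have e1 : (c₁ / c₂) ^ (q - 1) = ((c₂ / c₁) ^ (q - 1))⁻¹ := by
        rw [← inv_pow, inv_div]
      rw [e1, map_inv₀, vk, zpow_neg, map_inv₀]
    have hk : (c₁ / c₂) ^ (q - 1) / (q : Kb) ^ (-(a₂ - a₁)) ∈ A :=
      div_mem_of_valuation_eq (zpow_ne_zero _ hq0) vk'
    have hk' : (q : Kb) ^ (-(a₂ - a₁)) / (c₁ / c₂) ^ (q - 1) ∈ A :=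
      div_mem_of_valuation_eq (pow_ne_zero _ (div_ne_zero hc₁ hc₂)) vk'.symm
    have key := k1CorAt_of_slopeX hA hS Q hQ (atkinLehner N q hq hqN u) hWu0 hWfix hWdiv
      c₂ c₁ r₂ r₁ (-(a₂ - a₁)) hc₂ hc₁ h₂
      (by rw [wX_apply, atkinLehner_atkinLehner]; exact h₁) hk hk'
    have e2 : ordAt Q r₂ - (a₂ - a₁) * ordAt Q (iota (kA A) B) =
        ordAt Q r₂ + (-(a₂ - a₁)) * ordAt Q (iota (kA A) B) := by ring
    rw [e2]
    exact key

end Main

end Fermat.Agent.T8.helper65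

end
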