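/-
T8 [SLOPE], K1-VERSION on `X`, FRONTIER FORM (helper65): `helper29.SlopeXAll`, UNCONDITIONAL.

`slopeXAll : helper29.SlopeXAll` — at every bad pair `(4 M', p)` of a Frey package, for every
first-component reduction `ν` of a weight-one unit `b₀` and every closed point `Q` of the special
fibre where `j̄` is finite:
`helper65.K1CorAt (4 M' p) W A p (IsGood A (4 M' p)) (ordAt Q) (Q.ord ν)`.

From `helper5.slopeX` (`helper16.SlopeXStatement`, unconditional) and
`helper65.k1CorAt_of_slopeX` (the norm from `K1` to `K0`).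
-/
import Mathlib
import Fermat.Agent.T8.helper65_K1SlopeX
import Fermat.Agent.T8.helper5_SlopeX
import Fermat.Agent.T8.helper29_ConclAsm

set_option autoImplicit false
set_option linter.unusedSectionVars false
set_option linter.unusedVariables false
set_option linter.style.haveILetI false
set_option linter.style.longLine false

noncomputable section

namespace Fermat.Agent.T8.helper65

open HahnSeries IntermediateField AlgebraicCurve ModularCurve
open Fermat.Agent.S18.helper19 Fermat.Agent.P2.helper29 Fermat.Agent.P2.helper93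
open Fermat.Agent.T2.helper36
open Fermat.Agent.P2.helper66 (iota)
open Fermat.Agent.T3.helper36 (RhoQ GaussIs)
open Fermat.Agent.T3.helper16 (IsUnit0)
open Fermat.Agent.T8.helper16 (ordAt IsFinitePt SlopeXStatement)
open Fermat.Agent.T8.helper54 (IsRed1)

section Nu

variable {N q : ℕ} [NeZero N] [NeZero q] {A : ValuationSubring Kb} {hq : q.Prime}
  {hqN : ¬ q ∣ N} {b0 : FF (N * q)} {B : PowerSeries ℤ} {ε : ℤ}

/-- the first reduction of the unit `b₀` is `iota B` -/
theorem rhoQ_unit0 (h : IsUnit0 hq hqN b0 B ε) :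
    RhoQ A (algebraMap Kb (LaurentSeries Kb) (1 : Kb)⁻¹ * (b0 : LaurentSeries Kb))
      (iota (kA A) B) := by
  rw [inv_one, map_one, one_mul, h.coe_eq, ← Fermat.Agent.T3.helper16.incl_iota,
    ← Fermat.Agent.T3.helper16.red_iota A B]
  exact Fermat.Agent.T3.helper36.rhoQ_incl _

/-- every first-component reduction `ν` of `b₀` has the orders of `iota B` -/
theorem ord_nu_eq (h : IsUnit0 hq hqN b0 B ε) {ν : FFb A N} (hν : IsRed1 A N q b0 ν)
    (Q : Place (kA A) (FFb A N)) : ordAt Q (iota (kA A) B) = Q.ord ν := by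
  obtain ⟨hν0, κ, hκ, hρ⟩ := hν
  have hν0' : (ν : LaurentSeries (kA A)) ≠ 0 := fun h0 => hν0 (Subtype.ext h0)
  obtain ⟨c, hc, e⟩ := Fermat.Agent.T8.helper29.rhoQ_unique_const hκ one_ne_zero hν0'
    (Fermat.Agent.T8.helper63.nu_ne_zero h A) hρ (rhoQ_unit0 h)
  rw [e, ordAt_const_mul Q hc ν.2, Fermat.Agent.T8.helper16.ordAt_of_mem Q ν.2]

end Nu

/-- **[SLOPE] K1-version on `X`, frontier form: `helper29.SlopeXAll`, UNCONDITIONAL.** -/
theorem slopeXAll : Fermat.Agent.T8.helper29.SlopeXAll := by
  intro P M' _ hpN A hA b0 B ε hb ν hν Q hQ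
  have hS := Fermat.Agent.T8.helper5.slopeX hb hA (Or.inl (Dvd.intro M' rfl))
  have h1 := k1CorAt_of_slopeX hA hS Q hQ
  rw [ord_nu_eq hb hν Q] at h1
  exact h1

end Fermat.Agent.T8.helper65

end
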