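import Mathlib

/-!
# T8 (row 38, at risk), helper33: abstract half of [SHEETS] - the etale point lemma

Mathlib only.  Setting: `R` a noetherian local domain with maximal ideal `𝔪`, `S = R[t]` a
domain, `f ∈ R[X]` monic with `f(t) = 0` and `1, t, …, t ^ (deg f - 1)` linearly independent
over `R` (`IsMonogenic t f`), `a : R` a SIMPLE root of `f` modulo `𝔪`
(`f(a) ∈ 𝔪`, `f'(a) ∉ 𝔪`), `M = ptIdeal t a = (t - a) + 𝔪 S`, `T` a localisation of `S` at `M`.

* `IsMonogenic.residueAt`, `IsMonogenic.ker_residueAt`, `IsMonogenic.ptIdeal_isMaximal`,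
  `IsMonogenic.comap_ptIdeal` : `S / M = R / 𝔪`, `M` is maximal, `M ∩ R = 𝔪`;
* `IsMonogenic.isNoetherianRing_loc`, `isDomain_loc`, `isLocalRing_loc` : `T` is a noetherian
  local domain;
* `IsMonogenic.maximalIdeal_loc` : `maximalIdeal T = 𝔪 T` (unramified);
* `IsMonogenic.quotient_loc` : for every `y ∈ 𝔪` with `R ⧸ (y)` a domain and a principal ideal
  ring, `T ⧸ (y)` is a domain and a principal ideal ring.  These are the hypotheses of
  `helper6.ufm_of_quotient`, so `T` is a UFD in which `y` is a prime element.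

Also the DVR criterion: a noetherian local ring whose maximal ideal is generated by an element
which is zero or a non-zero-divisor is a domain and a principal ideal ring.
-/

set_option autoImplicit false
set_option linter.unusedSectionVars false
set_option linter.style.haveILetI false
set_option linter.unnecessarySimpa false

namespace Fermat.Agent.T8.helper33

open Polynomial IsLocalRing

section DVRCrit

variable {B : Type*} [CommRing B] [IsNoetherianRing B] [IsLocalRing B]

/-- In a noetherian local ring whose maximal ideal is generated by `ϖ`, every nonzero element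
is a unit times a power of `ϖ` (Krull intersection). -/
theorem exists_unit_mul_pow_of_maximalIdeal_eq_span {ϖ : B}
    (hm : maximalIdeal B = Ideal.span {ϖ}) {x : B} (hx : x ≠ 0) :
    ∃ (n : ℕ) (u : Bˣ), x = u * ϖ ^ n := by
  classical
  have hinf : ⨅ i : ℕ, maximalIdeal B ^ i = ⊥ :=
    Ideal.iInf_pow_eq_bot_of_isLocalRing (maximalIdeal B) Ideal.IsPrime.ne_top'
  have hex : ∃ n : ℕ, x ∉ maximalIdeal B ^ n := by
    by_contra hcon
    push Not at hcon
    have : x ∈ ⨅ i : ℕ, maximalIdeal B ^ i := by
      rw [Ideal.mem_iInf]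
      exact hcon
    rw [hinf] at this
    exact hx (by simpa using this)
  have hn0 : Nat.find hex ≠ 0 := by
    intro h0
    have := Nat.find_spec hex
    rw [h0, pow_zero] at this
    exact this (by simp)
  obtain ⟨k, hk⟩ := Nat.exists_eq_succ_of_ne_zero hn0
  have hmem : x ∈ maximalIdeal B ^ k := by
    by_contra hcon
    have := Nat.find_min' hex hcon
    omega
  have hnot : x ∉ maximalIdeal B ^ (k + 1) := by
    have := Nat.find_spec hex
    rwa [hk] at this
  rw [hm, Ideal.span_singleton_pow, Ideal.mem_span_singleton'] at hmem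
  obtain ⟨u, hu⟩ := hmem
  have hunit : IsUnit u := by
    by_contra hcon
    have humem : u ∈ maximalIdeal B := (IsLocalRing.mem_maximalIdeal u).mpr hcon
    apply hnot
    rw [pow_succ', ← hu]
    exact Ideal.mul_mem_mul humem (by
      rw [hm, Ideal.span_singleton_pow]
      exact Ideal.mem_span_singleton_self _)
  exact ⟨k, hunit.unit, by rw [← hu]; rfl⟩

/-- **DVR criterion.**  A noetherian local ring whose maximal ideal is generated by an element
which is zero or a non-zero-divisor is a domain. -/
theorem isDomain_of_maximalIdeal_eq_span {ϖ : B}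
    (hm : maximalIdeal B = Ideal.span {ϖ})
    (hϖ : ϖ = 0 ∨ ∀ x : B, ϖ * x = 0 → x = 0) : IsDomain B := by
  rcases hϖ with h0 | hnzd
  · have hbot : maximalIdeal B = ⊥ := by rw [hm, h0]; simp
    exact (IsLocalRing.isField_iff_maximalIdeal_eq.mpr hbot).isDomain
  · have hpow : ∀ n : ℕ, ∀ x : B, ϖ ^ n * x = 0 → x = 0 := by
      intro n
      induction n with
      | zero => intro x hx; simpa using hx
      | succ n ih =>
        intro x hx
        rw [pow_succ, mul_assoc] at hx
        exact hnzd x (ih _ hx)
    have : NoZeroDivisors B := ⟨fun {a b} hab => by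
      by_contra hcon
      push Not at hcon
      obtain ⟨n, u, hu⟩ := exists_unit_mul_pow_of_maximalIdeal_eq_span hm hcon.1
      obtain ⟨m, v, hv⟩ := exists_unit_mul_pow_of_maximalIdeal_eq_span hm hcon.2
      have h1 : ϖ ^ (n + m) * ((u : B) * v) = 0 := by rw [← hab, hu, hv]; ring
      have h2 := hpow _ _ h1
      exact (u * v).ne_zero (by rw [Units.val_mul]; exact h2)⟩
    exact NoZeroDivisors.to_isDomain B

/-- **DVR criterion.**  Under the same hypotheses the ring is a principal ideal ring. -/
theorem isPrincipalIdealRing_of_maximalIdeal_eq_span {ϖ : B}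
    (hm : maximalIdeal B = Ideal.span {ϖ})
    (hϖ : ϖ = 0 ∨ ∀ x : B, ϖ * x = 0 → x = 0) : IsPrincipalIdealRing B := by
  have : IsDomain B := isDomain_of_maximalIdeal_eq_span hm hϖ
  have hprin : (maximalIdeal B).IsPrincipal := ⟨⟨ϖ, by rw [hm]⟩⟩
  exact ((tfae_of_isNoetherianRing_of_isLocalRing_of_isDomain (R := B)).out 0 4).mpr hprin

end DVRCrit

section Monogenic

variable {R : Type*} [CommRing R] [IsDomain R]
variable {S : Type*} [CommRing S] [IsDomain S] [Algebra R S]

/-- `S = R[t]` with `t` a root of the monic polynomial `f`, and `1, t, …, t ^ (deg f - 1)`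
linearly independent over `R` (so `f` is the minimal polynomial of `t` and `S` is free over `R`). -/
structure IsMonogenic (t : S) (f : R[X]) : Prop where
  gen : Algebra.adjoin R {t} = ⊤
  monic : f.Monic
  root : aeval t f = 0
  free : ∀ g : R[X], g.degree < f.degree → aeval t g = 0 → g = 0

namespace IsMonogenic

variable {t : S} {f : R[X]}

theorem aeval_surjective (h : IsMonogenic t f) :
    Function.Surjective (aeval t : R[X] →ₐ[R] S) := by
  intro s
  have hs : s ∈ Algebra.adjoin R {t} := by rw [h.gen]; exact Algebra.mem_top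
  rw [Algebra.adjoin_singleton_eq_range_aeval] at hs
  exact hs

theorem exists_rep (h : IsMonogenic t f) (s : S) :
    ∃ g : R[X], g.degree < f.degree ∧ aeval t g = s := by
  obtain ⟨g0, rfl⟩ := h.aeval_surjective s
  refine ⟨g0 %ₘ f, degree_modByMonic_lt _ h.monic, ?_⟩
  have := congrArg (aeval t) (modByMonic_add_div g0 f)
  rw [map_add, map_mul, h.root, zero_mul, add_zero] at this
  exact this

theorem dvd_of_aeval_eq_zero (h : IsMonogenic t f) {g : R[X]} (hg : aeval t g = 0) :
    f ∣ g := by
  have h1 := congrArg (aeval t) (modByMonic_add_div g f)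
  rw [map_add, map_mul, h.root, zero_mul, add_zero, hg] at h1
  have h2 := h.free _ (degree_modByMonic_lt _ h.monic) h1
  exact (modByMonic_eq_zero_iff_dvd h.monic).mp h2

theorem one_le_natDegree (h : IsMonogenic t f) : 1 ≤ f.natDegree := by
  by_contra hcon
  have h0 : f.natDegree = 0 := by omega
  have h1 : f = 1 := by
    have := h.monic
    exact (Polynomial.Monic.natDegree_eq_zero this).mp h0
  have := h.root
  rw [h1, map_one] at this
  exact one_ne_zero this

theorem algebraMap_injective (h : IsMonogenic t f) :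
    Function.Injective (algebraMap R S) := by
  rw [injective_iff_map_eq_zero]
  intro r hr
  have h1 : aeval t (C r) = 0 := by rw [aeval_C]; exact hr
  have hdeg : (C r : R[X]).degree < f.degree := by
    refine lt_of_le_of_lt degree_C_le ?_
    rw [degree_eq_natDegree h.monic.ne_zero]
    exact_mod_cast h.one_le_natDegree
  have := h.free _ hdeg h1
  exact C_eq_zero.mp this

end IsMonogenic

end Monogenic

section Point

variable {R : Type*} [CommRing R] [IsDomain R] [IsLocalRing R]
variable {S : Type*} [CommRing S] [IsDomain S] [Algebra R S]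

/-- The ideal `(t - a) + 𝔪 S` of `S`. -/
def ptIdeal (t : S) (a : R) : Ideal S :=
  Ideal.span {t - algebraMap R S a} ⊔ (maximalIdeal R).map (algebraMap R S)

theorem sub_mem_ptIdeal (t : S) (a : R) : t - algebraMap R S a ∈ ptIdeal t a :=
  Ideal.mem_sup_left (Ideal.mem_span_singleton_self _)

theorem algebraMap_mem_ptIdeal (t : S) (a : R) {r : R} (hr : r ∈ maximalIdeal R) :
    algebraMap R S r ∈ ptIdeal t a :=
  Ideal.mem_sup_right (Ideal.mem_map_of_mem _ hr)

/-- `g(t) - g(a) ∈ (t - a)`. -/
theorem aeval_sub_eval_mem_span (t : S) (a : R) (g : R[X]) :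
    aeval t g - algebraMap R S (g.eval a) ∈ Ideal.span {t - algebraMap R S a} := by
  have h1 := congrArg (aeval t) (modByMonic_add_div g (X - C a))
  rw [modByMonic_X_sub_C_eq_C_eval, map_add, map_mul, aeval_C, map_sub, aeval_X, aeval_C] at h1
  rw [← h1, add_sub_cancel_left]
  exact Ideal.mul_mem_right _ _ (Ideal.mem_span_singleton_self _)

namespace IsMonogenic

variable {t : S} {f : R[X]}

/-- The evaluation `S → k`, `t ↦ a mod 𝔪`, at a root `a` of `f` modulo `𝔪`. -/
noncomputable def residueAt (h : IsMonogenic t f) (a : R) (ha : f.eval a ∈ maximalIdeal R) :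
    S →+* ResidueField R :=
  RingHom.liftOfSurjective ((aeval t : R[X] →ₐ[R] S) : R[X] →+* S) h.aeval_surjective
    ⟨(residue R).comp (evalRingHom a), by
      intro g hg
      rw [RingHom.mem_ker] at hg ⊢
      obtain ⟨q, rfl⟩ := h.dvd_of_aeval_eq_zero hg
      rw [map_mul, RingHom.comp_apply, coe_evalRingHom, (residue_eq_zero_iff _).mpr ha, zero_mul]⟩

theorem residueAt_aeval (h : IsMonogenic t f) (a : R) (ha : f.eval a ∈ maximalIdeal R)
    (g : R[X]) : h.residueAt a ha (aeval t g) = residue R (g.eval a) :=
  RingHom.liftOfSurjective_comp_apply _ h.aeval_surjective _ g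

theorem residueAt_algebraMap (h : IsMonogenic t f) (a : R) (ha : f.eval a ∈ maximalIdeal R)
    (r : R) : h.residueAt a ha (algebraMap R S r) = residue R r := by
  have := h.residueAt_aeval a ha (C r)
  rwa [aeval_C, eval_C] at this

theorem residueAt_gen (h : IsMonogenic t f) (a : R) (ha : f.eval a ∈ maximalIdeal R) :
    h.residueAt a ha t = residue R a := by
  have := h.residueAt_aeval a ha X
  rwa [aeval_X, eval_X] at this

theorem residueAt_surjective (h : IsMonogenic t f) (a : R) (ha : f.eval a ∈ maximalIdeal R) :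
    Function.Surjective (h.residueAt a ha) := by
  intro x
  obtain ⟨r, rfl⟩ := residue_surjective x
  exact ⟨algebraMap R S r, h.residueAt_algebraMap a ha r⟩

theorem ker_residueAt (h : IsMonogenic t f) (a : R) (ha : f.eval a ∈ maximalIdeal R) :
    RingHom.ker (h.residueAt a ha) = ptIdeal t a := by
  apply le_antisymm
  · intro s hs
    rw [RingHom.mem_ker] at hs
    obtain ⟨g, rfl⟩ := h.aeval_surjective s
    rw [h.residueAt_aeval, residue_eq_zero_iff] at hs
    have h1 := aeval_sub_eval_mem_span t a g
    have h2 : aeval t g = (aeval t g - algebraMap R S (g.eval a)) + algebraMap R S (g.eval a) := by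
      ring
    rw [h2]
    exact Ideal.add_mem _ (Ideal.mem_sup_left h1) (algebraMap_mem_ptIdeal t a hs)
  · unfold ptIdeal
    rw [sup_le_iff]
    constructor
    · rw [Ideal.span_singleton_le_iff_mem, RingHom.mem_ker, map_sub, h.residueAt_gen,
        h.residueAt_algebraMap, sub_self]
    · rw [Ideal.map_le_iff_le_comap]
      intro r hr
      rw [Ideal.mem_comap, RingHom.mem_ker, h.residueAt_algebraMap, residue_eq_zero_iff]
      exact hr

/-- **(1)** `(t - a) + 𝔪 S` is a maximal ideal of `S`. -/
theorem ptIdeal_isMaximal (h : IsMonogenic t f) (a : R) (ha : f.eval a ∈ maximalIdeal R) :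
    (ptIdeal t a).IsMaximal := by
  rw [← h.ker_residueAt a ha]
  exact RingHom.ker_isMaximal_of_surjective _ (h.residueAt_surjective a ha)

theorem mem_ptIdeal_iff (h : IsMonogenic t f) (a : R) (ha : f.eval a ∈ maximalIdeal R)
    (g : R[X]) : aeval t g ∈ ptIdeal t a ↔ g.eval a ∈ maximalIdeal R := by
  rw [← h.ker_residueAt a ha, RingHom.mem_ker, h.residueAt_aeval, residue_eq_zero_iff]

theorem algebraMap_mem_ptIdeal_iff (h : IsMonogenic t f) (a : R)
    (ha : f.eval a ∈ maximalIdeal R) (r : R) :
    algebraMap R S r ∈ ptIdeal t a ↔ r ∈ maximalIdeal R := by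
  rw [← h.ker_residueAt a ha, RingHom.mem_ker, h.residueAt_algebraMap, residue_eq_zero_iff]

/-- `M ∩ R = 𝔪`. -/
theorem comap_ptIdeal (h : IsMonogenic t f) (a : R) (ha : f.eval a ∈ maximalIdeal R) :
    (ptIdeal t a).comap (algebraMap R S) = maximalIdeal R := by
  ext r
  rw [Ideal.mem_comap, h.algebraMap_mem_ptIdeal_iff a ha]

end IsMonogenic

end Point

section Quot

variable {T : Type*} [CommRing T] [IsLocalRing T]

/-- The maximal ideal of the quotient of a local ring by a principal ideal `(y)`, `y ∈ 𝔪`,
when `𝔪 = (y, π)`: it is generated by the class of `π`. -/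
theorem maximalIdeal_quotient_eq_span {y π : T} (hy : y ∈ maximalIdeal T)
    (hm : maximalIdeal T = Ideal.span {y, π})
    [IsLocalRing (T ⧸ Ideal.span {y})] :
    maximalIdeal (T ⧸ Ideal.span {y}) = Ideal.span {Ideal.Quotient.mk (Ideal.span {y}) π} := by
  have hπ : π ∈ maximalIdeal T := by
    rw [hm]; exact Ideal.subset_span (by simp)
  have hle : Ideal.span {y} ≤ maximalIdeal T := by
    rw [Ideal.span_singleton_le_iff_mem]; exact hy
  apply le_antisymm
  · intro b hb
    obtain ⟨x, rfl⟩ := Ideal.Quotient.mk_surjective b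
    have hx : x ∈ maximalIdeal T := by
      rw [IsLocalRing.mem_maximalIdeal, mem_nonunits_iff]
      intro hu
      exact (IsLocalRing.mem_maximalIdeal _).mp hb (hu.map _)
    rw [hm, Ideal.mem_span_pair] at hx
    obtain ⟨c, d, rfl⟩ := hx
    rw [map_add, map_mul, map_mul]
    have : Ideal.Quotient.mk (Ideal.span {y}) y = 0 :=
      Ideal.Quotient.eq_zero_iff_mem.mpr (Ideal.mem_span_singleton_self y)
    rw [this, mul_zero, zero_add]
    exact Ideal.mul_mem_left _ _ (Ideal.mem_span_singleton_self _)
  · rw [Ideal.span_singleton_le_iff_mem, IsLocalRing.mem_maximalIdeal, mem_nonunits_iff]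
    intro hu
    obtain ⟨b, hb⟩ := hu.exists_right_inv
    obtain ⟨x, rfl⟩ := Ideal.Quotient.mk_surjective b
    rw [← map_mul, ← map_one (Ideal.Quotient.mk (Ideal.span {y})), Ideal.Quotient.eq] at hb
    have h1 : π * x - 1 ∈ maximalIdeal T := hle hb
    have h2 : π * x ∈ maximalIdeal T := Ideal.mul_mem_right _ _ hπ
    have h3 : (1 : T) ∈ maximalIdeal T := by
      have := Ideal.sub_mem _ h2 h1
      simpa using this
    exact (Ideal.ne_top_iff_one _).mp Ideal.IsPrime.ne_top' h3

end Quot

section SimpleRoot

variable {R : Type*} [CommRing R] [IsDomain R] [IsLocalRing R]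
variable {S : Type*} [CommRing S] [IsDomain S] [Algebra R S]

theorem eval_divByMonic_X_sub_C (f : R[X]) (a : R) :
    (f /ₘ (X - C a)).eval a = f.derivative.eval a := by
  have hf := modByMonic_add_div f (X - C a)
  rw [modByMonic_X_sub_C_eq_C_eval] at hf
  have h1 := congrArg (fun p : R[X] => (derivative p).eval a) hf
  simp only [derivative_add, derivative_C, derivative_mul, derivative_sub, derivative_X,
    zero_add, sub_zero, one_mul, eval_add, eval_mul, eval_sub, eval_X, eval_C, sub_self,
    zero_mul, add_zero] at h1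
  exact h1

namespace IsMonogenic

variable {t : S} {f : R[X]}

/-- `(t - a) * g(t) = - f(a)` for the cofactor `g = f / (X - a)`. -/
theorem sub_mul_cofactor (h : IsMonogenic t f) (a : R) :
    (t - algebraMap R S a) * aeval t (f /ₘ (X - C a)) = - algebraMap R S (f.eval a) := by
  have hf := congrArg (aeval t) (modByMonic_add_div f (X - C a))
  rw [modByMonic_X_sub_C_eq_C_eval, map_add, map_mul, aeval_C, map_sub, aeval_X, aeval_C,
    h.root] at hf
  linear_combination hf

/-- At a simple root `a` of `f` modulo `𝔪`, the cofactor `g(t)` lies outside `(t - a) + 𝔪 S`. -/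
theorem cofactor_not_mem (h : IsMonogenic t f) (a : R) (ha : f.eval a ∈ maximalIdeal R)
    (ha' : f.derivative.eval a ∉ maximalIdeal R) :
    aeval t (f /ₘ (X - C a)) ∉ ptIdeal t a := by
  rw [h.mem_ptIdeal_iff a ha, eval_divByMonic_X_sub_C]
  exact ha'

end IsMonogenic

end SimpleRoot

section Local

variable {R : Type*} [CommRing R] [IsDomain R] [IsLocalRing R]
variable {S : Type*} [CommRing S] [IsDomain S] [Algebra R S]
variable {t : S} {f : R[X]} {a : R}
variable (T : Type*) [CommRing T] [Algebra S T] [Algebra R T] [IsScalarTower R S T]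
variable [hP : (ptIdeal t a).IsPrime] [IsLocalization.AtPrime T (ptIdeal t a)]

namespace IsMonogenic

theorem isNoetherianRing_top [IsNoetherianRing R] (h : IsMonogenic t f) : IsNoetherianRing S := by
  haveI : Algebra.FiniteType R S := ⟨⟨{t}, by rw [Finset.coe_singleton]; exact h.gen⟩⟩
  exact Algebra.FiniteType.isNoetherianRing R S

include hP in
/-- **(2a)** the local ring `T = S_M` is noetherian. -/
theorem isNoetherianRing_loc [IsNoetherianRing R] (h : IsMonogenic t f) :
    IsNoetherianRing T :=
  IsLocalization.isNoetherianRing (ptIdeal t a).primeCompl T h.isNoetherianRing_top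

include hP in
/-- **(2b)** `T = S_M` is a domain. -/
theorem isDomain_loc : IsDomain T :=
  IsLocalization.isDomain_of_le_nonZeroDivisors T
    (Ideal.primeCompl_le_nonZeroDivisors (ptIdeal t a))

include hP in
/-- **(2c)** `T = S_M` is local. -/
theorem isLocalRing_loc : IsLocalRing T :=
  IsLocalization.AtPrime.isLocalRing T (ptIdeal t a)

include hP in
theorem algebraMap_loc_injective : Function.Injective (algebraMap S T) :=
  IsLocalization.injective T (Ideal.primeCompl_le_nonZeroDivisors (ptIdeal t a))

/-- **(2d)** `T = S_M` is unramified over `R`: its maximal ideal is `𝔪 T`. -/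
theorem maximalIdeal_loc [IsLocalRing T] (h : IsMonogenic t f)
    (ha : f.eval a ∈ maximalIdeal R) (ha' : f.derivative.eval a ∉ maximalIdeal R) :
    maximalIdeal T = (maximalIdeal R).map (algebraMap R T) := by
  have hmax : maximalIdeal T = (ptIdeal t a).map (algebraMap S T) :=
    (IsLocalization.AtPrime.map_eq_maximalIdeal (ptIdeal t a) T).symm
  have htower : ∀ r : R, algebraMap R T r = algebraMap S T (algebraMap R S r) := fun r =>
    IsScalarTower.algebraMap_apply R S T r
  apply le_antisymm
  · rw [hmax, Ideal.map_le_iff_le_comap]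
    unfold ptIdeal
    rw [sup_le_iff]
    constructor
    · rw [Ideal.span_singleton_le_iff_mem, Ideal.mem_comap]
      -- `t - a = - f(a) / g(t)`
      have hu : IsUnit (algebraMap S T (aeval t (f /ₘ (X - C a)))) :=
        IsLocalization.map_units T
          (⟨_, h.cofactor_not_mem a ha ha'⟩ : (ptIdeal t a).primeCompl)
      obtain ⟨u, hu⟩ := hu
      have h1 := congrArg (algebraMap S T) (h.sub_mul_cofactor a)
      rw [map_mul, map_neg, ← hu, ← htower] at h1
      have h2 : algebraMap S T (t - algebraMap R S a) =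
          algebraMap R T (- f.eval a) * ((u⁻¹ : Tˣ) : T) := by
        rw [map_neg, ← h1, mul_assoc, Units.mul_inv, mul_one]
      rw [h2]
      exact Ideal.mul_mem_right _ _ (Ideal.mem_map_of_mem _ (neg_mem ha))
    · rw [Ideal.map_le_iff_le_comap]
      intro r hr
      rw [Ideal.mem_comap, Ideal.mem_comap, ← htower]
      exact Ideal.mem_map_of_mem _ hr
  · rw [Ideal.map_le_iff_le_comap]
    intro r hr
    rw [Ideal.mem_comap, htower, hmax]
    exact Ideal.mem_map_of_mem _ (algebraMap_mem_ptIdeal t a hr)

end IsMonogenic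

end Local

section Main

variable {R : Type*} [CommRing R] [IsDomain R] [IsLocalRing R]
variable {S : Type*} [CommRing S] [IsDomain S] [Algebra R S]

/-- If `R ⧸ (y)` is a principal ideal ring, `y ∈ 𝔪`, then `𝔪 = (y, π)` for some `π`. -/
theorem exists_maximalIdeal_eq_span_pair {y : R} (hy : y ∈ maximalIdeal R)
    [IsPrincipalIdealRing (R ⧸ Ideal.span {y})] :
    ∃ π : R, π ∈ maximalIdeal R ∧ maximalIdeal R = Ideal.span {y, π} := by
  have hsurj : Function.Surjective (Ideal.Quotient.mk (Ideal.span {y})) :=
    Ideal.Quotient.mk_surjective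
  obtain ⟨g, hg⟩ := (IsPrincipalIdealRing.principal
    ((maximalIdeal R).map (Ideal.Quotient.mk (Ideal.span {y})))).principal
  have hgmem : g ∈ (maximalIdeal R).map (Ideal.Quotient.mk (Ideal.span {y})) := by
    rw [hg]; exact Submodule.mem_span_singleton_self g
  obtain ⟨π, hπ, rfl⟩ := (Ideal.mem_map_iff_of_surjective _ hsurj).mp hgmem
  refine ⟨π, hπ, le_antisymm ?_ ?_⟩
  · intro x hx
    have hx' : Ideal.Quotient.mk (Ideal.span {y}) x ∈
        (maximalIdeal R).map (Ideal.Quotient.mk (Ideal.span {y})) := Ideal.mem_map_of_mem _ hx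
    rw [hg] at hx'
    obtain ⟨c', hc'⟩ := (Ideal.mem_span_singleton' (x := Ideal.Quotient.mk (Ideal.span {y}) x)
      (y := Ideal.Quotient.mk (Ideal.span {y}) π)).mp hx'
    obtain ⟨c, rfl⟩ := hsurj c'
    rw [← map_mul, Ideal.Quotient.eq, Ideal.mem_span_singleton'] at hc'
    obtain ⟨d, hd⟩ := hc'
    rw [Ideal.mem_span_pair]
    exact ⟨-d, c, by linear_combination -hd⟩
  · rw [Ideal.span_le]
    intro x hx
    rcases hx with rfl | hx
    · exact hy
    · rw [Set.mem_singleton_iff] at hx
      rw [hx]; exact hπ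

namespace IsMonogenic

variable {t : S} {f : R[X]}

/-- **freeness ⇒ regular sequence**: if `(y)` is prime in `R` and `π ∉ (y)`, then `π` is a
non-zero-divisor on `S / y S`. -/
theorem nzd_top (h : IsMonogenic t f) {y π : R} (hyp : (Ideal.span {y}).IsPrime)
    (hπ : π ∉ Ideal.span {y}) {s s' : S}
    (hs : algebraMap R S π * s = algebraMap R S y * s') :
    ∃ s'' : S, s = algebraMap R S y * s'' := by
  obtain ⟨g, hgdeg, rfl⟩ := h.exists_rep s
  obtain ⟨g', hg'deg, rfl⟩ := h.exists_rep s'
  have h0 : aeval t (π • g - y • g') = 0 := by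
    rw [map_sub, map_smul, map_smul, Algebra.smul_def, Algebra.smul_def, hs, sub_self]
  have hdeg : (π • g - y • g').degree < f.degree := by
    refine lt_of_le_of_lt (degree_sub_le _ _) (max_lt ?_ ?_)
    · exact lt_of_le_of_lt (degree_smul_le _ _) hgdeg
    · exact lt_of_le_of_lt (degree_smul_le _ _) hg'deg
  have h1 : π • g = y • g' := sub_eq_zero.mp (h.free _ hdeg h0)
  have h2 : C y ∣ g := by
    rw [C_dvd_iff_dvd_coeff]
    intro i
    have hc := congrArg (fun p : R[X] => p.coeff i) h1
    simp only [coeff_smul, smul_eq_mul] at hc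
    have hmem : π * g.coeff i ∈ Ideal.span {y} := by
      rw [hc]; exact Ideal.mul_mem_right _ _ (Ideal.mem_span_singleton_self y)
    rcases hyp.mem_or_mem hmem with h3 | h3
    · exact absurd h3 hπ
    · exact Ideal.mem_span_singleton.mp h3
  obtain ⟨q, hq⟩ := h2
  exact ⟨aeval t q, by rw [hq, map_mul, aeval_C]⟩

end IsMonogenic

end Main

section MainLoc

variable {R : Type*} [CommRing R] [IsDomain R] [IsLocalRing R]
variable {S : Type*} [CommRing S] [IsDomain S] [Algebra R S]
variable {t : S} {f : R[X]} {a : R}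
variable (T : Type*) [CommRing T] [Algebra S T] [Algebra R T] [IsScalarTower R S T]
variable [hP : (ptIdeal t a).IsPrime] [IsLocalization.AtPrime T (ptIdeal t a)]

namespace IsMonogenic

include hP in
/-- `π` is a non-zero-divisor on `T / y T`. -/
theorem nzd_loc (h : IsMonogenic t f) {y π : R} (hyp : (Ideal.span {y}).IsPrime)
    (hπ : π ∉ Ideal.span {y}) {x x' : T}
    (hx : algebraMap R T π * x = algebraMap R T y * x') :
    ∃ x'' : T, x = algebraMap R T y * x'' := by
  have htower : ∀ r : R, algebraMap R T r = algebraMap S T (algebraMap R S r) := fun r =>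
    IsScalarTower.algebraMap_apply R S T r
  have hinj : Function.Injective (algebraMap S T) := algebraMap_loc_injective (t := t) (a := a) T
  obtain ⟨⟨s, u⟩, hsu⟩ := IsLocalization.surj (ptIdeal t a).primeCompl x
  obtain ⟨⟨s', u'⟩, hsu'⟩ := IsLocalization.surj (ptIdeal t a).primeCompl x'
  simp only at hsu hsu'
  have h1 : algebraMap R S π * (s * u') = algebraMap R S y * (s' * u) := by
    apply hinj
    rw [map_mul, map_mul, map_mul, map_mul, ← htower, ← htower, ← hsu, ← hsu']
    linear_combination (algebraMap S T (u : S)) * (algebraMap S T (u' : S)) * hx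
  obtain ⟨s'', hs''⟩ := h.nzd_top hyp hπ h1
  have hu : IsUnit (algebraMap S T ((u * u' : (ptIdeal t a).primeCompl) : S)) :=
    IsLocalization.map_units T (u * u')
  obtain ⟨v, hv⟩ := hu
  refine ⟨algebraMap S T s'' * ((v⁻¹ : Tˣ) : T), ?_⟩
  have h2 : x * (v : T) = algebraMap R T y * algebraMap S T s'' := by
    rw [hv, Submonoid.coe_mul, map_mul, ← mul_assoc, hsu, ← map_mul, hs'', map_mul, ← htower]
  calc x = x * (v : T) * ((v⁻¹ : Tˣ) : T) := by rw [mul_assoc, Units.mul_inv, mul_one]
    _ = algebraMap R T y * (algebraMap S T s'' * ((v⁻¹ : Tˣ) : T)) := by rw [h2, mul_assoc]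

include hP in
/-- **(3) The étale point lemma.**  `R` noetherian local domain, `S = R[t]` monogenic with
minimal polynomial `f`, `a` a simple root of `f` modulo `𝔪`, `T` the localisation of `S` at
`M = (t - a) + 𝔪 S`.  For every `y ∈ 𝔪` such that `R ⧸ (y)` is a domain and a principal ideal
ring, `T ⧸ (y)` is a domain and a principal ideal ring. -/
theorem quotient_loc [IsNoetherianRing R] (h : IsMonogenic t f)
    (ha : f.eval a ∈ maximalIdeal R) (ha' : f.derivative.eval a ∉ maximalIdeal R)
    {y : R} (hy : y ∈ maximalIdeal R)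
    [IsDomain (R ⧸ Ideal.span {y})] [IsPrincipalIdealRing (R ⧸ Ideal.span {y})] :
    IsDomain (T ⧸ Ideal.span {algebraMap R T y}) ∧
      IsPrincipalIdealRing (T ⧸ Ideal.span {algebraMap R T y}) := by
  haveI : IsLocalRing T := isLocalRing_loc (t := t) (a := a) T
  haveI : IsNoetherianRing T := h.isNoetherianRing_loc (a := a) T
  obtain ⟨π, hπm, hπ⟩ := exists_maximalIdeal_eq_span_pair hy
  have hmT : maximalIdeal T = Ideal.span {algebraMap R T y, algebraMap R T π} := by
    rw [h.maximalIdeal_loc T ha ha', hπ, Ideal.map_span, Set.image_pair]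
  have hyT : algebraMap R T y ∈ maximalIdeal T := by
    rw [hmT]; exact Ideal.subset_span (by simp)
  haveI : Nontrivial (T ⧸ Ideal.span {algebraMap R T y}) := by
    rw [Ideal.Quotient.nontrivial_iff]
    intro htop
    have hle : Ideal.span {algebraMap R T y} ≤ maximalIdeal T := by
      rw [Ideal.span_singleton_le_iff_mem]; exact hyT
    rw [htop] at hle
    exact Ideal.IsPrime.ne_top' (top_le_iff.mp hle)
  haveI : IsLocalRing (T ⧸ Ideal.span {algebraMap R T y}) :=
    IsLocalRing.of_surjective' (Ideal.Quotient.mk _) Ideal.Quotient.mk_surjective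
  have hmB := maximalIdeal_quotient_eq_span hyT hmT
  have hyp : (Ideal.span {y} : Ideal R).IsPrime :=
    (Ideal.Quotient.isDomain_iff_prime _).mp inferInstance
  have hϖ : Ideal.Quotient.mk (Ideal.span {algebraMap R T y}) (algebraMap R T π) = 0 ∨
      ∀ b : T ⧸ Ideal.span {algebraMap R T y},
        Ideal.Quotient.mk (Ideal.span {algebraMap R T y}) (algebraMap R T π) * b = 0 → b = 0 := by
    by_cases hπy : π ∈ Ideal.span {y}
    · left
      rw [Ideal.Quotient.eq_zero_iff_mem]
      obtain ⟨c, rfl⟩ := Ideal.mem_span_singleton'.mp hπy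
      rw [map_mul]
      exact Ideal.mul_mem_left _ _ (Ideal.mem_span_singleton_self _)
    · right
      intro b hb
      obtain ⟨x, rfl⟩ := Ideal.Quotient.mk_surjective b
      rw [← map_mul, Ideal.Quotient.eq_zero_iff_mem, Ideal.mem_span_singleton'] at hb
      obtain ⟨x', hx'⟩ := hb
      obtain ⟨x'', rfl⟩ := h.nzd_loc (a := a) T hyp hπy (x := x) (x' := x')
        (by rw [← hx', mul_comm])
      rw [Ideal.Quotient.eq_zero_iff_mem]
      exact Ideal.mul_mem_right _ _ (Ideal.mem_span_singleton_self _)
  exact ⟨isDomain_of_maximalIdeal_eq_span hmB hϖ,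
    isPrincipalIdealRing_of_maximalIdeal_eq_span hmB hϖ⟩

end IsMonogenic

end MainLoc

end Fermat.Agent.T8.helper33
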