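import Mathlib

/-!
# T8 (row 38, at risk), helper6: the abstract local input [UFD2]

`R` a noetherian local domain, `y` in the maximal ideal, `R ⧸ (y)` a principal ideal domain
(in the application: a discrete valuation ring, the local ring of one component of the special
fibre at a double point).  Then every prime of height one of `R` is principal, hence `R` is a
unique factorisation domain.

* `eq_span_of_le_sup` : a prime `q ∌ y` with `q ≤ (f) + (y)`, `f ∈ q`, is `(f)` (Nakayama);
* `isPrincipal_of_height_eq_one_of_quotient` : every height-one prime is principal;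
* `ufm_of_quotient` : `R` is a UFD;
* `exists_unit_mul_pow_of_forall_dvd` : in a UFD, an element all of whose prime multiplicities
  are divisible by `n` is a unit times an `n`-th power.
-/

set_option autoImplicit false
set_option linter.unusedSectionVars false

namespace Fermat.Agent.T8.helper6

open Ideal IsLocalRing

section UFD2

variable {R : Type*} [CommRing R] [IsDomain R] [IsNoetherianRing R] [IsLocalRing R]

/-- **Nakayama step**: a prime `q` which does not contain `y ∈ 𝔪` and lies in `(f) + (y)` with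
`f ∈ q` is generated by `f`. -/
theorem eq_span_of_le_sup {y : R} (hy : y ∈ maximalIdeal R) (q : Ideal R) [q.IsPrime]
    (hyq : y ∉ q) {f : R} (hf : f ∈ q) (h : q ≤ Ideal.span {f} ⊔ Ideal.span {y}) :
    q = Ideal.span {f} := by
  refine le_antisymm ?_ ((Ideal.span_singleton_le_iff_mem q).mpr hf)
  have hfg : (q : Submodule R R).FG := (isNoetherianRing_iff_ideal_fg R).mp inferInstance q
  have hjac : Ideal.span {y} ≤ Ideal.jacobson (⊥ : Ideal R) := by
    rw [IsLocalRing.jacobson_eq_maximalIdeal (⊥ : Ideal R) bot_ne_top]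
    exact (Ideal.span_singleton_le_iff_mem _).mpr hy
  refine Submodule.le_of_le_smul_of_le_jacobson_bot (N := Ideal.span {f}) hfg hjac ?_
  intro a ha
  obtain ⟨b, hb, c, hc, rfl⟩ := Submodule.mem_sup.mp (h ha)
  obtain ⟨s, rfl⟩ := Ideal.mem_span_singleton'.mp hc
  have hbq : b ∈ q := (Ideal.span_singleton_le_iff_mem q).mpr hf hb
  have hsy : s * y ∈ q := by
    have := q.sub_mem ha hbq
    simpa using this
  have hs : s ∈ q := (Ideal.IsPrime.mem_or_mem inferInstance hsy).resolve_right hyq
  refine Submodule.mem_sup.mpr ⟨b, hb, s * y, ?_, rfl⟩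
  rw [mul_comm]
  exact Submodule.smul_mem_smul (Ideal.mem_span_singleton_self y) hs

/-- **[UFD2], prime form**: if `R ⧸ (y)` is a principal ideal domain, `y ∈ 𝔪`, every prime of
height one of the noetherian local domain `R` is principal. -/
theorem isPrincipal_of_height_eq_one_of_quotient {y : R} (hy : y ∈ maximalIdeal R)
    [IsDomain (R ⧸ Ideal.span {y})] [IsPrincipalIdealRing (R ⧸ Ideal.span {y})]
    (q : Ideal R) [q.IsPrime] (hq : q.height = 1) : q.IsPrincipal := by
  -- a generator of the image of `q` in the quotient, lifted to `q`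
  have hsurj : Function.Surjective (Ideal.Quotient.mk (Ideal.span {y})) :=
    Ideal.Quotient.mk_surjective
  obtain ⟨g, hg⟩ := (IsPrincipalIdealRing.principal
    (q.map (Ideal.Quotient.mk (Ideal.span {y})))).principal
  have hgmem : g ∈ q.map (Ideal.Quotient.mk (Ideal.span {y})) := by
    rw [hg]; exact Submodule.mem_span_singleton_self g
  obtain ⟨f, hf, rfl⟩ := (Ideal.mem_map_iff_of_surjective _ hsurj).mp hgmem
  have hle : q ≤ Ideal.span {f} ⊔ Ideal.span {y} := by
    intro a ha
    have h1 : Ideal.Quotient.mk (Ideal.span {y}) a ∈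
        q.map (Ideal.Quotient.mk (Ideal.span {y})) := Ideal.mem_map_of_mem _ ha
    rw [hg] at h1
    obtain ⟨r', hr'⟩ := Submodule.mem_span_singleton.mp h1
    obtain ⟨r, rfl⟩ := hsurj r'
    have h2 : Ideal.Quotient.mk (Ideal.span {y}) (a - r * f) = 0 := by
      rw [map_sub, map_mul, ← hr', smul_eq_mul, sub_self]
    have h3 : a - r * f ∈ Ideal.span {y} := Ideal.Quotient.eq_zero_iff_mem.mp h2
    refine Submodule.mem_sup.mpr ⟨r * f, ?_, a - r * f, h3, by ring⟩
    exact Ideal.mul_mem_left _ _ (Ideal.mem_span_singleton_self f)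
  by_cases hyq : y ∈ q
  · by_cases hy0 : y = 0
    · refine ⟨f, le_antisymm ?_ ((Ideal.span_singleton_le_iff_mem q).mpr hf)⟩
      have : Ideal.span {y} = ⊥ := by rw [hy0]; exact Ideal.span_singleton_eq_bot.mpr rfl
      rw [this, sup_bot_eq] at hle
      exact hle
    · have hprime : Prime y := by
        rw [← Ideal.span_singleton_prime hy0, ← Ideal.Quotient.isDomain_iff_prime]
        infer_instance
      exact ⟨y, q.eq_span_singleton_of_height_eq_one hq hyq hprime⟩
  · exact ⟨f, eq_span_of_le_sup hy q hyq hf hle⟩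

/-- **[UFD2]**: a noetherian local domain `R` with `y ∈ 𝔪` such that `R ⧸ (y)` is a principal
ideal domain is a unique factorisation domain. -/
theorem ufm_of_quotient {y : R} (hy : y ∈ maximalIdeal R)
    [IsDomain (R ⧸ Ideal.span {y})] [IsPrincipalIdealRing (R ⧸ Ideal.span {y})] :
    UniqueFactorizationMonoid R :=
  UniqueFactorizationMonoid.of_forall_isPrincipal_of_height_eq_one
    (fun q _ hq => isPrincipal_of_height_eq_one_of_quotient hy q hq)

end UFD2

section Pow

variable {R : Type*} [CommRing R] [IsDomain R] [UniqueFactorizationMonoid R]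

/-- In a unique factorisation domain, a nonzero element all of whose exact prime multiplicities
are divisible by `n` is a unit times an `n`-th power. -/
theorem exists_unit_mul_pow_of_forall_dvd (n : ℕ) (a : R) (ha : a ≠ 0)
    (h : ∀ π : R, Prime π → ∀ k : ℕ, π ^ k ∣ a → ¬ π ^ (k + 1) ∣ a → n ∣ k) :
    ∃ (u : Rˣ) (d : R), a = u * d ^ n := by
  revert ha h
  induction a using UniqueFactorizationMonoid.induction_on_coprime with
  | h0 => intro ha; exact absurd rfl ha
  | h1 hx =>
    intro _ _
    obtain ⟨u, rfl⟩ := hx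
    exact ⟨u, 1, by rw [one_pow, mul_one]⟩
  | hpr i hp =>
    rename_i π
    intro _ h
    have h1 : ¬ π ^ (i + 1) ∣ π ^ i := by
      intro hdvd
      have h2 : π ^ i * π ∣ π ^ i * 1 := by rwa [mul_one, ← pow_succ]
      have h3 : π ∣ 1 := (mul_dvd_mul_iff_left (pow_ne_zero i hp.ne_zero)).mp h2
      exact hp.not_isUnit (isUnit_of_dvd_one h3)
    obtain ⟨j, rfl⟩ := h π hp i dvd_rfl h1
    exact ⟨1, π ^ j, by rw [Units.val_one, one_mul, ← pow_mul, mul_comm]⟩
  | hcp hxy hx hy =>
    rename_i x y
    intro hne h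
    have hx0 : x ≠ 0 := left_ne_zero_of_mul hne
    have hy0 : y ≠ 0 := right_ne_zero_of_mul hne
    have key : ∀ {s t : R}, IsRelPrime s t → (∀ π : R, Prime π → ∀ k : ℕ, π ^ k ∣ s * t →
        ¬ π ^ (k + 1) ∣ s * t → n ∣ k) →
        ∀ π : R, Prime π → ∀ k : ℕ, π ^ k ∣ s → ¬ π ^ (k + 1) ∣ s → n ∣ k := by
      intro s t hst hh π hπ k hk hk1
      rcases Nat.eq_zero_or_pos k with rfl | hkpos
      · exact dvd_zero n
      have hπs : π ∣ s := (dvd_pow_self π hkpos.ne').trans hk
      have hπt : ¬ π ∣ t := fun hπt => hπ.not_isUnit (hst hπs hπt)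
      refine hh π hπ k (hk.trans (dvd_mul_right s t)) ?_
      intro hdvd
      exact hk1 (hπ.pow_dvd_of_dvd_mul_right (k + 1) hπt hdvd)
    obtain ⟨u, d, hud⟩ := hx hx0 (key hxy h)
    obtain ⟨u', d', hud'⟩ := hy hy0 (key hxy.symm (by rwa [mul_comm]))
    refine ⟨u * u', d * d', ?_⟩
    rw [hud, hud', Units.val_mul, mul_pow]
    ring

/-- Ratio form: if the exact prime multiplicities of `a` and `b` are congruent modulo `n`, then
`a / b` is a unit times an `n`-th power, in the division-free form `a * b ^ n = u * b * d ^ n`. -/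
theorem exists_unit_mul_pow_of_forall_modEq (n : ℕ) (hn : 0 < n) (a b : R) (ha : a ≠ 0)
    (hb : b ≠ 0)
    (h : ∀ π : R, Prime π → ∀ k l : ℕ, π ^ k ∣ a → ¬ π ^ (k + 1) ∣ a →
      π ^ l ∣ b → ¬ π ^ (l + 1) ∣ b → k ≡ l [MOD n]) :
    ∃ (u : Rˣ) (d : R), a * b ^ n = u * b * d ^ n := by
  have hne : a * b ^ (n - 1) ≠ 0 := mul_ne_zero ha (pow_ne_zero _ hb)
  have hfin : ∀ (π : R), Prime π → ∀ c : R, c ≠ 0 →
      ∃ k : ℕ, π ^ k ∣ c ∧ ¬ π ^ (k + 1) ∣ c := by
    intro π hπ c hc
    have hf : FiniteMultiplicity π c := FiniteMultiplicity.of_not_isUnit hπ.not_isUnit hc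
    exact ⟨multiplicity π c, pow_multiplicity_dvd π c, hf.not_pow_dvd_of_multiplicity_lt
      (Nat.lt_succ_self _)⟩
  obtain ⟨u, d, hud⟩ := exists_unit_mul_pow_of_forall_dvd n (a * b ^ (n - 1)) hne (by
    intro π hπ m hm hm1
    obtain ⟨k, hk, hk1⟩ := hfin π hπ a ha
    obtain ⟨l, hl, hl1⟩ := hfin π hπ b hb
    have hkl := h π hπ k l hk hk1 hl hl1
    -- exact multiplicity of the product
    have hmk : emultiplicity π a = k :=
      emultiplicity_eq_coe.mpr ⟨hk, hk1⟩
    have hml : emultiplicity π b = l :=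
      emultiplicity_eq_coe.mpr ⟨hl, hl1⟩
    have hmm : emultiplicity π (a * b ^ (n - 1)) = m :=
      emultiplicity_eq_coe.mpr ⟨hm, hm1⟩
    rw [emultiplicity_mul hπ, emultiplicity_pow hπ, hmk, hml] at hmm
    have hm' : k + (n - 1) * l = m := by exact_mod_cast hmm
    rw [← hm']
    have h1 : k + (n - 1) * l ≡ l + (n - 1) * l [MOD n] := Nat.ModEq.add_right _ hkl
    have h2 : l + (n - 1) * l = n * l := by
      obtain ⟨n', rfl⟩ : ∃ n', n = n' + 1 := ⟨n - 1, by omega⟩
      simp only [Nat.add_sub_cancel]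
      ring
    rw [h2] at h1
    exact (Nat.modEq_zero_iff_dvd.mp (h1.trans (by simp [Nat.ModEq]))))
  refine ⟨u, d, ?_⟩
  have hpow : b ^ n = b ^ (n - 1) * b := by
    rw [← pow_succ]
    congr 1
    omega
  rw [hpow, ← mul_assoc, hud]
  ring

end Pow

end Fermat.Agent.T8.helper6
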