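import Mathlib
import Fermat.Agent.T8.helper33_SheetsAbs
import Fermat.Agent.T8.helper6_UFD2

/-!
# T8 (row 38, at risk), helper33: abstract half of [SHEETS], convenience layer

On top of `helper33_SheetsAbs` (the etale point lemma):

* `IsMonogenic.of_adjoin` : the subalgebra `R[t]` of any domain `L` is monogenic;
* `free_of_natDegree_le_minpoly` : the freeness hypothesis from a degree count over a field
  `K ⊇ R`;
* `simple_root_of_split` / `exists_simple_roots_of_split` : if the reduction of `f` modulo `𝔪`
  is `∏ (X - c j)` with pairwise distinct `c j`, every `c j` lifts to a simple root;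
* `IsMonogenic.eq_ptIdeal_of_prime` : completeness - every prime of `S` containing `𝔪 S` is one
  of the `ptIdeal t (a j)`;
* `IsMonogenic.ufm_loc`, `IsMonogenic.prime_algebraMap_loc` : `T` is a UFD in which `y` is prime.
-/

set_option autoImplicit false
set_option linter.unusedSectionVars false
set_option linter.style.haveILetI false
set_option linter.unnecessarySimpa false

namespace Fermat.Agent.T8.helper33

open Polynomial IsLocalRing

section Adjoin

variable {R : Type*} [CommRing R] [IsDomain R]
variable {L : Type*} [CommRing L] [IsDomain L] [Algebra R L]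

/-- The subalgebra `R[t]` of a domain `L`, with its generator, is monogenic. -/
theorem IsMonogenic.of_adjoin (t : L) (f : R[X]) (hf : f.Monic) (hroot : aeval t f = 0)
    (hfree : ∀ g : R[X], g.degree < f.degree → aeval t g = 0 → g = 0) :
    IsMonogenic (⟨t, Algebra.self_mem_adjoin_singleton R t⟩ : Algebra.adjoin R {t}) f := by
  have hval : ∀ g : R[X],
      ((aeval (⟨t, Algebra.self_mem_adjoin_singleton R t⟩ : Algebra.adjoin R {t}) g :
        Algebra.adjoin R {t}) : L) = aeval t g := by
    intro g
    have := Polynomial.aeval_algHom_apply (Algebra.adjoin R {t}).val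
      (⟨t, Algebra.self_mem_adjoin_singleton R t⟩ : Algebra.adjoin R {t}) g
    simpa using this.symm
  refine ⟨?_, hf, ?_, ?_⟩
  · rw [eq_top_iff]
    rintro ⟨x, hx⟩ -
    have hx' := hx
    rw [Algebra.adjoin_singleton_eq_range_aeval] at hx'
    obtain ⟨g, hg⟩ := hx'
    have hxg : (⟨x, hx⟩ : Algebra.adjoin R {t}) =
        aeval (⟨t, Algebra.self_mem_adjoin_singleton R t⟩ : Algebra.adjoin R {t}) g :=
      Subtype.ext (by rw [hval]; exact hg.symm)
    rw [hxg]
    exact aeval_mem_adjoin_singleton R _
  · apply Subtype.ext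
    rw [hval, hroot]; rfl
  · intro g hdeg hg
    apply hfree g hdeg
    rw [← hval, hg]; rfl

end Adjoin

section Free

variable {R : Type*} [CommRing R] [IsDomain R]
variable {K : Type*} [Field K] [Algebra R K]
variable {L : Type*} [CommRing L] [IsDomain L] [Algebra R L] [Algebra K L] [IsScalarTower R K L]

/-- Freeness from a degree count: if `t` is integral over the field `K ⊇ R` and its minimal
polynomial over `K` has degree at least `deg f`, no nonzero polynomial over `R` of smaller degree
kills `t`. -/
theorem free_of_natDegree_le_minpoly (hinj : Function.Injective (algebraMap R K))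
    (t : L) (f : R[X]) (hdeg : f.natDegree ≤ (minpoly K t).natDegree)
    (g : R[X]) (hg : g.degree < f.degree) (hgt : aeval t g = 0) : g = 0 := by
  by_contra hne
  have hmap : g.map (algebraMap R K) ≠ 0 := by
    rwa [Ne, Polynomial.map_eq_zero_iff hinj]
  have h0 : aeval t (g.map (algebraMap R K)) = 0 := by
    rw [aeval_map_algebraMap]; exact hgt
  have h1 : (minpoly K t).natDegree ≤ (g.map (algebraMap R K)).natDegree :=
    natDegree_le_natDegree (minpoly.degree_le_of_ne_zero K t hmap h0)
  have h2 : (g.map (algebraMap R K)).natDegree = g.natDegree :=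
    natDegree_map_eq_of_injective hinj g
  have hf0 : f ≠ 0 := by
    rintro rfl
    rw [degree_zero] at hg
    exact not_lt_bot hg
  have h3 : g.natDegree < f.natDegree := natDegree_lt_natDegree hne hg
  omega

end Free

section Split

variable {R : Type*} [CommRing R] [IsDomain R] [IsLocalRing R]
variable {ι : Type*} [DecidableEq ι]

/-- If `f mod 𝔪 = ∏_{j ∈ J} (X - c j)` with the `c j` pairwise distinct on `J`, any lift `a`
of `c j₀` (`j₀ ∈ J`) is a simple root of `f` modulo `𝔪`. -/
theorem simple_root_of_split (f : R[X]) (J : Finset ι) (c : ι → ResidueField R)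
    (hsplit : f.map (residue R) = ∏ j ∈ J, (X - C (c j))) (hinj : Set.InjOn c (J : Set ι))
    {j₀ : ι} (hj₀ : j₀ ∈ J) {a : R} (ha : residue R a = c j₀) :
    f.eval a ∈ maximalIdeal R ∧ f.derivative.eval a ∉ maximalIdeal R := by
  constructor
  · rw [← residue_eq_zero_iff, ← Polynomial.eval_map_apply, hsplit, eval_prod]
    refine Finset.prod_eq_zero hj₀ ?_
    rw [eval_sub, eval_X, eval_C, ha, sub_self]
  · rw [← residue_eq_zero_iff, ← Polynomial.eval_map_apply, ← derivative_map, hsplit,
      derivative_prod_finset]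
    simp only [derivative_sub, derivative_X, derivative_C, sub_zero, mul_one]
    rw [eval_finsetSum, Finset.sum_eq_single j₀]
    · rw [eval_prod]
      rw [← Ne, Finset.prod_ne_zero_iff]
      intro i hi
      rw [eval_sub, eval_X, eval_C, ha, sub_ne_zero]
      intro hcon
      have := hinj (Finset.mem_coe.mpr hj₀) (Finset.mem_coe.mpr (Finset.mem_of_mem_erase hi)) hcon
      exact (Finset.ne_of_mem_erase hi) this.symm
    · intro i hi hne
      rw [eval_prod]
      refine Finset.prod_eq_zero (Finset.mem_erase.mpr ⟨hne.symm, hj₀⟩) ?_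
      rw [eval_sub, eval_X, eval_C, ha, sub_self]
    · intro h; exact absurd hj₀ h

/-- Lifts of all the roots. -/
theorem exists_simple_roots_of_split (f : R[X]) (J : Finset ι) (c : ι → ResidueField R)
    (hsplit : f.map (residue R) = ∏ j ∈ J, (X - C (c j))) (hinj : Set.InjOn c (J : Set ι)) :
    ∃ a : ι → R, (∀ j, residue R (a j) = c j) ∧
      ∀ j ∈ J, f.eval (a j) ∈ maximalIdeal R ∧ f.derivative.eval (a j) ∉ maximalIdeal R := by
  choose a ha using fun j => residue_surjective (c j)
  exact ⟨a, ha, fun j hj => simple_root_of_split f J c hsplit hinj hj (ha j)⟩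

end Split

section Complete

variable {R : Type*} [CommRing R] [IsDomain R] [IsLocalRing R]
variable {S : Type*} [CommRing S] [IsDomain S] [Algebra R S]
variable {ι : Type*} [DecidableEq ι]

/-- A polynomial with coefficients in `𝔪` takes values in `𝔪 S`. -/
theorem aeval_mem_map_of_coeff_mem (t : S) (g : R[X])
    (hg : ∀ i, g.coeff i ∈ maximalIdeal R) :
    aeval t g ∈ (maximalIdeal R).map (algebraMap R S) := by
  rw [aeval_eq_sum_range]
  refine Ideal.sum_mem _ fun i _ => ?_
  rw [Algebra.smul_def]
  exact Ideal.mul_mem_right _ _ (Ideal.mem_map_of_mem _ (hg i))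

namespace IsMonogenic

variable {t : S} {f : R[X]}

/-- **Completeness.**  If `f mod 𝔪 = ∏_{j ∈ J} (X - a j mod 𝔪)`, every prime ideal of `S`
containing `𝔪 S` is one of the maximal ideals `ptIdeal t (a j)`, `j ∈ J`. -/
theorem eq_ptIdeal_of_prime (h : IsMonogenic t f) (J : Finset ι) (a : ι → R)
    (hsplit : f.map (residue R) = ∏ j ∈ J, (X - C (residue R (a j))))
    (Q : Ideal S) [hQ : Q.IsPrime] (hQm : (maximalIdeal R).map (algebraMap R S) ≤ Q) :
    ∃ j ∈ J, Q = ptIdeal t (a j) := by
  -- `f - ∏ (X - a j)` has coefficients in `𝔪`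
  have hcoeff : ∀ i, (f - ∏ j ∈ J, (X - C (a j))).coeff i ∈ maximalIdeal R := by
    intro i
    rw [← residue_eq_zero_iff, ← Polynomial.coeff_map, Polynomial.map_sub, hsplit,
      Polynomial.map_prod]
    simp
  have h1 := aeval_mem_map_of_coeff_mem t _ hcoeff
  rw [map_sub, h.root, zero_sub, neg_mem_iff, map_prod] at h1
  have h2 : ∏ j ∈ J, aeval t (X - C (a j)) ∈ Q := hQm h1
  obtain ⟨j, hj, hjQ⟩ := Ideal.IsPrime.prod_mem_iff.mp h2
  refine ⟨j, hj, ?_⟩
  rw [map_sub, aeval_X, aeval_C] at hjQ
  have hle : ptIdeal t (a j) ≤ Q := by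
    unfold ptIdeal
    rw [sup_le_iff, Ideal.span_singleton_le_iff_mem]
    exact ⟨hjQ, hQm⟩
  have haj : f.eval (a j) ∈ maximalIdeal R := by
    rw [← residue_eq_zero_iff, ← Polynomial.eval_map_apply, hsplit, eval_prod]
    refine Finset.prod_eq_zero hj ?_
    rw [eval_sub, eval_X, eval_C, sub_self]
  exact ((h.ptIdeal_isMaximal (a j) haj).eq_of_le hQ.ne_top hle).symm

end IsMonogenic

end Complete

section Ufd

variable {R : Type*} [CommRing R] [IsDomain R] [IsLocalRing R]
variable {S : Type*} [CommRing S] [IsDomain S] [Algebra R S]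
variable {t : S} {f : R[X]} {a : R}
variable (T : Type*) [CommRing T] [Algebra S T] [Algebra R T] [IsScalarTower R S T]
variable [hP : (ptIdeal t a).IsPrime] [IsLocalization.AtPrime T (ptIdeal t a)]

namespace IsMonogenic

include hP in
/-- `T = S_M` is a unique factorisation domain (UFD2 of helper6 applied to `T`). -/
theorem ufm_loc [IsNoetherianRing R] (h : IsMonogenic t f)
    (ha : f.eval a ∈ maximalIdeal R) (ha' : f.derivative.eval a ∉ maximalIdeal R)
    {y : R} (hy : y ∈ maximalIdeal R)
    [IsDomain (R ⧸ Ideal.span {y})] [IsPrincipalIdealRing (R ⧸ Ideal.span {y})] :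
    haveI : IsDomain T := isDomain_loc (t := t) (a := a) T
    UniqueFactorizationMonoid T := by
  haveI : IsDomain T := isDomain_loc (t := t) (a := a) T
  haveI : IsLocalRing T := isLocalRing_loc (t := t) (a := a) T
  haveI : IsNoetherianRing T := h.isNoetherianRing_loc (a := a) T
  obtain ⟨hd, hpid⟩ := h.quotient_loc T ha ha' hy
  have hyT : algebraMap R T y ∈ maximalIdeal T := by
    rw [h.maximalIdeal_loc T ha ha']
    exact Ideal.mem_map_of_mem _ hy
  exact Fermat.Agent.T8.helper6.ufm_of_quotient hyT

include hP in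
/-- `y` stays a prime element in `T = S_M`. -/
theorem prime_algebraMap_loc [IsNoetherianRing R] (h : IsMonogenic t f)
    (ha : f.eval a ∈ maximalIdeal R) (ha' : f.derivative.eval a ∉ maximalIdeal R)
    {y : R} (hy : y ∈ maximalIdeal R) (hy0 : y ≠ 0)
    [IsDomain (R ⧸ Ideal.span {y})] [IsPrincipalIdealRing (R ⧸ Ideal.span {y})] :
    Prime (algebraMap R T y) := by
  obtain ⟨hd, -⟩ := h.quotient_loc T ha ha' hy
  have hne : algebraMap R T y ≠ 0 := by
    rw [IsScalarTower.algebraMap_apply R S T]
    intro h0
    have h1 := (algebraMap_loc_injective (t := t) (a := a) T) (h0.trans (map_zero _).symm)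
    exact hy0 (h.algebraMap_injective (h1.trans (map_zero _).symm))
  rw [← Ideal.span_singleton_prime hne]
  exact (Ideal.Quotient.isDomain_iff_prime _).mp hd

end IsMonogenic

end Ufd

end Fermat.Agent.T8.helper33
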