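import Mathlib

/-!
# T8 (row 38, at risk), leaf [SHEETS] (helper97, owner): two polynomial lemmas (Mathlib only)

* `coeff_prod_X_sub_C_mem` : the coefficients of `∏_{j < n} (X - a j)` lie in every subring
                             containing the `a j`;
* `prod_X_sub_C_sub_natCast` : **Artin - Schreier**: in characteristic `p`,
                             `∏_{j < p} (X - (r - j)) = X ^ p - X - (r ^ p - r)`;
* `coeff_artinSchreier`    : the coefficients of `X ^ p - X - c`.
-/

set_option autoImplicit false
set_option linter.unusedSectionVars false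
set_option linter.unusedVariables false
set_option linter.style.longLine false

namespace Fermat.Agent.T8.helper97

open Polynomial

section Coeff

variable {E : Type*} [CommRing E]

/-- the coefficients of `∏_{j < n} (X - a j)` lie in every subring containing the `a j` -/
theorem coeff_prod_X_sub_C_mem (S : Subring E) (a : ℕ → E) (ha : ∀ j, a j ∈ S) (n m : ℕ) :
    (∏ j ∈ Finset.range n, (X - C (a j))).coeff m ∈ S := by
  induction n generalizing m with
  | zero =>
    rw [Finset.range_zero, Finset.prod_empty, coeff_one]
    split_ifs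
    · exact S.one_mem
    · exact S.zero_mem
  | succ n ih =>
    rw [Finset.prod_range_succ]
    rcases m with _ | m
    · rw [mul_coeff_zero, coeff_sub, coeff_X_zero, coeff_C_zero, zero_sub]
      exact S.mul_mem (ih 0) (S.neg_mem (ha n))
    · rw [coeff_mul_X_sub_C]
      exact S.sub_mem (ih m) (S.mul_mem (ih (m + 1)) (ha n))

end Coeff

section AS

variable {L : Type*} [CommRing L] (p : ℕ) [hp : Fact p.Prime] [CharP L p]

/-- `∏_{a ∈ 𝔽_p} (X - a) = X ^ p - X` over any ring of characteristic `p` -/
theorem prod_X_sub_C_zmod :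
    ∏ a : ZMod p, (X - C ((ZMod.castHom (dvd_refl p) L) a)) = (X ^ p - X : L[X]) := by
  have h0 : (∏ a : ZMod p, (X - C a) : (ZMod p)[X]) = X ^ p - X := by
    have hmon : (X ^ p - X : (ZMod p)[X]).Monic := by
      apply monic_X_pow_sub
      rw [degree_X]
      exact_mod_cast hp.out.one_lt
    have hroots : (X ^ p - X : (ZMod p)[X]).roots = Finset.univ.val := by
      have := FiniteField.roots_X_pow_card_sub_X (ZMod p)
      rwa [ZMod.card] at this
    have hcard : Multiset.card (X ^ p - X : (ZMod p)[X]).roots
        = (X ^ p - X : (ZMod p)[X]).natDegree := by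
      rw [hroots, FiniteField.X_pow_card_sub_X_natDegree_eq (ZMod p) hp.out.one_lt]
      simp [ZMod.card]
    have h1 := prod_multiset_X_sub_C_of_monic_of_roots_card_eq hmon hcard
    rw [hroots] at h1
    exact h1
  have h1 := congrArg (Polynomial.map (ZMod.castHom (dvd_refl p) L)) h0
  rw [Polynomial.map_prod] at h1
  simp only [Polynomial.map_sub, Polynomial.map_X, Polynomial.map_C, Polynomial.map_pow] at h1
  exact h1

/-- **Artin - Schreier**: `∏_{j < p} (X - (r - j)) = X ^ p - X - (r ^ p - r)` in
characteristic `p`. -/
theorem prod_X_sub_C_sub_natCast (r : L) :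
    ∏ j ∈ Finset.range p, (X - C (r - (j : L))) = (X ^ p - X - C (r ^ p - r) : L[X]) := by
  have : NeZero p := ⟨hp.out.ne_zero⟩
  have : CharP L[X] p := inferInstance
  -- substitute `X - r` in the previous identity
  have h1 := congrArg (fun P : L[X] => P.comp (X - C r)) (prod_X_sub_C_zmod (L := L) p)
  simp only [prod_comp, sub_comp, X_comp, C_comp, pow_comp] at h1
  rw [sub_pow_char] at h1
  -- reindex
  have h2 : ∏ j ∈ Finset.range p, (X - C (r - (j : L))) =
      ∏ a : ZMod p, (X - C r - C ((ZMod.castHom (dvd_refl p) L) a) : L[X]) := by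
    rw [← Equiv.prod_comp (Equiv.neg (ZMod p))]
    symm
    refine Finset.prod_bij' (fun a _ => a.val) (fun j _ => (j : ZMod p))
      (fun a _ => Finset.mem_range.mpr (ZMod.val_lt a)) (fun j _ => Finset.mem_univ _)
      (fun a _ => ZMod.natCast_zmod_val a)
      (fun j hj => ZMod.val_natCast_of_lt (Finset.mem_range.mp hj)) ?_
    intro a _
    have e1 : (ZMod.castHom (dvd_refl p) L) ((Equiv.neg (ZMod p)) a) = -((a.val : ℕ) : L) := by
      rw [Equiv.neg_apply, map_neg]
      congr 1
      conv_lhs => rw [← ZMod.natCast_zmod_val a]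
      rw [map_natCast]
    rw [e1, map_neg, C_sub]
    ring
  rw [h2, h1, ← C_pow]
  simp only [C_sub]
  ring

/-- the coefficients of the Artin - Schreier polynomial -/
theorem coeff_artinSchreier (hp2 : 2 ≤ p) (c : L) (m : ℕ) :
    (X ^ p - X - C c : L[X]).coeff m =
      if m = p then 1 else if m = 1 then -1 else if m = 0 then -c else 0 := by
  rw [coeff_sub, coeff_sub, coeff_X_pow, coeff_X, coeff_C]
  by_cases h1 : m = p
  · subst h1
    have h2 : ¬ (1 = m) := by omega
    have h3 : ¬ (m = 0) := by omega
    simp [h2, h3]
  · by_cases h2 : m = 1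
    · subst h2
      simp [h1]
    · by_cases h3 : m = 0
      · subst h3
        simp [h1]
      · have h4 : ¬ (1 = m) := fun h => h2 h.symm
        simp [h1, h2, h3, h4]

end AS

end Fermat.Agent.T8.helper97
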