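import Mathlib
import Fermat.Agent.T8.helper33_SheetsAbs2
import Fermat.Agent.T8.helper97_ConjPoly

/-!
# T8 (row 38, at risk), leaf [SHEETS], sub-leaf B (helper6): local wiring at a point

Abstract form of the local wiring asked by the owner of the instance (helper97).  `R0` is a ring
of global functions (in the application `ringX`), `φ : R0 →+* R` its map to a local domain `R`
(the local ring `locX Q`), `K ⊇ R` a field (the function field), `L ⊇ K` the cover, `t : L`,
`f0 ∈ R0[X]` monic of degree `p` with `f0(t) = 0`, the minimal polynomial of `t` over `K` of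
degree at least `p`, and `f0 ≡ X ^ p - X - c` modulo the maximal ideal of `R` (Artin - Schreier
shape).

* `isMonogenic_of_base`, `isMonogenic_of_base_eval₂`, `isMonogenic_of_base_finrank` :
  `helper33.IsMonogenic` for `R[t] ⊆ L` and `f0.map φ`;
* `map_residue_derivative_eq`, `derivative_eval_notMem` : `f' ≡ -1` modulo `𝔪`, so `f'(a) ∉ 𝔪`
  for EVERY `a : R` (every root modulo `𝔪` is simple, no splitting hypothesis);
* `derivative_eval_notMem_of_red` : the same with the hypotheses stated through reduction maps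
  `red0 : R0 →+* D`, `redL : R →+* D`;
* `map_residue_eq_artinSchreier`, `map_residue_eq_prod`, `residue_injOn` : the reduction of `f`
  is `X ^ p - X - c = ∏_{j < p} (X - (a - j))` for any root `a` modulo `𝔪`, with pairwise
  distinct roots (the hypotheses `hsplit`, `hinj` of `helper33.simple_root_of_split` and of
  `helper33.IsMonogenic.eq_ptIdeal_of_prime`);
* `eval_sub_natCast_mem` : `a - j` is a root modulo `𝔪` for every `j`;
* `exists_eq_ptIdeal` : every prime of `S = R[t]` over `𝔪` is one of the `p` points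
  `ptIdeal t (a - j)`, `j < p`.
-/

set_option autoImplicit false
set_option linter.unusedSectionVars false
set_option linter.unusedVariables false
set_option linter.style.longLine false
set_option linter.style.haveILetI false

namespace Fermat.Agent.T8.helper6

open Polynomial IsLocalRing

section Base

variable {R0 : Type*} [CommRing R0]
variable {R : Type*} [CommRing R] [IsDomain R]
variable {K : Type*} [Field K] [Algebra R K]
variable {L : Type*} [CommRing L] [IsDomain L] [Algebra R L] [Algebra K L] [IsScalarTower R K L]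

/-- **Local wiring, monogenic part.**  `R[t] ⊆ L` is monogenic for the image of a monic
polynomial `f0 ∈ R0[X]` killing `t`, as soon as the minimal polynomial of `t` over the field
`K ⊇ R` has degree at least `deg f0`. -/
theorem isMonogenic_of_base (φ : R0 →+* R) (hinj : Function.Injective (algebraMap R K))
    (t : L) (f0 : R0[X]) (hmonic : f0.Monic) (hroot : aeval t (f0.map φ) = 0)
    (hdeg : f0.natDegree ≤ (minpoly K t).natDegree) :
    helper33.IsMonogenic
      (⟨t, Algebra.self_mem_adjoin_singleton R t⟩ : Algebra.adjoin R {t}) (f0.map φ) := by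
  refine helper33.IsMonogenic.of_adjoin t (f0.map φ) (hmonic.map φ) hroot ?_
  intro g hg hgt
  refine helper33.free_of_natDegree_le_minpoly hinj t (f0.map φ) ?_ g hg hgt
  rw [hmonic.natDegree_map]
  exact hdeg

/-- the root hypothesis in `eval₂` form -/
theorem aeval_map_eq_eval₂ (φ : R0 →+* R) (t : L) (f0 : R0[X]) :
    aeval t (f0.map φ) = f0.eval₂ ((algebraMap R L).comp φ) t := by
  rw [aeval_def, eval₂_map]

/-- `isMonogenic_of_base` with the root hypothesis in `eval₂` form. -/
theorem isMonogenic_of_base_eval₂ (φ : R0 →+* R) (hinj : Function.Injective (algebraMap R K))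
    (t : L) (f0 : R0[X]) (hmonic : f0.Monic)
    (hroot : f0.eval₂ ((algebraMap R L).comp φ) t = 0)
    (hdeg : f0.natDegree ≤ (minpoly K t).natDegree) :
    helper33.IsMonogenic
      (⟨t, Algebra.self_mem_adjoin_singleton R t⟩ : Algebra.adjoin R {t}) (f0.map φ) :=
  isMonogenic_of_base φ hinj t f0 hmonic ((aeval_map_eq_eval₂ φ t f0).trans hroot) hdeg

end Base

section BaseField

variable {R0 : Type*} [CommRing R0]
variable {R : Type*} [CommRing R] [IsDomain R]
variable {K : Type*} [Field K] [Algebra R K]
variable {L : Type*} [Field L] [Algebra R L] [Algebra K L] [IsScalarTower R K L]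

/-- `isMonogenic_of_base` with the degree hypothesis as a dimension count `deg f0 ≤ [K(t) : K]`. -/
theorem isMonogenic_of_base_finrank (φ : R0 →+* R)
    (hinj : Function.Injective (algebraMap R K))
    (t : L) (f0 : R0[X]) (hmonic : f0.Monic) (hroot : aeval t (f0.map φ) = 0)
    (hdeg : f0.natDegree ≤ Module.finrank K (IntermediateField.adjoin K {t})) :
    helper33.IsMonogenic
      (⟨t, Algebra.self_mem_adjoin_singleton R t⟩ : Algebra.adjoin R {t}) (f0.map φ) := by
  have hint : IsIntegral K t := by
    have h1 : IsIntegral R t := ⟨f0.map φ, hmonic.map φ, hroot⟩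
    exact h1.tower_top
  refine isMonogenic_of_base φ hinj t f0 hmonic hroot ?_
  rw [← IntermediateField.adjoin.finrank hint]
  exact hdeg

end BaseField

section Deriv

variable {R : Type*} [CommRing R] [IsLocalRing R]

/-- **Artin - Schreier shape ⟹ `f' ≡ -1`.**  If `deg f ≤ p`, `p ∈ 𝔪`, `f.coeff 1 ≡ -1` and
`f.coeff i ≡ 0` modulo `𝔪` for `2 ≤ i < p`, the derivative of the reduction of `f` is the
constant `-1`. -/
theorem map_residue_derivative_eq (f : R[X]) (p : ℕ) (hp : (p : R) ∈ maximalIdeal R)
    (hdeg : f.natDegree ≤ p) (h1 : f.coeff 1 + 1 ∈ maximalIdeal R)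
    (hm : ∀ i, 2 ≤ i → i < p → f.coeff i ∈ maximalIdeal R) :
    (f.map (residue R)).derivative = C (-1) := by
  ext n
  rw [coeff_derivative, coeff_map, coeff_C]
  rcases Nat.eq_zero_or_pos n with rfl | hn
  · rw [if_pos rfl]
    have h := (residue_eq_zero_iff (f.coeff 1 + 1)).mpr h1
    rw [map_add, map_one] at h
    simp only [zero_add, Nat.cast_zero, mul_one]
    exact eq_neg_of_add_eq_zero_left h
  · rw [if_neg hn.ne']
    by_cases hlt : n + 1 < p
    · rw [(residue_eq_zero_iff _).mpr (hm (n + 1) (by omega) hlt), zero_mul]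
    · by_cases heq : n + 1 = p
      · have h := (residue_eq_zero_iff (p : R)).mpr hp
        rw [map_natCast, ← heq] at h
        have h' : ((n : ResidueField R) + 1) = 0 := by
          rw [← h]; push_cast; rfl
        rw [h', mul_zero]
      · rw [coeff_eq_zero_of_natDegree_lt (by omega), map_zero, zero_mul]

/-- **Every root modulo `𝔪` is simple** (Artin - Schreier shape): `f'(a) ∉ 𝔪` for every
`a : R`. -/
theorem derivative_eval_notMem (f : R[X]) (p : ℕ) (hp : (p : R) ∈ maximalIdeal R)
    (hdeg : f.natDegree ≤ p) (h1 : f.coeff 1 + 1 ∈ maximalIdeal R)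
    (hm : ∀ i, 2 ≤ i → i < p → f.coeff i ∈ maximalIdeal R) (a : R) :
    f.derivative.eval a ∉ maximalIdeal R := by
  rw [← residue_eq_zero_iff, ← Polynomial.eval_map_apply, ← derivative_map,
    map_residue_derivative_eq f p hp hdeg h1 hm, eval_C]
  simp

/-- an element whose image under a ring homomorphism to a nontrivial ring is `0` lies in the
maximal ideal -/
theorem mem_maximalIdeal_of_map_eq_zero {D : Type*} [CommRing D] [Nontrivial D]
    (redL : R →+* D) {x : R} (hx : redL x = 0) : x ∈ maximalIdeal R := by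
  rw [mem_maximalIdeal, mem_nonunits_iff]
  intro hu
  have := hu.map redL
  rw [hx] at this
  exact not_isUnit_zero this

variable {R0 : Type*} [CommRing R0]

/-- **Every root modulo `𝔪` is simple**, hypotheses through reduction maps: `red0 : R0 →+* D`
(in the application `red1X`) factors through `φ : R0 →+* R` and `redL : R →+* D`, `D` of
characteristic `p`, `red0 (f0.coeff 1) = -1`, `red0 (f0.coeff i) = 0` for `2 ≤ i < p`. -/
theorem derivative_eval_notMem_of_red {D : Type*} [CommRing D] [Nontrivial D]
    (φ : R0 →+* R) (redL : R →+* D) (red0 : R0 →+* D)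
    (hcomp : ∀ r, redL (φ r) = red0 r) (f0 : R0[X]) (p : ℕ) (hp : (p : D) = 0)
    (hdeg : f0.natDegree ≤ p) (h1 : red0 (f0.coeff 1) = -1)
    (hm : ∀ i, 2 ≤ i → i < p → red0 (f0.coeff i) = 0) (a : R) :
    (f0.map φ).derivative.eval a ∉ maximalIdeal R := by
  refine derivative_eval_notMem (f0.map φ) p ?_ ((natDegree_map_le).trans hdeg) ?_ ?_ a
  · exact mem_maximalIdeal_of_map_eq_zero redL (by rw [map_natCast]; exact hp)
  · refine mem_maximalIdeal_of_map_eq_zero redL ?_
    rw [coeff_map, map_add, hcomp, h1, map_one, neg_add_cancel]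
  · intro i hi hip
    refine mem_maximalIdeal_of_map_eq_zero redL ?_
    rw [coeff_map, hcomp, hm i hi hip]

end Deriv

section AS

variable {R : Type*} [CommRing R] [IsLocalRing R]

/-- the residue field has characteristic `p` when `p ∈ 𝔪` -/
theorem charP_residueField (p : ℕ) (hp : p.Prime) (hpm : (p : R) ∈ maximalIdeal R) :
    CharP (ResidueField R) p := by
  rw [CharP.charP_iff_prime_eq_zero hp, ← map_natCast (residue R)]
  exact (residue_eq_zero_iff _).mpr hpm

/-- **the reduction of `f` is an Artin - Schreier polynomial** `X ^ p - X - c`,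
`c = - f(0) mod 𝔪`. -/
theorem map_residue_eq_artinSchreier (f : R[X]) (p : ℕ) (hp2 : 2 ≤ p) (hmonic : f.Monic)
    (hdeg : f.natDegree = p) (h1 : f.coeff 1 + 1 ∈ maximalIdeal R)
    (hm : ∀ i, 2 ≤ i → i < p → f.coeff i ∈ maximalIdeal R) :
    f.map (residue R) = X ^ p - X - C (- residue R (f.coeff 0)) := by
  ext n
  rw [coeff_map, coeff_sub, coeff_sub, coeff_X_pow, coeff_X, coeff_C]
  by_cases hnp : n = p
  · have hc : f.coeff n = 1 := by
      rw [hnp, ← hdeg]; exact hmonic.coeff_natDegree
    have h2 : ¬ (1 = n) := by omega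
    have h3 : ¬ (n = 0) := by omega
    rw [hc, map_one, if_pos hnp, if_neg h2, if_neg h3]
    simp
  · by_cases hn1 : n = 1
    · subst hn1
      have h := (residue_eq_zero_iff (f.coeff 1 + 1)).mpr h1
      rw [map_add, map_one] at h
      rw [if_neg hnp, if_pos rfl, if_neg one_ne_zero, eq_neg_of_add_eq_zero_left h]
      simp
    · by_cases hn0 : n = 0
      · subst hn0
        have h2 : ¬ (1 = 0) := by omega
        rw [if_neg hnp, if_neg h2, if_pos rfl]
        simp
      · have h4 : ¬ (1 = n) := fun h => hn1 h.symm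
        rw [if_neg hnp, if_neg h4, if_neg hn0]
        simp only [sub_self]
        by_cases hlt : n < p
        · exact (residue_eq_zero_iff _).mpr (hm n (by omega) hlt)
        · rw [coeff_eq_zero_of_natDegree_lt (by omega), map_zero]

/-- the value of the reduction at `r - j` -/
theorem eval_artinSchreier_sub_natCast {k : Type*} [CommRing k] (p : ℕ) [Fact p.Prime]
    [CharP k p] (c r : k) (j : ℕ) :
    (X ^ p - X - C c : k[X]).eval (r - (j : k)) = (X ^ p - X - C c : k[X]).eval r := by
  have hj : ((j : k)) ^ p = (j : k) := by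
    have h := map_natCast (frobenius k p) j
    rwa [frobenius_def] at h
  simp only [eval_sub, eval_pow, eval_X, eval_C]
  rw [sub_pow_char, hj]
  ring

variable (p : ℕ) [hpF : Fact p.Prime]

/-- **the roots modulo `𝔪` are stable under `a ↦ a - j`** -/
theorem eval_sub_natCast_mem (hpm : (p : R) ∈ maximalIdeal R) (f : R[X]) (hmonic : f.Monic)
    (hdeg : f.natDegree = p) (h1 : f.coeff 1 + 1 ∈ maximalIdeal R)
    (hm : ∀ i, 2 ≤ i → i < p → f.coeff i ∈ maximalIdeal R)
    {a : R} (ha : f.eval a ∈ maximalIdeal R) (j : ℕ) :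
    f.eval (a - (j : R)) ∈ maximalIdeal R := by
  haveI : CharP (ResidueField R) p := charP_residueField p hpF.out hpm
  rw [← residue_eq_zero_iff, ← Polynomial.eval_map_apply] at ha ⊢
  rw [map_residue_eq_artinSchreier f p hpF.out.two_le hmonic hdeg h1 hm] at ha ⊢
  rw [map_sub, map_natCast, eval_artinSchreier_sub_natCast]
  exact ha

/-- **the reduction of `f` splits** as `∏_{j < p} (X - (a - j))` for any root `a` modulo `𝔪`
(hypothesis `hsplit` of `helper33.simple_root_of_split` and of
`helper33.IsMonogenic.eq_ptIdeal_of_prime` with `J = range p`). -/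
theorem map_residue_eq_prod (hpm : (p : R) ∈ maximalIdeal R) (f : R[X]) (hmonic : f.Monic)
    (hdeg : f.natDegree = p) (h1 : f.coeff 1 + 1 ∈ maximalIdeal R)
    (hm : ∀ i, 2 ≤ i → i < p → f.coeff i ∈ maximalIdeal R)
    {a : R} (ha : f.eval a ∈ maximalIdeal R) :
    f.map (residue R) = ∏ j ∈ Finset.range p, (X - C (residue R (a - (j : R)))) := by
  haveI : CharP (ResidueField R) p := charP_residueField p hpF.out hpm
  have hAS := map_residue_eq_artinSchreier f p hpF.out.two_le hmonic hdeg h1 hm
  rw [← residue_eq_zero_iff, ← Polynomial.eval_map_apply, hAS] at ha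
  simp only [eval_sub, eval_pow, eval_X, eval_C] at ha
  have hc : residue R a ^ p - residue R a = - residue R (f.coeff 0) := by
    rw [sub_eq_zero] at ha
    exact ha
  have hprod := helper97.prod_X_sub_C_sub_natCast (L := ResidueField R) p (residue R a)
  rw [hAS, ← hc, ← hprod]
  refine Finset.prod_congr rfl fun j _ => ?_
  rw [map_sub (residue R), map_natCast (residue R)]

/-- **the `p` roots `a - j`, `j < p`, are pairwise distinct modulo `𝔪`** (hypothesis `hinj` of
`helper33.simple_root_of_split`). -/
theorem residue_injOn (hpm : (p : R) ∈ maximalIdeal R) (a : R) :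
    Set.InjOn (fun j : ℕ => residue R (a - (j : R))) (Finset.range p : Set ℕ) := by
  haveI : CharP (ResidueField R) p := charP_residueField p hpF.out hpm
  intro i hi j hj hij
  simp only [map_sub, map_natCast, sub_right_inj] at hij
  have h := (CharP.natCast_eq_natCast (ResidueField R) p).mp hij
  exact Nat.ModEq.eq_of_lt_of_lt h (Finset.mem_range.mp (Finset.mem_coe.mp hi))
    (Finset.mem_range.mp (Finset.mem_coe.mp hj))

/-- a root exists as soon as `R` has an algebraically closed residue field -/
theorem exists_root_of_isAlgClosed {k : Type*} [Field k] [IsAlgClosed k] (ρ : R →+* k)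
    (hρ : Function.Surjective ρ) (f : R[X]) (hmonic : f.Monic) (hdeg : f.natDegree ≠ 0) :
    ∃ a : R, f.eval a ∈ maximalIdeal R := by
  have hd : (f.map ρ).degree ≠ 0 := by
    rw [hmonic.degree_map, degree_eq_natDegree hmonic.ne_zero]
    exact_mod_cast hdeg
  obtain ⟨c, hc⟩ := IsAlgClosed.exists_root (f.map ρ) hd
  obtain ⟨a, rfl⟩ := hρ c
  refine ⟨a, mem_maximalIdeal_of_map_eq_zero ρ ?_⟩
  rw [← Polynomial.eval_map_apply]
  exact hc

end AS

section Points

variable {R : Type*} [CommRing R] [IsDomain R] [IsLocalRing R]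
variable {S : Type*} [CommRing S] [IsDomain S] [Algebra R S]
variable {t : S} {f : R[X]}
variable (p : ℕ) [hpF : Fact p.Prime]

/-- **The points of `S = R[t]` over the closed point of `R`** (Artin - Schreier shape): every
prime ideal of `S` containing `𝔪 S` is one of the `p` maximal ideals `ptIdeal t (a - j)`,
`j < p`, where `a` is any root of `f` modulo `𝔪`. -/
theorem exists_eq_ptIdeal (h : helper33.IsMonogenic t f) (hpm : (p : R) ∈ maximalIdeal R)
    (hdeg : f.natDegree = p) (h1 : f.coeff 1 + 1 ∈ maximalIdeal R)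
    (hm : ∀ i, 2 ≤ i → i < p → f.coeff i ∈ maximalIdeal R)
    {a : R} (ha : f.eval a ∈ maximalIdeal R)
    (Q : Ideal S) [hQ : Q.IsPrime] (hQm : (maximalIdeal R).map (algebraMap R S) ≤ Q) :
    ∃ j < p, Q = helper33.ptIdeal t (a - (j : R)) := by
  obtain ⟨j, hj, hQj⟩ := h.eq_ptIdeal_of_prime (Finset.range p) (fun j : ℕ => a - (j : R))
    (map_residue_eq_prod p hpm f h.monic hdeg h1 hm ha) Q hQm
  exact ⟨j, Finset.mem_range.mp hj, hQj⟩

/-- **All the points are etale points**: each `a - j` is a simple root of `f` modulo `𝔪`. -/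
theorem simple_root_sub_natCast (hmonic : f.Monic) (hpm : (p : R) ∈ maximalIdeal R)
    (hdeg : f.natDegree = p) (h1 : f.coeff 1 + 1 ∈ maximalIdeal R)
    (hm : ∀ i, 2 ≤ i → i < p → f.coeff i ∈ maximalIdeal R)
    {a : R} (ha : f.eval a ∈ maximalIdeal R) (j : ℕ) :
    f.eval (a - (j : R)) ∈ maximalIdeal R ∧
      f.derivative.eval (a - (j : R)) ∉ maximalIdeal R :=
  ⟨eval_sub_natCast_mem p hpm f hmonic hdeg h1 hm ha j,
    derivative_eval_notMem f p hpm hdeg.le h1 hm _⟩

/-- the points `ptIdeal t (a - j)`, `j < p`, are pairwise distinct -/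
theorem ptIdeal_sub_natCast_injOn (h : helper33.IsMonogenic t f)
    (hpm : (p : R) ∈ maximalIdeal R)
    (hdeg : f.natDegree = p) (h1 : f.coeff 1 + 1 ∈ maximalIdeal R)
    (hm : ∀ i, 2 ≤ i → i < p → f.coeff i ∈ maximalIdeal R)
    {a : R} (ha : f.eval a ∈ maximalIdeal R) :
    Set.InjOn (fun j : ℕ => helper33.ptIdeal t (a - (j : R))) (Finset.range p : Set ℕ) := by
  intro i hi j hj hij
  simp only at hij
  apply residue_injOn p hpm a hi hj
  simp only
  -- `t - (a - i)` and `t - (a - j)` lie in the same maximal ideal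
  have hai := eval_sub_natCast_mem p hpm f h.monic hdeg h1 hm ha i
  have haj := eval_sub_natCast_mem p hpm f h.monic hdeg h1 hm ha j
  have hmax := h.ptIdeal_isMaximal (a - (j : R)) haj
  have m1 : t - algebraMap R S (a - (i : R)) ∈ helper33.ptIdeal t (a - (j : R)) := by
    rw [← hij]; exact helper33.sub_mem_ptIdeal t _
  have m2 : t - algebraMap R S (a - (j : R)) ∈ helper33.ptIdeal t (a - (j : R)) :=
    helper33.sub_mem_ptIdeal t _
  have m3 : algebraMap R S ((a - (i : R)) - (a - (j : R))) ∈
      helper33.ptIdeal t (a - (j : R)) := by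
    have := Ideal.sub_mem _ m2 m1
    rw [map_sub]
    convert this using 1
    ring
  have m4 := (h.algebraMap_mem_ptIdeal_iff (a - (j : R)) haj _).mp m3
  have m5 := (residue_eq_zero_iff _).mpr m4
  rw [map_sub, sub_eq_zero] at m5
  exact m5

end Points

section Pack

variable {R0 : Type*} [CommRing R0]
variable {R : Type*} [CommRing R] [IsDomain R] [IsLocalRing R]
variable {K : Type*} [Field K] [Algebra R K]
variable {L : Type*} [CommRing L] [IsDomain L] [Algebra R L] [Algebra K L] [IsScalarTower R K L]
variable {D : Type*} [CommRing D] [Nontrivial D]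

/-- the three membership hypotheses of the Artin - Schreier shape from hypotheses on reduction
maps -/
theorem artinSchreier_hyps_of_red (φ : R0 →+* R) (redL : R →+* D) (red0 : R0 →+* D)
    (hcomp : ∀ r, redL (φ r) = red0 r) (f0 : R0[X]) (p : ℕ) (hp : (p : D) = 0)
    (h1 : red0 (f0.coeff 1) = -1) (hm : ∀ i, 2 ≤ i → i < p → red0 (f0.coeff i) = 0) :
    (p : R) ∈ maximalIdeal R ∧ (f0.map φ).coeff 1 + 1 ∈ maximalIdeal R ∧
      ∀ i, 2 ≤ i → i < p → (f0.map φ).coeff i ∈ maximalIdeal R := by
  refine ⟨mem_maximalIdeal_of_map_eq_zero redL (by rw [map_natCast]; exact hp),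
    mem_maximalIdeal_of_map_eq_zero redL ?_, fun i hi hip =>
      mem_maximalIdeal_of_map_eq_zero redL ?_⟩
  · rw [coeff_map, map_add, hcomp, h1, map_one, neg_add_cancel]
  · rw [coeff_map, hcomp, hm i hi hip]

/-- **SUB-LEAF B, one call.**  `R0` a ring of global functions, `φ : R0 →+* R` its map to the
local domain `R ⊆ K`, `t` in a domain `L ⊇ K`, `f0 ∈ R0[X]` monic of prime degree `p` with
`f0(t) = 0`, the minimal polynomial of `t` over `K` of degree at least `p`, and reduction maps
`red0 = redL ∘ φ` to a nontrivial ring `D` of characteristic `p` with `red0 (f0.coeff 1) = -1`,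
`red0 (f0.coeff i) = 0` for `2 ≤ i < p`.  Then, with `S = R[t]`, `f = f0.map φ`:

* `S` is monogenic over `R` for `f`;
* `f'(a) ∉ 𝔪` for every `a : R` (every point is an etale point);
* if `a` is a root of `f` modulo `𝔪`, so is every `a - j`, these are pairwise distinct modulo
  `𝔪` for `j < p`, and every prime of `S` over `𝔪` is one of the `ptIdeal t (a - j)`, `j < p`. -/
theorem sheets_local (φ : R0 →+* R) (redL : R →+* D) (red0 : R0 →+* D)
    (hcomp : ∀ r, redL (φ r) = red0 r) (hinj : Function.Injective (algebraMap R K))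
    (t : L) (f0 : R0[X]) (p : ℕ) [hpF : Fact p.Prime] (hmonic : f0.Monic)
    (hdegp : f0.natDegree = p) (hroot : aeval t (f0.map φ) = 0)
    (hmin : p ≤ (minpoly K t).natDegree) (hp : (p : D) = 0)
    (h1 : red0 (f0.coeff 1) = -1) (hm : ∀ i, 2 ≤ i → i < p → red0 (f0.coeff i) = 0) :
    helper33.IsMonogenic
        (⟨t, Algebra.self_mem_adjoin_singleton R t⟩ : Algebra.adjoin R {t}) (f0.map φ) ∧
      (∀ a : R, (f0.map φ).derivative.eval a ∉ maximalIdeal R) ∧
      (∀ a : R, (f0.map φ).eval a ∈ maximalIdeal R →
        (∀ j : ℕ, (f0.map φ).eval (a - (j : R)) ∈ maximalIdeal R) ∧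
        Set.InjOn (fun j : ℕ => residue R (a - (j : R))) (Finset.range p : Set ℕ) ∧
        ∀ Q : Ideal (Algebra.adjoin R {t}), Q.IsPrime →
          (maximalIdeal R).map (algebraMap R (Algebra.adjoin R {t})) ≤ Q →
          ∃ j < p, Q = helper33.ptIdeal
            (⟨t, Algebra.self_mem_adjoin_singleton R t⟩ : Algebra.adjoin R {t})
            (a - (j : R))) := by
  obtain ⟨hpm, h1', hm'⟩ := artinSchreier_hyps_of_red φ redL red0 hcomp f0 p hp h1 hm
  have hmono := isMonogenic_of_base φ hinj t f0 hmonic hroot (hdegp.le.trans hmin)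
  have hd : (f0.map φ).natDegree = p := by rw [hmonic.natDegree_map]; exact hdegp
  refine ⟨hmono, fun a => derivative_eval_notMem _ p hpm hd.le h1' hm' a, fun a ha =>
    ⟨fun j => eval_sub_natCast_mem p hpm _ (hmonic.map φ) hd h1' hm' ha j,
      residue_injOn p hpm a, fun Q hQ hQm => ?_⟩⟩
  haveI := hQ
  exact exists_eq_ptIdeal p hmono hpm hd h1' hm' ha Q hQm

end Pack

end Fermat.Agent.T8.helper6
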