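import Fermat.Agent.T8.helper23_DictCover
import Fermat.Agent.T8.helper88_CoverGalInst

/-!
# T8 (row 38, at risk), DICTIONARY ON THE COVER with the inertia action of [COVER-GAL] (helper23)

`D : helper88.CovData M W A p` (the cover `F' = Cov M D.Z = (FF M)⟮incl A Z₁⟯` with the
coefficientwise action `D.actEquiv σ hσ` of the inertia group of `A`).

* `covSet D` : the set of the automorphisms `D.actEquiv σ hσ`, `σ` in the inertia group;
* `dict_cov`, `dictModEq_cov` : the dictionary `DictStatement` / `DictModEqStatement` for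
  `(F', covSet D)`, from `helper23.dict_cover` (the action extends `galF M σ`:
  `helper88.CovData.act_algebraMap`).  Inputs: `IsKummerRoot p D.K D.Z` and `p ∣ div D.K`.

So the fields `orbit` and `gen` of `DictSetting` on `F'` are NOT needed from [COVER-GAL].
-/

set_option autoImplicit false
set_option synthInstance.maxHeartbeats 400000
set_option linter.unusedSectionVars false
set_option linter.style.longLine false

noncomputable section

namespace Fermat.Agent.T8.helper23

open HahnSeries IntermediateField AlgebraicCurve ModularCurve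
open Fermat.Agent.S18.helper19 Fermat.Agent.P2.helper93
open Fermat.Agent.T8.helper88 (CovData Cov)

section Cov

variable {M : ℕ} [NeZero M] {W : FF M ≃ₐ[Kb] FF M} {A : ValuationSubring Kb} {p : ℕ}

/-- the inertia action on the cover, as a set of ring automorphisms -/
def covSet (D : CovData M W A p) : Set (Cov M D.Z ≃+* Cov M D.Z) :=
  {g | ∃ (σ : Kb ≃ₐ[ℚ] Kb) (hσ : σ ∈ A.inertiaSubgroupIn ℚ), g = D.actEquiv σ hσ}

theorem covSet_compat (D : CovData M W A p) :
    ∀ g' ∈ covSet D, ∃ σ ∈ (A.inertiaSubgroupIn ℚ : Set (Kb ≃ₐ[ℚ] Kb)), ∀ f : FF M,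
      g' (algebraMap (FF M) (Cov M D.Z) f) = algebraMap (FF M) (Cov M D.Z) (galF M σ f) := by
  rintro g' ⟨σ, hσ, rfl⟩
  exact ⟨σ, hσ, fun f => D.act_algebraMap σ hσ f⟩

/-- **Dictionary on the cover, inertia action.** -/
theorem dict_cov (D : CovData M W A p) (hKum : helper86.IsKummerRoot p D.K D.Z)
    {Dv : Divisor Kb (FF M)} (hDv : ∀ v : Place Kb (FF M), v.ord D.K = p * Dv v) :
    DictStatement Kb (Cov M D.Z) (covSet D) :=
  dict_cover M hKum hDv (A.inertiaSubgroupIn ℚ : Set (Kb ≃ₐ[ℚ] Kb)) (covSet D)
    (covSet_compat D)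

/-- **Dictionary on the cover, inertia action, consumer form.** -/
theorem dictModEq_cov (D : CovData M W A p) (hKum : helper86.IsKummerRoot p D.K D.Z)
    {Dv : Divisor Kb (FF M)} (hDv : ∀ v : Place Kb (FF M), v.ord D.K = p * Dv v) :
    DictModEqStatement Kb (Cov M D.Z) (covSet D) :=
  dictModEq_cover M hKum hDv (A.inertiaSubgroupIn ℚ : Set (Kb ≃ₐ[ℚ] Kb)) (covSet D)
    (covSet_compat D)

end Cov

end Fermat.Agent.T8.helper23
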