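import Mathlib
import Fermat.Agent.T3.helper84_K0Disc
import Fermat.Agent.T3.helper84_K0Zeta
import Fermat.Agent.T8.helper65_NormIdx

/-!
# T8 (row 38, at risk), leaf [SHEETS] (helper97, owner): the TAME TRACE

The generator of the inertia-fixed part of the cyclic cover is the tame trace
`t = ∑_{c ∈ I / I_K1} σ_c (Z₁ / (ζ - 1))` of the Kummer root `Z₁` (`I = I_A` the inertia group,
`I_K1 = muFix p ⊓ I` the subgroup fixing `ζ = ζ_p`, index `p - 1`).  This file contains the part
of the construction which lives on constants and on Laurent series.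

* `traceCoset act I H u`   : the sum of `act c u` over representatives `c` of `I / H` (additive
                             twin of `helper65.normCoset`);
* `act_traceCoset`         : for `u` fixed by `H` the trace is fixed by `I`;
* `traceCoset_map`         : equivariant additive maps commute with the trace;
* `trC_div_mem`            : **inverse different**: for `z ∈ A` fixed by `I_K1` the trace of
                             `z / (ζ - 1)` lies in `A`  (`p` odd; value group of `ℚ̄^I` generated
                             by the value of `p`: `T3.helper84.k0_disc`);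
* `exists_trL_div`         : for an integral series `Z` fixed by `I_K1` the tame trace of
                             `Z / (ζ - 1)` is an integral series;
* `exists_trL_mul`         : for an integral series `Z` and a constant `g ∈ A` the trace of
                             `g Z` is an integral series with reduction `(p - 1) ḡ red Z`
                             (the inertia group acts trivially on the residue field);
* `exists_trL_sheet`       : the combination used on the sheet `j`: the tame trace of
                             `ζ ^ j Z / (ζ - 1)` is an integral series `T_j` with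
                             `red T_j = red T_0 - j red Z`.
-/

set_option autoImplicit false
set_option linter.unusedSectionVars false
set_option linter.unusedVariables false
set_option linter.style.longLine false
set_option linter.style.haveILetI false

noncomputable section

namespace Fermat.Agent.T8.helper97

open HahnSeries ModularCurve
open Fermat.Agent.S18.helper19 Fermat.Agent.P2.helper29 Fermat.Agent.P2.helper93
open Fermat.Agent.T8.helper65

/-! ### The trace over the cosets (abstract) -/

section Abstract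

variable {G : Type*} [Group G] {F : Type*} [AddCommMonoid F]

/-- the data of an action of `G` on `F` by additive endomorphisms, in unbundled form -/
structure IsAddActFam (act : G → F → F) : Prop where
  mul : ∀ σ τ u, act (σ * τ) u = act σ (act τ u)
  map_add : ∀ σ u v, act σ (u + v) = act σ u + act σ v
  map_zero : ∀ σ, act σ 0 = 0

variable (act : G → F → F) (I H : Subgroup G) [(H.subgroupOf I).FiniteIndex]

/-- the trace from the `H`-fixed elements to the `I`-fixed elements: sum over representatives
of the left cosets of `H` in `I`. -/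
def traceCoset (u : F) : F :=
  letI : Fintype (I ⧸ H.subgroupOf I) := Subgroup.fintypeQuotientOfFiniteIndex
  ∑ c : I ⧸ H.subgroupOf I, act ((Quotient.out c : I) : G) u

variable {act I H}

theorem addAct_eq_of_coset (hact : IsAddActFam act) {u : F} (hu : ∀ h ∈ H, act h u = u)
    {a b : I} (hab : (QuotientGroup.mk a : I ⧸ H.subgroupOf I) = QuotientGroup.mk b) :
    act (a : G) u = act (b : G) u := by
  rw [QuotientGroup.eq] at hab
  have hmem : ((a⁻¹ * b : I) : G) ∈ H := Subgroup.mem_subgroupOf.mp hab
  have h1 : (b : G) = (a : G) * ((a⁻¹ * b : I) : G) := by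
    push_cast
    group
  rw [h1, hact.mul, hu _ hmem]

theorem addAct_sum (hact : IsAddActFam act) (σ : G) {ι : Type*} (s : Finset ι) (f : ι → F) :
    act σ (∑ i ∈ s, f i) = ∑ i ∈ s, act σ (f i) := by
  classical
  induction s using Finset.induction_on with
  | empty => simp [hact.map_zero]
  | insert a s ha ih => rw [Finset.sum_insert ha, Finset.sum_insert ha, hact.map_add, ih]

/-- the trace of an `H`-fixed element is `I`-fixed -/
theorem act_traceCoset (hact : IsAddActFam act) {u : F} (hu : ∀ h ∈ H, act h u = u)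
    {τ : G} (hτ : τ ∈ I) : act τ (traceCoset act I H u) = traceCoset act I H u := by
  classical
  letI : Fintype (I ⧸ H.subgroupOf I) := Subgroup.fintypeQuotientOfFiniteIndex
  unfold traceCoset
  rw [addAct_sum hact]
  let τ' : I := ⟨τ, hτ⟩
  have key : ∀ c : I ⧸ H.subgroupOf I,
      act τ (act ((Quotient.out c : I) : G) u) =
        act ((Quotient.out (τ' • c) : I) : G) u := by
    intro c
    rw [← hact.mul]
    have h1 : (τ : G) * ((Quotient.out c : I) : G) = ((τ' * Quotient.out c : I) : G) := rfl
    rw [h1]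
    apply addAct_eq_of_coset hact hu
    rw [QuotientGroup.out_eq']
    conv_rhs => rw [← QuotientGroup.out_eq' c]
    rfl
  rw [Finset.sum_congr rfl fun c _ => key c]
  exact Fintype.sum_equiv (MulAction.toPerm τ') _ _ fun c => rfl

/-- an additive map which is equivariant for the elements of `I` commutes with the trace -/
theorem traceCoset_map {F' : Type*} [AddCommMonoid F'] {act' : G → F' → F'} (ι : F' →+ F)
    (hι : ∀ σ ∈ I, ∀ u, ι (act' σ u) = act σ (ι u)) (u : F') :
    ι (traceCoset act' I H u) = traceCoset act I H (ι u) := by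
  classical
  letI : Fintype (I ⧸ H.subgroupOf I) := Subgroup.fintypeQuotientOfFiniteIndex
  unfold traceCoset
  rw [map_sum]
  exact Finset.sum_congr rfl fun c _ => hι _ (Quotient.out c : I).2 u

/-- the trace is additive -/
theorem traceCoset_add (hact : IsAddActFam act) (u v : F) :
    traceCoset act I H (u + v) = traceCoset act I H u + traceCoset act I H v := by
  classical
  letI : Fintype (I ⧸ H.subgroupOf I) := Subgroup.fintypeQuotientOfFiniteIndex
  unfold traceCoset
  rw [← Finset.sum_add_distrib]
  exact Finset.sum_congr rfl fun c _ => hact.map_add _ u v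

/-- a property stable under sums and under `I` holds for the trace -/
theorem prop_traceCoset (P : F → Prop) (hP_add : ∀ u v, P u → P v → P (u + v)) (hP_zero : P 0)
    (hP_act : ∀ σ ∈ I, ∀ u, P u → P (act σ u)) {u : F} (hu : P u) :
    P (traceCoset act I H u) := by
  classical
  letI : Fintype (I ⧸ H.subgroupOf I) := Subgroup.fintypeQuotientOfFiniteIndex
  unfold traceCoset
  have hsum : ∀ (s : Finset (I ⧸ H.subgroupOf I)) (f : (I ⧸ H.subgroupOf I) → F),
      (∀ c, P (f c)) → P (∑ c ∈ s, f c) := by
    intro s f hf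
    induction s using Finset.induction_on with
    | empty => simpa using hP_zero
    | insert a s ha ih => rw [Finset.sum_insert ha]; exact hP_add _ _ (hf a) ih
  exact hsum _ _ fun c => hP_act _ (Quotient.out c : I).2 u hu

end Abstract

/-! ### Constants -/

theorem isAddActFam_cAct : IsAddActFam (G := Kb ≃ₐ[ℚ] Kb) cAct where
  mul σ τ u := rfl
  map_add σ u v := map_add σ u v
  map_zero σ := map_zero σ

theorem isAddActFam_cwAct : IsAddActFam (G := Kb ≃ₐ[ℚ] Kb) cwAct where
  mul σ τ u := isActFam_cwAct.mul σ τ u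
  map_add σ u v := map_add (coeffMap (σ : Kb →+* Kb)) u v
  map_zero σ := map_zero (coeffMap (σ : Kb →+* Kb))

section Const

variable (p : ℕ) (A : ValuationSubring Kb)
  [((muFix p ⊓ IA A).subgroupOf (IA A)).FiniteIndex]

/-- the tame trace on constants -/
def trC (c : Kb) : Kb := traceCoset cAct (IA A) (muFix p ⊓ IA A) c

/-- the tame trace on Laurent series (coefficientwise) -/
def trL (f : LaurentSeries Kb) : LaurentSeries Kb :=
  traceCoset cwAct (IA A) (muFix p ⊓ IA A) f

theorem trL_coeff (f : LaurentSeries Kb) (n : ℤ) :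
    (trL p A f).coeff n = trC p A (f.coeff n) :=
  traceCoset_map (act' := cwAct) (act := cAct) (HahnSeries.coeff.addMonoidHom n)
    (fun σ _ u => rfl) f

theorem trL_add (f g : LaurentSeries Kb) : trL p A (f + g) = trL p A f + trL p A g :=
  traceCoset_add isAddActFam_cwAct f g

theorem cAct_trC {c : Kb} (hc : ∀ σ ∈ muFix p ⊓ IA A, σ c = c) {τ : Kb ≃ₐ[ℚ] Kb}
    (hτ : τ ∈ IA A) : τ (trC p A c) = trC p A c :=
  act_traceCoset isAddActFam_cAct hc hτ

theorem cwAct_trL {f : LaurentSeries Kb} (hf : ∀ σ ∈ muFix p ⊓ IA A, cwAct σ f = f)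
    {τ : Kb ≃ₐ[ℚ] Kb} (hτ : τ ∈ IA A) : cwAct τ (trL p A f) = trL p A f :=
  act_traceCoset isAddActFam_cwAct hf hτ

theorem valuation_trC_le {c : Kb} {g : A.ValueGroup}
    (h : ∀ σ ∈ IA A, A.valuation (σ c) ≤ g) : A.valuation (trC p A c) ≤ g := by
  classical
  letI : Fintype (IA A ⧸ (muFix p ⊓ IA A).subgroupOf (IA A)) :=
    Subgroup.fintypeQuotientOfFiniteIndex
  unfold trC traceCoset
  exact Valuation.map_sum_le _ (fun q _ => h _ (Quotient.out q : IA A).2)

/-- the inertia group preserves `A` -/
theorem apply_mem_of_mem_IA {σ : Kb ≃ₐ[ℚ] Kb} (hσ : σ ∈ IA A) {x : Kb} (hx : x ∈ A) :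
    σ x ∈ A := by
  obtain ⟨hσ', -⟩ := decK_eq_id_of_mem_inertia hσ
  exact (decA σ hσ' ⟨x, hx⟩).2

/-- **inverse different**: the tame trace of `z / (ζ - 1)`, `z ∈ A` fixed by `I_K1`, lies in
`A`. -/
theorem trC_div_mem (hp : p.Prime) (hp3 : 3 ≤ p) (hA : A.LiesOverPrime p) {ζ : Kb}
    (hζ : IsPrimitiveRoot ζ p) {z : Kb} (hz : z ∈ A)
    (hfix : ∀ σ ∈ muFix p ⊓ IA A, σ z = z) : trC p A (z / (ζ - 1)) ∈ A := by
  have hw1 : A.valuation (1 - ζ) < 1 := Fermat.Agent.T3.helper84.k0_zeta_val_lt hp A hA hζ
  have hw0 : A.valuation (1 - ζ) ≠ 0 := Fermat.Agent.T3.helper84.k0_zeta_val_ne_zero hp A hζ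
  have hwp : A.valuation (1 - ζ) ^ (p - 1) = A.valuation ((p : ℕ) : Kb) :=
    Fermat.Agent.T3.helper84.k0_zeta_val hp A hζ
  have hvp1 : A.valuation ((p : ℕ) : Kb) < 1 := A.mem_nonunits_iff.mp hA
  have hvp0 : A.valuation ((p : ℕ) : Kb) ≠ 0 := by
    rw [Valuation.ne_zero_iff]
    exact_mod_cast hp.ne_zero
  have hxfix : ∀ σ ∈ IA A, σ (trC p A (z / (ζ - 1))) = trC p A (z / (ζ - 1)) :=
    fun σ hσ => cAct_trC p A (c := z / (ζ - 1)) (by
      intro τ hτ
      rw [map_div₀, map_sub, map_one, hfix τ hτ, hτ.1 ζ hζ.pow_eq_one]) hσ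
  have hb : A.valuation (trC p A (z / (ζ - 1))) ≤ (A.valuation (1 - ζ))⁻¹ := by
    apply valuation_trC_le
    intro σ hσ
    rw [map_div₀, map_div₀, map_sub, map_one]
    have h1 : A.valuation (σ z) ≤ 1 :=
      (A.valuation_le_one_iff _).mpr (apply_mem_of_mem_IA A hσ hz)
    have h2 : A.valuation (σ ζ - 1) = A.valuation (1 - ζ) := by
      rw [← Valuation.map_neg, neg_sub]
      exact Fermat.Agent.T3.helper84.k0_zeta_eq hp A hζ (hζ.map_of_injective σ.injective)
    rw [h2, div_eq_mul_inv]
    exact mul_le_of_le_one_left' h1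
  by_cases hx0 : trC p A (z / (ζ - 1)) = 0
  · rw [hx0]
    exact A.zero_mem
  obtain ⟨m, hm⟩ := Fermat.Agent.T3.helper84.k0_disc hp A hA hx0 hxfix
  rw [← A.valuation_le_one_iff]
  rcases le_or_gt 0 m with hm0 | hm0
  · rw [hm]
    lift m to ℕ using hm0
    rw [zpow_natCast, map_pow]
    exact pow_le_one' hvp1.le m
  · exfalso
    obtain ⟨k, rfl⟩ := Int.eq_negSucc_of_lt_zero hm0
    rw [zpow_negSucc, map_inv₀, map_pow] at hm
    have h1 : A.valuation (trC p A (z / (ζ - 1))) * A.valuation ((p : ℕ) : Kb) ^ (k + 1) = 1 := by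
      rw [hm]
      exact inv_mul_cancel₀ (pow_ne_zero _ hvp0)
    have h2 : A.valuation (trC p A (z / (ζ - 1))) * A.valuation (1 - ζ) ≤ 1 := by
      calc A.valuation (trC p A (z / (ζ - 1))) * A.valuation (1 - ζ)
          ≤ (A.valuation (1 - ζ))⁻¹ * A.valuation (1 - ζ) := mul_le_mul_left hb _
        _ = 1 := inv_mul_cancel₀ hw0
    have h3 : A.valuation (1 - ζ) ^ (p - 2) < 1 := pow_lt_one₀ zero_le hw1 (by omega)
    have h4 : A.valuation ((p : ℕ) : Kb) = A.valuation (1 - ζ) * A.valuation (1 - ζ) ^ (p - 2) := by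
      rw [← hwp, ← pow_succ']
      congr 1
      omega
    have h5 : A.valuation ((p : ℕ) : Kb) ^ k ≤ 1 := pow_le_one' hvp1.le k
    have h6 : A.valuation (trC p A (z / (ζ - 1))) * A.valuation ((p : ℕ) : Kb) ^ (k + 1) < 1 := by
      rw [pow_succ]
      nth_rewrite 2 [h4]
      have e : A.valuation (trC p A (z / (ζ - 1))) *
          (A.valuation ((p : ℕ) : Kb) ^ k *
            (A.valuation (1 - ζ) * A.valuation (1 - ζ) ^ (p - 2))) =
          (A.valuation (trC p A (z / (ζ - 1))) * A.valuation (1 - ζ)) *
            A.valuation ((p : ℕ) : Kb) ^ k * A.valuation (1 - ζ) ^ (p - 2) := by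
        ac_rfl
      rw [e]
      calc (A.valuation (trC p A (z / (ζ - 1))) * A.valuation (1 - ζ)) *
            A.valuation ((p : ℕ) : Kb) ^ k * A.valuation (1 - ζ) ^ (p - 2)
          ≤ 1 * 1 * A.valuation (1 - ζ) ^ (p - 2) :=
            mul_le_mul' (mul_le_mul' h2 h5) le_rfl
        _ = A.valuation (1 - ζ) ^ (p - 2) := by rw [one_mul, one_mul]
        _ < 1 := h3
    rw [h1] at h6
    exact lt_irrefl _ h6

end Const

/-! ### Laurent series -/

section Series

variable (p : ℕ) (A : ValuationSubring Kb)
  [((muFix p ⊓ IA A).subgroupOf (IA A)).FiniteIndex]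

/-- a Laurent series with coefficients in `A` comes from `A((q))` -/
theorem exists_incl_of_coeff_mem (f : LaurentSeries Kb) (hf : ∀ n, f.coeff n ∈ A) :
    ∃ Y : LaurentSeries A, incl A Y = f := by
  have hsupp : Function.support (fun n => (⟨f.coeff n, hf n⟩ : A)) ⊆ f.support := by
    intro n hn
    rw [HahnSeries.mem_support]
    intro h0
    apply hn
    exact Subtype.ext h0
  refine ⟨⟨fun n => ⟨f.coeff n, hf n⟩, f.isPWO_support.mono hsupp⟩, ?_⟩
  ext n
  rw [coeffMap_coeff]
  rfl

theorem coeff_algebraMap_mul (c : Kb) (f : LaurentSeries Kb) (n : ℤ) :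
    (algebraMap Kb (LaurentSeries Kb) c * f).coeff n = c * f.coeff n := by
  rw [algebraMap_laurentSeries_eq_single, HahnSeries.coeff_single_zero_mul]

/-- **the tame trace of `Z / (ζ - 1)` is integral** for an integral series `Z` fixed by
`I_K1`. -/
theorem exists_trL_div (hp : p.Prime) (hp3 : 3 ≤ p) (hA : A.LiesOverPrime p) {ζ : Kb}
    (hζ : IsPrimitiveRoot ζ p) (Z : LaurentSeries A)
    (hfix : ∀ σ ∈ muFix p ⊓ IA A, cwAct σ (incl A Z) = incl A Z) :
    ∃ T : LaurentSeries A,
      incl A T = trL p A (algebraMap Kb (LaurentSeries Kb) (ζ - 1)⁻¹ * incl A Z) := by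
  apply exists_incl_of_coeff_mem
  intro n
  rw [trL_coeff, coeff_algebraMap_mul, mul_comm, ← div_eq_mul_inv]
  apply trC_div_mem p A hp hp3 hA hζ
  · rw [coeffMap_coeff]
    exact (Z.coeff n).2
  · intro σ hσ
    have h1 := congrArg (fun f : LaurentSeries Kb => f.coeff n) (hfix σ hσ)
    exact h1

/-- the trace of an integral series is integral, with reduction `[I : I_K1]` times the
reduction (the inertia group acts trivially on the residue field). -/
theorem exists_trL_incl (X : LaurentSeries A) :
    ∃ T : LaurentSeries A, incl A T = trL p A (incl A X) ∧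
      red A T = ((muFix p ⊓ IA A).subgroupOf (IA A)).index • red A X := by
  classical
  letI : Fintype (IA A ⧸ (muFix p ⊓ IA A).subgroupOf (IA A)) :=
    Subgroup.fintypeQuotientOfFiniteIndex
  have hdec : ∀ c : IA A ⧸ (muFix p ⊓ IA A).subgroupOf (IA A),
      ((Quotient.out c : IA A) : Kb ≃ₐ[ℚ] Kb) ∈ A.decompositionSubgroup ℚ :=
    fun c => (decK_eq_id_of_mem_inertia (Quotient.out c : IA A).2).choose
  refine ⟨∑ c : IA A ⧸ (muFix p ⊓ IA A).subgroupOf (IA A),
    actA ((Quotient.out c : IA A) : Kb ≃ₐ[ℚ] Kb) (hdec c) X, ?_, ?_⟩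
  · rw [map_sum]
    unfold trL traceCoset
    exact Finset.sum_congr rfl fun c _ => coeffMap_subtype_actA _ (hdec c) X
  · rw [map_sum]
    have h1 : ∀ c : IA A ⧸ (muFix p ⊓ IA A).subgroupOf (IA A),
        red A (actA ((Quotient.out c : IA A) : Kb ≃ₐ[ℚ] Kb) (hdec c) X) = red A X :=
      fun c => Fermat.Agent.T2.helper20.red_actA_of_mem_inertia (Quotient.out c : IA A).2 (hdec c) X
    simp only [h1, Finset.sum_const, Finset.card_univ]
    rw [Subgroup.index_eq_card, Nat.card_eq_fintype_card]

/-- a primitive `p`-th root of unity lies in `A` -/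
theorem zeta_mem (hp : p.Prime) {ζ : Kb} (hζ : IsPrimitiveRoot ζ p) : ζ ∈ A := by
  rw [← A.valuation_le_one_iff]
  exact (Fermat.Agent.T3.helper84.k0_valuation_eq_one_of_pow A hp.ne_zero
    (by rw [hζ.pow_eq_one, map_one])).le

/-- the residue class of a primitive `p`-th root of unity is `1` -/
theorem residue_zeta (hp : p.Prime) (hA : A.LiesOverPrime p) {ζ : Kb}
    (hζ : IsPrimitiveRoot ζ p) :
    IsLocalRing.residue A ⟨ζ, zeta_mem p A hp hζ⟩ = 1 := by
  have h1 : A.valuation (1 - ζ) < 1 := Fermat.Agent.T3.helper84.k0_zeta_val_lt hp A hA hζ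
  have h2 : (1 : A) - ⟨ζ, zeta_mem p A hp hζ⟩ ∈ IsLocalRing.maximalIdeal A := by
    rw [A.valuation_lt_one_iff]
    exact h1
  have h3 := (IsLocalRing.residue_eq_zero_iff _).mpr h2
  rw [map_sub, map_one, sub_eq_zero] at h3
  exact h3.symm

/-- **the expansions of the tame trace on the `p` sheets**: for an integral series `Z` fixed
by `I_K1` the traces `T j` of `ζ ^ j Z / (ζ - 1)` are integral, and
`red (T j) = red (T 0) - j * red Z`. -/
theorem exists_trL_sheet (hp : p.Prime) (hp3 : 3 ≤ p) (hA : A.LiesOverPrime p) {ζ : Kb}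
    (hζ : IsPrimitiveRoot ζ p) (Z : LaurentSeries A)
    (hfix : ∀ σ ∈ muFix p ⊓ IA A, cwAct σ (incl A Z) = incl A Z) :
    ∃ T : ℕ → LaurentSeries A,
      (∀ j, incl A (T j) =
        trL p A (algebraMap Kb (LaurentSeries Kb) (ζ ^ j * (ζ - 1)⁻¹) * incl A Z)) ∧
      (∀ j, red A (T j) = red A (T 0) - (j : LaurentSeries (kA A)) * red A Z) := by
  haveI : Fact p.Prime := ⟨hp⟩
  haveI : CharP (kA A) p := Fermat.Agent.P2.helper93.charP_residueField hp hA
  have hidx : ((muFix p ⊓ IA A).subgroupOf (IA A)).index = p - 1 := index_muFix A hA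
  obtain ⟨T₀, hT₀⟩ := exists_trL_div p A hp hp3 hA hζ Z hfix
  -- the geometric sums
  let g : ℕ → A := fun j => ∑ i ∈ Finset.range j, (⟨ζ, zeta_mem p A hp hζ⟩ : A) ^ i
  have hg : ∀ j, ((g j : A) : Kb) = ∑ i ∈ Finset.range j, ζ ^ i := by
    intro j
    simp only [g]
    push_cast
    rfl
  have hζ1 : ζ - 1 ≠ 0 := sub_ne_zero.mpr (hζ.ne_one hp.one_lt)
  have hsplit : ∀ j, ζ ^ j * (ζ - 1)⁻¹ = (ζ - 1)⁻¹ + ((g j : A) : Kb) := by
    intro j
    rw [hg]
    have h1 := mul_geom_sum ζ j
    field_simp
    linear_combination -h1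
  have hres : ∀ j, IsLocalRing.residue A (g j) = (j : kA A) := by
    intro j
    simp only [g]
    rw [map_sum]
    simp only [map_pow, residue_zeta p A hp hA hζ, one_pow, Finset.sum_const, Finset.card_range,
      nsmul_eq_mul, mul_one]
  choose T' hT' hT'red using fun j => exists_trL_incl p A (HahnSeries.single 0 (g j) * Z)
  have hincl : ∀ j, incl A (HahnSeries.single 0 (g j) * Z) =
      algebraMap Kb (LaurentSeries Kb) ((g j : A) : Kb) * incl A Z := by
    intro j
    rw [map_mul, algebraMap_laurentSeries_eq_single]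
    congr 1
    exact coeffMap_single _ _ _
  have hredX : ∀ j, red A (HahnSeries.single 0 (g j) * Z) =
      (j : LaurentSeries (kA A)) * red A Z := by
    intro j
    rw [map_mul]
    congr 1
    have h1 : red A (HahnSeries.single 0 (g j)) = HahnSeries.single 0 (IsLocalRing.residue A (g j)) :=
      coeffMap_single _ _ _
    rw [h1, hres]
    exact (map_natCast (HahnSeries.C : kA A →+* LaurentSeries (kA A)) j)
  have hredT' : ∀ j, red A (T' j) = -((j : LaurentSeries (kA A)) * red A Z) := by
    intro j
    rw [hT'red, hidx, hredX]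
    have h1 : ((p - 1 : ℕ) : LaurentSeries (kA A)) = -1 := by
      have h2 : ((p : ℕ) : LaurentSeries (kA A)) = 0 := by
        have h3 : ((p : ℕ) : kA A) = 0 := CharP.cast_eq_zero (kA A) p
        have h4 := congrArg (HahnSeries.C : kA A →+* LaurentSeries (kA A)) h3
        rw [map_natCast, map_zero] at h4
        exact h4
      have h5 : ((p - 1 : ℕ) : LaurentSeries (kA A)) + 1 = 0 := by
        have h6 : p - 1 + 1 = p := Nat.sub_add_cancel hp.one_lt.le
        rw [← h2]
        exact_mod_cast congrArg (Nat.cast : ℕ → LaurentSeries (kA A)) h6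
      exact eq_neg_of_add_eq_zero_left h5
    rw [nsmul_eq_mul, h1]
    ring
  refine ⟨fun j => T₀ + T' j, fun j => ?_, fun j => ?_⟩
  · show incl A (T₀ + T' j) = _
    rw [map_add, hT₀, hT', hincl, ← trL_add, ← add_mul, ← map_add, hsplit]
  · show red A (T₀ + T' j) = red A (T₀ + T' 0) - _
    rw [map_add, map_add, hredT', hredT']
    push_cast
    ring

end Series

end Fermat.Agent.T8.helper97

end
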