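import Mathlib
import Fermat.Agent.T8.helper97_TameTrace
import Fermat.Agent.T8.helper97_ConjPoly
import Fermat.Agent.T8.helper88_CoverGalInst

/-!
# T8 (row 38, at risk), leaf [SHEETS] (helper97, owner): INSTANCE, the generator `t`

`D : helper88.CovData M W A p` the data of the cover `F' = F⟮Z⟯ ⊆ ℚ̄((q))`, `ζ` a primitive
`p`-th root of unity, `ρ` the deck map `Z ↦ ζ Z`.

* `tGen D ζ : F'`   : **the tame trace** `t = ∑_{c ∈ I / I_K1} σ_c (Z / (ζ - 1))`;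
* `sh1 j`, `sh2 j`  : the `2 p` sheets `ι₁ ∘ ρ ^ j`, `ι₂ ∘ ρ ^ j : F' → ℚ̄((q))`;
* `sh1_tGen`, `sh2_tGen` : the expansion of `t` on the sheet `j` is the tame trace of
                      `ζ ^ j Z₁ / (ζ - 1)` resp. `ζ ^ j Z₂ / (ζ - 1)`;
* `act_tGen`        : `t` is fixed by the inertia group (if `Z₁` is fixed by `I_K1`);
* `exists_sheet_models` : **integrality and separation**: there are integral series `T₁ j`,
                      `T₂ j` with `incl (T_i j) = sh_i j t` and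
                      `red (T_i j) = red (T_i 0) - j`  (`red Z_i = 1`).
-/

set_option autoImplicit false
set_option synthInstance.maxHeartbeats 400000
set_option linter.unusedSectionVars false
set_option linter.unusedVariables false
set_option linter.style.longLine false
set_option linter.style.haveILetI false

noncomputable section

open HahnSeries IntermediateField AlgebraicCurve ModularCurve
open Fermat.Agent.S18.helper19 Fermat.Agent.P2.helper29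
open Fermat.Agent.P2.helper22 Fermat.Agent.P2.helper74 Fermat.Agent.P2.helper93
open Fermat.Agent.T2.helper74 Fermat.Agent.T2.helper36
open Fermat.Agent.T8.helper86 Fermat.Agent.T8.helper88 Fermat.Agent.T8.helper65

namespace Fermat.Agent.T8.helper97

variable {M : ℕ} [NeZero M] {W : FF M ≃ₐ[Kb] FF M} {A : ValuationSubring Kb} {p : ℕ}
  (D : CovData M W A p)

/-- the inertia action on the cover, extended by the identity outside the inertia group -/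
def covAct (σ : Kb ≃ₐ[ℚ] Kb) (x : Cov M D.Z) : Cov M D.Z :=
  open Classical in if h : σ ∈ IA A then D.act σ h x else x

theorem covAct_of_mem {σ : Kb ≃ₐ[ℚ] Kb} (hσ : σ ∈ IA A) (x : Cov M D.Z) :
    covAct D σ x = D.act σ hσ x := by
  unfold covAct
  rw [dif_pos hσ]

/-- the constants of the cover -/
def cst (c : Kb) : Cov M D.Z := algebraMap (FF M) (Cov M D.Z) (algebraMap Kb (FF M) c)

theorem coe_cst (c : Kb) :
    ((cst D c : Cov M D.Z) : LaurentSeries Kb) = algebraMap Kb (LaurentSeries Kb) c := rfl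

/-- `Z / (ζ - 1)` in the cover -/
def u0 (ζ : Kb) : Cov M D.Z := cst D (ζ - 1)⁻¹ * D.gen

variable [((muFix p ⊓ IA A).subgroupOf (IA A)).FiniteIndex]

/-- **the tame trace** `t = ∑_{c ∈ I / I_K1} σ_c (Z / (ζ - 1))`, the generator of the
inertia-fixed part of the cover. -/
def tGen (ζ : Kb) : Cov M D.Z := traceCoset (covAct D) (IA A) (muFix p ⊓ IA A) (u0 D ζ)

/-- an additive map on the cover which is equivariant for the inertia group maps the tame trace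
to the tame trace -/
theorem map_tGen (ζ : Kb) (ι : Cov M D.Z →+ LaurentSeries Kb)
    (hι : ∀ (σ : Kb ≃ₐ[ℚ] Kb) (hσ : σ ∈ IA A) (x : Cov M D.Z),
      ι (D.act σ hσ x) = cwAct σ (ι x)) :
    ι (tGen D ζ) = trL p A (ι (u0 D ζ)) :=
  traceCoset_map (act' := covAct D) (act := cwAct) ι
    (fun σ hσ x => by rw [covAct_of_mem D hσ]; exact hι σ hσ x) (u0 D ζ)

variable (hKum : IsKummerRoot p D.K D.Z) (ζ : Kb) (hζ : IsPrimitiveRoot ζ p)

/-- the sheet `ι₁ ∘ ρ ^ j` -/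
def sh1 (j : ℕ) : Cov M D.Z →+* LaurentSeries Kb :=
  (algebraMap (Cov M D.Z) (LaurentSeries Kb)).comp
    (RingHomClass.toRingHom ((D.rho hKum ζ hζ.pow_eq_one) ^ j))

/-- the sheet `ι₂ ∘ ρ ^ j` -/
def sh2 (j : ℕ) : Cov M D.Z →+* LaurentSeries Kb :=
  (D.sheet2 hKum).comp (RingHomClass.toRingHom ((D.rho hKum ζ hζ.pow_eq_one) ^ j))

theorem sh1_apply (j : ℕ) (x : Cov M D.Z) :
    sh1 D hKum ζ hζ j x = ((((D.rho hKum ζ hζ.pow_eq_one) ^ j) x : Cov M D.Z) :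
      LaurentSeries Kb) := rfl

theorem sh2_apply (j : ℕ) (x : Cov M D.Z) :
    sh2 D hKum ζ hζ j x = D.sheet2 hKum (((D.rho hKum ζ hζ.pow_eq_one) ^ j) x) := rfl

theorem sh1_act (j : ℕ) (σ : Kb ≃ₐ[ℚ] Kb) (hσ : σ ∈ IA A) (x : Cov M D.Z) :
    sh1 D hKum ζ hζ j (D.act σ hσ x) = cwAct σ (sh1 D hKum ζ hζ j x) :=
  D.sheet1_pow_act hKum ζ hζ.pow_eq_one σ hσ j x

theorem sh2_act (j : ℕ) (σ : Kb ≃ₐ[ℚ] Kb) (hσ : σ ∈ IA A) (x : Cov M D.Z) :
    sh2 D hKum ζ hζ j (D.act σ hσ x) = cwAct σ (sh2 D hKum ζ hζ j x) :=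
  D.sheet2_pow_act hKum ζ hζ.pow_eq_one σ hσ j x

theorem rho_pow_cst (j : ℕ) (c : Kb) :
    ((D.rho hKum ζ hζ.pow_eq_one) ^ j) (cst D c) = cst D c :=
  ((D.rho hKum ζ hζ.pow_eq_one) ^ j).commutes _

theorem rho_pow_gen (j : ℕ) :
    ((D.rho hKum ζ hζ.pow_eq_one) ^ j) D.gen = cst D (ζ ^ j) * D.gen := by
  have h := deck_pow_gen hKum (algebraMap Kb (FF M) ζ) (CovData.zeta_pow (M := M) ζ hζ.pow_eq_one) j
  rw [← map_pow] at h
  exact h

theorem rho_pow_u0 (j : ℕ) :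
    ((D.rho hKum ζ hζ.pow_eq_one) ^ j) (u0 D ζ) = cst D (ζ ^ j * (ζ - 1)⁻¹) * D.gen := by
  unfold u0
  rw [map_mul, rho_pow_cst D hKum ζ hζ, rho_pow_gen D hKum ζ hζ]
  unfold cst
  rw [map_mul, map_mul]
  ring

theorem sh1_u0 (j : ℕ) :
    sh1 D hKum ζ hζ j (u0 D ζ) =
      algebraMap Kb (LaurentSeries Kb) (ζ ^ j * (ζ - 1)⁻¹) * incl A D.Z₁ := by
  rw [sh1_apply, rho_pow_u0 D hKum ζ hζ]
  rfl

theorem sheet2_cst (c : Kb) :
    D.sheet2 hKum (cst D c) = algebraMap Kb (LaurentSeries Kb) c := by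
  unfold cst
  rw [D.sheet2_algebraMap, W.commutes]
  rfl

theorem sh2_u0 (j : ℕ) :
    sh2 D hKum ζ hζ j (u0 D ζ) =
      algebraMap Kb (LaurentSeries Kb) (ζ ^ j * (ζ - 1)⁻¹) * incl A D.Z₂ := by
  rw [sh2_apply, rho_pow_u0 D hKum ζ hζ, map_mul, sheet2_cst, D.sheet2_gen]
  rfl

/-- the expansion of `t` on the sheet `(1, j)` -/
theorem sh1_tGen (j : ℕ) :
    sh1 D hKum ζ hζ j (tGen D ζ) =
      trL p A (algebraMap Kb (LaurentSeries Kb) (ζ ^ j * (ζ - 1)⁻¹) * incl A D.Z₁) := by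
  have h := map_tGen D ζ (sh1 D hKum ζ hζ j).toAddMonoidHom (sh1_act D hKum ζ hζ j)
  rw [RingHom.toAddMonoidHom_eq_coe, AddMonoidHom.coe_coe, sh1_u0] at h
  exact h

/-- the expansion of `t` on the sheet `(2, j)` -/
theorem sh2_tGen (j : ℕ) :
    sh2 D hKum ζ hζ j (tGen D ζ) =
      trL p A (algebraMap Kb (LaurentSeries Kb) (ζ ^ j * (ζ - 1)⁻¹) * incl A D.Z₂) := by
  have h := map_tGen D ζ (sh2 D hKum ζ hζ j).toAddMonoidHom (sh2_act D hKum ζ hζ j)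
  rw [RingHom.toAddMonoidHom_eq_coe, AddMonoidHom.coe_coe, sh2_u0] at h
  exact h

theorem sh1_zero (x : Cov M D.Z) : sh1 D hKum ζ hζ 0 x = (x : LaurentSeries Kb) := by
  rw [sh1_apply, pow_zero, AlgEquiv.one_apply]

theorem sh2_zero (x : Cov M D.Z) : sh2 D hKum ζ hζ 0 x = D.sheet2 hKum x := by
  rw [sh2_apply, pow_zero, AlgEquiv.one_apply]

include hKum hζ in
/-- the first expansion of `t` -/
theorem coe_tGen :
    ((tGen D ζ : Cov M D.Z) : LaurentSeries Kb) =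
      trL p A (algebraMap Kb (LaurentSeries Kb) (ζ - 1)⁻¹ * incl A D.Z₁) := by
  have h := sh1_tGen D hKum ζ hζ 0
  rw [sh1_zero, pow_zero, one_mul] at h
  exact h

/-- `Z / (ζ - 1)` is fixed by `I_K1` as soon as `Z` is -/
theorem cwAct_div_of_fix {Zs : LaurentSeries Kb}
    (hfix : ∀ σ ∈ muFix p ⊓ IA A, cwAct σ Zs = Zs) (c : Kb)
    (hc : ∀ σ ∈ muFix p ⊓ IA A, σ c = c) :
    ∀ σ ∈ muFix p ⊓ IA A,
      cwAct σ (algebraMap Kb (LaurentSeries Kb) c * Zs) =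
        algebraMap Kb (LaurentSeries Kb) c * Zs := by
  intro σ hσ
  rw [isActFam_cwAct.map_mul, cwAct_algebraMap, hfix σ hσ]
  show algebraMap Kb (LaurentSeries Kb) (σ c) * Zs = _
  rw [hc σ hσ]

include hKum hζ in
/-- **`t` is fixed by the inertia group** -/
theorem act_tGen (hfix1 : ∀ σ ∈ muFix p ⊓ IA A, cwAct σ (incl A D.Z₁) = incl A D.Z₁)
    (σ : Kb ≃ₐ[ℚ] Kb) (hσ : σ ∈ IA A) : D.act σ hσ (tGen D ζ) = tGen D ζ := by
  apply Subtype.ext
  rw [CovData.coe_act, coe_tGen D hKum ζ hζ]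
  refine cwAct_trL p A (cwAct_div_of_fix hfix1 _ ?_) hσ
  intro τ hτ
  rw [map_inv₀, map_sub, map_one, hτ.1 ζ hζ.pow_eq_one]

/-- **integrality and separation on the `2 p` sheets**: the expansions of `t` are integral and
their reductions on the sheets `(i, j)`, `j < p`, are `r_i - j`. -/
theorem exists_sheet_models (hp3 : 3 ≤ p) (hA : A.LiesOverPrime p)
    (hfix1 : ∀ σ ∈ muFix p ⊓ IA A, cwAct σ (incl A D.Z₁) = incl A D.Z₁)
    (hfix2 : ∀ σ ∈ muFix p ⊓ IA A, cwAct σ (incl A D.Z₂) = incl A D.Z₂)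
    (hr1 : red A D.Z₁ = 1) (hr2 : red A D.Z₂ = 1) :
    ∃ T₁ T₂ : ℕ → LaurentSeries A,
      (∀ j, incl A (T₁ j) = sh1 D hKum ζ hζ j (tGen D ζ)) ∧
      (∀ j, incl A (T₂ j) = sh2 D hKum ζ hζ j (tGen D ζ)) ∧
      (∀ j, red A (T₁ j) = red A (T₁ 0) - (j : LaurentSeries (kA A))) ∧
      (∀ j, red A (T₂ j) = red A (T₂ 0) - (j : LaurentSeries (kA A))) := by
  obtain ⟨T₁, h1, h1'⟩ := exists_trL_sheet p A D.hp hp3 hA hζ D.Z₁ hfix1
  obtain ⟨T₂, h2, h2'⟩ := exists_trL_sheet p A D.hp hp3 hA hζ D.Z₂ hfix2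
  refine ⟨T₁, T₂, fun j => ?_, fun j => ?_, fun j => ?_, fun j => ?_⟩
  · rw [h1, sh1_tGen]
  · rw [h2, sh2_tGen]
  · rw [h1', hr1, mul_one]
  · rw [h2', hr2, mul_one]

/-- the deck conjugates of `t` are pairwise different: `ρ ^ j t ≠ t` for `0 < j < p` -/
theorem rho_pow_tGen_ne (hp3 : 3 ≤ p) (hA : A.LiesOverPrime p)
    (hfix1 : ∀ σ ∈ muFix p ⊓ IA A, cwAct σ (incl A D.Z₁) = incl A D.Z₁)
    (hfix2 : ∀ σ ∈ muFix p ⊓ IA A, cwAct σ (incl A D.Z₂) = incl A D.Z₂)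
    (hr1 : red A D.Z₁ = 1) (hr2 : red A D.Z₂ = 1) {j : ℕ} (hj0 : 0 < j) (hjp : j < p) :
    ((D.rho hKum ζ hζ.pow_eq_one) ^ j) (tGen D ζ) ≠ tGen D ζ := by
  obtain ⟨T₁, T₂, h1, -, h1', -⟩ :=
    exists_sheet_models D hKum ζ hζ hp3 hA hfix1 hfix2 hr1 hr2
  intro h
  have e1 : sh1 D hKum ζ hζ j (tGen D ζ) = sh1 D hKum ζ hζ 0 (tGen D ζ) := by
    rw [sh1_apply, sh1_zero, h]
  rw [← h1, ← h1] at e1
  have e2 : T₁ j = T₁ 0 := Fermat.Agent.T2.helper36.incl_injective_val A e1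
  have e3 := h1' j
  rw [e2] at e3
  have e4 : ((j : ℕ) : LaurentSeries (kA A)) = 0 := by
    have := sub_eq_self.mp e3.symm
    exact this
  haveI : CharP (kA A) p := Fermat.Agent.P2.helper93.charP_residueField D.hp hA
  have e5 : ((j : ℕ) : kA A) = 0 := by
    have h5 : (HahnSeries.C : kA A →+* LaurentSeries (kA A)) ((j : ℕ) : kA A) = 0 := by
      rw [map_natCast]
      exact e4
    exact (map_eq_zero_iff _ HahnSeries.C_injective).mp h5
  have e6 := (CharP.cast_eq_zero_iff (kA A) p j).mp e5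
  exact absurd (Nat.le_of_dvd hj0 e6) (not_le.mpr hjp)

end Fermat.Agent.T8.helper97

end
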