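import Mathlib
import Fermat.Agent.T8.helper97_SheetsInst
import Fermat.Agent.T8.helper23_DictCov

/-!
# T8 (row 38, at risk), leaf [SHEETS] (helper97, owner): the tame trace GENERATES the cover

`D : helper88.CovData M W A p`, `t = tGen D ζ`.

* `tGen_fixed_covSet`      : `t` is fixed by `helper23.covSet D` (the input `htfix` of
                             `helper23.dict_covRing` / `hfrac_covRing`);
* `natDegree_minpoly_tGen` : the minimal polynomial of `t` over `F = FF M` has degree `p`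
                             (the input `hmin` of `helper6.sheets_local`);
* `adjoin_tGen_eq_top`     : `F⟮t⟯ = ⊤` (the input `hgen` of `helper23.dict_covRing`).
-/

set_option autoImplicit false
set_option synthInstance.maxHeartbeats 400000
set_option linter.unusedSectionVars false
set_option linter.unusedVariables false
set_option linter.style.longLine false
set_option linter.style.haveILetI false

noncomputable section

open IntermediateField AlgebraicCurve ModularCurve Polynomial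
open Fermat.Agent.S18.helper19 Fermat.Agent.P2.helper29
open Fermat.Agent.P2.helper22 Fermat.Agent.P2.helper74 Fermat.Agent.P2.helper93
open Fermat.Agent.T2.helper74 Fermat.Agent.T2.helper36
open Fermat.Agent.T8.helper86 Fermat.Agent.T8.helper88 Fermat.Agent.T8.helper65

namespace Fermat.Agent.T8.helper97

variable {M : ℕ} [NeZero M] {W : FF M ≃ₐ[Kb] FF M} {A : ValuationSubring Kb} {p : ℕ}
  (D : CovData M W A p) [((muFix p ⊓ IA A).subgroupOf (IA A)).FiniteIndex]
  (hKum : IsKummerRoot p D.K D.Z) (ζ : Kb) (hζ : IsPrimitiveRoot ζ p)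

include hKum hζ in
/-- `t` is fixed by the inertia action on the cover -/
theorem tGen_fixed_covSet
    (hfix1 : ∀ σ ∈ muFix p ⊓ IA A, cwAct σ (incl A D.Z₁) = incl A D.Z₁) :
    ∀ g ∈ helper23.covSet D, g (tGen D ζ) = tGen D ζ := by
  rintro g ⟨σ, hσ, rfl⟩
  exact act_tGen D hKum ζ hζ hfix1 σ hσ

/-- the deck conjugates `ρ ^ j t`, `j < p`, are pairwise different -/
theorem rho_pow_tGen_injOn (hp3 : 3 ≤ p) (hA : A.LiesOverPrime p)
    (hfix1 : ∀ σ ∈ muFix p ⊓ IA A, cwAct σ (incl A D.Z₁) = incl A D.Z₁)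
    (hfix2 : ∀ σ ∈ muFix p ⊓ IA A, cwAct σ (incl A D.Z₂) = incl A D.Z₂)
    (hr1 : red A D.Z₁ = 1) (hr2 : red A D.Z₂ = 1) :
    Set.InjOn (fun j : ℕ => ((D.rho hKum ζ hζ.pow_eq_one) ^ j) (tGen D ζ))
      (Finset.range p : Set ℕ) := by
  have key : ∀ i j : ℕ, i < j → j < p →
      ((D.rho hKum ζ hζ.pow_eq_one) ^ i) (tGen D ζ) ≠
        ((D.rho hKum ζ hζ.pow_eq_one) ^ j) (tGen D ζ) := by
    intro i j hij hjp h
    have e : (D.rho hKum ζ hζ.pow_eq_one) ^ j =
        (D.rho hKum ζ hζ.pow_eq_one) ^ i * (D.rho hKum ζ hζ.pow_eq_one) ^ (j - i) := by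
      rw [← pow_add]
      congr 1
      omega
    rw [e, AlgEquiv.mul_apply] at h
    have h2 := ((D.rho hKum ζ hζ.pow_eq_one) ^ i).injective h
    exact rho_pow_tGen_ne D hKum ζ hζ hp3 hA hfix1 hfix2 hr1 hr2 (j := j - i) (by omega)
      (by omega) h2.symm
  intro i hi j hj hij
  simp only [Finset.coe_range, Set.mem_Iio] at hi hj
  rcases lt_trichotomy i j with h | h | h
  · exact absurd hij (key i j h hj)
  · exact h
  · exact absurd hij.symm (key j i h hi)

include hKum hζ in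
/-- **the minimal polynomial of `t` over `F` has degree at least `p`** -/
theorem le_natDegree_minpoly_tGen (hp3 : 3 ≤ p) (hA : A.LiesOverPrime p)
    (hfix1 : ∀ σ ∈ muFix p ⊓ IA A, cwAct σ (incl A D.Z₁) = incl A D.Z₁)
    (hfix2 : ∀ σ ∈ muFix p ⊓ IA A, cwAct σ (incl A D.Z₂) = incl A D.Z₂)
    (hr1 : red A D.Z₁ = 1) (hr2 : red A D.Z₂ = 1) :
    p ≤ (minpoly (FF M) (tGen D ζ)).natDegree := by
  classical
  haveI : FiniteDimensional (FF M) (Cov M D.Z) := adjoin.finiteDimensional hKum.isIntegral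
  have hint : IsIntegral (FF M) (tGen D ζ) := Algebra.IsIntegral.isIntegral _
  set P := (minpoly (FF M) (tGen D ζ)).map (algebraMap (FF M) (Cov M D.Z)) with hP
  have hP0 : P ≠ 0 :=
    (Polynomial.map_ne_zero_iff (algebraMap (FF M) (Cov M D.Z)).injective).mpr
      (minpoly.ne_zero hint)
  have hroot : ∀ j : ℕ, ((D.rho hKum ζ hζ.pow_eq_one) ^ j) (tGen D ζ) ∈ P.roots := by
    intro j
    rw [mem_roots hP0, IsRoot.def, hP, eval_map, ← aeval_def]
    have h1 := aeval_algHom_apply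
      (((D.rho hKum ζ hζ.pow_eq_one) ^ j : Cov M D.Z ≃ₐ[FF M] Cov M D.Z) :
        Cov M D.Z →ₐ[FF M] Cov M D.Z) (tGen D ζ) (minpoly (FF M) (tGen D ζ))
    rw [minpoly.aeval, map_zero] at h1
    exact h1
  have hinj := rho_pow_tGen_injOn D hKum ζ hζ hp3 hA hfix1 hfix2 hr1 hr2
  have hcard : ((Finset.range p).image
      (fun j : ℕ => ((D.rho hKum ζ hζ.pow_eq_one) ^ j) (tGen D ζ))).card = p := by
    rw [Finset.card_image_of_injOn hinj, Finset.card_range]
  have hsub : (Finset.range p).image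
      (fun j : ℕ => ((D.rho hKum ζ hζ.pow_eq_one) ^ j) (tGen D ζ)) ⊆ P.roots.toFinset := by
    intro x hx
    obtain ⟨j, -, rfl⟩ := Finset.mem_image.mp hx
    exact Multiset.mem_toFinset.mpr (hroot j)
  calc p = _ := hcard.symm
    _ ≤ P.roots.toFinset.card := Finset.card_le_card hsub
    _ ≤ Multiset.card P.roots := Multiset.toFinset_card_le _
    _ ≤ P.natDegree := card_roots' P
    _ = (minpoly (FF M) (tGen D ζ)).natDegree :=
        natDegree_map_eq_of_injective (algebraMap (FF M) (Cov M D.Z)).injective _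

include hKum hζ in
/-- **the tame trace generates the cover**: `F⟮t⟯ = ⊤` -/
theorem adjoin_tGen_eq_top (hp3 : 3 ≤ p) (hA : A.LiesOverPrime p)
    (hfix1 : ∀ σ ∈ muFix p ⊓ IA A, cwAct σ (incl A D.Z₁) = incl A D.Z₁)
    (hfix2 : ∀ σ ∈ muFix p ⊓ IA A, cwAct σ (incl A D.Z₂) = incl A D.Z₂)
    (hr1 : red A D.Z₁ = 1) (hr2 : red A D.Z₂ = 1) :
    (FF M)⟮tGen D ζ⟯ = ⊤ := by
  haveI : FiniteDimensional (FF M) (Cov M D.Z) := adjoin.finiteDimensional hKum.isIntegral
  have hint : IsIntegral (FF M) (tGen D ζ) := Algebra.IsIntegral.isIntegral _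
  apply IntermediateField.eq_of_le_of_finrank_eq le_top
  rw [IntermediateField.finrank_top', adjoin.finrank hint]
  have h3 : Module.finrank (FF M) (Cov M D.Z) = p := hKum.finrank_eq
  rw [h3]
  apply le_antisymm
  · have h1 : (minpoly (FF M) (tGen D ζ)).natDegree = Module.finrank (FF M) (FF M)⟮tGen D ζ⟯ :=
      (adjoin.finrank hint).symm
    have h2 : Module.finrank (FF M) (FF M)⟮tGen D ζ⟯ ≤ Module.finrank (FF M) (Cov M D.Z) :=
      Submodule.finrank_le (FF M)⟮tGen D ζ⟯.toSubalgebra.toSubmodule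
    have h3 : Module.finrank (FF M) (Cov M D.Z) = p := hKum.finrank_eq
    omega
  · exact le_natDegree_minpoly_tGen D hKum ζ hζ hp3 hA hfix1 hfix2 hr1 hr2

include hKum hζ in
/-- **the minimal polynomial of `t` over `F` has degree `p`** -/
theorem natDegree_minpoly_tGen (hp3 : 3 ≤ p) (hA : A.LiesOverPrime p)
    (hfix1 : ∀ σ ∈ muFix p ⊓ IA A, cwAct σ (incl A D.Z₁) = incl A D.Z₁)
    (hfix2 : ∀ σ ∈ muFix p ⊓ IA A, cwAct σ (incl A D.Z₂) = incl A D.Z₂)
    (hr1 : red A D.Z₁ = 1) (hr2 : red A D.Z₂ = 1) :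
    (minpoly (FF M) (tGen D ζ)).natDegree = p := by
  haveI : FiniteDimensional (FF M) (Cov M D.Z) := adjoin.finiteDimensional hKum.isIntegral
  have hint : IsIntegral (FF M) (tGen D ζ) := Algebra.IsIntegral.isIntegral _
  have h1 := adjoin_tGen_eq_top D hKum ζ hζ hp3 hA hfix1 hfix2 hr1 hr2
  have h2 := adjoin.finrank hint
  have h3 : Module.finrank (FF M) (Cov M D.Z) = p := hKum.finrank_eq
  rw [h1, IntermediateField.finrank_top', h3] at h2
  exact h2.symm

end Fermat.Agent.T8.helper97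

end
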