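import Mathlib
import Fermat.Agent.T8.helper33_SheetsAbs2

/-!
# T8 (row 38, at risk), helper33: [SHEETS], from a separating integral element to the etale point

Mathlib + `helper33_SheetsAbs(2)` only.  Setting: `R` a domain inside a field `E`,
`ρ : E →+* E` a ring endomorphism fixing `R` (the deck map on the `I`-fixed part of the cover
field), `t : E` integral over `R` with `ρ^[p] t = t`.

* `conjPoly ρ p t = ∏_{j < p} (X - ρ^[j] t)`; `exists_poly_of_conj` : it descends to a monic
  `f ∈ R[X]` as soon as every `ρ`-fixed element of `E` integral over `R` lies in `R`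
  (`R` integrally closed, fixed field of `ρ` = fraction field of `R`);
* `isMonogenic_of_conj` : if the conjugates `ρ^[j] t`, `j < p`, are pairwise distinct, then
  `R[t]` with `f` is monogenic (`IsMonogenic`);
* `map_residue_eq_of_red` : if a reduction `φ : V →+* κ` on a subring `V ⊆ E` extends the residue
  map of `R` and sends `ρ^[j] t` to `c j`, then `f mod 𝔪 = ∏ (X - c j)`;
* `sheets_of_conj` : the package - with pairwise distinct `c j` every lift of `c j` is a simple
  root, so `helper33.IsMonogenic.quotient_loc / ufm_loc` apply at each of the `p` points.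
-/

set_option autoImplicit false
set_option linter.unusedSectionVars false
set_option linter.style.haveILetI false
set_option linter.unnecessarySimpa false

namespace Fermat.Agent.T8.helper33

open Polynomial IsLocalRing

section Conj

variable {R : Type*} [CommRing R] [IsDomain R]
variable {E : Type*} [Field E] [Algebra R E]

/-- The product of the `p` conjugates `X - ρ^[j] t`. -/
noncomputable def conjPoly (ρ : E →+* E) (p : ℕ) (t : E) : E[X] :=
  ∏ j ∈ Finset.range p, (X - C (ρ^[j] t))

theorem conjPoly_monic (ρ : E →+* E) (p : ℕ) (t : E) : (conjPoly ρ p t).Monic :=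
  monic_prod_of_monic _ _ fun _ _ => monic_X_sub_C _

theorem conjPoly_natDegree (ρ : E →+* E) (p : ℕ) (t : E) : (conjPoly ρ p t).natDegree = p := by
  unfold conjPoly
  rw [natDegree_prod_of_monic _ _ fun _ _ => monic_X_sub_C _]
  simp

theorem conjPoly_map (ρ : E →+* E) (p : ℕ) (t : E) (hord : ρ^[p] t = t) :
    (conjPoly ρ p t).map ρ = conjPoly ρ p t := by
  unfold conjPoly
  rw [Polynomial.map_prod]
  have h1 : ∀ j ∈ Finset.range p, (X - C (ρ^[j] t)).map ρ = X - C (ρ^[j + 1] t) := by
    intro j _
    rw [Polynomial.map_sub, map_X, map_C, Function.iterate_succ_apply']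
  rw [Finset.prod_congr rfl h1]
  have h2 := Finset.prod_range_succ' (fun j => (X - C (ρ^[j] t) : E[X])) p
  have h3 := Finset.prod_range_succ (fun j => (X - C (ρ^[j] t) : E[X])) p
  rw [h3] at h2
  simp only [hord, Function.iterate_zero, id_eq] at h2
  exact (mul_right_cancel₀ (X_sub_C_ne_zero t) h2).symm

theorem conjPoly_coeff_fixed (ρ : E →+* E) (p : ℕ) (t : E) (hord : ρ^[p] t = t) (i : ℕ) :
    ρ ((conjPoly ρ p t).coeff i) = (conjPoly ρ p t).coeff i := by
  have := congrArg (fun q : E[X] => q.coeff i) (conjPoly_map ρ p t hord)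
  simpa [coeff_map] using this

theorem isIntegral_iterate (ρ : E →+* E)
    (hρR : ∀ r : R, ρ (algebraMap R E r) = algebraMap R E r) {t : E} (ht : IsIntegral R t)
    (j : ℕ) : IsIntegral R (ρ^[j] t) := by
  induction j with
  | zero => simpa using ht
  | succ j ih =>
    rw [Function.iterate_succ_apply']
    exact ih.map (⟨ρ, hρR⟩ : E →ₐ[R] E)

theorem conjPoly_coeff_isIntegral (ρ : E →+* E)
    (hρR : ∀ r : R, ρ (algebraMap R E r) = algebraMap R E r) (p : ℕ) {t : E}
    (ht : IsIntegral R t) (i : ℕ) : IsIntegral R ((conjPoly ρ p t).coeff i) := by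
  have hint := isIntegral_iterate ρ hρR ht
  have hmap : conjPoly ρ p t =
      (∏ j ∈ Finset.range p,
        (X - C (⟨ρ^[j] t, hint j⟩ : integralClosure R E))).map
          (integralClosure R E).val.toRingHom := by
    unfold conjPoly
    rw [Polynomial.map_prod]
    refine Finset.prod_congr rfl fun j _ => ?_
    rw [Polynomial.map_sub, map_X, map_C]
    rfl
  rw [hmap, coeff_map]
  exact (coeff (∏ j ∈ Finset.range p,
    (X - C (⟨ρ^[j] t, hint j⟩ : integralClosure R E))) i).2

/-- **Descent of the conjugate polynomial.** -/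
theorem exists_poly_of_conj (ρ : E →+* E)
    (hρR : ∀ r : R, ρ (algebraMap R E r) = algebraMap R E r) (p : ℕ) {t : E}
    (hord : ρ^[p] t = t) (ht : IsIntegral R t)
    (hfix : ∀ x : E, ρ x = x → IsIntegral R x → x ∈ Set.range (algebraMap R E)) :
    ∃ f : R[X], f.Monic ∧ f.natDegree = p ∧ f.map (algebraMap R E) = conjPoly ρ p t := by
  have hl : conjPoly ρ p t ∈ lifts (algebraMap R E) := by
    rw [lifts_iff_coeff_lifts]
    intro i
    exact hfix _ (conjPoly_coeff_fixed ρ p t hord i) (conjPoly_coeff_isIntegral ρ hρR p ht i)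
  obtain ⟨f, hf1, hf2, hf3⟩ := lifts_and_natDegree_eq_and_monic hl (conjPoly_monic ρ p t)
  exact ⟨f, hf3, by rw [hf2, conjPoly_natDegree], hf1⟩

theorem iterate_eval₂ (ρ : E →+* E)
    (hρR : ∀ r : R, ρ (algebraMap R E r) = algebraMap R E r) (g : R[X]) (t : E) (j : ℕ) :
    ρ^[j] (g.eval₂ (algebraMap R E) t) = g.eval₂ (algebraMap R E) (ρ^[j] t) := by
  induction j with
  | zero => rfl
  | succ j ih =>
    rw [Function.iterate_succ_apply', Function.iterate_succ_apply', ih, hom_eval₂]
    congr 1
    ext r
    exact hρR r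

/-- **Monogenic from pairwise distinct conjugates.** -/
theorem isMonogenic_of_conj (hinj : Function.Injective (algebraMap R E)) (ρ : E →+* E)
    (hρR : ∀ r : R, ρ (algebraMap R E r) = algebraMap R E r) {p : ℕ} (hp : 0 < p) {t : E}
    {f : R[X]} (hfm : f.Monic) (hfmap : f.map (algebraMap R E) = conjPoly ρ p t)
    (hdist : ∀ i < p, ∀ j < p, ρ^[i] t = ρ^[j] t → i = j) :
    IsMonogenic (⟨t, Algebra.self_mem_adjoin_singleton R t⟩ : Algebra.adjoin R {t}) f := by
  have hdeg : f.natDegree = p := by
    rw [← natDegree_map_eq_of_injective hinj f, hfmap, conjPoly_natDegree]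
  refine IsMonogenic.of_adjoin t f hfm ?_ ?_
  · rw [aeval_def, ← eval_map, hfmap, conjPoly, eval_prod]
    refine Finset.prod_eq_zero (Finset.mem_range.mpr hp) ?_
    simp
  · intro g hg hgt
    by_contra hne
    have hG : g.map (algebraMap R E) ≠ 0 := by
      rwa [Ne, Polynomial.map_eq_zero_iff hinj]
    have hroot : ∀ j, (g.map (algebraMap R E)).IsRoot (ρ^[j] t) := by
      intro j
      rw [IsRoot.def, eval_map, ← iterate_eval₂ ρ hρR g t j]
      rw [aeval_def] at hgt
      rw [hgt]
      exact iterate_map_zero ρ j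
    classical
    have hsub : ((Finset.range p).image fun j => ρ^[j] t).val ⊆
        (g.map (algebraMap R E)).roots := by
      intro x hx
      rw [Finset.mem_val, Finset.mem_image] at hx
      obtain ⟨j, -, rfl⟩ := hx
      exact (mem_roots hG).mpr (hroot j)
    have hcard := card_le_degree_of_subset_roots hsub
    rw [Finset.card_image_of_injOn, Finset.card_range,
      natDegree_map_eq_of_injective hinj] at hcard
    · have h3 : g.natDegree < f.natDegree := natDegree_lt_natDegree hne hg
      omega
    · intro i hi j hj hij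
      exact hdist i (Finset.mem_range.mp hi) j (Finset.mem_range.mp hj) hij

end Conj

section Red

variable {R : Type*} [CommRing R] [IsDomain R] [IsLocalRing R]
variable {E : Type*} [Field E] [Algebra R E]
variable {κ : Type*} [Field κ]

/-- **Reduction of the conjugate polynomial through a sheet.**  `V ⊆ E` a subring containing `R`
and the conjugates of `t`, `φ : V →+* κ` a ring homomorphism extending the residue map of `R`
(through `ι : ResidueField R →+* κ`) with `φ (ρ^[j] t) = ι (c j)`.  Then
`f mod 𝔪 = ∏_{j < p} (X - c j)`. -/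
theorem map_residue_eq_of_red (ρ : E →+* E) {p : ℕ} {t : E} {f : R[X]}
    (hfmap : f.map (algebraMap R E) = conjPoly ρ p t)
    (V : Subring E) (φ : V →+* κ) (ι : ResidueField R →+* κ)
    (hV : ∀ r : R, algebraMap R E r ∈ V)
    (hφ : ∀ r : R, φ ⟨algebraMap R E r, hV r⟩ = ι (residue R r))
    (hconj : ∀ j, ρ^[j] t ∈ V) (c : ℕ → ResidueField R)
    (hc : ∀ j, j < p → φ ⟨ρ^[j] t, hconj j⟩ = ι (c j)) :
    f.map (residue R) = ∏ j ∈ Finset.range p, (X - C (c j)) := by
  let a : R →+* V := (algebraMap R E).codRestrict V hV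
  have h1 : (f.map a).map V.subtype =
      (∏ j ∈ Finset.range p, (X - C (⟨ρ^[j] t, hconj j⟩ : V))).map V.subtype := by
    rw [Polynomial.map_map, Polynomial.map_prod]
    have : V.subtype.comp a = algebraMap R E := by
      ext r; rfl
    rw [this, hfmap, conjPoly]
    refine Finset.prod_congr rfl fun j _ => ?_
    rw [Polynomial.map_sub, map_X, map_C]
    rfl
  have h2 : f.map a = ∏ j ∈ Finset.range p, (X - C (⟨ρ^[j] t, hconj j⟩ : V)) :=
    Polynomial.map_injective V.subtype Subtype.val_injective h1
  have h3 : (f.map (residue R)).map ι =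
      (∏ j ∈ Finset.range p, (X - C (c j))).map ι := by
    rw [Polynomial.map_map]
    have hcomp : ι.comp (residue R) = φ.comp a := by
      ext r
      exact (hφ r).symm
    rw [hcomp, ← Polynomial.map_map, h2, Polynomial.map_prod, Polynomial.map_prod]
    refine Finset.prod_congr rfl fun j hj => ?_
    rw [Polynomial.map_sub, map_X, map_C, Polynomial.map_sub, map_X, map_C,
      hc j (Finset.mem_range.mp hj)]
  exact Polynomial.map_injective ι ι.injective h3

/-- **[SHEETS] from a separating integral element.**  `R` a local domain inside the field `E`,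
`ρ` a ring endomorphism of `E` fixing `R` such that every `ρ`-fixed element of `E` integral over
`R` lies in `R`; `t ∈ E` integral over `R`, `ρ^[p] t = t`; a reduction `φ` on a subring `V ⊆ E`
extending the residue map of `R`, with `φ (ρ^[j] t) = c j` pairwise distinct for `j < p`.
Then there is a monic `f ∈ R[X]` of degree `p` such that `R[t]` is monogenic with `f`,
`f mod 𝔪 = ∏ (X - c j)`, and every lift `a` of any `c j` is a simple root of `f` modulo `𝔪`. -/
theorem sheets_of_conj (hinj : Function.Injective (algebraMap R E)) (ρ : E →+* E)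
    (hρR : ∀ r : R, ρ (algebraMap R E r) = algebraMap R E r) {p : ℕ} (hp : 0 < p) {t : E}
    (hord : ρ^[p] t = t) (ht : IsIntegral R t)
    (hfix : ∀ x : E, ρ x = x → IsIntegral R x → x ∈ Set.range (algebraMap R E))
    (V : Subring E) (φ : V →+* κ) (ι : ResidueField R →+* κ)
    (hV : ∀ r : R, algebraMap R E r ∈ V)
    (hφ : ∀ r : R, φ ⟨algebraMap R E r, hV r⟩ = ι (residue R r))
    (hconj : ∀ j, ρ^[j] t ∈ V) (c : ℕ → ResidueField R)
    (hc : ∀ j, j < p → φ ⟨ρ^[j] t, hconj j⟩ = ι (c j))
    (hcinj : ∀ i < p, ∀ j < p, c i = c j → i = j) :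
    ∃ f : R[X], f.natDegree = p ∧
      IsMonogenic (⟨t, Algebra.self_mem_adjoin_singleton R t⟩ : Algebra.adjoin R {t}) f ∧
      f.map (residue R) = ∏ j ∈ Finset.range p, (X - C (c j)) ∧
      ∀ j < p, ∀ a : R, residue R a = c j →
        f.eval a ∈ maximalIdeal R ∧ f.derivative.eval a ∉ maximalIdeal R := by
  obtain ⟨f, hfm, hfdeg, hfmap⟩ := exists_poly_of_conj ρ hρR p hord ht hfix
  have hdist : ∀ i < p, ∀ j < p, ρ^[i] t = ρ^[j] t → i = j := by
    intro i hi j hj hij
    apply hcinj i hi j hj
    apply ι.injective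
    rw [← hc i hi, ← hc j hj]
    congr 1
    exact Subtype.ext hij
  have hsplit := map_residue_eq_of_red ρ hfmap V φ ι hV hφ hconj c hc
  refine ⟨f, hfdeg, isMonogenic_of_conj hinj ρ hρR hp hfm hfmap hdist, hsplit, ?_⟩
  intro j hj a ha
  classical
  refine simple_root_of_split f (Finset.range p) c hsplit ?_ (Finset.mem_range.mpr hj) ha
  intro i hi k hk hik
  exact hcinj i (Finset.mem_range.mp hi) k (Finset.mem_range.mp hk) hik

end Red

end Fermat.Agent.T8.helper33
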