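import Mathlib
import Fermat.Agent.T8.helper97_SheetsInst
import Fermat.Agent.T8.helper33_SheetsConj
import Fermat.Agent.T3.helper49_TorBox

/-!
# T8 (row 38, at risk), leaf [SHEETS] (helper97, owner): INSTANCE, the polynomial of `t`

`D : helper88.CovData M W A p`, `t = tGen D ζ` the tame trace, `ρ` the deck map.

* `fCov`            : the conjugate polynomial `∏_{j < p} (X - ρ ^ j t)` (`helper33.conjPoly`);
* `exists_coeff_fun` : its coefficients are functions `g m ∈ FF M`;
* `exists_coeff_models` : **integral pair and reductions**: `g m` has the integral pair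
                      `(Y₁ m, Y₂ m)`, and `red (Y_i m)` is the coefficient of
                      `X ^ p - X - c_i`  (Artin - Schreier, so `f' = -1` modulo the kernels of
                      the reductions: ETALE at every point);
* `galF_coeff_fun`  : `g m` is fixed by the inertia group.
-/

set_option autoImplicit false
set_option synthInstance.maxHeartbeats 400000
set_option linter.unusedSectionVars false
set_option linter.unusedVariables false
set_option linter.style.longLine false
set_option linter.style.haveILetI false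

noncomputable section

open IntermediateField AlgebraicCurve ModularCurve Polynomial
open Fermat.Agent.S18.helper19 Fermat.Agent.P2.helper29
open Fermat.Agent.P2.helper22 Fermat.Agent.P2.helper74 Fermat.Agent.P2.helper93
open Fermat.Agent.T2.helper74 Fermat.Agent.T2.helper36
open Fermat.Agent.T8.helper86 Fermat.Agent.T8.helper88 Fermat.Agent.T8.helper65

namespace Fermat.Agent.T8.helper97

variable {M : ℕ} [NeZero M] {W : FF M ≃ₐ[Kb] FF M} {A : ValuationSubring Kb} {p : ℕ}
  (D : CovData M W A p) [((muFix p ⊓ IA A).subgroupOf (IA A)).FiniteIndex]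
  (hKum : IsKummerRoot p D.K D.Z) (ζ : Kb) (hζ : IsPrimitiveRoot ζ p)

/-- the deck map as a ring endomorphism -/
def rhoHom : Cov M D.Z →+* Cov M D.Z :=
  RingHomClass.toRingHom (D.rho hKum ζ hζ.pow_eq_one)

theorem rhoHom_iterate (j : ℕ) (x : Cov M D.Z) :
    (rhoHom D hKum ζ hζ)^[j] x = ((D.rho hKum ζ hζ.pow_eq_one) ^ j) x := by
  rw [AlgEquiv.coe_pow]
  rfl

/-- **the conjugate polynomial** `∏_{j < p} (X - ρ ^ j t)` of the tame trace -/
def fCov : (Cov M D.Z)[X] := helper33.conjPoly (rhoHom D hKum ζ hζ) p (tGen D ζ)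

theorem fCov_monic : (fCov D hKum ζ hζ).Monic := helper33.conjPoly_monic _ _ _

theorem fCov_natDegree : (fCov D hKum ζ hζ).natDegree = p := helper33.conjPoly_natDegree _ _ _

theorem rhoHom_iterate_prime (x : Cov M D.Z) : (rhoHom D hKum ζ hζ)^[p] x = x := by
  rw [rhoHom_iterate]
  exact deck_pow_prime_apply hKum _ _ x

theorem fCov_eval : (fCov D hKum ζ hζ).eval (tGen D ζ) = 0 := by
  unfold fCov helper33.conjPoly
  rw [eval_prod]
  apply Finset.prod_eq_zero (Finset.mem_range.mpr D.hp.pos)
  simp

/-- the coefficients are fixed by the deck map -/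
theorem rho_fCov_coeff (m : ℕ) :
    D.rho hKum ζ hζ.pow_eq_one ((fCov D hKum ζ hζ).coeff m) = (fCov D hKum ζ hζ).coeff m :=
  helper33.conjPoly_coeff_fixed (rhoHom D hKum ζ hζ) p (tGen D ζ)
    (rhoHom_iterate_prime D hKum ζ hζ _) m

/-- **the coefficients of the conjugate polynomial are functions** -/
theorem exists_coeff_fun :
    ∃ g : ℕ → FF M, ∀ m, algebraMap (FF M) (Cov M D.Z) (g m) = (fCov D hKum ζ hζ).coeff m := by
  have hζ' : IsPrimitiveRoot (algebraMap Kb (FF M) ζ) p :=
    hζ.map_of_injective (algebraMap Kb (FF M)).injective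
  have h : ∀ m, (fCov D hKum ζ hζ).coeff m ∈ Set.range (algebraMap (FF M) (Cov M D.Z)) :=
    fun m => mem_range_of_deck_fixed hKum hζ' _ (rho_fCov_coeff D hKum ζ hζ m)
  choose g hg using h
  exact ⟨g, hg⟩

/-- the image of the conjugate polynomial under a ring homomorphism -/
theorem fCov_map {S : Type*} [CommRing S] (φ : Cov M D.Z →+* S) :
    (fCov D hKum ζ hζ).map φ =
      ∏ j ∈ Finset.range p, (X - C (φ (((D.rho hKum ζ hζ.pow_eq_one) ^ j) (tGen D ζ)))) := by
  unfold fCov helper33.conjPoly
  rw [Polynomial.map_prod]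
  refine Finset.prod_congr rfl fun j _ => ?_
  rw [Polynomial.map_sub, map_X, map_C, rhoHom_iterate]

/-- the conjugate polynomial is fixed by the inertia group -/
theorem act_fCov_coeff
    (hfix1 : ∀ σ ∈ muFix p ⊓ IA A, cwAct σ (incl A D.Z₁) = incl A D.Z₁)
    (σ : Kb ≃ₐ[ℚ] Kb) (hσ : σ ∈ IA A) (m : ℕ) :
    D.act σ hσ ((fCov D hKum ζ hζ).coeff m) = (fCov D hKum ζ hζ).coeff m := by
  have h1 : (fCov D hKum ζ hζ).map (D.act σ hσ) = fCov D hKum ζ hζ := by
    rw [fCov_map]
    unfold fCov helper33.conjPoly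
    refine Finset.prod_congr rfl fun j _ => ?_
    rw [D.act_comm_deck_pow hKum ζ hζ.pow_eq_one σ hσ j, act_tGen D hKum ζ hζ hfix1 σ hσ,
      rhoHom_iterate]
  have h2 := congrArg (fun P : (Cov M D.Z)[X] => P.coeff m) h1
  simp only [coeff_map] at h2
  exact h2

/-- **the coefficient functions are fixed by the inertia group** -/
theorem galF_coeff_fun
    (hfix1 : ∀ σ ∈ muFix p ⊓ IA A, cwAct σ (incl A D.Z₁) = incl A D.Z₁)
    {g : FF M} {m : ℕ} (hg : algebraMap (FF M) (Cov M D.Z) g = (fCov D hKum ζ hζ).coeff m)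
    (σ : Kb ≃ₐ[ℚ] Kb) (hσ : σ ∈ IA A) : galF M σ g = g := by
  have h1 := act_fCov_coeff D hKum ζ hζ hfix1 σ hσ m
  rw [← hg, D.act_algebraMap] at h1
  exact (algebraMap (FF M) (Cov M D.Z)).injective h1

/-- **integral pair and reductions of the coefficients**: with the sheet models `T₁ j`, `T₂ j`
of `exists_sheet_models`, the coefficient function `g m` has the integral pair
`(Y₁ m, Y₂ m)`, `Y_i m` the coefficient of `∏_{j < p} (X - T_i j)`. -/
theorem coeff_models {T₁ T₂ : ℕ → LaurentSeries A}
    (h1 : ∀ j, incl A (T₁ j) = sh1 D hKum ζ hζ j (tGen D ζ))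
    (h2 : ∀ j, incl A (T₂ j) = sh2 D hKum ζ hζ j (tGen D ζ))
    {g : FF M} {m : ℕ} (hg : algebraMap (FF M) (Cov M D.Z) g = (fCov D hKum ζ hζ).coeff m) :
    incl A ((∏ j ∈ Finset.range p, (X - C (T₁ j))).coeff m) = (g : LaurentSeries Kb) ∧
    incl A ((∏ j ∈ Finset.range p, (X - C (T₂ j))).coeff m) =
      ((W g : FF M) : LaurentSeries Kb) := by
  constructor
  · have e1 : (g : LaurentSeries Kb) =
        ((fCov D hKum ζ hζ).map (algebraMap (Cov M D.Z) (LaurentSeries Kb))).coeff m := by
      rw [coeff_map, ← hg]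
      rfl
    rw [e1, fCov_map, ← coeff_map, Polynomial.map_prod]
    congr 1
    refine Finset.prod_congr rfl fun j _ => ?_
    rw [Polynomial.map_sub, map_X, map_C, h1 j]
    rfl
  · have e1 : ((W g : FF M) : LaurentSeries Kb) =
        ((fCov D hKum ζ hζ).map (D.sheet2 hKum)).coeff m := by
      rw [coeff_map, ← hg, D.sheet2_algebraMap]
    rw [e1, fCov_map, ← coeff_map, Polynomial.map_prod]
    congr 1
    refine Finset.prod_congr rfl fun j _ => ?_
    rw [Polynomial.map_sub, map_X, map_C, h2 j]
    rfl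

/-- **Artin - Schreier**: the reduction of the coefficients of `∏_{j < p} (X - T j)` for a
family with `red (T j) = red (T 0) - j`. -/
theorem red_coeff_models (hp : p.Prime) (hA : A.LiesOverPrime p) {T : ℕ → LaurentSeries A}
    (hT : ∀ j, red A (T j) = red A (T 0) - (j : LaurentSeries (kA A))) (m : ℕ) :
    red A ((∏ j ∈ Finset.range p, (X - C (T j))).coeff m) =
      (X ^ p - X - C (red A (T 0) ^ p - red A (T 0)) : (LaurentSeries (kA A))[X]).coeff m := by
  haveI : Fact p.Prime := ⟨hp⟩
  haveI : CharP (kA A) p := Fermat.Agent.P2.helper93.charP_residueField hp hA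
  haveI : CharP (LaurentSeries (kA A)) p :=
    charP_of_injective_ringHom
      (f := (HahnSeries.C : kA A →+* LaurentSeries (kA A))) HahnSeries.C_injective p
  rw [← prod_X_sub_C_sub_natCast p (red A (T 0)), ← coeff_map, Polynomial.map_prod]
  congr 1
  refine Finset.prod_congr rfl fun j _ => ?_
  rw [Polynomial.map_sub, map_X, map_C, hT j]

/-! ### Regularity of the coefficients -/

section RegJ

open Fermat.Agent.T3.helper98

omit [((muFix p ⊓ IA A).subgroupOf (IA A)).FiniteIndex] in
/-- a function which is integral over the ring of the functions regular where `j` is finite is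
regular where `j` is finite -/
theorem isRegJ_of_monic {g : FF M} (P : (regJRing M)[X]) (hmon : P.Monic)
    (hev : P.eval₂ (regJRing M).subtype g = 0) : IsRegJ M g := by
  rcases Nat.eq_zero_or_pos P.natDegree with h0 | hpos
  · have h1 : P = 1 := Polynomial.eq_one_of_monic_natDegree_zero hmon h0
    rw [h1, eval₂_one] at hev
    exact absurd hev one_ne_zero
  · obtain ⟨n, hn⟩ : ∃ n, P.natDegree = n + 1 := ⟨P.natDegree - 1, by omega⟩
    refine isRegJ_of_monic_relation n (fun k => -((P.coeff k : regJRing M) : FF M))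
      (fun k => (regJRing M).neg_mem (P.coeff k).2) ?_
    rw [eval₂_eq_sum_range, hn, Finset.sum_range_succ] at hev
    have hlead : P.coeff (n + 1) = 1 := by
      have := hmon.coeff_natDegree
      rwa [hn] at this
    rw [hlead, map_one, one_mul] at hev
    have h2 : g ^ (n + 1) = -∑ k ∈ Finset.range (n + 1),
        ((regJRing M).subtype) (P.coeff k) * g ^ k := by
      linear_combination hev
    rw [h2, ← Finset.sum_neg_distrib]
    refine Finset.sum_congr rfl fun k _ => ?_
    rw [neg_mul]
    rfl

/-- the structure map from the regular functions to the cover -/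
def phiR : regJRing M →+* Cov M D.Z :=
  (algebraMap (FF M) (Cov M D.Z)).comp (regJRing M).subtype

/-- the subring of the elements of the cover which are integral over the regular functions -/
def intSub : Subring (Cov M D.Z) where
  carrier := {x | (phiR D).IsIntegralElem x}
  mul_mem' hx hy := RingHom.IsIntegralElem.mul _ hx hy
  one_mem' := by
    have h := RingHom.isIntegralElem_map (phiR D) (x := 1)
    rwa [map_one] at h
  add_mem' hx hy := RingHom.IsIntegralElem.add _ hx hy
  zero_mem' := by
    have h := RingHom.isIntegralElem_map (phiR D) (x := 0)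
    rwa [map_zero] at h
  neg_mem' hx := RingHom.IsIntegralElem.neg _ hx

omit [((muFix p ⊓ IA A).subgroupOf (IA A)).FiniteIndex] in
theorem mem_intSub {x : Cov M D.Z} : x ∈ intSub D ↔ (phiR D).IsIntegralElem x := Iff.rfl

omit [((muFix p ⊓ IA A).subgroupOf (IA A)).FiniteIndex] in
/-- the image in the cover of a regular function is integral over the regular functions -/
theorem algebraMap_mem_intSub {x : FF M} (hx : IsRegJ M x) :
    algebraMap (FF M) (Cov M D.Z) x ∈ intSub D :=
  RingHom.isIntegralElem_map (phiR D) (x := (⟨x, hx⟩ : regJRing M))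

omit [((muFix p ⊓ IA A).subgroupOf (IA A)).FiniteIndex] in
/-- a `p`-th root of a regular function is integral over the regular functions -/
theorem mem_intSub_of_pow (hp : p.Prime) {x : Cov M D.Z} {k : FF M} (hk : IsRegJ M k)
    (h : x ^ p = algebraMap (FF M) (Cov M D.Z) k) : x ∈ intSub D := by
  refine ⟨X ^ p - C (⟨k, hk⟩ : regJRing M), monic_X_pow_sub_C _ hp.ne_zero, ?_⟩
  rw [eval₂_sub, eval₂_pow, eval₂_X, eval₂_C, h]
  exact sub_self _

omit [((muFix p ⊓ IA A).subgroupOf (IA A)).FiniteIndex] in
/-- an endomorphism of the cover over `F` preserves integrality -/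
theorem map_mem_intSub (φ : Cov M D.Z →+* Cov M D.Z)
    (hφ : ∀ f : FF M, φ (algebraMap (FF M) (Cov M D.Z) f) = algebraMap (FF M) (Cov M D.Z) f)
    {x : Cov M D.Z} (hx : x ∈ intSub D) : φ x ∈ intSub D := by
  obtain ⟨P, hmon, hev⟩ := hx
  refine ⟨P, hmon, ?_⟩
  have h1 := Polynomial.hom_eval₂ P (phiR D) φ x
  rw [hev, map_zero] at h1
  have h2 : φ.comp (phiR D) = phiR D := RingHom.ext fun r => hφ _
  rw [h2] at h1
  exact h1.symm

omit [((muFix p ⊓ IA A).subgroupOf (IA A)).FiniteIndex] in
include hKum in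
/-- the conjugates of the generator of the cover are integral over the regular functions -/
theorem act_gen_mem_intSub (hK : IsRegJ M D.K) (σ : Kb ≃ₐ[ℚ] Kb) (hσ : σ ∈ IA A) :
    D.act σ hσ D.gen ∈ intSub D := by
  refine mem_intSub_of_pow D D.hp (Fermat.Agent.T3.helper49.isRegJ_galF σ hK) ?_
  rw [← map_pow]
  have h1 : D.gen ^ p = algebraMap (FF M) (Cov M D.Z) D.K := hKum.gen_pow
  rw [h1]
  exact D.act_algebraMap σ hσ D.K

include hKum in
/-- **the tame trace is integral over the regular functions** -/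
theorem tGen_mem_intSub (hK : IsRegJ M D.K) : tGen D ζ ∈ intSub D := by
  classical
  letI : Fintype (IA A ⧸ (muFix p ⊓ IA A).subgroupOf (IA A)) :=
    Subgroup.fintypeQuotientOfFiniteIndex
  unfold tGen traceCoset
  refine sum_mem fun c _ => ?_
  rw [covAct_of_mem D (Quotient.out c : IA A).2]
  unfold u0
  rw [map_mul]
  refine mul_mem ?_ (act_gen_mem_intSub D hKum hK _ _)
  have h1 : D.act _ (Quotient.out c : IA A).2 (cst D (ζ - 1)⁻¹) =
      cst D (((Quotient.out c : IA A) : Kb ≃ₐ[ℚ] Kb) (ζ - 1)⁻¹) := D.act_const _ _ _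
  rw [h1]
  exact algebraMap_mem_intSub D (isRegJ_algebraMap _)

include hKum in
/-- **the coefficient functions of the conjugate polynomial are regular where `j` is
finite** -/
theorem isRegJ_coeff_fun (hK : IsRegJ M D.K) {g : FF M} {m : ℕ}
    (hg : algebraMap (FF M) (Cov M D.Z) g = (fCov D hKum ζ hζ).coeff m) : IsRegJ M g := by
  have h1 : (fCov D hKum ζ hζ).coeff m ∈ intSub D := by
    unfold fCov helper33.conjPoly
    refine coeff_prod_X_sub_C_mem (intSub D) (fun j => (rhoHom D hKum ζ hζ)^[j] (tGen D ζ))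
      (fun j => ?_) p m
    rw [rhoHom_iterate]
    exact map_mem_intSub D (RingHomClass.toRingHom ((D.rho hKum ζ hζ.pow_eq_one) ^ j))
      (fun f => ((D.rho hKum ζ hζ.pow_eq_one) ^ j).commutes f) (tGen_mem_intSub D hKum ζ hK)
  rw [← hg] at h1
  obtain ⟨P, hmon, hev⟩ := h1
  refine isRegJ_of_monic P hmon ?_
  have h2 := Polynomial.hom_eval₂ P (regJRing M).subtype (algebraMap (FF M) (Cov M D.Z)) g
  have h3 : (algebraMap (FF M) (Cov M D.Z)).comp (regJRing M).subtype = phiR D := rfl
  rw [h3, hev] at h2
  exact (algebraMap (FF M) (Cov M D.Z)).injective (h2.trans (map_zero _).symm)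

end RegJ

end Fermat.Agent.T8.helper97

end
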