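import Mathlib
import Fermat.Agent.T8.helper97_SheetsPoly
import Fermat.Agent.T8.helper16_RingXDefs

/-!
# T8 (row 38, at risk), leaf [SHEETS] (helper97, owner): INSTANCE, GLOBAL FORM

Bad pair `(N p, atkinLehner N p, A)`, `D : helper88.CovData (N p) W A p` the data of the cover,
`t = tGen D ζ` the tame trace of `Z₁ / (ζ - 1)`, `R⁰ = helper16.ringX A hp hpN` the ring of the
inertia-fixed functions regular where `j` is finite with an integral pair.

**`exists_sheets_poly`** : there is a MONIC polynomial `f ∈ R⁰[X]` of degree `p` whose image in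
`F'[X]` is `∏_{j < p} (X - ρ ^ j t)` (so `f(t) = 0`), and whose two reductions are
ARTIN - SCHREIER polynomials:

  `red₁ (f.coeff m) = (X ^ p - X - c₁).coeff m`,   `red₂ (f.coeff m) = (X ^ p - X - c₂).coeff m`.

Consequences (`SheetsPoly.coeff_one` ..): `red_i (f.coeff 1) = -1`, `red_i (f.coeff m) = 0` for
`2 ≤ m < p`; hence for every `a` the derivative `f'(a) = p a^(p-1) + ∑ m (f.coeff m) a^(m-1)`
reduces to `-1`: `R⁰[t]` is ETALE over `R⁰` at every closed point of the special fibre, and the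
hypotheses of `helper33.IsMonogenic.quotient_loc` / `ufm_loc` (`f(a) ∈ 𝔪`, `f'(a) ∉ 𝔪`) hold at
every root `a` of `f` modulo the maximal ideal of `helper16.locX Q`.
-/

set_option autoImplicit false
set_option synthInstance.maxHeartbeats 400000
set_option linter.unusedSectionVars false
set_option linter.unusedVariables false
set_option linter.style.longLine false
set_option linter.style.haveILetI false

noncomputable section

open IntermediateField AlgebraicCurve ModularCurve Polynomial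
open Fermat.Agent.S18.helper19 Fermat.Agent.P2.helper29
open Fermat.Agent.P2.helper22 Fermat.Agent.P2.helper74 Fermat.Agent.P2.helper93
open Fermat.Agent.T2.helper74 Fermat.Agent.T2.helper36
open Fermat.Agent.T8.helper86 Fermat.Agent.T8.helper88 Fermat.Agent.T8.helper65
open Fermat.Agent.T8.helper16 Fermat.Agent.T8.helper63
open Fermat.Agent.T3.helper98 (IsRegJ)

namespace Fermat.Agent.T8.helper97

variable {N p : ℕ} [NeZero N] [NeZero p] {hp : p.Prime} {hpN : ¬ p ∣ N}
  {A : ValuationSubring Kb}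
  (D : CovData (N * p) (atkinLehner N p hp hpN) A p)
  [((muFix p ⊓ IA A).subgroupOf (IA A)).FiniteIndex]
  (hKum : IsKummerRoot p D.K D.Z) (ζ : Kb) (hζ : IsPrimitiveRoot ζ p)

/-- the structure map from `R⁰` to the cover -/
def phiX : ringX A hp hpN →+* Cov (N * p) D.Z :=
  (algebraMap (FF (N * p)) (Cov (N * p) D.Z)).comp (ringX A hp hpN).subtype

/-- the output of the global form of the [SHEETS] instance -/
structure SheetsPoly (f : (ringX A hp hpN)[X]) (c₁ c₂ : LaurentSeries (kA A)) : Prop where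
  monic : f.Monic
  natDegree : f.natDegree = p
  map_eq : f.map (phiX D) = fCov D hKum ζ hζ
  red1 : ∀ m, red1X A hp hpN (f.coeff m) =
    (X ^ p - X - C c₁ : (LaurentSeries (kA A))[X]).coeff m
  red2 : ∀ m, red2X A hp hpN (f.coeff m) =
    (X ^ p - X - C c₂ : (LaurentSeries (kA A))[X]).coeff m

/-- **[SHEETS], instance, global form.** -/
theorem exists_sheets_poly (hp3 : 3 ≤ p) (hA : A.LiesOverPrime p)
    (hK : IsRegJ (N * p) D.K)
    (hfix1 : ∀ σ ∈ muFix p ⊓ IA A, cwAct σ (incl A D.Z₁) = incl A D.Z₁)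
    (hfix2 : ∀ σ ∈ muFix p ⊓ IA A, cwAct σ (incl A D.Z₂) = incl A D.Z₂)
    (hr1 : red A D.Z₁ = 1) (hr2 : red A D.Z₂ = 1) :
    ∃ (f : (ringX A hp hpN)[X]) (c₁ c₂ : LaurentSeries (kA A)),
      SheetsPoly D hKum ζ hζ f c₁ c₂ := by
  obtain ⟨T₁, T₂, h1, h2, h1', h2'⟩ :=
    exists_sheet_models D hKum ζ hζ hp3 hA hfix1 hfix2 hr1 hr2
  obtain ⟨g, hg⟩ := exists_coeff_fun D hKum ζ hζ
  -- the coefficients lie in `R⁰`
  have hRX : ∀ m, IsRX A hp hpN (g m)
      ((∏ j ∈ Finset.range p, (X - C (T₁ j))).coeff m)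
      ((∏ j ∈ Finset.range p, (X - C (T₂ j))).coeff m) := fun m =>
    ⟨fun σ hσ => galF_coeff_fun D hKum ζ hζ hfix1 (hg m) σ hσ,
      isRegJ_coeff_fun D hKum ζ hζ hK (hg m),
      coeff_models D hKum ζ hζ h1 h2 (hg m)⟩
  have hmem : ∀ m, g m ∈ ringX A hp hpN := fun m => ⟨_, _, hRX m⟩
  have hl : fCov D hKum ζ hζ ∈ lifts (phiX D) := by
    rw [lifts_iff_coeff_lifts]
    intro m
    exact ⟨⟨g m, hmem m⟩, hg m⟩
  obtain ⟨f, hf1, hf2, hf3⟩ := lifts_and_natDegree_eq_and_monic hl (fCov_monic D hKum ζ hζ)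
  have hcoe : ∀ m, ((f.coeff m : ringX A hp hpN) : FF (N * p)) = g m := by
    intro m
    have e1 := congrArg (fun P : (Cov (N * p) D.Z)[X] => P.coeff m) hf1
    simp only [coeff_map] at e1
    rw [← hg m] at e1
    exact (algebraMap (FF (N * p)) (Cov (N * p) D.Z)).injective e1
  have hRX' : ∀ m, IsRX A hp hpN ((f.coeff m : ringX A hp hpN) : FF (N * p))
      ((∏ j ∈ Finset.range p, (X - C (T₁ j))).coeff m)
      ((∏ j ∈ Finset.range p, (X - C (T₂ j))).coeff m) := by
    intro m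
    rw [hcoe m]
    exact hRX m
  refine ⟨f, red A (T₁ 0) ^ p - red A (T₁ 0), red A (T₂ 0) ^ p - red A (T₂ 0),
    hf3, ?_, hf1, fun m => ?_, fun m => ?_⟩
  · rw [hf2, fCov_natDegree]
  · rw [red1X_eq (hRX' m)]
    exact red_coeff_models hp hA h1' m
  · rw [red2X_eq (hRX' m)]
    exact red_coeff_models hp hA h2' m

/-- the coefficients of the Artin - Schreier polynomial (no hypothesis on the characteristic) -/
theorem coeff_AS {L : Type*} [CommRing L] {n : ℕ} (hn : 2 ≤ n) (c : L) (m : ℕ) :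
    (X ^ n - X - C c : L[X]).coeff m =
      if m = n then 1 else if m = 1 then -1 else if m = 0 then -c else 0 := by
  rw [coeff_sub, coeff_sub, coeff_X_pow, coeff_X, coeff_C]
  by_cases h1 : m = n
  · subst h1
    have h2 : ¬ (1 = m) := by omega
    have h3 : ¬ (m = 0) := by omega
    simp [h2, h3]
  · by_cases h2 : m = 1
    · subst h2
      simp [h1]
    · by_cases h3 : m = 0
      · subst h3
        simp [h1]
      · have h4 : ¬ (1 = m) := fun h => h2 h.symm
        simp [h1, h2, h3, h4]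

namespace SheetsPoly

variable {D hKum ζ hζ} {f : (ringX A hp hpN)[X]} {c₁ c₂ : LaurentSeries (kA A)}

/-- `f(t) = 0` -/
theorem eval_tGen (h : SheetsPoly D hKum ζ hζ f c₁ c₂) :
    f.eval₂ (phiX D) (tGen D ζ) = 0 := by
  rw [← eval_map, h.map_eq]
  exact fCov_eval D hKum ζ hζ

theorem red1_one (h : SheetsPoly D hKum ζ hζ f c₁ c₂) :
    red1X A hp hpN (f.coeff 1) = -1 := by
  rw [h.red1, coeff_AS hp.two_le]
  have h1 : ¬ (1 = p) := fun e => hp.one_lt.ne e
  simp [h1]

theorem red2_one (h : SheetsPoly D hKum ζ hζ f c₁ c₂) :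
    red2X A hp hpN (f.coeff 1) = -1 := by
  rw [h.red2, coeff_AS hp.two_le]
  have h1 : ¬ (1 = p) := fun e => hp.one_lt.ne e
  simp [h1]

theorem red1_mid (h : SheetsPoly D hKum ζ hζ f c₁ c₂) {m : ℕ} (hm2 : 2 ≤ m) (hmp : m < p) :
    red1X A hp hpN (f.coeff m) = 0 := by
  rw [h.red1, coeff_AS hp.two_le]
  have h1 : ¬ (m = p) := hmp.ne
  have h2 : ¬ (m = 1) := by omega
  have h3 : ¬ (m = 0) := by omega
  simp [h1, h2, h3]

theorem red2_mid (h : SheetsPoly D hKum ζ hζ f c₁ c₂) {m : ℕ} (hm2 : 2 ≤ m) (hmp : m < p) :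
    red2X A hp hpN (f.coeff m) = 0 := by
  rw [h.red2, coeff_AS hp.two_le]
  have h1 : ¬ (m = p) := hmp.ne
  have h2 : ¬ (m = 1) := by omega
  have h3 : ¬ (m = 0) := by omega
  simp [h1, h2, h3]

theorem red1_zero (h : SheetsPoly D hKum ζ hζ f c₁ c₂) :
    red1X A hp hpN (f.coeff 0) = -c₁ := by
  rw [h.red1, coeff_AS hp.two_le]
  have h1 : ¬ (0 = p) := fun e => hp.pos.ne e
  simp [h1]

theorem red2_zero (h : SheetsPoly D hKum ζ hζ f c₁ c₂) :
    red2X A hp hpN (f.coeff 0) = -c₂ := by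
  rw [h.red2, coeff_AS hp.two_le]
  have h1 : ¬ (0 = p) := fun e => hp.pos.ne e
  simp [h1]

end SheetsPoly

end Fermat.Agent.T8.helper97

end
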