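import Mathlib
import Fermat.Agent.T3.helper36_RhoQ
import Fermat.Agent.T8.helper33_SheetsAbs2

/-!
# T8 = row 38 via S44, [SLOPE-X'] (helper4): PIECE (S2) of helper9 #3859 - the second sheet at the
etale point, in the setting of `helper33.IsMonogenic`

`R` noetherian local domain, `S = R[t]` monogenic with polynomial `f` of degree `p`, `a` a simple
root of `f` modulo `𝔪`, `T` the localisation of `S` at `ptIdeal t a`; `y ∈ 𝔪`, `y ≠ 0`, with
`R ⧸ (y)` a principal ideal domain.  `E j : S →+* ℚ̄((q))` (`j < p`) the sheets of one component,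
with the SAME reduction `rho2` on `R`, `ker rho2 = y R`, and `red (E j t) = τ - j`.

* `redKerHom`, `redKerHom_isPrime` : the reduction kernel of a ring homomorphism to `ℚ̄((q))` with
  Gauss-integral values is a prime ideal;
* `exists_sheet_match`  : some sheet `j < p` has its reduction kernel on `S` inside `ptIdeal t a`
  (product of counterexamples + a polynomial of degree `< p` with `p` roots);
* `sheet2_point`        : **(S2)** for that `j` and every extension `E'` of `E j` to `T`: `T` is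
  Gauss-integral on the sheet, the reduction kernel is `y T`, and `y` is prime in `T`.

Relative to #3859 two harmless hypotheses are explicit: `rho2 y = 0` and `y ≠ 0`.
-/

set_option autoImplicit false
set_option linter.unusedSectionVars false
set_option linter.unusedVariables false
set_option linter.style.longLine false
set_option linter.style.haveILetI false

noncomputable section

namespace Fermat.Agent.T8.helper4

open HahnSeries ModularCurve Polynomial IsLocalRing
open Fermat.Agent.S18.helper19 Fermat.Agent.P2.helper29 Fermat.Agent.T2.helper36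
open Fermat.Agent.T3.helper36
open Fermat.Agent.T8.helper33

variable {A : ValuationSubring Kb}

section Ker

variable {T : Type*} [CommRing T]

/-- the elements of `T` with reduction `0` along `E` -/
def redKerHom (A : ValuationSubring Kb) (E : T →+* LaurentSeries Kb)
    (hint : ∀ x : T, ∃ r : LaurentSeries (kA A), RhoQ A (E x) r) : Ideal T where
  carrier := {x | RhoQ A (E x) 0}
  add_mem' := by
    intro a b ha hb
    have h := RhoQ.add ha hb
    rw [add_zero] at h
    show RhoQ A (E (a + b)) 0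
    rw [map_add]
    exact h
  zero_mem' := by
    show RhoQ A (E 0) 0
    rw [map_zero]
    exact rhoQ_zero
  smul_mem' := by
    intro c a ha
    obtain ⟨r, hr⟩ := hint c
    have h := RhoQ.mul hr ha
    rw [mul_zero] at h
    show RhoQ A (E (c • a)) 0
    rw [smul_eq_mul, map_mul]
    exact h

theorem mem_redKerHom {E : T →+* LaurentSeries Kb}
    {hint : ∀ x : T, ∃ r : LaurentSeries (kA A), RhoQ A (E x) r} {x : T} :
    x ∈ redKerHom A E hint ↔ RhoQ A (E x) 0 := Iff.rfl

theorem redKerHom_isPrime (E : T →+* LaurentSeries Kb)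
    (hint : ∀ x : T, ∃ r : LaurentSeries (kA A), RhoQ A (E x) r) :
    (redKerHom A E hint).IsPrime := by
  refine ⟨?_, ?_⟩
  · intro htop
    have h1 : (1 : T) ∈ redKerHom A E hint := by rw [htop]; trivial
    rw [mem_redKerHom, map_one] at h1
    exact zero_ne_one h1.eq_one
  · intro a b hab
    obtain ⟨ra, ha⟩ := hint a
    obtain ⟨rb, hb⟩ := hint b
    rw [mem_redKerHom, map_mul] at hab
    have h0 : ra * rb = 0 := (RhoQ.mul ha hb).unique hab
    rcases mul_eq_zero.mp h0 with h | h
    · left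
      rw [mem_redKerHom, ← h]
      exact ha
    · right
      rw [mem_redKerHom, ← h]
      exact hb

/-- **the reduction kernel on a local ring `T` with `T ⧸ (y)` a principal ideal domain is
`y T`**, as soon as some non-unit of `T` has nonzero reduction. -/
theorem dvd_of_redKerHom [IsLocalRing T] (y : T) (E : T →+* LaurentSeries Kb)
    (hint : ∀ x : T, ∃ r : LaurentSeries (kA A), RhoQ A (E x) r)
    (hy : RhoQ A (E y) 0)
    (hdom : IsDomain (T ⧸ Ideal.span {y})) (hpid : IsPrincipalIdealRing (T ⧸ Ideal.span {y}))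
    (hxx : ∃ b : T, ¬ IsUnit b ∧ ∃ r : LaurentSeries (kA A), r ≠ 0 ∧ RhoQ A (E b) r)
    (x : T) (hx : RhoQ A (E x) 0) : y ∣ x := by
  classical
  haveI := hdom
  haveI := hpid
  set 𝔓 : Ideal T := redKerHom A E hint with h𝔓
  haveI hprime : 𝔓.IsPrime := redKerHom_isPrime E hint
  have hy𝔓 : Ideal.span {y} ≤ 𝔓 := by
    rw [Ideal.span_singleton_le_iff_mem]
    exact hy
  obtain ⟨b, hbu, r, hr, hbr⟩ := hxx
  have hb𝔓 : b ∉ 𝔓 := by
    intro hb
    exact hr (hbr.unique hb)
  have hbm : b ∈ IsLocalRing.maximalIdeal T := (IsLocalRing.mem_maximalIdeal b).mpr hbu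
  let mk := Ideal.Quotient.mk (Ideal.span {y} : Ideal T)
  have hsurj : Function.Surjective mk := Ideal.Quotient.mk_surjective
  have hkermk : RingHom.ker mk ≤ 𝔓 := by
    rw [Ideal.mk_ker]
    exact hy𝔓
  haveI hprime' : (𝔓.map mk).IsPrime := Ideal.map_isPrime_of_surjective hsurj hkermk
  have hcomap : (𝔓.map mk).comap mk = 𝔓 := by
    rw [Ideal.comap_map_of_surjective' mk hsurj 𝔓, sup_eq_left]
    exact hkermk
  have hbot : 𝔓.map mk = ⊥ := by
    by_contra hne
    have hmax : (𝔓.map mk).IsMaximal := Ring.DimensionLEOne.maximalOfPrime hne hprime'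
    have hmax' : 𝔓.IsMaximal := by
      rw [← hcomap]
      exact Ideal.comap_isMaximal_of_surjective mk hsurj
    have h𝔓m : 𝔓 = IsLocalRing.maximalIdeal T := IsLocalRing.eq_maximalIdeal hmax'
    exact hb𝔓 (h𝔓m ▸ hbm)
  have hx𝔓 : x ∈ 𝔓 := hx
  have h1 : mk x ∈ 𝔓.map mk := Ideal.mem_map_of_mem mk hx𝔓
  rw [hbot, Ideal.mem_bot, Ideal.Quotient.eq_zero_iff_mem, Ideal.mem_span_singleton] at h1
  exact h1

end Ker

section S2

variable {R : Type*} [CommRing R] [IsDomain R] [IsLocalRing R]
variable {S : Type*} [CommRing S] [IsDomain S] [Algebra R S]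
variable {t : S} {f : R[X]} {a : R}

/-- the reduction of `g(t)` on the sheet `E` is `(g.map rho2)(τ)` -/
theorem rhoQ_aeval (E : S →+* LaurentSeries Kb) (rho2 : R →+* LaurentSeries (kA A))
    (e1 : ∀ r, RhoQ A (E (algebraMap R S r)) (rho2 r)) {τ : LaurentSeries (kA A)}
    (e3 : RhoQ A (E t) τ) (g : R[X]) :
    RhoQ A (E (aeval t g)) ((g.map rho2).eval τ) := by
  rw [aeval_eq_sum_range, map_sum, eval_eq_sum_range' (Nat.lt_succ_of_le (natDegree_map_le))]
  refine RhoQ.sum _ fun k _ => ?_
  rw [Algebra.smul_def, map_mul, map_pow, coeff_map]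
  exact RhoQ.mul (e1 _) (e3.pow k)

/-- **[SHEETS], matching** in the setting of `helper33`: some sheet `j < p` has its reduction
kernel on `S` inside the prime ideal `𝔪 ∋ y`. -/
theorem exists_sheet_match (h : IsMonogenic t f) {y : R} (p : ℕ) (hp : p.Prime)
    (hdeg : f.natDegree = p)
    (E : ℕ → (S →+* LaurentSeries Kb)) (rho2 : R →+* LaurentSeries (kA A))
    (e1 : ∀ j r, RhoQ A (E j (algebraMap R S r)) (rho2 r))
    (e2 : ∀ r, rho2 r = 0 → y ∣ r)
    (τ : LaurentSeries (kA A))
    (e3 : ∀ j, j < p → RhoQ A (E j t) (τ - (j : LaurentSeries (kA A))))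
    [CharP (LaurentSeries (kA A)) p]
    (𝔪 : Ideal S) [h𝔪 : 𝔪.IsPrime] (hy : algebraMap R S y ∈ 𝔪) :
    ∃ j, j < p ∧ ∀ s : S, RhoQ A (E j s) 0 → s ∈ 𝔪 := by
  classical
  by_contra hcon
  push Not at hcon
  choose! w hw0 hwm using hcon
  have hSint : ∀ (x : S) j, j < p → ∃ r : LaurentSeries (kA A), RhoQ A (E j x) r := by
    intro x j hj
    obtain ⟨g, -, rfl⟩ := h.exists_rep x
    exact ⟨_, rhoQ_aeval (E j) rho2 (e1 j) (e3 j hj) g⟩
  let W : S := ∏ j ∈ Finset.range p, w j
  have hWm : W ∉ 𝔪 := by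
    intro hW
    obtain ⟨j, hj, hjm⟩ := Ideal.IsPrime.prod_mem_iff.mp hW
    exact hwm j (Finset.mem_range.mp hj) hjm
  have hW0 : ∀ j, j < p → RhoQ A (E j W) 0 := by
    intro j hj
    have e : W = w j * ∏ i ∈ (Finset.range p).erase j, w i :=
      (Finset.mul_prod_erase _ _ (Finset.mem_range.mpr hj)).symm
    obtain ⟨r, hr⟩ := hSint (∏ i ∈ (Finset.range p).erase j, w i) j hj
    have h1 := RhoQ.mul (hw0 j hj) hr
    rw [zero_mul] at h1
    rw [e, map_mul]
    exact h1
  obtain ⟨g, hgdeg, hg⟩ := h.exists_rep W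
  have hgnat : (g.map rho2).natDegree < p := by
    rcases eq_or_ne g 0 with h0 | h0
    · rw [h0, Polynomial.map_zero, natDegree_zero]
      exact hp.pos
    · have h1 : g.natDegree < f.natDegree := by
        have hf0 : f ≠ 0 := h.monic.ne_zero
        exact (natDegree_lt_natDegree_iff h0).mpr hgdeg
      rw [hdeg] at h1
      exact lt_of_le_of_lt natDegree_map_le h1
  have hPeval : ∀ j : Fin p, (g.map rho2).eval (τ - ((j : ℕ) : LaurentSeries (kA A))) = 0 := by
    intro j
    have h1 := rhoQ_aeval (E j) rho2 (e1 j) (e3 j j.2) g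
    rw [hg] at h1
    exact h1.unique (hW0 j j.2)
  have hinj : Function.Injective
      (fun j : Fin p => τ - ((j : ℕ) : LaurentSeries (kA A))) := by
    intro i j hij
    have h1 : ((i : ℕ) : LaurentSeries (kA A)) = ((j : ℕ) : LaurentSeries (kA A)) := by
      have := sub_right_injective hij
      exact this
    have h2 := (CharP.natCast_eq_natCast (LaurentSeries (kA A)) p).mp h1
    apply Fin.ext
    exact Nat.ModEq.eq_of_lt_of_lt h2 i.2 j.2
  have hP0 : g.map rho2 = 0 :=
    eq_zero_of_natDegree_lt_card_of_eval_eq_zero (g.map rho2) hinj hPeval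
      (by rw [Fintype.card_fin]; exact hgnat)
  have hcoef : ∀ k, y ∣ g.coeff k := by
    intro k
    apply e2
    have := congrArg (fun Q : (LaurentSeries (kA A))[X] => Q.coeff k) hP0
    simpa [coeff_map] using this
  apply hWm
  rw [← hg, aeval_eq_sum_range]
  refine Ideal.sum_mem _ fun k _ => ?_
  obtain ⟨c, hc⟩ := hcoef k
  rw [hc, Algebra.smul_def, map_mul, mul_assoc]
  exact Ideal.mul_mem_right _ _ hy

variable (T : Type*) [CommRing T] [Algebra S T] [Algebra R T] [IsScalarTower R S T]
variable [hP : (ptIdeal t a).IsPrime] [IsLocalization.AtPrime T (ptIdeal t a)]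

include hP in
/-- **PIECE (S2)**: the second sheet at the etale point. -/
theorem sheet2_point [IsNoetherianRing R] (h : IsMonogenic t f)
    (ha : f.eval a ∈ maximalIdeal R) (ha' : f.derivative.eval a ∉ maximalIdeal R)
    {y : R} (hy : y ∈ maximalIdeal R) (hyne : y ≠ 0)
    [IsDomain (R ⧸ Ideal.span {y})] [IsPrincipalIdealRing (R ⧸ Ideal.span {y})]
    (p : ℕ) (hp : p.Prime) (hdeg : f.natDegree = p)
    (E : ℕ → (S →+* LaurentSeries Kb)) (rho2 : R →+* LaurentSeries (kA A))
    (e1 : ∀ j r, RhoQ A (E j (algebraMap R S r)) (rho2 r))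
    (e2 : ∀ r, rho2 r = 0 → y ∣ r) (hρy : rho2 y = 0)
    (τ : LaurentSeries (kA A))
    (e3 : ∀ j, j < p → RhoQ A (E j t) (τ - (j : LaurentSeries (kA A))))
    [CharP (LaurentSeries (kA A)) p]
    (w : R) (hw : w ∈ maximalIdeal R) (hw0 : rho2 w ≠ 0) :
    ∃ j, j < p ∧ (∀ s : S, s ∉ ptIdeal t a → ¬ RhoQ A (E j s) 0) ∧
      ∀ E' : T →+* LaurentSeries Kb, (∀ s, E' (algebraMap S T s) = E j s) →
        (∀ x : T, ∃ r : LaurentSeries (kA A), RhoQ A (E' x) r) ∧
        (∀ x : T, RhoQ A (E' x) 0 → algebraMap R T y ∣ x) ∧ Prime (algebraMap R T y) := by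
  classical
  have hyS : algebraMap R S y ∈ ptIdeal t a := algebraMap_mem_ptIdeal t a hy
  obtain ⟨j, hj, hmatch⟩ := exists_sheet_match h p hp hdeg E rho2 e1 e2 τ e3 (ptIdeal t a) hyS
  refine ⟨j, hj, fun s hs h0 => hs (hmatch s h0), fun E' hE' => ?_⟩
  haveI : IsLocalRing T := IsMonogenic.isLocalRing_loc (t := t) (a := a) T
  have hSint : ∀ x : S, ∃ r : LaurentSeries (kA A), RhoQ A (E j x) r := by
    intro x
    obtain ⟨g, -, rfl⟩ := h.exists_rep x
    exact ⟨_, rhoQ_aeval (E j) rho2 (e1 j) (e3 j hj) g⟩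
  -- integrality on `T`
  have hint : ∀ x : T, ∃ r : LaurentSeries (kA A), RhoQ A (E' x) r := by
    intro x
    obtain ⟨⟨s, m⟩, hx⟩ := IsLocalization.surj (ptIdeal t a).primeCompl x
    obtain ⟨rs, hrs⟩ := hSint s
    obtain ⟨rm, hrm⟩ := hSint (m : S)
    have hrm0 : rm ≠ 0 := by
      rintro rfl
      exact m.2 (hmatch _ hrm)
    have hEm : E j (m : S) ≠ 0 := hrm.ne_zero hrm0
    refine ⟨rs / rm, ?_⟩
    have e' : E' x = E j s / E j (m : S) := by
      rw [eq_div_iff hEm, ← hE' (m : S), ← map_mul]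
      have hx' : x * algebraMap S T (m : S) = algebraMap S T s := hx
      rw [hx', hE']
    rw [e']
    exact hrs.div hrm hrm0
  have htower : ∀ r : R, algebraMap R T r = algebraMap S T (algebraMap R S r) := fun r =>
    IsScalarTower.algebraMap_apply R S T r
  have hredR : ∀ r : R, RhoQ A (E' (algebraMap R T r)) (rho2 r) := by
    intro r
    rw [htower, hE']
    exact e1 j r
  obtain ⟨hdom, hpid⟩ := h.quotient_loc T ha ha' hy
  refine ⟨hint, fun x hx => ?_, h.prime_algebraMap_loc T ha ha' hy hyne⟩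
  refine dvd_of_redKerHom (algebraMap R T y) E' hint ?_ hdom hpid ?_ x hx
  · have := hredR y
    rwa [hρy] at this
  · refine ⟨algebraMap R T w, ?_, rho2 w, hw0, hredR w⟩
    have hmem : algebraMap R T w ∈ maximalIdeal T := by
      rw [h.maximalIdeal_loc T ha ha']
      exact Ideal.mem_map_of_mem _ hw
    exact (IsLocalRing.mem_maximalIdeal _).mp hmem

end S2

end Fermat.Agent.T8.helper4

end
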