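import Fermat.Agent.T8.helper29_ConclInst
import Fermat.Agent.T2.helper58_ScaleBad
import Fermat.Agent.T6.helper26_PVal

/-!
# T8 = row 38 via S44, leaf [CONCL] (helper29, owner): the exit WITHOUT "reductions in `FFb`"

helper97 (#3624): `StronglySplit` does not give the Artin - Schreier root of the cover in `FFb`; the
local rings of the cover at the points `s'` over a closed point `Q` have residue rings `T / (y)`
which are discrete valuation rings UNRAMIFIED over the local ring of `Q`.  So the order function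
of the K1-corollary on the cover is an order function `ordS` on the residue field of the sheets
(a subfield of `k((q))`), which restricts to `ord_Q` on `FFb A N`.  This file gives the exit of
[CONCL] in this generality:

* `rhoQ_unique_const`   : two scaled reductions of the same series differ by a nonzero constant;
* `exists_isRed1`       : every `u ≠ 0` of level `N p` has a first-component reduction in
                          `FFb A N` (`T2.helper58.scaleStatement_bad`, `T2.helper96.FFb_mul_eq`);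
* `SheetOrd A N Good Q ordS` : `ordS` is multiplicative on the nonzero quotients of reductions
                          of good series and restricts to `ord_Q` on `FFb A N`;
* `modEqOff_of_sheets`  : **[CONCL]** for ANY first-component reduction `f₀` of `u`:
                          `ModEqOff A N p (e₁ - e₂) f₀ ν`;
* `slopeOutN_of_sheetOrd` : the exit `SlopeOutN A N p ν u`.

The class `Good` only needs nonzero reductions (`hne`).  The set of points is the set of places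
of `FFb A N` where `j̄` is finite; `concl_family` (`helper29_ConclSheet`) is generic in the set of
points and in the multiplicities `m`, so a K1-corollary at the cuspidal points of the cover
(`m = 0`) gives `p ∣ ord_Q f₀` at the cusps by the same proof (`dvd_of_sheets_at`).
-/

set_option autoImplicit false
set_option linter.unusedSectionVars false
set_option linter.unusedVariables false
set_option linter.style.longLine false
set_option linter.style.haveILetI false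

noncomputable section

namespace Fermat.Agent.T8.helper29

open HahnSeries IntermediateField AlgebraicCurve ModularCurve
open Fermat.Agent.S18.helper19 Fermat.Agent.P2.helper29 Fermat.Agent.P2.helper93
open Fermat.Agent.T8.helper65 Fermat.Agent.T8.helper80
open Fermat.Agent.T8.helper54 (IsRed1 DvdOff ModEqOff)
open Fermat.Agent.T3.helper36 (RhoQ)

variable {A : ValuationSubring Kb}

/-- **uniqueness of the scaled reduction up to a constant** -/
theorem rhoQ_unique_const {g : LaurentSeries Kb} {κ κ₀ : Kb} (hκ : κ ≠ 0) (hκ₀ : κ₀ ≠ 0)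
    {r r₀ : LaurentSeries (kA A)} (hr : r ≠ 0) (hr₀ : r₀ ≠ 0)
    (h : RhoQ A (algebraMap Kb (LaurentSeries Kb) κ⁻¹ * g) r)
    (h₀ : RhoQ A (algebraMap Kb (LaurentSeries Kb) κ₀⁻¹ * g) r₀) :
    ∃ c : kA A, c ≠ 0 ∧ r₀ = algebraMap (kA A) (LaurentSeries (kA A)) c * r := by
  have e : algebraMap Kb (LaurentSeries Kb) (κ / κ₀) *
      (algebraMap Kb (LaurentSeries Kb) κ⁻¹ * g) =
      algebraMap Kb (LaurentSeries Kb) κ₀⁻¹ * g := by
    rw [← mul_assoc, ← map_mul]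
    congr 2
    field_simp
  have hv : A.valuation (κ / κ₀) = 1 :=
    Fermat.Agent.T3.helper36.valuation_eq_one_of_rhoQ hr hr₀ h (by rw [e]; exact h₀)
  have hcA : κ / κ₀ ∈ A := (A.valuation_le_one_iff _).1 hv.le
  have h1 := (Fermat.Agent.T3.helper36.rhoQ_algebraMap (⟨κ / κ₀, hcA⟩ : A)).mul h
  have h2 : RhoQ A (algebraMap Kb (LaurentSeries Kb) κ₀⁻¹ * g)
      (algebraMap (kA A) (LaurentSeries (kA A)) (IsLocalRing.residue A ⟨κ / κ₀, hcA⟩) * r) := by
    rw [← e]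
    exact h1
  have h3 := h₀.unique h2
  refine ⟨IsLocalRing.residue A ⟨κ / κ₀, hcA⟩, ?_, h3⟩
  intro h0
  rw [h0, map_zero, zero_mul] at h3
  exact hr₀ h3

section Level

variable {N p : ℕ} [NeZero N] [NeZero p]

/-- **every nonzero function of level `N p` has a first-component reduction in `FFb A N`** -/
theorem exists_isRed1 (hp : p.Prime) (hpN : ¬ p ∣ N) (hA : A.LiesOverPrime p)
    {u : FF (N * p)} (hu : u ≠ 0) : ∃ f : FFb A N, IsRed1 A N p u f := by
  obtain ⟨c, Y₁, Y₂, hc, hY₁, hY₂, hrel⟩ :=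
    Fermat.Agent.T2.helper58.scaleStatement_bad N p hp hpN A hA (u : LaurentSeries Kb) u.2
      (fun h => hu (Subtype.ext h))
  have hFF : FFb A (N * p) = FFb A N := Fermat.Agent.T2.helper96.FFb_mul_eq N A hp hA
  have h1 : red A Y₁ ∈ FFb A N := by rw [← hFF]; exact hY₁.2.1
  have h2 : red A Y₂ ∈ FFb A N := by rw [← hFF]; exact hY₂.2.1
  have h1' : red A Y₁ ≠ 0 := hY₁.2.2
  have h2' : red A Y₂ ≠ 0 := hY₂.2.2
  have hmem : red A Y₁ * (red A Y₂)⁻¹ ∈ FFb A N :=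
    (FFb A N).mul_mem h1 ((FFb A N).inv_mem h2)
  have hH : HasRed (fun Y : LaurentSeries A => red A Y ≠ 0) c (u : LaurentSeries Kb)
      (red A Y₁ * (red A Y₂)⁻¹) :=
    ⟨Y₁, Y₂, h1', h2', hrel, by rw [mul_assoc, inv_mul_cancel₀ h2', mul_one]⟩
  obtain ⟨k1, k2⟩ := (hasRed_redNe_iff hc).mp hH
  exact ⟨⟨_, hmem⟩, fun h0 => k2 (congrArg Subtype.val h0), c, hc, k1⟩

/-- **the order function of a point of the cover over `Q`**: multiplicative on the nonzero
quotients of reductions of good series, equal to `ord_Q` on `FFb A N` (unramified). -/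
structure SheetOrd (A : ValuationSubring Kb) (N : ℕ) [NeZero N] (Good : LaurentSeries A → Prop)
    (Q : Place (kA A) (FFb A N)) (ordS : LaurentSeries (kA A) → ℤ) : Prop where
  mul : OrdMul Good ordS
  compat : ∀ (r : LaurentSeries (kA A)) (hr : r ∈ FFb A N), r ≠ 0 →
    ordS r = Q.ord (⟨r, hr⟩ : FFb A N)

variable {Good : LaurentSeries A → Prop}

/-- the order functions `ordAt Q` of [RING-X] when all reductions lie in `FFb A N` -/
theorem GoodIn.sheetOrd (hI : GoodIn A N Good) (Q : Place (kA A) (FFb A N)) :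
    SheetOrd A N Good Q (Fermat.Agent.T8.helper16.ordAt Q) :=
  ⟨hI.ordMul Q, fun r hr _ => Fermat.Agent.T8.helper16.ordAt_of_mem Q hr⟩

/-- **[CONCL] at one point**, for any first-component reduction `f₀` of `u`: the point may be
any place `Q` of `FFb A N` (finite or cuspidal), `m` any integer. -/
theorem dvd_of_sheets_at (hG : GoodClass A Good)
    (hne : ∀ Y : LaurentSeries A, Good Y → red A Y ≠ 0)
    (hp : (p : Kb) ≠ 0) {a : Kb} (ha : IsU A a)
    {U₁ G₁ U₂ G₂ : ℕ → LaurentSeries Kb}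
    (hF₁ : SheetFam A Good p a U₁ G₁) (hF₂ : SheetFam A Good p a U₂ G₂)
    {c₁ c₂ : Kb} {r₁ r₂ : LaurentSeries (kA A)} {e₁ e₂ : ℤ} (hc₁ : c₁ ≠ 0) (hc₂ : c₂ ≠ 0)
    (hr₁0 : r₁ ≠ 0)
    (h₁ : HasRed Good c₁ (U₁ 0) r₁) (h₂ : HasRed Good c₂ (U₂ 0) r₂)
    (hv₁ : IsVal A p c₁ e₁) (hv₂ : IsVal A p c₂ e₂)
    {u : FF (N * p)} {H : LaurentSeries Kb} {ch : Kb} {rh : LaurentSeries (kA A)}
    (hch : ch ≠ 0) (hrh0 : rh ≠ 0) (hh : HasRed Good ch H rh)
    (hrel : U₁ 0 * H ^ p = (u : LaurentSeries Kb))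
    {f₀ : FFb A N} (hf₀ : IsRed1 A N p u f₀)
    (Q : Place (kA A) (FFb A N)) {ordS : LaurentSeries (kA A) → ℤ}
    (hO : SheetOrd A N Good Q ordS) {m : ℤ} (i j : ℕ)
    (hS : K1CorSheet A Good p ordS m (U₁ i) (U₂ j)) :
    (p : ℤ) ∣ Q.ord f₀ + (e₂ - e₁) * m := by
  have hp0 : 0 < p := Nat.pos_of_ne_zero (NeZero.ne p)
  have h := concl_at_point hG hp hp0 ha hF₁ hF₂ hc₁ hc₂ hr₁0 h₁ h₂ hv₁ hv₂ hO.mul i j hS
  obtain ⟨hf, hdvd⟩ := concl_transfer hG hp0 h₁ hh hr₁0 hrh0 hrel hO.mul h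
  -- compare with `f₀`
  have hκ : c₁ * ch ^ p ≠ 0 := mul_ne_zero hc₁ (pow_ne_zero _ hch)
  have hf0 : r₁ * rh ^ p ≠ 0 := mul_ne_zero hr₁0 (pow_ne_zero _ hrh0)
  have hR : HasRed (fun Y : LaurentSeries A => red A Y ≠ 0) (c₁ * ch ^ p)
      (u : LaurentSeries Kb) (r₁ * rh ^ p) := by
    obtain ⟨Y₁, Y₂, g₁, g₂, e, er⟩ := hf
    exact ⟨Y₁, Y₂, hne Y₁ g₁, hne Y₂ g₂, e, er⟩
  obtain ⟨k1, -⟩ := (hasRed_redNe_iff hκ).mp hR
  obtain ⟨hf₀0, κ₀, hκ₀, k0⟩ := hf₀
  have hf₀0' : (f₀ : LaurentSeries (kA A)) ≠ 0 := fun h0 => hf₀0 (Subtype.ext h0)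
  obtain ⟨c, hc, hcf⟩ := rhoQ_unique_const hκ₀ hκ hf₀0' hf0 k0 k1
  -- `r₁ * rh ^ p = c * f₀` lies in `FFb A N`
  have hmem : r₁ * rh ^ p ∈ FFb A N := by
    rw [hcf]
    exact (FFb A N).mul_mem ((FFb A N).algebraMap_mem c) f₀.2
  have hord : ordS (r₁ * rh ^ p) = Q.ord f₀ := by
    rw [hO.compat _ hmem hf0]
    have e1 : (⟨r₁ * rh ^ p, hmem⟩ : FFb A N) = algebraMap (kA A) (FFb A N) c * f₀ :=
      Subtype.ext hcf
    rw [e1, Place.ord_mul Q ((map_ne_zero _).mpr hc) hf₀0,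
      Fermat.Agent.T6.helper26.ord_const Q c, zero_add]
  rw [hord] at hdvd
  exact hdvd

/-- **[CONCL], exit for a given reduction `f₀` of `u`**, off the cusps. -/
theorem modEqOff_of_sheets (hG : GoodClass A Good)
    (hne : ∀ Y : LaurentSeries A, Good Y → red A Y ≠ 0)
    (hp : (p : Kb) ≠ 0) {a : Kb} (ha : IsU A a)
    {U₁ G₁ U₂ G₂ : ℕ → LaurentSeries Kb}
    (hF₁ : SheetFam A Good p a U₁ G₁) (hF₂ : SheetFam A Good p a U₂ G₂)
    {c₁ c₂ : Kb} {r₁ r₂ : LaurentSeries (kA A)} {e₁ e₂ : ℤ} (hc₁ : c₁ ≠ 0) (hc₂ : c₂ ≠ 0)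
    (hr₁0 : r₁ ≠ 0)
    (h₁ : HasRed Good c₁ (U₁ 0) r₁) (h₂ : HasRed Good c₂ (U₂ 0) r₂)
    (hv₁ : IsVal A p c₁ e₁) (hv₂ : IsVal A p c₂ e₂)
    {u : FF (N * p)} {H : LaurentSeries Kb} {ch : Kb} {rh : LaurentSeries (kA A)}
    (hch : ch ≠ 0) (hrh0 : rh ≠ 0) (hh : HasRed Good ch H rh)
    (hrel : U₁ 0 * H ^ p = (u : LaurentSeries Kb))
    {f₀ : FFb A N} (hf₀ : IsRed1 A N p u f₀) (ν : FFb A N)
    (hS : ∀ Q : Place (kA A) (FFb A N), 0 ≤ Q.ord (jBar A N) →
      ∃ ordS : LaurentSeries (kA A) → ℤ, SheetOrd A N Good Q ordS ∧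
        ∃ i j : ℕ, K1CorSheet A Good p ordS (Q.ord ν) (U₁ i) (U₂ j)) :
    ModEqOff A N p (e₁ - e₂) f₀ ν := by
  intro Q hQ
  obtain ⟨ordS, hO, i, j, hij⟩ := hS Q hQ
  have h := dvd_of_sheets_at hG hne hp ha hF₁ hF₂ hc₁ hc₂ hr₁0 h₁ h₂ hv₁ hv₂ hch hrh0 hh hrel
    hf₀ Q hO i j hij
  apply Int.ModEq.symm
  rw [Int.modEq_iff_dvd]
  have e : Q.ord f₀ - (e₁ - e₂) * Q.ord ν = Q.ord f₀ + (e₂ - e₁) * Q.ord ν := by ring
  rw [e]
  exact h

/-- **[CONCL], the exit `SlopeOutN`** from the sheets of the cover, with order functions on the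
residue fields of the cover. -/
theorem slopeOutN_of_sheetOrd (hpp : p.Prime) (hpN : ¬ p ∣ N) (hA : A.LiesOverPrime p)
    (hG : GoodClass A Good) (hne : ∀ Y : LaurentSeries A, Good Y → red A Y ≠ 0)
    {a : Kb} (ha : IsU A a)
    {U₁ G₁ U₂ G₂ : ℕ → LaurentSeries Kb}
    (hF₁ : SheetFam A Good p a U₁ G₁) (hF₂ : SheetFam A Good p a U₂ G₂)
    {c₁ c₂ : Kb} {r₁ r₂ : LaurentSeries (kA A)} {e₁ e₂ : ℤ} (hc₁ : c₁ ≠ 0) (hc₂ : c₂ ≠ 0)
    (hr₁0 : r₁ ≠ 0)
    (h₁ : HasRed Good c₁ (U₁ 0) r₁) (h₂ : HasRed Good c₂ (U₂ 0) r₂)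
    (hv₁ : IsVal A p c₁ e₁) (hv₂ : IsVal A p c₂ e₂)
    {u : FF (N * p)} (hu : u ≠ 0) {H : LaurentSeries Kb} {ch : Kb}
    {rh : LaurentSeries (kA A)}
    (hch : ch ≠ 0) (hrh0 : rh ≠ 0) (hh : HasRed Good ch H rh)
    (hrel : U₁ 0 * H ^ p = (u : LaurentSeries Kb)) (ν : FFb A N)
    (hS : ∀ Q : Place (kA A) (FFb A N), 0 ≤ Q.ord (jBar A N) →
      ∃ ordS : LaurentSeries (kA A) → ℤ, SheetOrd A N Good Q ordS ∧
        ∃ i j : ℕ, K1CorSheet A Good p ordS (Q.ord ν) (U₁ i) (U₂ j)) :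
    SlopeOutN A N p ν u := by
  obtain ⟨f₀, hf₀⟩ := exists_isRed1 hpp hpN hA hu
  have hp : (p : Kb) ≠ 0 := Nat.cast_ne_zero.mpr hpp.ne_zero
  exact ⟨f₀, e₁ - e₂, hf₀,
    modEqOff_of_sheets hG hne hp ha hF₁ hF₂ hc₁ hc₂ hr₁0 h₁ h₂ hv₁ hv₂ hch hrh0 hh hrel hf₀ ν hS⟩

end Level

end Fermat.Agent.T8.helper29

end
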