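import Mathlib.RingTheory.UniqueFactorizationDomain.Basic
import Mathlib.RingTheory.UniqueFactorizationDomain.Multiplicity
import Mathlib.Data.Nat.ModEq
import Mathlib.Data.Nat.Factorization.Basic
import Mathlib.Tactic.Ring
import Mathlib.Tactic.Linarith

/-!
# T8 (row 38, at risk), leaf [RING-X], sub-box DICTIONARY, VERTICAL half (helper48): abstract part

`R` a domain (in the application: the local ring `R_s` at a double point `s` of the `I`-fixed
integral regular functions), `xx, y ∈ R` prime elements with `xx * y = ε * p` (`ε` a unit, `p` the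
residue characteristic; in the application `y = b0` is the weight-one unit and `xx = W b0` its
Atkin-Lehner mirror), such that every integer prime to `p` is a unit of `R`, and two functions
`w1, w2 : R → ℕ` (the Gauss valuations at the two cusps, i.e. along the two components of the
special fibre), additive on products of nonzero elements, with

  `w1 xx = 1`, `w2 y = 1`, `0 < w1 a → xx ∣ a`, `0 < w2 a → y ∣ a`.

* `vert_mult_eq` (V1): the exact multiplicity of `y` in `a ≠ 0` is `w2 a` (same for `xx`, `w1`).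
* `vert_prime_assoc` (V2): a prime element of `R` dividing an integer `n ≠ 0` is associated to
  `xx` or to `y`.
* `vert_glue` (V3): for `a, b ≠ 0` with `w1 a ≡ w1 b`, `w2 a ≡ w2 b mod n` and the horizontal
  conclusion (the conclusion of `helper23.DictModEqStatement`), the exact multiplicities of EVERY
  prime element of `R` in `a` and in `b` are congruent modulo `n`: this is, verbatim, the
  hypothesis `h` of `helper6.slope_of_ufm` / `helper6.slope_abs`.
-/

set_option autoImplicit false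
set_option linter.unusedSectionVars false
set_option linter.style.longLine false

namespace Fermat.Agent.T8.helper48

section Vertical

variable {R : Type*} [CommRing R] [IsDomain R]

/-- an additive function takes the value `k * w y` on `y ^ k` -/
theorem vert_w_pow {w : R → ℕ}
    (hmul : ∀ a b : R, a ≠ 0 → b ≠ 0 → w (a * b) = w a + w b)
    {y : R} (hy : y ≠ 0) (k : ℕ) : w (y ^ k) = k * w y := by
  have h1 : w (1 : R) = 0 := by
    have := hmul 1 1 one_ne_zero one_ne_zero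
    rw [mul_one] at this
    omega
  induction k with
  | zero => simp [h1]
  | succ k ih =>
    rw [pow_succ, hmul _ _ (pow_ne_zero _ hy) hy, ih]
    ring

/-- **(V1)** the exact multiplicity of `y` is the value of `w`. -/
theorem vert_mult_eq {w : R → ℕ}
    (hmul : ∀ a b : R, a ≠ 0 → b ≠ 0 → w (a * b) = w a + w b)
    {y : R} (hy : y ≠ 0) (hwy : w y = 1)
    (hdiv : ∀ a : R, a ≠ 0 → 0 < w a → y ∣ a)
    {a : R} (ha : a ≠ 0) {k : ℕ} (hk : y ^ k ∣ a) (hk' : ¬ y ^ (k + 1) ∣ a) :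
    k = w a := by
  obtain ⟨c, rfl⟩ := hk
  have hc : c ≠ 0 := right_ne_zero_of_mul ha
  rw [hmul _ _ (pow_ne_zero _ hy) hc, vert_w_pow hmul hy, hwy, mul_one]
  have hwc : w c = 0 := by
    by_contra h0
    obtain ⟨d, rfl⟩ := hdiv c hc (Nat.pos_of_ne_zero h0)
    exact hk' ⟨d, by ring⟩
  omega

/-- the exact multiplicity of an associate -/
theorem vert_mult_assoc {π y : R} (hπy : Associated π y) (a : R) (k : ℕ) :
    (π ^ k ∣ a ↔ y ^ k ∣ a) :=
  (hπy.pow_pow (n := k)).dvd_iff_dvd_left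

/-- a prime element dividing an integer `n ≠ 0` divides `p`, if the integers prime to `p` are
units. -/
theorem vert_prime_dvd_p {p : ℕ} (hp : p.Prime)
    (hunit : ∀ m : ℕ, m.Coprime p → IsUnit (m : R))
    {π : R} (hπ : Prime π) {n : ℕ} (hn : n ≠ 0) (hdvd : π ∣ (n : R)) : π ∣ (p : R) := by
  obtain ⟨e, m, hm, rfl⟩ := Nat.exists_eq_pow_mul_and_not_dvd hn p hp.ne_one
  rw [Nat.cast_mul, Nat.cast_pow] at hdvd
  rcases hπ.dvd_or_dvd hdvd with h | h
  · exact hπ.dvd_of_dvd_pow h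
  · exfalso
    have hcop : m.Coprime p := ((Nat.Prime.coprime_iff_not_dvd hp).2 hm).symm
    exact hπ.not_isUnit (isUnit_of_dvd_unit h (hunit m hcop))

/-- **(V2)** a prime element of `R` dividing an integer `n ≠ 0` is associated to `xx` or `y`. -/
theorem vert_prime_assoc {p : ℕ} (hp : p.Prime)
    (hunit : ∀ m : ℕ, m.Coprime p → IsUnit (m : R))
    {xx y : R} (hxx : Irreducible xx) (hy : Irreducible y) {ε : Rˣ}
    (hxy : xx * y = ε * (p : R))
    {π : R} (hπ : Prime π) {n : ℕ} (hn : n ≠ 0) (hdvd : π ∣ (n : R)) :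
    Associated π xx ∨ Associated π y := by
  have h1 : π ∣ (p : R) := vert_prime_dvd_p hp hunit hπ hn hdvd
  have h2 : π ∣ xx * y := by
    rw [hxy]
    exact Dvd.dvd.mul_left h1 _
  rcases hπ.dvd_or_dvd h2 with h | h
  · exact Or.inl (hπ.irreducible.associated_of_dvd hxx h)
  · exact Or.inr (hπ.irreducible.associated_of_dvd hy h)

/-- **(V3) GLUE**: vertical primes by `w1`, `w2`, horizontal primes by the dictionary: the
hypothesis `h` of `helper6.slope_of_ufm` / `helper6.slope_abs`. -/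
theorem vert_glue {p : ℕ} (hp : p.Prime)
    (hunit : ∀ m : ℕ, m.Coprime p → IsUnit (m : R))
    {xx y : R} (hxx : Irreducible xx) (hy : Irreducible y) {ε : Rˣ}
    (hxy : xx * y = ε * (p : R))
    {w1 w2 : R → ℕ}
    (hmul1 : ∀ a b : R, a ≠ 0 → b ≠ 0 → w1 (a * b) = w1 a + w1 b)
    (hmul2 : ∀ a b : R, a ≠ 0 → b ≠ 0 → w2 (a * b) = w2 a + w2 b)
    (hw1 : w1 xx = 1) (hw2 : w2 y = 1)
    (hdiv1 : ∀ a : R, a ≠ 0 → 0 < w1 a → xx ∣ a)
    (hdiv2 : ∀ a : R, a ≠ 0 → 0 < w2 a → y ∣ a)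
    (n : ℕ) {a b : R} (ha : a ≠ 0) (hb : b ≠ 0)
    (h1 : w1 a ≡ w1 b [MOD n]) (h2 : w2 a ≡ w2 b [MOD n])
    (hfin : ∀ π : R, Prime π → ∀ r : R, r ≠ 0 → ∃ k : ℕ, ¬ π ^ (k + 1) ∣ r)
    (hhor : ∀ π : R, Prime π → (∀ m : ℕ, m ≠ 0 → ¬ π ∣ (m : R)) →
      (∀ r : R, r ≠ 0 → ∃ k : ℕ, ¬ π ^ (k + 1) ∣ r) →
      ∀ k l : ℕ, π ^ k ∣ a → ¬ π ^ (k + 1) ∣ a → π ^ l ∣ b → ¬ π ^ (l + 1) ∣ b →
        k ≡ l [MOD n]) :
    ∀ π : R, Prime π → ∀ k l : ℕ, π ^ k ∣ a → ¬ π ^ (k + 1) ∣ a →
      π ^ l ∣ b → ¬ π ^ (l + 1) ∣ b → k ≡ l [MOD n] := by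
  intro π hπ k l hka hka' hlb hlb'
  by_cases hv : ∃ m : ℕ, m ≠ 0 ∧ π ∣ (m : R)
  · obtain ⟨m, hm, hdvd⟩ := hv
    rcases vert_prime_assoc hp hunit hxx hy hxy hπ hm hdvd with hA | hA
    · have e1 : k = w1 a := vert_mult_eq hmul1 hxx.ne_zero hw1 hdiv1 ha
        ((vert_mult_assoc hA a k).1 hka) (fun h => hka' ((vert_mult_assoc hA a (k + 1)).2 h))
      have e2 : l = w1 b := vert_mult_eq hmul1 hxx.ne_zero hw1 hdiv1 hb
        ((vert_mult_assoc hA b l).1 hlb) (fun h => hlb' ((vert_mult_assoc hA b (l + 1)).2 h))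
      rw [e1, e2]
      exact h1
    · have e1 : k = w2 a := vert_mult_eq hmul2 hy.ne_zero hw2 hdiv2 ha
        ((vert_mult_assoc hA a k).1 hka) (fun h => hka' ((vert_mult_assoc hA a (k + 1)).2 h))
      have e2 : l = w2 b := vert_mult_eq hmul2 hy.ne_zero hw2 hdiv2 hb
        ((vert_mult_assoc hA b l).1 hlb) (fun h => hlb' ((vert_mult_assoc hA b (l + 1)).2 h))
      rw [e1, e2]
      exact h2
  · have hh : ∀ m : ℕ, m ≠ 0 → ¬ π ∣ (m : R) := fun m hm hd => hv ⟨m, hm, hd⟩
    exact hhor π hπ hh (hfin π hπ) k l hka hka' hlb hlb'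

/-- finite multiplicities in a UFD (the hypothesis `hfin` of `vert_glue`). -/
theorem vert_fin_of_ufm [UniqueFactorizationMonoid R] :
    ∀ π : R, Prime π → ∀ r : R, r ≠ 0 → ∃ k : ℕ, ¬ π ^ (k + 1) ∣ r := by
  intro π hπ r hr
  have hf : FiniteMultiplicity π r := FiniteMultiplicity.of_prime_left hπ hr
  obtain ⟨k, hk⟩ := hf
  exact ⟨k, hk⟩

end Vertical

end Fermat.Agent.T8.helper48
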