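import Mathlib
import Fermat.Agent.T8.helper23_DictCov
import Fermat.Agent.T8.helper29_ConclOrd
import Fermat.Agent.T8.helper65_K1SlopeX
import Fermat.Agent.T8.helper6_SlopeAbs
import Fermat.Agent.T8.helper97_SheetsInst
import Fermat.Agent.T8.helper48_Vertical

set_option autoImplicit false
set_option linter.unusedSectionVars false
set_option linter.unusedVariables false
set_option linter.style.longLine false
set_option linter.style.haveILetI false

noncomputable section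

namespace Fermat.Agent.T8.helper9

open HahnSeries IntermediateField AlgebraicCurve ModularCurve
open Fermat.Agent.S18.helper19 Fermat.Agent.P2.helper29 Fermat.Agent.P2.helper93
open Fermat.Agent.T3.helper36 (RhoQ GaussIs)
open Fermat.Agent.T8.helper65 (HasRed GoodClass IA muFix cwAct normCoset)
open Fermat.Agent.T8.helper16 (ordAt)
open Fermat.Agent.T8.helper23 (DictModEqStatement)

/-! ### Unique factorisation: splitting off a prime -/

section UFD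

variable {R : Type*} [CommRing R] [IsDomain R] [UniqueFactorizationMonoid R]

/-- in a UFD every nonzero element is `π ^ k * a'` with `π ∤ a'` -/
theorem exists_pow_mul_not_dvd {π : R} (hπ : Prime π) {a : R} (ha : a ≠ 0) :
    ∃ (k : ℕ) (a' : R), a = π ^ k * a' ∧ ¬ π ∣ a' := by
  have hf : FiniteMultiplicity π a := FiniteMultiplicity.of_prime_left hπ ha
  have h1 := pow_multiplicity_dvd π a
  have h2 := hf.not_pow_dvd_of_multiplicity_lt (Nat.lt_succ_self _)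
  generalize multiplicity π a = k at h1 h2
  obtain ⟨a', ha'⟩ := h1
  refine ⟨k, a', ha', fun ⟨c, hc⟩ => h2 ⟨c, ?_⟩⟩
  rw [ha', hc, pow_succ]
  ring

/-- the exact multiplicity of a prime `π` in an element prime to `π` is `0` -/
theorem eq_zero_of_pow_dvd_of_not_dvd {π a : R} (h : ¬ π ∣ a) {k : ℕ} (hk : π ^ k ∣ a) :
    k = 0 := by
  by_contra hk0
  exact h (dvd_trans (dvd_pow_self π hk0) hk)

end UFD

/-! ### The point of the cover -/

section Point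

variable {A : ValuationSubring Kb}
variable {F' : Type*} [Field F'] [Algebra Kb F']

/-- **The local ring of the cover at a point over `Q`** (contract for the instance: [SHEETS] +
[COVER-RING]).  `T` is a subring of the cover field `F'`, `s₁`, `s₂` are the two sheets through
the point, `xx`, `y` the vertical elements (`xx * y = ε p`), `ν` the reduction of `y` on the
first sheet, `Fb` a subfield of `k((q))` containing the reductions on the first sheet and `ordS`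
the order function of the point on it.  All reductions are taken in the quotient form `RhoQ`. -/
structure CovPt (Φ : Set (F' ≃+* F')) (s₁ s₂ : F' →+* LaurentSeries Kb) (T : Subring F')
    (xx y : T) (Fb : Subfield (LaurentSeries (kA A))) (ordS : LaurentSeries (kA A) → ℤ)
    (ν : LaurentSeries (kA A)) (p : ℕ) : Prop where
  /-- `T` is a unique factorisation domain -/
  ufm : UniqueFactorizationMonoid T
  /-- the elements of `T` are inertia-fixed -/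
  fix : ∀ r ∈ T, ∀ g ∈ Φ, g r = r
  /-- every inertia-fixed function is a quotient of elements of `T` -/
  frac : ∀ f : F', (∀ g ∈ Φ, g f = f) → ∃ a ∈ T, ∃ b ∈ T, b ≠ 0 ∧ f * b = a
  /-- the integers prime to `p` are units -/
  unit_nat : ∀ m : ℕ, m.Coprime p → IsUnit ((m : ℕ) : T)
  /-- `xx * y = ε p` -/
  xy : ∃ ε : Tˣ, xx * y = (ε : T) * ((p : ℕ) : T)
  prime_xx : Prime xx
  /-- the order function is additive on the nonzero elements of `Fb` -/
  ord_mul : ∀ r s : LaurentSeries (kA A), r ∈ Fb → s ∈ Fb → r ≠ 0 → s ≠ 0 →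
    ordS (r * s) = ordS r + ordS s
  /-- the order function does not see the nonzero constants -/
  ord_const_mul : ∀ c : kA A, c ≠ 0 → ∀ r : LaurentSeries (kA A), r ∈ Fb → r ≠ 0 →
    ordS (algebraMap (kA A) (LaurentSeries (kA A)) c * r) = ordS r
  /-- reductions on the first sheet exist, lie in `Fb`, and are regular at the point -/
  red₁ : ∀ a : T, ∃ r : LaurentSeries (kA A), r ∈ Fb ∧ RhoQ A (s₁ (a : F')) r ∧ 0 ≤ ordS r
  /-- the kernel of the reduction on the first sheet is `xx T` -/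
  ker₁ : ∀ a : T, RhoQ A (s₁ (a : F')) 0 → xx ∣ a
  red_xx : RhoQ A (s₁ (xx : F')) 0
  red_y : RhoQ A (s₁ (y : F')) ν
  nu_ne : ν ≠ 0
  /-- smooth point: `y` is a unit; double point: `y` is prime and generates the kernel of the
  reduction on the second sheet -/
  y_case : IsUnit y ∨ (Prime y ∧
    (∀ a : T, ∃ r : LaurentSeries (kA A), RhoQ A (s₂ (a : F')) r) ∧
    (∀ a : T, RhoQ A (s₂ (a : F')) 0 → y ∣ a) ∧ RhoQ A (s₂ (y : F')) 0)

namespace CovPt

variable {Φ : Set (F' ≃+* F')} {s₁ s₂ : F' →+* LaurentSeries Kb} {T : Subring F'}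
  {xx y : T} {Fb : Subfield (LaurentSeries (kA A))} {ordS : LaurentSeries (kA A) → ℤ}
  {ν : LaurentSeries (kA A)} {p : ℕ}
  (h : CovPt Φ s₁ s₂ T xx y Fb ordS ν p)

/-! #### the order function -/

include h in
theorem ord_one : ordS 1 = 0 := by
  have := h.ord_mul 1 1 Fb.one_mem Fb.one_mem one_ne_zero one_ne_zero
  rw [mul_one] at this
  omega

include h in
theorem ord_inv {r : LaurentSeries (kA A)} (hr : r ∈ Fb) (hr0 : r ≠ 0) :
    ordS r⁻¹ = - ordS r := by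
  have := h.ord_mul r r⁻¹ hr (Fb.inv_mem hr) hr0 (inv_ne_zero hr0)
  rw [mul_inv_cancel₀ hr0, h.ord_one] at this
  omega

include h in
theorem ord_div {r s : LaurentSeries (kA A)} (hr : r ∈ Fb) (hs : s ∈ Fb) (hr0 : r ≠ 0)
    (hs0 : s ≠ 0) : ordS (r / s) = ordS r - ordS s := by
  rw [div_eq_mul_inv, h.ord_mul r s⁻¹ hr (Fb.inv_mem hs) hr0 (inv_ne_zero hs0), h.ord_inv hs hs0]
  ring

include h in
theorem ord_pow {r : LaurentSeries (kA A)} (hr : r ∈ Fb) (hr0 : r ≠ 0) (n : ℕ) :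
    ordS (r ^ n) = n * ordS r := by
  induction n with
  | zero => rw [pow_zero, h.ord_one]; simp
  | succ n ih =>
    rw [pow_succ, h.ord_mul _ _ (Fb.pow_mem hr n) hr (pow_ne_zero _ hr0) hr0, ih]
    push_cast
    ring

include h in
theorem ord_zpow {r : LaurentSeries (kA A)} (hr : r ∈ Fb) (hr0 : r ≠ 0) (n : ℤ) :
    ordS (r ^ n) = n * ordS r := by
  cases n with
  | ofNat n =>
    rw [Int.ofNat_eq_natCast, zpow_natCast, h.ord_pow hr hr0]
  | negSucc n =>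
    rw [zpow_negSucc, h.ord_inv (Fb.pow_mem hr _) (pow_ne_zero _ hr0), h.ord_pow hr hr0,
      Int.negSucc_eq]
    push_cast
    ring

/-! #### the reduction on the first sheet -/

/-- the reduction on the first sheet, as a function on `T` -/
def rho (a : T) : LaurentSeries (kA A) := Classical.choose (h.red₁ a)

theorem rho_mem (a : T) : h.rho a ∈ Fb := (Classical.choose_spec (h.red₁ a)).1

theorem rhoQ_rho (a : T) : RhoQ A (s₁ (a : F')) (h.rho a) :=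
  (Classical.choose_spec (h.red₁ a)).2.1

theorem ord_rho_nonneg (a : T) : 0 ≤ ordS (h.rho a) :=
  (Classical.choose_spec (h.red₁ a)).2.2

theorem rho_eq {a : T} {r : LaurentSeries (kA A)} (hr : RhoQ A (s₁ (a : F')) r) :
    h.rho a = r :=
  (h.rhoQ_rho a).unique hr

theorem rho_mul (a b : T) : h.rho (a * b) = h.rho a * h.rho b := by
  have h1 := (h.rhoQ_rho a).mul (h.rhoQ_rho b)
  rw [← map_mul] at h1
  exact h.rho_eq h1

theorem rho_one : h.rho 1 = 1 := by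
  have h1 : RhoQ A (s₁ ((1 : T) : F')) 1 := by
    rw [Subring.coe_one, map_one]
    exact Fermat.Agent.T3.helper36.rhoQ_one
  exact h.rho_eq h1

theorem rho_pow (a : T) (n : ℕ) : h.rho (a ^ n) = h.rho a ^ n := by
  induction n with
  | zero => rw [pow_zero, pow_zero, rho_one]
  | succ n ih => rw [pow_succ, pow_succ, rho_mul, ih]

theorem rho_ne_zero {a : T} (ha : ¬ xx ∣ a) : h.rho a ≠ 0 := by
  intro h0
  apply ha
  apply h.ker₁
  have := h.rhoQ_rho a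
  rwa [h0] at this

theorem rho_unit_ne_zero (u : Tˣ) : h.rho (u : T) ≠ 0 := by
  have h1 : h.rho (u : T) * h.rho ((u⁻¹ : Tˣ) : T) = 1 := by
    rw [← rho_mul, Units.mul_inv, rho_one]
  exact left_ne_zero_of_mul_eq_one h1

theorem ord_rho_unit (u : Tˣ) : ordS (h.rho (u : T)) = 0 := by
  have h1 : h.rho (u : T) * h.rho ((u⁻¹ : Tˣ) : T) = 1 := by
    rw [← rho_mul, Units.mul_inv, rho_one]
  have hu0 := h.rho_unit_ne_zero u
  have hv0 := h.rho_unit_ne_zero u⁻¹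
  have h2 := congrArg ordS h1
  rw [h.ord_mul _ _ (h.rho_mem _) (h.rho_mem _) hu0 hv0, h.ord_one] at h2
  have h3 := h.ord_rho_nonneg (u : T)
  have h4 := h.ord_rho_nonneg ((u⁻¹ : Tˣ) : T)
  omega

/-- **[SLOPE] on the first sheet at the point**: congruent prime multiplicities give congruent
orders of the reductions. -/
theorem slope (hp : 0 < p) {a b : T} (ha : ¬ xx ∣ a) (hb : ¬ xx ∣ b)
    (hm : ∀ π : T, Prime π → ∀ k l : ℕ, π ^ k ∣ a → ¬ π ^ (k + 1) ∣ a →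
      π ^ l ∣ b → ¬ π ^ (l + 1) ∣ b → k ≡ l [MOD p]) :
    (p : ℤ) ∣ ordS (h.rho a) - ordS (h.rho b) := by
  haveI := h.ufm
  have ha0 : a ≠ 0 := fun h0 => ha (h0 ▸ dvd_zero _)
  have hb0 : b ≠ 0 := fun h0 => hb (h0 ▸ dvd_zero _)
  obtain ⟨u, d, hud⟩ :=
    Fermat.Agent.T8.helper6.exists_unit_mul_pow_of_forall_modEq p hp a b ha0 hb0 hm
  have hra := h.rho_ne_zero ha
  have hrb := h.rho_ne_zero hb
  have e := congrArg h.rho hud
  rw [rho_mul, rho_pow, rho_mul, rho_mul, rho_pow] at e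
  have hru := h.rho_unit_ne_zero u
  have hrd : h.rho d ≠ 0 := by
    intro h0
    rw [h0, zero_pow hp.ne', mul_zero] at e
    exact mul_ne_zero hra (pow_ne_zero _ hrb) e
  have ma := h.rho_mem a
  have mb := h.rho_mem b
  have mu := h.rho_mem (u : T)
  have md := h.rho_mem d
  have e2 := congrArg ordS e
  rw [h.ord_mul _ _ ma (Fb.pow_mem mb p) hra (pow_ne_zero _ hrb),
    h.ord_mul _ _ (Fb.mul_mem mu mb) (Fb.pow_mem md p) (mul_ne_zero hru hrb)
      (pow_ne_zero _ hrd),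
    h.ord_mul _ _ mu mb hru hrb, h.ord_rho_unit u, h.ord_pow mb hrb, h.ord_pow md hrd] at e2
  refine ⟨ordS (h.rho d) - ordS (h.rho b), ?_⟩
  linear_combination e2

include h in
/-- the vertical elements have order `0` at every place centred on `T` -/
theorem ord_vert (hp : p ≠ 0) (𝔓 : Place Kb F') (hc : ∀ r : T, 0 ≤ 𝔓.ord (r : F')) :
    𝔓.ord (xx : F') = 0 ∧ 𝔓.ord (y : F') = 0 := by
  obtain ⟨ε, hε⟩ := h.xy
  have hp' : ((p : ℕ) : F') = algebraMap Kb F' ((p : ℕ) : Kb) := (map_natCast _ _).symm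
  have hpK : ((p : ℕ) : Kb) ≠ 0 := Nat.cast_ne_zero.mpr hp
  have hpF : ((p : ℕ) : F') ≠ 0 := by
    rw [hp']
    exact (map_ne_zero _).mpr hpK
  have hεF : ((ε : T) : F') ≠ 0 := by
    intro h0
    exact ε.ne_zero (Subtype.ext h0)
  have e : (xx : F') * (y : F') = ((ε : T) : F') * ((p : ℕ) : F') := by
    have := congrArg (Subtype.val : T → F') hε
    simpa using this
  have hxy0 : (xx : F') * (y : F') ≠ 0 := by
    rw [e]
    exact mul_ne_zero hεF hpF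
  have hx0 : (xx : F') ≠ 0 := left_ne_zero_of_mul hxy0
  have hy0 : (y : F') ≠ 0 := right_ne_zero_of_mul hxy0
  have e1 := congrArg 𝔓.ord e
  rw [𝔓.ord_mul hx0 hy0, 𝔓.ord_mul hεF hpF, hp', Fermat.Agent.S24.helper82.ord_algebraMap,
    add_zero] at e1
  have hε0 : 𝔓.ord ((ε : T) : F') = 0 := by
    have h1 := hc (ε : T)
    have h2 := hc ((ε⁻¹ : Tˣ) : T)
    have h3 : ((ε : T) : F') * (((ε⁻¹ : Tˣ) : T) : F') = 1 := by
      rw [← Subring.coe_mul, Units.mul_inv, Subring.coe_one]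
    have hε'F : (((ε⁻¹ : Tˣ) : T) : F') ≠ 0 := right_ne_zero_of_mul_eq_one h3
    have h4 := congrArg 𝔓.ord h3
    rw [𝔓.ord_mul hεF hε'F, Place.ord_one] at h4
    omega
  have h1 := hc xx
  have h2 := hc y
  constructor <;> omega

include h in
/-- **all prime multiplicities are congruent modulo `p`** (vertical primes: `xx`, `y`;
horizontal primes: the dictionary on the cover). -/
theorem mult (hp : p.Prime) (hdict : DictModEqStatement Kb F' Φ) {a b : T}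
    (ha : ¬ xx ∣ a) (hb : ¬ xx ∣ b) (hy : IsUnit y ∨ (¬ y ∣ a ∧ ¬ y ∣ b))
    (hpl : ∀ 𝔓 : Place Kb F', (∀ r : T, 0 ≤ 𝔓.ord (r : F')) →
      (p : ℤ) ∣ 𝔓.ord (a : F') - 𝔓.ord (b : F')) :
    ∀ π : T, Prime π → ∀ k l : ℕ, π ^ k ∣ a → ¬ π ^ (k + 1) ∣ a →
      π ^ l ∣ b → ¬ π ^ (l + 1) ∣ b → k ≡ l [MOD p] := by
  haveI := h.ufm
  have ha0 : a ≠ 0 := fun h0 => ha (h0 ▸ dvd_zero _)
  have hb0 : b ≠ 0 := fun h0 => hb (h0 ▸ dvd_zero _)
  intro π hπ k l hka hka' hlb hlb'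
  by_cases hv : ∃ m : ℕ, m ≠ 0 ∧ π ∣ ((m : ℕ) : T)
  · obtain ⟨m, hm, hdvd⟩ := hv
    have h1 : π ∣ ((p : ℕ) : T) :=
      Fermat.Agent.T8.helper48.vert_prime_dvd_p hp h.unit_nat hπ hm hdvd
    obtain ⟨ε, hε⟩ := h.xy
    have h2 : π ∣ xx * y := by
      rw [hε]
      exact Dvd.dvd.mul_left h1 _
    have key : ∀ z : T, π ∣ z → ¬ z ∣ a → ¬ z ∣ b → Irreducible z → k ≡ l [MOD p] := by
      intro z hz hza hzb hzi
      have hA : Associated π z := hπ.irreducible.associated_of_dvd hzi hz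
      have hk0 : k = 0 := by
        by_contra hk0
        exact hza (hA.symm.dvd.trans ((dvd_pow_self π hk0).trans hka))
      have hl0 : l = 0 := by
        by_contra hl0
        exact hzb (hA.symm.dvd.trans ((dvd_pow_self π hl0).trans hlb))
      rw [hk0, hl0]
    rcases hπ.dvd_or_dvd h2 with h3 | h3
    · exact key xx h3 ha hb h.prime_xx.irreducible
    · rcases hy with hy | ⟨hya, hyb⟩
      · exact absurd (isUnit_of_dvd_unit h3 hy) hπ.not_isUnit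
      · rcases h.y_case with hyu | ⟨hyp, -⟩
        · exact absurd (isUnit_of_dvd_unit h3 hyu) hπ.not_isUnit
        · exact key y h3 hya hyb hyp.irreducible
  · exact hdict T h.fix h.frac p a b ha0 hb0 hpl π hπ (fun m hm hd => hv ⟨m, hm, hd⟩)
      (Fermat.Agent.T8.helper48.vert_fin_of_ufm π hπ) k l hka hka' hlb hlb'

include h in
/-- decomposition of an inertia-fixed function at the point: `V = xx^(α₁-β₁) y^(α₂-β₂) a / b`
with `a`, `b` prime to the vertical primes -/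
theorem exists_decomp {V : F'} (hV : V ≠ 0) (hfix : ∀ g ∈ Φ, g V = V) :
    ∃ (α₁ β₁ α₂ β₂ : ℕ) (a b : T), ¬ xx ∣ a ∧ ¬ xx ∣ b ∧
      ((IsUnit y ∧ α₂ = 0 ∧ β₂ = 0) ∨ (¬ IsUnit y ∧ ¬ y ∣ a ∧ ¬ y ∣ b)) ∧
      V * ((xx : F') ^ β₁ * (y : F') ^ β₂ * (b : F')) =
        (xx : F') ^ α₁ * (y : F') ^ α₂ * (a : F') := by
  haveI := h.ufm
  obtain ⟨a0, ha0, b0, hb0, hb0', hab⟩ := h.frac V hfix
  have haT : (⟨a0, ha0⟩ : T) ≠ 0 := by
    intro h0
    have h1 : a0 = 0 := congrArg Subtype.val h0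
    rw [h1] at hab
    exact mul_ne_zero hV hb0' hab
  have hbT : (⟨b0, hb0⟩ : T) ≠ 0 := fun h0 => hb0' (congrArg Subtype.val h0)
  obtain ⟨α₁, a₁, ea, hxa⟩ := exists_pow_mul_not_dvd h.prime_xx haT
  obtain ⟨β₁, b₁, eb, hxb⟩ := exists_pow_mul_not_dvd h.prime_xx hbT
  have ea' : a0 = (xx : F') ^ α₁ * (a₁ : F') := by
    have := congrArg (Subtype.val : T → F') ea
    simpa using this
  have eb' : b0 = (xx : F') ^ β₁ * (b₁ : F') := by
    have := congrArg (Subtype.val : T → F') eb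
    simpa using this
  by_cases hyu : IsUnit y
  · refine ⟨α₁, β₁, 0, 0, a₁, b₁, hxa, hxb, Or.inl ⟨hyu, rfl, rfl⟩, ?_⟩
    rw [pow_zero, mul_one, mul_one, ← ea', ← eb']
    exact hab
  · have hyp : Prime y := by
      rcases h.y_case with hu | ⟨hp, -⟩
      · exact absurd hu hyu
      · exact hp
    have ha₁0 : a₁ ≠ 0 := fun h0 => hxa (h0 ▸ dvd_zero _)
    have hb₁0 : b₁ ≠ 0 := fun h0 => hxb (h0 ▸ dvd_zero _)
    obtain ⟨α₂, a, ea2, hya⟩ := exists_pow_mul_not_dvd hyp ha₁0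
    obtain ⟨β₂, b, eb2, hyb⟩ := exists_pow_mul_not_dvd hyp hb₁0
    have hxa' : ¬ xx ∣ a := fun hd => hxa (ea2 ▸ Dvd.dvd.mul_left hd _)
    have hxb' : ¬ xx ∣ b := fun hd => hxb (eb2 ▸ Dvd.dvd.mul_left hd _)
    have ea2' : (a₁ : F') = (y : F') ^ α₂ * (a : F') := by
      have := congrArg (Subtype.val : T → F') ea2
      simpa using this
    have eb2' : (b₁ : F') = (y : F') ^ β₂ * (b : F') := by
      have := congrArg (Subtype.val : T → F') eb2
      simpa using this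
    refine ⟨α₁, β₁, α₂, β₂, a, b, hxa', hxb', Or.inr ⟨hyu, hya, hyb⟩, ?_⟩
    rw [mul_assoc ((xx : F') ^ β₁), ← eb2', ← eb', mul_assoc ((xx : F') ^ α₁), ← ea2', ← ea']
    exact hab

/-- a ring homomorphism out of the cover field does not kill nonzero elements -/
theorem sheet_ne_zero (s : F' →+* LaurentSeries Kb) {f : F'} (hf : f ≠ 0) : s f ≠ 0 :=
  (map_ne_zero s).mpr hf

include h in
/-- the first reduction of `xx / p` is `red ε / ν` -/
theorem rhoQ_xx (hp : p ≠ 0) :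
    ∃ rx : LaurentSeries (kA A), rx ∈ Fb ∧ rx ≠ 0 ∧ ordS rx = - ordS ν ∧
      RhoQ A (algebraMap Kb (LaurentSeries Kb) ((p : ℕ) : Kb)⁻¹ * s₁ (xx : F')) rx := by
  obtain ⟨ε, hε⟩ := h.xy
  have hpK : ((p : ℕ) : Kb) ≠ 0 := Nat.cast_ne_zero.mpr hp
  have hνm : ν ∈ Fb := by
    rw [← h.rho_eq h.red_y]
    exact h.rho_mem y
  have hy0 : s₁ (y : F') ≠ 0 := h.red_y.ne_zero h.nu_ne
  have e : s₁ (xx : F') * s₁ (y : F') =
      s₁ ((ε : T) : F') * algebraMap Kb (LaurentSeries Kb) ((p : ℕ) : Kb) := by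
    have h1 := congrArg (fun t : T => s₁ (t : F')) hε
    simp only [Subring.coe_mul, map_mul, Subring.coe_natCast, map_natCast] at h1
    rw [h1, map_natCast]
  have e2 : algebraMap Kb (LaurentSeries Kb) ((p : ℕ) : Kb)⁻¹ * s₁ (xx : F') =
      s₁ ((ε : T) : F') / s₁ (y : F') := by
    rw [eq_div_iff hy0, mul_assoc, e, mul_comm (s₁ ((ε : T) : F')), ← mul_assoc, ← map_mul,
      inv_mul_cancel₀ hpK, map_one, one_mul]
  refine ⟨h.rho (ε : T) / ν, Fb.div_mem (h.rho_mem _) hνm,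
    div_ne_zero (h.rho_unit_ne_zero ε) h.nu_ne, ?_, ?_⟩
  · rw [h.ord_div (h.rho_mem _) hνm (h.rho_unit_ne_zero ε) h.nu_ne, h.ord_rho_unit]
    ring
  · rw [e2]
    exact (h.rhoQ_rho (ε : T)).div h.red_y h.nu_ne

/-! #### scaled reductions -/

omit [Algebra Kb F'] in
/-- scaled reductions multiply -/
theorem sc_mul {c d : Kb} {f g : LaurentSeries Kb} {r s : LaurentSeries (kA A)}
    (hf : RhoQ A (algebraMap Kb (LaurentSeries Kb) c⁻¹ * f) r)
    (hg : RhoQ A (algebraMap Kb (LaurentSeries Kb) d⁻¹ * g) s) :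
    RhoQ A (algebraMap Kb (LaurentSeries Kb) (c * d)⁻¹ * (f * g)) (r * s) := by
  have := hf.mul hg
  have e : algebraMap Kb (LaurentSeries Kb) (c * d)⁻¹ * (f * g) =
      algebraMap Kb (LaurentSeries Kb) c⁻¹ * f * (algebraMap Kb (LaurentSeries Kb) d⁻¹ * g) := by
    rw [mul_inv, map_mul]; ring
  rwa [e]

omit [Algebra Kb F'] in
theorem sc_pow {c : Kb} {f : LaurentSeries Kb} {r : LaurentSeries (kA A)}
    (hf : RhoQ A (algebraMap Kb (LaurentSeries Kb) c⁻¹ * f) r) (n : ℕ) :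
    RhoQ A (algebraMap Kb (LaurentSeries Kb) (c ^ n)⁻¹ * f ^ n) (r ^ n) := by
  have := hf.pow n
  rwa [mul_pow, ← map_pow, inv_pow] at this

omit [Algebra Kb F'] in
theorem sc_one {f : LaurentSeries Kb} {r : LaurentSeries (kA A)} (hf : RhoQ A f r) :
    RhoQ A (algebraMap Kb (LaurentSeries Kb) (1 : Kb)⁻¹ * f) r := by
  rwa [inv_one, map_one, one_mul]

omit [Algebra Kb F'] in
theorem sc_div {c d : Kb} {f g : LaurentSeries Kb} {r s : LaurentSeries (kA A)}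
    (hf : RhoQ A (algebraMap Kb (LaurentSeries Kb) c⁻¹ * f) r)
    (hg : RhoQ A (algebraMap Kb (LaurentSeries Kb) d⁻¹ * g) s) (hs : s ≠ 0) :
    RhoQ A (algebraMap Kb (LaurentSeries Kb) (c / d)⁻¹ * (f / g)) (r / s) := by
  have := hf.div hg hs
  have e : algebraMap Kb (LaurentSeries Kb) (c / d)⁻¹ * (f / g) =
      algebraMap Kb (LaurentSeries Kb) c⁻¹ * f / (algebraMap Kb (LaurentSeries Kb) d⁻¹ * g) := by
    rw [inv_div, div_eq_mul_inv d c, map_mul, div_eq_mul_inv, div_eq_mul_inv, mul_inv,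
      ← map_inv₀ (algebraMap Kb (LaurentSeries Kb)) d⁻¹, inv_inv]
    ring
  rwa [e]

include h in
/-- the scaled reduction on the first sheet of a monomial `xx ^ α₁ * y ^ α₂ * a` -/
theorem sc_monomial₁ (hp : p ≠ 0) :
    ∃ rx : LaurentSeries (kA A), rx ∈ Fb ∧ rx ≠ 0 ∧ ordS rx = - ordS ν ∧
      ∀ (α₁ α₂ : ℕ) (a : T),
        RhoQ A (algebraMap Kb (LaurentSeries Kb) (((p : ℕ) : Kb) ^ α₁)⁻¹ *
          (s₁ (xx : F') ^ α₁ * s₁ (y : F') ^ α₂ * s₁ (a : F')))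
          (rx ^ α₁ * ν ^ α₂ * h.rho a) := by
  obtain ⟨rx, hrx, hrx0, hordx, hX⟩ := h.rhoQ_xx hp
  refine ⟨rx, hrx, hrx0, hordx, fun α₁ α₂ a => ?_⟩
  have h1 := sc_mul (sc_mul (sc_pow hX α₁) (sc_pow (sc_one h.red_y) α₂)) (sc_one (h.rhoQ_rho a))
  rwa [one_pow, mul_one, mul_one] at h1

include h in
/-- in the double case `y` does not divide `xx` -/
theorem not_y_dvd_xx (hyu : ¬ IsUnit y) : ¬ y ∣ xx := by
  rintro ⟨t, ht⟩
  haveI := h.ufm
  have e := congrArg h.rho ht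
  rw [rho_mul, h.rho_eq h.red_xx, h.rho_eq h.red_y] at e
  have ht0 : h.rho t = 0 := by
    rcases mul_eq_zero.mp e.symm with h0 | h0
    · exact absurd h0 h.nu_ne
    · exact h0
  have hxt : xx ∣ t := by
    apply h.ker₁
    have := h.rhoQ_rho t
    rwa [ht0] at this
  obtain ⟨t', ht'⟩ := hxt
  have hx0 : xx ≠ 0 := h.prime_xx.ne_zero
  have e2 : xx * 1 = xx * (y * t') := by
    rw [mul_one]
    conv_lhs => rw [ht, ht']
    ring
  have e3 := mul_left_cancel₀ hx0 e2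
  exact hyu (IsUnit.of_mul_eq_one _ e3.symm)

include h in
/-- Gauss scales on the second sheet (double case) -/
theorem gauss₂ (hp : p ≠ 0) (hyu : ¬ IsUnit y) :
    GaussIs A (s₂ (xx : F')) 1 ∧ GaussIs A (s₂ (y : F')) ((p : ℕ) : Kb) ∧
      ∀ a : T, ¬ y ∣ a → GaussIs A (s₂ (a : F')) 1 := by
  obtain ⟨hyp, hred, hker, hy0⟩ : Prime y ∧
      (∀ a : T, ∃ r : LaurentSeries (kA A), RhoQ A (s₂ (a : F')) r) ∧
      (∀ a : T, RhoQ A (s₂ (a : F')) 0 → y ∣ a) ∧ RhoQ A (s₂ (y : F')) 0 := by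
    rcases h.y_case with hu | hh
    · exact absurd hu hyu
    · exact hh
  have hpK : ((p : ℕ) : Kb) ≠ 0 := Nat.cast_ne_zero.mpr hp
  have key : ∀ a : T, ¬ y ∣ a → ∃ r : LaurentSeries (kA A), r ≠ 0 ∧ RhoQ A (s₂ (a : F')) r := by
    intro a ha
    obtain ⟨r, hr⟩ := hred a
    refine ⟨r, ?_, hr⟩
    rintro rfl
    exact ha (hker a hr)
  have hG : ∀ a : T, ¬ y ∣ a → GaussIs A (s₂ (a : F')) 1 := by
    intro a ha
    obtain ⟨r, hr0, hr⟩ := key a ha
    exact Fermat.Agent.T3.helper36.gaussIs_of_rhoQ hr hr0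
  refine ⟨hG xx (h.not_y_dvd_xx hyu), ?_, hG⟩
  obtain ⟨ε, hε⟩ := h.xy
  have hεy : ¬ y ∣ (ε : T) := fun hd => hyu (isUnit_of_dvd_unit hd ε.isUnit)
  obtain ⟨rε, hrε0, hrε⟩ := key (ε : T) hεy
  obtain ⟨rX, hrX0, hrX⟩ := key xx (h.not_y_dvd_xx hyu)
  have hX0 : s₂ (xx : F') ≠ 0 := hrX.ne_zero hrX0
  have e : s₂ (xx : F') * s₂ (y : F') =
      s₂ ((ε : T) : F') * algebraMap Kb (LaurentSeries Kb) ((p : ℕ) : Kb) := by
    have h1 := congrArg (fun t : T => s₂ (t : F')) hε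
    simp only [Subring.coe_mul, map_mul, Subring.coe_natCast, map_natCast] at h1
    rw [h1, map_natCast]
  have e2 : algebraMap Kb (LaurentSeries Kb) ((p : ℕ) : Kb)⁻¹ * s₂ (y : F') =
      s₂ ((ε : T) : F') / s₂ (xx : F') := by
    rw [eq_div_iff hX0, mul_assoc, mul_comm (s₂ (y : F')), e, mul_comm (s₂ ((ε : T) : F')),
      ← mul_assoc, ← map_mul, inv_mul_cancel₀ hpK, map_one, one_mul]
  refine ⟨hpK, rε / rX, div_ne_zero hrε0 hrX0, ?_⟩
  rw [e2]
  exact hrε.div hrX hrX0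

include h in
/-- **the K0-corollary at the point of the cover** (abstract core of [SLOPE-X']): for an
inertia-fixed function `V` of the cover whose divisor at the places centred on `T` is divisible
by `p`, the order at the point of the first reduction is congruent modulo `p` to
`k * ord ν`, where `p ^ k` is the quotient of the Gauss scales on the two sheets. -/
theorem k0 (hp : p.Prime) (hA : A.LiesOverPrime p) (hdict : DictModEqStatement Kb F' Φ)
    {Good : LaurentSeries A → Prop} (hne : ∀ Y : LaurentSeries A, Good Y → red A Y ≠ 0)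
    {V : F'} (hV : V ≠ 0) (hfix : ∀ g ∈ Φ, g V = V)
    (hdiv : ∀ 𝔓 : Place Kb F', (∀ r : T, 0 ≤ 𝔓.ord (r : F')) → (p : ℤ) ∣ 𝔓.ord V)
    (c₁ c₂ : Kb) (r₁ r₂ : LaurentSeries (kA A)) (k : ℤ) (hc₁ : c₁ ≠ 0) (hc₂ : c₂ ≠ 0)
    (hr₁ : HasRed Good c₁ (s₁ V) r₁) (hr₂ : HasRed Good c₂ (s₂ V) r₂)
    (hk : c₂ / (c₁ * (p : Kb) ^ k) ∈ A) (hk' : (c₁ * (p : Kb) ^ k) / c₂ ∈ A) :
    (p : ℤ) ∣ ordS r₁ - k * ordS ν := by
  haveI := h.ufm
  haveI : NeZero p := ⟨hp.ne_zero⟩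
  have hp0 : p ≠ 0 := hp.ne_zero
  have hpK : ((p : ℕ) : Kb) ≠ 0 := Nat.cast_ne_zero.mpr hp0
  obtain ⟨α₁, β₁, α₂, β₂, a, b, hxa, hxb, hy, hrel⟩ := h.exists_decomp hV hfix
  -- nonvanishing
  have ha0 : (a : F') ≠ 0 := fun h0 => hxa (by
    have : a = 0 := Subtype.ext h0
    rw [this]; exact dvd_zero _)
  have hb0 : (b : F') ≠ 0 := fun h0 => hxb (by
    have : b = 0 := Subtype.ext h0
    rw [this]; exact dvd_zero _)
  have hx0 : (xx : F') ≠ 0 := fun h0 => h.prime_xx.ne_zero (Subtype.ext h0)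
  have hy0 : (y : F') ≠ 0 := by
    intro h0
    have h1 : s₁ (y : F') = 0 := by rw [h0, map_zero]
    exact (h.red_y.ne_zero h.nu_ne) h1
  have hmR : (xx : F') ^ α₁ * (y : F') ^ α₂ ≠ 0 := mul_ne_zero (pow_ne_zero _ hx0) (pow_ne_zero _ hy0)
  have hmL : (xx : F') ^ β₁ * (y : F') ^ β₂ ≠ 0 := mul_ne_zero (pow_ne_zero _ hx0) (pow_ne_zero _ hy0)
  -- the divisor of `a / b` at the places centred on `T`
  have hpl : ∀ 𝔓 : Place Kb F', (∀ r : T, 0 ≤ 𝔓.ord (r : F')) →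
      (p : ℤ) ∣ 𝔓.ord (a : F') - 𝔓.ord (b : F') := by
    intro 𝔓 hc
    obtain ⟨ox, oy⟩ := h.ord_vert hp0 𝔓 hc
    have e := congrArg 𝔓.ord hrel
    rw [𝔓.ord_mul hV (mul_ne_zero hmL hb0), 𝔓.ord_mul hmL hb0,
      𝔓.ord_mul (pow_ne_zero _ hx0) (pow_ne_zero _ hy0), 𝔓.ord_mul hmR ha0,
      𝔓.ord_mul (pow_ne_zero _ hx0) (pow_ne_zero _ hy0),
      ← zpow_natCast, ← zpow_natCast, ← zpow_natCast, ← zpow_natCast,
      Place.ord_zpow, Place.ord_zpow, Place.ord_zpow, Place.ord_zpow, ox, oy] at e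
    have e' : 𝔓.ord (a : F') - 𝔓.ord (b : F') = 𝔓.ord V := by linarith
    rw [e']
    exact hdiv 𝔓 hc
  have hy' : IsUnit y ∨ (¬ y ∣ a ∧ ¬ y ∣ b) := by
    rcases hy with ⟨hu, -, -⟩ | ⟨-, h1, h2⟩
    · exact Or.inl hu
    · exact Or.inr ⟨h1, h2⟩
  have hsl := h.slope hp.pos hxa hxb (h.mult hp hdict hxa hxb hy' hpl)
  -- the first sheet
  obtain ⟨rx, hrx, hrx0, hordx, hmon⟩ := h.sc_monomial₁ hp0
  have hR := hmon α₁ α₂ a
  have hL := hmon β₁ β₂ b
  have hνm : ν ∈ Fb := by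
    rw [← h.rho_eq h.red_y]
    exact h.rho_mem y
  have hν0 := h.nu_ne
  have hra := h.rho_ne_zero hxa
  have hrb := h.rho_ne_zero hxb
  have hma := h.rho_mem a
  have hmb := h.rho_mem b
  have hR0 : rx ^ α₁ * ν ^ α₂ * h.rho a ≠ 0 :=
    mul_ne_zero (mul_ne_zero (pow_ne_zero _ hrx0) (pow_ne_zero _ hν0)) hra
  have hL0 : rx ^ β₁ * ν ^ β₂ * h.rho b ≠ 0 :=
    mul_ne_zero (mul_ne_zero (pow_ne_zero _ hrx0) (pow_ne_zero _ hν0)) hrb
  have hRm : rx ^ α₁ * ν ^ α₂ * h.rho a ∈ Fb :=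
    Fb.mul_mem (Fb.mul_mem (Fb.pow_mem hrx _) (Fb.pow_mem hνm _)) hma
  have hLm : rx ^ β₁ * ν ^ β₂ * h.rho b ∈ Fb :=
    Fb.mul_mem (Fb.mul_mem (Fb.pow_mem hrx _) (Fb.pow_mem hνm _)) hmb
  have hden₁ : s₁ (xx : F') ^ β₁ * s₁ (y : F') ^ β₂ * s₁ (b : F') ≠ 0 := by
    rw [← map_pow, ← map_pow, ← map_mul, ← map_mul]
    exact (map_ne_zero s₁).mpr (mul_ne_zero hmL hb0)
  have hsV₁ : s₁ V = (s₁ (xx : F') ^ α₁ * s₁ (y : F') ^ α₂ * s₁ (a : F')) /
      (s₁ (xx : F') ^ β₁ * s₁ (y : F') ^ β₂ * s₁ (b : F')) := by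
    rw [eq_div_iff hden₁]
    have := congrArg s₁ hrel
    simpa only [map_mul, map_pow] using this
  have hQ := sc_div hR hL hL0
  rw [← hsV₁] at hQ
  obtain ⟨h1, hr₁0⟩ := (Fermat.Agent.T8.helper65.hasRed_redNe_iff hc₁).mp (hr₁.mono hne)
  have hκ : (((p : ℕ) : Kb) ^ α₁ / ((p : ℕ) : Kb) ^ β₁) ≠ 0 :=
    div_ne_zero (pow_ne_zero _ hpK) (pow_ne_zero _ hpK)
  obtain ⟨c, hc, hcr⟩ := Fermat.Agent.T8.helper29.rhoQ_unique_const hκ hc₁
    (div_ne_zero hR0 hL0) hr₁0 hQ h1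
  have hord₁ : ordS r₁ = ((α₂ : ℤ) - β₂ - (α₁ - β₁)) * ordS ν +
      (ordS (h.rho a) - ordS (h.rho b)) := by
    rw [hcr, h.ord_const_mul c hc _ (Fb.div_mem hRm hLm) (div_ne_zero hR0 hL0),
      h.ord_div hRm hLm hR0 hL0,
      h.ord_mul _ _ (Fb.mul_mem (Fb.pow_mem hrx _) (Fb.pow_mem hνm _)) hma
        (mul_ne_zero (pow_ne_zero _ hrx0) (pow_ne_zero _ hν0)) hra,
      h.ord_mul _ _ (Fb.mul_mem (Fb.pow_mem hrx _) (Fb.pow_mem hνm _)) hmb
        (mul_ne_zero (pow_ne_zero _ hrx0) (pow_ne_zero _ hν0)) hrb,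
      h.ord_mul _ _ (Fb.pow_mem hrx _) (Fb.pow_mem hνm _) (pow_ne_zero _ hrx0)
        (pow_ne_zero _ hν0),
      h.ord_mul _ _ (Fb.pow_mem hrx _) (Fb.pow_mem hνm _) (pow_ne_zero _ hrx0)
        (pow_ne_zero _ hν0),
      h.ord_pow hrx hrx0, h.ord_pow hrx hrx0, h.ord_pow hνm hν0, h.ord_pow hνm hν0, hordx]
    ring
  rcases hy with ⟨hu, e₁, e₂⟩ | ⟨hyu, hya, hyb⟩
  · -- smooth point: `ord ν = 0`
    have hν : ordS ν = 0 := by
      have := h.ord_rho_unit hu.unit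
      rwa [IsUnit.unit_spec, h.rho_eq h.red_y] at this
    rw [hord₁, hν, mul_zero, mul_zero, zero_add, sub_zero]
    exact hsl
  · -- double point: `k = (α₂ - β₂) - (α₁ - β₁)`
    obtain ⟨gX, gY, gT⟩ := h.gauss₂ hp0 hyu
    have gR := ((gX.pow α₁).mul (gY.pow α₂)).mul (gT a hya)
    have gL := ((gX.pow β₁).mul (gY.pow β₂)).mul (gT b hyb)
    have hden₂ : s₂ (xx : F') ^ β₁ * s₂ (y : F') ^ β₂ * s₂ (b : F') ≠ 0 := by
      rw [← map_pow, ← map_pow, ← map_mul, ← map_mul]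
      exact (map_ne_zero s₂).mpr (mul_ne_zero hmL hb0)
    have hsV₂ : s₂ V = (s₂ (xx : F') ^ α₁ * s₂ (y : F') ^ α₂ * s₂ (a : F')) /
        (s₂ (xx : F') ^ β₁ * s₂ (y : F') ^ β₂ * s₂ (b : F')) := by
      rw [eq_div_iff hden₂]
      have := congrArg s₂ hrel
      simpa only [map_mul, map_pow] using this
    have g2' := gR.div gL
    rw [← hsV₂, one_pow, one_pow, one_mul, one_mul, mul_one, mul_one] at g2'
    obtain ⟨h2, hr₂0⟩ := (Fermat.Agent.T8.helper65.hasRed_redNe_iff hc₂).mp (hr₂.mono hne)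
    have g1 : GaussIs A (s₁ V) c₁ := ⟨hc₁, r₁, hr₁0, h1⟩
    have g1' : GaussIs A (s₁ V) (((p : ℕ) : Kb) ^ α₁ / ((p : ℕ) : Kb) ^ β₁) :=
      ⟨hκ, _, div_ne_zero hR0 hL0, hQ⟩
    have g2 : GaussIs A (s₂ V) c₂ := ⟨hc₂, r₂, hr₂0, h2⟩
    have ez : ∀ m n : ℕ, ((p : ℕ) : Kb) ^ m / ((p : ℕ) : Kb) ^ n =
        ((p : ℕ) : Kb) ^ ((m : ℤ) - n) := by
      intro m n
      rw [zpow_sub₀ hpK, zpow_natCast, zpow_natCast]
    have v1 : A.valuation c₁ = A.valuation (((p : ℕ) : Kb) ^ ((α₁ : ℤ) - β₁)) := by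
      rw [← ez]; exact g1.valuation_eq g1'
    have v2 : A.valuation c₂ = A.valuation (((p : ℕ) : Kb) ^ ((α₂ : ℤ) - β₂)) := by
      rw [← ez]; exact g2.valuation_eq g2'
    have hpk : (((p : ℕ) : Kb) ^ k) ≠ 0 := zpow_ne_zero _ hpK
    have vk : A.valuation (c₂ / (c₁ * ((p : ℕ) : Kb) ^ k)) = 1 := by
      refine le_antisymm ((A.valuation_le_one_iff _).2 hk) ?_
      have h3 : A.valuation ((c₁ * ((p : ℕ) : Kb) ^ k) / c₂) ≤ 1 :=
        (A.valuation_le_one_iff _).2 hk'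
      have h4 : (c₁ * ((p : ℕ) : Kb) ^ k) / c₂ = (c₂ / (c₁ * ((p : ℕ) : Kb) ^ k))⁻¹ := by
        rw [inv_div]
      rw [h4, map_inv₀] at h3
      have h5 : A.valuation (c₂ / (c₁ * ((p : ℕ) : Kb) ^ k)) ≠ 0 :=
        (Valuation.ne_zero_iff _).2 (div_ne_zero hc₂ (mul_ne_zero hc₁ hpk))
      exact (inv_le_one₀ (zero_lt_iff.2 h5)).1 h3
    have hkeq : k = ((α₂ : ℤ) - β₂) - ((α₁ : ℤ) - β₁) := by
      apply Fermat.Agent.T8.helper65.zpow_eq_of_valuation_eq hA hpK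
      have hv1 : A.valuation c₁ ≠ 0 := (Valuation.ne_zero_iff _).2 hc₁
      have hvk : A.valuation (((p : ℕ) : Kb) ^ k) ≠ 0 := (Valuation.ne_zero_iff _).2 hpk
      rw [map_div₀, map_mul, div_eq_one_iff_eq (mul_ne_zero hv1 hvk)] at vk
      rw [zpow_sub₀ hpK, map_div₀, ← v2, ← v1, vk, mul_comm, mul_div_assoc, div_self hv1,
        mul_one]
    rw [hord₁, hkeq]
    have e : ((α₂ : ℤ) - β₂ - (α₁ - β₁)) * ordS ν + (ordS (h.rho a) - ordS (h.rho b)) -
        ((α₂ : ℤ) - β₂ - (α₁ - β₁)) * ordS ν = ordS (h.rho a) - ordS (h.rho b) := by ring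
    rw [e]
    exact hsl

end CovPt

end Point

end Fermat.Agent.T8.helper9
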