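/-
T8 = row 38 via S44, [SLOPE-X'] INSTANCE, step 1 (helper9): the point contract `CovPt` for a local
ring given as a TYPE with an injective ring homomorphism `ι : T₀ →+* F'` (for instance a
`Localization.AtPrime`), and its transport to the subring `ι.range` of the cover field.

* `prime_of_red`      : an element which generates the kernel of a reduction is prime;
* `CovPtHom`          : the contract (`prime_xx` and `Prime y` are DERIVED);
* `CovPtHom.toCovPt`  : `CovPtHom … ι xx y … ⟹ CovPt … ι.range ⟨ι xx, _⟩ ⟨ι y, _⟩ …`.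
-/
import Mathlib
import Fermat.Agent.T8.helper9_SlopeCover

set_option autoImplicit false
set_option linter.unusedSectionVars false
set_option linter.unusedVariables false
set_option linter.style.longLine false
set_option linter.style.haveILetI false

noncomputable section

namespace Fermat.Agent.T8.helper9

open HahnSeries AlgebraicCurve
open Fermat.Agent.S18.helper19 Fermat.Agent.P2.helper29 Fermat.Agent.P2.helper93
open Fermat.Agent.T3.helper36 (RhoQ GaussIs)

section Hom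

variable {A : ValuationSubring Kb}
variable {F' : Type*} [Field F'] [Algebra Kb F']
variable {T₀ : Type*} [CommRing T₀] [IsDomain T₀]

/-- an element which generates the kernel of a (relational) reduction is prime -/
theorem prime_of_red (s : F' →+* LaurentSeries Kb) (ι : T₀ →+* F') {x : T₀} (hx0 : x ≠ 0)
    (hred : ∀ a : T₀, ∃ r : LaurentSeries (kA A), RhoQ A (s (ι a)) r)
    (hker : ∀ a : T₀, RhoQ A (s (ι a)) 0 → x ∣ a) (hx : RhoQ A (s (ι x)) 0) : Prime x := by
  have hmul : ∀ c : T₀, RhoQ A (s (ι (x * c))) 0 := by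
    intro c
    obtain ⟨r, hr⟩ := hred c
    have := hx.mul hr
    rwa [zero_mul, ← map_mul, ← map_mul] at this
  refine ⟨hx0, ?_, ?_⟩
  · intro hu
    obtain ⟨u, rfl⟩ := hu
    have h1 := hmul ((u⁻¹ : T₀ˣ) : T₀)
    rw [Units.mul_inv, map_one, map_one] at h1
    exact one_ne_zero (h1.unique Fermat.Agent.T3.helper36.rhoQ_one).symm
  · intro a b hab
    obtain ⟨c, hc⟩ := hab
    obtain ⟨ra, hra⟩ := hred a
    obtain ⟨rb, hrb⟩ := hred b
    have h1 := hra.mul hrb
    rw [← map_mul, ← map_mul, hc] at h1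
    have h2 := (hmul c).unique h1
    rcases mul_eq_zero.mp h2.symm with h0 | h0
    · left
      apply hker
      rwa [h0] at hra
    · right
      apply hker
      rwa [h0] at hrb

/-- **The local ring of the cover at a point over `Q`, as a type with an embedding into the
cover field** (the contract `CovPt` before transport to `ι.range`). -/
structure CovPtHom (Φ : Set (F' ≃+* F')) (s₁ s₂ : F' →+* LaurentSeries Kb) (ι : T₀ →+* F')
    (xx y : T₀) (Fb : Subfield (LaurentSeries (kA A))) (ordS : LaurentSeries (kA A) → ℤ)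
    (ν : LaurentSeries (kA A)) (p : ℕ) : Prop where
  inj : Function.Injective ι
  ufm : UniqueFactorizationMonoid T₀
  fix : ∀ r : T₀, ∀ g ∈ Φ, g (ι r) = ι r
  frac : ∀ f : F', (∀ g ∈ Φ, g f = f) → ∃ a b : T₀, b ≠ 0 ∧ f * ι b = ι a
  unit_nat : ∀ m : ℕ, m.Coprime p → IsUnit ((m : ℕ) : T₀)
  xy : ∃ ε : T₀ˣ, xx * y = (ε : T₀) * ((p : ℕ) : T₀)
  p_ne : p ≠ 0
  ord_mul : ∀ r s : LaurentSeries (kA A), r ∈ Fb → s ∈ Fb → r ≠ 0 → s ≠ 0 →
    ordS (r * s) = ordS r + ordS s
  ord_const_mul : ∀ c : kA A, c ≠ 0 → ∀ r : LaurentSeries (kA A), r ∈ Fb → r ≠ 0 →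
    ordS (algebraMap (kA A) (LaurentSeries (kA A)) c * r) = ordS r
  red₁ : ∀ a : T₀, ∃ r : LaurentSeries (kA A), r ∈ Fb ∧ RhoQ A (s₁ (ι a)) r ∧ 0 ≤ ordS r
  ker₁ : ∀ a : T₀, RhoQ A (s₁ (ι a)) 0 → xx ∣ a
  red_xx : RhoQ A (s₁ (ι xx)) 0
  red_y : RhoQ A (s₁ (ι y)) ν
  nu_ne : ν ≠ 0
  y_case : IsUnit y ∨ ((∀ a : T₀, ∃ r : LaurentSeries (kA A), RhoQ A (s₂ (ι a)) r) ∧
    (∀ a : T₀, RhoQ A (s₂ (ι a)) 0 → y ∣ a) ∧ RhoQ A (s₂ (ι y)) 0)

namespace CovPtHom

variable {Φ : Set (F' ≃+* F')} {s₁ s₂ : F' →+* LaurentSeries Kb} {ι : T₀ →+* F'}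
  {xx y : T₀} {Fb : Subfield (LaurentSeries (kA A))} {ordS : LaurentSeries (kA A) → ℤ}
  {ν : LaurentSeries (kA A)} {p : ℕ}
  (h : CovPtHom Φ s₁ s₂ ι xx y Fb ordS ν p)

include h in
theorem xy_ne_zero : xx * y ≠ 0 := by
  obtain ⟨ε, hε⟩ := h.xy
  rw [hε]
  refine mul_ne_zero ε.ne_zero ?_
  intro h0
  have h1 := congrArg ι h0
  rw [map_natCast, map_zero] at h1
  have h2 : ((p : ℕ) : F') = algebraMap Kb F' ((p : ℕ) : Kb) := (map_natCast _ _).symm
  rw [h2] at h1
  exact (Nat.cast_ne_zero.mpr h.p_ne) ((map_eq_zero _).mp h1)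

include h in
theorem prime_xx : Prime xx :=
  prime_of_red s₁ ι (left_ne_zero_of_mul h.xy_ne_zero)
    (fun a => (h.red₁ a).imp fun r hr => hr.2.1) h.ker₁ h.red_xx

/-- the transport of the local ring to the subring `ι.range` -/
def equivRange (ι : T₀ →+* F') (hι : Function.Injective ι) : T₀ ≃+* ι.range :=
  RingEquiv.ofBijective ι.rangeRestrict
    ⟨fun x y hxy => hι (congrArg Subtype.val hxy), ι.rangeRestrict_surjective⟩

theorem coe_equivRange (hι : Function.Injective ι) (r : T₀) :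
    ((equivRange ι hι r : ι.range) : F') = ι r := rfl

/-- **transport to the subring `ι.range` of the cover field** -/
theorem toCovPt :
    CovPt Φ s₁ s₂ ι.range (equivRange ι h.inj xx) (equivRange ι h.inj y) Fb ordS ν p := by
  set e := equivRange ι h.inj with he
  have hcoe : ∀ r : T₀, ((e r : ι.range) : F') = ι r := fun r => rfl
  have hsurj : ∀ a : ι.range, ∃ a₀ : T₀, e a₀ = a := fun a => ⟨e.symm a, e.apply_symm_apply a⟩
  have hdvd : ∀ a b : T₀, e a ∣ e b ↔ a ∣ b := fun a b => map_dvd_iff e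
  have hunit : ∀ a : T₀, IsUnit (e a) ↔ IsUnit a := fun a =>
    ⟨fun hu => by simpa using hu.map e.symm, fun hu => hu.map e⟩
  refine
    { ufm := e.toMulEquiv.uniqueFactorizationMonoid h.ufm
      fix := ?_
      frac := ?_
      unit_nat := ?_
      xy := ?_
      prime_xx := (MulEquiv.prime_iff e.toMulEquiv).mpr h.prime_xx
      ord_mul := h.ord_mul
      ord_const_mul := h.ord_const_mul
      red₁ := ?_
      ker₁ := ?_
      red_xx := h.red_xx
      red_y := h.red_y
      nu_ne := h.nu_ne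
      y_case := ?_ }
  · rintro _ ⟨r, rfl⟩ g hg
    exact h.fix r g hg
  · intro f hf
    obtain ⟨a, b, hb, hab⟩ := h.frac f hf
    exact ⟨ι a, ⟨a, rfl⟩, ι b, ⟨b, rfl⟩, fun h0 => hb (h.inj (h0.trans (map_zero ι).symm)), hab⟩
  · intro m hm
    have := (h.unit_nat m hm).map e
    rwa [map_natCast] at this
  · obtain ⟨ε, hε⟩ := h.xy
    refine ⟨Units.map (e : T₀ →* ι.range) ε, ?_⟩
    have := congrArg e hε
    rw [map_mul, map_mul, map_natCast] at this
    exact this
  · intro a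
    obtain ⟨a₀, rfl⟩ := hsurj a
    exact h.red₁ a₀
  · intro a ha
    obtain ⟨a₀, rfl⟩ := hsurj a
    exact (hdvd _ _).mpr (h.ker₁ a₀ ha)
  · rcases h.y_case with hu | ⟨h1, h2, h3⟩
    · exact Or.inl ((hunit y).mpr hu)
    · right
      have hy0 : y ≠ 0 := right_ne_zero_of_mul h.xy_ne_zero
      have hyp : Prime y := prime_of_red s₂ ι hy0 h1 h2 h3
      refine ⟨(MulEquiv.prime_iff e.toMulEquiv).mpr hyp, ?_, ?_, h3⟩
      · intro a
        obtain ⟨a₀, rfl⟩ := hsurj a
        exact h1 a₀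
      · intro a ha
        obtain ⟨a₀, rfl⟩ := hsurj a
        exact (hdvd _ _).mpr (h2 a₀ ha)

end CovPtHom

end Hom

end Fermat.Agent.T8.helper9
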