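/-
T8 = row 38 via S44, [SLOPE-X'] INSTANCE, step 2 (helper9): the point contract `CovPtHom` at the
etale point `T₀ = S_M` of `helper33` (`S = R[t]`, `M = ptIdeal t a`), ABSTRACT form.

`R` a noetherian local domain (`locX Q`), `S = R[t]` monogenic for `f`, `a` a simple root of `f`
modulo `𝔪`, `jS : S →+* F'` the embedding into the cover field, `ι : T₀ →+* F'` its extension.
The first sheet `s₁` reduces `R` by a ring homomorphism `ρR` (`redL`) and `t` to `ρR a`
(`a` is a LIFT of the reduction of `t`): then the reduction of `g(t)` is `ρR (g(a))`, the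
elements outside `M` have unit reductions, `t - a ∈ xx T₀`, and the kernel of the reduction on
`T₀` is `xx T₀`.
-/
import Mathlib
import Fermat.Agent.T8.helper9_CovPtHom
import Fermat.Agent.T8.helper33_SheetsAbs2

set_option autoImplicit false
set_option linter.unusedSectionVars false
set_option linter.unusedVariables false
set_option linter.style.longLine false
set_option linter.style.haveILetI false

noncomputable section

namespace Fermat.Agent.T8.helper9

open AlgebraicCurve Polynomial IsLocalRing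
open Fermat.Agent.S18.helper19 Fermat.Agent.P2.helper29 Fermat.Agent.P2.helper93
open Fermat.Agent.T3.helper36 (RhoQ GaussIs)
open Fermat.Agent.T8.helper33 (IsMonogenic ptIdeal)

section Loc

variable {A : ValuationSubring Kb}
variable {F' : Type*} [Field F'] [Algebra Kb F']
variable {R : Type*} [CommRing R] [IsDomain R] [IsLocalRing R]
variable {S : Type*} [CommRing S] [IsDomain S] [Algebra R S]

/-- **the first sheet at the point**: the reduction on `R` is a ring homomorphism `ρR` with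
values in `Fb`, regular at the point, with kernel `xx R`, and `t` reduces to `ρR a`. -/
structure Sheet1 (s₁ : F' →+* LaurentSeries Kb) (jS : S →+* F') (t : S) (a xxR : R)
    (Fb : Subfield (LaurentSeries (kA A))) (ordS : LaurentSeries (kA A) → ℤ)
    (ρR : R →+* LaurentSeries (kA A)) : Prop where
  rho : ∀ r : R, RhoQ A (s₁ (jS (algebraMap R S r))) (ρR r)
  mem : ∀ r : R, ρR r ∈ Fb
  nonneg : ∀ r : R, 0 ≤ ordS (ρR r)
  unit : ∀ r : R, IsUnit r → ordS (ρR r) = 0
  ker : ∀ r : R, ρR r = 0 → xxR ∣ r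
  xx : ρR xxR = 0
  gen : RhoQ A (s₁ (jS t)) (ρR a)

namespace Sheet1

variable {s₁ : F' →+* LaurentSeries Kb} {jS : S →+* F'} {t : S} {a xxR : R}
  {Fb : Subfield (LaurentSeries (kA A))} {ordS : LaurentSeries (kA A) → ℤ}
  {ρR : R →+* LaurentSeries (kA A)} (H : Sheet1 s₁ jS t a xxR Fb ordS ρR)

include H in
/-- the reduction of `g(t)` is `ρR (g(a))` -/
theorem rhoQ_aeval (g : R[X]) : RhoQ A (s₁ (jS (aeval t g))) (ρR (g.eval a)) := by
  induction g using Polynomial.induction_on' with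
  | add g₁ g₂ h₁ h₂ =>
    rw [map_add, map_add, map_add, eval_add, map_add]
    exact h₁.add h₂
  | monomial n r =>
    rw [aeval_monomial, eval_monomial, map_mul, map_mul, map_pow, map_pow, map_mul, map_pow]
    exact (H.rho r).mul (H.gen.pow n)

include H in
theorem rho_unit_ne_zero {r : R} (hr : IsUnit r) : ρR r ≠ 0 := (hr.map ρR).ne_zero

end Sheet1

variable {t : S} {f : R[X]} {a : R}
variable (T₀ : Type*) [CommRing T₀] [Algebra S T₀] [Algebra R T₀] [IsScalarTower R S T₀]
variable [hP : (ptIdeal t a).IsPrime] [IsLocalization.AtPrime T₀ (ptIdeal t a)]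

include hP in
/-- every element of `T₀ = S_M` is `g(t) / g'(t)` with `g'(a)` a unit of `R` -/
theorem exists_rep_loc (h : IsMonogenic t f) (ha : f.eval a ∈ maximalIdeal R) (x : T₀) :
    ∃ g g' : R[X], IsUnit (g'.eval a) ∧ IsUnit (algebraMap S T₀ (aeval t g')) ∧
      x * algebraMap S T₀ (aeval t g') = algebraMap S T₀ (aeval t g) := by
  obtain ⟨⟨s, s'⟩, hs⟩ := IsLocalization.surj (ptIdeal t a).primeCompl x
  obtain ⟨g, hg⟩ := h.aeval_surjective s
  obtain ⟨g', hg'⟩ := h.aeval_surjective (s' : S)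
  refine ⟨g, g', ?_, ?_, ?_⟩
  · have h1 : aeval t g' ∉ ptIdeal t a := by
      rw [hg']
      exact s'.2
    rw [h.mem_ptIdeal_iff a ha] at h1
    by_contra hu
    exact h1 ((mem_maximalIdeal _).mpr hu)
  · rw [hg']
    exact IsLocalization.map_units T₀ s'
  · rw [hg, hg']
    exact hs

include hP in
/-- `t - a ∈ f(a) T₀` at a simple root -/
theorem sub_eq_mul_loc (h : IsMonogenic t f) (ha : f.eval a ∈ maximalIdeal R)
    (ha' : f.derivative.eval a ∉ maximalIdeal R) :
    algebraMap R T₀ (f.eval a) ∣ algebraMap S T₀ (t - algebraMap R S a) := by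
  have hu : IsUnit (algebraMap S T₀ (aeval t (f /ₘ (X - C a)))) :=
    IsLocalization.map_units T₀
      (⟨_, h.cofactor_not_mem a ha ha'⟩ : (ptIdeal t a).primeCompl)
  obtain ⟨u, hu⟩ := hu
  have h1 := congrArg (algebraMap S T₀) (h.sub_mul_cofactor a)
  rw [map_mul, map_neg, ← hu, ← IsScalarTower.algebraMap_apply R S T₀] at h1
  refine ⟨-((u⁻¹ : T₀ˣ) : T₀), ?_⟩
  have h2 : algebraMap S T₀ (t - algebraMap R S a) =
      (algebraMap S T₀ (t - algebraMap R S a) * (u : T₀)) * ((u⁻¹ : T₀ˣ) : T₀) := by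
    rw [mul_assoc, Units.mul_inv, mul_one]
  rw [h2, h1]
  ring

variable {T₀}
variable {s₁ : F' →+* LaurentSeries Kb} {jS : S →+* F'} {xxR : R}
  {Fb : Subfield (LaurentSeries (kA A))} {ordS : LaurentSeries (kA A) → ℤ}
  {ρR : R →+* LaurentSeries (kA A)}

include hP in
/-- **the reduction on the first sheet of an element of `T₀`**: existence, with the
representation -/
theorem Sheet1.exists_red (H : Sheet1 s₁ jS t a xxR Fb ordS ρR) (h : IsMonogenic t f)
    (ha : f.eval a ∈ maximalIdeal R) (ι : T₀ →+* F')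
    (hι : ∀ s : S, ι (algebraMap S T₀ s) = jS s) (x : T₀) :
    ∃ g g' : R[X], IsUnit (g'.eval a) ∧ IsUnit (algebraMap S T₀ (aeval t g')) ∧
      x * algebraMap S T₀ (aeval t g') = algebraMap S T₀ (aeval t g) ∧
      RhoQ A (s₁ (ι x)) (ρR (g.eval a) / ρR (g'.eval a)) := by
  obtain ⟨g, g', hu, hu', e⟩ := exists_rep_loc T₀ h ha x
  refine ⟨g, g', hu, hu', e, ?_⟩
  have h1 := H.rhoQ_aeval g
  have h2 := H.rhoQ_aeval g'
  have h0 := H.rho_unit_ne_zero hu
  have e1 := congrArg (fun z => s₁ (ι z)) e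
  simp only [map_mul, hι] at e1
  have hne : s₁ (jS (aeval t g')) ≠ 0 := h2.ne_zero h0
  have e2 : s₁ (ι x) = s₁ (jS (aeval t g)) / s₁ (jS (aeval t g')) := by
    rw [eq_div_iff hne]
    exact e1
  rw [e2]
  exact h1.div h2 h0

include hP in
/-- **field `red₁`** -/
theorem Sheet1.red₁ (H : Sheet1 s₁ jS t a xxR Fb ordS ρR) (h : IsMonogenic t f)
    (ha : f.eval a ∈ maximalIdeal R) (ι : T₀ →+* F')
    (hι : ∀ s : S, ι (algebraMap S T₀ s) = jS s)
    (hmul : ∀ r s : LaurentSeries (kA A), r ∈ Fb → s ∈ Fb → r ≠ 0 → s ≠ 0 →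
      ordS (r * s) = ordS r + ordS s) (x : T₀) :
    ∃ r : LaurentSeries (kA A), r ∈ Fb ∧ RhoQ A (s₁ (ι x)) r ∧ 0 ≤ ordS r := by
  obtain ⟨g, g', hu, -, -, hr⟩ := H.exists_red h ha ι hι x
  refine ⟨_, Fb.div_mem (H.mem _) (H.mem _), hr, ?_⟩
  have h0 := H.rho_unit_ne_zero hu
  rcases eq_or_ne (ρR (g.eval a)) 0 with hz | hz
  · rw [hz, zero_div]
    have := H.nonneg 0
    rwa [map_zero] at this
  · have e := hmul _ _ (Fb.div_mem (H.mem (g.eval a)) (H.mem (g'.eval a))) (H.mem (g'.eval a))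
      (div_ne_zero hz h0) h0
    rw [div_mul_cancel₀ _ h0, H.unit _ hu, add_zero] at e
    rw [← e]
    exact H.nonneg _

include hP in
/-- **field `ker₁`** -/
theorem Sheet1.ker₁ (H : Sheet1 s₁ jS t a xxR Fb ordS ρR) (h : IsMonogenic t f)
    (ha : f.eval a ∈ maximalIdeal R) (ha' : f.derivative.eval a ∉ maximalIdeal R)
    (ι : T₀ →+* F') (hι : ∀ s : S, ι (algebraMap S T₀ s) = jS s) (x : T₀)
    (hx : RhoQ A (s₁ (ι x)) 0) : algebraMap R T₀ xxR ∣ x := by
  obtain ⟨g, g', hu, hu', e, hr⟩ := H.exists_red h ha ι hι x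
  have h0 := H.rho_unit_ne_zero hu
  have hz : ρR (g.eval a) = 0 := by
    have := hr.unique hx
    rcases div_eq_zero_iff.mp this with h1 | h1
    · exact h1
    · exact absurd h1 h0
  -- `xx ∣ g(a)` and `xx ∣ f(a)` in `R`
  have hga : xxR ∣ g.eval a := H.ker _ hz
  have hfa : xxR ∣ f.eval a := by
    apply H.ker
    have := H.rhoQ_aeval f
    rw [h.root, map_zero, map_zero] at this
    exact this.eq_zero
  -- `g(t) = g(a) + (t - a) c`
  have hspan := Fermat.Agent.T8.helper33.aeval_sub_eval_mem_span t a g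
  obtain ⟨c, hc⟩ := Ideal.mem_span_singleton'.mp hspan
  have hsum : aeval t g = algebraMap R S (g.eval a) + c * (t - algebraMap R S a) := by
    rw [hc]; ring
  have hdvd1 : algebraMap R T₀ xxR ∣ algebraMap S T₀ (aeval t g) := by
    rw [hsum, map_add, map_mul, ← IsScalarTower.algebraMap_apply R S T₀]
    refine dvd_add ((map_dvd (algebraMap R T₀) hga)) (Dvd.dvd.mul_left ?_ _)
    exact (map_dvd (algebraMap R T₀) hfa).trans (sub_eq_mul_loc T₀ h ha ha')
  -- divide by the unit
  obtain ⟨u, hu⟩ := hu'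
  have hx' : x = algebraMap S T₀ (aeval t g) * ((u⁻¹ : T₀ˣ) : T₀) := by
    rw [← e, ← hu, mul_assoc, Units.mul_inv, mul_one]
  rw [hx']
  exact Dvd.dvd.mul_right hdvd1 _

/-! ### the assembly -/

include hP in
/-- the embedding of `T₀` into the cover field is injective -/
theorem injective_loc (h : IsMonogenic t f) (ha : f.eval a ∈ maximalIdeal R)
    (hjS : Function.Injective jS) (ι : T₀ →+* F')
    (hι : ∀ s : S, ι (algebraMap S T₀ s) = jS s) : Function.Injective ι := by
  rw [injective_iff_map_eq_zero]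
  intro x hx
  obtain ⟨g, g', -, hu', e⟩ := exists_rep_loc T₀ h ha x
  have e1 := congrArg ι e
  rw [map_mul, hx, zero_mul, hι] at e1
  have h0 : aeval t g = 0 := hjS (e1.symm.trans (map_zero jS).symm)
  rw [h0, map_zero] at e
  exact (hu'.mul_left_eq_zero).mp e

include hP in
/-- **the point contract at the etale point** (abstract form): the sheet-2 half `y_case` is a
hypothesis. -/
theorem covPtHom_loc [IsNoetherianRing R] (h : IsMonogenic t f)
    (ha : f.eval a ∈ maximalIdeal R) (ha' : f.derivative.eval a ∉ maximalIdeal R)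
    {yR : R} {p : ℕ} (hp0 : p ≠ 0)
    (hxxm : xxR ∈ maximalIdeal R)
    [IsDomain (R ⧸ Ideal.span {xxR})] [IsPrincipalIdealRing (R ⧸ Ideal.span {xxR})]
    (Φ : Set (F' ≃+* F')) (s₂ : F' →+* LaurentSeries Kb)
    (hjS : Function.Injective jS) (ι : T₀ →+* F')
    (hι : ∀ s : S, ι (algebraMap S T₀ s) = jS s)
    (H : Sheet1 s₁ jS t a xxR Fb ordS ρR)
    (hmul : ∀ r s : LaurentSeries (kA A), r ∈ Fb → s ∈ Fb → r ≠ 0 → s ≠ 0 →
      ordS (r * s) = ordS r + ordS s)
    (hcm : ∀ c : kA A, c ≠ 0 → ∀ r : LaurentSeries (kA A), r ∈ Fb → r ≠ 0 →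
      ordS (algebraMap (kA A) (LaurentSeries (kA A)) c * r) = ordS r)
    (hfixS : ∀ s : S, ∀ g ∈ Φ, g (jS s) = jS s)
    (hfracS : ∀ f' : F', (∀ g ∈ Φ, g f' = f') → ∃ a b : S, b ≠ 0 ∧ f' * jS b = jS a)
    (hnat : ∀ m : ℕ, m.Coprime p → IsUnit ((m : ℕ) : R))
    (hxy : ∃ ε : Rˣ, xxR * yR = (ε : R) * ((p : ℕ) : R))
    (hν : ρR yR ≠ 0)
    (hy : IsUnit yR ∨ ((∀ x : T₀, ∃ r : LaurentSeries (kA A), RhoQ A (s₂ (ι x)) r) ∧
      (∀ x : T₀, RhoQ A (s₂ (ι x)) 0 → algebraMap R T₀ yR ∣ x) ∧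
      RhoQ A (s₂ (ι (algebraMap R T₀ yR))) 0)) :
    haveI : IsDomain T₀ := IsMonogenic.isDomain_loc (t := t) (a := a) T₀
    CovPtHom Φ s₁ s₂ ι (algebraMap R T₀ xxR) (algebraMap R T₀ yR) Fb ordS (ρR yR) p := by
  haveI : IsDomain T₀ := IsMonogenic.isDomain_loc (t := t) (a := a) T₀
  have hιR : ∀ r : R, ι (algebraMap R T₀ r) = jS (algebraMap R S r) := fun r => by
    rw [IsScalarTower.algebraMap_apply R S T₀, hι]
  have hinjST : Function.Injective (algebraMap S T₀) :=
    IsMonogenic.algebraMap_loc_injective (t := t) (a := a) T₀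
  refine
    { inj := injective_loc h ha hjS ι hι
      ufm := h.ufm_loc T₀ ha ha' hxxm
      fix := ?_
      frac := ?_
      unit_nat := ?_
      xy := ?_
      p_ne := hp0
      ord_mul := hmul
      ord_const_mul := hcm
      red₁ := H.red₁ h ha ι hι hmul
      ker₁ := H.ker₁ h ha ha' ι hι
      red_xx := ?_
      red_y := ?_
      nu_ne := hν
      y_case := ?_ }
  · intro x g hg
    obtain ⟨g₁, g', -, hu', e⟩ := exists_rep_loc T₀ h ha x
    have e1 := congrArg ι e
    rw [map_mul, hι, hι] at e1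
    have hne : jS (aeval t g') ≠ 0 := by
      intro h0
      have h1 : aeval t g' = 0 := hjS (h0.trans (map_zero jS).symm)
      rw [h1, map_zero] at hu'
      exact not_isUnit_zero hu'
    have e2 : ι x = jS (aeval t g₁) / jS (aeval t g') := by
      rw [eq_div_iff hne]
      exact e1
    rw [e2, map_div₀, hfixS _ g hg, hfixS _ g hg]
  · intro f' hf'
    obtain ⟨a₁, b₁, hb, hab⟩ := hfracS f' hf'
    refine ⟨algebraMap S T₀ a₁, algebraMap S T₀ b₁, ?_, ?_⟩
    · intro h0
      exact hb (hinjST (h0.trans (map_zero _).symm))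
    · rw [hι, hι]
      exact hab
  · intro m hm
    have := (hnat m hm).map (algebraMap R T₀)
    rwa [map_natCast] at this
  · obtain ⟨ε, hε⟩ := hxy
    refine ⟨Units.map (algebraMap R T₀ : R →* T₀) ε, ?_⟩
    have := congrArg (algebraMap R T₀) hε
    rw [map_mul, map_mul, map_natCast] at this
    exact this
  · rw [hιR]
    have := H.rho xxR
    rwa [H.xx] at this
  · rw [hιR]
    exact H.rho yR
  · rcases hy with hu | h2
    · exact Or.inl (hu.map (algebraMap R T₀))
    · exact Or.inr h2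

end Loc

end Fermat.Agent.T8.helper9
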