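/-
T8 = row 38 via S44, [SLOPE-X'] INSTANCE step 3 (helper9): the point of the cover over a point of
the base, abstract form with BOTH sheets.

`covPt_of_sheets` : in the setting of `helper33.IsMonogenic` (`R` noetherian local domain,
`S = R[t]`, `f` of prime degree `p`, `a` a simple root of `f` modulo `𝔪`), from the first sheet
`helper9.Sheet1`, and - when `y` is not a unit - the `p` sheets of the second component
(`helper4.sheet2_point`), there are a sheet `j` of the second component and a subring `T` of the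
cover field with `helper9.CovPt` on the sheets `(s₁, s₂ j)`.
-/
import Mathlib
import Fermat.Agent.T8.helper9_CovPtLoc
import Fermat.Agent.T8.helper4_SheetS2

set_option autoImplicit false
set_option linter.unusedSectionVars false
set_option linter.unusedVariables false
set_option linter.style.longLine false
set_option linter.style.haveILetI false

noncomputable section

namespace Fermat.Agent.T8.helper9

open AlgebraicCurve Polynomial IsLocalRing
open Fermat.Agent.S18.helper19 Fermat.Agent.P2.helper29 Fermat.Agent.P2.helper93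
open Fermat.Agent.T3.helper36 (RhoQ GaussIs)
open Fermat.Agent.T8.helper33 (IsMonogenic ptIdeal)

section Abs

variable {A : ValuationSubring Kb}
variable {F' : Type*} [Field F'] [Algebra Kb F']
variable {R : Type*} [CommRing R] [IsDomain R] [IsLocalRing R]
variable {S : Type*} [CommRing S] [IsDomain S] [Algebra R S]
variable {t : S} {f : R[X]} {a : R}
variable {s₁ : F' →+* LaurentSeries Kb} {jS : S →+* F'} {xxR : R}
  {Fb : Subfield (LaurentSeries (kA A))} {ordS : LaurentSeries (kA A) → ℤ}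
  {ρR : R →+* LaurentSeries (kA A)}

/-- **the point of the cover over a point of the base**, both sheets. -/
theorem covPt_of_sheets [IsNoetherianRing R] (h : IsMonogenic t f)
    (ha : f.eval a ∈ maximalIdeal R) (ha' : f.derivative.eval a ∉ maximalIdeal R)
    {yR : R} {p : ℕ} (hp : p.Prime) (hdeg : f.natDegree = p)
    [CharP (LaurentSeries (kA A)) p]
    (hxxm : xxR ∈ maximalIdeal R)
    [IsDomain (R ⧸ Ideal.span {xxR})] [IsPrincipalIdealRing (R ⧸ Ideal.span {xxR})]
    (Φ : Set (F' ≃+* F')) (s2 : ℕ → (F' →+* LaurentSeries Kb))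
    (hjS : Function.Injective jS)
    (H : Sheet1 s₁ jS t a xxR Fb ordS ρR)
    (hmul : ∀ r s : LaurentSeries (kA A), r ∈ Fb → s ∈ Fb → r ≠ 0 → s ≠ 0 →
      ordS (r * s) = ordS r + ordS s)
    (hcm : ∀ c : kA A, c ≠ 0 → ∀ r : LaurentSeries (kA A), r ∈ Fb → r ≠ 0 →
      ordS (algebraMap (kA A) (LaurentSeries (kA A)) c * r) = ordS r)
    (hfixS : ∀ s : S, ∀ g ∈ Φ, g (jS s) = jS s)
    (hfracS : ∀ f' : F', (∀ g ∈ Φ, g f' = f') → ∃ a b : S, b ≠ 0 ∧ f' * jS b = jS a)
    (hnat : ∀ m : ℕ, m.Coprime p → IsUnit ((m : ℕ) : R))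
    (hxy : ∃ ε : Rˣ, xxR * yR = (ε : R) * ((p : ℕ) : R))
    (hν : ρR yR ≠ 0)
    (hy : IsUnit yR ∨ (yR ∈ maximalIdeal R ∧ yR ≠ 0 ∧ IsDomain (R ⧸ Ideal.span {yR}) ∧
      IsPrincipalIdealRing (R ⧸ Ideal.span {yR}) ∧
      ∃ (rho2 : R →+* LaurentSeries (kA A)) (τ : LaurentSeries (kA A)),
        (∀ j r, RhoQ A (s2 j (jS (algebraMap R S r))) (rho2 r)) ∧
        (∀ r, rho2 r = 0 → yR ∣ r) ∧ rho2 yR = 0 ∧
        (∀ j, j < p → RhoQ A (s2 j (jS t)) (τ - (j : LaurentSeries (kA A)))) ∧
        rho2 xxR ≠ 0)) :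
    ∃ (j : ℕ) (T : Subring F') (xx y : T), CovPt Φ s₁ (s2 j) T xx y Fb ordS (ρR yR) p := by
  haveI hP : (ptIdeal t a).IsPrime := (h.ptIdeal_isMaximal a ha).isPrime
  have hunits : ∀ y : (ptIdeal t a).primeCompl, IsUnit (jS y) := by
    intro y
    rw [isUnit_iff_ne_zero]
    intro h0
    have h4 : (y : S) = 0 := hjS (h0.trans (map_zero jS).symm)
    exact y.2 (h4 ▸ Ideal.zero_mem _)
  obtain ⟨ι, hι⟩ : ∃ ι : Localization.AtPrime (ptIdeal t a) →+* F',
      ∀ s, ι (algebraMap S (Localization.AtPrime (ptIdeal t a)) s) = jS s :=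
    ⟨IsLocalization.lift hunits, fun s => IsLocalization.lift_eq hunits s⟩
  have hιR : ∀ r : R, ι (algebraMap R (Localization.AtPrime (ptIdeal t a)) r) =
      jS (algebraMap R S r) := fun r => by
    rw [IsScalarTower.algebraMap_apply R S (Localization.AtPrime (ptIdeal t a)), hι]
  have key : ∃ j : ℕ, IsUnit yR ∨
      ((∀ x : Localization.AtPrime (ptIdeal t a), ∃ r : LaurentSeries (kA A),
          RhoQ A (s2 j (ι x)) r) ∧
        (∀ x : Localization.AtPrime (ptIdeal t a), RhoQ A (s2 j (ι x)) 0 →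
          algebraMap R (Localization.AtPrime (ptIdeal t a)) yR ∣ x) ∧
        RhoQ A (s2 j (ι (algebraMap R (Localization.AtPrime (ptIdeal t a)) yR))) 0) := by
    rcases hy with hu | ⟨hym, hy0, hD, hPID, rho2, τ, e1, e2, hρy, e3, hw0⟩
    · exact ⟨0, Or.inl hu⟩
    · haveI := hD
      haveI := hPID
      obtain ⟨j, hj, -, hE⟩ := Fermat.Agent.T8.helper4.sheet2_point
        (Localization.AtPrime (ptIdeal t a)) h ha ha' hym hy0 p hp hdeg
        (fun j => (s2 j).comp jS) rho2 (fun j r => e1 j r) e2 hρy τ (fun j hj => e3 j hj)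
        xxR hxxm hw0
      obtain ⟨h1, h2, -⟩ := hE ((s2 j).comp ι) (fun s => by
        rw [RingHom.comp_apply, hι, RingHom.comp_apply])
      refine ⟨j, Or.inr ⟨fun x => h1 x, fun x hx => h2 x hx, ?_⟩⟩
      rw [hιR]
      have := e1 j yR
      rw [hρy] at this
      exact this
  obtain ⟨j, hj⟩ := key
  have hpt := covPtHom_loc (T₀ := Localization.AtPrime (ptIdeal t a)) h ha ha' (yR := yR)
    hp.ne_zero hxxm Φ (s2 j) hjS ι hι H hmul hcm hfixS hfracS hnat hxy hν hj
  exact ⟨j, ι.range, _, _, hpt.toCovPt⟩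

end Abs

end Fermat.Agent.T8.helper9

end
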