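/-
T8 = row 38 via S44, [SLOPE-X'] COVER INSTANCE (helper9, owner): `helper29.CovPtFix`, UNCONDITIONAL.

`covPtFix : Fermat.Agent.T8.helper29.CovPtFix` - at every bad pair `(4 M', p)` of a Frey package,
for the cover of a strongly split NEW Kummer function `K` whose integral roots `Z₁`, `Z₂` (of
reduction `1`) are fixed by `I_K1`, at every closed point `Q` of the special fibre where `j̄` is
finite there is a local ring `T` of the cover with `helper9.CovPt` on a pair of sheets.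

Wiring (`covPtStatement_inst`):
* `R = helper16.locX Q` (noetherian local domain), `t = helper97.tGen`, `f` = the global
  Artin - Schreier polynomial `helper97.exists_sheets_poly`, `S = R[t]` monogenic and etale
  (`helper6.sheets_local`);
* the reduction `t̄` of `t` on the first sheet is a function of the special fibre (NEWNESS,
  `helper22.sheet_red_mem_FFb`), regular at `Q` (root of `X^p - X - c₁`, `mem_of_artinSchreier`),
  hence `t̄ = redL a` for some `a : R` (`helper16.redQ_surjective`), and `f(a) ∈ 𝔪`;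
* first sheet: `helper9.Sheet1` from the API of `helper16.redL`; `R / (xx)` is a DVR
  (`helper16.dvr_quot_xx`);
* second sheet at a double point: `helper16.red2L`, `helper16.dvr_quot_yy`, and
  `helper4.sheet2_point` (inside `helper9.covPt_of_sheets`);
* `ord ν' = ord_Q ν`: `helper65.ord_nu_eq`; `SheetOrd`: `helper22.sheetOrd_cov₁`.
-/
import Mathlib
import Fermat.Agent.T8.helper29_ConclFix
import Fermat.Agent.T8.helper9_CovPtAbs
import Fermat.Agent.T8.helper16_RingXMirror
import Fermat.Agent.T8.helper4_SheetS2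
import Fermat.Agent.T8.helper97_SheetsRingX
import Fermat.Agent.T8.helper97_SheetsGen
import Fermat.Agent.T8.helper6_SheetsLocal
import Fermat.Agent.T8.helper23_DictCovRing
import Fermat.Agent.T8.helper22_SlopeNew
import Fermat.Agent.T8.helper5_SlopeX
import Fermat.Agent.T8.helper65_SlopeXAll

set_option autoImplicit false
set_option synthInstance.maxHeartbeats 400000
set_option maxHeartbeats 1000000
set_option linter.unusedSectionVars false
set_option linter.unusedVariables false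
set_option linter.style.longLine false
set_option linter.style.haveILetI false

noncomputable section

namespace Fermat.Agent.T8.helper9

open IntermediateField AlgebraicCurve ModularCurve Polynomial IsLocalRing
open Fermat.Agent.S18.helper19 Fermat.Agent.P2.helper29 Fermat.Agent.P2.helper93
open Fermat.Agent.T2.helper36
open Fermat.Agent.P2.helper66 (iota)
open Fermat.Agent.T3.helper36 (RhoQ GaussIs)
open Fermat.Agent.T3.helper16 (IsUnit0)
open Fermat.Agent.T8.helper33 (IsMonogenic ptIdeal)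
open Fermat.Agent.T8.helper88 (CovData Cov)
open Fermat.Agent.T8.helper86 (IsKummerRoot)
open Fermat.Agent.T8.helper16 (ringX locX locXIncl IsFinitePt ordAt red1X red2X redL redQ red2L
  xxX yyX)
open Fermat.Agent.T8.helper65 (muFix IA cwAct)
open Fermat.Agent.T8.helper54 (IsRed1)
open Fermat.Agent.T8.helper23 (covSet)
open Fermat.Agent.T8.helper22 (SheetGood)
open Fermat.Agent.T8.helper29 (SheetOrd RootFix)


theorem mem_of_artinSchreier {F : Type*} [Field F] (V : ValuationSubring F) {x c : F} {n : ℕ}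
    (hn : 2 ≤ n) (hc : c ∈ V) (h : x ^ n - x - c = 0) : x ∈ V := by
  by_contra hx
  have hx0 : x ≠ 0 := fun h0 => hx (h0 ▸ V.zero_mem)
  have hxi : x⁻¹ ∈ V := (V.mem_or_inv_mem x).resolve_left hx
  have hnu : ¬ IsUnit (⟨x⁻¹, hxi⟩ : V) := by
    intro hu
    obtain ⟨u, hu⟩ := hu
    apply hx
    have h1 : ((u⁻¹ : Vˣ) : F) = x := by
      have h2 : ((u : V) : F) * ((u⁻¹ : Vˣ) : F) = 1 := by
        rw [← MulMemClass.coe_mul, Units.mul_inv]
        rfl
      rw [hu] at h2
      have h3 : x⁻¹ * ((u⁻¹ : Vˣ) : F) = 1 := h2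
      field_simp at h3
      exact h3
    rw [← h1]
    exact ((u⁻¹ : Vˣ) : V).2
  have hm : (⟨x⁻¹, hxi⟩ : V) ∈ maximalIdeal V := by
    rw [mem_maximalIdeal, mem_nonunits_iff]
    exact hnu
  have h1 : (1 : V) = (⟨x⁻¹, hxi⟩ : V) ^ (n - 1) + ⟨c, hc⟩ * (⟨x⁻¹, hxi⟩ : V) ^ n := by
    apply Subtype.ext
    show (1 : F) = x⁻¹ ^ (n - 1) + c * x⁻¹ ^ n
    have h2 : x ^ n = x + c := by linear_combination h
    have h3 : x ^ n = x ^ (n - 1) * x := by rw [← pow_succ]; congr 1; omega
    have hxn : x ^ n ≠ 0 := pow_ne_zero _ hx0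
    have hxn1 : x ^ (n - 1) ≠ 0 := pow_ne_zero _ hx0
    have e1 : x⁻¹ ^ (n - 1) = x * (x ^ n)⁻¹ := by
      rw [inv_pow, h3, mul_inv, ← mul_assoc, mul_comm x, mul_assoc, mul_inv_cancel₀ hx0, mul_one]
    rw [e1, inv_pow, ← add_mul, ← h2, mul_inv_cancel₀ hxn]
  have h2 : (1 : V) ∈ maximalIdeal V := by
    rw [h1]
    exact Ideal.add_mem _ (Ideal.pow_mem_of_mem _ hm _ (by omega))
      (Ideal.mul_mem_left _ _ (Ideal.pow_mem_of_mem _ hm _ (by omega)))
  exact (Ideal.ne_top_iff_one _).mp (IsLocalRing.maximalIdeal.isMaximal V).ne_top h2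

section Inst

variable {N p : ℕ} [NeZero N] [NeZero p] {hp : p.Prime} {hpN : ¬ p ∣ N}
  {A : ValuationSubring Kb}

/-- a function on the special fibre which is regular at `Q` is the reduction of an element of
the local ring `R_Q` -/
theorem exists_redL_eq (hA : A.LiesOverPrime p) (hN : 4 ∣ N ∨ 9 ∣ N)
    (Q : Place (kA A) (FFb A N)) (hQ : IsFinitePt Q) {x : LaurentSeries (kA A)}
    (hx : x ∈ FFb A N) (hx0 : 0 ≤ ordAt Q x) :
    ∃ a : locX A hp hpN Q, redL hA Q hQ a = x := by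
  rw [Fermat.Agent.T8.helper16.ordAt_of_mem Q hx] at hx0
  have hmem : (⟨x, hx⟩ : FFb A N) ∈ Q.toValuationSubring :=
    (Fermat.Agent.S24.helper82.mem_iff_ord_nonneg Q).mpr hx0
  obtain ⟨a, ha⟩ := Fermat.Agent.T8.helper16.redQ_surjective (hq := hp) (hqN := hpN) hA hN Q hQ
    ⟨⟨x, hx⟩, hmem⟩
  refine ⟨a, ?_⟩
  rw [Fermat.Agent.T8.helper16.redL_apply, ha]

end Inst

section Aux

variable {N p : ℕ} [NeZero N] [NeZero p] {hp : p.Prime} {hpN : ¬ p ∣ N}
  {A : ValuationSubring Kb}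

/-- the integers prime to `p` are units of `R_Q` -/
theorem isUnit_natCast_locX (hA : A.LiesOverPrime p) (Q : Place (kA A) (FFb A N)) (m : ℕ)
    (hm : m.Coprime p) : IsUnit ((m : ℕ) : locX A hp hpN Q) := by
  obtain ⟨Y₁, Y₂, hY⟩ := Fermat.Agent.T8.helper48.isRX_inv_natCast (N := N) (A := A) hp hpN hA
    m hm
  have hmem : (((m : ℕ) : FF (N * p)))⁻¹ ∈ locX A hp hpN Q :=
    Fermat.Agent.T8.helper16.ringX_le_locX Q ⟨Y₁, Y₂, hY⟩
  have hm0 : ((m : ℕ) : FF (N * p)) ≠ 0 := by
    rw [Nat.cast_ne_zero]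
    rintro rfl
    rw [Nat.coprime_zero_left] at hm
    exact hp.one_lt.ne' hm
  refine IsUnit.of_mul_eq_one (⟨_, hmem⟩ : locX A hp hpN Q) (Subtype.ext ?_)
  show (((m : ℕ) : locX A hp hpN Q) : FF (N * p)) * (((m : ℕ) : FF (N * p)))⁻¹ = 1
  rw [show (((m : ℕ) : locX A hp hpN Q) : FF (N * p)) = ((m : ℕ) : FF (N * p)) from by
    push_cast; rfl]
  exact mul_inv_cancel₀ hm0

/-- `xx y = ± p` in `R_Q` -/
theorem xx_mul_yy_locX {b0 : FF (N * p)} {B : PowerSeries ℤ} {ε : ℤ}
    (hb : IsUnit0 hp hpN b0 B ε) (hA : A.LiesOverPrime p) (Q : Place (kA A) (FFb A N)) :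
    ∃ u : (locX A hp hpN Q)ˣ,
      locXIncl Q (xxX (Fermat.Agent.T8.helper63.kerRedStatement hb A hA)) *
        locXIncl Q (yyX (Fermat.Agent.T8.helper63.kerRedStatement hb A hA)) =
        (u : locX A hp hpN Q) * ((p : ℕ) : locX A hp hpN Q) := by
  have hu : IsUnit ((ε : ℤ) : locX A hp hpN Q) :=
    (Int.isUnit_iff.mpr hb.sign).map (Int.castRingHom (locX A hp hpN Q))
  refine ⟨hu.unit, Subtype.ext ?_⟩
  rw [IsUnit.unit_spec]
  show atkinLehner N p hp hpN b0 * b0 =
    ((((ε : ℤ) : locX A hp hpN Q) * ((p : ℕ) : locX A hp hpN Q) : locX A hp hpN Q) :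
      FF (N * p))
  rw [hb.al, map_mul, map_intCast, map_natCast]
  push_cast
  rfl

/-- the elements of `R_Q[t]` are fixed by the inertia action if `t` is -/
theorem fixed_adjoin_locX (D : CovData (N * p) (atkinLehner N p hp hpN) A p)
    (Q : Place (kA A) (FFb A N)) (t : Cov (N * p) D.Z)
    (ht : ∀ g ∈ covSet D, g t = t) {x : Cov (N * p) D.Z}
    (hx : x ∈ Algebra.adjoin (locX A hp hpN Q) {t}) : ∀ g ∈ covSet D, g x = x := by
  intro g hg
  induction hx using Algebra.adjoin_induction with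
  | mem x hx =>
    rw [Set.mem_singleton_iff] at hx
    rw [hx]
    exact ht g hg
  | algebraMap r =>
    obtain ⟨σ, hσ, rfl⟩ := hg
    rw [CovData.actEquiv_apply]
    have h1 : algebraMap (locX A hp hpN Q) (Cov (N * p) D.Z) r =
        algebraMap (FF (N * p)) (Cov (N * p) D.Z) (r : FF (N * p)) := rfl
    rw [h1, D.act_algebraMap]
    congr 1
    exact Fermat.Agent.T8.helper23.hfix_locX Q r.2 σ hσ
  | add x y _ _ hx hy => rw [map_add, hx, hy]
  | mul x y _ _ hx hy => rw [map_mul, hx, hy]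

/-- the fixed elements of the cover are quotients of elements of `R_Q[t]` -/
theorem frac_adjoin_locX (hA : A.LiesOverPrime p)
    (D : CovData (N * p) (atkinLehner N p hp hpN) A p)
    (Q : Place (kA A) (FFb A N)) (t : Cov (N * p) D.Z) (hgen : (FF (N * p))⟮t⟯ = ⊤)
    (ht : ∀ g ∈ covSet D, g t = t) (f' : Cov (N * p) D.Z)
    (hf' : ∀ g ∈ covSet D, g f' = f') :
    ∃ a b : Algebra.adjoin (locX A hp hpN Q) {t}, b ≠ 0 ∧
      f' * (b : Cov (N * p) D.Z) = (a : Cov (N * p) D.Z) := by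
  obtain ⟨a, ha, b, hb, hb0, e⟩ := Fermat.Agent.T8.helper23.hfrac_covRing (hq := hp)
    (hqN := hpN) hA D t hgen ht (Algebra.adjoin (locX A hp hpN Q) {t}).toSubring
    (fun r hr => (Algebra.adjoin (locX A hp hpN Q) {t}).algebraMap_mem
      (⟨r, Fermat.Agent.T8.helper16.ringX_le_locX Q hr⟩ : locX A hp hpN Q))
    (Algebra.self_mem_adjoin_singleton _ t) f' hf'
  exact ⟨⟨a, ha⟩, ⟨b, hb⟩, fun h0 => hb0 (congrArg Subtype.val h0), e⟩

end Aux

section Sheet2

variable {N p : ℕ} [NeZero N] [NeZero p] {hp : p.Prime} {hpN : ¬ p ∣ N}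
  {A : ValuationSubring Kb}

/-- the second sheets on `R_Q` at a double point -/
theorem rhoQ_sh2_locX {b0 : FF (N * p)} {B : PowerSeries ℤ} {ε : ℤ}
    (hb : IsUnit0 hp hpN b0 B ε) (hA : A.LiesOverPrime p)
    (D : CovData (N * p) (atkinLehner N p hp hpN) A p)
    (hKum : IsKummerRoot p D.K D.Z) (ζ : Kb) (hζp : ζ ^ p = 1)
    (Q : Place (kA A) (FFb A N)) (hQ : IsFinitePt Q) (hd : 0 < ordAt Q (iota (kA A) B))
    (j : ℕ) (r : locX A hp hpN Q) :
    RhoQ A (Fermat.Agent.T8.helper29.sh2 D hKum ζ hζp j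
      (algebraMap (FF (N * p)) (Cov (N * p) D.Z) (r : FF (N * p))))
      (red2L hb hA Q hQ hd r) := by
  rw [Fermat.Agent.T8.helper29.sh2_apply, AlgEquiv.commutes, CovData.sheet2_algebraMap]
  exact Fermat.Agent.T8.helper16.rhoQ_red2L hb hA Q hQ hd r

end Sheet2

section Main

variable {N p : ℕ} [NeZero N] [NeZero p] {hp : p.Prime} {hpN : ¬ p ∣ N}
  {A : ValuationSubring Kb}

set_option maxHeartbeats 4000000 in
/-- **the point contract of [SLOPE-X'] at every finite point of the special fibre**, for the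
cover of a strongly split new Kummer function with rational roots. -/
theorem covPtStatement_inst (hp3 : 3 ≤ p) (hA : A.LiesOverPrime p) (hN : 4 ∣ N ∨ 9 ∣ N)
    {b0 : FF (N * p)} {B : PowerSeries ℤ} {ε : ℤ} (hb : IsUnit0 hp hpN b0 B ε)
    (ν : FFb A N) (hν : IsRed1 A N p b0 ν)
    (D : CovData (N * p) (atkinLehner N p hp hpN) A p)
    (hKum : IsKummerRoot p D.K D.Z) (ζ : Kb) (hζp : ζ ^ p = 1) (hζ : IsPrimitiveRoot ζ p)
    (hK : Fermat.Agent.T7.helper27.StronglySplit (N * p) (atkinLehner N p hp hpN) A p D.K)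
    (hnew : Fermat.Agent.T7.helper27.IsNewN N p D.K)
    (hr1 : red A D.Z₁ = 1) (hr2 : red A D.Z₂ = 1)
    (hf1 : RootFix A p D.Z₁) (hf2 : RootFix A p D.Z₂) :
    Fermat.Agent.T8.helper29.CovPtStatement D hKum ζ hζp ν := by
  classical
  intro Q hQ
  have hQf : IsFinitePt Q := hQ
  haveI : Fact p.Prime := ⟨hp⟩
  haveI := Fermat.Agent.T8.helper65.finiteIndex_muFix (p := p) A hA
  haveI : IsLocalRing (locX A hp hpN Q) := Fermat.Agent.T8.helper16.isLocalRing_locX hA Q hQf
  haveI : IsNoetherianRing (locX A hp hpN Q) :=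
    Fermat.Agent.T8.helper16.isNoetherianRing_locX hA Q hQf
  have hKer := Fermat.Agent.T8.helper63.kerRedStatement hb A hA
  have hbW : atkinLehner N p hp hpN b0 ≠ 0 :=
    (map_ne_zero_iff _ (atkinLehner N p hp hpN).injective).mpr hb.ne_zero
  -- the global polynomial and the models of `t` on the sheets
  have hRegJ : Fermat.Agent.T3.helper98.IsRegJ (N * p) D.K :=
    Fermat.Agent.T8.helper16.isRegJ_of_isReg2 hK.1.1
  obtain ⟨f0, c₁, c₂, hf0⟩ :=
    Fermat.Agent.T8.helper97.exists_sheets_poly D hKum ζ hζ hp3 hA hRegJ hf1 hf2 hr1 hr2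
  obtain ⟨T₁, T₂, h1, h2, h1', h2'⟩ :=
    Fermat.Agent.T8.helper97.exists_sheet_models D hKum ζ hζ hp3 hA hf1 hf2 hr1 hr2
  -- the local ring, the cover, the generator
  have hinjRK : Function.Injective (algebraMap (locX A hp hpN Q) (FF (N * p))) :=
    Subtype.val_injective
  have hroot : aeval (Fermat.Agent.T8.helper97.tGen D ζ) (f0.map (locXIncl Q)) = 0 := by
    have e := hf0.eval_tGen
    rw [aeval_def, eval₂_map]
    exact e
  have hmin : p ≤ (minpoly (FF (N * p)) (Fermat.Agent.T8.helper97.tGen D ζ)).natDegree :=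
    (Fermat.Agent.T8.helper97.natDegree_minpoly_tGen D hKum ζ hζ hp3 hA hf1 hf2 hr1 hr2).ge
  have hp0 : ((p : ℕ) : LaurentSeries (kA A)) = 0 :=
    Fermat.Agent.T8.helper16.redL_natCast_self hA Q hQf
  obtain ⟨hmono, hder, -⟩ := Fermat.Agent.T8.helper6.sheets_local
    (R0 := ringX A hp hpN) (R := locX A hp hpN Q) (K := FF (N * p)) (L := Cov (N * p) D.Z)
    (D := LaurentSeries (kA A)) (locXIncl Q) (redL hA Q hQf) (red1X A hp hpN)
    (fun r => Fermat.Agent.T8.helper16.redL_incl hA Q hQf r) hinjRK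
    (Fermat.Agent.T8.helper97.tGen D ζ) f0 p hf0.monic hf0.natDegree hroot hmin hp0
    hf0.red1_one (fun i hi hip => hf0.red1_mid hi hip)
  -- the reduction of `t` on the first sheet is a function of the special fibre, regular at `Q`
  have hT0 : incl A (T₁ 0) = ((Fermat.Agent.T8.helper97.tGen D ζ : Cov (N * p) D.Z) :
      LaurentSeries Kb) := h1 0
  have hmemF : red A (T₁ 0) ∈ FFb A N := by
    refine Fermat.Agent.T8.helper22.sheet_red_mem_FFb N p hp hpN A hA hnew D.Z₁ D.h1 hr1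
      (Y := T₁ 0) ?_
    rw [hT0]
    exact (Fermat.Agent.T8.helper97.tGen D ζ).2
  have hfmap : ∀ m, ((f0.map (locXIncl Q)).map (redL hA Q hQf)).coeff m =
      (X ^ p - X - C c₁ : (LaurentSeries (kA A))[X]).coeff m := by
    intro m
    rw [coeff_map, coeff_map, Fermat.Agent.T8.helper16.redL_incl, hf0.red1]
  have hfmap' : (f0.map (locXIncl Q)).map (redL hA Q hQf) =
      (X ^ p - X - C c₁ : (LaurentSeries (kA A))[X]) := Polynomial.ext hfmap
  -- the inclusion of `S = R_Q[t]` in the cover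
  obtain ⟨jS, hjS⟩ : ∃ jS : Algebra.adjoin (locX A hp hpN Q) {Fermat.Agent.T8.helper97.tGen D ζ}
      →+* Cov (N * p) D.Z, ∀ s, jS s = (s : Cov (N * p) D.Z) :=
    ⟨(Algebra.adjoin (locX A hp hpN Q) {Fermat.Agent.T8.helper97.tGen D ζ}).val.toRingHom,
      fun _ => rfl⟩
  have hjSinj : Function.Injective jS := by
    intro x y hxy
    rw [hjS, hjS] at hxy
    exact Subtype.ext hxy
  have hjSR : ∀ r : locX A hp hpN Q, jS (algebraMap (locX A hp hpN Q)
      (Algebra.adjoin (locX A hp hpN Q) {Fermat.Agent.T8.helper97.tGen D ζ}) r) =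
      algebraMap (FF (N * p)) (Cov (N * p) D.Z) (r : FF (N * p)) := by
    intro r
    rw [hjS]
    rfl
  have hjSt : jS ⟨Fermat.Agent.T8.helper97.tGen D ζ,
      Algebra.self_mem_adjoin_singleton (locX A hp hpN Q) _⟩ =
      Fermat.Agent.T8.helper97.tGen D ζ := hjS _
  -- sheet 1 on `R_Q` and at `t`
  have e1 : ∀ r : locX A hp hpN Q, RhoQ A (((Fermat.Agent.T8.helper29.sh1 D hKum ζ hζp 0).comp jS)
      (algebraMap (locX A hp hpN Q)
        (Algebra.adjoin (locX A hp hpN Q) {Fermat.Agent.T8.helper97.tGen D ζ}) r))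
      (redL hA Q hQf r) := by
    intro r
    rw [RingHom.comp_apply, hjSR]
    exact Fermat.Agent.T8.helper16.rhoQ_redL hA Q hQf r
  have e3 : RhoQ A (((Fermat.Agent.T8.helper29.sh1 D hKum ζ hζp 0).comp jS)
      ⟨Fermat.Agent.T8.helper97.tGen D ζ,
        Algebra.self_mem_adjoin_singleton (locX A hp hpN Q) _⟩) (red A (T₁ 0)) := by
    rw [RingHom.comp_apply, hjSt, Fermat.Agent.T8.helper29.sh1_zero, ← hT0]
    exact Fermat.Agent.T3.helper36.rhoQ_incl _
  -- the Artin - Schreier equation of the reduction of `t`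
  have hAS : red A (T₁ 0) ^ p - red A (T₁ 0) - c₁ = 0 := by
    have h3 := Fermat.Agent.T8.helper4.rhoQ_aeval
      ((Fermat.Agent.T8.helper29.sh1 D hKum ζ hζp 0).comp jS) (redL hA Q hQf) e1 e3
      (f0.map (locXIncl Q))
    rw [hmono.root, map_zero, hfmap'] at h3
    have h4 := h3.eq_zero
    simpa using h4
  have hc₁ : c₁ = - red1X A hp hpN (f0.coeff 0) := by rw [hf0.red1_zero, neg_neg]
  have hord : 0 ≤ ordAt Q (red A (T₁ 0)) := by
    rw [Fermat.Agent.T8.helper16.ordAt_of_mem Q hmemF]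
    have hcm : c₁ ∈ FFb A N := by
      rw [hc₁]
      exact neg_mem (Fermat.Agent.T8.helper16.red1X_mem_FFb hA _)
    have hc0 : (⟨c₁, hcm⟩ : FFb A N) ∈ Q.toValuationSubring := by
      rw [Fermat.Agent.S24.helper82.mem_iff_ord_nonneg]
      have h5 := Fermat.Agent.T8.helper5.ordAt_red1X_nonneg hA Q hQf (f0.coeff 0)
      rw [Fermat.Agent.T8.helper16.ordAt_of_mem Q
        (Fermat.Agent.T8.helper16.red1X_mem_FFb hA _)] at h5
      have h6 : (⟨c₁, hcm⟩ : FFb A N) =
          -⟨red1X A hp hpN (f0.coeff 0), Fermat.Agent.T8.helper16.red1X_mem_FFb hA _⟩ :=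
        Subtype.ext hc₁
      rw [h6, Fermat.Agent.T6.helper26.ord_neg_eq]
      exact h5
    have h7 : (⟨red A (T₁ 0), hmemF⟩ : FFb A N) ^ p - ⟨red A (T₁ 0), hmemF⟩ - ⟨c₁, hcm⟩ = 0 :=
      Subtype.ext hAS
    exact (Fermat.Agent.S24.helper82.mem_iff_ord_nonneg Q).mp
      (mem_of_artinSchreier Q.toValuationSubring hp.two_le hc0 h7)
  obtain ⟨a, ha⟩ := exists_redL_eq (hp := hp) (hpN := hpN) hA hN Q hQf hmemF hord
  -- the root `a` of `f` modulo the maximal ideal
  have hxxm : locXIncl Q (xxX hKer) ∈ maximalIdeal (locX A hp hpN Q) := by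
    rw [mem_maximalIdeal, mem_nonunits_iff]
    exact Fermat.Agent.T8.helper16.not_isUnit_xx hA hKer Q hQf
  have hker1 : ∀ r : locX A hp hpN Q, redL hA Q hQf r = 0 → locXIncl Q (xxX hKer) ∣ r := by
    intro r hr
    exact (Fermat.Agent.T8.helper16.redQ_eq_zero_iff hA hKer hbW Q hQf).mp
      ((Fermat.Agent.T8.helper16.redL_eq_zero_iff hA Q hQf r).mp hr)
  have haev : (f0.map (locXIncl Q)).eval a ∈ maximalIdeal (locX A hp hpN Q) := by
    have h3 : redL hA Q hQf ((f0.map (locXIncl Q)).eval a) = 0 := by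
      rw [← Polynomial.eval₂_at_apply, ← Polynomial.eval_map, hfmap', ha]
      simpa using hAS
    obtain ⟨c, hc⟩ := hker1 _ h3
    rw [hc]
    exact Ideal.mul_mem_right _ _ hxxm
  have hder' := hder a
  have hdeg : (f0.map (locXIncl Q)).natDegree = p := by
    rw [hf0.monic.natDegree_map]
    exact hf0.natDegree
  haveI : CharP (kA A) p := Fermat.Agent.P2.helper93.charP_residueField hp hA
  haveI : CharP (LaurentSeries (kA A)) p :=
    charP_of_injective_ringHom
      (f := (HahnSeries.C : kA A →+* LaurentSeries (kA A))) HahnSeries.C_injective p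
  have hdvr1 := Fermat.Agent.T8.helper16.dvr_quot_xx hb hA hN Q hQf (locXIncl Q (xxX hKer)) rfl
  haveI := hdvr1.1
  haveI := hdvr1.2
  -- the first sheet
  have H : Sheet1 (A := A) (Fermat.Agent.T8.helper29.sh1 D hKum ζ hζp 0) jS
      (⟨Fermat.Agent.T8.helper97.tGen D ζ,
        Algebra.self_mem_adjoin_singleton (locX A hp hpN Q) _⟩ :
        Algebra.adjoin (locX A hp hpN Q) {Fermat.Agent.T8.helper97.tGen D ζ}) a
      (locXIncl Q (xxX hKer)) (FFb A N).toSubfield (ordAt Q) (redL hA Q hQf) :=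
    { rho := fun r => by
        have := e1 r
        rwa [RingHom.comp_apply] at this
      mem := fun r => Fermat.Agent.T8.helper16.redL_mem_FFb hA Q hQf r
      nonneg := fun r => Fermat.Agent.T8.helper16.ordAt_redL_nonneg hA Q hQf r
      unit := fun r hr => by
        have h3 := (Fermat.Agent.T8.helper16.isUnit_iff_redQ hA Q hQf r).mp hr
        have h4 := ((Fermat.Agent.T8.helper16.isUnit_iff_ord_eq_zero Q _).mp h3).2
        rw [Fermat.Agent.T8.helper16.ordAt_of_mem Q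
          (Fermat.Agent.T8.helper16.redL_mem_FFb hA Q hQf r)]
        exact h4
      ker := hker1
      xx := by
        rw [Fermat.Agent.T8.helper16.redL_incl, Fermat.Agent.T8.helper16.red1X_xxX]
      gen := by
        rw [ha]
        have := e3
        rwa [RingHom.comp_apply] at this }
  have hmul : ∀ r s : LaurentSeries (kA A), r ∈ (FFb A N).toSubfield → s ∈ (FFb A N).toSubfield →
      r ≠ 0 → s ≠ 0 → ordAt Q (r * s) = ordAt Q r + ordAt Q s :=
    fun r s hr hs hr0 hs0 => Fermat.Agent.T8.helper16.ordAt_mul Q hr hs hr0 hs0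
  have hcm : ∀ c : kA A, c ≠ 0 → ∀ r : LaurentSeries (kA A), r ∈ (FFb A N).toSubfield → r ≠ 0 →
      ordAt Q (algebraMap (kA A) (LaurentSeries (kA A)) c * r) = ordAt Q r :=
    fun c hc r hr _ => Fermat.Agent.T8.helper65.ordAt_const_mul Q hc hr
  have htfix := Fermat.Agent.T8.helper97.tGen_fixed_covSet D hKum ζ hζ hf1
  have hgen := Fermat.Agent.T8.helper97.adjoin_tGen_eq_top D hKum ζ hζ hp3 hA hf1 hf2 hr1 hr2
  have hfixS : ∀ s : Algebra.adjoin (locX A hp hpN Q) {Fermat.Agent.T8.helper97.tGen D ζ},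
      ∀ g ∈ covSet D, g (jS s) = jS s := by
    intro s g hg
    rw [hjS]
    exact fixed_adjoin_locX D Q _ htfix s.2 g hg
  have hfracS : ∀ f' : Cov (N * p) D.Z, (∀ g ∈ covSet D, g f' = f') →
      ∃ a b : Algebra.adjoin (locX A hp hpN Q) {Fermat.Agent.T8.helper97.tGen D ζ},
        b ≠ 0 ∧ f' * jS b = jS a := by
    intro f' hf'
    obtain ⟨a', b', hb0, e⟩ := frac_adjoin_locX hA D Q _ hgen htfix f' hf'
    exact ⟨a', b', hb0, by rw [hjS, hjS]; exact e⟩
  have hnat : ∀ m : ℕ, m.Coprime p → IsUnit ((m : ℕ) : locX A hp hpN Q) :=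
    fun m hm => isUnit_natCast_locX hA Q m hm
  have hxy := xx_mul_yy_locX hb hA Q
  have hνy : redL hA Q hQf (locXIncl Q (yyX hKer)) = iota (kA A) B := by
    rw [Fermat.Agent.T8.helper16.redL_incl, Fermat.Agent.T8.helper16.red1X_yyX]
  have hν0 : redL hA Q hQf (locXIncl Q (yyX hKer)) ≠ 0 := by
    rw [hνy]
    exact Fermat.Agent.T8.helper63.nu_ne_zero hb A
  have hνnn : 0 ≤ ordAt Q (iota (kA A) B) := by
    rw [← hνy]
    exact Fermat.Agent.T8.helper16.ordAt_redL_nonneg hA Q hQf _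
  -- the second sheets
  have hy : IsUnit (locXIncl Q (yyX hKer)) ∨
      (locXIncl Q (yyX hKer) ∈ maximalIdeal (locX A hp hpN Q) ∧ locXIncl Q (yyX hKer) ≠ 0 ∧
      IsDomain (locX A hp hpN Q ⧸ Ideal.span {locXIncl Q (yyX hKer)}) ∧
      IsPrincipalIdealRing (locX A hp hpN Q ⧸ Ideal.span {locXIncl Q (yyX hKer)}) ∧
      ∃ (rho2 : locX A hp hpN Q →+* LaurentSeries (kA A)) (τ : LaurentSeries (kA A)),
        (∀ j r, RhoQ A (Fermat.Agent.T8.helper29.sh2 D hKum ζ hζp j
          (jS (algebraMap (locX A hp hpN Q)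
            (Algebra.adjoin (locX A hp hpN Q) {Fermat.Agent.T8.helper97.tGen D ζ}) r)))
          (rho2 r)) ∧
        (∀ r, rho2 r = 0 → locXIncl Q (yyX hKer) ∣ r) ∧ rho2 (locXIncl Q (yyX hKer)) = 0 ∧
        (∀ j, j < p → RhoQ A (Fermat.Agent.T8.helper29.sh2 D hKum ζ hζp j
          (jS ⟨Fermat.Agent.T8.helper97.tGen D ζ,
            Algebra.self_mem_adjoin_singleton (locX A hp hpN Q) _⟩))
          (τ - (j : LaurentSeries (kA A)))) ∧
        rho2 (locXIncl Q (xxX hKer)) ≠ 0) := by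
    rcases hνnn.eq_or_lt with h0 | hd
    · left
      refine Fermat.Agent.T8.helper16.isUnit_locXIncl hA Q hQf ⟨?_, ?_, ?_⟩
      · exact Fermat.Agent.T8.helper16.red1X_mem_FFb hA _
      · rw [Fermat.Agent.T8.helper16.red1X_yyX]
        exact Fermat.Agent.T8.helper63.nu_ne_zero hb A
      · rw [Fermat.Agent.T8.helper16.red1X_yyX]
        exact h0.symm
    · right
      have hdvr2 := Fermat.Agent.T8.helper16.dvr_quot_yy hb hA hN Q hQf hd
        (locXIncl Q (yyX hKer)) rfl
      refine ⟨?_, ?_, hdvr2.1, hdvr2.2, red2L hb hA Q hQf hd, red A (T₂ 0), ?_, ?_, ?_, ?_, ?_⟩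
      · rw [mem_maximalIdeal, mem_nonunits_iff]
        exact Fermat.Agent.T8.helper16.not_isUnit_yy hA hKer Q hQf hd
      · intro h0
        exact hb.ne_zero (congrArg (fun z : locX A hp hpN Q => (z : FF (N * p))) h0)
      · intro j r
        rw [hjSR]
        exact rhoQ_sh2_locX hb hA D hKum ζ hζp Q hQf hd j r
      · intro r hr
        exact (Fermat.Agent.T8.helper16.red2L_eq_zero_iff hb hA Q hQf hd r).mp hr
      · exact (Fermat.Agent.T8.helper16.red2L_eq_zero_iff hb hA Q hQf hd _).mpr dvd_rfl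
      · intro j hj
        rw [hjSt, ← h2' j]
        have h3 : incl A (T₂ j) = Fermat.Agent.T8.helper29.sh2 D hKum ζ hζp j
            (Fermat.Agent.T8.helper97.tGen D ζ) := h2 j
        rw [← h3]
        exact Fermat.Agent.T3.helper36.rhoQ_incl _
      · exact Fermat.Agent.T8.helper16.red2L_xx_ne_zero hb hA Q hQf hd
  obtain ⟨j, T, xx, y, hpt⟩ := covPt_of_sheets hmono haev hder' hp hdeg hxxm (covSet D)
    (fun j => Fermat.Agent.T8.helper29.sh2 D hKum ζ hζp j) hjSinj H hmul hcm hfixS hfracS hnat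
    hxy hν0 hy
  refine ⟨ordAt Q, Fermat.Agent.T8.helper22.sheetOrd_cov₁ N p hp hpN hA D hnew hr1 Q, 0, j, T,
    xx, y, (FFb A N).toSubfield, _, hpt, ?_⟩
  rw [hνy]
  exact Fermat.Agent.T8.helper65.ord_nu_eq hb hν Q

end Main

section Final

/-- **the COVER INSTANCE of [SLOPE-X']**: `helper29.CovPtFix`, unconditional. -/
theorem covPtFix : Fermat.Agent.T8.helper29.CovPtFix := by
  intro P M' _ hpN A hA hdvd hirr b0 B ε hb ν hν D hKum ζ hζp hζ hK hnew hr1 hr2 hf1 hf2
  have hp3 : 3 ≤ P.p := by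
    have := P.hp5
    omega
  exact covPtStatement_inst hp3 hA (Or.inl (Dvd.intro M' rfl)) hb ν hν D hKum ζ hζp hζ hK hnew
    hr1 hr2 hf1 hf2

end Final

end Fermat.Agent.T8.helper9
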