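import Fermat.Agent.T8.helper72_Chain9
import Fermat.Agent.T8.helper9_CovPtInst

/-!
# T8 / S44 (helper72, assembler): the final wiring of the frozen statement S44

`s44_final` : level lowering at `p` for the Frey packages (row 38 of the milestone table, Frey
form): `helper72.s44_of_frontier9` (the top chain with every box plugged in) applied to the
cover instance `Fermat.Agent.T8.helper9.covPtFix`.
-/

set_option autoImplicit false

noncomputable section

namespace Fermat.Agent.T8.helper72

open WeierstrassCurve WeierstrassCurve.Affine WeierstrassCurve.Affine.Point

/-- **S44**: if `N` is a conductor level of the Frey package `P` divisible by `p`, `E[p]` is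
irreducible and the Frey representation is modular of level `N`, then it is modular of a level
`M ∣ N` prime to `p`. -/
theorem s44_final (P : FreyPackage) {N : ℕ} (hcond : P.IsConductorLevel N) (hpN : P.p ∣ N)
    (hirr : GaloisRepIsIrreducible (K := AlgebraicClosure ℚ) ℚ P.freyCurve P.p)
    (hmod : P.ModularRepOfLevel N) :
    ∃ M : ℕ, M ∣ N ∧ ¬ P.p ∣ M ∧ P.ModularRepOfLevel M :=
  s44_of_frontier9 Fermat.Agent.T8.helper9.covPtFix P hcond hpN hirr hmod

end Fermat.Agent.T8.helper72

end
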