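/-
T8 = row 38 (S40), wall (B'): PAPER ROUTE WITHOUT ANNULI (helper16, 09:30Z - 10:00Z).
Comment-only file, no declarations.  Input for the architects helper7 / helper52 / helper44 /
helper54 / helper40 and the coordinator helper96.  It answers LEAD v14 item 3 (b).

CLAIM.  The period formula needed for (B') becomes a FIRST-ORDER statement on the cyclic cover
X' of X = X0(p N') cut out by the toric class l0, because the pull-back of x to X' is rational
over the TAME field K1.  New inputs: one commutative-algebra lemma at the double points over the
UNRAMIFIED base (UFD2 / SLOPE below), the cover, Kummer descent.  No annulus, no completion,
no Weierstrass factorisation, no Neron model.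

====================================================================================================
0. NOTATION
====================================================================================================
 K0 = fixed field of the inertia group I = I_A in Qbar (value group Z, v(p) = 1), K1 = K0(zeta_p)
 (value group Z / (p - 1)), lam = zeta - 1.  F = FF(p N'), 4 | N' or 9 | N'.  w1, w2 the two
 Gauss valuations, red1, red2 the reductions (values in FFb = k(C1), k(C2)), Bt as in T2 / T3.
 b0 = the weight-one unit of T3 (helper16.IsUnit0): q-expansion B in 1 + t Z[[t]],
 W b0 * b0 = eps p, b0 and 1 / b0 integral over Qbar[j].  Put y := b0, xx := W b0 = eps p / b0: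
     w1(y) = 0, w2(y) = 1,   w1(xx) = 1, w2(xx) = 0,   xx * y = eps p,   nu := red1(y).
 (T3: ker red_c is the principal ideal generated by such a unit on the I-fixed regular
 functions: helper16.ker_div0 / ker_div1 / hker01 at level N q q.)
 V = W[p] inside J0(p N')[p] cap NEW (helper7 chain, boxes REAL / OLD / AUX), L = V cap T0_1 a line
 (T7 (G1): I acts on L by omega), l0 a generator of L with Kummer function K = u_l0 StronglySplit
 (K = Z1^p, W K = Z2^p, red Z_i = 1), x in V \ L with Kummer function u_x, and tau in I fixing
 zeta_p with tau x = x + l0.  L1 := K1(alpha), alpha^p = a in K1, tau alpha = zeta alpha, is the
 field of definition of x over K1.  PEU RAMIFIE means: p | (p - 1) v(a).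
 c(x) := (ord_s red1(u_x) mod p)_s, s running over the zeros of nu on C1 (the double points).

====================================================================================================
1. THE COVER
====================================================================================================
 F' := F(Z), Z^p = K.  rho := the deck transformation Z -> zeta Z.  F' has 2 p embeddings into
 Laurent series: iota1_i (Z -> zeta^i Z1, F by the expansion at oo) and iota2_j (Z -> zeta^j Z2,
 F by the expansion of W f); Gauss valuations w1_i, w2_j; iota1_(i+1) = iota1_i o rho.
 Y := (Z - 1) / lam satisfies  Y^p + (p / lam) Y^(p-1) + ... + (p / lam^(p-1)) Y = (K - 1) / lam^p,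
 i.e. Y^p - Y = R mod lam (Artin-Schreier), R integral; on C1 the reduction of R is wp(E1), on C2
 it is wp(E2) (E_i in Bt: this is T7 L1 + FC), so red1_i(Y) = E1 + i, red2_j(Y) = E2 + j.
 The model of the cover is R'= (regular functions)[Y], finite ETALE over the model of X
 (the derivative of the equation is - 1 mod lam).  GLUING DATUM of l0 (helper40 (O2) [D2]):
     a_s := E1(s) - E2(s) in F_p,
 and the double point of X' over s on the sheet (1, i) lies on the sheet (2, i + a_s)
 (the value of red Y at the point must agree on the two branches).
 I acts on F' (T7 (G1): sigma K = c v^p K^a, so sigma Z = Z^a v c'), commutes with rho and fixes
 every w1_i, w2_j; tau acts on F' (x) L1 through L1 only.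

====================================================================================================
2. DESCENT  (pure algebra: Hilbert 90 + Kummer theory)
====================================================================================================
 tau(u_x) = c_tau * h_tau^p * K * u_x  (c_tau in L1, h_tau in F (x) L1)  because tau x = x + l0.
 In F' (x) L1 :  tau(u_x) / u_x = c_tau * theta^p,  theta := h_tau * Z,
   N_tau(theta) = c' in K1   (apply tau p times).
 (D1) NORM: c' is a norm from L1 (K1 is henselian with algebraically closed residue field).
      Then, after changing h_tau by a constant, N_tau(theta) = 1.
 (D2) HILBERT 90 for F' (x) L1 over F' (x) K1:  theta = tau(h) / h, h in F' (x) L1.  Hence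
      u' := u_x / h^p  is fixed by tau: u' lies in F' (x) K1  (= pull-back of x to X', rational over K1).
 (D3) G := rho(h) / h satisfies tau(G) = zeta^(+-1) G (rho theta = zeta theta), so G = alpha^(+-1) g1
      with g1 in F' (x) K1, and
          rho(u') = a^(-+1) * g1^(-p) * u'.
      (Tate curve check: X' = G_m / q^(pZ), u' = z^(-1) (theta'(z/q) / theta'(z))^p,
       rho u' / u' = q^(-1) (...)^p, a = q.)
 CONSEQUENCE.  A_i := (p - 1) w1_i(u'), B_j := (p - 1) w2_j(u') are integers and
     A_(i+1) - A_i = B_(j+1) - B_j = -+ (p - 1) v(a)   mod p.                        (*)

====================================================================================================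
3. THE LOCAL INPUT  (commutative algebra over the discrete base, once for X and for X')
====================================================================================================
 (UFD2) (R, m) noetherian local domain, y in m, R / (y) a discrete valuation ring  ==>  every
        height-one prime of R is principal (q = (f) + y q, Nakayama), so R is a UFD.
        (Mathlib: Krull Hauptidealsatz + Nakayama; about 150 lines.)
 (SLOPE) Let u0 be an I-fixed function on X (or on X'), w1(u0) = w2(u0) = 0 (on the two sheets
        through a double point s), p | ord_P(u0) at every place P.  Then p | ord_s red1(u0).
        Proof: R_s := localisation at s of the I-fixed regular integral functions; R_s / (y) is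
        the local ring of C2 at s (T3 ker_div: ker red2 = y R; Bt is Dedekind: helper95_BtDed),
        so R_s is a UFD; u0 = unit * d^p; reduce.  On X' the ring is R_s[Y] localised at one
        point over s: there Y - E2~ - j' is a unit for j' != j, so again R' / (y) is the same
        discrete valuation ring.
 COROLLARY (I-fixed u, p | div u):  ord_s red1(u p^(-w1 u)) = (w2 - w1)(u) * ord_s(nu)  mod p
        (apply SLOPE to u / (xx^(w1 u) y^(w2 u)); red1(xx / p) = eps / nu).
        The multiplicity m_s := ord_s(nu) is NOT needed to be 1 (no Igusa theorem, no thickness).
 K1-VERSION: apply the corollary to the norm of u from K1 to K0 (degree p - 1, prime to p; I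
        fixes the sheets): ord_s red1(u) = - ((p - 1)(w2 - w1)(u)) * m_s mod p.

====================================================================================================
4. CONCLUSION
====================================================================================================
 u' = c h^p u_x on X', so on the sheet (1, i), at the double point over s:
     n_s(x) := ord_s red1(u_x) = ord red1_i(u') = - (B_(i + a_s) - A_i) m_s   mod p
            = (beta -+ v*(a) a_s) m_s,     v*(a) := (p - 1) v(a) mod p,  beta := A_0 - B_0   by (*).
 This is the period (Picard-Lefschetz) formula mod p:  c(x) = (beta + v*(a) a(l0)) . m.
 PEU RAMIFIE (v*(a) = 0)  ==>  c(x) = beta . m,  m = c-vector of the Eisenstein unit b0.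
 [PHI] in this form: c is Hecke equivariant and T_l m = (l + 1) m (norms of b0), so
     (a_l - l - 1) beta m = 0 for all l, rhobar irreducible ==> beta = 0 ==> c(x) = 0.
 Then [D-HECKE] (helper7): x in T0_1, V inside T0_1 cap NEW, inertia scalar on V, contradiction
 with det = omega (T7).  So W[p] is TRES ramifie, contradiction with [W-ORD] (helper52 (W1):
 an integral z in K1(W[p]) with v(tau z - z) <= 1/(p-1); for tres ramifie fields every integral z
 has v(tau z - z) > 1/(p-1): write z = sum z_m alpha^m, the values v(z_m alpha^m) are pairwise
 distinct mod Z / (p - 1)).

====================================================================================================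
5. BOXES (all NEW; none on main) and my honest size estimate
====================================================================================================
 [COVER]   F' = F(Z), the 2 p expansions / Gauss valuations, Y, the etale model, sheets at the
           double points, I-action.                                          3 - 5 k lines
 [DESC]    (D1) norm surjectivity for K1(a^(1/p)) / K1, (D2) Hilbert 90 (Mathlib has it for
           finite cyclic extensions), (D3).                                   2 - 3 k lines
 [UFD2]    abstract.                                                          0.2 k
 [SLOPE]   X and X': noetherian (integral closure of O[j], O = valuation ring of K0 is a DVR),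
           ker red2 = y R on I-fixed functions (T3 pattern), translation places <-> height-one
           primes, K1-version by norms.                                       3 - 5 k lines
 [PHI]     Hecke equivariance of c and of b0 (norm relations as in helper43_NewNorm).  1 - 2 k
 plus the route-independent boxes of helper7 #3387 (REAL, OLD, AUX, LIFT, W-SS, W-ORD, D-HECKE).
 Serial depth: COVER -> SLOPE' -> CONCLUSION -> S40 assembly = 4.  My verdict: the route is
 complete on paper and stays inside commutative algebra + expansions, but it is at least
 2 x T7 in size; GO only if the coordinator can staff all boxes at once before 10:45Z.
-/
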