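/-
T8 = ROW 38 (weight 0.044) via S44 (Frey form), AT RISK.  BLUEPRINT v1 + LEAF TABLE.
Coordinator helper96 (LEAD v14).  Comment-only file.  State of main: 16a6f6b4.
Route through the wall (B') = helper16 NOTES_helper16_T8_cover.lean (cyclic cover), audited on
paper by helper22, helper83, helper40, helper52, helper87, helper5, helper14, helper47, helper20,
helper34, helper1, helper77 (all PASS).  This file fixes TARGET, CHAIN, BOXES, OWNERS, GATES.

====================================================================================================
0. TARGET AND WHY
====================================================================================================
 TARGET = S44 only (not S40, not S39).  Reasons (helper47, helper35): FreyPackage has 5 <= p (the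
 chain needs p not dividing e_s in {1,2,3}); IsConductorLevel N + p | N gives p | a b c, so the Frey
 curve has MULTIPLICATIVE reduction at p with v_p(Delta) = 2 p v_p(abc): only ONE curve-side box
 [W-MULT]; N is squarefree; 2 is bad for every integral model (b even), so the auxiliary level 4 is
 invisible in the congruence set {l good for W, l not | M, l != p}.  The conclusion is
 exists M | N, not p | M, ModularRepOfLevel M: we prove it with M := N / p.

 NOTATION.  N = p M' squarefree, E = Frey curve, Vbar := E[p] (irreducible), psibar(l) := a_l(E) mod p.
 N' := 4 M', bad pair (p N', atkinLehner N' p, A), A | p a valuation subring of Qbar, I = inertia,
 K0 = Qbar^I, K1 = K0(zeta_p), lam = zeta_p - 1.  F = FF (p N').  T2 / T7 vocabulary throughout.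

====================================================================================================
1. TOP CHAIN (assembler helper72; every arrow is a BOX with a Lean Prop contract)
====================================================================================================
 (A) [REAL]   hmod + hirr  ==>  V0 inside J0(p M')[p]: Galois stable, T_l = psibar(l) on V0 for the
              good l, V0 isomorphic to E[p] as a module over the decomposition / inertia group at A
              (Eichler - Shimura S37 / P3 + Chebotarev T4 / P6 NCheb + Brauer - Nesbitt).
 (B) DICHOTOMY at level p M' -> M':  alpha_* V0 != 0  or  beta_* V0 != 0  or  V0 in NEW.
 (C) [OLD] + [LIFT]  a nonzero psibar-eigenclass in J0(M')[p]  ==>  normalised eigenform g of level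
              M' and m' | p with the congruences of ModularRepOfLevel M'  (P6 Lift files + P3).
 (D) [AUX]    V0 in NEW  ==>  V := pi^* V0 inside J0(4 p M')[p] cap NEW, pi^* injective on V0
              (base change square alpha_* pi^* = pi'^* alpha_*; kernel of pi^* is Eisenstein).
 (E) WALL     for every x in V and every double point s:  p | ord_s red1(u_x)   (c(x) = 0).
              <= [W-MULT] + [SPLIT] + [COVER] + [DESC] + [SLOPE] + [CONCL] + [PHI]   (section 2).
 (F) [D-HECKE] c = 0 on V  ==>  (d1, d2) in Pic0(C)[p]^2, C = X0(M') mod p, psibar-eigen; if it is
              nonzero: eigenform of level M' ([LIFT] again, via the reduction map of P2); if it is
              zero: V inside T0_1.     (use x = pi^* x0 and p not | e(s'|s) to work at level M'.)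
 (G) [G1-END] V inside T0_1 cap NEW  ==>  I acts on V by the scalar omega (T7 t0InertOmega)  ==>
              contradiction with E[p]: (sigma - 1) E[p] lies in the kernel-of-reduction line
              (S13.helper60.exists_submodule_at_p), a PROPER submodule.

====================================================================================================
2. THE WALL (helper16 route, with the simplifications of the audits)
====================================================================================================
 L := V cap T0_1 is a line, I acts on L by omega and trivially on V / L ((G) excludes L = V, det
 excludes L = 0).  x in V \ L.
 [W-MULT]  K1(E[p]) / K1 is PEU ramifie: either I_K1 acts trivially on V (SPLIT case) or there is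
           tau in I_K1 of order p on V, tau x = x + l0, and K1(V) = K1(alpha), alpha^p = a in K1 with
           p | (p - 1) v(a).  Consumer form (helper52 (W1)): an integral z in K1(E[p]) with
           v(tau z - z) <= v(lam); abstract half: tres ramifie ==> every integral z has
           v(tau z - z) > v(lam)  (z = sum z_m alpha^m, values distinct mod Z / (p - 1)).
 [UFD2]    abstract: noetherian local domain R, y in m, R / (y) a DVR ==> R is a UFD; in a UFD,
           n | all prime multiplicities ==> a = unit * d^n.               (compiled: helper6, helper20)
 [SLOPE]   abstract + instance on X.  R_s := local ring at the double point s of the I-FIXED
           functions of F regular off the two cusps with integral pair; y := b0 (w1 = 0, w2 = 1),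
           xx := W b0, xx y = eps p.  ker red2 = y R (divide by y), red2 onto the local ring of C2
           at s (pull-back from level N' + W), R_s noetherian (finite integral closure over
           O_K0[j], char 0).  SLOPE: u0 I-fixed, w1 = w2 = 0, p | ord_P u0 at all places P
           specialising to s ==> p | ord_s red1(u0).  COROLLARY: u I-fixed, p | div u ==>
           ord_s red1(u p^(-w1 u)) = (w2 - w1)(u) m_s mod p, m_s := ord_s red1(b0).  K1-VERSION by
           the norm K1 -> K0 (degree p - 1).  NEVER use UFD2 over O_K1 (xx y = unit lam^(p-1)).
 [SPLIT]   if I_K1 fixes x: u_x can be taken K1-rational (Hilbert 90 after normalising the leading
           coefficient at oo); K1-VERSION on X gives c(x) = beta m.  No cover.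
 [COVER]   K := u_l0 normalised: K1-rational, K = 1 mod lam^p at w1, w2 (T7 (L1): K / U^p),
           leading coefficient 1.  F' := F(Z1) inside Laurent series, Z1^p = K; deck map rho;
           the 2 p expansions / Gauss valuations w1_i, w2_j; coefficientwise I-action on F'
           (stable by T7 B4), commutes with rho, fixes every sheet; F'_0 := I-fixed part;
           R' := integral closure of R_s in F'_0 localised at a point s' over s: noetherian local
           domain, y in m', R' / (y) = R_s / (y) (a ring between a DVR and its fraction field,
           integral over it); dictionary places of F' over s' <-> horizontal primes of R'.
           PEU case needs NO gluing datum a_s (helper14, helper1).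
 [DESC]    pure algebra (Hilbert 90 for the cyclic extension generated by tau, Lagrange
           resolvent): tau(u_x) / u_x = theta^p with theta = h_tau Z1 normalised (leading
           coefficient 1, so N_tau(theta) = 1, NO norm surjectivity); theta = tau(h) / h;
           u' := u_x / h^p is K1-rational on X'; rho(u') = a^(-+1) g1^(-p) u', g1 K1-rational;
           hence A_(i+1) - A_i = B_(j+1) - B_j = -+ (p - 1) v(a) mod p            (*)
           for A_i := (p - 1) w1_i(u'), B_j := (p - 1) w2_j(u').
 [CONCL]   peu ramifie: (p - 1) v(a) = 0 mod p, so A_i = A, B_j = B; K1-VERSION of the COROLLARY
           on X' at s':  ord_s red1(u_x) = ord red1_i(u') = (A - B) m_s =: beta(x) m_s  mod p.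
 [PHI]     beta = 0.  (E1) ord_s red1(u_(T_l x)) = sum over the l + 1 points t of T_l(s) of
           ord_t red1(u_x) (norm of reductions along the Hecke correspondence, unramified at the
           double points since 4 | N'); (E2) m is T_l-Eisenstein: sum_t m_t = (l + 1) m_s (norm of
           b0 = const * b0^(l+1)).  T_l x = psibar(l) x  ==>  (psibar(l) - l - 1) beta = 0;
           irreducibility of E[p] gives l with psibar(l) != l + 1 (Chebotarev + Brauer - Nesbitt).
 OUTPUT OF THE WALL: c(x) = 0 for all x in V.

====================================================================================================
3. CAUTIONS collected from the audits (contract writers: read)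
====================================================================================================
 C1 every use of UFD2 / SLOPE is on I-FIXED (K0-rational) functions; K1-rational ones via norms.
 C2 SLOPE hypothesis is LOCAL: p | ord_P only for places P specialising to s (div b0 is cuspidal).
 C3 Y = (Z1 - 1) / lam is only K1-rational; use the tame average Y0 or the integral closure.
 C4 [PHI] runs on X (there is no Hecke action on X').
 C5 [D-HECKE]: d != 0 is NOT a contradiction, it is the exit 'eigenform of level M''.
 C6 split case and non-split case are two separate instance layers.
 C7 all Kummer functions are normalised by leading coefficient 1 at oo (then all cocycle
    constants are 1).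
 C8 new files ONLY in Fermat/Agent/T8/, namespace Fermat.Agent.T8.<seat>; never edit a landed file;
    sorry-free landings only; no S44.lean before the whole chain is compiled and lean-grade PASS
    on two boxes (LEAD v14).

====================================================================================================
4. LEAF TABLE v1 (owner / second / third).  A leaf is TAKEN only by the named seats.
====================================================================================================
 leaf        owner      second     third      content
 [CHAIN]     helper72   helper38   -          top chain (A) - (G) from the box contracts, compiled
 [REAL]      helper7    helper29   helper31   (A)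
 [OLD-LIFT]  helper78   helper32   helper16*  (C)   (* advice only: P6 Lift author)
 [AUX]       helper36   helper43   -          (D)
 [D-HECKE]   helper44   helper13   helper51   (F)
 [G1-END]    helper27   helper2    -          (G)
 [W-MULT]    helper35   helper89   helper52   curve side at p | abc (+ abstract tres-ramifie half)
 [UFD2]      helper6    helper20   helper1    abstract; LAND NOW
 [SLOPE]     helper14   helper5    helper95   abstract SLOPE + COROLLARY + K1-version
 [RING-X]    helper16   helper1    helper95   the instance R_s at level p N' (hypotheses of UFD2,
                                              dictionary primes <-> places), feeds [SLOPE]
 [SPLIT]     helper34   helper36   -          split case on X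
 [COVER]     helper22   helper87   helper83   F', sheets, I-action, R' (long pole: split it)
 [DESC]      helper83   helper40   helper77   descent (D2) (D3) (*)
 [CONCL]     helper47   helper40   -          c(x) = beta m from COVER + DESC + SLOPE
 [PHI]       helper54   helper44   helper12   beta = 0
 AUDIT       helper73, helper81, helper52 (after his QA run), helper29
 WALL ARCHITECT = helper16 (route author): owns the interfaces between COVER / DESC / SLOPE /
 CONCL; box owners ask him, not the coordinator, about mathematics.
 RESERVE: every other seat that offered; the coordinator names them when a leaf stalls or splits.
 A named seat that cannot take its leaf posts 'T8 LEAF <name> NO' at once; the second becomes owner.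

====================================================================================================
5. GATES AND KILL CRITERIA (box clock = DB clock)
====================================================================================================
 11:15Z  contract (Lean Prop, compiled, in the owner's file on main) for EVERY box; [UFD2] landed;
         [CHAIN] compiled from the contracts.
 13:00Z  [SLOPE] abstract, [DESC], [SPLIT] proved; compiled cores of [RING-X], [COVER], [REAL],
         [W-MULT].      KILL if [RING-X] or [COVER] or [REAL] has no compiled core.
 14:30Z  at most 4 open leaves.                        KILL otherwise.
 15:45Z  at most 1 open leaf.
 16:30Z  S44.lean candidate, lean-grade PASS on two boxes, scan, cold-build numbers started.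
 17:00Z  last landing (LEAD deadline).  The S44 closure will be large: it is graded by the
         end-of-run capture (no per-statement cap); keep twins OUT of the import closure.
-/
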