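import Mathlib

/-!
# T8 / S44, box [REAL-OCC], sub-lemma (d) (helper10): the finite-length lemma

Mathlib only.  `R` a commutative ring, `I` an ideal.

* `exists_ne_zero_killed` : a FINITE `R`-module `V` with `I V ≠ V` contains a nonzero element
  killed by `I`.
* `nakayama_faithful` : a finitely generated faithful `R`-module `X` and `I ≠ ⊤` : `I X ≠ X`.
* `nsmulSub R X p` : the submodule `p X`; `finite_quot_nsmulSub` : `X / p X` is finite for a
  finitely generated abelian group `X` and `0 < p`.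
* `exists_notMem_killed_mod` : if `X / p X` is finite, `p ∈ I` and `I X ≠ X`, there is `x ∉ p X`
  with `I x ⊆ p X`.
* `exists_eigen_mod` : the combination for a finitely generated faithful module.
-/

set_option autoImplicit false
set_option linter.unusedSectionVars false
set_option linter.style.longLine false
set_option linter.unusedVariables false
set_option linter.style.haveILetI false

noncomputable section

namespace Fermat.Agent.T8.helper10

variable {R : Type*} [CommRing R]

/-- the powers of an ideal times a submodule -/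
theorem pow_succ_smul_top_fl {V : Type*} [AddCommGroup V] [Module R V] (I : Ideal R) (k : ℕ) :
    I ^ (k + 1) • (⊤ : Submodule R V) = I • (I ^ k • (⊤ : Submodule R V)) := by
  rw [pow_succ', Submodule.mul_smul]

/-- **finite-length lemma**: a finite module `V` with `I V ≠ V` contains a nonzero element killed
by `I`. -/
theorem exists_ne_zero_killed {V : Type*} [AddCommGroup V] [Module R V] [Finite V]
    (I : Ideal R) (h : I • (⊤ : Submodule R V) ≠ ⊤) :
    ∃ v : V, v ≠ 0 ∧ ∀ a ∈ I, a • v = 0 := by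
  classical
  -- the chain `I ^ k V` stabilises
  have hanti : ∀ k : ℕ, I ^ (k + 1) • (⊤ : Submodule R V) ≤ I ^ k • (⊤ : Submodule R V) := by
    intro k
    rw [pow_succ_smul_top_fl]
    exact Submodule.smul_le_right
  let f : ℕ →o (Submodule R V)ᵒᵈ :=
    ⟨fun k => OrderDual.toDual (I ^ k • (⊤ : Submodule R V)),
      monotone_nat_of_le_succ fun k => hanti k⟩
  obtain ⟨k, hk⟩ := WellFoundedGT.monotone_chain_condition f
  have hstab : I ^ k • (⊤ : Submodule R V) = I ^ (k + 1) • (⊤ : Submodule R V) := by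
    have := hk (k + 1) (Nat.le_succ k)
    exact congrArg OrderDual.ofDual this
  -- Nakayama on the stable part
  have hfg : (I ^ k • (⊤ : Submodule R V)).FG := IsNoetherian.noetherian _
  have hle : I ^ k • (⊤ : Submodule R V) ≤ I • (I ^ k • (⊤ : Submodule R V)) := by
    rw [← pow_succ_smul_top_fl, ← hstab]
  obtain ⟨r, hr1, hr2⟩ :=
    Submodule.exists_sub_one_mem_and_smul_eq_zero_of_fg_of_le_smul I _ hfg hle
  -- `r V ≠ 0`
  have hex : ∃ v : V, r • v ≠ 0 := by
    by_contra hcon
    push Not at hcon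
    apply h
    rw [eq_top_iff]
    intro v _
    have hv : v = -((r - 1) • v) := by
      rw [sub_smul, one_smul, hcon v, zero_sub, neg_neg]
    rw [hv]
    exact Submodule.neg_mem _ (Submodule.smul_mem_smul hr1 Submodule.mem_top)
  obtain ⟨v, hv⟩ := hex
  set u : V := r • v with hu
  -- `I ^ k u = 0`
  have hQk : ∀ a ∈ I ^ k, a • u = 0 := by
    intro a ha
    rw [hu, smul_comm]
    exact hr2 _ (Submodule.smul_mem_smul ha Submodule.mem_top)
  -- the least `j` with `I ^ j u = 0`
  have hexj : ∃ j : ℕ, ∀ a ∈ I ^ j, a • u = 0 := ⟨k, hQk⟩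
  set j := Nat.find hexj with hj
  have hjspec : ∀ a ∈ I ^ j, a • u = 0 := Nat.find_spec hexj
  have hj0 : j ≠ 0 := by
    intro h0
    apply hv
    have h1 : (1 : R) ∈ I ^ j := by
      rw [h0, pow_zero, Ideal.one_eq_top]
      trivial
    have := hjspec 1 h1
    rwa [one_smul] at this
  obtain ⟨i, hi⟩ : ∃ i, j = i + 1 := Nat.exists_eq_succ_of_ne_zero hj0
  have hnot : ¬ ∀ a ∈ I ^ i, a • u = 0 := Nat.find_min hexj (by rw [← hj, hi]; exact Nat.lt_succ_self i)
  push Not at hnot
  obtain ⟨a, ha, hau⟩ := hnot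
  refine ⟨a • u, hau, fun b hb => ?_⟩
  rw [smul_smul]
  apply hjspec
  rw [hi, pow_succ']
  exact Ideal.mul_mem_mul hb ha

/-- **Nakayama for a faithful module**. -/
theorem nakayama_faithful {X : Type*} [AddCommGroup X] [Module R X] [Module.Finite R X]
    (hfaith : ∀ r : R, (∀ x : X, r • x = 0) → r = 0) (I : Ideal R) (hI : I ≠ ⊤) :
    I • (⊤ : Submodule R X) ≠ ⊤ := by
  intro h
  obtain ⟨r, hr1, hr2⟩ :=
    Submodule.exists_sub_one_mem_and_smul_eq_zero_of_fg_of_le_smul I (⊤ : Submodule R X)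
      Module.Finite.fg_top (by rw [h])
  have hr0 : r = 0 := hfaith r (fun x => hr2 x Submodule.mem_top)
  rw [hr0, zero_sub] at hr1
  apply hI
  rw [Ideal.eq_top_iff_one]
  have := I.neg_mem hr1
  rwa [neg_neg] at this

/-- the submodule `p X` -/
def nsmulSub (R : Type*) [CommRing R] (X : Type*) [AddCommGroup X] [Module R X] (p : ℕ) :
    Submodule R X where
  carrier := {x | ∃ y : X, x = p • y}
  zero_mem' := ⟨0, (smul_zero _).symm⟩
  add_mem' := by
    rintro _ _ ⟨y, rfl⟩ ⟨z, rfl⟩
    exact ⟨y + z, (smul_add _ _ _).symm⟩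
  smul_mem' := by
    rintro a _ ⟨y, rfl⟩
    exact ⟨a • y, smul_comm a p y⟩

theorem mem_nsmulSub {X : Type*} [AddCommGroup X] [Module R X] {p : ℕ} {x : X} :
    x ∈ nsmulSub R X p ↔ ∃ y : X, x = p • y := Iff.rfl

/-- `X / p X` is finite for a finitely generated abelian group `X` and `0 < p` -/
theorem finite_quot_nsmulSub {X : Type*} [AddCommGroup X] [Module R X] [Module.Finite ℤ X]
    {p : ℕ} (hp : 0 < p) : Finite (X ⧸ nsmulSub R X p) := by
  haveI : AddGroup.FG X := by
    rw [← Module.Finite.iff_addGroup_fg]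
    infer_instance
  haveI : AddGroup.FG (X ⧸ nsmulSub R X p) := by
    refine AddGroup.fg_of_surjective (f := ((nsmulSub R X p).mkQ : X →ₗ[R] _).toAddMonoidHom) ?_
    exact Submodule.mkQ_surjective _
  apply AddCommGroup.finite_of_fg_isAddTorsion
  intro x
  obtain ⟨y, rfl⟩ := Submodule.mkQ_surjective _ x
  rw [isOfFinAddOrder_iff_nsmul_eq_zero]
  refine ⟨p, hp, ?_⟩
  rw [← map_nsmul]
  exact (Submodule.Quotient.mk_eq_zero _).mpr ⟨y, rfl⟩

/-- **finite-length lemma, lattice form**: if `X / p X` is finite, `p ∈ I` and `I X ≠ X`, there is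
`x ∉ p X` with `I x ⊆ p X`. -/
theorem exists_notMem_killed_mod {X : Type*} [AddCommGroup X] [Module R X] (p : ℕ)
    [Finite (X ⧸ nsmulSub R X p)] (I : Ideal R) (hpI : (p : R) ∈ I)
    (h : I • (⊤ : Submodule R X) ≠ ⊤) :
    ∃ x : X, (¬ ∃ y : X, x = p • y) ∧ ∀ a ∈ I, ∃ y : X, a • x = p • y := by
  have hV : I • (⊤ : Submodule R (X ⧸ nsmulSub R X p)) ≠ ⊤ := by
    intro hcon
    apply h
    rw [eq_top_iff]
    intro x _
    have hx : (nsmulSub R X p).mkQ x ∈ I • (⊤ : Submodule R (X ⧸ nsmulSub R X p)) := by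
      rw [hcon]; exact Submodule.mem_top
    have hmap : I • (⊤ : Submodule R (X ⧸ nsmulSub R X p)) =
        Submodule.map (nsmulSub R X p).mkQ (I • (⊤ : Submodule R X)) := by
      rw [Submodule.map_smul'', Submodule.map_top, Submodule.range_mkQ]
    rw [hmap] at hx
    obtain ⟨z, hz, hzx⟩ := hx
    have hd : x - z ∈ nsmulSub R X p := by
      rw [← Submodule.Quotient.mk_eq_zero, Submodule.Quotient.mk_sub]
      exact sub_eq_zero.mpr hzx.symm
    obtain ⟨y, hy⟩ := hd
    have hxz : x = z + (p : R) • y := by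
      rw [Nat.cast_smul_eq_nsmul, ← hy]; abel
    rw [hxz]
    exact Submodule.add_mem _ hz (Submodule.smul_mem_smul hpI Submodule.mem_top)
  obtain ⟨v, hv0, hv⟩ := exists_ne_zero_killed I hV
  obtain ⟨x, rfl⟩ := Submodule.mkQ_surjective _ v
  refine ⟨x, fun hx => hv0 ((Submodule.Quotient.mk_eq_zero _).mpr hx), fun a ha => ?_⟩
  have := hv a ha
  rw [← map_smul] at this
  exact (Submodule.Quotient.mk_eq_zero _).mp this

/-- **the eigenvector modulo `p`**: `X` a faithful `R`-module, finitely generated as an abelian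
group, `I ≠ ⊤` an ideal containing `p > 0`: there is `x ∉ p X` with `I x ⊆ p X`. -/
theorem exists_eigen_mod {X : Type*} [AddCommGroup X] [Module R X] [Module.Finite ℤ X]
    (hfaith : ∀ r : R, (∀ x : X, r • x = 0) → r = 0) {p : ℕ} (hp : 0 < p)
    (I : Ideal R) (hI : I ≠ ⊤) (hpI : (p : R) ∈ I) :
    ∃ x : X, (¬ ∃ y : X, x = p • y) ∧ ∀ a ∈ I, ∃ y : X, a • x = p • y := by
  haveI : Module.Finite R X := by
    obtain ⟨s, hs⟩ := (Module.Finite.fg_top : (⊤ : Submodule ℤ X).FG)
    refine ⟨⟨s, ?_⟩⟩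
    rw [eq_top_iff]
    intro x _
    have hx : x ∈ Submodule.span ℤ (s : Set X) := by rw [hs]; exact Submodule.mem_top
    exact Submodule.span_le_restrictScalars ℤ R (s : Set X) hx
  haveI := finite_quot_nsmulSub (R := R) (X := X) hp
  exact exists_notMem_killed_mod p I hpI (nakayama_faithful hfaith I hI)

end Fermat.Agent.T8.helper10

end
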