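import Mathlib
import Fermat.Agent.S13.helper64_Ladder
import Fermat.Agent.S13.helper64_LadderDeg

/-!
# T8 (helper60): the Montgomery ladder at a node

For a Weierstrass curve `W` over a commutative ring `R` and `π : R` dividing `b₄`, `b₆`, `b₈`
(the reduction of `W` modulo `π` has a singular point with `x = 0`), the torsion polynomial of
`S13.helper64` satisfies `π ∣ (torsPoly W n).eval 0` for every `n ≥ 1`: modulo `π` the ladder at
`x = 0` degenerates (`state₁ = (0, 1, 0, 0)`, and `X = X' = Z' = 0` from then on).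

* `lad_node`              : the degenerate ladder;
* `dvd_eval_zero_torsPoly`: `π ∣ (torsPoly W n).eval 0`;
* `dvd_coeff_zero_torsPoly`: the same for the constant coefficient.
-/

set_option autoImplicit false

namespace Fermat.Agent.T8.helper60

open Polynomial WeierstrassCurve
open Fermat.Agent.S13.helper64

section ladder

variable {A : Type*} [CommRing A]

/-- the ladder at `x = 0` for `b₄ = b₆ = b₈ = 0`: for `n ≥ 1` the entries `X`, `X'`, `Z'`
vanish. -/
theorem lad_node (b₂ : A) (n : ℕ) (hn : 1 ≤ n) :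
    (lad b₂ 0 0 0 0 n).X = 0 ∧ (lad b₂ 0 0 0 0 n).X' = 0 ∧ (lad b₂ 0 0 0 0 n).Z' = 0 := by
  have key := lad_induction b₂ (0 : A) 0 0 0
    (motive := fun n s => (n = 0 ∧ s = ⟨1, 0, 0, 1⟩) ∨ (s.X = 0 ∧ s.X' = 0 ∧ s.Z' = 0))
    (Or.inl ⟨rfl, rfl⟩) ?_ ?_ n
  · rcases key with ⟨h0, -⟩ | h
    · omega
    · exact h
  · rintro m s (⟨rfl, rfl⟩ | ⟨h1, h2, h3⟩)
    · left
      refine ⟨rfl, ?_⟩
      exact evenStep_init b₂ 0 0 0 0
    · right
      refine ⟨?_, ?_, ?_⟩
      · simp [evenStep, dblX, h1]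
      · simp [evenStep, oddX, sumNum, oddT, h1, h2, h3]
      · simp [evenStep, oddZ, oddT, h1, h2, h3]
  · rintro m s (⟨rfl, rfl⟩ | ⟨h1, h2, h3⟩)
    · right
      refine ⟨?_, ?_, ?_⟩
      · simp [oddStep, oddX, sumNum, oddT]
      · simp [oddStep, dblX]
      · simp [oddStep, dblZ]
    · right
      refine ⟨?_, ?_, ?_⟩
      · simp [oddStep, oddX, sumNum, oddT, h1, h2, h3]
      · simp [oddStep, dblX, h2, h3]
      · simp [oddStep, dblZ, h2, h3]

end ladder

section poly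

variable {R : Type*} [CommRing R]

/-- the torsion polynomial vanishes at the node modulo `π` -/
theorem dvd_eval_zero_torsPoly (W : WeierstrassCurve R) (π : R) (h4 : π ∣ W.b₄)
    (h6 : π ∣ W.b₆) (h8 : π ∣ W.b₈) (n : ℕ) (hn : 1 ≤ n) :
    π ∣ (torsPoly W n).eval 0 := by
  set φ : R →+* R ⧸ Ideal.span {π} := Ideal.Quotient.mk (Ideal.span {π}) with hφ
  have hz : ∀ {r : R}, π ∣ r → φ r = 0 := by
    intro r hr
    rw [hφ, Ideal.Quotient.eq_zero_iff_mem, Ideal.mem_span_singleton]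
    exact hr
  rw [← Ideal.mem_span_singleton, ← Ideal.Quotient.eq_zero_iff_mem]
  show φ ((torsPoly W n).eval 0) = 0
  have h1 : φ ((torsPoly W n).eval 0) = ((torsPoly W n).map φ).eval (φ 0) :=
    (Polynomial.eval_map_apply φ 0).symm
  rw [h1, map_zero, torsPoly_map, torsPoly_eval, WeierstrassCurve.map_b₂,
    WeierstrassCurve.map_b₄, WeierstrassCurve.map_b₆, WeierstrassCurve.map_b₈, hz h4, hz h6,
    hz h8]
  obtain ⟨e1, e2, e3⟩ := lad_node (φ W.b₂) n hn
  rw [oddT, e1, e2, e3, zero_mul, zero_mul, sub_zero]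

theorem dvd_coeff_zero_torsPoly (W : WeierstrassCurve R) (π : R) (h4 : π ∣ W.b₄)
    (h6 : π ∣ W.b₆) (h8 : π ∣ W.b₈) (n : ℕ) (hn : 1 ≤ n) :
    π ∣ (torsPoly W n).coeff 0 := by
  rw [Polynomial.coeff_zero_eq_eval_zero]
  exact dvd_eval_zero_torsPoly W π h4 h6 h8 n hn

end poly

end Fermat.Agent.T8.helper60
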