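import Mathlib
import Fermat.Agent.S13.helper60_AtP
import Fermat.Agent.S13.helper72_EisensteinEC
import Fermat.Agent.T8.helper60_NodeLadder

/-!
# T8 (helper60): the kernel of reduction of the Frey curve at `p ∣ abc` is a proper subgroup

For a Frey package `P`, a valuation subring `A` of `Qbar` over `P.p` and
`hdiv : (P.p : ℤ) ∣ P.a * P.b * P.c` (multiplicative reduction at `p`):

* `frey_exists_torsion_x_mem` : there is a nonzero `p`-torsion point of the Frey curve with
  `x ∈ A` (a point outside the kernel of reduction);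
* `frey_kerSubmodule_ne_top`  : `S13.helper60.kerSubmodule P P.pp _ A hA ≠ ⊤`;
* `frey_scalar_eq_one`        : if `σ` in the inertia subgroup of `A` acts on `E[p]` as the
  scalar `k : ZMod p`, then `k = 1`.

Method: the torsion polynomial of `S13.helper64` (roots = `x`-coordinates of the nonzero
`(2n+1)`-torsion points, leading coefficient `-(2n+1)`) has constant coefficient divisible by `p`
in `A` when the node of the reduction sits at `x = 0` (`helper60_NodeLadder`), so the product of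
its roots lies in `A`, and not all roots are outside `A`.
-/

set_option autoImplicit false
set_option linter.unusedSectionVars false
set_option linter.unusedVariables false

namespace Fermat.Agent.T8.helper60

open Polynomial WeierstrassCurve WeierstrassCurve.Affine
open Fermat.Agent.S13.helper64

section roots

variable {K : Type*} [Field K]

/-- a nonempty product of elements of valuation `> 1` has valuation `> 1` -/
theorem one_lt_valuation_prod (A : ValuationSubring K) (s : Multiset K)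
    (hs : ∀ a ∈ s, 1 < A.valuation a) (h0 : s ≠ 0) : 1 < A.valuation s.prod := by
  induction s using Multiset.induction_on with
  | empty => exact absurd rfl h0
  | cons a s ih =>
    rw [Multiset.prod_cons, map_mul]
    have ha := hs a (Multiset.mem_cons_self a s)
    by_cases hs0 : s = 0
    · subst hs0
      simpa using ha
    · have hb := ih (fun b hb => hs b (Multiset.mem_cons_of_mem hb)) hs0
      calc (1 : A.ValueGroup) < A.valuation a := ha
        _ = A.valuation a * 1 := (mul_one _).symm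
        _ ≤ A.valuation a * A.valuation s.prod := mul_le_mul' le_rfl hb.le

/-- **Root product**: over an algebraically closed field, a polynomial of positive degree whose
constant coefficient is an `A`-multiple of its leading coefficient has a root in `A`. -/
theorem exists_root_mem [IsAlgClosed K] (A : ValuationSubring K) (f : K[X])
    (hdeg : 0 < f.natDegree) (c : K) (hc : c ∈ A) (h0 : f.coeff 0 = f.leadingCoeff * c) :
    ∃ ξ, f.IsRoot ξ ∧ ξ ∈ A := by
  by_contra hcon0
  have hcon : ∀ ξ, f.IsRoot ξ → ξ ∉ A := fun ξ h hA => hcon0 ⟨ξ, h, hA⟩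
  have hf0 : f ≠ 0 := by
    rintro rfl
    simp at hdeg
  have hsplit := IsAlgClosed.splits f
  have hcard := hsplit.natDegree_eq_card_roots
  have hne : f.roots ≠ 0 := by
    intro h
    rw [h, Multiset.card_zero] at hcard
    omega
  have hall : ∀ a ∈ f.roots, 1 < A.valuation a := by
    intro a ha
    have hr : f.IsRoot a := (Polynomial.mem_roots hf0).mp ha
    have := hcon a hr
    rw [← A.valuation_le_one_iff, not_le] at this
    exact this
  have hprod := one_lt_valuation_prod A f.roots hall hne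
  have hlc : f.leadingCoeff ≠ 0 := leadingCoeff_ne_zero.mpr hf0
  have h1 := hsplit.coeff_zero_eq_leadingCoeff_mul_prod_roots
  have h2 : c = (-1) ^ f.natDegree * f.roots.prod := by
    apply mul_left_cancel₀ hlc
    rw [← h0, h1]
    ring
  have h3 : A.valuation c = A.valuation f.roots.prod := by
    rw [h2, map_mul, map_pow, Valuation.map_neg, map_one, one_pow, one_mul]
  have h4 : A.valuation c ≤ 1 := (A.valuation_le_one_iff c).mpr hc
  rw [h3] at h4
  exact absurd hprod (not_lt.mpr h4)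

end roots

section node

variable {K : Type*} [Field K] [CharZero K]

lemma natDegree_torsPoly_eq (W : WeierstrassCurve K) (n : ℕ) :
    (torsPoly W n).natDegree = 2 * n * (n + 1) := by
  refine le_antisymm (natDegree_torsPoly_le W n) (le_natDegree_of_ne_zero ?_)
  rw [coeff_torsPoly_top]
  intro h
  have h1 : ((2 * n + 1 : ℕ) : K) = 0 := by
    push_cast
    linear_combination -h
  exact absurd h1 (Nat.cast_ne_zero.mpr (by omega))

lemma leadingCoeff_torsPoly_eq (W : WeierstrassCurve K) (n : ℕ) :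
    (torsPoly W n).leadingCoeff = -((2 * n + 1 : ℕ) : K) := by
  rw [leadingCoeff, natDegree_torsPoly_eq W n, coeff_torsPoly_top]
  push_cast
  ring

/-- **A root of the torsion polynomial in `A`**, for a Weierstrass curve with coefficients in `A`
whose reduction modulo `2n+1` has a singular point at `x = 0`. -/
theorem exists_root_torsPoly_mem [IsAlgClosed K] (A : ValuationSubring K)
    (W : WeierstrassCurve K)
    (h₁ : W.a₁ ∈ A) (h₂ : W.a₂ ∈ A) (h₃ : W.a₃ ∈ A) (h₄ : W.a₄ ∈ A) (h₆ : W.a₆ ∈ A)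
    (n : ℕ) (hn : 1 ≤ n) (c₄ c₆ c₈ : K) (hc₄ : c₄ ∈ A) (hc₆ : c₆ ∈ A) (hc₈ : c₈ ∈ A)
    (e₄ : W.b₄ = ((2 * n + 1 : ℕ) : K) * c₄) (e₆ : W.b₆ = ((2 * n + 1 : ℕ) : K) * c₆)
    (e₈ : W.b₈ = ((2 * n + 1 : ℕ) : K) * c₈) :
    ∃ ξ, (torsPoly W n).eval ξ = 0 ∧ ξ ∈ A := by
  obtain ⟨WA, hWA⟩ : ∃ WA : WeierstrassCurve A, WA.map A.subtype = W :=
    ⟨⟨⟨W.a₁, h₁⟩, ⟨W.a₂, h₂⟩, ⟨W.a₃, h₃⟩, ⟨W.a₄, h₄⟩, ⟨W.a₆, h₆⟩⟩, by ext <;> rfl⟩
  have hinj : Function.Injective A.subtype := Subtype.val_injective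
  have hπ : ∀ (b : A) (c : K), c ∈ A → A.subtype b = ((2 * n + 1 : ℕ) : K) * c →
      ((2 * n + 1 : ℕ) : A) ∣ b := by
    intro b c hc e
    refine ⟨⟨c, hc⟩, ?_⟩
    apply hinj
    rw [map_mul, map_natCast]
    exact e
  have d4 : ((2 * n + 1 : ℕ) : A) ∣ WA.b₄ :=
    hπ _ c₄ hc₄ (by rw [← e₄, ← hWA, WeierstrassCurve.map_b₄])
  have d6 : ((2 * n + 1 : ℕ) : A) ∣ WA.b₆ :=
    hπ _ c₆ hc₆ (by rw [← e₆, ← hWA, WeierstrassCurve.map_b₆])
  have d8 : ((2 * n + 1 : ℕ) : A) ∣ WA.b₈ :=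
    hπ _ c₈ hc₈ (by rw [← e₈, ← hWA, WeierstrassCurve.map_b₈])
  obtain ⟨d, hd⟩ := dvd_coeff_zero_torsPoly WA _ d4 d6 d8 n hn
  have hf : torsPoly W n = (torsPoly WA n).map A.subtype := by
    rw [torsPoly_map, hWA]
  have hc0 : (torsPoly W n).coeff 0 = (torsPoly W n).leadingCoeff * (-(d : K)) := by
    rw [leadingCoeff_torsPoly_eq, hf, coeff_map, hd, map_mul, map_natCast]
    show ((2 * n + 1 : ℕ) : K) * (d : K) = _
    ring
  have hpos : 0 < (torsPoly W n).natDegree := by
    rw [natDegree_torsPoly_eq]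
    positivity
  obtain ⟨ξ, hξ, hξA⟩ := exists_root_mem A (torsPoly W n) hpos (-(d : K)) (neg_mem d.2) hc0
  exact ⟨ξ, hξ, hξA⟩

/-- the same for a curve `y² = x³ + a₂ x² + a₄ x` with `a₂ ∈ A` and `a₄ ∈ (2n+1) A` -/
theorem exists_root_torsPoly_mem_twoNF [IsAlgClosed K] (A : ValuationSubring K)
    (W : WeierstrassCurve K) (ha₁ : W.a₁ = 0) (ha₃ : W.a₃ = 0) (ha₆ : W.a₆ = 0)
    (h₂ : W.a₂ ∈ A) (n : ℕ) (hn : 1 ≤ n) (c : K) (hc : c ∈ A)
    (e : W.a₄ = ((2 * n + 1 : ℕ) : K) * c) :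
    ∃ ξ, (torsPoly W n).eval ξ = 0 ∧ ξ ∈ A := by
  have hN : ((2 * n + 1 : ℕ) : K) ∈ A := natCast_mem A _
  have h₄ : W.a₄ ∈ A := by
    rw [e]
    exact mul_mem hN hc
  refine exists_root_torsPoly_mem A W (by rw [ha₁]; exact zero_mem A) h₂
    (by rw [ha₃]; exact zero_mem A) h₄ (by rw [ha₆]; exact zero_mem A) n hn
    (2 * c) 0 (-(c * W.a₄)) (mul_mem (ofNat_mem A 2) hc) (zero_mem A)
    (neg_mem (mul_mem hc h₄)) ?_ ?_ ?_
  · rw [WeierstrassCurve.b₄, ha₁, e]
    ring
  · rw [WeierstrassCurve.b₆, ha₃, ha₆]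
    ring
  · rw [WeierstrassCurve.b₈, ha₁, ha₃, ha₆]
    rw [e]
    ring

lemma Δ_of_twoNF (W : WeierstrassCurve K) (ha₁ : W.a₁ = 0) (ha₃ : W.a₃ = 0) (ha₆ : W.a₆ = 0) :
    W.Δ = 16 * W.a₄ ^ 2 * (W.a₂ ^ 2 - 4 * W.a₄) := by
  rw [WeierstrassCurve.Δ, WeierstrassCurve.b₂, WeierstrassCurve.b₄, WeierstrassCurve.b₆,
    WeierstrassCurve.b₈, ha₁, ha₃, ha₆]
  ring

end node

section Frey

open Fermat.Agent.S05 Fermat.Agent.S05.helper92

variable {K : Type*} [Field K] [DecidableEq K] [Algebra ℚ K] [CharZero K] [IsAlgClosed K]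

omit [DecidableEq K] [Algebra ℚ K] [CharZero K] [IsAlgClosed K] in
/-- the `p`-th power of an integer divisible by `p` is `p` times an element of `A` -/
lemma intCast_pow_eq_mul (P : FreyPackage) (A : ValuationSubring K) {k : ℤ}
    (hk : (P.p : ℤ) ∣ k) :
    ∃ c : K, c ∈ A ∧ ((k : ℤ) : K) ^ P.p = ((P.p : ℕ) : K) * c := by
  obtain ⟨m, rfl⟩ := hk
  refine ⟨(((P.p : ℤ) ^ (P.p - 1) * m ^ P.p : ℤ) : K), intCast_mem A _, ?_⟩
  have h1 : ((P.p : ℕ) : K) ^ P.p = ((P.p : ℕ) : K) ^ (P.p - 1) * ((P.p : ℕ) : K) := by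
    rw [← pow_succ, Nat.sub_add_cancel P.hppos]
  push_cast
  rw [mul_pow, h1]
  ring

omit [DecidableEq K] [IsAlgClosed K] in
lemma freyK_Δ_ne_zero (P : FreyPackage) : (freyK P K).Δ ≠ 0 := by
  intro h0
  have h := freyK_Δ P (K := K)
  rw [h0, mul_zero] at h
  exact pow_ne_zero 2
    (mul_ne_zero (mul_ne_zero (fA_ne_zero P) (fB_ne_zero P)) (fC_ne_zero P)) h.symm

/-- The general step: once the Frey curve is transported to a short model with coefficients in
`A` whose reduction has its node at `x = 0`, there is a nonzero `p`-torsion point with integral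
`x`-coordinate. -/
theorem exists_torsion_of_shift (P : FreyPackage) (A : ValuationSubring K)
    {W₀' : Affine ℚ} {e : K} (h : IsShift (freyK P K) (W₀'⁄K) e) (heA : e ∈ A)
    (ha : (W₀'⁄K).a₂ ∈ A) (c : K) (hc : c ∈ A) (hb : (W₀'⁄K).a₄ = ((P.p : ℕ) : K) * c)
    (hΔ' : (W₀'⁄K).Δ ≠ 0) :
    ∃ (x y : K) (hxy : (freyK P K).Nonsingular x y),
      (P.p : ℤ) • (Point.some x y hxy : (freyK P K).Point) = 0 ∧ x ∈ A := by
  obtain ⟨n, hn⟩ : ∃ n, P.p = 2 * n + 1 := P.hp_odd
  have hn1 : 1 ≤ n := by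
    have := P.hp5
    omega
  have hb' : (W₀'⁄K).a₄ = ((2 * n + 1 : ℕ) : K) * c := by
    rw [← hn]
    exact hb
  obtain ⟨ξ, hξ, hξA⟩ := exists_root_torsPoly_mem_twoNF A (W₀'⁄K) h.nf.a₁ h.nf.a₃ h.nf.a₆ ha
    n hn1 c hc hb'
  have hΔ : (freyK P K).Δ ≠ 0 := freyK_Δ_ne_zero P
  obtain ⟨y, hy⟩ := Fermat.Agent.S13.helper72.exists_equation (freyK P K) (ξ + e)
  have hns : (freyK P K).Nonsingular (ξ + e) y :=
    (equation_iff_nonsingular_of_Δ_ne_zero hΔ).mp hy
  refine ⟨ξ + e, y, hns, ?_, add_mem hξA heA⟩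
  have h1 : (2 * n + 1) • h.hom (Point.some (ξ + e) y hns) = 0 := by
    rw [IsShift.hom_some]
    rw [nsmul_eq_zero_iff_eval_torsPoly (W₀'⁄K) hΔ' n, add_sub_cancel_right]
    exact hξ
  have h2 : (2 * n + 1) • (Point.some (ξ + e) y hns : (freyK P K).Point) = 0 := by
    apply h.hom_injective
    rw [map_nsmul, h1, map_zero]
  have h3 : ((P.p : ℕ) : ℤ) • (Point.some (ξ + e) y hns : (freyK P K).Point) =
      (2 * n + 1) • (Point.some (ξ + e) y hns : (freyK P K).Point) := by
    rw [natCast_zsmul, hn]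
  rw [h3]
  exact h2

/-- **A `p`-torsion point outside the kernel of reduction** (general algebraically closed `K`):
if `p ∣ abc`, some nonzero `p`-torsion point of the Frey curve has `x ∈ A`, for every valuation
subring `A` over `p`. -/
theorem frey_exists_torsion_x_mem_gen (P : FreyPackage) (A : ValuationSubring K)
    (hA : A.LiesOverPrime P.p) (hdiv : (P.p : ℤ) ∣ P.a * P.b * P.c) :
    ∃ (x y : K) (hxy : (freyK P K).Nonsingular x y),
      (P.p : ℤ) • (Point.some x y hxy : (freyK P K).Point) = 0 ∧ x ∈ A := by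
  have hq := P.pp
  have hq2 := Fermat.Agent.S13.helper60.frey_p_ne_two P
  have hpr : Prime (P.p : ℤ) := Nat.prime_iff_prime_int.1 hq
  have h4 := inv_four_mem (K := K) hq hA hq2
  have h16 := inv_sixteen_mem (K := K) hq hA hq2
  have hA0 := fA_ne_zero P (K := K)
  have hB0 := fB_ne_zero P (K := K)
  have hC0 := fC_ne_zero P (K := K)
  have hcc := fA_add_fB P K
  by_cases hc : (P.p : ℤ) ∣ P.c
  · obtain ⟨c, hcA, hce⟩ := intCast_pow_eq_mul (K := K) P A hc
    have hce' : fC P K = ((P.p : ℕ) : K) * c := hce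
    refine exists_torsion_of_shift P A (isShift_c P K) (div_mem_of_mem (fA_mem P) h4) ?_
      (fA P K * c / 16) (div_mem_of_mem (mul_mem (fA_mem P) hcA) h16) ?_ ?_
    · rw [shortC_a₂]
      exact div_mem_of_mem (add_mem (fA_mem P) (fC_mem P)) h4
    · rw [shortC_a₄, hce']
      ring
    · rw [Δ_of_twoNF _ (shortC_nf P K).a₁ (shortC_nf P K).a₃ (shortC_nf P K).a₆, shortC_a₂,
        shortC_a₄]
      have e1 : 16 * (fA P K * fC P K / 16) ^ 2 *
          (((fA P K + fC P K) / 4) ^ 2 - 4 * (fA P K * fC P K / 16)) =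
          (fA P K * fB P K * fC P K) ^ 2 / 256 := by
        rw [← hcc]
        ring
      rw [e1]
      exact div_ne_zero (pow_ne_zero 2 (mul_ne_zero (mul_ne_zero hA0 hB0) hC0)) (by norm_num)
  · have hab : (P.p : ℤ) ∣ P.a * P.b := by
      rcases hpr.dvd_mul.mp hdiv with h | h
      · exact h
      · exact absurd h hc
    have hΔ' : ((shortAB P : Affine ℚ)⁄K).Δ ≠ 0 := by
      rw [Δ_of_twoNF _ (shortAB_nf P K).a₁ (shortAB_nf P K).a₃ (shortAB_nf P K).a₆, shortAB_a₂,
        shortAB_a₄]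
      have e1 : 16 * (-(fA P K * fB P K) / 16) ^ 2 *
          (((fB P K - fA P K) / 4) ^ 2 - 4 * (-(fA P K * fB P K) / 16)) =
          (fA P K * fB P K * fC P K) ^ 2 / 256 := by
        rw [← hcc]
        ring
      rw [e1]
      exact div_ne_zero (pow_ne_zero 2 (mul_ne_zero (mul_ne_zero hA0 hB0) hC0)) (by norm_num)
    have ha₂ : ((shortAB P : Affine ℚ)⁄K).a₂ ∈ A := by
      rw [shortAB_a₂]
      exact div_mem_of_mem (sub_mem (fB_mem P) (fA_mem P)) h4
    rcases hpr.dvd_mul.mp hab with ha | hb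
    · obtain ⟨c, hcA, hce⟩ := intCast_pow_eq_mul (K := K) P A ha
      have hce' : fA P K = ((P.p : ℕ) : K) * c := hce
      refine exists_torsion_of_shift P A (isShift_ab P K) (zero_mem A) ha₂
        (-(c * fB P K) / 16) (div_mem_of_mem (neg_mem (mul_mem hcA (fB_mem P))) h16) ?_ hΔ'
      rw [shortAB_a₄, hce']
      ring
    · obtain ⟨c, hcA, hce⟩ := intCast_pow_eq_mul (K := K) P A hb
      have hce' : fB P K = ((P.p : ℕ) : K) * c := hce
      refine exists_torsion_of_shift P A (isShift_ab P K) (zero_mem A) ha₂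
        (-(fA P K * c) / 16) (div_mem_of_mem (neg_mem (mul_mem (fA_mem P) hcA)) h16) ?_ hΔ'
      rw [shortAB_a₄, hce']
      ring

end Frey

section Qbar

open Fermat.Agent.S05 Fermat.Agent.S05.helper92 Fermat.Agent.S13.helper60

/-- **A `p`-torsion point outside the kernel of reduction**: if `p ∣ abc`, some nonzero
`p`-torsion point of the Frey curve has `x ∈ A`, for every valuation subring `A` of `Qbar` over
`p`. -/
theorem frey_exists_torsion_x_mem (P : FreyPackage) (A : ValuationSubring (AlgebraicClosure ℚ))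
    (hA : A.LiesOverPrime P.p) (hdiv : (P.p : ℤ) ∣ P.a * P.b * P.c) :
    ∃ (x y : AlgebraicClosure ℚ)
      (h : ((P.freyCurve : Affine ℚ)⁄(AlgebraicClosure ℚ)).Nonsingular x y),
      (P.p : ℤ) • (Point.some x y h : ((P.freyCurve : Affine ℚ)⁄(AlgebraicClosure ℚ)).Point) = 0 ∧
        x ∈ A :=
  frey_exists_torsion_x_mem_gen P A hA hdiv

/-- **The kernel of reduction at `p ∣ abc` is a proper submodule of `E[p]`.** -/
theorem frey_kerSubmodule_ne_top (P : FreyPackage) (A : ValuationSubring (AlgebraicClosure ℚ))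
    (hA : A.LiesOverPrime P.p) (hdiv : (P.p : ℤ) ∣ P.a * P.b * P.c) :
    kerSubmodule P P.pp (frey_p_ne_two P) A hA ≠ ⊤ := by
  intro htop
  obtain ⟨x, y, h, ht, hx⟩ := frey_exists_torsion_x_mem P A hA hdiv
  have hmem : (⟨Point.some x y h, (Submodule.mem_torsionBy_iff _ _).mpr ht⟩ :
      Submodule.torsionBy ℤ (freyK P (AlgebraicClosure ℚ)).Point P.p) ∈
        kerSubmodule P P.pp (frey_p_ne_two P) A hA := by
    rw [htop]
    trivial
  rw [mem_kerSubmodule_iff] at hmem
  rcases hmem with h0 | ⟨a, b, h', e, ha⟩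
  · exact Point.some_ne_zero _ h0
  · have e' : Point.some x y h = Point.some a b h' := e
    rw [Point.some.injEq] at e'
    exact ha (e'.1 ▸ hx)

/-- the same, in the shape of `S13.helper60.exists_submodule_at_p`: the submodule `M` of points in
the kernel of reduction is proper, and inertia at `A` acts trivially on `E[p] / M`. -/
theorem exists_proper_submodule_at_p (P : FreyPackage)
    (A : ValuationSubring (AlgebraicClosure ℚ)) (hA : A.LiesOverPrime P.p)
    (hdiv : (P.p : ℤ) ∣ P.a * P.b * P.c) :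
    ∃ M : Submodule (ZMod P.p)
        (Submodule.torsionBy ℤ ((P.freyCurve : Affine ℚ)⁄(AlgebraicClosure ℚ)).Point P.p),
      M ≠ ⊤ ∧
      (∀ x, x ∈ M ↔ ((x : ((P.freyCurve : Affine ℚ)⁄(AlgebraicClosure ℚ)).Point) = 0 ∨
        ∃ a b, ∃ h : ((P.freyCurve : Affine ℚ)⁄(AlgebraicClosure ℚ)).Nonsingular a b,
          (x : ((P.freyCurve : Affine ℚ)⁄(AlgebraicClosure ℚ)).Point) = Point.some a b h ∧
            a ∉ A)) ∧
      ∀ σ ∈ A.inertiaSubgroupIn ℚ, ∀ x, σ • x - x ∈ M :=
  ⟨kerSubmodule P P.pp (frey_p_ne_two P) A hA, frey_kerSubmodule_ne_top P A hA hdiv,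
    fun x => mem_kerSubmodule_iff P P.pp (frey_p_ne_two P) A hA x,
    fun σ hσ x => smul_sub_mem_kerSubmodule P P.pp (frey_p_ne_two P) A hA σ hσ x⟩

/-- **Inertia at `p ∣ abc` does not act on `E[p]` by a scalar `≠ 1`**: if `σ` in the inertia
subgroup of `A` acts on the whole of `E[p]` as multiplication by `k : ZMod p`, then `k = 1`. -/
theorem frey_scalar_eq_one (P : FreyPackage) (A : ValuationSubring (AlgebraicClosure ℚ))
    (hA : A.LiesOverPrime P.p) (hdiv : (P.p : ℤ) ∣ P.a * P.b * P.c)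
    (σ : AlgebraicClosure ℚ ≃ₐ[ℚ] AlgebraicClosure ℚ) (hσ : σ ∈ A.inertiaSubgroupIn ℚ)
    (k : ZMod P.p)
    (hk : ∀ x : Submodule.torsionBy ℤ
      ((P.freyCurve : Affine ℚ)⁄(AlgebraicClosure ℚ)).Point P.p, σ • x = k • x) : k = 1 := by
  by_contra hne
  apply frey_kerSubmodule_ne_top P A hA hdiv
  rw [eq_top_iff]
  intro x _
  have h1 := smul_sub_mem_kerSubmodule P P.pp (frey_p_ne_two P) A hA σ hσ x
  rw [hk x] at h1
  have h2 : k • x - x = (k - 1) • x := by rw [sub_smul, one_smul]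
  rw [h2] at h1
  have : Fact P.p.Prime := ⟨P.pp⟩
  have hu : (k - 1) ≠ 0 := sub_ne_zero.mpr hne
  have h3 := Submodule.smul_mem (kerSubmodule P P.pp (frey_p_ne_two P) A hA) (k - 1)⁻¹ h1
  rwa [smul_smul, inv_mul_cancel₀ hu, one_smul] at h3

end Qbar

end Fermat.Agent.T8.helper60
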