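import Fermat.Agent.T8.helper72_ChainDefs
import Fermat.Agent.S37.helper16_RigFinal
import Fermat.Agent.P3.helper10_GalHecke

/-!
# T8 [REAL] (helper7, owner): contracts of the sub-boxes and the assembly

Target: `helper72.RealStatement` (contract (A) of the top chain of S44).

* `p2Core_all M p` : **[REAL-ES]** Eichler-Shimura + unramifiedness on the `p`-power torsion of
  `J₀(M)` at EVERY level `M` (no good-level hypothesis), from the reduction datum
  `S37.helper16.rho_of_rig`.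
* `eigenSub P W M` : the eigenspace `S0 = {x ∈ J₀(M) | p x = 0, T_ℓ x = a_ℓ(W) x for the good ℓ}`;
  `smul_mem_eigenSub` (Galois stable), `frob_quad_eigenSub` (Frobenius relation on `S0`).
* contracts: `OccStatement` ([REAL-OCC], `S0 ≠ 0`), `QuadStatement` ([REAL-CHEB], the quadratic
  relation of `E[p]` for every `σ` on `S0`), `EmbStatement` ([REAL-BLR] + [SURJ-E] consumer form:
  a Galois-equivariant embedding `E[p] → S0`).
* `realStatement_of_occ_emb : OccStatement → EmbStatement → helper72.RealStatement`.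
-/

set_option autoImplicit false
set_option linter.unusedSectionVars false
set_option linter.style.longLine false
set_option linter.unusedVariables false
set_option linter.style.haveILetI false

noncomputable section

namespace Fermat.Agent.T8.helper7

open ModularCurve WeierstrassCurve WeierstrassCurve.Affine WeierstrassCurve.Affine.Point
open Fermat.Agent.P3 Fermat.Agent.T8.helper72

/-! ## [REAL-ES] -/

/-- the Galois action commutes with natural multiples -/
theorem gal_nsmul_real {M : ℕ} [NeZero M] (σ : GQ) (n : ℕ) (x : JZero M) :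
    σ • (n • x) = n • (σ • x) :=
  map_nsmul (DistribSMul.toAddMonoidHom (JZero M) σ) n x

/-- the Galois action fixes `0` -/
theorem gal_zero_real {M : ℕ} [NeZero M] (σ : GQ) : σ • (0 : JZero M) = 0 :=
  _root_.map_zero (DistribSMul.toAddMonoidHom (JZero M) σ)

/-- the Galois action commutes with integer multiples -/
theorem gal_zsmul_real {M : ℕ} [NeZero M] (σ : GQ) (n : ℤ) (x : JZero M) :
    σ • (n • x) = n • (σ • x) :=
  map_zsmul (DistribSMul.toAddMonoidHom (JZero M) σ) n x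

/-- the Galois action commutes with subtraction -/
theorem gal_sub_real {M : ℕ} [NeZero M] (σ : GQ) (x y : JZero M) :
    σ • (x - y) = σ • x - σ • y :=
  map_sub (DistribSMul.toAddMonoidHom (JZero M) σ) x y

/-- **[REAL-ES]**: P2-CORE (unramified + Eichler-Shimura on the `p`-power torsion) at EVERY
level. -/
theorem p2Core_all (M p : ℕ) [NeZero M] : P2CoreStatement M p := by
  intro ℓ hℓ hℓMp A hA
  obtain ⟨G, instG, ρ, h1, h2, h3⟩ :=
    Fermat.Agent.S37.helper16.rho_of_rig M p (Fermat.Agent.S37.helper16.rigStatement M)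
      ℓ hℓ hℓMp A hA
  refine ⟨fun σ hσ x hx => ?_, fun σ hσ x hx => ?_⟩
  · obtain ⟨n, hn⟩ := hx
    have ht : ∃ n : ℕ, p ^ n • (σ • x - x) = 0 :=
      ⟨n, by rw [nsmul_sub, ← gal_nsmul_real, hn, gal_zero_real, sub_self]⟩
    have h0 : σ • x - x = 0 := h3 _ ht (by rw [map_sub, h1 σ hσ x, sub_self])
    exact sub_eq_zero.mp h0
  · obtain ⟨n, hn⟩ := hx
    have ht : ∃ n : ℕ, p ^ n •
        (σ • σ • x - heckeOperatorBar M ⟨ℓ, hℓ⟩ (σ • x) + ℓ • x) = 0 := by
      refine ⟨n, ?_⟩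
      rw [nsmul_add, nsmul_sub, ← gal_nsmul_real, ← gal_nsmul_real, ← map_nsmul,
        ← gal_nsmul_real, nsmul_left_comm x ℓ (p ^ n), hn, gal_zero_real, gal_zero_real,
        _root_.map_zero, nsmul_zero, sub_self, add_zero]
    exact h3 _ ht (h2 σ hσ x)

/-! ## the eigenspace -/

/-- **the eigenspace** `S0 ⊆ J₀(M)[p]` of the eigensystem of the integral model `W` -/
def eigenSub (P : FreyPackage) (W : WeierstrassCurve ℤ) (M : ℕ) [NeZero M] :
    AddSubgroup (JZero M) where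
  carrier := {x | P.p • x = 0 ∧ IsFreyEigen P W M x}
  zero_mem' := ⟨nsmul_zero _, fun ℓ _ _ _ => by rw [_root_.map_zero, zsmul_zero]⟩
  add_mem' := by
    rintro x y ⟨hx, hx'⟩ ⟨hy, hy'⟩
    refine ⟨by rw [nsmul_add, hx, hy, add_zero], fun ℓ h1 h2 h3 => ?_⟩
    rw [_root_.map_add, hx' ℓ h1 h2 h3, hy' ℓ h1 h2 h3, zsmul_add]
  neg_mem' := by
    rintro x ⟨hx, hx'⟩
    refine ⟨by rw [neg_nsmul, hx, _root_.neg_zero], fun ℓ h1 h2 h3 => ?_⟩
    rw [_root_.map_neg, hx' ℓ h1 h2 h3, zsmul_neg]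

theorem mem_eigenSub {P : FreyPackage} {W : WeierstrassCurve ℤ} {M : ℕ} [NeZero M]
    {x : JZero M} : x ∈ eigenSub P W M ↔ P.p • x = 0 ∧ IsFreyEigen P W M x := Iff.rfl

/-- `S0` is Galois stable -/
theorem smul_mem_eigenSub {P : FreyPackage} {W : WeierstrassCurve ℤ} {M : ℕ} [NeZero M]
    (σ : GQ) {x : JZero M} (hx : x ∈ eigenSub P W M) : σ • x ∈ eigenSub P W M := by
  obtain ⟨h1, h2⟩ := hx
  refine ⟨by rw [← gal_nsmul_real, h1, gal_zero_real], fun ℓ a b c => ?_⟩
  rw [Fermat.Agent.P3.helper10.galHeckeComm M ℓ σ x, h2 ℓ a b c, gal_zsmul_real]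

/-- **Frobenius relation on `S0`**: `σ² - a_ℓ(W) σ + ℓ = 0` for every Frobenius `σ` at a good
prime `ℓ ∤ M p`. -/
theorem frob_quad_eigenSub {P : FreyPackage} {W : WeierstrassCurve ℤ} {M : ℕ} [NeZero M]
    {ℓ : ℕ} (hℓ : ℓ.Prime) (hgood : W.IsGoodPrimeFor ℓ) (hℓMp : ¬ ℓ ∣ M * P.p)
    {A : ValuationSubring (AlgebraicClosure ℚ)} (hA : A.LiesOverPrime ℓ)
    {σ : GQ} (hσ : A.IsFrobeniusAt σ ℓ) {x : JZero M} (hx : x ∈ eigenSub P W M) :
    σ • σ • x - W.apOfModel ℓ • (σ • x) + ℓ • x = 0 := by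
  have hℓM : ¬ ℓ ∣ M := fun h => hℓMp (Dvd.dvd.mul_right h _)
  have hℓp : ℓ ≠ P.p := fun h => hℓMp (h ▸ Dvd.intro_left M rfl)
  have hES := (p2Core_all M P.p ℓ hℓ hℓMp A hA).2 σ hσ x ⟨1, by rw [pow_one]; exact hx.1⟩
  have hσx := (smul_mem_eigenSub σ hx).2 ⟨ℓ, hℓ⟩ hgood hℓM hℓp
  rw [hσx] at hES
  exact hES

/-! ## the contracts of the sub-boxes -/

/-- **Contract [REAL-OCC]**: the eigensystem of `W` mod `p` occurs in `J₀(M)[p]`. -/
def OccStatement : Prop :=
  ∀ (P : FreyPackage) (M : ℕ) [NeZero M] (W : WeierstrassCurve ℤ),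
    W.IsIntegralModelOf P.freyCurve → W.IsResiduallyModularOfLevel P.p M →
    ∃ x ∈ eigenSub P W M, x ≠ 0

/-- the action of `σ` on `E[p]` as an `𝔽_p`-linear map -/
def freyLin (P : FreyPackage) (σ : GQ) : FreyTors P →ₗ[ZMod P.p] FreyTors P where
  toFun y := σ • y
  map_add' := smul_add σ
  map_smul' c y := by
    obtain ⟨c, rfl⟩ := ZMod.intCast_surjective c
    show σ • ((c : ZMod P.p) • y) = (c : ZMod P.p) • (σ • y)
    rw [Int.cast_smul_eq_zsmul, Int.cast_smul_eq_zsmul]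
    exact map_zsmul (DistribSMul.toAddMonoidHom (FreyTors P) σ) c y

/-- **Contract [REAL-CHEB]**: every `σ` satisfies on `S0` the characteristic polynomial of its
action on `E[p]` (`t`, `d` ANY integers lifting trace and determinant). -/
def QuadStatement : Prop :=
  ∀ (P : FreyPackage) (M : ℕ) [NeZero M] (W : WeierstrassCurve ℤ),
    W.IsIntegralModelOf P.freyCurve →
    ∀ (σ : GQ) (t d : ℤ), (t : ZMod P.p) = LinearMap.trace (ZMod P.p) _ (freyLin P σ) →
      (d : ZMod P.p) = LinearMap.det (freyLin P σ) →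
      ∀ x ∈ eigenSub P W M, σ • σ • x - t • (σ • x) + d • x = 0

/-- **Contract [REAL-EMB]** (= [REAL-CHEB] + [REAL-BLR] + [SURJ-E]): if `S0 ≠ 0` then `E[p]`
embeds Galois-equivariantly into `S0`. -/
def EmbStatement : Prop :=
  ∀ (P : FreyPackage) (M : ℕ) [NeZero M] (W : WeierstrassCurve ℤ),
    W.IsIntegralModelOf P.freyCurve →
    GaloisRepIsIrreducible (K := AlgebraicClosure ℚ) ℚ P.freyCurve P.p →
    (∃ x ∈ eigenSub P W M, x ≠ 0) →
    ∃ j : FreyTors P →+ JZero M, Function.Injective j ∧ (∀ y, j y ∈ eigenSub P W M) ∧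
      ∀ (σ : GQ) (y : FreyTors P), j (σ • y) = σ • j y

/-! ## the assembly -/

/-- **[REAL-ASM]**: contract (A) of the top chain from [REAL-OCC] and [REAL-EMB]. -/
theorem realStatement_of_occ_emb (hOcc : OccStatement) (hEmb : EmbStatement) :
    RealStatement := by
  intro P M' _ hcond hirr hmod
  obtain ⟨f, W, 𝔪, hf, hW, h𝔪, hp𝔪, hcong⟩ := hmod
  have hres : W.IsResiduallyModularOfLevel P.p (M' * P.p) := ⟨f, 𝔪, hf, h𝔪, hp𝔪, hcong⟩
  obtain ⟨j, hinj, hmem, heq⟩ := hEmb P (M' * P.p) W hW hirr (hOcc P (M' * P.p) W hW hres)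
  refine ⟨W, j.range, hW, ?_, ?_, ?_⟩
  · rintro _ ⟨y, rfl⟩
    exact (hmem y).1
  · rintro _ ⟨y, rfl⟩
    exact (hmem y).2
  · refine ⟨AddEquiv.ofBijective j.rangeRestrict
      ⟨fun a b h => hinj (congrArg Subtype.val h), j.rangeRestrict_surjective⟩, fun σ y => ?_⟩
    exact heq σ y

end Fermat.Agent.T8.helper7

end
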