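import Mathlib
import Fermat.Agent.S13.helper5_NodeTwo
import Fermat.Agent.S13.helper1_AtTwo
import Fermat.Agent.S13.LocalRedA
import Fermat.Agent.T3.helper84_K0Disc
import Fermat.Agent.T8.helper60_FreyProper
import Fermat.Agent.T8.helper7_RealDefs
import Fermat.Agent.T8.helper72_ChainDefs
import Fermat.Agent.S54.helper91_Frobenius

/-!
# T8 / S44, box [W-RAM2] (helper10): the `p`-torsion of the Frey curve is ramified at `2`

Consequence: a realisation of `E[p]` inside `J₀(M)` exists only at EVEN levels `M`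
(`odd_level_false`), so the odd case of the level lowering at `p` is vacuous.

* `double_x_mul_rt`, `one_le_v_double_rt` : the duplication formula on
  `y² + a₁ x y = x³ + a₂ x² + a₄ x` and its valuation: the double of a point with unit `x` or
  with `v x ≤ v a₄` is off the node.
* `exists_root_lt_one_rt` : a polynomial with unit leading coefficient and constant term in the
  maximal ideal has a root in the maximal ideal.
* `frey_exists_torsion_near_node` : a nonzero `p`-torsion point of the Frey curve reduces to the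
  node at every place over `2` (the torsion polynomial has even constant term,
  `helper60.dvd_coeff_zero_torsPoly`).
* `frey_exists_torsion_mid` : some `p`-torsion point lies strictly inside the node region
  (`v a₄ < v x < 1`): otherwise every `p`-torsion point, being a double, would be off the node.
* `frey_ramified_two` : inertia at `2` acts non-trivially on `E[p]` (the `x`-coordinate of a
  fixed point has its valuation in the value group of `ℚ`, `T3.helper84.k0_disc`, which
  contradicts the sawtooth relation `S13.helper5.frey_not_node_two_of_val`).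
* `odd_level_false` : no `helper72.FreyReal P W M V0` with `M` odd
  (`helper7.p2Core_all` : `J₀(M)[p]` is unramified at `2`).
-/

set_option autoImplicit false
set_option linter.unusedSectionVars false
set_option linter.style.longLine false
set_option linter.unusedVariables false
set_option linter.style.haveILetI false

noncomputable section

namespace Fermat.Agent.T8.helper10

open Polynomial WeierstrassCurve WeierstrassCurve.Affine
open Fermat.Agent.S13.helper64 Fermat.Agent.S05 Fermat.Agent.S05.helper92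

/-! ## the duplication formula at a node -/

section Double

variable {K : Type*} [Field K] [DecidableEq K] {Γ₀ : Type*} [LinearOrderedCommGroupWithZero Γ₀]

/-- the duplication formula for `y² + a₁ x y = x³ + a₂ x² + a₄ x` -/
theorem double_x_mul_rt (W : Affine K) (ha₃ : W.a₃ = 0) (ha₆ : W.a₆ = 0) {x y : K}
    (h : W.Equation x y) (hy : y ≠ W.negY x y) :
    W.addX x x (W.slope x x y y) * (y - W.negY x y) ^ 2 = (x ^ 2 - W.a₄) ^ 2 := by
  have hD : y - W.negY x y ≠ 0 := sub_ne_zero.mpr hy
  rw [Affine.slope_of_Y_ne rfl hy, Affine.addX]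
  rw [Affine.equation_iff] at h
  field_simp
  simp only [Affine.negY, ha₃, ha₆] at h ⊢
  linear_combination (-(W.a₁ ^ 2 + 4 * W.a₂ + 8 * x)) * h

/-- the square of the denominator -/
theorem denom_sq_rt (W : Affine K) (ha₃ : W.a₃ = 0) (ha₆ : W.a₆ = 0) {x y : K}
    (h : W.Equation x y) :
    (y - W.negY x y) ^ 2 = 4 * x ^ 3 + (W.a₁ ^ 2 + 4 * W.a₂) * x ^ 2 + 4 * W.a₄ * x := by
  rw [Affine.equation_iff] at h
  simp only [Affine.negY, ha₃, ha₆] at h ⊢
  linear_combination 4 * h

/-- a product `a * d = n` with `d ≤ n`, `0 < d` forces `1 ≤ a` -/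
theorem one_le_of_mul_eq_rt {a d n : Γ₀} (hd : 0 < d) (hdn : d ≤ n) (e : a * d = n) : 1 ≤ a := by
  by_contra hlt
  rw [not_le] at hlt
  have h1 : a * d < 1 * d := mul_lt_mul_of_pos_right hlt hd
  rw [one_mul, e] at h1
  exact absurd hdn (not_le.mpr h1)

/-- **doubling**: the double of a point with unit `x` or with `v x ≤ v a₄` is off the node -/
theorem one_le_v_double_rt (v : Valuation K Γ₀) (W : Affine K) (ha₃ : W.a₃ = 0) (ha₆ : W.a₆ = 0)
    (ha₁ : v W.a₁ ≤ 1) (ha₂ : v W.a₂ ≤ 1) (ha₄ : v W.a₄ < 1) (ha₄0 : W.a₄ ≠ 0) {x y : K}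
    (h : W.Equation x y) (hy : y ≠ W.negY x y) (hx : v x = 1 ∨ v x ≤ v W.a₄) :
    1 ≤ v (W.addX x x (W.slope x x y y)) := by
  have hD : y - W.negY x y ≠ 0 := sub_ne_zero.mpr hy
  have hDpos : 0 < v ((y - W.negY x y) ^ 2) := (Valuation.pos_iff v).mpr (pow_ne_zero 2 hD)
  have e := congrArg v (double_x_mul_rt W ha₃ ha₆ h hy)
  rw [map_mul] at e
  have h4 : v (4 : K) ≤ 1 := by simpa using Fermat.Agent.S13.v_natCast_le_one v 4
  have hb : v (W.a₁ ^ 2 + 4 * W.a₂) ≤ 1 := by
    apply v.map_add_le
    · rw [map_pow]; exact pow_le_one₀ zero_le ha₁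
    · rw [map_mul]; exact mul_le_one' h4 ha₂
  have ha₄pos : 0 < v W.a₄ := (Valuation.pos_iff v).mpr ha₄0
  rcases hx with hx | hx
  · -- `v x = 1`
    have hnum : v ((x ^ 2 - W.a₄) ^ 2) = 1 := by
      have h1 : v (x ^ 2) = 1 := by rw [map_pow, hx, one_pow]
      rw [map_pow, Valuation.map_sub_eq_of_lt_left v (by rw [h1]; exact ha₄), h1, one_pow]
    have hden : v ((y - W.negY x y) ^ 2) ≤ 1 := by
      rw [denom_sq_rt W ha₃ ha₆ h]
      refine v.map_add_le (v.map_add_le ?_ ?_) ?_
      · rw [map_mul, map_pow, hx, one_pow, mul_one]; exact h4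
      · rw [map_mul, map_pow, hx, one_pow, mul_one]; exact hb
      · rw [map_mul, map_mul, hx, mul_one]; exact mul_le_one' h4 ha₄.le
    rw [hnum] at e
    exact one_le_of_mul_eq_rt hDpos hden e
  · -- `v x ≤ v a₄`
    have hx1 : v x ≤ 1 := hx.trans ha₄.le
    have hxx : v (x ^ 2) < v W.a₄ := by
      rw [map_pow, pow_two]
      calc v x * v x ≤ v W.a₄ * v W.a₄ := mul_le_mul' hx hx
        _ < v W.a₄ * 1 := mul_lt_mul_of_pos_left ha₄ ha₄pos
        _ = v W.a₄ := mul_one _
    have hnum : v ((x ^ 2 - W.a₄) ^ 2) = v W.a₄ ^ 2 := by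
      rw [map_pow, Valuation.map_sub_eq_of_lt_right v hxx]
    have hsq : v x * v x ≤ v W.a₄ ^ 2 := by
      rw [pow_two]; exact mul_le_mul' hx hx
    have hden : v ((y - W.negY x y) ^ 2) ≤ v W.a₄ ^ 2 := by
      rw [denom_sq_rt W ha₃ ha₆ h]
      refine v.map_add_le (v.map_add_le ?_ ?_) ?_
      · rw [map_mul, map_pow]
        calc v 4 * v x ^ 3 ≤ 1 * v x ^ 3 := mul_le_mul' h4 le_rfl
          _ = v x * (v x * v x) := by rw [one_mul, pow_succ, pow_two, mul_comm]
          _ ≤ 1 * v W.a₄ ^ 2 := mul_le_mul' hx1 hsq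
          _ = v W.a₄ ^ 2 := one_mul _
      · rw [map_mul, map_pow]
        calc v (W.a₁ ^ 2 + 4 * W.a₂) * v x ^ 2 ≤ 1 * v x ^ 2 := mul_le_mul' hb le_rfl
          _ = v x * v x := by rw [one_mul, pow_two]
          _ ≤ v W.a₄ ^ 2 := hsq
      · rw [map_mul, map_mul]
        calc v 4 * v W.a₄ * v x ≤ 1 * v W.a₄ * v W.a₄ := mul_le_mul' (mul_le_mul' h4 le_rfl) hx
          _ = v W.a₄ ^ 2 := by rw [one_mul, pow_two]
    rw [hnum] at e
    exact one_le_of_mul_eq_rt hDpos hden e

end Double

/-! ## a root of small valuation -/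

section Roots

variable {K : Type*} [Field K]

/-- a product of elements of valuation `≥ 1` has valuation `≥ 1` -/
theorem one_le_valuation_prod_rt (A : ValuationSubring K) (s : Multiset K)
    (hs : ∀ a ∈ s, 1 ≤ A.valuation a) : 1 ≤ A.valuation s.prod := by
  induction s using Multiset.induction_on with
  | empty => rw [Multiset.prod_zero, map_one]
  | cons a s ih =>
    rw [Multiset.prod_cons, map_mul]
    have ha := hs a (Multiset.mem_cons_self a s)
    have hs' := ih (fun b hb => hs b (Multiset.mem_cons_of_mem hb))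
    calc (1 : A.ValueGroup) = 1 * 1 := (one_mul 1).symm
      _ ≤ A.valuation a * A.valuation s.prod := mul_le_mul' ha hs'

/-- a polynomial with unit leading coefficient and constant term in the maximal ideal has a root
in the maximal ideal -/
theorem exists_root_lt_one_rt [IsAlgClosed K] (A : ValuationSubring K) (f : K[X])
    (hdeg : 0 < f.natDegree) (hlc : A.valuation f.leadingCoeff = 1)
    (h0 : A.valuation (f.coeff 0) < 1) :
    ∃ ξ, f.IsRoot ξ ∧ A.valuation ξ < 1 := by
  by_contra hcon0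
  have hcon : ∀ ξ, f.IsRoot ξ → 1 ≤ A.valuation ξ := fun ξ h => by
    by_contra hlt
    rw [not_le] at hlt
    exact hcon0 ⟨ξ, h, hlt⟩
  have hf0 : f ≠ 0 := by
    rintro rfl
    simp at hdeg
  have hsplit := IsAlgClosed.splits f
  have hall : ∀ a ∈ f.roots, 1 ≤ A.valuation a := fun a ha =>
    hcon a ((Polynomial.mem_roots hf0).mp ha)
  have hprod := one_le_valuation_prod_rt A f.roots hall
  have h1 := hsplit.coeff_zero_eq_leadingCoeff_mul_prod_roots
  have h2 : A.valuation (f.coeff 0) = A.valuation f.roots.prod := by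
    rw [h1, map_mul, map_mul, map_pow, Valuation.map_neg, map_one, one_pow, hlc, one_mul,
      one_mul]
  rw [h2] at h0
  exact absurd hprod (not_le.mpr h0)

end Roots

/-! ## the Frey curve at `2` -/

section FreyTwo

open Fermat.Agent.S13

variable {K : Type*} [Field K] [DecidableEq K] [Algebra ℚ K] [CharZero K] [IsAlgClosed K]

/-- `p` is a unit at every place over `2` -/
theorem val_p_eq_one_rt (P : FreyPackage) (A : ValuationSubring K) (hA : A.LiesOverPrime 2) :
    A.valuation ((P.p : ℕ) : K) = 1 := by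
  have h := valuation_intCast_eq_one_of_not_dvd (L := K) Nat.prime_two hA (n := (P.p : ℤ))
    (by
      intro h
      have h2 : (2 : ℕ) ∣ P.p := by exact_mod_cast h
      have := (Nat.prime_dvd_prime_iff_eq Nat.prime_two P.pp).1 h2
      have := P.hp5
      omega)
  simpa using h

/-- **a `p`-torsion point reducing to the node at `2`** -/
theorem frey_exists_torsion_near_node (P : FreyPackage) (A : ValuationSubring K)
    (hA : A.LiesOverPrime 2) :
    ∃ (x y : K) (hxy : (freyK P K).Nonsingular x y),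
      P.p • (Point.some x y hxy : (freyK P K).Point) = 0 ∧ A.valuation x < 1 := by
  obtain ⟨n, hn⟩ : ∃ n, P.p = 2 * n + 1 := P.hp_odd
  have hn1 : 1 ≤ n := by
    have := P.hp5
    omega
  have hΔ : (freyK P K).Δ ≠ 0 := Fermat.Agent.T8.helper60.freyK_Δ_ne_zero P
  -- the constant coefficient is even
  have h2a₄ := Fermat.Agent.S13.helper1.two_dvd_freyCurveInt_a₄ P
  have ha₃ : P.freyCurveInt.a₃ = 0 := rfl
  have ha₆ : P.freyCurveInt.a₆ = 0 := rfl
  have d4 : (2 : ℤ) ∣ P.freyCurveInt.b₄ := by
    rw [WeierstrassCurve.b₄, ha₃, mul_zero, add_zero]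
    exact Dvd.intro _ rfl
  have d6 : (2 : ℤ) ∣ P.freyCurveInt.b₆ := by
    rw [WeierstrassCurve.b₆, ha₃, ha₆]
    norm_num
  have d8 : (2 : ℤ) ∣ P.freyCurveInt.b₈ := by
    rw [WeierstrassCurve.b₈, ha₃, ha₆]
    obtain ⟨k, hk⟩ := h2a₄
    refine ⟨-(k * P.freyCurveInt.a₄), ?_⟩
    rw [hk]
    ring
  obtain ⟨d, hd⟩ := Fermat.Agent.T8.helper60.dvd_coeff_zero_torsPoly P.freyCurveInt 2 d4 d6 d8 n hn1
  have hf : torsPoly (freyK P K) n = (torsPoly P.freyCurveInt n).map (Int.castRingHom K) := by
    rw [torsPoly_map, freyK_eq_map_int]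
  have hv2 : A.valuation (2 : K) < 1 := by
    have hA' : ((2 : ℕ) : K) ∈ A.nonunits := hA
    have : (2 : K) ∈ A.nonunits := by simpa using hA'
    exact A.mem_nonunits_iff.mp this
  have hc0 : A.valuation ((torsPoly (freyK P K) n).coeff 0) < 1 := by
    rw [hf, coeff_map, hd, eq_intCast, Int.cast_mul, map_mul, Int.cast_ofNat]
    calc A.valuation (2 : K) * A.valuation ((d : ℤ) : K)
        ≤ A.valuation (2 : K) * 1 :=
          mul_le_mul' le_rfl ((A.valuation_le_one_iff _).mpr (intCast_mem A d))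
      _ < 1 := by rw [mul_one]; exact hv2
  have hlc : A.valuation (torsPoly (freyK P K) n).leadingCoeff = 1 := by
    rw [Fermat.Agent.T8.helper60.leadingCoeff_torsPoly_eq, Valuation.map_neg, ← hn]
    exact val_p_eq_one_rt P A hA
  have hpos : 0 < (torsPoly (freyK P K) n).natDegree := by
    rw [Fermat.Agent.T8.helper60.natDegree_torsPoly_eq]
    positivity
  obtain ⟨ξ, hξ, hξv⟩ := exists_root_lt_one_rt A (torsPoly (freyK P K) n) hpos hlc hc0
  obtain ⟨y, hy⟩ := Fermat.Agent.S13.helper72.exists_equation (freyK P K) ξ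
  have hns : (freyK P K).Nonsingular ξ y :=
    (equation_iff_nonsingular_of_Δ_ne_zero hΔ).mp hy
  refine ⟨ξ, y, hns, ?_, hξv⟩
  rw [hn, nsmul_eq_zero_iff_eval_torsPoly (freyK P K) hΔ n]
  exact hξ

/-- **a `p`-torsion point strictly inside the node region at `2`** -/
theorem frey_exists_torsion_mid (P : FreyPackage) (A : ValuationSubring K)
    (hA : A.LiesOverPrime 2) :
    ∃ (x y : K) (hxy : (freyK P K).Nonsingular x y),
      P.p • (Point.some x y hxy : (freyK P K).Point) = 0 ∧
        A.valuation (freyK P K).a₄ < A.valuation x ∧ A.valuation x < 1 := by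
  by_contra hcon
  obtain ⟨x₁, y₁, h₁, hT₁, hv₁⟩ := frey_exists_torsion_near_node P A hA
  obtain ⟨n, hn⟩ : ∃ n, P.p = 2 * n + 1 := P.hp_odd
  -- the half of the point
  set Q₁ : (freyK P K).Point := Point.some x₁ y₁ h₁ with hQ₁
  set Q : (freyK P K).Point := (n + 1) • Q₁ with hQ
  have hQQ : Q + Q = Q₁ := by
    rw [hQ, ← add_nsmul]
    have e : n + 1 + (n + 1) = P.p + 1 := by omega
    rw [e, add_nsmul, hT₁, zero_add, one_nsmul]
  have hpQ : P.p • Q = 0 := by
    rw [hQ, smul_comm, hT₁, smul_zero]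
  have hQ0 : Q ≠ 0 := by
    intro h0
    rw [h0, add_zero] at hQQ
    exact Point.some_ne_zero h₁ hQQ.symm
  have ha₁ : A.valuation (freyK P K).a₁ ≤ 1 := (A.valuation_le_one_iff _).mpr (freyK_a₁_mem P K A)
  have ha₂ : A.valuation (freyK P K).a₂ ≤ 1 := (A.valuation_le_one_iff _).mpr (freyK_a₂_mem P K A)
  have ha₃ : A.valuation (freyK P K).a₃ ≤ 1 := (A.valuation_le_one_iff _).mpr (freyK_a₃_mem P K A)
  have ha₄ : A.valuation (freyK P K).a₄ ≤ 1 := (A.valuation_le_one_iff _).mpr (freyK_a₄_mem P K A)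
  have ha₆ : A.valuation (freyK P K).a₆ ≤ 1 := (A.valuation_le_one_iff _).mpr (freyK_a₆_mem P K A)
  have ha₄' : A.valuation (freyK P K).a₄ < 1 :=
    A.mem_nonunits_iff.mp (Fermat.Agent.S13.helper1.freyK_a₄_mem_nonunits P A hA)
  rcases hQc : Q with _ | ⟨x, y, h⟩
  · exact hQ0 hQc
  rw [hQc] at hQQ hpQ
  obtain ⟨hx, hy⟩ := v_le_one_of_nsmul_eq_zero A.valuation (freyK P K) ha₁ ha₂ ha₃ ha₄ ha₆
    (val_p_eq_one_rt P A hA) h hpQ
  have hcase : A.valuation x = 1 ∨ A.valuation x ≤ A.valuation (freyK P K).a₄ := by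
    by_contra hc
    rw [not_or, not_le] at hc
    exact hcon ⟨x, y, h, hpQ, hc.2, lt_of_le_of_ne hx hc.1⟩
  have hyne : y ≠ (freyK P K).negY x y := by
    intro hyy
    have : Point.some x y h + Point.some x y h = 0 := Point.add_of_Y_eq rfl hyy
    rw [this] at hQQ
    exact Point.some_ne_zero h₁ hQQ.symm
  have hdouble := one_le_v_double_rt A.valuation (freyK P K) (freyK_a₃ P K) (freyK_a₆ P K)
    ha₁ ha₂ ha₄' (Fermat.Agent.S13.helper1.freyK_a₄_ne_zero P) h.1 hyne hcase
  rw [Point.add_self_of_Y_ne hyne] at hQQ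
  have hxx : (freyK P K).addX x x ((freyK P K).slope x x y y) = x₁ := by
    have := hQQ
    rw [hQ₁] at this
    injection this
  rw [hxx] at hdouble
  exact absurd hv₁ (not_lt.mpr hdouble)

end FreyTwo

/-! ## ramification at `2` -/

section Ram

open Fermat.Agent.T8.helper72 ModularCurve WeierstrassCurve.Affine.Point

/-- **[W-RAM2]**: the inertia group of a place over `2` acts non-trivially on the `p`-torsion of
the Frey curve. -/
theorem frey_ramified_two (P : FreyPackage) (A : ValuationSubring (AlgebraicClosure ℚ))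
    (hA : A.LiesOverPrime 2) :
    ¬ ∀ σ ∈ A.inertiaSubgroupIn ℚ, ∀ y : FreyTors P, σ • y = y := by
  intro hall
  obtain ⟨x, y, h, hT, hxl, hxu⟩ := frey_exists_torsion_mid (K := AlgebraicClosure ℚ) P A hA
  have hmem : (Point.some x y h : (freyK P (AlgebraicClosure ℚ)).Point) ∈
      Submodule.torsionBy ℤ (freyK P (AlgebraicClosure ℚ)).Point (P.p : ℤ) := by
    rw [Submodule.mem_torsionBy_iff, natCast_zsmul]
    exact hT
  have hfix : ∀ σ ∈ A.inertiaSubgroupIn ℚ, σ x = x := by
    intro σ hσ
    have h1 := congrArg Subtype.val (hall σ hσ ⟨Point.some x y h, hmem⟩)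
    have h2 : σ • (Point.some x y h : (freyK P (AlgebraicClosure ℚ)).Point) =
        Point.some x y h := h1
    rw [algEquiv_smul_def, Point.map_some] at h2
    injection h2
  have hx0 : x ≠ 0 := by
    rintro rfl
    rw [_root_.map_zero] at hxl
    exact absurd hxl (not_lt.mpr zero_le)
  obtain ⟨m, hm⟩ := Fermat.Agent.T3.helper84.k0_disc Nat.prime_two A hA hx0 hfix
  have h2K : ((2 : ℕ) : AlgebraicClosure ℚ) = 2 := by norm_num
  rw [h2K, map_zpow₀] at hm
  have ht0 : A.valuation (2 : AlgebraicClosure ℚ) ≠ 0 :=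
    (Valuation.ne_zero_iff _).mpr two_ne_zero
  have hx : ∃ a b : ℕ, A.valuation x * A.valuation (2 : AlgebraicClosure ℚ) ^ b =
      A.valuation (2 : AlgebraicClosure ℚ) ^ a := by
    obtain ⟨a, ha | ha⟩ := m.eq_nat_or_neg
    · exact ⟨a, 0, by rw [pow_zero, mul_one, hm, ha, zpow_natCast]⟩
    · exact ⟨0, a, by rw [hm, ha, zpow_neg, zpow_natCast, pow_zero,
        inv_mul_cancel₀ (pow_ne_zero a ht0)]⟩
  exact Fermat.Agent.S13.helper5.frey_not_node_two_of_val P A hA h hT hx hxl hxu

/-- **the odd case is vacuous**: there is no realisation of `E[p]` in `J₀(M)` at an odd level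
`M` (the `p`-torsion of `J₀(M)` is unramified at `2`, `E[p]` is not). -/
theorem odd_level_false (P : FreyPackage) (W : WeierstrassCurve ℤ) (M : ℕ) [NeZero M]
    (hodd : ¬ 2 ∣ M) (V0 : AddSubgroup (JZero M)) (hreal : FreyReal P W M V0) : False := by
  obtain ⟨A, hA⟩ := Fermat.Agent.S54.helper91.exists_valuationSubring_liesOver Nat.prime_two
  obtain ⟨e, he⟩ := hreal.iso
  apply frey_ramified_two P A hA
  intro σ hσ y
  have h2 : ¬ 2 ∣ M * P.p := by
    intro h
    rcases (Nat.Prime.dvd_mul Nat.prime_two).mp h with h | h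
    · exact hodd h
    · have := (Nat.prime_dvd_prime_iff_eq Nat.prime_two P.pp).1 h
      have := P.hp5
      omega
  have hfix := (Fermat.Agent.T8.helper7.p2Core_all M P.p 2 Nat.prime_two h2 A hA).1 σ hσ
    ((e y : V0) : JZero M) ⟨1, by rw [pow_one]; exact hreal.tors _ (e y).2⟩
  apply e.injective
  apply Subtype.ext
  rw [he σ y, hfix]

/-- the same with the level written `M' * p` -/
theorem odd_level_false' (P : FreyPackage) (W : WeierstrassCurve ℤ) (M' : ℕ) [NeZero M']
    (hodd : ¬ 2 ∣ M') (V0 : AddSubgroup (JZero (M' * P.p)))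
    (hreal : FreyReal P W (M' * P.p) V0) : False := by
  refine odd_level_false P W (M' * P.p) ?_ V0 hreal
  intro h
  rcases (Nat.Prime.dvd_mul Nat.prime_two).mp h with h | h
  · exact hodd h
  · have := (Nat.prime_dvd_prime_iff_eq Nat.prime_two P.pp).1 h
    have := P.hp5
    omega

end Ram

end Fermat.Agent.T8.helper10

end
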