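import Fermat.Agent.T8.helper72_ChainDefs

/-!
# T8 / S44 (helper72, assembler): the contracts of the top chain, version 2 (full context)

Version 2 of the six contracts of `helper72_ChainDefs.lean`: every contract receives the WHOLE
standing context `ChainCtx P M' W` of the chain (conductor level `M' p`, irreducibility, the
integral model `W` and the congruent eigenform `f` of level `M' p` of `hmod`).  The vocabulary
(`FreyTors`, `IsFreyEigen`, `FreyReal`, `PullData`, `WallData`) is unchanged.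

Every version-1 contract implies its version-2 form (`real2_of_real`, ...), so a proof of either
shape is accepted by the chain `helper72_Chain2.lean`.
-/

set_option autoImplicit false
set_option linter.unusedSectionVars false
set_option linter.style.longLine false
set_option linter.unusedVariables false
set_option linter.style.haveILetI false

noncomputable section

namespace Fermat.Agent.T8.helper72

open ModularCurve WeierstrassCurve WeierstrassCurve.Affine WeierstrassCurve.Affine.Point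
open Fermat.Agent.T7

/-- **the standing context of the chain**: `M' p` is a conductor level of `P`, `E[p]` is
irreducible, `W` is an integral model of the Frey curve and there is a normalised eigenform of
level `M' p` congruent to `W` modulo a maximal ideal over `p`. -/
structure ChainCtx (P : FreyPackage) (M' : ℕ) (W : WeierstrassCurve ℤ) : Prop where
  /-- `M' p` is a conductor level -/
  cond : P.IsConductorLevel (M' * P.p)
  /-- `E[p]` is irreducible -/
  irr : GaloisRepIsIrreducible (K := AlgebraicClosure ℚ) ℚ P.freyCurve P.p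
  /-- `W` is an integral model of the Frey curve -/
  model : W.IsIntegralModelOf P.freyCurve
  /-- the congruent eigenform of level `M' p` -/
  modular : ∃ (f : CuspForm (CongruenceSubgroup.Gamma0 (M' * P.p)) 2)
      (𝔪 : Ideal (integralClosure ℤ ℂ)),
    f.IsNormalizedEigenform ∧ 𝔪.IsMaximal ∧ (P.p : integralClosure ℤ ℂ) ∈ 𝔪 ∧
    ∀ ℓ : ℕ, ℓ.Prime → W.IsGoodPrimeFor ℓ → ¬ ℓ ∣ M' * P.p → ℓ ≠ P.p →
      ∃ a : integralClosure ℤ ℂ, (a : ℂ) = ModularFormClass.qCoeff f ℓ ∧
        a - ((W.apOfModel ℓ : ℤ) : integralClosure ℤ ℂ) ∈ 𝔪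

namespace ChainCtx

variable {P : FreyPackage} {M' : ℕ} {W : WeierstrassCurve ℤ}

/-- `hmod` at level `M' p` -/
theorem modularRep (h : ChainCtx P M' W) : P.ModularRepOfLevel (M' * P.p) := by
  obtain ⟨f, 𝔪, hf, hmax, hp, hc⟩ := h.modular
  exact ⟨f, W, 𝔪, hf, h.model, hmax, hp, hc⟩

/-- `p ∣ a b c` -/
theorem p_dvd_abc (h : ChainCtx P M' W) : (P.p : ℤ) ∣ P.a * P.b * P.c :=
  h.cond.p_dvd_abc (Dvd.intro_left M' rfl)

/-- `p ∤ M'` -/
theorem not_p_dvd (h : ChainCtx P M' W) : ¬ P.p ∣ M' := by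
  rintro ⟨k, rfl⟩
  have h1 : P.p * P.p ∣ P.p * k * P.p := ⟨k, by ring⟩
  exact P.pp.not_isUnit (h.cond.squarefree P.p h1)

/-- `p ∤ 4 M'` -/
theorem not_p_dvd_four_mul (h : ChainCtx P M' W) : ¬ P.p ∣ 4 * M' := by
  intro h1
  rcases (Nat.Prime.dvd_mul P.pp).mp h1 with h2 | h2
  · have h3 : P.p ≤ 4 := Nat.le_of_dvd (by norm_num) h2
    have h4 := P.hp5
    omega
  · exact h.not_p_dvd h2

/-- `M'` is positive -/
theorem pos (h : ChainCtx P M' W) : 0 < M' := by
  rcases Nat.eq_zero_or_pos M' with h0 | h0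
  · have := h.cond.pos
    rw [h0, zero_mul] at this
    exact absurd this (lt_irrefl 0)
  · exact h0

/-- `M'` is a conductor level -/
theorem cond' (h : ChainCtx P M' W) : P.IsConductorLevel M' :=
  h.cond.of_dvd (Dvd.intro _ rfl) h.pos

end ChainCtx

/-- **Contract (A) [REAL]**, version 2. -/
def RealStatement2 : Prop :=
  ∀ (P : FreyPackage) (W : WeierstrassCurve ℤ) (M' : ℕ) [NeZero M'], ChainCtx P M' W →
    ∃ V0 : AddSubgroup (JZero (M' * P.p)), FreyReal P W (M' * P.p) V0

/-- **Contract (C) [OLD-LIFT]**, version 2. -/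
def OldLiftStatement2 : Prop :=
  ∀ (P : FreyPackage) (W : WeierstrassCurve ℤ) (M' : ℕ) [NeZero M'], ChainCtx P M' W →
    ∀ V0 : AddSubgroup (JZero (M' * P.p)), FreyReal P W (M' * P.p) V0 →
      ¬ V0 ≤ helper43.newPart M' P.p → P.ModularRepOfLevel M'

/-- **Contract (D) [AUX]**, version 2. -/
def AuxStatement2 (π : PullData) : Prop :=
  ∀ (P : FreyPackage) (W : WeierstrassCurve ℤ) (M' : ℕ) [NeZero M'], ChainCtx P M' W →
    ∀ V0 : AddSubgroup (JZero (M' * P.p)), FreyReal P W (M' * P.p) V0 →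
      V0 ≤ helper43.newPart M' P.p →
      FreyReal P W (4 * M' * P.p) (V0.map (π M' P.p)) ∧
        V0.map (π M' P.p) ≤ helper43.newPart (4 * M') P.p

/-- **Contract (E) [WALL]**, version 2. -/
def WallStatement2 (π : PullData) (C : WallData) : Prop :=
  ∀ (P : FreyPackage) (W : WeierstrassCurve ℤ) (M' : ℕ) [NeZero M'], ChainCtx P M' W →
    ∀ (hpN : ¬ P.p ∣ 4 * M') (A : ValuationSubring (AlgebraicClosure ℚ)), A.LiesOverPrime P.p →
    ∀ V0 : AddSubgroup (JZero (M' * P.p)), FreyReal P W (M' * P.p) V0 →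
      V0 ≤ helper43.newPart M' P.p →
      FreyReal P W (4 * M' * P.p) (V0.map (π M' P.p)) →
      V0.map (π M' P.p) ≤ helper43.newPart (4 * M') P.p →
      ¬ (∀ x ∈ V0.map (π M' P.p), helper2.IsT0 (4 * M') P.p P.pp hpN A P.p x) →
      ∀ x ∈ V0.map (π M' P.p), C P M' A x

/-- **Contract (F) [D-HECKE]**, version 2. -/
def DHeckeStatement2 (π : PullData) (C : WallData) : Prop :=
  ∀ (P : FreyPackage) (W : WeierstrassCurve ℤ) (M' : ℕ) [NeZero M'], ChainCtx P M' W →
    ∀ (hpN : ¬ P.p ∣ 4 * M') (A : ValuationSubring (AlgebraicClosure ℚ)), A.LiesOverPrime P.p →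
    ∀ V0 : AddSubgroup (JZero (M' * P.p)), FreyReal P W (M' * P.p) V0 →
      V0 ≤ helper43.newPart M' P.p →
      FreyReal P W (4 * M' * P.p) (V0.map (π M' P.p)) →
      V0.map (π M' P.p) ≤ helper43.newPart (4 * M') P.p →
      (∀ x ∈ V0.map (π M' P.p), C P M' A x) →
      P.ModularRepOfLevel M' ∨
        ∀ x ∈ V0.map (π M' P.p), helper2.IsT0 (4 * M') P.p P.pp hpN A P.p x

/-- **Contract (G) [G1-END]**, version 2. -/
def G1EndStatement2 : Prop :=
  ∀ (P : FreyPackage) (W : WeierstrassCurve ℤ) (M' : ℕ) [NeZero M'], ChainCtx P M' W →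
    ∀ (hpN : ¬ P.p ∣ 4 * M') (A : ValuationSubring (AlgebraicClosure ℚ)), A.LiesOverPrime P.p →
    ∀ V : AddSubgroup (JZero (4 * M' * P.p)), FreyReal P W (4 * M' * P.p) V →
      V ≤ helper43.newPart (4 * M') P.p →
      ¬ (∀ x ∈ V, helper2.IsT0 (4 * M') P.p P.pp hpN A P.p x)

/-! ### version 1 implies version 2 -/

theorem oldLift2_of_oldLift (h : OldLiftStatement) : OldLiftStatement2 :=
  fun P W M' _ hc V0 hV0 hnew => h P W M' hc.model hc.cond hc.irr V0 hV0 hnew

theorem aux2_of_aux {π : PullData} (h : AuxStatement π) : AuxStatement2 π :=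
  fun P W M' _ hc V0 hV0 hnew => h P W M' hc.model hc.cond hc.irr V0 hV0 hnew

theorem wall2_of_wall {π : PullData} {C : WallData} (h : WallStatement π C) :
    WallStatement2 π C :=
  fun P W M' _ hc hpN A hA V0 hV0 hnew hV hVnew hnot =>
    h P W M' hc.model hc.cond hc.irr hpN A hA V0 hV0 hnew hV hVnew hnot

theorem dHecke2_of_dHecke {π : PullData} {C : WallData} (h : DHeckeStatement π C) :
    DHeckeStatement2 π C :=
  fun P W M' _ hc hpN A hA V0 hV0 hnew hV hVnew hC =>
    h P W M' hc.model hc.cond hc.irr hpN A hA V0 hV0 hnew hV hVnew hC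

theorem g1End2_of_g1End (h : G1EndStatement) : G1EndStatement2 :=
  fun P W M' _ hc hpN A hA V hV hVnew => h P W M' hc.model hc.irr hpN A hA V hV hVnew

end Fermat.Agent.T8.helper72

end
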