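import Fermat.Agent.T8.helper10_RamTwo
import Fermat.Agent.T8.helper72_ChainDefs2

/-!
# T8 / S44, box [W-RAM2] (helper10): consumer forms

* `two_dvd_of_freyReal` : a realisation `FreyReal P W (M' * p) V0` forces `2 ∣ M'`.  Every
  contract (C) - (G) of `helper72_ChainDefs2` has such a realisation among its hypotheses, so
  every box after (A) may assume that `M'` is even.
* `four_mul_eq_eight_mul` : then `4 * M' = 8 * m`.
-/

set_option autoImplicit false
set_option linter.unusedSectionVars false
set_option linter.style.longLine false
set_option linter.unusedVariables false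

namespace Fermat.Agent.T8.helper10

open ModularCurve Fermat.Agent.T8.helper72

/-- **the level of a realisation of `E[p]` is even** -/
theorem two_dvd_of_freyReal (P : FreyPackage) (W : WeierstrassCurve ℤ) (M' : ℕ) [NeZero M']
    (V0 : AddSubgroup (JZero (M' * P.p))) (hreal : FreyReal P W (M' * P.p) V0) : 2 ∣ M' := by
  by_contra h
  exact odd_level_false' P W M' h V0 hreal

/-- the general form: a realisation at level `M` forces `2 ∣ M` -/
theorem two_dvd_level_of_freyReal (P : FreyPackage) (W : WeierstrassCurve ℤ) (M : ℕ) [NeZero M]
    (V0 : AddSubgroup (JZero M)) (hreal : FreyReal P W M V0) : 2 ∣ M := by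
  by_contra h
  exact odd_level_false P W M h V0 hreal

/-- in the standing context of the chain the auxiliary level `4 M'` is divisible by `8` -/
theorem eight_dvd_of_freyReal (P : FreyPackage) (W : WeierstrassCurve ℤ) (M' : ℕ) [NeZero M']
    (V0 : AddSubgroup (JZero (M' * P.p))) (hreal : FreyReal P W (M' * P.p) V0) :
    8 ∣ 4 * M' := by
  obtain ⟨m, hm⟩ := two_dvd_of_freyReal P W M' V0 hreal
  exact ⟨m, by rw [hm]; ring⟩

end Fermat.Agent.T8.helper10
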