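import Mathlib

/-!
# T8 [REAL-BLR] (helper79): Boston-Lenstra-Ribet, elementary form

Let `k` be a field with `2 ≠ 0`, `G` a group, `ρ : G →* End_k(E)` with `dim_k E = 2` such that
the group algebra surjects onto `End_k(E)`, and `π : G →* End_k(V)` such that every `g` satisfies
on `V` the characteristic polynomial of `ρ g`:
`π g * π g - tr(ρ g) • π g + det(ρ g) • 1 = 0`.
Then the kernel of `k[G] → End_k(E)` kills `V` (`ker_le_ker`), and if `V ≠ 0` there is an
injective `k`-linear `G`-equivariant map `E → V` (`exists_injective_equivariant`).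

Proof: with `a* :=` the linear extension of `g ↦ det(ρ g) g⁻¹` (an anti-involution) the hypothesis
gives `π(a) + π(a*) = tr(ρ a)` for all `a`, hence the polarised Cayley-Hamilton identity on `V`;
for `a ∈ ker ρ`, `n := π a` satisfies `n B + B n = tr(ρ b) n`, `n² = 0`, commutators kill `n`,
and `1 - [c, c']²` lies in `ker ρ` for suitable `c, c'`.
-/

set_option autoImplicit false

noncomputable section

namespace Fermat.Agent.T8.helper79

open MonoidAlgebra

variable {k G E V : Type*} [Field k] [Group G] [AddCommGroup E] [Module k E]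
  [AddCommGroup V] [Module k V]

/-- the algebra map `k[G] → End_k(E)` of a representation -/
def rA (ρ : G →* Module.End k E) : MonoidAlgebra k G →ₐ[k] Module.End k E :=
  MonoidAlgebra.lift k (Module.End k E) G ρ

@[simp] theorem rA_of (ρ : G →* Module.End k E) (g : G) : rA ρ (of k G g) = ρ g := by
  simp [rA]

/-- the trace form on `k[G]` -/
def tau (ρ : G →* Module.End k E) : MonoidAlgebra k G →ₗ[k] k :=
  (LinearMap.trace k E).comp (rA ρ).toLinearMap

theorem tau_apply (ρ : G →* Module.End k E) (a : MonoidAlgebra k G) :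
    tau ρ a = LinearMap.trace k E (rA ρ a) := rfl

theorem tau_mul_comm (ρ : G →* Module.End k E) (a b : MonoidAlgebra k G) :
    tau ρ (a * b) = tau ρ (b * a) := by
  simp only [tau_apply, map_mul]
  exact LinearMap.trace_mul_comm k _ _

theorem tau_eq_zero_of_ker (ρ : G →* Module.End k E) {a : MonoidAlgebra k G}
    (ha : rA ρ a = 0) : tau ρ a = 0 := by
  simp [tau_apply, ha]

theorem tau_mul_eq_zero_of_ker (ρ : G →* Module.End k E) {a : MonoidAlgebra k G}
    (ha : rA ρ a = 0) (b : MonoidAlgebra k G) : tau ρ (a * b) = 0 := by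
  simp [tau_apply, ha]

/-- `g ↦ det(ρ g) g⁻¹` as a monoid hom into the opposite algebra -/
def sHom (ρ : G →* Module.End k E) : G →* (MonoidAlgebra k G)ᵐᵒᵖ where
  toFun g := MulOpposite.op (LinearMap.det (ρ g) • of k G g⁻¹)
  map_one' := by simp [MonoidAlgebra.one_def]
  map_mul' g h := by
    rw [← MulOpposite.op_mul]
    congr 1
    rw [map_mul, map_mul, mul_inv_rev, map_mul, smul_mul_smul_comm, mul_comm]

/-- the anti-involution `a ↦ a*` of `k[G]` -/
def sA (ρ : G →* Module.End k E) : MonoidAlgebra k G →ₐ[k] (MonoidAlgebra k G)ᵐᵒᵖ :=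
  MonoidAlgebra.lift k ((MonoidAlgebra k G)ᵐᵒᵖ) G (sHom ρ)

/-- `a*` -/
def adj (ρ : G →* Module.End k E) (a : MonoidAlgebra k G) : MonoidAlgebra k G :=
  MulOpposite.unop (sA ρ a)

theorem adj_of (ρ : G →* Module.End k E) (g : G) :
    adj ρ (of k G g) = LinearMap.det (ρ g) • of k G g⁻¹ := by
  simp [adj, sA, sHom]

theorem adj_add (ρ : G →* Module.End k E) (a b : MonoidAlgebra k G) :
    adj ρ (a + b) = adj ρ a + adj ρ b := by
  simp [adj]

theorem adj_smul (ρ : G →* Module.End k E) (c : k) (a : MonoidAlgebra k G) :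
    adj ρ (c • a) = c • adj ρ a := by
  simp [adj]

theorem adj_mul (ρ : G →* Module.End k E) (a b : MonoidAlgebra k G) :
    adj ρ (a * b) = adj ρ b * adj ρ a := by
  simp [adj]

/-! ### The hypothesis in linear form and the polarised identity -/

/-- the algebra map `k[G] → End_k(V)` -/
def pA (π : G →* Module.End k V) : MonoidAlgebra k G →ₐ[k] Module.End k V :=
  MonoidAlgebra.lift k (Module.End k V) G π

@[simp] theorem pA_of (π : G →* Module.End k V) (g : G) : pA π (of k G g) = π g := by
  simp [pA]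

/-- the quadratic relation: every `g` satisfies on `V` the characteristic polynomial of `ρ g` -/
def QuadRel (ρ : G →* Module.End k E) (π : G →* Module.End k V) : Prop :=
  ∀ g : G, π g * π g - LinearMap.trace k E (ρ g) • π g + LinearMap.det (ρ g) • 1 = 0

theorem pA_add_adj (ρ : G →* Module.End k E) (π : G →* Module.End k V) (h : QuadRel ρ π)
    (a : MonoidAlgebra k G) : pA π a + pA π (adj ρ a) = tau ρ a • 1 := by
  induction a using MonoidAlgebra.induction_on with
  | of g =>
    rw [adj_of, map_smul, pA_of, pA_of, tau_apply, rA_of]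
    have h1 := h g
    have h2 : π g * π g⁻¹ = 1 := by rw [← map_mul, mul_inv_cancel, map_one]
    have h3 : (π g * π g - LinearMap.trace k E (ρ g) • π g + LinearMap.det (ρ g) • 1) * π g⁻¹
        = 0 := by rw [h1, zero_mul]
    rw [add_mul, sub_mul, mul_assoc, h2, mul_one, smul_mul_assoc, h2, smul_mul_assoc,
      one_mul] at h3
    rw [← sub_eq_zero]
    rw [← h3]
    abel
  | add x y hx hy =>
    rw [adj_add, map_add, map_add, map_add, add_smul, ← hx, ← hy]
    abel
  | smul c x hx =>
    rw [adj_smul, map_smul, map_smul, map_smul, smul_eq_mul, mul_smul, ← hx, smul_add]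

/-- **polarised Cayley-Hamilton identity** on `V` -/
theorem polar (ρ : G →* Module.End k E) (π : G →* Module.End k V) (h : QuadRel ρ π)
    (a b : MonoidAlgebra k G) :
    pA π a * pA π b + pA π b * pA π a =
      tau ρ a • pA π b + tau ρ b • pA π a + (tau ρ (a * b) - tau ρ a * tau ρ b) • 1 := by
  have h1 := pA_add_adj ρ π h a
  have h2 := pA_add_adj ρ π h b
  have h3 := pA_add_adj ρ π h (a * b)
  rw [adj_mul, map_mul, map_mul] at h3
  have e1 : pA π (adj ρ a) = tau ρ a • 1 - pA π a := eq_sub_of_add_eq' h1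
  have e2 : pA π (adj ρ b) = tau ρ b • 1 - pA π b := eq_sub_of_add_eq' h2
  rw [e1, e2] at h3
  simp only [sub_mul, mul_sub, smul_mul_assoc, mul_smul_comm, one_mul, mul_one, smul_sub,
    smul_smul] at h3
  have h4 : pA π a * pA π b + pA π b * pA π a
      - (tau ρ a • pA π b + tau ρ b • pA π a + (tau ρ (a * b) - tau ρ a * tau ρ b) • 1)
      = (pA π a * pA π b + ((tau ρ a * tau ρ b) • (1 : Module.End k V) - tau ρ a • pA π b
          - (tau ρ b • pA π a - pA π b * pA π a))) - tau ρ (a * b) • 1 := by
    rw [sub_smul]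
    abel
  rw [← sub_eq_zero, h4, h3, sub_self]

/-! ### The kernel of `ρ` kills `V` -/

section Kernel

variable (ρ : G →* Module.End k E) (π : G →* Module.End k V)

/-- for `a ∈ ker ρ`: `n B + B n = tr(ρ b) n` -/
theorem ker_anticomm (h : QuadRel ρ π) {a : MonoidAlgebra k G} (ha : rA ρ a = 0)
    (b : MonoidAlgebra k G) :
    pA π a * pA π b + pA π b * pA π a = tau ρ b • pA π a := by
  rw [polar ρ π h a b, tau_eq_zero_of_ker ρ ha, tau_mul_eq_zero_of_ker ρ ha b]
  simp

/-- for `a ∈ ker ρ`: `n² = 0` -/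
theorem ker_sq (h2 : (2 : k) ≠ 0) (h : QuadRel ρ π) {a : MonoidAlgebra k G}
    (ha : rA ρ a = 0) : pA π a * pA π a = 0 := by
  have h1 := ker_anticomm ρ π h ha a
  rw [tau_eq_zero_of_ker ρ ha, zero_smul] at h1
  have h3 : (2 : k) • (pA π a * pA π a) = 0 := by
    rw [two_smul]; exact h1
  rcases smul_eq_zero.mp h3 with h4 | h4
  · exact absurd h4 h2
  · exact h4

/-- for `a ∈ ker ρ`: the key symmetric formula for `2 B B' n` -/
theorem ker_two_mul (h : QuadRel ρ π) {a : MonoidAlgebra k G} (ha : rA ρ a = 0)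
    (b b' : MonoidAlgebra k G) :
    (2 : k) • (pA π b * pA π b' * pA π a) =
      (tau ρ b * tau ρ b' + tau ρ (b * b')) • pA π a
        - tau ρ b' • (pA π a * pA π b) - tau ρ b • (pA π a * pA π b') := by
  have hb := ker_anticomm ρ π h ha b
  have hb' := ker_anticomm ρ π h ha b'
  have hbb := ker_anticomm ρ π h ha (b * b')
  rw [map_mul] at hbb
  -- B' n = t' n - n B'
  have e1 : pA π b' * pA π a = tau ρ b' • pA π a - pA π a * pA π b' := eq_sub_of_add_eq' hb'
  have e2 : pA π b * pA π a = tau ρ b • pA π a - pA π a * pA π b := eq_sub_of_add_eq' hb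
  have e3 : pA π a * (pA π b * pA π b') = tau ρ (b * b') • pA π a - pA π b * pA π b' * pA π a :=
    eq_sub_of_add_eq hbb
  have e4 : pA π b * pA π b' * pA π a =
      (tau ρ b * tau ρ b') • pA π a - tau ρ b' • (pA π a * pA π b)
        - tau ρ b • (pA π a * pA π b') + pA π a * (pA π b * pA π b') := by
    rw [mul_assoc, e1, mul_sub, mul_smul_comm, ← mul_assoc, e2, sub_mul, smul_mul_assoc,
      smul_sub, mul_assoc, mul_smul]
    rw [smul_comm (tau ρ b') (tau ρ b) (pA π a)]
    abel
  rw [e3] at e4
  rw [two_smul, add_smul]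
  nth_rewrite 1 [e4]
  abel

/-- for `a ∈ ker ρ`: commutators kill `n` -/
theorem ker_comm (h2 : (2 : k) ≠ 0) (h : QuadRel ρ π) {a : MonoidAlgebra k G}
    (ha : rA ρ a = 0) (b b' : MonoidAlgebra k G) :
    (pA π b * pA π b' - pA π b' * pA π b) * pA π a = 0 := by
  have h1 := ker_two_mul ρ π h ha b b'
  have h1' := ker_two_mul ρ π h ha b' b
  rw [tau_mul_comm ρ b' b, mul_comm (tau ρ b') (tau ρ b)] at h1'
  have h3 : (2 : k) • ((pA π b * pA π b' - pA π b' * pA π b) * pA π a) = 0 := by
    rw [sub_mul, smul_sub, h1, h1']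
    abel
  rcases smul_eq_zero.mp h3 with h4 | h4
  · exact absurd h4 h2
  · exact h4

/-- **the kernel of `ρ` kills `V`**, given a unit-valued square of a commutator -/
theorem ker_le_ker_of_comm (h2 : (2 : k) ≠ 0) (h : QuadRel ρ π)
    (c c' : MonoidAlgebra k G)
    (hc : rA ρ ((c * c' - c' * c) * (c * c' - c' * c)) = 1)
    {a : MonoidAlgebra k G} (ha : rA ρ a = 0) : pA π a = 0 := by
  set z : MonoidAlgebra k G := (c * c' - c' * c) * (c * c' - c' * c) with hz
  have hz1 : rA ρ (1 - z) = 0 := by rw [map_sub, map_one, hc, sub_self]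
  have hsq := ker_sq ρ π h2 h hz1
  have hcomm := ker_comm ρ π h2 h ha c c'
  have hzn : pA π z * pA π a = 0 := by
    rw [hz, map_mul, map_sub, map_mul, map_mul, mul_assoc, hcomm, mul_zero]
  have hn : pA π (1 - z) * pA π a = pA π a := by
    rw [map_sub, map_one, sub_mul, one_mul, hzn, sub_zero]
  calc pA π a = pA π (1 - z) * pA π a := hn.symm
    _ = pA π (1 - z) * (pA π (1 - z) * pA π a) := by rw [hn, hn]
    _ = (pA π (1 - z) * pA π (1 - z)) * pA π a := by rw [mul_assoc]
    _ = 0 := by rw [hsq, zero_mul]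

end Kernel

/-! ### Dimension two: a commutator with square one -/

theorem matrix_comm_sq :
    ∃ M N : Matrix (Fin 2) (Fin 2) k, (M * N - N * M) * (M * N - N * M) = 1 := by
  refine ⟨!![0, 1; 0, 0], !![0, 0; 1, 0], ?_⟩
  ext i j
  fin_cases i <;> fin_cases j <;> simp [Matrix.mul_apply, Fin.sum_univ_two]

theorem exists_comm_sq_eq_one (hE : Module.finrank k E = 2) :
    ∃ X Y : Module.End k E, (X * Y - Y * X) * (X * Y - Y * X) = 1 := by
  classical
  have : Module.Finite k E := Module.finite_of_finrank_pos (by rw [hE]; norm_num)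
  let b : Module.Basis (Fin 2) k E := Module.finBasisOfFinrankEq k E hE
  obtain ⟨M, N, hMN⟩ := matrix_comm_sq (k := k)
  refine ⟨Matrix.toLinAlgEquiv b M, Matrix.toLinAlgEquiv b N, ?_⟩
  have h1 := congrArg (Matrix.toLinAlgEquiv b) hMN
  simpa only [map_mul, map_sub, map_one] using h1

theorem exists_comm_sq_rA (hE : Module.finrank k E = 2) (ρ : G →* Module.End k E)
    (hsurj : Function.Surjective (rA ρ)) :
    ∃ c c' : MonoidAlgebra k G, rA ρ ((c * c' - c' * c) * (c * c' - c' * c)) = 1 := by
  obtain ⟨X, Y, hXY⟩ := exists_comm_sq_eq_one (k := k) (E := E) hE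
  obtain ⟨c, rfl⟩ := hsurj X
  obtain ⟨c', rfl⟩ := hsurj Y
  exact ⟨c, c', by simpa only [map_mul, map_sub] using hXY⟩

/-- **Boston-Lenstra-Ribet, kernel form**: the kernel of `k[G] → End_k(E)` kills `V`. -/
theorem ker_le_ker (h2 : (2 : k) ≠ 0) (hE : Module.finrank k E = 2)
    (ρ : G →* Module.End k E) (π : G →* Module.End k V)
    (hsurj : Function.Surjective (rA ρ)) (h : QuadRel ρ π)
    {a : MonoidAlgebra k G} (ha : rA ρ a = 0) : pA π a = 0 := by
  obtain ⟨c, c', hc⟩ := exists_comm_sq_rA hE ρ hsurj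
  exact ker_le_ker_of_comm ρ π h2 h c c' hc ha

theorem pA_congr (h2 : (2 : k) ≠ 0) (hE : Module.finrank k E = 2)
    (ρ : G →* Module.End k E) (π : G →* Module.End k V)
    (hsurj : Function.Surjective (rA ρ)) (h : QuadRel ρ π)
    {a a' : MonoidAlgebra k G} (ha : rA ρ a = rA ρ a') : pA π a = pA π a' := by
  have h1 : rA ρ (a - a') = 0 := by rw [map_sub, ha, sub_self]
  have h3 := ker_le_ker h2 hE ρ π hsurj h h1
  rw [map_sub] at h3
  exact sub_eq_zero.mp h3

/-- surjectivity of `k[G] → End_k(E)` from `span (range ρ) = ⊤` -/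
theorem surjective_rA_of_span (ρ : G →* Module.End k E)
    (hspan : Submodule.span k (Set.range ρ) = ⊤) : Function.Surjective (rA ρ) := by
  intro m
  have hm : m ∈ Submodule.span k (Set.range ρ) := by rw [hspan]; trivial
  induction hm using Submodule.span_induction with
  | mem x hx =>
    obtain ⟨g, rfl⟩ := hx
    exact ⟨of k G g, rA_of ρ g⟩
  | zero => exact ⟨0, map_zero _⟩
  | add x y _ _ hx hy =>
    obtain ⟨a, rfl⟩ := hx
    obtain ⟨a', rfl⟩ := hy
    exact ⟨a + a', map_add _ _ _⟩
  | smul c x _ hx =>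
    obtain ⟨a, rfl⟩ := hx
    exact ⟨c • a, map_smul _ _ _⟩

/-! ### The main theorem -/

/-- **Boston-Lenstra-Ribet, embedding form**: if `V ≠ 0` there is an injective `k`-linear
`G`-equivariant map `E → V`. -/
theorem exists_injective_equivariant (h2 : (2 : k) ≠ 0) (hE : Module.finrank k E = 2)
    (ρ : G →* Module.End k E) (π : G →* Module.End k V)
    (hsurj : Function.Surjective (rA ρ)) (h : QuadRel ρ π) [Nontrivial V] :
    ∃ φ : E →ₗ[k] V, Function.Injective φ ∧ ∀ (g : G) (x : E), φ (ρ g x) = π g (φ x) := by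
  classical
  have hcong : ∀ {a a' : MonoidAlgebra k G}, rA ρ a = rA ρ a' → pA π a = pA π a' :=
    fun ha => pA_congr h2 hE ρ π hsurj h ha
  have : Module.Finite k E := Module.finite_of_finrank_pos (by rw [hE]; norm_num)
  let b : Module.Basis (Fin 2) k E := Module.finBasisOfFinrankEq k E hE
  -- a set-theoretic section of `rA ρ`
  choose s hs using hsurj
  -- the maps `y ↦ coord_i y • x`
  let m : Fin 2 → E → Module.End k E := fun i x => (b.coord i).smulRight x
  have hm_apply : ∀ i x y, m i x y = b.coord i y • x := fun i x y => rfl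
  have hsum : ∑ i, m i (b i) = 1 := by
    apply LinearMap.ext
    intro y
    rw [LinearMap.sum_apply]
    simp only [hm_apply, Module.End.one_apply]
    exact b.sum_repr y
  -- a nonzero vector in the image of one of the idempotents
  obtain ⟨v, hv⟩ := exists_ne (0 : V)
  have hex : ∃ i, pA π (s (m i (b i))) v ≠ 0 := by
    by_contra hcon
    replace hcon : ∀ i, pA π (s (m i (b i))) v = 0 := fun i => by
      by_contra hne
      exact hcon ⟨i, hne⟩
    have h1 : rA ρ (∑ i, s (m i (b i))) = rA ρ 1 := by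
      rw [map_sum, map_one]
      simp only [hs]
      exact hsum
    have h3 := hcong h1
    rw [map_sum, map_one] at h3
    have h4 : (∑ i, pA π (s (m i (b i)))) v = v := by rw [h3]; rfl
    rw [LinearMap.sum_apply] at h4
    apply hv
    rw [← h4]
    exact Finset.sum_eq_zero (fun i _ => hcon i)
  obtain ⟨i, hi⟩ := hex
  set w : V := pA π (s (m i (b i))) v with hw
  have hidem : m i (b i) * m i (b i) = m i (b i) := by
    apply LinearMap.ext
    intro y
    simp only [Module.End.mul_apply, hm_apply, map_smul, Module.Basis.coord_apply,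
      Module.Basis.repr_self, Finsupp.single_eq_same, smul_eq_mul, mul_one]
  have hww : pA π (s (m i (b i))) w = w := by
    have h1 : rA ρ (s (m i (b i)) * s (m i (b i))) = rA ρ (s (m i (b i))) := by
      rw [map_mul, hs, hidem]
    have h3 := hcong h1
    rw [map_mul] at h3
    rw [hw]
    change (pA π (s (m i (b i))) * pA π (s (m i (b i)))) v = _
    rw [h3]
  -- the map
  have hadd : ∀ x y, m i (x + y) = m i x + m i y := by
    intro x y
    apply LinearMap.ext
    intro t
    simp only [hm_apply, LinearMap.add_apply, smul_add]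
  have hsmul : ∀ (c : k) x, m i (c • x) = c • m i x := by
    intro c x
    apply LinearMap.ext
    intro t
    simp only [hm_apply, LinearMap.smul_apply, smul_comm c]
  let φ : E →ₗ[k] V :=
    { toFun := fun x => pA π (s (m i x)) w
      map_add' := by
        intro x y
        have h1 : rA ρ (s (m i (x + y))) = rA ρ (s (m i x) + s (m i y)) := by
          rw [map_add, hs, hs, hs, hadd]
        rw [hcong h1, map_add]
        rfl
      map_smul' := by
        intro c x
        have h1 : rA ρ (s (m i (c • x))) = rA ρ (c • s (m i x)) := by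
          rw [map_smul, hs, hs, hsmul]
        rw [hcong h1, map_smul]
        rfl }
  have hφ : ∀ x, φ x = pA π (s (m i x)) w := fun x => rfl
  refine ⟨φ, ?_, ?_⟩
  · -- injectivity
    rw [injective_iff_map_eq_zero]
    intro x hx
    by_contra hx0
    obtain ⟨j, hj⟩ : ∃ j, b.coord j x ≠ 0 := by
      by_contra hcon
      replace hcon : ∀ j, b.coord j x = 0 := fun j => by
        by_contra hne
        exact hcon ⟨j, hne⟩
      exact hx0 ((Module.Basis.forall_coord_eq_zero_iff b).mp hcon)
    have h1 : rA ρ (s ((b.coord j).smulRight (b i)) * s (m i x))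
        = rA ρ (b.coord j x • s (m i (b i))) := by
      rw [map_mul, map_smul, hs, hs, hs]
      apply LinearMap.ext
      intro t
      simp only [Module.End.mul_apply, hm_apply, LinearMap.smulRight_apply, map_smul,
        LinearMap.smul_apply]
      rw [smul_comm]
    have h3 := hcong h1
    rw [map_mul, map_smul] at h3
    have h4 : (pA π (s ((b.coord j).smulRight (b i))) * pA π (s (m i x))) w
        = (b.coord j x • pA π (s (m i (b i)))) w := by rw [h3]
    rw [Module.End.mul_apply, ← hφ, hx, map_zero, LinearMap.smul_apply, hww] at h4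
    rcases smul_eq_zero.mp h4.symm with h5 | h5
    · exact hj h5
    · exact hi h5
  · -- equivariance
    intro g x
    have h1 : rA ρ (s (m i (ρ g x))) = rA ρ (of k G g * s (m i x)) := by
      rw [map_mul, rA_of, hs, hs]
      apply LinearMap.ext
      intro t
      simp only [Module.End.mul_apply, hm_apply, map_smul]
    have h3 := hcong h1
    rw [map_mul, pA_of] at h3
    rw [hφ, hφ, h3]
    rfl

/-- **Boston-Lenstra-Ribet, submodule form**: if `V ≠ 0` there is a `G`-stable subspace `W ⊆ V`
and a `G`-equivariant `k`-linear isomorphism `E ≃ W`. -/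
theorem exists_equiv_stable_submodule (h2 : (2 : k) ≠ 0) (hE : Module.finrank k E = 2)
    (ρ : G →* Module.End k E) (π : G →* Module.End k V)
    (hsurj : Function.Surjective (rA ρ)) (h : QuadRel ρ π) [Nontrivial V] :
    ∃ (W : Submodule k V) (e : E ≃ₗ[k] W), (∀ (g : G) (x : V), x ∈ W → π g x ∈ W) ∧
      ∀ (g : G) (x : E), ((e (ρ g x) : W) : V) = π g ((e x : W) : V) := by
  obtain ⟨φ, hinj, heq⟩ := exists_injective_equivariant h2 hE ρ π hsurj h
  refine ⟨LinearMap.range φ, LinearEquiv.ofInjective φ hinj, ?_, ?_⟩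
  · rintro g x ⟨y, rfl⟩
    exact ⟨ρ g y, heq g y⟩
  · intro g x
    simp only [LinearEquiv.ofInjective_apply]
    exact heq g x

end Fermat.Agent.T8.helper79

end
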