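import Mathlib
import Fermat.Agent.T8.helper79_BLR
import Fermat.Agent.T6.helper67_CmpMid

/-!
# T8 / S44, box [REAL-CHEB] (helper10): the abstract algebra

`k` a field, `E` a `k`-vector space of dimension `2`, `ρ : G →* End_k(E)`, `π : G →* End_k(V)`,
`χ : G →* k`.  Suppose that every `s ∈ G` satisfies on `E` AND on `V` a common quadratic relation
`s² - v s + χ(s) = 0` (`v ∈ k` depending on `s`), and that `ρ` has a non-scalar element.  Then
`det ρ = χ`, `v = tr ρ(s)` and `helper79.QuadRel ρ π` holds
(`quadRel_of_common`).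
-/

set_option autoImplicit false
set_option linter.unusedSectionVars false
set_option linter.style.longLine false
set_option linter.unusedVariables false
set_option linter.style.haveILetI false

noncomputable section

namespace Fermat.Agent.T8.helper10

open Fermat.Agent.T8.helper79

variable {k G E V : Type*} [Field k] [Group G] [AddCommGroup E] [Module k E]
  [AddCommGroup V] [Module k V]

/-- `End_k(E)` is nontrivial in dimension `2` -/
theorem end_one_ne_zero_rc (hE : Module.finrank k E = 2) : (1 : Module.End k E) ≠ 0 := by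
  haveI : Nontrivial E := Module.nontrivial_of_finrank_pos (R := k) (by rw [hE]; norm_num)
  exact one_ne_zero

/-- a non-scalar endomorphism in dimension `2` has a unique monic quadratic relation -/
theorem tr_det_eq_of_quad_rc (hE : Module.finrank k E = 2) (f : Module.End k E) (v d : k)
    (hq : f * f - v • f + d • (1 : Module.End k E) = 0)
    (hns : ∀ c : k, f ≠ c • (1 : Module.End k E)) :
    LinearMap.trace k E f = v ∧ LinearMap.det f = d := by
  haveI : Module.Finite k E := Module.finite_of_finrank_pos (by rw [hE]; norm_num)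
  have hCH := Fermat.Agent.T6.helper67.quad_of_finrank_two hE f
  have hdiff : (LinearMap.trace k E f - v) • f = (LinearMap.det f - d) • (1 : Module.End k E) := by
    have : (LinearMap.trace k E f - v) • f - (LinearMap.det f - d) • (1 : Module.End k E) =
        (f * f - v • f + d • (1 : Module.End k E)) -
          (f * f - LinearMap.trace k E f • f + LinearMap.det f • (1 : Module.End k E)) := by
      rw [sub_smul, sub_smul]; abel
    rw [hq, hCH, sub_zero] at this
    exact sub_eq_zero.mp this
  have htr : LinearMap.trace k E f = v := by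
    by_contra hne
    have hne' : LinearMap.trace k E f - v ≠ 0 := sub_ne_zero.mpr hne
    apply hns ((LinearMap.trace k E f - v)⁻¹ * (LinearMap.det f - d))
    rw [mul_smul, ← hdiff, smul_smul, inv_mul_cancel₀ hne', one_smul]
  refine ⟨htr, ?_⟩
  rw [htr, sub_self, zero_smul] at hdiff
  have h1 := hdiff.symm
  rcases smul_eq_zero.mp h1 with h2 | h2
  · exact sub_eq_zero.mp h2
  · exact absurd h2 (end_one_ne_zero_rc hE)

/-- an invertible endomorphism in dimension `2` satisfying `f² - v f + det f = 0` has trace `v` -/
theorem tr_eq_of_quad_det_rc (hE : Module.finrank k E = 2) (f g : Module.End k E) (v : k)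
    (hfg : f * g = 1)
    (hq : f * f - v • f + LinearMap.det f • (1 : Module.End k E) = 0) :
    LinearMap.trace k E f = v := by
  haveI : Module.Finite k E := Module.finite_of_finrank_pos (by rw [hE]; norm_num)
  have hCH := Fermat.Agent.T6.helper67.quad_of_finrank_two hE f
  have hdiff : (LinearMap.trace k E f - v) • f = 0 := by
    have : (LinearMap.trace k E f - v) • f =
        (f * f - v • f + LinearMap.det f • (1 : Module.End k E)) -
          (f * f - LinearMap.trace k E f • f + LinearMap.det f • (1 : Module.End k E)) := by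
      rw [sub_smul]; abel
    rw [hq, hCH, sub_zero] at this
    exact this
  have h1 : (LinearMap.trace k E f - v) • (1 : Module.End k E) = 0 := by
    rw [← hfg, ← smul_mul_assoc, hdiff, zero_mul]
  rcases smul_eq_zero.mp h1 with h2 | h2
  · exact sub_eq_zero.mp h2
  · exact absurd h2 (end_one_ne_zero_rc hE)

/-- the determinant of an invertible endomorphism is nonzero -/
theorem det_ne_zero_of_mul_eq_one_rc (hE : Module.finrank k E = 2) (f g : Module.End k E)
    (hfg : f * g = 1) : LinearMap.det f ≠ 0 := by
  intro h0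
  have h1 : LinearMap.det (f * g) = 1 := by rw [hfg, map_one]
  rw [map_mul, h0, zero_mul] at h1
  exact zero_ne_one h1

/-- **the determinant is the character**: if every `s` satisfies on `E` a quadratic relation with
constant term `χ(s)` and `ρ` has a non-scalar element, then `det ρ = χ`. -/
theorem det_eq_char_rc (hE : Module.finrank k E = 2) (ρ : G →* Module.End k E) (χ : G →* k)
    (hq : ∀ s : G, ∃ v : k, ρ s * ρ s - v • ρ s + χ s • (1 : Module.End k E) = 0)
    (g : G) (hg : ∀ c : k, ρ g ≠ c • (1 : Module.End k E)) (s : G) :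
    LinearMap.det (ρ s) = χ s := by
  have hinv : ∀ t : G, ρ t * ρ t⁻¹ = 1 := fun t => by rw [← map_mul, mul_inv_cancel, map_one]
  by_cases hs : ∀ c : k, ρ s ≠ c • (1 : Module.End k E)
  · obtain ⟨v, hv⟩ := hq s
    exact (tr_det_eq_of_quad_rc hE (ρ s) v (χ s) hv hs).2
  · push Not at hs
    obtain ⟨c, hc⟩ := hs
    have hc0 : c ≠ 0 := by
      intro h0
      have h1 := hinv s
      rw [hc, h0, zero_smul, zero_mul] at h1
      exact end_one_ne_zero_rc hE h1.symm
    -- `s g` is not scalar
    have hsg : ∀ c' : k, ρ (s * g) ≠ c' • (1 : Module.End k E) := by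
      intro c' h
      apply hg (c⁻¹ * c')
      rw [map_mul, hc, smul_mul_assoc, one_mul] at h
      rw [mul_smul, ← h, smul_smul, inv_mul_cancel₀ hc0, one_smul]
    obtain ⟨v1, hv1⟩ := hq (s * g)
    obtain ⟨v2, hv2⟩ := hq g
    have h1 := (tr_det_eq_of_quad_rc hE (ρ (s * g)) v1 (χ (s * g)) hv1 hsg).2
    have h2 := (tr_det_eq_of_quad_rc hE (ρ g) v2 (χ g) hv2 hg).2
    rw [map_mul, map_mul, map_mul, h2] at h1
    have h3 : χ g ≠ 0 := by
      rw [← h2]
      exact det_ne_zero_of_mul_eq_one_rc hE _ _ (hinv g)
    exact mul_right_cancel₀ h3 h1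

/-- **the quadratic relation on `V`** from common quadratic relations on `E` and `V`. -/
theorem quadRel_of_common (hE : Module.finrank k E = 2) (ρ : G →* Module.End k E)
    (π : G →* Module.End k V) (χ : G →* k)
    (hq : ∀ s : G, ∃ v : k, ρ s * ρ s - v • ρ s + χ s • (1 : Module.End k E) = 0 ∧
      π s * π s - v • π s + χ s • (1 : Module.End k V) = 0)
    (g : G) (hg : ∀ c : k, ρ g ≠ c • (1 : Module.End k E)) :
    (∀ s : G, LinearMap.det (ρ s) = χ s) ∧ QuadRel ρ π := by
  have hdet : ∀ s : G, LinearMap.det (ρ s) = χ s :=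
    det_eq_char_rc hE ρ χ (fun s => (hq s).imp fun v hv => hv.1) g hg
  refine ⟨hdet, fun s => ?_⟩
  obtain ⟨v, hv1, hv2⟩ := hq s
  have hinv : ρ s * ρ s⁻¹ = 1 := by rw [← map_mul, mul_inv_cancel, map_one]
  rw [← hdet s] at hv1
  rw [tr_eq_of_quad_det_rc hE (ρ s) (ρ s⁻¹) v hinv hv1, hdet s]
  exact hv2

/-- in an irreducible representation of dimension `2` some element is not scalar -/
theorem exists_not_scalar_rc (hE : Module.finrank k E = 2) (ρ : G →* Module.End k E)
    (hirr : ∀ N : Submodule k E, (∀ (g : G) (x : E), x ∈ N → ρ g x ∈ N) → N = ⊥ ∨ N = ⊤) :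
    ∃ g : G, ∀ c : k, ρ g ≠ c • (1 : Module.End k E) := by
  by_contra hcon
  push Not at hcon
  haveI : Module.Finite k E := Module.finite_of_finrank_pos (by rw [hE]; norm_num)
  haveI : Nontrivial E := Module.nontrivial_of_finrank_pos (R := k) (by rw [hE]; norm_num)
  obtain ⟨x, hx⟩ := exists_ne (0 : E)
  have hst : ∀ (g : G) (y : E), y ∈ Submodule.span k {x} → ρ g y ∈ Submodule.span k {x} := by
    intro g y hy
    obtain ⟨c, hc⟩ := hcon g
    rw [hc, LinearMap.smul_apply, Module.End.one_apply]
    exact Submodule.smul_mem _ _ hy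
  rcases hirr _ hst with h | h
  · exact hx ((Submodule.span_singleton_eq_bot).mp h)
  · have h1 : Module.finrank k (Submodule.span k {x}) = 1 := finrank_span_singleton hx
    rw [h, finrank_top, hE] at h1
    norm_num at h1

end Fermat.Agent.T8.helper10

end
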