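import Fermat.Agent.T8.helper79_BLR

/-!
# T8 [REAL-SPAN] (helper79): a Burnside-type lemma in dimension two

Let `dim_k E = 2`, `ρ : G →* End_k(E)` with no proper nonzero `G`-stable subspace, and let `g₀`
be an element such that `ρ g₀` is annihilated by `(T - lam)(T - mu)` with `lam ≠ mu` in `k` and
is not a scalar.  Then `k[G] → End_k(E)` is surjective (`surjective_rA_of_irreducible`) and
`span_k (range ρ) = ⊤` (`span_range_eq_top_of_irreducible`).

Proof: the spectral idempotents `P₁, P₂` of `ρ g₀` lie in the image; irreducibility gives `g, g'`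
with `P₂ ρ(g) P₁ ≠ 0` and `P₁ ρ(g') P₂ ≠ 0`; the four elements `P₁, P₂, P₂ ρ(g) P₁, P₁ ρ(g') P₂`
are linearly independent in the four-dimensional space `End_k(E)`.
-/

set_option autoImplicit false

noncomputable section

namespace Fermat.Agent.T8.helper79

open MonoidAlgebra

variable {k G E : Type*} [Field k] [Group G] [AddCommGroup E] [Module k E]

/-- complementary idempotents and irreducibility give a nonzero off-diagonal block -/
theorem exists_offdiag_ne_zero (ρ : G →* Module.End k E)
    (hirr : ∀ N : Submodule k E, (∀ (g : G), ∀ x ∈ N, ρ g x ∈ N) → N = ⊥ ∨ N = ⊤)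
    (P Q : Module.End k E) (hPQ : P + Q = 1) (hQP : Q * P = 0) (hP : P ≠ 0) (hQ : Q ≠ 0) :
    ∃ g : G, Q * ρ g * P ≠ 0 := by
  by_contra hcon
  replace hcon : ∀ g : G, Q * ρ g * P = 0 := fun g => by
    by_contra hne
    exact hcon ⟨g, hne⟩
  have hstable : ∀ (g : G), ∀ x ∈ LinearMap.range P, ρ g x ∈ LinearMap.range P := by
    rintro g x ⟨y, rfl⟩
    refine ⟨ρ g (P y), ?_⟩
    have h1 : (P + Q) (ρ g (P y)) = ρ g (P y) := by rw [hPQ]; rfl
    have h2 : Q (ρ g (P y)) = 0 := by
      have := congrArg (fun f : Module.End k E => f y) (hcon g)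
      simpa [Module.End.mul_apply] using this
    rw [LinearMap.add_apply, h2, add_zero] at h1
    exact h1
  rcases hirr _ hstable with h | h
  · apply hP
    apply LinearMap.ext
    intro y
    have : P y ∈ LinearMap.range P := ⟨y, rfl⟩
    rw [h] at this
    simpa using this
  · apply hQ
    apply LinearMap.ext
    intro x
    have hx : x ∈ LinearMap.range P := by rw [h]; trivial
    obtain ⟨y, rfl⟩ := hx
    have := congrArg (fun f : Module.End k E => f y) hQP
    simpa [Module.End.mul_apply] using this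

/-- four elements `P₁, P₂, A = P₂ A P₁, B = P₁ B P₂` (nonzero) are linearly independent -/
theorem linearIndependent_blocks (P Q A B : Module.End k E)
    (hPP : P * P = P) (hQQ : Q * Q = Q) (hPQ : P * Q = 0) (hQP : Q * P = 0)
    (hA : Q * A * P = A) (hB : P * B * Q = B)
    (hP0 : P ≠ 0) (hQ0 : Q ≠ 0) (hA0 : A ≠ 0) (hB0 : B ≠ 0) :
    LinearIndependent k ![P, Q, A, B] := by
  rw [Fintype.linearIndependent_iff]
  intro c hc
  rw [Fin.sum_univ_four] at hc
  simp only [Matrix.cons_val_zero, Matrix.cons_val_one, Matrix.cons_val_two,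
    Matrix.cons_val_three, Matrix.head_cons, Matrix.tail_cons] at hc
  -- block relations
  have hPA : P * A = 0 := by rw [← hA, ← mul_assoc, ← mul_assoc, hPQ, zero_mul, zero_mul]
  have hAQ : A * Q = 0 := by rw [← hA, mul_assoc, hPQ, mul_zero]
  have hQB : Q * B = 0 := by rw [← hB, ← mul_assoc, ← mul_assoc, hQP, zero_mul, zero_mul]
  have hBP : B * P = 0 := by rw [← hB, mul_assoc, hQP, mul_zero]
  have hQA : Q * A = A := by
    rw [← hA, ← mul_assoc, ← mul_assoc, hQQ]
  have hAP : A * P = A := by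
    rw [← hA, mul_assoc, hPP]
  have hPB : P * B = B := by
    rw [← hB, ← mul_assoc, ← mul_assoc, hPP]
  have hBQ : B * Q = B := by
    rw [← hB, mul_assoc, hQQ]
  have key : ∀ X Y : Module.End k E,
      X * (c 0 • P + c 1 • Q + c 2 • A + c 3 • B) * Y = 0 := by
    intro X Y; rw [hc, mul_zero, zero_mul]
  have e0 : c 0 • P = 0 := by
    have := key P P
    simpa only [mul_add, add_mul, mul_smul_comm, smul_mul_assoc, hPP, hPQ, hPA, hBP, hPB,
      zero_mul, mul_zero, smul_zero, add_zero] using this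
  have e1 : c 1 • Q = 0 := by
    have := key Q Q
    simpa only [mul_add, add_mul, mul_smul_comm, smul_mul_assoc, hQQ, hQP, hQB, hAQ, hQA,
      zero_mul, mul_zero, smul_zero, add_zero, zero_add] using this
  have e2 : c 2 • A = 0 := by
    have := key Q P
    simpa only [mul_add, add_mul, mul_smul_comm, smul_mul_assoc, hQQ, hQP, hQB, hQA, hAP, hPP,
      zero_mul, mul_zero, smul_zero, add_zero, zero_add] using this
  have e3 : c 3 • B = 0 := by
    have := key P Q
    simpa only [mul_add, add_mul, mul_smul_comm, smul_mul_assoc, hPP, hPQ, hPA, hPB, hBQ, hQQ,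
      zero_mul, mul_zero, smul_zero, add_zero, zero_add] using this
  intro i
  fin_cases i
  · exact (smul_eq_zero.mp e0).resolve_right hP0
  · exact (smul_eq_zero.mp e1).resolve_right hQ0
  · exact (smul_eq_zero.mp e2).resolve_right hA0
  · exact (smul_eq_zero.mp e3).resolve_right hB0

/-- **Burnside in dimension two**: an irreducible `ρ` containing a non-scalar element with two
distinct eigenvalues in `k` generates `End_k(E)`. -/
theorem surjective_rA_of_irreducible (hE : Module.finrank k E = 2) (ρ : G →* Module.End k E)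
    (hirr : ∀ N : Submodule k E, (∀ (g : G), ∀ x ∈ N, ρ g x ∈ N) → N = ⊥ ∨ N = ⊤)
    (g0 : G) (lam mu : k) (hne : lam ≠ mu)
    (hq : (ρ g0 - lam • 1) * (ρ g0 - mu • 1) = 0)
    (h1 : ρ g0 ≠ lam • 1) (h2 : ρ g0 ≠ mu • 1) :
    Function.Surjective (rA ρ) := by
  classical
  have hfin : Module.Finite k E := Module.finite_of_finrank_pos (by rw [hE]; norm_num)
  set c : Module.End k E := ρ g0 with hc
  have hd : lam - mu ≠ 0 := sub_ne_zero.mpr hne
  have hd' : mu - lam ≠ 0 := sub_ne_zero.mpr (Ne.symm hne)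
  set P : Module.End k E := (lam - mu)⁻¹ • (c - mu • 1) with hP
  set Q : Module.End k E := (mu - lam)⁻¹ • (c - lam • 1) with hQ
  have hq' : (c - mu • 1) * (c - lam • 1) = 0 := by
    have : (c - mu • 1) * (c - lam • 1) = (c - lam • 1) * (c - mu • 1) := by
      simp only [sub_mul, mul_sub, smul_mul_assoc, mul_smul_comm, one_mul, mul_one, smul_sub]
      rw [smul_comm mu lam (1 : Module.End k E)]
      abel
    rw [this, hq]
  have hPQ1 : P + Q = 1 := by
    have e : (mu - lam)⁻¹ = -(lam - mu)⁻¹ := by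
      rw [← neg_sub lam mu, neg_inv]
    rw [hP, hQ, e, neg_smul, ← sub_eq_add_neg, ← smul_sub]
    have : c - mu • 1 - (c - lam • 1) = (lam - mu) • (1 : Module.End k E) := by
      rw [sub_smul]; abel
    rw [this, smul_smul, inv_mul_cancel₀ hd, one_smul]
  have hPQ : P * Q = 0 := by
    rw [hP, hQ, smul_mul_smul_comm, hq', smul_zero]
  have hQP : Q * P = 0 := by
    rw [hP, hQ, smul_mul_smul_comm, hq, smul_zero]
  have hPP : P * P = P := by
    have : P * (P + Q) = P := by rw [hPQ1, mul_one]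
    rwa [mul_add, hPQ, add_zero] at this
  have hQQ : Q * Q = Q := by
    have : Q * (P + Q) = Q := by rw [hPQ1, mul_one]
    rwa [mul_add, hQP, zero_add] at this
  have hP0 : P ≠ 0 := by
    intro h0
    rw [hP] at h0
    rcases smul_eq_zero.mp h0 with h3 | h3
    · exact inv_ne_zero hd h3
    · exact h2 (sub_eq_zero.mp h3)
  have hQ0 : Q ≠ 0 := by
    intro h0
    rw [hQ] at h0
    rcases smul_eq_zero.mp h0 with h3 | h3
    · exact inv_ne_zero hd' h3
    · exact h1 (sub_eq_zero.mp h3)
  obtain ⟨g, hg⟩ := exists_offdiag_ne_zero ρ hirr P Q hPQ1 hQP hP0 hQ0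
  obtain ⟨g', hg'⟩ := exists_offdiag_ne_zero ρ hirr Q P (by rw [add_comm]; exact hPQ1) hPQ hQ0 hP0
  -- the four elements are in the range
  have hcR : c ∈ (rA ρ).range := ⟨of k G g0, rA_of ρ g0⟩
  have hPR : P ∈ (rA ρ).range :=
    Subalgebra.smul_mem _ (Subalgebra.sub_mem _ hcR
      (Subalgebra.smul_mem _ (Subalgebra.one_mem _) _)) _
  have hQR : Q ∈ (rA ρ).range :=
    Subalgebra.smul_mem _ (Subalgebra.sub_mem _ hcR
      (Subalgebra.smul_mem _ (Subalgebra.one_mem _) _)) _
  have hgR : ∀ g : G, ρ g ∈ (rA ρ).range := fun g => ⟨of k G g, rA_of ρ g⟩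
  have hAR : Q * ρ g * P ∈ (rA ρ).range :=
    Subalgebra.mul_mem _ (Subalgebra.mul_mem _ hQR (hgR g)) hPR
  have hBR : P * ρ g' * Q ∈ (rA ρ).range :=
    Subalgebra.mul_mem _ (Subalgebra.mul_mem _ hPR (hgR g')) hQR
  have hli := linearIndependent_blocks P Q (Q * ρ g * P) (P * ρ g' * Q) hPP hQQ hPQ hQP
    (by
      calc Q * (Q * ρ g * P) * P = (Q * Q) * ρ g * (P * P) := by simp only [mul_assoc]
        _ = Q * ρ g * P := by rw [hQQ, hPP])
    (by
      calc P * (P * ρ g' * Q) * Q = (P * P) * ρ g' * (Q * Q) := by simp only [mul_assoc]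
        _ = P * ρ g' * Q := by rw [hPP, hQQ])
    hP0 hQ0 hg hg'
  have hcard : Fintype.card (Fin 4) = Module.finrank k (Module.End k E) := by
    rw [Module.finrank_linearMap, hE, Fintype.card_fin]
  have htop := hli.span_eq_top_of_card_eq_finrank hcard
  have hle : Submodule.span k (Set.range ![P, Q, Q * ρ g * P, P * ρ g' * Q])
      ≤ Subalgebra.toSubmodule (rA ρ).range := by
    rw [Submodule.span_le]
    rintro x ⟨i, rfl⟩
    fin_cases i
    · exact hPR
    · exact hQR
    · exact hAR
    · exact hBR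
  rw [htop] at hle
  intro m
  have hm : m ∈ Subalgebra.toSubmodule (rA ρ).range := hle trivial
  exact hm

/-- the same with `span (range ρ) = ⊤` as conclusion -/
theorem span_range_eq_top_of_irreducible (hE : Module.finrank k E = 2)
    (ρ : G →* Module.End k E)
    (hirr : ∀ N : Submodule k E, (∀ (g : G), ∀ x ∈ N, ρ g x ∈ N) → N = ⊥ ∨ N = ⊤)
    (g0 : G) (lam mu : k) (hne : lam ≠ mu)
    (hq : (ρ g0 - lam • 1) * (ρ g0 - mu • 1) = 0)
    (h1 : ρ g0 ≠ lam • 1) (h2 : ρ g0 ≠ mu • 1) :
    Submodule.span k (Set.range ρ) = ⊤ := by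
  have hs := surjective_rA_of_irreducible hE ρ hirr g0 lam mu hne hq h1 h2
  have hall : ∀ a : MonoidAlgebra k G, rA ρ a ∈ Submodule.span k (Set.range ρ) := by
    intro a
    induction a using MonoidAlgebra.induction_on with
    | of g =>
      rw [rA_of]
      exact Submodule.subset_span ⟨g, rfl⟩
    | add x y hx hy =>
      rw [map_add]
      exact Submodule.add_mem _ hx hy
    | smul r x hx =>
      rw [map_smul]
      exact Submodule.smul_mem _ r hx
  rw [eq_top_iff]
  intro m _
  obtain ⟨a, rfl⟩ := hs m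
  exact hall a

/-- **BLR with irreducibility**: the combination used by [REAL]. -/
theorem exists_equiv_stable_submodule_of_irreducible {V : Type*} [AddCommGroup V] [Module k V]
    (h2 : (2 : k) ≠ 0) (hE : Module.finrank k E = 2)
    (ρ : G →* Module.End k E) (π : G →* Module.End k V)
    (hirr : ∀ N : Submodule k E, (∀ (g : G), ∀ x ∈ N, ρ g x ∈ N) → N = ⊥ ∨ N = ⊤)
    (g0 : G) (lam mu : k) (hne : lam ≠ mu)
    (hq : (ρ g0 - lam • 1) * (ρ g0 - mu • 1) = 0)
    (h1 : ρ g0 ≠ lam • 1) (h2' : ρ g0 ≠ mu • 1)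
    (h : QuadRel ρ π) [Nontrivial V] :
    ∃ (W : Submodule k V) (e : E ≃ₗ[k] W), (∀ (g : G) (x : V), x ∈ W → π g x ∈ W) ∧
      ∀ (g : G) (x : E), ((e (ρ g x) : W) : V) = π g ((e x : W) : V) :=
  exists_equiv_stable_submodule h2 hE ρ π
    (surjective_rA_of_irreducible hE ρ hirr g0 lam mu hne hq h1 h2') h

end Fermat.Agent.T8.helper79

end
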