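import Fermat.Agent.T8.helper10_RealChebDefs
import Fermat.Agent.T8.helper10_RealChebAlg
import Fermat.Agent.T8.helper79_Span
import Fermat.Agent.S58.helper7_EcTors
import Fermat.Agent.S58.helper7_EcFrob
import Fermat.Agent.T6.helper85_ContT6
import Fermat.Agent.T6.helper85_FinT6
import Fermat.Agent.P3.helper26_Cyclo
import Fermat.Agent.P6.helper78_VC
import Fermat.Agent.S04.Wiring

/-!
# T8 / S44, box [REAL-CHEB] (helper10): proof of the contract

`realCheb : RealChebStatement` (contract of `helper10_RealChebDefs.lean`), unconditional.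

* `smul_pow_dickson`, `sub_pow_dickson` : the Dickson relation for the powers of an element
  satisfying a quadratic relation on a module with an additive action.
* `exists_common_quad` : **transfer** (weak Chebotarev `P3.helper40.chebStatement` over the
  compositum of the fields of definition of `E[p]`, of `X` and of the `p`-th roots of unity):
  every `s` satisfies on `E[p]` and on `X` a common relation `s² - V s + D = 0` with integers
  `V`, `D`, `D ≡ χ_cyc(s)` modulo `p`.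
* `common_quad_end`, `conj_facts` : the hypotheses of the abstract algebra
  (`helper10_RealChebAlg.lean`: `det ρ_E = χ_cyc`, `QuadRel`) and of the Boston - Lenstra - Ribet
  step (`helper79_BLR.lean`, `helper79_Span.lean`), with complex conjugation as the element with
  two distinct eigenvalues.
* `realCheb_gen` : the statement for a general curve with non-zero discriminant.
-/

set_option autoImplicit false
set_option linter.unusedSectionVars false
set_option linter.style.longLine false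
set_option linter.unusedVariables false
set_option linter.style.haveILetI false

noncomputable section

namespace Fermat.Agent.T8.helper10

open ModularCurve WeierstrassCurve WeierstrassCurve.Affine WeierstrassCurve.Affine.Point
open Fermat.Agent.T8.helper72 Fermat.Agent.P3 Fermat.Agent.P6.helper78 Polynomial

/-! ## Dickson for a general additive action -/

section Dickson

variable {G Y : Type*} [Group G] [AddCommGroup Y] [DistribMulAction G Y]

/-- the action by `ℤ`-linear endomorphisms -/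
def actEnd (G Y : Type*) [Group G] [AddCommGroup Y] [DistribMulAction G Y] :
    G →* Module.End ℤ Y where
  toFun σ := (DistribSMul.toAddMonoidHom Y σ).toIntLinearMap
  map_one' := by
    apply LinearMap.ext
    intro y
    exact one_smul G y
  map_mul' σ τ := by
    apply LinearMap.ext
    intro y
    exact mul_smul σ τ y

@[simp]
theorem actEnd_apply (σ : G) (y : Y) : actEnd G Y σ y = σ • y := rfl

/-- the Dickson relation for a power -/
theorem smul_pow_dickson (φ : G) (a b : ℤ)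
    (h : ∀ y : Y, φ • φ • y - a • (φ • y) + b • y = 0) (j : ℕ) (y : Y) :
    (φ ^ j) • (φ ^ j) • y - (dickson 1 b j).eval a • ((φ ^ j) • y) + b ^ j • y = 0 := by
  set x : (Module.End ℤ Y)ˣ := Units.map (actEnd G Y) (toUnits φ) with hx
  have hxc : ((x : (Module.End ℤ Y)ˣ) : Module.End ℤ Y) = actEnd G Y φ := rfl
  have hrel : ((x : (Module.End ℤ Y)ˣ) : Module.End ℤ Y) * x -
      algebraMap ℤ (Module.End ℤ Y) a * x + algebraMap ℤ (Module.End ℤ Y) b = 0 := by
    apply LinearMap.ext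
    intro z
    rw [LinearMap.add_apply, LinearMap.sub_apply, Module.End.mul_apply, Module.End.mul_apply,
      Module.algebraMap_end_apply, Module.algebraMap_end_apply, LinearMap.zero_apply, hxc,
      actEnd_apply, actEnd_apply]
    exact h z
  have hcomm : Commute (algebraMap ℤ (Module.End ℤ Y) a)
      ((x : (Module.End ℤ Y)ˣ) : Module.End ℤ Y) :=
    Algebra.commute_algebraMap_left a _
  have hD := Fermat.Agent.P3.helper64.unit_pow_add_eq_dickson x
    (algebraMap ℤ (Module.End ℤ Y) a) b hcomm hrel j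
  rw [Polynomial.aeval_algebraMap_apply] at hD
  have hxj : ((x : (Module.End ℤ Y)ˣ) : Module.End ℤ Y) ^ j = actEnd G Y (φ ^ j) := by
    rw [hxc, map_pow]
  have hxinv : (((x⁻¹ : (Module.End ℤ Y)ˣ)) : Module.End ℤ Y) ^ j * actEnd G Y (φ ^ j) = 1 := by
    rw [← hxj, ← Units.val_pow_eq_pow_val, ← Units.val_pow_eq_pow_val, ← Units.val_mul,
      inv_pow, inv_mul_cancel, Units.val_one]
  have h2 := congrArg (fun f : Module.End ℤ Y => f ((φ ^ j) • y)) hD
  simp only [LinearMap.add_apply, Module.End.mul_apply, Module.algebraMap_end_apply] at h2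
  rw [hxj, actEnd_apply] at h2
  have h3 : ((((x⁻¹ : (Module.End ℤ Y)ˣ)) : Module.End ℤ Y) ^ j) ((φ ^ j) • y) = y := by
    have := congrArg (fun f : Module.End ℤ Y => f y) hxinv
    simpa only [Module.End.mul_apply, actEnd_apply, Module.End.one_apply] using this
  rw [h3, Polynomial.coe_aeval_eq_eval] at h2
  rw [← h2]
  abel

end Dickson

/-! ## the action on a stable subgroup -/

section SubAction

variable {M : ℕ} [NeZero M]

/-- the Galois action on a stable subgroup of `J₀(M)` -/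
@[reducible] def subAct (X : AddSubgroup (JZero M)) (hst : ∀ (σ : GQ), ∀ x ∈ X, σ • x ∈ X) :
    DistribMulAction GQ X where
  smul σ x := ⟨σ • x.1, hst σ x.1 x.2⟩
  one_smul x := Subtype.ext (one_smul _ _)
  mul_smul σ τ x := Subtype.ext (mul_smul _ _ _)
  smul_zero σ := Subtype.ext (smul_zero σ)
  smul_add σ x y := Subtype.ext (smul_add σ _ _)

theorem subAct_coe (X : AddSubgroup (JZero M)) (hst : ∀ (σ : GQ), ∀ x ∈ X, σ • x ∈ X)
    (σ : GQ) (x : X) :
    (((subAct X hst).smul σ x : X) : JZero M) = σ • (x : JZero M) := rfl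

/-- the Dickson relation on a stable subgroup -/
theorem sub_pow_dickson (X : AddSubgroup (JZero M)) (hst : ∀ (σ : GQ), ∀ x ∈ X, σ • x ∈ X)
    (φ : GQ) (a b : ℤ)
    (h : ∀ x ∈ X, φ • φ • x - a • (φ • x) + b • x = 0) (j : ℕ) (x : JZero M) (hx : x ∈ X) :
    (φ ^ j) • (φ ^ j) • x - (dickson 1 b j).eval a • ((φ ^ j) • x) + b ^ j • x = 0 := by
  letI := subAct X hst
  have h' : ∀ y : X, φ • φ • y - a • (φ • y) + b • y = 0 := by
    intro y
    apply Subtype.ext
    exact h y.1 y.2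
  have := congrArg Subtype.val (smul_pow_dickson (G := GQ) (Y := X) φ a b h' j ⟨x, hx⟩)
  exact this

end SubAction

/-! ## the transfer -/

section Transfer

variable {M : ℕ} [NeZero M]

/-- a subgroup of `J₀(M)` killed by a prime is finite -/
theorem finite_of_tors_rc (p : ℕ) [Fact p.Prime] (X : AddSubgroup (JZero M))
    (hp : ∀ x ∈ X, p • x = 0) : (X : Set (JZero M)).Finite := by
  haveI := Fermat.Agent.T6.helper85.finite_torsionBy_jZero M p 1
  have hfin : (Set.range (fun x : ↥(Submodule.torsionBy ℤ (JZero M) ((p : ℤ) ^ 1)) =>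
      (x : JZero M))).Finite := Set.finite_range _
  refine hfin.subset ?_
  intro x hx
  refine ⟨⟨x, ?_⟩, rfl⟩
  rw [Submodule.mem_torsionBy_iff, pow_one, natCast_zsmul]
  exact hp x hx

/-- **transfer**: every `s ∈ G_ℚ` satisfies on `E[p]` and on `X` a common quadratic relation
`s² - V s + D = 0` with integers `V`, `D`, `D ≡ χ_cyc(s)` modulo `p`. -/
theorem exists_common_quad (E : WeierstrassCurve ℚ) (W : WeierstrassCurve ℤ)
    (hW : W.IsIntegralModelOf E) (hΔ : W.Δ ≠ 0) (p : ℕ) [Fact p.Prime]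
    (X : AddSubgroup (JZero M)) (S : Finset ℕ)
    (hp : ∀ x ∈ X, p • x = 0) (hst : ∀ (σ : GQ), ∀ x ∈ X, σ • x ∈ X)
    (hES : ESRelOn W M X S)
    (d : GQ →* ℤ_[p]ˣ) (hd : IsCycloChar p d) (hdc : IsAdicContinuousChar d) (s : GQ) :
    ∃ V D : ℤ,
      ((d s : ℤ_[p]) - (D : ℤ_[p])) ∈ IsLocalRing.maximalIdeal ℤ_[p] ^ 1 ∧
      (∀ y : ↥(Submodule.torsionBy ℤ (E⁄(AlgebraicClosure ℚ)).Point p),
        s • s • y - V • (s • y) + D • y = 0) ∧
      (∀ x ∈ X, s • s • x - V • (s • x) + D • x = 0) := by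
  have hp0 : 0 < p := (Fact.out : p.Prime).pos
  obtain ⟨C, hC⟩ := hW
  obtain ⟨L₁, hL₁, -, -, h₁⟩ := Fermat.Agent.T6.helper85.exists_galois_fixing M
    (X : Set (JZero M)) (finite_of_tors_rc p X hp) ∅ Set.finite_empty
  obtain ⟨L₂, hL₂, h₂⟩ := Fermat.Agent.S58.helper7.ecFieldAt W hΔ hp0
  obtain ⟨L₃, hL₃, h₃⟩ := hdc 1
  have := hL₁
  have := hL₂
  have := hL₃
  obtain ⟨ℓ, hℓ, hℓBad, A, hA, φ, hφ, j, hj⟩ :=
    Fermat.Agent.P3.helper40.chebStatement (L₁ ⊔ L₂ ⊔ L₃) inferInstance s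
      (S ∪ {p} ∪ W.Δ.natAbs.primeFactors)
  have hℓS : ℓ ∉ S := fun h => hℓBad (Finset.mem_union_left _ (Finset.mem_union_left _ h))
  have hℓp : ℓ ≠ p := fun h =>
    hℓBad (Finset.mem_union_left _ (Finset.mem_union_right _ (Finset.mem_singleton.mpr h)))
  have hℓg : W.IsGoodPrimeFor ℓ := by
    intro hdvd
    apply hℓBad
    apply Finset.mem_union_right
    rw [Nat.mem_primeFactors]
    refine ⟨hℓ, ?_, fun h0 => hΔ (Int.natAbs_eq_zero.mp h0)⟩
    exact Int.natCast_dvd.mp hdvd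
  have hℓnp : ¬ ℓ ∣ p := fun h =>
    hℓp ((Nat.prime_dvd_prime_iff_eq hℓ (Fact.out : p.Prime)).mp h)
  set g : GQ := φ ^ j with hgdef
  set h : GQ := g⁻¹ * s with hhdef
  have hs : s = g * h := by rw [hhdef, mul_inv_cancel_left]
  have hfix : ∀ x ∈ L₁ ⊔ L₂ ⊔ L₃, h x = x := by
    intro x hx
    rw [hhdef, AlgEquiv.mul_apply, ← hj x hx]
    exact AlgEquiv.symm_apply_apply g x
  have hle₁ : L₁ ≤ L₁ ⊔ L₂ ⊔ L₃ := le_sup_left.trans le_sup_left
  have hle₂ : L₂ ≤ L₁ ⊔ L₂ ⊔ L₃ := le_sup_right.trans le_sup_left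
  have hle₃ : L₃ ≤ L₁ ⊔ L₂ ⊔ L₃ := le_sup_right
  refine ⟨(dickson 1 ((ℓ : ℕ) : ℤ) j).eval (W.apOfModel ℓ), ((ℓ : ℕ) : ℤ) ^ j, ?_, ?_, ?_⟩
  · -- the cyclotomic character
    have hdg : (d g : ℤ_[p]) = ((ℓ : ℕ) : ℤ_[p]) ^ j := by
      rw [hgdef, map_pow, Units.val_pow_eq_pow_val,
        Fermat.Agent.P3.helper98.cyclo_frobenius_padic hd hℓ hℓp A hA hφ]
    have hdh : ((d h : ℤ_[p]) - 1) ∈ IsLocalRing.maximalIdeal ℤ_[p] ^ 1 :=
      h₃ h (fun x hx => hfix x (hle₃ hx))
    have e : (d s : ℤ_[p]) - ((((ℓ : ℕ) : ℤ) ^ j : ℤ) : ℤ_[p]) =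
        (d g : ℤ_[p]) * ((d h : ℤ_[p]) - 1) := by
      rw [hs, map_mul, Units.val_mul, hdg]
      push_cast
      ring
    rw [e]
    exact Ideal.mul_mem_left _ _ hdh
  · -- the torsion of the curve
    have hT : ∀ Q : Tors W p, s • s • Q -
        (dickson 1 ((ℓ : ℕ) : ℤ) j).eval (W.apOfModel ℓ) • (s • Q) + ((ℓ : ℕ) : ℤ) ^ j • Q = 0 := by
      intro Q
      have hsP : ∀ Q : Tors W p, s • Q = g • Q := by
        intro Q
        rw [hs, mul_smul, h₂ h (fun x hx => hfix x (hle₂ hx)) Q]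
      rw [hsP, hsP]
      exact Fermat.Agent.S58.helper34.tors_pow_dickson W p φ (W.apOfModel ℓ) ((ℓ : ℕ) : ℤ)
        (fun Q => Fermat.Agent.S58.helper7.ecFrob W hℓ hℓg hℓnp A hA φ hφ Q) j Q
    intro y
    obtain ⟨Q, rfl⟩ := vcTors_surjective hC p y
    rw [← vcTors_smul, ← vcTors_smul, ← map_zsmul, ← map_zsmul, ← map_sub, ← map_add, hT Q,
      _root_.map_zero]
  · -- the subgroup `X`
    intro x hx
    have hsx : ∀ z ∈ X, s • z = g • z := by
      intro z hz
      rw [hs, mul_smul, h₁ h (fun x hx => hfix x (hle₁ hx)) z hz]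
    rw [hsx x hx, hsx _ (hst g x hx)]
    exact sub_pow_dickson X hst φ (W.apOfModel ℓ) ((ℓ : ℕ) : ℤ)
      (fun z hz => hES ℓ hℓ hℓS A hA φ hφ z hz) j x hx

end Transfer

/-! ## the instance -/

section Main

theorem padic_p_mem_rc (p : ℕ) [Fact p.Prime] :
    (p : ℤ_[p]) ∈ IsLocalRing.maximalIdeal ℤ_[p] := by
  rw [PadicInt.maximalIdeal_eq_span_p]
  exact Ideal.subset_span rfl

theorem toZMod_eq_of_mem_rc (p : ℕ) [Fact p.Prime] (a : ℤ_[p]) (D : ℤ)
    (h : a - (D : ℤ_[p]) ∈ IsLocalRing.maximalIdeal ℤ_[p] ^ 1) :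
    PadicInt.toZMod a = (D : ZMod p) := by
  rw [pow_one, ← PadicInt.ker_toZMod, RingHom.mem_ker, map_sub, map_intCast] at h
  exact sub_eq_zero.mp h

/-- the representation of `G_ℚ` on `E[p]` -/
def rhoE (E : WeierstrassCurve ℚ) (p : ℕ) :
    GQ →* Module.End (ZMod p) ↥(Submodule.torsionBy ℤ (E⁄(AlgebraicClosure ℚ)).Point p) where
  toFun σ :=
    { toFun := fun y => σ • y
      map_add' := smul_add σ
      map_smul' := fun c y => by
        obtain ⟨c, rfl⟩ := ZMod.intCast_surjective c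
        show σ • ((c : ZMod p) • y) = (c : ZMod p) • (σ • y)
        rw [Int.cast_smul_eq_zsmul, Int.cast_smul_eq_zsmul]
        exact map_zsmul (DistribSMul.toAddMonoidHom _ σ) c y }
  map_one' := LinearMap.ext fun y => one_smul _ y
  map_mul' σ τ := LinearMap.ext fun y => mul_smul σ τ y

@[simp]
theorem rhoE_apply (E : WeierstrassCurve ℚ) (p : ℕ) (σ : GQ)
    (y : ↥(Submodule.torsionBy ℤ (E⁄(AlgebraicClosure ℚ)).Point p)) :
    rhoE E p σ y = σ • y := rfl

theorem finrank_torsE_rc (E : WeierstrassCurve ℚ) (hΔ : E.Δ ≠ 0) (p : ℕ) [Fact p.Prime] :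
    Module.finrank (ZMod p) ↥(Submodule.torsionBy ℤ (E⁄(AlgebraicClosure ℚ)).Point p) = 2 := by
  have hp : p.Prime := Fact.out
  have hcard : Nat.card ↥(Submodule.torsionBy ℤ (E⁄(AlgebraicClosure ℚ)).Point p) = p ^ 2 :=
    card_torsionBy_Qbar E hΔ hp.one_le
  haveI hfin : Finite ↥(Submodule.torsionBy ℤ (E⁄(AlgebraicClosure ℚ)).Point p) :=
    Nat.finite_of_card_ne_zero (hcard ▸ pow_ne_zero 2 hp.ne_zero)
  have h := Module.natCard_eq_pow_finrank (K := ZMod p)
    (V := ↥(Submodule.torsionBy ℤ (E⁄(AlgebraicClosure ℚ)).Point p))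
  rw [hcard, Nat.card_zmod] at h
  exact (Nat.pow_right_injective hp.two_le h).symm

/-- the mod `p` reduction of a `p`-adic character -/
def chiOf (p : ℕ) [Fact p.Prime] (d : GQ →* ℤ_[p]ˣ) : GQ →* ZMod p :=
  ((PadicInt.toZMod (p := p) : ℤ_[p] →+* ZMod p) : ℤ_[p] →* ZMod p).comp
    ((Units.coeHom ℤ_[p]).comp d)

theorem chiOf_apply (p : ℕ) [Fact p.Prime] (d : GQ →* ℤ_[p]ˣ) (s : GQ) :
    chiOf p d s = PadicInt.toZMod ((d s : ℤ_[p])) := rfl

variable {M : ℕ} [NeZero M]

/-- the subgroup `X` as a type carrying its `ZMod p`-module structure and its Galois action -/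
def XTy (p : ℕ) (X : AddSubgroup (JZero M)) (hp : ∀ x ∈ X, p • x = 0)
    (hst : ∀ (σ : GQ), ∀ x ∈ X, σ • x ∈ X) : Type := X

instance instAddCommGroupXTy (p : ℕ) (X : AddSubgroup (JZero M)) (hp : ∀ x ∈ X, p • x = 0)
    (hst : ∀ (σ : GQ), ∀ x ∈ X, σ • x ∈ X) : AddCommGroup (XTy p X hp hst) :=
  inferInstanceAs (AddCommGroup X)

instance instModuleXTy (p : ℕ) (X : AddSubgroup (JZero M)) (hp : ∀ x ∈ X, p • x = 0)
    (hst : ∀ (σ : GQ), ∀ x ∈ X, σ • x ∈ X) : Module (ZMod p) (XTy p X hp hst) :=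
  AddCommGroup.zmodModule (G := X) (n := p) (fun x => Subtype.ext (hp x.1 x.2))

instance instDistribMulActionXTy (p : ℕ) (X : AddSubgroup (JZero M)) (hp : ∀ x ∈ X, p • x = 0)
    (hst : ∀ (σ : GQ), ∀ x ∈ X, σ • x ∈ X) : DistribMulAction GQ (XTy p X hp hst) :=
  subAct X hst

/-- the underlying point -/
def XTy.val {p : ℕ} {X : AddSubgroup (JZero M)} {hp : ∀ x ∈ X, p • x = 0}
    {hst : ∀ (σ : GQ), ∀ x ∈ X, σ • x ∈ X} (x : XTy p X hp hst) : JZero M :=
  Subtype.val (p := fun y => y ∈ X) x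

theorem XTy.val_mem {p : ℕ} {X : AddSubgroup (JZero M)} {hp : ∀ x ∈ X, p • x = 0}
    {hst : ∀ (σ : GQ), ∀ x ∈ X, σ • x ∈ X} (x : XTy p X hp hst) : x.val ∈ X :=
  Subtype.property (p := fun y => y ∈ X) x

theorem XTy.val_injective {p : ℕ} {X : AddSubgroup (JZero M)} {hp : ∀ x ∈ X, p • x = 0}
    {hst : ∀ (σ : GQ), ∀ x ∈ X, σ • x ∈ X} :
    Function.Injective (XTy.val (p := p) (X := X) (hp := hp) (hst := hst)) :=
  Subtype.val_injective

theorem XTy.val_smul {p : ℕ} {X : AddSubgroup (JZero M)} {hp : ∀ x ∈ X, p • x = 0}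
    {hst : ∀ (σ : GQ), ∀ x ∈ X, σ • x ∈ X} (σ : GQ) (x : XTy p X hp hst) :
    (σ • x).val = σ • x.val := rfl

theorem XTy.val_add {p : ℕ} {X : AddSubgroup (JZero M)} {hp : ∀ x ∈ X, p • x = 0}
    {hst : ∀ (σ : GQ), ∀ x ∈ X, σ • x ∈ X} (x y : XTy p X hp hst) :
    (x + y).val = x.val + y.val := rfl

theorem XTy.val_zero {p : ℕ} {X : AddSubgroup (JZero M)} {hp : ∀ x ∈ X, p • x = 0}
    {hst : ∀ (σ : GQ), ∀ x ∈ X, σ • x ∈ X} :
    (0 : XTy p X hp hst).val = 0 := rfl

theorem XTy.val_sub {p : ℕ} {X : AddSubgroup (JZero M)} {hp : ∀ x ∈ X, p • x = 0}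
    {hst : ∀ (σ : GQ), ∀ x ∈ X, σ • x ∈ X} (x y : XTy p X hp hst) :
    (x - y).val = x.val - y.val := rfl

theorem XTy.val_zsmul {p : ℕ} {X : AddSubgroup (JZero M)} {hp : ∀ x ∈ X, p • x = 0}
    {hst : ∀ (σ : GQ), ∀ x ∈ X, σ • x ∈ X} (n : ℤ) (x : XTy p X hp hst) :
    (n • x).val = n • x.val := rfl

/-- the representation of `G_ℚ` on `X` -/
def piX (p : ℕ) (X : AddSubgroup (JZero M)) (hp : ∀ x ∈ X, p • x = 0)
    (hst : ∀ (σ : GQ), ∀ x ∈ X, σ • x ∈ X) :
    GQ →* Module.End (ZMod p) (XTy p X hp hst) where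
  toFun σ :=
    { toFun := fun y => σ • y
      map_add' := smul_add σ
      map_smul' := fun c y => by
        obtain ⟨c, rfl⟩ := ZMod.intCast_surjective c
        show σ • ((c : ZMod p) • y) = (c : ZMod p) • (σ • y)
        rw [Int.cast_smul_eq_zsmul, Int.cast_smul_eq_zsmul]
        exact map_zsmul (DistribSMul.toAddMonoidHom _ σ) c y }
  map_one' := LinearMap.ext fun y => one_smul _ y
  map_mul' σ τ := LinearMap.ext fun y => mul_smul σ τ y

@[simp]
theorem piX_apply (p : ℕ) (X : AddSubgroup (JZero M)) (hp : ∀ x ∈ X, p • x = 0)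
    (hst : ∀ (σ : GQ), ∀ x ∈ X, σ • x ∈ X) (σ : GQ) (y : XTy p X hp hst) :
    piX p X hp hst σ y = σ • y := rfl

/-- the common quadratic relations in `End` form -/
theorem common_quad_end (E : WeierstrassCurve ℚ) (W : WeierstrassCurve ℤ)
    (hW : W.IsIntegralModelOf E) (hΔ : W.Δ ≠ 0) (p : ℕ) [Fact p.Prime]
    (X : AddSubgroup (JZero M)) (S : Finset ℕ)
    (hp : ∀ x ∈ X, p • x = 0) (hst : ∀ (σ : GQ), ∀ x ∈ X, σ • x ∈ X)
    (hES : ESRelOn W M X S)
    (d : GQ →* ℤ_[p]ˣ) (hd : IsCycloChar p d) (hdc : IsAdicContinuousChar d) (s : GQ) :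
    ∃ v : ZMod p,
      rhoE E p s * rhoE E p s - v • rhoE E p s +
        chiOf p d s • (1 : Module.End (ZMod p) _) = 0 ∧
      piX p X hp hst s * piX p X hp hst s - v • piX p X hp hst s +
        chiOf p d s • (1 : Module.End (ZMod p) (XTy p X hp hst)) = 0 := by
  obtain ⟨V, D, hD, hVE, hVX⟩ := exists_common_quad E W hW hΔ p X S hp hst hES d hd hdc s
  have hχD : chiOf p d s = (D : ZMod p) := by
    rw [chiOf_apply]; exact toZMod_eq_of_mem_rc p _ D hD
  refine ⟨(V : ZMod p), ?_, ?_⟩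
  · apply LinearMap.ext
    intro y
    rw [hχD, LinearMap.add_apply, LinearMap.sub_apply, Module.End.mul_apply,
      LinearMap.smul_apply, LinearMap.smul_apply, Module.End.one_apply, LinearMap.zero_apply,
      Int.cast_smul_eq_zsmul, Int.cast_smul_eq_zsmul, rhoE_apply, rhoE_apply]
    exact hVE y
  · apply LinearMap.ext
    intro y
    rw [hχD, LinearMap.add_apply, LinearMap.sub_apply, Module.End.mul_apply,
      LinearMap.smul_apply, LinearMap.smul_apply, Module.End.one_apply, LinearMap.zero_apply,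
      Int.cast_smul_eq_zsmul, Int.cast_smul_eq_zsmul, piX_apply, piX_apply]
    apply XTy.val_injective
    exact hVX y.val y.val_mem

/-- complex conjugation is not scalar on `E[p]` and satisfies `(c - 1)(c + 1) = 0` -/
theorem conj_facts (E : WeierstrassCurve ℚ) (p : ℕ) [Fact p.Prime] (hp2 : p ≠ 2)
    (hE2 : Module.finrank (ZMod p)
      ↥(Submodule.torsionBy ℤ (E⁄(AlgebraicClosure ℚ)).Point p) = 2)
    (χ : GQ →* ZMod p) (hdet : ∀ s : GQ, LinearMap.det (rhoE E p s) = χ s)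
    (c : GQ) (hcc : c * c = 1) (hχc : χ c = -1) :
    (2 : ZMod p) ≠ 0 ∧ (1 : ZMod p) ≠ -1 ∧
    (rhoE E p c - (1 : ZMod p) • (1 : Module.End (ZMod p) _)) *
      (rhoE E p c - (-1 : ZMod p) • (1 : Module.End (ZMod p) _)) = 0 ∧
    rhoE E p c ≠ (1 : ZMod p) • (1 : Module.End (ZMod p) _) ∧
    rhoE E p c ≠ (-1 : ZMod p) • (1 : Module.End (ZMod p) _) := by
  have hpP : p.Prime := Fact.out
  have h2p : 2 < p := lt_of_le_of_ne hpP.two_le (Ne.symm hp2)
  haveI : Fact (2 < p) := ⟨h2p⟩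
  have hdetc : LinearMap.det (rhoE E p c) = -1 := by rw [hdet, hχc]
  have hne1 : (1 : ZMod p) ≠ -1 := fun h => ZMod.neg_one_ne_one h.symm
  have hρcc : rhoE E p c * rhoE E p c = 1 := by rw [← map_mul, hcc, map_one]
  refine ⟨?_, hne1, ?_, ?_, ?_⟩
  · intro h
    apply hne1
    have : (1 : ZMod p) + 1 = 0 := by rw [one_add_one_eq_two]; exact h
    exact eq_neg_of_add_eq_zero_left this
  · rw [one_smul, neg_smul, one_smul, sub_neg_eq_add, sub_mul, mul_add, mul_add, hρcc, mul_one,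
      one_mul, one_mul]
    abel
  · intro h
    rw [h, one_smul, map_one] at hdetc
    exact hne1 hdetc
  · intro h
    rw [h, LinearMap.det_smul, map_one, hE2, mul_one] at hdetc
    apply hne1
    rw [← hdetc]
    norm_num

/-- the discriminant of an integral model of a curve with non-zero discriminant is non-zero -/
theorem model_Δ_ne_zero_rc {E : WeierstrassCurve ℚ} (hE : E.Δ ≠ 0) {W : WeierstrassCurve ℤ}
    (hW : W.IsIntegralModelOf E) : W.Δ ≠ 0 := by
  obtain ⟨C, hC⟩ := hW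
  intro h0
  have h1 : (C • E).Δ = 0 := by rw [hC, WeierstrassCurve.map_Δ, h0, _root_.map_zero]
  rw [WeierstrassCurve.variableChange_Δ] at h1
  have h3 : ((C.u⁻¹ : ℚˣ) : ℚ) ^ 12 ≠ 0 := pow_ne_zero _ (Units.ne_zero _)
  exact (mul_ne_zero h3 hE) h1

/-- the discriminant of the Frey curve is non-zero -/
theorem freyCurve_Δ_ne_zero_rc (P : FreyPackage) : P.freyCurve.Δ ≠ 0 := by
  rw [← Fermat.Agent.S04.freyCurveInt_map, WeierstrassCurve.map_Δ]
  simpa using Fermat.Agent.S04.freyCurveInt_Δ_ne_zero P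

/-- **[REAL-CHEB]**, general curve. -/
theorem realCheb_gen (E : WeierstrassCurve ℚ) (hEΔ : E.Δ ≠ 0) (W : WeierstrassCurve ℤ)
    (hW : W.IsIntegralModelOf E) (p : ℕ) [Fact p.Prime] (hp2 : p ≠ 2)
    (hirr : GaloisRepIsIrreducible (K := AlgebraicClosure ℚ) ℚ E p)
    (X : AddSubgroup (JZero M)) (S : Finset ℕ) (hX : X ≠ ⊥)
    (hp : ∀ x ∈ X, p • x = 0) (hst : ∀ (σ : GQ), ∀ x ∈ X, σ • x ∈ X)
    (hES : ESRelOn W M X S) :
    ∃ V0 : AddSubgroup (JZero M), V0 ≤ X ∧
      ∃ e : ↥(Submodule.torsionBy ℤ (E⁄(AlgebraicClosure ℚ)).Point p) ≃+ V0,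
        ∀ (σ : GQ) (x : ↥(Submodule.torsionBy ℤ (E⁄(AlgebraicClosure ℚ)).Point p)),
          ((e (σ • x) : V0) : JZero M) = σ • ((e x : V0) : JZero M) := by
  classical
  have hΔ : W.Δ ≠ 0 := model_Δ_ne_zero_rc hEΔ hW
  have hE2 := finrank_torsE_rc E hEΔ p
  obtain ⟨d, hd, hdc, -, c, hcc, hdc1⟩ :=
    Fermat.Agent.P3.helper26.cycloStatement p ℤ_[p] (padic_p_mem_rc p)
  have hirr' : ∀ N : Submodule (ZMod p) ↥(Submodule.torsionBy ℤ (E⁄(AlgebraicClosure ℚ)).Point p),
      (∀ (g : GQ), ∀ x ∈ N, rhoE E p g x ∈ N) → N = ⊥ ∨ N = ⊤ := fun N hN => hirr.2 N hN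
  obtain ⟨g, hg⟩ := exists_not_scalar_rc hE2 (rhoE E p)
    (fun N hN => hirr' N (fun g x hx => hN g x hx))
  obtain ⟨hdet, hQR⟩ := quadRel_of_common hE2 (rhoE E p) (piX p X hp hst) (chiOf p d)
    (common_quad_end E W hW hΔ p X S hp hst hES d hd hdc) g hg
  have hχc : chiOf p d c = -1 := by
    rw [chiOf_apply, hdc1, map_neg, map_one]
  obtain ⟨h2k, hne1, hq0, h1, h2'⟩ := conj_facts E p hp2 hE2 (chiOf p d) hdet c hcc hχc
  haveI : Nontrivial (XTy p X hp hst) := by
    have : Nontrivial X := by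
      rw [AddSubgroup.nontrivial_iff_ne_bot]
      exact hX
    exact this
  obtain ⟨W', e, hW'st, he⟩ :=
    Fermat.Agent.T8.helper79.exists_equiv_stable_submodule_of_irreducible h2k hE2 (rhoE E p)
      (piX p X hp hst) hirr' c 1 (-1) hne1 hq0 h1 h2' hQR
  -- the output
  let f : ↥(Submodule.torsionBy ℤ (E⁄(AlgebraicClosure ℚ)).Point p) →+ JZero M :=
    { toFun := fun y => ((e y : W') : XTy p X hp hst).val
      map_zero' := by rw [_root_.map_zero]; rfl
      map_add' := fun a b => by rw [_root_.map_add]; rfl }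
  have hf : ∀ y, f y = ((e y : W') : XTy p X hp hst).val := fun y => rfl
  have hfinj : Function.Injective f := by
    intro a b hab
    apply e.injective
    apply Subtype.ext
    apply XTy.val_injective
    exact hab
  have hrinj : Function.Injective f.rangeRestrict := by
    intro a b h
    have h' : ((f.rangeRestrict a : f.range) : JZero M) = ((f.rangeRestrict b : f.range) : JZero M) := by
      rw [h]
    exact hfinj h'
  refine ⟨f.range, ?_, AddEquiv.ofBijective f.rangeRestrict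
    ⟨hrinj, f.rangeRestrict_surjective⟩, ?_⟩
  · rintro _ ⟨y, rfl⟩
    exact ((e y : W') : XTy p X hp hst).val_mem
  · intro σ x
    show f (σ • x) = σ • f x
    rw [hf, hf, ← XTy.val_smul, ← piX_apply, ← he σ x]
    rfl

end Main

/-! ## the contract -/

/-- **[REAL-CHEB]**: the contract `RealChebStatement`, unconditional. -/
theorem realCheb : RealChebStatement := by
  intro P W hW hirr M _ X S hX hp hst hES
  haveI : Fact P.p.Prime := ⟨P.pp⟩
  have hp2 : P.p ≠ 2 := by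
    have := P.hp5
    omega
  exact realCheb_gen P.freyCurve (freyCurve_Δ_ne_zero_rc P) W hW P.p hp2 hirr X S hX hp hst hES

end Fermat.Agent.T8.helper10

end
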