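import Fermat.Agent.T8.helper72_ChainDefs
import Fermat.Agent.P6.helper78_NDefs

/-!
# T8 / S44, box [REAL-CHEB] (helper10): contract

`RealChebStatement` : let `P` be a Frey package with `E[p]` irreducible, `W` an integral model of
the Frey curve, `M` a level and `X ⊆ J₀(M)` a nonzero subgroup which is killed by `p`, stable under
`G_ℚ`, and on which the Frobenius lifts `φ` at the primes `ℓ` outside a finite set `S` satisfy the
Eichler - Shimura relation of the Frey curve, `φ² - a_ℓ(W) φ + ℓ = 0`.  Then `X` contains a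
`G_ℚ`-stable subgroup `V0` which is `G_ℚ`-equivariantly isomorphic to `E[p]` (the field `iso` of
`helper72.FreyReal`).

Consumer: box [REAL] (helper7): `X` := the `ψ̄`-eigenspace of `J₀(M' p)[p]` (nonzero by `hmod`,
Eichler - Shimura relation by S37 / P3).  `FreyReal.tors` and `FreyReal.eigen` are inherited from
`X` by `V0 ≤ X` (`freyReal_of_realCheb`).

The second deliverable of the box, "there is a good prime `ℓ ≡ 1 mod m` with
`a_ℓ(W) ≢ 1 + ℓ mod p`" (for [PHI]), is ON MAIN: `Fermat.Agent.P6.helper78.nonEis`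
(`NonEisStatement`, file `P6/helper78_NAsm.lean`).

Proof route (files `helper10_RealChebAlg.lean`, `helper10_RealCheb.lean`): weak Chebotarev
(`P3.helper40.chebStatement`) + Dickson recursion give for every `s ∈ G_ℚ` integers `t`, `d` with
`s² - t s + d = 0` on `E[p]` and on `X`, `d ≡ χ_cyc(s)`; then the Boston - Lenstra - Ribet algebra
(Cayley - Hamilton pseudo-representation, complex conjugation) and a minimal nonzero stable
subgroup of `X`.
-/

set_option autoImplicit false
set_option linter.unusedSectionVars false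
set_option linter.style.longLine false

namespace Fermat.Agent.T8.helper10

open ModularCurve WeierstrassCurve WeierstrassCurve.Affine WeierstrassCurve.Affine.Point
open Fermat.Agent.T8.helper72

/-- the Eichler - Shimura relation of the integral curve `W` on a subgroup `X` of `J₀(M)`, at the
Frobenius lifts of the primes outside `S` -/
def ESRelOn (W : WeierstrassCurve ℤ) (M : ℕ) [NeZero M] (X : AddSubgroup (JZero M))
    (S : Finset ℕ) : Prop :=
  ∀ ℓ : ℕ, ℓ.Prime → ℓ ∉ S → ∀ A : ValuationSubring (AlgebraicClosure ℚ), A.LiesOverPrime ℓ →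
    ∀ φ : AlgebraicClosure ℚ ≃ₐ[ℚ] AlgebraicClosure ℚ, A.IsFrobeniusAt φ ℓ → ∀ x ∈ X,
      φ • φ • x - W.apOfModel ℓ • (φ • x) + (ℓ : ℤ) • x = 0

/-- **Contract [REAL-CHEB]**. -/
def RealChebStatement : Prop :=
  ∀ (P : FreyPackage) (W : WeierstrassCurve ℤ), W.IsIntegralModelOf P.freyCurve →
    GaloisRepIsIrreducible (K := AlgebraicClosure ℚ) ℚ P.freyCurve P.p →
    ∀ (M : ℕ) [NeZero M] (X : AddSubgroup (JZero M)) (S : Finset ℕ),
      X ≠ ⊥ →
      (∀ x ∈ X, P.p • x = 0) →
      (∀ (σ : AlgebraicClosure ℚ ≃ₐ[ℚ] AlgebraicClosure ℚ), ∀ x ∈ X, σ • x ∈ X) →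
      ESRelOn W M X S →
      ∃ V0 : AddSubgroup (JZero M), V0 ≤ X ∧
        ∃ e : FreyTors P ≃+ V0, ∀ (σ : AlgebraicClosure ℚ ≃ₐ[ℚ] AlgebraicClosure ℚ)
          (x : FreyTors P), ((e (σ • x) : V0) : JZero M) = σ • ((e x : V0) : JZero M)

/-- the consumer form: if `X` consists of eigenclasses, the subgroup `V0` is a realisation of
`E[p]` in the sense of the top chain -/
theorem freyReal_of_realCheb (h : RealChebStatement) (P : FreyPackage) (W : WeierstrassCurve ℤ)
    (hW : W.IsIntegralModelOf P.freyCurve)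
    (hirr : GaloisRepIsIrreducible (K := AlgebraicClosure ℚ) ℚ P.freyCurve P.p)
    (M : ℕ) [NeZero M] (X : AddSubgroup (JZero M)) (S : Finset ℕ) (hX : X ≠ ⊥)
    (hp : ∀ x ∈ X, P.p • x = 0)
    (hst : ∀ (σ : AlgebraicClosure ℚ ≃ₐ[ℚ] AlgebraicClosure ℚ), ∀ x ∈ X, σ • x ∈ X)
    (hES : ESRelOn W M X S) (heig : ∀ x ∈ X, IsFreyEigen P W M x) :
    ∃ V0 : AddSubgroup (JZero M), V0 ≤ X ∧ FreyReal P W M V0 := by
  obtain ⟨V0, hV0, e, he⟩ := h P W hW hirr M X S hX hp hst hES
  exact ⟨V0, hV0, ⟨fun x hx => hp x (hV0 hx), fun x hx => heig x (hV0 hx), ⟨e, he⟩⟩⟩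

end Fermat.Agent.T8.helper10
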