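import Fermat.Agent.S05.Comp

/-!
# T8 `[W-MULT]` sub-box (b) DEPTH (helper11)

For the short model `y² = x³ + a₂ x² + a₄ x` (`IsTwoNF`) with `v 2 = 1`, `v a₂ = 1`,
`a₂ = s0²` and `v a₄ < v p`: a nonzero point `P` of the kernel of reduction (`InE1`)
with `p • P = 0` has `v (tC P) ^ (p - 1) = v p`.

Proof: the toric coordinate `phiC s0 P = (α - s0) / (α + s0)`, `α = y / x`, is
multiplicative on `E1` up to an error of valuation `≤ v a₄ * v t`, and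
`v (phiC s0 P - 1) = v t`.  Then a pure valuation lemma on `(1 + u) ^ p - 1`.
-/

set_option autoImplicit false
set_option linter.unusedSectionVars false
set_option linter.unusedVariables false

namespace Fermat.Agent.T8.helper11

open WeierstrassCurve WeierstrassCurve.Affine Fermat.Agent.S05

variable {K : Type*} [Field K] [DecidableEq K]
variable {Γ₀ : Type*} [LinearOrderedCommGroupWithZero Γ₀]
variable (v : Valuation K Γ₀) {W : Affine K}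

/-- binomial expansion of `(1 + u) ^ (q + 2) - 1` with the three relevant terms split off -/
lemma one_add_pow_sub_one (u : K) (q : ℕ) :
    (1 + u) ^ (q + 2) - 1 = ((q + 2 : ℕ) : K) * u
      + (∑ i ∈ Finset.range q, u ^ (i + 2) * ((q + 2).choose (i + 2) : K)) * 1 + u ^ (q + 2) := by
  rw [add_comm 1 u, add_pow]
  simp only [one_pow, mul_one]
  rw [Finset.sum_range_succ, Finset.sum_range_succ', Finset.sum_range_succ']
  simp only [Nat.choose_self, Nat.cast_one, mul_one, pow_zero, Nat.choose_zero_right,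
    zero_add, pow_one, Nat.choose_one_right]
  ring

/-- pure valuation lemma: if `(1 + u) ^ p - 1` is smaller than `p * u`
then `v u ^ (p - 1) = v p` -/
lemma val_pow_pred_eq_of_small {p : ℕ} (hp : p.Prime) {u : K} (hu0 : u ≠ 0) (hu : v u < 1)
    (hβ : v ((1 + u) ^ p - 1) < v (p : K) * v u) : v u ^ (p - 1) = v (p : K) := by
  have hvu : 0 < v u := val_pos v hu0
  have hvp : 0 < v (p : K) := by
    rw [zero_lt_iff]
    intro h0
    rw [h0, zero_mul] at hβ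
    exact absurd hβ (not_lt.mpr zero_le)
  obtain ⟨q, rfl⟩ : ∃ q, p = q + 2 := ⟨p - 2, by have := hp.two_le; omega⟩
  have hexp := one_add_pow_sub_one u q
  rw [mul_one] at hexp
  -- the middle sum is small
  have hmid : v (∑ i ∈ Finset.range q, u ^ (i + 2) * ((q + 2).choose (i + 2) : K)) <
      v ((q + 2 : ℕ) : K) * v u := by
    apply v.map_sum_lt (mul_pos hvp hvu).ne'
    intro i hi
    rw [Finset.mem_range] at hi
    obtain ⟨c, hc⟩ := hp.dvd_choose_self (k := i + 2) (by omega) (by omega)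
    rw [hc, Nat.cast_mul, map_mul, map_mul, map_pow]
    have h1 : v u ^ (i + 2) < v u := by
      calc v u ^ (i + 2) = v u ^ (i + 1) * v u := pow_succ _ _
        _ < 1 * v u := by
          apply mul_lt_mul_of_pos_right _ hvu
          exact pow_lt_one₀ zero_le hu (by omega)
        _ = v u := one_mul _
    calc v u ^ (i + 2) * (v ((q + 2 : ℕ) : K) * v (c : K))
        ≤ v u ^ (i + 2) * (v ((q + 2 : ℕ) : K) * 1) := by
          gcongr
          exact val_natCast_le_one v c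
      _ = v ((q + 2 : ℕ) : K) * v u ^ (i + 2) := by rw [mul_one, mul_comm]
      _ < v ((q + 2 : ℕ) : K) * v u := mul_lt_mul_of_pos_left h1 hvp
  have hAM : v (((q + 2 : ℕ) : K) * u
      + ∑ i ∈ Finset.range q, u ^ (i + 2) * ((q + 2).choose (i + 2) : K)) =
      v ((q + 2 : ℕ) : K) * v u := by
    rw [v.map_add_eq_of_lt_left (by rw [map_mul]; exact hmid), map_mul]
  have hU : v (u ^ (q + 2)) = v ((q + 2 : ℕ) : K) * v u := by
    by_contra hne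
    have hne' : v (((q + 2 : ℕ) : K) * u
      + ∑ i ∈ Finset.range q, u ^ (i + 2) * ((q + 2).choose (i + 2) : K)) ≠ v (u ^ (q + 2)) := by
      rw [hAM]; exact fun h => hne h.symm
    have := v.map_add_of_distinct_val hne'
    rw [← hexp, hAM] at this
    rw [this] at hβ
    exact absurd hβ (not_lt.mpr (le_max_left _ _))
  rw [map_pow] at hU
  have h2 : v u ^ (q + 2 - 1) * v u = v ((q + 2 : ℕ) : K) * v u := by
    rw [← hU]
    exact (pow_succ _ _).symm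
  exact mul_right_cancel₀ hvu.ne' h2

/-- the toric coordinate at the node: `(α - s0) / (α + s0)` with `α = y / x`, `s0 ^ 2 = a₂` -/
def phiC (s0 : K) : W.Point → K
  | .zero => 1
  | .some x y _ => (y / x - s0) / (y / x + s0)

@[simp] lemma phiC_zero (s0 : K) : phiC s0 (0 : W.Point) = 1 := rfl

@[simp] lemma phiC_some (s0 : K) {x y : K} (h : W.Nonsingular x y) :
    phiC s0 (Point.some x y h) = (y / x - s0) / (y / x + s0) := rfl

lemma val_sqrt_eq_one {a s0 : K} (ha : v a = 1) (hs0 : s0 ^ 2 = a) : v s0 = 1 :=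
  eq_one_of_sq_eq_one (by rw [← map_pow, hs0, ha])

/-- basic valuations at a point of `E1` -/
lemma E1_basic (hW : IsTwoNF W) (ha : v W.a₂ = 1) (hb : v W.a₄ ≤ 1) {s0 : K}
    (hs0 : s0 ^ 2 = W.a₂) {x y : K} (h : W.Nonsingular x y) (hx : 1 < v x) :
    1 < v (y / x) ∧ v (y / x + s0) = v (y / x) ∧ v (y / x - s0) = v (y / x) := by
  have hα := hW.val_alpha_sq_of_one_lt v ha.le hb h hx
  have hα1 : 1 < v (y / x) := one_lt_of_one_lt_sq (by rw [hα]; exact hx)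
  have hvs0 : v s0 = 1 := val_sqrt_eq_one v ha hs0
  refine ⟨hα1, ?_, ?_⟩
  · exact v.map_add_eq_of_lt_left (by rw [hvs0]; exact hα1)
  · exact v.map_sub_eq_of_lt_left (by rw [hvs0]; exact hα1)

lemma val_tC_some {x y : K} : v (x / y) = (v (y / x))⁻¹ := by
  rw [← map_inv₀, inv_div]

/-- on `E1` the toric coordinate is a unit -/
lemma val_phiC (hW : IsTwoNF W) (ha : v W.a₂ = 1) (hb : v W.a₄ ≤ 1) {s0 : K}
    (hs0 : s0 ^ 2 = W.a₂) {P : W.Point} (hP : InE1 v P) : v (phiC s0 P) = 1 := by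
  rcases hP with rfl | ⟨x, y, h, rfl, hx⟩
  · simp
  · obtain ⟨h1, hp, hm⟩ := E1_basic v hW ha hb hs0 h hx
    rw [phiC_some, map_div₀, hp, hm]
    exact div_self (lt_trans zero_lt_one h1).ne'

/-- on `E1`, `v (phiC - 1) = v t` -/
lemma val_phiC_sub_one (hW : IsTwoNF W) (hv2 : v 2 = 1) (ha : v W.a₂ = 1) (hb : v W.a₄ ≤ 1)
    {s0 : K} (hs0 : s0 ^ 2 = W.a₂) {P : W.Point} (hP : InE1 v P) :
    v (phiC s0 P - 1) = v (tC P) := by
  rcases hP with rfl | ⟨x, y, h, rfl, hx⟩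
  · simp
  · obtain ⟨h1, hp, hm⟩ := E1_basic v hW ha hb hs0 h hx
    have hne : y / x + s0 ≠ 0 := by
      intro h0
      rw [h0, map_zero] at hp
      rw [← hp] at h1
      exact absurd h1 (not_lt.mpr zero_le)
    have e : phiC s0 (Point.some x y h) - 1 = -(2 * s0) / (y / x + s0) := by
      rw [phiC_some]
      field_simp
      ring
    have ht : v (x / y) = (v (y / x))⁻¹ := val_tC_some v
    rw [e, tC_some, ht, map_div₀, Valuation.map_neg, map_mul, hv2, val_sqrt_eq_one v ha hs0, hp,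
      one_mul, one_div]

/-- the exact identity behind the multiplicativity of the toric coordinate -/
lemma phi_step_identity (x₁ x₂ α₁ α₂ a b x₃ y₃ s d s0 : K)
    (e₂ : α₂ ^ 2 * x₂ = x₂ ^ 2 + a * x₂ + b)
    (hx₁ : x₁ ≠ 0) (hx₂ : x₂ ≠ 0) (hs : s ≠ 0) (hd0 : d ≠ 0) (hx₃0 : x₃ ≠ 0)
    (hs' : s = α₁ + α₂) (hd : d = x₁ * x₂ - b) (hs0 : s0 ^ 2 = a)
    (hx₃ : x₃ * (x₁ * x₂ * s ^ 2) = d ^ 2)
    (hy₃ : y₃ = -((α₁ + d / (x₁ * s)) * x₃) + d / s)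
    (h1 : α₁ + s0 ≠ 0) (h2 : α₂ + s0 ≠ 0) (h3 : y₃ / x₃ + s0 ≠ 0) :
    ((y₃ / x₃ - s0) / (y₃ / x₃ + s0) - (α₁ - s0) / (α₁ + s0) * ((α₂ - s0) / (α₂ + s0))) *
      ((y₃ / x₃ + s0) * (α₁ + s0) * (α₂ + s0)) =
      2 * s0 * b * (1 / x₁ + 1 / x₂ + s ^ 2 / d) := by
  obtain ⟨hα3, -⟩ := alpha3_formulas x₁ x₂ α₁ α₂ b x₃ y₃ s d hx₁ hx₂ hs hd0 hx₃0 hs' hd hx₃ hy₃
  obtain ⟨α₃, hα₃⟩ : ∃ α₃, α₃ = y₃ / x₃ := ⟨_, rfl⟩
  rw [← hα₃] at hα3 h3 ⊢
  have G1 : α₃ * s - α₁ * α₂ - a = b * (1 / x₁ + 1 / x₂ + s ^ 2 / d) := by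
    have h4 : α₃ * s = α₂ * s + s ^ 2 * b / d - d / x₁ := by
      have : α₃ = α₂ + (s * b / d - d / (x₁ * s)) := by rw [← hα3]; ring
      rw [this]
      field_simp
      ring
    have h5 : α₂ ^ 2 = x₂ + a + b / x₂ := by
      field_simp
      linear_combination e₂
    have h6 : d / x₁ = x₂ - b / x₁ := by
      rw [hd]; field_simp
    have h7 : α₂ * s - α₁ * α₂ = α₂ ^ 2 := by rw [hs']; ring
    calc α₃ * s - α₁ * α₂ - a = (α₂ * s - α₁ * α₂) + s ^ 2 * b / d - d / x₁ - a := by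
          rw [h4]; ring
      _ = b * (1 / x₁ + 1 / x₂ + s ^ 2 / d) := by
          rw [h7, h5, h6]; ring
  have key : (α₃ - s0) * (α₁ + s0) * (α₂ + s0) - (α₃ + s0) * (α₁ - s0) * (α₂ - s0) =
      2 * s0 * (α₃ * s - α₁ * α₂ - a) := by
    rw [hs', ← hs0]; ring
  have lhs_eq : ((α₃ - s0) / (α₃ + s0) - (α₁ - s0) / (α₁ + s0) * ((α₂ - s0) / (α₂ + s0))) *
      ((α₃ + s0) * (α₁ + s0) * (α₂ + s0)) =
      (α₃ - s0) * (α₁ + s0) * (α₂ + s0) - (α₃ + s0) * (α₁ - s0) * (α₂ - s0) := by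
    field_simp
  rw [lhs_eq, key, G1]
  ring

/-- multiplicativity of the toric coordinate on `E1`, non-degenerate case -/
lemma phiC_add_aux (hW : IsTwoNF W) (hv2 : v 2 = 1) (ha : v W.a₂ = 1) (hb : v W.a₄ ≤ 1)
    {s0 : K} (hs0 : s0 ^ 2 = W.a₂)
    {x₁ y₁ x₂ y₂ : K} (h₁ : W.Nonsingular x₁ y₁) (h₂ : W.Nonsingular x₂ y₂)
    (hx₁ : 1 < v x₁) (hx₂ : 1 < v x₂) (hs : y₁ / x₁ + y₂ / x₂ ≠ 0) :
    InE1 v (Point.some x₁ y₁ h₁ + Point.some x₂ y₂ h₂) ∧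
    v (phiC s0 (Point.some x₁ y₁ h₁ + Point.some x₂ y₂ h₂)
        - phiC s0 (Point.some x₁ y₁ h₁) * phiC s0 (Point.some x₂ y₂ h₂)) ≤
      v W.a₄ * v (x₂ / y₂) := by
  have hx₁0 : x₁ ≠ 0 := ne_zero_of_one_lt_val v hx₁
  have hx₂0 : x₂ ≠ 0 := ne_zero_of_one_lt_val v hx₂
  obtain ⟨hA1, hA1p, hA1m⟩ := E1_basic v hW ha hb hs0 h₁ hx₁
  obtain ⟨hB1, hB1p, hB1m⟩ := E1_basic v hW ha hb hs0 h₂ hx₂
  have hA := hW.val_alpha_sq_of_one_lt v ha.le hb h₁ hx₁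
  have hB := hW.val_alpha_sq_of_one_lt v ha.le hb h₂ hx₂
  have e₂ := hW.alpha_sq h₂ hx₂0
  obtain ⟨x₃, y₃, h₃, hadd, hx₃, hy₃⟩ := hW.add_sd h₁ h₂ hx₁0 hx₂0 hs
  obtain ⟨x₃', y₃', h₃', hadd', hx₃1', -⟩ := hW.E1_add_aux v ha.le hb h₁ h₂ hx₁ hx₂ hs
    (le_max_left (v (x₁ / y₁)) (v (x₂ / y₂))) (le_max_right _ _)
  have hinj : Point.some x₃' y₃' h₃' = Point.some x₃ y₃ h₃ := by rw [← hadd, hadd']
  have hxx : x₃' = x₃ := by
    injection hinj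
  subst hxx
  have hx₃1 : 1 < v x₃' := hx₃1'
  have hx₃0 : x₃' ≠ 0 := ne_zero_of_one_lt_val v hx₃1
  rw [hadd]
  refine ⟨Or.inr ⟨x₃', y₃, h₃, rfl, hx₃1⟩, ?_⟩
  simp only [phiC_some]
  obtain ⟨hC1, hC1p, hC1m⟩ := E1_basic v hW ha hb hs0 h₃ hx₃1
  rw [val_tC_some v (x := x₂) (y := y₂)]
  -- abbreviations
  obtain ⟨α₁, hα₁⟩ : ∃ α₁, α₁ = y₁ / x₁ := ⟨_, rfl⟩
  obtain ⟨α₂, hα₂⟩ : ∃ α₂, α₂ = y₂ / x₂ := ⟨_, rfl⟩
  rw [← hα₁] at hA hA1 hA1p hA1m hs hx₃ hy₃ ⊢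
  rw [← hα₂] at hB hB1 hB1p hB1m e₂ hs hx₃ hy₃ ⊢
  obtain ⟨s, hs'⟩ : ∃ s, s = α₁ + α₂ := ⟨_, rfl⟩
  obtain ⟨d, hd'⟩ : ∃ d, d = x₁ * x₂ - W.a₄ := ⟨_, rfl⟩
  rw [← hs'] at hs hx₃ hy₃
  rw [← hd'] at hx₃ hy₃
  have hApos : 0 < v α₁ := lt_trans zero_lt_one hA1
  have hBpos : 0 < v α₂ := lt_trans zero_lt_one hB1
  have hCpos : 0 < v (y₃ / x₃') := lt_trans zero_lt_one hC1
  have hvd : v d = v x₁ * v x₂ := by
    rw [hd', ← map_mul]
    apply v.map_sub_eq_of_lt_left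
    rw [map_mul]
    calc v W.a₄ ≤ 1 := hb
      _ < v x₁ * v x₂ := by
        calc (1 : Γ₀) = 1 * 1 := (one_mul 1).symm
          _ < v x₁ * v x₂ := mul_lt_mul'' hx₁ hx₂ zero_le zero_le
  have hvdpos : 0 < v d := by
    rw [hvd]; exact mul_pos (lt_trans zero_lt_one hx₁) (lt_trans zero_lt_one hx₂)
  have hd0 : d ≠ 0 := ne_zero_of_val_pos v hvdpos
  have hne1 : α₁ + s0 ≠ 0 := by
    apply ne_zero_of_val_pos v; rw [hA1p]; exact hApos
  have hne2 : α₂ + s0 ≠ 0 := by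
    apply ne_zero_of_val_pos v; rw [hB1p]; exact hBpos
  have hne3 : y₃ / x₃' + s0 ≠ 0 := by
    apply ne_zero_of_val_pos v; rw [hC1p]; exact hCpos
  have hid := phi_step_identity x₁ x₂ α₁ α₂ W.a₂ W.a₄ x₃' y₃ s d s0 e₂ hx₁0 hx₂0 hs hd0 hx₃0
    hs' hd' hs0 hx₃ hy₃ hne1 hne2 hne3
  -- the bound on `v s`
  have hs_le : v s ≤ v α₁ ∨ v s ≤ v α₂ := by rw [hs']; exact v.map_add' α₁ α₂
  have hs2 : v s ^ 2 ≤ v d := by
    rw [hvd, ← hA, ← hB]
    rcases hs_le with hsl | hsl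
    · calc v s ^ 2 ≤ v α₁ ^ 2 := by gcongr
        _ = v α₁ ^ 2 * 1 := (mul_one _).symm
        _ ≤ v α₁ ^ 2 * v α₂ ^ 2 := by
          gcongr
          exact one_le_pow₀ hB1.le
    · calc v s ^ 2 ≤ v α₂ ^ 2 := by gcongr
        _ = 1 * v α₂ ^ 2 := (one_mul _).symm
        _ ≤ v α₁ ^ 2 * v α₂ ^ 2 := by
          gcongr
          exact one_le_pow₀ hA1.le
  have hCle : v (1 / x₁ + 1 / x₂ + s ^ 2 / d) ≤ 1 := by
    apply v.map_add_le
    · apply v.map_add_le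
      · rw [one_div, map_inv₀]
        exact inv_le_one_of_one_le₀ hx₁.le
      · rw [one_div, map_inv₀]
        exact inv_le_one_of_one_le₀ hx₂.le
    · rw [map_div₀, map_pow]
      exact (div_le_one₀ hvdpos).mpr hs2
  have hval := congrArg v hid
  simp only [map_mul] at hval
  rw [hv2, val_sqrt_eq_one v ha hs0, hA1p, hB1p, hC1p, one_mul, one_mul] at hval
  -- conclude
  have hX : v ((y₃ / x₃' - s0) / (y₃ / x₃' + s0)
      - (α₁ - s0) / (α₁ + s0) * ((α₂ - s0) / (α₂ + s0))) * v α₂ ≤ v W.a₄ := by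
    calc v ((y₃ / x₃' - s0) / (y₃ / x₃' + s0)
          - (α₁ - s0) / (α₁ + s0) * ((α₂ - s0) / (α₂ + s0))) * v α₂
        = v ((y₃ / x₃' - s0) / (y₃ / x₃' + s0)
          - (α₁ - s0) / (α₁ + s0) * ((α₂ - s0) / (α₂ + s0))) * (1 * 1 * v α₂) := by
          rw [one_mul, one_mul]
      _ ≤ v ((y₃ / x₃' - s0) / (y₃ / x₃' + s0)
          - (α₁ - s0) / (α₁ + s0) * ((α₂ - s0) / (α₂ + s0))) *
            (v (y₃ / x₃') * v α₁ * v α₂) := by
          gcongr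
      _ = v W.a₄ * v (1 / x₁ + 1 / x₂ + s ^ 2 / d) := hval
      _ ≤ v W.a₄ * 1 := by gcongr
      _ = v W.a₄ := mul_one _
  exact (le_mul_inv_iff₀ hBpos).mpr hX

/-- multiplicativity of the toric coordinate on `E1` up to `v a₄ * v t` -/
lemma phiC_add (hW : IsTwoNF W) (hv2 : v 2 = 1) (ha : v W.a₂ = 1) (hb : v W.a₄ ≤ 1)
    {s0 : K} (hs0 : s0 ^ 2 = W.a₂) {P₁ P₂ : W.Point} (h₁ : InE1 v P₁) (h₂ : InE1 v P₂) :
    InE1 v (P₁ + P₂) ∧
      v (phiC s0 (P₁ + P₂) - phiC s0 P₁ * phiC s0 P₂) ≤ v W.a₄ * v (tC P₂) := by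
  rcases h₁ with rfl | ⟨x₁, y₁, h₁, rfl, hx₁⟩
  · simp only [zero_add, phiC_zero, one_mul, sub_self, map_zero]
    exact ⟨h₂, zero_le⟩
  rcases h₂ with rfl | ⟨x₂, y₂, h₂, rfl, hx₂⟩
  · simp only [add_zero, phiC_zero, mul_one, sub_self, map_zero]
    exact ⟨Or.inr ⟨x₁, y₁, h₁, rfl, hx₁⟩, zero_le⟩
  by_cases hs : y₁ / x₁ + y₂ / x₂ = 0
  · obtain ⟨h0, -⟩ := hW.E1_add_zero v hb h₁ h₂ hx₁ hx₂ hs
    rw [h0]
    refine ⟨Or.inl rfl, ?_⟩
    obtain ⟨hA1, hA1p, hA1m⟩ := E1_basic v hW ha hb hs0 h₁ hx₁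
    have hApos : 0 < v (y₁ / x₁) := lt_trans zero_lt_one hA1
    have hne1 : y₁ / x₁ + s0 ≠ 0 := by
      apply ne_zero_of_val_pos v; rw [hA1p]; exact hApos
    have hne2 : y₁ / x₁ - s0 ≠ 0 := by
      apply ne_zero_of_val_pos v; rw [hA1m]; exact hApos
    have hα : y₂ / x₂ = -(y₁ / x₁) := by linear_combination hs
    have e : phiC s0 (0 : W.Point) - phiC s0 (Point.some x₁ y₁ h₁) *
        phiC s0 (Point.some x₂ y₂ h₂) = 0 := by
      simp only [phiC_zero, phiC_some]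
      rw [hα]
      have hne3 : -(y₁ / x₁) + s0 ≠ 0 := by
        intro h; apply hne2; linear_combination -h
      field_simp
      ring
    rw [e, map_zero]
    exact zero_le
  · exact phiC_add_aux v hW hv2 ha hb hs0 h₁ h₂ hx₁ hx₂ hs

/-- the toric coordinate of `k • P` is `phiC P ^ k` up to `v a₄ * v t` -/
lemma phiC_nsmul (hW : IsTwoNF W) (hv2 : v 2 = 1) (ha : v W.a₂ = 1) (hb : v W.a₄ ≤ 1)
    {s0 : K} (hs0 : s0 ^ 2 = W.a₂) {P : W.Point} (hP : InE1 v P) (k : ℕ) :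
    InE1 v (k • P) ∧ v (phiC s0 (k • P) - phiC s0 P ^ k) ≤ v W.a₄ * v (tC P) := by
  induction k with
  | zero =>
    simp only [zero_smul, phiC_zero, pow_zero, sub_self, map_zero]
    exact ⟨Or.inl rfl, zero_le⟩
  | succ k ih =>
    obtain ⟨ih1, ih2⟩ := ih
    obtain ⟨hE, hle⟩ := phiC_add v hW hv2 ha hb hs0 ih1 hP
    rw [succ_nsmul]
    refine ⟨hE, ?_⟩
    have e : phiC s0 (k • P + P) - phiC s0 P ^ (k + 1) =
        (phiC s0 (k • P + P) - phiC s0 (k • P) * phiC s0 P)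
          + (phiC s0 (k • P) - phiC s0 P ^ k) * phiC s0 P := by ring
    rw [e]
    apply v.map_add_le hle
    rw [map_mul, val_phiC v hW ha hb hs0 hP, mul_one]
    exact ih2

/-- **DEPTH** (`[W-MULT]` (b)): a nonzero `p`-torsion point of the kernel of reduction of
`y² = x³ + a₂ x² + a₄ x` (`v 2 = 1`, `v a₂ = 1`, `a₂ = s0²`, `v a₄ < v p`) has
`v t ^ (p - 1) = v p`. -/
theorem depth_of_torsion (hW : IsTwoNF W) (hv2 : v 2 = 1) (ha : v W.a₂ = 1)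
    {s0 : K} (hs0 : s0 ^ 2 = W.a₂) {p : ℕ} (hp : p.Prime) (hb : v W.a₄ < v (p : K))
    {P : W.Point} (hP : InE1 v P) (hP0 : P ≠ 0) (hpP : p • P = 0) :
    v (tC P) ^ (p - 1) = v (p : K) := by
  have hb1 : v W.a₄ ≤ 1 := le_trans hb.le (val_natCast_le_one v p)
  obtain ⟨-, hle⟩ := phiC_nsmul v hW hv2 ha hb1 hs0 hP p
  rw [hpP, phiC_zero] at hle
  have hu := val_phiC_sub_one v hW hv2 ha hb1 hs0 hP
  -- `v t` is positive and `< 1`
  have ht : 0 < v (tC P) ∧ v (tC P) < 1 := by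
    rcases hP with rfl | ⟨x, y, h, rfl, hx⟩
    · exact absurd rfl hP0
    · obtain ⟨h1, -, -⟩ := E1_basic v hW ha hb1 hs0 h hx
      rw [tC_some, val_tC_some v]
      exact ⟨inv_pos.mpr (lt_trans zero_lt_one h1), inv_lt_one_of_one_lt₀ h1⟩
  rw [← hu] at ht hle ⊢
  apply val_pow_pred_eq_of_small v hp (ne_zero_of_val_pos v ht.1) ht.2
  have e : (1 + (phiC s0 P - 1)) ^ p - 1 = -(1 - phiC s0 P ^ p) := by ring
  rw [e, Valuation.map_neg]
  exact lt_of_le_of_lt hle (mul_lt_mul_of_pos_right hb ht.1)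

/-- `IsSquare` form of `depth_of_torsion` -/
theorem depth_of_torsion' (hW : IsTwoNF W) (hv2 : v 2 = 1) (ha : v W.a₂ = 1)
    (hsq : IsSquare W.a₂) {p : ℕ} (hp : p.Prime) (hb : v W.a₄ < v (p : K))
    {P : W.Point} (hP : InE1 v P) (hP0 : P ≠ 0) (hpP : p • P = 0) :
    v (tC P) ^ (p - 1) = v (p : K) := by
  obtain ⟨s0, hs0⟩ := hsq
  exact depth_of_torsion v hW hv2 ha (s0 := s0) (by rw [hs0, pow_two]) hp hb hP hP0 hpP

/-- `ℤ`-multiple form of `depth_of_torsion` -/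
theorem depth_of_torsion_int (hW : IsTwoNF W) (hv2 : v 2 = 1) (ha : v W.a₂ = 1)
    {s0 : K} (hs0 : s0 ^ 2 = W.a₂) {p : ℕ} (hp : p.Prime) (hb : v W.a₄ < v (p : K))
    {P : W.Point} (hP : InE1 v P) (hP0 : P ≠ 0) (hpP : (p : ℤ) • P = 0) :
    v (tC P) ^ (p - 1) = v (p : K) :=
  depth_of_torsion v hW hv2 ha hs0 hp hb hP hP0 (by rwa [natCast_zsmul] at hpP)

/-- the form consumed as a hypothesis by the `[W-MULT]` core: all points at once -/
theorem depth_forall (hW : IsTwoNF W) (hv2 : v 2 = 1) (ha : v W.a₂ = 1)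
    {s0 : K} (hs0 : s0 ^ 2 = W.a₂) {p : ℕ} (hp : p.Prime) (hb : v W.a₄ < v (p : K)) :
    ∀ Q : W.Point, InE1 v Q → Q ≠ 0 → p • Q = 0 → v (tC Q) ^ (p - 1) = v (p : K) :=
  fun _ hQ hQ0 hpQ => depth_of_torsion v hW hv2 ha hs0 hp hb hQ hQ0 hpQ

end Fermat.Agent.T8.helper11
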