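import Mathlib
import Fermat.Agent.S37.helper16_EffRedFinal

/-!
# T8 `[F3-EXIT]` leaf 4 `[OMEGA]`, sub-boxes `[OMEGA-LIFT]` and `[OMEGA-ZERO]` (helper11)

Setting: a `RedSetting M A` of S37 (helper16): reduction of places `rP`, Rouché, and
`redSub (m ∞) = L̄(m ∞̄)` for `m ≥ n₀`.

* `exists_regular_quotient` (generic Riemann setting): every nonzero `f` is a quotient `a / b`
  of two functions regular off a given place `Q₀` with exact pole orders `≥ N` at `Q₀`;
* `exists_lift_exact` : an element of `L̄(n ∞̄)` of exact pole order `n ≥ n₀` is the reduction of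
  an integral element of `L(n ∞)` (so the pole order is preserved);
* `omega_lift` : every nonzero `fb` of the special fibre field is `red a / red b` with `a`, `b`
  integral, regular off infinity, of preserved pole order;
* `ord_eq_zero_of_rP_eq_Qinf` (`[OMEGA-ZERO]`): such an `a` has no zero at a place `P ≠ ∞`
  reducing to `∞̄`.
-/

set_option autoImplicit false
set_option linter.style.haveILetI false
set_option linter.unusedSectionVars false
set_option linter.unusedVariables false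

noncomputable section

namespace Fermat.Agent.T8.helper11

open HahnSeries IntermediateField AlgebraicCurve ModularCurve
open Fermat.Agent.S18.helper19 Fermat.Agent.P2.helper29 Fermat.Agent.P2.helper22
open Fermat.Agent.S24 Fermat.Agent.S37.helper16

section Generic

variable {K F : Type*} [Field K] [Field F] [Algebra K F]

theorem degree_single_gen (hS : Fermat.Agent.P2.helper74.RiemannSetting K F) (P : Place K F)
    (n : ℤ) : Divisor.degree (Finsupp.single P n) = n := by
  rw [Divisor.degree_single, hS.deg_one]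
  simp

/-- every nonzero `f` is a quotient `a / b` of two functions regular off `Q₀` with exact pole
orders `na, nb ≥ N` at `Q₀` -/
theorem exists_regular_quotient (hS : Fermat.Agent.P2.helper74.RiemannSetting K F) {g : ℕ}
    {c : ℤ}
    (hc : ∀ D : Divisor K F, c ≤ Divisor.degree D →
      (Fermat.Agent.P2.helper74.ell D : ℤ) + g = Divisor.degree D + 1)
    (Q₀ : Place K F) (f : F) (hf : f ≠ 0) (N : ℤ) :
    ∃ (a b : F) (na nb : ℤ), a ≠ 0 ∧ b ≠ 0 ∧ a = f * b ∧ N ≤ na ∧ N ≤ nb ∧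
      a ∈ riemannRochSpace (Finsupp.single Q₀ na) ∧
      b ∈ riemannRochSpace (Finsupp.single Q₀ nb) ∧
      Q₀.ord a = -na ∧ Q₀.ord b = -nb := by
  classical
  obtain ⟨Df, hDf, -⟩ := hS.principal.exists_divisor f hf
  -- the pole divisor of `f`
  set E : Divisor K F := Df.mapRange (fun n : ℤ => (((-n).toNat : ℕ) : ℤ)) (by simp) with hE
  have hEv : ∀ v, E v = (((-(v.ord f)).toNat : ℕ) : ℤ) := fun v => by
    rw [hE, Finsupp.mapRange_apply (hf := by simp), hDf]
  set m : ℤ := Divisor.degree E + max c g with hm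
  have hdeg : Divisor.degree (Finsupp.single Q₀ m - E) = max c (g : ℤ) := by
    rw [map_sub, degree_single_gen hS, hm]; ring
  have hell := hc (Finsupp.single Q₀ m - E) (by rw [hdeg]; exact le_max_left _ _)
  rw [hdeg] at hell
  have hpos : 0 < Fermat.Agent.P2.helper74.ell (Finsupp.single Q₀ m - E) := by
    have h1 : (g : ℤ) ≤ max c (g : ℤ) := le_max_right _ _
    have : (0 : ℤ) < Fermat.Agent.P2.helper74.ell (Finsupp.single Q₀ m - E) := by omega
    exact_mod_cast this
  obtain ⟨b₀, hb₀0, hb₀⟩ := Fermat.Agent.P2.helper74.exists_ne_zero_of_ell_pos hpos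
  have hb₀v : ∀ v, v ≠ Q₀ → 0 ≤ v.ord b₀ ∧ 0 ≤ v.ord f + v.ord b₀ := by
    intro v hv
    have := (Fermat.Agent.P2.helper74.mem_L_iff' hb₀0).mp hb₀ v
    rw [Finsupp.sub_apply, Finsupp.single_apply, if_neg (fun h => hv h.symm), hEv] at this
    constructor <;> omega
  have ha₀0 : f * b₀ ≠ 0 := mul_ne_zero hf hb₀0
  -- a function with exact large pole order
  set k : ℤ := max (max (N + Q₀.ord (f * b₀)) (N + Q₀.ord b₀)) (c + 1) with hk
  obtain ⟨u, hu0, hu, huord⟩ := Fermat.Agent.P2.helper74.exists_mem_L_ord_eq hS hc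
    (D := Finsupp.single Q₀ k) (by rw [degree_single_gen hS]; exact le_max_right _ _) Q₀
  rw [Finsupp.single_apply, if_pos rfl] at huord
  have huv : ∀ v, v ≠ Q₀ → 0 ≤ v.ord u := by
    intro v hv
    have := (Fermat.Agent.P2.helper74.mem_L_iff' hu0).mp hu v
    rw [Finsupp.single_apply, if_neg (fun h => hv h.symm)] at this
    omega
  have hk1 : N + Q₀.ord (f * b₀) ≤ k := le_trans (le_max_left _ _) (le_max_left _ _)
  have hk2 : N + Q₀.ord b₀ ≤ k := le_trans (le_max_right _ _) (le_max_left _ _)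
  refine ⟨f * b₀ * u, b₀ * u, -(Q₀.ord (f * b₀ * u)), -(Q₀.ord (b₀ * u)),
    mul_ne_zero ha₀0 hu0, mul_ne_zero hb₀0 hu0, by ring, ?_, ?_, ?_, ?_, by ring, by ring⟩
  · rw [Q₀.ord_mul ha₀0 hu0, huord]; omega
  · rw [Q₀.ord_mul hb₀0 hu0, huord]; omega
  · rw [Fermat.Agent.P2.helper74.mem_L_iff' (mul_ne_zero ha₀0 hu0)]
    intro v
    rw [Finsupp.single_apply]
    split_ifs with hv
    · subst hv; omega
    · have h1 := hb₀v v (fun h => hv h.symm)
      have h2 := huv v (fun h => hv h.symm)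
      rw [v.ord_mul ha₀0 hu0, v.ord_mul hf hb₀0]
      omega
  · rw [Fermat.Agent.P2.helper74.mem_L_iff' (mul_ne_zero hb₀0 hu0)]
    intro v
    rw [Finsupp.single_apply]
    split_ifs with hv
    · subst hv; omega
    · have h1 := hb₀v v (fun h => hv h.symm)
      have h2 := huv v (fun h => hv h.symm)
      rw [v.ord_mul hb₀0 hu0]
      omega

end Generic

section Modular

variable {M : ℕ} [NeZero M] {A : ValuationSubring Kb}

/-- shortcut instance (slow to find by synthesis) -/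
local instance algebraFFb11 : Algebra (kA A) (FFb A M) := SubalgebraClass.toAlgebra (FFb A M)

/-- preserved pole order: if `incl Y ∈ L(n ∞)` and the reduction of `Y` has exact order `-n`,
then `incl Y` has order `-n` and the coefficient of `Y` at `-n` is a unit. -/
theorem order_incl_eq {n : ℤ} {Y : LaurentSeries A} (hL : InL (FF M) n (incl A Y))
    (hY0 : red A Y ≠ 0) (hord : (red A Y).order = -n) :
    (incl A Y).order = -n ∧ IsUnit (Y.coeff (-n)) := by
  have h1 : (red A Y).coeff (-n) ≠ 0 := by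
    rw [← hord]
    exact fun h => hY0 (HahnSeries.coeff_order_eq_zero.mp h)
  rw [coeffMap_coeff] at h1
  have hu : IsUnit (Y.coeff (-n)) := by
    by_contra hnu
    exact h1 ((IsLocalRing.residue_eq_zero_iff _).mpr ((IsLocalRing.mem_maximalIdeal _).mpr hnu))
  have h2 : (incl A Y).coeff (-n) ≠ 0 := by
    rw [coeffMap_coeff]
    intro h0
    have : Y.coeff (-n) = 0 := Subtype.ext h0
    rw [this] at hu
    exact not_isUnit_zero hu
  refine ⟨le_antisymm (HahnSeries.order_le_of_coeff_ne_zero h2) ?_, hu⟩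
  by_contra hlt
  rw [not_le] at hlt
  have h3 := hL.2.2 _ hlt
  exact (HahnSeries.coeff_order_eq_zero.not.mpr (HahnSeries.ne_zero_of_coeff_ne_zero h2)) h3

/-- an element of `L̄(n ∞̄)`, `n ≥ n₀`, is the reduction of an integral element of `L(n ∞)` -/
theorem exists_lift_exact (S : RedSetting M A) {n : ℤ} (hn : S.n₀ ≤ n) {y : FFb A M}
    (hy : y ∈ riemannRochSpace (Finsupp.single S.Qinf n)) :
    ∃ Y : LaurentSeries A, InL (FF M) n (incl A Y) ∧ red A Y = (y : LaurentSeries (kA A)) := by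
  rw [← S.redSub_single hn] at hy
  obtain ⟨Z, ⟨f, hf, hfZ⟩, hZ⟩ := hy
  refine ⟨Z, ?_, hZ⟩
  rw [← hfZ]
  exact inL_of_mem_L S.hPinf (fun v => le_rfl) hf

/-- **[OMEGA-LIFT]** every nonzero element `fb` of the special fibre field is a quotient
`red Ya / red Yb` of reductions of integral functions regular off infinity whose pole orders
are preserved by the reduction (and are `≥ N`). -/
theorem omega_lift (S : RedSetting M A) (fb : FFb A M) (hfb : fb ≠ 0) (N : ℤ) :
    ∃ (Ya Yb : LaurentSeries A) (na nb : ℤ), N ≤ na ∧ N ≤ nb ∧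
      InL (FF M) na (incl A Ya) ∧ InL (FF M) nb (incl A Yb) ∧
      red A Ya ≠ 0 ∧ red A Yb ≠ 0 ∧
      red A Ya = (fb : LaurentSeries (kA A)) * red A Yb ∧
      (red A Ya).order = -na ∧ (red A Yb).order = -nb ∧
      (incl A Ya).order = -na ∧ (incl A Yb).order = -nb ∧
      IsUnit (Ya.coeff (-na)) ∧ IsUnit (Yb.coeff (-nb)) := by
  obtain ⟨a, b, na, nb, ha0, hb0, hab, hNa, hNb, haL, hbL, hao, hbo⟩ :=
    exists_regular_quotient S.hSb S.hcb S.Qinf fb hfb (max N S.n₀)
  obtain ⟨Ya, hYaL, hYa⟩ := exists_lift_exact S (le_trans (le_max_right _ _) hNa) haL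
  obtain ⟨Yb, hYbL, hYb⟩ := exists_lift_exact S (le_trans (le_max_right _ _) hNb) hbL
  have hYa0 : red A Ya ≠ 0 := by
    rw [hYa]; exact fun h => ha0 (Subtype.ext h)
  have hYb0 : red A Yb ≠ 0 := by
    rw [hYb]; exact fun h => hb0 (Subtype.ext h)
  have hao' : (red A Ya).order = -na := by
    rw [hYa, ← S.hQinf a ha0, hao]
  have hbo' : (red A Yb).order = -nb := by
    rw [hYb, ← S.hQinf b hb0, hbo]
  obtain ⟨h1, h2⟩ := order_incl_eq hYaL hYa0 hao'
  obtain ⟨h3, h4⟩ := order_incl_eq hYbL hYb0 hbo'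
  refine ⟨Ya, Yb, na, nb, le_trans (le_max_left _ _) hNa, le_trans (le_max_left _ _) hNb,
    hYaL, hYbL, hYa0, hYb0, ?_, hao', hbo', h1, h3, h2, h4⟩
  rw [hYa, hYb, hab]
  rfl

/-- the field element attached to an integral series regular off infinity is nonzero as soon
as its reduction is -/
theorem ne_zero_of_red_ne_zero {Y : LaurentSeries A} (hf : incl A Y ∈ FF M)
    (hY0 : red A Y ≠ 0) : (⟨incl A Y, hf⟩ : FF M) ≠ 0 := by
  intro h0
  have h1 : incl A Y = 0 := congrArg Subtype.val h0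
  have hY : Y = 0 := Fermat.Agent.P2.helper22.incl_injective (by rw [h1, map_zero])
  exact hY0 (by rw [hY, map_zero])

/-- `mapDomain rP` of an effective divisor is effective -/
theorem mapDomain_rP_nonneg (S : RedSetting M A) {E : Divisor Kb (FF M)} (hE : ∀ v, 0 ≤ E v)
    (Q : Place (kA A) (FFb A M)) : 0 ≤ Finsupp.mapDomain S.rP E Q := by
  rw [← S.Eplus_eq_mapDomain hE]
  exact S.Eplus_nonneg E Q

/-- **[OMEGA-ZERO]** an integral function regular off infinity whose pole order is preserved by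
the reduction has no zero at a place `P ≠ ∞` reducing to `∞̄`. -/
theorem ord_eq_zero_of_rP_eq_Qinf (S : RedSetting M A) {n : ℤ} {Y : LaurentSeries A}
    (hL : InL (FF M) n (incl A Y)) (hY0 : red A Y ≠ 0) (hord : (red A Y).order = -n)
    {P : Place Kb (FF M)} (hP : P ≠ S.Pinf) (hr : S.rP P = S.Qinf) :
    P.ord (⟨incl A Y, hL.1⟩ : FF M) = 0 := by
  classical
  have hS := riemannSetting_FF M
  have hb : red A Y ∈ FFb A M := (S.hReg n Y hL).1
  have hf0 : (⟨incl A Y, hL.1⟩ : FF M) ≠ 0 := ne_zero_of_red_ne_zero hL.1 hY0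
  have hfb0 : (⟨red A Y, hb⟩ : FFb A M) ≠ 0 := fun h0 => hY0 (congrArg Subtype.val h0)
  obtain ⟨D, hD, -⟩ := hS.principal.exists_divisor _ hf0
  have hR := S.rouche hL hb hY0 D hD S.Qinf
  rw [S.hQinf _ hfb0] at hR
  have hR' : Finsupp.mapDomain S.rP D S.Qinf = -n := by rw [hR]; exact hord
  obtain ⟨hfE, hmem⟩ := (inL_iff_mem S.hPinf n (incl A Y)).mp hL
  have hmem' := (Fermat.Agent.P2.helper74.mem_L_iff' hf0).mp hmem
  -- the effective divisor `E = D + n ∞ - (D P) P`
  set E : Divisor Kb (FF M) := D + Finsupp.single S.Pinf n - Finsupp.single P (D P) with hEdef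
  have hE : ∀ v, 0 ≤ E v := by
    intro v
    have h1 := hmem' v
    rw [hEdef, Finsupp.sub_apply, Finsupp.add_apply, hD]
    rw [Finsupp.single_apply] at h1 ⊢
    rw [Finsupp.single_apply]
    by_cases hv : P = v
    · subst hv
      rw [if_pos rfl, hD, if_neg (fun h => hP h.symm)]
      omega
    · rw [if_neg hv]
      omega
  have hsum : D + Finsupp.single S.Pinf n = E + Finsupp.single P (D P) := by
    rw [hEdef]; abel
  have hmap := congrArg (fun X => Finsupp.mapDomain S.rP X S.Qinf) hsum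
  simp only [Finsupp.mapDomain_add, Finsupp.mapDomain_single, Finsupp.add_apply, S.rP_Pinf, hr,
    Finsupp.single_eq_same] at hmap
  have hnn := mapDomain_rP_nonneg S hE S.Qinf
  have hP0 : 0 ≤ D P := by
    have := hmem' P
    rw [Finsupp.single_apply, if_neg (fun h => hP h.symm)] at this
    rw [hD]; omega
  rw [← hD]
  omega

/-- **Rouché for the quotient**: `r_* div (a / b) = div fb` when `red a = fb * red b`. -/
theorem mapDomain_quot (S : RedSetting M A) {na nb : ℤ} {Ya Yb : LaurentSeries A}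
    (hLa : InL (FF M) na (incl A Ya)) (hLb : InL (FF M) nb (incl A Yb))
    (hYa0 : red A Ya ≠ 0) (hYb0 : red A Yb ≠ 0) (fb : FFb A M)
    (hq : red A Ya = (fb : LaurentSeries (kA A)) * red A Yb)
    (Da Db : Divisor Kb (FF M)) (hDa : ∀ P, Da P = P.ord (⟨incl A Ya, hLa.1⟩ : FF M))
    (hDb : ∀ P, Db P = P.ord (⟨incl A Yb, hLb.1⟩ : FF M))
    (Q : Place (kA A) (FFb A M)) :
    Finsupp.mapDomain S.rP (Da - Db) Q = Q.ord fb := by
  have hba : red A Ya ∈ FFb A M := (S.hReg na Ya hLa).1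
  have hbb : red A Yb ∈ FFb A M := (S.hReg nb Yb hLb).1
  have hRa := S.rouche hLa hba hYa0 Da hDa Q
  have hRb := S.rouche hLb hbb hYb0 Db hDb Q
  have hbb0 : (⟨red A Yb, hbb⟩ : FFb A M) ≠ 0 := fun h0 => hYb0 (congrArg Subtype.val h0)
  have hfb0 : fb ≠ 0 := by
    rintro rfl
    apply hYa0
    rw [hq]
    simp
  have hmul : (⟨red A Ya, hba⟩ : FFb A M) = fb * ⟨red A Yb, hbb⟩ := Subtype.ext hq
  rw [Finsupp.mapDomain_sub, Finsupp.sub_apply, hRa, hRb, hmul, Q.ord_mul hfb0 hbb0]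
  ring

/-- **[OMEGA-SUM]** regrouping of the residue sum: for every weight `φ` on the places of the
special fibre, `∑_P ord_P (a / b) • φ (r P) = ∑_Q ord_Q fb • φ Q`. -/
theorem sum_ord_quot (S : RedSetting M A) {na nb : ℤ} {Ya Yb : LaurentSeries A}
    (hLa : InL (FF M) na (incl A Ya)) (hLb : InL (FF M) nb (incl A Yb))
    (hYa0 : red A Ya ≠ 0) (hYb0 : red A Yb ≠ 0) (fb : FFb A M)
    (hq : red A Ya = (fb : LaurentSeries (kA A)) * red A Yb)
    (Da Db : Divisor Kb (FF M)) (hDa : ∀ P, Da P = P.ord (⟨incl A Ya, hLa.1⟩ : FF M))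
    (hDb : ∀ P, Db P = P.ord (⟨incl A Yb, hLb.1⟩ : FF M))
    (Dfb : Divisor (kA A) (FFb A M)) (hDfb : ∀ Q, Dfb Q = Q.ord fb)
    {R : Type*} [AddCommGroup R] (φ : Place (kA A) (FFb A M) → R) :
    ((Da - Db).sum fun P m => m • φ (S.rP P)) = Dfb.sum fun Q m => m • φ Q := by
  have hD : Finsupp.mapDomain S.rP (Da - Db) = Dfb := by
    ext Q
    rw [mapDomain_quot S hLa hLb hYa0 hYb0 fb hq Da Db hDa hDb Q, hDfb]
  rw [← hD]
  exact (Finsupp.sum_mapDomain_index_addMonoidHom
    (fun Q => (smulAddHom ℤ R).flip (φ Q))).symm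

/-- the order at infinity of the quotient: `ord_∞ a - ord_∞ b = ord_∞̄ fb` when the pole orders
are preserved -/
theorem ord_Pinf_quot (S : RedSetting M A) {na nb : ℤ} {Ya Yb : LaurentSeries A}
    (hLa : InL (FF M) na (incl A Ya)) (hLb : InL (FF M) nb (incl A Yb))
    (hYa0 : red A Ya ≠ 0) (hYb0 : red A Yb ≠ 0) (fb : FFb A M)
    (hq : red A Ya = (fb : LaurentSeries (kA A)) * red A Yb)
    (hoa : (red A Ya).order = -na) (hob : (red A Yb).order = -nb) :
    S.Pinf.ord (⟨incl A Ya, hLa.1⟩ : FF M) - S.Pinf.ord (⟨incl A Yb, hLb.1⟩ : FF M)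
      = S.Qinf.ord fb := by
  have hba : red A Ya ∈ FFb A M := (S.hReg na Ya hLa).1
  have hbb : red A Yb ∈ FFb A M := (S.hReg nb Yb hLb).1
  have hba0 : (⟨red A Ya, hba⟩ : FFb A M) ≠ 0 := fun h0 => hYa0 (congrArg Subtype.val h0)
  have hbb0 : (⟨red A Yb, hbb⟩ : FFb A M) ≠ 0 := fun h0 => hYb0 (congrArg Subtype.val h0)
  have hfb0 : fb ≠ 0 := by
    rintro rfl
    apply hYa0
    rw [hq]
    simp
  have hmul : (⟨red A Ya, hba⟩ : FFb A M) = fb * ⟨red A Yb, hbb⟩ := Subtype.ext hq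
  have h1 := S.Qinf.ord_mul hfb0 hbb0
  rw [← hmul, S.hQinf _ hba0, S.hQinf _ hbb0] at h1
  have h2 : ((⟨red A Ya, hba⟩ : FFb A M) : LaurentSeries (kA A)).order = -na := hoa
  have h3 : ((⟨red A Yb, hbb⟩ : FFb A M) : LaurentSeries (kA A)).order = -nb := hob
  rw [S.hPinf _ (ne_zero_of_red_ne_zero hLa.1 hYa0), S.hPinf _ (ne_zero_of_red_ne_zero hLb.1 hYb0)]
  have h4 : ((⟨incl A Ya, hLa.1⟩ : FF M) : LaurentSeries Kb).order = -na :=
    (order_incl_eq hLa hYa0 hoa).1
  have h5 : ((⟨incl A Yb, hLb.1⟩ : FF M) : LaurentSeries Kb).order = -nb :=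
    (order_incl_eq hLb hYb0 hob).1
  omega

/-- **[OMEGA-SUM], characteristic `p` form**: if `p ∣ ord_Q fb` at every `Q ≠ ∞̄` and `p`
kills `R`, then `∑_{P ≠ ∞} ord_P (a / b) • φ (r P) = 0` for every weight `φ`. -/
theorem sum_erase_ord_quot_eq_zero (S : RedSetting M A) {na nb : ℤ} {Ya Yb : LaurentSeries A}
    (hLa : InL (FF M) na (incl A Ya)) (hLb : InL (FF M) nb (incl A Yb))
    (hYa0 : red A Ya ≠ 0) (hYb0 : red A Yb ≠ 0) (fb : FFb A M)
    (hq : red A Ya = (fb : LaurentSeries (kA A)) * red A Yb)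
    (hoa : (red A Ya).order = -na) (hob : (red A Yb).order = -nb)
    (Da Db : Divisor Kb (FF M)) (hDa : ∀ P, Da P = P.ord (⟨incl A Ya, hLa.1⟩ : FF M))
    (hDb : ∀ P, Db P = P.ord (⟨incl A Yb, hLb.1⟩ : FF M))
    (p : ℕ) (hp : ∀ Q : Place (kA A) (FFb A M), Q ≠ S.Qinf → (p : ℤ) ∣ Q.ord fb)
    {R : Type*} [AddCommGroup R] (hR : ∀ r : R, (p : ℤ) • r = 0)
    (φ : Place (kA A) (FFb A M) → R) :
    (((Da - Db).erase S.Pinf).sum fun P m => m • φ (S.rP P)) = 0 := by
  classical
  have hfb0 : fb ≠ 0 := by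
    rintro rfl
    apply hYa0
    rw [hq]
    simp
  obtain ⟨Dfb, hDfb, -⟩ := S.hSb.principal.exists_divisor fb hfb0
  have hsum := sum_ord_quot S hLa hLb hYa0 hYb0 fb hq Da Db hDa hDb Dfb hDfb φ
  have e1 := Finsupp.add_sum_erase' (Da - Db) S.Pinf (fun P (m : ℤ) => m • φ (S.rP P))
    (fun _ => zero_smul ℤ _)
  have e2 := Finsupp.add_sum_erase' Dfb S.Qinf (fun Q (m : ℤ) => m • φ Q)
    (fun _ => zero_smul ℤ _)
  rw [← e1, ← e2] at hsum
  have h0 : ((Dfb.erase S.Qinf).sum fun Q m => m • φ Q) = 0 := by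
    apply Finset.sum_eq_zero
    intro Q hQ
    have hQne : Q ≠ S.Qinf := by
      intro h
      rw [h] at hQ
      simp at hQ
    rw [Finsupp.erase_ne hQne, hDfb]
    obtain ⟨k, hk⟩ := hp Q hQne
    show Q.ord fb • φ Q = 0
    rw [hk, mul_comm, mul_smul, hR, smul_zero]
  have h1 : (Da - Db) S.Pinf = Dfb S.Qinf := by
    rw [Finsupp.sub_apply, hDa, hDb, hDfb]
    exact ord_Pinf_quot S hLa hLb hYa0 hYb0 fb hq hoa hob
  rw [h0, add_zero, h1, S.rP_Pinf] at hsum
  exact add_left_cancel (a := Dfb S.Qinf • φ S.Qinf) (by rw [hsum, add_zero])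

/-- a `RedSetting` exists at every good pair (S37, unconditional) -/
theorem nonempty_redSetting_goodPair (h : GoodPair M A) : Nonempty (RedSetting M A) :=
  nonempty_redSetting h.2 (Fermat.Agent.P2.helper81.regRedStatement M A h.2)
    (genusEq_goodPair h)

end Modular

end Fermat.Agent.T8.helper11

end
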