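import Mathlib
import Fermat.Agent.T8.helper11_OmegaLift

/-!
# T8 `[F3-EXIT]` leaf 4 `[OMEGA]`, `[OMEGA-LIFT]` in the shape asked by the owner (helper11)

`omega_lift_ord` : every nonzero `fb` of the special fibre field is `red a / red b` with
`a`, `b` integral, regular off infinity, `(red a).order = (incl a).order` and the same for `b`
(the hypotheses of `helper60.omegaSum`).
-/

set_option autoImplicit false
set_option linter.style.haveILetI false
set_option linter.unusedSectionVars false
set_option linter.unusedVariables false

noncomputable section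

namespace Fermat.Agent.T8.helper11

open HahnSeries IntermediateField AlgebraicCurve ModularCurve
open Fermat.Agent.S18.helper19 Fermat.Agent.P2.helper29 Fermat.Agent.P2.helper22
open Fermat.Agent.S24 Fermat.Agent.S37.helper16

variable {M : ℕ} [NeZero M] {A : ValuationSubring Kb}

/-- shortcut instance (slow to find by synthesis) -/
local instance algebraFFb11b : Algebra (kA A) (FFb A M) := SubalgebraClass.toAlgebra (FFb A M)

/-- **[OMEGA-LIFT]**, owner's shape. -/
theorem omega_lift_ord (S : RedSetting M A) (fb : FFb A M) (hfb : fb ≠ 0) :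
    ∃ (a b : LaurentSeries A) (na nb : ℤ),
      InL (FF M) na (incl A a) ∧ InL (FF M) nb (incl A b) ∧
      red A a ≠ 0 ∧ red A b ≠ 0 ∧
      (red A a).order = (incl A a).order ∧ (red A b).order = (incl A b).order ∧
      red A a = (fb : LaurentSeries (kA A)) * red A b := by
  obtain ⟨a, b, na, nb, -, -, hLa, hLb, ha0, hb0, hq, hoa, hob, hia, hib, -, -⟩ :=
    omega_lift S fb hfb 0
  exact ⟨a, b, na, nb, hLa, hLb, ha0, hb0, by rw [hoa, hia], by rw [hob, hib], hq⟩

/-- the same at a good pair, with the reduction setting produced on the spot -/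
theorem omega_lift_goodPair (h : GoodPair M A) (fb : FFb A M) (hfb : fb ≠ 0) :
    ∃ (a b : LaurentSeries A) (na nb : ℤ),
      InL (FF M) na (incl A a) ∧ InL (FF M) nb (incl A b) ∧
      red A a ≠ 0 ∧ red A b ≠ 0 ∧
      (red A a).order = (incl A a).order ∧ (red A b).order = (incl A b).order ∧
      red A a = (fb : LaurentSeries (kA A)) * red A b := by
  obtain ⟨S⟩ := nonempty_redSetting_goodPair h
  exact omega_lift_ord S fb hfb

/-- single-function form: an element `y ≠ 0` of the special fibre field which is regular off
`∞̄` is, after multiplication by a suitable `c ≠ 0` regular off `∞̄`, the reduction of an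
integral function regular off infinity with preserved pole order; here directly for `y` of
pole order `≥ n₀`. -/
theorem exists_lift_ord (S : RedSetting M A) {n : ℤ} (hn : S.n₀ ≤ n) {y : FFb A M} (hy0 : y ≠ 0)
    (hy : y ∈ riemannRochSpace (Finsupp.single S.Qinf n)) (hord : S.Qinf.ord y = -n) :
    ∃ Y : LaurentSeries A, InL (FF M) n (incl A Y) ∧ red A Y = (y : LaurentSeries (kA A)) ∧
      red A Y ≠ 0 ∧ (red A Y).order = (incl A Y).order := by
  obtain ⟨Y, hL, hY⟩ := exists_lift_exact S hn hy
  have hY0 : red A Y ≠ 0 := by
    rw [hY]; exact fun h => hy0 (Subtype.ext h)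
  have ho : (red A Y).order = -n := by
    rw [hY, ← S.hQinf y hy0, hord]
  exact ⟨Y, hL, hY, hY0, by rw [ho, (order_incl_eq hL hY0 ho).1]⟩

end Fermat.Agent.T8.helper11

end
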