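import Mathlib
import Fermat.Agent.P3.helper58_FFExt

/-!
# T8 [PHI-E1] / [E1-ORD] (helper12): finite SEPARABLE extensions of function fields in the
Prelude `Place` language - norm formula and fundamental identity, any characteristic

Port of `P3/helper58_FFExt` (sections `Local`, `Global`) with the hypothesis `CharZero F`
replaced by `Algebra.IsSeparable F F'`.

For a finite separable extension `F'/F` of fields over an algebraically closed field `K`, all of
whose places have residue field `K`:

* `sum_fiber_ord_eqS` : `∑_{w | v} ord_w f = ord_v (N_{F'/F} f)`;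
* `pushforwardNormFormula_of_surjectiveS` : `Divisor.PushforwardNormFormula K F F'`;
* `fundamentalIdentity_of_surjectiveS` : `FundamentalIdentity K F F'`.
-/

set_option autoImplicit false
set_option linter.unusedSectionVars false
set_option linter.style.haveILetI false
open AlgebraicCurve IsDedekindDomain Ideal

namespace Fermat.Agent.T8.helper12

open Fermat.Agent.P3.helper58 (inertiaDeg_eq_one_of_surjective primeOf ofHeightOneSpectrum_primeOf
  ofHeightOneSpectrum_injective log_valuation_norm)

section Local

open WithZero

variable {K F : Type*} (F' : Type*) [Field K] [Field F] [Field F'] [Algebra K F] [Algebra K F']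
  [Algebra F F'] [IsScalarTower K F F'] [FiniteDimensional F F'] [Algebra.IsSeparable F F']

variable (v : Place K F)

/-- the integral closure of the valuation ring of `v` in `F'` -/
abbrev BVs : Subalgebra v.toValuationSubring F' := integralClosure v.toValuationSubring F'

local instance : IsDedekindDomain (BVs F' v) :=
  integralClosure.isDedekindDomain v.toValuationSubring F F'

local instance : IsFractionRing (BVs F' v) F' :=
  integralClosure.isFractionRing_of_finite_extension F F'

local instance : Module.Finite v.toValuationSubring (BVs F' v) :=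
  IsIntegralClosure.finite v.toValuationSubring F F' (BVs F' v)

local instance isScalarTower_OVs : IsScalarTower K v.toValuationSubring F' :=
  IsScalarTower.of_algebraMap_eq fun a => by
    rw [IsScalarTower.algebraMap_apply K F F']
    rfl

theorem algebraMap_OV_injectiveS : Function.Injective (algebraMap v.toValuationSubring F') := by
  intro a b h
  have h1 : algebraMap F F' (a : F) = algebraMap F F' (b : F) := h
  exact Subtype.ext ((algebraMap F F').injective h1)

local instance isTorsionFree_OVs : Module.IsTorsionFree v.toValuationSubring F' :=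
  Module.isTorsionFree_iff_algebraMap_injective.mpr (algebraMap_OV_injectiveS F' v)

local instance isTorsionFree_BVs : Module.IsTorsionFree v.toValuationSubring (BVs F' v) :=
  Subalgebra.instIsTorsionFree (BVs F' v)

/-- every height one prime of `BVs` lies over the maximal ideal of the valuation ring -/
theorem liesOver_maximalIdealS (Q : HeightOneSpectrum (BVs F' v)) :
    Q.asIdeal.LiesOver (IsLocalRing.maximalIdeal v.toValuationSubring) := by
  have hprime : (Q.asIdeal.under v.toValuationSubring).IsPrime := inferInstance
  have hne : Q.asIdeal.under v.toValuationSubring ≠ ⊥ := by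
    intro h
    exact Q.ne_bot (Ideal.eq_bot_of_comap_eq_bot h)
  have hmax : (Q.asIdeal.under v.toValuationSubring).IsMaximal := hprime.isMaximal hne
  exact ⟨(IsLocalRing.eq_maximalIdeal hmax).symm⟩

theorem restrict_ofHeightOneSpectrumS (Q : HeightOneSpectrum (BVs F' v)) :
    (Place.ofHeightOneSpectrum (K := K) (F := F') Q).restrict F = v := by
  symm
  apply Place.ext
  refine ValuationSubring.eq_of_le_of_ne_top _ ?_
    ((Place.ofHeightOneSpectrum (K := K) (F := F') Q).restrict F).ne_top'
  intro a ha
  rw [Place.restrict_toValuationSubring, ValuationSubring.mem_comap,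
    Place.ofHeightOneSpectrum_toValuationSubring, Valuation.mem_valuationSubring_iff]
  have h1 : algebraMap F F' a = algebraMap (BVs F' v) F'
      (algebraMap v.toValuationSubring (BVs F' v) ⟨a, ha⟩) := rfl
  rw [h1]
  exact Q.valuation_le_one _

theorem BVs_mem_of_restrict_eq (w : Place K F') (hw : w.restrict F = v) (b : BVs F' v) :
    algebraMap (BVs F' v) F' b ∈ w.toValuationSubring := by
  have hA : ∀ a : v.toValuationSubring, algebraMap v.toValuationSubring F' a
      ∈ w.toValuationSubring.toSubring := by
    intro a
    have ha : (a : F) ∈ (w.restrict F).toValuationSubring := by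
      rw [hw]
      exact a.2
    exact w.mem_restrict_iff.mp ha
  let _ : Algebra v.toValuationSubring w.toValuationSubring :=
    ((algebraMap v.toValuationSubring F').codRestrict w.toValuationSubring.toSubring hA).toAlgebra
  have : IsScalarTower v.toValuationSubring w.toValuationSubring F' :=
    IsScalarTower.of_algebraMap_eq fun f => rfl
  have hs : IsIntegral w.toValuationSubring (b : F') := (b.2 : IsIntegral _ (b : F')).tower_top
  obtain ⟨y, hy⟩ := IsIntegrallyClosed.isIntegral_iff.mp hs
  have : algebraMap (BVs F' v) F' b = (b : F') := rfl
  rw [this, ← hy]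
  exact y.2

theorem exists_ofHeightOneSpectrum_eqS (w : Place K F') (hw : w.restrict F = v) :
    ∃ Q : HeightOneSpectrum (BVs F' v), Place.ofHeightOneSpectrum (K := K) (F := F') Q = w :=
  ⟨primeOf w (BVs_mem_of_restrict_eq F' v w hw),
    ofHeightOneSpectrum_primeOf w (BVs_mem_of_restrict_eq F' v w hw)⟩

section Norm

/-- the relative norm of a height one prime of `BVs` is a power of the maximal ideal of the
valuation ring of `v` (with an exponent which we do not need to know) -/
theorem exists_relNorm_eq_powS (Q : HeightOneSpectrum (BVs F' v)) :
    ∃ s : ℕ, relNorm v.toValuationSubring Q.asIdeal = v.heightOneSpectrum.asIdeal ^ s := by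
  haveI := liesOver_maximalIdealS F' v Q
  rw [Place.heightOneSpectrum_asIdeal]
  exact exists_relNorm_eq_pow_of_isPrime Q.asIdeal
    (IsLocalRing.maximalIdeal v.toValuationSubring)

/-- **Valuation of a norm**, local form at a place `v`, with unknown multiplicities. -/
theorem exists_ord_norm_eq_sumS [Fintype (HeightOneSpectrum (BVs F' v))] :
    ∃ s : HeightOneSpectrum (BVs F' v) → ℕ, ∀ f : F', f ≠ 0 →
      v.ord (Algebra.norm F f) =
        ∑ Q : HeightOneSpectrum (BVs F' v),
          (s Q : ℤ) * (Place.ofHeightOneSpectrum (K := K) (F := F') Q).ord f := by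
  choose s hs using exists_relNorm_eq_powS F' v
  refine ⟨s, fun f hf => ?_⟩
  have h := log_valuation_norm F F' v.heightOneSpectrum s hs hf
  unfold Place.ord Place.adicValuation
  rw [h, ← Finset.sum_neg_distrib]
  refine Finset.sum_congr rfl fun Q _ => ?_
  have := Fermat.Agent.S24.helper75.ofHeightOneSpectrum_ord (K := K) Q f
  unfold Place.ord Place.adicValuation at this
  rw [this]
  ring

end Norm

section Final

variable [HasPrincipalDivisors K F']

theorem finite_heightOneSpectrum_BVs : Finite (HeightOneSpectrum (BVs F' v)) := by
  have hfin := Place.restrict_fiber_finite (F := F) (F' := F') v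
  haveI := hfin.to_subtype
  exact Finite.of_injective
    (fun Q => (⟨Place.ofHeightOneSpectrum (K := K) (F := F') Q,
      restrict_ofHeightOneSpectrumS F' v Q⟩ : {w : Place K F' | w.restrict F = v}))
    (fun Q Q' h => ofHeightOneSpectrum_injective (congrArg Subtype.val h))

/-- **divisibility of the order of a norm**: if `n` divides the order of `f` at every place of
`F'` over `v`, then `n` divides the order of `N_{F'/F} f` at `v`. -/
theorem dvd_ord_norm_of_fiber (n : ℤ) (f : F')
    (h : ∀ w : Place K F', w.restrict F = v → n ∣ w.ord f) :
    n ∣ v.ord (Algebra.norm F f) := by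
  classical
  rcases eq_or_ne f 0 with rfl | hf
  · rw [Algebra.norm_zero, Place.ord_zero]
    exact dvd_zero n
  haveI := finite_heightOneSpectrum_BVs F' v
  letI := Fintype.ofFinite (HeightOneSpectrum (BVs F' v))
  obtain ⟨s, hs⟩ := exists_ord_norm_eq_sumS F' v
  rw [hs f hf]
  refine Finset.dvd_sum fun Q _ => ?_
  exact Dvd.dvd.mul_left (h _ (restrict_ofHeightOneSpectrumS F' v Q)) _

/-- **nonnegativity of the order of a norm**: if `f` is regular at every place of `F'` over `v`,
then `N_{F'/F} f` is regular at `v`. -/
theorem ord_norm_nonneg_of_fiber (f : F')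
    (h : ∀ w : Place K F', w.restrict F = v → 0 ≤ w.ord f) :
    0 ≤ v.ord (Algebra.norm F f) := by
  classical
  rcases eq_or_ne f 0 with rfl | hf
  · rw [Algebra.norm_zero]
    exact (Place.ord_zero v).ge
  haveI := finite_heightOneSpectrum_BVs F' v
  letI := Fintype.ofFinite (HeightOneSpectrum (BVs F' v))
  obtain ⟨s, hs⟩ := exists_ord_norm_eq_sumS F' v
  rw [hs f hf]
  refine Finset.sum_nonneg fun Q _ => ?_
  exact mul_nonneg (Nat.cast_nonneg _) (h _ (restrict_ofHeightOneSpectrumS F' v Q))

end Final

end Local

section Along

variable {K F F' : Type*} [Field K] [Field F] [Field F'] [Algebra K F] [Algebra K F']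
  [HasPrincipalDivisors K F']

/-- `dvd_ord_norm_of_fiber` along an algebra homomorphism `φ : F → F'` (finite, separable). -/
theorem dvd_ord_normAlong_of_fiber (φ : F →ₐ[K] F') (hfin : FiniteAlong K φ)
    (hsep : letI := algebraAlong φ; Algebra.IsSeparable F F')
    (v : Place K F) (n : ℤ) (f : F')
    (h : ∀ (hφ : φ.toRingHom.IsIntegral) (w : Place K F'), w.restrictAlong φ hφ = v → n ∣ w.ord f) :
    n ∣ v.ord (letI := algebraAlong φ; Algebra.norm F f) := by
  letI := algebraAlong φ
  haveI := isScalarTower_along φ
  haveI : Module.Finite F F' := hfin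
  haveI : Algebra.IsSeparable F F' := hsep
  have hφ : φ.toRingHom.IsIntegral := fun y => Algebra.IsIntegral.isIntegral (R := F) y
  exact dvd_ord_norm_of_fiber F' v n f (fun w hw => h hφ w hw)

end Along

end Fermat.Agent.T8.helper12
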