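/-
T8 (row 38 via S44, at risk), box [PHI-E1] (helper43): **contracts**.

The multiplicative Hecke operator on functions, in characteristic `0` and on the special fibre,
and the three statements of the box:

* `heckeMul M ℓ u = Norm_α (β u)` for `u ∈ F_M` (`α` = inclusion `F_M ⊆ F_{Mℓ}`, `β` = `q ↦ q^ℓ`);
* `heckeMulBar A M ℓ f = Norm_ᾱ (β̄ f)` for `f` in the special fibre field `FFb A M`;
* `PhiE1KumStatement`  : **[E1-KUM]** (Kummer dictionary) if `u` is a Kummer representative of a
  class `x` of `J₀(M)` then `heckeMul M ℓ u` is a Kummer representative of `T_ℓ x`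
  (`heckeOperatorAlong`);
* `PhiE1RedStatement`  : **[E1-RED]** the reduction relation commutes with the multiplicative
  Hecke operator: `Red u ū → Red (heckeMul u) (heckeMulBar ū)` (quotient form of P2 / S18, so
  no integrality of expansions is asserted);
* `PhiE1OrdStatement`  : **[E1-ORD]** on the special fibre, `heckeMulBar` preserves the property
  "`p` divides the order at every place which is not a pole of `j̄`" (places of the Hecke
  correspondence over a non-cuspidal place are non-cuspidal; norm formula for places).

No proof in this file except the Kummer dictionary (which is formal from `helper43_DegMaps`).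
-/
import Mathlib
import Fermat.Agent.T7.helper43_DegMaps
import Fermat.Agent.S18.helper19_Transfer

set_option autoImplicit false
set_option linter.unusedSectionVars false
set_option linter.unusedVariables false
set_option linter.style.longLine false

noncomputable section

open ModularCurve AlgebraicCurve IntermediateField

namespace Fermat.Agent.T8.helper43

open Fermat.Agent.S18.helper19 Fermat.Agent.P3.helper94

variable (M ℓ : ℕ) [NeZero M] [NeZero ℓ]

/-- **the multiplicative Hecke operator** `u ↦ Norm_α (β u)` on the function field of level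
`M` (characteristic `0`) -/
def heckeMul (u : FF M) : FF M :=
  normAlong (heckeAlphaBar Kb M ℓ) (heckeBetaBar Kb M ℓ u)

variable (A : ValuationSubring Kb)

/-- the inclusion `ᾱ : FFb A M → FFb A (M ℓ)` of the special fibre fields -/
def alphaBarC : FFb A M →ₐ[kA A] FFb A (M * ℓ) :=
  IntermediateField.inclusion (full_degeneracyC_le (kA A) (dvd_mul_right M ℓ))

/-- `β̄ : FFb A M → FFb A (M ℓ)`, `q ↦ q ^ ℓ` -/
def betaBarC : FFb A M →ₐ[kA A] FFb A (M * ℓ) :=
  ((qExpandAlgHomC (kA A) ℓ).comp (FFb A M).val).codRestrict (FFb A (M * ℓ)).toSubalgebra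
    (fun x => full_degeneracyC_map_le (kA A) M ℓ ⟨x, x.2, rfl⟩)

theorem coe_alphaBarC (f : FFb A M) :
    ((alphaBarC M ℓ A f : FFb A (M * ℓ)) : LaurentSeries (kA A)) = f :=
  IntermediateField.coe_inclusion _ f

theorem coe_betaBarC (f : FFb A M) :
    ((betaBarC M ℓ A f : FFb A (M * ℓ)) : LaurentSeries (kA A)) =
      qExpand (kA A) ℓ (f : LaurentSeries (kA A)) :=
  rfl

/-- **the multiplicative Hecke operator on the special fibre** `f ↦ Norm_ᾱ (β̄ f)` -/
def heckeMulBar (f : FFb A M) : FFb A M :=
  normAlong (alphaBarC M ℓ A) (betaBarC M ℓ A f)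

/-- `p` divides the order of `f` at every place of the special fibre which is not a pole of
`j̄` (every non-cuspidal place) -/
def PDivOffCusps (p : ℕ) (f : FFb A M) : Prop :=
  ∀ t : Place (kA A) (FFb A M), 0 ≤ t.ord (xJb A M) → (p : ℤ) ∣ t.ord f

/-- **[E1-KUM]** Kummer dictionary for `T_ℓ`. -/
def PhiE1KumStatement : Prop :=
  ∀ (n : ℕ) (x : JZero M) (u : FF M), IsKummerRep n x u →
    IsKummerRep n (heckeOperatorAlong Kb M ℓ x) (heckeMul M ℓ u)

/-- **[E1-RED]** the reduction relation commutes with the multiplicative Hecke operator. -/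
def PhiE1RedStatement : Prop :=
  ∀ (u : FF M) (f : FFb A M), RedM A M u f → RedM A M (heckeMul M ℓ u) (heckeMulBar M ℓ A f)

/-- **[E1-ORD]** `heckeMulBar` preserves `p`-divisibility of the orders off the cusps. -/
def PhiE1OrdStatement (p : ℕ) : Prop :=
  ∀ f : FFb A M, f ≠ 0 → PDivOffCusps M A p f → PDivOffCusps M A p (heckeMulBar M ℓ A f)

/-- **[E1-KUM]** holds at every level. -/
theorem phiE1Kum : PhiE1KumStatement M ℓ := by
  intro n x u H
  have h1 := Fermat.Agent.T7.helper43.isKummerRep_betaPull (N := M) (ℓ := ℓ) H
  have h2 := Fermat.Agent.T7.helper43.isKummerRep_alphaPush h1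
  rw [Fermat.Agent.T7.helper43.alphaPush_betaPull] at h2
  exact h2

end Fermat.Agent.T8.helper43

end
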