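import Mathlib
import Fermat.Agent.T8.helper12_FFExtSep
import Fermat.Agent.T8.helper43_PhiE1
import Fermat.Agent.P2.helper81_ValConv
import Fermat.Agent.P2.helper81_ValField
import Fermat.Agent.P2.helper95_FFl2
import Fermat.Agent.T2.helper96_ValBase
import Fermat.Agent.S24.helper82_FFBasic
import Fermat.Agent.P2.helper74_RieInst

/-!
# T8 [PHI-E1], leaf [E1-ORD] (helper12): `heckeMulBar` preserves `p`-divisibility off the cusps

`phiE1Ord_bad`  : `helper43.PhiE1OrdStatement (N * q) ℓ A p` for `A` over the prime `q`,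
                  `q ∤ N`, `q ∤ ℓ` (any natural number `p`, any `ℓ` prime to `q`);
`phiE1Ord_good` : `helper43.PhiE1OrdStatement N ℓ A p`, same hypotheses.

Route: `dvd_ord_normAlong_of_fiber` (the order of a norm at `v` is a combination of the orders at
the places over `v`, finite separable extensions, any characteristic), `Place.ord_restrictAlong`
for `β̄`, and the reduced modular equation `P2.helper81.phiBar` at level `ℓ`: `j̄(q^ℓ)` is
integral over `k[j̄]`, so the places of the correspondence over a non-cuspidal place are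
non-cuspidal on both sides.
-/

set_option autoImplicit false
set_option linter.unusedSectionVars false
set_option linter.unusedVariables false
set_option linter.style.longLine false
set_option linter.style.haveILetI false
set_option synthInstance.maxHeartbeats 400000
set_option maxHeartbeats 1000000

noncomputable section

open ModularCurve AlgebraicCurve IntermediateField Polynomial

namespace Fermat.Agent.T8.helper12

open Fermat.Agent.S18.helper19 Fermat.Agent.P3.helper94

/-! ### Abstract part -/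

section Abstract

variable {K F F' : Type*} [Field K] [Field F] [Field F'] [Algebra K F] [Algebra K F']

/-- A `K`-algebra homomorphism between function fields of one variable is finite (any
characteristic). -/
theorem finiteAlong_of_ffS [IsAlgClosed K] (φ : F →ₐ[K] F') (x : F) (hx : Transcendental K x)
    (x' : F') (hx' : Transcendental K x') [FiniteDimensional K⟮x'⟯ F'] :
    FiniteAlong K φ := by
  have h1 : φ x ∉ Set.range (algebraMap K F') := by
    rintro ⟨c, hc⟩
    have h2 : φ x = φ (algebraMap K F c) := by rw [← hc, AlgHom.commutes]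
    have h3 : x = algebraMap K F c := φ.toRingHom.injective h2
    exact hx (h3 ▸ isAlgebraic_algebraMap c)
  haveI := (Fermat.Agent.S24.helper82.ff_transcendental x' hx' (φ x) h1).2
  have hle : K⟮φ x⟯ ≤ φ.fieldRange := by
    rw [adjoin_simple_le_iff]
    exact ⟨x, rfl⟩
  letI : Algebra K⟮φ x⟯ φ.fieldRange := (IntermediateField.inclusion hle).toRingHom.toAlgebra
  haveI : IsScalarTower K⟮φ x⟯ φ.fieldRange F' := IsScalarTower.of_algebraMap_eq fun _ => rfl
  haveI : Module.Finite φ.fieldRange F' := Module.Finite.of_restrictScalars_finite K⟮φ x⟯ _ _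
  letI := algebraAlong φ
  show Module.Finite F F'
  let e : F ≃ₐ[K] φ.fieldRange := AlgEquiv.ofInjectiveField φ
  refine Module.Finite.of_equiv_equiv (A₁ := φ.fieldRange) (B₁ := F') e.symm.toRingEquiv
    (RingEquiv.refl F') ?_
  ext y
  obtain ⟨z, rfl⟩ := e.surjective y
  simp only [RingHom.comp_apply]
  show φ (e.symm (e z)) = (e z : F')
  rw [AlgEquiv.symm_apply_apply]
  rfl

theorem isIntegral_of_finiteAlongS (φ : F →ₐ[K] F') (h : FiniteAlong K φ) :
    φ.toRingHom.IsIntegral := by
  letI := algebraAlong φ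
  haveI : Module.Finite F F' := h
  exact fun y => Algebra.IsIntegral.isIntegral (R := F) y

/-- separability along `φ`, from separability over `K(φ x)` -/
theorem isSeparableAlong_of_ff (φ : F →ₐ[K] F') (x : F)
    [Algebra.IsSeparable K⟮φ x⟯ F'] :
    letI := algebraAlong φ; Algebra.IsSeparable F F' := by
  have hle : K⟮φ x⟯ ≤ φ.fieldRange := by
    rw [adjoin_simple_le_iff]
    exact ⟨x, rfl⟩
  letI : Algebra K⟮φ x⟯ φ.fieldRange := (IntermediateField.inclusion hle).toRingHom.toAlgebra
  haveI : IsScalarTower K⟮φ x⟯ φ.fieldRange F' := IsScalarTower.of_algebraMap_eq fun _ => rfl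
  haveI : Algebra.IsSeparable φ.fieldRange F' :=
    Algebra.isSeparable_tower_top_of_isSeparable K⟮φ x⟯ φ.fieldRange F'
  letI := algebraAlong φ
  let e : F ≃ₐ[K] φ.fieldRange := AlgEquiv.ofInjectiveField φ
  refine Algebra.IsSeparable.of_equiv_equiv (A₁ := φ.fieldRange) (B₁ := F') e.symm.toRingEquiv
    (RingEquiv.refl F') ?_
  ext y
  obtain ⟨z, rfl⟩ := e.surjective y
  simp only [RingHom.comp_apply]
  show φ (e.symm (e z)) = (e z : F')
  rw [AlgEquiv.symm_apply_apply]
  rfl

/-- **[E1-ORD], abstract form.**  `α, β : F → F'` two homomorphisms of function fields over an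
algebraically closed field, `F'` finite separable over `K(α x)`, `β x` integral over `K[α x]`
(through a monic two-variable polynomial).  If `n` divides the order of `f` at every place of `F`
at which `x` is regular, the same holds for `Norm_α (β f)`. -/
theorem dvd_ord_norm_corr [IsAlgClosed K] (α β : F →ₐ[K] F') (x : F) (hx : Transcendental K x)
    [FiniteDimensional K⟮α x⟯ F'] [Algebra.IsSeparable K⟮α x⟯ F']
    (Φ : Polynomial (Polynomial K)) (hΦ : Φ.Monic)
    (hroot : Fermat.Agent.P2.helper81.ev₂ (α x) (β x) Φ = 0)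
    (n : ℤ) (f : F) (hf : ∀ t : Place K F, 0 ≤ t.ord x → n ∣ t.ord f)
    (v : Place K F) (hv : 0 ≤ v.ord x) :
    n ∣ v.ord (normAlong α (β f)) := by
  have hx' : Transcendental K (α x) := by
    intro h
    apply hx
    exact (isAlgebraic_algHom_iff α α.toRingHom.injective).mp h
  haveI : HasPrincipalDivisors K F' :=
    Fermat.Agent.P2.helper95.ffl_hasPrincipalDivisors (α x) hx'
  have hfinα : FiniteAlong K α := finiteAlong_of_ffS α x hx (α x) hx'
  have hfinβ : FiniteAlong K β := finiteAlong_of_ffS β x hx (α x) hx'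
  have hβ : β.toRingHom.IsIntegral := isIntegral_of_finiteAlongS β hfinβ
  have hsep := isSeparableAlong_of_ff α x
  rw [normAlong_def]
  refine dvd_ord_normAlong_of_fiber α hfinα hsep v n (β f) (fun hα w hw => ?_)
  rw [Place.ord_restrictAlong β hβ w f]
  refine Dvd.dvd.mul_left (hf _ ?_) _
  have h1 : 0 ≤ w.ord (α x) := by
    rw [Place.ord_restrictAlong α hα w x, hw]
    exact mul_nonneg (Nat.cast_nonneg _) hv
  have h2 : 0 ≤ w.ord (β x) :=
    Fermat.Agent.P2.helper81.place_ord_nonneg_of_monic w (α x) (β x) h1 Φ hΦ hroot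
  rw [Place.ord_restrictAlong β hβ w x] at h2
  have he : 0 < Place.ramificationIndexAlong β w := by
    letI := algebraAlong β
    haveI := isScalarTower_along β
    haveI := isIntegral_along β hβ
    exact Place.ramificationIndex_pos (F := F) w
  by_contra hneg
  rw [not_le] at hneg
  have he' : (0 : ℤ) < (Place.ramificationIndexAlong β w : ℤ) := by exact_mod_cast he
  nlinarith

end Abstract

/-! ### The modular instance -/

section Modular

open Fermat.Agent.P2.helper81 (ev₂ phiBar phiBar_monic phiBar_root algHom_ev₂)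

variable (A : ValuationSubring Kb)

/-- the intermediate field `E` of `k((q))` contains `j̄`, and is finite separable over `k(j̄)` -/
def SepE (E : IntermediateField (kA A) (LaurentSeries (kA A))) : Prop :=
  ∃ hj : jqModC (kA A) ∈ E,
    FiniteDimensional (kA A)⟮(⟨jqModC (kA A), hj⟩ : E)⟯ E ∧
    Algebra.IsSeparable (kA A)⟮(⟨jqModC (kA A), hj⟩ : E)⟯ E

/-- good levels -/
theorem sepE_good {q : ℕ} (hq : q.Prime) (hA : A.LiesOverPrime q) (N : ℕ) [NeZero N]
    (hqN : ¬ q ∣ N) : SepE A (FFb A N) := by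
  haveI : Fact q.Prime := ⟨hq⟩
  exact ⟨jqModC_mem_full (kA A) N, Fermat.Agent.P2.helper81.finiteDimensional_xBar A hA N hqN,
    Fermat.Agent.P2.helper81.isSeparable_xBar A hA N hqN⟩

/-- bad levels `N q`: the special fibre field is the one of level `N` -/
theorem sepE_bad {q : ℕ} [NeZero q] (hq : q.Prime) (hA : A.LiesOverPrime q) (N : ℕ) [NeZero N]
    (hqN : ¬ q ∣ N) : SepE A (FFb A (N * q)) := by
  rw [Fermat.Agent.T2.helper96.FFb_mul_eq N A hq hA]
  exact sepE_good A hq hA N hqN

/-- **[E1-ORD]** from the separability of the special fibre field of level `M ℓ` over `k(j̄)`. -/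
theorem phiE1Ord_of_sepE (M ℓ : ℕ) [NeZero M] [NeZero ℓ] {q : ℕ} (hq : q.Prime)
    (hA : A.LiesOverPrime q) (hqℓ : ¬ q ∣ ℓ) (hM : SepE A (FFb A (M * ℓ))) (p : ℕ) :
    Fermat.Agent.T8.helper43.PhiE1OrdStatement M ℓ A p := by
  intro f hf0 hf v hv
  haveI : Fact q.Prime := ⟨hq⟩
  haveI : IsAlgClosed (kA A) := Fermat.Agent.P2.helper74.isAlgClosed_residueField A
  obtain ⟨hj, hfd, hsep⟩ := hM
  have hαx : Fermat.Agent.T8.helper43.alphaBarC M ℓ A (xJb A M)
      = (⟨jqModC (kA A), hj⟩ : FFb A (M * ℓ)) := Subtype.ext rfl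
  haveI : FiniteDimensional (kA A)⟮Fermat.Agent.T8.helper43.alphaBarC M ℓ A (xJb A M)⟯
      (FFb A (M * ℓ)) := by
    rw [hαx]; exact hfd
  haveI : Algebra.IsSeparable (kA A)⟮Fermat.Agent.T8.helper43.alphaBarC M ℓ A (xJb A M)⟯
      (FFb A (M * ℓ)) := by
    rw [hαx]; exact hsep
  have hx : Transcendental (kA A) (xJb A M) := Fermat.Agent.P2.helper81.transcendental_xBar A M
  have hroot : ev₂ (Fermat.Agent.T8.helper43.alphaBarC M ℓ A (xJb A M))
      (Fermat.Agent.T8.helper43.betaBarC M ℓ A (xJb A M)) (phiBar A hA ℓ hqℓ) = 0 := by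
    apply Subtype.val_injective
    have h := algHom_ev₂ (FFb A (M * ℓ)).val
      (Fermat.Agent.T8.helper43.alphaBarC M ℓ A (xJb A M))
      (Fermat.Agent.T8.helper43.betaBarC M ℓ A (xJb A M)) (phiBar A hA ℓ hqℓ)
    have h2 := phiBar_root A hA ℓ hqℓ
    exact h.trans h2
  exact dvd_ord_norm_corr (Fermat.Agent.T8.helper43.alphaBarC M ℓ A)
    (Fermat.Agent.T8.helper43.betaBarC M ℓ A) (xJb A M) hx (phiBar A hA ℓ hqℓ)
    (phiBar_monic A hA ℓ hqℓ) hroot (p : ℤ) f hf v hv

/-- **[E1-ORD] at the good level `N`** (`A` over `q`, `q ∤ N ℓ`). -/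
theorem phiE1Ord_good (N ℓ : ℕ) [NeZero N] [NeZero ℓ] {q : ℕ} (hq : q.Prime)
    (hA : A.LiesOverPrime q) (hqN : ¬ q ∣ N) (hqℓ : ¬ q ∣ ℓ) (p : ℕ) :
    Fermat.Agent.T8.helper43.PhiE1OrdStatement N ℓ A p := by
  haveI : NeZero (N * ℓ) := ⟨Nat.mul_ne_zero (NeZero.ne N) (NeZero.ne ℓ)⟩
  refine phiE1Ord_of_sepE A N ℓ hq hA hqℓ (sepE_good A hq hA (N * ℓ) ?_) p
  intro h
  rcases (Nat.Prime.dvd_mul hq).mp h with h | h
  · exact hqN h
  · exact hqℓ h

/-- **[E1-ORD] at the bad level `N q`** (`A` over `q`, `q ∤ N ℓ`). -/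
theorem phiE1Ord_bad (N ℓ : ℕ) [NeZero N] [NeZero ℓ] {q : ℕ} [NeZero q] (hq : q.Prime)
    (hA : A.LiesOverPrime q) (hqN : ¬ q ∣ N) (hqℓ : ¬ q ∣ ℓ) (p : ℕ) :
    Fermat.Agent.T8.helper43.PhiE1OrdStatement (N * q) ℓ A p := by
  haveI : NeZero (N * ℓ) := ⟨Nat.mul_ne_zero (NeZero.ne N) (NeZero.ne ℓ)⟩
  have hqNℓ : ¬ q ∣ N * ℓ := by
    intro h
    rcases (Nat.Prime.dvd_mul hq).mp h with h | h
    · exact hqN h
    · exact hqℓ h
  have h1 : SepE A (FFb A (N * ℓ * q)) := sepE_bad A hq hA (N * ℓ) hqNℓ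
  have e : N * q * ℓ = N * ℓ * q := by ring
  refine phiE1Ord_of_sepE A (N * q) ℓ hq hA hqℓ ?_ p
  rw [e]
  exact h1

end Modular

end Fermat.Agent.T8.helper12

end
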