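/-
T8 (row 38 via S44, at risk), box [PHI-E1] (helper43): **the norm commutes with a reduction
relation** (abstract, Mathlib + the abstract core of S18 only).

Setting of `S18.helper19.IsRed`: `R : F → Fb → Prop` a reduction relation over the valuation
ring `A` of `K`, `L ≤ F`, `Lb ≤ Fb` intermediate fields such that every nonzero element of `L`
can be scaled by a constant to an element with nonzero reduction in `Lb`, every element of `Fb`
lifts, and `[F : L] ≤ [Fb : Lb]`.  Then

* `isRed_norm_red` : `R g ḡ → R (N_{F/L} g) (N_{Fb/Lb} ḡ)`.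

Proof: lift a basis of `Fb / Lb`; it is a basis of `F / L`; the matrix of the multiplication by
`g` reduces entrywise to the matrix of the multiplication by `ḡ`; take determinants.
-/
import Mathlib
import Fermat.Agent.S18.helper19_Core

set_option autoImplicit false
set_option linter.unusedSectionVars false
set_option linter.unusedVariables false
set_option linter.style.longLine false

noncomputable section

namespace Fermat.Agent.T8.helper43

open Module Fermat.Agent.S18.helper19

section Abs

variable {K F Fb : Type*} [Field K] [Field F] [Algebra K F] {A : ValuationSubring K}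
  [Field Fb] [Algebra (IsLocalRing.ResidueField A) Fb] {R : F → Fb → Prop}

/-- a constant which reduces to `0` lies in the maximal ideal -/
theorem red_const_zero (hR : IsRed A R) {c : K} (h : R (algebraMap K F c) 0) :
    ∃ a : A, (a : K) = c ∧ IsLocalRing.residue A a = 0 := by
  by_cases hcA : c ∈ A
  · refine ⟨⟨c, hcA⟩, rfl, ?_⟩
    have h1 := hR.unique h (hR.const ⟨c, hcA⟩)
    exact (algebraMap (IsLocalRing.ResidueField A) Fb).injective (by rw [← h1, map_zero])
  · exfalso
    have hc0 : c ≠ 0 := fun h0 => hcA (h0 ▸ A.zero_mem)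
    have hinv : c⁻¹ ∈ A := (A.mem_or_inv_mem c).resolve_left hcA
    have h2 := hR.mul h (hR.const ⟨c⁻¹, hinv⟩)
    rw [zero_mul] at h2
    have h3 : algebraMap K F c * algebraMap K F ((⟨c⁻¹, hinv⟩ : A) : K) = 1 := by
      rw [← map_mul]
      show algebraMap K F (c * c⁻¹) = 1
      rw [mul_inv_cancel₀ hc0, map_one]
    rw [h3] at h2
    exact one_ne_zero (hR.unique hR.one h2)

/-- products -/
theorem isRed_prod (hR : IsRed A R) {ι : Type*} (s : Finset ι) {x : ι → F} {y : ι → Fb}
    (h : ∀ i ∈ s, R (x i) (y i)) : R (∏ i ∈ s, x i) (∏ i ∈ s, y i) := by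
  classical
  induction s using Finset.induction_on with
  | empty => simpa using hR.one
  | insert a s ha ih =>
    rw [Finset.prod_insert ha, Finset.prod_insert ha]
    exact hR.mul (h a (Finset.mem_insert_self a s))
      (ih fun i hi => h i (Finset.mem_insert_of_mem hi))

/-- determinants -/
theorem isRed_det (hR : IsRed A R) {n : Type*} [Fintype n] [DecidableEq n]
    {m : Matrix n n F} {mb : Matrix n n Fb} (h : ∀ i j, R (m i j) (mb i j)) :
    R m.det mb.det := by
  rw [Matrix.det_apply, Matrix.det_apply]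
  refine hR.sum _ fun σ _ => ?_
  have hp : R (∏ i, m (σ i) i) (∏ i, mb (σ i) i) := isRed_prod hR _ fun i _ => h (σ i) i
  rcases Int.units_eq_one_or (Equiv.Perm.sign σ) with hs | hs
  · rw [hs, one_smul, one_smul]
    exact hp
  · rw [hs, Units.neg_smul, Units.neg_smul, one_smul, one_smul]
    exact hR.neg hp

variable (L : IntermediateField K F) (Lb : IntermediateField (IsLocalRing.ResidueField A) Fb)

/-- one column: the coordinates of `x = ∑ aᵢ θᵢ` reduce to the coordinates of its reduction -/
theorem isRed_coord_red (hR : IsRed A R)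
    (hnorm : ∀ a : L, a ≠ 0 → ∃ c : K, c ≠ 0 ∧ ∃ b : Lb, b ≠ 0 ∧
      R (algebraMap K F c⁻¹ * (a : F)) (b : Fb))
    {ι : Type*} [Fintype ι] (θ : ι → F) (θb : ι → Fb) (hθ : ∀ i, R (θ i) (θb i))
    (hli : LinearIndependent Lb θb) (a : ι → L) {y : Fb} (hy : R (∑ i, a i • θ i) y) :
    ∃ ab : ι → Lb, (∀ i, R ((a i : L) : F) ((ab i : Lb) : Fb)) ∧ y = ∑ i, ab i • θb i := by
  classical
  by_cases hne : ∃ i, a i ≠ 0
  · obtain ⟨c₀, hc₀, b, -, hb, hsum, hz⟩ :=
      hR.exists_norm_combination L Lb hnorm θ θb hθ hli a hne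
    set x : F := ∑ i, a i • θ i with hx
    set z : Fb := ∑ i, b i • θb i with hzdef
    have hcx : algebraMap K F c₀⁻¹ * x ≠ 0 := hR.ne_zero hsum hz
    have hx0 : x ≠ 0 := fun h0 => hcx (by rw [h0, mul_zero])
    have hinv := hR.inv hsum hz
    have hprod := hR.mul hy hinv
    have e1 : x * (algebraMap K F c₀⁻¹ * x)⁻¹ = algebraMap K F c₀ := by
      rw [mul_inv, ← map_inv₀, inv_inv, mul_comm (algebraMap K F c₀), ← mul_assoc,
        mul_inv_cancel₀ hx0, one_mul]
    rw [e1] at hprod
    -- `c₀` is integral with residue `y z⁻¹`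
    have hc₀A : ∃ a₀ : A, (a₀ : K) = c₀ ∧
        y * z⁻¹ = algebraMap (IsLocalRing.ResidueField A) Fb (IsLocalRing.residue A a₀) := by
      by_cases hy0 : y = 0
      · rw [hy0, zero_mul] at hprod
        obtain ⟨a₀, ha₀, hres⟩ := red_const_zero hR hprod
        exact ⟨a₀, ha₀, by rw [hy0, zero_mul, hres, map_zero]⟩
      · exact hR.exists_of_const hprod (mul_ne_zero hy0 (inv_ne_zero hz))
    obtain ⟨a₀, ha₀, hres⟩ := hc₀A
    set r : IsLocalRing.ResidueField A := IsLocalRing.residue A a₀ with hr
    refine ⟨fun i => (⟨algebraMap (IsLocalRing.ResidueField A) Fb r, Lb.algebraMap_mem r⟩ : Lb)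
      * b i, fun i => ?_, ?_⟩
    · have h1 := hR.mul (hR.const a₀) (hb i)
      rw [ha₀, ← mul_assoc, ← map_mul, mul_inv_cancel₀ hc₀, map_one, one_mul] at h1
      exact h1
    · have h2 : y = algebraMap (IsLocalRing.ResidueField A) Fb r * z := by
        rw [← hres, mul_assoc, inv_mul_cancel₀ hz, mul_one]
      rw [h2, hzdef, Finset.mul_sum]
      refine Finset.sum_congr rfl fun i _ => ?_
      show _ = ((⟨algebraMap (IsLocalRing.ResidueField A) Fb r, Lb.algebraMap_mem r⟩ : Lb)
        * b i : Lb) • θb i
      rw [mul_smul]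
      rfl
  · push_neg at hne
    refine ⟨fun _ => 0, fun i => ?_, ?_⟩
    · rw [hne i]
      simpa using hR.zero
    · have h0 : ∑ i, a i • θ i = 0 :=
        Finset.sum_eq_zero fun i _ => by rw [hne i, zero_smul]
      rw [h0] at hy
      rw [hR.unique hy hR.zero]
      simp

/-- **the norm commutes with the reduction relation** -/
theorem isRed_norm_red (hR : IsRed A R) [FiniteDimensional L F]
    (hnorm : ∀ a : L, a ≠ 0 → ∃ c : K, c ≠ 0 ∧ ∃ b : Lb, b ≠ 0 ∧
      R (algebraMap K F c⁻¹ * (a : F)) (b : Fb))
    (hliftF : ∀ y : Fb, ∃ x : F, R x y)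
    (hdeg : Module.finrank L F ≤ Module.finrank Lb Fb)
    {g : F} {gb : Fb} (hg : R g gb) :
    R ((Algebra.norm L g : L) : F) ((Algebra.norm Lb gb : Lb) : Fb) := by
  classical
  have hposL : 0 < Module.finrank L F := Module.finrank_pos
  haveI : FiniteDimensional Lb Fb :=
    Module.finite_of_finrank_pos (lt_of_lt_of_le hposL hdeg)
  set n := Module.finrank Lb Fb with hn
  let bb : Module.Basis (Fin n) Lb Fb := Module.finBasis Lb Fb
  choose lift hlift using hliftF
  let θ : Fin n → F := fun i => lift (bb i)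
  have hθ : ∀ i, R (θ i) (bb i) := fun i => hlift (bb i)
  have hli : LinearIndependent L θ :=
    hR.linearIndependent_lift L Lb hnorm θ (fun i => bb i) hθ bb.linearIndependent
  have hcard : Fintype.card (Fin n) = Module.finrank L F := by
    rw [Fintype.card_fin]
    refine le_antisymm ?_ hdeg
    have := hli.fintype_card_le_finrank
    rwa [Fintype.card_fin] at this
  haveI : Nonempty (Fin n) := ⟨⟨0, lt_of_lt_of_le hposL hdeg⟩⟩
  let b : Module.Basis (Fin n) L F := basisOfLinearIndependentOfCardEqFinrank hli hcard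
  have hb : ∀ i, b i = θ i := fun i => by
    simp [b, coe_basisOfLinearIndependentOfCardEqFinrank]
  rw [Algebra.norm_eq_matrix_det b g, Algebra.norm_eq_matrix_det bb gb]
  -- entries
  have hentry : ∀ i j, R ((Algebra.leftMulMatrix b g i j : L) : F)
      ((Algebra.leftMulMatrix bb gb i j : Lb) : Fb) := by
    intro i j
    have hcol : R (∑ i, (b.repr (g * b j) i) • θ i) (gb * bb j) := by
      have e : ∑ i, (b.repr (g * b j) i) • θ i = g * b j := by
        have h := b.sum_repr (g * b j)
        simp only [hb] at h ⊢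
        exact h
      rw [e, hb]
      exact hR.mul hg (hθ j)
    obtain ⟨ab, hab, hy⟩ := isRed_coord_red L Lb hR hnorm θ (fun i => bb i) hθ bb.linearIndependent
      (fun i => b.repr (g * b j) i) hcol
    have hrepr : bb.repr (gb * bb j) i = ab i := by
      rw [hy]
      simp [map_sum, Finsupp.single_apply]
    rw [Algebra.leftMulMatrix_eq_repr_mul, Algebra.leftMulMatrix_eq_repr_mul, hrepr]
    exact hab i
  have h1 : ((Matrix.det (Algebra.leftMulMatrix b g) : L) : F) =
      Matrix.det ((Algebra.leftMulMatrix b g).map (algebraMap L F)) :=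
    RingHom.map_det (algebraMap L F) _
  have h2 : ((Matrix.det (Algebra.leftMulMatrix bb gb) : Lb) : Fb) =
      Matrix.det ((Algebra.leftMulMatrix bb gb).map (algebraMap Lb Fb)) :=
    RingHom.map_det (algebraMap Lb Fb) _
  rw [h1, h2]
  exact isRed_det hR fun i j => hentry i j

end Abs

end Fermat.Agent.T8.helper43

end
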