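/-
T8 (row 38 via S44, at risk), box [PHI-E1] (helper43): tools for **[E1-RED]** (norms along homomorphisms, degrees on the
special fibre at the bad level `N p`, `A ∣ p`, `p ∤ N`, `ℓ` a prime not dividing `N p`).

* `coe_normAlong`  : the norm along `ψ` is the norm over the field range of `ψ`;
* `normAlong_red`  : abstract form along two algebra homomorphisms (from `isRed_norm_red`);
* `red_qExpand`    : the reduction relation commutes with `q ↦ q ^ ℓ`;
* `finrank_alphaBarC` : `[FFb A (N p ℓ) : FFb A (N p)] = ℓ + 1`.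
-/
import Mathlib
import Fermat.Agent.T8.helper43_PhiE1
import Fermat.Agent.T8.helper43_NormRedAbs
import Fermat.Agent.T2.helper96_ValBase
import Fermat.Agent.T2.helper58_ScaleBad
import Fermat.Agent.P2.helper93_ESDegree
import Fermat.Agent.P2.helper43_TameBase

set_option autoImplicit false
set_option linter.unusedSectionVars false
set_option linter.unusedVariables false
set_option linter.style.longLine false
set_option linter.style.haveILetI false

noncomputable section

open ModularCurve AlgebraicCurve IntermediateField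

namespace Fermat.Agent.T8.helper43

open Fermat.Agent.S18.helper19 Fermat.Agent.P3.helper94 Fermat.Agent.P2.helper29

/-! ### Norms along a homomorphism -/

section Along

variable {K F₀ F : Type*} [Field K] [Field F₀] [Field F] [Algebra K F₀] [Algebra K F]

/-- the norm along `ψ` is the norm over the field range of `ψ` -/
theorem coe_normAlong (ψ : F₀ →ₐ[K] F) (g : F) :
    ψ (normAlong ψ g) = ((Algebra.norm ψ.fieldRange g : ψ.fieldRange) : F) := by
  letI := algebraAlong ψ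
  let e₁ : F₀ ≃+* ψ.fieldRange := (AlgEquiv.ofInjectiveField ψ).toRingEquiv
  have he : RingHom.comp (algebraMap ψ.fieldRange F) (e₁ : F₀ →+* ψ.fieldRange) =
      RingHom.comp ((RingEquiv.refl F : F ≃+* F) : F →+* F) (algebraMap F₀ F) := by
    ext x
    rfl
  have h := Algebra.norm_eq_of_equiv_equiv e₁ (RingEquiv.refl F) he g
  have h2 : ∀ y : ψ.fieldRange, ψ (e₁.symm y) = (y : F) := by
    intro y
    have : (e₁ (e₁.symm y) : F) = ψ (e₁.symm y) := rfl
    rw [← this, RingEquiv.apply_symm_apply]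
  show ψ (Algebra.norm F₀ g) = _
  rw [h, h2]
  rfl

/-- the degree along `ψ` is the degree over the field range -/
theorem finrank_fieldRange (ψ : F₀ →ₐ[K] F) :
    (letI := algebraAlong ψ; Module.finrank F₀ F) = Module.finrank ψ.fieldRange F := by
  letI := algebraAlong ψ
  let e₁ : F₀ ≃+* ψ.fieldRange := (AlgEquiv.ofInjectiveField ψ).toRingEquiv
  exact Algebra.finrank_eq_of_equiv_equiv e₁ (RingEquiv.refl F) (by
    ext x
    rfl)

variable {A : ValuationSubring K} {F₀b Fb : Type*} [Field F₀b] [Field Fb]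
  [Algebra (IsLocalRing.ResidueField A) F₀b] [Algebra (IsLocalRing.ResidueField A) Fb]

/-- **the norm along a homomorphism commutes with a reduction relation** -/
theorem normAlong_red {R : F → Fb → Prop} (hR : IsRed A R) (ψ : F₀ →ₐ[K] F)
    (ψb : F₀b →ₐ[IsLocalRing.ResidueField A] Fb) (hfin : FiniteAlong K ψ)
    (hnorm : ∀ a : F₀, a ≠ 0 → ∃ c : K, c ≠ 0 ∧ ∃ b : F₀b, b ≠ 0 ∧
      R (algebraMap K F c⁻¹ * ψ a) (ψb b))
    (hlift : ∀ y : Fb, ∃ x : F, R x y)
    (hdeg : (letI := algebraAlong ψ; Module.finrank F₀ F) ≤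
      (letI := algebraAlong ψb; Module.finrank F₀b Fb))
    {g : F} {gb : Fb} (hg : R g gb) :
    R (ψ (normAlong ψ g)) (ψb (normAlong ψb gb)) := by
  rw [coe_normAlong, coe_normAlong]
  rw [finrank_fieldRange ψ, finrank_fieldRange ψb] at hdeg
  have hpos : 0 < Module.finrank ψ.fieldRange F := by
    rw [← finrank_fieldRange ψ]
    letI := algebraAlong ψ
    haveI : Module.Finite F₀ F := hfin
    exact Module.finrank_pos
  haveI : FiniteDimensional ψ.fieldRange F := Module.finite_of_finrank_pos hpos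
  refine isRed_norm_red ψ.fieldRange ψb.fieldRange hR ?_ hlift hdeg hg
  rintro ⟨a, a₀, rfl⟩ ha
  have ha₀ : a₀ ≠ 0 := by
    rintro rfl
    exact ha (Subtype.ext (map_zero ψ))
  obtain ⟨c, hc, b, hb, hRb⟩ := hnorm a₀ ha₀
  refine ⟨c, hc, ⟨ψb b, b, rfl⟩, ?_, hRb⟩
  intro h0
  have h1 : ψb b = 0 := congrArg Subtype.val h0
  exact hb ((map_eq_zero_iff ψb ψb.toRingHom.injective).1 h1)

end Along

/-! ### The reduction relation and `q ↦ q ^ ℓ` -/

section QExp

variable {A : ValuationSubring Kb} (ℓ : ℕ) [NeZero ℓ]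

theorem qExpand_ne_zero' {k : Type*} [Field k] {y : LaurentSeries k} (hy : y ≠ 0) :
    qExpand k ℓ y ≠ 0 := by
  intro h0
  exact hy ((map_eq_zero_iff (qExpand k ℓ) (qExpand k ℓ).injective).1 h0)

/-- the reduction relation commutes with `q ↦ q ^ ℓ` -/
theorem red_qExpand {x : LaurentSeries Kb} {y : LaurentSeries (kA A)} (h : Red A x y) :
    Red A (qExpand Kb ℓ x) (qExpand (kA A) ℓ y) := by
  obtain ⟨Y₁, Y₂, h0, e1, e2⟩ := h
  refine ⟨qExpand A ℓ Y₁, qExpand A ℓ Y₂, ?_, ?_, ?_⟩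
  · rw [coeffMap_qExpand]
    exact qExpand_ne_zero' ℓ h0
  · rw [coeffMap_qExpand, coeffMap_qExpand, ← e1, map_mul]
  · rw [coeffMap_qExpand, coeffMap_qExpand, ← e2, map_mul]

end QExp

/-! ### Degrees on the special fibre -/

section Degree

theorem finrank_adjoin_congr {K L : Type*} [Field K] [Field L] [Algebra K L]
    {E₁ E₂ : IntermediateField K L} (h : E₁ = E₂) (x : L) (h₁ : x ∈ E₁) (h₂ : x ∈ E₂) :
    Module.finrank K⟮(⟨x, h₁⟩ : E₁)⟯ E₁ = Module.finrank K⟮(⟨x, h₂⟩ : E₂)⟯ E₂ := by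
  subst h
  rfl

variable {N p ℓ : ℕ} [NeZero N] [NeZero p] [NeZero ℓ] (hp : p.Prime) (hpN : ¬ p ∣ N)
  (hℓ : ℓ.Prime) (hℓN : ¬ ℓ ∣ N * p) (A : ValuationSubring Kb) (hA : A.LiesOverPrime p)

include hp hpN hA in
/-- `[FFb A (N p) : k(j̄)] = ψ(N)` -/
theorem finrank_jBar_bad :
    Module.finrank (kA A)⟮jBar A (N * p)⟯ (FFb A (N * p)) = dedekindPsi N := by
  haveI : Fact p.Prime := ⟨hp⟩
  rw [← Fermat.Agent.P2.helper43.finrank_jBar N A hA hpN]
  exact finrank_adjoin_congr (Fermat.Agent.T2.helper96.FFb_mul_eq N A hp hA) _ _ _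

include hp hpN hℓ hℓN hA in
/-- `[FFb A (N p ℓ) : k(j̄)] = (ℓ + 1) ψ(N)` -/
theorem finrank_jBar_bad_mul :
    Module.finrank (kA A)⟮jBar A (N * p * ℓ)⟯ (FFb A (N * p * ℓ)) =
      (ℓ + 1) * dedekindPsi N := by
  haveI : Fact p.Prime := ⟨hp⟩
  have hℓN' : ¬ ℓ ∣ N := fun h => hℓN (h.mul_right p)
  have hℓp : ℓ ≠ p := fun h => hℓN (h ▸ dvd_mul_left ℓ N)
  have hpNℓ : ¬ p ∣ N * ℓ := by
    intro h
    rcases (Nat.Prime.dvd_mul hp).1 h with h1 | h1
    · exact hpN h1
    · exact hℓp ((Nat.prime_dvd_prime_iff_eq hp hℓ).1 h1).symm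
  have e : FFb A (N * p * ℓ) = FFb A (N * ℓ) := by
    rw [Nat.mul_right_comm]
    exact Fermat.Agent.T2.helper96.FFb_mul_eq (N * ℓ) A hp hA
  rw [← Fermat.Agent.S24.helper37.dedekindPsi_mul_prime_of_not_dvd hℓ (NeZero.ne N) hℓN',
    ← Fermat.Agent.P2.helper43.finrank_jBar (N * ℓ) A hA hpNℓ]
  exact finrank_adjoin_congr e _ _ _

include hp hpN hℓ hℓN hA in
/-- **`[FFb A (N p ℓ) : FFb A (N p)] = ℓ + 1`** -/
theorem finrank_alphaBarC :
    (letI := algebraAlong (alphaBarC (N * p) ℓ A);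
      Module.finrank (FFb A (N * p)) (FFb A (N * p * ℓ))) = ℓ + 1 := by
  have htower := Fermat.Agent.P2.helper93.finrank_tower_along (alphaBarC (N * p) ℓ A)
    (jBar A (N * p))
  have hx : alphaBarC (N * p) ℓ A (jBar A (N * p)) = jBar A (N * p * ℓ) :=
    Subtype.ext (coe_alphaBarC (N * p) ℓ A _)
  rw [hx, finrank_jBar_bad hp hpN A hA, finrank_jBar_bad_mul hp hpN hℓ hℓN A hA] at htower
  have hpos : 0 < dedekindPsi N := Fermat.Agent.S24.helper37.dedekindPsi_pos N (NeZero.ne N)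
  have h2 : dedekindPsi N * (letI := algebraAlong (alphaBarC (N * p) ℓ A);
      Module.finrank (FFb A (N * p)) (FFb A (N * p * ℓ))) = dedekindPsi N * (ℓ + 1) := by
    rw [htower, mul_comm]
  exact Nat.eq_of_mul_eq_mul_left hpos h2

end Degree

end Fermat.Agent.T8.helper43

end
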