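/-
T8 (row 38 via S44, at risk), box [PHI-E1] (helper43): **[E1-RED]** - the reduction relation
commutes with the multiplicative Hecke operator at the bad level `N p` (`A ∣ p`, `p ∤ N`,
`ℓ` a prime not dividing `N p`):  `phiE1Red : PhiE1RedStatement (N * p) ℓ A`.
-/
import Mathlib
import Fermat.Agent.T8.helper43_PhiE1Deg

set_option autoImplicit false
set_option linter.unusedSectionVars false
set_option linter.unusedVariables false
set_option linter.style.longLine false
set_option linter.style.haveILetI false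

noncomputable section

open ModularCurve AlgebraicCurve IntermediateField

namespace Fermat.Agent.T8.helper43

open Fermat.Agent.S18.helper19 Fermat.Agent.P3.helper94 Fermat.Agent.P2.helper29

section Main

variable {N p ℓ : ℕ} [NeZero N] [NeZero p] [NeZero ℓ]

/-- scaling at the bad level, in the form needed by `normAlong_red` -/
theorem scale_along (hp : p.Prime) (hpN : ¬ p ∣ N)
    (A : ValuationSubring Kb) (hA : A.LiesOverPrime p) (a : FF (N * p)) (ha : a ≠ 0) :
    ∃ c : Kb, c ≠ 0 ∧ ∃ b : FFb A (N * p), b ≠ 0 ∧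
      RedM A (N * p * ℓ) (algebraMap Kb (FF (N * p * ℓ)) c⁻¹ * heckeAlphaBar Kb (N * p) ℓ a)
        (alphaBarC (N * p) ℓ A b) := by
  have hS := Fermat.Agent.T2.helper58.scaleStatement_bad N p hp hpN A hA
  obtain ⟨c, Y₁, Y₂, hc, hY₁, hY₂, e⟩ := hS (a : LaurentSeries Kb) a.2
    (fun h0 => ha (Subtype.ext h0))
  refine ⟨c, hc, (⟨red A Y₁, hY₁.2.1⟩ : FFb A (N * p)) / ⟨red A Y₂, hY₂.2.1⟩, ?_, ?_⟩
  · exact div_ne_zero (fun h0 => hY₁.2.2 (congrArg Subtype.val h0))
      (fun h0 => hY₂.2.2 (congrArg Subtype.val h0))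
  · unfold RedM
    rw [IntermediateField.coe_mul, IntermediateField.coe_algebraMap_apply, coe_heckeAlphaBar,
      coe_alphaBarC, IntermediateField.coe_div]
    refine ⟨Y₁, Y₂, hY₂.2.2, ?_, ?_⟩
    · have e' : algebraMap Kb (LaurentSeries Kb) c * coeffMap A.subtype Y₁ =
          (a : LaurentSeries Kb) * coeffMap A.subtype Y₂ := e
      rw [mul_assoc, ← e', ← mul_assoc, ← map_mul, inv_mul_cancel₀ hc, map_one, one_mul]
    · exact div_mul_cancel₀ _ hY₂.2.2

/-- **[E1-RED]** at the bad level `N p`. -/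
theorem phiE1Red (hp : p.Prime) (hpN : ¬ p ∣ N) (hℓ : ℓ.Prime) (hℓN : ¬ ℓ ∣ N * p)
    (A : ValuationSubring Kb) (hA : A.LiesOverPrime p) :
    PhiE1RedStatement (N * p) ℓ A := by
  intro u f hR
  have hg : RedM A (N * p * ℓ) (heckeBetaBar Kb (N * p) ℓ u) (betaBarC (N * p) ℓ A f) := by
    unfold RedM
    rw [coe_heckeBetaBar, coe_betaBarC]
    exact red_qExpand ℓ hR
  have hlift : ∀ y : FFb A (N * p * ℓ), ∃ x : FF (N * p * ℓ), RedM A (N * p * ℓ) x y := by
    intro y
    obtain ⟨x, hx, hRx⟩ := exists_lift_red (A := A) (M := N * p * ℓ) y.2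
    exact ⟨⟨x, hx⟩, hRx⟩
  have hdeg : (letI := algebraAlong (heckeAlphaBar Kb (N * p) ℓ);
      Module.finrank (FF (N * p)) (FF (N * p * ℓ))) ≤
      (letI := algebraAlong (alphaBarC (N * p) ℓ A);
        Module.finrank (FFb A (N * p)) (FFb A (N * p * ℓ))) := by
    have h1 := Fermat.Agent.P2.helper93.finrank_alpha (N * p) ℓ hℓ hℓN
    have h2 := finrank_alphaBarC hp hpN hℓ hℓN A hA
    exact le_of_eq (h1.trans h2.symm)
  have key := normAlong_red (isRed_redM A (N * p * ℓ)) (heckeAlphaBar Kb (N * p) ℓ)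
    (alphaBarC (N * p) ℓ A) (Fermat.Agent.T7.helper43.alpha_finiteAlong (N * p) ℓ)
    (fun a ha => scale_along hp hpN A hA a ha) hlift hdeg hg
  unfold RedM at key ⊢
  rw [coe_heckeAlphaBar, coe_alphaBarC] at key
  exact key

end Main

end Fermat.Agent.T8.helper43

end
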