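import Mathlib
import Fermat.Agent.T7.helper43_DegMaps
import Fermat.Agent.T3.helper16_UnitTable
import Fermat.Agent.P2.helper29_Interface

/-!
# T8 [PHI] / [PHI-E2] (helper54, owner): vocabulary and contracts

Level `N q` (`q` prime, `q ∤ N`; in T8: `q = p`, `N = N' = 4 M'`), `A` a valuation subring of
`ℚ̄` over `q`, `F = FF (N q)`, special fibre field `F̃ = FFb A N` (first component).

* `heckeNormFn M ℓ h = Norm_α (β h)` : the Hecke norm of a function; by the Kummer dictionary of
  T7 (`helper43.isKummerRep_alphaPush`, `isKummerRep_betaPull`, `alphaPush_betaPull`) it represents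
  `T_ℓ x` when `h` represents `x`.
* `IsRed1 A N q u f` : `f ≠ 0` is a first-component reduction of `u`, up to a constant:
  `κ⁻¹ u` is Gauss-integral with reduction `f` (`T3.helper36.RhoQ`, quotient form).
* `DvdOff A N p f` : `p ∣ ord_Q f` at every place `Q` of `F̃` where `j̄` is finite.
* `ModEqOff A N p β f ν` : `ord_Q f ≡ β ord_Q ν` mod `p` at every such place.

Contracts.
* `PhiE1Statement` ([PHI-E1], form (E1*) of helper12): the Hecke norm preserves
  "reduction divisible by `p` off the cusps".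
* `PhiE2Statement` ([PHI-E2]): the reduction of `b₀` is Eisenstein,
  `ord_Q red (Norm_ℓ b₀) = (ℓ + 1) ord_Q red b₀` off the cusps.
* `PhiStatement` ([PHI], `β = 0`): for a class `x` with `T_ℓ x = a x`, `a ≢ ℓ + 1` mod `q`, with a
  Kummer function `u` whose reduction `f` satisfies the output of [CONCL]
  (`ord_Q f ≡ β ord_Q ν`), one has `q ∣ ord_Q f` off the cusps.

`PhiStatement` follows from the two boxes (`helper54_Phi.lean`).
-/

set_option autoImplicit false
set_option synthInstance.maxHeartbeats 400000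
set_option maxHeartbeats 1000000
set_option linter.unusedSectionVars false
set_option linter.unusedVariables false
set_option linter.style.longLine false

noncomputable section

open HahnSeries IntermediateField AlgebraicCurve ModularCurve
open Fermat.Agent.S18.helper19 Fermat.Agent.P2.helper29 Fermat.Agent.T2.helper36

namespace Fermat.Agent.T8.helper54

open Fermat.Agent.T3.helper36 (RhoQ)
open Fermat.Agent.T3.helper16 (IsUnit0)
open Fermat.Agent.P3.helper94 (IsKummerRep normAlong)

/-- the Hecke norm `Norm_α (β h)` of a function of level `M` -/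
def heckeNormFn (M ℓ : ℕ) [NeZero M] [NeZero ℓ] (h : FF M) : FF M :=
  normAlong (heckeAlphaBar Kb M ℓ) (heckeBetaBar Kb M ℓ h)

section Defs

variable (A : ValuationSubring Kb) (N : ℕ) [NeZero N]

/-- `f ≠ 0` is a first-component reduction of `u`, up to a nonzero constant -/
def IsRed1 (q : ℕ) (u : FF (N * q)) (f : FFb A N) : Prop :=
  f ≠ 0 ∧ ∃ κ : Kb, κ ≠ 0 ∧
    RhoQ A (algebraMap Kb (LaurentSeries Kb) κ⁻¹ * (u : LaurentSeries Kb))
      (f : LaurentSeries (kA A))

/-- `p ∣ ord_Q f` at every place of the special fibre where `j̄` is finite -/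
def DvdOff (p : ℕ) (f : FFb A N) : Prop :=
  ∀ Q : Place (kA A) (FFb A N), 0 ≤ Q.ord (jBar A N) → (p : ℤ) ∣ Q.ord f

/-- `ord_Q f ≡ β ord_Q ν` mod `p` at every place of the special fibre where `j̄` is finite -/
def ModEqOff (p : ℕ) (β : ℤ) (f ν : FFb A N) : Prop :=
  ∀ Q : Place (kA A) (FFb A N), 0 ≤ Q.ord (jBar A N) → Q.ord f ≡ β * Q.ord ν [ZMOD p]

end Defs

section Contracts

variable (N q : ℕ) [NeZero N] [NeZero q] (hq : q.Prime) (hqN : ¬ q ∣ N)
  (A : ValuationSubring Kb) (ℓ : ℕ) [NeZero ℓ]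

/-- **Contract [PHI-E1]**, form (E1*): if the reduction of `u` is divisible by `q` off the
cusps, so is the reduction of the Hecke norm of `u`. -/
def PhiE1Statement : Prop :=
  ∀ (u : FF (N * q)) (f : FFb A N), IsRed1 A N q u f → DvdOff A N q f →
    ∃ f' : FFb A N, IsRed1 A N q (heckeNormFn (N * q) ℓ u) f' ∧ DvdOff A N q f'

/-- **Contract [PHI-E2]**: the reduction `ν` of `b₀` is Eisenstein: the Hecke norm of `b₀` has a
reduction `ν'` with `ord_Q ν' = (ℓ + 1) ord_Q ν` off the cusps. -/
def PhiE2Statement : Prop :=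
  ∀ (b0 : FF (N * q)) (B : PowerSeries ℤ) (ε : ℤ), IsUnit0 hq hqN b0 B ε →
    ∀ ν : FFb A N, IsRed1 A N q b0 ν →
      ∃ ν' : FFb A N, IsRed1 A N q (heckeNormFn (N * q) ℓ b0) ν' ∧
        ∀ Q : Place (kA A) (FFb A N), 0 ≤ Q.ord (jBar A N) →
          Q.ord ν' = ((ℓ : ℤ) + 1) * Q.ord ν

/-- **Contract [PHI]** (`β = 0`): exit of the wall at one class `x`.  Inputs: the eigen-equation
`T_ℓ x = a x` with `a ≢ ℓ + 1` mod `q` ([REAL-CHEB]), a Kummer function `u` of `x` with a reduction
`f`, and the output `ord_Q f ≡ β ord_Q ν` of [CONCL].  Output: `q ∣ ord_Q f` off the cusps. -/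
def PhiStatement : Prop :=
  ∀ (b0 : FF (N * q)) (B : PowerSeries ℤ) (ε : ℤ), IsUnit0 hq hqN b0 B ε →
    ∀ ν : FFb A N, IsRed1 A N q b0 ν →
    ∀ (x : JZero (N * q)) (a : ℤ), heckeOperatorAlong Kb (N * q) ℓ x = a • x →
      ¬ (q : ℤ) ∣ a - ((ℓ : ℤ) + 1) →
    ∀ (u : FF (N * q)) (f : FFb A N) (β : ℤ), IsKummerRep q x u → IsRed1 A N q u f →
      ModEqOff A N q β f ν → DvdOff A N q f

end Contracts

end Fermat.Agent.T8.helper54

end
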