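import Mathlib
import Fermat.Agent.T8.helper54_PhiDefs
import Fermat.Agent.T2.helper58_ScaleBad
import Fermat.Agent.T2.helper96_ValBase

/-!
# T8 [PHI] (helper54): `β = 0` from the two boxes [PHI-E1] and [PHI-E2]

* API of `IsRed1` (first-component reduction up to a constant): `mul`, `inv`, `zpow`, `pow`,
  constants, uniqueness of the orders (`IsRed1.ord_eq`), existence (`exists_isRed1`, from
  `T2.helper58.scaleStatement_bad`).
* `heckeNormFn` is multiplicative (`heckeNormFn_mul`, `heckeNormFn_zpow`) and represents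
  `T_ℓ x` (`isKummerRep_heckeNormFn`).
* `phi_of_boxes` : `PhiE1Statement → PhiE2Statement → PhiStatement`.
-/

set_option autoImplicit false
set_option synthInstance.maxHeartbeats 400000
set_option maxHeartbeats 1000000
set_option linter.unusedSectionVars false
set_option linter.unusedVariables false
set_option linter.style.longLine false
set_option linter.style.haveILetI false

noncomputable section

open HahnSeries IntermediateField AlgebraicCurve ModularCurve
open Fermat.Agent.S18.helper19 Fermat.Agent.P2.helper29 Fermat.Agent.T2.helper36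

namespace Fermat.Agent.T8.helper54

open Fermat.Agent.T3.helper36 (RhoQ)
open Fermat.Agent.T3.helper16 (IsUnit0)
open Fermat.Agent.P3.helper94 (IsKummerRep normAlong heckeKummer)

/-! ### the Hecke norm -/

section Norm

variable {M ℓ : ℕ} [NeZero M] [NeZero ℓ]

theorem heckeNormFn_eq_heckeKummer (h : FF M) : heckeNormFn M ℓ h = heckeKummer Kb M ℓ h := rfl

theorem heckeNormFn_mul (h g : FF M) :
    heckeNormFn M ℓ (h * g) = heckeNormFn M ℓ h * heckeNormFn M ℓ g :=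
  Fermat.Agent.P3.helper94.heckeKummer_mul h g

theorem heckeNormFn_one : heckeNormFn M ℓ (1 : FF M) = 1 :=
  Fermat.Agent.P3.helper94.heckeKummer_one

theorem heckeNormFn_inv (h : FF M) : heckeNormFn M ℓ h⁻¹ = (heckeNormFn M ℓ h)⁻¹ :=
  Fermat.Agent.P3.helper94.heckeKummer_inv h

theorem heckeNormFn_pow (h : FF M) (k : ℕ) : heckeNormFn M ℓ (h ^ k) = heckeNormFn M ℓ h ^ k :=
  Fermat.Agent.P3.helper94.heckeKummer_pow h k

theorem heckeNormFn_zpow (h : FF M) (k : ℤ) :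
    heckeNormFn M ℓ (h ^ k) = heckeNormFn M ℓ h ^ k := by
  cases k with
  | ofNat n => simpa using heckeNormFn_pow (ℓ := ℓ) h n
  | negSucc n =>
    rw [zpow_negSucc, zpow_negSucc, heckeNormFn_inv, heckeNormFn_pow]

/-- the Hecke norm of a Kummer function of `x` is a Kummer function of `T_ℓ x` -/
theorem isKummerRep_heckeNormFn {n : ℕ} {x : JZero M} {h : FF M} (H : IsKummerRep n x h) :
    IsKummerRep n (heckeOperatorAlong Kb M ℓ x) (heckeNormFn M ℓ h) := by
  have h1 := Fermat.Agent.T7.helper43.isKummerRep_alphaPush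
    (Fermat.Agent.T7.helper43.isKummerRep_betaPull (ℓ := ℓ) H)
  rw [Fermat.Agent.T7.helper43.alphaPush_betaPull] at h1
  exact h1

end Norm

/-! ### API of `IsRed1` -/

section Red1

variable {A : ValuationSubring Kb} {N q : ℕ} [NeZero N] [NeZero q]

theorem IsRed1.coe_ne_zero {u : FF (N * q)} {f : FFb A N} (h : IsRed1 A N q u f) :
    (f : LaurentSeries (kA A)) ≠ 0 := fun h0 => h.1 (Subtype.ext h0)

theorem IsRed1.ne_zero {u : FF (N * q)} {f : FFb A N} (h : IsRed1 A N q u f) : u ≠ 0 := by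
  obtain ⟨hf, κ, hκ, hr⟩ := h
  rintro rfl
  have h0 : (f : LaurentSeries (kA A)) ≠ 0 := fun h0 => hf (Subtype.ext h0)
  refine hr.ne_zero h0 ?_
  simp

theorem IsRed1.mul {u v : FF (N * q)} {f g : FFb A N} (hu : IsRed1 A N q u f)
    (hv : IsRed1 A N q v g) : IsRed1 A N q (u * v) (f * g) := by
  obtain ⟨hf, κ, hκ, hr⟩ := hu
  obtain ⟨hg, κ', hκ', hr'⟩ := hv
  refine ⟨mul_ne_zero hf hg, κ * κ', mul_ne_zero hκ hκ', ?_⟩
  have h := hr.mul hr'
  have e : algebraMap Kb (LaurentSeries Kb) (κ * κ')⁻¹ * ((u * v : FF (N * q)) : LaurentSeries Kb)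
      = algebraMap Kb (LaurentSeries Kb) κ⁻¹ * (u : LaurentSeries Kb) *
        (algebraMap Kb (LaurentSeries Kb) κ'⁻¹ * (v : LaurentSeries Kb)) := by
    rw [mul_inv, map_mul]
    push_cast
    ring
  rw [e]
  exact h

theorem IsRed1.inv {u : FF (N * q)} {f : FFb A N} (hu : IsRed1 A N q u f) :
    IsRed1 A N q u⁻¹ f⁻¹ := by
  have hf0 := hu.coe_ne_zero
  obtain ⟨hf, κ, hκ, hr⟩ := hu
  refine ⟨inv_ne_zero hf, κ⁻¹, inv_ne_zero hκ, ?_⟩
  have h := hr.inv hf0
  have e : algebraMap Kb (LaurentSeries Kb) (κ⁻¹)⁻¹ * ((u⁻¹ : FF (N * q)) : LaurentSeries Kb)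
      = (algebraMap Kb (LaurentSeries Kb) κ⁻¹ * (u : LaurentSeries Kb))⁻¹ := by
    rw [mul_inv, ← map_inv₀]
    push_cast
    ring
  rw [e]
  exact h

theorem isRed1_one : IsRed1 A N q (1 : FF (N * q)) (1 : FFb A N) := by
  refine ⟨one_ne_zero, 1, one_ne_zero, ?_⟩
  have h := Fermat.Agent.T3.helper36.rhoQ_one (A := A)
  simpa using h

theorem IsRed1.pow {u : FF (N * q)} {f : FFb A N} (hu : IsRed1 A N q u f) (n : ℕ) :
    IsRed1 A N q (u ^ n) (f ^ n) := by
  induction n with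
  | zero => rw [pow_zero, pow_zero]; exact isRed1_one
  | succ n ih => rw [pow_succ, pow_succ]; exact ih.mul hu

theorem IsRed1.zpow {u : FF (N * q)} {f : FFb A N} (hu : IsRed1 A N q u f) (n : ℤ) :
    IsRed1 A N q (u ^ n) (f ^ n) := by
  cases n with
  | ofNat n => simpa using hu.pow n
  | negSucc n =>
    rw [zpow_negSucc, zpow_negSucc]
    exact (hu.pow (n + 1)).inv

/-- nonzero constants reduce to `1` (up to a constant) -/
theorem isRed1_const {c : Kb} (hc : c ≠ 0) :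
    IsRed1 A N q (algebraMap Kb (FF (N * q)) c) (1 : FFb A N) := by
  refine ⟨one_ne_zero, c, hc, ?_⟩
  have h := Fermat.Agent.T3.helper36.rhoQ_one (A := A)
  have e : algebraMap Kb (LaurentSeries Kb) c⁻¹ *
      ((algebraMap Kb (FF (N * q)) c : FF (N * q)) : LaurentSeries Kb) = 1 := by
    have e1 : ((algebraMap Kb (FF (N * q)) c : FF (N * q)) : LaurentSeries Kb)
        = algebraMap Kb (LaurentSeries Kb) c := rfl
    rw [e1, ← map_mul, inv_mul_cancel₀ hc, map_one]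
  rw [e]
  simpa using h

/-- two reductions of the same function differ by a nonzero constant -/
theorem IsRed1.exists_const {u : FF (N * q)} {f f' : FFb A N} (h : IsRed1 A N q u f)
    (h' : IsRed1 A N q u f') :
    ∃ c : kA A, c ≠ 0 ∧ f = algebraMap (kA A) (FFb A N) c * f' := by
  have hu := h.ne_zero
  have hu' : (u : LaurentSeries Kb) ≠ 0 := fun h0 => hu (Subtype.ext h0)
  have hf'0 := h'.coe_ne_zero
  have hf0 := h.coe_ne_zero
  obtain ⟨hf, κ, hκ, hr⟩ := h
  obtain ⟨hf', κ', hκ', hr'⟩ := h'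
  have hd := hr.div hr' hf'0
  have e : algebraMap Kb (LaurentSeries Kb) κ⁻¹ * (u : LaurentSeries Kb) /
      (algebraMap Kb (LaurentSeries Kb) κ'⁻¹ * (u : LaurentSeries Kb))
      = algebraMap Kb (LaurentSeries Kb) (κ⁻¹ * κ') := by
    have hk' : algebraMap Kb (LaurentSeries Kb) κ'⁻¹ ≠ 0 := by
      rw [Ne, map_eq_zero]; exact inv_ne_zero hκ'
    rw [map_mul, map_inv₀, map_inv₀]
    have hk2 : algebraMap Kb (LaurentSeries Kb) κ' ≠ 0 := by
      rw [Ne, map_eq_zero]; exact hκ'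
    have hk1 : algebraMap Kb (LaurentSeries Kb) κ ≠ 0 := by
      rw [Ne, map_eq_zero]; exact hκ
    field_simp
  rw [e] at hd
  have hmem := hd.algebraMap_mem
  have hd2 := Fermat.Agent.T3.helper36.rhoQ_algebraMap (A := A) (⟨κ⁻¹ * κ', hmem⟩ : A)
  have hu2 := hd.unique hd2
  set c : kA A := IsLocalRing.residue A (⟨κ⁻¹ * κ', hmem⟩ : A) with hc
  have hff : (f : LaurentSeries (kA A)) = algebraMap (kA A) (LaurentSeries (kA A)) c *
      (f' : LaurentSeries (kA A)) := by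
    rw [← hu2, div_mul_cancel₀ _ hf'0]
  refine ⟨c, ?_, Subtype.ext ?_⟩
  · rintro h0
    rw [h0, map_zero, zero_mul] at hff
    exact hf0 hff
  · rw [hff]
    rfl

/-- the orders of a reduction do not depend on the choices -/
theorem IsRed1.ord_eq {u : FF (N * q)} {f f' : FFb A N} (h : IsRed1 A N q u f)
    (h' : IsRed1 A N q u f') (Q : Place (kA A) (FFb A N)) : Q.ord f = Q.ord f' := by
  obtain ⟨c, hc, e⟩ := h.exists_const h'
  have hc' : algebraMap (kA A) (FFb A N) c ≠ 0 := by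
    rw [Ne, map_eq_zero]; exact hc
  rw [e, Q.ord_mul hc' h'.1, Fermat.Agent.P3.helper94.ord_algebraMap_eq_zero, zero_add]

/-- **existence of reductions** (`T2` scaling at the bad prime) -/
theorem exists_isRed1 (hq : q.Prime) (hqN : ¬ q ∣ N) (hA : A.LiesOverPrime q)
    {v : FF (N * q)} (hv : v ≠ 0) : ∃ r : FFb A N, IsRed1 A N q v r := by
  have hv' : (v : LaurentSeries Kb) ≠ 0 := fun h0 => hv (Subtype.ext h0)
  obtain ⟨c, Y₁, Y₂, hc, hY₁, hY₂, e⟩ :=
    Fermat.Agent.T2.helper58.scaleStatement_bad N q hq hqN A hA (v : LaurentSeries Kb) v.2 hv'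
  rw [Fermat.Agent.T2.helper96.isGood_mul_iff N A hq hA] at hY₁ hY₂
  obtain ⟨-, m1, n1⟩ := hY₁
  obtain ⟨-, m2, n2⟩ := hY₂
  have hq1 := Fermat.Agent.T3.helper36.rhoQ_quot (A := A) Y₁ Y₂ n2
  refine ⟨⟨red A Y₁ / red A Y₂, div_mem m1 m2⟩, ?_, c, hc, ?_⟩
  · intro h0
    have h1 := congrArg Subtype.val h0
    exact div_ne_zero n1 n2 h1
  · have hi2 : incl A Y₂ ≠ 0 := incl_ne_zero_of_red_ne_zero n2
    have e2 : algebraMap Kb (LaurentSeries Kb) c⁻¹ * (v : LaurentSeries Kb)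
        = incl A Y₁ / incl A Y₂ := by
      have hc' : algebraMap Kb (LaurentSeries Kb) c ≠ 0 := by
        rw [Ne, map_eq_zero]; exact hc
      rw [map_inv₀, eq_div_iff hi2, mul_assoc, ← e, ← mul_assoc, inv_mul_cancel₀ hc', one_mul]
    rw [e2]
    exact hq1

end Red1


/-! ### `β = 0` -/

section Main

variable {A : ValuationSubring Kb} {N q : ℕ} [NeZero N] [NeZero q] {ℓ : ℕ} [NeZero ℓ]

/-- the arithmetic of the Eisenstein step -/
theorem dvd_of_eisenstein {p : ℕ} (hp : p.Prime) {a l β F V V' G R : ℤ}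
    (hal : ¬ (p : ℤ) ∣ a - (l + 1)) (hF : F ≡ β * V [ZMOD p]) (hV' : V' = (l + 1) * V)
    (hG : (p : ℤ) ∣ G) (hGe : G = a * F + (0 + (p : ℤ) * R) + -β * V') :
    (p : ℤ) ∣ F := by
  have hp' : Prime (p : ℤ) := Nat.prime_iff_prime_int.mp hp
  have h1 : (p : ℤ) ∣ β * V - F := (Int.modEq_iff_dvd).mp hF
  have h2 : (a - (l + 1)) * F = G - (p : ℤ) * R + (l + 1) * (β * V - F) := by
    rw [hGe, hV']; ring
  have h3 : (p : ℤ) ∣ (a - (l + 1)) * F := by
    rw [h2]
    exact dvd_add (dvd_sub hG (dvd_mul_right _ _)) (Dvd.dvd.mul_left h1 _)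
  rcases hp'.dvd_or_dvd h3 with h4 | h4
  · exact absurd h4 hal
  · exact h4

/-- **[PHI]**: `β = 0`, from the boxes [PHI-E1] and [PHI-E2]. -/
theorem phi_of_boxes (hq : q.Prime) (hqN : ¬ q ∣ N) (hA : A.LiesOverPrime q)
    (h1 : PhiE1Statement N q A ℓ) (h2 : PhiE2Statement N q hq hqN A ℓ) :
    PhiStatement N q hq hqN A ℓ := by
  intro b0 B ε hb ν hν x a hx ha u f β hu hf hmod
  -- the auxiliary function `g = u b₀^(-β)`
  have hg : IsRed1 A N q (u * b0 ^ (-β)) (f * ν ^ (-β)) := hf.mul (hν.zpow (-β))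
  have hgd : DvdOff A N q (f * ν ^ (-β)) := by
    intro Q hQ
    rw [Q.ord_mul hf.1 (zpow_ne_zero _ hν.1), Q.ord_zpow]
    have h3 := (Int.modEq_iff_dvd).mp (hmod Q hQ)
    have e : Q.ord f + -β * Q.ord ν = -(β * Q.ord ν - Q.ord f) := by ring
    rw [e]
    exact (dvd_neg).mpr h3
  obtain ⟨g', hg', hg'd⟩ := h1 _ _ hg hgd
  obtain ⟨ν', hν', hν'ord⟩ := h2 b0 B ε hb ν hν
  -- Kummer dictionary: `Norm u = u^a * (c * v^q)`
  have hK1 : IsKummerRep q (heckeOperatorAlong Kb (N * q) ℓ x) (heckeNormFn (N * q) ℓ u) :=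
    isKummerRep_heckeNormFn hu
  rw [hx] at hK1
  have hK2 : IsKummerRep q (a • x) (u ^ a) := hu.zsmul a
  obtain ⟨v, w, hv, hw, e⟩ := hK2.unique hK1
  obtain ⟨c, hc, rfl⟩ := Fermat.Agent.T7.helper43.exists_const_of_hasTrivialDiv hw
  obtain ⟨r, hr⟩ := exists_isRed1 hq hqN hA hv
  have e2 : heckeNormFn (N * q) ℓ (u * b0 ^ (-β))
      = u ^ a * (algebraMap Kb (FF (N * q)) c * v ^ q) * heckeNormFn (N * q) ℓ b0 ^ (-β) := by
    rw [heckeNormFn_mul, heckeNormFn_zpow, e]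
  have hR : IsRed1 A N q (heckeNormFn (N * q) ℓ (u * b0 ^ (-β)))
      (f ^ a * (1 * r ^ q) * ν' ^ (-β)) := by
    rw [e2]
    exact ((hf.zpow a).mul ((isRed1_const hc).mul (hr.pow q))).mul (hν'.zpow (-β))
  intro Q hQ
  have h3 := hg'.ord_eq hR Q
  have h4 : Q.ord (f ^ a * (1 * r ^ q) * ν' ^ (-β))
      = a * Q.ord f + (0 + (q : ℤ) * Q.ord r) + -β * Q.ord ν' := by
    rw [Q.ord_mul (mul_ne_zero (zpow_ne_zero _ hf.1) (mul_ne_zero one_ne_zero (pow_ne_zero _ hr.1)))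
      (zpow_ne_zero _ hν'.1), Q.ord_mul (zpow_ne_zero _ hf.1)
      (mul_ne_zero one_ne_zero (pow_ne_zero _ hr.1)), Q.ord_mul one_ne_zero (pow_ne_zero _ hr.1),
      Q.ord_zpow, Q.ord_zpow, Place.ord_one, Fermat.Agent.P3.helper94.ord_pow]
  exact dvd_of_eisenstein hq ha (hmod Q hQ) (hν'ord Q hQ) (hg'd Q hQ) (h3.trans h4)

end Main

end Fermat.Agent.T8.helper54

end
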