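import Mathlib
import Fermat.Agent.T3.helper48_AtkinLehnerQ
import Fermat.Agent.T3.helper29_KumNew
import Fermat.Agent.T8.helper54_PhiDefs

/-!
# T8 [PHI-E2] (helper54): the Atkin–Lehner involution `W_q` commutes with the Hecke norm at `ℓ ≠ q`

Level `N q` (`q` prime, `q ∤ N`), `ℓ ≠ q` a prime.  `W = T2.helper36.atkinLehner N q`,
`W' = T3.helper48.atkinLehnerM (N q ℓ) (N ℓ) q` (the involution `W_q` at the level `N q ℓ`).

* `alExact_eq_alNat`, `alExact_mul_eq`, `alExact_mul_mul_eq` : the two index involutions agree;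
* `atkinLehnerUp_alpha`, `atkinLehnerUp_beta` : `W' ∘ α_ℓ = α_ℓ ∘ W`, `W' ∘ β_ℓ = β_ℓ ∘ W`;
* `atkinLehner_heckeNormFn` : `W (Norm_ℓ h) = Norm_ℓ (W h)`.
-/

set_option autoImplicit false
set_option synthInstance.maxHeartbeats 400000
set_option maxHeartbeats 1000000
set_option linter.unusedSectionVars false
set_option linter.unusedVariables false
set_option linter.style.longLine false
set_option linter.style.haveILetI false

noncomputable section

open HahnSeries IntermediateField AlgebraicCurve ModularCurve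
open Fermat.Agent.S18.helper19 Fermat.Agent.T2.helper36

namespace Fermat.Agent.T8.helper54

open Fermat.Agent.P3.helper94 (normAlong)
open Fermat.Agent.T3.helper48 (atkinLehnerM atkinLehnerM_genBar alIdxM)

/-! ### the index involutions -/

section Idx

theorem alExact_eq_alNat {N q d : ℕ} (hq : q.Prime) (hqN : ¬ q ∣ N) (hd : d ∣ N * q) :
    alExact N q d = alNat q d := by
  have hcop : Nat.Coprime q N := (Nat.Prime.coprime_iff_not_dvd hq).mpr hqN
  unfold alExact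
  by_cases h : q ∣ d
  · obtain ⟨e, rfl⟩ := h
    have heN : e ∣ N := by
      have : q * e ∣ q * N := by rwa [mul_comm N q] at hd
      exact (Nat.mul_dvd_mul_iff_left hq.pos).mp this
    rw [alNat_of_dvd (dvd_mul_right q e), Nat.mul_div_cancel_left e hq.pos,
      Nat.gcd_eq_right (dvd_mul_right q e), Nat.div_self hq.pos, one_mul,
      Nat.Coprime.gcd_mul_left_cancel e hcop, Nat.gcd_eq_left heN]
  · have hdN : d ∣ N := dvd_of_dvd_mul_of_not_dvd hq hd h
    have h1 : Nat.gcd d q = 1 := ((Nat.Prime.coprime_iff_not_dvd hq).mpr h).symm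
    rw [alNat_of_not_dvd h, h1, Nat.div_one, Nat.gcd_eq_left hdN, mul_comm]

theorem alExact_mul_eq {N q ℓ d : ℕ} (hq : q.Prime) (hqN : ¬ q ∣ N) (hℓq : ¬ q ∣ ℓ)
    (hd : d ∣ N * q) : alExact (N * ℓ) q d = alNat q d := by
  refine alExact_eq_alNat hq ?_ ?_
  · intro h
    rcases (Nat.Prime.dvd_mul hq).mp h with h1 | h1
    · exact hqN h1
    · exact hℓq h1
  · have e : N * ℓ * q = N * q * ℓ := by ring
    rw [e]
    exact hd.mul_right ℓ

theorem alExact_mul_mul_eq {N q ℓ d : ℕ} (hq : q.Prime) (hqN : ¬ q ∣ N) (hℓq : ¬ q ∣ ℓ)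
    (hd : d ∣ N * q) : alExact (N * ℓ) q (d * ℓ) = alNat q d * ℓ := by
  have hcop : Nat.Coprime ℓ q := ((Nat.Prime.coprime_iff_not_dvd hq).mpr hℓq).symm
  rw [← alExact_eq_alNat hq hqN hd]
  unfold alExact
  rw [Nat.Coprime.gcd_mul_right_cancel d hcop, Nat.gcd_mul_right, mul_assoc]

end Idx

/-! ### `W_q` at the level `N q ℓ` -/

section Up

variable (N q ℓ : ℕ) [NeZero N] [NeZero q] [NeZero ℓ]

theorem level_eq : N * q * ℓ = N * ℓ * q := by ring

theorem coprime_up {q ℓ : ℕ} (N : ℕ) (hq : q.Prime) (hqN : ¬ q ∣ N) (hℓq : ¬ q ∣ ℓ) :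
    Nat.Coprime (N * ℓ) q := by
  refine ((Nat.Prime.coprime_iff_not_dvd hq).mpr ?_).symm
  intro h
  rcases (Nat.Prime.dvd_mul hq).mp h with h1 | h1
  · exact hqN h1
  · exact hℓq h1

/-- the involution `W_q` of the function field of level `N q ℓ` -/
def atkinLehnerUp (hq : q.Prime) (hqN : ¬ q ∣ N) (hℓq : ¬ q ∣ ℓ) :
    FF (N * q * ℓ) ≃ₐ[Kb] FF (N * q * ℓ) :=
  atkinLehnerM (N * q * ℓ) (N * ℓ) q (level_eq N q ℓ) (coprime_up N hq hqN hℓq)

/-- **`W' ∘ α_ℓ = α_ℓ ∘ W`** -/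
theorem atkinLehnerUp_alpha (hq : q.Prime) (hqN : ¬ q ∣ N) (hℓq : ¬ q ∣ ℓ) (x : FF (N * q)) :
    atkinLehnerUp N q ℓ hq hqN hℓq (heckeAlphaBar Kb (N * q) ℓ x)
      = heckeAlphaBar Kb (N * q) ℓ (atkinLehner N q hq hqN x) := by
  have h : ((atkinLehnerUp N q ℓ hq hqN hℓq : FF (N * q * ℓ) →ₐ[Kb] FF (N * q * ℓ)).comp
      (heckeAlphaBar Kb (N * q) ℓ))
      = (heckeAlphaBar Kb (N * q) ℓ).comp
        (atkinLehner N q hq hqN : FF (N * q) →ₐ[Kb] FF (N * q)) := by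
    apply algHom_ext_genBar
    intro d
    rw [AlgHom.comp_apply, AlgHom.comp_apply, heckeAlphaBar_genBar]
    show atkinLehnerUp N q ℓ hq hqN hℓq _ = heckeAlphaBar Kb (N * q) ℓ (atkinLehner N q hq hqN _)
    rw [atkinLehner_genBar, heckeAlphaBar_genBar]
    unfold atkinLehnerUp
    rw [atkinLehnerM_genBar]
    refine congrArg (genBar (N * q * ℓ)) (Subtype.ext ?_)
    exact alExact_mul_eq hq hqN hℓq (Nat.mem_divisors.mp d.2).1
  exact congrArg (fun φ : FF (N * q) →ₐ[Kb] FF (N * q * ℓ) => φ x) h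

/-- **`W' ∘ β_ℓ = β_ℓ ∘ W`** -/
theorem atkinLehnerUp_beta (hq : q.Prime) (hqN : ¬ q ∣ N) (hℓq : ¬ q ∣ ℓ) (x : FF (N * q)) :
    atkinLehnerUp N q ℓ hq hqN hℓq (heckeBetaBar Kb (N * q) ℓ x)
      = heckeBetaBar Kb (N * q) ℓ (atkinLehner N q hq hqN x) := by
  have h : ((atkinLehnerUp N q ℓ hq hqN hℓq : FF (N * q * ℓ) →ₐ[Kb] FF (N * q * ℓ)).comp
      (heckeBetaBar Kb (N * q) ℓ))
      = (heckeBetaBar Kb (N * q) ℓ).comp
        (atkinLehner N q hq hqN : FF (N * q) →ₐ[Kb] FF (N * q)) := by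
    apply algHom_ext_genBar
    intro d
    rw [AlgHom.comp_apply, AlgHom.comp_apply, heckeBetaBar_genBar]
    show atkinLehnerUp N q ℓ hq hqN hℓq _ = heckeBetaBar Kb (N * q) ℓ (atkinLehner N q hq hqN _)
    rw [atkinLehner_genBar, heckeBetaBar_genBar]
    unfold atkinLehnerUp
    rw [atkinLehnerM_genBar]
    refine congrArg (genBar (N * q * ℓ)) (Subtype.ext ?_)
    exact alExact_mul_mul_eq hq hqN hℓq (Nat.mem_divisors.mp d.2).1
  exact congrArg (fun φ : FF (N * q) →ₐ[Kb] FF (N * q * ℓ) => φ x) h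

/-- **`W_q` commutes with the Hecke norm at `ℓ`** -/
theorem atkinLehner_heckeNormFn (hq : q.Prime) (hqN : ¬ q ∣ N) (hℓq : ¬ q ∣ ℓ)
    (h : FF (N * q)) :
    atkinLehner N q hq hqN (heckeNormFn (N * q) ℓ h)
      = heckeNormFn (N * q) ℓ (atkinLehner N q hq hqN h) := by
  unfold heckeNormFn
  have key := Fermat.Agent.T3.helper29.normAlong_conj (heckeAlphaBar Kb (N * q) ℓ)
    (heckeAlphaBar Kb (N * q) ℓ) (atkinLehner N q hq hqN) (atkinLehnerUp N q ℓ hq hqN hℓq)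
    (atkinLehnerUp_alpha N q ℓ hq hqN hℓq) (heckeBetaBar Kb (N * q) ℓ h)
  rw [← key, atkinLehnerUp_beta]

end Up

end Fermat.Agent.T8.helper54

end
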