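import Mathlib
import Fermat.Agent.T8.helper54_Phi
import Fermat.Agent.T8.helper54_WComm
import Fermat.Agent.P2.helper93_ESRed
import Fermat.Agent.T2.helper87_RegRed2
import Fermat.Agent.T3.helper98_NormRegJ
import Fermat.Agent.T3.helper98_ResCore
import Fermat.Agent.T3.helper98_Hnu
import Fermat.Agent.T3.helper48_CompleteA
import Fermat.Agent.T3.helper16_UnitReal

/-!
# T8 [PHI-E2] (helper54): the reduction of `b₀` is Eisenstein

Level `N q` (`q` prime, `q ∤ N`), `A` over `q`, `ℓ` a prime not dividing `N q`, `b₀` the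
weight-one unit of T3 (`helper16.IsUnit0`).  Put `g := Norm_ℓ b₀ · b₀^{-(ℓ+1)}`.

* `exists_incl_heckeNormFn` : the Hecke norm of a function with an `A`-integral expansion has an
  `A`-integral expansion (`P2.helper93.es_norm`);
* `heckeNormFn_const` : `Norm_ℓ c = c^(ℓ+1)` for constants;
* `isRegJ_heckeNormFn` : the Hecke norm preserves "regular where `j` is finite";
* `g` and `g⁻¹` are regular where `j` is finite and have `A`-integral expansions at `∞` and at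
  `0` (`W g = g⁻¹` by `atkinLehner_heckeNormFn`), hence are integral over `A[j]`
  (`T3.helper48.isIntegralElem_level_q`), hence their reductions are regular where `j̄` is finite;
* `phiE2` : `PhiE2Statement N q hq hqN A ℓ`.

No slope lemma, no factoriality and no computation at the cusps is used.
-/

set_option autoImplicit false
set_option synthInstance.maxHeartbeats 400000
set_option maxHeartbeats 1000000
set_option linter.unusedSectionVars false
set_option linter.unusedVariables false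
set_option linter.style.longLine false
set_option linter.style.haveILetI false

noncomputable section

open HahnSeries IntermediateField AlgebraicCurve ModularCurve
open Fermat.Agent.S18.helper19 Fermat.Agent.P2.helper29 Fermat.Agent.T2.helper36

namespace Fermat.Agent.T8.helper54

open Fermat.Agent.T3.helper36 (RhoQ)
open Fermat.Agent.T3.helper16 (IsUnit0)
open Fermat.Agent.T3.helper98 (IsRegJ)
open Fermat.Agent.P3.helper94 (IsKummerRep normAlong heckeKummer)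
open Fermat.Agent.P2.helper93 (twistL rootUnit)
open Fermat.Agent.P2.helper66 (iota inv1)

/-! ### integral expansions of the Hecke norm -/

/-- `normAlong` unfolded -/
theorem normAlong_eq_norm {K F F' : Type*} [Field K] [Field F] [Field F'] [Algebra K F]
    [Algebra K F'] (ψ : F →ₐ[K] F') (f : F') :
    normAlong ψ f = (letI := algebraAlong ψ; Algebra.norm F f) := rfl

section Norm

variable {M ℓ : ℕ} [NeZero M] [NeZero ℓ]

/-- **the Hecke norm of a function with an `A`-integral expansion has an `A`-integral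
expansion** -/
theorem exists_incl_heckeNormFn (hℓ : ℓ.Prime) (hM : ¬ ℓ ∣ M) (A : ValuationSubring Kb)
    {h : FF M} {Y : LaurentSeries A} (hY : incl A Y = (h : LaurentSeries Kb)) :
    ∃ Z : LaurentSeries A, incl A Z = ((heckeNormFn M ℓ h : FF M) : LaurentSeries Kb) := by
  obtain ⟨ζ, hζ⟩ := HasEnoughRootsOfUnity.exists_primitiveRoot Kb ℓ
  have hζ1 : ζ ^ ℓ = 1 := hζ.pow_eq_one
  set u : (↥A)ˣ := rootUnit A hℓ.ne_zero hζ1 with hu
  have key := Fermat.Agent.P2.helper93.es_norm M ℓ hℓ hM ζ hζ h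
  set P : LaurentSeries ↥A :=
    qExpand ↥A ℓ (qExpand ↥A ℓ Y) *
      ∏ i ∈ Finset.range ℓ, Fermat.Agent.P2.helper94.rot (u ^ i) Y with hP
  have hPK : incl A P = qExpand Kb ℓ ((heckeNormFn M ℓ h : FF M) : LaurentSeries Kb) := by
    show incl A P = qExpand Kb ℓ _
    rw [heckeNormFn, normAlong_eq_norm]
    rw [key, hP, map_mul, map_prod, Fermat.Agent.T2.helper96.incl_qExpand,
      Fermat.Agent.T2.helper96.incl_qExpand, qExpand_qExpand, hY]
    congr 1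
    refine Finset.prod_congr rfl fun i _ => ?_
    show coeffMap A.subtype _ = _
    rw [Fermat.Agent.P2.helper93.coeffMap_subtype_rot]
    show twistL _ (incl A Y) = _
    rw [hY]
    rfl
  exact Fermat.Agent.T2.helper87.exists_incl_of_qExpand_mem ℓ A ⟨P, hPK⟩

/-- the Hecke norm of a constant -/
theorem heckeNormFn_const (hℓ : ℓ.Prime) (hM : ¬ ℓ ∣ M) (c : Kb) :
    heckeNormFn M ℓ (algebraMap Kb (FF M) c) = algebraMap Kb (FF M) (c ^ (ℓ + 1)) := by
  rw [heckeNormFn, normAlong_eq_norm, AlgHom.commutes]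
  letI := algebraAlong (heckeAlphaBar Kb M ℓ)
  have e : algebraMap Kb (FF (M * ℓ)) c
      = algebraMap (FF M) (FF (M * ℓ)) (algebraMap Kb (FF M) c) :=
    ((heckeAlphaBar Kb M ℓ).commutes c).symm
  rw [e, Algebra.norm_algebraMap, Fermat.Agent.P2.helper93.finrank_alpha M ℓ hℓ hM, map_pow]

/-- **the Hecke norm preserves "regular where `j` is finite"** -/
theorem isRegJ_heckeNormFn (hℓ : ℓ.Prime) (hM : ¬ ℓ ∣ M) {h : FF M} (hh : IsRegJ M h) :
    IsRegJ M (heckeNormFn M ℓ h) := by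
  rw [heckeNormFn, ← atkinLehner_heckeAlphaBar M ℓ hℓ hM h]
  exact Fermat.Agent.T3.helper98.isRegJ_normAlpha
    (Fermat.Agent.T3.helper98.isRegJ_atkinLehner (Fermat.Agent.T3.helper98.isRegJ_alpha hh))

end Norm


/-! ### the unit `g = Norm_ℓ b₀ · b₀^{-(ℓ+1)}` -/

section Main

variable {N q : ℕ} [NeZero N] [NeZero q] {hq : q.Prime} {hqN : ¬ q ∣ N}
variable {A : ValuationSubring Kb} {ℓ : ℕ} [NeZero ℓ]
variable {b0 : FF (N * q)} {B : PowerSeries ℤ} {ε : ℤ}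

theorem coe_unit_inv (h : IsUnit0 hq hqN b0 B ε) :
    ((b0⁻¹ : FF (N * q)) : LaurentSeries Kb) = iota Kb (inv1 B) := by
  have h1 := Fermat.Agent.T3.helper16.iota_mul_inv1 Kb h.const
  rw [← h.coe_eq] at h1
  rw [IntermediateField.coe_inv]
  exact (eq_inv_of_mul_eq_one_right h1).symm

theorem unit_const_ne_zero (h : IsUnit0 hq hqN b0 B ε) : ((ε : Kb) * (q : Kb)) ≠ 0 := by
  refine mul_ne_zero ?_ ?_
  · rcases h.sign with h1 | h1 <;> rw [h1] <;> simp
  · exact_mod_cast NeZero.ne q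

/-- `W b₀ = ε q · b₀⁻¹` -/
theorem al_unit (h : IsUnit0 hq hqN b0 B ε) :
    atkinLehner N q hq hqN b0 = algebraMap Kb (FF (N * q)) ((ε : Kb) * (q : Kb)) * b0⁻¹ := by
  rw [← h.al, mul_assoc, mul_inv_cancel₀ h.ne_zero, mul_one]

/-- `W g = g⁻¹`, in the form `W (Norm b₀ · (b₀⁻¹)^(ℓ+1)) = Norm b₀⁻¹ · b₀^(ℓ+1)` -/
theorem al_gUnit (h : IsUnit0 hq hqN b0 B ε) (hℓ : ℓ.Prime) (hℓM : ¬ ℓ ∣ N * q)
    (hℓq : ¬ q ∣ ℓ) :
    atkinLehner N q hq hqN (heckeNormFn (N * q) ℓ b0 * b0⁻¹ ^ (ℓ + 1))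
      = heckeNormFn (N * q) ℓ b0⁻¹ * b0 ^ (ℓ + 1) := by
  have hc := unit_const_ne_zero h
  have hc' : algebraMap Kb (FF (N * q)) ((ε : Kb) * (q : Kb)) ≠ 0 := by
    rw [Ne, map_eq_zero]; exact hc
  rw [map_mul, map_pow, map_inv₀, atkinLehner_heckeNormFn N q ℓ hq hqN hℓq, al_unit h,
    heckeNormFn_mul, heckeNormFn_const hℓ hℓM, map_pow, mul_inv, inv_inv, mul_pow, inv_pow]
  have hcp : algebraMap Kb (FF (N * q)) ((ε : Kb) * (q : Kb)) ^ (ℓ + 1) ≠ 0 := pow_ne_zero _ hc'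
  field_simp

/-- `g⁻¹`, in the form `(Norm b₀ · (b₀⁻¹)^(ℓ+1)) · (Norm b₀⁻¹ · b₀^(ℓ+1)) = 1` -/
theorem gUnit_mul (h : IsUnit0 hq hqN b0 B ε) (hℓ : ℓ.Prime) (hℓM : ¬ ℓ ∣ N * q) :
    heckeNormFn (N * q) ℓ b0 * b0⁻¹ ^ (ℓ + 1) * (heckeNormFn (N * q) ℓ b0⁻¹ * b0 ^ (ℓ + 1))
      = 1 := by
  have hb := h.ne_zero
  have e1 : heckeNormFn (N * q) ℓ b0 * heckeNormFn (N * q) ℓ b0⁻¹ = 1 := by
    rw [← heckeNormFn_mul, mul_inv_cancel₀ hb, heckeNormFn_one]
  have e2 : b0⁻¹ ^ (ℓ + 1) * b0 ^ (ℓ + 1) = 1 := by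
    rw [← mul_pow, inv_mul_cancel₀ hb, one_pow]
  calc heckeNormFn (N * q) ℓ b0 * b0⁻¹ ^ (ℓ + 1) *
        (heckeNormFn (N * q) ℓ b0⁻¹ * b0 ^ (ℓ + 1))
      = (heckeNormFn (N * q) ℓ b0 * heckeNormFn (N * q) ℓ b0⁻¹) *
          (b0⁻¹ ^ (ℓ + 1) * b0 ^ (ℓ + 1)) := by ring
    _ = 1 := by rw [e1, e2, one_mul]

/-- **[PHI-E2]**: the reduction of `b₀` is Eisenstein. -/
theorem phiE2 (hℓ : ℓ.Prime) (hℓM : ¬ ℓ ∣ N * q) (hA : A.LiesOverPrime q) :
    PhiE2Statement N q hq hqN A ℓ := by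
  intro b0 B ε h ν hν
  have hℓq : ¬ q ∣ ℓ := by
    intro hql
    have e : q = ℓ := (Nat.prime_dvd_prime_iff_eq hq hℓ).mp hql
    exact hℓM (e ▸ dvd_mul_left q N)
  have hb := h.ne_zero
  -- regularity
  have hr1 : IsRegJ (N * q) b0 := Fermat.Agent.T3.helper16.isRegJ_of_isIntegral h.int
  have hr2 : IsRegJ (N * q) b0⁻¹ := Fermat.Agent.T3.helper16.isRegJ_of_isIntegral h.int_inv
  have hrg : IsRegJ (N * q) (heckeNormFn (N * q) ℓ b0 * b0⁻¹ ^ (ℓ + 1)) :=
    (isRegJ_heckeNormFn hℓ hℓM hr1).mul (hr2.pow _)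
  have hrgi : IsRegJ (N * q) (heckeNormFn (N * q) ℓ b0⁻¹ * b0 ^ (ℓ + 1)) :=
    (isRegJ_heckeNormFn hℓ hℓM hr2).mul (hr1.pow _)
  -- integral expansions at infinity
  have hB : incl A (iota ↥A B) = (b0 : LaurentSeries Kb) := by
    rw [Fermat.Agent.T3.helper16.incl_iota, h.coe_eq]
  have hBi : incl A (iota ↥A (inv1 B)) = ((b0⁻¹ : FF (N * q)) : LaurentSeries Kb) := by
    rw [Fermat.Agent.T3.helper16.incl_iota, coe_unit_inv h]
  obtain ⟨Z, hZ⟩ := exists_incl_heckeNormFn hℓ hℓM A hB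
  obtain ⟨Zi, hZi⟩ := exists_incl_heckeNormFn hℓ hℓM A hBi
  have hYg : incl A (Z * iota ↥A (inv1 B) ^ (ℓ + 1))
      = ((heckeNormFn (N * q) ℓ b0 * b0⁻¹ ^ (ℓ + 1) : FF (N * q)) : LaurentSeries Kb) := by
    rw [map_mul, map_pow, hZ, hBi]
    push_cast
    rfl
  have hYgi : incl A (Zi * iota ↥A B ^ (ℓ + 1))
      = ((heckeNormFn (N * q) ℓ b0⁻¹ * b0 ^ (ℓ + 1) : FF (N * q)) : LaurentSeries Kb) := by
    rw [map_mul, map_pow, hZi, hB]
    push_cast
    rfl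
  -- the expansions at `0`
  have hW := al_gUnit h hℓ hℓM hℓq
  have hWi : atkinLehner N q hq hqN (heckeNormFn (N * q) ℓ b0⁻¹ * b0 ^ (ℓ + 1))
      = heckeNormFn (N * q) ℓ b0 * b0⁻¹ ^ (ℓ + 1) := by
    rw [← hW, atkinLehner_atkinLehner]
  -- [RES] at the level `N q`
  have m1 := Fermat.Agent.T3.helper98.mem_BtAll_of_incl_q hq hqN hA hrg _ _ hYg
    (by rw [hW]; exact hYgi)
  have m2 := Fermat.Agent.T3.helper98.mem_BtAll_of_incl_q hq hqN hA hrgi _ _ hYgi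
    (by rw [hWi]; exact hYg)
  obtain ⟨k1, o1⟩ := Fermat.Agent.T3.helper95.mem_BtAll.mp m1
  obtain ⟨k2, o2⟩ := Fermat.Agent.T3.helper95.mem_BtAll.mp m2
  -- the product of the two expansions is `1`
  have hprod : Z * iota ↥A (inv1 B) ^ (ℓ + 1) * (Zi * iota ↥A B ^ (ℓ + 1)) = 1 := by
    apply Fermat.Agent.T2.helper36.incl_injective_val A
    rw [map_mul, hYg, hYgi, map_one, ← IntermediateField.coe_mul, gUnit_mul h hℓ hℓM]
    rfl
  have hred : red A (Z * iota ↥A (inv1 B) ^ (ℓ + 1)) * red A (Zi * iota ↥A B ^ (ℓ + 1)) = 1 := by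
    rw [← map_mul, hprod, map_one]
  have hne1 : red A (Z * iota ↥A (inv1 B) ^ (ℓ + 1)) ≠ 0 := left_ne_zero_of_mul_eq_one hred
  have hne2 : red A (Zi * iota ↥A B ^ (ℓ + 1)) ≠ 0 := right_ne_zero_of_mul_eq_one hred
  have hmul : (⟨_, k1⟩ : FFb A N) * ⟨_, k2⟩ = 1 := Subtype.ext hred
  have hn1 : (⟨_, k1⟩ : FFb A N) ≠ 0 := fun h0 => hne1 (congrArg Subtype.val h0)
  have hn2 : (⟨_, k2⟩ : FFb A N) ≠ 0 := fun h0 => hne2 (congrArg Subtype.val h0)
  have hord : ∀ Q : Place (kA A) (FFb A N), 0 ≤ Q.ord (jBar A N) →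
      Q.ord (⟨_, k1⟩ : FFb A N) = 0 := by
    intro Q hQ
    have h1 := o1 Q hQ
    have h2 := o2 Q hQ
    have h3 := congrArg Q.ord hmul
    rw [Q.ord_mul hn1 hn2, Place.ord_one] at h3
    omega
  -- the reduction of the norm
  have hZmem : red A Z ∈ FFb A N :=
    Fermat.Agent.T2.helper58.red_mem_FFb_bad N q hq hqN A hA
      (by rw [hZ]; exact (heckeNormFn (N * q) ℓ b0).2)
  have hZne : red A Z ≠ 0 := by
    intro h0
    rw [map_mul, h0, zero_mul] at hne1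
    exact hne1 rfl
  have hν' : IsRed1 A N q (heckeNormFn (N * q) ℓ b0) (⟨red A Z, hZmem⟩ : FFb A N) := by
    refine ⟨fun h0 => hZne (congrArg Subtype.val h0), 1, one_ne_zero, ?_⟩
    have := Fermat.Agent.T3.helper36.rhoQ_incl (A := A) Z
    rw [hZ] at this
    simpa using this
  refine ⟨⟨red A Z, hZmem⟩, hν', fun Q hQ => ?_⟩
  -- two reductions of `g`
  have hg1 : IsRed1 A N q (heckeNormFn (N * q) ℓ b0 * b0⁻¹ ^ (ℓ + 1))
      ((⟨red A Z, hZmem⟩ : FFb A N) * ν⁻¹ ^ (ℓ + 1)) := hν'.mul (hν.inv.pow _)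
  have hg2 : IsRed1 A N q (heckeNormFn (N * q) ℓ b0 * b0⁻¹ ^ (ℓ + 1)) (⟨_, k1⟩ : FFb A N) := by
    refine ⟨hn1, 1, one_ne_zero, ?_⟩
    have := Fermat.Agent.T3.helper36.rhoQ_incl (A := A) (Z * iota ↥A (inv1 B) ^ (ℓ + 1))
    rw [hYg] at this
    simpa using this
  have h5 := hg1.ord_eq hg2 Q
  rw [hord Q hQ, Q.ord_mul hν'.1 (pow_ne_zero _ (inv_ne_zero hν.1)),
    Fermat.Agent.P3.helper94.ord_pow] at h5
  have h6 : Q.ord ν⁻¹ = - Q.ord ν := by
    have h7 := congrArg Q.ord (inv_mul_cancel₀ hν.1)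
    rw [Q.ord_mul (inv_ne_zero hν.1) hν.1, Place.ord_one] at h7
    omega
  rw [h6] at h5
  push_cast at h5
  linarith

end Main

end Fermat.Agent.T8.helper54

end
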