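import Fermat.Agent.T8.helper54_PhiDefs
import Fermat.Agent.T8.helper29_Concl

/-!
# T8 = row 38 via S44, leaf [CONCL] (helper29, owner; second helper80): CONTRACT, team vocabulary

This file restates the exit of [CONCL] in the vocabulary of [RING-X] (`helper16_RingXDefs`) and
[PHI] (`helper54_PhiDefs`): level `N p` (`N = 4 M'`), special fibre field `FFb A N` (first
component), reductions in the sense `helper54.IsRed1` (`T3.helper36.RhoQ`, up to a constant),
congruences only at the places of `FFb A N` where the reduction of `j` is finite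
(`helper54.ModEqOff`, `helper54.DvdOff`).  It supersedes the shapes `SlopeForm` (`helper29_Concl`)
and `SlopeFormQ` (`helper29_ConclQ`); the INPUT `PeuShape` of `helper29_Concl` is kept.

* `SlopeOutN A N p ν u`     : the period formula `c(x) = β m` for the Kummer function `u`:
                              some first-component reduction `f` of `u` and some `β : ℤ` satisfy
                              `ord_Q f ≡ β ord_Q ν` mod `p` off the cusps;
* `ConclStatementN`         : **[CONCL]**  `PeuShape u ⟹ SlopeOutN u`; the second component is the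
                              same statement for `W u` (`PeuShape` is stable under `W`);
* `IsWallBN A N p ν x`      : class form, exactly the exit asked by [PHI] (helper54):
                              `∃ u f β, IsKummerRep p x u ∧ IsRed1 u f ∧ ModEqOff β f ν`;
* `IsWallBN2`               : the same with the mirror `W u`;
* `IsWallCN`, `IsWallCN2`   : the output of the wall `c(x) = 0` (input of [D-HECKE]):
                              `∃ u f, IsKummerRep p x u ∧ IsRed1 u f ∧ DvdOff f` (and the mirror);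
* `wallBN`, `wallCN`        : the two predicates as `helper72.WallData`;
* `dvdOff_of_modEqOff`      : `ModEqOff β f ν` with `p ∣ β` gives `DvdOff f`;
* `modEqOff_of_dvdOff`      : `DvdOff f` gives `ModEqOff 0 f ν`.
-/

set_option autoImplicit false
set_option linter.unusedSectionVars false
set_option linter.unusedVariables false
set_option linter.style.longLine false

noncomputable section

namespace Fermat.Agent.T8.helper29

open HahnSeries IntermediateField AlgebraicCurve ModularCurve
open Fermat.Agent.S18.helper19 Fermat.Agent.P2.helper29 Fermat.Agent.P2.helper93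
open Fermat.Agent.T2 Fermat.Agent.T2.helper36
open Fermat.Agent.T8.helper54 (IsRed1 DvdOff ModEqOff)
open Fermat.Agent.P3.helper94 (IsKummerRep)
open Fermat.Agent.T3.helper16 (IsUnit0)

section Defs

variable (A : ValuationSubring Kb) (N p : ℕ) [NeZero N] [NeZero p]

/-- **the period formula `c(x) = β m`**, first component, off the cusps: some reduction `f` of
the Kummer function `u` satisfies `ord_Q f ≡ β ord_Q ν` mod `p`. -/
def SlopeOutN (ν : FFb A N) (u : FF (N * p)) : Prop :=
  ∃ (f : FFb A N) (β : ℤ), IsRed1 A N p u f ∧ ModEqOff A N p β f ν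

/-- **[CONCL]**, team vocabulary: the period formula in the peu ramifie case. -/
def ConclStatementN (W : FF (N * p) ≃ₐ[Kb] FF (N * p)) (ν : FFb A N) : Prop :=
  ∀ u : FF (N * p), u ≠ 0 → (∀ P : Place Kb (FF (N * p)), (p : ℤ) ∣ P.ord u) →
    PeuShape W A p u → SlopeOutN A N p ν u

/-- class form of the exit of [CONCL] = the input of [PHI] at the class `x` -/
def IsWallBN (ν : FFb A N) (x : JZero (N * p)) : Prop :=
  ∃ (u : FF (N * p)) (f : FFb A N) (β : ℤ),
    IsKummerRep p x u ∧ IsRed1 A N p u f ∧ ModEqOff A N p β f ν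

/-- class form of the exit of [CONCL], both components (`W u` is the mirror) -/
def IsWallBN2 (W : FF (N * p) ≃ₐ[Kb] FF (N * p)) (ν : FFb A N) (x : JZero (N * p)) : Prop :=
  ∃ (u : FF (N * p)) (f₁ f₂ : FFb A N) (β₁ β₂ : ℤ), IsKummerRep p x u ∧
    IsRed1 A N p u f₁ ∧ ModEqOff A N p β₁ f₁ ν ∧
    IsRed1 A N p (W u) f₂ ∧ ModEqOff A N p β₂ f₂ ν

/-- the output of the wall, `c(x) = 0`, first component -/
def IsWallCN (x : JZero (N * p)) : Prop :=
  ∃ (u : FF (N * p)) (f : FFb A N), IsKummerRep p x u ∧ IsRed1 A N p u f ∧ DvdOff A N p f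

/-- the output of the wall, `c(x) = 0`, both components -/
def IsWallCN2 (W : FF (N * p) ≃ₐ[Kb] FF (N * p)) (x : JZero (N * p)) : Prop :=
  ∃ (u : FF (N * p)) (f₁ f₂ : FFb A N), IsKummerRep p x u ∧
    IsRed1 A N p u f₁ ∧ DvdOff A N p f₁ ∧ IsRed1 A N p (W u) f₂ ∧ DvdOff A N p f₂

end Defs

section Lemmas

variable {A : ValuationSubring Kb} {N p : ℕ} [NeZero N] [NeZero p]

theorem dvdOff_of_modEqOff {β : ℤ} {f ν : FFb A N} (h : ModEqOff A N p β f ν)
    (hβ : (p : ℤ) ∣ β) : DvdOff A N p f := by
  intro Q hQ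
  have h1 := h Q hQ
  have h2 : β * Q.ord ν ≡ 0 [ZMOD p] :=
    Int.modEq_zero_iff_dvd.mpr (Dvd.dvd.mul_right hβ _)
  exact Int.modEq_zero_iff_dvd.mp (h1.trans h2)

theorem modEqOff_of_dvdOff {f : FFb A N} (ν : FFb A N) (h : DvdOff A N p f) :
    ModEqOff A N p 0 f ν := by
  intro Q hQ
  rw [zero_mul]
  exact Int.modEq_zero_iff_dvd.mpr (h Q hQ)

theorem IsWallBN2.left {W : FF (N * p) ≃ₐ[Kb] FF (N * p)} {ν : FFb A N} {x : JZero (N * p)}
    (h : IsWallBN2 A N p W ν x) : IsWallBN A N p ν x := by
  obtain ⟨u, f₁, -, β₁, -, hk, h1, h2, -, -⟩ := h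
  exact ⟨u, f₁, β₁, hk, h1, h2⟩

theorem IsWallCN2.left {W : FF (N * p) ≃ₐ[Kb] FF (N * p)} {x : JZero (N * p)}
    (h : IsWallCN2 A N p W x) : IsWallCN A N p x := by
  obtain ⟨u, f₁, -, hk, h1, h2, -, -⟩ := h
  exact ⟨u, f₁, hk, h1, h2⟩

theorem IsWallCN.isWallBN {x : JZero (N * p)} (ν : FFb A N) (h : IsWallCN A N p x) :
    IsWallBN A N p ν x := by
  obtain ⟨u, f, hk, h1, h2⟩ := h
  exact ⟨u, f, 0, hk, h1, modEqOff_of_dvdOff ν h2⟩

/-- **[CONCL] in class form**: the function-level contract gives the exit at every class with a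
Kummer function of peu ramifie shape. -/
theorem isWallBN_of_concl {W : FF (N * p) ≃ₐ[Kb] FF (N * p)} {ν : FFb A N}
    (hC : ConclStatementN A N p W ν) {x : JZero (N * p)} {u : FF (N * p)}
    (hk : IsKummerRep p x u) (hpeu : PeuShape W A p u) : IsWallBN A N p ν x := by
  obtain ⟨hu0, D, hD, hdiv⟩ := hk
  have hdvd : ∀ P : Place Kb (FF (N * p)), (p : ℤ) ∣ P.ord u := fun P =>
    ⟨(D : Divisor Kb (FF (N * p))) P, (hdiv P).symm⟩
  obtain ⟨f, β, h1, h2⟩ := hC u hu0 hdvd hpeu
  exact ⟨u, f, β, ⟨hu0, D, hD, hdiv⟩, h1, h2⟩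

end Lemmas

section WallData

/-- the intermediate predicate `B` of `helper38.wall_of_boxes` (`c(x) = β m`), as
`helper72.WallData`: for every first-component reduction `ν` of a weight-one unit `b₀`. -/
def wallBN : Fermat.Agent.T8.helper72.WallData := fun P M' _ A x =>
  ∀ (hpN : ¬ P.p ∣ 4 * M') (b0 : FF (4 * M' * P.p)) (B : PowerSeries ℤ) (ε : ℤ),
    IsUnit0 P.pp hpN b0 B ε → ∀ ν : FFb A (4 * M'), IsRed1 A (4 * M') P.p b0 ν →
      IsWallBN2 A (4 * M') P.p (atkinLehner (4 * M') P.p P.pp hpN) ν x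

/-- the wall predicate `C` (`c(x) = 0`), as `helper72.WallData`. -/
def wallCN : Fermat.Agent.T8.helper72.WallData := fun P M' _ A x =>
  ∀ hpN : ¬ P.p ∣ 4 * M', IsWallCN2 A (4 * M') P.p (atkinLehner (4 * M') P.p P.pp hpN) x

end WallData

end Fermat.Agent.T8.helper29

end
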