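import Mathlib
import Fermat.Agent.T8.helper54_PhiE2
import Fermat.Agent.T8.helper29_ConclN
import Fermat.Agent.T8.helper38_WallChain
import Fermat.Agent.P6.helper78_NAsm
import Fermat.Agent.S04.Wiring

/-!
# T8 [PHI] (helper54): the class-level box `helper38.PhiWallStatement` from [PHI-E1]

* `IsEigenFn N q ℓ a u` : the function-level eigen-relation `Norm_ℓ u = u^a · (c · v^q)`;
  it holds for a Kummer function of a class `x` with `T_ℓ x = a x` (`isEigenFn_of_kummer`) and it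
  is stable under the Atkin–Lehner involution `W_q` (`IsEigenFn.al`, by
  `atkinLehner_heckeNormFn`), which gives the mirror component for free;
* `phi_fn_of_boxes` : function-level form of `phi_of_boxes`;
* `PhiE1AllStatement` : the only open input of [PHI] = `PhiE1Statement` at all the primes
  `ℓ ∤ N q` (levels `N q` with `4 ∣ N`, `q ≥ 5`);
* `phiWall_of_phiE1` : `PhiE1AllStatement → helper38.PhiWallStatement π wallBN wallCN` for every
  pull-back datum `π` (the non-Eisenstein prime is `P6.helper78.nonEisW`, the eigen-equation is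
  `FreyReal.eigen`, [PHI-E2] is `phiE2`).
-/

set_option autoImplicit false
set_option synthInstance.maxHeartbeats 400000
set_option maxHeartbeats 1000000
set_option linter.unusedSectionVars false
set_option linter.unusedVariables false
set_option linter.style.longLine false
set_option linter.style.haveILetI false

noncomputable section

open HahnSeries IntermediateField AlgebraicCurve ModularCurve
open Fermat.Agent.S18.helper19 Fermat.Agent.P2.helper29 Fermat.Agent.T2.helper36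

namespace Fermat.Agent.T8.helper54

open Fermat.Agent.T3.helper36 (RhoQ)
open Fermat.Agent.T3.helper16 (IsUnit0)
open Fermat.Agent.P3.helper94 (IsKummerRep normAlong heckeKummer)

section Fn

variable {A : ValuationSubring Kb} {N q : ℕ} [NeZero N] [NeZero q] {ℓ : ℕ} [NeZero ℓ]

/-- the function-level eigen-relation `Norm_ℓ u = u^a · (c · v^q)` -/
def IsEigenFn (N q ℓ : ℕ) [NeZero N] [NeZero q] [NeZero ℓ] (a : ℤ) (u : FF (N * q)) : Prop :=
  ∃ (c : Kb) (v : FF (N * q)), c ≠ 0 ∧ v ≠ 0 ∧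
    heckeNormFn (N * q) ℓ u = u ^ a * (algebraMap Kb (FF (N * q)) c * v ^ q)

/-- a Kummer function of an eigenclass satisfies the eigen-relation -/
theorem isEigenFn_of_kummer {x : JZero (N * q)} {a : ℤ} {u : FF (N * q)}
    (hu : IsKummerRep q x u) (hx : heckeOperatorAlong Kb (N * q) ℓ x = a • x) :
    IsEigenFn N q ℓ a u := by
  have hK1 : IsKummerRep q (heckeOperatorAlong Kb (N * q) ℓ x) (heckeNormFn (N * q) ℓ u) :=
    isKummerRep_heckeNormFn hu
  rw [hx] at hK1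
  have hK2 : IsKummerRep q (a • x) (u ^ a) := hu.zsmul a
  obtain ⟨v, w, hv, hw, e⟩ := hK2.unique hK1
  obtain ⟨c, hc, rfl⟩ := Fermat.Agent.T7.helper43.exists_const_of_hasTrivialDiv hw
  exact ⟨c, v, hc, hv, e⟩

/-- the eigen-relation is stable under the Atkin–Lehner involution -/
theorem IsEigenFn.al {hq : q.Prime} {hqN : ¬ q ∣ N} (hℓq : ¬ q ∣ ℓ) {a : ℤ}
    {u : FF (N * q)} (h : IsEigenFn N q ℓ a u) :
    IsEigenFn N q ℓ a (Fermat.Agent.T2.helper36.atkinLehner N q hq hqN u) := by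
  obtain ⟨c, v, hc, hv, e⟩ := h
  refine ⟨c, Fermat.Agent.T2.helper36.atkinLehner N q hq hqN v, hc, ?_, ?_⟩
  · rw [Ne, map_eq_zero]; exact hv
  · rw [← atkinLehner_heckeNormFn N q ℓ hq hqN hℓq, e, map_mul, map_zpow₀, map_mul, map_pow,
      AlgEquiv.commutes]

/-- **[PHI]**, function level: `β = 0` from the boxes [PHI-E1] and [PHI-E2]. -/
theorem phi_fn_of_boxes (hq : q.Prime) (hqN : ¬ q ∣ N) (hA : A.LiesOverPrime q)
    (h1 : PhiE1Statement N q A ℓ) (h2 : PhiE2Statement N q hq hqN A ℓ)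
    {b0 : FF (N * q)} {B : PowerSeries ℤ} {ε : ℤ} (hb : IsUnit0 hq hqN b0 B ε)
    {ν : FFb A N} (hν : IsRed1 A N q b0 ν) {a : ℤ} (ha : ¬ (q : ℤ) ∣ a - ((ℓ : ℤ) + 1))
    {u : FF (N * q)} {f : FFb A N} {β : ℤ} (hu : IsEigenFn N q ℓ a u)
    (hf : IsRed1 A N q u f) (hmod : ModEqOff A N q β f ν) : DvdOff A N q f := by
  have hg : IsRed1 A N q (u * b0 ^ (-β)) (f * ν ^ (-β)) := hf.mul (hν.zpow (-β))
  have hgd : DvdOff A N q (f * ν ^ (-β)) := by
    intro Q hQ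
    rw [Q.ord_mul hf.1 (zpow_ne_zero _ hν.1), Q.ord_zpow]
    have h3 := (Int.modEq_iff_dvd).mp (hmod Q hQ)
    have e : Q.ord f + -β * Q.ord ν = -(β * Q.ord ν - Q.ord f) := by ring
    rw [e]
    exact (dvd_neg).mpr h3
  obtain ⟨g', hg', hg'd⟩ := h1 _ _ hg hgd
  obtain ⟨ν', hν', hν'ord⟩ := h2 b0 B ε hb ν hν
  obtain ⟨c, v, hc, hv, e⟩ := hu
  obtain ⟨r, hr⟩ := exists_isRed1 hq hqN hA hv
  have e2 : heckeNormFn (N * q) ℓ (u * b0 ^ (-β))
      = u ^ a * (algebraMap Kb (FF (N * q)) c * v ^ q) * heckeNormFn (N * q) ℓ b0 ^ (-β) := by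
    rw [heckeNormFn_mul, heckeNormFn_zpow, e]
  have hR : IsRed1 A N q (heckeNormFn (N * q) ℓ (u * b0 ^ (-β)))
      (f ^ a * (1 * r ^ q) * ν' ^ (-β)) := by
    rw [e2]
    exact ((hf.zpow a).mul ((isRed1_const hc).mul (hr.pow q))).mul (hν'.zpow (-β))
  intro Q hQ
  have h3 := hg'.ord_eq hR Q
  have h4 : Q.ord (f ^ a * (1 * r ^ q) * ν' ^ (-β))
      = a * Q.ord f + (0 + (q : ℤ) * Q.ord r) + -β * Q.ord ν' := by
    rw [Q.ord_mul (mul_ne_zero (zpow_ne_zero _ hf.1) (mul_ne_zero one_ne_zero (pow_ne_zero _ hr.1)))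
      (zpow_ne_zero _ hν'.1), Q.ord_mul (zpow_ne_zero _ hf.1)
      (mul_ne_zero one_ne_zero (pow_ne_zero _ hr.1)), Q.ord_mul one_ne_zero (pow_ne_zero _ hr.1),
      Q.ord_zpow, Q.ord_zpow, Place.ord_one, Fermat.Agent.P3.helper94.ord_pow]
  exact dvd_of_eisenstein hq ha (hmod Q hQ) (hν'ord Q hQ) (hg'd Q hQ) (h3.trans h4)

end Fn

/-! ### the class-level box -/

section Wall

open Fermat.Agent.T8.helper72 Fermat.Agent.T8.helper38 Fermat.Agent.T8.helper29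

/-- **the only open input of [PHI]**: [PHI-E1] at every prime `ℓ ∤ N q` -/
def PhiE1AllStatement : Prop :=
  ∀ (N q : ℕ) [NeZero N] [NeZero q], q.Prime → ¬ q ∣ N → 4 ∣ N → 5 ≤ q →
    ∀ A : ValuationSubring Kb, A.LiesOverPrime q →
    ∀ (ℓ : ℕ) [NeZero ℓ], ℓ.Prime → ¬ ℓ ∣ N * q → PhiE1Statement N q A ℓ

/-- **[PHI], class level**: `helper38.PhiWallStatement π wallBN wallCN` from [PHI-E1]. -/
theorem phiWall_of_phiE1 (π : PullData) (h : PhiE1AllStatement) :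
    PhiWallStatement π wallBN wallCN := by
  intro P W M' _ hpN A V0 ctx hB x hx hpN'
  haveI : NeZero P.p := ⟨P.pp.ne_zero⟩
  have hA := ctx.liesOver
  obtain ⟨b0, B, ε, hb⟩ := Fermat.Agent.T3.helper16.exists_isUnit0 (N := 4 * M') P.pp hpN'
    (Or.inl ⟨M', rfl⟩)
  obtain ⟨ν, hν⟩ := exists_isRed1 (A := A) P.pp hpN' hA hb.ne_zero
  obtain ⟨u, f₁, f₂, β₁, β₂, hk, hr1, hm1, hr2, hm2⟩ := hB x hx hpN' b0 B ε hb ν hν
  -- the non-Eisenstein prime
  have hp2 : P.p ≠ 2 := by have := P.hp5; omega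
  have hmpos : 0 < 4 * M' * P.p :=
    Nat.mul_pos (Nat.mul_pos (by norm_num) (Nat.pos_of_ne_zero (NeZero.ne M'))) P.pp.pos
  have hΔE : P.freyCurve.Δ ≠ 0 := by
    rw [← Fermat.Agent.S04.freyCurveInt_map, WeierstrassCurve.map_Δ]
    simpa using Fermat.Agent.S04.freyCurveInt_Δ_ne_zero P
  haveI : P.freyCurve.IsElliptic := ⟨isUnit_iff_ne_zero.mpr hΔE⟩
  obtain ⟨hΔ, hirrW⟩ := Fermat.Agent.P6.helper78.vc P.freyCurve W P.p ctx.model ctx.irr
  obtain ⟨ℓ, hℓ, -, hℓm, hgood, hne⟩ := Fermat.Agent.P6.helper78.nonEisW W P.p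
    P.pp hp2 hΔ hirrW (4 * M' * P.p) hmpos
  haveI : NeZero ℓ := ⟨hℓ.ne_zero⟩
  have hℓp : ℓ ≠ P.p := by
    rintro rfl
    exact hℓm (dvd_mul_left _ _)
  have hℓq : ¬ P.p ∣ ℓ := by
    intro hd
    exact hℓp ((Nat.prime_dvd_prime_iff_eq P.pp hℓ).mp hd).symm
  -- the eigen-equation
  have heig := ctx.real.eigen x hx ⟨ℓ, hℓ⟩ hgood hℓm hℓp
  have heig' : heckeOperatorAlong Kb (4 * M' * P.p) ℓ x = W.apOfModel ℓ • x := heig
  have hE : IsEigenFn (4 * M') P.p ℓ (W.apOfModel ℓ) u := isEigenFn_of_kummer hk heig'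
  have ha : ¬ ((P.p : ℕ) : ℤ) ∣ W.apOfModel ℓ - ((ℓ : ℤ) + 1) := by
    rw [add_comm]; exact hne
  have h1 := h (4 * M') P.p P.pp hpN' ⟨M', rfl⟩ P.hp5 A hA ℓ hℓ hℓm
  have h2 : PhiE2Statement (4 * M') P.p P.pp hpN' A ℓ := phiE2 hℓ hℓm hA
  refine ⟨u, f₁, f₂, hk, hr1, ?_, hr2, ?_⟩
  · exact phi_fn_of_boxes P.pp hpN' hA h1 h2 hb hν ha hE hr1 hm1
  · exact phi_fn_of_boxes P.pp hpN' hA h1 h2 hb hν ha (hE.al hℓq) hr2 hm2

end Wall

end Fermat.Agent.T8.helper54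

end
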