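import Mathlib
import Fermat.Agent.T8.helper12_E1Ord
import Fermat.Agent.T8.helper43_PhiE1Red
import Fermat.Agent.T8.helper54_PhiE2
import Fermat.Agent.T8.helper54_PhiWall

/-!
# T8 [PHI-E1] (helper12): the bridge - `PhiE1Statement` at every prime `ℓ ∤ N q`

`phiE1  : helper54.PhiE1Statement N q A ℓ`   (`q` prime, `q ∤ N`, `A` over `q`, `ℓ` prime,
                                               `ℓ ∤ N q`),
`phiE1All : helper54.PhiE1AllStatement`.

Inputs: `helper43.phiE1Red` ([E1-RED]: the reduction relation commutes with the multiplicative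
Hecke operator at the bad level), `helper12.phiE1Ord_bad` ([E1-ORD]: the Hecke norm on the
special fibre preserves divisibility of the orders off the cusps), `helper54.heckeNormFn_const`.
The only work here is the transport between `FFb A (N q)` and `FFb A N` (equal intermediate
fields, `T2.helper96.FFb_mul_eq`).
-/

set_option autoImplicit false
set_option linter.unusedSectionVars false
set_option linter.unusedVariables false
set_option linter.style.longLine false
set_option linter.style.haveILetI false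
set_option synthInstance.maxHeartbeats 400000
set_option maxHeartbeats 1000000

noncomputable section

open ModularCurve AlgebraicCurve IntermediateField

namespace Fermat.Agent.T8.helper12

open Fermat.Agent.S18.helper19 Fermat.Agent.P3.helper94 Fermat.Agent.P2.helper29

/-- transport of "`n ∣ ord` off the poles of `x`" along an equality of intermediate fields -/
theorem dvdOff_transport {k Ω : Type*} [Field k] [Field Ω] [Algebra k Ω]
    {E₁ E₂ : IntermediateField k Ω} (h : E₁ = E₂) (n : ℤ) (x f : Ω)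
    (hx₁ : x ∈ E₁) (hx₂ : x ∈ E₂) (hf₁ : f ∈ E₁) (hf₂ : f ∈ E₂)
    (H : ∀ t : Place k E₁, 0 ≤ t.ord (⟨x, hx₁⟩ : E₁) → n ∣ t.ord (⟨f, hf₁⟩ : E₁)) :
    ∀ t : Place k E₂, 0 ≤ t.ord (⟨x, hx₂⟩ : E₂) → n ∣ t.ord (⟨f, hf₂⟩ : E₂) := by
  subst h
  exact H

section Main

variable {N q ℓ : ℕ} [NeZero N] [NeZero q] [NeZero ℓ]

/-- **[PHI-E1]** at the bad pair `(N, q)`. -/
theorem phiE1 (hq : q.Prime) (hqN : ¬ q ∣ N) (A : ValuationSubring Kb)
    (hA : A.LiesOverPrime q) (hℓ : ℓ.Prime) (hℓN : ¬ ℓ ∣ N * q) :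
    Fermat.Agent.T8.helper54.PhiE1Statement N q A ℓ := by
  intro u f hRed hDvd
  have heq : FFb A (N * q) = FFb A N := Fermat.Agent.T2.helper96.FFb_mul_eq N A hq hA
  have hqℓ : ¬ q ∣ ℓ := by
    intro h
    have h1 : q = ℓ := (Nat.prime_dvd_prime_iff_eq hq hℓ).mp h
    exact hℓN (h1 ▸ dvd_mul_left q N)
  obtain ⟨hf0, κ, hκ, hr⟩ := hRed
  -- the function and its reduction at level `N q`
  set ũ : FF (N * q) := algebraMap Kb (FF (N * q)) κ⁻¹ * u with hũ
  have hfm : (f : LaurentSeries (kA A)) ∈ FFb A (N * q) := by rw [heq]; exact f.2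
  set f₁ : FFb A (N * q) := ⟨(f : LaurentSeries (kA A)), hfm⟩ with hf₁
  have hf₁0 : f₁ ≠ 0 := by
    intro h0
    have h1 : (f : LaurentSeries (kA A)) = 0 := congrArg Subtype.val h0
    exact hf0 (Subtype.ext h1)
  have hR : RedM A (N * q) ũ f₁ := by
    obtain ⟨Y₁, Y₂, h2, e1, e2⟩ := hr
    exact ⟨Y₁, Y₂, h2, e1.symm, e2.symm⟩
  -- [E1-RED]
  have key := Fermat.Agent.T8.helper43.phiE1Red hq hqN hℓ hℓN A hA ũ f₁ hR
  -- [E1-ORD]
  have hD₁ : Fermat.Agent.T8.helper43.PDivOffCusps (N * q) A q f₁ :=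
    dvdOff_transport heq.symm (q : ℤ) (jqModC (kA A)) (f : LaurentSeries (kA A))
      (jqModC_mem_full (kA A) N) (jqModC_mem_full (kA A) (N * q)) f.2 hfm hDvd
  have hord := phiE1Ord_bad A N ℓ hq hA hqN hqℓ q f₁ hf₁0 hD₁
  set g₁ : FFb A (N * q) := Fermat.Agent.T8.helper43.heckeMulBar (N * q) ℓ A f₁ with hg₁
  have hgm : (g₁ : LaurentSeries (kA A)) ∈ FFb A N := by rw [← heq]; exact g₁.2
  -- the constant
  have hconst : Fermat.Agent.T8.helper43.heckeMul (N * q) ℓ ũ
      = algebraMap Kb (FF (N * q)) ((κ⁻¹) ^ (ℓ + 1)) *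
        Fermat.Agent.T8.helper54.heckeNormFn (N * q) ℓ u := by
    have h1 : Fermat.Agent.T8.helper43.heckeMul (N * q) ℓ ũ
        = Fermat.Agent.T8.helper54.heckeNormFn (N * q) ℓ ũ := rfl
    rw [h1, hũ, Fermat.Agent.T8.helper54.heckeNormFn_mul,
      Fermat.Agent.T8.helper54.heckeNormFn_const hℓ hℓN]
  -- nonvanishing of the norm on the special fibre
  have hfin : FiniteAlong (kA A) (Fermat.Agent.T8.helper43.alphaBarC (N * q) ℓ A) := by
    have h2 := Fermat.Agent.T8.helper43.finrank_alphaBarC hq hqN hℓ hℓN A hA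
    letI := algebraAlong (Fermat.Agent.T8.helper43.alphaBarC (N * q) ℓ A)
    show Module.Finite (FFb A (N * q)) (FFb A (N * q * ℓ))
    exact Module.finite_of_finrank_pos (by rw [h2]; omega)
  have hg₁0 : g₁ ≠ 0 := by
    letI := algebraAlong (Fermat.Agent.T8.helper43.alphaBarC (N * q) ℓ A)
    haveI : Module.Finite (FFb A (N * q)) (FFb A (N * q * ℓ)) := hfin
    have h1 : Algebra.norm (FFb A (N * q)) (Fermat.Agent.T8.helper43.betaBarC (N * q) ℓ A f₁) ≠ 0 :=
      Algebra.norm_ne_zero_iff.mpr ((map_ne_zero _).mpr hf₁0)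
    exact h1
  have hc0 : (κ⁻¹) ^ (ℓ + 1) ≠ 0 := pow_ne_zero _ (inv_ne_zero hκ)
  have hg₁0' : (⟨(g₁ : LaurentSeries (kA A)), hgm⟩ : FFb A N) ≠ 0 := by
    intro h0
    have h1 : (g₁ : LaurentSeries (kA A)) = 0 := congrArg Subtype.val h0
    exact hg₁0 (Subtype.ext h1)
  have e1' : ((Fermat.Agent.T8.helper43.heckeMul (N * q) ℓ ũ : FF (N * q)) : LaurentSeries Kb)
      = algebraMap Kb (LaurentSeries Kb) ((κ⁻¹) ^ (ℓ + 1)) *
        ((Fermat.Agent.T8.helper54.heckeNormFn (N * q) ℓ u : FF (N * q)) : LaurentSeries Kb) := by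
    rw [hconst]
    rfl
  refine ⟨⟨(g₁ : LaurentSeries (kA A)), hgm⟩,
    ⟨hg₁0', ((κ⁻¹) ^ (ℓ + 1))⁻¹, inv_ne_zero hc0, ?_⟩, ?_⟩
  · unfold RedM at key
    rw [inv_inv, ← e1']
    obtain ⟨Y₁, Y₂, h2, e1, e2⟩ := key
    exact ⟨Y₁, Y₂, h2, e1.symm, e2.symm⟩
  · exact dvdOff_transport heq (q : ℤ) (jqModC (kA A)) (g₁ : LaurentSeries (kA A))
      (jqModC_mem_full (kA A) (N * q)) (jqModC_mem_full (kA A) N) g₁.2 hgm hord

/-- **[PHI-E1] at every prime `ℓ ∤ N q`**: the only open input of [PHI]. -/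
theorem phiE1All : Fermat.Agent.T8.helper54.PhiE1AllStatement := by
  intro N q _ _ hq hqN _ _ A hA ℓ _ hℓ hℓN
  exact phiE1 hq hqN A hA hℓ hℓN

/-- **[PHI], class level, UNCONDITIONAL**: frontier Prop `helper38.PhiWallStatement` at
`B = wallBN`, `C = wallCN`, for every pull-back datum `π`. -/
theorem phiWall (π : Fermat.Agent.T8.helper72.PullData) :
    Fermat.Agent.T8.helper38.PhiWallStatement π Fermat.Agent.T8.helper29.wallBN
      Fermat.Agent.T8.helper29.wallCN :=
  Fermat.Agent.T8.helper54.phiWall_of_phiE1 π phiE1All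

end Main

end Fermat.Agent.T8.helper12

end
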