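import Fermat.Agent.T8.helper47_LiftQ
import Fermat.Agent.S23
import Fermat.Agent.S22.helper16_OfIntegral

/-!
# T8 (row 38), [F3-EXIT], sub-leaf [SAT-CUSP] (helper51): saturation of the lattice of
`q`-integral cusp forms modulo `p`

Input of the COUNT `red S(L)_A = Ann_k(L)` in helper91's annihilator route (finding #3612):
the reductions modulo `p` of the `q`-integral cusp forms of weight `2` and level `L` span a
space of dimension at least `g = dim_ℂ S₂(Γ₀(L))`.

* `linearIndependent_zmod_of_sat` / `linearIndependent_cast_of_zmod` (Mathlib only): a family of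
  integer sequences which is saturated at `p` is linearly independent modulo `p`, over every
  field of characteristic `p`;
* `finrank_cuspForm_le_finrank_intLattice` : `dim_ℂ S₂(Γ₀(L)) ≤ rank_ℤ (intLattice L 2)`
  (S23);
* `satCusp` : there are `g` cusp forms with integral `q`-expansions whose reductions are
  linearly independent over `k` (any field of characteristic `p`);
* `isRedCusp_of_mem_ann` : a finite dimensional subspace `Ann ⊆ (ℕ → k)` of dimension `≤ g`
  containing the reductions of all `q`-integral cusp forms consists of `helper47.IsRedCusp`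
  sequences (the exit shape of [LIFT-Q]); `isRedCusp_of_mem_ann_map` : the same through a
  linear coefficient map.
-/

set_option autoImplicit false

open ModularCurve CuspForm CongruenceSubgroup ModularFormClass

noncomputable section

namespace Fermat.Agent.T8.helper51

open P2MW.S_CuspForm_intLattice_fg.W3WsD

/-! ### Integer sequences, saturation and independence modulo `p` -/

section Abstract

variable {ι : Type*} [Fintype ι] (p : ℕ)

/-- A family of integer sequences which is saturated at `p` (a combination with integer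
coefficients divisible by `p` has coefficients divisible by `p`) is linearly independent
modulo `p`. -/
theorem linearIndependent_zmod_of_sat [Fact p.Prime] (z : ι → ℕ → ℤ)
    (hsat : ∀ m : ι → ℤ, (∀ n, (p : ℤ) ∣ ∑ i, m i * z i n) → ∀ i, (p : ℤ) ∣ m i) :
    LinearIndependent (ZMod p) (fun i => fun n => ((z i n : ℤ) : ZMod p)) := by
  classical
  rw [Fintype.linearIndependent_iff]
  intro c hc i
  have h1 : ∀ n, (p : ℤ) ∣ ∑ j, ((c j).val : ℤ) * z j n := by
    intro n
    rw [← ZMod.intCast_zmod_eq_zero_iff_dvd]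
    have h2 := congrFun hc n
    simp only [Finset.sum_apply, Pi.smul_apply, smul_eq_mul, Pi.zero_apply] at h2
    rw [← h2]
    push_cast
    refine Finset.sum_congr rfl fun j _ => ?_
    rw [ZMod.natCast_zmod_val]
  have h3 := hsat (fun j => ((c j).val : ℤ)) h1 i
  have h4 : (((c i).val : ℤ) : ZMod p) = 0 := (ZMod.intCast_zmod_eq_zero_iff_dvd _ _).mpr h3
  rw [Int.cast_natCast, ZMod.natCast_zmod_val] at h4
  exact h4

/-- Linear independence of integer sequences modulo `p` extends to every field of
characteristic `p`. -/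
theorem linearIndependent_cast_of_zmod [Fact p.Prime] (k : Type*) [Field k] [CharP k p]
    (z : ι → ℕ → ℤ)
    (h : LinearIndependent (ZMod p) (fun i => fun n => ((z i n : ℤ) : ZMod p))) :
    LinearIndependent k (fun i => fun n => ((z i n : ℤ) : k)) := by
  classical
  let _ : Algebra (ZMod p) k := ZMod.algebra k p
  rw [Fintype.linearIndependent_iff] at h ⊢
  intro c hc i
  rw [← Module.forall_dual_apply_eq_zero_iff (ZMod p)]
  intro φ
  refine h (fun j => φ (c j)) ?_ i
  funext n
  have h2 := congrFun hc n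
  simp only [Finset.sum_apply, Pi.smul_apply, smul_eq_mul, Pi.zero_apply] at h2 ⊢
  have h3 : φ (∑ j, c j * ((z j n : ℤ) : k)) = 0 := by rw [h2, map_zero]
  rw [map_sum] at h3
  rw [← h3]
  refine Finset.sum_congr rfl fun j _ => ?_
  have h4 : c j * ((z j n : ℤ) : k) = ((z j n : ℤ) : ZMod p) • c j := by
    rw [Algebra.smul_def, map_intCast, mul_comm]
  rw [h4, map_smul, smul_eq_mul, mul_comm]

end Abstract

/-! ### The lattice of `q`-integral cusp forms -/

section Concrete

open Module

variable (L : ℕ) [NeZero L]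

/-- The integral `q`-expansion coefficients of an element of the lattice. -/
def zCoeff (F : ↥(intLattice L 2)) (n : ℕ) : ℤ :=
  ((mem_intLattice_iff (F : CuspForm (Gamma0 L) 2)).mp F.2 n).choose

omit [NeZero L] in
theorem zCoeff_spec (F : ↥(intLattice L 2)) (n : ℕ) :
    ((zCoeff L F n : ℤ) : ℂ) = qCoeff ⇑(F : CuspForm (Gamma0 L) 2) n :=
  (((mem_intLattice_iff (F : CuspForm (Gamma0 L) 2)).mp F.2 n).choose_spec).symm

/-- A `ℤ`-basis of the lattice of `q`-integral cusp forms. -/
def latBasis : Basis (Fin (finrank ℤ ↥(intLattice L 2))) ℤ ↥(intLattice L 2) :=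
  haveI := Fermat.Agent.S22.helper16.intLattice_moduleFinite L 2
  haveI := Fermat.Agent.S22.helper16.intLattice_moduleFree L 2
  Module.finBasis ℤ ↥(intLattice L 2)

/-- `q`-coefficients of an integral combination of the basis. -/
theorem qCoeff_sum_latBasis (m : Fin (finrank ℤ ↥(intLattice L 2)) → ℤ) (n : ℕ) :
    qCoeff ⇑((∑ i, m i • latBasis L i : ↥(intLattice L 2)) : CuspForm (Gamma0 L) 2) n =
      ((∑ i, m i * zCoeff L (latBasis L i) n : ℤ) : ℂ) := by
  have h1 : ((∑ i, m i • latBasis L i : ↥(intLattice L 2)) : CuspForm (Gamma0 L) 2) =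
      ∑ i, m i • (latBasis L i : CuspForm (Gamma0 L) 2) := by
    rw [Submodule.coe_sum]
    rfl
  rw [h1]
  have h2 := congrFun (map_sum (Fermat.Agent.S23.helper87.qCoeffLin L 2)
    (fun i => m i • (latBasis L i : CuspForm (Gamma0 L) 2)) Finset.univ) n
  rw [Fermat.Agent.S23.helper87.qCoeffLin_apply] at h2
  rw [h2, Finset.sum_apply]
  push_cast
  refine Finset.sum_congr rfl fun i _ => ?_
  rw [map_zsmul, Pi.smul_apply, Fermat.Agent.S23.helper87.qCoeffLin_apply, zsmul_eq_mul,
    zCoeff_spec]

/-- **Saturation**: if all `q`-coefficients of an integral combination of the basis are divisible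
by `p`, so are the coefficients of the combination. -/
theorem sat_latBasis (p : ℕ) (hp : p ≠ 0) (m : Fin (finrank ℤ ↥(intLattice L 2)) → ℤ)
    (hm : ∀ n, (p : ℤ) ∣ ∑ i, m i * zCoeff L (latBasis L i) n) (i : Fin (finrank ℤ ↥(intLattice L 2))) :
    (p : ℤ) ∣ m i := by
  classical
  set F : ↥(intLattice L 2) := ∑ i, m i • latBasis L i with hF
  choose t ht using hm
  have hpC : (p : ℂ) ≠ 0 := by exact_mod_cast hp
  have hG : ((p : ℂ)⁻¹ • (F : CuspForm (Gamma0 L) 2)) ∈ intLattice L 2 := by
    apply Fermat.Agent.S23.helper87.mem_intLattice_of_int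
    intro n
    refine ⟨t n, ?_⟩
    rw [Fermat.Agent.S23.helper87.qCoeff_smul_cuspForm, hF, qCoeff_sum_latBasis, ht n]
    push_cast
    field_simp
  set G : ↥(intLattice L 2) := ⟨_, hG⟩ with hGdef
  have hpG : (p : ℤ) • G = F := by
    apply Subtype.ext
    rw [Submodule.coe_smul, hGdef]
    show (p : ℤ) • ((p : ℂ)⁻¹ • (F : CuspForm (Gamma0 L) 2)) = _
    rw [← Int.cast_smul_eq_zsmul ℂ, smul_smul]
    push_cast
    rw [mul_inv_cancel₀ hpC, one_smul]
  have h1 : (latBasis L).repr F i = m i := by
    rw [hF, Basis.repr_sum_self]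
  have h2 : (latBasis L).repr F i = (p : ℤ) * (latBasis L).repr G i := by
    rw [← hpG, map_smul, Finsupp.smul_apply, smul_eq_mul]
  exact ⟨_, h1.symm.trans h2⟩

/-- `dim_ℂ S₂(Γ₀(L)) ≤ rank_ℤ` of the lattice of `q`-integral forms (from S23). -/
theorem finrank_cuspForm_le_finrank_intLattice :
    finrank ℂ (CuspForm (Gamma0 L) 2) ≤ finrank ℤ ↥(intLattice L 2) := by
  classical
  have hS := Fermat.Agent.S23.result L
  unfold CuspForm.HasIntegralStructure at hS
  have hle : (Submodule.span ℂ ((intLattice L 2 : Submodule ℤ (CuspForm (Gamma0 L) 2)) :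
      Set (CuspForm (Gamma0 L) 2))) ≤
      Submodule.span ℂ (Set.range fun i => (latBasis L i : CuspForm (Gamma0 L) 2)) := by
    apply Submodule.span_le.mpr
    intro F hF
    have h1 := (latBasis L).sum_repr ⟨F, hF⟩
    have h2 : F = ∑ i, ((latBasis L).repr ⟨F, hF⟩ i) • (latBasis L i : CuspForm (Gamma0 L) 2) := by
      have := congrArg (Subtype.val) h1
      rw [Submodule.coe_sum] at this
      exact this.symm
    rw [h2]
    refine Submodule.sum_mem _ fun i _ => ?_
    rw [← Int.cast_smul_eq_zsmul ℂ]
    exact Submodule.smul_mem _ _ (Submodule.subset_span ⟨i, rfl⟩)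
  rw [hS, top_le_iff] at hle
  have h3 := finrank_range_le_card (R := ℂ)
    (fun i => (latBasis L i : CuspForm (Gamma0 L) 2))
  unfold Set.finrank at h3
  rw [hle, finrank_top, Fintype.card_fin] at h3
  exact h3

/-- **[SAT-CUSP]** there are `g = dim_ℂ S₂(Γ₀(L))` cusp forms with integral `q`-expansions whose
reductions are linearly independent over every field of characteristic `p`. -/
theorem satCusp (p : ℕ) (hp : p.Prime) (k : Type*) [Field k] [CharP k p] :
    ∃ (f : Fin (finrank ℂ (CuspForm (Gamma0 L) 2)) → CuspForm (Gamma0 L) 2)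
      (z : Fin (finrank ℂ (CuspForm (Gamma0 L) 2)) → ℕ → ℤ),
      (∀ i m, ((z i m : ℤ) : ℂ) = qCoeff ⇑(f i) m) ∧
      LinearIndependent k (fun i => fun m => ((z i m : ℤ) : k)) := by
  classical
  have : Fact p.Prime := ⟨hp⟩
  have hle := finrank_cuspForm_le_finrank_intLattice L
  have hind := linearIndependent_cast_of_zmod p k (fun i => zCoeff L (latBasis L i))
    (linearIndependent_zmod_of_sat p _ (fun m hm i => sat_latBasis L p hp.ne_zero m hm i))
  refine ⟨fun i => (latBasis L (Fin.castLE hle i) : CuspForm (Gamma0 L) 2),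
    fun i => zCoeff L (latBasis L (Fin.castLE hle i)), fun i m => zCoeff_spec L _ m, ?_⟩
  exact hind.comp (Fin.castLE hle) (Fin.castLE_injective hle)

/-- **The count**: a finite dimensional subspace of `ℕ → k` of dimension at most
`g = dim_ℂ S₂(Γ₀(L))` which contains the reductions of all `q`-integral cusp forms consists of
`k`-combinations of such reductions. -/
theorem isRedCusp_of_mem_ann (p : ℕ) (hp : p.Prime) (k : Type*) [Field k] [CharP k p]
    (Ann : Submodule k (ℕ → k)) [Module.Finite k Ann]
    (hdim : finrank k Ann ≤ finrank ℂ (CuspForm (Gamma0 L) 2))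
    (hsub : ∀ (f : CuspForm (Gamma0 L) 2) (z : ℕ → ℤ), (∀ m, ((z m : ℤ) : ℂ) = qCoeff ⇑f m) →
      (fun m => ((z m : ℤ) : k)) ∈ Ann)
    (w : ℕ → k) (hw : w ∈ Ann) : Fermat.Agent.T8.helper47.IsRedCusp L k w := by
  classical
  obtain ⟨f, z, hz, hind⟩ := satCusp L p hp k
  set v : Fin (finrank ℂ (CuspForm (Gamma0 L) 2)) → Ann :=
    fun i => ⟨fun m => ((z i m : ℤ) : k), hsub (f i) (z i) (hz i)⟩ with hv
  have hvind : LinearIndependent k v := by
    apply LinearIndependent.of_comp Ann.subtype
    exact hind
  have hcard := hvind.fintype_card_le_finrank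
  rw [Fintype.card_fin] at hcard
  have hspan : Submodule.span k (Set.range v) = ⊤ := by
    apply Submodule.eq_top_of_finrank_eq
    rw [finrank_span_eq_card hvind, Fintype.card_fin]
    exact le_antisymm hcard hdim
  have hmem : (⟨w, hw⟩ : Ann) ∈ Submodule.span k (Set.range v) := by
    rw [hspan]
    exact Submodule.mem_top
  obtain ⟨c, hc⟩ := (Submodule.mem_span_range_iff_exists_fun k).mp hmem
  refine ⟨_, f, z, c, hz, fun m => ?_⟩
  have h1 := congrFun (congrArg Subtype.val hc) m
  rw [Submodule.coe_sum, Finset.sum_apply] at h1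
  exact h1.symm

/-- The count through a linear coefficient map `φ : X → (ℕ → k)` (e.g. the coefficients of a
power series or of a Laurent series). -/
theorem isRedCusp_of_mem_ann_map (p : ℕ) (hp : p.Prime) (k : Type*) [Field k] [CharP k p]
    {X : Type*} [AddCommGroup X] [Module k X] (φ : X →ₗ[k] (ℕ → k))
    (Ann : Submodule k X) [Module.Finite k Ann]
    (hdim : finrank k Ann ≤ finrank ℂ (CuspForm (Gamma0 L) 2))
    (hsub : ∀ (f : CuspForm (Gamma0 L) 2) (z : ℕ → ℤ), (∀ m, ((z m : ℤ) : ℂ) = qCoeff ⇑f m) →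
      ∃ x ∈ Ann, φ x = fun m => ((z m : ℤ) : k))
    (w : X) (hw : w ∈ Ann) : Fermat.Agent.T8.helper47.IsRedCusp L k (φ w) := by
  refine isRedCusp_of_mem_ann L p hp k (Ann.map φ)
    ((Submodule.finrank_map_le φ Ann).trans hdim) (fun f z hz => ?_) (φ w)
    (Submodule.mem_map_of_mem hw)
  obtain ⟨x, hx, hφ⟩ := hsub f z hz
  exact ⟨x, hx, hφ⟩

end Concrete

end Fermat.Agent.T8.helper51
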