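import Fermat.Agent.T8.helper74_GapsAnn
import Fermat.Agent.T8.helper51_SatCusp
import Fermat.Agent.S20

/-!
# T8 [F3-EXIT], glue of the leaves [GAPS] + [SAT-CUSP] + [CUSP-ANN] (helper13)

`annRb L A` (helper74) is the annihilator in `q k[[q]]` of the reductions of the `A`-integral
functions of level `L` regular off infinity.  This file proves

* `isRedCusp_of_mem_annRb` : `CuspAnnStatement L A → w ∈ annRb L A →
  helper47.IsRedCusp L k (fun m => w.coeff m)`,

at EVERY level `L` prime to the residue characteristic, where

* `CuspAnnStatement L A` : **[CUSP-ANN], consumer form**: for every cusp form `f` of weight `2`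
  and level `L` with integral `q`-coefficients `z`, some element of `annRb L A` has the
  coefficients `(z m : k)`.

Inputs: `helper74.finrank_annRb_le` (`dim annRb ≤ g`, `g` the Riemann genus of `FF L`),
`P2.helper77.genusFormulaStatement` and `S20` (`g = genusFormula L = dim S₂(Γ₀(L))`),
`helper51.isRedCusp_of_mem_ann_map` (the count with a saturated basis).
-/

set_option autoImplicit false
set_option synthInstance.maxHeartbeats 400000
set_option linter.unusedSectionVars false
set_option linter.unusedVariables false
set_option linter.style.longLine false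

noncomputable section

namespace Fermat.Agent.T8.helper13

open HahnSeries IntermediateField AlgebraicCurve ModularCurve CongruenceSubgroup
open Fermat.Agent.S18.helper19 Fermat.Agent.P2.helper29 Fermat.Agent.P2
open Fermat.Agent.T8.helper74

/-- the coefficients of positive index of a Laurent series, as a linear map -/
def coeffSeq (k : Type*) [Field k] : LaurentSeries k →ₗ[k] (ℕ → k) where
  toFun w := fun m => w.coeff (m : ℤ)
  map_add' w w' := by
    funext m
    exact HahnSeries.coeff_add' w w' ▸ rfl
  map_smul' c w := by
    funext m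
    simp

@[simp]
theorem coeffSeq_apply {k : Type*} [Field k] (w : LaurentSeries k) (m : ℕ) :
    coeffSeq k w m = w.coeff (m : ℤ) := rfl

/-- **[CUSP-ANN], consumer form**: the reduction of the `q`-expansion of a `q`-integral cusp
form of weight `2` and level `L` lies in `annRb L A`. -/
def CuspAnnStatement (L : ℕ) [NeZero L] (A : ValuationSubring Kb) : Prop :=
  ∀ (f : CuspForm (Gamma0 L) 2) (z : ℕ → ℤ),
    (∀ m, ((z m : ℤ) : ℂ) = ModularFormClass.qCoeff ⇑f m) →
    ∃ x ∈ annRb L A, ∀ m : ℕ, x.coeff (m : ℤ) = ((z m : ℤ) : kA A)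

variable {L : ℕ} [NeZero L] {A : ValuationSubring Kb}

/-- the Riemann genus of `FF L` is the dimension of `S₂(Γ₀(L))` -/
theorem riemannGenus_eq_finrank (g : ℕ) (hg : HasRiemannGenus Kb (FF L) g) :
    g = Module.finrank ℂ (CuspForm (Gamma0 L) 2) := by
  have h1 : (g : ℚ) = genusFormula L := Fermat.Agent.P2.helper77.genusFormulaStatement L g hg
  have h2 := Fermat.Agent.S20.result L
  have h3 : (g : ℚ) = (Module.finrank ℂ (CuspForm (Gamma0 L) 2) : ℚ) := by rw [h1, h2]
  exact_mod_cast h3

/-- **the annihilator consists of reductions of cusp forms**, given [CUSP-ANN]. -/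
theorem isRedCusp_of_mem_annRb (hP : PrimeToLevel L A) (p : ℕ) (hp : p.Prime)
    [CharP (kA A) p] (hC : CuspAnnStatement L A) {w : LaurentSeries (kA A)}
    (hw : w ∈ annRb L A) :
    Fermat.Agent.T8.helper47.IsRedCusp L (kA A) (fun m => w.coeff (m : ℤ)) := by
  obtain ⟨g, hg⟩ := Fermat.Agent.P2.helper74.riemannStatement L
  have hfin : FiniteDimensional (kA A) (annRb L A) := finiteDimensional_annRb hP
  have hdim : Module.finrank (kA A) (annRb L A)
      ≤ Module.finrank ℂ (CuspForm (Gamma0 L) 2) := by
    rw [← riemannGenus_eq_finrank g hg]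
    exact finrank_annRb_le hP g hg
  have := Fermat.Agent.T8.helper51.isRedCusp_of_mem_ann_map L p hp (kA A) (coeffSeq (kA A))
    (annRb L A) hdim (fun f z hz => ?_) w hw
  · exact this
  · obtain ⟨x, hx, hxz⟩ := hC f z hz
    exact ⟨x, hx, funext fun m => hxz m⟩

end Fermat.Agent.T8.helper13

end
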