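/-
T8 (row 38 via S44, at risk), box [AUX], helper67 (second prover): **the base-change square**.

Levels `A`, `B = A * r` (auxiliary `r`, e.g. `r = 4`) and a prime `ℓ` with `ℓ ∤ B`.  All function
fields `F_M` are subfields of ONE field of Laurent series, so the degeneracy map `β_r`
(`q ↦ q ^ r`) is a `ℚ̄`-algebra homomorphism `F_A → F_C` for EVERY `C` with `A * r = C`
(`betaTo`), without any transport of types.

* `betaTo`, `coe_betaTo`, `betaTo_self`, `betaTo_genBar`;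
* `atkinLehner_betaTo` : `W_ℓ ∘ β_r = β_r ∘ W_ℓ` (levels `A ℓ` and `A r ℓ`);
* `qExpand_twistL_pow` : `(q ↦ q ^ r) ∘ (q ↦ ξ ^ r q) = (q ↦ ξ q) ∘ (q ↦ q ^ r)`;
* `normAlpha_betaTo`, `normAlpha_betaTo'` : **`N_α (β_r y) = β_r (N_α y)`** (norms along `α_ℓ`
  at the levels `B ℓ → B` and `A ℓ → A`);
* `normBeta_betaTo`, `normBeta_betaTo'` : the same for the norms along `β_ℓ`.
-/
import Mathlib
import Fermat.Agent.T7.helper43_NormPair

set_option autoImplicit false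
set_option linter.unusedSectionVars false
set_option linter.unusedVariables false
set_option linter.style.haveILetI false
set_option linter.style.longLine false

noncomputable section
open ModularCurve AlgebraicCurve IntermediateField
namespace Fermat.Agent.T8.helper67
open Fermat.Agent.S24 Fermat.Agent.P2.helper93 Fermat.Agent.P3.helper94
open Fermat.Agent.T2.helper36

theorem ff_congr {B C : ℕ} (h : B = C) : modularFunctionFieldBar B = modularFunctionFieldBar C := by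
  subst h; rfl

def lvl {B C : ℕ} (h : B = C) : modularFunctionFieldBar B →ₐ[Kbar] modularFunctionFieldBar C :=
  IntermediateField.inclusion (le_of_eq (ff_congr h))

theorem coe_lvl {B C : ℕ} (h : B = C) (x : modularFunctionFieldBar B) :
    ((lvl h x : modularFunctionFieldBar C) : LaurentSeries Kbar) = (x : LaurentSeries Kbar) :=
  IntermediateField.coe_inclusion _ x

/-- `β_r : F_A → F_C`, `q ↦ q ^ r`, for `A * r = C` -/
def betaTo (A r C : ℕ) [NeZero A] [NeZero r] (h : A * r = C) :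
    modularFunctionFieldBar A →ₐ[Kbar] modularFunctionFieldBar C :=
  (lvl h).comp (heckeBetaBar Kbar A r)

theorem coe_betaTo (A r C : ℕ) [NeZero A] [NeZero r] (h : A * r = C)
    (x : modularFunctionFieldBar A) :
    ((betaTo A r C h x : modularFunctionFieldBar C) : LaurentSeries Kbar)
      = qExpand Kbar r (x : LaurentSeries Kbar) := by
  unfold betaTo
  rw [AlgHom.comp_apply, coe_lvl, coe_heckeBetaBar]

theorem betaTo_self (A r : ℕ) [NeZero A] [NeZero r] (x : modularFunctionFieldBar A) :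
    betaTo A r (A * r) rfl x = heckeBetaBar Kbar A r x := by
  apply Subtype.ext
  rw [coe_betaTo, coe_heckeBetaBar]

/-- `β_r (j_d) = j_{d r}` -/
theorem betaTo_genBar (A r C : ℕ) [NeZero A] [NeZero r] [NeZero C] (h : A * r = C)
    (d : A.divisors) (hd : d.1 * r ∈ C.divisors) :
    betaTo A r C h (genBar A d) = genBar C ⟨d.1 * r, hd⟩ := by
  apply Subtype.ext
  rw [coe_betaTo, coe_genBar, coe_genBar]
  exact qExpand_JdT r d.1 (Nat.pos_of_mem_divisors d.2).ne'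

theorem alNat_mul_right {ℓ r d : ℕ} (hℓ : ℓ.Prime) (hr : ¬ ℓ ∣ r) :
    alNat ℓ (d * r) = alNat ℓ d * r := by
  by_cases h : ℓ ∣ d
  · rw [alNat_of_dvd (Dvd.dvd.mul_right h r), alNat_of_dvd h]
    obtain ⟨e, rfl⟩ := h
    rw [mul_assoc, Nat.mul_div_cancel_left _ hℓ.pos, Nat.mul_div_cancel_left _ hℓ.pos]
  · have h' : ¬ ℓ ∣ d * r := fun hc => (hℓ.dvd_mul.mp hc).elim h hr
    rw [alNat_of_not_dvd h', alNat_of_not_dvd h]
    ring

section AL

variable (A r ℓ : ℕ) [NeZero A] [NeZero r] [NeZero ℓ] [NeZero (A * ℓ)] [NeZero (A * r)]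
  [NeZero (A * r * ℓ)]

/-- **`W_ℓ ∘ β_r = β_r ∘ W_ℓ`** -/
theorem atkinLehner_betaTo (hℓ : ℓ.Prime) (hℓA : ¬ ℓ ∣ A) (hℓr : ¬ ℓ ∣ r)
    (hℓAr : ¬ ℓ ∣ A * r) (h' : A * ℓ * r = A * r * ℓ) (y : modularFunctionFieldBar (A * ℓ)) :
    atkinLehner (A * r) ℓ hℓ hℓAr (betaTo (A * ℓ) r (A * r * ℓ) h' y)
      = betaTo (A * ℓ) r (A * r * ℓ) h' (atkinLehner A ℓ hℓ hℓA y) := by
  have key : ((atkinLehner (A * r) ℓ hℓ hℓAr : modularFunctionFieldBar (A * r * ℓ) →ₐ[Kbar]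
        modularFunctionFieldBar (A * r * ℓ)).comp (betaTo (A * ℓ) r (A * r * ℓ) h'))
      = (betaTo (A * ℓ) r (A * r * ℓ) h').comp
          (atkinLehner A ℓ hℓ hℓA : modularFunctionFieldBar (A * ℓ) →ₐ[Kbar]
            modularFunctionFieldBar (A * ℓ)) := by
    apply algHom_ext_genBar
    intro d
    have hd1 : d.1 * r ∈ (A * r * ℓ).divisors := by
      rw [Nat.mem_divisors]
      refine ⟨?_, NeZero.ne _⟩
      rw [← h']
      exact Nat.mul_dvd_mul_right (Nat.mem_divisors.mp d.2).1 r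
    have hd2 : (alIdx hℓ d).1 * r ∈ (A * r * ℓ).divisors := by
      rw [Nat.mem_divisors]
      refine ⟨?_, NeZero.ne _⟩
      rw [← h']
      exact Nat.mul_dvd_mul_right (Nat.mem_divisors.mp (alIdx hℓ d).2).1 r
    rw [AlgHom.comp_apply, AlgHom.comp_apply, betaTo_genBar (A * ℓ) r (A * r * ℓ) h' d hd1]
    show atkinLehner (A * r) ℓ hℓ hℓAr _ = betaTo (A * ℓ) r (A * r * ℓ) h'
      (atkinLehner A ℓ hℓ hℓA (genBar (A * ℓ) d))
    rw [atkinLehner_genBar, atkinLehner_genBar,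
      betaTo_genBar (A * ℓ) r (A * r * ℓ) h' (alIdx hℓ d) hd2]
    congr 1
    apply Subtype.ext
    show alNat ℓ (d.1 * r) = alNat ℓ d.1 * r
    exact alNat_mul_right hℓ hℓr
  exact congrArg (fun φ : modularFunctionFieldBar (A * ℓ) →ₐ[Kbar]
    modularFunctionFieldBar (A * r * ℓ) => φ y) key

/-- `(q ↦ q ^ r) ∘ (q ↦ ξ ^ r q) = (q ↦ ξ q) ∘ (q ↦ q ^ r)` -/
theorem qExpand_twistL_pow (ξ : Kbar) (g : LaurentSeries Kbar) :
    qExpand Kbar r (twistL (ξ ^ r) g) = twistL ξ (qExpand Kbar r g) := by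
  ext k
  by_cases hk : (r : ℤ) ∣ k
  · obtain ⟨m, rfl⟩ := hk
    rw [qExpand_coeff_mul, twistL_coeff, twistL_coeff, qExpand_coeff_mul, zpow_mul, zpow_natCast]
  · rw [qExpand_coeff_of_not_dvd r _ hk, twistL_coeff, qExpand_coeff_of_not_dvd r _ hk,
      mul_zero]

theorem qExpand_comm' (a b : ℕ) [NeZero a] [NeZero b] (f : LaurentSeries Kbar) :
    qExpand Kbar a (qExpand Kbar b f) = qExpand Kbar b (qExpand Kbar a f) := by
  have _i1 : NeZero (a * b) := ⟨Nat.mul_ne_zero (NeZero.ne a) (NeZero.ne b)⟩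
  have _i2 : NeZero (b * a) := ⟨Nat.mul_ne_zero (NeZero.ne b) (NeZero.ne a)⟩
  rw [qExpand_qExpand, qExpand_qExpand, qExpand_congr (mul_comm a b)]

/-- **base change of the norm along `α_ℓ`**: `N_α (β_r y) = β_r (N_α y)`. -/
theorem normAlpha_betaTo (hℓ : ℓ.Prime) (hℓA : ¬ ℓ ∣ A) (hℓr : ¬ ℓ ∣ r)
    (hℓAr : ¬ ℓ ∣ A * r) (h' : A * ℓ * r = A * r * ℓ) (y : modularFunctionFieldBar (A * ℓ)) :
    normAlong (heckeAlphaBar Kbar (A * r) ℓ) (betaTo (A * ℓ) r (A * r * ℓ) h' y)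
      = heckeBetaBar Kbar A r (normAlong (heckeAlphaBar Kbar A ℓ) y) := by
  obtain ⟨ξ, hξ⟩ := HasEnoughRootsOfUnity.exists_primitiveRoot Kbar ℓ
  have hcop : Nat.Coprime r ℓ := ((Nat.Prime.coprime_iff_not_dvd hℓ).mpr hℓr).symm
  have hζ : IsPrimitiveRoot (ξ ^ r) ℓ := hξ.pow_of_coprime r hcop
  apply Subtype.ext
  apply qExpand_injective (R := Kbar) ℓ
  have hL := Fermat.Agent.T7.helper43.normAlpha_pair (A * r) ℓ hℓ hℓAr ξ hξ
    (betaTo (A * ℓ) r (A * r * ℓ) h' y)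
  rw [atkinLehner_betaTo A r ℓ hℓ hℓA hℓr hℓAr h', coe_betaTo, coe_betaTo] at hL
  have hR := Fermat.Agent.T7.helper43.normAlpha_pair A ℓ hℓ hℓA (ξ ^ r) hζ y
  rw [hL, coe_heckeBetaBar,
    qExpand_comm' ℓ r ((normAlong (heckeAlphaBar Kbar A ℓ) y : modularFunctionFieldBar A) :
      LaurentSeries Kbar), hR, map_mul, map_prod,
    qExpand_comm' ℓ r ((y : modularFunctionFieldBar (A * ℓ)) : LaurentSeries Kbar)]
  congr 1
  refine Finset.prod_congr rfl fun k _ => ?_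
  rw [← pow_mul, mul_comm r k, pow_mul, qExpand_twistL_pow]

/-- **base change of the norm along `β_ℓ`**: `N_β (β_r y) = β_r (N_β y)`. -/
theorem normBeta_betaTo (hℓ : ℓ.Prime) (hℓA : ¬ ℓ ∣ A) (hℓr : ¬ ℓ ∣ r)
    (hℓAr : ¬ ℓ ∣ A * r) (h' : A * ℓ * r = A * r * ℓ) (y : modularFunctionFieldBar (A * ℓ)) :
    normAlong (heckeBetaBar Kbar (A * r) ℓ) (betaTo (A * ℓ) r (A * r * ℓ) h' y)
      = heckeBetaBar Kbar A r (normAlong (heckeBetaBar Kbar A ℓ) y) := by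
  rw [Fermat.Agent.T7.helper43.normAlong_beta_eq (A * r) ℓ hℓ hℓAr,
    Fermat.Agent.T7.helper43.normAlong_beta_eq A ℓ hℓ hℓA,
    atkinLehner_betaTo A r ℓ hℓ hℓA hℓr hℓAr h', normAlpha_betaTo A r ℓ hℓ hℓA hℓr hℓAr h']

end AL

/-! ### The same with an arbitrary name `B` of the level `A * r` -/

section General

variable (A r ℓ B : ℕ) [NeZero A] [NeZero r] [NeZero ℓ] [NeZero B]

theorem normAlpha_betaTo' (hℓ : ℓ.Prime) (hℓr : ¬ ℓ ∣ r) (hℓB : ¬ ℓ ∣ B) (hB : A * r = B)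
    (h' : A * ℓ * r = B * ℓ) (y : modularFunctionFieldBar (A * ℓ)) :
    normAlong (heckeAlphaBar Kbar B ℓ) (betaTo (A * ℓ) r (B * ℓ) h' y)
      = betaTo A r B hB (normAlong (heckeAlphaBar Kbar A ℓ) y) := by
  subst hB
  have hℓA : ¬ ℓ ∣ A := fun h => hℓB (Dvd.dvd.mul_right h r)
  haveI : NeZero (A * ℓ) := ⟨Nat.mul_ne_zero (NeZero.ne A) (NeZero.ne ℓ)⟩
  haveI : NeZero (A * r * ℓ) := ⟨Nat.mul_ne_zero (NeZero.ne (A * r)) (NeZero.ne ℓ)⟩
  rw [betaTo_self]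
  exact normAlpha_betaTo A r ℓ hℓ hℓA hℓr hℓB h' y

theorem normBeta_betaTo' (hℓ : ℓ.Prime) (hℓr : ¬ ℓ ∣ r) (hℓB : ¬ ℓ ∣ B) (hB : A * r = B)
    (h' : A * ℓ * r = B * ℓ) (y : modularFunctionFieldBar (A * ℓ)) :
    normAlong (heckeBetaBar Kbar B ℓ) (betaTo (A * ℓ) r (B * ℓ) h' y)
      = betaTo A r B hB (normAlong (heckeBetaBar Kbar A ℓ) y) := by
  subst hB
  have hℓA : ¬ ℓ ∣ A := fun h => hℓB (Dvd.dvd.mul_right h r)
  haveI : NeZero (A * ℓ) := ⟨Nat.mul_ne_zero (NeZero.ne A) (NeZero.ne ℓ)⟩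
  haveI : NeZero (A * r * ℓ) := ⟨Nat.mul_ne_zero (NeZero.ne (A * r)) (NeZero.ne ℓ)⟩
  rw [betaTo_self]
  exact normBeta_betaTo A r ℓ hℓ hℓA hℓr hℓB h' y

end General

end Fermat.Agent.T8.helper67
end
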