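/-
T8 (row 38 via S44, at risk), box [AUX], helper67 (second prover): **the pull-back `π`**.

`auxPull67 : helper72.PullData` is the pull-back of divisor classes along
`β_4 : F_{M' p} → F_{4 M' p}`, `f(q) ↦ f(q ^ 4)` (`betaTo`, no transport of types: every level is a
subfield of the same field of Laurent series).

* `pullTo A r C h : J₀(A) →+ J₀(C)` for `A * r = C` (pull-back along `betaTo A r C h`),
  `pushTo A r C h : J₀(C) →+ J₀(A)` (push-forward = norm along `betaTo A r C h`);
* Kummer dictionary `isKummerRep_pullTo` / `isKummerRep_pushTo`;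
* Galois equivariance `pullTo_galois_smul` / `pushTo_galois_smul`;
* `pullTo_four_inj` : `pullTo A 4 C h` is injective on torsion (from S37 [PINJ]);
* `auxPull67`, `auxPush67` and their dictionary.
-/
import Mathlib
import Fermat.Agent.T8.helper67_AuxNorm
import Fermat.Agent.T8.helper72_ChainDefs
import Fermat.Agent.T7.helper43_DegMaps
import Fermat.Agent.S37.helper39_PullInj

set_option autoImplicit false
set_option linter.unusedSectionVars false
set_option linter.unusedVariables false
set_option linter.style.haveILetI false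
set_option linter.style.longLine false

noncomputable section
open ModularCurve AlgebraicCurve IntermediateField
namespace Fermat.Agent.T8.helper67
open Fermat.Agent.S24 Fermat.Agent.P3.helper94

theorem hasPD_lvl (C : ℕ) [NeZero C] : HasPrincipalDivisors Kbar (modularFunctionFieldBar C) := by
  haveI := helper77.an_finiteDimensional C
  exact Fermat.Agent.S24.helper75.ff_hasPrincipalDivisors (xJ C) (helper77.an_transcendental C)

section PullTo

variable (A r C : ℕ) [NeZero A] [NeZero r] [NeZero C] (h : A * r = C)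

theorem betaTo_inputs :
    haveI := hasPD_lvl C
    ∃ (hφ : (betaTo A r C h).toRingHom.IsIntegral)
      (hfin : FiniteAlong Kbar (betaTo A r C h)),
      FundamentalIdentityAlong Kbar (betaTo A r C h) hφ ∧
        NormFormulaAlong Kbar (betaTo A r C h) hfin := by
  haveI := helper77.an_finiteDimensional A
  haveI := helper77.an_finiteDimensional C
  obtain ⟨_, hφ, hP, hfin, hFI, hN⟩ := Fermat.Agent.P3.helper58.heckeInputs_of_ff
    (betaTo A r C h) (betaTo A r C h) (xJ A) (helper77.an_transcendental A)
    (xJ C) (helper77.an_transcendental C)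
  exact ⟨hφ, hfin, hFI, hN⟩

theorem betaTo_isIntegral : (betaTo A r C h).toRingHom.IsIntegral :=
  (betaTo_inputs A r C h).choose

theorem betaTo_finiteAlong : FiniteAlong Kbar (betaTo A r C h) :=
  (betaTo_inputs A r C h).choose_spec.choose

theorem betaTo_fundamental :
    haveI := hasPD_lvl C
    FundamentalIdentityAlong Kbar (betaTo A r C h) (betaTo_isIntegral A r C h) :=
  (betaTo_inputs A r C h).choose_spec.choose_spec.1

theorem betaTo_normFormula :
    NormFormulaAlong Kbar (betaTo A r C h) (betaTo_finiteAlong A r C h) :=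
  (betaTo_inputs A r C h).choose_spec.choose_spec.2

/-- **pull-back `β_r^* : J₀(A) → J₀(C)`**, `A * r = C` -/
def pullTo : JZero A →+ JZero C :=
  haveI := hasPD_lvl C
  Fermat.Agent.T7.helper43.pullPic (betaTo A r C h) (betaTo_isIntegral A r C h)
    (betaTo_fundamental A r C h)

/-- **push-forward `β_{r *} : J₀(C) → J₀(A)`**, `A * r = C` -/
def pushTo : JZero C →+ JZero A :=
  Fermat.Agent.T7.helper43.pushPic (betaTo A r C h) (betaTo_isIntegral A r C h)
    (betaTo_finiteAlong A r C h) (betaTo_normFormula A r C h)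

variable {A r C}

/-- Kummer dictionary: `β_r^* x` is represented by `β_r u` -/
theorem isKummerRep_pullTo {n : ℕ} {x : JZero A} {u : modularFunctionFieldBar A}
    (H : IsKummerRep n x u) : IsKummerRep n (pullTo A r C h x) (betaTo A r C h u) := by
  haveI := hasPD_lvl C
  exact Fermat.Agent.T7.helper43.isKummerRep_pullPic _ _ _ H

/-- Kummer dictionary: `β_{r *} x` is represented by the norm of `u` along `β_r` -/
theorem isKummerRep_pushTo {n : ℕ} {x : JZero C} {u : modularFunctionFieldBar C}
    (H : IsKummerRep n x u) :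
    IsKummerRep n (pushTo A r C h x) (normAlong (betaTo A r C h) u) :=
  Fermat.Agent.T7.helper43.isKummerRep_pushPic _ _ _ _ H

variable (A r C)

theorem intertwines_betaTo (σ : Kbar ≃ₐ[ℚ] Kbar) :
    SemilinearAut.IntertwinesAlong ((betaTo A r C h) : _ →+* _)
      (arithmeticGalois (modularFunctionFieldFull A) σ)
      (arithmeticGalois (modularFunctionFieldFull C) σ) := fun x => Subtype.ext <| by
  show coeffMap (σ : Kbar →+* Kbar) ((betaTo A r C h x : _) : LaurentSeries Kbar)
    = ((betaTo A r C h (arithmeticGalois (modularFunctionFieldFull A) σ • x) : _) :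
        LaurentSeries Kbar)
  rw [coe_betaTo, coe_betaTo, coe_arithmeticGalois_smul, ModularCurve.coeffMap_qExpand]

/-- `β_r^*` commutes with the Galois action -/
theorem pullTo_galois_smul (σ : Kbar ≃ₐ[ℚ] Kbar) (x : JZero A) :
    pullTo A r C h (σ • x) = σ • pullTo A r C h x := by
  haveI := hasPD_lvl C
  rw [galois_smul_pic0_def, galois_smul_pic0_def]
  exact Fermat.Agent.T7.helper43.pullPic_smul _ _ _ (intertwines_betaTo A r C h σ) x

/-- `β_{r *}` commutes with the Galois action -/
theorem pushTo_galois_smul (σ : Kbar ≃ₐ[ℚ] Kbar) (x : JZero C) :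
    pushTo A r C h (σ • x) = σ • pushTo A r C h x := by
  rw [galois_smul_pic0_def, galois_smul_pic0_def]
  exact Fermat.Agent.T7.helper43.pushPic_smul _ _ _ _ (intertwines_betaTo A r C h σ) x

end PullTo

/-! ### Injectivity on torsion for `r = 4` (S37 [PINJ]) -/

theorem pullbackAlong_congr67 {K F F' : Type*} [Field K] [Field F] [Field F'] [Algebra K F]
    [Algebra K F'] [HasPrincipalDivisors K F'] {φ φ' : F →ₐ[K] F'} (e : φ = φ')
    (hφ : φ.toRingHom.IsIntegral) (hφ' : φ'.toRingHom.IsIntegral) :
    Divisor.pullbackAlong φ hφ = Divisor.pullbackAlong φ' hφ' := by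
  subst e
  rfl

theorem pullTo_eq_pullPic (A r : ℕ) [NeZero A] [NeZero r] (x : JZero A) :
    pullTo A r (A * r) rfl x = Fermat.Agent.S37.helper16.pullPic A r x := by
  obtain ⟨D, rfl⟩ := Pic0.mk_surjective x
  haveI := hasPD_lvl (A * r)
  show Pic0.mk (Fermat.Agent.T7.helper43.degZeroPull (betaTo A r (A * r) rfl)
      (betaTo_isIntegral A r (A * r) rfl) (betaTo_fundamental A r (A * r) rfl) D)
    = Pic0.mk (Fermat.Agent.S37.helper16.pullDegZero A r D)
  refine congrArg Pic0.mk (Subtype.ext ?_)
  rw [Fermat.Agent.T7.helper43.coe_degZeroPull, Fermat.Agent.S37.helper16.coe_pullDegZero]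
  exact DFunLike.congr_fun (pullbackAlong_congr67 (AlgHom.ext (betaTo_self A r)) _ _) _

/-- **`β_4^*` is injective on torsion** -/
theorem pullTo_four_inj (A C : ℕ) [NeZero A] [NeZero C] (h : A * 4 = C) {m : ℕ} (hm : m ≠ 0)
    {x : JZero A} (hx : m • x = 0) (h0 : pullTo A 4 C h x = 0) : x = 0 := by
  subst h
  rw [pullTo_eq_pullPic] at h0
  exact Fermat.Agent.S37.helper39.pullInj_four A m hm x hx h0

/-! ### The data of box [AUX] -/

/-- **the pull-back `π = β_4^* : J₀(M' p) → J₀(4 M' p)`** of box [AUX] -/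
def auxPull67 : Fermat.Agent.T8.helper72.PullData := fun M' p _ _ =>
  pullTo (M' * p) 4 (4 * M' * p) (by ring)

/-- the push-forward `β_{4 *} : J₀(4 M' p) → J₀(M' p)` -/
def auxPush67 (M' p : ℕ) [NeZero M'] [NeZero p] : JZero (4 * M' * p) →+ JZero (M' * p) :=
  pushTo (M' * p) 4 (4 * M' * p) (by ring)

theorem auxPull67_apply (M' p : ℕ) [NeZero M'] [NeZero p] (x : JZero (M' * p)) :
    auxPull67 M' p x = pullTo (M' * p) 4 (4 * M' * p) (by ring) x := rfl

section Aux

variable {M' p : ℕ} [NeZero M'] [NeZero p]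

/-- Kummer dictionary for `π`: `π x` is represented by `u(q ^ 4)` -/
theorem isKummerRep_auxPull67 {n : ℕ} {x : JZero (M' * p)}
    {u : modularFunctionFieldBar (M' * p)} (H : IsKummerRep n x u) :
    IsKummerRep n (auxPull67 M' p x) (betaTo (M' * p) 4 (4 * M' * p) (by ring) u) :=
  isKummerRep_pullTo _ H

theorem isKummerRep_auxPush67 {n : ℕ} {x : JZero (4 * M' * p)}
    {u : modularFunctionFieldBar (4 * M' * p)} (H : IsKummerRep n x u) :
    IsKummerRep n (auxPush67 M' p x)
      (normAlong (betaTo (M' * p) 4 (4 * M' * p) (by ring)) u) :=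
  isKummerRep_pushTo _ H

theorem auxPull67_galois_smul (σ : Kbar ≃ₐ[ℚ] Kbar) (x : JZero (M' * p)) :
    auxPull67 M' p (σ • x) = σ • auxPull67 M' p x :=
  pullTo_galois_smul _ _ _ _ σ x

theorem auxPush67_galois_smul (σ : Kbar ≃ₐ[ℚ] Kbar) (x : JZero (4 * M' * p)) :
    auxPush67 M' p (σ • x) = σ • auxPush67 M' p x :=
  pushTo_galois_smul _ _ _ _ σ x

/-- `π` is injective on torsion -/
theorem auxPull67_inj {m : ℕ} (hm : m ≠ 0) {x : JZero (M' * p)} (hx : m • x = 0)
    (h0 : auxPull67 M' p x = 0) : x = 0 :=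
  pullTo_four_inj (M' * p) (4 * M' * p) (by ring) hm hx h0

end Aux

end Fermat.Agent.T8.helper67

end
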