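import Fermat.Agent.T8.helper13_ExitMid
import Fermat.Agent.T8.helper67_AuxDef

/-!
# T8 [F3-EXIT], leaf 7 [DESCENT]: the Kummer / reduction bookkeeping (helper13)

`descentChain_of_betaRinf : BetaRinfStatement → OddLevelStatement →
  DescentChainStatement helper67.auxPull67`

i.e. the consumer form (D) of [DESCENT] (`helper13_ExitMid.lean`) for `π = β₄^*` from

* `BetaRinfStatement`  : for `2 ∣ M'`, `Y ↦ Y(q⁴)` maps the `A`-integral functions of level `M'`
                         regular off infinity to those of level `4 M'` (`β₄` is totally ramified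
                         at infinity);
* `OddLevelStatement`  : there is no realisation of `E[p]` at an odd level ([W-RAM2]).

Bookkeeping proved here: a Kummer function `u` of `π x₀` is `β₄(u₀) · c · g ^ p` (`u₀` a Kummer
function of `x₀`), the same for `W u` (`W β₄ = β₄ W`), hence a first-component reduction of `u`
(or `W u`) is `ε · r₀(q⁴) · r_g ^ p` with `r₀` a reduction of `u₀` (or `W u₀`), and
`θ f / f = 4 · (θ r₀ / r₀)(q⁴)`; the annihilator condition descends along `q ↦ q⁴`.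
-/

set_option autoImplicit false
set_option synthInstance.maxHeartbeats 400000
set_option maxHeartbeats 1600000
set_option linter.unusedSectionVars false
set_option linter.unusedVariables false
set_option linter.style.longLine false

noncomputable section

namespace Fermat.Agent.T8.helper13

open HahnSeries IntermediateField AlgebraicCurve ModularCurve
open Fermat.Agent.S18.helper19 Fermat.Agent.P2.helper29 Fermat.Agent.P2.helper93
open Fermat.Agent.T2 Fermat.Agent.T2.helper36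
open Fermat.Agent.T8.helper54 (IsRed1 DvdOff)
open Fermat.Agent.P3.helper94 (IsKummerRep)
open Fermat.Agent.T8.helper74 (annRb mem_annRb IsRinf)
open Fermat.Agent.T8.helper87 (dlogL)
open Fermat.Agent.T3.helper36 (RhoQ)
open Fermat.Agent.T7 Fermat.Agent.T8.helper72 Fermat.Agent.T8.helper29
open Fermat.Agent.T8.helper67 (auxPull67 betaTo coe_betaTo)

/-! ### the two inputs -/

/-- **[DESCENT], even case, function-field input**: for `2 ∣ M'` the substitution `q ↦ q⁴` maps
the `A`-integral functions of level `M'` regular off infinity to those of level `4 M'`. -/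
def BetaRinfStatement : Prop :=
  ∀ (M' : ℕ) [NeZero M'], 2 ∣ M' → ∀ (A : ValuationSubring Kb) (Y : LaurentSeries A),
    IsRinf M' A Y → IsRinf (4 * M') A (qExpand A 4 Y)

/-- **[W-RAM2]**: there is no realisation of `E[p]` at an odd level. -/
def OddLevelStatement : Prop :=
  ∀ (P : FreyPackage) (W : WeierstrassCurve ℤ) (M : ℕ) [NeZero M], ¬ 2 ∣ M →
    ∀ V0 : AddSubgroup (JZero M), FreyReal P W M V0 → False

/-! ### reductions -/

/-- the structure map of Laurent series is `C` -/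
theorem algebraMap_eq_C13 {R : Type*} [CommRing R] (c : R) :
    algebraMap R (LaurentSeries R) c = HahnSeries.C c := by
  rw [HahnSeries.algebraMap_apply', PowerSeries.algebraMap_apply, HahnSeries.ofPowerSeries_C]
  rfl

section Red

variable {A : ValuationSubring Kb}

/-- `RhoQ` is compatible with `q ↦ q ^ n` -/
theorem rhoQ_qExpand (n : ℕ) [NeZero n] {g : LaurentSeries Kb} {r : LaurentSeries (kA A)}
    (h : RhoQ A g r) : RhoQ A (qExpand Kb n g) (qExpand (kA A) n r) := by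
  obtain ⟨Y₁, Y₂, h2, h3, h4⟩ := h
  refine ⟨qExpand A n Y₁, qExpand A n Y₂, ?_, ?_, ?_⟩
  · show coeffMap (IsLocalRing.residue A) (qExpand A n Y₂) ≠ 0
    rw [ModularCurve.coeffMap_qExpand]
    exact (map_ne_zero_iff _ (qExpand_injective (R := kA A) n)).mpr h2
  · show coeffMap A.subtype (qExpand A n Y₁) = _ * coeffMap A.subtype (qExpand A n Y₂)
    rw [ModularCurve.coeffMap_qExpand, ModularCurve.coeffMap_qExpand, ← map_mul]
    exact congrArg _ h3
  · show coeffMap (IsLocalRing.residue A) (qExpand A n Y₁)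
      = _ * coeffMap (IsLocalRing.residue A) (qExpand A n Y₂)
    rw [ModularCurve.coeffMap_qExpand, ModularCurve.coeffMap_qExpand, ← map_mul]
    exact congrArg _ h4

/-- two Gauss normalisations of the same series differ by a nonzero constant -/
theorem rhoQ_const_mul_eq {g : LaurentSeries Kb} {c : Kb} {r s : LaurentSeries (kA A)}
    (hr : r ≠ 0) (hs : s ≠ 0) (h1 : RhoQ A g r)
    (h2 : RhoQ A (algebraMap Kb (LaurentSeries Kb) c * g) s) :
    ∃ ε : kA A, ε ≠ 0 ∧ s = HahnSeries.C ε * r := by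
  have hv := Fermat.Agent.T3.helper36.valuation_eq_one_of_rhoQ hr hs h1 h2
  have hcA : c ∈ A := (A.valuation_le_one_iff c).1 hv.le
  have hconst := Fermat.Agent.T3.helper36.rhoQ_algebraMap (A := A) (⟨c, hcA⟩ : A)
  have hprod := hconst.mul h1
  have e := h2.unique hprod
  refine ⟨IsLocalRing.residue A (⟨c, hcA⟩ : A), ?_, ?_⟩
  · intro h0
    rw [h0, map_zero, zero_mul] at e
    exact hs e
  · rw [e, algebraMap_eq_C13]

end Red

/-! ### the cast for `W` -/

/-- `atkinLehner N p` on Laurent series does not depend on the way the level is written -/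
theorem coe_atkinLehner_congr {N N' p : ℕ} [NeZero N] [NeZero N'] [NeZero p] (h : N = N')
    (hp : p.Prime) (hpN : ¬ p ∣ N) (hpN' : ¬ p ∣ N') (z : FF (N * p)) (z' : FF (N' * p))
    (hz : (z : LaurentSeries Kb) = (z' : LaurentSeries Kb)) :
    ((atkinLehner N p hp hpN z : FF (N * p)) : LaurentSeries Kb)
      = ((atkinLehner N' p hp hpN' z' : FF (N' * p)) : LaurentSeries Kb) := by
  subst h
  have : z = z' := Subtype.ext hz
  subst this
  rfl

/-- `W_p ∘ β₄ = β₄ ∘ W_p` on Laurent series, levels `M' p → 4 M' p` -/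
theorem coe_atkinLehner_beta4 {M' p : ℕ} [NeZero M'] [NeZero p] (hp : p.Prime)
    (hpM : ¬ p ∣ M') (hpN : ¬ p ∣ 4 * M') (y : FF (M' * p)) :
    ((atkinLehner (4 * M') p hp hpN (betaTo (M' * p) 4 (4 * M' * p) (by ring) y)
        : FF (4 * M' * p)) : LaurentSeries Kb)
      = qExpand Kb 4 ((atkinLehner M' p hp hpM y : FF (M' * p)) : LaurentSeries Kb) := by
  have hp4 : ¬ p ∣ 4 := fun h => hpN (Dvd.dvd.mul_right h M')
  have hpN' : ¬ p ∣ M' * 4 := by rwa [mul_comm]
  have h' : M' * p * 4 = M' * 4 * p := by ring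
  have e1 := coe_atkinLehner_congr (mul_comm 4 M') hp hpN hpN'
    (betaTo (M' * p) 4 (4 * M' * p) (by ring) y) (betaTo (M' * p) 4 (M' * 4 * p) h' y)
    (by rw [coe_betaTo, coe_betaTo])
  rw [e1, Fermat.Agent.T8.helper67.atkinLehner_betaTo M' 4 p hp hpM hp4 hpN' h' y, coe_betaTo]

/-! ### the reduction of `β₄(v₀) · c · g ^ p` -/

section Core

variable {M' p : ℕ} [NeZero M'] [NeZero p] {A : ValuationSubring Kb}

/-- a Gauss-normalised reduction of `β₄(v₀) · c · g ^ p` is `ε · r₀(q⁴) · r_g ^ p` -/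
theorem red_of_beta_mul_pow (hp : p.Prime) (hpM : ¬ p ∣ M') (hpN : ¬ p ∣ 4 * M')
    (hA : A.LiesOverPrime p) (v0 : FF (M' * p)) (hv0 : v0 ≠ 0) (g : FF (4 * M' * p))
    (hg : g ≠ 0) (c : Kb) (hc : c ≠ 0) (U : LaurentSeries Kb)
    (hU : U = qExpand Kb 4 (v0 : LaurentSeries Kb)
      * (algebraMap Kb (LaurentSeries Kb) c * (g : LaurentSeries Kb) ^ p))
    (κ : Kb) (hκ : κ ≠ 0) (f : LaurentSeries (kA A)) (hf : f ≠ 0)
    (hred : RhoQ A (algebraMap Kb (LaurentSeries Kb) κ⁻¹ * U) f) :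
    ∃ (r0 rg : LaurentSeries (kA A)) (ε : kA A), r0 ≠ 0 ∧ rg ≠ 0 ∧ ε ≠ 0 ∧
      f = HahnSeries.C ε * (qExpand (kA A) 4 r0 * rg ^ p) := by
  obtain ⟨κ0, r0, hκ0, hr0, h0⟩ := exists_rhoIs_bad hp hpM A hA v0 hv0
  obtain ⟨κg, rg, hκg, hrg, hG⟩ := exists_rhoIs_bad hp hpN A hA g hg
  have q0 : RhoQ A (algebraMap Kb (LaurentSeries Kb) κ0⁻¹ * (v0 : LaurentSeries Kb)) r0 :=
    h0.rhoQ
  have qg : RhoQ A (algebraMap Kb (LaurentSeries Kb) κg⁻¹ * (g : LaurentSeries Kb)) rg :=
    hG.rhoQ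
  have q1 := (rhoQ_qExpand 4 q0).mul (qg.pow p)
  set R : LaurentSeries (kA A) := qExpand (kA A) 4 r0 * rg ^ p with hR
  have hR0 : R ≠ 0 :=
    mul_ne_zero ((map_ne_zero_iff _ (qExpand_injective (R := kA A) 4)).mpr hr0)
      (pow_ne_zero p hrg)
  -- rewrite the left-hand side as a constant multiple of `U`
  have hC : ∀ a : Kb, qExpand Kb 4 (algebraMap Kb (LaurentSeries Kb) a)
      = algebraMap Kb (LaurentSeries Kb) a := fun a => by
    rw [algebraMap_eq_C13]
    exact qExpand_C 4 a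
  set d : Kb := κ0⁻¹ * (κg⁻¹) ^ p * c⁻¹ with hd
  have e1 : qExpand Kb 4 (algebraMap Kb (LaurentSeries Kb) κ0⁻¹ * (v0 : LaurentSeries Kb))
      * (algebraMap Kb (LaurentSeries Kb) κg⁻¹ * (g : LaurentSeries Kb)) ^ p
      = algebraMap Kb (LaurentSeries Kb) d * U := by
    rw [hU, map_mul, hC, hd, map_mul, map_mul, map_pow, mul_pow]
    have hcc : algebraMap Kb (LaurentSeries Kb) c⁻¹ * algebraMap Kb (LaurentSeries Kb) c = 1 := by
      rw [← map_mul, inv_mul_cancel₀ hc, map_one]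
    linear_combination (algebraMap Kb (LaurentSeries Kb) κ0⁻¹ * qExpand Kb 4 (v0 : LaurentSeries Kb)
      * (algebraMap Kb (LaurentSeries Kb) κg⁻¹) ^ p * (g : LaurentSeries Kb) ^ p) * (-hcc)
  rw [e1] at q1
  -- compare with the given normalisation
  have e2 : algebraMap Kb (LaurentSeries Kb) κ⁻¹ * U
      = algebraMap Kb (LaurentSeries Kb) (κ⁻¹ * d⁻¹) * (algebraMap Kb (LaurentSeries Kb) d * U) := by
    have hd0 : d ≠ 0 := by
      rw [hd]
      exact mul_ne_zero (mul_ne_zero (inv_ne_zero hκ0) (pow_ne_zero p (inv_ne_zero hκg)))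
        (inv_ne_zero hc)
    rw [← mul_assoc, ← map_mul, mul_assoc, inv_mul_cancel₀ hd0, mul_one]
  rw [e2] at hred
  obtain ⟨ε, hε, hfε⟩ := rhoQ_const_mul_eq hR0 hf q1 hred
  exact ⟨r0, rg, ε, hr0, hrg, hε, hfε⟩

/-- the logarithmic derivative of `ε · r₀(q⁴) · r_g ^ p` -/
theorem dlogL_beta_mul_pow (hp : p.Prime) [CharP (kA A) p] {r0 rg : LaurentSeries (kA A)}
    {ε : kA A} (hr0 : r0 ≠ 0) (hrg : rg ≠ 0) (hε : ε ≠ 0) :
    dlogL (HahnSeries.C ε * (qExpand (kA A) 4 r0 * rg ^ p))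
      = ((4 : ℕ) : LaurentSeries (kA A)) * qExpand (kA A) 4 (dlogL r0) := by
  have h1 : qExpand (kA A) 4 r0 ≠ 0 :=
    (map_ne_zero_iff _ (qExpand_injective (R := kA A) 4)).mpr hr0
  have h2 : rg ^ p ≠ 0 := pow_ne_zero p hrg
  rw [Fermat.Agent.T8.helper87.dlogL_C_mul hε (mul_ne_zero h1 h2),
    Fermat.Agent.T8.helper87.dlogL_mul h1 h2, Fermat.Agent.T8.helper87.dlogL_pow_char p hrg,
    add_zero, Fermat.Agent.T8.helper87.dlogL_qExpand]

end Core

/-! ### the descent -/

section Descent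

variable {M' p : ℕ} [NeZero M'] [NeZero p] {A : ValuationSubring Kb}

/-- **the descent of the annihilator condition along `q ↦ q⁴`**: if
`w = 4 · w₀(q⁴) ∈ annRb (4 M') A`, `w₀ = θ r₀ / r₀`, and `q ↦ q⁴` maps `Rinf(M')` into
`Rinf(4 M')`, then `w₀ ∈ annRb M' A`. -/
theorem mem_annRb_of_qExpand_four (hp : p.Prime) [CharP (kA A) p] (hp4 : ¬ p ∣ 4)
    (hB : ∀ Y : LaurentSeries A, IsRinf M' A Y → IsRinf (4 * M') A (qExpand A 4 Y))
    {r0 : LaurentSeries (kA A)} (hr0 : r0 ≠ 0)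
    (hw : ((4 : ℕ) : LaurentSeries (kA A)) * qExpand (kA A) 4 (dlogL r0) ∈ annRb (4 * M') A) :
    dlogL r0 ∈ annRb M' A := by
  have h4 : ((4 : ℕ) : kA A) ≠ 0 := by
    intro h
    exact hp4 ((CharP.cast_eq_zero_iff (kA A) p 4).1 h)
  obtain ⟨hw1, hw2⟩ := mem_annRb.1 hw
  refine mem_annRb.2 ⟨fun m hm => ?_, fun Y hY => ?_⟩
  · rcases lt_or_eq_of_le hm with hlt | rfl
    · exact Fermat.Agent.T8.helper87.dlogL_coeff_of_neg hr0 hlt
    · have := hw1 (4 * 0) (by norm_num)
      rw [Fermat.Agent.T8.helper87.natCast_mul_coeff] at this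
      have e : (qExpand (kA A) 4 (dlogL r0)).coeff (((4 : ℕ) : ℤ) * 0) = (dlogL r0).coeff 0 :=
        qExpand_coeff_mul 4 (dlogL r0) 0
      have e' : (qExpand (kA A) 4 (dlogL r0)).coeff (4 * 0) = (dlogL r0).coeff 0 := by
        simpa using e
      rw [e'] at this
      exact (mul_eq_zero.1 this).resolve_left h4
  · have h1 := hw2 (qExpand A 4 Y) (hB Y hY)
    have e1 : red A (qExpand A 4 Y) = qExpand (kA A) 4 (red A Y) :=
      ModularCurve.coeffMap_qExpand (IsLocalRing.residue A) 4 Y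
    rw [e1] at h1
    have e2 : qExpand (kA A) 4 (red A Y)
        * (((4 : ℕ) : LaurentSeries (kA A)) * qExpand (kA A) 4 (dlogL r0))
        = ((4 : ℕ) : LaurentSeries (kA A)) * qExpand (kA A) 4 (red A Y * dlogL r0) := by
      rw [map_mul]
      ring
    rw [e2, Fermat.Agent.T8.helper87.natCast_mul_coeff] at h1
    have e3 : (qExpand (kA A) 4 (red A Y * dlogL r0)).coeff (((4 : ℕ) : ℤ) * 0)
        = (red A Y * dlogL r0).coeff 0 := qExpand_coeff_mul 4 _ 0
    have e3' : (qExpand (kA A) 4 (red A Y * dlogL r0)).coeff 0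
        = (red A Y * dlogL r0).coeff 0 := by
      simpa using e3
    rw [e3'] at h1
    exact (mul_eq_zero.1 h1).resolve_left h4

end Descent

/-- **[DESCENT], consumer form, for `π = β₄^*`**, from the function-field input of the even case
and [W-RAM2]. -/
theorem descentChain_of_betaRinf (hB : BetaRinfStatement) (hOdd : OddLevelStatement) :
    DescentChainStatement auxPull67 := by
  intro P W M' _ hc hpN A hA V0 hV0 hnew x0 hx0 u f hk hcomp hwAnn
  have hCharP : CharP (kA A) P.p := Fermat.Agent.P2.helper93.charP_residueField P.pp hA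
  have hp4 : ¬ P.p ∣ 4 := fun h => hpN (Dvd.dvd.mul_right h M')
  have hp2 : ¬ 2 ∣ P.p := by
    intro h
    have : 2 = P.p := (Nat.prime_dvd_prime_iff_eq Nat.prime_two P.pp).1 h
    exact hp4 (this ▸ (by norm_num : 2 ∣ 4))
  have hpM : ¬ P.p ∣ M' := hc.not_p_dvd
  by_cases h2 : 2 ∣ M'
  swap
  · exfalso
    refine hOdd P W (M' * P.p) ?_ V0 hV0
    intro h
    rcases (Nat.Prime.dvd_mul Nat.prime_two).1 h with h' | h'
    · exact h2 h'
    · exact hp2 h'
  -- Kummer functions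
  have hp0 : P.p • x0 = 0 := hV0.tors x0 hx0
  obtain ⟨u0, hk0⟩ := Fermat.Agent.P3.helper94.exists_isKummerRep hp0
  have hkβ := Fermat.Agent.T8.helper67.isKummerRep_auxPull67 hk0
  obtain ⟨g, w, hg, hw, hu⟩ := hkβ.unique hk
  obtain ⟨c, hc0, rfl⟩ := Fermat.Agent.T7.helper43.exists_const_of_hasTrivialDiv hw
  -- the function whose reduction is `f`, in the shape `β₄(v₀) · c · g' ^ p`
  have key : ∃ (v0 : FF (M' * P.p)) (g' : FF (4 * M' * P.p)) (κ : Kb), v0 ≠ 0 ∧ g' ≠ 0 ∧
      κ ≠ 0 ∧ (f : LaurentSeries (kA A)) ≠ 0 ∧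
      RhoQ A (algebraMap Kb (LaurentSeries Kb) κ⁻¹ *
        (qExpand Kb 4 (v0 : LaurentSeries Kb)
          * (algebraMap Kb (LaurentSeries Kb) c * (g' : LaurentSeries Kb) ^ P.p)))
        (f : LaurentSeries (kA A)) := by
    rcases hcomp with h1 | h1
    · obtain ⟨hf, κ, hκ, hr⟩ := h1
      refine ⟨u0, g, κ, hk0.1, hg, hκ, fun h0 => hf (Subtype.ext h0), ?_⟩
      have e : (u : LaurentSeries Kb) = qExpand Kb 4 (u0 : LaurentSeries Kb)
          * (algebraMap Kb (LaurentSeries Kb) c * (g : LaurentSeries Kb) ^ P.p) := by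
        rw [hu, ← coe_betaTo (M' * P.p) 4 (4 * M' * P.p) (by ring) u0]
        rfl
      rwa [e] at hr
    · obtain ⟨hf, κ, hκ, hr⟩ := h1
      refine ⟨atkinLehner M' P.p P.pp hpM u0, atkinLehner (4 * M') P.p P.pp hpN g, κ,
        (map_ne_zero _).mpr hk0.1, (map_ne_zero _).mpr hg, hκ,
        fun h0 => hf (Subtype.ext h0), ?_⟩
      have e : ((atkinLehner (4 * M') P.p P.pp hpN u : FF (4 * M' * P.p)) : LaurentSeries Kb)
          = qExpand Kb 4 ((atkinLehner M' P.p P.pp hpM u0 : FF (M' * P.p)) : LaurentSeries Kb)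
            * (algebraMap Kb (LaurentSeries Kb) c
              * ((atkinLehner (4 * M') P.p P.pp hpN g : FF (4 * M' * P.p))
                  : LaurentSeries Kb) ^ P.p) := by
        rw [hu, map_mul, map_mul, map_pow, AlgEquiv.commutes,
          ← coe_atkinLehner_beta4 P.pp hpM hpN u0]
        rfl
      rwa [e] at hr
  obtain ⟨v0, g', κ, hv0, hg', hκ, hf0, hr⟩ := key
  obtain ⟨r0, rg, ε, hr0, hrg, hε, hfε⟩ :=
    red_of_beta_mul_pow P.pp hpM hpN hA v0 hv0 g' hg' c hc0 _ rfl κ hκ _ hf0 hr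
  have hdl : dlogL (f : LaurentSeries (kA A))
      = ((4 : ℕ) : LaurentSeries (kA A)) * qExpand (kA A) 4 (dlogL r0) := by
    rw [hfε]
    exact dlogL_beta_mul_pow P.pp hr0 hrg hε
  have h4 : ((4 : ℕ) : kA A) ≠ 0 := by
    intro h
    exact hp4 ((CharP.cast_eq_zero_iff (kA A) P.p 4).1 h)
  refine ⟨dlogL r0, ((4 : ℕ) : kA A), ?_, h4, fun m => ?_, fun n hn => ?_⟩
  · rw [hdl] at hwAnn
    exact mem_annRb_of_qExpand_four P.pp hp4 (hB M' h2 A) hr0 hwAnn
  · rw [hdl, Fermat.Agent.T8.helper87.natCast_mul_coeff]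
    congr 1
    exact qExpand_coeff_mul 4 (dlogL r0) m
  · rw [hdl, Fermat.Agent.T8.helper87.natCast_mul_coeff,
      qExpand_coeff_of_not_dvd 4 (dlogL r0) (by exact_mod_cast hn), mul_zero]

end Fermat.Agent.T8.helper13

end
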