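import Fermat.Agent.T8.helper23_DictFF
import Fermat.Agent.T3.helper98_NormRegJ
import Fermat.Agent.T3.helper48_CompleteA

/-!
# T8 (row 38, at risk), [RING-X] (DICT) instance (helper23): clearing the poles

`exists_clear_poles M f` : every `f ∈ FF M` has a multiplier `b ≠ 0`, fixed by the WHOLE Galois
group `Gal(ℚ̄ / ℚ)` (coefficientwise), regular where `j` is finite, such that `f * b` is regular
where `j` is finite.  (`b = ∏_{poles P} (∏_{s conjugate to j(P)} (j - s)) ^ n_P`.)
-/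

set_option autoImplicit false
set_option linter.unusedSectionVars false
set_option linter.style.longLine false

noncomputable section

namespace Fermat.Agent.T8.helper23

open HahnSeries IntermediateField AlgebraicCurve ModularCurve
open Fermat.Agent.S18.helper19 Fermat.Agent.P2.helper29 Fermat.Agent.P2.helper93
open Fermat.Agent.T3.helper98 (IsRegJ)
open Fermat.Agent.T6.helper26

section ClearPoles

variable (M : ℕ) [NeZero M]

/-- `j` is fixed by the whole Galois group -/
theorem galF_jElt (σ : Kb ≃ₐ[ℚ] Kb) : galF M σ (jElt M) = jElt M := by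
  apply Subtype.ext
  rw [coe_galF]
  exact coeffMap_jqModC _

theorem jElt_sub_const_ne_zero (c : Kb) : jElt M - algebraMap Kb (FF M) c ≠ 0 := by
  intro h
  have hT := Fermat.Agent.S24.helper77.an_transcendental M
  rw [← Fermat.Agent.T3.helper48.jElt_eq_xJ] at hT
  apply hT
  rw [sub_eq_zero.mp h]
  exact isAlgebraic_algebraMap c

/-- the product of `j - s` over the conjugates `s` of `c` -/
def conjProd (c : Kb) : FF M :=
  ∏ s ∈ ((minpoly ℚ c).aroots Kb).toFinset, (jElt M - algebraMap Kb (FF M) s)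

theorem conjProd_ne_zero (c : Kb) : conjProd M c ≠ 0 :=
  Finset.prod_ne_zero_iff.mpr fun s _ => jElt_sub_const_ne_zero M s

theorem isRegJ_conjProd (c : Kb) : IsRegJ M (conjProd M c) :=
  Fermat.Agent.T3.helper98.isRegJ_prod _ _ fun s _ =>
    Fermat.Agent.T3.helper98.isRegJ_jElt.sub (Fermat.Agent.T3.helper98.isRegJ_algebraMap s)

theorem galF_conjProd (σ : Kb ≃ₐ[ℚ] Kb) (c : Kb) : galF M σ (conjProd M c) = conjProd M c := by
  classical
  have hint : IsIntegral ℚ c := (AlgebraicClosure.isAlgebraic ℚ).isAlgebraic c |>.isIntegral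
  have hne : minpoly ℚ c ≠ 0 := minpoly.ne_zero hint
  unfold conjProd
  rw [map_prod]
  have h1 : ∀ s ∈ ((minpoly ℚ c).aroots Kb).toFinset,
      galF M σ (jElt M - algebraMap Kb (FF M) s) = jElt M - algebraMap Kb (FF M) (σ s) := by
    intro s _
    rw [map_sub, galF_jElt, galF_algebraMap]
  rw [Finset.prod_congr rfl h1]
  have hinj : ∀ x ∈ ((minpoly ℚ c).aroots Kb).toFinset,
      ∀ y ∈ ((minpoly ℚ c).aroots Kb).toFinset, σ x = σ y → x = y :=
    fun x _ y _ h => σ.injective h
  have himg : ((minpoly ℚ c).aroots Kb).toFinset.image σ = ((minpoly ℚ c).aroots Kb).toFinset := by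
    apply Finset.eq_of_subset_of_card_le
    · intro x hx
      obtain ⟨b, hb, rfl⟩ := Finset.mem_image.mp hx
      rw [Multiset.mem_toFinset, Polynomial.mem_aroots] at hb ⊢
      refine ⟨hne, ?_⟩
      rw [Polynomial.aeval_algHom_apply, hb.2, map_zero]
    · rw [Finset.card_image_of_injOn (fun x hx y hy h => hinj x hx y hy h)]
  have h2 := Finset.prod_image (s := ((minpoly ℚ c).aroots Kb).toFinset) (g := σ)
    (f := fun b => jElt M - algebraMap Kb (FF M) b) hinj
  rw [himg] at h2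
  exact h2.symm

/-- at a place where `j` is finite with value `c`, `conjProd c` vanishes -/
theorem ord_conjProd_pos {P : Place Kb (FF M)} {c : Kb}
    (hc : 0 < P.ord (jElt M - algebraMap Kb (FF M) c)) : 0 < P.ord (conjProd M c) := by
  classical
  have hint : IsIntegral ℚ c := (AlgebraicClosure.isAlgebraic ℚ).isAlgebraic c |>.isIntegral
  have hne : minpoly ℚ c ≠ 0 := minpoly.ne_zero hint
  have hcS : c ∈ ((minpoly ℚ c).aroots Kb).toFinset := by
    rw [Multiset.mem_toFinset, Polynomial.mem_aroots]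
    exact ⟨hne, minpoly.aeval ℚ c⟩
  have hj : 0 ≤ P.ord (jElt M) := by
    have e : jElt M = (jElt M - algebraMap Kb (FF M) c) + algebraMap Kb (FF M) c := by ring
    rw [e]
    exact ord_add_nonneg P hc.le (ord_const P c).ge
  have hsplit : (jElt M - algebraMap Kb (FF M) c) *
      (∏ s ∈ ((minpoly ℚ c).aroots Kb).toFinset.erase c, (jElt M - algebraMap Kb (FF M) s))
      = conjProd M c :=
    Finset.mul_prod_erase _ (fun s => jElt M - algebraMap Kb (FF M) s) hcS
  have hrest : IsRegJ M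
      (∏ s ∈ ((minpoly ℚ c).aroots Kb).toFinset.erase c, (jElt M - algebraMap Kb (FF M) s)) :=
    Fermat.Agent.T3.helper98.isRegJ_prod _ _ fun s _ =>
      Fermat.Agent.T3.helper98.isRegJ_jElt.sub (Fermat.Agent.T3.helper98.isRegJ_algebraMap s)
  have hrest0 : (∏ s ∈ ((minpoly ℚ c).aroots Kb).toFinset.erase c,
      (jElt M - algebraMap Kb (FF M) s)) ≠ 0 :=
    Finset.prod_ne_zero_iff.mpr fun s _ => jElt_sub_const_ne_zero M s
  rw [← hsplit, P.ord_mul (jElt_sub_const_ne_zero M c) hrest0]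
  have := hrest P hj
  omega

/-- at every place where `j` is finite there is a Galois-fixed function, regular where `j` is
finite, vanishing at the place -/
theorem exists_vanishing (P : Place Kb (FF M)) (hP : 0 ≤ P.ord (jElt M)) :
    ∃ μ : FF M, μ ≠ 0 ∧ (∀ σ : Kb ≃ₐ[ℚ] Kb, galF M σ μ = μ) ∧ IsRegJ M μ ∧ 0 < P.ord μ := by
  obtain ⟨c, hc⟩ := (Fermat.Agent.P2.helper22.riemannSetting_FF M).residue P (jElt M) hP
  rcases hc with hc | hc
  · exfalso
    have := jElt_sub_const_ne_zero M c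
    rw [hc, sub_self] at this
    exact this rfl
  · exact ⟨conjProd M c, conjProd_ne_zero M c, fun σ => galF_conjProd M σ c,
      isRegJ_conjProd M c, ord_conjProd_pos M hc⟩

/-- **Clearing the poles.** -/
theorem exists_clear_poles (f : FF M) :
    ∃ b : FF M, b ≠ 0 ∧ (∀ σ : Kb ≃ₐ[ℚ] Kb, galF M σ b = b) ∧ IsRegJ M b ∧ IsRegJ M (f * b) := by
  classical
  rcases eq_or_ne f 0 with rfl | hf
  · exact ⟨1, one_ne_zero, fun σ => map_one _, Fermat.Agent.T3.helper98.isRegJ_one,
      by rw [zero_mul]; exact Fermat.Agent.T3.helper98.isRegJ_zero⟩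
  have hfin := Fermat.Agent.P2.helper23.finite_ord_ne_zero M f hf
  -- the multiplier at each place
  have hex : ∀ P : Place Kb (FF M), ∃ μ : FF M, μ ≠ 0 ∧
      (∀ σ : Kb ≃ₐ[ℚ] Kb, galF M σ μ = μ) ∧ IsRegJ M μ ∧
      (0 ≤ P.ord (jElt M) → 0 < P.ord μ) := by
    intro P
    by_cases hP : 0 ≤ P.ord (jElt M)
    · obtain ⟨μ, h1, h2, h3, h4⟩ := exists_vanishing M P hP
      exact ⟨μ, h1, h2, h3, fun _ => h4⟩
    · exact ⟨1, one_ne_zero, fun σ => map_one _, Fermat.Agent.T3.helper98.isRegJ_one,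
        fun h => absurd h hP⟩
  choose μ hμ0 hμfix hμreg hμpos using hex
  set PS : Finset (Place Kb (FF M)) := hfin.toFinset with hPSdef
  refine ⟨∏ P ∈ PS, μ P ^ (-(P.ord f)).toNat, ?_, ?_, ?_, ?_⟩
  · exact Finset.prod_ne_zero_iff.mpr fun P _ => pow_ne_zero _ (hμ0 P)
  · intro σ
    rw [map_prod]
    exact Finset.prod_congr rfl fun P _ => by rw [map_pow, hμfix P σ]
  · exact Fermat.Agent.T3.helper98.isRegJ_prod _ _ fun P _ => (hμreg P).pow _
  · intro Q hQ
    have hb0 : (∏ P ∈ PS, μ P ^ (-(P.ord f)).toNat) ≠ 0 :=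
      Finset.prod_ne_zero_iff.mpr fun P _ => pow_ne_zero _ (hμ0 P)
    have hbreg : IsRegJ M (∏ P ∈ PS, μ P ^ (-(P.ord f)).toNat) :=
      Fermat.Agent.T3.helper98.isRegJ_prod _ _ fun P _ => (hμreg P).pow _
    rw [Q.ord_mul hf hb0]
    by_cases hQf : 0 ≤ Q.ord f
    · have := hbreg Q hQ
      omega
    · push_neg at hQf
      have hQPS : Q ∈ PS := by
        rw [hPSdef, Set.Finite.mem_toFinset]
        show Q.ord f ≠ 0
        omega
      have hsplit : μ Q ^ (-(Q.ord f)).toNat *
          (∏ P ∈ PS.erase Q, μ P ^ (-(P.ord f)).toNat) = ∏ P ∈ PS, μ P ^ (-(P.ord f)).toNat :=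
        Finset.mul_prod_erase PS (fun P => μ P ^ (-(P.ord f)).toNat) hQPS
      have hrest : IsRegJ M (∏ P ∈ PS.erase Q, μ P ^ (-(P.ord f)).toNat) :=
        Fermat.Agent.T3.helper98.isRegJ_prod _ _ fun P _ => (hμreg P).pow _
      have hrest0 : (∏ P ∈ PS.erase Q, μ P ^ (-(P.ord f)).toNat) ≠ 0 :=
        Finset.prod_ne_zero_iff.mpr fun P _ => pow_ne_zero _ (hμ0 P)
      rw [← hsplit, Q.ord_mul (pow_ne_zero _ (hμ0 Q)) hrest0]
      have h1 := hrest Q hQ
      have h2 := hμpos Q hQ
      have h3 : Q.ord (μ Q ^ (-(Q.ord f)).toNat) = ((-(Q.ord f)).toNat : ℤ) * Q.ord (μ Q) := by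
        rw [← zpow_natCast, Place.ord_zpow]
      rw [h3]
      have h4 : ((-(Q.ord f)).toNat : ℤ) = -(Q.ord f) := Int.toNat_of_nonneg (by omega)
      rw [h4]
      nlinarith

end ClearPoles

end Fermat.Agent.T8.helper23
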