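import Mathlib
import Fermat.Agent.T7.helper23_DiscUnit
import Fermat.Agent.T7.helper44_B3Phi
import Fermat.Agent.T8.helper23_ClearPoles

/-!
# T8 [CUSP-GAP], sub-leaf [CUSP-OO] (helper14): the slope at the cusp `∞`

For EVERY function `H ∈ F_M` (any level `M`, any valuation subring `A` of `ℚ̄`) whose divisor is
divisible by `m`, the reduction of `H` (quotient form: `c * incl Y₁ = H * incl Y₂`, `red Y₁ ≠ 0`,
`red Y₂ ≠ 0`) has order divisible by `m` at the cusp `∞` of the special fibre: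

  `(m : ℤ) ∣ (red A Y₁).order - (red A Y₂).order`.

No inertia-fixedness and no hypothesis on the level: the local ring at the cusp is the `q`-disc
`R₀⟦X⟧`, `R₀ = A ∩ K₀` a discrete valuation ring, a UFD (P2 / T7 [DISC]).

* `disc_unit_core_gen`      : `T7.helper23.disc_unit_core` with the hypothesis `red Y₁ = red Y₂`
                              weakened to `red Y₁ ≠ 0` (the proof is the same);
* `disc_unit_gen`           : the same at `F_N`, `j = jElt N`;
* `dvd_order_sub_of_factor` : orders in `k((X))` from the factorisation;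
* `dvd_order_red_of_regular`: the statement for `H` regular where `j` is finite;
* `dvd_order_red_infty`     : **[CUSP-OO]**, general `H` (poles cleared by
                              `helper23.exists_clear_poles`, the multiplier scaled by
                              `ScaleStatement`);
* `dvd_ord_infty`           : the same in place form (`Q` the place `∞` of `FFb A M`).
-/

set_option autoImplicit false
set_option linter.unusedSectionVars false
set_option linter.unusedVariables false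
set_option linter.style.longLine false

noncomputable section

open HahnSeries IntermediateField AlgebraicCurve ModularCurve
open Fermat.Agent.P2.helper23

namespace Fermat.Agent.T8.helper14

/-! ### DISC-UNIT without `red = 1` -/

/-- **DISC-UNIT, general reductions.**  `T7.helper23.disc_unit_core` with `red Y₁ = red Y₂`
weakened to `red Y₁ ≠ 0`, `red Y₂ ≠ 0`. -/
theorem disc_unit_core_gen (F : IntermediateField Kb (LaurentSeries Kb)) (A : ValuationSubring Kb)
    (hD5 : ∀ V : ValuationSubring F, (∀ a : Kb, algebraMap Kb F a ∈ V) → V ≠ ⊤ →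
      ∃ 𝔓 : Place Kb F, 𝔓.toValuationSubring = V)
    (hD4 : ∀ f : F, ∃ S : Finset Kb, ∀ K₀ : IntermediateField ℚ Kb, (S : Set Kb) ⊆ K₀ →
      IsRatio (capSubring A K₀) (f : LaurentSeries Kb))
    (hPID : ∀ K₀ : IntermediateField ℚ Kb, FiniteDimensional ℚ K₀ →
      IsPrincipalIdealRing (capSubring A K₀))
    (jF : F) (hj : (jF : LaurentSeries Kb) = jqModC Kb)
    (m : ℕ) (hm0 : m ≠ 0) (H : F) (hH : H ≠ 0)
    (hfin : {𝔓 : Place Kb F | 𝔓.ord H ≠ 0}.Finite)
    (hord : (m : ℤ) ∣ (H : LaurentSeries Kb).order)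
    (hdiv : ∀ 𝔓 : Place Kb F, 0 ≤ 𝔓.ord jF → (m : ℤ) ∣ 𝔓.ord H)
    (hreg : ∀ 𝔓 : Place Kb F, 0 ≤ 𝔓.ord jF → 0 ≤ 𝔓.ord H)
    (Y₁ Y₂ : LaurentSeries A) (h₁ : coeffMap A.subtype Y₁ ∈ F) (h₂ : coeffMap A.subtype Y₂ ∈ F)
    (h12 : coeffMap A.subtype Y₁ = (H : LaurentSeries Kb) * coeffMap A.subtype Y₂)
    (hne₁ : coeffMap (IsLocalRing.residue A) Y₁ ≠ 0)
    (hne₂ : coeffMap (IsLocalRing.residue A) Y₂ ≠ 0) :
    ∃ S : Finset Kb, ∀ K₀ : IntermediateField ℚ Kb, FiniteDimensional ℚ K₀ →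
      (S : Set Kb) ⊆ K₀ →
      ∃ (n : ℕ) (u : (PowerSeries (capSubring A K₀))ˣ) (Z : PowerSeries (capSubring A K₀)),
        Z ≠ 0 ∧
        (H : LaurentSeries Kb) * (phi (capSubring A K₀) (PowerSeries.X ^ n)) ^ m
          = phi (capSubring A K₀) (u : PowerSeries (capSubring A K₀))
            * (phi (capSubring A K₀) Z) ^ m := by
  classical
  have hH' : (H : LaurentSeries Kb) ≠ 0 := fun h => hH (Subtype.ext h)
  choose t ht using fun 𝔓 : Place Kb F => exists_uniformizer 𝔓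
  choose St hSt using fun 𝔓 : Place Kb F => hD4 (t 𝔓)
  obtain ⟨S₁, hS₁⟩ := hD4 ⟨_, h₁⟩
  obtain ⟨S₂, hS₂⟩ := hD4 ⟨_, h₂⟩
  refine ⟨S₁ ∪ S₂ ∪ hfin.toFinset.biUnion St, fun K₀ hfd hSK => ?_⟩
  have : IsPrincipalIdealRing (capSubring A K₀) := hPID K₀ hfd
  have hS₁K : (S₁ : Set Kb) ⊆ K₀ := fun x hx => hSK (by
    simp only [Finset.coe_union, Set.mem_union, Finset.mem_coe]
    exact Or.inl (Or.inl hx))
  have hS₂K : (S₂ : Set Kb) ⊆ K₀ := fun x hx => hSK (by
    simp only [Finset.coe_union, Set.mem_union, Finset.mem_coe]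
    exact Or.inl (Or.inr hx))
  have hStK : ∀ 𝔓 : Place Kb F, 𝔓.ord H ≠ 0 → ((St 𝔓 : Finset Kb) : Set Kb) ⊆ K₀ := by
    intro 𝔓 h𝔓 x hx
    refine hSK ?_
    simp only [Finset.coe_union, Set.mem_union, Finset.mem_coe, Finset.mem_biUnion,
      Set.Finite.mem_toFinset, Set.mem_ofPred_eq]
    exact Or.inr ⟨𝔓, h𝔓, hx⟩
  obtain ⟨k₁, G₁, hG₁, hu₁⟩ :=
    Fermat.Agent.P2.helper56.exists_phi_of_isRatio A K₀ Y₁ (hS₁ K₀ hS₁K)
  obtain ⟨k₂, G₂, hG₂, hu₂⟩ :=
    Fermat.Agent.P2.helper56.exists_phi_of_isRatio A K₀ Y₂ (hS₂ K₀ hS₂K)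
  obtain ⟨n₁, hn₁⟩ := hu₁ hne₁
  obtain ⟨n₂, hn₂⟩ := hu₂ hne₂
  have hG₁0 : G₁ ≠ 0 := by
    rintro rfl
    simp at hn₁
  have hG₂0 : G₂ ≠ 0 := by
    rintro rfl
    simp at hn₂
  have hXk : ∀ k : ℕ, (PowerSeries.X : PowerSeries (capSubring A K₀)) ^ k ≠ 0 :=
    fun k => pow_ne_zero _ PowerSeries.X_ne_zero
  have ha : G₁ * PowerSeries.X ^ k₂ ≠ 0 := mul_ne_zero hG₁0 (hXk _)
  have hb : G₂ * PowerSeries.X ^ k₁ ≠ 0 := mul_ne_zero hG₂0 (hXk _)
  have hab : (H : LaurentSeries Kb) * phi (capSubring A K₀) (G₂ * PowerSeries.X ^ k₁)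
      = phi (capSubring A K₀) (G₁ * PowerSeries.X ^ k₂) := by
    rw [map_mul, map_mul, ← hG₁, ← hG₂, h12]
    ring
  have hconst : ∀ P : PowerSeries (capSubring A K₀), Prime P →
      (∃ r : capSubring A K₀, r ≠ 0 ∧ P ∣ PowerSeries.C r) →
      ¬ P ∣ PowerSeries.X → ¬ P ∣ G₁ * PowerSeries.X ^ k₂ ∧ ¬ P ∣ G₂ * PowerSeries.X ^ k₁ := by
    rintro P hP ⟨r, hr, hPr⟩ hX
    constructor
    · intro h
      rcases hP.dvd_or_dvd h with h | h
      · exact Fermat.Agent.P2.helper13.not_dvd_of_dvd_C hP hr hPr hn₁ h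
      · exact hX (hP.dvd_of_dvd_pow h)
    · intro h
      rcases hP.dvd_or_dvd h with h | h
      · exact Fermat.Agent.P2.helper13.not_dvd_of_dvd_C hP hr hPr hn₂ h
      · exact hX (hP.dvd_of_dvd_pow h)
  have hunif : ∀ 𝔓 : Place Kb F, 𝔓.ord H ≠ 0 →
      ∃ t : F, 𝔓.ord t = 1 ∧ IsRatio (capSubring A K₀) (t : LaurentSeries Kb) :=
    fun 𝔓 h𝔓 => ⟨t 𝔓, ht 𝔓, hSt 𝔓 K₀ (hStK 𝔓 h𝔓)⟩
  have hmult := mult_claim F hD5 jF hj m hm0 H hH hord hdiv hreg hunif _ _ ha hb hab hconst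
  obtain ⟨u, Z0, hU3⟩ := Fermat.Agent.P2.helper9.exists_unit_mul_pow_mul m hm0 _ _
    (mul_ne_zero ha (hXk _)) hb hmult
  have hZ0 : Z0 ≠ 0 := by
    rintro rfl
    rw [zero_pow hm0, mul_zero, zero_mul] at hU3
    exact mul_ne_zero ha (hXk _) hU3
  exact ⟨_, u, Z0, hZ0, root_eq_of_unit_eq (H : LaurentSeries Kb) _ _ hb hab m _ u Z0 hU3⟩

/-- **DISC-UNIT, general reductions, at `F_N`** with `j = jElt N`. -/
theorem disc_unit_gen (N : ℕ) [NeZero N] (A : ValuationSubring Kb) (m : ℕ)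
    (hm0 : m ≠ 0) (H : FF N) (hH : H ≠ 0)
    (hdiv : ∀ P : Place Kb (FF N), (m : ℤ) ∣ P.ord H)
    (hreg : ∀ P : Place Kb (FF N), 0 ≤ P.ord (Fermat.Agent.P2.helper29.jElt N) → 0 ≤ P.ord H)
    (Y₁ Y₂ : LaurentSeries A) (h₁ : coeffMap A.subtype Y₁ ∈ FF N)
    (h₂ : coeffMap A.subtype Y₂ ∈ FF N)
    (h12 : coeffMap A.subtype Y₁ = (H : LaurentSeries Kb) * coeffMap A.subtype Y₂)
    (hne₁ : coeffMap (IsLocalRing.residue A) Y₁ ≠ 0)
    (hne₂ : coeffMap (IsLocalRing.residue A) Y₂ ≠ 0) :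
    ∃ S : Finset Kb, ∀ K₀ : IntermediateField ℚ Kb, FiniteDimensional ℚ K₀ →
      (S : Set Kb) ⊆ K₀ →
      ∃ (n : ℕ) (u : (PowerSeries (capSubring A K₀))ˣ) (Z : PowerSeries (capSubring A K₀)),
        Z ≠ 0 ∧
        (H : LaurentSeries Kb) * (phi (capSubring A K₀) (PowerSeries.X ^ n)) ^ m
          = phi (capSubring A K₀) (u : PowerSeries (capSubring A K₀))
            * (phi (capSubring A K₀) Z) ^ m := by
  refine disc_unit_core_gen (FF N) A (exists_place_of_valuationSubring_FF N)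
    (fun f => Fermat.Agent.P2.helper73.exists_finset_isRatio N A f f.2)
    (fun K₀ _ => Fermat.Agent.P2.helper89.isPrincipalIdealRing_capSubring A K₀)
    (Fermat.Agent.P2.helper29.jElt N) rfl m hm0 H hH (finite_ord_ne_zero N H hH) ?_
    (fun P _ => hdiv P) hreg Y₁ Y₂ h₁ h₂ h12 hne₁ hne₂
  rw [← qPlace_ord N H hH]
  exact hdiv _

/-! ### Orders in `k((X))` -/

section Orders

variable {k : Type*} [Field k]

theorem order_pow_laurent {x : LaurentSeries k} (hx : x ≠ 0) (n : ℕ) :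
    (x ^ n).order = n * x.order := by
  induction n with
  | zero => simp
  | succ n ih =>
    rw [pow_succ, HahnSeries.order_mul (pow_ne_zero n hx) hx, ih]
    push_cast
    ring

theorem ofPowerSeries_ne_zero' {g : PowerSeries k} (hg : g ≠ 0) :
    HahnSeries.ofPowerSeries ℤ k g ≠ 0 :=
  (map_ne_zero_iff _ HahnSeries.ofPowerSeries_injective).mpr hg

theorem order_ofPowerSeries_nonneg {g : PowerSeries k} (hg : g ≠ 0) :
    0 ≤ (HahnSeries.ofPowerSeries ℤ k g).order := by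
  rw [HahnSeries.le_order_iff_forall (ofPowerSeries_ne_zero' hg)]
  intro j hj
  exact ModularCurve.ofPowerSeries_coeff_of_neg g hj

theorem order_ofPowerSeries_unit (u : (PowerSeries k)ˣ) :
    (HahnSeries.ofPowerSeries ℤ k (u : PowerSeries k)).order = 0 := by
  have h1 : HahnSeries.ofPowerSeries ℤ k (u : PowerSeries k) *
      HahnSeries.ofPowerSeries ℤ k ((u⁻¹ : (PowerSeries k)ˣ) : PowerSeries k) = 1 := by
    rw [← map_mul, Units.mul_inv, map_one]
  have hu : (u : PowerSeries k) ≠ 0 := u.ne_zero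
  have hv : ((u⁻¹ : (PowerSeries k)ˣ) : PowerSeries k) ≠ 0 := (u⁻¹).ne_zero
  have h2 := congrArg HahnSeries.order h1
  rw [HahnSeries.order_mul (ofPowerSeries_ne_zero' hu) (ofPowerSeries_ne_zero' hv),
    HahnSeries.order_one] at h2
  have h3 := order_ofPowerSeries_nonneg hu
  have h4 := order_ofPowerSeries_nonneg hv
  omega

/-- from `a * x ^ m = U * ζ ^ m * b` with `U` of order `0`: `m ∣ ord a - ord b` -/
theorem dvd_order_sub_of_eq {a b x U ζ : LaurentSeries k} {m : ℕ} (hm0 : m ≠ 0)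
    (ha : a ≠ 0) (hb : b ≠ 0) (hx : x ≠ 0) (hU0 : U ≠ 0) (hU : U.order = 0)
    (h : a * x ^ m = U * ζ ^ m * b) : (m : ℤ) ∣ a.order - b.order := by
  have hζ : ζ ≠ 0 := by
    rintro rfl
    rw [zero_pow hm0, mul_zero, zero_mul] at h
    exact mul_ne_zero ha (pow_ne_zero m hx) h
  have h1 := congrArg HahnSeries.order h
  rw [HahnSeries.order_mul ha (pow_ne_zero m hx),
    HahnSeries.order_mul (mul_ne_zero hU0 (pow_ne_zero m hζ)) hb,
    HahnSeries.order_mul hU0 (pow_ne_zero m hζ), order_pow_laurent hx, order_pow_laurent hζ,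
    hU] at h1
  refine ⟨ζ.order - x.order, ?_⟩
  linarith

end Orders

/-! ### From the factorisation to the orders of the reductions -/

/-- the orders of the reductions from a DISC factorisation over `R₀ = A ∩ K₀`. -/
theorem dvd_order_sub_of_factor (A : ValuationSubring Kb) (K₀ : IntermediateField ℚ Kb)
    {m : ℕ} (hm0 : m ≠ 0) (n : ℕ) (u : (PowerSeries (capSubring A K₀))ˣ)
    (Z : PowerSeries (capSubring A K₀)) (Hs : LaurentSeries Kb) (Y₁ Y₂ : LaurentSeries A)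
    (h12 : coeffMap A.subtype Y₁ = Hs * coeffMap A.subtype Y₂)
    (hne₁ : coeffMap (IsLocalRing.residue A) Y₁ ≠ 0)
    (hne₂ : coeffMap (IsLocalRing.residue A) Y₂ ≠ 0)
    (hfac : Hs * (phi (capSubring A K₀) (PowerSeries.X ^ n)) ^ m
      = phi (capSubring A K₀) (u : PowerSeries (capSubring A K₀))
        * (phi (capSubring A K₀) Z) ^ m) :
    (m : ℤ) ∣ (coeffMap (IsLocalRing.residue A) Y₁).order -
      (coeffMap (IsLocalRing.residue A) Y₂).order := by
  have hR : capSubring A K₀ ≤ A.toSubring := inf_le_left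
  set φA := Fermat.Agent.T7.helper44.phiA A (capSubring A K₀) hR with hφA
  have hφ : ∀ G, coeffMap A.subtype (φA G) = phi (capSubring A K₀) G :=
    fun G => Fermat.Agent.T7.helper44.coeffMap_subtype_phiA A (capSubring A K₀) hR G
  obtain ⟨xA, hxA⟩ : ∃ x : LaurentSeries A, x = φA (PowerSeries.X ^ n) := ⟨_, rfl⟩
  obtain ⟨uA, huA⟩ : ∃ x : LaurentSeries A, x = φA (u : PowerSeries (capSubring A K₀)) :=
    ⟨_, rfl⟩
  obtain ⟨zA, hzA⟩ : ∃ x : LaurentSeries A, x = φA Z := ⟨_, rfl⟩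
  have hx : coeffMap A.subtype xA = phi (capSubring A K₀) (PowerSeries.X ^ n) := by
    rw [hxA]; exact hφ _
  have hu : coeffMap A.subtype uA = phi (capSubring A K₀) (u : PowerSeries (capSubring A K₀)) := by
    rw [huA]; exact hφ _
  have hz : coeffMap A.subtype zA = phi (capSubring A K₀) Z := by
    rw [hzA]; exact hφ _
  -- the identity over `A`
  have hA : Y₁ * xA ^ m = uA * zA ^ m * Y₂ := by
    apply Fermat.Agent.T7.helper44.coeffMap_subtype_inj A
    rw [map_mul, map_pow, map_mul, map_mul, map_pow, hx, hu, hz, h12, ← hfac]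
    ring
  -- reduce
  have hred := congrArg (coeffMap (IsLocalRing.residue A)) hA
  rw [map_mul, map_pow, map_mul, map_mul, map_pow] at hred
  set ρ := Fermat.Agent.T7.helper44.resHom A (capSubring A K₀) hR with hρ
  have hxr : coeffMap (IsLocalRing.residue A) xA =
      HahnSeries.ofPowerSeries ℤ _ (PowerSeries.map ρ (PowerSeries.X ^ n)) := by
    rw [hxA]; exact Fermat.Agent.T7.helper44.coeffMap_residue_phiA A (capSubring A K₀) hR _
  have hur : coeffMap (IsLocalRing.residue A) uA =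
      HahnSeries.ofPowerSeries ℤ _ (PowerSeries.map ρ (u : PowerSeries (capSubring A K₀))) := by
    rw [huA]; exact Fermat.Agent.T7.helper44.coeffMap_residue_phiA A (capSubring A K₀) hR _
  -- the unit
  have hunit : IsUnit (PowerSeries.map ρ (u : PowerSeries (capSubring A K₀))) :=
    u.isUnit.map (PowerSeries.map ρ)
  obtain ⟨ū, hū⟩ := hunit
  have hX : coeffMap (IsLocalRing.residue A) xA ≠ 0 := by
    rw [hxr]
    apply ofPowerSeries_ne_zero'
    rw [map_pow, PowerSeries.map_X]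
    exact pow_ne_zero _ PowerSeries.X_ne_zero
  have hU0 : coeffMap (IsLocalRing.residue A) uA ≠ 0 := by
    rw [hur, ← hū]; exact ofPowerSeries_ne_zero' ū.ne_zero
  have hU : (coeffMap (IsLocalRing.residue A) uA).order = 0 := by
    rw [hur, ← hū]; exact order_ofPowerSeries_unit ū
  exact dvd_order_sub_of_eq hm0 hne₁ hne₂ hX hU0 hU hred

/-- **[CUSP-OO] for functions regular where `j` is finite.** -/
theorem dvd_order_red_of_regular (N : ℕ) [NeZero N] (A : ValuationSubring Kb) (m : ℕ)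
    (hm0 : m ≠ 0) (H : FF N) (hH : H ≠ 0)
    (hdiv : ∀ P : Place Kb (FF N), (m : ℤ) ∣ P.ord H)
    (hreg : ∀ P : Place Kb (FF N), 0 ≤ P.ord (Fermat.Agent.P2.helper29.jElt N) → 0 ≤ P.ord H)
    (Y₁ Y₂ : LaurentSeries A) (h₁ : coeffMap A.subtype Y₁ ∈ FF N)
    (h₂ : coeffMap A.subtype Y₂ ∈ FF N)
    (h12 : coeffMap A.subtype Y₁ = (H : LaurentSeries Kb) * coeffMap A.subtype Y₂)
    (hne₁ : coeffMap (IsLocalRing.residue A) Y₁ ≠ 0)
    (hne₂ : coeffMap (IsLocalRing.residue A) Y₂ ≠ 0) :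
    (m : ℤ) ∣ (coeffMap (IsLocalRing.residue A) Y₁).order -
      (coeffMap (IsLocalRing.residue A) Y₂).order := by
  obtain ⟨S, hS⟩ := disc_unit_gen N A m hm0 H hH hdiv hreg Y₁ Y₂ h₁ h₂ h12 hne₁ hne₂
  -- a number field containing `S`
  have hfd : FiniteDimensional ℚ (IntermediateField.adjoin ℚ (S : Set Kb)) :=
    IntermediateField.finiteDimensional_adjoin
      (fun x _ => ((AlgebraicClosure.isAlgebraic ℚ).isAlgebraic x).isIntegral)
  obtain ⟨n, u, Z, -, hfac⟩ := hS (IntermediateField.adjoin ℚ (S : Set Kb)) hfd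
    (IntermediateField.subset_adjoin ℚ (S : Set Kb))
  exact dvd_order_sub_of_factor A _ hm0 n u Z (H : LaurentSeries Kb) Y₁ Y₂ h12 hne₁ hne₂ hfac

/-! ### The general statement -/

/-- **[CUSP-OO]**: for every nonzero function `H` of level `M` whose divisor is divisible by `m`,
the reduction of `H / c` (quotient form) has order divisible by `m` at the cusp `∞`. -/
theorem dvd_order_red_infty (M : ℕ) [NeZero M] (A : ValuationSubring Kb)
    (hS : Fermat.Agent.P2.helper29.ScaleStatement M A) (m : ℕ) (hm0 : m ≠ 0)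
    (H : FF M) (hH : H ≠ 0) (hdiv : ∀ P : Place Kb (FF M), (m : ℤ) ∣ P.ord H)
    (c : Kb) (hc : c ≠ 0) (Y₁ Y₂ : LaurentSeries A)
    (h₁ : coeffMap A.subtype Y₁ ∈ FF M) (h₂ : coeffMap A.subtype Y₂ ∈ FF M)
    (hne₁ : coeffMap (IsLocalRing.residue A) Y₁ ≠ 0)
    (hne₂ : coeffMap (IsLocalRing.residue A) Y₂ ≠ 0)
    (h12 : algebraMap Kb (LaurentSeries Kb) c * coeffMap A.subtype Y₁ =
      (H : LaurentSeries Kb) * coeffMap A.subtype Y₂) :
    (m : ℤ) ∣ (coeffMap (IsLocalRing.residue A) Y₁).order -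
      (coeffMap (IsLocalRing.residue A) Y₂).order := by
  classical
  -- clear the poles
  obtain ⟨b, hb0, -, hbreg, hHb⟩ := Fermat.Agent.T8.helper23.exists_clear_poles M H
  have hb0' : (b : LaurentSeries Kb) ≠ 0 := fun h => hb0 (Subtype.ext h)
  obtain ⟨cb, Z₁, Z₂, hcb, hZ₁, hZ₂, hZ⟩ := hS (b : LaurentSeries Kb) b.2 hb0'
  -- the new function
  obtain ⟨κ, hκ⟩ : ∃ κ : Kb, κ = c⁻¹ * (cb⁻¹) ^ m := ⟨_, rfl⟩
  have hκ0 : κ ≠ 0 := by
    rw [hκ]; exact mul_ne_zero (inv_ne_zero hc) (pow_ne_zero _ (inv_ne_zero hcb))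
  obtain ⟨H', hH'⟩ : ∃ H' : FF M, H' = algebraMap Kb (FF M) κ * (H * b ^ m) := ⟨_, rfl⟩
  have hm1 : 1 ≤ m := Nat.one_le_iff_ne_zero.mpr hm0
  have hHbm : H * b ^ m = (H * b) * b ^ (m - 1) := by
    conv_lhs => rw [show m = (m - 1) + 1 by omega, pow_succ]
    ring
  have hH'0 : H' ≠ 0 := by
    rw [hH']
    exact mul_ne_zero ((map_ne_zero _).mpr hκ0) (mul_ne_zero hH (pow_ne_zero _ hb0))
  have hdiv' : ∀ P : Place Kb (FF M), (m : ℤ) ∣ P.ord H' := by
    intro P
    rw [hH', P.ord_mul ((map_ne_zero _).mpr hκ0) (mul_ne_zero hH (pow_ne_zero _ hb0)),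
      Fermat.Agent.S24.helper82.ord_algebraMap, zero_add, P.ord_mul hH (pow_ne_zero _ hb0)]
    have hpow : P.ord (b ^ m) = (m : ℤ) * P.ord b := by
      have := P.ord_zpow b (m : ℤ)
      rwa [zpow_natCast] at this
    rw [hpow]
    exact dvd_add (hdiv P) (Dvd.intro _ rfl)
  have hreg' : ∀ P : Place Kb (FF M), 0 ≤ P.ord (Fermat.Agent.P2.helper29.jElt M) →
      0 ≤ P.ord H' := by
    have h : Fermat.Agent.T3.helper98.IsRegJ M H' := by
      rw [hH', hHbm]
      exact (Fermat.Agent.T3.helper98.isRegJ_algebraMap κ).mul (hHb.mul (hbreg.pow _))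
    exact h
  -- the new pair of series
  have hY₁' : coeffMap A.subtype (Y₁ * Z₁ ^ m) ∈ FF M := by
    rw [map_mul, map_pow]
    exact (FF M).mul_mem h₁ ((FF M).pow_mem hZ₁.1 m)
  have hY₂' : coeffMap A.subtype (Y₂ * Z₂ ^ m) ∈ FF M := by
    rw [map_mul, map_pow]
    exact (FF M).mul_mem h₂ ((FF M).pow_mem hZ₂.1 m)
  have hne₁' : coeffMap (IsLocalRing.residue A) (Y₁ * Z₁ ^ m) ≠ 0 := by
    rw [map_mul, map_pow]
    exact mul_ne_zero hne₁ (pow_ne_zero _ hZ₁.2.2)
  have hne₂' : coeffMap (IsLocalRing.residue A) (Y₂ * Z₂ ^ m) ≠ 0 := by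
    rw [map_mul, map_pow]
    exact mul_ne_zero hne₂ (pow_ne_zero _ hZ₂.2.2)
  have hZ' : algebraMap Kb (LaurentSeries Kb) cb * coeffMap A.subtype Z₁ =
      (b : LaurentSeries Kb) * coeffMap A.subtype Z₂ := hZ
  have h12' : coeffMap A.subtype (Y₁ * Z₁ ^ m) =
      (H' : LaurentSeries Kb) * coeffMap A.subtype (Y₂ * Z₂ ^ m) := by
    have e1 : (H' : LaurentSeries Kb) = algebraMap Kb (LaurentSeries Kb) κ *
        ((H : LaurentSeries Kb) * (b : LaurentSeries Kb) ^ m) := by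
      rw [hH']; rfl
    have e2 : algebraMap Kb (LaurentSeries Kb) κ * (algebraMap Kb (LaurentSeries Kb) c *
        (algebraMap Kb (LaurentSeries Kb) cb) ^ m) = 1 := by
      rw [← map_pow, ← map_mul, ← map_mul, hκ]
      have : c⁻¹ * cb⁻¹ ^ m * (c * cb ^ m) = 1 := by
        rw [mul_mul_mul_comm, inv_mul_cancel₀ hc, ← mul_pow, inv_mul_cancel₀ hcb, one_pow,
          one_mul]
      rw [this, map_one]
    have hL : coeffMap A.subtype (Y₁ * Z₁ ^ m) =
        coeffMap A.subtype Y₁ * coeffMap A.subtype Z₁ ^ m := by rw [map_mul, map_pow]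
    have hR : coeffMap A.subtype (Y₂ * Z₂ ^ m) =
        coeffMap A.subtype Y₂ * coeffMap A.subtype Z₂ ^ m := by rw [map_mul, map_pow]
    rw [hL, hR, e1]
    calc coeffMap A.subtype Y₁ * coeffMap A.subtype Z₁ ^ m
        = (algebraMap Kb (LaurentSeries Kb) κ * (algebraMap Kb (LaurentSeries Kb) c *
            (algebraMap Kb (LaurentSeries Kb) cb) ^ m)) *
            (coeffMap A.subtype Y₁ * coeffMap A.subtype Z₁ ^ m) := by rw [e2, one_mul]
      _ = algebraMap Kb (LaurentSeries Kb) κ *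
            ((algebraMap Kb (LaurentSeries Kb) c * coeffMap A.subtype Y₁) *
              (algebraMap Kb (LaurentSeries Kb) cb * coeffMap A.subtype Z₁) ^ m) := by ring
      _ = algebraMap Kb (LaurentSeries Kb) κ *
            (((H : LaurentSeries Kb) * coeffMap A.subtype Y₂) *
              ((b : LaurentSeries Kb) * coeffMap A.subtype Z₂) ^ m) := by rw [h12, hZ']
      _ = algebraMap Kb (LaurentSeries Kb) κ *
            ((H : LaurentSeries Kb) * (b : LaurentSeries Kb) ^ m) *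
            (coeffMap A.subtype Y₂ * coeffMap A.subtype Z₂ ^ m) := by ring
  have key := dvd_order_red_of_regular M A m hm0 H' hH'0 hdiv' hreg' _ _ hY₁' hY₂' h12'
    hne₁' hne₂'
  rw [map_mul, map_pow, map_mul, map_pow,
    HahnSeries.order_mul hne₁ (pow_ne_zero _ hZ₁.2.2),
    HahnSeries.order_mul hne₂ (pow_ne_zero _ hZ₂.2.2),
    order_pow_laurent hZ₁.2.2, order_pow_laurent hZ₂.2.2] at key
  have e : (coeffMap (IsLocalRing.residue A) Y₁).order -
      (coeffMap (IsLocalRing.residue A) Y₂).order =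
      ((coeffMap (IsLocalRing.residue A) Y₁).order +
          (m : ℤ) * (coeffMap (IsLocalRing.residue A) Z₁).order -
        ((coeffMap (IsLocalRing.residue A) Y₂).order +
          (m : ℤ) * (coeffMap (IsLocalRing.residue A) Z₂).order)) -
      (m : ℤ) * ((coeffMap (IsLocalRing.residue A) Z₁).order -
        (coeffMap (IsLocalRing.residue A) Z₂).order) := by ring
  rw [e]
  exact dvd_sub key (Dvd.intro _ rfl)

/-- **[CUSP-OO], place form**: if `f` is the reduction of `H / c` (quotient form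
`f * red Y₂ = red Y₁`) and `Q` is the place `∞` of the special fibre field, then `m ∣ ord_Q f`. -/
theorem dvd_ord_infty (M : ℕ) [NeZero M] (A : ValuationSubring Kb)
    (hS : Fermat.Agent.P2.helper29.ScaleStatement M A) (m : ℕ) (hm0 : m ≠ 0)
    (H : FF M) (hH : H ≠ 0) (hdiv : ∀ P : Place Kb (FF M), (m : ℤ) ∣ P.ord H)
    (c : Kb) (hc : c ≠ 0) (Y₁ Y₂ : LaurentSeries A)
    (h₁ : coeffMap A.subtype Y₁ ∈ FF M) (h₂ : coeffMap A.subtype Y₂ ∈ FF M)
    (hne₁ : coeffMap (IsLocalRing.residue A) Y₁ ≠ 0)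
    (hne₂ : coeffMap (IsLocalRing.residue A) Y₂ ≠ 0)
    (h12 : algebraMap Kb (LaurentSeries Kb) c * coeffMap A.subtype Y₁ =
      (H : LaurentSeries Kb) * coeffMap A.subtype Y₂)
    (f : Fermat.Agent.S18.helper19.FFb A M)
    (hf : (f : LaurentSeries (IsLocalRing.ResidueField A)) *
      coeffMap (IsLocalRing.residue A) Y₂ = coeffMap (IsLocalRing.residue A) Y₁)
    (Q : Place (IsLocalRing.ResidueField A) (Fermat.Agent.S18.helper19.FFb A M))
    (hQ : Fermat.Agent.P2.helper29.IsInfty Q) : (m : ℤ) ∣ Q.ord f := by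
  have hf0' : (f : LaurentSeries (IsLocalRing.ResidueField A)) ≠ 0 := by
    intro h
    rw [h, zero_mul] at hf
    exact hne₁ hf.symm
  have hf0 : f ≠ 0 := fun h => hf0' (by rw [h]; rfl)
  rw [hQ f hf0]
  have h1 := congrArg HahnSeries.order hf
  rw [HahnSeries.order_mul hf0' hne₂] at h1
  have key := dvd_order_red_infty M A hS m hm0 H hH hdiv c hc Y₁ Y₂ h₁ h₂ hne₁ hne₂ h12
  have e : (f : LaurentSeries (IsLocalRing.ResidueField A)).order =
      (coeffMap (IsLocalRing.residue A) Y₁).order -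
        (coeffMap (IsLocalRing.residue A) Y₂).order := by linarith
  rw [e]
  exact key

end Fermat.Agent.T8.helper14

end
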