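import Mathlib
import Fermat.Agent.T8.helper14_CuspInf
import Fermat.Agent.T8.helper54_PhiDefs
import Fermat.Agent.T2.helper58_ScaleBad

/-!
# T8 [CUSP-GAP], sub-leaf [CUSP-OO] (helper14): adapters to the team vocabulary

`helper14.dvd_order_red_infty` in the vocabulary of the wall (`T3.helper36.RhoQ`,
`helper54.IsRed1`):

* `dvd_order_of_rhoQ`       : any level `M` with `ScaleStatement M A`: if `m ∣ div u` and `r ≠ 0` is
                              a reduction of `u / κ` (`RhoQ`), then `m ∣ r.order`;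
* `dvd_order_of_isRed1`     : at a bad pair `(N q, A)`: `IsRed1 A N q u f`, `m ∣ div u`
                              ⟹ `m ∣ ord_q f` (the `q`-order of the Laurent series `f`);
* `dvd_ord_infty_of_isRed1` : the same as `m ∣ Q.ord f` for the place `Q = ∞` of `FFb A N`.

Intended use ([CUSP-COUNT] / [CUSP-ASM]): apply it to `W_D u₀`, whose divisor is again divisible
by `p`, to get `p ∣ ord_∞ (red₁ (W_D u₀)) = ord_{Q_D} (red₁ u₀)`.
-/

set_option autoImplicit false
set_option linter.unusedSectionVars false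
set_option linter.unusedVariables false
set_option linter.style.longLine false

noncomputable section

open HahnSeries IntermediateField AlgebraicCurve ModularCurve
open Fermat.Agent.S18.helper19 Fermat.Agent.P2.helper29

namespace Fermat.Agent.T8.helper14

open Fermat.Agent.T3.helper36 (RhoQ)
open Fermat.Agent.T8.helper54 (IsRed1)

variable {A : ValuationSubring Kb}

/-- two scaled reductions of the same series differ by a nonzero constant -/
theorem rhoQ_const_unique {g : LaurentSeries Kb} {κ κ₀ : Kb} (hκ : κ ≠ 0) (hκ₀ : κ₀ ≠ 0)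
    {r r₀ : LaurentSeries (kA A)} (hr : r ≠ 0) (hr₀ : r₀ ≠ 0)
    (h : RhoQ A (algebraMap Kb (LaurentSeries Kb) κ⁻¹ * g) r)
    (h₀ : RhoQ A (algebraMap Kb (LaurentSeries Kb) κ₀⁻¹ * g) r₀) :
    ∃ c : kA A, c ≠ 0 ∧ r₀ = algebraMap (kA A) (LaurentSeries (kA A)) c * r := by
  have e : algebraMap Kb (LaurentSeries Kb) (κ / κ₀) *
      (algebraMap Kb (LaurentSeries Kb) κ⁻¹ * g) =
      algebraMap Kb (LaurentSeries Kb) κ₀⁻¹ * g := by
    rw [← mul_assoc, ← map_mul]
    congr 2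
    field_simp
  have hv : A.valuation (κ / κ₀) = 1 :=
    Fermat.Agent.T3.helper36.valuation_eq_one_of_rhoQ hr hr₀ h (by rw [e]; exact h₀)
  have hcA : κ / κ₀ ∈ A := (A.valuation_le_one_iff _).1 hv.le
  have h1 := (Fermat.Agent.T3.helper36.rhoQ_algebraMap (⟨κ / κ₀, hcA⟩ : A)).mul h
  have h2 : RhoQ A (algebraMap Kb (LaurentSeries Kb) κ₀⁻¹ * g)
      (algebraMap (kA A) (LaurentSeries (kA A)) (IsLocalRing.residue A ⟨κ / κ₀, hcA⟩) * r) := by
    rw [← e]
    exact h1
  have h3 := h₀.unique h2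
  refine ⟨IsLocalRing.residue A ⟨κ / κ₀, hcA⟩, ?_, h3⟩
  intro h0
  rw [h0, map_zero, zero_mul] at h3
  exact hr₀ h3

/-- the order of a nonzero constant multiple -/
theorem order_const_mul {k : Type*} [Field k] {c : k} (hc : c ≠ 0) {r : LaurentSeries k}
    (hr : r ≠ 0) : (algebraMap k (LaurentSeries k) c * r).order = r.order := by
  have hc' : algebraMap k (LaurentSeries k) c ≠ 0 :=
    (map_ne_zero_iff _ (algebraMap k (LaurentSeries k)).injective).mpr hc
  rw [HahnSeries.order_mul hc' hr]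
  rw [Fermat.Agent.P2.helper29.order_algebraMap c, zero_add]

/-- **[CUSP-OO], `RhoQ` form**, any level with `ScaleStatement`. -/
theorem dvd_order_of_rhoQ (M : ℕ) [NeZero M] (A : ValuationSubring Kb)
    (hS : ScaleStatement M A) (m : ℕ) (hm0 : m ≠ 0) (u : FF M) (hu : u ≠ 0)
    (hdiv : ∀ P : Place Kb (FF M), (m : ℤ) ∣ P.ord u)
    (κ : Kb) (hκ : κ ≠ 0) (r : LaurentSeries (kA A)) (hr : r ≠ 0)
    (h : RhoQ A (algebraMap Kb (LaurentSeries Kb) κ⁻¹ * (u : LaurentSeries Kb)) r) :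
    (m : ℤ) ∣ r.order := by
  have hu' : (u : LaurentSeries Kb) ≠ 0 := fun h0 => hu (Subtype.ext h0)
  obtain ⟨c, Z₁, Z₂, hc, hZ₁, hZ₂, hZ⟩ := hS (u : LaurentSeries Kb) u.2 hu'
  have h1' : red A Z₁ ≠ 0 := hZ₁.2.2
  have h2' : red A Z₂ ≠ 0 := hZ₂.2.2
  -- the reduction from the scaling
  have hrho : RhoQ A (algebraMap Kb (LaurentSeries Kb) c⁻¹ * (u : LaurentSeries Kb))
      (red A Z₁ * (red A Z₂)⁻¹) := by
    refine ⟨Z₁, Z₂, h2', ?_, by rw [mul_assoc, inv_mul_cancel₀ h2', mul_one]⟩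
    have hcc : algebraMap Kb (LaurentSeries Kb) c⁻¹ * algebraMap Kb (LaurentSeries Kb) c = 1 := by
      rw [← map_mul, inv_mul_cancel₀ hc, map_one]
    calc incl A Z₁ = (algebraMap Kb (LaurentSeries Kb) c⁻¹ * algebraMap Kb (LaurentSeries Kb) c) *
          incl A Z₁ := by rw [hcc, one_mul]
      _ = algebraMap Kb (LaurentSeries Kb) c⁻¹ *
          (algebraMap Kb (LaurentSeries Kb) c * incl A Z₁) := by ring
      _ = algebraMap Kb (LaurentSeries Kb) c⁻¹ * ((u : LaurentSeries Kb) * incl A Z₂) := by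
          rw [hZ]
      _ = algebraMap Kb (LaurentSeries Kb) c⁻¹ * (u : LaurentSeries Kb) * incl A Z₂ := by ring
  have hq0 : red A Z₁ * (red A Z₂)⁻¹ ≠ 0 := mul_ne_zero h1' (inv_ne_zero h2')
  obtain ⟨c', hc', e⟩ := rhoQ_const_unique hc hκ hq0 hr hrho h
  rw [e, order_const_mul hc' hq0]
  have key := dvd_order_red_infty M A hS m hm0 u hu hdiv c hc Z₁ Z₂ hZ₁.1 hZ₂.1 h1' h2' hZ
  have e2 : (red A Z₁ * (red A Z₂)⁻¹).order = (red A Z₁).order - (red A Z₂).order := by
    have h3 : red A Z₁ * (red A Z₂)⁻¹ * red A Z₂ = red A Z₁ := by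
      rw [mul_assoc, inv_mul_cancel₀ h2', mul_one]
    have h4 := congrArg HahnSeries.order h3
    rw [HahnSeries.order_mul hq0 h2'] at h4
    linarith
  rw [e2]
  exact key

section BadPair

variable (N q : ℕ) [NeZero N] [NeZero q]

/-- **[CUSP-OO], `IsRed1` form** at a bad pair: the `q`-order of the first-component reduction of
a function whose divisor is divisible by `m` is divisible by `m`. -/
theorem dvd_order_of_isRed1 (hq : q.Prime) (hqN : ¬ q ∣ N) (A : ValuationSubring Kb)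
    (hA : A.LiesOverPrime q) (m : ℕ) (hm0 : m ≠ 0) (u : FF (N * q)) (hu : u ≠ 0)
    (hdiv : ∀ P : Place Kb (FF (N * q)), (m : ℤ) ∣ P.ord u)
    (f : FFb A N) (hf : IsRed1 A N q u f) :
    (m : ℤ) ∣ (f : LaurentSeries (kA A)).order := by
  obtain ⟨hf0, κ, hκ, h⟩ := hf
  exact dvd_order_of_rhoQ (N * q) A
    (Fermat.Agent.T2.helper58.scaleStatement_bad N q hq hqN A hA) m hm0 u hu hdiv κ hκ _
    (fun h0 => hf0 (Subtype.ext h0)) h

/-- **[CUSP-OO], place form**: `m ∣ ord_Q f` for the place `Q = ∞` of `FFb A N`. -/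
theorem dvd_ord_infty_of_isRed1 (hq : q.Prime) (hqN : ¬ q ∣ N) (A : ValuationSubring Kb)
    (hA : A.LiesOverPrime q) (m : ℕ) (hm0 : m ≠ 0) (u : FF (N * q)) (hu : u ≠ 0)
    (hdiv : ∀ P : Place Kb (FF (N * q)), (m : ℤ) ∣ P.ord u)
    (f : FFb A N) (hf : IsRed1 A N q u f)
    (Q : Place (kA A) (FFb A N)) (hQ : IsInfty Q) : (m : ℤ) ∣ Q.ord f := by
  rw [hQ f hf.1]
  exact dvd_order_of_isRed1 N q hq hqN A hA m hm0 u hu hdiv f hf

end BadPair

end Fermat.Agent.T8.helper14

end
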