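import Fermat.Agent.T8.helper29_ConclN
import Fermat.Agent.T3.helper23_PlaceTransport

/-!
# T8 = row 38 via S44, box [CUSP-GAP] (helper81, owner): CONTRACT

The exit of the wall (`helper29.IsWallCN2`, `helper54.DvdOff`) controls the reduction `f` of a
Kummer function only at the places of the special fibre where `j̄` is finite.  The consumers
([D-HECKE] (F2)-(F4), [F3-EXIT] leaf [OMEGA]) need `p ∣ ord_Q f` at the cuspidal places `Q ≠ ∞`
as well.  At a cusp the model is smooth, so the statement is true for EVERY function `u` with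
`p ∣ div u` (no hypothesis on the class: not new, not eigen, not inertia-fixed):

* `DvdCusp A N p f`       : `p ∣ ord_Q f` at every cuspidal place `Q ≠ ∞` of `FFb A N`;
* `DvdFin A N p f`        : `p ∣ ord_Q f` at every place `Q ≠ ∞`;
* `CuspGapStatement`      : **[CUSP-GAP]** `p ∣ div u`, `IsRed1 u f`  ⟹  `DvdCusp f`;
* `IsWallCNFin`, `IsWallCN2Fin`, `wallCNFin` : the output of the wall at every place `≠ ∞`
                            (class form, both components), as `helper72.WallData`;
* `isWallCN2Fin_of_cuspGap` : `CuspGapStatement` upgrades `helper29.IsWallCN2` to `IsWallCN2Fin`;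
* `wallCNFin_of_wallCN`   : the same for the `WallData`.
-/

set_option autoImplicit false
set_option linter.unusedSectionVars false
set_option linter.unusedVariables false
set_option linter.style.longLine false

noncomputable section

namespace Fermat.Agent.T8.helper81

open HahnSeries IntermediateField AlgebraicCurve ModularCurve
open Fermat.Agent.S18.helper19 Fermat.Agent.P2.helper29 Fermat.Agent.P2.helper93
open Fermat.Agent.T2 Fermat.Agent.T2.helper36
open Fermat.Agent.T8.helper54 (IsRed1 DvdOff ModEqOff)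
open Fermat.Agent.P3.helper94 (IsKummerRep)

section Defs

variable (A : ValuationSubring Kb) (N p : ℕ) [NeZero N] [NeZero p]

/-- `p ∣ ord_Q f` at every cuspidal place `Q ≠ ∞` of the special fibre -/
def DvdCusp (f : FFb A N) : Prop :=
  ∀ Q : Place (kA A) (FFb A N), Q.ord (jBar A N) < 0 → ¬ IsInfty Q → (p : ℤ) ∣ Q.ord f

/-- `p ∣ ord_Q f` at every place `Q ≠ ∞` of the special fibre -/
def DvdFin (f : FFb A N) : Prop :=
  ∀ Q : Place (kA A) (FFb A N), ¬ IsInfty Q → (p : ℤ) ∣ Q.ord f

/-- **Contract [CUSP-GAP]** (function form): the first-component reduction of a function whose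
divisor is divisible by `p` has order divisible by `p` at every cuspidal place `≠ ∞`. -/
def CuspGapStatement : Prop :=
  ∀ (u : FF (N * p)) (f : FFb A N), u ≠ 0 →
    (∀ P : Place Kb (FF (N * p)), (p : ℤ) ∣ P.ord u) → IsRed1 A N p u f → DvdCusp A N p f

/-- the output of the wall at every place `≠ ∞`, first component -/
def IsWallCNFin (x : JZero (N * p)) : Prop :=
  ∃ (u : FF (N * p)) (f : FFb A N), IsKummerRep p x u ∧ IsRed1 A N p u f ∧ DvdFin A N p f

/-- the output of the wall at every place `≠ ∞`, both components -/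
def IsWallCN2Fin (W : FF (N * p) ≃ₐ[Kb] FF (N * p)) (x : JZero (N * p)) : Prop :=
  ∃ (u : FF (N * p)) (f₁ f₂ : FFb A N), IsKummerRep p x u ∧
    IsRed1 A N p u f₁ ∧ DvdFin A N p f₁ ∧ IsRed1 A N p (W u) f₂ ∧ DvdFin A N p f₂

end Defs

section Lemmas

variable {A : ValuationSubring Kb} {N p : ℕ} [NeZero N] [NeZero p]

theorem dvdFin_of_off_cusp {f : FFb A N} (h1 : DvdOff A N p f) (h2 : DvdCusp A N p f) :
    DvdFin A N p f := by
  intro Q hQ
  rcases lt_or_ge (Q.ord (jBar A N)) 0 with hj | hj
  · exact h2 Q hj hQ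
  · exact h1 Q hj

theorem DvdFin.dvdOff {f : FFb A N} (h : DvdFin A N p f)
    (hinf : ∀ Q : Place (kA A) (FFb A N), IsInfty Q → Q.ord (jBar A N) < 0) :
    DvdOff A N p f := by
  intro Q hQ
  exact h Q fun hi => absurd (hinf Q hi) (not_lt.mpr hQ)

/-- the divisor of `W u` is divisible by `p` when the divisor of `u` is -/
theorem dvd_ord_equiv (W : FF (N * p) ≃ₐ[Kb] FF (N * p)) {u : FF (N * p)}
    (h : ∀ P : Place Kb (FF (N * p)), (p : ℤ) ∣ P.ord u) (P : Place Kb (FF (N * p))) :
    (p : ℤ) ∣ P.ord (W u) := by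
  have := h (Fermat.Agent.T3.helper23.placeComap W P)
  rwa [Fermat.Agent.T3.helper23.ord_placeComap] at this

theorem dvd_ord_of_isKummerRep {x : JZero (N * p)} {u : FF (N * p)} (hk : IsKummerRep p x u)
    (P : Place Kb (FF (N * p))) : (p : ℤ) ∣ P.ord u := by
  obtain ⟨-, D, -, hdiv⟩ := hk
  exact ⟨(D : Divisor Kb (FF (N * p))) P, (hdiv P).symm⟩

/-- **[CUSP-GAP], class form**: the contract upgrades the exit of the wall to all places
`≠ ∞`. -/
theorem isWallCN2Fin_of_cuspGap (hC : CuspGapStatement A N p)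
    {W : FF (N * p) ≃ₐ[Kb] FF (N * p)} {x : JZero (N * p)}
    (h : Fermat.Agent.T8.helper29.IsWallCN2 A N p W x) : IsWallCN2Fin A N p W x := by
  obtain ⟨u, f₁, f₂, hk, h1, hd1, h2, hd2⟩ := h
  have hu := dvd_ord_of_isKummerRep hk
  refine ⟨u, f₁, f₂, hk, h1, dvdFin_of_off_cusp hd1 (hC u f₁ hk.1 hu h1), h2,
    dvdFin_of_off_cusp hd2 (hC (W u) f₂ ?_ (dvd_ord_equiv W hu) h2)⟩
  exact fun h0 => hk.1 (by simpa using h0)

theorem isWallCNFin_of_cuspGap (hC : CuspGapStatement A N p) {x : JZero (N * p)}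
    (h : Fermat.Agent.T8.helper29.IsWallCN A N p x) : IsWallCNFin A N p x := by
  obtain ⟨u, f, hk, h1, hd1⟩ := h
  exact ⟨u, f, hk, h1, dvdFin_of_off_cusp hd1 (hC u f hk.1 (dvd_ord_of_isKummerRep hk) h1)⟩

end Lemmas

section WallData

/-- the wall predicate at every place `≠ ∞`, as `helper72.WallData`. -/
def wallCNFin : Fermat.Agent.T8.helper72.WallData := fun P M' _ A x =>
  ∀ hpN : ¬ P.p ∣ 4 * M', IsWallCN2Fin A (4 * M') P.p (atkinLehner (4 * M') P.p P.pp hpN) x

/-- **Contract [CUSP-GAP]** at the levels of the chain. -/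
def CuspGapChainStatement : Prop :=
  ∀ (P : FreyPackage) (M' : ℕ) [NeZero M'] (A : ValuationSubring Kb), A.LiesOverPrime P.p →
    ¬ P.p ∣ 4 * M' → CuspGapStatement A (4 * M') P.p

/-- `wallCN` implies `wallCNFin`, given [CUSP-GAP] -/
theorem wallCNFin_of_wallCN (hC : CuspGapChainStatement) (P : FreyPackage) (M' : ℕ) [NeZero M']
    (A : ValuationSubring Kb) (hA : A.LiesOverPrime P.p) (x : JZero (4 * M' * P.p))
    (h : Fermat.Agent.T8.helper29.wallCN P M' A x) : wallCNFin P M' A x :=
  fun hpN => isWallCN2Fin_of_cuspGap (hC P M' A hA hpN) (h hpN)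

end WallData

end Fermat.Agent.T8.helper81

end
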