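/-
T8 (row 38 via S44, at risk), box [CUSP-GAP], leaf [CUSP-COUNT] (helper43).

At a squarefree level `M` prime to the residue characteristic, every pole of `j̄` in the special
fibre field `FFb A M` is the preimage of the place `∞` under one of the Atkin-Lehner
automorphisms `W̄_D`, `D ∣ M`:

* `cuspCount_squarefree` : `cuspCount M = #divisors M` for squarefree `M`;
* `cusp_eq_comap`        : **[CUSP-COUNT]** from `P2.helper28.cuspBarStatement` (at most
                           `cuspCount M` poles) and the pairwise different orders `- D` of `j̄`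
                           at the places `∞ ∘ W̄_D`;
* `dvd_order_of_isRed1`  : **[CUSP-OO]** (`helper14.dvd_order_red_infty`) in the vocabulary
                           `IsRed1`;
* `CuspAOrdStatement`, `CuspAStatement` : contracts for **[CUSP-A]** (weak / strong form);
* `dvdPoles_of_cuspA`    : `p ∣ ord_Q f` at EVERY pole `Q` of `j̄` (the place `∞` included), for
                           the first-component reduction `f` of a function with `p ∣ div u`;
* `cuspGap_squarefree`   : `helper81.CuspGapStatement A M p` at a squarefree level `M`.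
-/
import Mathlib
import Fermat.Agent.T8.helper81_CuspGapDefs
import Fermat.Agent.P2.helper28_CuspBar
import Fermat.Agent.P2.helper29_Infty
import Fermat.Agent.T8.helper14_CuspInf
import Fermat.Agent.T8.helper54_Phi

set_option autoImplicit false
set_option linter.unusedSectionVars false
set_option linter.unusedVariables false
set_option linter.style.longLine false
set_option linter.style.haveILetI false

noncomputable section

open ModularCurve AlgebraicCurve IntermediateField

namespace Fermat.Agent.T8.helper43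

open Fermat.Agent.S18.helper19 Fermat.Agent.P2.helper29
open Fermat.Agent.T8.helper54 (IsRed1)
open Fermat.Agent.T3.helper23 (placeComap ord_placeComap)

/-! ### Arithmetic and counting -/

/-- the number of cusps of `X₀(M)` for squarefree `M` -/
theorem cuspCount_squarefree {M : ℕ} (hM : Squarefree M) : cuspCount M = M.divisors.card := by
  unfold cuspCount
  rw [Finset.card_eq_sum_ones]
  refine Finset.sum_congr rfl fun d hd => ?_
  have hd' := (Nat.mem_divisors.1 hd).1
  have h : d * (M / d) = M := Nat.mul_div_cancel' hd'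
  have hc : Nat.Coprime d (M / d) := Nat.coprime_of_squarefree_mul (h.symm ▸ hM)
  rw [Nat.Coprime] at hc
  rw [hc, Nat.totient_one]

/-- pigeonhole: an injective family of `#I ≥ #T` elements of `T` exhausts `T` -/
theorem exists_eq_of_card_le {α ι : Type*} (T : Finset α) (I : Finset ι) (Qf : ι → α)
    (hmem : ∀ i ∈ I, Qf i ∈ T) (hinj : ∀ i ∈ I, ∀ j ∈ I, Qf i = Qf j → i = j)
    (hcard : T.card ≤ I.card) (Q : α) (hQ : Q ∈ T) : ∃ i ∈ I, Q = Qf i := by
  obtain ⟨i, hi, e⟩ := Finset.surj_on_of_inj_on_of_card_le (fun i _ => Qf i)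
    (fun i hi => hmem i hi) (fun i j hi hj e => hinj i hi j hj e) hcard Q hQ
  exact ⟨i, hi, e⟩

section Count

variable {A : ValuationSubring Kb} {M : ℕ} [NeZero M]

theorem jBar_ne_zero : jBar A M ≠ 0 := by
  intro h
  have h1 : ((jBar A M : FFb A M) : LaurentSeries (kA A)) = 0 := by rw [h]; rfl
  have h2 : (jqModC (kA A)).order = -1 := order_jqModC (kA A)
  have h3 : (jqModC (kA A)) = 0 := h1
  rw [h3, HahnSeries.order_zero] at h2
  exact absurd h2 (by norm_num)

/-- the order of `j̄` at the place `∞ ∘ W̄` -/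
theorem ord_comap_infty (Wb : FFb A M ≃ₐ[kA A] FFb A M) (f : FFb A M) (hf : f ≠ 0) :
    (placeComap Wb (inftyC (kA A) M)).ord f = ((Wb f : FFb A M) : LaurentSeries (kA A)).order := by
  rw [ord_placeComap]
  exact isInfty_inftyC (kA A) M (Wb f) ((map_ne_zero_iff _ Wb.injective).2 hf)

/-- **[CUSP-COUNT]**: at a squarefree level prime to the residue characteristic every pole of
`j̄` is one of the places `∞ ∘ W̄_D`, `D ∣ M`. -/
theorem cusp_eq_comap (hM : Squarefree M) (hPL : PrimeToLevel M A)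
    (Wb : ℕ → (FFb A M ≃ₐ[kA A] FFb A M))
    (hord : ∀ D : ℕ, D ∣ M →
      ((Wb D (jBar A M) : FFb A M) : LaurentSeries (kA A)).order = -(D : ℤ))
    (Q : Place (kA A) (FFb A M)) (hQ : Q.ord (jBar A M) < 0) :
    ∃ D : ℕ, D ∣ M ∧ Q = placeComap (Wb D) (inftyC (kA A) M) := by
  classical
  obtain ⟨T, hT, hcard⟩ := Fermat.Agent.P2.helper28.cuspBarStatement hPL
  have hordQ : ∀ D : ℕ, D ∣ M →
      (placeComap (Wb D) (inftyC (kA A) M)).ord (jBar A M) = -(D : ℤ) := by
    intro D hD
    rw [ord_comap_infty _ _ jBar_ne_zero]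
    exact hord D hD
  have hmem : ∀ D ∈ M.divisors, placeComap (Wb D) (inftyC (kA A) M) ∈ T := by
    intro D hD
    have hD' := Nat.mem_divisors.1 hD
    refine hT _ ?_
    rw [hordQ D hD'.1]
    have : 0 < D := Nat.pos_of_dvd_of_pos hD'.1 (Nat.pos_of_ne_zero hD'.2)
    omega
  have hinj : ∀ D ∈ M.divisors, ∀ D' ∈ M.divisors,
      placeComap (Wb D) (inftyC (kA A) M) = placeComap (Wb D') (inftyC (kA A) M) → D = D' := by
    intro D hD D' hD' e
    have h1 := hordQ D (Nat.mem_divisors.1 hD).1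
    have h2 := hordQ D' (Nat.mem_divisors.1 hD').1
    have e' : (placeComap (Wb D) (inftyC (kA A) M)).ord (jBar A M) =
        (placeComap (Wb D') (inftyC (kA A) M)).ord (jBar A M) := by
      exact congrArg (fun P : Place (kA A) (FFb A M) => P.ord (jBar A M)) e
    rw [h1, h2] at e'
    omega
  have hc : T.card ≤ M.divisors.card := by
    rw [← cuspCount_squarefree hM]
    exact hcard
  obtain ⟨D, hD, e⟩ := exists_eq_of_card_le T M.divisors
    (fun D => placeComap (Wb D) (inftyC (kA A) M)) hmem hinj hc Q (hT Q hQ)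
  exact ⟨D, (Nat.mem_divisors.1 hD).1, e⟩

end Count

/-! ### [CUSP-OO] in the vocabulary `IsRed1` -/

section Infty

variable {A : ValuationSubring Kb} {M p : ℕ} [NeZero M] [NeZero p]

/-- **[CUSP-OO]**: the first-component reduction of a function whose divisor is divisible by `p`
has `q`-order divisible by `p`. -/
theorem dvd_order_of_isRed1 (hp : p.Prime) (hpM : ¬ p ∣ M) (hA : A.LiesOverPrime p)
    {u : FF (M * p)} {f : FFb A M} (hu : u ≠ 0)
    (hdiv : ∀ P : Place Kb (FF (M * p)), (p : ℤ) ∣ P.ord u) (hred : IsRed1 A M p u f) :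
    (p : ℤ) ∣ (f : LaurentSeries (kA A)).order := by
  have hu' : (u : LaurentSeries Kb) ≠ 0 := fun h0 => hu (Subtype.ext h0)
  have hS := Fermat.Agent.T2.helper58.scaleStatement_bad M p hp hpM A hA
  obtain ⟨c, Y₁, Y₂, hc, hY₁, hY₂, e⟩ := hS (u : LaurentSeries Kb) u.2 hu'
  have key := Fermat.Agent.T8.helper14.dvd_order_red_infty (M * p) A hS p hp.ne_zero u hu hdiv
    c hc Y₁ Y₂ hY₁.1 hY₂.1 hY₁.2.2 hY₂.2.2 e
  rw [Fermat.Agent.T2.helper96.isGood_mul_iff M A hp hA] at hY₁ hY₂
  obtain ⟨-, m1, n1⟩ := hY₁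
  obtain ⟨-, m2, n2⟩ := hY₂
  have hq1 := Fermat.Agent.T3.helper36.rhoQ_quot (A := A) Y₁ Y₂ n2
  have hred' : IsRed1 A M p u (⟨red A Y₁ / red A Y₂, div_mem m1 m2⟩ : FFb A M) := by
    refine ⟨?_, c, hc, ?_⟩
    · intro h0
      have h1 := congrArg Subtype.val h0
      exact div_ne_zero n1 n2 h1
    · have hi2 : incl A Y₂ ≠ 0 := Fermat.Agent.T2.helper36.incl_ne_zero_of_red_ne_zero n2
      have e2 : algebraMap Kb (LaurentSeries Kb) c⁻¹ * (u : LaurentSeries Kb)
          = incl A Y₁ / incl A Y₂ := by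
        have hc' : algebraMap Kb (LaurentSeries Kb) c ≠ 0 := by
          rw [Ne, map_eq_zero]; exact hc
        rw [map_inv₀, eq_div_iff hi2, mul_assoc, ← e, ← mul_assoc, inv_mul_cancel₀ hc', one_mul]
      rw [e2]
      exact hq1
  obtain ⟨c', hc', e'⟩ := hred.exists_const hred'
  have e1 : (f : LaurentSeries (kA A)) =
      algebraMap (kA A) (LaurentSeries (kA A)) c' * (red A Y₁ / red A Y₂) := by
    rw [e']
    rfl
  have hc'' : algebraMap (kA A) (LaurentSeries (kA A)) c' ≠ 0 := by
    rw [Ne, map_eq_zero]; exact hc'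
  have e3 : (f : LaurentSeries (kA A)) * red A Y₂ =
      algebraMap (kA A) (LaurentSeries (kA A)) c' * red A Y₁ := by
    rw [e1, mul_assoc, div_mul_cancel₀ _ n2]
  have e4 := congrArg HahnSeries.order e3
  rw [HahnSeries.order_mul hred.coe_ne_zero n2, HahnSeries.order_mul hc'' n1] at e4
  have e5 : (algebraMap (kA A) (LaurentSeries (kA A)) c').order = 0 :=
    Fermat.Agent.P2.helper29.order_algebraMap c'
  rw [e5, zero_add] at e4
  have e6 : (f : LaurentSeries (kA A)).order = (red A Y₁).order - (red A Y₂).order := by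
    rw [← e4]; ring
  rw [e6]
  exact key

end Infty

/-! ### The contracts of [CUSP-A] and the cusps of a squarefree level -/

section Gap

variable (A : ValuationSubring Kb) (M p : ℕ) [NeZero M] [NeZero p]

/-- **Contract [CUSP-A], weak form**: for every `D ∣ M` an automorphism `W̄_D` of the special
fibre field with `ord_∞ (W̄_D j̄) = - D` such that `p ∣ ord_∞ (W̄_D f)` for the first-component
reduction `f` of every function `u` with `p ∣ div u`. -/
def CuspAOrdStatement : Prop :=
  ∀ D : ℕ, D ∣ M → ∃ Wb : FFb A M ≃ₐ[kA A] FFb A M,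
    ((Wb (jBar A M) : FFb A M) : LaurentSeries (kA A)).order = -(D : ℤ) ∧
    ∀ (u : FF (M * p)) (f : FFb A M), u ≠ 0 →
      (∀ P : Place Kb (FF (M * p)), (p : ℤ) ∣ P.ord u) → IsRed1 A M p u f →
      (p : ℤ) ∣ ((Wb f : FFb A M) : LaurentSeries (kA A)).order

/-- **Contract [CUSP-A], strong form**: for every `D ∣ M` automorphisms `W_D` of the function
field of level `M p` and `W̄_D` of the special fibre field with `ord_∞ (W̄_D j̄) = - D`, compatible
with the first-component reduction (which is defined up to constants). -/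
def CuspAStatement : Prop :=
  ∀ D : ℕ, D ∣ M → ∃ (W : FF (M * p) ≃ₐ[Kb] FF (M * p)) (Wb : FFb A M ≃ₐ[kA A] FFb A M),
    ((Wb (jBar A M) : FFb A M) : LaurentSeries (kA A)).order = -(D : ℤ) ∧
    ∀ (u : FF (M * p)) (f : FFb A M), IsRed1 A M p u f → IsRed1 A M p (W u) (Wb f)

variable {A M p}

/-- the strong contract implies the weak one, by [CUSP-OO] -/
theorem cuspAOrd_of_cuspA (hp : p.Prime) (hpM : ¬ p ∣ M) (hA : A.LiesOverPrime p)
    (h : CuspAStatement A M p) : CuspAOrdStatement A M p := by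
  intro D hD
  obtain ⟨W, Wb, h1, h2⟩ := h D hD
  refine ⟨Wb, h1, fun u f hu hdiv hred => ?_⟩
  have hWu : W u ≠ 0 := (map_ne_zero_iff _ W.injective).2 hu
  exact dvd_order_of_isRed1 hp hpM hA hWu
    (Fermat.Agent.T8.helper81.dvd_ord_equiv W hdiv) (h2 u f hred)

/-- **[CUSP-GAP] at a squarefree level, all poles of `j̄`** (the place `∞` included). -/
theorem dvdPoles_of_cuspAOrd (hM : Squarefree M) (hp : p.Prime) (hpM : ¬ p ∣ M)
    (hA : A.LiesOverPrime p) (h : CuspAOrdStatement A M p)
    (u : FF (M * p)) (f : FFb A M) (hu : u ≠ 0)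
    (hdiv : ∀ P : Place Kb (FF (M * p)), (p : ℤ) ∣ P.ord u) (hred : IsRed1 A M p u f)
    (Q : Place (kA A) (FFb A M)) (hQ : Q.ord (jBar A M) < 0) : (p : ℤ) ∣ Q.ord f := by
  classical
  have hex : ∀ D : ℕ, ∃ Wb : FFb A M ≃ₐ[kA A] FFb A M, D ∣ M →
      (((Wb (jBar A M) : FFb A M) : LaurentSeries (kA A)).order = -(D : ℤ) ∧
      ∀ (u : FF (M * p)) (f : FFb A M), u ≠ 0 →
        (∀ P : Place Kb (FF (M * p)), (p : ℤ) ∣ P.ord u) → IsRed1 A M p u f →
        (p : ℤ) ∣ ((Wb f : FFb A M) : LaurentSeries (kA A)).order) := by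
    intro D
    by_cases hD : D ∣ M
    · obtain ⟨Wb, hWb⟩ := h D hD
      exact ⟨Wb, fun _ => hWb⟩
    · exact ⟨AlgEquiv.refl, fun hD' => absurd hD' hD⟩
  choose Wb hWb using hex
  obtain ⟨D, hD, rfl⟩ := cusp_eq_comap hM ⟨p, hp, hpM, hA⟩ Wb (fun D hD => (hWb D hD).1) Q hQ
  rw [ord_comap_infty _ _ hred.1]
  exact (hWb D hD).2 u f hu hdiv hred

theorem dvdPoles_of_cuspA (hM : Squarefree M) (hp : p.Prime) (hpM : ¬ p ∣ M)
    (hA : A.LiesOverPrime p) (h : CuspAStatement A M p)
    (u : FF (M * p)) (f : FFb A M) (hu : u ≠ 0)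
    (hdiv : ∀ P : Place Kb (FF (M * p)), (p : ℤ) ∣ P.ord u) (hred : IsRed1 A M p u f)
    (Q : Place (kA A) (FFb A M)) (hQ : Q.ord (jBar A M) < 0) : (p : ℤ) ∣ Q.ord f :=
  dvdPoles_of_cuspAOrd hM hp hpM hA (cuspAOrd_of_cuspA hp hpM hA h) u f hu hdiv hred Q hQ

/-- **[CUSP-GAP] at a squarefree level** in the form of the contract of helper81. -/
theorem cuspGap_squarefree (hM : Squarefree M) (hp : p.Prime) (hpM : ¬ p ∣ M)
    (hA : A.LiesOverPrime p) (h : CuspAOrdStatement A M p) :
    Fermat.Agent.T8.helper81.CuspGapStatement A M p :=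
  fun u f hu hdiv hred Q hQ _ => dvdPoles_of_cuspAOrd hM hp hpM hA h u f hu hdiv hred Q hQ

end Gap

end Fermat.Agent.T8.helper43

end
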