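import Mathlib
import Fermat.Agent.T8.helper54_Phi
import Fermat.Agent.T3.helper5_Gauss3C
import Fermat.Agent.T3.helper74_Sat3Defs
import Fermat.Agent.T8.helper14_CuspInfRed
import Fermat.Agent.T8.helper43_CuspCount

/-!
# T8 [CUSP-GAP], leaf [CUSP-A]: the NORM STEP for functions which are not inertia-fixed (helper14)

The transport of first-component reductions along an automorphism `W` of `FF (M q)`
(`helper48.CuspAut`) is proved for INERTIA-FIXED functions.  For a general function `u` only the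
ORDER at `∞` of the transported reduction is needed (`helper43.CuspAOrdStatement`), and it is
obtained from the inertia-fixed case by the norm over the (finite) inertia orbit of `u`:
the inertia group acts trivially on the residue field, so all conjugates of `u` have the same
reduction `f`; `U = ∏ σ u` is inertia-fixed with reduction `f ^ n`, and `W U = ∏ σ (W u)` has
reduction `f' ^ n`.

* `rhoQ_inertia`      : `RhoQ A g r ⟹ RhoQ A (σ g) r` for `σ` in the inertia group of `A`;
* `isRed1_galF`       : `IsRed1 u f ⟹ IsRed1 (σ u) f`;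
* `exists_norm_isRed1`: **the norm step** (contract of helper48, finding #3814);
* `order_eq_of_fixI_transport`, `dvd_order_of_fixI_transport` : inertia-fixed transport
                        ⟹ `ord_∞ (W̄ f) = ord_∞ f'` and `p ∣ ord_∞ (W̄ f)` for EVERY `u` with
                        `p ∣ div u` (the shape of `helper43.CuspAOrdStatement`).
-/

set_option autoImplicit false
set_option linter.unusedSectionVars false
set_option linter.unusedVariables false
set_option linter.style.longLine false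

noncomputable section

open HahnSeries IntermediateField AlgebraicCurve ModularCurve
open Fermat.Agent.S18.helper19 Fermat.Agent.P2.helper29 Fermat.Agent.P2.helper93

namespace Fermat.Agent.T8.helper14

open Fermat.Agent.T3.helper36 (RhoQ)
open Fermat.Agent.T8.helper54 (IsRed1)
open Fermat.Agent.T3.helper74 (IsFixI)

section Inertia

variable {A : ValuationSubring Kb}

/-- the reduction is invariant under the inertia group -/
theorem rhoQ_inertia {σ : Kb ≃ₐ[ℚ] Kb} (hσ : σ ∈ A.inertiaSubgroupIn ℚ)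
    {g : LaurentSeries Kb} {r : LaurentSeries (kA A)} (h : RhoQ A g r) :
    RhoQ A (coeffMap ((σ : Kb ≃ₐ[ℚ] Kb) : Kb →+* Kb) g) r := by
  obtain ⟨hσ', hid⟩ := decK_eq_id_of_mem_inertia hσ
  obtain ⟨Y₁, Y₂, h2, e, er⟩ := h
  have hred : ∀ Y : LaurentSeries A, red A (actA σ hσ' Y) = red A Y := by
    intro Y
    show coeffMap (IsLocalRing.residue A) (actA σ hσ' Y) = coeffMap (IsLocalRing.residue A) Y
    rw [coeffMap_residue_actA, hid, coeffMap_id]
  have hincl : ∀ Y : LaurentSeries A,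
      incl A (actA σ hσ' Y) = coeffMap ((σ : Kb ≃ₐ[ℚ] Kb) : Kb →+* Kb) (incl A Y) :=
    fun Y => coeffMap_subtype_actA σ hσ' Y
  refine ⟨actA σ hσ' Y₁, actA σ hσ' Y₂, by rw [hred]; exact h2, ?_, by rw [hred, hred]; exact er⟩
  rw [hincl, hincl, e, map_mul]

variable {N q : ℕ} [NeZero N] [NeZero q]

/-- the first-component reduction is invariant under the inertia group -/
theorem isRed1_galF {σ : Kb ≃ₐ[ℚ] Kb} (hσ : σ ∈ A.inertiaSubgroupIn ℚ)
    {u : FF (N * q)} {f : FFb A N} (h : IsRed1 A N q u f) :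
    IsRed1 A N q (galF (N * q) σ u) f := by
  obtain ⟨hf, κ, hκ, hr⟩ := h
  refine ⟨hf, σ κ, (map_ne_zero σ).mpr hκ, ?_⟩
  have h1 := rhoQ_inertia hσ hr
  rw [map_mul, coeffMap_algebraMap] at h1
  rw [coe_galF]
  have e : ((σ : Kb ≃ₐ[ℚ] Kb) : Kb →+* Kb) κ⁻¹ = (σ κ)⁻¹ := map_inv₀ σ κ
  rw [e] at h1
  exact h1

theorem isRed1_prod {ι : Type*} (s : Finset ι) (v : ι → FF (N * q)) (f : FFb A N)
    (hf : f ≠ 0) (h : ∀ i ∈ s, IsRed1 A N q (v i) f) :
    IsRed1 A N q (∏ i ∈ s, v i) (f ^ s.card) := by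
  classical
  induction s using Finset.induction_on with
  | empty =>
    rw [Finset.prod_empty, Finset.card_empty, pow_zero]
    exact Fermat.Agent.T8.helper54.isRed1_one
  | insert a s ha ih =>
    rw [Finset.prod_insert ha, Finset.card_insert_of_notMem ha, pow_succ, mul_comm]
    exact (ih fun i hi => h i (Finset.mem_insert_of_mem hi)).mul
      (h a (Finset.mem_insert_self a s))

end Inertia

section Norm

variable {A : ValuationSubring Kb} {M q : ℕ} [NeZero M] [NeZero q]

/-- **the norm step**: for every function `u` with first-component reduction `f`, and every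
automorphism `W` commuting with the Galois action with `IsRed1 (W u) f'`, there is an
inertia-fixed function `U` (the product over the inertia orbit of `u`) with
`IsRed1 U (f ^ n)` and `IsRed1 (W U) (f' ^ n)`, `n > 0`. -/
theorem exists_norm_isRed1_core (W : FF (M * q) ≃ₐ[Kb] FF (M * q))
    (hgal : ∀ (σ : Kb ≃ₐ[ℚ] Kb) (x : FF (M * q)),
      W (arithmeticRingAut (modularFunctionFieldFull (M * q)) σ x)
        = arithmeticRingAut (modularFunctionFieldFull (M * q)) σ (W x))
    (u : FF (M * q)) (f f' : FFb A M) (h1 : IsRed1 A M q u f)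
    (h2 : IsRed1 A M q (W u) f') :
    ∃ (n : ℕ) (U : FF (M * q)), 0 < n ∧ U ≠ 0 ∧ IsFixI A (M * q) U ∧
      IsRed1 A M q U (f ^ n) ∧ IsRed1 A M q (W U) (f' ^ n) := by
  classical
  set H : Subgroup (Kb ≃ₐ[ℚ] Kb) := A.inertiaSubgroupIn ℚ with hH
  set x : LaurentSeries Kb := (u : LaurentSeries Kb) with hx
  have hfin := Fermat.Agent.T3.helper5.finite_orbit H
    (Fermat.Agent.P3.helper85.exists_numberField_fixing_series (modularFunctionFieldFull (M * q)) u.2)
  set T : Finset (LaurentSeries Kb) := hfin.toFinset with hT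
  have hmemT : ∀ s, s ∈ T ↔ ∃ σ : H, coeffMap (((σ : Kb ≃ₐ[ℚ] Kb)) : Kb →+* Kb) x = s := by
    intro s
    rw [hT, Set.Finite.mem_toFinset]
    rfl
  have hxT : x ∈ T := (hmemT x).mpr ⟨1, Fermat.Agent.T3.helper5.coeffMap_gal_one x⟩
  -- a choice of representatives
  let τ : LaurentSeries Kb → H := fun s =>
    if h : ∃ σ : H, coeffMap (((σ : Kb ≃ₐ[ℚ] Kb)) : Kb →+* Kb) x = s then h.choose else 1
  have hτ : ∀ s ∈ T, coeffMap ((((τ s : H) : Kb ≃ₐ[ℚ] Kb)) : Kb →+* Kb) x = s := by
    intro s hs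
    have hex := (hmemT s).mp hs
    show coeffMap ((((if h : ∃ σ : H, coeffMap (((σ : Kb ≃ₐ[ℚ] Kb)) : Kb →+* Kb) x = s
      then h.choose else 1 : H) : Kb ≃ₐ[ℚ] Kb)) : Kb →+* Kb) x = s
    rw [dif_pos hex]
    exact hex.choose_spec
  -- the conjugates of `u`
  let v : LaurentSeries Kb → FF (M * q) := fun s => galF (M * q) ((τ s : H) : Kb ≃ₐ[ℚ] Kb) u
  have hv : ∀ s ∈ T, ((v s : FF (M * q)) : LaurentSeries Kb) = s := fun s hs => hτ s hs
  have hcoe : ((∏ s ∈ T, v s : FF (M * q)) : LaurentSeries Kb) = ∏ s ∈ T, s := by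
    have h0 : ((∏ s ∈ T, v s : FF (M * q)) : LaurentSeries Kb)
        = ∏ s ∈ T, ((v s : FF (M * q)) : LaurentSeries Kb) :=
      map_prod (FF (M * q)).val.toRingHom v T
    rw [h0]
    exact Finset.prod_congr rfl hv
  have hR1 : IsRed1 A M q (∏ s ∈ T, v s) (f ^ T.card) :=
    isRed1_prod T v f h1.1 fun s _ => isRed1_galF (τ s).2 h1
  have hWv : ∀ s, W (v s) = galF (M * q) ((τ s : H) : Kb ≃ₐ[ℚ] Kb) (W u) := fun s => hgal _ u
  have hR2 : IsRed1 A M q (W (∏ s ∈ T, v s)) (f' ^ T.card) := by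
    rw [map_prod]
    refine isRed1_prod T (fun s => W (v s)) f' h2.1 fun s _ => ?_
    show IsRed1 A M q (W (v s)) f'
    rw [hWv s]
    exact isRed1_galF (τ s).2 h2
  refine ⟨T.card, ∏ s ∈ T, v s, Finset.card_pos.mpr ⟨x, hxT⟩, hR1.ne_zero, ?_, hR1, hR2⟩
  -- the product is fixed by the inertia group
  intro σ hσ
  apply Subtype.ext
  show ((galF (M * q) σ (∏ s ∈ T, v s) : FF (M * q)) : LaurentSeries Kb) = _
  rw [coe_galF, hcoe, map_prod]
  have himg : T.image (coeffMap ((σ : Kb ≃ₐ[ℚ] Kb) : Kb →+* Kb)) = T := by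
    apply Finset.eq_of_subset_of_card_le
    · intro s hs
      obtain ⟨s', hs', rfl⟩ := Finset.mem_image.mp hs
      obtain ⟨ρ, rfl⟩ := (hmemT s').mp hs'
      refine (hmemT _).mpr ⟨⟨σ, hσ⟩ * ρ, ?_⟩
      exact Fermat.Agent.T3.helper5.coeffMap_gal_mul σ ρ x
    · rw [Finset.card_image_of_injective _ (Fermat.Agent.T3.helper5.coeffMap_gal_injective σ)]
  conv_rhs => rw [← himg]
  rw [Finset.prod_image fun a _ b _ hab => Fermat.Agent.T3.helper5.coeffMap_gal_injective σ hab]

/-- **the norm step**, in the shape of the contract of finding #3814. -/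
theorem exists_norm_isRed1 (hq : q.Prime) (hqM : ¬ q ∣ M) (hA : A.LiesOverPrime q)
    (W : FF (M * q) ≃ₐ[Kb] FF (M * q))
    (hgal : ∀ (σ : Kb ≃ₐ[ℚ] Kb) (x : FF (M * q)),
      W (arithmeticRingAut (modularFunctionFieldFull (M * q)) σ x)
        = arithmeticRingAut (modularFunctionFieldFull (M * q)) σ (W x))
    (u : FF (M * q)) (f f' : FFb A M) (h1 : IsRed1 A M q u f)
    (h2 : IsRed1 A M q (W u) f') :
    ∃ (n : ℕ) (U : FF (M * q)), 0 < n ∧ U ≠ 0 ∧ IsFixI A (M * q) U ∧
      IsRed1 A M q U (f ^ n) ∧ IsRed1 A M q (W U) (f' ^ n) :=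
  exists_norm_isRed1_core W hgal u f f' h1 h2

end Norm

section Transport

variable {A : ValuationSubring Kb} {M q : ℕ} [NeZero M] [NeZero q]

/-- **inertia-fixed transport ⟹ equality of the orders at `∞` for EVERY function**: if
`red₁ (W U) = W̄ (red₁ U)` (up to constants) for the inertia-fixed functions `U`, then
`ord_∞ (W̄ f) = ord_∞ f'` for every function `u` with reductions `f` of `u` and `f'` of `W u`. -/
theorem order_eq_of_fixI_transport (W : FF (M * q) ≃ₐ[Kb] FF (M * q))
    (hgal : ∀ (σ : Kb ≃ₐ[ℚ] Kb) (x : FF (M * q)),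
      W (arithmeticRingAut (modularFunctionFieldFull (M * q)) σ x)
        = arithmeticRingAut (modularFunctionFieldFull (M * q)) σ (W x))
    (Wb : FFb A M →+* FFb A M)
    (hI : ∀ (U : FF (M * q)) (F : FFb A M), IsFixI A (M * q) U → IsRed1 A M q U F →
      IsRed1 A M q (W U) (Wb F))
    {u : FF (M * q)} {f f' : FFb A M} (h1 : IsRed1 A M q u f)
    (h2 : IsRed1 A M q (W u) f') :
    ((Wb f : FFb A M) : LaurentSeries (kA A)).order = (f' : LaurentSeries (kA A)).order := by
  obtain ⟨n, U, hn, hU0, hfix, hr1, hr2⟩ := exists_norm_isRed1_core W hgal u f f' h1 h2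
  have ht := hI U (f ^ n) hfix hr1
  rw [map_pow] at ht
  obtain ⟨c, hc, e⟩ := ht.exists_const hr2
  have hWf0 : Wb f ≠ 0 := fun h0 => ht.1 (by rw [h0, zero_pow hn.ne'])
  have hWf : ((Wb f : FFb A M) : LaurentSeries (kA A)) ≠ 0 := fun h0 => hWf0 (Subtype.ext h0)
  have hf' : (f' : LaurentSeries (kA A)) ≠ 0 := h2.coe_ne_zero
  have e1 : (((Wb f) ^ n : FFb A M) : LaurentSeries (kA A))
      = ((Wb f : FFb A M) : LaurentSeries (kA A)) ^ n := rfl
  have e2 : ((algebraMap (kA A) (FFb A M) c * f' ^ n : FFb A M) : LaurentSeries (kA A))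
      = algebraMap (kA A) (LaurentSeries (kA A)) c * (f' : LaurentSeries (kA A)) ^ n := rfl
  have e3 : (((Wb f) ^ n : FFb A M) : LaurentSeries (kA A)).order
      = ((algebraMap (kA A) (FFb A M) c * f' ^ n : FFb A M) : LaurentSeries (kA A)).order := by
    rw [e]
  rw [e1, e2, order_const_mul hc (pow_ne_zero n hf'), order_pow_laurent hWf,
    order_pow_laurent hf'] at e3
  have hn0 : (n : ℤ) ≠ 0 := Int.natCast_ne_zero.mpr hn.ne'
  exact mul_left_cancel₀ hn0 e3

/-- **the norm step, consumer form**: inertia-fixed transport ⟹ `m ∣ ord_∞ (W̄ f)` for the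
first-component reduction `f` of EVERY function `u` whose divisor is divisible by `m`. -/
theorem dvd_order_of_fixI_transport (hq : q.Prime) (hqM : ¬ q ∣ M) (hA : A.LiesOverPrime q)
    (W : FF (M * q) ≃ₐ[Kb] FF (M * q))
    (hgal : ∀ (σ : Kb ≃ₐ[ℚ] Kb) (x : FF (M * q)),
      W (arithmeticRingAut (modularFunctionFieldFull (M * q)) σ x)
        = arithmeticRingAut (modularFunctionFieldFull (M * q)) σ (W x))
    (Wb : FFb A M →+* FFb A M)
    (hI : ∀ (U : FF (M * q)) (F : FFb A M), IsFixI A (M * q) U → IsRed1 A M q U F →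
      IsRed1 A M q (W U) (Wb F))
    (m : ℕ) (hm0 : m ≠ 0) (u : FF (M * q)) (f : FFb A M) (hu : u ≠ 0)
    (hdiv : ∀ P : Place Kb (FF (M * q)), (m : ℤ) ∣ P.ord u) (hred : IsRed1 A M q u f) :
    (m : ℤ) ∣ ((Wb f : FFb A M) : LaurentSeries (kA A)).order := by
  have hWu : W u ≠ 0 := (map_ne_zero_iff _ W.injective).2 hu
  obtain ⟨f', hf'⟩ := Fermat.Agent.T8.helper54.exists_isRed1 hq hqM hA hWu
  rw [order_eq_of_fixI_transport W hgal Wb hI hred hf']
  refine dvd_order_of_isRed1 M q hq hqM A hA m hm0 (W u) hWu (fun P => ?_) f' hf'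
  have := hdiv (Fermat.Agent.T3.helper23.placeComap W P)
  rwa [Fermat.Agent.T3.helper23.ord_placeComap] at this

/-- **Contract [CUSP-A], inertia-fixed form**: for every `D ∣ M` automorphisms `W_D` (commuting
with the Galois action) and `W̄_D` with `ord_∞ (W̄_D j̄) = - D`, compatible with the
first-component reduction of the INERTIA-FIXED functions. -/
def CuspAFixStatement (A : ValuationSubring Kb) (M p : ℕ) [NeZero M] [NeZero p] : Prop :=
  ∀ D : ℕ, D ∣ M → ∃ (W : FF (M * p) ≃ₐ[Kb] FF (M * p)) (Wb : FFb A M ≃ₐ[kA A] FFb A M),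
    (∀ (σ : Kb ≃ₐ[ℚ] Kb) (x : FF (M * p)),
      W (arithmeticRingAut (modularFunctionFieldFull (M * p)) σ x)
        = arithmeticRingAut (modularFunctionFieldFull (M * p)) σ (W x)) ∧
    ((Wb (jBar A M) : FFb A M) : LaurentSeries (kA A)).order = -(D : ℤ) ∧
    ∀ (U : FF (M * p)) (F : FFb A M), IsFixI A (M * p) U → IsRed1 A M p U F →
      IsRed1 A M p (W U) (Wb F)

/-- the inertia-fixed contract implies the weak contract `helper43.CuspAOrdStatement`. -/
theorem cuspAOrd_of_cuspAFix (hq : q.Prime) (hqM : ¬ q ∣ M) (hA : A.LiesOverPrime q)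
    (h : CuspAFixStatement A M q) : Fermat.Agent.T8.helper43.CuspAOrdStatement A M q := by
  intro D hD
  obtain ⟨W, Wb, hgal, h1, hI⟩ := h D hD
  refine ⟨Wb, h1, fun u f hu hdiv hred => ?_⟩
  exact dvd_order_of_fixI_transport hq hqM hA W hgal (Wb : FFb A M →+* FFb A M)
    (fun U F hU hF => hI U F hU hF) q (NeZero.ne q) u f hu hdiv hred

end Transport

end Fermat.Agent.T8.helper14

end
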