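import Mathlib
import Fermat.Agent.S24.helper17_Bridge
import Fermat.Agent.S24.helper77_PolyInJ
import Fermat.Agent.S16.helper85_DerivQExp
import Fermat.Agent.S20.helper29_LevelOneMF
import Fermat.Agent.S20.helper66_Res
import Fermat.Prelude.Thm_ModularCurve_coeff_jqModC_pow_of_lt
import Fermat.Prelude.Thm_ModularCurve_coeff_jqModC_pow_self

/-!
# T8 [F3-EXIT] leaf 3 [CUSP-ANN], analytic core by TRACE TO LEVEL ONE (helper21)

No Kaehler differentials, no residue theorem, no elliptic points.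

* `isQExp_D` : if `S` is the `q`-expansion of `s` (pole at `∞` allowed), then `D s` has a
  `q`-expansion `S'` with `S'.coeff n = n * S.coeff n`.
* `levelOne_coeff_zero` : **level one lemma** - a holomorphic function `G` on `ℍ` which is
  invariant of weight `2` under `SL(2, ℤ)` and has a `q`-expansion `S` (pole at `∞` allowed)
  satisfies `S.coeff 0 = 0`.  (Induction on the pole order, subtracting multiples of
  `D (j ^ m)`; the base case is `M₂(SL(2, ℤ)) = 0`.)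
* `traceCore` : the same for a function `F` invariant of weight `2` under `Γ₀(N)` all of whose
  translates `F ∣[2] γ`, `γ ∉ Γ₀(N)`, vanish at `i∞` (trace to level one: only the identity coset
  lies over the cusp `∞`).
* `cuspAnn_core` : for a weight `2` cusp form `g` of level `Γ₀(N)` with `q`-expansion `Gq` and a
  holomorphic `Γ₀(N)`-invariant function `h` with `q`-expansion `H` whose translates `h ∘ γ`,
  `γ ∉ Γ₀(N)`, are bounded at `i∞` :  `(H * Gq).coeff 0 = 0`.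
-/

set_option autoImplicit false
set_option linter.unusedSectionVars false
set_option linter.style.longLine false
set_option linter.unusedVariables false
set_option linter.style.haveILetI false

noncomputable section

open UpperHalfPlane ModularForm Function Filter Derivative CongruenceSubgroup
open scoped MatrixGroups Manifold Topology

namespace Fermat.Agent.T8.helper21

open Fermat.Agent.S24 Fermat.Agent.S24.helper17

local notation "𝕢" => Periodic.qParam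

/-! ### The normalised derivative on `q`-expansions -/

/-- `D` preserves nice functions. -/
theorem isNice_D {f : ℍ → ℂ} (hf : IsNice f) : IsNice (D f) where
  periodic :=
    Fermat.Agent.S16.helper85.periodic_normalizedDeriv one_pos hf.periodic hf.mdiff hf.bdd
  mdiff := normalizedDerivOfComplex_mdifferentiable hf.mdiff
  bdd :=
    Fermat.Agent.S16.helper85.isBoundedAtImInfty_normalizedDeriv one_pos hf.periodic hf.mdiff
      hf.bdd

/-- the `q`-expansion of `D f` -/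
theorem qExpansion_D_coeff {f : ℍ → ℂ} (hf : IsNice f) (m : ℕ) :
    (qExpansion 1 (D f)).coeff m = (m : ℂ) * (qExpansion 1 f).coeff m := by
  have := Fermat.Agent.S16.helper85.qExpansion_normalizedDeriv_coeff one_pos hf.periodic
    hf.mdiff hf.bdd m
  simpa using this

/-- `D (q ^ M) = M q ^ M` -/
theorem D_qParam_pow (M : ℕ) :
    D (fun τ : ℍ => 𝕢 1 τ ^ M) = fun τ : ℍ => (M : ℂ) * 𝕢 1 τ ^ M := by
  funext τ
  have hn := isNice_qParam_pow M
  have h1 := Fermat.Agent.S16.helper85.hasSum_normalizedDeriv one_pos hn.periodic hn.mdiff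
    hn.bdd τ
  rw [qExpansion_qParam_pow] at h1
  have h2 : HasSum (fun m : ℕ => if m = M then (M : ℂ) * 𝕢 1 (τ : ℂ) ^ M else 0)
      ((M : ℂ) * 𝕢 1 (τ : ℂ) ^ M) := hasSum_ite_eq M _
  have h3 : (fun m : ℕ => ((m : ℂ) / ((1 : ℝ) : ℂ) *
      (PowerSeries.coeff m) ((PowerSeries.X : PowerSeries ℂ) ^ M)) • 𝕢 1 (τ : ℂ) ^ m)
      = fun m : ℕ => if m = M then (M : ℂ) * 𝕢 1 (τ : ℂ) ^ M else 0 := by
    funext m
    rw [PowerSeries.coeff_X_pow]
    by_cases hm : m = M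
    · subst hm
      simp
    · simp [hm]
  rw [h3] at h1
  exact h1.unique h2

/-- coefficients of a `q`-expansion in terms of the power series -/
theorem coeff_of_single_mul {M : ℕ} {P : PowerSeries ℂ} {S : LaurentSeries ℂ}
    (he : HahnSeries.ofPowerSeries ℤ ℂ P = HahnSeries.single (M : ℤ) 1 * S) (n : ℤ) :
    S.coeff n = (HahnSeries.ofPowerSeries ℤ ℂ P).coeff (n + M) := by
  rw [he, HahnSeries.coeff_single_mul_add, one_mul]

theorem ofPowerSeries_coeff_neg (P : PowerSeries ℂ) {n : ℤ} (hn : n < 0) :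
    (HahnSeries.ofPowerSeries ℤ ℂ P).coeff n = 0 :=
  ModularCurve.ofPowerSeries_coeff_of_neg _ hn

theorem ofPowerSeries_coeff_nat (P : PowerSeries ℂ) (k : ℕ) :
    (HahnSeries.ofPowerSeries ℤ ℂ P).coeff (k : ℤ) = P.coeff k :=
  HahnSeries.ofPowerSeries_apply_coeff _ _

/-- **the `q`-expansion of the derivative** -/
theorem isQExp_D {S : LaurentSeries ℂ} {s : ℍ → ℂ} (h : IsQExp S s) :
    ∃ S' : LaurentSeries ℂ, IsQExp S' (D s) ∧ ∀ n : ℤ, S'.coeff n = (n : ℂ) * S.coeff n := by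
  have hs : MDiff s := h.mdiff
  obtain ⟨M, hn, he⟩ := h
  have hqM : MDiff (fun τ : ℍ => 𝕢 1 τ ^ M) := (isNice_qParam_pow M).mdiff
  have hDu : D (fun τ : ℍ => 𝕢 1 τ ^ M * s τ) =
      fun τ : ℍ => (M : ℂ) * (𝕢 1 τ ^ M * s τ) + 𝕢 1 τ ^ M * D s τ := by
    have h1 := normalizedDerivOfComplex_mul (fun τ : ℍ => 𝕢 1 τ ^ M) s hqM hs
    have h2 : ((fun τ : ℍ => 𝕢 1 τ ^ M) * s) = fun τ : ℍ => 𝕢 1 τ ^ M * s τ := rfl
    rw [h2, D_qParam_pow] at h1
    rw [h1]
    funext τ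
    simp only [Pi.add_apply, Pi.mul_apply]
    ring
  -- `w = D u - M u = q ^ M * D s`
  have hw : IsNice (D (fun τ : ℍ => 𝕢 1 τ ^ M * s τ) +
      (fun _ : ℍ => (-(M : ℂ))) * (fun τ : ℍ => 𝕢 1 τ ^ M * s τ)) :=
    (isNice_D hn).add ((IsNice.const _).mul hn)
  have hwe : (D (fun τ : ℍ => 𝕢 1 τ ^ M * s τ) +
      (fun _ : ℍ => (-(M : ℂ))) * (fun τ : ℍ => 𝕢 1 τ ^ M * s τ))
      = fun τ : ℍ => 𝕢 1 τ ^ M * D s τ := by
    rw [hDu]
    funext τ
    simp only [Pi.add_apply, Pi.mul_apply]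
    ring
  have hwq : qExpansion 1 (fun τ : ℍ => 𝕢 1 τ ^ M * D s τ) =
      qExpansion 1 (D (fun τ : ℍ => 𝕢 1 τ ^ M * s τ)) +
        PowerSeries.C (-(M : ℂ)) * qExpansion 1 (fun τ : ℍ => 𝕢 1 τ ^ M * s τ) := by
    rw [← hwe, (isNice_D hn).qExpansion_add ((IsNice.const _).mul hn),
      (IsNice.const _).qExpansion_mul hn, qExpansion_const]
  rw [hwe] at hw
  refine ⟨HahnSeries.single (-(M : ℤ)) 1 *
    HahnSeries.ofPowerSeries ℤ ℂ (qExpansion 1 (fun τ : ℍ => 𝕢 1 τ ^ M * D s τ)),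
    ⟨M, hw, ?_⟩, ?_⟩
  · rw [← mul_assoc, HahnSeries.single_mul_single, add_neg_cancel, mul_one]
    exact (one_mul _).symm
  · intro n
    rw [HahnSeries.coeff_single_mul, one_mul, sub_neg_eq_add, coeff_of_single_mul he n]
    rcases lt_or_ge (n + M) 0 with hk | hk
    · rw [ofPowerSeries_coeff_neg _ hk, ofPowerSeries_coeff_neg _ hk, mul_zero]
    · obtain ⟨k, hk'⟩ := Int.eq_ofNat_of_zero_le hk
      rw [hk', ofPowerSeries_coeff_nat, ofPowerSeries_coeff_nat, hwq, map_add,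
        PowerSeries.coeff_C_mul, qExpansion_D_coeff hn]
      have hn' : (n : ℂ) = (k : ℂ) - (M : ℂ) := by
        have : n = (k : ℤ) - (M : ℤ) := by omega
        rw [this]
        push_cast
        ring
      rw [hn']
      ring

/-! ### `D (j ^ m)` -/

/-- `j ^ m` is invariant of weight `0` -/
theorem jpow_slash (m : ℕ) (γ : SL(2, ℤ)) : (jfun ^ m) ∣[(0 : ℤ)] γ = jfun ^ m := by
  funext τ
  rw [SL_slash_apply]
  simp only [Pi.pow_apply, neg_zero, zpow_zero, mul_one]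
  exact congrArg (· ^ m) (Fermat.Agent.S24.helper77.jfun_smul γ τ)

theorem mdiff_jpow (m : ℕ) : MDiff (jfun ^ m) := (isQExp_jfun.pow m).mdiff

/-- `D (j ^ m)` is invariant of weight `2` -/
theorem D_jpow_slash (m : ℕ) (γ : SL(2, ℤ)) :
    (D (jfun ^ m)) ∣[(2 : ℤ)] γ = D (jfun ^ m) := by
  have h := normalizedDerivOfComplex_SL_slash (k := 0) (mdiff_jpow m) (γ := γ)
  rw [jpow_slash] at h
  funext τ
  have h' := congrFun h τ
  simp only [Pi.sub_apply, Int.cast_zero, zero_mul, sub_zero, zero_add] at h'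
  exact h'.symm

/-- the `q`-expansion of `D (j ^ m)` : lowest term `- m q ^ (-m)`, constant term `0` -/
theorem exists_theta (m : ℕ) : ∃ Θ : LaurentSeries ℂ, IsQExp Θ (D (jfun ^ m)) ∧ Θ.coeff 0 = 0 ∧
    Θ.coeff (-(m : ℤ)) = -(m : ℂ) ∧ ∀ n : ℤ, n < -(m : ℤ) → Θ.coeff n = 0 := by
  obtain ⟨Θ, h1, h2⟩ := isQExp_D (isQExp_jfun.pow m)
  refine ⟨Θ, h1, ?_, ?_, ?_⟩
  · rw [h2]
    simp
  · rw [h2, ModularCurve.coeff_jqModC_pow_self]
    push_cast
    ring
  · intro n hn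
    rw [h2, ModularCurve.coeff_jqModC_pow_of_lt ℂ hn, mul_zero]

/-! ### The level one lemma -/

/-- a function with a `q`-expansion without polar part is bounded at `i∞` -/
theorem isBounded_of_isQExp {S : LaurentSeries ℂ} {G : ℍ → ℂ} (h : IsQExp S G)
    (h0 : ∀ n : ℤ, n < 0 → S.coeff n = 0) : IsBoundedAtImInfty G := by
  obtain ⟨M, hn, he⟩ := h
  have ha : ∀ k : ℕ, k < M →
      (qExpansion 1 (fun τ : ℍ => 𝕢 1 τ ^ M * G τ)).coeff k = 0 := by
    intro k hk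
    rw [← ofPowerSeries_coeff_nat]
    have := coeff_of_single_mul he ((k : ℤ) - M)
    rw [sub_add_cancel] at this
    rw [← this]
    exact h0 _ (by omega)
  refine isBoundedAtImInfty_of_hasSum_qExpansion (h := 1)
    (c := fun j => (qExpansion 1 (fun τ : ℍ => 𝕢 1 τ ^ M * G τ)).coeff (j + M)) one_pos
    fun τ => ?_
  have h1 := hn.hasSum τ
  have h2 := (hasSum_nat_add_iff' M).mpr h1
  have h3 : ∑ i ∈ Finset.range M,
      (qExpansion 1 (fun τ : ℍ => 𝕢 1 τ ^ M * G τ)).coeff i • 𝕢 1 (τ : ℂ) ^ i = 0 :=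
    Finset.sum_eq_zero fun i hi => by rw [ha i (Finset.mem_range.mp hi), zero_smul]
  rw [h3, sub_zero] at h2
  have hq : 𝕢 1 (τ : ℂ) ^ M ≠ 0 := pow_ne_zero _ (Periodic.qParam_ne_zero _)
  have h4 := h2.mul_right ((𝕢 1 (τ : ℂ) ^ M)⁻¹)
  have e1 : (fun j : ℕ => (qExpansion 1 (fun τ : ℍ => 𝕢 1 τ ^ M * G τ)).coeff (j + M) •
      𝕢 1 (τ : ℂ) ^ j) = fun j : ℕ =>
      (qExpansion 1 (fun τ : ℍ => 𝕢 1 τ ^ M * G τ)).coeff (j + M) • 𝕢 1 (τ : ℂ) ^ (j + M) *
        (𝕢 1 (τ : ℂ) ^ M)⁻¹ := by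
    funext j
    simp only [smul_eq_mul]
    rw [pow_add]
    field_simp
  have e2 : 𝕢 1 (τ : ℂ) ^ M * G τ * (𝕢 1 (τ : ℂ) ^ M)⁻¹ = G τ := by
    field_simp
  rw [e1]
  rw [e2] at h4
  exact h4

/-- auxiliary form of the level one lemma, by induction on the pole order -/
theorem levelOne_aux (m : ℕ) : ∀ (G : ℍ → ℂ) (S : LaurentSeries ℂ), IsQExp S G →
    (∀ γ : SL(2, ℤ), G ∣[(2 : ℤ)] γ = G) → (∀ n : ℤ, n < -(m : ℤ) → S.coeff n = 0) →
    S.coeff 0 = 0 := by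
  induction m with
  | zero =>
    intro G S hS hinv h0
    have hb : IsBoundedAtImInfty G := isBounded_of_isQExp hS (by simpa using h0)
    have hMF : Fermat.Agent.S20.IsMF 1 2 G :=
      ⟨fun γ _ => hinv γ, hS.mdiff, fun γ => by rw [hinv γ]; exact hb⟩
    have hG : G = 0 := Fermat.Agent.S20.helper29.isMF_one_eq_zero_of_weight_two hMF
    have hS0 : S = 0 := hS.eq_zero_iff.mpr hG
    rw [hS0]
    simp
  | succ m ih =>
    intro G S hS hinv h0
    obtain ⟨Θ, hΘ, hΘ0, hΘm, hΘlt⟩ := exists_theta (m + 1)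
    have hm1 : ((m + 1 : ℕ) : ℂ) ≠ 0 := by exact_mod_cast Nat.succ_ne_zero m
    set c : ℂ := S.coeff (-((m + 1 : ℕ) : ℤ)) / ((m + 1 : ℕ) : ℂ) with hc
    have hS' : IsQExp (S + HahnSeries.C c * Θ) (G + (fun _ : ℍ => c) * D (jfun ^ (m + 1))) :=
      hS.add ((IsQExp.const c).mul hΘ)
    have hinv' : ∀ γ : SL(2, ℤ), (G + (fun _ : ℍ => c) * D (jfun ^ (m + 1))) ∣[(2 : ℤ)] γ
        = G + (fun _ : ℍ => c) * D (jfun ^ (m + 1)) := by
      intro γ
      rw [SlashAction.add_slash, hinv γ]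
      congr 1
      have e : ((fun _ : ℍ => c) * D (jfun ^ (m + 1))) = c • D (jfun ^ (m + 1)) := by
        funext τ
        simp
      rw [e, SL_smul_slash, D_jpow_slash]
    have hcoeff : ∀ n : ℤ, (S + HahnSeries.C c * Θ).coeff n = S.coeff n + c * Θ.coeff n := by
      intro n
      rw [HahnSeries.coeff_add, HahnSeries.C_mul_eq_smul, HahnSeries.coeff_smul, smul_eq_mul]
    have hlow : ∀ n : ℤ, n < -(m : ℤ) → (S + HahnSeries.C c * Θ).coeff n = 0 := by
      intro n hn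
      rw [hcoeff]
      rcases lt_or_eq_of_le (show n ≤ -((m + 1 : ℕ) : ℤ) by push_cast; omega) with h1 | h1
      · rw [h0 n h1, hΘlt n h1, mul_zero, add_zero]
      · rw [h1, hΘm, hc]
        field_simp
        ring
    have h := ih _ _ hS' hinv' hlow
    rw [hcoeff, hΘ0, mul_zero, add_zero] at h
    exact h

/-- **Level one lemma.** A holomorphic function on `ℍ`, invariant of weight `2` under
`SL(2, ℤ)`, with a `q`-expansion `S` at `∞` (a pole is allowed): the constant term of `S`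
vanishes. -/
theorem levelOne_coeff_zero {G : ℍ → ℂ} {S : LaurentSeries ℂ} (hS : IsQExp S G)
    (hinv : ∀ γ : SL(2, ℤ), G ∣[(2 : ℤ)] γ = G) : S.coeff 0 = 0 := by
  obtain ⟨M, hn, he⟩ := id hS
  refine levelOne_aux M G S hS hinv fun n hn' => ?_
  rw [coeff_of_single_mul he n]
  exact ofPowerSeries_coeff_neg _ (by omega)

/-! ### Trace to level one -/

section trace

open Fermat.Agent.S20

variable {N : ℕ} [NeZero N]

theorem mdiff_slash_SL {f : ℍ → ℂ} (h : MDiff f) (k : ℤ) (g : SL(2, ℤ)) : MDiff (f ∣[k] g) := by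
  rw [SL_slash]
  exact h.slash k _

theorem T_mem_Gamma0' (N : ℕ) : ModularGroup.T ∈ Gamma0 N := by
  rw [Gamma0_mem]
  simp [ModularGroup.T]

/-- the trace of a `Γ₀(N)`-invariant function is `SL(2, ℤ)`-invariant -/
theorem trace_slash' {k : ℤ} {f : ℍ → ℂ} (hf : ∀ γ ∈ Gamma0 N, f ∣[k] γ = f) (γ : SL(2, ℤ)) :
    (∑ x : S20.X0 N, cj N k f x) ∣[k] γ = ∑ x : S20.X0 N, cj N k f x := by
  rw [SlashAction.sum_slash]
  simp only [cj_slash hf]
  exact Equiv.sum_comp (MulAction.toPerm (γ⁻¹ : SL(2, ℤ))) (fun x : S20.X0 N => cj N k f x)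

theorem cj_one {k : ℤ} {f : ℍ → ℂ} (hf : ∀ γ ∈ Gamma0 N, f ∣[k] γ = f) :
    cj N k f (QuotientGroup.mk 1 : S20.X0 N) = f := by
  rw [cj_mk hf, inv_one, SlashAction.slash_one]

theorem isZero_cj_of_ne {f : ℍ → ℂ} (hf : ∀ γ ∈ Gamma0 N, f ∣[(2 : ℤ)] γ = f)
    (hz : ∀ γ : SL(2, ℤ), γ ∉ Gamma0 N → IsZeroAtImInfty (f ∣[(2 : ℤ)] γ))
    (x : S20.X0 N) (hx : x ≠ (QuotientGroup.mk 1 : S20.X0 N)) : IsZeroAtImInfty (cj N 2 f x) := by
  induction x using QuotientGroup.induction_on with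
  | H g =>
    rw [cj_mk hf]
    refine hz _ fun hg => hx ?_
    rw [QuotientGroup.eq]
    simpa using hg

/-- **Trace core.** A holomorphic function `F` on `ℍ`, invariant of weight `2` under `Γ₀(N)`,
with a `q`-expansion `S` at `∞` (a pole is allowed), all of whose translates `F ∣[2] γ`,
`γ ∉ Γ₀(N)`, vanish at `i∞` : the constant term of `S` vanishes. -/
theorem traceCore {F : ℍ → ℂ} {S : LaurentSeries ℂ} (hS : IsQExp S F)
    (hinv : ∀ γ ∈ Gamma0 N, F ∣[(2 : ℤ)] γ = F)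
    (hz : ∀ γ : SL(2, ℤ), γ ∉ Gamma0 N → IsZeroAtImInfty (F ∣[(2 : ℤ)] γ)) :
    S.coeff 0 = 0 := by
  classical
  have hF : MDiff F := hS.mdiff
  set x1 : S20.X0 N := QuotientGroup.mk 1 with hx1
  set R : ℍ → ℂ := ∑ x ∈ Finset.univ.erase x1, cj N 2 F x with hR
  have hT : (∑ x : S20.X0 N, cj N 2 F x) = F + R := by
    rw [hR, ← Finset.add_sum_erase Finset.univ (fun x => cj N 2 F x) (Finset.mem_univ x1),
      hx1, cj_one hinv]
  have hTinv : ∀ γ : SL(2, ℤ), (F + R) ∣[(2 : ℤ)] γ = F + R := by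
    intro γ
    rw [← hT]
    exact trace_slash' hinv γ
  -- `R` vanishes at `i∞`
  have hRz : IsZeroAtImInfty R := by
    rw [hR]
    show Tendsto (∑ x ∈ Finset.univ.erase x1, cj N 2 F x) atImInfty (𝓝 0)
    have h0 : (0 : ℂ) = ∑ x ∈ Finset.univ.erase x1, (0 : ℂ) := by simp
    rw [h0, Finset.sum_fn]
    refine tendsto_finsetSum _ fun x hx => ?_
    exact isZero_cj_of_ne hinv hz x (Finset.ne_of_mem_erase hx)
  have hRm : MDiff R := by
    rw [hR]
    exact MDifferentiable.sum fun x _ => mdiff_slash_SL hF _ _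
  -- periodicity
  have hFper : ∀ τ : ℍ, F ((1 : ℝ) +ᵥ τ) = F τ := by
    intro τ
    rw [← Fermat.Agent.S20.helper66.slash_T_apply F 2 τ, hinv _ (T_mem_Gamma0' N)]
  have hTper : ∀ τ : ℍ, (F + R) ((1 : ℝ) +ᵥ τ) = (F + R) τ := by
    intro τ
    rw [← Fermat.Agent.S20.helper66.slash_T_apply (F + R) 2 τ, hTinv]
  have hRper : ∀ τ : ℍ, R ((1 : ℝ) +ᵥ τ) = R τ := by
    intro τ
    have h1 := hTper τ
    simp only [Pi.add_apply] at h1
    rw [hFper τ] at h1
    exact add_left_cancel h1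
  have hRn : IsNice R :=
    ⟨Fermat.Agent.S20.helper66.periodic_of_vadd hRper, hRm, hRz.isBoundedAtImInfty⟩
  have hRq : IsQExp (HahnSeries.ofPowerSeries ℤ ℂ (qExpansion 1 R)) R := IsQExp.of_isNice hRn
  have hR0 : (HahnSeries.ofPowerSeries ℤ ℂ (qExpansion 1 R)).coeff 0 = 0 := by
    have h1 := ofPowerSeries_coeff_nat (qExpansion 1 R) 0
    rw [Nat.cast_zero] at h1
    rw [h1, qExpansion_coeff_zero one_pos hRn.analyticAt hRn.periodic,
      hRz.valueAtInfty_eq_zero]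
  have h := levelOne_coeff_zero (hS.add hRq) hTinv
  rw [HahnSeries.coeff_add, hR0, add_zero] at h
  exact h

/-! ### The cusp form case -/

/-- a cusp form of level `Γ₀(N)` is nice -/
theorem isNice_cuspForm (g : CuspForm (Gamma0 N) 2) : IsNice (g : ℍ → ℂ) := by
  have hg := isCF_coe g
  refine ⟨Fermat.Agent.S20.helper66.periodic_of_vadd fun τ => ?_, hg.holo, ?_⟩
  · rw [← Fermat.Agent.S20.helper66.slash_T_apply (g : ℍ → ℂ) 2 τ, hg.slash _ (T_mem_Gamma0' N)]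
  · have := (hg.zero 1).isBoundedAtImInfty
    rwa [SlashAction.slash_one] at this

/-- the `q`-expansion of a cusp form, as a Laurent series -/
def cuspQ (g : CuspForm (Gamma0 N) 2) : LaurentSeries ℂ :=
  HahnSeries.ofPowerSeries ℤ ℂ (qExpansion 1 (g : ℍ → ℂ))

theorem isQExp_cuspQ (g : CuspForm (Gamma0 N) 2) : IsQExp (cuspQ g) (g : ℍ → ℂ) :=
  IsQExp.of_isNice (isNice_cuspForm g)

theorem cuspQ_coeff_nat (g : CuspForm (Gamma0 N) 2) (k : ℕ) :
    (cuspQ g).coeff (k : ℤ) = (qExpansion 1 (g : ℍ → ℂ)).coeff k :=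
  ofPowerSeries_coeff_nat _ k

/-- **[CUSP-ANN], analytic core.**  `g` a weight `2` cusp form of level `Γ₀(N)`, `h` a
holomorphic `Γ₀(N)`-invariant function on `ℍ` with `q`-expansion `H` at `∞` (a pole is allowed)
whose translates `h ∣[0] γ` (`= h ∘ γ`), `γ ∉ Γ₀(N)`, are bounded at `i∞`.  Then the constant term
of `H * g` vanishes. -/
theorem cuspAnn_core (g : CuspForm (Gamma0 N) 2) {Gq H : LaurentSeries ℂ} {h : ℍ → ℂ}
    (hG : IsQExp Gq (g : ℍ → ℂ)) (hH : IsQExp H h)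
    (hinv : ∀ γ ∈ Gamma0 N, h ∣[(0 : ℤ)] γ = h)
    (hb : ∀ γ : SL(2, ℤ), γ ∉ Gamma0 N → IsBoundedAtImInfty (h ∣[(0 : ℤ)] γ)) :
    (H * Gq).coeff 0 = 0 := by
  have hg := isCF_coe g
  have hmul : ∀ γ : SL(2, ℤ), (h * (g : ℍ → ℂ)) ∣[(2 : ℤ)] γ
      = h ∣[(0 : ℤ)] γ * (g : ℍ → ℂ) ∣[(2 : ℤ)] γ := by
    intro γ
    have := mul_slash_SL2 0 2 γ h (g : ℍ → ℂ)
    rwa [zero_add] at this
  refine traceCore (N := N) (hH.mul hG) (fun γ hγ => ?_) fun γ hγ => ?_
  · rw [hmul, hinv γ hγ, hg.slash γ hγ]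
  · rw [hmul]
    exact (hb γ hγ).mul_zeroAtFilter (hg.zero γ)

/-- `cuspAnn_core` with the canonical `q`-expansion of `g` -/
theorem cuspAnn_core' (g : CuspForm (Gamma0 N) 2) {H : LaurentSeries ℂ} {h : ℍ → ℂ}
    (hH : IsQExp H h) (hinv : ∀ γ ∈ Gamma0 N, h ∣[(0 : ℤ)] γ = h)
    (hb : ∀ γ : SL(2, ℤ), γ ∉ Gamma0 N → IsBoundedAtImInfty (h ∣[(0 : ℤ)] γ)) :
    (H * cuspQ g).coeff 0 = 0 :=
  cuspAnn_core g (isQExp_cuspQ g) hH hinv hb

/-- weight `0` slash is composition -/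
theorem slash_zero_apply (h : ℍ → ℂ) (γ : SL(2, ℤ)) (τ : ℍ) :
    (h ∣[(0 : ℤ)] γ) τ = h (γ • τ) := by
  rw [SL_slash_apply]
  simp

/-- `cuspAnn_core'` in pointwise form -/
theorem cuspAnn_core_pointwise (g : CuspForm (Gamma0 N) 2) {H : LaurentSeries ℂ} {h : ℍ → ℂ}
    (hH : IsQExp H h) (hinv : ∀ γ ∈ Gamma0 N, ∀ τ : ℍ, h (γ • τ) = h τ)
    (hb : ∀ γ : SL(2, ℤ), γ ∉ Gamma0 N → IsBoundedAtImInfty (fun τ : ℍ => h (γ • τ))) :
    (H * cuspQ g).coeff 0 = 0 := by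
  refine cuspAnn_core' g hH (fun γ hγ => ?_) fun γ hγ => ?_
  · funext τ
    rw [slash_zero_apply, hinv γ hγ τ]
  · have e : h ∣[(0 : ℤ)] γ = fun τ : ℍ => h (γ • τ) := funext fun τ => slash_zero_apply h γ τ
    rw [e]
    exact hb γ hγ

end trace

end Fermat.Agent.T8.helper21

end
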