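import Fermat.Agent.T8.helper51_AnnCusp
import Fermat.Agent.S24.helper17_Bridge

/-!
# T8 (row 38), [F3-EXIT], leaf [CUSP-ANN]: assembly of the analytic core and of the dictionary
(helper51)

The characteristic `0` leaf [CUSP-ANN] (`helper51.CuspAnnStatement L`, the only open input of
`helper51.modularRepOfLevel_of_mem_annRb_char0`) is split by its provers into

* the analytic CORE (trace to level one): `CuspAnnCoreStatement L`,
  for `H` holomorphic on the upper half plane, `Γ₀(L)`-invariant, bounded at `i∞` after every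
  `γ ∉ Γ₀(L)`, with `q`-expansion `hq` at `∞`, and `g` a cusp form of weight `2` and level `L`:
  `a₀(hq · g) = 0`;
* the dictionary (REAL): `CuspAnnRealStatement L`, every `h ∈ L(n ∞)` of `FF L` is the
  `q`-expansion of such an `H`.

`cuspAnn_of_core_real : CuspAnnCoreStatement L → CuspAnnRealStatement L → CuspAnnStatement L`.
-/

set_option autoImplicit false
set_option synthInstance.maxHeartbeats 400000

open ModularCurve CuspForm CongruenceSubgroup ModularFormClass UpperHalfPlane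
open scoped Manifold MatrixGroups

noncomputable section

namespace Fermat.Agent.T8.helper51

open HahnSeries
open Fermat.Agent.S18.helper19 Fermat.Agent.P2.helper29

/-- The analytic CORE of [CUSP-ANN]. -/
def CuspAnnCoreStatement (L : ℕ) : Prop :=
  ∀ (H : ℍ → ℂ) (hq : LaurentSeries ℂ) (g : CuspForm (Gamma0 L) 2),
    MDiff H → (∀ γ ∈ Gamma0 L, ∀ τ : ℍ, H (γ • τ) = H τ) →
    (∀ γ : SL(2, ℤ), γ ∉ Gamma0 L → IsBoundedAtImInfty (fun τ : ℍ => H (γ • τ))) →
    Fermat.Agent.S24.helper17.IsQExp hq H →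
    (hq * HahnSeries.ofPowerSeries ℤ ℂ (qExpansion 1 ⇑g)).coeff 0 = 0

/-- The dictionary side (REAL) of [CUSP-ANN]. -/
def CuspAnnRealStatement (L : ℕ) : Prop :=
  ∀ (n : ℤ) (h : LaurentSeries Kb), InL (FF L) n h →
    ∃ H : ℍ → ℂ, MDiff H ∧ (∀ γ ∈ Gamma0 L, ∀ τ : ℍ, H (γ • τ) = H τ) ∧
      Fermat.Agent.S24.helper17.IsQExp (Fermat.Agent.S24.helper17.toC h) H ∧
      ∀ γ : SL(2, ℤ), γ ∉ Gamma0 L → IsBoundedAtImInfty (fun τ : ℍ => H (γ • τ))

/-- the `q`-expansion of a `q`-integral form is the series of its coefficients -/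
theorem ofPowerSeries_qExpansion_eq_zSeries {L : ℕ} (f : CuspForm (Gamma0 L) 2) (z : ℕ → ℤ)
    (hz : ∀ m, ((z m : ℤ) : ℂ) = qCoeff ⇑f m) :
    HahnSeries.ofPowerSeries ℤ ℂ (qExpansion 1 ⇑f) = zSeries ℂ z := by
  unfold zSeries
  congr 1
  ext m
  rw [PowerSeries.coeff_mk, hz m]
  rfl

/-- **[CUSP-ANN]** from the analytic core and the dictionary. -/
theorem cuspAnn_of_core_real {L : ℕ} (hCore : CuspAnnCoreStatement L)
    (hReal : CuspAnnRealStatement L) : CuspAnnStatement L := by
  intro f z hz n h hh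
  obtain ⟨H, hH1, hH2, hH3, hH4⟩ := hReal n h hh
  have h1 := hCore H (Fermat.Agent.S24.helper17.toC h) f hH1 hH2 hH4 hH3
  rw [ofPowerSeries_qExpansion_eq_zSeries f z hz] at h1
  have h2 : zSeries ℂ z = Fermat.Agent.S24.helper17.toC (zSeries Kb z) :=
    (coeffMap_zSeries z _).symm
  rw [h2, ← map_mul, Fermat.Agent.S24.helper17.toC_coeff] at h1
  exact (map_eq_zero_iff _ (RingHom.injective _)).mp h1

end Fermat.Agent.T8.helper51
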