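import Fermat.Agent.T8.helper13_ExitMid
import Fermat.Agent.T8.helper21_TraceCore
import Fermat.Agent.T8.helper51_CuspAnnAsm

/-!
# T8 (row 38), [F3-EXIT], leaf [CUSP-ANN]: from the dictionary side to the chain (helper51)

* `cuspAnnCore`          : `CuspAnnCoreStatement L`, PROVED (= `helper21.cuspAnn_core_pointwise`,
  trace to level one);
* `cuspAnn_of_real`      : `CuspAnnRealStatement L → CuspAnnStatement L` (characteristic `0`);
* `cuspAnn13_of_char0`   : `helper51.CuspAnnStatement L → helper13.CuspAnnStatement L A`;
* `cuspAnnChain_of_real` : `(∀ L, CuspAnnRealStatement L) → helper13.CuspAnnChainStatement`,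
  the leaf Prop of `helper13.f3Exit_of_leaves`.

So the leaf [CUSP-ANN] of the chain is exactly the dictionary side `CuspAnnRealStatement L`:
every `h ∈ L(n ∞)` of `FF L` is the `q`-expansion of a holomorphic `Γ₀(L)`-invariant function
on the upper half plane which stays bounded at `i∞` after every `γ ∉ Γ₀(L)`.
-/

set_option autoImplicit false
set_option synthInstance.maxHeartbeats 400000

open ModularCurve CuspForm CongruenceSubgroup ModularFormClass UpperHalfPlane
open scoped Manifold MatrixGroups

noncomputable section

namespace Fermat.Agent.T8.helper51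

open HahnSeries
open Fermat.Agent.S18.helper19 Fermat.Agent.P2.helper29

/-- the analytic core of [CUSP-ANN] (helper21: trace to level one). -/
theorem cuspAnnCore (L : ℕ) [NeZero L] : CuspAnnCoreStatement L :=
  fun _H _hq g _ hinv hb hQ => Fermat.Agent.T8.helper21.cuspAnn_core_pointwise g hQ hinv hb

/-- **[CUSP-ANN]** (characteristic `0`) from the dictionary side. -/
theorem cuspAnn_of_real (L : ℕ) [NeZero L] (hReal : CuspAnnRealStatement L) :
    CuspAnnStatement L :=
  cuspAnn_of_core_real (cuspAnnCore L) hReal

/-- the consumer form of helper13 from the characteristic `0` form. -/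
theorem cuspAnn13_of_char0 {L : ℕ} [NeZero L] (A : ValuationSubring Kb)
    (hC : CuspAnnStatement L) : Fermat.Agent.T8.helper13.CuspAnnStatement L A :=
  fun f z hz => ⟨zSeries (kA A) z, zSeries_mem_annRb (A := A) hC f z hz,
    fun m => zSeries_coeff_natCast (kA A) z m⟩

/-- the leaf Prop [CUSP-ANN] of `helper13.f3Exit_of_leaves` from the characteristic `0` form. -/
theorem cuspAnnChain_of_char0 (hC : ∀ (L : ℕ) [NeZero L], CuspAnnStatement L) :
    Fermat.Agent.T8.helper13.CuspAnnChainStatement :=
  fun L _ A _ => cuspAnn13_of_char0 A (hC L)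

/-- the leaf Prop [CUSP-ANN] of `helper13.f3Exit_of_leaves` from the dictionary side. -/
theorem cuspAnnChain_of_real (hReal : ∀ (L : ℕ) [NeZero L], CuspAnnRealStatement L) :
    Fermat.Agent.T8.helper13.CuspAnnChainStatement :=
  cuspAnnChain_of_char0 fun L _ => cuspAnn_of_real L (hReal L)

end Fermat.Agent.T8.helper51
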