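import Fermat.Agent.T8.helper32_HoloD2
import Fermat.Agent.T8.helper51_CuspAnnChain

/-!
# T8 [F3-EXIT], leaf 3 [CUSP-ANN] CLOSED (helper32, owner)

* `cuspAnnReal51 L : helper51.CuspAnnRealStatement L` - the dictionary side, unconditional
  (`holoReal`, files `helper32_HoloD1.lean` + `helper32_HoloD2.lean`);
* `cuspAnnChar0 L : helper51.CuspAnnStatement L` - `a₀(h f) = 0` in characteristic `0`;
* `cuspAnnChain : helper13.CuspAnnChainStatement` - the leaf Prop of
  `helper13.f3Exit_of_leaves`, unconditional.
-/

set_option autoImplicit false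
set_option synthInstance.maxHeartbeats 400000

noncomputable section

namespace Fermat.Agent.T8.helper32

/-- the dictionary side of [CUSP-ANN], unconditional -/
theorem cuspAnnReal51 (L : ℕ) [NeZero L] : Fermat.Agent.T8.helper51.CuspAnnRealStatement L :=
  fun n h hh => holoReal L n h hh

/-- **[CUSP-ANN]** in characteristic `0`, unconditional -/
theorem cuspAnnChar0 (L : ℕ) [NeZero L] : Fermat.Agent.T8.helper51.CuspAnnStatement L :=
  Fermat.Agent.T8.helper51.cuspAnn_of_real L (cuspAnnReal51 L)

/-- **[CUSP-ANN]**, the leaf Prop of `helper13.f3Exit_of_leaves`, unconditional -/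
theorem cuspAnnChain : Fermat.Agent.T8.helper13.CuspAnnChainStatement :=
  Fermat.Agent.T8.helper51.cuspAnnChain_of_real fun L _ => cuspAnnReal51 L

end Fermat.Agent.T8.helper32
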