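import Fermat.Agent.T8.helper48_CuspAWbar
import Fermat.Agent.T8.helper54_Phi

/-!
# T8 (row 38, at risk), [CUSP-GAP], sub-leaf [CUSP-A] (helper48): transport of the first
reduction for inertia-fixed functions

Level `N q` (`q` prime, `q ∤ N`), `A` over `q`, `W'` with `C : CuspAut A hq hqN d W'`, and a
`k`-algebra endomorphism `W̄` of the special fibre field which is compatible with `red₁` on the
ring `R⁰` (`hcompat`, for `W_D`: `wBar_red1X`).

* `Transp W' W̄ u` : `u` has a first reduction `f` such that `W̄ f` is a first reduction of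
  `W' u`; closed under products, inverses, constants;
* `exists_normal` : every `g ≠ 0` of `R⁰` satisfies `g y₀^K = q^K g'` with `g' ∈ R⁰`,
  `red₁ g' ≠ 0` (`y₀ = j - j_q ^ q`): no unit `b₀` is needed;
* `transp_fixI` : `Transp` for every inertia-fixed `U ≠ 0`;
* `isRed1_transport_fix` : **`IsRed1 U F ⟹ IsRed1 (W' U) (W̄ F)` for inertia-fixed `U`**;
* `isRed1_atkinD_fix` : the instance `W_D`, `W̄_D = wBar`.
-/

set_option autoImplicit false
set_option synthInstance.maxHeartbeats 400000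
set_option maxHeartbeats 1000000
set_option linter.unusedSectionVars false
set_option linter.unusedVariables false
set_option linter.style.haveILetI false
set_option linter.style.longLine false

noncomputable section

open HahnSeries IntermediateField AlgebraicCurve ModularCurve
open Fermat.Agent.S18.helper19 Fermat.Agent.P2.helper29 Fermat.Agent.T2.helper36

namespace Fermat.Agent.T8.helper48

open Fermat.Agent.T3.helper74 (IsFixI)
open Fermat.Agent.T3.helper36 (RhoQ GaussIs)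
open Fermat.Agent.T3.helper98 (IsRegJ)
open Fermat.Agent.T8.helper63 (IsRX)
open Fermat.Agent.T8.helper16 (ringX red1X red2X mem_ringX isRX_model red1X_eq red2X_eq)
open Fermat.Agent.T8.helper54 (IsRed1)

section Transp

variable {N q : ℕ} [NeZero N] [NeZero q] {hq : q.Prime} {hqN : ¬ q ∣ N}
variable {A : ValuationSubring Kb}

/-- `u` has a first reduction `f` such that `W̄ f` is a first reduction of `W' u` -/
def Transp (A : ValuationSubring Kb) (N q : ℕ) [NeZero N] [NeZero q]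
    (W' : FF (N * q) ≃ₐ[Kb] FF (N * q)) (Wb : FFb A N →ₐ[kA A] FFb A N) (u : FF (N * q)) : Prop :=
  ∃ f : FFb A N, IsRed1 A N q u f ∧ IsRed1 A N q (W' u) (Wb f)

variable {W' : FF (N * q) ≃ₐ[Kb] FF (N * q)} {Wb : FFb A N →ₐ[kA A] FFb A N}

theorem Transp.mul {u v : FF (N * q)} (hu : Transp A N q W' Wb u) (hv : Transp A N q W' Wb v) :
    Transp A N q W' Wb (u * v) := by
  obtain ⟨f, h1, h2⟩ := hu
  obtain ⟨g, h3, h4⟩ := hv
  refine ⟨f * g, h1.mul h3, ?_⟩
  rw [map_mul, map_mul]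
  exact h2.mul h4

theorem Transp.inv {u : FF (N * q)} (hu : Transp A N q W' Wb u) :
    Transp A N q W' Wb u⁻¹ := by
  obtain ⟨f, h1, h2⟩ := hu
  refine ⟨f⁻¹, h1.inv, ?_⟩
  rw [map_inv₀, map_inv₀]
  exact h2.inv

theorem Transp.pow {u : FF (N * q)} (hu : Transp A N q W' Wb u) (n : ℕ) :
    Transp A N q W' Wb (u ^ n) := by
  obtain ⟨f, h1, h2⟩ := hu
  refine ⟨f ^ n, h1.pow n, ?_⟩
  rw [map_pow, map_pow]
  exact h2.pow n

theorem transp_const {c : Kb} (hc : c ≠ 0) :
    Transp A N q W' Wb (algebraMap Kb (FF (N * q)) c) := by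
  refine ⟨1, Fermat.Agent.T8.helper54.isRed1_const hc, ?_⟩
  rw [AlgEquiv.commutes, map_one]
  exact Fermat.Agent.T8.helper54.isRed1_const hc

/-- a first reduction may be multiplied by a nonzero constant -/
theorem isRed1_const_mul_right {u : FF (N * q)} {f : FFb A N} (h : IsRed1 A N q u f)
    {c : kA A} (hc : c ≠ 0) : IsRed1 A N q u (algebraMap (kA A) (FFb A N) c * f) := by
  obtain ⟨hf, κ, hκ, hr⟩ := h
  obtain ⟨a, rfl⟩ := IsLocalRing.residue_surjective c
  have ha0 : (a : Kb) ≠ 0 := by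
    intro h0
    apply hc
    have : a = 0 := Subtype.ext h0
    rw [this, map_zero]
  refine ⟨mul_ne_zero ?_ hf, κ * (a : Kb)⁻¹, mul_ne_zero hκ (inv_ne_zero ha0), ?_⟩
  · rw [Ne, map_eq_zero]
    exact hc
  have h1 := (Fermat.Agent.T3.helper36.rhoQ_algebraMap (A := A) a).mul hr
  have e : algebraMap Kb (LaurentSeries Kb) (κ * (a : Kb)⁻¹)⁻¹ * (u : LaurentSeries Kb)
      = algebraMap Kb (LaurentSeries Kb) (a : Kb) *
        (algebraMap Kb (LaurentSeries Kb) κ⁻¹ * (u : LaurentSeries Kb)) := by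
    rw [← mul_assoc, ← map_mul]
    congr 2
    rw [mul_inv, inv_inv, mul_comm]
  rw [e]
  exact h1

/-- the elements of `R⁰` with nonzero first reduction -/
theorem isRed1_of_mem_ringX (hA : A.LiesOverPrime q) (g : ringX A hq hqN)
    (h0 : red1X A hq hqN g ≠ 0) :
    IsRed1 A N q (g : FF (N * q)) ⟨red1X A hq hqN g, red1X_mem_FFb hA g⟩ := by
  refine ⟨fun h => h0 (congrArg Subtype.val h), 1, one_ne_zero, ?_⟩
  have hg := isRX_model g
  have h1 := Fermat.Agent.T3.helper36.rhoQ_incl (A := A) (Fermat.Agent.T8.helper16.model1 g)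
  rw [hg.2.2.1] at h1
  rw [inv_one, map_one, one_mul]
  exact h1

end Transp

/-! ### Normalisation in `R⁰` and the transport -/

section Fix

variable {N q : ℕ} [NeZero N] [NeZero q] {hq : q.Prime} {hqN : ¬ q ∣ N}
variable {A : ValuationSubring Kb} {d : ℕ} [NeZero d]
variable {W' : FF (N * q) ≃ₐ[Kb] FF (N * q)} {Wb : FFb A N →ₐ[kA A] FFb A N}

/-- `red₁ y₀ ≠ 0` -/
theorem CuspAut.red1X_yZero_ne (C : CuspAut A hq hqN d W') (hA : A.LiesOverPrime q) :
    red1X A hq hqN (yZero A hq hqN) ≠ 0 := fun h0 =>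
  C.red1X_yZero_ne_zero hA (C.red1X_eq_zero hA _ h0)

theorem coe_ne_zero_of_ne_zero {g : ringX A hq hqN} (hg : g ≠ 0) : (g : FF (N * q)) ≠ 0 :=
  fun h => hg (Subtype.ext h)

theorem gaussIs_of_red1X_ne_zero (g : ringX A hq hqN) (h0 : red1X A hq hqN g ≠ 0) :
    GaussIs A (((g : FF (N * q)) : FF (N * q)) : LaurentSeries Kb) ((q : Kb) ^ (0 : ℤ)) := by
  have hg := isRX_model g
  have h1 := Fermat.Agent.T3.helper36.rhoQ_incl (A := A) (Fermat.Agent.T8.helper16.model1 g)
  rw [hg.2.2.1] at h1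
  exact gaussIs_zero_of_rhoQ h1 h0

theorem rhoQ_red1X (g : ringX A hq hqN) :
    RhoQ A (((g : FF (N * q)) : FF (N * q)) : LaurentSeries Kb) (red1X A hq hqN g) := by
  have hg := isRX_model g
  have h1 := Fermat.Agent.T3.helper36.rhoQ_incl (A := A) (Fermat.Agent.T8.helper16.model1 g)
  rw [hg.2.2.1] at h1
  exact h1

/-- **normalisation**: `g y₀^K = q^K g'` with `g' ∈ R⁰`, `red₁ g' ≠ 0`. -/
theorem CuspAut.exists_normal (C : CuspAut A hq hqN d W') (hA : A.LiesOverPrime q) :
    ∀ (m : ℕ) (g : ringX A hq hqN),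
      GaussIs A (((g : FF (N * q)) : FF (N * q)) : LaurentSeries Kb) ((q : Kb) ^ (m : ℤ)) →
      ∃ (K : ℕ) (g' : ringX A hq hqN), red1X A hq hqN g' ≠ 0 ∧
        (g : FF (N * q)) * (yZero A hq hqN : FF (N * q)) ^ K
          = algebraMap Kb (FF (N * q)) (q : Kb) ^ K * (g' : FF (N * q)) := by
  have hq0 : (q : Kb) ≠ 0 := Nat.cast_ne_zero.2 hq.ne_zero
  intro m
  induction m with
  | zero =>
    intro g hg
    refine ⟨0, g, ?_, by rw [pow_zero, pow_zero, mul_one, one_mul]⟩
    intro h0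
    have h1 := (rhoQ_zero_iff_of_gaussIs hq hA hg (rhoQ_red1X g)).1 h0
    simp at h1
  | succ m ih =>
    intro g hg
    have h0 : red1X A hq hqN g = 0 :=
      (rhoQ_zero_iff_of_gaussIs hq hA hg (rhoQ_red1X g)).2 (by push_cast; omega)
    have e1 : red1X A hq hqN (g * yZero A hq hqN) = 0 := by rw [map_mul, h0, zero_mul]
    have e2 : red2X A hq hqN (g * yZero A hq hqN) = 0 := by
      rw [map_mul, red2X_yZero hA, mul_zero]
    have hmem := invQ_mul_mem_ringX hA (g * yZero A hq hqN) e1 e2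
    set g₁ : ringX A hq hqN := ⟨_, hmem⟩ with hg₁
    have hG : GaussIs A (((g₁ : FF (N * q)) : FF (N * q)) : LaurentSeries Kb)
        ((q : Kb) ^ (m : ℤ)) := by
      have h1 := (hg.mul (gaussIs_of_red1X_ne_zero _ (C.red1X_yZero_ne hA))).const_mul
        (inv_ne_zero hq0)
      have e : (q : Kb)⁻¹ * ((q : Kb) ^ ((m + 1 : ℕ) : ℤ) * (q : Kb) ^ (0 : ℤ))
          = (q : Kb) ^ (m : ℤ) := by
        rw [zpow_zero, mul_one]
        push_cast
        rw [zpow_add₀ hq0, zpow_one, mul_comm, mul_assoc, mul_inv_cancel₀ hq0, mul_one]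
      rw [e] at h1
      exact h1
    obtain ⟨K, g', hg', e⟩ := ih g₁ hG
    refine ⟨K + 1, g', hg', ?_⟩
    have e3 : algebraMap Kb (FF (N * q)) (q : Kb) * (g₁ : FF (N * q))
        = (g : FF (N * q)) * (yZero A hq hqN : FF (N * q)) := q_mul_invQ hq _
    calc (g : FF (N * q)) * (yZero A hq hqN : FF (N * q)) ^ (K + 1)
        = ((g : FF (N * q)) * (yZero A hq hqN : FF (N * q))) *
            (yZero A hq hqN : FF (N * q)) ^ K := by ring
      _ = algebraMap Kb (FF (N * q)) (q : Kb) *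
            ((g₁ : FF (N * q)) * (yZero A hq hqN : FF (N * q)) ^ K) := by
          rw [← e3]; ring
      _ = algebraMap Kb (FF (N * q)) (q : Kb) ^ (K + 1) * (g' : FF (N * q)) := by
          rw [e]; ring

/-- the transport for the elements of `R⁰` with nonzero first reduction -/
theorem CuspAut.transp_of_red_ne_zero (C : CuspAut A hq hqN d W') (hA : A.LiesOverPrime q)
    (hcompat : ∀ (g : ringX A hq hqN) (f : FFb A N),
      red1X A hq hqN g = (f : LaurentSeries (kA A)) →
        red1X A hq hqN (C.ringHom hA g) = ((Wb f : FFb A N) : LaurentSeries (kA A)))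
    (g : ringX A hq hqN) (h0 : red1X A hq hqN g ≠ 0) :
    Transp A N q W' Wb (g : FF (N * q)) := by
  set f : FFb A N := ⟨red1X A hq hqN g, red1X_mem_FFb hA g⟩ with hf
  have hf0 : f ≠ 0 := fun h => h0 (congrArg Subtype.val h)
  have hWf0 : Wb f ≠ 0 := (map_ne_zero_iff _ Wb.toRingHom.injective).2 hf0
  have h1 := hcompat g f rfl
  have h2 : red1X A hq hqN (C.ringHom hA g) ≠ 0 := by
    rw [h1]
    exact fun h => hWf0 (Subtype.ext h)
  refine ⟨f, isRed1_of_mem_ringX hA g h0, ?_⟩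
  have h3 := isRed1_of_mem_ringX hA (C.ringHom hA g) h2
  have e : (⟨red1X A hq hqN (C.ringHom hA g), red1X_mem_FFb hA (C.ringHom hA g)⟩ : FFb A N)
      = Wb f := Subtype.ext h1
  rw [e] at h3
  exact h3

/-- the transport for the nonzero elements of `R⁰` -/
theorem CuspAut.transp_of_mem (C : CuspAut A hq hqN d W') (hA : A.LiesOverPrime q)
    (hcompat : ∀ (g : ringX A hq hqN) (f : FFb A N),
      red1X A hq hqN g = (f : LaurentSeries (kA A)) →
        red1X A hq hqN (C.ringHom hA g) = ((Wb f : FFb A N) : LaurentSeries (kA A)))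
    (g : ringX A hq hqN) (hg : g ≠ 0) : Transp A N q W' Wb (g : FF (N * q)) := by
  have hq0 : (q : Kb) ≠ 0 := Nat.cast_ne_zero.2 hq.ne_zero
  have hg0 : (g : FF (N * q)) ≠ 0 := coe_ne_zero_of_ne_zero hg
  have hfix : IsFixI A (N * q) (g : FF (N * q)) := (isRX_model g).1
  obtain ⟨m, hm⟩ := Fermat.Agent.T3.helper5.gaussIs_fixI hq hA
    (Fermat.Agent.T2.helper58.scaleStatement_bad N q hq hqN A hA) hg0 hfix
  have hm0 : 0 ≤ m := nonneg_of_gaussIs_of_rhoQ hA hm (rhoQ_red1X g)
  obtain ⟨k, rfl⟩ : ∃ k : ℕ, m = (k : ℤ) := ⟨m.toNat, by omega⟩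
  obtain ⟨K, g', hg', e⟩ := C.exists_normal hA k g hm
  have hy := C.red1X_yZero_ne hA
  have hy0 : (yZero A hq hqN : FF (N * q)) ≠ 0 := by
    intro h
    apply hy
    have : yZero A hq hqN = 0 := Subtype.ext h
    rw [this, map_zero]
  have e' : (g : FF (N * q)) = algebraMap Kb (FF (N * q)) (q : Kb) ^ K * (g' : FF (N * q)) *
      ((yZero A hq hqN : FF (N * q)) ^ K)⁻¹ := by
    rw [← e, mul_assoc, mul_inv_cancel₀ (pow_ne_zero K hy0), mul_one]
  rw [e']
  exact (((transp_const hq0).pow K).mul (C.transp_of_red_ne_zero hA hcompat g' hg')).mul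
    ((C.transp_of_red_ne_zero hA hcompat _ hy).pow K).inv

/-- the transport for the inertia-fixed functions -/
theorem CuspAut.transp_fixI (C : CuspAut A hq hqN d W') (hA : A.LiesOverPrime q)
    (hcompat : ∀ (g : ringX A hq hqN) (f : FFb A N),
      red1X A hq hqN g = (f : LaurentSeries (kA A)) →
        red1X A hq hqN (C.ringHom hA g) = ((Wb f : FFb A N) : LaurentSeries (kA A)))
    {U : FF (N * q)} (hU : IsFixI A (N * q) U) (hU0 : U ≠ 0) : Transp A N q W' Wb U := by
  obtain ⟨a, ha, b, hb, hb0, e⟩ :=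
    Fermat.Agent.T8.helper23.hfrac_ringX (hq := hq) (hqN := hqN) hA hU
  have ha0 : a ≠ 0 := by
    rw [← e]
    exact mul_ne_zero hU0 hb0
  have e' : U = a * b⁻¹ := by
    rw [← e, mul_assoc, mul_inv_cancel₀ hb0, mul_one]
  rw [e']
  have hA' : (⟨a, ha⟩ : ringX A hq hqN) ≠ 0 := fun h => ha0 (congrArg Subtype.val h)
  have hB' : (⟨b, hb⟩ : ringX A hq hqN) ≠ 0 := fun h => hb0 (congrArg Subtype.val h)
  exact (C.transp_of_mem hA hcompat ⟨a, ha⟩ hA').mul (C.transp_of_mem hA hcompat ⟨b, hb⟩ hB').inv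

/-- **transport of the first reduction for inertia-fixed functions**:
`IsRed1 U F ⟹ IsRed1 (W' U) (W̄ F)`. -/
theorem CuspAut.isRed1_transport_fix (C : CuspAut A hq hqN d W') (hA : A.LiesOverPrime q)
    (hcompat : ∀ (g : ringX A hq hqN) (f : FFb A N),
      red1X A hq hqN g = (f : LaurentSeries (kA A)) →
        red1X A hq hqN (C.ringHom hA g) = ((Wb f : FFb A N) : LaurentSeries (kA A)))
    (U : FF (N * q)) (hU : IsFixI A (N * q) U) (F : FFb A N) (h : IsRed1 A N q U F) :
    IsRed1 A N q (W' U) (Wb F) := by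
  obtain ⟨f, h1, h2⟩ := C.transp_fixI hA hcompat hU h.ne_zero
  obtain ⟨c, hc, e⟩ := h.exists_const h1
  rw [e, map_mul, AlgHom.commutes]
  exact isRed1_const_mul_right h2 hc

end Fix

/-! ### The instance `W_D` -/

section InstFix

variable {N q : ℕ} [NeZero N] [NeZero q] {hq : q.Prime} {hqN : ¬ q ∣ N}
variable {A : ValuationSubring Kb} {N₁ D : ℕ} (hN : N = N₁ * D) (hcop : Nat.Coprime N₁ D)

/-- **`IsRed1 U F ⟹ IsRed1 (W_D U) (W̄_D F)` for every inertia-fixed `U`**. -/
theorem isRed1_atkinD_fix [NeZero D] (hA : A.LiesOverPrime q) (U : FF (N * q))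
    (hU : IsFixI A (N * q) U) (F : FFb A N) (h : IsRed1 A N q U F) :
    IsRed1 A N q (atkinD hq hqN N₁ D hN hcop U) (wBar hN hcop hq hqN hA F) := by
  have key := (cuspAut_atkinD (A := A) (hq := hq) (hqN := hqN) hN hcop).isRed1_transport_fix hA
    (Wb := ((wBar hN hcop hq hqN hA : FFb A N ≃ₐ[kA A] FFb A N) : FFb A N →ₐ[kA A] FFb A N))
    (fun g f hgf => by
      have h1 := wBar_red1X (hq := hq) (hqN := hqN) hN hcop hA g
      rw [← h1]
      have e : (⟨red1X A hq hqN g, red1X_mem_FFb hA g⟩ : FFb A N) = f := Subtype.ext hgf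
      rw [e]
      rfl) U hU F h
  exact key

end InstFix

end Fermat.Agent.T8.helper48
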