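import Mathlib
import Fermat.Agent.S37.helper16_RedLat
import Fermat.Agent.S37.helper61_RedDivP
import Fermat.Agent.P2.helper81_CuspReg
import Fermat.Agent.P2.helper77_GenusFormula3

/-!
# T8 [F3-EXIT], leaf 2 [GAPS] (helper74; route helper91)

`Rinf(L)_A` = the `A`-integral functions of level `L` which are regular off infinity,
`Rb(L)` = their reductions inside `k((q))`.  A natural number `n` is a *pole order* if some
nonzero element of `Rb(L)` has `q`-order `-n`; the other `n` are the *gaps*.

* `GapsStatement L A` : every finite set of gaps has at most `g` elements, `g` the Riemann genus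
  of `FF L` (characteristic `0`).
* `gaps`              : `GapsStatement L A` for EVERY level `L` and every `A` over a prime not
  dividing `L` (no `GoodPair`, no Riemann theorem on the special fibre).
* `gaps_finite`, `gaps_ncard_le`, `gaps_genusFormula` : set forms, genus pinned by the genus
  formula.

Proof: saturation count `dim redSub (n ∞) = ℓ(n ∞)` (S37, `helper16.finrank_redSub`), the
reductions lie in `L̄(n ∞̄)` (`redSub_le`), a function of the special fibre regular everywhere
and vanishing at infinity is `0`, and Riemann's theorem `ℓ(n ∞) = n + 1 - g` for `n` large.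
-/

set_option autoImplicit false
set_option synthInstance.maxHeartbeats 400000
set_option linter.unusedSectionVars false

noncomputable section

namespace Fermat.Agent.T8.helper74

open HahnSeries IntermediateField AlgebraicCurve ModularCurve
open Fermat.Agent.S18.helper19 Fermat.Agent.P2.helper29 Fermat.Agent.P2

/-- `Y` is an `A`-integral function of level `L` which is regular off infinity. -/
def IsRinf (L : ℕ) (A : ValuationSubring Kb) (Y : LaurentSeries A) : Prop :=
  ∃ n : ℤ, InL (FF L) n (incl A Y)

/-- `n` is the pole order at `q = 0` of the reduction of an integral function regular off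
infinity. -/
def IsPoleOrd (L : ℕ) (A : ValuationSubring Kb) (n : ℕ) : Prop :=
  ∃ Y : LaurentSeries A, IsRinf L A Y ∧ red A Y ≠ 0 ∧ (red A Y).order = -(n : ℤ)

/-- **[GAPS]** the reductions of the integral functions regular off infinity have at most `g`
gaps at `q = 0`, `g` the Riemann genus of `FF L`. -/
def GapsStatement (L : ℕ) (A : ValuationSubring Kb) : Prop :=
  ∀ g : ℕ, HasRiemannGenus Kb (FF L) g →
    ∀ S : Finset ℕ, (∀ n ∈ S, ¬ IsPoleOrd L A n) → S.card ≤ g

section Proof

variable {L : ℕ} [NeZero L] {A : ValuationSubring Kb}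

/-- shortcut instance (slow to find by synthesis) -/
local instance algebraFFb74 : Algebra (kA A) (FFb A L) := SubalgebraClass.toAlgebra (FFb A L)

/-- the `q`-order of a nonzero element of `redSub (n ∞)` lies in `[-n, 0]` -/
theorem order_mem_of_redSub {Pinf : Place Kb (FF L)} (hPinf : IsInfty Pinf)
    {Qinf : Place (kA A) (FFb A L)} (hQinf : IsInfty Qinf) (hReg : RegRedStatement L A)
    (n : ℕ) {y : FFb A L}
    (hy : y ∈ Fermat.Agent.S37.helper16.redSub L A (Finsupp.single Pinf (n : ℤ)))
    (hy0 : y ≠ 0) :
    -(n : ℤ) ≤ (y : LaurentSeries (kA A)).order ∧ (y : LaurentSeries (kA A)).order ≤ 0 := by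
  classical
  have hSb := helper95.riemannSetting_FFb L A
  have h1 := Fermat.Agent.S37.helper16.redSub_le hPinf hQinf hReg
    (X := Finsupp.single Pinf (n : ℤ)) (n := (n : ℤ)) (fun v => le_rfl) hy
  have h2 := (Fermat.Agent.P2.helper74.mem_L_iff' hy0).mp h1
  have hord := hQinf y hy0
  constructor
  · have := h2 Qinf
    rw [Finsupp.single_eq_same, hord] at this
    exact this
  · by_contra hlt
    push Not at hlt
    have hmem : y ∈ riemannRochSpace (Finsupp.single Qinf (-1 : ℤ)) := by
      rw [Fermat.Agent.P2.helper74.mem_L_iff' hy0]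
      intro v
      by_cases hv : v = Qinf
      · subst hv
        rw [Finsupp.single_eq_same, hord]
        omega
      · have := h2 v
        rw [Finsupp.single_eq_of_ne hv] at this ⊢
        exact this
    rw [Fermat.Agent.P2.helper74.L_eq_bot_of_degree_neg hSb
      (by rw [helper22.degree_single_of hSb]; norm_num)] at hmem
    exact hy0 ((Submodule.mem_bot _).1 hmem)

/-- **[GAPS]** at every level `L` prime to the residue characteristic. -/
theorem gaps (hP : PrimeToLevel L A) : GapsStatement L A := by
  classical
  intro g hg S hS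
  obtain ⟨⟨Pinf, hPinf⟩, ⟨Qinf, hQinf⟩⟩ := inftyStatement L A
  have hSF := Fermat.Agent.P2.helper74.riemannSetting_FF L
  have hSc := helper81.scaleStatement L A hP
  have hInt := helper81.integralityStatement L A hP
  have hReg := helper81.regRedStatement L A hP
  obtain ⟨-, c, hc⟩ := hg
  set n : ℕ := max c.toNat (S.sup id) with hn
  have hcn : c ≤ (n : ℤ) := by
    have h1 : c.toNat ≤ n := le_max_left _ _
    have h2 := Int.self_le_toNat c
    omega
  have hSn : ∀ s ∈ S, s ≤ n := fun s hs =>
    le_trans (Finset.le_sup (f := id) hs) (le_max_right _ _)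
  have hell := hc (Finsupp.single Pinf (n : ℤ))
    (by rw [helper22.degree_single_of hSF]; exact hcn)
  rw [helper22.degree_single_of hSF] at hell
  have hfr := Fermat.Agent.S37.helper16.finrank_redSub hPinf hSc hInt hReg
    (X := Finsupp.single Pinf (n : ℤ)) (n := (n : ℤ)) (fun v => le_rfl)
  set W := Fermat.Agent.S37.helper16.redSub L A (Finsupp.single Pinf (n : ℤ)) with hW
  have hWdim : (Module.finrank (kA A) W : ℤ) + g = n + 1 := by rw [hfr]; exact hell
  set T : Finset ℕ := (Finset.range (n + 1)).filter
    (fun j => ∃ y : FFb A L, y ∈ W ∧ y ≠ 0 ∧ (y : LaurentSeries (kA A)).order = -(j : ℤ))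
    with hT
  let φ : W →ₗ[kA A] (T → kA A) :=
    LinearMap.pi (fun j : T => (HahnSeries.coeff.linearMap (-(j.1 : ℤ))) ∘ₗ
      (helper22.valLin (FFb A L)) ∘ₗ W.subtype)
  have hφ : Function.Injective φ := by
    rw [← LinearMap.ker_eq_bot, LinearMap.ker_eq_bot']
    intro y hy
    by_contra hy0
    have hy0' : (y : FFb A L) ≠ 0 := fun h => hy0 (Subtype.ext h)
    have hy0'' : ((y : FFb A L) : LaurentSeries (kA A)) ≠ 0 := fun h => hy0' (Subtype.ext h)
    obtain ⟨h1, h2⟩ := order_mem_of_redSub hPinf hQinf hReg n y.2 hy0'
    set j : ℕ := (-((y : FFb A L) : LaurentSeries (kA A)).order).toNat with hj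
    have hjo : ((y : FFb A L) : LaurentSeries (kA A)).order = -(j : ℤ) := by omega
    have hjT : j ∈ T := by
      rw [hT, Finset.mem_filter, Finset.mem_range]
      exact ⟨by omega, y, y.2, hy0', hjo⟩
    have hc0 : ((y : FFb A L) : LaurentSeries (kA A)).coeff (-(j : ℤ)) = 0 :=
      congrFun hy ⟨j, hjT⟩
    rw [← hjo] at hc0
    exact hy0'' (HahnSeries.coeff_order_eq_zero.1 hc0)
  have hdim : Module.finrank (kA A) W ≤ T.card := by
    have := LinearMap.finrank_le_finrank_of_injective hφ
    simpa using this
  have hdisj : Disjoint S T := by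
    rw [Finset.disjoint_left]
    intro s hsS hsT
    rw [hT, Finset.mem_filter] at hsT
    obtain ⟨-, y, hyW, hy0, hyo⟩ := hsT
    obtain ⟨Z, ⟨f, hf, hfZ⟩, hZ⟩ := hyW
    refine hS s hsS ⟨Z, ⟨(n : ℤ), ?_⟩, ?_, ?_⟩
    · rw [← hfZ]; exact Fermat.Agent.S37.helper16.inL_of_mem_L hPinf (fun v => le_rfl) hf
    · rw [hZ]; exact fun h => hy0 (Subtype.ext h)
    · rw [hZ]; exact hyo
  have hsub : S ∪ T ⊆ Finset.range (n + 1) := by
    intro s hs
    rw [Finset.mem_union] at hs
    rcases hs with hs | hs
    · rw [Finset.mem_range]; have := hSn s hs; omega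
    · exact (Finset.mem_filter.1 hs).1
  have hcard := Finset.card_le_card hsub
  rw [Finset.card_union_of_disjoint hdisj, Finset.card_range] at hcard
  omega

end Proof

end Fermat.Agent.T8.helper74

end
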