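import Mathlib
import Fermat.Agent.T8.helper74_Gaps

/-!
# T8 [F3-EXIT], leaves 1-2 in annihilator form (helper74; route helper91)

`annRb L A` = the `w ∈ q k[[q]]` with `a₀(h̄ w) = 0` for every reduction `h̄` of an `A`-integral
function of level `L` regular off infinity.

* `gaps_finite`, `gaps_ncard_le`     : the set of gaps is finite with at most `g` elements;
* `finiteDimensional_annRb`, `finrank_annRb_le` : `dim annRb L A ≤ g`;
* `annRb_span`                       : `g` linearly independent elements of `annRb L A` span it;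
* `annRb_coeff_span`                 : the same on coefficients.

(`g` = the Riemann genus of `FF L`, level `L` prime to the residue characteristic.)
-/

set_option autoImplicit false
set_option synthInstance.maxHeartbeats 400000
set_option linter.unusedSectionVars false

noncomputable section

namespace Fermat.Agent.T8.helper74

open HahnSeries IntermediateField AlgebraicCurve ModularCurve
open Fermat.Agent.S18.helper19 Fermat.Agent.P2.helper29 Fermat.Agent.P2

/-- the annihilator of `Rb(L)` inside `q k[[q]]` for the pairing `(h, w) ↦ a₀(h w)` -/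
def annRb (L : ℕ) (A : ValuationSubring Kb) : Submodule (kA A) (LaurentSeries (kA A)) where
  carrier := {w | (∀ m : ℤ, m ≤ 0 → w.coeff m = 0) ∧
    ∀ Y : LaurentSeries A, IsRinf L A Y → (red A Y * w).coeff 0 = 0}
  zero_mem' := ⟨fun _ _ => rfl, fun Y _ => by rw [mul_zero]; rfl⟩
  add_mem' := by
    rintro w w' ⟨h1, h2⟩ ⟨h1', h2'⟩
    refine ⟨fun m hm => ?_, fun Y hY => ?_⟩
    · rw [HahnSeries.coeff_add, h1 m hm, h1' m hm, add_zero]
    · rw [mul_add, HahnSeries.coeff_add, h2 Y hY, h2' Y hY, add_zero]
  smul_mem' := by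
    rintro c w ⟨h1, h2⟩
    refine ⟨fun m hm => ?_, fun Y hY => ?_⟩
    · rw [HahnSeries.coeff_smul, h1 m hm, smul_zero]
    · rw [← HahnSeries.C_mul_eq_smul, mul_left_comm, HahnSeries.C_mul_eq_smul,
        HahnSeries.coeff_smul, h2 Y hY, smul_zero]

theorem mem_annRb {L : ℕ} {A : ValuationSubring Kb} {w : LaurentSeries (kA A)} :
    w ∈ annRb L A ↔ (∀ m : ℤ, m ≤ 0 → w.coeff m = 0) ∧
      ∀ Y : LaurentSeries A, IsRinf L A Y → (red A Y * w).coeff 0 = 0 := Iff.rfl

section Proof

variable {L : ℕ} [NeZero L] {A : ValuationSubring Kb}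

/-- the set of gaps is finite -/
theorem gaps_finite (hP : PrimeToLevel L A) : {n : ℕ | ¬ IsPoleOrd L A n}.Finite := by
  obtain ⟨g, hg⟩ := Fermat.Agent.P2.helper74.riemannStatement L
  by_contra hinf
  obtain ⟨t, ht, hcard⟩ := Set.Infinite.exists_subset_card_eq hinf (g + 1)
  have := gaps hP g hg t (fun n hn => ht hn)
  omega

/-- the set of gaps has at most `g` elements -/
theorem gaps_ncard_le (hP : PrimeToLevel L A) (g : ℕ) (hg : HasRiemannGenus Kb (FF L) g) :
    {n : ℕ | ¬ IsPoleOrd L A n}.ncard ≤ g := by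
  classical
  have hfin := gaps_finite (A := A) hP
  rw [Set.ncard_eq_toFinset_card _ hfin]
  exact gaps hP g hg _ (fun n hn => (Set.Finite.mem_toFinset hfin).1 hn)

/-- the coefficient map of `annRb` at the gaps -/
def gapMap (L : ℕ) (A : ValuationSubring Kb) (G : Finset ℕ) :
    annRb L A →ₗ[kA A] (G → kA A) :=
  LinearMap.pi (fun n : G => (HahnSeries.coeff.linearMap ((n.1 : ℕ) : ℤ)) ∘ₗ (annRb L A).subtype)

theorem gapMap_apply (G : Finset ℕ) (w : annRb L A) (n : G) :
    gapMap L A G w n = (w : LaurentSeries (kA A)).coeff ((n.1 : ℕ) : ℤ) := rfl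

/-- an element of the annihilator is determined by its coefficients at the gaps -/
theorem gapMap_injective (G : Finset ℕ) (hG : ∀ n : ℕ, ¬ IsPoleOrd L A n → n ∈ G) :
    Function.Injective (gapMap L A G) := by
  rw [← LinearMap.ker_eq_bot, LinearMap.ker_eq_bot']
  intro w hw
  by_contra hw0
  have hw0' : (w : LaurentSeries (kA A)) ≠ 0 := fun h => hw0 (Subtype.ext h)
  obtain ⟨h1, h2⟩ := w.2
  -- the order of `w` is positive
  have hpos : 0 < (w : LaurentSeries (kA A)).order := by
    by_contra hle
    push Not at hle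
    exact hw0' (HahnSeries.coeff_order_eq_zero.1 (h1 _ hle))
  set m : ℕ := ((w : LaurentSeries (kA A)).order).toNat with hm
  have hmo : (w : LaurentSeries (kA A)).order = (m : ℤ) := by omega
  by_cases hmG : IsPoleOrd L A m
  · obtain ⟨Y, hY, hY0, hYo⟩ := hmG
    have h3 := HahnSeries.coeff_mul_order_add_order (red A Y) (w : LaurentSeries (kA A))
    rw [hYo, hmo, neg_add_cancel, h2 Y hY] at h3
    have h4 : (red A Y).leadingCoeff ≠ 0 := HahnSeries.leadingCoeff_ne_zero.2 hY0
    have h5 : (w : LaurentSeries (kA A)).leadingCoeff ≠ 0 :=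
      HahnSeries.leadingCoeff_ne_zero.2 hw0'
    exact mul_ne_zero h4 h5 h3.symm
  · have h3 : gapMap L A G w ⟨m, hG m hmG⟩ = 0 := by rw [hw]; rfl
    rw [gapMap_apply] at h3
    change (w : LaurentSeries (kA A)).coeff (m : ℤ) = 0 at h3
    rw [← hmo] at h3
    exact hw0' (HahnSeries.coeff_order_eq_zero.1 h3)

/-- the annihilator is finite dimensional -/
theorem finiteDimensional_annRb (hP : PrimeToLevel L A) :
    FiniteDimensional (kA A) (annRb L A) := by
  classical
  have hfin := gaps_finite (A := A) hP
  exact FiniteDimensional.of_injective (gapMap L A hfin.toFinset)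
    (gapMap_injective _ (fun n hn => (Set.Finite.mem_toFinset hfin).2 hn))

/-- **annihilator count**: `dim annRb L A ≤ g` -/
theorem finrank_annRb_le (hP : PrimeToLevel L A) (g : ℕ) (hg : HasRiemannGenus Kb (FF L) g) :
    Module.finrank (kA A) (annRb L A) ≤ g := by
  classical
  have hfin := gaps_finite (A := A) hP
  have h1 := LinearMap.finrank_le_finrank_of_injective
    (gapMap_injective hfin.toFinset (fun n hn => (Set.Finite.mem_toFinset hfin).2 hn))
  have h2 : Module.finrank (kA A) (hfin.toFinset → kA A) = hfin.toFinset.card := by simp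
  have h3 := gaps hP g hg hfin.toFinset (fun n hn => (Set.Finite.mem_toFinset hfin).1 hn)
  omega

/-- `g` linearly independent elements of the annihilator span it -/
theorem annRb_span (hP : PrimeToLevel L A) (g : ℕ) (hg : HasRiemannGenus Kb (FF L) g)
    (v : Fin g → LaurentSeries (kA A)) (hv : ∀ i, v i ∈ annRb L A)
    (hli : LinearIndependent (kA A) v) {w : LaurentSeries (kA A)} (hw : w ∈ annRb L A) :
    ∃ c : Fin g → kA A, w = ∑ i, c i • v i := by
  classical
  have := finiteDimensional_annRb (A := A) (L := L) hP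
  set v' : Fin g → annRb L A := fun i => ⟨v i, hv i⟩ with hv'
  have hli' : LinearIndependent (kA A) v' :=
    LinearIndependent.of_comp (annRb L A).subtype hli
  have hge := hli'.fintype_card_le_finrank
  rw [Fintype.card_fin] at hge
  have hle := finrank_annRb_le hP g hg
  have hcard : Fintype.card (Fin g) = Module.finrank (kA A) (annRb L A) := by
    rw [Fintype.card_fin]; omega
  have htop := hli'.span_eq_top_of_card_eq_finrank' hcard
  have hmem : (⟨w, hw⟩ : annRb L A) ∈ Submodule.span (kA A) (Set.range v') := by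
    rw [htop]; exact Submodule.mem_top
  obtain ⟨c, hc⟩ := (Submodule.mem_span_range_iff_exists_fun (kA A)).1 hmem
  refine ⟨c, ?_⟩
  have := congrArg (annRb L A).subtype hc
  rw [map_sum] at this
  simpa [hv'] using this.symm

/-- coefficient form of `annRb_span` -/
theorem annRb_coeff_span (hP : PrimeToLevel L A) (g : ℕ) (hg : HasRiemannGenus Kb (FF L) g)
    (v : Fin g → LaurentSeries (kA A)) (hv : ∀ i, v i ∈ annRb L A)
    (hli : LinearIndependent (kA A) v) {w : LaurentSeries (kA A)} (hw : w ∈ annRb L A) :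
    ∃ c : Fin g → kA A, ∀ m : ℤ, w.coeff m = ∑ i, c i * (v i).coeff m := by
  obtain ⟨c, hc⟩ := annRb_span hP g hg v hv hli hw
  refine ⟨c, fun m => ?_⟩
  rw [hc]
  have : (∑ i, c i • v i).coeff m = ∑ i, (c i • v i).coeff m :=
    map_sum (HahnSeries.coeff.linearMap (R := kA A) m) _ _
  rw [this]
  exact Finset.sum_congr rfl fun i _ => by rw [HahnSeries.coeff_smul, smul_eq_mul]

end Proof

end Fermat.Agent.T8.helper74

end
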