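import Mathlib
import Fermat.Agent.T3.helper67_MidCore

/-!
# T8 [F3-EXIT], leaf [HECKE], formal core (helper87): logarithmic derivatives of `q`-series

`thetaL = q d/dq` (T3.helper67), `twistL c` = `q ↦ c q` (P2.helper93), `qExpand n` = `q ↦ q ^ n`
(Prelude), all on Laurent series.

* `thetaL_mul` (Leibniz), `thetaL_pow`, `thetaL_qExpand`, `thetaL_twistL`, `thetaL_C`;
* `dlogL f = thetaL f / f` : `dlogL_mul`, `dlogL_pow`, `dlogL_prod`, `dlogL_C_mul`,
  `dlogL_pow_char` (`dlogL (g ^ p) = 0` in characteristic `p`), `dlogL_qExpand`,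
  `dlogL_twistL`;
* `heckeUL l w` (`a_n ↦ a_{l n}`), `sum_twistL` :
  `∑_{k < l} twistL (ζ ^ k) w = l • qExpand l (heckeUL l w)`;
* `hecke_dlog` : **the Hecke relation for the logarithmic derivative**.  If
  `qExpand l Nm = C c' * (qExpand (l l) h * ∏_{k < l} twistL (ζ ^ k) h)` (shape of the norm
  formula `es_norm`, up to a constant) and `Nm = C c * h ^ a * g ^ p` in characteristic
  `p ≠ l` (the class of `h` is a `T_l`-eigenclass with eigenvalue `a`), then `w = dlogL h`
  satisfies `heckeUL l w + l • qExpand l w = a • w`, i.e. `T_l w = a w` in weight `2`;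
  `hecke_dlog_coeff` : the same coefficientwise;
* `exists_pow_eq_of_thetaL_eq_zero` : in characteristic `p`, over a perfect field,
  `thetaL f = 0` implies `f = g ^ p`.
-/

set_option autoImplicit false
set_option linter.unusedSectionVars false
set_option linter.unusedVariables false
set_option linter.style.haveILetI false

noncomputable section

open HahnSeries ModularCurve
open Fermat.Agent.P2.helper93 (twistL twistL_coeff)
open Fermat.Agent.T3.helper67 (thetaL thetaL_coeff thetaL_add thetaL_neg thetaL_zero)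

namespace Fermat.Agent.T8.helper87

/-! ### The Euler operator is a derivation -/

section Theta

variable {R : Type*} [CommRing R]

theorem thetaL_support_subset (f : LaurentSeries R) : (thetaL f).support ⊆ f.support := by
  intro k hk
  simp only [HahnSeries.mem_support, thetaL_coeff, ne_eq] at hk ⊢
  exact fun h => hk (by rw [h, mul_zero])

/-- **Leibniz rule** for `q d/dq`. -/
theorem thetaL_mul (f g : LaurentSeries R) :
    thetaL (f * g) = thetaL f * g + f * thetaL g := by
  ext n
  rw [thetaL_coeff, HahnSeries.coeff_add, HahnSeries.coeff_mul,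
    HahnSeries.coeff_mul_left' f.isPWO_support (thetaL_support_subset f),
    HahnSeries.coeff_mul_right' g.isPWO_support (thetaL_support_subset g),
    Finset.mul_sum, ← Finset.sum_add_distrib]
  refine Finset.sum_congr rfl fun ij hij => ?_
  rw [Finset.mem_antidiagonal] at hij
  rw [thetaL_coeff, thetaL_coeff, ← hij.2.2]
  push_cast
  ring

theorem thetaL_C (r : R) : thetaL (HahnSeries.C r : LaurentSeries R) = 0 := by
  ext k
  rw [thetaL_coeff, HahnSeries.coeff_zero, HahnSeries.C_apply]
  by_cases hk : k = 0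
  · subst hk; simp
  · rw [HahnSeries.coeff_single_of_ne hk, mul_zero]

theorem thetaL_one : thetaL (1 : LaurentSeries R) = 0 := by
  have h := thetaL_C (1 : R)
  rwa [map_one] at h

theorem thetaL_smul (r : R) (f : LaurentSeries R) : thetaL (r • f) = r • thetaL f := by
  ext k
  simp only [thetaL_coeff, HahnSeries.coeff_smul, smul_eq_mul]
  ring

theorem natCast_mul_coeff (n : ℕ) (f : LaurentSeries R) (k : ℤ) :
    ((n : LaurentSeries R) * f).coeff k = (n : R) * f.coeff k := by
  rw [← map_natCast (HahnSeries.C : R →+* LaurentSeries R) n, HahnSeries.C_mul_eq_smul,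
    HahnSeries.coeff_smul, smul_eq_mul]

theorem thetaL_pow (f : LaurentSeries R) (n : ℕ) :
    thetaL (f ^ (n + 1)) = ((n + 1 : ℕ) : LaurentSeries R) * (f ^ n * thetaL f) := by
  induction n with
  | zero => simp
  | succ n ih =>
    rw [pow_succ, thetaL_mul, ih]
    push_cast
    ring

theorem thetaL_qExpand (n : ℕ) [NeZero n] (f : LaurentSeries R) :
    thetaL (qExpand R n f) = (n : LaurentSeries R) * qExpand R n (thetaL f) := by
  ext k
  rw [thetaL_coeff, natCast_mul_coeff]
  by_cases hk : (n : ℤ) ∣ k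
  · obtain ⟨m, rfl⟩ := hk
    rw [qExpand_coeff_mul, qExpand_coeff_mul, thetaL_coeff]
    push_cast
    ring
  · rw [qExpand_coeff_of_not_dvd n _ hk, qExpand_coeff_of_not_dvd n _ hk, mul_zero, mul_zero]

end Theta

/-! ### Twists -/

section Twist

variable {K : Type*} [Field K]

theorem twistL_eq_rot {c : K} (hc : c ≠ 0) (f : LaurentSeries K) :
    twistL c f = Fermat.Agent.P2.helper94.rot (Units.mk0 c hc) f := by
  ext k
  rw [twistL_coeff, Fermat.Agent.P2.helper94.rot_coeff, Units.val_zpow_eq_zpow_val,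
    Units.val_mk0]

theorem twistL_mul {c : K} (hc : c ≠ 0) (f g : LaurentSeries K) :
    twistL c (f * g) = twistL c f * twistL c g := by
  rw [twistL_eq_rot hc, twistL_eq_rot hc, twistL_eq_rot hc, map_mul]

theorem twistL_inv {c : K} (hc : c ≠ 0) (f : LaurentSeries K) :
    twistL c f⁻¹ = (twistL c f)⁻¹ := by
  rw [twistL_eq_rot hc, twistL_eq_rot hc, map_inv₀]

theorem twistL_ne_zero {c : K} (hc : c ≠ 0) {f : LaurentSeries K} (hf : f ≠ 0) :
    twistL c f ≠ 0 := by
  rw [twistL_eq_rot hc]
  exact (map_ne_zero _).mpr hf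

theorem thetaL_twistL (c : K) (f : LaurentSeries K) :
    thetaL (twistL c f) = twistL c (thetaL f) := by
  ext k
  simp only [thetaL_coeff, twistL_coeff]
  ring

end Twist

/-! ### The logarithmic derivative -/

section Dlog

variable {K : Type*} [Field K]

/-- the logarithmic derivative `q (df/dq) / f` of a Laurent series -/
def dlogL (f : LaurentSeries K) : LaurentSeries K := thetaL f / f

theorem dlogL_def (f : LaurentSeries K) : dlogL f = thetaL f / f := rfl

theorem thetaL_eq_dlogL_mul {f : LaurentSeries K} (hf : f ≠ 0) : thetaL f = dlogL f * f := by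
  rw [dlogL, div_mul_cancel₀ _ hf]

theorem dlogL_mul {f g : LaurentSeries K} (hf : f ≠ 0) (hg : g ≠ 0) :
    dlogL (f * g) = dlogL f + dlogL g := by
  rw [dlogL, dlogL, dlogL, thetaL_mul]
  field_simp

theorem dlogL_C (c : K) : dlogL (HahnSeries.C c : LaurentSeries K) = 0 := by
  rw [dlogL, thetaL_C, zero_div]

theorem dlogL_one : dlogL (1 : LaurentSeries K) = 0 := by
  rw [dlogL, thetaL_one, zero_div]

theorem dlogL_C_mul {c : K} (hc : c ≠ 0) {f : LaurentSeries K} (hf : f ≠ 0) :
    dlogL (HahnSeries.C c * f) = dlogL f := by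
  have hC : (HahnSeries.C c : LaurentSeries K) ≠ 0 :=
    (map_ne_zero (HahnSeries.C : K →+* LaurentSeries K)).mpr hc
  rw [dlogL_mul hC hf, dlogL_C, zero_add]

theorem dlogL_pow {f : LaurentSeries K} (hf : f ≠ 0) (n : ℕ) :
    dlogL (f ^ n) = (n : LaurentSeries K) * dlogL f := by
  induction n with
  | zero => simp [dlogL_one]
  | succ n ih =>
    rw [pow_succ, dlogL_mul (pow_ne_zero n hf) hf, ih]
    push_cast
    ring

theorem dlogL_pow_char (p : ℕ) [CharP K p] {f : LaurentSeries K} (hf : f ≠ 0) :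
    dlogL (f ^ p) = 0 := by
  haveI : CharP (LaurentSeries K) p :=
    charP_of_injective_ringHom (HahnSeries.C : K →+* LaurentSeries K).injective p
  rw [dlogL_pow hf, CharP.cast_eq_zero, zero_mul]

theorem dlogL_prod {ι : Type*} (s : Finset ι) (f : ι → LaurentSeries K)
    (hf : ∀ i ∈ s, f i ≠ 0) :
    dlogL (∏ i ∈ s, f i) = ∑ i ∈ s, dlogL (f i) := by
  classical
  induction s using Finset.induction_on with
  | empty => simp [dlogL_one]
  | insert i s hi ih =>
    rw [Finset.prod_insert hi, Finset.sum_insert hi,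
      dlogL_mul (hf i (Finset.mem_insert_self i s))
        (Finset.prod_ne_zero_iff.mpr fun j hj => hf j (Finset.mem_insert_of_mem hj)),
      ih fun j hj => hf j (Finset.mem_insert_of_mem hj)]

theorem dlogL_qExpand (n : ℕ) [NeZero n] (f : LaurentSeries K) :
    dlogL (qExpand K n f) = (n : LaurentSeries K) * qExpand K n (dlogL f) := by
  rw [dlogL, dlogL, thetaL_qExpand, map_div₀, mul_div_assoc]

theorem dlogL_twistL {c : K} (hc : c ≠ 0) (f : LaurentSeries K) :
    dlogL (twistL c f) = twistL c (dlogL f) := by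
  rw [dlogL, dlogL, thetaL_twistL, div_eq_mul_inv, div_eq_mul_inv, twistL_mul hc,
    twistL_inv hc]

end Dlog

/-! ### The operator `U_l` and the sum over the twists -/

section UOp

variable {K : Type*} [Field K]

theorem bddBelow_support_comp (l : ℕ) [NeZero l] (w : LaurentSeries K) :
    BddBelow (Function.support fun n : ℤ => w.coeff ((l : ℤ) * n)) := by
  have hl : (1 : ℤ) ≤ (l : ℤ) := by exact_mod_cast Nat.pos_of_ne_zero (NeZero.ne l)
  refine ⟨min w.order 0, fun m hm0 => ?_⟩
  by_contra hm'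
  have hm : m < min w.order 0 := not_le.mp hm'
  apply hm0
  apply HahnSeries.coeff_eq_zero_of_lt_order
  have h1 : m < w.order := lt_of_lt_of_le hm (min_le_left _ _)
  have h2 : m < 0 := lt_of_lt_of_le hm (min_le_right _ _)
  have h3 : (l : ℤ) * m ≤ m := by nlinarith
  exact lt_of_le_of_lt h3 h1

/-- the operator `U_l` on Laurent series: `∑ a_n q^n ↦ ∑ a_{l n} q^n` -/
def heckeUL (l : ℕ) [NeZero l] (w : LaurentSeries K) : LaurentSeries K :=
  HahnSeries.ofSuppBddBelow (fun n : ℤ => w.coeff ((l : ℤ) * n)) (bddBelow_support_comp l w)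

@[simp]
theorem heckeUL_coeff (l : ℕ) [NeZero l] (w : LaurentSeries K) (n : ℤ) :
    (heckeUL l w).coeff n = w.coeff ((l : ℤ) * n) := by
  rw [heckeUL, HahnSeries.coeff_ofSuppBddBelow]

/-- the sum of the powers of `ζ ^ n` for a primitive `l`-th root of unity -/
theorem sum_zpow_primitiveRoot {l : ℕ} [NeZero l] {ζ : K} (hζ : IsPrimitiveRoot ζ l) (n : ℤ) :
    ∑ k ∈ Finset.range l, (ζ ^ k) ^ n = if (l : ℤ) ∣ n then (l : K) else 0 := by
  have hζ0 : ζ ≠ 0 := hζ.ne_zero (NeZero.ne l)
  have h1 : ∀ k : ℕ, (ζ ^ k) ^ n = (ζ ^ n) ^ k := by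
    intro k
    rw [← zpow_natCast, ← zpow_mul, ← zpow_natCast (ζ ^ n), ← zpow_mul, mul_comm]
  simp_rw [h1]
  split_ifs with h
  · have h2 : ζ ^ n = 1 := (hζ.zpow_eq_one_iff_dvd n).mpr h
    simp [h2]
  · have h2 : ζ ^ n ≠ 1 := fun h3 => h ((hζ.zpow_eq_one_iff_dvd n).mp h3)
    have h3 : (ζ ^ n) ^ l = 1 := by
      rw [← zpow_natCast, ← zpow_mul, mul_comm, zpow_mul, zpow_natCast, hζ.pow_eq_one, one_zpow]
    have h4 := mul_geom_sum (ζ ^ n) l
    rw [h3, sub_self] at h4
    rcases mul_eq_zero.mp h4 with h5 | h5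
    · exact absurd (sub_eq_zero.mp h5) h2
    · exact h5

theorem sum_twistL {l : ℕ} [NeZero l] {ζ : K} (hζ : IsPrimitiveRoot ζ l)
    (w : LaurentSeries K) :
    ∑ k ∈ Finset.range l, twistL (ζ ^ k) w
      = (l : LaurentSeries K) * qExpand K l (heckeUL l w) := by
  ext n
  rw [HahnSeries.coeff_sum, natCast_mul_coeff]
  simp_rw [twistL_coeff]
  rw [← Finset.sum_mul, sum_zpow_primitiveRoot hζ n]
  split_ifs with h
  · obtain ⟨m, rfl⟩ := h
    rw [qExpand_coeff_mul, heckeUL_coeff]
  · rw [qExpand_coeff_of_not_dvd l _ h, zero_mul, mul_zero]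

end UOp

/-! ### The Hecke relation for the logarithmic derivative -/

section Hecke

variable {K : Type*} [Field K]

/-- **[HECKE], formal core.**  `T_l (dlog h) = a dlog h` from the norm formula and the
eigen-relation `Nm = c h ^ a g ^ p` in characteristic `p ≠ l`. -/
theorem hecke_dlog (p : ℕ) [CharP K p] {l : ℕ} [NeZero l] (hl : (l : K) ≠ 0)
    {ζ : K} (hζ : IsPrimitiveRoot ζ l) {h Nm g : LaurentSeries K} (hh : h ≠ 0)
    {c c' : K} (hc : c ≠ 0) (hc' : c' ≠ 0) (a : ℕ)
    (hnorm : qExpand K l Nm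
      = HahnSeries.C c' * (qExpand K (l * l) h * ∏ k ∈ Finset.range l, twistL (ζ ^ k) h))
    (heig : Nm = HahnSeries.C c * h ^ a * g ^ p) :
    heckeUL l (dlogL h) + (l : LaurentSeries K) * qExpand K l (dlogL h)
      = (a : LaurentSeries K) * dlogL h := by
  have hζ0 : ζ ≠ 0 := hζ.ne_zero (NeZero.ne l)
  have hq2 : qExpand K (l * l) h ≠ 0 := (map_ne_zero _).mpr hh
  have htw : ∀ k ∈ Finset.range l, twistL (ζ ^ k) h ≠ 0 :=
    fun k _ => twistL_ne_zero (pow_ne_zero k hζ0) hh
  have hprod : ∏ k ∈ Finset.range l, twistL (ζ ^ k) h ≠ 0 := Finset.prod_ne_zero_iff.mpr htw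
  have hNm : Nm ≠ 0 := by
    intro h0
    rw [h0, map_zero] at hnorm
    have hC : (HahnSeries.C c' : LaurentSeries K) ≠ 0 :=
      (map_ne_zero (HahnSeries.C : K →+* LaurentSeries K)).mpr hc'
    exact mul_ne_zero hC (mul_ne_zero hq2 hprod) hnorm.symm
  have hgp0 : g ^ p ≠ 0 := by
    intro h0
    apply hNm
    rw [heig, h0, mul_zero]
  have hgp : dlogL (g ^ p) = 0 := by
    by_cases hg : g = 0
    · have hp : p = 0 := by
        by_contra hp
        exact hgp0 (by rw [hg, zero_pow hp])
      rw [hp, pow_zero, dlogL_one]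
    · exact dlogL_pow_char p hg
  -- `dlog` of the eigen-relation
  have hCha : (HahnSeries.C c : LaurentSeries K) * h ^ a ≠ 0 :=
    mul_ne_zero ((map_ne_zero (HahnSeries.C : K →+* LaurentSeries K)).mpr hc) (pow_ne_zero a hh)
  have e1 : dlogL Nm = (a : LaurentSeries K) * dlogL h := by
    rw [heig, dlogL_mul hCha hgp0, hgp, add_zero,
      dlogL_C_mul hc (pow_ne_zero a hh), dlogL_pow hh]
  -- `dlog` of the norm formula
  have e2 : dlogL (qExpand K l Nm)
      = ((l * l : ℕ) : LaurentSeries K) * qExpand K (l * l) (dlogL h)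
        + (l : LaurentSeries K) * qExpand K l (heckeUL l (dlogL h)) := by
    rw [hnorm, dlogL_C_mul hc' (mul_ne_zero hq2 hprod), dlogL_mul hq2 hprod, dlogL_qExpand,
      dlogL_prod _ _ htw]
    congr 1
    rw [← sum_twistL hζ]
    exact Finset.sum_congr rfl fun k _ => dlogL_twistL (pow_ne_zero k hζ0) h
  rw [dlogL_qExpand, e1] at e2
  -- cancel `l` and `qExpand l`
  apply qExpand_injective (R := K) l
  have e3 : qExpand K (l * l) (dlogL h) = qExpand K l (qExpand K l (dlogL h)) :=
    (qExpand_qExpand l l (dlogL h)).symm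
  rw [e3] at e2
  have hl' : (l : LaurentSeries K) ≠ 0 := by
    rw [← map_natCast (HahnSeries.C : K →+* LaurentSeries K) l]
    exact (map_ne_zero (HahnSeries.C : K →+* LaurentSeries K)).mpr hl
  apply mul_left_cancel₀ hl'
  rw [map_mul, map_natCast] at e2
  rw [map_add, map_mul, map_mul, map_natCast, map_natCast]
  push_cast at e2
  linear_combination (-1 : LaurentSeries K) * e2

/-- **[HECKE], formal core, coefficientwise**: `a_{l n}(w) + l a_{n / l}(w) = a a_n(w)`. -/
theorem hecke_dlog_coeff (p : ℕ) [CharP K p] {l : ℕ} [NeZero l] (hl : (l : K) ≠ 0)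
    {ζ : K} (hζ : IsPrimitiveRoot ζ l) {h Nm g : LaurentSeries K} (hh : h ≠ 0)
    {c c' : K} (hc : c ≠ 0) (hc' : c' ≠ 0) (a : ℕ)
    (hnorm : qExpand K l Nm
      = HahnSeries.C c' * (qExpand K (l * l) h * ∏ k ∈ Finset.range l, twistL (ζ ^ k) h))
    (heig : Nm = HahnSeries.C c * h ^ a * g ^ p) (n : ℤ) :
    (dlogL h).coeff ((l : ℤ) * n)
        + (l : K) * (if (l : ℤ) ∣ n then (dlogL h).coeff (n / (l : ℤ)) else 0)
      = (a : K) * (dlogL h).coeff n := by
  have key := congrArg (fun x : LaurentSeries K => x.coeff n)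
    (hecke_dlog p hl hζ hh hc hc' a hnorm heig)
  simp only [HahnSeries.coeff_add, heckeUL_coeff, natCast_mul_coeff] at key
  rw [← key]
  congr 2
  have hl0 : (l : ℤ) ≠ 0 := by exact_mod_cast NeZero.ne l
  split_ifs with hd
  · obtain ⟨m, rfl⟩ := hd
    rw [qExpand_coeff_mul, Int.mul_ediv_cancel_left _ hl0]
  · exact (qExpand_coeff_of_not_dvd (R := K) l _ hd).symm

end Hecke

/-! ### `thetaL f = 0` in characteristic `p` -/

section PthPower

variable {K : Type*} [Field K]

/-- a series killed by `q d/dq` is a series in `q ^ p` -/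
theorem eq_qExpand_of_thetaL_eq_zero (p : ℕ) [hp : Fact p.Prime] [CharP K p]
    {f : LaurentSeries K} (hf : thetaL f = 0) :
    haveI : NeZero p := ⟨hp.out.ne_zero⟩
    f = qExpand K p (heckeUL p f) := by
  haveI : NeZero p := ⟨hp.out.ne_zero⟩
  ext n
  by_cases hd : (p : ℤ) ∣ n
  · obtain ⟨m, rfl⟩ := hd
    rw [qExpand_coeff_mul, heckeUL_coeff]
  · rw [qExpand_coeff_of_not_dvd p _ hd]
    have h1 : (n : K) * f.coeff n = 0 := by
      have := congrArg (fun x : LaurentSeries K => x.coeff n) hf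
      simpa using this
    rcases mul_eq_zero.mp h1 with h2 | h2
    · exact absurd ((CharP.intCast_eq_zero_iff K p n).mp h2) hd
    · exact h2

/-- **[OMEGA] (i), formal core**: over a perfect field of characteristic `p`, a Laurent series
killed by `q d/dq` is a `p`-th power. -/
theorem exists_pow_eq_of_thetaL_eq_zero (p : ℕ) [hp : Fact p.Prime] [CharP K p] [PerfectField K]
    {f : LaurentSeries K} (hf : thetaL f = 0) : ∃ g : LaurentSeries K, f = g ^ p := by
  haveI : NeZero p := ⟨hp.out.ne_zero⟩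
  refine ⟨coeffMap ((frobeniusEquiv K p).symm : K →+* K) (heckeUL p f), ?_⟩
  rw [Fermat.Agent.P2.helper94.laurent_pow_char p, coeffMap_coeffMap]
  have h1 : (frobenius K p).comp ((frobeniusEquiv K p).symm : K →+* K) = RingHom.id K := by
    ext x
    simp
  rw [coeffMap_congr h1, coeffMap_id]
  exact eq_qExpand_of_thetaL_eq_zero p hf

/-- `dlogL f = 0` iff `f` is a `p`-th power (perfect field of characteristic `p`, `f ≠ 0`). -/
theorem dlogL_eq_zero_iff (p : ℕ) [hp : Fact p.Prime] [CharP K p] [PerfectField K]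
    {f : LaurentSeries K} (hf : f ≠ 0) : dlogL f = 0 ↔ ∃ g : LaurentSeries K, f = g ^ p := by
  constructor
  · intro h
    apply exists_pow_eq_of_thetaL_eq_zero p
    rw [thetaL_eq_dlogL_mul hf, h, zero_mul]
  · rintro ⟨g, rfl⟩
    exact dlogL_pow_char p (fun hg => hf (by rw [hg, zero_pow hp.out.ne_zero]))

end PthPower

end Fermat.Agent.T8.helper87
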