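import Mathlib
import Fermat.Agent.T3.helper87_Places3
import Fermat.Agent.T2.helper48_UOpDeg
import Fermat.Agent.T8.helper74_Gaps
import Fermat.Agent.T8.helper87_DlogAbs

/-!
# T8 [F3-EXIT], leaf 7 [DESCENT], the EVEN case (helper78)

For a prime `q` DIVIDING the level `M` the degeneracy map `β_q : F_M → F_{M q}`, `f(t) ↦ f(t ^ q)`,
has degree `q` and is totally ramified at infinity, so infinity is the only place of `F_{M q}`
over infinity.  Consequently `β_q` maps functions regular off infinity to functions regular off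
infinity, and (twice, for `q = 2`, `2 ∣ M`) `β_4 Rinf(M)_A ⊆ Rinf(4 M)_A`.  The annihilator
descends along `V_4 : w ↦ w(t ^ 4)` for free:

* `ord_beta_nonneg_of_dvd` : `x` regular off infinity at level `M`, `q ∣ M`, then `β_q x` is
  regular off infinity at level `M q`;
* `inL_qExpand_of_dvd` : `InL (FF M) n f → InL (FF (M * q)) (q * n) (qExpand q f)`;
* `isRinf_qExpand_of_dvd`, `isRinf_qExpand_four` : the integral forms (`helper74.IsRinf`);
* `IsAnn L A w` : `a₀(red(Y) w) = 0` for all `Y ∈ Rinf(L)_A`;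
* `isAnn_of_qExpand_of_dvd`, `isAnn_of_qExpand_four` : `V_4 w₀ ∈ Ann_k(4 M) → w₀ ∈ Ann_k(M)`;
* `isAnn_dlog_descent_four` : **[DESCENT], even case**: `dlog (f₀(t ^ 4)) ∈ Ann_k(4 M)` and
  `2 ∣ M`, `(2 : k) ≠ 0` imply `dlog f₀ ∈ Ann_k(M)`.
-/

set_option autoImplicit false
set_option synthInstance.maxHeartbeats 400000
set_option maxHeartbeats 1000000
set_option linter.style.haveILetI false
set_option linter.unusedSectionVars false
set_option linter.unusedVariables false
set_option linter.style.longLine false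

noncomputable section

open HahnSeries IntermediateField AlgebraicCurve ModularCurve
open Fermat.Agent.S18.helper19 Fermat.Agent.P2.helper29 Fermat.Agent.T2.helper36
open Fermat.Agent.T2.helper22 Fermat.Agent.S24

namespace Fermat.Agent.T8.helper78

/-! ### `β_q` is totally ramified at infinity when `q` divides the level -/

section Beta

variable {M q : ℕ} [NeZero M] [NeZero q]

/-- **infinity is the only place over infinity** for `β_q : F_M → F_{M q}`, `q ∣ M`: if `x` is
regular off infinity then so is `β_q x`. -/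
theorem ord_beta_nonneg_of_dvd (hq : q.Prime) (hqM : q ∣ M) (x : FF M)
    (hx : ∀ P : Place Kb (FF M), ¬ IsInfty P → 0 ≤ P.ord x)
    (P : Place Kb (FF (M * q))) (hP : ¬ IsInfty P) :
    0 ≤ P.ord (heckeBetaBar Kb M q x) := by
  classical
  letI := algebraAlong (heckeBetaBar Kb M q)
  haveI := isScalarTower_along (heckeBetaBar Kb M q)
  haveI := helper77.an_finiteDimensional M
  haveI := helper77.an_finiteDimensional (M * q)
  obtain ⟨hβint, _, hpd, hfin, hFI, _⟩ := Fermat.Agent.P3.helper58.heckeInputs_of_ff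
    (heckeBetaBar Kb M q) (heckeBetaBar Kb M q) (xJ M)
    (helper77.an_transcendental M) (xJ (M * q))
    (helper77.an_transcendental (M * q))
  haveI : Algebra.IsIntegral (FF M) (FF (M * q)) := isIntegral_along _ hβint
  haveI := hpd
  haveI : FundamentalIdentity Kb (FF M) (FF (M * q)) := hFI
  have hord : P.ord (heckeBetaBar Kb M q x) =
      (P.ramificationIndex (FF M) : ℤ) * (P.restrict (FF M)).ord x :=
    P.ord_restrict x
  have hfr : Module.finrank (FF M) (FF (M * q)) = q :=
    Fermat.Agent.T2.helper48.finrank_beta_of_dvd M q hq hqM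
  have hdeg : ∀ w : Place Kb (FF (M * q)), w.deg = 1 := fun w =>
    helper82.ff_deg_eq_one (xJ (M * q)) (helper77.an_transcendental (M * q)) w
  have hdeg' : (P.restrict (FF M)).deg = 1 :=
    helper82.ff_deg_eq_one (xJ M) (helper77.an_transcendental M) _
  have hq0 : (0 : ℤ) < q := by exact_mod_cast hq.pos
  have hj : (jInv M : FF M) ≠ 0 := by
    intro h0
    have := order_jInv M
    rw [h0] at this
    simp at this
  have hβne : ∀ f : FF M, f ≠ 0 → heckeBetaBar Kb M q f ≠ 0 := fun f hf =>
    (map_ne_zero (heckeBetaBar Kb M q)).mpr hf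
  by_cases h1 : IsInfty (P.restrict (FF M))
  · exfalso
    set P0 : Place Kb (FF (M * q)) := inftyBar (M * q) with hP0def
    have hP0 : IsInfty P0 := isInfty_inftyBar _
    have ho : ∀ f : FF M, f ≠ 0 →
        P0.ord (algebraMap (FF M) (FF (M * q)) f)
          = (q : ℤ) * ((f : FF M) : LaurentSeries Kb).order := by
      intro f hf
      have h2 : algebraMap (FF M) (FF (M * q)) f = heckeBetaBar Kb M q f := rfl
      rw [h2, hP0 _ (hβne f hf), coe_heckeBetaBar]
      exact Fermat.Agent.T2.helper96.order_qExpand q (coe_ne_zero' hf)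
    have hr := Fermat.Agent.T2.helper96.restrict_ord_of_mul (K := Kb) (F := FF M)
      (F' := FF (M * q)) P0 q hq0
      (fun f : FF M => ((f : FF M) : LaurentSeries Kb).order)
      ho ⟨jInv M, hj, order_jInv M⟩
    have e : P0.restrict (FF M) = P.restrict (FF M) :=
      IsInfty.unique (FF M) (fun f hf => hr.2 f hf) h1
    have hne : P ≠ P0 := fun h => hP (h ▸ hP0)
    have hsum := Fermat.Agent.T3.helper87.sum_ramificationIndex_le_finrank (K := Kb)
      (F := FF M) (F' := FF (M * q)) (P.restrict (FF M)) {P, P0}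
      (by
        intro w hw
        simp only [Finset.mem_insert, Finset.mem_singleton] at hw
        rcases hw with rfl | rfl
        · rfl
        · exact e) hdeg hdeg'
    rw [Finset.sum_insert (by simpa using hne), Finset.sum_singleton, hr.1, hfr] at hsum
    have heP : (0 : ℤ) < (P.ramificationIndex (FF M) : ℤ) := by
      exact_mod_cast P.ramificationIndex_pos (F := FF M)
    omega
  · rw [hord]
    exact mul_nonneg (Nat.cast_nonneg _) (hx _ h1)

/-- `β_q L(n ∞) ⊆ L(q n ∞)` when `q` divides the level. -/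
theorem inL_qExpand_of_dvd (hq : q.Prime) (hqM : q ∣ M) {n : ℤ} {f : LaurentSeries Kb}
    (hf : InL (FF M) n f) : InL (FF (M * q)) ((q : ℤ) * n) (qExpand Kb q f) := by
  obtain ⟨hfm, hreg, hco⟩ := hf
  have hmem : qExpand Kb q f ∈ FF (M * q) := by
    have := (heckeBetaBar Kb M q (⟨f, hfm⟩ : FF M)).2
    rwa [coe_heckeBetaBar] at this
  refine ⟨hmem, ?_, ?_⟩
  · intro P hP
    have h := ord_beta_nonneg_of_dvd hq hqM (⟨f, hfm⟩ : FF M) hreg P hP
    have he : (⟨qExpand Kb q f, hmem⟩ : FF (M * q)) = heckeBetaBar Kb M q (⟨f, hfm⟩ : FF M) := by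
      apply Subtype.ext
      rw [coe_heckeBetaBar]
    rw [he]
    exact h
  · intro k hk
    by_cases hd : (q : ℤ) ∣ k
    · obtain ⟨m, rfl⟩ := hd
      rw [qExpand_coeff_mul]
      apply hco
      have hq0 : (0 : ℤ) < q := by exact_mod_cast hq.pos
      have : (q : ℤ) * m < (q : ℤ) * (-n) := by rw [mul_neg]; exact hk
      exact lt_of_mul_lt_mul_left this hq0.le
    · exact qExpand_coeff_of_not_dvd q f hd

end Beta

/-! ### Integral functions regular off infinity -/

section Rinf

variable {M : ℕ} [NeZero M] {A : ValuationSubring Kb}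

/-- `β_q Rinf(M)_A ⊆ Rinf(M q)_A` when `q` divides the level `M`. -/
theorem isRinf_qExpand_of_dvd {q : ℕ} [NeZero q] (hq : q.Prime) (hqM : q ∣ M)
    {Y : LaurentSeries A} (hY : Fermat.Agent.T8.helper74.IsRinf M A Y) :
    Fermat.Agent.T8.helper74.IsRinf (M * q) A (qExpand A q Y) := by
  obtain ⟨n, hn⟩ := hY
  refine ⟨(q : ℤ) * n, ?_⟩
  have h : incl A (qExpand A q Y) = qExpand Kb q (incl A Y) := coeffMap_qExpand _ _ _
  rw [h]
  exact inL_qExpand_of_dvd hq hqM hn

/-- **`β_4 Rinf(M)_A ⊆ Rinf(4 M)_A` for EVEN `M`.** -/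
theorem isRinf_qExpand_four (h2 : 2 ∣ M) {Y : LaurentSeries A}
    (hY : Fermat.Agent.T8.helper74.IsRinf M A Y) :
    Fermat.Agent.T8.helper74.IsRinf (4 * M) A (qExpand A 4 Y) := by
  have h1 := isRinf_qExpand_of_dvd (q := 2) Nat.prime_two h2 hY
  have h2' : 2 ∣ M * 2 := Dvd.intro_left M rfl
  have h3 := isRinf_qExpand_of_dvd (M := M * 2) (q := 2) Nat.prime_two h2' h1
  rw [qExpand_qExpand] at h3
  have e1 : M * 2 * 2 = 4 * M := by ring
  have e2 : qExpand A (2 * 2) Y = qExpand A 4 Y := qExpand_congr (by norm_num) Y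
  rw [e1, e2] at h3
  exact h3

end Rinf

/-! ### The annihilator and its descent along `V_4` -/

section Ann

variable {M : ℕ} [NeZero M] {A : ValuationSubring Kb}

/-- `w ∈ Ann_k(L)`: the constant coefficient of `red(Y) w` vanishes for every `A`-integral
function `Y` of level `L` which is regular off infinity. -/
def IsAnn (L : ℕ) (A : ValuationSubring Kb) (w : LaurentSeries (kA A)) : Prop :=
  ∀ Y : LaurentSeries A, Fermat.Agent.T8.helper74.IsRinf L A Y → (red A Y * w).coeff 0 = 0

theorem coeff_zero_qExpand {R : Type*} [CommRing R] (n : ℕ) [NeZero n] (f : LaurentSeries R) :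
    (qExpand R n f).coeff 0 = f.coeff 0 := by
  have h := qExpand_coeff_mul n f 0
  rwa [mul_zero] at h

theorem red_qExpand (n : ℕ) [NeZero n] (Y : LaurentSeries A) :
    red A (qExpand A n Y) = qExpand (kA A) n (red A Y) :=
  coeffMap_qExpand _ _ _

theorem incl_qExpand (n : ℕ) [NeZero n] (Y : LaurentSeries A) :
    incl A (qExpand A n Y) = qExpand Kb n (incl A Y) :=
  coeffMap_qExpand _ _ _

/-- descent of the annihilator along `V_q`, `q` a prime dividing the level -/
theorem isAnn_of_qExpand_of_dvd {q : ℕ} [NeZero q] (hq : q.Prime) (hqM : q ∣ M)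
    {w : LaurentSeries (kA A)} (hw : IsAnn (M * q) A (qExpand (kA A) q w)) : IsAnn M A w := by
  intro Y hY
  have h := hw _ (isRinf_qExpand_of_dvd hq hqM hY)
  rw [red_qExpand, ← map_mul, coeff_zero_qExpand] at h
  exact h

/-- **descent of the annihilator along `V_4`**, EVEN level: `V_4 w ∈ Ann_k(4 M) → w ∈ Ann_k(M)`. -/
theorem isAnn_of_qExpand_four (h2 : 2 ∣ M) {w : LaurentSeries (kA A)}
    (hw : IsAnn (4 * M) A (qExpand (kA A) 4 w)) : IsAnn M A w := by
  intro Y hY
  have h := hw _ (isRinf_qExpand_four h2 hY)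
  rw [red_qExpand, ← map_mul, coeff_zero_qExpand] at h
  exact h

theorem IsAnn.of_mul_C {L : ℕ} {c : kA A} (hc : c ≠ 0) {w : LaurentSeries (kA A)}
    (hw : IsAnn L A (HahnSeries.C c * w)) : IsAnn L A w := by
  intro Y hY
  have h := hw Y hY
  rw [mul_left_comm, HahnSeries.C_mul_eq_smul, HahnSeries.coeff_smul, smul_eq_mul] at h
  exact (mul_eq_zero.mp h).resolve_left hc

/-- **[DESCENT], EVEN case**: if the logarithmic derivative of `f(t ^ 4)` annihilates
`Rb(4 M)`, `M` even and `2` invertible in the residue field, then the logarithmic derivative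
of `f` annihilates `Rb(M)`. -/
theorem isAnn_dlog_descent_four (h2 : 2 ∣ M) (h2k : (2 : kA A) ≠ 0)
    {f : LaurentSeries (kA A)}
    (hw : IsAnn (4 * M) A (Fermat.Agent.T8.helper87.dlogL (qExpand (kA A) 4 f))) :
    IsAnn M A (Fermat.Agent.T8.helper87.dlogL f) := by
  apply isAnn_of_qExpand_four h2
  have h4 : (4 : kA A) ≠ 0 := by
    have : (4 : kA A) = 2 * 2 := by norm_num
    rw [this]
    exact mul_ne_zero h2k h2k
  apply IsAnn.of_mul_C h4
  have e : HahnSeries.C (4 : kA A) * qExpand (kA A) 4 (Fermat.Agent.T8.helper87.dlogL f)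
      = Fermat.Agent.T8.helper87.dlogL (qExpand (kA A) 4 f) := by
    rw [Fermat.Agent.T8.helper87.dlogL_qExpand]
    congr 1
  rw [e]
  exact hw

end Ann

end Fermat.Agent.T8.helper78

end
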