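import Mathlib
import Fermat.Agent.T8.helper78_DescEven
import Fermat.Agent.T8.helper74_GapsAnn
import Fermat.Agent.T8.helper54_Phi
import Fermat.Agent.T8.helper67_AuxDef
import Fermat.Agent.T8.helper87_DlogAbs

/-!
# T8 [F3-EXIT], leaf 7 [DESCENT]: contract and the EVEN case (helper78)

Vocabulary: `helper74.annRb` (`Ann_k(L)`), `helper87.dlogL` (`θ f / f`), `helper54.IsRed1`
(first-component reduction up to a constant), `helper67.auxPull67` (`π = β_4^*`).

Setting: `x₀ ∈ J₀(M' p)` with Kummer function `u₀` and reduction `f₀ ∈ F̃_{M'}`;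
`x = π x₀ ∈ J₀(4 M' p)` with Kummer function `u` and reduction `f ∈ F̃_{4 M'}`.

* `rhoQ_qExpand` : `RhoQ` is compatible with `t ↦ t ^ n`;
* `coe_red_pull` : `f = c · f₀(t ^ 4) · g ^ p` (every level `M'`);
* `dlogL_red_pull` : `dlog f = 4 · (dlog f₀)(t ^ 4)` (every level `M'`);
* `dlogL_red_pull_ne_zero` : `dlog f ≠ 0 → dlog f₀ ≠ 0`;
* `mem_annRb_of_qExpand_four` : `w(t ^ 4) ∈ Ann_k(4 M) → w ∈ Ann_k(M)`, `M` EVEN;
* `DescentStatement M' p A` : **the contract of [DESCENT]**: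
  `dlog f ∈ Ann_k(4 M') → dlog f₀ ∈ Ann_k(M')`;
* `descent_even` : `DescentStatement M' p A` for EVEN `M'`.
-/

set_option autoImplicit false
set_option synthInstance.maxHeartbeats 400000
set_option maxHeartbeats 1000000
set_option linter.style.haveILetI false
set_option linter.unusedSectionVars false
set_option linter.unusedVariables false
set_option linter.style.longLine false

noncomputable section

open HahnSeries IntermediateField AlgebraicCurve ModularCurve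
open Fermat.Agent.S18.helper19 Fermat.Agent.P2.helper29 Fermat.Agent.T2.helper36
open Fermat.Agent.T2.helper22 Fermat.Agent.S24

namespace Fermat.Agent.T8.helper78

open Fermat.Agent.T3.helper36 (RhoQ)
open Fermat.Agent.T8.helper54 (IsRed1)
open Fermat.Agent.T8.helper87 (dlogL)
open Fermat.Agent.T8.helper74 (annRb mem_annRb IsRinf)
open Fermat.Agent.P3.helper94 (IsKummerRep)
open Fermat.Agent.T8.helper67 (auxPull67 betaTo coe_betaTo)

/-! ### Series -/

section Series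

variable {A : ValuationSubring Kb}

/-- `RhoQ` is compatible with `t ↦ t ^ n` -/
theorem rhoQ_qExpand (n : ℕ) [NeZero n] {g : LaurentSeries Kb} {r : LaurentSeries (kA A)}
    (h : RhoQ A g r) : RhoQ A (qExpand Kb n g) (qExpand (kA A) n r) := by
  obtain ⟨Y₁, Y₂, h2, h3, h4⟩ := h
  refine ⟨qExpand A n Y₁, qExpand A n Y₂, ?_, ?_, ?_⟩
  · rw [red_qExpand]
    intro h0
    exact h2 (qExpand_injective n (by rw [h0, map_zero]))
  · rw [incl_qExpand, incl_qExpand, h3, map_mul]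
  · rw [red_qExpand, red_qExpand, h4, map_mul]

/-- **descent of `Ann_k` along `V_4`**, EVEN level -/
theorem mem_annRb_of_qExpand_four {M : ℕ} [NeZero M] (h2 : 2 ∣ M) {w : LaurentSeries (kA A)}
    (hw : qExpand (kA A) 4 w ∈ annRb (4 * M) A) : w ∈ annRb M A := by
  rw [mem_annRb] at hw ⊢
  refine ⟨fun m hm => ?_, isAnn_of_qExpand_four h2 hw.2⟩
  have h := hw.1 (((4 : ℕ) : ℤ) * m) (by push_cast; omega)
  rwa [qExpand_coeff_mul] at h

/-- descent of `Ann_k` along `V_q`, `q` a prime dividing the level -/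
theorem mem_annRb_of_qExpand_of_dvd {M q : ℕ} [NeZero M] [NeZero q] (hq : q.Prime)
    (hqM : q ∣ M) {w : LaurentSeries (kA A)}
    (hw : qExpand (kA A) q w ∈ annRb (M * q) A) : w ∈ annRb M A := by
  rw [mem_annRb] at hw ⊢
  refine ⟨fun m hm => ?_, isAnn_of_qExpand_of_dvd hq hqM hw.2⟩
  have hq0 : (0 : ℤ) ≤ (q : ℤ) := Int.natCast_nonneg q
  have h := hw.1 ((q : ℤ) * m) (mul_nonpos_of_nonneg_of_nonpos hq0 hm)
  rwa [qExpand_coeff_mul] at h

end Series

/-! ### The reduction of a pulled-back Kummer function -/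

section Pull

variable {M' p : ℕ} [NeZero M'] [NeZero p] {A : ValuationSubring Kb}

/-- **`f = c · f₀(t ^ 4) · g ^ p`**: the reduction of a Kummer function of `π x₀` is, up to a
constant and a `p`-th power, the `V_4` of the reduction of a Kummer function of `x₀`. -/
theorem coe_red_pull (hp : p.Prime) (hpM : ¬ p ∣ 4 * M') (hA : A.LiesOverPrime p)
    {x₀ : JZero (M' * p)} {u₀ : FF (M' * p)} {f₀ : FFb A M'}
    {u : FF (4 * M' * p)} {f : FFb A (4 * M')}
    (hu₀ : IsKummerRep p x₀ u₀) (hf₀ : IsRed1 A M' p u₀ f₀)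
    (hu : IsKummerRep p (auxPull67 M' p x₀) u) (hf : IsRed1 A (4 * M') p u f) :
    ∃ (c : kA A) (g : FFb A (4 * M')), c ≠ 0 ∧ g ≠ 0 ∧
      (f : LaurentSeries (kA A))
        = HahnSeries.C c * qExpand (kA A) 4 (f₀ : LaurentSeries (kA A))
          * (g : LaurentSeries (kA A)) ^ p := by
  classical
  set v : FF (4 * M' * p) := betaTo (M' * p) 4 (4 * M' * p) (by ring) u₀ with hv
  have hvK : IsKummerRep p (auxPull67 M' p x₀) v :=
    Fermat.Agent.T8.helper67.isKummerRep_auxPull67 hu₀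
  have hv0 : v ≠ 0 := hvK.ne_zero
  obtain ⟨G, w, hG, hw, e⟩ := hvK.unique hu
  obtain ⟨c, hc, rfl⟩ := Fermat.Agent.T7.helper43.exists_const_of_hasTrivialDiv hw
  obtain ⟨g, hg⟩ := Fermat.Agent.T8.helper54.exists_isRed1 hp hpM hA hG
  obtain ⟨f'', hf''⟩ := Fermat.Agent.T8.helper54.exists_isRed1 hp hpM hA hv0
  have hu' : IsRed1 A (4 * M') p u (f'' * (1 * g ^ p)) := by
    rw [e]
    exact hf''.mul ((Fermat.Agent.T8.helper54.isRed1_const hc).mul (hg.pow p))
  obtain ⟨c₂, hc₂, e₂⟩ := hf.exists_const hu'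
  -- `f''` is a constant times `f₀(t ^ 4)`
  have hf₀0 := hf₀.coe_ne_zero
  have hf''0 := hf''.coe_ne_zero
  obtain ⟨-, κ₀, hκ₀, hr₀⟩ := hf₀
  obtain ⟨-, κ'', hκ'', hr''⟩ := hf''
  have hr₀' := rhoQ_qExpand (A := A) 4 hr₀
  have hq0 : qExpand (kA A) 4 (f₀ : LaurentSeries (kA A)) ≠ 0 := by
    intro h0
    exact hf₀0 (qExpand_injective 4 (by rw [h0, map_zero]))
  have hvs : (v : LaurentSeries Kb) ≠ 0 := fun h0 => hv0 (Subtype.ext h0)
  have ev : qExpand Kb 4 (algebraMap Kb (LaurentSeries Kb) κ₀⁻¹ * (u₀ : LaurentSeries Kb))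
      = algebraMap Kb (LaurentSeries Kb) κ₀⁻¹ * (v : LaurentSeries Kb) := by
    rw [map_mul, hv, coe_betaTo]
    congr 1
    rw [LaurentSeries.algebraMap_apply, qExpand_C]
  rw [ev] at hr₀'
  have hd := hr''.div hr₀' hq0
  have e3 : algebraMap Kb (LaurentSeries Kb) κ''⁻¹ * (v : LaurentSeries Kb) /
      (algebraMap Kb (LaurentSeries Kb) κ₀⁻¹ * (v : LaurentSeries Kb))
      = algebraMap Kb (LaurentSeries Kb) (κ''⁻¹ * κ₀) := by
    have hk0 : algebraMap Kb (LaurentSeries Kb) κ₀ ≠ 0 := by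
      rw [Ne, map_eq_zero]; exact hκ₀
    have hk2 : algebraMap Kb (LaurentSeries Kb) κ'' ≠ 0 := by
      rw [Ne, map_eq_zero]; exact hκ''
    rw [map_mul, map_inv₀, map_inv₀]
    field_simp
  rw [e3] at hd
  have hmem := hd.algebraMap_mem
  have hd2 := Fermat.Agent.T3.helper36.rhoQ_algebraMap (A := A) (⟨κ''⁻¹ * κ₀, hmem⟩ : A)
  have hu2 := hd.unique hd2
  set c₁ : kA A := IsLocalRing.residue A (⟨κ''⁻¹ * κ₀, hmem⟩ : A) with hc₁
  have hff : (f'' : LaurentSeries (kA A)) = algebraMap (kA A) (LaurentSeries (kA A)) c₁ *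
      qExpand (kA A) 4 (f₀ : LaurentSeries (kA A)) := by
    rw [← hu2, div_mul_cancel₀ _ hq0]
  have hc₁0 : c₁ ≠ 0 := by
    rintro h0
    rw [h0, map_zero, zero_mul] at hff
    exact hf''0 hff
  refine ⟨c₂ * c₁, g, mul_ne_zero hc₂ hc₁0, hg.1, ?_⟩
  have e4 : (f : LaurentSeries (kA A)) = algebraMap (kA A) (LaurentSeries (kA A)) c₂ *
      ((f'' : LaurentSeries (kA A)) * (1 * (g : LaurentSeries (kA A)) ^ p)) := by
    rw [e₂]
    rfl
  rw [e4, hff, LaurentSeries.algebraMap_apply, LaurentSeries.algebraMap_apply, map_mul]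
  ring

/-- **`dlog f = 4 · (dlog f₀)(t ^ 4)`** -/
theorem dlogL_red_pull (hp : p.Prime) (hpM : ¬ p ∣ 4 * M') (hA : A.LiesOverPrime p)
    {x₀ : JZero (M' * p)} {u₀ : FF (M' * p)} {f₀ : FFb A M'}
    {u : FF (4 * M' * p)} {f : FFb A (4 * M')}
    (hu₀ : IsKummerRep p x₀ u₀) (hf₀ : IsRed1 A M' p u₀ f₀)
    (hu : IsKummerRep p (auxPull67 M' p x₀) u) (hf : IsRed1 A (4 * M') p u f) :
    dlogL (f : LaurentSeries (kA A))
      = ((4 : ℕ) : LaurentSeries (kA A)) * qExpand (kA A) 4 (dlogL (f₀ : LaurentSeries (kA A))) := by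
  haveI : CharP (kA A) p := Fermat.Agent.P2.helper93.charP_residueField hp hA
  obtain ⟨c, g, hc, hg, e⟩ := coe_red_pull hp hpM hA hu₀ hf₀ hu hf
  have hg0 : (g : LaurentSeries (kA A)) ≠ 0 := fun h0 => hg (Subtype.ext h0)
  have hq0 : qExpand (kA A) 4 (f₀ : LaurentSeries (kA A)) ≠ 0 := by
    intro h0
    exact hf₀.coe_ne_zero (qExpand_injective 4 (by rw [h0, map_zero]))
  have hcq : HahnSeries.C c * qExpand (kA A) 4 (f₀ : LaurentSeries (kA A)) ≠ 0 := by
    refine mul_ne_zero ?_ hq0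
    rw [Ne, map_eq_zero]
    exact hc
  rw [e, Fermat.Agent.T8.helper87.dlogL_mul hcq (pow_ne_zero p hg0),
    Fermat.Agent.T8.helper87.dlogL_pow_char p hg0, add_zero,
    Fermat.Agent.T8.helper87.dlogL_C_mul hc hq0, Fermat.Agent.T8.helper87.dlogL_qExpand]

theorem dlogL_red_pull_ne_zero (hp : p.Prime) (hpM : ¬ p ∣ 4 * M') (hA : A.LiesOverPrime p)
    {x₀ : JZero (M' * p)} {u₀ : FF (M' * p)} {f₀ : FFb A M'}
    {u : FF (4 * M' * p)} {f : FFb A (4 * M')}
    (hu₀ : IsKummerRep p x₀ u₀) (hf₀ : IsRed1 A M' p u₀ f₀)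
    (hu : IsKummerRep p (auxPull67 M' p x₀) u) (hf : IsRed1 A (4 * M') p u f)
    (h : dlogL (f : LaurentSeries (kA A)) ≠ 0) : dlogL (f₀ : LaurentSeries (kA A)) ≠ 0 := by
  intro h0
  apply h
  rw [dlogL_red_pull hp hpM hA hu₀ hf₀ hu hf, h0, map_zero, mul_zero]

end Pull

/-! ### The contract of [DESCENT] and the even case -/

section Descent

/-- **[DESCENT]** (leaf 7 of [F3-EXIT]): if the logarithmic derivative of the reduction `f` of a
Kummer function of `π x₀` (level `4 M'`) annihilates `Rb(4 M')`, then the logarithmic derivative of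
the reduction `f₀` of a Kummer function of `x₀` (level `M'`) annihilates `Rb(M')`. -/
def DescentStatement (M' p : ℕ) [NeZero M'] [NeZero p] (A : ValuationSubring Kb) : Prop :=
  ∀ (x₀ : JZero (M' * p)) (u₀ : FF (M' * p)) (f₀ : FFb A M')
    (u : FF (4 * M' * p)) (f : FFb A (4 * M')),
    IsKummerRep p x₀ u₀ → IsRed1 A M' p u₀ f₀ →
    IsKummerRep p (auxPull67 M' p x₀) u → IsRed1 A (4 * M') p u f →
    dlogL (f : LaurentSeries (kA A)) ∈ annRb (4 * M') A →
    dlogL (f₀ : LaurentSeries (kA A)) ∈ annRb M' A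

variable {M' p : ℕ} [NeZero M'] [NeZero p] {A : ValuationSubring Kb}

/-- **[DESCENT], EVEN case**: no norm, no lift, no residue theorem. -/
theorem descent_even (hp : p.Prime) (hp2 : p ≠ 2) (hpM : ¬ p ∣ 4 * M')
    (hA : A.LiesOverPrime p) (h2 : 2 ∣ M') : DescentStatement M' p A := by
  intro x₀ u₀ f₀ u f hu₀ hf₀ hu hf hΩ
  haveI : CharP (kA A) p := Fermat.Agent.P2.helper93.charP_residueField hp hA
  rw [dlogL_red_pull hp hpM hA hu₀ hf₀ hu hf] at hΩ
  apply mem_annRb_of_qExpand_four h2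
  have h4 : ((4 : ℕ) : kA A) ≠ 0 := by
    intro h0
    rw [CharP.cast_eq_zero_iff (kA A) p] at h0
    have h1 : p ∣ 2 ^ 2 := by norm_num; exact h0
    have h3 := (Nat.prime_dvd_prime_iff_eq hp Nat.prime_two).mp (hp.dvd_of_dvd_pow h1)
    exact hp2 h3
  have e : ((4 : ℕ) : LaurentSeries (kA A)) = HahnSeries.C ((4 : ℕ) : kA A) := by
    rw [map_natCast]
  rw [e, HahnSeries.C_mul_eq_smul] at hΩ
  have h5 := (annRb (4 * M') A).smul_mem (((4 : ℕ) : kA A))⁻¹ hΩ
  rwa [smul_smul, inv_mul_cancel₀ h4, one_smul] at h5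

end Descent

end Fermat.Agent.T8.helper78

end
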