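import Fermat.Agent.T8.helper7_CuspGapDefs
import Fermat.Agent.T8.helper78_DescAnn
import Fermat.Agent.T8.helper67_AuxNorm
import Fermat.Agent.T7.helper43_NewNorm

/-!
# T8 [CUSP-GAP], sub-box [CUSP-ASM] (helper7, owner): the assembly

`cuspGap_of_leaves : CuspSqfStatement → Cusp4Statement → CuspGapStatement auxPull67`.

* `atkinLehner_betaTo_four` : `W_p ∘ β₄ = β₄ ∘ W_p` at the levels `4 M' p`, `M' p`
  (`helper67.atkinLehner_betaTo` transported from `M' * 4 * p`);
* `isKummerRep_atkinLehner_pull` : if `u` is a Kummer function of `π x₀` then `W_p u` is a Kummer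
  function of `π (W_p x₀)`;
* `dvdCusp_of_pull` : the reduction of a Kummer function of `π x₀` satisfies `DvdCusp`
  (`helper78.coe_red_pull` : `f = c · f₀(q⁴) · g ^ p`, then the two leaves);
* `cuspGap_of_leaves`.
-/

set_option autoImplicit false
set_option synthInstance.maxHeartbeats 400000
set_option maxHeartbeats 1600000
set_option linter.unusedSectionVars false
set_option linter.unusedVariables false
set_option linter.style.longLine false

noncomputable section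

namespace Fermat.Agent.T8.helper7

open HahnSeries IntermediateField AlgebraicCurve ModularCurve
open Fermat.Agent.S18.helper19 Fermat.Agent.P2.helper29 Fermat.Agent.P2.helper93
open Fermat.Agent.T2 Fermat.Agent.T2.helper36
open Fermat.Agent.T8.helper54 (IsRed1 DvdOff)
open Fermat.Agent.P3.helper94 (IsKummerRep)
open Fermat.Agent.T7 Fermat.Agent.T8.helper72 Fermat.Agent.T8.helper67

section Pull

variable {M' p : ℕ} [NeZero M'] [NeZero p]

/-- `W_p ∘ β₄ = β₄ ∘ W_p`, general form of the target level -/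
theorem atkinLehner_betaTo_gen (hp : p.Prime) (hpM : ¬ p ∣ M') (hp4 : ¬ p ∣ 4)
    (N : ℕ) [NeZero N] (hN : M' * 4 = N) (hpN : ¬ p ∣ N) (h : M' * p * 4 = N * p)
    (y : FF (M' * p)) :
    atkinLehner N p hp hpN (betaTo (M' * p) 4 (N * p) h y)
      = betaTo (M' * p) 4 (N * p) h (atkinLehner M' p hp hpM y) := by
  subst hN
  exact atkinLehner_betaTo M' 4 p hp hpM hp4 hpN h y

/-- `W_p ∘ β₄ = β₄ ∘ W_p` at the levels `4 M' p`, `M' p` -/
theorem atkinLehner_betaTo_four (hp : p.Prime) (hpM : ¬ p ∣ M') (hpN : ¬ p ∣ 4 * M')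
    (y : FF (M' * p)) :
    atkinLehner (4 * M') p hp hpN (betaTo (M' * p) 4 (4 * M' * p) (by ring) y)
      = betaTo (M' * p) 4 (4 * M' * p) (by ring) (atkinLehner M' p hp hpM y) :=
  atkinLehner_betaTo_gen hp hpM (fun h => hpN (Dvd.dvd.mul_right h M')) (4 * M')
    (Nat.mul_comm M' 4) hpN (by ring) y

/-- if `u` is a Kummer function of `π x₀`, then `W_p u` is a Kummer function of
`π (W_p x₀)` -/
theorem isKummerRep_atkinLehner_pull (hp : p.Prime) (hpM : ¬ p ∣ M') (hpN : ¬ p ∣ 4 * M')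
    {x₀ : JZero (M' * p)} (hx₀ : p • x₀ = 0) {u : FF (4 * M' * p)}
    (hu : IsKummerRep p (auxPull67 M' p x₀) u) :
    IsKummerRep p (auxPull67 M' p (atkinLehner M' p hp hpM • x₀))
      (atkinLehner (4 * M') p hp hpN u) := by
  obtain ⟨u₀, hu₀⟩ := Fermat.Agent.P3.helper94.exists_isKummerRep hx₀
  have h1 : IsKummerRep p (auxPull67 M' p (atkinLehner M' p hp hpM • x₀))
      (betaTo (M' * p) 4 (4 * M' * p) (by ring) (atkinLehner M' p hp hpM u₀)) :=
    isKummerRep_auxPull67 (hu₀.algEquiv_smul (atkinLehner M' p hp hpM))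
  have h2 : IsKummerRep p (atkinLehner (4 * M') p hp hpN • auxPull67 M' p x₀)
      (atkinLehner (4 * M') p hp hpN (betaTo (M' * p) 4 (4 * M' * p) (by ring) u₀)) :=
    (isKummerRep_auxPull67 hu₀).algEquiv_smul (atkinLehner (4 * M') p hp hpN)
  rw [atkinLehner_betaTo_four hp hpM hpN] at h2
  have e := Fermat.Agent.T7.helper43.eq_of_isKummerRep hp.ne_zero h1 h2
  rw [e]
  exact hu.algEquiv_smul (atkinLehner (4 * M') p hp hpN)

variable {A : ValuationSubring Kb}

/-- the reduction of a Kummer function of `π x₀` satisfies `DvdCusp` -/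
theorem dvdCusp_of_pull (hS : CuspSqfStatement) (h4 : Cusp4Statement)
    (hp : p.Prime) (hpM : ¬ p ∣ M') (hpN : ¬ p ∣ 4 * M') (hsq : Squarefree M')
    (hA : A.LiesOverPrime p)
    {x₀ : JZero (M' * p)} {u₀ : FF (M' * p)} {u : FF (4 * M' * p)} {f : FFb A (4 * M')}
    (hu₀ : IsKummerRep p x₀ u₀) (hu : IsKummerRep p (auxPull67 M' p x₀) u)
    (hf : IsRed1 A (4 * M') p u f) : DvdCusp A (4 * M') p f := by
  obtain ⟨f₀, hf₀⟩ := Fermat.Agent.T8.helper54.exists_isRed1 hp hpM hA hu₀.ne_zero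
  obtain ⟨c, g, hc, hg, e⟩ := Fermat.Agent.T8.helper78.coe_red_pull hp hpN hA hu₀ hf₀ hu hf
  have hd0 : DvdCusp A M' p f₀ :=
    hS M' p hp hpM hsq A hA u₀ f₀ hu₀.ne_zero (fun P => hu₀.dvd_ord P) hf₀
  have hmem : qExpand (kA A) 4 (f₀ : LaurentSeries (kA A)) ∈ FFb A (4 * M') := by
    have := Fermat.Agent.T2.helper58.qExpand_mem_FFb (A := A) (N := M') 4 f₀.2
    rwa [Nat.mul_comm M' 4] at this
  have hdβ : DvdCusp A (4 * M') p ⟨_, hmem⟩ := h4 M' p hp hpN A hA f₀ ⟨_, hmem⟩ hf₀.1 rfl hd0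
  intro Q hQ
  have hβ0 : (⟨_, hmem⟩ : FFb A (4 * M')) ≠ 0 := by
    intro h0
    have h1 := congrArg Subtype.val h0
    exact hf₀.coe_ne_zero (qExpand_injective 4 (h1.trans (map_zero _).symm))
  have hc0 : algebraMap (kA A) (FFb A (4 * M')) c ≠ 0 := by
    rw [Ne, map_eq_zero]; exact hc
  have e' : f = algebraMap (kA A) (FFb A (4 * M')) c * ⟨_, hmem⟩ * g ^ p :=
    Subtype.ext (by rw [e, ← LaurentSeries.algebraMap_apply]; rfl)
  rw [e', Q.ord_mul (mul_ne_zero hc0 hβ0) (pow_ne_zero p hg), Q.ord_mul hc0 hβ0,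
    Fermat.Agent.P3.helper94.ord_algebraMap_eq_zero, zero_add,
    Fermat.Agent.P3.helper94.ord_pow]
  exact dvd_add (hdβ Q hQ) (Dvd.intro _ rfl)

end Pull

/-- **[CUSP-ASM]**: the contract [CUSP-GAP] from the leaves [CUSP-SQF] and [CUSP-4]. -/
theorem cuspGap_of_leaves (hS : CuspSqfStatement) (h4 : Cusp4Statement) :
    CuspGapStatement auxPull67 := by
  intro P W M' _ hc hpN A hA V0 hV0 x hx u f₁ f₂ hk h1 h2
  obtain ⟨x₀, hx₀, rfl⟩ := hx
  have hpM : ¬ P.p ∣ M' := hc.not_p_dvd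
  have hsq : Squarefree M' := hc.cond.squarefree.of_mul_left
  have htors : P.p • x₀ = 0 := hV0.tors x₀ hx₀
  obtain ⟨u₀, hu₀⟩ := Fermat.Agent.P3.helper94.exists_isKummerRep htors
  refine ⟨dvdCusp_of_pull hS h4 P.pp hpM hpN hsq hA hu₀ hk h1, ?_⟩
  exact dvdCusp_of_pull hS h4 P.pp hpM hpN hsq hA
    (hu₀.algEquiv_smul (atkinLehner M' P.p P.pp hpM))
    (isKummerRep_atkinLehner_pull P.pp hpM hpN htors hk) h2

end Fermat.Agent.T8.helper7

end
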