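import Fermat.Agent.T8.helper44_DHeckeAsm
import Fermat.Agent.T8.helper67_AuxDef
import Fermat.Agent.T8.helper54_Phi

/-!
# T8 [CUSP-GAP], sub-box [CUSP-ASM] (helper7, owner): contracts

The wall exit `helper29.wallCN` gives `p ∣ ord_Q f` only at the places `Q` of the special fibre
where `j̄` is finite (`helper54.DvdOff`).  Box (F) ([OMEGA], (F4)) needs it at the cusps too.

* `DvdCusp A N p f`  : `p ∣ ord_Q f` at every pole `Q` of `j̄` (cuspidal place, `∞` included);
* `DvdAll A N p f`   : `p ∣ ord_Q f` at EVERY place; `dvdAll_of_off_cusp`;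
* `CuspSqfStatement` : **leaf [CUSP-SQF]** (= [CUSP-A] + [CUSP-COUNT] + [CUSP-OO], owner helper43
                       with helper48 / helper14): at a SQUAREFREE level `M'`, the reduction of
                       every function of level `M' p` with divisor divisible by `p` satisfies
                       `DvdCusp`;
* `Cusp4Statement`   : **leaf [CUSP-4]** (owner helper95, second helper35): `DvdCusp` passes from
                       `f₀ ∈ F̃_{M'}` to `f₀(q⁴) ∈ F̃_{4 M'}`;
* `CuspGapCoreStatement` : the core: `DvdCusp` for the reduction of every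
                       `u = c · β₄(u₀) · G^p`, `u₀` of level `M' p` with `p ∣ div u₀`;
* `CuspGapStatement π` : **the target**, in the vocabulary of `helper44.F3ExitStatement`:
                       for `x ∈ V0.map π`, every Kummer function `u` of `x` and reductions `f₁` of
                       `u`, `f₂` of `W_p u`: `DvdCusp f₁` and `DvdCusp f₂`.

The assembly `cuspGap_of_leaves : CuspSqfStatement → Cusp4Statement →
CuspGapStatement auxPull67` is in `helper7_CuspGap.lean`.
-/

set_option autoImplicit false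
set_option synthInstance.maxHeartbeats 400000
set_option maxHeartbeats 1600000
set_option linter.unusedSectionVars false
set_option linter.unusedVariables false
set_option linter.style.longLine false

noncomputable section

namespace Fermat.Agent.T8.helper7

open HahnSeries IntermediateField AlgebraicCurve ModularCurve
open Fermat.Agent.S18.helper19 Fermat.Agent.P2.helper29 Fermat.Agent.P2.helper93
open Fermat.Agent.T2 Fermat.Agent.T2.helper36
open Fermat.Agent.T8.helper54 (IsRed1 DvdOff)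
open Fermat.Agent.P3.helper94 (IsKummerRep)
open Fermat.Agent.T7 Fermat.Agent.T8.helper72 Fermat.Agent.T8.helper67

section Defs

variable (A : ValuationSubring Kb) (N : ℕ) [NeZero N]

/-- `p ∣ ord_Q f` at every cuspidal place (pole of `j̄`, `∞` included) of the special fibre -/
def DvdCusp (p : ℕ) (f : FFb A N) : Prop :=
  ∀ Q : Place (kA A) (FFb A N), Q.ord (jBar A N) < 0 → (p : ℤ) ∣ Q.ord f

/-- `p ∣ ord_Q f` at EVERY place of the special fibre -/
def DvdAll (p : ℕ) (f : FFb A N) : Prop :=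
  ∀ Q : Place (kA A) (FFb A N), (p : ℤ) ∣ Q.ord f

variable {A N}

theorem dvdAll_of_off_cusp {p : ℕ} {f : FFb A N} (h1 : DvdOff A N p f) (h2 : DvdCusp A N p f) :
    DvdAll A N p f := fun Q =>
  (le_or_gt 0 (Q.ord (jBar A N))).elim (h1 Q) (h2 Q)

end Defs

/-- **leaf contract [CUSP-SQF]** (= [CUSP-A] + [CUSP-COUNT] + [CUSP-OO]): at a squarefree level
`M'` prime to `p`, the first-component reduction `f₀` of every function `u₀` of level `M' p`
whose divisor is divisible by `p` has `p ∣ ord_Q f₀` at every cuspidal place. -/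
def CuspSqfStatement : Prop :=
  ∀ (M' p : ℕ) [NeZero M'] [NeZero p], p.Prime → ¬ p ∣ M' → Squarefree M' →
    ∀ A : ValuationSubring Kb, A.LiesOverPrime p →
    ∀ (u₀ : FF (M' * p)) (f₀ : FFb A M'), u₀ ≠ 0 →
      (∀ P : Place Kb (FF (M' * p)), (p : ℤ) ∣ P.ord u₀) →
      IsRed1 A M' p u₀ f₀ → DvdCusp A M' p f₀

/-- **leaf contract [CUSP-4]**: transfer along `β₄` in the special fibre: if `f₀ ∈ F̃_{M'}` has
`p ∣ ord` at every cuspidal place of `F̃_{M'}`, then `f₀(q⁴) ∈ F̃_{4 M'}` has `p ∣ ord` at every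
cuspidal place of `F̃_{4 M'}`. -/
def Cusp4Statement : Prop :=
  ∀ (M' p : ℕ) [NeZero M'] [NeZero p], p.Prime → ¬ p ∣ 4 * M' →
    ∀ A : ValuationSubring Kb, A.LiesOverPrime p →
    ∀ (f₀ : FFb A M') (f : FFb A (4 * M')), f₀ ≠ 0 →
      (f : LaurentSeries (kA A)) = qExpand (kA A) 4 (f₀ : LaurentSeries (kA A)) →
      DvdCusp A M' p f₀ → DvdCusp A (4 * M') p f

/-- **the core of [CUSP-GAP]**: `DvdCusp` for the reductions of the functions
`u = c · β₄(u₀) · G ^ p` of level `4 M' p`, `u₀` of level `M' p` with `p ∣ div u₀`. -/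
def CuspGapCoreStatement : Prop :=
  ∀ (M' p : ℕ) [NeZero M'] [NeZero p], p.Prime → ¬ p ∣ 4 * M' → Squarefree M' →
    ∀ A : ValuationSubring Kb, A.LiesOverPrime p →
    ∀ (u₀ : FF (M' * p)), u₀ ≠ 0 → (∀ P : Place Kb (FF (M' * p)), (p : ℤ) ∣ P.ord u₀) →
    ∀ (u G : FF (4 * M' * p)) (c : Kb), c ≠ 0 → G ≠ 0 →
      u = algebraMap Kb (FF (4 * M' * p)) c * betaTo (M' * p) 4 (4 * M' * p) (by ring) u₀ * G ^ p →
      ∀ f : FFb A (4 * M'), IsRed1 A (4 * M') p u f → DvdCusp A (4 * M') p f

/-- **Contract [CUSP-GAP]** (target of [CUSP-ASM]), in the vocabulary of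
`helper44.F3ExitStatement`: for every class `x ∈ V = π V0`, every Kummer function `u` of `x`,
every first-component reduction `f₁` of `u` and `f₂` of `W_p u`: `p ∣ ord_Q f_i` at every
cuspidal place `Q` of the special fibre (`∞` included). -/
def CuspGapStatement (π : PullData) : Prop :=
  ∀ (P : FreyPackage) (W : WeierstrassCurve ℤ) (M' : ℕ) [NeZero M'], ChainCtx P M' W →
    ∀ (hpN : ¬ P.p ∣ 4 * M') (A : ValuationSubring (AlgebraicClosure ℚ)), A.LiesOverPrime P.p →
    ∀ V0 : AddSubgroup (JZero (M' * P.p)), FreyReal P W (M' * P.p) V0 →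
      ∀ x ∈ V0.map (π M' P.p), ∀ (u : FF (4 * M' * P.p)) (f₁ f₂ : FFb A (4 * M')),
        IsKummerRep P.p x u →
        IsRed1 A (4 * M') P.p u f₁ →
        IsRed1 A (4 * M') P.p (atkinLehner (4 * M') P.p P.pp hpN u) f₂ →
        DvdCusp A (4 * M') P.p f₁ ∧ DvdCusp A (4 * M') P.p f₂

/-- consumer form: with the wall exit `DvdOff`, both reductions have `p ∣ ord_Q` at EVERY
place. -/
theorem dvdAll_of_cuspGap {π : PullData} (h : CuspGapStatement π)
    (P : FreyPackage) (W : WeierstrassCurve ℤ) (M' : ℕ) [NeZero M'] (hc : ChainCtx P M' W)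
    (hpN : ¬ P.p ∣ 4 * M') (A : ValuationSubring (AlgebraicClosure ℚ))
    (hA : A.LiesOverPrime P.p)
    (V0 : AddSubgroup (JZero (M' * P.p))) (hV0 : FreyReal P W (M' * P.p) V0)
    {x : JZero (4 * M' * P.p)} (hx : x ∈ V0.map (π M' P.p))
    {u : FF (4 * M' * P.p)} {f₁ f₂ : FFb A (4 * M')} (hk : IsKummerRep P.p x u)
    (h1 : IsRed1 A (4 * M') P.p u f₁) (d1 : DvdOff A (4 * M') P.p f₁)
    (h2 : IsRed1 A (4 * M') P.p (atkinLehner (4 * M') P.p P.pp hpN u) f₂)
    (d2 : DvdOff A (4 * M') P.p f₂) :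
    DvdAll A (4 * M') P.p f₁ ∧ DvdAll A (4 * M') P.p f₂ := by
  obtain ⟨c1, c2⟩ := h P W M' hc hpN A hA V0 hV0 x hx u f₁ f₂ hk h1 h2
  exact ⟨dvdAll_of_off_cusp d1 c1, dvdAll_of_off_cusp d2 c2⟩

end Fermat.Agent.T8.helper7

end
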