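/-
T8 (row 38 via S44), box [CUSP-GAP], leaf **[CUSP-4]** (helper95): transfer of the
`n`-divisibility of the orders at the cusps from level `M` to level `M d` along `β̄_d : q ↦ q^d`
on the special fibre (`A` over a prime `ℓ ∤ M d`).

* `dvd_ord_along_of_poles` (abstract): `β : F → F'` integral, `n ∣ ord_t f` at every pole `t` of
  `x`; then `n ∣ ord_w (β f)` at every pole `w` of `β x`.
* `ord_thetaBar_neg` : at every place of the special fibre field of level `N` which is a pole
  of `j̄`, the function `Θ̄ = j̄(q^N)` has a pole (cusp dictionary of P2, helper28).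
* `ord_betaBarC_jBar_neg` : every pole of `j̄` on the special fibre of level `M d` is a pole of
  `j̄(q^d)` (`Θ̄_{M d} = β̄_d Θ̄_M` is integral over `k[j̄(q^d)]` by the reduced modular equation
  of level `M`).
* `cusp4` : **[CUSP-4]** for `betaBarC M d A`;
* `cusp4_of_coe` : the same for any element of any level `N' = M d` whose expansion is
  `f₀(q^d)` (so the order of the factors of the level does not matter).
-/
import Mathlib
import Fermat.Agent.T8.helper12_E1Ord
import Fermat.Agent.P2.helper28_CuspBar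
import Fermat.Agent.P2.helper81_CuspReg

set_option autoImplicit false
set_option linter.unusedSectionVars false
set_option linter.unusedVariables false
set_option linter.style.longLine false
set_option linter.style.haveILetI false
set_option synthInstance.maxHeartbeats 400000
set_option maxHeartbeats 1000000

noncomputable section

open ModularCurve AlgebraicCurve IntermediateField Polynomial

namespace Fermat.Agent.T8.helper95

open Fermat.Agent.S18.helper19

/-! ### Abstract part -/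

section Abstract

variable {K F F' : Type*} [Field K] [Field F] [Field F'] [Algebra K F] [Algebra K F']

/-- transfer of the divisibility of the orders at the poles of `x` along an integral
homomorphism of function fields -/
theorem dvd_ord_along_of_poles (β : F →ₐ[K] F') (hβ : β.toRingHom.IsIntegral) (x : F) (n : ℤ)
    (f : F) (hf : ∀ t : Place K F, t.ord x < 0 → n ∣ t.ord f) (w : Place K F')
    (hw : w.ord (β x) < 0) : n ∣ w.ord (β f) := by
  rw [Place.ord_restrictAlong β hβ w f]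
  refine Dvd.dvd.mul_left (hf _ ?_) _
  rw [Place.ord_restrictAlong β hβ w x] at hw
  by_contra h
  rw [not_lt] at h
  have h2 : 0 ≤ (Place.ramificationIndexAlong β w : ℤ) * (w.restrictAlong β hβ).ord x :=
    mul_nonneg (Nat.cast_nonneg _) h
  omega

end Abstract

/-! ### The poles of `j̄` are poles of `Θ̄` -/

section Modular

variable (A : ValuationSubring Kb)

/-- at every pole of `j̄` on the special fibre of level `N`, `Θ̄ = j̄(q^N)` has a pole -/
theorem ord_thetaBar_neg {ℓ : ℕ} (hℓ : ℓ.Prime) (hA : A.LiesOverPrime ℓ) (N : ℕ) [NeZero N]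
    (hN : ¬ ℓ ∣ N) (w : Place (kA A) (FFb A N))
    (hw : w.ord (Fermat.Agent.P2.helper29.jBar A N) < 0) :
    w.ord (Fermat.Agent.P2.helper28.thetaBar (kA A) N) < 0 := by
  obtain ⟨W, d, h1, h2, h3, h4, h5, h6, h7, h8⟩ :=
    Fermat.Agent.P2.helper28.cusp_dictionary_A (M := N) (A := A) hℓ hA hN
  obtain ⟨i, rfl⟩ := h2 w hw
  by_contra hneg
  rw [not_lt] at hneg
  have h := (Fermat.Agent.P2.helper81.ord_W_nonneg_iff (Fermat.Agent.P2.helper28.conjX N)
    (Fermat.Agent.P2.helper28.SA A) (Fermat.Agent.P2.helper28.rA A)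
    (Fermat.Agent.P2.helper28.zetaC_mem_SA A N)
    (Fermat.Agent.P2.helper28.natCast_inv_mem_SA A hℓ hA N hN)
    (Fermat.Agent.P2.helper28.rA_surjective A) W h7 i
    (Fermat.Agent.P2.helper28.thetaBar (kA A) N)).mp hneg
  have hai : 0 < (Fermat.Agent.P2.helper28.conjX N).a i :=
    Nat.pos_of_dvd_of_pos ((Fermat.Agent.P2.helper28.conjX N).ha i)
      (Nat.pos_of_ne_zero (NeZero.ne N))
  have hlt : -((((Fermat.Agent.P2.helper28.conjX N).a i : ℕ) : ℤ) ^ 2) < 0 := by
    have : (0 : ℤ) < (((Fermat.Agent.P2.helper28.conjX N).a i : ℕ) : ℤ) := by exact_mod_cast hai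
    nlinarith
  have h0 := h _ hlt
  rw [Fermat.Agent.P2.helper28.sigma_thetaBar,
    Fermat.Agent.P2.helper28.Eb_ThS_coeff_lead] at h0
  exact Fermat.Agent.P2.helper28.r_zeta_pow_ne_zero _ _ _ _ h0

/-- `qExpand` only depends on the value of the level -/
theorem qExpand_congr_level {R : Type*} [Field R] {a b : ℕ} [NeZero a] [NeZero b] (h : a = b)
    (f : LaurentSeries R) : qExpand R a f = qExpand R b f := by
  subst h
  rfl

/-- every pole of `j̄` on the special fibre of level `N' = M d` is a pole of `j̄(q^d)` -/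
theorem ord_qd_jBar_neg {ℓ : ℕ} (hℓ : ℓ.Prime) (hA : A.LiesOverPrime ℓ) (M d N' : ℕ) [NeZero M]
    [NeZero d] [NeZero N'] (hN' : N' = M * d) (hℓN' : ¬ ℓ ∣ N') (x' : FFb A N')
    (hx' : (x' : LaurentSeries (kA A)) = qExpand (kA A) d (jqModC (kA A)))
    (w : Place (kA A) (FFb A N')) (hw : w.ord (Fermat.Agent.P2.helper29.jBar A N') < 0) :
    w.ord x' < 0 := by
  haveI : Fact ℓ.Prime := ⟨hℓ⟩
  have hℓM : ¬ ℓ ∣ M := fun h => hℓN' (hN' ▸ Dvd.dvd.mul_right h d)
  by_contra hneg
  rw [not_lt] at hneg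
  have hθ : ((Fermat.Agent.P2.helper28.thetaBar (kA A) N' : FFb A N') : LaurentSeries (kA A)) =
      qExpandAlgHomC (kA A) d (qExpand (kA A) M (jqModC (kA A))) := by
    rw [qExpandAlgHomC_apply, qExpand_qExpand]
    haveI : NeZero (d * M) := ⟨Nat.mul_ne_zero (NeZero.ne d) (NeZero.ne M)⟩
    exact qExpand_congr_level (hN'.trans (Nat.mul_comm M d)) _
  have hroot : Fermat.Agent.P2.helper81.ev₂ x' (Fermat.Agent.P2.helper28.thetaBar (kA A) N')
      (Fermat.Agent.P2.helper81.phiBar A hA M hℓM) = 0 := by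
    apply Subtype.val_injective
    have h := Fermat.Agent.P2.helper81.algHom_ev₂ (FFb A N').val x'
      (Fermat.Agent.P2.helper28.thetaBar (kA A) N') (Fermat.Agent.P2.helper81.phiBar A hA M hℓM)
    have h2 := Fermat.Agent.P2.helper81.algHom_ev₂ (qExpandAlgHomC (kA A) d) (jqModC (kA A))
      (qExpand (kA A) M (jqModC (kA A))) (Fermat.Agent.P2.helper81.phiBar A hA M hℓM)
    have h3 := Fermat.Agent.P2.helper81.phiBar_root A hA M hℓM
    rw [h3, map_zero] at h2
    refine h.trans ?_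
    show Fermat.Agent.P2.helper81.ev₂ (x' : LaurentSeries (kA A))
      ((Fermat.Agent.P2.helper28.thetaBar (kA A) N' : FFb A N') : LaurentSeries (kA A))
      (Fermat.Agent.P2.helper81.phiBar A hA M hℓM) = 0
    rw [hθ, hx', ← qExpandAlgHomC_apply]
    exact h2.symm
  have h0 := Fermat.Agent.P2.helper81.place_ord_nonneg_of_monic w x'
    (Fermat.Agent.P2.helper28.thetaBar (kA A) N') hneg
    (Fermat.Agent.P2.helper81.phiBar A hA M hℓM)
    (Fermat.Agent.P2.helper81.phiBar_monic A hA M hℓM) hroot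
  have h1 := ord_thetaBar_neg A hℓ hA N' hℓN' w hw
  omega

/-- **[CUSP-4]**, expansion form: `A` over `ℓ ∤ N' = M d`; if `n` divides the order of `f₀` at
every pole of `j̄` on the special fibre of level `M`, then `n` divides the order of `f₀(q^d)`
at every pole of `j̄` on the special fibre of level `N'`. -/
theorem cusp4_of_coe {ℓ : ℕ} (hℓ : ℓ.Prime) (hA : A.LiesOverPrime ℓ) (M d N' : ℕ) [NeZero M]
    [NeZero d] [NeZero N'] (hN' : N' = M * d) (hℓN' : ¬ ℓ ∣ N') (n : ℤ) (f₀ : FFb A M)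
    (hf : ∀ Q₀ : Place (kA A) (FFb A M),
      Q₀.ord (Fermat.Agent.P2.helper29.jBar A M) < 0 → n ∣ Q₀.ord f₀)
    (g : FFb A N')
    (hg : (g : LaurentSeries (kA A)) = qExpand (kA A) d (f₀ : LaurentSeries (kA A)))
    (Q : Place (kA A) (FFb A N')) (hQ : Q.ord (Fermat.Agent.P2.helper29.jBar A N') < 0) :
    n ∣ Q.ord g := by
  subst hN'
  haveI : Fact ℓ.Prime := ⟨hℓ⟩
  haveI : IsAlgClosed (kA A) := Fermat.Agent.P2.helper74.isAlgClosed_residueField A
  have hgβ : g = Fermat.Agent.T8.helper43.betaBarC M d A f₀ :=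
    Subtype.ext (hg.trans (Fermat.Agent.T8.helper43.coe_betaBarC M d A f₀).symm)
  haveI : FiniteDimensional (kA A)⟮xJb A (M * d)⟯ (FFb A (M * d)) :=
    Fermat.Agent.P2.helper81.finiteDimensional_xBar A hA (M * d) hℓN'
  have hfin : FiniteAlong (kA A) (Fermat.Agent.T8.helper43.betaBarC M d A) :=
    Fermat.Agent.T8.helper12.finiteAlong_of_ffS (Fermat.Agent.T8.helper43.betaBarC M d A)
      (xJb A M) (Fermat.Agent.P2.helper81.transcendental_xBar A M) (xJb A (M * d))
      (Fermat.Agent.P2.helper81.transcendental_xBar A (M * d))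
  have hβ : (Fermat.Agent.T8.helper43.betaBarC M d A).toRingHom.IsIntegral :=
    Fermat.Agent.T8.helper12.isIntegral_of_finiteAlongS _ hfin
  have hpole : Q.ord (Fermat.Agent.T8.helper43.betaBarC M d A (xJb A M)) < 0 :=
    ord_qd_jBar_neg A hℓ hA M d (M * d) rfl hℓN' _
      (Fermat.Agent.T8.helper43.coe_betaBarC M d A (xJb A M)) Q hQ
  rw [hgβ]
  exact dvd_ord_along_of_poles (Fermat.Agent.T8.helper43.betaBarC M d A) hβ (xJb A M) n f₀
    (fun t ht => hf t ht) Q hpole

/-- **[CUSP-4]** for `β̄_d = betaBarC M d A` (level `M d`, `A` over `ℓ ∤ M d`). -/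
theorem cusp4 {ℓ : ℕ} (hℓ : ℓ.Prime) (hA : A.LiesOverPrime ℓ) (M d : ℕ) [NeZero M] [NeZero d]
    [NeZero (M * d)] (hℓMd : ¬ ℓ ∣ M * d) (n : ℤ) (f₀ : FFb A M)
    (hf : ∀ Q₀ : Place (kA A) (FFb A M),
      Q₀.ord (Fermat.Agent.P2.helper29.jBar A M) < 0 → n ∣ Q₀.ord f₀)
    (Q : Place (kA A) (FFb A (M * d)))
    (hQ : Q.ord (Fermat.Agent.P2.helper29.jBar A (M * d)) < 0) :
    n ∣ Q.ord (Fermat.Agent.T8.helper43.betaBarC M d A f₀) :=
  cusp4_of_coe A hℓ hA M d (M * d) rfl hℓMd n f₀ hf _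
    (Fermat.Agent.T8.helper43.coe_betaBarC M d A f₀) Q hQ

/-- **[CUSP-4]** at level `d M` (the factors of the level in the other order). -/
theorem cusp4_comm {ℓ : ℕ} (hℓ : ℓ.Prime) (hA : A.LiesOverPrime ℓ) (M d : ℕ) [NeZero M]
    [NeZero d] [NeZero (d * M)] (hℓdM : ¬ ℓ ∣ d * M) (n : ℤ) (f₀ : FFb A M)
    (hf : ∀ Q₀ : Place (kA A) (FFb A M),
      Q₀.ord (Fermat.Agent.P2.helper29.jBar A M) < 0 → n ∣ Q₀.ord f₀)
    (g : FFb A (d * M))
    (hg : (g : LaurentSeries (kA A)) = qExpand (kA A) d (f₀ : LaurentSeries (kA A)))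
    (Q : Place (kA A) (FFb A (d * M)))
    (hQ : Q.ord (Fermat.Agent.P2.helper29.jBar A (d * M)) < 0) : n ∣ Q.ord g :=
  cusp4_of_coe A hℓ hA M d (d * M) (Nat.mul_comm d M) hℓdM n f₀ hf g hg Q hQ

end Modular

end Fermat.Agent.T8.helper95

end
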