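/-
T8 (row 38 via S44), box [CUSP-GAP], leaf **[CUSP-4]** (helper95): discharge of the leaf contract
`helper7.Cusp4Statement` (file `helper7_CuspGapDefs.lean`) from `helper95.cusp4_comm`.
-/
import Mathlib
import Fermat.Agent.T8.helper95_Cusp4
import Fermat.Agent.T8.helper7_CuspGapDefs

set_option autoImplicit false
set_option linter.unusedSectionVars false
set_option linter.unusedVariables false
set_option linter.style.longLine false
set_option synthInstance.maxHeartbeats 400000
set_option maxHeartbeats 1000000

noncomputable section

open ModularCurve AlgebraicCurve IntermediateField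

namespace Fermat.Agent.T8.helper95

open Fermat.Agent.S18.helper19

/-- **[CUSP-4]**: the leaf contract `helper7.Cusp4Statement` holds. -/
theorem cusp4Statement : Fermat.Agent.T8.helper7.Cusp4Statement := by
  intro M' p _ _ hp hpN A hA f₀ f hf0 hf hd
  exact cusp4_comm A hp hA M' 4 hpN (p : ℤ) f₀ hd f hf

end Fermat.Agent.T8.helper95

end
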