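/-
T8 (row 38 via S44), box [CUSP-GAP], route R1 (helper95): **one-Prop reduction**.

Everything of route R1 is on main except the leaf [CUSP-A] (helper48).  This file wires

  `helper43.dvdPoles_of_cuspAOrd` ([CUSP-COUNT] + [CUSP-OO]),
  `helper95.cusp4Statement`       ([CUSP-4]),
  `helper7.cuspGap_of_leaves`     ([CUSP-ASM])

into

* `cuspSqf_of_cuspAOrd : CuspAOrdAll → helper7.CuspSqfStatement`,
* `cuspGap_of_cuspAOrd : CuspAOrdAll → helper7.CuspGapStatement helper67.auxPull67`,
* the same from the strong form `CuspAAll`,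

where `CuspAOrdAll` / `CuspAAll` is the contract `helper43.CuspAOrdStatement A M p` /
`helper43.CuspAStatement A M p` of [CUSP-A] for every squarefree level `M`, every prime `p ∤ M`
and every valuation ring `A` over `p`.
-/
import Mathlib
import Fermat.Agent.T8.helper7_CuspGap
import Fermat.Agent.T8.helper43_CuspCount
import Fermat.Agent.T8.helper95_Cusp4Wire

set_option autoImplicit false
set_option linter.unusedSectionVars false
set_option linter.unusedVariables false
set_option linter.style.longLine false
set_option synthInstance.maxHeartbeats 400000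
set_option maxHeartbeats 1000000

noncomputable section

open ModularCurve AlgebraicCurve IntermediateField

namespace Fermat.Agent.T8.helper95

open Fermat.Agent.S18.helper19

/-- **[CUSP-A], weak form, all squarefree levels** -/
def CuspAOrdAll : Prop :=
  ∀ (M p : ℕ) [NeZero M] [NeZero p], p.Prime → ¬ p ∣ M → Squarefree M →
    ∀ A : ValuationSubring Kb, A.LiesOverPrime p →
      Fermat.Agent.T8.helper43.CuspAOrdStatement A M p

/-- **[CUSP-A], strong form, all squarefree levels** -/
def CuspAAll : Prop :=
  ∀ (M p : ℕ) [NeZero M] [NeZero p], p.Prime → ¬ p ∣ M → Squarefree M →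
    ∀ A : ValuationSubring Kb, A.LiesOverPrime p →
      Fermat.Agent.T8.helper43.CuspAStatement A M p

theorem cuspAOrdAll_of_cuspAAll (h : CuspAAll) : CuspAOrdAll :=
  fun M p _ _ hp hpM hsq A hA =>
    Fermat.Agent.T8.helper43.cuspAOrd_of_cuspA hp hpM hA (h M p hp hpM hsq A hA)

/-- [CUSP-SQF] from [CUSP-A] (weak form) -/
theorem cuspSqf_of_cuspAOrd (h : CuspAOrdAll) : Fermat.Agent.T8.helper7.CuspSqfStatement :=
  fun M' p _ _ hp hpM hsq A hA u₀ f₀ hu hdiv hred Q hQ =>
    Fermat.Agent.T8.helper43.dvdPoles_of_cuspAOrd hsq hp hpM hA (h M' p hp hpM hsq A hA)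
      u₀ f₀ hu hdiv hred Q hQ

/-- **route R1 of [CUSP-GAP] from the single leaf [CUSP-A]** (weak form) -/
theorem cuspGap_of_cuspAOrd (h : CuspAOrdAll) :
    Fermat.Agent.T8.helper7.CuspGapStatement Fermat.Agent.T8.helper67.auxPull67 :=
  Fermat.Agent.T8.helper7.cuspGap_of_leaves (cuspSqf_of_cuspAOrd h) cusp4Statement

/-- **route R1 of [CUSP-GAP] from the single leaf [CUSP-A]** (strong form) -/
theorem cuspGap_of_cuspA (h : CuspAAll) :
    Fermat.Agent.T8.helper7.CuspGapStatement Fermat.Agent.T8.helper67.auxPull67 :=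
  cuspGap_of_cuspAOrd (cuspAOrdAll_of_cuspAAll h)

end Fermat.Agent.T8.helper95

end
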