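import Fermat.Agent.T8.helper13_ExitFinal
import Fermat.Agent.T8.helper32_CuspAnnChain
import Fermat.Agent.T8.helper48_CuspAFix
import Fermat.Agent.T8.helper14_CuspNorm
import Fermat.Agent.T8.helper95_CuspGapR1

/-!
# T8 = row 38 via S44, box (F) [D-HECKE]: [F3-EXIT] CLOSED (helper13, receiver)

All the leaves of `helper44.F3ExitStatement helper67.auxPull67` are on main; this file plugs them:

* [CUSP-A]   `cuspAFix13` : `helper14.CuspAFixStatement A M p` at every squarefree level `M`
             prime to `p` - the instance `W_D = helper48.atkinD`, `W̄_D = helper48.wBar`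
             (`helper48.order_wBar_jBar`, `helper48.isRed1_atkinD_fix`,
             `T3.helper48.atkinLehnerM_arithmeticRingAut`);
             `cuspAOrdAll13 : helper95.CuspAOrdAll` by the norm step
             `helper14.cuspAOrd_of_cuspAFix`;
* [CUSP-GAP] `cuspGap13 : helper7.CuspGapStatement auxPull67` (`helper95.cuspGap_of_cuspAOrd`);
* [CUSP-ANN] `helper32.cuspAnnChain`;
* [OMEGA] `helper27.omegaChain`, [HECKE] `helper87.heckeChain`, [DESCENT]
  `helper78.descentChain`.

Main statements (no hypothesis):

* `f3ExitClosed : helper44.F3ExitStatement helper67.auxPull67`;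
* `dHecke2Closed : helper72.DHeckeStatement2 helper67.auxPull67 helper29.wallCN`.
-/

set_option autoImplicit false
set_option synthInstance.maxHeartbeats 400000
set_option maxHeartbeats 1600000
set_option linter.unusedSectionVars false
set_option linter.unusedVariables false
set_option linter.style.longLine false
set_option linter.style.haveILetI false

noncomputable section

namespace Fermat.Agent.T8.helper13

open HahnSeries IntermediateField AlgebraicCurve ModularCurve
open Fermat.Agent.S18.helper19 Fermat.Agent.P2.helper29 Fermat.Agent.P2.helper93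
open Fermat.Agent.T2 Fermat.Agent.T2.helper36
open Fermat.Agent.T8.helper44 (F3ExitStatement)
open Fermat.Agent.T7 Fermat.Agent.T8.helper72 Fermat.Agent.T8.helper29
open Fermat.Agent.T8.helper67 (auxPull67)

section CuspA

/-- **[CUSP-A], inertia-fixed form, at every squarefree level**: the instance
`W_D = atkinD`, `W̄_D = wBar`. -/
theorem cuspAFix13 (M p : ℕ) [NeZero M] [NeZero p] (hp : p.Prime) (hpM : ¬ p ∣ M)
    (hsq : Squarefree M) (A : ValuationSubring Kb) (hA : A.LiesOverPrime p) :
    Fermat.Agent.T8.helper14.CuspAFixStatement A M p := by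
  intro D hD
  obtain ⟨N₁, hN₁⟩ := hD
  have hN : M = N₁ * D := by rw [hN₁, mul_comm]
  have hcop : Nat.Coprime N₁ D := by
    have h1 : Squarefree (N₁ * D) := hN ▸ hsq
    exact Nat.coprime_of_squarefree_mul h1
  haveI : NeZero D := ⟨by
    rintro rfl
    exact NeZero.ne M (by rw [hN, mul_zero])⟩
  refine ⟨Fermat.Agent.T8.helper48.atkinD hp hpM N₁ D hN hcop,
    Fermat.Agent.T8.helper48.wBar hN hcop hp hpM hA, fun σ x => ?_,
    Fermat.Agent.T8.helper48.order_wBar_jBar hN hcop hA, fun U F hU hF =>
      Fermat.Agent.T8.helper48.isRed1_atkinD_fix hN hcop hA U hU F hF⟩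
  exact Fermat.Agent.T3.helper48.atkinLehnerM_arithmeticRingAut _ _ _ _ _ σ x

/-- **[CUSP-A], weak form, all squarefree levels** -/
theorem cuspAOrdAll13 : Fermat.Agent.T8.helper95.CuspAOrdAll :=
  fun M p _ _ hp hpM hsq A hA =>
    Fermat.Agent.T8.helper14.cuspAOrd_of_cuspAFix hp hpM hA (cuspAFix13 M p hp hpM hsq A hA)

/-- **[CUSP-GAP]**, class form, both components -/
theorem cuspGap13 : Fermat.Agent.T8.helper7.CuspGapStatement auxPull67 :=
  Fermat.Agent.T8.helper95.cuspGap_of_cuspAOrd cuspAOrdAll13

end CuspA

section Closed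

/-- **[F3-EXIT], CLOSED**: the only open input of box (F), without hypothesis. -/
theorem f3ExitClosed : F3ExitStatement auxPull67 :=
  f3Exit_of_gapFin auxPull67 (gapFin_of_class auxPull67 cuspGap13)
    Fermat.Agent.T8.helper27.omegaChain Fermat.Agent.T8.helper87.heckeChain
    Fermat.Agent.T8.helper78.descentChain Fermat.Agent.T8.helper32.cuspAnnChain

/-- **box (F) = [D-HECKE], CLOSED** -/
theorem dHecke2Closed : DHeckeStatement2 auxPull67 wallCN :=
  Fermat.Agent.T8.helper44.dHecke2_of_f3Exit auxPull67 f3ExitClosed

end Closed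

end Fermat.Agent.T8.helper13

end
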