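import Fermat.Agent.T8.helper32_LiftCore8

/-!
# T8 (row 38), [F3-EXIT] leaf 6 [LIFT-Q] (helper47): from a mod `p` eigen-`q`-expansion to an
eigenform

Route of helper91 (finding #3612).  `k` a field of characteristic `p`, `w : ℕ → k` a sequence
(the coefficients of a `q`-expansion in `k[[q]]`) which is

* a `k`-linear combination of reductions of `q`-integral cusp forms of weight `2` and level `L`
  (`IsRedCusp L k w`),
* not zero,
* an eigenvector of the formal Hecke operators `T_ℓ = U_ℓ + ℓ V_ℓ`, `ℓ ∈ G` (primes not dividing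
  `L`), with integral eigenvalues `a ℓ`.

Then there is a normalised eigenform `g` of level `L` and a maximal ideal `𝔪' ∋ p` of `ℤ̄` with
`a_ℓ(g) ≡ a ℓ mod 𝔪'` for `ℓ ∈ G` — the conclusion of `helper32.LiftJStatement`, verbatim.

Proof: `helper32.lift_forms_ker` (Deligne–Serre lifting for the Hecke algebra of `S₂(Γ₀(L))`);
its hypothesis "`Q(T) = 0` on `S₂` ⟹ `p ∣ Q(a)`" follows from
`∑ᵢ cᵢ · red (a_m (Q(T) gᵢ)) = Q(a) · w m` (induction on `Q`).  No tensor product and no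
injectivity of the `q`-expansion modulo `p` is used.
-/

set_option autoImplicit false
set_option linter.unusedSectionVars false
set_option linter.unusedVariables false

open ModularCurve CuspForm CongruenceSubgroup ModularFormClass

noncomputable section

namespace Fermat.Agent.T8.helper47

open Fermat.Agent.S49 Fermat.Agent.P6.helper32 Fermat.Agent.T8.helper32

/-- `w` is a `k`-linear combination of reductions of `q`-integral cusp forms of weight `2` and
level `L`. -/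
def IsRedCusp (L : ℕ) (k : Type*) [Field k] (w : ℕ → k) : Prop :=
  ∃ (n : ℕ) (g : Fin n → CuspForm (Gamma0 L) 2) (z : Fin n → ℕ → ℤ) (c : Fin n → k),
    (∀ i m, ((z i m : ℤ) : ℂ) = qCoeff ⇑(g i) m) ∧ ∀ m, w m = ∑ i, c i * ((z i m : ℤ) : k)

/-- `w` is an eigenvector of the formal Hecke operator `T_ℓ = U_ℓ + ℓ V_ℓ` (weight `2`) with
eigenvalue `a`. -/
def IsFormalEigen {k : Type*} [Field k] (ℓ : ℕ) (a : ℤ) (w : ℕ → k) : Prop :=
  ∀ m, w (m * ℓ) + (if ℓ ∣ m then (ℓ : k) * w (m / ℓ) else 0) = (a : k) * w m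

/-- **[LIFT-Q]**, the statement. -/
def LiftQStatement : Prop :=
  ∀ (L : ℕ) [NeZero L] (p : ℕ), p.Prime → ∀ (k : Type) [Field k] [CharP k p]
    (G : Set Nat.Primes) (a : Nat.Primes → ℤ), (∀ ℓ ∈ G, ¬ ((ℓ : Nat.Primes) : ℕ) ∣ L) →
    ∀ w : ℕ → k, IsRedCusp L k w → (∃ m, w m ≠ 0) →
    (∀ ℓ ∈ G, IsFormalEigen ((ℓ : Nat.Primes) : ℕ) (a ℓ) w) →
    ∃ (g : CuspForm (Gamma0 L) 2) (𝔪' : Ideal (integralClosure ℤ ℂ)),
      g.IsNormalizedEigenform ∧ 𝔪'.IsMaximal ∧ (p : integralClosure ℤ ℂ) ∈ 𝔪' ∧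
      (∀ ℓ ∈ G, ∃ y : integralClosure ℤ ℂ, (y : ℂ) = qCoeff ⇑g ((ℓ : Nat.Primes) : ℕ) ∧
        y - ((a ℓ : ℤ) : integralClosure ℤ ℂ) ∈ 𝔪')

section Core

variable (L : ℕ) [NeZero L] {k : Type*} [Field k] (G : Set Nat.Primes) (a : Nat.Primes → ℤ)

/-- the key induction: the reductions of the coefficients of `Q(T) gᵢ` combine to `Q(a) w`. -/
theorem redCusp_poly (hG : ∀ ℓ ∈ G, ¬ ((ℓ : Nat.Primes) : ℕ) ∣ L) (w : ℕ → k)
    (hw : ∀ ℓ ∈ G, IsFormalEigen ((ℓ : Nat.Primes) : ℕ) (a ℓ) w)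
    {n : ℕ} (g : Fin n → CuspForm (Gamma0 L) 2) (z : Fin n → ℕ → ℤ) (c : Fin n → k)
    (hz : ∀ i m, ((z i m : ℤ) : ℂ) = qCoeff ⇑(g i) m)
    (hc : ∀ m, w m = ∑ i, c i * ((z i m : ℤ) : k)) (Q : MvPolynomial G ℤ) :
    ∃ z' : Fin n → ℕ → ℤ,
      (∀ i m, ((z' i m : ℤ) : ℂ) = qCoeff ⇑(opV L (ren G Q) (g i)) m) ∧
      ∀ m, ∑ i, c i * ((z' i m : ℤ) : k) = ((MvPolynomial.eval a (ren G Q) : ℤ) : k) * w m := by
  induction Q using MvPolynomial.induction_on with
  | C c0 =>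
    refine ⟨fun i m => c0 * z i m, fun i m => ?_, fun m => ?_⟩
    · rw [ren_C, opV_C, qc_zsmul, ← hz]
      push_cast
      rfl
    · rw [ren_C, MvPolynomial.eval_C, hc m, Finset.mul_sum]
      refine Finset.sum_congr rfl fun i _ => ?_
      push_cast
      ring
  | add P Q hP hQ =>
    obtain ⟨zP, hP1, hP2⟩ := hP
    obtain ⟨zQ, hQ1, hQ2⟩ := hQ
    refine ⟨fun i m => zP i m + zQ i m, fun i m => ?_, fun m => ?_⟩
    · rw [map_add, opV_add, qc_add, ← hP1, ← hQ1]
      push_cast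
      rfl
    · rw [map_add, map_add]
      push_cast
      rw [add_mul, ← hP2 m, ← hQ2 m, ← Finset.sum_add_distrib]
      refine Finset.sum_congr rfl fun i _ => ?_
      ring
  | mul_X P ℓ hP =>
    obtain ⟨zP, hP1, hP2⟩ := hP
    have hℓN : ¬ ((ℓ : Nat.Primes) : ℕ) ∣ L := hG ℓ ℓ.2
    have hℓp : ((ℓ : Nat.Primes) : ℕ).Prime := (ℓ : Nat.Primes).2
    refine ⟨fun i m => zP i (m * ((ℓ : Nat.Primes) : ℕ)) +
      (if ((ℓ : Nat.Primes) : ℕ) ∣ m then (((ℓ : Nat.Primes) : ℕ) : ℤ) *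
        zP i (m / ((ℓ : Nat.Primes) : ℕ)) else 0), fun i m => ?_, fun m => ?_⟩
    · rw [map_mul, ren_X, mul_comm, opV_mul, opV_X,
        CuspForm.heckeFormsGen_of_not_dvd hℓN, CuspForm.heckeAlgebra.coe_T, qc_heckeT hℓp hℓN,
        ← hP1, ← hP1]
      by_cases hdvd : ((ℓ : Nat.Primes) : ℕ) ∣ m
      · simp only [if_pos hdvd]
        push_cast
        norm_num
      · simp only [if_neg hdvd]
        push_cast
        ring
    · rw [map_mul, ren_X, map_mul, MvPolynomial.eval_X]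
      have h1 := hP2 (m * ((ℓ : Nat.Primes) : ℕ))
      have h2 := hP2 (m / ((ℓ : Nat.Primes) : ℕ))
      have h3 : w (m * ((ℓ : Nat.Primes) : ℕ)) + (if ((ℓ : Nat.Primes) : ℕ) ∣ m then
          ((((ℓ : Nat.Primes) : ℕ) : ℕ) : k) * w (m / ((ℓ : Nat.Primes) : ℕ)) else 0) =
          ((a ℓ : ℤ) : k) * w m := hw ℓ ℓ.2 m
      push_cast
      rw [mul_assoc, ← h3, mul_add, ← h1]
      by_cases hdvd : ((ℓ : Nat.Primes) : ℕ) ∣ m
      · simp only [if_pos hdvd]
        rw [mul_left_comm, ← h2, Finset.mul_sum, ← Finset.sum_add_distrib]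
        refine Finset.sum_congr rfl fun i _ => ?_
        ring
      · simp only [if_neg hdvd]
        rw [mul_zero, add_zero]
        refine Finset.sum_congr rfl fun i _ => ?_
        ring

end Core

/-- **[LIFT-Q]**: a nonzero formal Hecke eigenvector in the reduction of the `q`-integral cusp
forms of level `L` lifts to a normalised eigenform of level `L`. -/
theorem liftQ : LiftQStatement := by
  intro L _ p hp k _ _ G a hG w hw hw0 heig
  obtain ⟨n, g, z, c, hz, hc⟩ := hw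
  obtain ⟨m0, hm0⟩ := hw0
  refine lift_forms_ker L p hp G a ?_
  intro Q hQ
  obtain ⟨z', hz1, hz2⟩ := redCusp_poly L G a hG w heig g z c hz hc Q
  have hop : opV L (ren G Q) = 0 := by
    unfold opV
    rw [hQ]
    rfl
  have hz0 : ∀ i m, z' i m = 0 := by
    intro i m
    have h := hz1 i m
    rw [hop, LinearMap.zero_apply, qc_zero] at h
    exact_mod_cast h
  have h1 := hz2 m0
  simp only [hz0, Int.cast_zero, mul_zero, Finset.sum_const_zero] at h1
  have h2 : ((MvPolynomial.eval a (ren G Q) : ℤ) : k) = 0 := by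
    rcases mul_eq_zero.mp h1.symm with h | h
    · exact h
    · exact absurd h hm0
  exact (CharP.intCast_eq_zero_iff k p _).mp h2

end Fermat.Agent.T8.helper47

end
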