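import Fermat.Agent.T8.helper56_Wire

/-!
# T8 [WIRE], part 2 (helper56): adapters in the `M' * p` form of the top chain

The top chain (`helper72_ChainDefs.lean`) works with `N = M' * P.p` and its boxes [OLD-LIFT] and
[D-HECKE] must END with `P.ModularRepOfLevel M'`.  This file gives the last step:

* `good_not_dvd_level` : for a conductor level `N` a good prime of ANY integral model of the Frey
  curve does not divide `4 * N` (every prime of `N` divides `a b c`, and `2` is always bad);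
  in particular the side conditions `¬ ℓ ∣ N`, `ℓ ≠ p` of `ModularRepOfLevel` are automatic;
* `modularRepOfLevel_of_eigenform` : an eigenform `g` of level `M'` and `𝔪' ∣ p` with
  `a_ℓ(g) ≡ a_ℓ(W) mod 𝔪'` at the primes `ℓ` which are good for `W`, `≠ 2`, `≠ p` and prime to `M'`
  give `P.ModularRepOfLevel M'`;
* `modularRepOfLevel_of_eigenform_set` : the same in the shape of `P6.helper32.lift_core`
  (a set `G` of primes and a function `a : Nat.Primes → ℤ`);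
* `modularRepOfLevel_of_eigenform_level` : the same with the congruence set
  `{ℓ good, ℓ ∤ L}` for any auxiliary level `L` whose odd prime divisors divide `M' * p`
  (e.g. `L = 4 * M' * p`);
* `exists_eigenform_of_modularRepOfLevel` : the INPUT side (unfolding).
-/

set_option autoImplicit false

namespace Fermat.Agent.T8.helper56

open WeierstrassCurve CuspForm

variable (P : FreyPackage)

/-- A good prime of an integral model of the Frey curve does not divide `a * b * c`. -/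
theorem good_not_dvd_abc {W : WeierstrassCurve ℤ} (hW : W.IsIntegralModelOf P.freyCurve)
    {ℓ : ℕ} (hℓ : ℓ.Prime) (h : W.IsGoodPrimeFor ℓ) : ¬ (ℓ : ℤ) ∣ P.a * P.b * P.c :=
  fun hd => h (dvd_Δ_of_dvd_abc P hW hℓ (ne_two_of_isGoodPrimeFor P hW h) hd)

/-- A good prime of an integral model of the Frey curve does not divide a conductor level. -/
theorem good_not_dvd_conductorLevel {N : ℕ} (hcond : P.IsConductorLevel N)
    {W : WeierstrassCurve ℤ} (hW : W.IsIntegralModelOf P.freyCurve)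
    {ℓ : ℕ} (hℓ : ℓ.Prime) (h : W.IsGoodPrimeFor ℓ) : ¬ ℓ ∣ N :=
  fun hd => good_not_dvd_abc P hW hℓ h (hcond.support ℓ hℓ hd)

/-- A good prime of an integral model of the Frey curve does not divide `4 * N`, `N` a conductor
level. -/
theorem good_not_dvd_level {N : ℕ} (hcond : P.IsConductorLevel N)
    {W : WeierstrassCurve ℤ} (hW : W.IsIntegralModelOf P.freyCurve)
    {ℓ : ℕ} (hℓ : ℓ.Prime) (h : W.IsGoodPrimeFor ℓ) : ¬ ℓ ∣ 4 * N := by
  intro hd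
  rcases (Nat.Prime.dvd_mul hℓ).1 hd with h4 | hN
  · have h2 : ℓ ∣ 2 ^ 2 := by simpa using h4
    exact ne_two_of_isGoodPrimeFor P hW h
      ((Nat.prime_dvd_prime_iff_eq hℓ Nat.prime_two).1 (hℓ.dvd_of_dvd_pow h2))
  · exact good_not_dvd_conductorLevel P hcond hW hℓ h hN

/-- If `p` divides a conductor level, then `p` is a bad prime of every integral model. -/
theorem p_bad_of_conductorLevel {N : ℕ} (hcond : P.IsConductorLevel N) (hpN : P.p ∣ N)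
    {W : WeierstrassCurve ℤ} (hW : W.IsIntegralModelOf P.freyCurve) : ¬ W.IsGoodPrimeFor P.p :=
  fun h => good_not_dvd_conductorLevel P hcond hW P.pp h hpN

/-- A good prime is different from `p` when `p` divides a conductor level. -/
theorem good_ne_p {N : ℕ} (hcond : P.IsConductorLevel N) (hpN : P.p ∣ N)
    {W : WeierstrassCurve ℤ} (hW : W.IsIntegralModelOf P.freyCurve)
    {ℓ : ℕ} (h : W.IsGoodPrimeFor ℓ) : ℓ ≠ P.p := by
  rintro rfl
  exact p_bad_of_conductorLevel P hcond hpN hW h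

/-- INPUT side: the data of `P.ModularRepOfLevel N`. -/
theorem exists_eigenform_of_modularRepOfLevel {N : ℕ} (hmod : P.ModularRepOfLevel N) :
    ∃ (f : CuspForm (CongruenceSubgroup.Gamma0 N) 2) (W : WeierstrassCurve ℤ)
      (𝔪 : Ideal (integralClosure ℤ ℂ)),
      f.IsNormalizedEigenform ∧ W.IsIntegralModelOf P.freyCurve ∧ 𝔪.IsMaximal ∧
      (P.p : integralClosure ℤ ℂ) ∈ 𝔪 ∧
      ∀ ℓ : ℕ, ℓ.Prime → W.IsGoodPrimeFor ℓ → ¬ ℓ ∣ N → ℓ ≠ P.p →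
        ∃ a : integralClosure ℤ ℂ, (a : ℂ) = ModularFormClass.qCoeff f ℓ ∧
          a - ((W.apOfModel ℓ : ℤ) : integralClosure ℤ ℂ) ∈ 𝔪 :=
  hmod

/-- INPUT side for a conductor level divisible by `p`: the congruences hold at ALL good primes
of `W` (the side conditions are automatic). -/
theorem exists_eigenform_of_modularRepOfLevel' {N : ℕ} (hcond : P.IsConductorLevel N)
    (hpN : P.p ∣ N) (hmod : P.ModularRepOfLevel N) :
    ∃ (f : CuspForm (CongruenceSubgroup.Gamma0 N) 2) (W : WeierstrassCurve ℤ)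
      (𝔪 : Ideal (integralClosure ℤ ℂ)),
      f.IsNormalizedEigenform ∧ W.IsIntegralModelOf P.freyCurve ∧ 𝔪.IsMaximal ∧
      (P.p : integralClosure ℤ ℂ) ∈ 𝔪 ∧
      ∀ ℓ : ℕ, ℓ.Prime → W.IsGoodPrimeFor ℓ →
        ∃ a : integralClosure ℤ ℂ, (a : ℂ) = ModularFormClass.qCoeff f ℓ ∧
          a - ((W.apOfModel ℓ : ℤ) : integralClosure ℤ ℂ) ∈ 𝔪 := by
  obtain ⟨f, W, 𝔪, hf, hW, h𝔪, hp𝔪, hcong⟩ := hmod
  exact ⟨f, W, 𝔪, hf, hW, h𝔪, hp𝔪, fun ℓ hℓ hgood =>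
    hcong ℓ hℓ hgood (good_not_dvd_conductorLevel P hcond hW hℓ hgood)
      (good_ne_p P hcond hpN hW hgood)⟩

/-- OUTPUT side, `M'` form: an eigenform of level `M'` congruent to the Frey curve at the good
primes `ℓ ≠ 2`, `ℓ ≠ p`, `ℓ ∤ M'` gives `P.ModularRepOfLevel M'`.  No hypothesis on `M'`. -/
theorem modularRepOfLevel_of_eigenform {M' : ℕ}
    {W : WeierstrassCurve ℤ} (hW : W.IsIntegralModelOf P.freyCurve)
    (g : CuspForm (CongruenceSubgroup.Gamma0 M') 2) (𝔪 : Ideal (integralClosure ℤ ℂ))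
    (hg : g.IsNormalizedEigenform) (h𝔪 : 𝔪.IsMaximal) (hp𝔪 : (P.p : integralClosure ℤ ℂ) ∈ 𝔪)
    (hcong : ∀ ℓ : ℕ, ℓ.Prime → W.IsGoodPrimeFor ℓ → ℓ ≠ 2 → ℓ ≠ P.p → ¬ ℓ ∣ M' →
      ∃ a : integralClosure ℤ ℂ, (a : ℂ) = ModularFormClass.qCoeff g ℓ ∧
        a - ((W.apOfModel ℓ : ℤ) : integralClosure ℤ ℂ) ∈ 𝔪) :
    P.ModularRepOfLevel M' :=
  ⟨g, W, 𝔪, hg, hW, h𝔪, hp𝔪, fun ℓ hℓ hgood hℓM hℓp =>
    hcong ℓ hℓ hgood (ne_two_of_isGoodPrimeFor P hW hgood) hℓp hℓM⟩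

/-- OUTPUT side with an auxiliary level: the congruences are known at the good primes not
dividing `L`, where every prime divisor of `L` is `2` or divides the conductor level `N`
(e.g. `L = 4 * N`, `L = 4 * M' * p`, `L = 2 * N`). -/
theorem modularRepOfLevel_of_eigenform_level {N M' L : ℕ} (hcond : P.IsConductorLevel N)
    (hL : ∀ ℓ : ℕ, ℓ.Prime → ℓ ∣ L → ℓ = 2 ∨ ℓ ∣ N)
    {W : WeierstrassCurve ℤ} (hW : W.IsIntegralModelOf P.freyCurve)
    (g : CuspForm (CongruenceSubgroup.Gamma0 M') 2) (𝔪 : Ideal (integralClosure ℤ ℂ))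
    (hg : g.IsNormalizedEigenform) (h𝔪 : 𝔪.IsMaximal) (hp𝔪 : (P.p : integralClosure ℤ ℂ) ∈ 𝔪)
    (hcong : ∀ ℓ : ℕ, ℓ.Prime → W.IsGoodPrimeFor ℓ → ¬ ℓ ∣ L →
      ∃ a : integralClosure ℤ ℂ, (a : ℂ) = ModularFormClass.qCoeff g ℓ ∧
        a - ((W.apOfModel ℓ : ℤ) : integralClosure ℤ ℂ) ∈ 𝔪) :
    P.ModularRepOfLevel M' := by
  refine modularRepOfLevel_of_eigenform P hW g 𝔪 hg h𝔪 hp𝔪 ?_
  intro ℓ hℓ hgood hℓ2 _ _
  refine hcong ℓ hℓ hgood ?_
  intro hd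
  rcases hL ℓ hℓ hd with h | h
  · exact hℓ2 h
  · exact good_not_dvd_conductorLevel P hcond hW hℓ hgood h

/-- the prime divisors of `4 * M' * p` are `2` or divide `M' * p` -/
theorem prime_dvd_four_mul {M' p ℓ : ℕ} (hℓ : ℓ.Prime) (h : ℓ ∣ 4 * M' * p) :
    ℓ = 2 ∨ ℓ ∣ M' * p := by
  rw [mul_assoc] at h
  rcases (Nat.Prime.dvd_mul hℓ).1 h with h4 | hN
  · have h2 : ℓ ∣ 2 ^ 2 := by simpa using h4
    exact Or.inl ((Nat.prime_dvd_prime_iff_eq hℓ Nat.prime_two).1 (hℓ.dvd_of_dvd_pow h2))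
  · exact Or.inr hN

/-- OUTPUT side for the chain: congruence set `{ℓ good, ℓ ∤ 4 * M' * p}`. -/
theorem modularRepOfLevel_of_eigenform_four {M' : ℕ} (hcond : P.IsConductorLevel (M' * P.p))
    {W : WeierstrassCurve ℤ} (hW : W.IsIntegralModelOf P.freyCurve)
    (g : CuspForm (CongruenceSubgroup.Gamma0 M') 2) (𝔪 : Ideal (integralClosure ℤ ℂ))
    (hg : g.IsNormalizedEigenform) (h𝔪 : 𝔪.IsMaximal) (hp𝔪 : (P.p : integralClosure ℤ ℂ) ∈ 𝔪)
    (hcong : ∀ ℓ : ℕ, ℓ.Prime → W.IsGoodPrimeFor ℓ → ¬ ℓ ∣ 4 * M' * P.p →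
      ∃ a : integralClosure ℤ ℂ, (a : ℂ) = ModularFormClass.qCoeff g ℓ ∧
        a - ((W.apOfModel ℓ : ℤ) : integralClosure ℤ ℂ) ∈ 𝔪) :
    P.ModularRepOfLevel M' :=
  modularRepOfLevel_of_eigenform_level P hcond (fun _ hℓ h => prime_dvd_four_mul hℓ h) hW g 𝔪
    hg h𝔪 hp𝔪 hcong

/-- OUTPUT side in the shape of `P6.helper32.lift_core`: a set `G` of primes containing the good
primes `ℓ ≠ 2`, `ℓ ≠ p`, `ℓ ∤ M'`, and a function `a` with `a ℓ = a_ℓ(W)` on the good primes. -/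
theorem modularRepOfLevel_of_eigenform_set {M' : ℕ}
    {W : WeierstrassCurve ℤ} (hW : W.IsIntegralModelOf P.freyCurve)
    (G : Set Nat.Primes) (a : Nat.Primes → ℤ)
    (hG : ∀ ℓ : Nat.Primes, W.IsGoodPrimeFor (ℓ : ℕ) → (ℓ : ℕ) ≠ 2 → (ℓ : ℕ) ≠ P.p →
      ¬ (ℓ : ℕ) ∣ M' → ℓ ∈ G ∧ a ℓ = W.apOfModel (ℓ : ℕ))
    (g : CuspForm (CongruenceSubgroup.Gamma0 M') 2) (𝔪 : Ideal (integralClosure ℤ ℂ))
    (hg : g.IsNormalizedEigenform) (h𝔪 : 𝔪.IsMaximal) (hp𝔪 : (P.p : integralClosure ℤ ℂ) ∈ 𝔪)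
    (hcong : ∀ ℓ ∈ G, ∃ x : integralClosure ℤ ℂ,
      (x : ℂ) = ModularFormClass.qCoeff g ((ℓ : Nat.Primes) : ℕ) ∧
        x - ((a ℓ : ℤ) : integralClosure ℤ ℂ) ∈ 𝔪) :
    P.ModularRepOfLevel M' := by
  refine modularRepOfLevel_of_eigenform P hW g 𝔪 hg h𝔪 hp𝔪 ?_
  intro ℓ hℓ hgood hℓ2 hℓp hℓM
  obtain ⟨hmem, ha⟩ := hG ⟨ℓ, hℓ⟩ hgood hℓ2 hℓp hℓM
  obtain ⟨x, hx, hxm⟩ := hcong ⟨ℓ, hℓ⟩ hmem
  exact ⟨x, hx, by rw [← ha]; exact hxm⟩

end Fermat.Agent.T8.helper56
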