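import Fermat.Agent.T8.helper44_DHecke
import Fermat.Agent.T8.helper47_LiftQ
import Fermat.Agent.T8.helper56_Wire2

/-!
# T8 = row 38 via S44, box (F) [D-HECKE], END of (F-EXIT) (helper13, with helper44)

`helper44.ExitStatement π` (the exit of box (F): a class of `V` with nonvanishing `(d₁, d₂)` gives
`P.ModularRepOfLevel M'`) is reduced here to its `q`-expansion core

* `ExitQStatement π` : under the hypotheses of `helper44.ExitStatement π` there is a sequence
  `w : ℕ → k` (`k` the residue field of `A`, of characteristic `p`) which is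
  - a `k`-linear combination of reductions of `q`-integral cusp forms of weight `2` and level
    `M'` (`helper47.IsRedCusp M' k w`),
  - not zero,
  - an eigenvector of the formal Hecke operators `U_ℓ + ℓ V_ℓ` with eigenvalue `a_ℓ(W)` at every
    prime `ℓ` which is good for `W` (`helper47.IsFormalEigen`).

  (In the route of finding #3612: `w` = the coefficients of `θ f / f`, `f` the reduction which is
  not a constant times a `p`-th power, after the descent `4 M' → M'`.)

`exit_of_exitQ : ExitQStatement π → helper44.ExitStatement π` is PROVED here from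
`helper47.liftQ` ([LIFT-Q], Deligne-Serre lifting) and `helper56.modularRepOfLevel_of_eigenform`
([WIRE]); `dHecke2_of_t0Side_exitQ` is the resulting form of box (F).
-/

set_option autoImplicit false
set_option linter.unusedSectionVars false
set_option linter.unusedVariables false
set_option linter.style.longLine false

noncomputable section

namespace Fermat.Agent.T8.helper13

open HahnSeries IntermediateField AlgebraicCurve ModularCurve
open Fermat.Agent.S18.helper19 Fermat.Agent.P2.helper29 Fermat.Agent.P2.helper93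
open Fermat.Agent.T2 Fermat.Agent.T2.helper36
open Fermat.Agent.T7 Fermat.Agent.T8.helper72 Fermat.Agent.T8.helper29
open Fermat.Agent.T8.helper44

/-- the good primes of an integral Weierstrass model, as a set of primes -/
def goodPrimes (W : WeierstrassCurve ℤ) : Set Nat.Primes :=
  {ℓ | W.IsGoodPrimeFor ((ℓ : Nat.Primes) : ℕ)}

/-- the eigenvalue system of an integral Weierstrass model -/
def apSeq (W : WeierstrassCurve ℤ) : Nat.Primes → ℤ :=
  fun ℓ => W.apOfModel ((ℓ : Nat.Primes) : ℕ)

/-- **(F-EXIT), `q`-expansion core**: a class of `V` with nonvanishing `(d₁, d₂)` gives a nonzero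
formal Hecke eigenvector, with the eigenvalues of the Frey curve, in the reduction of the
`q`-integral cusp forms of weight `2` and level `M'`. -/
def ExitQStatement (π : PullData) : Prop :=
  ∀ (P : FreyPackage) (W : WeierstrassCurve ℤ) (M' : ℕ) [NeZero M'], ChainCtx P M' W →
    ∀ (hpN : ¬ P.p ∣ 4 * M') (A : ValuationSubring (AlgebraicClosure ℚ)), A.LiesOverPrime P.p →
    ∀ V0 : AddSubgroup (JZero (M' * P.p)), FreyReal P W (M' * P.p) V0 →
      V0 ≤ helper43.newPart M' P.p →
      FreyReal P W (4 * M' * P.p) (V0.map (π M' P.p)) →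
      V0.map (π M' P.p) ≤ helper43.newPart (4 * M') P.p →
      (∃ x ∈ V0.map (π M' P.p),
        ∃ (D : Divisor.degZero (K := Kb) (F := FF (4 * M' * P.p))) (u : FF (4 * M' * P.p)),
          (Pic0.mk D : JZero (4 * M' * P.p)) = x ∧
          IsRootDiv P.p (D : Divisor Kb (FF (4 * M' * P.p))) u ∧
          RedNotPow (atkinLehner (4 * M') P.p P.pp hpN) A P.p u) →
      ∃ w : ℕ → kA A, helper47.IsRedCusp M' (kA A) w ∧ (∃ m, w m ≠ 0) ∧
        ∀ ℓ ∈ goodPrimes W,
          helper47.IsFormalEigen ((ℓ : Nat.Primes) : ℕ) (apSeq W ℓ) w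

/-- a good prime of an integral model of the Frey curve does not divide `M'` when `M' p` is a
conductor level -/
theorem good_not_dvd_of_ctx {P : FreyPackage} {W : WeierstrassCurve ℤ} {M' : ℕ}
    (hc : ChainCtx P M' W) {ℓ : ℕ} (hℓ : ℓ.Prime) (h : W.IsGoodPrimeFor ℓ) : ¬ ℓ ∣ M' :=
  fun hd => helper56.good_not_dvd_conductorLevel P hc.cond hc.model hℓ h
    (Dvd.dvd.mul_right hd P.p)

/-- **the end of (F-EXIT)**: a nonzero formal eigenvector with the eigenvalues of the Frey curve
in the reduction of the cusp forms of level `M'` gives `P.ModularRepOfLevel M'`. -/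
theorem modularRepOfLevel_of_redCusp {P : FreyPackage} {W : WeierstrassCurve ℤ} {M' : ℕ}
    [NeZero M'] (hc : ChainCtx P M' W) (k : Type) [Field k] [CharP k P.p] (w : ℕ → k)
    (hw : helper47.IsRedCusp M' k w) (hw0 : ∃ m, w m ≠ 0)
    (heig : ∀ ℓ ∈ goodPrimes W,
      helper47.IsFormalEigen ((ℓ : Nat.Primes) : ℕ) (apSeq W ℓ) w) :
    P.ModularRepOfLevel M' := by
  obtain ⟨g, 𝔪', hg, hmax, hp𝔪, hcong⟩ :=
    helper47.liftQ M' P.p P.pp k (goodPrimes W) (apSeq W)
      (fun ℓ hℓ => good_not_dvd_of_ctx hc ℓ.2 hℓ) w hw hw0 heig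
  refine helper56.modularRepOfLevel_of_eigenform_set P hc.model (goodPrimes W) (apSeq W)
    (fun ℓ hgood _ _ _ => ⟨hgood, rfl⟩) g 𝔪' hg hmax hp𝔪 hcong

/-- **(F-EXIT) from its `q`-expansion core** -/
theorem exit_of_exitQ (π : PullData) (h : ExitQStatement π) : ExitStatement π := by
  intro P W M' _ hc hpN A hA V0 hV0 hnew hV hVnew hex
  obtain ⟨w, hw, hw0, heig⟩ := h P W M' hc hpN A hA V0 hV0 hnew hV hVnew hex
  have : CharP (kA A) P.p := Fermat.Agent.P2.helper93.charP_residueField P.pp hA
  exact modularRepOfLevel_of_redCusp hc (kA A) w hw hw0 heig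

/-- **box (F) from (F-T0) and the `q`-expansion core of (F-EXIT)** -/
theorem dHecke2_of_t0Side_exitQ (π : PullData) (hT0 : T0SideStatement)
    (hExit : ExitQStatement π) : DHeckeStatement2 π wallCQ :=
  dHecke2_of_t0Side_exit π hT0 (exit_of_exitQ π hExit)

end Fermat.Agent.T8.helper13

end
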