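import Mathlib
import Fermat.Agent.T8.helper87_DlogAbs

/-!
# T8 [F3-EXIT], leaf [HECKE], formal core II (helper87): consumer shapes

* `dlogL_inv`, `dlogL_div`, `dlogL_zpow`;
* `dlogL_coeff_of_neg`, `dlogL_coeff_zero` : `dlogL h` has no polar part and its constant
  coefficient is the order of `h` (so `dlogL h ∈ q k[[q]]` iff `p ∣ ord_∞ h`);
* `hecke_dlog_zpow` : `hecke_dlog` with an integer eigenvalue (`Nm = c h ^ a g ^ p`, `a : ℤ`);
* `hecke_dlog_rot`  : the same with the norm formula in the `rot` form of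
  `T8.helper93.normAlpha_red` (`∏ rot (u ^ k) h`, `u` a unit);
* `formalEigen_dlog` : the conclusion in the shape `helper47.IsFormalEigen l a w`
  (unfolded), `w m = (dlogL h).coeff m`.
-/

set_option autoImplicit false
set_option linter.unusedSectionVars false
set_option linter.unusedVariables false
set_option linter.style.haveILetI false

noncomputable section

open HahnSeries ModularCurve
open Fermat.Agent.P2.helper93 (twistL twistL_coeff)
open Fermat.Agent.T3.helper67 (thetaL thetaL_coeff thetaL_add thetaL_neg thetaL_zero)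

namespace Fermat.Agent.T8.helper87

section Dlog2

variable {K : Type*} [Field K]

theorem dlogL_inv {f : LaurentSeries K} (hf : f ≠ 0) : dlogL f⁻¹ = -dlogL f := by
  have h1 := dlogL_mul hf (inv_ne_zero hf)
  rw [mul_inv_cancel₀ hf, dlogL_one] at h1
  exact eq_neg_of_add_eq_zero_right h1.symm

theorem dlogL_div {f g : LaurentSeries K} (hf : f ≠ 0) (hg : g ≠ 0) :
    dlogL (f / g) = dlogL f - dlogL g := by
  rw [div_eq_mul_inv, dlogL_mul hf (inv_ne_zero hg), dlogL_inv hg, sub_eq_add_neg]

theorem dlogL_zpow {f : LaurentSeries K} (hf : f ≠ 0) (n : ℤ) :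
    dlogL (f ^ n) = (n : LaurentSeries K) * dlogL f := by
  rcases n with n | n
  · rw [Int.ofNat_eq_natCast, zpow_natCast, dlogL_pow hf, Int.cast_natCast]
  · rw [zpow_negSucc, dlogL_inv (pow_ne_zero _ hf), dlogL_pow hf, Int.cast_negSucc]
    push_cast
    ring

theorem intCast_mul_coeff (n : ℤ) (f : LaurentSeries K) (k : ℤ) :
    ((n : LaurentSeries K) * f).coeff k = (n : K) * f.coeff k := by
  rw [← map_intCast (HahnSeries.C : K →+* LaurentSeries K) n, HahnSeries.C_mul_eq_smul,
    HahnSeries.coeff_smul, smul_eq_mul]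

/-! ### no polar part -/

theorem thetaL_single_one (m : ℤ) :
    thetaL (HahnSeries.single m (1 : K) : LaurentSeries K)
      = (m : LaurentSeries K) * HahnSeries.single m (1 : K) := by
  ext k
  rw [thetaL_coeff, intCast_mul_coeff]
  by_cases hk : k = m
  · subst hk; rfl
  · rw [HahnSeries.coeff_single_of_ne hk, mul_zero, mul_zero]

theorem dlogL_single_one (m : ℤ) :
    dlogL (HahnSeries.single m (1 : K) : LaurentSeries K) = (m : LaurentSeries K) := by
  have h0 : (HahnSeries.single m (1 : K) : LaurentSeries K) ≠ 0 :=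
    HahnSeries.single_ne_zero one_ne_zero
  rw [dlogL, thetaL_single_one, mul_div_cancel_right₀ _ h0]

theorem thetaL_ofPowerSeries (P : PowerSeries K) :
    thetaL (HahnSeries.ofPowerSeries ℤ K P)
      = HahnSeries.ofPowerSeries ℤ K (PowerSeries.mk fun n => (n : K) * PowerSeries.coeff n P) := by
  ext k
  rw [thetaL_coeff]
  rcases lt_or_ge k 0 with hk | hk
  · have h1 : ∀ Q : PowerSeries K, (HahnSeries.ofPowerSeries ℤ K Q).coeff k = 0 := by
      intro Q
      have := PowerSeries.coeff_coe (f := Q) k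
      rw [if_pos hk] at this
      exact this
    rw [h1, h1, mul_zero]
  · obtain ⟨n, rfl⟩ := Int.eq_ofNat_of_zero_le hk
    rw [HahnSeries.ofPowerSeries_apply_coeff, HahnSeries.ofPowerSeries_apply_coeff,
      PowerSeries.coeff_mk, Int.cast_natCast]

/-- `dlogL` of a power series with nonzero constant term is a power series without constant
term. -/
theorem dlogL_ofPowerSeries {P : PowerSeries K} (hP : PowerSeries.constantCoeff P ≠ 0) :
    ∃ S : PowerSeries K, PowerSeries.constantCoeff S = 0 ∧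
      dlogL (HahnSeries.ofPowerSeries ℤ K P) = HahnSeries.ofPowerSeries ℤ K S := by
  set Q : PowerSeries K := PowerSeries.mk fun n => (n : K) * PowerSeries.coeff n P with hQ
  have hQ0 : PowerSeries.constantCoeff Q = 0 := by
    rw [← PowerSeries.coeff_zero_eq_constantCoeff_apply, hQ, PowerSeries.coeff_mk]
    simp
  refine ⟨Q * P⁻¹, by rw [map_mul, hQ0, zero_mul], ?_⟩
  have hP0 : (HahnSeries.ofPowerSeries ℤ K P) ≠ 0 := by
    intro h
    have h1 : P = 0 := HahnSeries.ofPowerSeries_injective (h.trans (map_zero _).symm)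
    rw [h1, map_zero] at hP
    exact hP rfl
  rw [dlogL, div_eq_iff hP0, thetaL_ofPowerSeries, ← map_mul, mul_assoc,
    PowerSeries.inv_mul_cancel _ hP, mul_one]

/-- the polar part of `dlogL h` vanishes and its constant coefficient is the order of `h` -/
theorem dlogL_eq_order_add {h : LaurentSeries K} (hh : h ≠ 0) :
    ∃ S : PowerSeries K, PowerSeries.constantCoeff S = 0 ∧
      dlogL h = (h.order : LaurentSeries K) + HahnSeries.ofPowerSeries ℤ K S := by
  have hP : PowerSeries.constantCoeff (LaurentSeries.powerSeriesPart h) ≠ 0 := by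
    rw [← PowerSeries.coeff_zero_eq_constantCoeff_apply, LaurentSeries.powerSeriesPart_coeff]
    simpa using (HahnSeries.coeff_order_eq_zero).not.mpr hh
  obtain ⟨S, hS0, hS⟩ := dlogL_ofPowerSeries hP
  refine ⟨S, hS0, ?_⟩
  have h0 : (HahnSeries.single h.order (1 : K) : LaurentSeries K) ≠ 0 :=
    HahnSeries.single_ne_zero one_ne_zero
  have hP0 : (HahnSeries.ofPowerSeries ℤ K (LaurentSeries.powerSeriesPart h)) ≠ 0 := by
    intro h1
    have h2 : LaurentSeries.powerSeriesPart h = 0 :=
      HahnSeries.ofPowerSeries_injective (h1.trans (map_zero _).symm)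
    exact hh ((LaurentSeries.powerSeriesPart_eq_zero h).mp h2)
  conv_lhs => rw [← LaurentSeries.single_order_mul_powerSeriesPart h]
  rw [dlogL_mul h0 hP0, dlogL_single_one, hS]

theorem dlogL_coeff_of_neg {h : LaurentSeries K} (hh : h ≠ 0) {n : ℤ} (hn : n < 0) :
    (dlogL h).coeff n = 0 := by
  obtain ⟨S, -, hS⟩ := dlogL_eq_order_add hh
  rw [hS, HahnSeries.coeff_add]
  have h1 : (HahnSeries.ofPowerSeries ℤ K S).coeff n = 0 := by
    have := PowerSeries.coeff_coe (f := S) n
    rw [if_pos hn] at this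
    exact this
  have h2 : ((h.order : LaurentSeries K)).coeff n = 0 := by
    rw [← map_intCast (HahnSeries.C : K →+* LaurentSeries K), HahnSeries.C_apply,
      HahnSeries.coeff_single_of_ne hn.ne]
  rw [h1, h2, add_zero]

theorem dlogL_coeff_zero {h : LaurentSeries K} (hh : h ≠ 0) :
    (dlogL h).coeff 0 = (h.order : K) := by
  obtain ⟨S, hS0, hS⟩ := dlogL_eq_order_add hh
  rw [hS, HahnSeries.coeff_add]
  have h1 : (HahnSeries.ofPowerSeries ℤ K S).coeff 0 = 0 := by
    have := HahnSeries.ofPowerSeries_apply_coeff (Γ := ℤ) S 0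
    rw [Nat.cast_zero] at this
    rw [this, PowerSeries.coeff_zero_eq_constantCoeff_apply, hS0]
  have h2 : ((h.order : LaurentSeries K)).coeff 0 = (h.order : K) := by
    rw [← map_intCast (HahnSeries.C : K →+* LaurentSeries K), HahnSeries.C_apply,
      HahnSeries.coeff_single_same]
  rw [h1, h2, add_zero]

end Dlog2

/-! ### consumer shapes of the Hecke relation -/

section Hecke2

variable {K : Type*} [Field K]

/-- **[HECKE], formal core, integer eigenvalue.** -/
theorem hecke_dlog_zpow (p : ℕ) [CharP K p] {l : ℕ} [NeZero l] (hl : (l : K) ≠ 0)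
    {ζ : K} (hζ : IsPrimitiveRoot ζ l) {h Nm g : LaurentSeries K} (hh : h ≠ 0)
    {c c' : K} (hc : c ≠ 0) (hc' : c' ≠ 0) (a : ℤ)
    (hnorm : qExpand K l Nm
      = HahnSeries.C c' * (qExpand K (l * l) h * ∏ k ∈ Finset.range l, twistL (ζ ^ k) h))
    (heig : Nm = HahnSeries.C c * h ^ a * g ^ p) :
    heckeUL l (dlogL h) + (l : LaurentSeries K) * qExpand K l (dlogL h)
      = (a : LaurentSeries K) * dlogL h := by
  have hζ0 : ζ ≠ 0 := hζ.ne_zero (NeZero.ne l)
  have hq2 : qExpand K (l * l) h ≠ 0 := (map_ne_zero _).mpr hh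
  have htw : ∀ k ∈ Finset.range l, twistL (ζ ^ k) h ≠ 0 :=
    fun k _ => twistL_ne_zero (pow_ne_zero k hζ0) hh
  have hprod : ∏ k ∈ Finset.range l, twistL (ζ ^ k) h ≠ 0 := Finset.prod_ne_zero_iff.mpr htw
  have hNm : Nm ≠ 0 := by
    intro h0
    rw [h0, map_zero] at hnorm
    have hC : (HahnSeries.C c' : LaurentSeries K) ≠ 0 :=
      (map_ne_zero (HahnSeries.C : K →+* LaurentSeries K)).mpr hc'
    exact mul_ne_zero hC (mul_ne_zero hq2 hprod) hnorm.symm
  have hgp0 : g ^ p ≠ 0 := by
    intro h0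
    apply hNm
    rw [heig, h0, mul_zero]
  have hgp : dlogL (g ^ p) = 0 := by
    by_cases hg : g = 0
    · have hp : p = 0 := by
        by_contra hp
        exact hgp0 (by rw [hg, zero_pow hp])
      rw [hp, pow_zero, dlogL_one]
    · exact dlogL_pow_char p hg
  have hCha : (HahnSeries.C c : LaurentSeries K) * h ^ a ≠ 0 :=
    mul_ne_zero ((map_ne_zero (HahnSeries.C : K →+* LaurentSeries K)).mpr hc)
      (zpow_ne_zero a hh)
  have e1 : dlogL Nm = (a : LaurentSeries K) * dlogL h := by
    rw [heig, dlogL_mul hCha hgp0, hgp, add_zero, dlogL_C_mul hc (zpow_ne_zero a hh),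
      dlogL_zpow hh]
  have e2 : dlogL (qExpand K l Nm)
      = ((l * l : ℕ) : LaurentSeries K) * qExpand K (l * l) (dlogL h)
        + (l : LaurentSeries K) * qExpand K l (heckeUL l (dlogL h)) := by
    rw [hnorm, dlogL_C_mul hc' (mul_ne_zero hq2 hprod), dlogL_mul hq2 hprod, dlogL_qExpand,
      dlogL_prod _ _ htw]
    congr 1
    rw [← sum_twistL hζ]
    exact Finset.sum_congr rfl fun k _ => dlogL_twistL (pow_ne_zero k hζ0) h
  rw [dlogL_qExpand, e1] at e2
  apply qExpand_injective (R := K) l
  have e3 : qExpand K (l * l) (dlogL h) = qExpand K l (qExpand K l (dlogL h)) :=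
    (qExpand_qExpand l l (dlogL h)).symm
  rw [e3] at e2
  have hl' : (l : LaurentSeries K) ≠ 0 := by
    rw [← map_natCast (HahnSeries.C : K →+* LaurentSeries K) l]
    exact (map_ne_zero (HahnSeries.C : K →+* LaurentSeries K)).mpr hl
  apply mul_left_cancel₀ hl'
  rw [map_mul, map_intCast] at e2
  rw [map_add, map_mul, map_mul, map_natCast, map_intCast]
  push_cast at e2
  linear_combination (-1 : LaurentSeries K) * e2

/-- **[HECKE], formal core, `rot` form** (the shape of `T8.helper93.normAlpha_red`). -/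
theorem hecke_dlog_rot (p : ℕ) [CharP K p] {l : ℕ} [NeZero l] (hl : (l : K) ≠ 0)
    {u : Kˣ} (hu : IsPrimitiveRoot u l) {h Nm g : LaurentSeries K} (hh : h ≠ 0)
    {c c' : K} (hc : c ≠ 0) (hc' : c' ≠ 0) (a : ℤ)
    (hnorm : qExpand K l Nm
      = HahnSeries.C c' * (qExpand K (l * l) h
          * ∏ k ∈ Finset.range l, Fermat.Agent.P2.helper94.rot (u ^ k) h))
    (heig : Nm = HahnSeries.C c * h ^ a * g ^ p) :
    heckeUL l (dlogL h) + (l : LaurentSeries K) * qExpand K l (dlogL h)
      = (a : LaurentSeries K) * dlogL h := by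
  have hζ : IsPrimitiveRoot (u : K) l := IsPrimitiveRoot.coe_units_iff.mpr hu
  refine hecke_dlog_zpow p hl hζ hh hc hc' a ?_ heig
  rw [hnorm]
  congr 2
  refine Finset.prod_congr rfl fun k _ => ?_
  rw [twistL_eq_rot (pow_ne_zero k (Units.ne_zero u))]
  congr 1
  ext
  simp

/-- **[HECKE], formal core, in the shape of `helper47.IsFormalEigen`** (unfolded):
`w (m l) + (if l ∣ m then l w (m / l) else 0) = a w m` for `w m = a_m (dlogL h)`. -/
theorem formalEigen_dlog {l : ℕ} [NeZero l] {h : LaurentSeries K} (a : ℤ)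
    (hT : heckeUL l (dlogL h) + (l : LaurentSeries K) * qExpand K l (dlogL h)
      = (a : LaurentSeries K) * dlogL h) (m : ℕ) :
    (dlogL h).coeff ((m * l : ℕ) : ℤ)
        + (if l ∣ m then (l : K) * (dlogL h).coeff ((m / l : ℕ) : ℤ) else 0)
      = (a : K) * (dlogL h).coeff (m : ℤ) := by
  have key := congrArg (fun x : LaurentSeries K => x.coeff (m : ℤ)) hT
  simp only [HahnSeries.coeff_add, heckeUL_coeff, natCast_mul_coeff, intCast_mul_coeff] at key
  rw [← key]
  congr 1
  · congr 1
    push_cast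
    ring
  · split_ifs with hd
    · obtain ⟨j, rfl⟩ := hd
      have hl0 : 0 < l := Nat.pos_of_ne_zero (NeZero.ne l)
      rw [Nat.mul_div_cancel_left j hl0]
      have : ((l * j : ℕ) : ℤ) = (l : ℤ) * (j : ℤ) := by push_cast; ring
      rw [this, qExpand_coeff_mul]
    · rw [qExpand_coeff_of_not_dvd (R := K) l _ (by exact_mod_cast hd), mul_zero]

end Hecke2

end Fermat.Agent.T8.helper87
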