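import Fermat.Agent.T8.helper44_DHeckeAsm
import Fermat.Agent.T8.helper13_ExitEnd
import Fermat.Agent.T8.helper13_AnnRedCusp
import Fermat.Agent.T8.helper87_DlogAbs2
import Fermat.Agent.T8.helper81_CuspGapDefs

/-!
# T8 = row 38 via S44, box (F) [D-HECKE]: ASSEMBLY of [F3-EXIT] from its leaves (helper13)

Target: `helper44.F3ExitStatement π` (`helper44_DHeckeAsm.lean`), the ONLY open input of box (F).
It is proved here (`f3Exit_of_leaves`) from the consumer forms of the leaves of the route of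
finding #3612 (annihilator duality at infinity):

* `helper81.CuspGapChainStatement`  [CUSP-GAP]  : `p ∣ ord_Q f` at the cuspidal places `Q ≠ ∞`;
* `OmegaChainStatement`             [OMEGA]     : `θ f / f ∈ annRb (4 M') A` for a first-component
                                      reduction `f` (of `u` or of `W u`) with `p ∣ ord_Q f` at
                                      every place `Q ≠ ∞`;
* `HeckeChainStatement`             [HECKE]     : the coefficients of `θ f / f` are a formal
                                      `T_ℓ`-eigenvector with eigenvalue `a` when the class of `u`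
                                      is a `T_ℓ`-eigenclass with eigenvalue `a`;
* `DescentChainStatement π`         [DESCENT]   : `θ f / f = c V₄ w₀` with `w₀ ∈ annRb M' A`
                                      (`u` is a Kummer function of `π x₀`, `π = β₄^*`);
* `CuspAnnChainStatement`           [CUSP-ANN]  : reductions of `q`-integral cusp forms of level
                                      `M'` lie in `annRb M' A`.

Already closed and used: [GAPS] (helper74), [SAT-CUSP] (helper51), [LIFT-Q] (helper47 / helper32),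
[WIRE] (helper56), the formal `dlog` calculus (helper87).
-/

set_option autoImplicit false
set_option synthInstance.maxHeartbeats 400000
set_option maxHeartbeats 1600000
set_option linter.unusedSectionVars false
set_option linter.unusedVariables false
set_option linter.style.longLine false

noncomputable section

namespace Fermat.Agent.T8.helper13

open HahnSeries IntermediateField AlgebraicCurve ModularCurve
open Fermat.Agent.S18.helper19 Fermat.Agent.P2.helper29 Fermat.Agent.P2.helper93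
open Fermat.Agent.T2 Fermat.Agent.T2.helper36
open Fermat.Agent.T8.helper54 (IsRed1 DvdOff)
open Fermat.Agent.P3.helper94 (IsKummerRep)
open Fermat.Agent.T8.helper81 (DvdFin DvdCusp CuspGapChainStatement)
open Fermat.Agent.T8.helper74 (annRb mem_annRb)
open Fermat.Agent.T8.helper87 (dlogL)
open Fermat.Agent.T8.helper44 (IsPthPow F3ExitStatement)
open Fermat.Agent.T7 Fermat.Agent.T8.helper72 Fermat.Agent.T8.helper29

/-! ### formal part: `V₄` and the Hecke operators -/

section Formal

variable {k : Type*} [Field k]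

/-- if `w = c V₄ w₀` (`c ≠ 0`) is a formal `T_ℓ`-eigenvector, `ℓ` an odd prime, so is `w₀`. -/
theorem formalEigen_of_mul_four {w w0 : LaurentSeries k} {c : k} (hc : c ≠ 0)
    (h4 : ∀ m : ℤ, w.coeff (4 * m) = c * w0.coeff m) {ℓ : ℕ} (hℓ : ℓ.Prime) (hℓ2 : ℓ ≠ 2)
    (a : ℤ)
    (hw : Fermat.Agent.T8.helper47.IsFormalEigen ℓ a (fun m => w.coeff (m : ℤ))) :
    Fermat.Agent.T8.helper47.IsFormalEigen ℓ a (fun m => w0.coeff (m : ℤ)) := by
  intro m
  have h := hw (4 * m)
  have hcop : Nat.Coprime ℓ 4 := by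
    have h2 : Nat.Coprime ℓ 2 := (Nat.coprime_primes hℓ Nat.prime_two).2 hℓ2
    have : (4 : ℕ) = 2 ^ 2 := by norm_num
    rw [this]
    exact Nat.Coprime.pow_right 2 h2
  have hdvd : ℓ ∣ 4 * m ↔ ℓ ∣ m := ⟨fun hd => hcop.dvd_of_dvd_mul_left hd, fun hd => hd.mul_left 4⟩
  have e1 : ((4 * m * ℓ : ℕ) : ℤ) = 4 * ((m * ℓ : ℕ) : ℤ) := by push_cast; ring
  have e2 : ((4 * m : ℕ) : ℤ) = 4 * (m : ℤ) := by push_cast; ring
  simp only [] at h
  rw [e1, h4, e2, h4] at h
  by_cases hd : ℓ ∣ m
  · have hd4 : ℓ ∣ 4 * m := hdvd.2 hd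
    rw [if_pos hd4] at h
    rw [if_pos hd]
    have e3 : ((4 * m / ℓ : ℕ) : ℤ) = 4 * ((m / ℓ : ℕ) : ℤ) := by
      rw [Nat.mul_div_assoc 4 hd]
      push_cast
      ring
    rw [e3, h4] at h
    have h5 : c * (w0.coeff ((m * ℓ : ℕ) : ℤ) + (ℓ : k) * w0.coeff ((m / ℓ : ℕ) : ℤ))
        = c * ((a : k) * w0.coeff (m : ℤ)) := by
      linear_combination h
    exact mul_left_cancel₀ hc h5
  · have hd4 : ¬ ℓ ∣ 4 * m := fun h' => hd (hdvd.1 h')
    rw [if_neg hd4] at h
    rw [if_neg hd]
    have h5 : c * (w0.coeff ((m * ℓ : ℕ) : ℤ) + 0) = c * ((a : k) * w0.coeff (m : ℤ)) := by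
      linear_combination h
    exact mul_left_cancel₀ hc h5

/-- if `w = c V₄ w₀ ≠ 0` and `w₀ ∈ q k[[q]]`, then `w₀` has a nonzero coefficient of positive
index. -/
theorem exists_coeff_ne_zero_of_mul_four {w w0 : LaurentSeries k} {c : k}
    (h4 : ∀ m : ℤ, w.coeff (4 * m) = c * w0.coeff m)
    (h0 : ∀ n : ℤ, ¬ (4 : ℤ) ∣ n → w.coeff n = 0)
    (hw0 : ∀ m : ℤ, m ≤ 0 → w0.coeff m = 0) (hw : w ≠ 0) :
    ∃ m : ℕ, w0.coeff (m : ℤ) ≠ 0 := by
  obtain ⟨n, hn⟩ : ∃ n : ℤ, w.coeff n ≠ 0 := by
    by_contra hcon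
    have hcon' : ∀ n : ℤ, w.coeff n = 0 := fun n => by
      by_contra h
      exact hcon ⟨n, h⟩
    exact hw (HahnSeries.ext (funext fun n => by rw [hcon' n]; rfl))
  have hdvd : (4 : ℤ) ∣ n := by
    by_contra h
    exact hn (h0 n h)
  obtain ⟨m, rfl⟩ := hdvd
  rw [h4] at hn
  have hm : w0.coeff m ≠ 0 := fun h => hn (by rw [h, mul_zero])
  have hpos : 0 < m := by
    by_contra h
    exact hm (hw0 m (not_lt.mp h))
  refine ⟨m.toNat, ?_⟩
  rwa [Int.toNat_of_nonneg hpos.le]

end Formal

/-! ### the consumer forms of the open leaves -/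

section Leaves

/-- `f` is a first-component reduction of `u` or of `W u` -/
def IsRedComp (N p : ℕ) [NeZero N] [NeZero p] (hp : p.Prime) (hpN : ¬ p ∣ N)
    (A : ValuationSubring Kb) (u : FF (N * p)) (f : FFb A N) : Prop :=
  IsRed1 A N p u f ∨ IsRed1 A N p (atkinLehner N p hp hpN u) f

/-- **[OMEGA], consumer form** (level `N = 4 M'`, a good level): the logarithmic derivative of a
reduction `f` of a Kummer function, with `p ∣ ord_Q f` at every place `Q ≠ ∞` of the special
fibre, annihilates the reductions of the integral functions regular off infinity. -/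
def OmegaChainStatement : Prop :=
  ∀ (M' p : ℕ) [NeZero M'] [NeZero p] (hp : p.Prime) (hpN : ¬ p ∣ 4 * M')
    (A : ValuationSubring Kb), A.LiesOverPrime p →
    ∀ (x : JZero (4 * M' * p)) (u : FF (4 * M' * p)) (f : FFb A (4 * M')),
      IsKummerRep p x u → IsRedComp (4 * M') p hp hpN A u f → DvdFin A (4 * M') p f →
      dlogL (f : LaurentSeries (kA A)) ∈ annRb (4 * M') A

/-- **[HECKE], consumer form**: if the class of `u` is a `T_ℓ`-eigenclass with eigenvalue `a`
(`ℓ` a prime not dividing `N p`), the coefficients of the logarithmic derivative of a reduction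
`f` of `u` (or of `W u`) form a formal `T_ℓ`-eigenvector with eigenvalue `a`. -/
def HeckeChainStatement : Prop :=
  ∀ (N p : ℕ) [NeZero N] [NeZero p] (hp : p.Prime) (hpN : ¬ p ∣ N)
    (A : ValuationSubring Kb), A.LiesOverPrime p →
    ∀ (ℓ : Nat.Primes), ¬ ((ℓ : Nat.Primes) : ℕ) ∣ N * p → ∀ (a : ℤ)
      (x : JZero (N * p)) (u : FF (N * p)) (f : FFb A N),
      IsKummerRep p x u → heckeOperatorBar (N * p) ℓ x = a • x →
      IsRedComp N p hp hpN A u f →
      Fermat.Agent.T8.helper47.IsFormalEigen ((ℓ : Nat.Primes) : ℕ) a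
        (fun m => (dlogL (f : LaurentSeries (kA A))).coeff (m : ℤ))

/-- **[DESCENT], consumer form**: in the context of box (F), for a Kummer function `u` of
`π x₀` (`x₀ ∈ V0`, level `M' p`) and a reduction `f` of `u` (or `W u`) whose logarithmic
derivative `w` lies in `annRb (4 M') A`: `w = c V₄ w₀` with `c ≠ 0` and `w₀ ∈ annRb M' A`. -/
def DescentChainStatement (π : PullData) : Prop :=
  ∀ (P : FreyPackage) (W : WeierstrassCurve ℤ) (M' : ℕ) [NeZero M'], ChainCtx P M' W →
    ∀ (hpN : ¬ P.p ∣ 4 * M') (A : ValuationSubring (AlgebraicClosure ℚ)), A.LiesOverPrime P.p →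
    ∀ V0 : AddSubgroup (JZero (M' * P.p)), FreyReal P W (M' * P.p) V0 →
      V0 ≤ helper43.newPart M' P.p →
      ∀ x0 ∈ V0, ∀ (u : FF (4 * M' * P.p)) (f : FFb A (4 * M')),
        IsKummerRep P.p (π M' P.p x0) u → IsRedComp (4 * M') P.p P.pp hpN A u f →
        dlogL (f : LaurentSeries (kA A)) ∈ annRb (4 * M') A →
        ∃ (w0 : LaurentSeries (kA A)) (c : kA A), w0 ∈ annRb M' A ∧ c ≠ 0 ∧
          (∀ m : ℤ, (dlogL (f : LaurentSeries (kA A))).coeff (4 * m) = c * w0.coeff m) ∧
          ∀ n : ℤ, ¬ (4 : ℤ) ∣ n → (dlogL (f : LaurentSeries (kA A))).coeff n = 0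

/-- **[CUSP-ANN], consumer form at the levels of the chain** -/
def CuspAnnChainStatement : Prop :=
  ∀ (L : ℕ) [NeZero L] (A : ValuationSubring Kb), PrimeToLevel L A → CuspAnnStatement L A

end Leaves

/-! ### the assembly -/

section Assembly

/-- the logarithmic derivative of a reduction which is not a `p`-th power is not zero -/
theorem dlogL_ne_zero_of_not_pthPow {p : ℕ} (hp : p.Prime) {A : ValuationSubring Kb}
    (hA : A.LiesOverPrime p) {f : LaurentSeries (kA A)} (hf : f ≠ 0)
    (h : ¬ IsPthPow p f) : dlogL f ≠ 0 := by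
  have : Fact p.Prime := ⟨hp⟩
  have : CharP (kA A) p := Fermat.Agent.P2.helper93.charP_residueField hp hA
  have : IsAlgClosed (kA A) := Fermat.Agent.P2.helper95.isAlgClosed_residueField A
  intro h0
  exact h ((Fermat.Agent.T8.helper87.dlogL_eq_zero_iff p hf).1 h0)

/-- **[F3-EXIT] from its leaves.** -/
theorem f3Exit_of_leaves (π : PullData) (hCG : CuspGapChainStatement)
    (hO : OmegaChainStatement) (hH : HeckeChainStatement) (hD : DescentChainStatement π)
    (hCA : CuspAnnChainStatement) : F3ExitStatement π := by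
  intro P W M' _ hc hpN A hA V0 hV0 hnew hV hVnew x hx u f₁ f₂ hk h1 d1 h2 d2 hnot
  have hCharP : CharP (kA A) P.p := Fermat.Agent.P2.helper93.charP_residueField P.pp hA
  -- the class comes from level `M' p`
  obtain ⟨x0, hx0, rfl⟩ := AddSubgroup.mem_map.1 hx
  -- both reductions are divisible by `p` at every place `≠ ∞`
  have hu : ∀ Q : Place Kb (FF (4 * M' * P.p)), (P.p : ℤ) ∣ Q.ord u :=
    Fermat.Agent.T8.helper81.dvd_ord_of_isKummerRep hk
  have hWu0 : atkinLehner (4 * M') P.p P.pp hpN u ≠ 0 := fun h0 => hk.1 (by simpa using h0)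
  have D1 : DvdFin A (4 * M') P.p f₁ :=
    Fermat.Agent.T8.helper81.dvdFin_of_off_cusp d1 (hCG P M' A hA hpN u f₁ hk.1 hu h1)
  have D2 : DvdFin A (4 * M') P.p f₂ :=
    Fermat.Agent.T8.helper81.dvdFin_of_off_cusp d2
      (hCG P M' A hA hpN _ f₂ hWu0 (Fermat.Agent.T8.helper81.dvd_ord_equiv _ hu) h2)
  -- the main step, for one component `f` which is not a `p`-th power
  have main : ∀ f : FFb A (4 * M'), IsRedComp (4 * M') P.p P.pp hpN A u f →
      DvdFin A (4 * M') P.p f → (f : LaurentSeries (kA A)) ≠ 0 →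
      ¬ IsPthPow P.p (f : LaurentSeries (kA A)) → P.ModularRepOfLevel M' := by
    intro f hcomp hD' hf0 hnp
    set w : LaurentSeries (kA A) := dlogL (f : LaurentSeries (kA A)) with hw
    have hwAnn : w ∈ annRb (4 * M') A := hO M' P.p P.pp hpN A hA _ u f hk hcomp hD'
    have hw0 : w ≠ 0 := dlogL_ne_zero_of_not_pthPow P.pp hA hf0 hnp
    obtain ⟨w0, c, hw0Ann, hc0, h4, hoff⟩ :=
      hD P W M' hc hpN A hA V0 hV0 hnew x0 hx0 u f hk hcomp hwAnn
    -- `w₀` is a reduction of cusp forms of level `M'`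
    have hPL : PrimeToLevel M' A := ⟨P.p, P.pp, hc.not_p_dvd, hA⟩
    have hred : Fermat.Agent.T8.helper47.IsRedCusp M' (kA A) (fun m => w0.coeff (m : ℤ)) :=
      isRedCusp_of_mem_annRb hPL P.p P.pp (hCA M' A hPL) hw0Ann
    -- `w₀ ≠ 0`
    have hne : ∃ m : ℕ, w0.coeff (m : ℤ) ≠ 0 :=
      exists_coeff_ne_zero_of_mul_four h4 hoff ((mem_annRb.1 hw0Ann).1) hw0
    -- `w₀` is an eigenvector
    have heig : ∀ ℓ ∈ goodPrimes W, Fermat.Agent.T8.helper47.IsFormalEigen
        ((ℓ : Nat.Primes) : ℕ) (apSeq W ℓ) (fun m => w0.coeff (m : ℤ)) := by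
      intro ℓ hℓ
      have hgood : W.IsGoodPrimeFor ((ℓ : Nat.Primes) : ℕ) := hℓ
      have hℓ2 : ((ℓ : Nat.Primes) : ℕ) ≠ 2 :=
        Fermat.Agent.T8.helper56.ne_two_of_isGoodPrimeFor P hc.model hgood
      have hℓN : ¬ ((ℓ : Nat.Primes) : ℕ) ∣ 4 * M' * P.p := by
        have := Fermat.Agent.T8.helper56.good_not_dvd_level P hc.cond hc.model ℓ.2 hgood
        rwa [← mul_assoc] at this
      have hℓp : ((ℓ : Nat.Primes) : ℕ) ≠ P.p := fun h =>
        hℓN (h ▸ Dvd.intro_left (4 * M') rfl)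
      have hxe : heckeOperatorBar (4 * M' * P.p) ℓ (π M' P.p x0)
          = W.apOfModel ((ℓ : Nat.Primes) : ℕ) • (π M' P.p x0) :=
        hV.eigen _ hx ℓ hgood hℓN hℓp
      have hwe := hH (4 * M') P.p P.pp hpN A hA ℓ hℓN (W.apOfModel ((ℓ : Nat.Primes) : ℕ))
        (π M' P.p x0) u f hk hxe hcomp
      exact formalEigen_of_mul_four hc0 h4 ℓ.2 hℓ2 _ hwe
    exact modularRepOfLevel_of_redCusp hc (kA A) _ hred hne heig
  -- choose the component
  by_cases hp1 : IsPthPow P.p (f₁ : LaurentSeries (kA A))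
  · have hp2 : ¬ IsPthPow P.p (f₂ : LaurentSeries (kA A)) := fun h => hnot ⟨hp1, h⟩
    exact main f₂ (Or.inr h2) D2 (fun h0 => h2.1 (Subtype.ext h0)) hp2
  · exact main f₁ (Or.inl h1) D1 (fun h0 => h1.1 (Subtype.ext h0)) hp1

/-- **box (F) = [D-HECKE] from the leaves of [F3-EXIT]** -/
theorem dHecke2_of_leaves (π : PullData) (hCG : CuspGapChainStatement)
    (hO : OmegaChainStatement) (hH : HeckeChainStatement) (hD : DescentChainStatement π)
    (hCA : CuspAnnChainStatement) : DHeckeStatement2 π wallCN :=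
  Fermat.Agent.T8.helper44.dHecke2_of_f3Exit π (f3Exit_of_leaves π hCG hO hH hD hCA)

end Assembly

end Fermat.Agent.T8.helper13

end
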