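import Mathlib
import Fermat.Agent.T3.helper67_MidCore

/-!
# T8 [F3-EXIT] / [OMEGA], formal part (helper27)

Formal calculus of the Euler operator `thetaL = q d/dq` (`T3.helper67.thetaL`) on Laurent series:

* `om_thetaL_mul`       : Leibniz rule;
* `om_coeff_zero_thetaL`: `a₀ (thetaL f) = 0`;
* `om_coeff_zero_mul`   : `a₀ (x y) = 0` if `ord x ≥ 0`, `ord y ≥ 1`;
* `om_coeff_zero_dlog`  : `a₀ (thetaL f / f) = ord f`;
* `om_thetaL_algebraMap`: `thetaL` kills the constants;
* `om_thetaL_pow_char`  : in characteristic `p`, `thetaL (g ^ p) = 0`;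
* `om_dlog_mul_pow_char`: in characteristic `p`, `thetaL (f g^p) / (f g^p) = thetaL f / f`.
-/

set_option autoImplicit false
set_option linter.unusedSectionVars false
set_option linter.style.longLine false

noncomputable section

namespace Fermat.Agent.T8.helper27

open HahnSeries
open Fermat.Agent.T3.helper67 (thetaL thetaL_coeff thetaL_add)

section Formal

variable {R : Type*} [CommRing R]

theorem om_support_thetaL (f : LaurentSeries R) : (thetaL f).support ⊆ f.support := by
  intro k hk
  simp only [HahnSeries.mem_support, thetaL_coeff, ne_eq] at hk ⊢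
  exact fun h => hk (by rw [h, mul_zero])

/-- Leibniz rule for `thetaL = q d/dq`. -/
theorem om_thetaL_mul (f g : LaurentSeries R) :
    thetaL (f * g) = thetaL f * g + f * thetaL g := by
  ext n
  rw [thetaL_coeff, HahnSeries.coeff_add,
    HahnSeries.coeff_mul_left' f.isPWO_support (om_support_thetaL f),
    HahnSeries.coeff_mul_right' g.isPWO_support (om_support_thetaL g), HahnSeries.coeff_mul,
    Finset.mul_sum, ← Finset.sum_add_distrib]
  refine Finset.sum_congr rfl fun ij hij => ?_
  have h1 : ij.1 + ij.2 = n := (Finset.mem_antidiagonal.mp hij).2.2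
  simp only [thetaL_coeff]
  rw [← h1]
  push_cast
  ring

theorem om_coeff_zero_thetaL (f : LaurentSeries R) : (thetaL f).coeff 0 = 0 := by
  simp

theorem om_thetaL_C (c : R) : thetaL (HahnSeries.C c : LaurentSeries R) = 0 := by
  ext n
  rw [thetaL_coeff, HahnSeries.coeff_zero]
  by_cases hn : n = 0
  · rw [hn]; simp
  · have : (HahnSeries.C c : LaurentSeries R).coeff n = 0 := by
      rw [HahnSeries.C_apply, HahnSeries.coeff_single_of_ne hn]
    rw [this, mul_zero]

theorem om_thetaL_one : thetaL (1 : LaurentSeries R) = 0 := by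
  have h := om_thetaL_C (1 : R)
  rwa [map_one] at h

theorem om_thetaL_pow_succ (f : LaurentSeries R) (n : ℕ) :
    thetaL (f ^ (n + 1)) = ((n + 1 : ℕ) : LaurentSeries R) * f ^ n * thetaL f := by
  induction n with
  | zero => simp
  | succ n ih =>
    rw [pow_succ, om_thetaL_mul, ih]
    push_cast
    ring

end Formal

section FormalField

variable {K : Type*} [Field K]

theorem om_thetaL_algebraMap (c : K) :
    thetaL (algebraMap K (LaurentSeries K) c) = 0 := by
  rw [ModularCurve.algebraMap_laurentSeries_eq_single]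
  exact om_thetaL_C c

theorem om_coeff_zero_algebraMap_mul (c : K) (x : LaurentSeries K) :
    (algebraMap K (LaurentSeries K) c * x).coeff 0 = c * x.coeff 0 := by
  rw [ModularCurve.algebraMap_laurentSeries_eq_single]
  have : (HahnSeries.single (0 : ℤ) c) = HahnSeries.C c := rfl
  rw [this, HahnSeries.C_mul_eq_smul, HahnSeries.coeff_smul, smul_eq_mul]

theorem om_intCast_eq_C (m : ℤ) : ((m : ℤ) : LaurentSeries K) = HahnSeries.C ((m : ℤ) : K) := by
  simp

/-- a product of a series of order `≥ 0` and a series of order `≥ 1` has no constant term -/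
theorem om_coeff_zero_mul {x y : LaurentSeries K} (hx : 0 ≤ x.order) (hy : 1 ≤ y.order) :
    (x * y).coeff 0 = 0 := by
  rcases eq_or_ne x 0 with rfl | hx0
  · simp
  rcases eq_or_ne y 0 with rfl | hy0
  · simp
  apply HahnSeries.coeff_eq_zero_of_lt_order
  rw [HahnSeries.order_mul hx0 hy0]
  omega

/-- `thetaL f = (order f) f + (higher order)` -/
theorem om_thetaL_sub_order (f : LaurentSeries K) :
    thetaL f - ((f.order : ℤ) : LaurentSeries K) * f = 0 ∨
      f.order + 1 ≤ (thetaL f - ((f.order : ℤ) : LaurentSeries K) * f).order := by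
  by_cases h0 : thetaL f - ((f.order : ℤ) : LaurentSeries K) * f = 0
  · exact Or.inl h0
  right
  rw [HahnSeries.le_order_iff_forall h0]
  intro j hj
  have hc : (((f.order : ℤ) : LaurentSeries K) * f).coeff j = ((f.order : ℤ) : K) * f.coeff j := by
    rw [om_intCast_eq_C, HahnSeries.C_mul_eq_smul, HahnSeries.coeff_smul, smul_eq_mul]
  rw [HahnSeries.coeff_sub, thetaL_coeff, hc]
  rcases lt_or_eq_of_le (Int.lt_add_one_iff.mp hj) with h | h
  · rw [HahnSeries.coeff_eq_zero_of_lt_order h]
    simp
  · rw [h]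
    simp

/-- the order of `thetaL f` is at least the order of `f` -/
theorem om_order_thetaL_ge {f : LaurentSeries K} (h0 : thetaL f ≠ 0) :
    f.order ≤ (thetaL f).order := by
  rw [HahnSeries.le_order_iff_forall h0]
  intro j hj
  rw [thetaL_coeff, HahnSeries.coeff_eq_zero_of_lt_order hj, mul_zero]

/-- the constant term of `thetaL f / f` is the order of `f` -/
theorem om_coeff_zero_dlog {f : LaurentSeries K} (hf : f ≠ 0) :
    (f⁻¹ * thetaL f).coeff 0 = ((f.order : ℤ) : K) := by
  have hfi : f⁻¹ ≠ 0 := inv_ne_zero hf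
  have hord : f⁻¹.order + f.order = 0 := by
    rw [← HahnSeries.order_mul hfi hf, inv_mul_cancel₀ hf, HahnSeries.order_one]
  set r := thetaL f - ((f.order : ℤ) : LaurentSeries K) * f with hr
  have h1 : f⁻¹ * thetaL f = ((f.order : ℤ) : LaurentSeries K) + f⁻¹ * r := by
    have : f⁻¹ * (((f.order : ℤ) : LaurentSeries K) * f) = ((f.order : ℤ) : LaurentSeries K) := by
      rw [mul_comm, mul_assoc, mul_inv_cancel₀ hf, mul_one]
    rw [hr, mul_sub, this]
    ring
  have h2 : (f⁻¹ * r).coeff 0 = 0 := by
    rcases om_thetaL_sub_order f with h | h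
    · rw [← hr] at h
      rw [h, mul_zero]
      simp
    · rw [← hr] at h
      rcases eq_or_ne r 0 with h0 | h0
      · rw [h0, mul_zero]; simp
      apply HahnSeries.coeff_eq_zero_of_lt_order
      rw [HahnSeries.order_mul hfi h0]
      omega
  rw [h1, HahnSeries.coeff_add, h2, add_zero, om_intCast_eq_C, HahnSeries.C_apply,
    HahnSeries.coeff_single_same]

/-- in characteristic `p` the Euler operator kills the `p`-th powers -/
theorem om_thetaL_pow_char (p : ℕ) [hp : Fact p.Prime] [CharP K p] (g : LaurentSeries K) :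
    thetaL (g ^ p) = 0 := by
  obtain ⟨n, hn⟩ : ∃ n, p = n + 1 := ⟨p - 1, (Nat.succ_pred_eq_of_pos hp.out.pos).symm⟩
  have hp0 : ((p : ℕ) : LaurentSeries K) = 0 := by
    have h2 : ((p : ℕ) : K) = 0 := CharP.cast_eq_zero K p
    rw [← map_natCast (HahnSeries.C : K →+* LaurentSeries K) p, h2, map_zero]
  have h := om_thetaL_pow_succ g n
  rw [← hn] at h
  rw [h, hp0, zero_mul, zero_mul]

/-- in characteristic `p`, `dlog (f g^p) = dlog f` -/
theorem om_dlog_mul_pow_char (p : ℕ) [hp : Fact p.Prime] [CharP K p] (f g : LaurentSeries K)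
    (hg : g ≠ 0) :
    (f * g ^ p)⁻¹ * thetaL (f * g ^ p) = f⁻¹ * thetaL f := by
  rw [om_thetaL_mul, om_thetaL_pow_char, mul_zero, add_zero, mul_inv]
  have hgp : g ^ p ≠ 0 := pow_ne_zero _ hg
  field_simp

end FormalField

end Fermat.Agent.T8.helper27
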