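import Mathlib
import Fermat.Agent.P5.helper42_RRFinal
import Fermat.Agent.P5.helper42_RRLoc
import Fermat.Agent.T6.helper26_PVal
import Fermat.Agent.T8.helper27_OmFormal

/-!
# T8 [F3-EXIT] / [OMEGA], residue part (helper27)

`F / K` a function field over an algebraically closed field of characteristic `0` with a system
of local residues `res` (P5 `IsResidueSystem`).

* `om_res_fin`  : at a place `v` where `h` is regular,
                  `res v (h dlog U) = ord_v(U) * h(v)`;
* `om_res_inf`  : ABSTRACT `q`-expansion principle for the residue at one place `v`: if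
                  `F → L` is a field of "expansions" with a derivation `θ` and a functional `a0`
                  such that `a0 ∘ θ = 0`, `a0 (θ t / t) = 1` for the uniformisers `t` at `v` and
                  `a0 (c θ t) = 0` for `c` regular at `v`, then
                  `res v (f dg) = a0 (f θ g)`;
* `om_residue_formula_abs` : the residue theorem for `h dlog U`, `h` regular off `v`:
                  `a0 (h θ U / U) + ∑_{P ∈ S} ord_P(U) h(P) = 0`.
-/

set_option autoImplicit false
set_option linter.unusedSectionVars false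
set_option linter.style.longLine false

noncomputable section

namespace Fermat.Agent.T8.helper27

open AlgebraicCurve KaehlerDifferential
open Fermat.Agent.T6.helper26 (IsVal pval)
open Fermat.Agent.P5.helper42

variable {K F : Type*} [Field K] [Field F] [Algebra K F]

/-! ### Local coefficients with respect to a uniformiser -/

section Coeff

variable (hL : LocalSetting K F) (v : Place K F)

include hL

/-- every differential is `c dt`, and `ord c` is its order -/
theorem om_exists_coeff {t : F} (ht : v.ord t = 1) (ω : Ω[F⁄K]) :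
    ∃ c : F, ω = c • D K F t ∧ (ω ≠ 0 → c ≠ 0 ∧ v.ord c = v.ordDifferential ω) := by
  obtain ⟨hDt, hDt0⟩ := hL.unif v t ht
  set c : F := v.differentialCoeff ω * (v.differentialCoeff (D K F t))⁻¹ with hc
  have hcD : (v.differentialCoeff (D K F t)) ≠ 0 := fun h => hDt ((coeff_eq_zero_iff hL v).mp h)
  have hωc : ω = c • D K F t := by
    conv_lhs => rw [← coeff_smul_dCoord hL v ω]
    conv_rhs => rw [← coeff_smul_dCoord hL v (D K F t)]
    rw [smul_smul, hc, inv_mul_cancel_right₀ hcD]
  refine ⟨c, hωc, fun hω0 => ?_⟩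
  have hc0 : c ≠ 0 := by
    rintro h0
    rw [h0, zero_smul] at hωc
    exact hω0 hωc
  refine ⟨hc0, ?_⟩
  have := ordDifferential_smul_eq hL v hc0 hDt
  rw [← hωc, hDt0, add_zero] at this
  exact this.symm

end Coeff

/-! ### The residue at a place where `h` is regular -/

section Fin

variable (hL : LocalSetting K F) {res : Place K F → (Ω[F⁄K] →ₗ[K] K)}
  (hres : IsResidueSystem res) (v : Place K F)

include hL hres

theorem om_res_regular {ω : Ω[F⁄K]} (h : 0 ≤ v.ordDifferential ω) : res v ω = 0 :=
  hres.1 v ω h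

/-- `res v (h dlog U) = ord_v(U) h(v)` for `h` regular at `v` -/
theorem om_res_fin {h U : F} (hU : U ≠ 0) (hh : 0 ≤ v.ord h) :
    res v (h • U⁻¹ • D K F U) = ((v.ord U : ℤ) : K) * pval v h := by
  obtain ⟨t, ht⟩ := exists_ord_eq_one v
  have ht0 : t ≠ 0 := ne_zero_of_ord_eq_one v ht
  set n : ℤ := v.ord U with hn
  -- `U = t ^ n * U₀`
  set U₀ : F := U * (t ^ n)⁻¹ with hU₀
  have htn0 : t ^ n ≠ 0 := zpow_ne_zero n ht0
  have hU₀0 : U₀ ≠ 0 := mul_ne_zero hU (inv_ne_zero htn0)
  have hordU₀ : v.ord U₀ = 0 := by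
    rw [hU₀, v.ord_mul hU (inv_ne_zero htn0), Place.ord_inv, Place.ord_zpow, ht, ← hn]
    ring
  have hUeq : U = t ^ n * U₀ := by
    rw [hU₀]
    field_simp
  have hdlog : U⁻¹ • D K F U = n • (t⁻¹ • D K F t) + U₀⁻¹ • D K F U₀ := by
    conv_lhs => rw [hUeq]
    rw [dlog_mul_eq htn0 hU₀0, dlog_zpow_eq ht0]
  -- the value of `h`
  obtain ⟨a, ha⟩ := hL.residue v h hh
  have hval : IsVal v h a := ha
  have hpv : pval v h = a := Fermat.Agent.T6.helper26.pval_eq_of_isVal hval
  set h₁ : F := h - algebraMap K F a with hh₁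
  have hheq : h = algebraMap K F a + h₁ := by rw [hh₁]; ring
  have hh₁reg : h₁ = 0 ∨ 0 < v.ord h₁ := by
    rcases ha with ha | ha
    · left
      rw [hh₁, ha, sub_self]
    · right
      exact ha
  -- decomposition
  have hdec : h • U⁻¹ • D K F U
      = (n : K) • (a • (t⁻¹ • D K F t)) + (n • (h₁ • (t⁻¹ • D K F t)) + h • (U₀⁻¹ • D K F U₀)) := by
    rw [hdlog, smul_add]
    conv_lhs => rw [hheq]
    rw [add_smul, algebraMap_smul, ← hheq]
    rw [← zsmul_eq_const_smul n (a • (t⁻¹ • D K F t))]
    rw [smul_comm a n, smul_comm h₁ n]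
    abel
  have hreg1 : 0 ≤ v.ordDifferential (h₁ • (t⁻¹ • D K F t)) := by
    rcases hh₁reg with h0 | hpos
    · rw [h0, zero_smul]
      exact regular_zero hL v
    · have hne : h₁ ≠ 0 := by
        rintro h0
        rw [h0, Place.ord_zero] at hpos
        exact lt_irrefl _ hpos
      obtain ⟨hDt, -⟩ := hL.unif v t ht
      have hne2 : t⁻¹ • D K F t ≠ 0 := smul_ne_zero (inv_ne_zero ht0) hDt
      rw [ordDifferential_smul_eq hL v hne hne2, ordDifferential_dlog_unif hL v ht]
      omega
  have hreg2 : 0 ≤ v.ordDifferential (h • (U₀⁻¹ • D K F U₀)) :=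
    regular_smul hL v hh (regular_dlog_of_ord_eq_zero hL v hordU₀)
  have hreg : 0 ≤ v.ordDifferential (n • (h₁ • (t⁻¹ • D K F t)) + h • (U₀⁻¹ • D K F U₀)) :=
    regular_add hL v (regular_zsmul hL v n hreg1) hreg2
  rw [hdec, map_add, om_res_regular hL hres v hreg, add_zero, map_smul, map_smul,
    hres.2.1 v t ht, hpv, smul_eq_mul, smul_eq_mul, mul_one]

end Fin

/-! ### The residue at a place with expansions -/

section Inf

variable {L : Type*} [Field L] [Algebra K L] [Algebra F L] [IsScalarTower K F L]

/-- the data of a field of expansions: an additive derivation `θ` of `L` killing the constants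
and a `K`-linear functional `a0` killing the image of `θ` -/
structure OmExp (K L : Type*) [Field K] [Field L] [Algebra K L] (θ : L → L) (a0 : L → K) :
    Prop where
  θ_add : ∀ x y, θ (x + y) = θ x + θ y
  θ_mul : ∀ x y, θ (x * y) = θ x * y + x * θ y
  θ_const : ∀ c : K, θ (algebraMap K L c) = 0
  a0_add : ∀ x y, a0 (x + y) = a0 x + a0 y
  a0_smul : ∀ (c : K) (x : L), a0 (algebraMap K L c * x) = c * a0 x
  a0_θ : ∀ x, a0 (θ x) = 0

variable {θ : L → L} {a0 : L → K} (hE : OmExp K L θ a0)

/-- the derivation of `L` attached to `θ` -/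
def OmExp.der : Derivation K L L :=
  Derivation.mk'
    { toFun := θ
      map_add' := hE.θ_add
      map_smul' := fun c x => by
        rw [RingHom.id_apply, Algebra.smul_def, hE.θ_mul, hE.θ_const, zero_mul, zero_add,
          Algebra.smul_def] }
    (fun a b => by
      show θ (a * b) = a • θ b + b • θ a
      rw [hE.θ_mul, smul_eq_mul, smul_eq_mul]
      ring)

theorem OmExp.der_apply (x : L) : hE.der x = θ x := rfl

/-- the functional `a0` as a linear map -/
def OmExp.lin : L →ₗ[K] K where
  toFun := a0
  map_add' := hE.a0_add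
  map_smul' := fun c x => by
    rw [RingHom.id_apply, Algebra.smul_def, hE.a0_smul, smul_eq_mul]

/-- the expansion residue `ω ↦ a0 (ω / (dq / q))` on the differentials of `F` -/
def OmExp.resq (F : Type*) [Field F] [Algebra K F] [Algebra F L] [IsScalarTower K F L] :
    Ω[F⁄K] →ₗ[K] K :=
  hE.lin.comp ((hE.der.compAlgebraMap F).liftKaehlerDifferential.restrictScalars K)

theorem OmExp.resq_smul_D (f g : F) :
    hE.resq F (f • D K F g) = a0 (algebraMap F L f * θ (algebraMap F L g)) := by
  show a0 ((hE.der.compAlgebraMap F).liftKaehlerDifferential (f • D K F g)) = _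
  rw [map_smul, Derivation.liftKaehlerDifferential_comp_D, Algebra.smul_def]
  rfl

theorem OmExp.resq_D (g : F) : hE.resq F (D K F g) = 0 := by
  have h := hE.resq_smul_D (F := F) 1 g
  rw [one_smul, map_one, one_mul, hE.a0_θ] at h
  exact h

end Inf

/-! ### The residue at the place of the expansions -/

section InfMain

variable {L : Type*} [Field L] [Algebra K L] [Algebra F L] [IsScalarTower K F L]
variable {θ : L → L} {a0 : L → K}

/-- compatibility of the expansions with the place `v`: the expansion is "at `v`" -/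
structure OmAt (F : Type*) [Field F] [Algebra K F] [Algebra F L] (θ : L → L) (a0 : L → K)
    (v : Place K F) : Prop where
  unif : ∀ t : F, v.ord t = 1 → a0 ((algebraMap F L t)⁻¹ * θ (algebraMap F L t)) = 1
  reg : ∀ c t : F, 0 ≤ v.ord c → v.ord t = 1 →
    a0 (algebraMap F L c * θ (algebraMap F L t)) = 0

variable (hE : OmExp K L θ a0) (hL : LocalSetting K F)
  {res : Place K F → (Ω[F⁄K] →ₗ[K] K)} (hres : IsResidueSystem res) {v : Place K F}
  (hv : OmAt F θ a0 v)

include hE hL hres hv

/-- the two residues agree on `t ^ k dt`, `k ≤ -1` -/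
theorem om_res_eta {t : F} (ht : v.ord t = 1) {k : ℤ} (hk : k ≤ -1) :
    res v (t ^ k • D K F t) = hE.resq F (t ^ k • D K F t) := by
  have hcz : CharZero K := hL.charZero
  have ht0 : t ≠ 0 := ne_zero_of_ord_eq_one v ht
  rcases eq_or_lt_of_le hk with h1 | h1
  · rw [h1, zpow_neg_one, hres.2.1 v t ht, hE.resq_smul_D, map_inv₀, hv.unif t ht]
  · have hk1 : ((k + 1 : ℤ) : K) ≠ 0 := by
      have : k + 1 ≠ 0 := by omega
      exact_mod_cast this
    have hD : D K F (t ^ (k + 1)) = ((k + 1 : ℤ) : K) • (t ^ k • D K F t) := by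
      rw [Derivation.leibniz_zpow, add_sub_cancel_right, zsmul_eq_const_smul]
    have hη : t ^ k • D K F t = (((k + 1 : ℤ) : K))⁻¹ • D K F (t ^ (k + 1)) := by
      rw [hD, smul_smul, inv_mul_cancel₀ hk1, one_smul]
    rw [hη, map_smul, map_smul, hres.2.2.1 v, hE.resq_D]

theorem om_res_inf_aux (n : ℕ) :
    ∀ ω : Ω[F⁄K], -(n : ℤ) ≤ v.ordDifferential ω → res v ω = hE.resq F ω := by
  obtain ⟨t, ht⟩ := exists_ord_eq_one v
  have ht0 : t ≠ 0 := ne_zero_of_ord_eq_one v ht
  obtain ⟨hDt, hDt0⟩ := hL.unif v t ht
  induction n with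
  | zero =>
    intro ω hω
    rw [Nat.cast_zero, neg_zero] at hω
    rw [hres.1 v ω hω]
    obtain ⟨c, hc, hc2⟩ := om_exists_coeff hL v ht ω
    rcases eq_or_ne ω 0 with h0 | h0
    · rw [h0, map_zero]
    · rw [hc, hE.resq_smul_D, hv.reg c t (by rw [(hc2 h0).2]; exact hω) ht]
  | succ n ih =>
    intro ω hω
    by_cases hlt : -(n : ℤ) ≤ v.ordDifferential ω
    · exact ih ω hlt
    have hω0 : ω ≠ 0 := by
      rintro rfl
      apply hlt
      have := regular_zero hL v
      omega
    obtain ⟨c, hc, hc2⟩ := om_exists_coeff hL v ht ω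
    obtain ⟨hc0, hordc⟩ := hc2 hω0
    have hordω : v.ordDifferential ω = -((n : ℤ) + 1) := by
      push_cast at hω
      omega
    set m : ℤ := (n : ℤ) + 1 with hm
    have htm0 : t ^ m ≠ 0 := zpow_ne_zero m ht0
    set u : F := c * t ^ m with hu
    have hu0 : u ≠ 0 := mul_ne_zero hc0 htm0
    have hordu : v.ord u = 0 := by
      rw [hu, v.ord_mul hc0 htm0, Place.ord_zpow, ht, hordc, hordω]
      ring
    obtain ⟨a, ha⟩ := hL.residue v u hordu.ge
    have hceq : c = u * t ^ (-m) := by
      rw [hu, zpow_neg]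
      field_simp
    set ω' : Ω[F⁄K] := ω - a • (t ^ (-m) • D K F t) with hω'
    have hω'eq : ω' = ((u - algebraMap K F a) * t ^ (-m)) • D K F t := by
      rw [hω', hc, hceq, ← algebraMap_smul F a, smul_smul, ← sub_smul]
      congr 1
      ring
    have hreg' : -(n : ℤ) ≤ v.ordDifferential ω' := by
      rcases ha with ha | ha
      · rw [hω'eq, ha, sub_self, zero_mul, zero_smul]
        have := regular_zero hL v
        omega
      · have hne : u - algebraMap K F a ≠ 0 := by
          rintro h0
          rw [h0, Place.ord_zero] at ha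
          exact lt_irrefl _ ha
        have htm0' : t ^ (-m) ≠ 0 := zpow_ne_zero _ ht0
        rw [hω'eq, ordDifferential_smul_eq hL v (mul_ne_zero hne htm0') hDt, hDt0,
          v.ord_mul hne htm0', Place.ord_zpow, ht]
        omega
    have hih := ih ω' hreg'
    have hη := om_res_eta hE hL hres hv ht (k := -m) (by omega)
    set η : Ω[F⁄K] := t ^ (-m) • D K F t with hηdef
    have hωeq : ω = ω' + a • η := by
      rw [hω']
      abel
    have e1 : res v ω = res v ω' + a * res v η := by
      conv_lhs => rw [hωeq]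
      rw [map_add, map_smul, smul_eq_mul]
    have e2 : hE.resq F ω = hE.resq F ω' + a * hE.resq F η := by
      conv_lhs => rw [hωeq]
      rw [map_add, map_smul, smul_eq_mul]
    rw [e1, e2, hih, hη]

/-- **the residue at `v` is the expansion residue** -/
theorem om_res_inf (ω : Ω[F⁄K]) : res v ω = hE.resq F ω :=
  om_res_inf_aux hE hL hres hv (-(v.ordDifferential ω)).toNat ω (by omega)

theorem om_res_inf_smul_D (f g : F) :
    res v (f • D K F g) = a0 (algebraMap F L f * θ (algebraMap F L g)) := by
  rw [om_res_inf hE hL hres hv, hE.resq_smul_D]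

/-- **the residue theorem for `h dlog U`**, `h` regular off `v`. -/
theorem om_residue_formula_abs {h U : F} (hU : U ≠ 0)
    (hh : ∀ P : Place K F, P ≠ v → 0 ≤ P.ord h)
    (S : Finset (Place K F)) (hS : ∀ P : Place K F, P ≠ v → P.ord U ≠ 0 → P ∈ S)
    (hvS : v ∉ S) :
    a0 (algebraMap F L h * (algebraMap F L U)⁻¹ * θ (algebraMap F L U))
      + ∑ P ∈ S, ((P.ord U : ℤ) : K) * pval P h = 0 := by
  classical
  set ω : Ω[F⁄K] := h • U⁻¹ • D K F U with hω
  have hsum := hres.2.2.2.2 ω
  have hsupp : (Function.support fun P => res P ω) ⊆ ((insert v S : Finset (Place K F)) : Set _) := by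
    intro P hP
    rw [Function.mem_support] at hP
    by_contra hPS
    rw [Finset.mem_coe, Finset.mem_insert, not_or] at hPS
    apply hP
    have h0 : P.ord U = 0 := by
      by_contra hne
      exact hPS.2 (hS P hPS.1 hne)
    rw [hω, om_res_fin hL hres P hU (hh P hPS.1), h0, Int.cast_zero, zero_mul]
  rw [finsum_eq_sum_of_support_subset _ hsupp, Finset.sum_insert hvS] at hsum
  have hinf : res v ω = a0 (algebraMap F L h * (algebraMap F L U)⁻¹ * θ (algebraMap F L U)) := by
    rw [hω, smul_smul, om_res_inf_smul_D hE hL hres hv, map_mul, map_inv₀]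
  have hfin : ∑ P ∈ S, res P ω = ∑ P ∈ S, ((P.ord U : ℤ) : K) * pval P h := by
    refine Finset.sum_congr rfl fun P hP => ?_
    have hPv : P ≠ v := by
      rintro rfl
      exact hvS hP
    rw [hω, om_res_fin hL hres P hU (hh P hPv)]
  rw [hinf, hfin] at hsum
  exact hsum

/-- **abstract [CUSP-ANN]**: a differential `f dg` which is regular at every place different
from `v` has expansion residue `0`. -/
theorem om_coeff_zero_of_regular_off {f g : F}
    (hreg : ∀ P : Place K F, P ≠ v → 0 ≤ P.ordDifferential (f • D K F g)) :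
    a0 (algebraMap F L f * θ (algebraMap F L g)) = 0 := by
  classical
  set ω : Ω[F⁄K] := f • D K F g with hω
  have hsum := hres.2.2.2.2 ω
  have hsupp : (Function.support fun P => res P ω) ⊆ (({v} : Finset (Place K F)) : Set _) := by
    intro P hP
    rw [Function.mem_support] at hP
    by_contra hPS
    rw [Finset.mem_coe, Finset.mem_singleton] at hPS
    exact hP (hres.1 P ω (hreg P hPS))
  rw [finsum_eq_sum_of_support_subset _ hsupp, Finset.sum_singleton] at hsum
  rw [← om_res_inf_smul_D hE hL hres hv, ← hω, hsum]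

end InfMain

end Fermat.Agent.T8.helper27
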