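import Mathlib
import Fermat.Agent.T8.helper27_OmRes
import Fermat.Agent.P2.helper74_RieInst
import Fermat.Agent.P2.helper29_Infty
import Fermat.Agent.P2.helper22_InL

/-!
# T8 [F3-EXIT] / [OMEGA], the residue theorem for `h dlog U` in `q`-expansions (helper27)

Instance of `helper27_OmRes` for a field of `q`-expansions `E ⊆ K((q))` (`K` algebraically
closed of characteristic `0`, `E` a function field of one variable with the place at infinity
`Pinf`, `IsInfty Pinf`), `θ = thetaL = q d/dq`, `a0 =` constant coefficient:

* `om_exp`, `om_at`          : the hypotheses `OmExp`, `OmAt` of the abstract statements;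
* `om_res_inf_q`             : `res Pinf (f dg) = a₀ (f θ g)`;
* `om_coeff_zero_regular_off`: **abstract [CUSP-ANN]** `f dg` regular off infinity ⟹
                               `a₀ (f θ g) = 0`;
* `om_residue_formula_q`     : `a₀ (h θ U / U) + ∑_{P ≠ ∞} ord_P(U) h(P) = 0` for `h` regular
                               off infinity;
* `om_residue_formula_FF`    : the same for `E = FF M` (modular function field over `ℚ̄`).
-/

set_option autoImplicit false
set_option linter.unusedSectionVars false
set_option linter.style.longLine false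
set_option linter.style.haveILetI false

noncomputable section

namespace Fermat.Agent.T8.helper27

open HahnSeries AlgebraicCurve KaehlerDifferential IntermediateField
open Fermat.Agent.T3.helper67 (thetaL thetaL_coeff thetaL_add)
open Fermat.Agent.P2.helper29 (IsInfty)
open Fermat.Agent.T6.helper26 (IsVal pval)
open Fermat.Agent.P5.helper42

section Q

variable {K : Type*} [Field K]

/-- the expansion data of `K((q))` -/
theorem om_exp (K : Type*) [Field K] :
    OmExp K (LaurentSeries K) (thetaL (R := K)) (fun f => f.coeff 0) where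
  θ_add := thetaL_add
  θ_mul := om_thetaL_mul
  θ_const := om_thetaL_algebraMap
  a0_add := fun x y => HahnSeries.coeff_add' x y ▸ rfl
  a0_smul := om_coeff_zero_algebraMap_mul
  a0_θ := om_coeff_zero_thetaL

variable {E : IntermediateField K (LaurentSeries K)}

theorem om_algebraMap_coe (f : E) : algebraMap E (LaurentSeries K) f = (f : LaurentSeries K) :=
  rfl

theorem om_order_of_isInfty {Pinf : Place K E} (hP : IsInfty Pinf) {f : E} (hf : f ≠ 0) :
    (f : LaurentSeries K).order = Pinf.ord f := (hP f hf).symm

/-- the expansions are expansions at the place at infinity -/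
theorem om_at {Pinf : Place K E} (hP : IsInfty Pinf) :
    OmAt E (thetaL (R := K)) (fun f => f.coeff 0) Pinf where
  unif := fun t ht => by
    have ht0 : t ≠ 0 := by
      rintro rfl
      rw [Place.ord_zero] at ht
      exact zero_ne_one ht
    have htL : (t : LaurentSeries K) ≠ 0 := fun h => ht0 (Subtype.ext h)
    show ((algebraMap E (LaurentSeries K) t)⁻¹ * thetaL (algebraMap E (LaurentSeries K) t)).coeff 0
      = 1
    rw [om_algebraMap_coe, om_coeff_zero_dlog htL, om_order_of_isInfty hP ht0, ht]
    simp
  reg := fun c t hc ht => by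
    have ht0 : t ≠ 0 := by
      rintro rfl
      rw [Place.ord_zero] at ht
      exact zero_ne_one ht
    show (algebraMap E (LaurentSeries K) c * thetaL (algebraMap E (LaurentSeries K) t)).coeff 0 = 0
    rw [om_algebraMap_coe, om_algebraMap_coe]
    rcases eq_or_ne (thetaL (t : LaurentSeries K)) 0 with h0 | h0
    · rw [h0, mul_zero]
      rfl
    · apply om_coeff_zero_mul
      · rcases eq_or_ne c 0 with rfl | hc0
        · simp
        · rw [om_order_of_isInfty hP hc0]
          exact hc
      · have := om_order_thetaL_ge h0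
        rw [om_order_of_isInfty hP ht0, ht] at this
        exact this

variable [IsAlgClosed K] [CharZero K]

section Main

variable (x : E) (hx : Transcendental K x) [FiniteDimensional K⟮x⟯ E]
  {Pinf : Place K E} (hP : IsInfty Pinf)
  {res : Place K E → (Ω[E⁄K] →ₗ[K] K)} (hres : IsResidueSystem res)

include hx hP hres

/-- the residue at infinity is the constant coefficient of the `q`-expansion -/
theorem om_res_inf_q (f g : E) :
    res Pinf (f • D K E g) = ((f : LaurentSeries K) * thetaL (g : LaurentSeries K)).coeff 0 :=
  om_res_inf_smul_D (om_exp K) (LocalSetting.of_ff x hx) hres (om_at hP) f g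

/-- **abstract [CUSP-ANN]**: if `f dg` is regular off infinity then `a₀ (f θ g) = 0`. -/
theorem om_coeff_zero_regular_off {f g : E}
    (hreg : ∀ P : Place K E, P ≠ Pinf → 0 ≤ P.ordDifferential (f • D K E g)) :
    ((f : LaurentSeries K) * thetaL (g : LaurentSeries K)).coeff 0 = 0 :=
  om_coeff_zero_of_regular_off (om_exp K) (LocalSetting.of_ff x hx) hres (om_at hP) hreg

/-- **the residue theorem for `h dlog U`** in `q`-expansions, `h` regular off infinity. -/
theorem om_residue_formula_q {h U : E} (hU : U ≠ 0)
    (hh : ∀ P : Place K E, P ≠ Pinf → 0 ≤ P.ord h)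
    (S : Finset (Place K E)) (hS : ∀ P : Place K E, P ≠ Pinf → P.ord U ≠ 0 → P ∈ S)
    (hvS : Pinf ∉ S) :
    ((h : LaurentSeries K) * (U : LaurentSeries K)⁻¹ * thetaL (U : LaurentSeries K)).coeff 0
      + ∑ P ∈ S, ((P.ord U : ℤ) : K) * pval P h = 0 :=
  om_residue_formula_abs (om_exp K) (LocalSetting.of_ff x hx) hres (om_at hP) hU hh S hS hvS

end Main

end Q

/-! ### The modular function field -/

section FF

open Fermat.Agent.S18.helper19 ModularCurve

variable (M : ℕ) [NeZero M]

/-- a system of local residues on the modular function field `FF M` -/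
theorem om_exists_res_FF :
    ∃ res : Place Kb (FF M) → (Ω[FF M⁄Kb] →ₗ[Kb] Kb), IsResidueSystem res :=
  haveI := Fermat.Agent.S24.helper77.an_finiteDimensional M
  Fermat.Agent.P5.helper42.residueStatement Kb (FF M) (Fermat.Agent.S24.xJ M)
    (Fermat.Agent.S24.helper77.an_transcendental M) inferInstance

variable {M}

/-- **abstract [CUSP-ANN] on `FF M`**: if `f dg` is regular off infinity then `a₀ (f θ g) = 0`. -/
theorem om_coeff_zero_regular_off_FF {Pinf : Place Kb (FF M)} (hP : IsInfty Pinf) {f g : FF M}
    (hreg : ∀ P : Place Kb (FF M), P ≠ Pinf → 0 ≤ P.ordDifferential (f • D Kb (FF M) g)) :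
    ((f : LaurentSeries Kb) * thetaL (g : LaurentSeries Kb)).coeff 0 = 0 := by
  haveI := Fermat.Agent.S24.helper77.an_finiteDimensional M
  obtain ⟨res, hres⟩ := om_exists_res_FF M
  exact om_coeff_zero_regular_off (Fermat.Agent.S24.xJ M)
    (Fermat.Agent.S24.helper77.an_transcendental M) hP hres hreg

/-- **the residue theorem for `h dlog U` on `FF M`**: for `h` regular off infinity and `D` the
divisor of `U`, `a₀ (h θ U / U) + ∑_{P ≠ ∞} ord_P(U) h(P) = 0`. -/
theorem om_residue_formula_FF {Pinf : Place Kb (FF M)} (hP : IsInfty Pinf) {h U : FF M}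
    (hU : U ≠ 0) (hh : ∀ P : Place Kb (FF M), ¬ IsInfty P → 0 ≤ P.ord h)
    (D : Divisor Kb (FF M)) (hD : ∀ P, D P = P.ord U) :
    ((h : LaurentSeries Kb) * (U : LaurentSeries Kb)⁻¹ * thetaL (U : LaurentSeries Kb)).coeff 0
      + (D.erase Pinf).sum (fun P k => (k : Kb) * pval P h) = 0 := by
  classical
  haveI := Fermat.Agent.S24.helper77.an_finiteDimensional M
  obtain ⟨res, hres⟩ := om_exists_res_FF M
  have hne : ∀ P : Place Kb (FF M), P ≠ Pinf → ¬ IsInfty P := fun P hPne hinf =>
    hPne (Fermat.Agent.P2.helper29.IsInfty.unique (FF M) hinf hP)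
  have key := om_residue_formula_q (Fermat.Agent.S24.xJ M)
    (Fermat.Agent.S24.helper77.an_transcendental M) hP hres hU
    (fun P hPne => hh P (hne P hPne)) (D.erase Pinf).support
    (fun P hPne hord => by
      rw [Finsupp.mem_support_iff, Finsupp.erase_ne hPne, hD]
      exact hord)
    (by rw [Finsupp.mem_support_iff, Finsupp.erase_same]; exact fun h => h rfl)
  rw [← key, Finsupp.sum]
  congr 1
  refine Finset.sum_congr rfl fun P hPs => ?_
  have hPne : P ≠ Pinf := by
    rintro rfl
    rw [Finsupp.mem_support_iff, Finsupp.erase_same] at hPs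
    exact hPs rfl
  rw [Finsupp.erase_ne hPne, hD]

end FF

end Fermat.Agent.T8.helper27
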