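import Mathlib
import Fermat.Agent.T6.helper81_PValRed

/-!
# T8 [F3-EXIT] leaf [OMEGA], sub-lemma [OMEGA-SUM] (helper60)

Reduction of the finite sum `∑_{P ≠ ∞} ord_P(U) · H(P)` of the residue theorem.

Setting: a reduction setting `S : S37.helper16.RedSetting M A` (good level), integral series
`Y`, `H : A((q))` with `U := incl A Y ∈ L(n ∞)`, `incl A H ∈ L(m ∞)`, `red Y ≠ 0` and
`ord (red Y) = ord (incl Y)` (exact pole order: the leading coefficient of `Y` is a unit).

* `omegaSum_rP_ne` : no zero of `U` reduces to the place at infinity of the special fibre;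
* `omegaSum` : the sum `s = ∑_{P ≠ ∞} ord_P(U) · H(P)` lies in `A` and
  `residue s = ∑_{Q ≠ ∞̄} ord_Q(red Y) · (red H)(Q)`;
* `omegaSum_eq_zero` : if `p ∣ ord_Q (red Y)` for all `Q ≠ ∞̄` (`p` = residue characteristic),
  then `residue s = 0`.

Abstract `Finsupp` lemmas: `mapDomain_erase_eq`, `eq_zero_of_mapDomain_eq_zero`.
-/

set_option autoImplicit false
set_option linter.unusedSectionVars false
set_option linter.unusedVariables false
set_option linter.style.longLine false

noncomputable section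

open HahnSeries IntermediateField AlgebraicCurve ModularCurve

namespace Fermat.Agent.T8.helper60

section Abstract

variable {α β : Type*}

/-- `mapDomain` of an erased finitely supported function -/
theorem mapDomain_erase_eq (r : α → β) (D : α →₀ ℤ) (a : α) :
    Finsupp.mapDomain r (D.erase a) = Finsupp.mapDomain r D - Finsupp.single (r a) (D a) := by
  classical
  have h : Finsupp.mapDomain r D =
      Finsupp.mapDomain r (D.erase a) + Finsupp.single (r a) (D a) := by
    conv_lhs => rw [← Finsupp.erase_add_single a D]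
    rw [Finsupp.mapDomain_add, Finsupp.mapDomain_single]
  rw [h, add_sub_cancel_right]

/-- if the push-forward of an effective divisor vanishes at `b`, the divisor vanishes on the fibre
of `b` -/
theorem eq_zero_of_mapDomain_eq_zero (r : α → β) (D : α →₀ ℤ) (hD : ∀ a, 0 ≤ D a) (b : β)
    (h : Finsupp.mapDomain r D b = 0) (a : α) (ha : r a = b) : D a = 0 := by
  classical
  by_contra hne
  have hmem : a ∈ D.support := Finsupp.mem_support_iff.mpr hne
  have h1 : Finsupp.mapDomain r D b = ∑ x ∈ D.support, (if r x = b then D x else 0) := by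
    rw [Finsupp.mapDomain, Finsupp.sum, Finsupp.finsetSum_apply]
    refine Finset.sum_congr rfl fun x _ => ?_
    rw [Finsupp.single_apply]
  rw [h1] at h
  have h2 := (Finset.sum_eq_zero_iff_of_nonneg (fun x _ => by
    split_ifs
    · exact hD x
    · exact le_rfl)).mp h a hmem
  rw [if_pos ha] at h2
  exact hne h2

end Abstract

section OmegaSum

open Fermat.Agent.S18.helper19 Fermat.Agent.P2.helper29
open Fermat.Agent.S37.helper16 Fermat.Agent.P2
open Fermat.Agent.T6.helper26 Fermat.Agent.T6.helper81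

variable {M : ℕ} [NeZero M] {A : ValuationSubring Kb}

/-- shortcut instance (slow to find by synthesis) -/
local instance algebraFFbOmega : Algebra (kA A) (FFb A M) := SubalgebraClass.toAlgebra (FFb A M)

variable (S : RedSetting M A)

variable {n m : ℤ} {Y H : LaurentSeries A}

/-- the push-forward of the divisor of zeros of `U` is the divisor of zeros of its reduction -/
theorem omegaSum_mapDomain (hY : InL (FF M) n (incl A Y)) (hY0 : red A Y ≠ 0)
    (hord : (red A Y).order = (incl A Y).order)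
    (D : Divisor Kb (FF M)) (hD : ∀ P, D P = P.ord (⟨incl A Y, hY.1⟩ : FF M))
    (Db : Divisor (kA A) (FFb A M))
    (hDb : ∀ Q, Db Q = Q.ord (⟨red A Y, (S.hReg n Y hY).1⟩ : FFb A M)) :
    Finsupp.mapDomain S.rP (D.erase S.Pinf) = Db.erase S.Qinf := by
  classical
  have hmap : Finsupp.mapDomain S.rP D = Db := by
    ext Q
    rw [S.rouche hY (S.hReg n Y hY).1 hY0 D hD Q, hDb]
  have hU0 : (⟨incl A Y, hY.1⟩ : FF M) ≠ 0 := by
    intro h0
    have h1 : incl A Y = 0 := congrArg Subtype.val h0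
    have h2 : Y = 0 := coeffMap_subtype_injective (by rw [h1, map_zero])
    exact hY0 (by rw [h2, map_zero])
  have hUb0 : (⟨red A Y, (S.hReg n Y hY).1⟩ : FFb A M) ≠ 0 := fun h0 =>
    hY0 (congrArg Subtype.val h0)
  have hinf : D S.Pinf = Db S.Qinf := by
    rw [hD, hDb, S.hPinf _ hU0, S.hQinf _ hUb0]
    exact hord.symm
  rw [mapDomain_erase_eq, hmap, S.rP_Pinf, hinf, ← Finsupp.erase_eq_sub_single]

/-- the divisor of zeros of `U` is effective -/
theorem omegaSum_nonneg (hY : InL (FF M) n (incl A Y))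
    (D : Divisor Kb (FF M)) (hD : ∀ P, D P = P.ord (⟨incl A Y, hY.1⟩ : FF M))
    (P : Place Kb (FF M)) : 0 ≤ (D.erase S.Pinf) P := by
  classical
  by_cases hP : P = S.Pinf
  · rw [hP, Finsupp.erase_same]
  · rw [Finsupp.erase_ne hP, hD]
    exact hY.2.1 P fun hinf => hP ((helper22.isInfty_iff_eq S.hPinf P).mp hinf)

/-- **no zero of `U` reduces to infinity** -/
theorem omegaSum_rP_ne (hY : InL (FF M) n (incl A Y)) (hY0 : red A Y ≠ 0)
    (hord : (red A Y).order = (incl A Y).order)
    (D : Divisor Kb (FF M)) (hD : ∀ P, D P = P.ord (⟨incl A Y, hY.1⟩ : FF M))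
    (P : Place Kb (FF M)) (hP : (D.erase S.Pinf) P ≠ 0) : S.rP P ≠ S.Qinf := by
  classical
  obtain ⟨Db, hDb⟩ := S.hSb.principal.exists_divisor
    (⟨red A Y, (S.hReg n Y hY).1⟩ : FFb A M) (fun h0 => hY0 (congrArg Subtype.val h0))
  intro hr
  apply hP
  refine eq_zero_of_mapDomain_eq_zero S.rP (D.erase S.Pinf) (omegaSum_nonneg S hY D hD) S.Qinf
    ?_ P hr
  rw [omegaSum_mapDomain S hY hY0 hord D hD Db (fun Q => (hDb.1 Q)), Finsupp.erase_same]

/-- the value of `H` at `P` as an element of `A` (junk `0` if `P` reduces to infinity) -/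
def valA (hH : InL (FF M) m (incl A H)) (P : Place Kb (FF M)) : A := by
  classical
  exact if hP : S.rP P ≠ S.Qinf then
    ⟨pval P (⟨incl A H, hH.1⟩ : FF M), pval_mem_of_inL S hH hP⟩ else 0

theorem coe_valA (hH : InL (FF M) m (incl A H)) {P : Place Kb (FF M)}
    (hP : S.rP P ≠ S.Qinf) :
    ((valA S hH P : A) : Kb) = pval P (⟨incl A H, hH.1⟩ : FF M) := by
  rw [valA, dif_pos hP]

theorem residue_valA (hH : InL (FF M) m (incl A H)) {P : Place Kb (FF M)}
    (hP : S.rP P ≠ S.Qinf) :
    IsLocalRing.residue A (valA S hH P) =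
      pval (S.rP P) (⟨red A H, (S.hReg m H hH).1⟩ : FFb A M) := by
  rw [pval_red_of_inL S hH hP]
  congr 1
  apply Subtype.ext
  rw [coe_valA S hH hP]

/-- **[OMEGA-SUM]**: the sum `s = ∑_{P ≠ ∞} ord_P(U) · H(P)` lies in `A` and its reduction is
`∑_{Q ≠ ∞̄} ord_Q(red Y) · (red H)(Q)`. -/
theorem omegaSum (hY : InL (FF M) n (incl A Y)) (hH : InL (FF M) m (incl A H))
    (hY0 : red A Y ≠ 0) (hord : (red A Y).order = (incl A Y).order)
    (D : Divisor Kb (FF M)) (hD : ∀ P, D P = P.ord (⟨incl A Y, hY.1⟩ : FF M))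
    (Db : Divisor (kA A) (FFb A M))
    (hDb : ∀ Q, Db Q = Q.ord (⟨red A Y, (S.hReg n Y hY).1⟩ : FFb A M)) :
    ∃ s : A,
      (s : Kb) = (D.erase S.Pinf).sum
        (fun P k => (k : Kb) * pval P (⟨incl A H, hH.1⟩ : FF M)) ∧
      IsLocalRing.residue A s = (Db.erase S.Qinf).sum
        (fun Q k => ((k : ℤ) : kA A) * pval Q (⟨red A H, (S.hReg m H hH).1⟩ : FFb A M)) := by
  classical
  have hne : ∀ P ∈ (D.erase S.Pinf).support, S.rP P ≠ S.Qinf := fun P hP =>
    omegaSum_rP_ne S hY hY0 hord D hD P (Finsupp.mem_support_iff.mp hP)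
  refine ⟨(D.erase S.Pinf).sum (fun P k => ((k : ℤ) : A) * valA S hH P), ?_, ?_⟩
  · show A.subtype _ = _
    rw [Finsupp.sum, Finsupp.sum, map_sum]
    refine Finset.sum_congr rfl fun P hP => ?_
    rw [map_mul, map_intCast]
    show _ * ((valA S hH P : A) : Kb) = _
    rw [coe_valA S hH (hne P hP)]
  · rw [← omegaSum_mapDomain S hY hY0 hord D hD Db hDb]
    have hsum : (Finsupp.mapDomain S.rP (D.erase S.Pinf)).sum
        (fun Q k => ((k : ℤ) : kA A) * pval Q (⟨red A H, (S.hReg m H hH).1⟩ : FFb A M)) =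
        (D.erase S.Pinf).sum (fun P k => ((k : ℤ) : kA A) *
          pval (S.rP P) (⟨red A H, (S.hReg m H hH).1⟩ : FFb A M)) :=
      Finsupp.sum_mapDomain_index
        (h := fun Q k => ((k : ℤ) : kA A) * pval Q (⟨red A H, (S.hReg m H hH).1⟩ : FFb A M))
        (fun Q => by simp) (fun Q k₁ k₂ => by push_cast; ring)
    rw [hsum, Finsupp.sum, Finsupp.sum, map_sum]
    refine Finset.sum_congr rfl fun P hP => ?_
    rw [map_mul, map_intCast, residue_valA S hH (hne P hP)]

/-- **[OMEGA-SUM], corollary**: if the residue characteristic `p` divides `ord_Q (red Y)` at every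
place `Q ≠ ∞̄` of the special fibre, the reduction of the sum vanishes. -/
theorem omegaSum_eq_zero (p : ℕ) [CharP (kA A) p]
    (hY : InL (FF M) n (incl A Y)) (hH : InL (FF M) m (incl A H))
    (hY0 : red A Y ≠ 0) (hord : (red A Y).order = (incl A Y).order)
    (D : Divisor Kb (FF M)) (hD : ∀ P, D P = P.ord (⟨incl A Y, hY.1⟩ : FF M))
    (hp : ∀ Q : Place (kA A) (FFb A M), Q ≠ S.Qinf →
      (p : ℤ) ∣ Q.ord (⟨red A Y, (S.hReg n Y hY).1⟩ : FFb A M)) :
    ∃ s : A,
      (s : Kb) = (D.erase S.Pinf).sum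
        (fun P k => (k : Kb) * pval P (⟨incl A H, hH.1⟩ : FF M)) ∧
      IsLocalRing.residue A s = 0 := by
  classical
  obtain ⟨Db, hDb⟩ := S.hSb.principal.exists_divisor
    (⟨red A Y, (S.hReg n Y hY).1⟩ : FFb A M) (fun h0 => hY0 (congrArg Subtype.val h0))
  obtain ⟨s, hs1, hs2⟩ := omegaSum S hY hH hY0 hord D hD Db (fun Q => hDb.1 Q)
  refine ⟨s, hs1, ?_⟩
  rw [hs2, Finsupp.sum]
  refine Finset.sum_eq_zero fun Q hQ => ?_
  have hQ' : Q ≠ S.Qinf := by
    rintro rfl
    rw [Finsupp.mem_support_iff, Finsupp.erase_same] at hQ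
    exact hQ rfl
  rw [Finsupp.erase_ne hQ', hDb.1 Q]
  obtain ⟨c, hc⟩ := hp Q hQ'
  rw [hc]
  push_cast
  rw [CharP.cast_eq_zero, zero_mul, zero_mul]

end OmegaSum

end Fermat.Agent.T8.helper60
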