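import Mathlib
import Fermat.Agent.T8.helper27_OmResFF
import Fermat.Agent.T8.helper60_OmegaSum
import Fermat.Agent.P2.helper28_CuspOrd
import Fermat.Agent.P2.helper96_Gen

/-!
# T8 [F3-EXIT] / [OMEGA], the residue theorem in characteristic `p` for lifted data (helper27)

`S : S37.helper16.RedSetting M A` (good level, `A` over `p ∤ M`), `Y`, `H` integral `q`-series
which are functions of level `M` regular off infinity, the reduction of `Y` has the same pole
order as `Y` (unit leading coefficient).

* `om_exists_inv`  : `Y` is a unit of `A((q))`;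
* `om_residue_red` : **(R)** `a₀ (H̄ θȲ / Ȳ) + ∑_{Q ≠ ∞̄} ord_Q(Ȳ) H̄(Q) = 0` in the residue field,
  `Ȳ = red Y`, `H̄ = red H`.

Proof: the residue theorem in characteristic `0` (`om_residue_formula_FF`) for `H dlog Y`,
integrality of `θY / Y`, and the reduction of the finite sum (`helper60.omegaSum`).
-/

set_option autoImplicit false
set_option linter.unusedSectionVars false
set_option linter.unusedVariables false
set_option linter.style.longLine false
set_option linter.style.haveILetI false

noncomputable section

namespace Fermat.Agent.T8.helper27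

open HahnSeries AlgebraicCurve IntermediateField ModularCurve
open Fermat.Agent.T3.helper67 (thetaL thetaL_coeff thetaL_add coeffMap_thetaL)
open Fermat.Agent.S18.helper19 Fermat.Agent.P2.helper29
open Fermat.Agent.S37.helper16
open Fermat.Agent.T6.helper26 (IsVal pval)

variable {M : ℕ} [NeZero M] {A : ValuationSubring Kb}

/-- shortcut instance (slow to find by synthesis) -/
local instance algebraFFbOmR : Algebra (kA A) (FFb A M) := SubalgebraClass.toAlgebra (FFb A M)

section Inv

/-- an integral series whose reduction has the same order is a unit of `A((q))` -/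
theorem om_exists_inv {Y : LaurentSeries A} (hY0 : red A Y ≠ 0)
    (hord : (red A Y).order = (incl A Y).order) : ∃ V : LaurentSeries A, Y * V = 1 := by
  have hinj : Function.Injective (A.subtype : A →+* Kb) := Subtype.val_injective
  have ho : (incl A Y).order = Y.order :=
    Fermat.Agent.P2.helper28.order_coeffMap_of_injective A.subtype hinj Y
  have hlead : IsLocalRing.residue A (Y.coeff Y.order) ≠ 0 := by
    have h1 : (red A Y).coeff (red A Y).order ≠ 0 :=
      fun h0 => hY0 (HahnSeries.coeff_order_eq_zero.mp h0)
    rw [hord, ho] at h1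
    exact h1
  have hu : IsUnit Y.leadingCoeff := by
    rw [HahnSeries.leadingCoeff_eq]
    exact Fermat.Agent.P2.helper96.isUnit_of_residue_ne_zero _ hlead
  obtain ⟨u, hu'⟩ := HahnSeries.isUnit_iff.mpr hu
  exact ⟨((u⁻¹ : (LaurentSeries A)ˣ) : LaurentSeries A), by rw [← hu', Units.mul_inv]⟩

theorem om_incl_inv {Y V : LaurentSeries A} (h : Y * V = 1) : incl A V = (incl A Y)⁻¹ := by
  have h1 : incl A Y * incl A V = 1 := by rw [← map_mul, h, map_one]
  exact eq_inv_of_mul_eq_one_right h1

theorem om_red_inv {Y V : LaurentSeries A} (h : Y * V = 1) : red A V = (red A Y)⁻¹ := by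
  have h1 : red A Y * red A V = 1 := by rw [← map_mul, h, map_one]
  exact eq_inv_of_mul_eq_one_right h1

end Inv

section R

variable (S : RedSetting M A) {n m : ℤ} {Y H : LaurentSeries A}

/-- **(R)** the residue theorem in characteristic `p` for `H̄ dlog Ȳ`, for lifted data. -/
theorem om_residue_red (hY : InL (FF M) n (incl A Y)) (hH : InL (FF M) m (incl A H))
    (hY0 : red A Y ≠ 0) (hord : (red A Y).order = (incl A Y).order)
    (Db : Divisor (kA A) (FFb A M))
    (hDb : ∀ Q, Db Q = Q.ord (⟨red A Y, (S.hReg n Y hY).1⟩ : FFb A M)) :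
    (red A H * (red A Y)⁻¹ * thetaL (red A Y)).coeff 0
      + (Db.erase S.Qinf).sum
        (fun Q k => ((k : ℤ) : kA A) * pval Q (⟨red A H, (S.hReg m H hH).1⟩ : FFb A M)) = 0 := by
  classical
  obtain ⟨V, hV⟩ := om_exists_inv hY0 hord
  have hS := Fermat.Agent.P2.helper74.riemannSetting_FF M
  have hU0 : (⟨incl A Y, hY.1⟩ : FF M) ≠ 0 := by
    intro h0
    have h1 : incl A Y = 0 := congrArg Subtype.val h0
    have h2 : Y = 0 := Fermat.Agent.P2.helper22.incl_injective (by rw [h1, map_zero])
    exact hY0 (by rw [h2, map_zero])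
  obtain ⟨D, hD, -⟩ := hS.principal.exists_divisor (⟨incl A Y, hY.1⟩ : FF M) hU0
  -- characteristic zero
  have h0 := om_residue_formula_FF S.hPinf (h := (⟨incl A H, hH.1⟩ : FF M))
    (U := (⟨incl A Y, hY.1⟩ : FF M)) hU0 (fun P hP => hH.2.1 P hP) D hD
  -- the reduction of the sum
  obtain ⟨s, hs1, hs2⟩ := Fermat.Agent.T8.helper60.omegaSum S hY hH hY0 hord D hD Db hDb
  -- integrality of the constant term
  set W : LaurentSeries A := H * V * thetaL Y with hW
  have hWi : incl A W = incl A H * (incl A Y)⁻¹ * thetaL (incl A Y) := by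
    rw [hW, map_mul, map_mul, om_incl_inv hV]
    congr 1
  have hWr : red A W = red A H * (red A Y)⁻¹ * thetaL (red A Y) := by
    rw [hW, map_mul, map_mul, om_red_inv hV]
    congr 1
  have hA : W.coeff 0 + s = 0 := by
    apply Subtype.ext
    have e1 : ((W.coeff 0 : A) : Kb) = (incl A W).coeff 0 := rfl
    show ((W.coeff 0 : A) : Kb) + (s : Kb) = 0
    rw [e1, hWi, hs1]
    exact h0
  have hres := congrArg (IsLocalRing.residue A) hA
  rw [map_add, map_zero, hs2] at hres
  rw [← hWr]
  exact hres

end R

end Fermat.Agent.T8.helper27
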