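import Mathlib
import Fermat.Agent.T8.helper27_OmegaR
import Fermat.Agent.T8.helper74_GapsAnn

/-!
# T8 [F3-EXIT] leaf 4 [OMEGA] (helper27, owner): `θ(f̄) / f̄` annihilates the reductions of the
integral functions regular off infinity

`S : S37.helper16.RedSetting M A` (good level `M`, `A` over `p ∤ M`), `k = kA A` of
characteristic `p`.

* `om_mem_annRb_of_lift` : if `f̄ = red a / red b` with `a`, `b` integral functions of level `M`
  regular off infinity whose reductions have the SAME pole order as `a`, `b` (unit leading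
  coefficients), and `p ∣ ord_Q f̄` at every place `Q ≠ ∞̄` of the special fibre, then
  `w = f̄⁻¹ θ(f̄) ∈ helper74.annRb M A`, i.e. `w ∈ q k[[q]]` and `a₀ (red H * w) = 0` for every
  integral function `H` of level `M` regular off infinity.
* `OmegaLiftStatement`, `omega_ann` : the same for `f̄ ∈ FFb A M` given the existence of the lift
  ([OMEGA-LIFT], helper11).
-/

set_option autoImplicit false
set_option linter.unusedSectionVars false
set_option linter.unusedVariables false
set_option linter.style.longLine false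
set_option linter.style.haveILetI false

noncomputable section

namespace Fermat.Agent.T8.helper27

open HahnSeries AlgebraicCurve IntermediateField ModularCurve
open Fermat.Agent.T3.helper67 (thetaL thetaL_coeff thetaL_add coeffMap_thetaL)
open Fermat.Agent.S18.helper19 Fermat.Agent.P2.helper29
open Fermat.Agent.S37.helper16
open Fermat.Agent.T6.helper26 (IsVal pval)
open Fermat.Agent.T8.helper74 (annRb mem_annRb IsRinf)

/-! ### Formal lemmas -/

section Formal

variable {K : Type*} [Field K]

theorem om_thetaL_inv {g : LaurentSeries K} (hg : g ≠ 0) :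
    thetaL g⁻¹ = -(g⁻¹ * g⁻¹ * thetaL g) := by
  have h := om_thetaL_mul g g⁻¹
  rw [mul_inv_cancel₀ hg, om_thetaL_one] at h
  have h2 : g * thetaL g⁻¹ = -(thetaL g * g⁻¹) := by
    rw [eq_neg_iff_add_eq_zero, add_comm]
    exact h.symm
  have h3 : thetaL g⁻¹ = g⁻¹ * (g * thetaL g⁻¹) := by
    rw [← mul_assoc, inv_mul_cancel₀ hg, one_mul]
  rw [h3, h2]
  ring

/-- `dlog (f / g) = dlog f - dlog g` -/
theorem om_dlog_div {f g : LaurentSeries K} (hf : f ≠ 0) (hg : g ≠ 0) :
    (f * g⁻¹)⁻¹ * thetaL (f * g⁻¹) = f⁻¹ * thetaL f - g⁻¹ * thetaL g := by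
  rw [om_thetaL_mul, om_thetaL_inv hg, mul_inv, inv_inv]
  field_simp
  ring

/-- `thetaL f / f` has no polar part -/
theorem om_dlog_coeff_neg {f : LaurentSeries K} (hf : f ≠ 0) {m : ℤ} (hm : m < 0) :
    (f⁻¹ * thetaL f).coeff m = 0 := by
  rcases eq_or_ne (thetaL f) 0 with h0 | h0
  · rw [h0, mul_zero]
    rfl
  have hfi : f⁻¹ ≠ 0 := inv_ne_zero hf
  have hord : f⁻¹.order + f.order = 0 := by
    rw [← HahnSeries.order_mul hfi hf, inv_mul_cancel₀ hf, HahnSeries.order_one]
  apply HahnSeries.coeff_eq_zero_of_lt_order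
  rw [HahnSeries.order_mul hfi h0]
  have := om_order_thetaL_ge h0
  omega

end Formal

/-! ### A lemma on divisors of degree `0` -/

section Deg

variable {α : Type*}

theorem om_dvd_of_sum_eq_zero (E : α →₀ ℤ) (hsum : (E.sum fun _ n => n) = 0) (p : ℤ) (Q₀ : α)
    (h : ∀ Q, Q ≠ Q₀ → p ∣ E Q) : p ∣ E Q₀ := by
  classical
  have h1 : (E.sum fun _ n => n) = E Q₀ + (E.erase Q₀).sum fun _ n => n :=
    (Finsupp.add_sum_erase' E Q₀ (fun _ n => n) (fun _ => rfl)).symm
  have h2 : p ∣ (E.erase Q₀).sum fun _ n => n := by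
    rw [Finsupp.sum]
    refine Finset.dvd_sum fun Q hQ => ?_
    have hne : Q ≠ Q₀ := by
      rintro rfl
      rw [Finsupp.mem_support_iff, Finsupp.erase_same] at hQ
      exact hQ rfl
    rw [Finsupp.erase_ne hne]
    exact h Q hne
  have h3 : E Q₀ = -((E.erase Q₀).sum fun _ n => n) := by
    rw [hsum] at h1
    omega
  rw [h3]
  exact (dvd_neg).mpr h2

end Deg

variable {M : ℕ} [NeZero M] {A : ValuationSubring Kb}

/-- shortcut instance (slow to find by synthesis) -/
local instance algebraFFbOm : Algebra (kA A) (FFb A M) := SubalgebraClass.toAlgebra (FFb A M)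

section Main

variable (S : RedSetting M A) (p : ℕ) [CharP (kA A) p]
  {na nb : ℤ} {a b : LaurentSeries A}

/-- **[OMEGA] (ii)**, lifted form. -/
theorem om_mem_annRb_of_lift (ha : InL (FF M) na (incl A a)) (hb : InL (FF M) nb (incl A b))
    (ha0 : red A a ≠ 0) (hb0 : red A b ≠ 0)
    (horda : (red A a).order = (incl A a).order) (hordb : (red A b).order = (incl A b).order)
    (hdvd : ∀ Q : Place (kA A) (FFb A M), Q ≠ S.Qinf →
      (p : ℤ) ∣ Q.ord (⟨red A a, (S.hReg na a ha).1⟩ : FFb A M)
        - Q.ord (⟨red A b, (S.hReg nb b hb).1⟩ : FFb A M)) :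
    (red A a * (red A b)⁻¹)⁻¹ * thetaL (red A a * (red A b)⁻¹) ∈ annRb M A := by
  classical
  have hab0 : red A a * (red A b)⁻¹ ≠ 0 := mul_ne_zero ha0 (inv_ne_zero hb0)
  set fa : FFb A M := ⟨red A a, (S.hReg na a ha).1⟩ with hfa
  set fb : FFb A M := ⟨red A b, (S.hReg nb b hb).1⟩ with hfb
  have hfa0 : fa ≠ 0 := fun h0 => ha0 (congrArg Subtype.val h0)
  have hfb0 : fb ≠ 0 := fun h0 => hb0 (congrArg Subtype.val h0)
  obtain ⟨Da, hDa, hdega⟩ := S.hSb.principal.exists_divisor fa hfa0
  obtain ⟨Db, hDb, hdegb⟩ := S.hSb.principal.exists_divisor fb hfb0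
  have hcast : ∀ Q : Place (kA A) (FFb A M), Q ≠ S.Qinf →
      (((Da Q : ℤ) : kA A)) = ((Db Q : ℤ) : kA A) := by
    intro Q hQ
    obtain ⟨c, hc⟩ := hdvd Q hQ
    have h1 : Da Q = Db Q + (p : ℤ) * c := by
      rw [hDa, hDb]
      omega
    rw [h1]
    push_cast
    rw [CharP.cast_eq_zero, zero_mul, add_zero]
  rw [mem_annRb]
  refine ⟨fun m hm => ?_, fun H hH => ?_⟩
  · rcases lt_or_eq_of_le hm with hlt | rfl
    · exact om_dlog_coeff_neg hab0 hlt
    · rw [om_coeff_zero_dlog hab0]
      -- the order at infinity is divisible by `p`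
      have hinf : (p : ℤ) ∣ (Da - Db) S.Qinf := by
        apply om_dvd_of_sum_eq_zero (Da - Db) ?_ (p : ℤ) S.Qinf
        · intro Q hQ
          rw [Finsupp.sub_apply, hDa, hDb]
          exact hdvd Q hQ
        · have h1 := Fermat.Agent.P2.helper74.degree_eq_sum (Da - Db)
          rw [map_sub, hdega, hdegb, sub_zero] at h1
          rw [h1]
          refine Finsupp.sum_congr fun Q _ => ?_
          rw [S.hSb.deg_one]
          simp
      have hordab : (red A a * (red A b)⁻¹).order = (Da - Db) S.Qinf := by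
        have hbi : (red A b)⁻¹ ≠ 0 := inv_ne_zero hb0
        have h1 : (red A b)⁻¹.order + (red A b).order = 0 := by
          rw [← HahnSeries.order_mul hbi hb0, inv_mul_cancel₀ hb0, HahnSeries.order_one]
        rw [HahnSeries.order_mul ha0 hbi, Finsupp.sub_apply, hDa, hDb, S.hQinf fa hfa0,
          S.hQinf fb hfb0]
        show (red A a).order + (red A b)⁻¹.order = (red A a).order - (red A b).order
        omega
      rw [hordab]
      obtain ⟨c, hc⟩ := hinf
      rw [hc]
      push_cast
      rw [CharP.cast_eq_zero, zero_mul]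
  · obtain ⟨m, hHm⟩ := hH
    have hRa := om_residue_red S ha hHm ha0 horda Da hDa
    have hRb := om_residue_red S hb hHm hb0 hordb Db hDb
    rw [om_dlog_div ha0 hb0, mul_sub, HahnSeries.coeff_sub, ← mul_assoc, ← mul_assoc]
    set Hb : FFb A M := ⟨red A H, (S.hReg m H hHm).1⟩ with hHb
    have hsum : (Da.erase S.Qinf).sum (fun Q k => ((k : ℤ) : kA A) * pval Q Hb)
        = (Db.erase S.Qinf).sum (fun Q k => ((k : ℤ) : kA A) * pval Q Hb) := by
      have hT₁ : (Da.erase S.Qinf).support ⊆ (Da.erase S.Qinf).support ∪ (Db.erase S.Qinf).support :=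
        Finset.subset_union_left
      have hT₂ : (Db.erase S.Qinf).support ⊆ (Da.erase S.Qinf).support ∪ (Db.erase S.Qinf).support :=
        Finset.subset_union_right
      rw [Finsupp.sum_of_support_subset _ hT₁ _ (fun Q _ => by simp),
        Finsupp.sum_of_support_subset _ hT₂ _ (fun Q _ => by simp)]
      refine Finset.sum_congr rfl fun Q hQ => ?_
      by_cases hQi : Q = S.Qinf
      · rw [hQi, Finsupp.erase_same, Finsupp.erase_same]
      · rw [Finsupp.erase_ne hQi, Finsupp.erase_ne hQi, hcast Q hQi]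
    rw [hsum] at hRa
    have := hRa.trans hRb.symm
    exact sub_eq_zero.mpr (add_right_cancel this)

end Main

end Fermat.Agent.T8.helper27
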