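import Mathlib
import Fermat.Agent.T8.helper27_Omega
import Fermat.Agent.T8.helper11_OmegaLift2
import Fermat.Agent.T8.helper13_ExitMid

/-!
# T8 [F3-EXIT] leaf 4 [OMEGA] CLOSED (helper27, owner): `helper13.OmegaChainStatement`

* `omega_ann`  : for `f ∈ FFb A M` (`S : RedSetting M A`, residue characteristic `p`) with
  `p ∣ ord_Q f` at every place `Q ≠ ∞̄`: `dlogL f = θ f / f ∈ helper74.annRb M A`
  (from `om_mem_annRb_of_lift` and helper11's `omega_lift_ord`);
* `omega_ann_goodPair` : the same at a good pair;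
* `omegaChain` : `helper13.OmegaChainStatement`, the consumer form of [OMEGA] in the assembly
  `helper13.f3Exit_of_leaves` of [F3-EXIT].
-/

set_option autoImplicit false
set_option linter.unusedSectionVars false
set_option linter.unusedVariables false
set_option linter.style.longLine false
set_option linter.style.haveILetI false

noncomputable section

namespace Fermat.Agent.T8.helper27

open HahnSeries AlgebraicCurve IntermediateField ModularCurve
open Fermat.Agent.T3.helper67 (thetaL)
open Fermat.Agent.S18.helper19 Fermat.Agent.P2.helper29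
open Fermat.Agent.S37.helper16
open Fermat.Agent.T8.helper74 (annRb mem_annRb IsRinf)
open Fermat.Agent.T8.helper87 (dlogL)

variable {M : ℕ} [NeZero M] {A : ValuationSubring Kb}

/-- shortcut instance (slow to find by synthesis) -/
local instance algebraFFbOmC : Algebra (kA A) (FFb A M) := SubalgebraClass.toAlgebra (FFb A M)

/-- **[OMEGA]**: `θ f / f` annihilates the reductions of the integral functions regular off
infinity, for `f` in the special fibre field with `p ∣ ord_Q f` at every place `Q ≠ ∞̄`. -/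
theorem omega_ann (S : RedSetting M A) (p : ℕ) [CharP (kA A) p] (f : FFb A M)
    (hdvd : ∀ Q : Place (kA A) (FFb A M), ¬ IsInfty Q → (p : ℤ) ∣ Q.ord f) :
    dlogL (f : LaurentSeries (kA A)) ∈ annRb M A := by
  rcases eq_or_ne f 0 with rfl | hf
  · have h0 : dlogL (((0 : FFb A M) : LaurentSeries (kA A))) = 0 := by
      rw [dlogL]
      show thetaL (0 : LaurentSeries (kA A)) / 0 = 0
      rw [div_zero]
    rw [h0]
    exact (annRb M A).zero_mem
  obtain ⟨a, b, na, nb, ha, hb, ha0, hb0, horda, hordb, hab⟩ :=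
    Fermat.Agent.T8.helper11.omega_lift_ord S f hf
  have hfeq : (f : LaurentSeries (kA A)) = red A a * (red A b)⁻¹ := by
    rw [hab, mul_assoc, mul_inv_cancel₀ hb0, mul_one]
  have hd : dlogL (f : LaurentSeries (kA A))
      = (red A a * (red A b)⁻¹)⁻¹ * thetaL (red A a * (red A b)⁻¹) := by
    rw [dlogL, hfeq, div_eq_mul_inv, mul_comm]
  rw [hd]
  refine om_mem_annRb_of_lift S p ha hb ha0 hb0 horda hordb (fun Q hQ => ?_)
  have hQ' : ¬ IsInfty Q := fun hinf => hQ (IsInfty.unique (FFb A M) hinf S.hQinf)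
  have hfb0 : (⟨red A b, (S.hReg nb b hb).1⟩ : FFb A M) ≠ 0 := fun h0 =>
    hb0 (congrArg Subtype.val h0)
  have hprod : (⟨red A a, (S.hReg na a ha).1⟩ : FFb A M)
      = f * ⟨red A b, (S.hReg nb b hb).1⟩ := Subtype.ext hab
  rw [hprod, Q.ord_mul hf hfb0, add_sub_cancel_right]
  exact hdvd Q hQ'

/-- **[OMEGA]** at a good pair. -/
theorem omega_ann_goodPair (h : GoodPair M A) (p : ℕ) [CharP (kA A) p] (f : FFb A M)
    (hdvd : ∀ Q : Place (kA A) (FFb A M), ¬ IsInfty Q → (p : ℤ) ∣ Q.ord f) :
    dlogL (f : LaurentSeries (kA A)) ∈ annRb M A := by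
  obtain ⟨S⟩ := Fermat.Agent.T8.helper11.nonempty_redSetting_goodPair h
  exact omega_ann S p f hdvd

/-- **[OMEGA], consumer form of the assembly of [F3-EXIT]** (helper13). -/
theorem omegaChain : Fermat.Agent.T8.helper13.OmegaChainStatement := by
  intro M' p _ _ hp hpN A hA x u f _ _ hD
  haveI : CharP (kA A) p := Fermat.Agent.P2.helper93.charP_residueField hp hA
  exact omega_ann_goodPair ⟨Or.inl ⟨M', rfl⟩, ⟨p, hp, hpN, hA⟩⟩ p f hD

end Fermat.Agent.T8.helper27
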