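import Fermat.Agent.T8.helper35_Cusp4
import Fermat.Agent.T8.helper7_CuspGapDefs

/-!
# T8 [CUSP-GAP], leaf [CUSP-4] (helper35): the contract `helper7.Cusp4Statement`, verbatim

`cusp4Statement : Fermat.Agent.T8.helper7.Cusp4Statement` - unconditional, from
`helper35.dvd_ord_beta4` (`helper35_Cusp4.lean`).
-/

set_option autoImplicit false
set_option linter.unusedSectionVars false
set_option linter.unusedVariables false
set_option linter.style.longLine false
set_option synthInstance.maxHeartbeats 400000
set_option maxHeartbeats 1000000

noncomputable section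

open ModularCurve AlgebraicCurve IntermediateField

namespace Fermat.Agent.T8.helper35

open Fermat.Agent.S18.helper19 Fermat.Agent.P2.helper29

/-- **leaf [CUSP-4]**, in the contract shape of [CUSP-ASM] (helper7). -/
theorem cusp4Statement : Fermat.Agent.T8.helper7.Cusp4Statement := by
  intro M' p _ _ hp hpN A hA f₀ f hf₀ hf h Q hQ
  have e : f = beta4Bar A M' f₀ := Subtype.ext (hf.trans (coe_beta4Bar A M' f₀).symm)
  rw [e]
  exact dvd_ord_beta4 hp hA hpN (p : ℤ) f₀ h Q hQ

end Fermat.Agent.T8.helper35

end
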