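import Mathlib
import Fermat.Agent.T8.helper78_DescAnn
import Fermat.Agent.T8.helper13_ExitMid
import Fermat.Agent.T8.helper10_RamTwo
import Fermat.Agent.T8.helper67_AuxNorm

/-!
# T8 [F3-EXIT], leaf 7 [DESCENT]: the consumer form, UNCONDITIONAL (helper78)

`descentChain : helper13.DescentChainStatement helper67.auxPull67` — leaf [DESCENT] of
`helper13.f3Exit_of_leaves` with `π = β_4^*`.

* the level `M'` of a realisation `FreyReal P W (M' p) V0` is EVEN (`helper10.odd_level_false'`,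
  box [W-RAM2]), so only the even case of the descent is needed;
* even case: `β_4` is totally ramified at infinity (`helper78_DescEven`), so
  `V_4 w₀ ∈ Ann_k(4 M') → w₀ ∈ Ann_k(M')`;
* both components: the reduction `f` of `u` or of `W u` (`u` a Kummer function of `π x₀`) is
  `c · f₀(t ^ 4) · g ^ p` with `f₀` a reduction of `u₀`, resp. of `W u₀` (`coe_red_pull_fn`,
  `atkinLehner_betaTo4`), hence `dlog f = 4 · (dlog f₀)(t ^ 4)`.
-/

set_option autoImplicit false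
set_option synthInstance.maxHeartbeats 400000
set_option maxHeartbeats 1000000
set_option linter.style.haveILetI false
set_option linter.unusedSectionVars false
set_option linter.unusedVariables false
set_option linter.style.longLine false

noncomputable section

open HahnSeries IntermediateField AlgebraicCurve ModularCurve
open Fermat.Agent.S18.helper19 Fermat.Agent.P2.helper29 Fermat.Agent.T2.helper36
open Fermat.Agent.T2.helper22 Fermat.Agent.S24

namespace Fermat.Agent.T8.helper78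

open Fermat.Agent.T3.helper36 (RhoQ)
open Fermat.Agent.T8.helper54 (IsRed1)
open Fermat.Agent.T8.helper87 (dlogL)
open Fermat.Agent.T8.helper74 (annRb mem_annRb IsRinf)
open Fermat.Agent.P3.helper94 (IsKummerRep)
open Fermat.Agent.T8.helper67 (auxPull67 betaTo coe_betaTo)
open Fermat.Agent.T8.helper72 (FreyReal ChainCtx PullData)

/-! ### Function level -/

section Fn

variable {M' p : ℕ} [NeZero M'] [NeZero p] {A : ValuationSubring Kb}

/-- **`f = c · f₀(t ^ 4) · g ^ p`**, function level: `u = β_4 u₀ · (c · G ^ p)`. -/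
theorem coe_red_pull_fn (hp : p.Prime) (hpM : ¬ p ∣ 4 * M') (hA : A.LiesOverPrime p)
    {u₀ : FF (M' * p)} {f₀ : FFb A M'} {u : FF (4 * M' * p)} {f : FFb A (4 * M')}
    (hf₀ : IsRed1 A M' p u₀ f₀) (hf : IsRed1 A (4 * M') p u f)
    (h : M' * p * 4 = 4 * M' * p) {c : Kb} (hc : c ≠ 0) {G : FF (4 * M' * p)} (hG : G ≠ 0)
    (e : u = betaTo (M' * p) 4 (4 * M' * p) h u₀
      * (algebraMap Kb (FF (4 * M' * p)) c * G ^ p)) :
    ∃ (c' : kA A) (g : FFb A (4 * M')), c' ≠ 0 ∧ g ≠ 0 ∧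
      (f : LaurentSeries (kA A))
        = HahnSeries.C c' * qExpand (kA A) 4 (f₀ : LaurentSeries (kA A))
          * (g : LaurentSeries (kA A)) ^ p := by
  classical
  set v : FF (4 * M' * p) := betaTo (M' * p) 4 (4 * M' * p) h u₀ with hv
  have hu₀0 : u₀ ≠ 0 := hf₀.ne_zero
  have hv0 : v ≠ 0 := (map_ne_zero (betaTo (M' * p) 4 (4 * M' * p) h)).mpr hu₀0
  obtain ⟨g, hg⟩ := Fermat.Agent.T8.helper54.exists_isRed1 hp hpM hA hG
  obtain ⟨f'', hf''⟩ := Fermat.Agent.T8.helper54.exists_isRed1 hp hpM hA hv0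
  have hu' : IsRed1 A (4 * M') p u (f'' * (1 * g ^ p)) := by
    rw [e]
    exact hf''.mul ((Fermat.Agent.T8.helper54.isRed1_const hc).mul (hg.pow p))
  obtain ⟨c₂, hc₂, e₂⟩ := hf.exists_const hu'
  have hf₀0 := hf₀.coe_ne_zero
  have hf''0 := hf''.coe_ne_zero
  obtain ⟨-, κ₀, hκ₀, hr₀⟩ := hf₀
  obtain ⟨-, κ'', hκ'', hr''⟩ := hf''
  have hr₀' := rhoQ_qExpand (A := A) 4 hr₀
  have hq0 : qExpand (kA A) 4 (f₀ : LaurentSeries (kA A)) ≠ 0 := by
    intro h0
    exact hf₀0 (qExpand_injective 4 (by rw [h0, map_zero]))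
  have ev : qExpand Kb 4 (algebraMap Kb (LaurentSeries Kb) κ₀⁻¹ * (u₀ : LaurentSeries Kb))
      = algebraMap Kb (LaurentSeries Kb) κ₀⁻¹ * (v : LaurentSeries Kb) := by
    rw [map_mul, hv, coe_betaTo]
    congr 1
    rw [LaurentSeries.algebraMap_apply, qExpand_C]
  rw [ev] at hr₀'
  have hd := hr''.div hr₀' hq0
  have hvs : (v : LaurentSeries Kb) ≠ 0 := fun h0 => hv0 (Subtype.ext h0)
  have e3 : algebraMap Kb (LaurentSeries Kb) κ''⁻¹ * (v : LaurentSeries Kb) /
      (algebraMap Kb (LaurentSeries Kb) κ₀⁻¹ * (v : LaurentSeries Kb))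
      = algebraMap Kb (LaurentSeries Kb) (κ''⁻¹ * κ₀) := by
    have hk0 : algebraMap Kb (LaurentSeries Kb) κ₀ ≠ 0 := by
      rw [Ne, map_eq_zero]; exact hκ₀
    have hk2 : algebraMap Kb (LaurentSeries Kb) κ'' ≠ 0 := by
      rw [Ne, map_eq_zero]; exact hκ''
    rw [map_mul, map_inv₀, map_inv₀]
    field_simp
  rw [e3] at hd
  have hmem := hd.algebraMap_mem
  have hd2 := Fermat.Agent.T3.helper36.rhoQ_algebraMap (A := A) (⟨κ''⁻¹ * κ₀, hmem⟩ : A)
  have hu2 := hd.unique hd2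
  set c₁ : kA A := IsLocalRing.residue A (⟨κ''⁻¹ * κ₀, hmem⟩ : A) with hc₁
  have hff : (f'' : LaurentSeries (kA A)) = algebraMap (kA A) (LaurentSeries (kA A)) c₁ *
      qExpand (kA A) 4 (f₀ : LaurentSeries (kA A)) := by
    rw [← hu2, div_mul_cancel₀ _ hq0]
  have hc₁0 : c₁ ≠ 0 := by
    rintro h0
    rw [h0, map_zero, zero_mul] at hff
    exact hf''0 hff
  refine ⟨c₂ * c₁, g, mul_ne_zero hc₂ hc₁0, hg.1, ?_⟩
  have e4 : (f : LaurentSeries (kA A)) = algebraMap (kA A) (LaurentSeries (kA A)) c₂ *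
      ((f'' : LaurentSeries (kA A)) * (1 * (g : LaurentSeries (kA A)) ^ p)) := by
    rw [e₂]
    rfl
  rw [e4, hff, LaurentSeries.algebraMap_apply, LaurentSeries.algebraMap_apply, map_mul]
  ring

/-- **`dlog f = 4 · (dlog f₀)(t ^ 4)`**, function level -/
theorem dlogL_red_pull_fn (hp : p.Prime) (hpM : ¬ p ∣ 4 * M') (hA : A.LiesOverPrime p)
    {u₀ : FF (M' * p)} {f₀ : FFb A M'} {u : FF (4 * M' * p)} {f : FFb A (4 * M')}
    (hf₀ : IsRed1 A M' p u₀ f₀) (hf : IsRed1 A (4 * M') p u f)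
    (h : M' * p * 4 = 4 * M' * p) {c : Kb} (hc : c ≠ 0) {G : FF (4 * M' * p)} (hG : G ≠ 0)
    (e : u = betaTo (M' * p) 4 (4 * M' * p) h u₀
      * (algebraMap Kb (FF (4 * M' * p)) c * G ^ p)) :
    dlogL (f : LaurentSeries (kA A))
      = ((4 : ℕ) : LaurentSeries (kA A))
        * qExpand (kA A) 4 (dlogL (f₀ : LaurentSeries (kA A))) := by
  haveI : CharP (kA A) p := Fermat.Agent.P2.helper93.charP_residueField hp hA
  obtain ⟨c', g, hc', hg, e'⟩ := coe_red_pull_fn hp hpM hA hf₀ hf h hc hG e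
  have hg0 : (g : LaurentSeries (kA A)) ≠ 0 := fun h0 => hg (Subtype.ext h0)
  have hq0 : qExpand (kA A) 4 (f₀ : LaurentSeries (kA A)) ≠ 0 := by
    intro h0
    exact hf₀.coe_ne_zero (qExpand_injective 4 (by rw [h0, map_zero]))
  have hcq : HahnSeries.C c' * qExpand (kA A) 4 (f₀ : LaurentSeries (kA A)) ≠ 0 := by
    refine mul_ne_zero ?_ hq0
    rw [Ne, map_eq_zero]
    exact hc'
  rw [e', Fermat.Agent.T8.helper87.dlogL_mul hcq (pow_ne_zero p hg0),
    Fermat.Agent.T8.helper87.dlogL_pow_char p hg0, add_zero,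
    Fermat.Agent.T8.helper87.dlogL_C_mul hc' hq0, Fermat.Agent.T8.helper87.dlogL_qExpand]

/-- `4 ≠ 0` in the residue field over an odd prime -/
theorem four_ne_zero_kA (hp : p.Prime) (hp2 : p ≠ 2) (hA : A.LiesOverPrime p) :
    ((4 : ℕ) : kA A) ≠ 0 := by
  haveI : CharP (kA A) p := Fermat.Agent.P2.helper93.charP_residueField hp hA
  intro h0
  rw [CharP.cast_eq_zero_iff (kA A) p] at h0
  have h1 : p ∣ 2 ^ 2 := by norm_num; exact h0
  exact hp2 ((Nat.prime_dvd_prime_iff_eq hp Nat.prime_two).mp (hp.dvd_of_dvd_pow h1))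

/-- **the consumer shape of the descent**, function level, EVEN level `M'`:
`dlog f = c V_4 w₀` with `c ≠ 0` and `w₀ ∈ Ann_k(M')`. -/
theorem exists_descent_fn (hp : p.Prime) (hp2 : p ≠ 2) (hpM : ¬ p ∣ 4 * M')
    (hA : A.LiesOverPrime p) (h2 : 2 ∣ M')
    {u₀ : FF (M' * p)} {f₀ : FFb A M'} {u : FF (4 * M' * p)} {f : FFb A (4 * M')}
    (hf₀ : IsRed1 A M' p u₀ f₀) (hf : IsRed1 A (4 * M') p u f)
    (h : M' * p * 4 = 4 * M' * p) {c : Kb} (hc : c ≠ 0) {G : FF (4 * M' * p)} (hG : G ≠ 0)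
    (e : u = betaTo (M' * p) 4 (4 * M' * p) h u₀
      * (algebraMap Kb (FF (4 * M' * p)) c * G ^ p))
    (hΩ : dlogL (f : LaurentSeries (kA A)) ∈ annRb (4 * M') A) :
    ∃ (w0 : LaurentSeries (kA A)) (c' : kA A), w0 ∈ annRb M' A ∧ c' ≠ 0 ∧
      (∀ m : ℤ, (dlogL (f : LaurentSeries (kA A))).coeff (4 * m) = c' * w0.coeff m) ∧
      ∀ n : ℤ, ¬ (4 : ℤ) ∣ n → (dlogL (f : LaurentSeries (kA A))).coeff n = 0 := by
  have h4 := four_ne_zero_kA hp hp2 hA
  have key := dlogL_red_pull_fn hp hpM hA hf₀ hf h hc hG e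
  have e4 : ((4 : ℕ) : LaurentSeries (kA A)) = HahnSeries.C ((4 : ℕ) : kA A) := by
    rw [map_natCast]
  rw [e4, HahnSeries.C_mul_eq_smul] at key
  refine ⟨dlogL (f₀ : LaurentSeries (kA A)), ((4 : ℕ) : kA A), ?_, h4, ?_, ?_⟩
  · apply mem_annRb_of_qExpand_four h2
    rw [key] at hΩ
    have h5 := (annRb (4 * M') A).smul_mem (((4 : ℕ) : kA A))⁻¹ hΩ
    rwa [smul_smul, inv_mul_cancel₀ h4, one_smul] at h5
  · intro m
    rw [key, HahnSeries.coeff_smul, smul_eq_mul]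
    congr 1
    have := qExpand_coeff_mul (R := kA A) 4 (dlogL (f₀ : LaurentSeries (kA A))) m
    simpa using this
  · intro n hn
    rw [key, HahnSeries.coeff_smul, smul_eq_mul,
      qExpand_coeff_of_not_dvd 4 _ (by simpa using hn), mul_zero]

end Fn

/-! ### `W_p ∘ β_4 = β_4 ∘ W_p` at the levels of the chain -/

section AL

variable {M' p : ℕ} [NeZero M'] [NeZero p]

theorem atkinLehner_betaTo4 (hp : p.Prime) (hpM' : ¬ p ∣ M') (hp4 : ¬ p ∣ 4)
    (hpM : ¬ p ∣ 4 * M') (h : M' * p * 4 = 4 * M' * p) (y : FF (M' * p)) :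
    atkinLehner (4 * M') p hp hpM (betaTo (M' * p) 4 (4 * M' * p) h y)
      = betaTo (M' * p) 4 (4 * M' * p) h (atkinLehner M' p hp hpM' y) := by
  have hB : M' * 4 = 4 * M' := by ring
  have gen : ∀ (B : ℕ) [NeZero B] (hB : M' * 4 = B) (hpB : ¬ p ∣ B)
      (h' : M' * p * 4 = B * p),
      atkinLehner B p hp hpB (betaTo (M' * p) 4 (B * p) h' y)
        = betaTo (M' * p) 4 (B * p) h' (atkinLehner M' p hp hpM' y) := by
    intro B _ hB hpB h'
    subst hB
    exact Fermat.Agent.T8.helper67.atkinLehner_betaTo M' 4 p hp hpM' hp4 hpB h' y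
  exact gen (4 * M') hB hpM h

end AL

/-! ### The consumer form -/

/-- **[DESCENT], consumer form of `helper13.f3Exit_of_leaves`, UNCONDITIONAL.** -/
theorem descentChain : Fermat.Agent.T8.helper13.DescentChainStatement auxPull67 := by
  intro P W M' _ hctx hpN A hA V0 hV0 hnew x0 hx0 u f hk hcomp hΩ
  have hp : P.p.Prime := P.pp
  have hp5 := P.hp5
  have hp2 : P.p ≠ 2 := by omega
  have hp4 : ¬ P.p ∣ 4 := by
    intro h
    have := Nat.le_of_dvd (by norm_num) h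
    omega
  have hpM' : ¬ P.p ∣ M' := fun h => hpN (Dvd.dvd.mul_left h 4)
  have h2 : 2 ∣ M' := by
    by_contra hodd
    exact Fermat.Agent.T8.helper10.odd_level_false' P W M' hodd V0 hV0
  have hrel : M' * P.p * 4 = 4 * M' * P.p := by ring
  -- Kummer function at level `M' p`
  obtain ⟨u₀, hu₀⟩ := Fermat.Agent.P3.helper94.exists_isKummerRep (hV0.tors x0 hx0)
  have hvK : IsKummerRep P.p (auxPull67 M' P.p x0)
      (betaTo (M' * P.p) 4 (4 * M' * P.p) hrel u₀) :=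
    Fermat.Agent.T8.helper67.isKummerRep_auxPull67 hu₀
  obtain ⟨G, w, hG, hw, e⟩ := hvK.unique hk
  obtain ⟨c, hc, rfl⟩ := Fermat.Agent.T7.helper43.exists_const_of_hasTrivialDiv hw
  rcases hcomp with hf | hf
  · obtain ⟨f₀, hf₀⟩ := Fermat.Agent.T8.helper54.exists_isRed1 hp hpM' hA hu₀.ne_zero
    exact exists_descent_fn hp hp2 hpN hA h2 hf₀ hf hrel hc hG e hΩ
  · have hWu₀ : atkinLehner M' P.p hp hpM' u₀ ≠ 0 :=
      (map_ne_zero (atkinLehner M' P.p hp hpM')).mpr hu₀.ne_zero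
    have hWG : atkinLehner (4 * M') P.p hp hpN G ≠ 0 :=
      (map_ne_zero (atkinLehner (4 * M') P.p hp hpN)).mpr hG
    obtain ⟨f₀, hf₀⟩ := Fermat.Agent.T8.helper54.exists_isRed1 hp hpM' hA hWu₀
    have e' : atkinLehner (4 * M') P.p hp hpN u
        = betaTo (M' * P.p) 4 (4 * M' * P.p) hrel (atkinLehner M' P.p hp hpM' u₀)
          * (algebraMap Kb (FF (4 * M' * P.p)) c
            * (atkinLehner (4 * M') P.p hp hpN G) ^ P.p) := by
      rw [e, map_mul, map_mul, map_pow, atkinLehner_betaTo4 hp hpM' hp4 hpN hrel,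
        AlgEquiv.commutes]
    exact exists_descent_fn hp hp2 hpN hA h2 hf₀ hf hrel hc hWG e' hΩ

end Fermat.Agent.T8.helper78

end
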