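import Mathlib
import Fermat.Agent.T8.helper87_DlogAbs2

/-!
# T8 [F3-EXIT], leaf [HECKE], formal core III (helper87): corollaries

`w = dlogL h`, Hecke relation `(HR) : heckeUL l w + l * qExpand l w = a * w`.

* `cast_order_eq_zero_of_hecke` : (HR) and `a ≠ 1 + l` in `K` give `(ord h : K) = 0`, i.e.
  `p ∣ ord_∞ h` in characteristic `p` (`dvd_order_of_hecke`): the cusp `∞` of [CUSP-GAP];
* `wSeq h m = a_m (dlogL h)`, `wSeq_zero`, `exists_wSeq_ne_zero` (`dlogL h ≠ 0` gives a nonzero
  coefficient of index `≥ 0`), `exists_wSeq_ne_zero_of_not_pow` (perfect field: `h` not a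
  `p`-th power), `isFormalEigen_wSeq` (the shape of `helper47.IsFormalEigen`);
* `heckeUL_qExpand`, `hecke_descent` : (HR) for `qExpand n w₀`, `n` prime to `l`, gives (HR)
  for `w₀` (formal part of the descent `4 M' → M'`).
-/

set_option autoImplicit false
set_option linter.unusedSectionVars false
set_option linter.unusedVariables false
set_option linter.style.haveILetI false

noncomputable section

open HahnSeries ModularCurve
open Fermat.Agent.P2.helper93 (twistL twistL_coeff)
open Fermat.Agent.T3.helper67 (thetaL thetaL_coeff thetaL_add thetaL_neg thetaL_zero)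

namespace Fermat.Agent.T8.helper87

section Cor

variable {K : Type*} [Field K]

/-- the constant coefficient of the Hecke relation: `(1 + l - a) ord h = 0`. -/
theorem cast_order_eq_zero_of_hecke {l : ℕ} [NeZero l] {h : LaurentSeries K} (hh : h ≠ 0)
    {a : ℤ}
    (hT : heckeUL l (dlogL h) + (l : LaurentSeries K) * qExpand K l (dlogL h)
      = (a : LaurentSeries K) * dlogL h)
    (ha : (a : K) ≠ 1 + (l : K)) : ((h.order : ℤ) : K) = 0 := by
  have key := congrArg (fun x : LaurentSeries K => x.coeff 0) hT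
  simp only [HahnSeries.coeff_add, heckeUL_coeff, natCast_mul_coeff, intCast_mul_coeff,
    mul_zero] at key
  have h1 : (qExpand K l (dlogL h)).coeff 0 = (dlogL h).coeff 0 := by
    have := qExpand_coeff_mul (R := K) l (dlogL h) 0
    rwa [mul_zero] at this
  rw [h1, dlogL_coeff_zero hh] at key
  have h2 : ((1 : K) + (l : K) - (a : K)) * ((h.order : ℤ) : K) = 0 := by
    linear_combination key
  rcases mul_eq_zero.mp h2 with h3 | h3
  · exact absurd (sub_eq_zero.mp h3).symm ha
  · exact h3

/-- in characteristic `p`: `p ∣ ord_∞ h`. -/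
theorem dvd_order_of_hecke (p : ℕ) [CharP K p] {l : ℕ} [NeZero l] {h : LaurentSeries K}
    (hh : h ≠ 0) {a : ℤ}
    (hT : heckeUL l (dlogL h) + (l : LaurentSeries K) * qExpand K l (dlogL h)
      = (a : LaurentSeries K) * dlogL h)
    (ha : (a : K) ≠ 1 + (l : K)) : (p : ℤ) ∣ h.order :=
  (CharP.intCast_eq_zero_iff K p h.order).mp (cast_order_eq_zero_of_hecke hh hT ha)

/-- the coefficient sequence of `dlogL h` -/
def wSeq (h : LaurentSeries K) : ℕ → K := fun m => (dlogL h).coeff (m : ℤ)

theorem wSeq_apply (h : LaurentSeries K) (m : ℕ) : wSeq h m = (dlogL h).coeff (m : ℤ) := rfl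

theorem wSeq_zero {h : LaurentSeries K} (hh : h ≠ 0) : wSeq h 0 = ((h.order : ℤ) : K) := by
  rw [wSeq_apply, Nat.cast_zero, dlogL_coeff_zero hh]

theorem exists_wSeq_ne_zero {h : LaurentSeries K} (hh : h ≠ 0) (hw : dlogL h ≠ 0) :
    ∃ m, wSeq h m ≠ 0 := by
  by_contra hcon0
  have hcon : ∀ m, wSeq h m = 0 := fun m => by_contra fun hm => hcon0 ⟨m, hm⟩
  apply hw
  ext n
  rw [HahnSeries.coeff_zero]
  rcases lt_or_ge n 0 with hn | hn
  · exact dlogL_coeff_of_neg hh hn
  · obtain ⟨m, rfl⟩ := Int.eq_ofNat_of_zero_le hn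
    exact hcon m

theorem exists_wSeq_ne_zero_of_not_pow (p : ℕ) [hp : Fact p.Prime] [CharP K p] [PerfectField K]
    {h : LaurentSeries K} (hh : h ≠ 0) (hpow : ¬ ∃ g : LaurentSeries K, h = g ^ p) :
    ∃ m, wSeq h m ≠ 0 :=
  exists_wSeq_ne_zero hh fun h0 => hpow ((dlogL_eq_zero_iff p hh).mp h0)

/-- the Hecke relation in the shape of `helper47.IsFormalEigen l a (wSeq h)` (unfolded). -/
theorem isFormalEigen_wSeq {l : ℕ} [NeZero l] {h : LaurentSeries K} (a : ℤ)
    (hT : heckeUL l (dlogL h) + (l : LaurentSeries K) * qExpand K l (dlogL h)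
      = (a : LaurentSeries K) * dlogL h) (m : ℕ) :
    wSeq h (m * l) + (if l ∣ m then (l : K) * wSeq h (m / l) else 0) = (a : K) * wSeq h m :=
  formalEigen_dlog a hT m

end Cor

/-! ### descent along `q ↦ q ^ n` -/

section Descent

variable {K : Type*} [Field K]

theorem heckeUL_qExpand {l n : ℕ} [NeZero l] [NeZero n] (hln : Nat.Coprime l n)
    (w : LaurentSeries K) :
    heckeUL l (qExpand K n w) = qExpand K n (heckeUL l w) := by
  ext k
  rw [heckeUL_coeff]
  by_cases hk : (n : ℤ) ∣ k
  · obtain ⟨j, rfl⟩ := hk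
    rw [qExpand_coeff_mul, heckeUL_coeff,
      show (l : ℤ) * ((n : ℤ) * j) = (n : ℤ) * ((l : ℤ) * j) by ring, qExpand_coeff_mul]
  · rw [qExpand_coeff_of_not_dvd n _ hk]
    apply qExpand_coeff_of_not_dvd
    intro hd
    apply hk
    have hcop : IsCoprime (n : ℤ) (l : ℤ) := by
      have := Nat.isCoprime_iff_coprime.mpr hln.symm
      exact_mod_cast this
    exact hcop.dvd_of_dvd_mul_left hd

/-- **formal descent**: the Hecke relation for `qExpand n w₀` gives the Hecke relation for
`w₀` (`n` prime to `l`). -/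
theorem hecke_descent {l n : ℕ} [NeZero l] [NeZero n] (hln : Nat.Coprime l n)
    {w₀ : LaurentSeries K} {a : LaurentSeries K}
    (hT : heckeUL l (qExpand K n w₀) + (l : LaurentSeries K) * qExpand K l (qExpand K n w₀)
      = a * qExpand K n w₀) (ha : qExpand K n a = a) :
    heckeUL l w₀ + (l : LaurentSeries K) * qExpand K l w₀ = a * w₀ := by
  apply qExpand_injective (R := K) n
  rw [map_add, map_mul, map_mul, map_natCast, ha, ← heckeUL_qExpand hln, ← hT]
  congr 2
  rw [qExpand_qExpand, qExpand_qExpand]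
  exact qExpand_congr (mul_comm n l) w₀

theorem hecke_descent_int {l n : ℕ} [NeZero l] [NeZero n] (hln : Nat.Coprime l n)
    {w₀ : LaurentSeries K} (a : ℤ)
    (hT : heckeUL l (qExpand K n w₀) + (l : LaurentSeries K) * qExpand K l (qExpand K n w₀)
      = (a : LaurentSeries K) * qExpand K n w₀) :
    heckeUL l w₀ + (l : LaurentSeries K) * qExpand K l w₀ = (a : LaurentSeries K) * w₀ :=
  hecke_descent hln hT (map_intCast _ a)

end Descent

end Fermat.Agent.T8.helper87
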