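import Mathlib
import Fermat.Agent.T7.helper93_NormBridge

/-!
# T8 (row 38), [PHI-E1] helper (helper93): the norm formulas at the two cusps, reduced

`A` ANY valuation subring of `ℚ̄` (no hypothesis on its residue characteristic), `ℓ ∤ N` prime,
`ζ` a primitive `ℓ`-th root of unity, `u = rootUnit A ζ`, `ū` its image in the residue field `k`.
For `y ∈ F_{Nℓ}` with `A`-integral expansions `Y₁ = y(q)`, `Y₂ = (W y)(q)`:

* `normAlpha_red` : `N_α y` has an `A`-integral expansion `Yn` and
                    `red Yn (t^ℓ) = red Y₁ (t^ℓ) · ∏_{k<ℓ} (red Y₂)(ū^k t)`;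
* `normBeta_red`  : the same for `N_β y`, with `Y₁`, `Y₂` exchanged;
* `isPrimitiveRoot_residue` : `ū` is a primitive `ℓ`-th root of unity of `k` when `ℓ` is a unit
                    of `A` (i.e. `ℓ` is not the residue characteristic);
* `coeffMap_rot8`, `coeffMap_nrm8` : `coeffMap` commutes with rotations and with `nrm`.
-/

set_option autoImplicit false
set_option linter.unusedSectionVars false
set_option linter.unusedVariables false
set_option linter.style.haveILetI false
set_option linter.style.longLine false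

noncomputable section

open ModularCurve AlgebraicCurve

namespace Fermat.Agent.T8.helper93

open Fermat.Agent.S24 Fermat.Agent.P2.helper93 Fermat.Agent.T2.helper36
open Fermat.Agent.P2.helper94 (rot)
open Fermat.Agent.P3.helper94 (normAlong)
open Fermat.Agent.T7.helper93 (nrm nrm_eq_prod_range normAlpha_int normBeta_int)

section Abstract

variable {R₁ R₂ : Type*} [CommRing R₁] [CommRing R₂]

/-- `coeffMap` commutes with rotations -/
theorem coeffMap_rot8 (f : R₁ →+* R₂) (u : R₁ˣ) (x : LaurentSeries R₁) :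
    coeffMap f (rot u x) = rot (Units.map (f : R₁ →* R₂) u) (coeffMap f x) := by
  ext n
  rw [coeffMap_coeff, Fermat.Agent.P2.helper94.rot_coeff, Fermat.Agent.P2.helper94.rot_coeff,
    coeffMap_coeff, map_mul]
  congr 1
  rw [← map_zpow]
  rfl

/-- `coeffMap` commutes with the norm `nrm` -/
theorem coeffMap_nrm8 (f : R₁ →+* R₂) (p : ℕ) [NeZero p] (u : R₁ˣ) (x : LaurentSeries R₁) :
    coeffMap f (nrm p u x) = nrm p (Units.map (f : R₁ →* R₂) u) (coeffMap f x) := by
  rw [nrm_eq_prod_range, nrm_eq_prod_range, map_prod]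
  refine Finset.prod_congr rfl fun i _ => ?_
  rw [coeffMap_rot8, map_pow]

end Abstract

section Residue

variable (A : ValuationSubring Kbar) {l : ℕ} [NeZero l]

/-- the image in the residue field of the unit attached to a primitive `ℓ`-th root of unity is
a primitive `ℓ`-th root of unity, provided `ℓ` is a unit of `A`. -/
theorem isPrimitiveRoot_residue (hl : l.Prime) (hu : IsUnit ((l : ℕ) : ↥A)) {ζ : Kbar}
    (hζ : IsPrimitiveRoot ζ l) :
    IsPrimitiveRoot
      (Units.map ((IsLocalRing.residue ↥A : ↥A →+* IsLocalRing.ResidueField ↥A) :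
        ↥A →* IsLocalRing.ResidueField ↥A) (rootUnit A (NeZero.ne l) hζ.pow_eq_one)) l := by
  set u : (↥A)ˣ := rootUnit A (NeZero.ne l) hζ.pow_eq_one with hu_def
  set ub : (IsLocalRing.ResidueField ↥A)ˣ :=
    Units.map ((IsLocalRing.residue ↥A : ↥A →+* IsLocalRing.ResidueField ↥A) :
      ↥A →* IsLocalRing.ResidueField ↥A) u with hub
  have hprim : IsPrimitiveRoot u l := Fermat.Agent.T7.helper93.isPrimitiveRoot_rootUnit A hζ
  have h1 : ub ^ l = 1 := by
    rw [hub, ← map_pow, hprim.pow_eq_one, map_one]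
  have h2 : ub ≠ 1 := by
    intro h
    -- the geometric sum of `u` vanishes
    have hsum : ∑ i ∈ Finset.range l, ((u : ↥A)) ^ i = 0 := by
      apply Subtype.ext
      have h3 : ((∑ i ∈ Finset.range l, ((u : ↥A)) ^ i : ↥A) : Kbar)
          = ∑ i ∈ Finset.range l, ζ ^ i := by
        rw [← A.subtype_apply, map_sum]
        refine Finset.sum_congr rfl fun i _ => ?_
        rw [map_pow]
        rfl
      rw [h3]
      exact hζ.geom_sum_eq_zero hl.one_lt
    have hres : (IsLocalRing.residue ↥A) ((u : ↥A)) = 1 := by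
      have := congrArg (fun v : (IsLocalRing.ResidueField ↥A)ˣ =>
        (v : IsLocalRing.ResidueField ↥A)) h
      simpa [hub] using this
    have h4 := congrArg (IsLocalRing.residue ↥A) hsum
    rw [map_sum, map_zero] at h4
    simp only [map_pow, hres, one_pow, Finset.sum_const, Finset.card_range, nsmul_eq_mul,
      mul_one] at h4
    have h5 : (IsLocalRing.residue ↥A) ((l : ℕ) : ↥A) = 0 := by rw [map_natCast]; exact h4
    have h6 := (IsLocalRing.residue_eq_zero_iff _).mp h5
    exact ((IsLocalRing.mem_maximalIdeal _).mp h6) hu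
  have h3 : orderOf ub = l := by
    haveI : Fact l.Prime := ⟨hl⟩
    exact orderOf_eq_prime h1 h2
  have := IsPrimitiveRoot.orderOf ub
  rwa [h3] at this

end Residue

section Modular

variable {N l : ℕ} [NeZero N] [NeZero l] (A : ValuationSubring Kbar)

/-- **[NORM-α], reduced.** -/
theorem normAlpha_red (hl : l.Prime) (hN : ¬ l ∣ N) {ζ : Kbar} (hζ : IsPrimitiveRoot ζ l)
    (y : modularFunctionFieldBar (N * l)) (Y₁ Y₂ : LaurentSeries ↥A)
    (h1 : coeffMap (A.subtype : ↥A →+* Kbar) Y₁ = (y : LaurentSeries Kbar))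
    (h2 : coeffMap (A.subtype : ↥A →+* Kbar) Y₂
      = ((atkinLehner N l hl hN y : modularFunctionFieldBar (N * l)) : LaurentSeries Kbar)) :
    ∃ Yn : LaurentSeries ↥A,
      coeffMap (A.subtype : ↥A →+* Kbar) Yn
        = ((normAlong (heckeAlphaBar Kbar N l) y : modularFunctionFieldBar N) :
            LaurentSeries Kbar) ∧
      qExpand ↥A l Yn
        = qExpand ↥A l Y₁ * nrm l (rootUnit A (NeZero.ne l) hζ.pow_eq_one) Y₂ ∧
      qExpand (IsLocalRing.ResidueField ↥A) l (coeffMap (IsLocalRing.residue ↥A) Yn)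
        = qExpand (IsLocalRing.ResidueField ↥A) l (coeffMap (IsLocalRing.residue ↥A) Y₁) *
          nrm l (Units.map ((IsLocalRing.residue ↥A : ↥A →+* IsLocalRing.ResidueField ↥A) :
              ↥A →* IsLocalRing.ResidueField ↥A) (rootUnit A (NeZero.ne l) hζ.pow_eq_one))
            (coeffMap (IsLocalRing.residue ↥A) Y₂) := by
  obtain ⟨Yn, hYn, hNn⟩ := normAlpha_int A hl hN hζ y Y₁ Y₂ h1 h2
  refine ⟨Yn, hYn, hNn, ?_⟩
  have h3 := congrArg (coeffMap (IsLocalRing.residue ↥A)) hNn
  rw [map_mul, Fermat.Agent.P2.helper94.coeffMap_qExpand,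
    Fermat.Agent.P2.helper94.coeffMap_qExpand, coeffMap_nrm8] at h3
  exact h3

/-- **[NORM-β], reduced.** -/
theorem normBeta_red (hl : l.Prime) (hN : ¬ l ∣ N) {ζ : Kbar} (hζ : IsPrimitiveRoot ζ l)
    (y : modularFunctionFieldBar (N * l)) (Y₁ Y₂ : LaurentSeries ↥A)
    (h1 : coeffMap (A.subtype : ↥A →+* Kbar) Y₁ = (y : LaurentSeries Kbar))
    (h2 : coeffMap (A.subtype : ↥A →+* Kbar) Y₂
      = ((atkinLehner N l hl hN y : modularFunctionFieldBar (N * l)) : LaurentSeries Kbar)) :
    ∃ Yn : LaurentSeries ↥A,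
      coeffMap (A.subtype : ↥A →+* Kbar) Yn
        = ((normAlong (heckeBetaBar Kbar N l) y : modularFunctionFieldBar N) :
            LaurentSeries Kbar) ∧
      qExpand ↥A l Yn
        = qExpand ↥A l Y₂ * nrm l (rootUnit A (NeZero.ne l) hζ.pow_eq_one) Y₁ ∧
      qExpand (IsLocalRing.ResidueField ↥A) l (coeffMap (IsLocalRing.residue ↥A) Yn)
        = qExpand (IsLocalRing.ResidueField ↥A) l (coeffMap (IsLocalRing.residue ↥A) Y₂) *
          nrm l (Units.map ((IsLocalRing.residue ↥A : ↥A →+* IsLocalRing.ResidueField ↥A) :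
              ↥A →* IsLocalRing.ResidueField ↥A) (rootUnit A (NeZero.ne l) hζ.pow_eq_one))
            (coeffMap (IsLocalRing.residue ↥A) Y₁) := by
  obtain ⟨Yn, hYn, hNn⟩ := normBeta_int A hl hN hζ y Y₁ Y₂ h1 h2
  refine ⟨Yn, hYn, hNn, ?_⟩
  have h3 := congrArg (coeffMap (IsLocalRing.residue ↥A)) hNn
  rw [map_mul, Fermat.Agent.P2.helper94.coeffMap_qExpand,
    Fermat.Agent.P2.helper94.coeffMap_qExpand, coeffMap_nrm8] at h3
  exact h3

end Modular

end Fermat.Agent.T8.helper93

end
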