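import Mathlib
import Fermat.Agent.T8.helper54_PhiDefs
import Fermat.Agent.T8.helper43_PhiE1
import Fermat.Agent.T8.helper93_NormRed
import Fermat.Agent.T3.helper36_RhoQStab
import Fermat.Agent.T2.helper58_ScaleBad
import Fermat.Agent.P2.helper93_ESNorm

/-!
# T8 [F3-EXIT] leaf 5 [HECKE], the INSTANCE (helper93)

For a Hecke eigenclass `x` of level `N p` (`T_ℓ x = a x`, `ℓ ∤ N p` prime) with Kummer function
`u` and first-component reduction `f` (`helper54.IsRed1`), the reduction of the norm formula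
`P2.helper93.es_norm` and of the eigen-relation `Norm_α (β u) = c₀ g₀ ^ p u ^ a`:

there are `Nm g ∈ k((q))`, `c ∈ k`, `c ≠ 0`, `g ≠ 0`, with

* `Nm(q^ℓ) = f(q^{ℓ²}) ∏_{k<ℓ} f(ζ̄^k q)`   (reduced norm formula), and
* `Nm = c g^p f^a`                          (reduced eigen-relation).

These are the two hypotheses of the formal dlog core of leaf 5 (`T_ℓ (θ f / f) = a θ f / f`).

Corollary ([CUSP-GAP], the cusp `∞`): `p ∣ (ℓ + 1 - a) ord_q f`.
-/

set_option autoImplicit false
set_option synthInstance.maxHeartbeats 400000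
set_option maxHeartbeats 1000000
set_option linter.unusedSectionVars false
set_option linter.unusedVariables false
set_option linter.style.longLine false
set_option linter.style.haveILetI false

noncomputable section

open HahnSeries IntermediateField AlgebraicCurve ModularCurve
open Fermat.Agent.S18.helper19 Fermat.Agent.P2.helper29 Fermat.Agent.T2.helper36

namespace Fermat.Agent.T8.helper93

open Fermat.Agent.T3.helper36 (RhoQ GaussIs)
open Fermat.Agent.P3.helper94 (IsKummerRep normAlong)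
open Fermat.Agent.P2.helper93 (twistL twistL_coeff rootUnit)
open Fermat.Agent.P2.helper94 (rot rot_coeff)

/-! ### The twist over a field -/

section Twist

variable {K : Type*} [Field K]

/-- the twist by a unit is the rotation -/
theorem twistL_eq_rot8 (u : Kˣ) (x : LaurentSeries K) : twistL (u : K) x = rot u x := by
  ext n
  rw [twistL_coeff, rot_coeff, Units.val_zpow_eq_zpow_val]

theorem twistL_eq_rot_mk0 {c : K} (hc : c ≠ 0) (x : LaurentSeries K) :
    twistL c x = rot (Units.mk0 c hc) x := by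
  rw [← twistL_eq_rot8, Units.val_mk0]

theorem twistL_mul8 {c : K} (hc : c ≠ 0) (x y : LaurentSeries K) :
    twistL c (x * y) = twistL c x * twistL c y := by
  rw [twistL_eq_rot_mk0 hc, twistL_eq_rot_mk0 hc, twistL_eq_rot_mk0 hc, map_mul]

theorem twistL_ne_zero8 {c : K} (hc : c ≠ 0) {x : LaurentSeries K} (hx : x ≠ 0) :
    twistL c x ≠ 0 := by
  rw [twistL_eq_rot_mk0 hc]
  exact (map_ne_zero_iff _ (rot (Units.mk0 c hc)).injective).mpr hx

theorem twistL_algebraMap8 (c a : K) :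
    twistL c (algebraMap K (LaurentSeries K) a) = algebraMap K (LaurentSeries K) a := by
  ext k
  rw [twistL_coeff, algebraMap_laurentSeries_eq_single]
  by_cases hk : k = 0
  · subst hk
    simp
  · rw [HahnSeries.coeff_single_of_ne hk, mul_zero]

theorem qExpand_algebraMap8 (n : ℕ) [NeZero n] (c : K) :
    ModularCurve.qExpand K n (algebraMap K (LaurentSeries K) c) =
      algebraMap K (LaurentSeries K) c := by
  rw [algebraMap_laurentSeries_eq_single, qExpand_single, mul_zero]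

/-- the Hecke shape `h(q^{ℓ²}) ∏_{k<ℓ} h(c^k q)` -/
def hshape (l : ℕ) [NeZero l] (c : K) (x : LaurentSeries K) : LaurentSeries K :=
  ModularCurve.qExpand K (l * l) x * ∏ k ∈ Finset.range l, twistL (c ^ k) x

theorem hshape_mul (l : ℕ) [NeZero l] {c : K} (hc : c ≠ 0) (x y : LaurentSeries K) :
    hshape l c (x * y) = hshape l c x * hshape l c y := by
  unfold hshape
  rw [map_mul]
  simp_rw [twistL_mul8 (pow_ne_zero _ hc)]
  rw [Finset.prod_mul_distrib]
  ring

theorem hshape_ne_zero (l : ℕ) [NeZero l] {c : K} (hc : c ≠ 0) {x : LaurentSeries K}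
    (hx : x ≠ 0) : hshape l c x ≠ 0 := by
  unfold hshape
  refine mul_ne_zero ?_ (Finset.prod_ne_zero_iff.mpr fun k _ => twistL_ne_zero8 (pow_ne_zero _ hc) hx)
  intro h0
  exact hx (Fermat.Agent.P2.helper94.qExpand_injective (l * l) (h0.trans (map_zero _).symm))

theorem hshape_algebraMap (l : ℕ) [NeZero l] (c a : K) :
    hshape l c (algebraMap K (LaurentSeries K) a) = algebraMap K (LaurentSeries K) (a ^ (l + 1)) := by
  unfold hshape
  rw [qExpand_algebraMap8]
  simp_rw [twistL_algebraMap8]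
  rw [Finset.prod_const, Finset.card_range, ← pow_succ', map_pow]

end Twist

/-! ### `RhoQ` and the Hecke shape -/

section Rho

variable {A : ValuationSubring Kb}

/-- `RhoQ` is stable under the twist by a unit of `A`; the reduction is twisted by the residue -/
theorem rhoQ_twistL (u : (↥A)ˣ) {g : LaurentSeries Kb} {r : LaurentSeries (kA A)}
    (h : RhoQ A g r) :
    RhoQ A (twistL (((u : ↥A) : Kb)) g) (twistL (IsLocalRing.residue ↥A (u : ↥A)) r) := by
  obtain ⟨Y₁, Y₂, h2, h3, h4⟩ := h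
  have hu0 : (((u : ↥A) : Kb)) ≠ 0 := by
    intro h0
    have : (u : ↥A) = 0 := Subtype.ext h0
    exact u.ne_zero this
  set ub : (kA A)ˣ := Units.map ((IsLocalRing.residue ↥A : ↥A →+* kA A) : ↥A →* kA A) u with hub
  have hubv : ((ub : (kA A)ˣ) : kA A) = IsLocalRing.residue ↥A (u : ↥A) := rfl
  have hred : ∀ Y : LaurentSeries ↥A, red A (rot u Y) = rot ub (red A Y) := fun Y =>
    coeffMap_rot8 (IsLocalRing.residue ↥A) u Y
  have hincl : ∀ Y : LaurentSeries ↥A, incl A (rot u Y) = twistL (((u : ↥A) : Kb)) (incl A Y) :=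
    fun Y => Fermat.Agent.P2.helper93.coeffMap_subtype_rot u Y
  refine ⟨rot u Y₁, rot u Y₂, ?_, ?_, ?_⟩
  · rw [hred]
    exact (map_ne_zero_iff _ (rot ub).injective).mpr h2
  · rw [hincl, hincl, h3, twistL_mul8 hu0]
  · rw [hred, hred, h4, map_mul, ← hubv, twistL_eq_rot8]

/-- `RhoQ` is stable under the Hecke shape -/
theorem rhoQ_hshape (l : ℕ) [NeZero l] (u : (↥A)ˣ) {g : LaurentSeries Kb}
    {r : LaurentSeries (kA A)} (h : RhoQ A g r) :
    RhoQ A (hshape l (((u : ↥A) : Kb)) g) (hshape l (IsLocalRing.residue ↥A (u : ↥A)) r) := by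
  unfold hshape
  refine (Fermat.Agent.T3.helper36.RhoQ.qExpand (l * l) h).mul
    (Fermat.Agent.T3.helper36.RhoQ.prod _ fun k _ => ?_)
  have := rhoQ_twistL (u ^ k) h
  rw [Units.val_pow_eq_pow_val, map_pow] at this
  exact this

end Rho

/-! ### The eigen-relation in characteristic `0` -/

section Eigen

variable {M l : ℕ} [NeZero M] [NeZero l]

/-- **the eigen-relation of functions**: if `T_ℓ x = a x` and `u` is a Kummer function of `x`
then `Norm_α (β u) = c₀ g₀ ^ n u ^ a`. -/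
theorem heckeMul_eq_of_eigen {n : ℕ} {x : JZero M} {a : ℤ}
    (hx : heckeOperatorAlong Kb M l x = a • x) {u : FF M} (hu : IsKummerRep n x u) :
    ∃ (c₀ : Kb) (g₀ : FF M), c₀ ≠ 0 ∧ g₀ ≠ 0 ∧
      Fermat.Agent.T8.helper43.heckeMul M l u = u ^ a * (algebraMap Kb (FF M) c₀ * g₀ ^ n) := by
  have H1 : IsKummerRep n (a • x) (Fermat.Agent.T8.helper43.heckeMul M l u) := by
    have := Fermat.Agent.T8.helper43.phiE1Kum M l n x u hu
    rwa [hx] at this
  have H2 : IsKummerRep n (a • x) (u ^ a) := hu.zsmul a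
  obtain ⟨g₀, w, hg₀, hw, e⟩ := H2.unique H1
  obtain ⟨c₀, hc₀, rfl⟩ := Fermat.Agent.T7.helper43.exists_const_of_hasTrivialDiv hw
  exact ⟨c₀, g₀, hc₀, hg₀, e⟩

end Eigen

/-! ### The instance -/

section Instance

variable {N p l : ℕ} [NeZero N] [NeZero p] [NeZero l]

/-- the residue of a root of unity `ζ` of order dividing `l` -/
def zetaBar (A : ValuationSubring Kb) {ζ : Kb} (h : ζ ^ l = 1) : kA A :=
  IsLocalRing.residue ↥A ((rootUnit A (NeZero.ne l) h : (↥A)ˣ) : ↥A)

theorem zetaBar_ne_zero (A : ValuationSubring Kb) {ζ : Kb} (h : ζ ^ l = 1) :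
    zetaBar A h ≠ 0 := by
  have : IsUnit (zetaBar A h) := (rootUnit A (NeZero.ne l) h).isUnit.map (IsLocalRing.residue ↥A)
  exact this.ne_zero

/-- the residue of a primitive `l`-th root of unity is primitive when `l ≠ p` -/
theorem isPrimitiveRoot_zetaBar (A : ValuationSubring Kb) (hp : p.Prime)
    (hA : A.LiesOverPrime p) (hl : l.Prime) (hlp : l ≠ p) {ζ : Kb} (hζ : IsPrimitiveRoot ζ l) :
    IsPrimitiveRoot (zetaBar A hζ.pow_eq_one) l := by
  haveI : Fact p.Prime := ⟨hp⟩
  have hu : IsUnit ((l : ℕ) : ↥A) :=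
    Fermat.Agent.P2.helper81.isUnit_natCast_of_not_dvd A hA l
      (fun h => hlp ((Nat.prime_dvd_prime_iff_eq hp hl).mp h).symm)
  have h1 := isPrimitiveRoot_residue A hl hu hζ
  exact h1.map_of_injective (f := Units.coeHom (kA A)) Units.val_injective

/-- **[HECKE], the instance**: the reduced norm formula and the reduced eigen-relation for a
Hecke eigenclass of level `N p`. -/
theorem hecke_instance (hp : p.Prime) (hpN : ¬ p ∣ N) (A : ValuationSubring Kb)
    (hA : A.LiesOverPrime p) (hl : l.Prime) (hlN : ¬ l ∣ N * p) {ζ : Kb}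
    (hζ : IsPrimitiveRoot ζ l) {x : JZero (N * p)} {a : ℤ}
    (hx : heckeOperatorAlong Kb (N * p) l x = a • x) {u : FF (N * p)} {f : FFb A N}
    (hu : IsKummerRep p x u) (hf : Fermat.Agent.T8.helper54.IsRed1 A N p u f) :
    ∃ (Nm g : LaurentSeries (kA A)) (c : kA A), c ≠ 0 ∧ g ≠ 0 ∧
      ModularCurve.qExpand (kA A) l Nm
        = ModularCurve.qExpand (kA A) (l * l) (f : LaurentSeries (kA A)) *
          ∏ k ∈ Finset.range l, twistL (zetaBar A hζ.pow_eq_one ^ k) (f : LaurentSeries (kA A)) ∧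
      Nm = algebraMap (kA A) (LaurentSeries (kA A)) c * g ^ p * (f : LaurentSeries (kA A)) ^ a := by
  obtain ⟨hf0, κ, hκ, R1⟩ := hf
  have hfL : (f : LaurentSeries (kA A)) ≠ 0 := fun h => hf0 (Subtype.ext h)
  obtain ⟨c₀, g₀, hc₀, hg₀, e⟩ := heckeMul_eq_of_eigen (l := l) hx hu
  -- the eigen-relation of `q`-expansions
  set U : LaurentSeries Kb := (u : LaurentSeries Kb) with hU
  set G₀ : LaurentSeries Kb := (g₀ : LaurentSeries Kb) with hG₀
  set NmK : LaurentSeries Kb :=
    ((Fermat.Agent.T8.helper43.heckeMul (N * p) l u : FF (N * p)) : LaurentSeries Kb) with hNmK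
  have eL : NmK = U ^ a * (algebraMap Kb (LaurentSeries Kb) c₀ * G₀ ^ p) := by
    have h1 := congrArg ((FF (N * p)).val) e
    rw [map_mul, map_mul, map_zpow₀, map_pow, AlgHom.commutes] at h1
    exact h1
  have hG₀ne : G₀ ≠ 0 := fun h => hg₀ (Subtype.ext h)
  -- the norm formula
  have key : ModularCurve.qExpand Kb l NmK = hshape l ζ U :=
    Fermat.Agent.P2.helper93.es_norm (N * p) l hl hlN ζ hζ u
  -- scaling of `g₀`
  obtain ⟨γ, hγ, gb, hgb, R2⟩ := Fermat.Agent.T3.helper36.gaussIs_of_scale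
    (Fermat.Agent.T2.helper58.scaleStatement_bad N p hp hpN A hA) g₀.2 hG₀ne
  -- the two reductions
  have R5 := rhoQ_hshape l (rootUnit A (NeZero.ne l) hζ.pow_eq_one) R1
  have R4 := ((R1.zpow hfL a).mul (R2.pow p)).qExpand l
  set X : LaurentSeries Kb := ModularCurve.qExpand Kb l
    ((algebraMap Kb (LaurentSeries Kb) κ⁻¹ * U) ^ a *
      (algebraMap Kb (LaurentSeries Kb) γ⁻¹ * G₀) ^ p) with hX
  set e₁ : Kb := κ⁻¹ ^ a * γ⁻¹ ^ p * c₀⁻¹ with he₁
  have he₁0 : e₁ ≠ 0 :=
    mul_ne_zero (mul_ne_zero (zpow_ne_zero _ (inv_ne_zero hκ)) (pow_ne_zero _ (inv_ne_zero hγ)))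
      (inv_ne_zero hc₀)
  have hXe : X = algebraMap Kb (LaurentSeries Kb) e₁ * ModularCurve.qExpand Kb l NmK := by
    rw [hX, ← qExpand_algebraMap8 l e₁, ← map_mul]
    congr 1
    rw [eL, he₁, mul_zpow, mul_pow, map_mul, map_mul, map_zpow₀, map_pow]
    have h34 : algebraMap Kb (LaurentSeries Kb) c₀⁻¹ * algebraMap Kb (LaurentSeries Kb) c₀ = 1 := by
      rw [← map_mul, inv_mul_cancel₀ hc₀, map_one]
    linear_combination (-(algebraMap Kb (LaurentSeries Kb) κ⁻¹ ^ a * U ^ a *
      algebraMap Kb (LaurentSeries Kb) γ⁻¹ ^ p * G₀ ^ p)) * h34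
  set d : Kb := κ⁻¹ ^ (l + 1) * e₁⁻¹ with hd
  have hdX : hshape l ζ (algebraMap Kb (LaurentSeries Kb) κ⁻¹ * U)
      = algebraMap Kb (LaurentSeries Kb) d * X := by
    rw [hshape_mul l (hζ.ne_zero (NeZero.ne l)), hshape_algebraMap, ← key, hXe, hd, map_mul,
      mul_assoc, ← mul_assoc (algebraMap Kb (LaurentSeries Kb) e₁⁻¹), ← map_mul,
      inv_mul_cancel₀ he₁0, map_one, one_mul]
  have R5' : RhoQ A (algebraMap Kb (LaurentSeries Kb) d * X)
      (hshape l (zetaBar A hζ.pow_eq_one) (f : LaurentSeries (kA A))) := by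
    rw [← hdX]
    exact R5
  have hr : ModularCurve.qExpand (kA A) l ((f : LaurentSeries (kA A)) ^ a * gb ^ p) ≠ 0 := by
    intro h0
    exact (mul_ne_zero (zpow_ne_zero _ hfL) (pow_ne_zero _ hgb))
      (Fermat.Agent.P2.helper94.qExpand_injective l (h0.trans (map_zero _).symm))
  have hs : hshape l (zetaBar A hζ.pow_eq_one) (f : LaurentSeries (kA A)) ≠ 0 :=
    hshape_ne_zero l (zetaBar_ne_zero A hζ.pow_eq_one) hfL
  have hval : A.valuation d = 1 :=
    Fermat.Agent.T3.helper36.valuation_eq_one_of_rhoQ hr hs R4 R5'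
  have hdA : d ∈ A := (A.valuation_le_one_iff d).1 hval.le
  have R6 := Fermat.Agent.T3.helper36.rhoQ_algebraMap (A := A) (⟨d, hdA⟩ : ↥A)
  have hc : IsLocalRing.residue ↥A (⟨d, hdA⟩ : ↥A) ≠ 0 := by
    intro h1
    rw [IsLocalRing.residue_eq_zero_iff] at h1
    have h3 : A.valuation (((⟨d, hdA⟩ : ↥A)) : Kb) < 1 :=
      (A.valuation_lt_one_iff (⟨d, hdA⟩ : ↥A)).1 h1
    exact (ne_of_lt h3) hval
  have huniq := R5'.unique (R6.mul R4)
  refine ⟨algebraMap (kA A) (LaurentSeries (kA A)) (IsLocalRing.residue ↥A (⟨d, hdA⟩ : ↥A)) *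
    gb ^ p * (f : LaurentSeries (kA A)) ^ a, gb, _, hc, hgb, ?_, rfl⟩
  rw [map_mul, map_mul, qExpand_algebraMap8, mul_assoc, ← map_mul, mul_comm (gb ^ p), ← huniq]
  rfl

/-- **[HECKE], the instance**, with a natural exponent `a' ≡ a` mod `p`. -/
theorem hecke_instance_nat (hp : p.Prime) (hpN : ¬ p ∣ N) (A : ValuationSubring Kb)
    (hA : A.LiesOverPrime p) (hl : l.Prime) (hlN : ¬ l ∣ N * p) {ζ : Kb}
    (hζ : IsPrimitiveRoot ζ l) {x : JZero (N * p)} {a : ℤ}
    (hx : heckeOperatorAlong Kb (N * p) l x = a • x) {u : FF (N * p)} {f : FFb A N}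
    (hu : IsKummerRep p x u) (hf : Fermat.Agent.T8.helper54.IsRed1 A N p u f)
    (a' : ℕ) (ha' : (a' : ℤ) ≡ a [ZMOD p]) :
    ∃ (Nm g : LaurentSeries (kA A)) (c : kA A), c ≠ 0 ∧ g ≠ 0 ∧
      ModularCurve.qExpand (kA A) l Nm
        = ModularCurve.qExpand (kA A) (l * l) (f : LaurentSeries (kA A)) *
          ∏ k ∈ Finset.range l, twistL (zetaBar A hζ.pow_eq_one ^ k) (f : LaurentSeries (kA A)) ∧
      Nm = algebraMap (kA A) (LaurentSeries (kA A)) c * g ^ p * (f : LaurentSeries (kA A)) ^ a' := by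
  obtain ⟨Nm, g, c, hc, hg, h1, h2⟩ := hecke_instance hp hpN A hA hl hlN hζ hx hu hf
  have hfL : (f : LaurentSeries (kA A)) ≠ 0 := fun h => hf.1 (Subtype.ext h)
  obtain ⟨m, hm⟩ : ∃ m : ℤ, a = a' + p * m := by
    obtain ⟨m, hm⟩ := (Int.modEq_iff_dvd.mp ha')
    exact ⟨m, by linarith⟩
  refine ⟨Nm, g * (f : LaurentSeries (kA A)) ^ m, c, hc, mul_ne_zero hg (zpow_ne_zero _ hfL),
    h1, ?_⟩
  rw [h2, hm, zpow_add₀ hfL, zpow_natCast, mul_pow, ← zpow_natCast ((f : LaurentSeries (kA A)) ^ m) p,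
    ← zpow_mul, mul_comm m (p : ℤ)]
  ring

end Instance

/-! ### The cusp `∞` -/

section Order

variable {K : Type*} [Field K]

theorem order_twistL8 {c : K} (hc : c ≠ 0) (x : LaurentSeries K) :
    (twistL c x).order = x.order := by
  by_cases hx : x = 0
  · subst hx
    have : twistL c (0 : LaurentSeries K) = 0 := by
      ext n
      simp
    rw [this]
  · have hx' : twistL c x ≠ 0 := twistL_ne_zero8 hc hx
    apply le_antisymm
    · apply HahnSeries.order_le_of_coeff_ne_zero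
      rw [twistL_coeff]
      exact mul_ne_zero (zpow_ne_zero _ hc) (fun h => hx (HahnSeries.coeff_order_eq_zero.mp h))
    · apply HahnSeries.order_le_of_coeff_ne_zero
      have : (twistL c x).coeff (twistL c x).order ≠ 0 :=
        fun h => hx' (HahnSeries.coeff_order_eq_zero.mp h)
      rw [twistL_coeff] at this
      exact right_ne_zero_of_mul this

theorem order_pow8 {x : LaurentSeries K} (hx : x ≠ 0) (n : ℕ) :
    (x ^ n).order = n * x.order := by
  induction n with
  | zero => simp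
  | succ n ih =>
    rw [pow_succ, HahnSeries.order_mul (pow_ne_zero n hx) hx, ih]
    push_cast
    ring

theorem order_inv8 {x : LaurentSeries K} (hx : x ≠ 0) : (x⁻¹).order = -x.order := by
  have h1 : (x * x⁻¹).order = x.order + (x⁻¹).order :=
    HahnSeries.order_mul hx (inv_ne_zero hx)
  rw [mul_inv_cancel₀ hx, HahnSeries.order_one] at h1
  linarith

theorem order_zpow8 {x : LaurentSeries K} (hx : x ≠ 0) (n : ℤ) :
    (x ^ n).order = n * x.order := by
  obtain ⟨k, rfl | rfl⟩ := n.eq_nat_or_neg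
  · rw [zpow_natCast, order_pow8 hx]
  · rw [zpow_neg, zpow_natCast, order_inv8 (pow_ne_zero _ hx), order_pow8 hx]
    ring

theorem order_algebraMap8 {c : K} (hc : c ≠ 0) :
    (algebraMap K (LaurentSeries K) c).order = 0 := by
  rw [algebraMap_laurentSeries_eq_single]
  exact HahnSeries.order_single hc

theorem order_prod_twistL (l : ℕ) {c : K} (hc : c ≠ 0) {x : LaurentSeries K} (hx : x ≠ 0) :
    (∏ k ∈ Finset.range l, twistL (c ^ k) x).order = l * x.order := by
  induction l with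
  | zero => simp
  | succ n ih =>
    rw [Finset.prod_range_succ, HahnSeries.order_mul
      (Finset.prod_ne_zero_iff.mpr fun k _ => twistL_ne_zero8 (pow_ne_zero _ hc) hx)
      (twistL_ne_zero8 (pow_ne_zero _ hc) hx), ih, order_twistL8 (pow_ne_zero _ hc)]
    push_cast
    ring

/-- **formal core of the cusp `∞`**: the reduced norm formula and the reduced eigen-relation
give `(ℓ + 1 - a) ord f = p ord g`. -/
theorem order_of_shape (l : ℕ) [NeZero l] (p : ℕ) {ζ c : K} (hζ : ζ ≠ 0) (hc : c ≠ 0)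
    {Nm g f : LaurentSeries K} (hg : g ≠ 0) (hf : f ≠ 0) (a : ℤ)
    (h1 : ModularCurve.qExpand K l Nm
      = ModularCurve.qExpand K (l * l) f * ∏ k ∈ Finset.range l, twistL (ζ ^ k) f)
    (h2 : Nm = algebraMap K (LaurentSeries K) c * g ^ p * f ^ a) :
    ((l : ℤ) + 1 - a) * f.order = p * g.order := by
  have hl0 : (l : ℤ) ≠ 0 := Int.natCast_ne_zero.mpr (NeZero.ne l)
  have hNm : Nm ≠ 0 := by
    rw [h2]
    exact mul_ne_zero (mul_ne_zero (by rw [algebraMap_laurentSeries_eq_single]; simpa using hc)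
      (pow_ne_zero _ hg)) (zpow_ne_zero _ hf)
  have hq : ∀ (n : ℕ) [NeZero n] {y : LaurentSeries K}, y ≠ 0 →
      ModularCurve.qExpand K n y ≠ 0 := fun n _ y hy h0 =>
    hy (Fermat.Agent.P2.helper94.qExpand_injective n (h0.trans (map_zero _).symm))
  have e1 := congrArg HahnSeries.order h1
  rw [HahnSeries.order_mul (hq (l * l) hf)
    (Finset.prod_ne_zero_iff.mpr fun k _ => twistL_ne_zero8 (pow_ne_zero _ hζ) hf),
    order_prod_twistL l hζ hf, Fermat.Agent.T2.helper58.order_qExpand l hNm,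
    Fermat.Agent.T2.helper58.order_qExpand (l * l) hf] at e1
  have e2 := congrArg HahnSeries.order h2
  rw [HahnSeries.order_mul (mul_ne_zero (by rw [algebraMap_laurentSeries_eq_single]; simpa using hc)
      (pow_ne_zero _ hg)) (zpow_ne_zero _ hf),
    HahnSeries.order_mul (by rw [algebraMap_laurentSeries_eq_single]; simpa using hc)
      (pow_ne_zero _ hg), order_algebraMap8 hc, order_pow8 hg, order_zpow8 hf, zero_add] at e2
  rw [e2] at e1
  push_cast at e1
  have e3 : (l : ℤ) * (((l : ℤ) + 1 - a) * f.order) = (l : ℤ) * (p * g.order) := by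
    linear_combination -e1
  exact mul_left_cancel₀ hl0 e3

end Order

section Cusp

variable {N p l : ℕ} [NeZero N] [NeZero p] [NeZero l]

/-- **[CUSP-GAP], the cusp `∞` of the first component**: for a Hecke eigenclass
`T_ℓ x = a x` of level `N p` with Kummer function `u` and first-component reduction `f`,
`p ∣ (ℓ + 1 - a) ord_q f`. -/
theorem dvd_mul_order_of_eigen (hp : p.Prime) (hpN : ¬ p ∣ N) (A : ValuationSubring Kb)
    (hA : A.LiesOverPrime p) (hl : l.Prime) (hlN : ¬ l ∣ N * p)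
    {x : JZero (N * p)} {a : ℤ}
    (hx : heckeOperatorAlong Kb (N * p) l x = a • x) {u : FF (N * p)} {f : FFb A N}
    (hu : IsKummerRep p x u) (hf : Fermat.Agent.T8.helper54.IsRed1 A N p u f) :
    (p : ℤ) ∣ ((l : ℤ) + 1 - a) * (f : LaurentSeries (kA A)).order := by
  obtain ⟨ζ, hζ⟩ : ∃ ζ : Kb, IsPrimitiveRoot ζ l :=
    HasEnoughRootsOfUnity.exists_primitiveRoot Kb l
  obtain ⟨Nm, g, c, hc, hg, h1, h2⟩ := hecke_instance hp hpN A hA hl hlN hζ hx hu hf
  have hfL : (f : LaurentSeries (kA A)) ≠ 0 := fun h => hf.1 (Subtype.ext h)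
  exact ⟨g.order, order_of_shape l p (zetaBar_ne_zero A hζ.pow_eq_one) hc hg hfL a h1 h2⟩

/-- **[CUSP-GAP], the cusp `∞`**: if moreover `a ≢ ℓ + 1` mod `p` then `p ∣ ord_q f`. -/
theorem dvd_order_of_eigen (hp : p.Prime) (hpN : ¬ p ∣ N) (A : ValuationSubring Kb)
    (hA : A.LiesOverPrime p) (hl : l.Prime) (hlN : ¬ l ∣ N * p)
    {x : JZero (N * p)} {a : ℤ}
    (hx : heckeOperatorAlong Kb (N * p) l x = a • x) (ha : ¬ (p : ℤ) ∣ a - ((l : ℤ) + 1))
    {u : FF (N * p)} {f : FFb A N}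
    (hu : IsKummerRep p x u) (hf : Fermat.Agent.T8.helper54.IsRed1 A N p u f) :
    (p : ℤ) ∣ (f : LaurentSeries (kA A)).order := by
  have h := dvd_mul_order_of_eigen hp hpN A hA hl hlN hx hu hf
  rcases (Nat.prime_iff_prime_int.mp hp).dvd_or_dvd h with h1 | h1
  · exfalso
    apply ha
    have : a - ((l : ℤ) + 1) = -((l : ℤ) + 1 - a) := by ring
    rw [this]
    exact (dvd_neg).mpr h1
  · exact h1

/-- the same at the place at infinity of the special fibre -/
theorem dvd_ord_infty_of_eigen (hp : p.Prime) (hpN : ¬ p ∣ N) (A : ValuationSubring Kb)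
    (hA : A.LiesOverPrime p) (hl : l.Prime) (hlN : ¬ l ∣ N * p)
    {x : JZero (N * p)} {a : ℤ}
    (hx : heckeOperatorAlong Kb (N * p) l x = a • x) (ha : ¬ (p : ℤ) ∣ a - ((l : ℤ) + 1))
    {u : FF (N * p)} {f : FFb A N}
    (hu : IsKummerRep p x u) (hf : Fermat.Agent.T8.helper54.IsRed1 A N p u f)
    (Q : Place (kA A) (FFb A N)) (hQ : IsInfty Q) : (p : ℤ) ∣ Q.ord f := by
  rw [hQ f hf.1]
  exact dvd_order_of_eigen hp hpN A hA hl hlN hx ha hu hf

end Cusp

end Fermat.Agent.T8.helper93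

end
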