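import Fermat.Agent.T8.helper13_ExitMid
import Fermat.Agent.T8.helper93_HeckeInst
import Fermat.Agent.T8.helper54_WComm
import Fermat.Agent.T8.helper54_Phi
import Fermat.Agent.T8.helper87_DlogAbs3

/-!
# T8 [F3-EXIT], leaf 5 [HECKE], CONSUMER FORM CLOSED (helper87)

`heckeChain : helper13.HeckeChainStatement` : if the class of `u` is a `T_ℓ`-eigenclass with
eigenvalue `a` (`ℓ` a prime not dividing `N p`), the coefficients of the logarithmic derivative
of a first-component reduction `f` of `u` or of `W u` form a formal `T_ℓ`-eigenvector with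
eigenvalue `a`.

Proof: `helper93.hecke_instance` (reduced norm formula + reduced eigen-relation) and the formal
core `helper87.hecke_dlog_zpow`, `isFormalEigen_wSeq`; for the reduction of `W u` the class is
replaced by `W • x` (`helper54.atkinLehner_heckeNormFn`: `W` commutes with the Hecke norm).
-/

set_option autoImplicit false
set_option synthInstance.maxHeartbeats 400000
set_option maxHeartbeats 1600000
set_option linter.unusedSectionVars false
set_option linter.unusedVariables false
set_option linter.style.longLine false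
set_option linter.style.haveILetI false

noncomputable section

namespace Fermat.Agent.T8.helper87

open HahnSeries IntermediateField AlgebraicCurve ModularCurve
open Fermat.Agent.S18.helper19 Fermat.Agent.P2.helper29 Fermat.Agent.P2.helper93
open Fermat.Agent.T2 Fermat.Agent.T2.helper36
open Fermat.Agent.T8.helper54 (IsRed1 DvdOff heckeNormFn)
open Fermat.Agent.P3.helper94 (IsKummerRep)

section Chain

variable {N p l : ℕ} [NeZero N] [NeZero p] [NeZero l]

/-- two classes with the same Kummer function are equal -/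
theorem class_unique_of_isKummerRep {n : ℕ} (hn : n ≠ 0) {M : ℕ} [NeZero M] {x x' : JZero M}
    {h : FF M} (H : IsKummerRep n x h) (H' : IsKummerRep n x' h) : x = x' := by
  have h0 := H.sub H'
  rw [mul_inv_cancel₀ H.ne_zero] at h0
  exact sub_eq_zero.mp (h0.eq_zero_of_eq_pow hn (one_pow n).symm)

/-- `W` commutes with `T_ℓ` on the `p`-torsion classes with a Kummer function -/
theorem hecke_atkinLehner_smul (hp : p.Prime) (hpN : ¬ p ∣ N) (hlp : ¬ p ∣ l)
    {x : JZero (N * p)} {u : FF (N * p)} (hu : IsKummerRep p x u) :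
    heckeOperatorAlong Kb (N * p) l (atkinLehner N p hp hpN • x)
      = atkinLehner N p hp hpN • heckeOperatorAlong Kb (N * p) l x := by
  have H1 : IsKummerRep p (heckeOperatorAlong Kb (N * p) l (atkinLehner N p hp hpN • x))
      (heckeNormFn (N * p) l (atkinLehner N p hp hpN u)) :=
    Fermat.Agent.T8.helper54.isKummerRep_heckeNormFn (hu.algEquiv_smul _)
  have H2 : IsKummerRep p (atkinLehner N p hp hpN • heckeOperatorAlong Kb (N * p) l x)
      (atkinLehner N p hp hpN (heckeNormFn (N * p) l u)) :=
    (Fermat.Agent.T8.helper54.isKummerRep_heckeNormFn hu).algEquiv_smul _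
  rw [Fermat.Agent.T8.helper54.atkinLehner_heckeNormFn N p l hp hpN hlp] at H2
  exact class_unique_of_isKummerRep hp.ne_zero H1 H2

/-- the formal eigen-relation for a first-component reduction of `u` -/
theorem formalEigen_of_isRed1 (hp : p.Prime) (hpN : ¬ p ∣ N) (A : ValuationSubring Kb)
    (hA : A.LiesOverPrime p) (hl : l.Prime) (hlN : ¬ l ∣ N * p) {x : JZero (N * p)} {a : ℤ}
    (hx : heckeOperatorAlong Kb (N * p) l x = a • x) {u : FF (N * p)} {f : FFb A N}
    (hu : IsKummerRep p x u) (hf : IsRed1 A N p u f) :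
    Fermat.Agent.T8.helper47.IsFormalEigen l a
      (fun m => (dlogL (f : LaurentSeries (kA A))).coeff (m : ℤ)) := by
  haveI : CharP (kA A) p := Fermat.Agent.P2.helper93.charP_residueField hp hA
  have hlp : l ≠ p := fun h => hlN (h ▸ Dvd.intro_left N rfl)
  obtain ⟨ζ, hζ⟩ : ∃ ζ : Kb, IsPrimitiveRoot ζ l :=
    HasEnoughRootsOfUnity.exists_primitiveRoot Kb l
  obtain ⟨Nm, g, c, hc, hg, hnorm, heig⟩ :=
    Fermat.Agent.T8.helper93.hecke_instance hp hpN A hA hl hlN hζ hx hu hf
  have hfL : (f : LaurentSeries (kA A)) ≠ 0 := fun h => hf.1 (Subtype.ext h)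
  have hζb := Fermat.Agent.T8.helper93.isPrimitiveRoot_zetaBar A hp hA hl hlp hζ
  have hl0 : ((l : ℕ) : kA A) ≠ 0 := by
    intro h0
    have h1 := (CharP.cast_eq_zero_iff (kA A) p l).mp h0
    exact hlp ((Nat.prime_dvd_prime_iff_eq hp hl).mp h1).symm
  have hT := hecke_dlog_zpow (K := kA A) p hl0 hζb hfL hc (one_ne_zero) a
    (Nm := Nm) (g := g)
    (by rw [hnorm, map_one, one_mul])
    (by
      rw [heig]
      have : algebraMap (kA A) (LaurentSeries (kA A)) c = HahnSeries.C c := by
        have h1 : algebraMap (kA A) (PowerSeries (kA A)) c = PowerSeries.C c := by simp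
        rw [HahnSeries.algebraMap_apply', h1, HahnSeries.ofPowerSeries_C]
      rw [this]
      ring)
  exact isFormalEigen_wSeq a hT

/-- **[HECKE], consumer form.** -/
theorem heckeChain : Fermat.Agent.T8.helper13.HeckeChainStatement := by
  intro N p _ _ hp hpN A hA ℓ hℓN a x u f hu hx hf
  haveI : NeZero ((ℓ : Nat.Primes) : ℕ) := ⟨ℓ.2.ne_zero⟩
  rw [heckeOperatorBar_apply] at hx
  rcases hf with hf | hf
  · exact formalEigen_of_isRed1 hp hpN A hA ℓ.2 hℓN hx hu hf
  · have hlp : ¬ p ∣ ((ℓ : Nat.Primes) : ℕ) := by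
      intro h
      have h1 : p = ((ℓ : Nat.Primes) : ℕ) := (Nat.prime_dvd_prime_iff_eq hp ℓ.2).mp h
      exact hℓN (h1 ▸ Dvd.intro_left N rfl)
    have hx' : heckeOperatorAlong Kb (N * p) ((ℓ : Nat.Primes) : ℕ) (atkinLehner N p hp hpN • x)
        = a • (atkinLehner N p hp hpN • x) := by
      rw [hecke_atkinLehner_smul hp hpN hlp hu, hx]
      exact map_zsmul (DistribSMul.toAddMonoidHom (JZero (N * p))
        (atkinLehner N p hp hpN)) a x
    exact formalEigen_of_isRed1 hp hpN A hA ℓ.2 hℓN hx' (hu.algEquiv_smul _) hf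

end Chain

end Fermat.Agent.T8.helper87
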