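import Fermat.Agent.T8.helper13_ExitMid
import Fermat.Agent.T8.helper27_OmegaChain
import Fermat.Agent.T8.helper87_HeckeChain
import Fermat.Agent.T8.helper78_DescChain
import Fermat.Agent.T8.helper51_CuspAnnChain
import Fermat.Agent.T8.helper7_CuspGap
import Fermat.Agent.T8.helper35_Cusp4Stmt

/-!
# T8 = row 38 via S44, box (F) [D-HECKE]: [F3-EXIT] with its closed leaves PLUGGED (helper13)

Receiver file of the assembly `helper13.f3Exit_of_leaves` (`helper13_ExitMid.lean`).  The leaves

* [OMEGA]    `helper27.omegaChain`,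
* [HECKE]    `helper87.heckeChain`,
* [DESCENT]  `helper78.descentChain`,
* [CUSP-4]   `helper35.cusp4Statement`,
* [CUSP-ANN] `helper51.cuspAnnChain_of_real` (modulo the dictionary side
             `helper51.CuspAnnRealStatement`),

are plugged.  What is left of `helper44.F3ExitStatement helper67.auxPull67`:

* [CUSP-GAP], in ONE of the forms
    - `helper7.CuspSqfStatement`         (class route, through `helper7.cuspGap_of_leaves`),
    - `helper7.CuspGapStatement auxPull67` (class form),
    - `helper81.CuspGapChainStatement`   (function form);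
* [CUSP-ANN] dictionary side: `∀ L, helper51.CuspAnnRealStatement L`.

Main statements:

* `GapFinStatement π`     : the common consumer form of [CUSP-GAP] (both reductions have
                            `p ∣ ord_Q` at every place `Q ≠ ∞`);
* `f3Exit_of_gapFin`      : the assembly against `GapFinStatement π`;
* `gapFin_of_chain`, `gapFin_of_class` : the two forms of [CUSP-GAP] give `GapFinStatement`;
* `f3Exit_of_sqf_real`, `f3Exit_of_class_real`, `f3Exit_of_chain_real` : the receivers;
* `dHecke2_of_sqf_real`, `dHecke2_of_class_real`, `dHecke2_of_chain_real` : box (F).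
-/

set_option autoImplicit false
set_option synthInstance.maxHeartbeats 400000
set_option maxHeartbeats 1600000
set_option linter.unusedSectionVars false
set_option linter.unusedVariables false
set_option linter.style.longLine false

noncomputable section

namespace Fermat.Agent.T8.helper13

open HahnSeries IntermediateField AlgebraicCurve ModularCurve
open Fermat.Agent.S18.helper19 Fermat.Agent.P2.helper29 Fermat.Agent.P2.helper93
open Fermat.Agent.T2 Fermat.Agent.T2.helper36
open Fermat.Agent.T8.helper54 (IsRed1 DvdOff)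
open Fermat.Agent.P3.helper94 (IsKummerRep)
open Fermat.Agent.T8.helper81 (DvdFin CuspGapChainStatement)
open Fermat.Agent.T8.helper74 (annRb mem_annRb)
open Fermat.Agent.T8.helper87 (dlogL)
open Fermat.Agent.T8.helper44 (IsPthPow F3ExitStatement)
open Fermat.Agent.T7 Fermat.Agent.T8.helper72 Fermat.Agent.T8.helper29

section GapFin

/-- **[CUSP-GAP], common consumer form**: in the context of box (F), for a Kummer function `u`
of a class of `V = π V0`, the first-component reductions `f₁` of `u` and `f₂` of `W_p u`, known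
to have `p ∣ ord_Q` where `j̄` is finite, have `p ∣ ord_Q` at every place `Q ≠ ∞`. -/
def GapFinStatement (π : PullData) : Prop :=
  ∀ (P : FreyPackage) (W : WeierstrassCurve ℤ) (M' : ℕ) [NeZero M'], ChainCtx P M' W →
    ∀ (hpN : ¬ P.p ∣ 4 * M') (A : ValuationSubring (AlgebraicClosure ℚ)), A.LiesOverPrime P.p →
    ∀ V0 : AddSubgroup (JZero (M' * P.p)), FreyReal P W (M' * P.p) V0 →
      ∀ x ∈ V0.map (π M' P.p), ∀ (u : FF (4 * M' * P.p)) (f₁ f₂ : FFb A (4 * M')),
        IsKummerRep P.p x u →
        IsRed1 A (4 * M') P.p u f₁ → DvdOff A (4 * M') P.p f₁ →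
        IsRed1 A (4 * M') P.p (atkinLehner (4 * M') P.p P.pp hpN u) f₂ →
        DvdOff A (4 * M') P.p f₂ →
        DvdFin A (4 * M') P.p f₁ ∧ DvdFin A (4 * M') P.p f₂

/-- the function form of [CUSP-GAP] gives the common consumer form -/
theorem gapFin_of_chain (π : PullData) (hCG : CuspGapChainStatement) : GapFinStatement π := by
  intro P W M' _ hc hpN A hA V0 hV0 x hx u f₁ f₂ hk h1 d1 h2 d2
  have hu : ∀ Q : Place Kb (FF (4 * M' * P.p)), (P.p : ℤ) ∣ Q.ord u :=
    Fermat.Agent.T8.helper81.dvd_ord_of_isKummerRep hk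
  have hWu0 : atkinLehner (4 * M') P.p P.pp hpN u ≠ 0 := fun h0 => hk.1 (by simpa using h0)
  exact ⟨Fermat.Agent.T8.helper81.dvdFin_of_off_cusp d1 (hCG P M' A hA hpN u f₁ hk.1 hu h1),
    Fermat.Agent.T8.helper81.dvdFin_of_off_cusp d2
      (hCG P M' A hA hpN _ f₂ hWu0 (Fermat.Agent.T8.helper81.dvd_ord_equiv _ hu) h2)⟩

/-- the class form of [CUSP-GAP] (`helper7`) gives the common consumer form -/
theorem gapFin_of_class (π : PullData) (hCG : Fermat.Agent.T8.helper7.CuspGapStatement π) :
    GapFinStatement π := by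
  intro P W M' _ hc hpN A hA V0 hV0 x hx u f₁ f₂ hk h1 d1 h2 d2
  obtain ⟨c1, c2⟩ := hCG P W M' hc hpN A hA V0 hV0 x hx u f₁ f₂ hk h1 h2
  exact ⟨Fermat.Agent.T8.helper81.dvdFin_of_off_cusp d1 (fun Q hQ _ => c1 Q hQ),
    Fermat.Agent.T8.helper81.dvdFin_of_off_cusp d2 (fun Q hQ _ => c2 Q hQ)⟩

end GapFin

section Assembly2

/-- **[F3-EXIT] from its leaves**, [CUSP-GAP] in the common consumer form. -/
theorem f3Exit_of_gapFin (π : PullData) (hG : GapFinStatement π)
    (hO : OmegaChainStatement) (hH : HeckeChainStatement) (hD : DescentChainStatement π)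
    (hCA : CuspAnnChainStatement) : F3ExitStatement π := by
  intro P W M' _ hc hpN A hA V0 hV0 hnew hV hVnew x hx u f₁ f₂ hk h1 d1 h2 d2 hnot
  have hCharP : CharP (kA A) P.p := Fermat.Agent.P2.helper93.charP_residueField P.pp hA
  -- both reductions are divisible by `p` at every place `≠ ∞`
  obtain ⟨D1, D2⟩ := hG P W M' hc hpN A hA V0 hV0 x hx u f₁ f₂ hk h1 d1 h2 d2
  -- the class comes from level `M' p`
  obtain ⟨x0, hx0, rfl⟩ := AddSubgroup.mem_map.1 hx
  -- the main step, for one component `f` which is not a `p`-th power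
  have main : ∀ f : FFb A (4 * M'), IsRedComp (4 * M') P.p P.pp hpN A u f →
      DvdFin A (4 * M') P.p f → (f : LaurentSeries (kA A)) ≠ 0 →
      ¬ IsPthPow P.p (f : LaurentSeries (kA A)) → P.ModularRepOfLevel M' := by
    intro f hcomp hD' hf0 hnp
    set w : LaurentSeries (kA A) := dlogL (f : LaurentSeries (kA A)) with hw
    have hwAnn : w ∈ annRb (4 * M') A := hO M' P.p P.pp hpN A hA _ u f hk hcomp hD'
    have hw0 : w ≠ 0 := dlogL_ne_zero_of_not_pthPow P.pp hA hf0 hnp
    obtain ⟨w0, c, hw0Ann, hc0, h4, hoff⟩ :=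
      hD P W M' hc hpN A hA V0 hV0 hnew x0 hx0 u f hk hcomp hwAnn
    -- `w₀` is a reduction of cusp forms of level `M'`
    have hPL : PrimeToLevel M' A := ⟨P.p, P.pp, hc.not_p_dvd, hA⟩
    have hred : Fermat.Agent.T8.helper47.IsRedCusp M' (kA A) (fun m => w0.coeff (m : ℤ)) :=
      isRedCusp_of_mem_annRb hPL P.p P.pp (hCA M' A hPL) hw0Ann
    -- `w₀ ≠ 0`
    have hne : ∃ m : ℕ, w0.coeff (m : ℤ) ≠ 0 :=
      exists_coeff_ne_zero_of_mul_four h4 hoff ((mem_annRb.1 hw0Ann).1) hw0
    -- `w₀` is an eigenvector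
    have heig : ∀ ℓ ∈ goodPrimes W, Fermat.Agent.T8.helper47.IsFormalEigen
        ((ℓ : Nat.Primes) : ℕ) (apSeq W ℓ) (fun m => w0.coeff (m : ℤ)) := by
      intro ℓ hℓ
      have hgood : W.IsGoodPrimeFor ((ℓ : Nat.Primes) : ℕ) := hℓ
      have hℓ2 : ((ℓ : Nat.Primes) : ℕ) ≠ 2 :=
        Fermat.Agent.T8.helper56.ne_two_of_isGoodPrimeFor P hc.model hgood
      have hℓN : ¬ ((ℓ : Nat.Primes) : ℕ) ∣ 4 * M' * P.p := by
        have := Fermat.Agent.T8.helper56.good_not_dvd_level P hc.cond hc.model ℓ.2 hgood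
        rwa [← mul_assoc] at this
      have hℓp : ((ℓ : Nat.Primes) : ℕ) ≠ P.p := fun h =>
        hℓN (h ▸ Dvd.intro_left (4 * M') rfl)
      have hxe : heckeOperatorBar (4 * M' * P.p) ℓ (π M' P.p x0)
          = W.apOfModel ((ℓ : Nat.Primes) : ℕ) • (π M' P.p x0) :=
        hV.eigen _ hx ℓ hgood hℓN hℓp
      have hwe := hH (4 * M') P.p P.pp hpN A hA ℓ hℓN (W.apOfModel ((ℓ : Nat.Primes) : ℕ))
        (π M' P.p x0) u f hk hxe hcomp
      exact formalEigen_of_mul_four hc0 h4 ℓ.2 hℓ2 _ hwe
    exact modularRepOfLevel_of_redCusp hc (kA A) _ hred hne heig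
  -- choose the component
  by_cases hp1 : IsPthPow P.p (f₁ : LaurentSeries (kA A))
  · have hp2 : ¬ IsPthPow P.p (f₂ : LaurentSeries (kA A)) := fun h => hnot ⟨hp1, h⟩
    exact main f₂ (Or.inr h2) D2 (fun h0 => h2.1 (Subtype.ext h0)) hp2
  · exact main f₁ (Or.inl h1) D1 (fun h0 => h1.1 (Subtype.ext h0)) hp1

end Assembly2

section Receivers

open Fermat.Agent.T8.helper67 (auxPull67)

/-- **[F3-EXIT], receiver, common form of [CUSP-GAP]**: all the closed leaves plugged. -/
theorem f3Exit_of_gapFin_real (hG : GapFinStatement auxPull67)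
    (hReal : ∀ (L : ℕ) [NeZero L], Fermat.Agent.T8.helper51.CuspAnnRealStatement L) :
    F3ExitStatement auxPull67 :=
  f3Exit_of_gapFin auxPull67 hG Fermat.Agent.T8.helper27.omegaChain
    Fermat.Agent.T8.helper87.heckeChain Fermat.Agent.T8.helper78.descentChain
    (Fermat.Agent.T8.helper51.cuspAnnChain_of_real hReal)

/-- **[F3-EXIT], receiver, class form of [CUSP-GAP]** (`helper7.CuspGapStatement`). -/
theorem f3Exit_of_class_real (hCG : Fermat.Agent.T8.helper7.CuspGapStatement auxPull67)
    (hReal : ∀ (L : ℕ) [NeZero L], Fermat.Agent.T8.helper51.CuspAnnRealStatement L) :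
    F3ExitStatement auxPull67 :=
  f3Exit_of_gapFin_real (gapFin_of_class auxPull67 hCG) hReal

/-- **[F3-EXIT], receiver, class route**: the open leaves are [CUSP-SQF] and the dictionary
side of [CUSP-ANN]. -/
theorem f3Exit_of_sqf_real (hS : Fermat.Agent.T8.helper7.CuspSqfStatement)
    (hReal : ∀ (L : ℕ) [NeZero L], Fermat.Agent.T8.helper51.CuspAnnRealStatement L) :
    F3ExitStatement auxPull67 :=
  f3Exit_of_class_real
    (Fermat.Agent.T8.helper7.cuspGap_of_leaves hS Fermat.Agent.T8.helper35.cusp4Statement) hReal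

/-- **[F3-EXIT], receiver, function form of [CUSP-GAP]** (`helper81.CuspGapChainStatement`). -/
theorem f3Exit_of_chain_real (hCG : CuspGapChainStatement)
    (hReal : ∀ (L : ℕ) [NeZero L], Fermat.Agent.T8.helper51.CuspAnnRealStatement L) :
    F3ExitStatement auxPull67 :=
  f3Exit_of_gapFin_real (gapFin_of_chain auxPull67 hCG) hReal

/-- **box (F) = [D-HECKE]**, class route -/
theorem dHecke2_of_sqf_real (hS : Fermat.Agent.T8.helper7.CuspSqfStatement)
    (hReal : ∀ (L : ℕ) [NeZero L], Fermat.Agent.T8.helper51.CuspAnnRealStatement L) :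
    DHeckeStatement2 auxPull67 wallCN :=
  Fermat.Agent.T8.helper44.dHecke2_of_f3Exit auxPull67 (f3Exit_of_sqf_real hS hReal)

/-- **box (F) = [D-HECKE]**, class form -/
theorem dHecke2_of_class_real (hCG : Fermat.Agent.T8.helper7.CuspGapStatement auxPull67)
    (hReal : ∀ (L : ℕ) [NeZero L], Fermat.Agent.T8.helper51.CuspAnnRealStatement L) :
    DHeckeStatement2 auxPull67 wallCN :=
  Fermat.Agent.T8.helper44.dHecke2_of_f3Exit auxPull67 (f3Exit_of_class_real hCG hReal)

/-- **box (F) = [D-HECKE]**, function form -/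
theorem dHecke2_of_chain_real (hCG : CuspGapChainStatement)
    (hReal : ∀ (L : ℕ) [NeZero L], Fermat.Agent.T8.helper51.CuspAnnRealStatement L) :
    DHeckeStatement2 auxPull67 wallCN :=
  Fermat.Agent.T8.helper44.dHecke2_of_f3Exit auxPull67 (f3Exit_of_chain_real hCG hReal)

end Receivers

end Fermat.Agent.T8.helper13

end
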