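import Mathlib
import Fermat.Agent.T8.helper14_CuspNorm
import Fermat.Agent.T8.helper48_CuspAFix
import Fermat.Agent.T8.helper95_CuspGapR1

/-!
# T8 [CUSP-GAP], leaf [CUSP-A]: ASSEMBLY (helper14) — `helper95.CuspAOrdAll`

All the inputs are on main:

* `helper48.atkinD`, `helper48.cuspAut_atkinD` : the Atkin–Lehner involution `W_D` at an exact
  divisor `D` of `M` and its properties (`CuspAut`, in particular `gal`);
* `helper48.wBar`, `helper48.order_wBar_jBar` : the induced automorphism `W̄_D` of `FFb A M` with
  `ord_∞ (W̄_D j̄) = - D`;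
* `helper48.isRed1_atkinD_fix` : the transport of the first-component reduction for the
  INERTIA-FIXED functions;
* `helper14.cuspAOrd_of_cuspAFix` : the norm step (all functions).

Output: `cuspAFix_squarefree`, **`cuspAOrdAll : helper95.CuspAOrdAll`**, and the consequences
`cuspSqfStatement : helper7.CuspSqfStatement`,
`cuspGapStatement : helper7.CuspGapStatement helper67.auxPull67`.
-/

set_option autoImplicit false
set_option linter.unusedSectionVars false
set_option linter.unusedVariables false
set_option linter.style.longLine false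

noncomputable section

open HahnSeries IntermediateField AlgebraicCurve ModularCurve
open Fermat.Agent.S18.helper19 Fermat.Agent.P2.helper29

namespace Fermat.Agent.T8.helper14

/-- the inertia-fixed contract at every squarefree level -/
theorem cuspAFix_squarefree (M p : ℕ) [NeZero M] [NeZero p] (hp : p.Prime) (hpM : ¬ p ∣ M)
    (hM : Squarefree M) (A : ValuationSubring Kb) (hA : A.LiesOverPrime p) :
    CuspAFixStatement A M p := by
  intro D hD
  obtain ⟨N₁, hN⟩ := hD
  have hN' : M = N₁ * D := by rw [hN, mul_comm]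
  have hcop : Nat.Coprime N₁ D := Nat.coprime_of_squarefree_mul (hN' ▸ hM)
  haveI : NeZero D := ⟨by
    rintro rfl
    exact NeZero.ne M (by rw [hN', mul_zero])⟩
  refine ⟨Fermat.Agent.T8.helper48.atkinD hp hpM N₁ D hN' hcop,
    Fermat.Agent.T8.helper48.wBar hN' hcop hp hpM hA,
    (Fermat.Agent.T8.helper48.cuspAut_atkinD (A := A) (hq := hp) (hqN := hpM) hN' hcop).gal,
    Fermat.Agent.T8.helper48.order_wBar_jBar hN' hcop hA, fun U F hU hF => ?_⟩
  exact Fermat.Agent.T8.helper48.isRed1_atkinD_fix hN' hcop hA U hU F hF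

/-- **[CUSP-A], weak form, at every squarefree level: CLOSED.** -/
theorem cuspAOrdAll : Fermat.Agent.T8.helper95.CuspAOrdAll := by
  intro M p _ _ hp hpM hM A hA
  exact cuspAOrd_of_cuspAFix hp hpM hA (cuspAFix_squarefree M p hp hpM hM A hA)

/-- **[CUSP-SQF]: CLOSED.** -/
theorem cuspSqfStatement : Fermat.Agent.T8.helper7.CuspSqfStatement :=
  Fermat.Agent.T8.helper95.cuspSqf_of_cuspAOrd cuspAOrdAll

/-- **[CUSP-GAP] (route R1): CLOSED.** -/
theorem cuspGapStatement :
    Fermat.Agent.T8.helper7.CuspGapStatement Fermat.Agent.T8.helper67.auxPull67 :=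
  Fermat.Agent.T8.helper95.cuspGap_of_cuspAOrd cuspAOrdAll

end Fermat.Agent.T8.helper14

end
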