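import Mathlib

/-!
T8 box [SLOPE], abstract part (helper5): in a unique factorisation domain, two nonzero
elements `a`, `b` whose multiplicities at every prime element differ by a multiple of `p`
satisfy `a * d ^ p = e * b * c ^ p` with a unit `e`, and every prime factor of `c * d` divides
`a * b`.  Consequence: every monoid homomorphism to `ℤ` which is defined on the elements prime
to a fixed prime element and kills the units takes values congruent modulo `p` at `a`, `b`.
Mathlib only.
-/

set_option autoImplicit false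

namespace helper5T8

variable {R : Type*} [CommRing R] [IsDomain R] [UniqueFactorizationMonoid R]

/-- multiplicities at a prime of a nonzero element are finite -/
theorem finMult {f a : R} (hf : Prime f) (ha : a ≠ 0) : FiniteMultiplicity f a :=
  FiniteMultiplicity.of_prime_left hf ha

/-- the multiplicity of `f` in `q ^ n * a` for a prime `f` not associated to the prime `q` -/
theorem multiplicity_pow_mul_of_not_associated {f q a : R} (hf : Prime f) (hq : Prime q)
    (hfq : ¬ Associated f q) (ha : a ≠ 0) (n : ℕ) :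
    multiplicity f (q ^ n * a) = multiplicity f a := by
  have hne : q ^ n * a ≠ 0 := mul_ne_zero (pow_ne_zero _ hq.ne_zero) ha
  rw [multiplicity_mul hf (finMult hf hne)]
  have h0 : multiplicity f (q ^ n) = 0 := by
    rw [multiplicity_eq_zero]
    intro hdvd
    have := hf.dvd_of_dvd_pow hdvd
    exact hfq (hf.associated_of_dvd hq this)
  rw [h0, zero_add]

/-- the multiplicity of `q` in `q ^ n * a` when `q ∤ a` -/
theorem multiplicity_pow_mul_self {q a : R} (hq : Prime q) (ha : a ≠ 0) (hqa : ¬ q ∣ a)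
    (n : ℕ) : multiplicity q (q ^ n * a) = n := by
  have hne : q ^ n * a ≠ 0 := mul_ne_zero (pow_ne_zero _ hq.ne_zero) ha
  rw [multiplicity_mul hq (finMult hq hne), multiplicity_pow_self_of_prime hq,
    multiplicity_eq_zero.mpr hqa, add_zero]

/-- **p-th power lemma in a UFD.** -/
theorem exists_pow_eq_of_multiplicity (p : ℕ) :
    ∀ n : R, ∀ a b : R, a ≠ 0 → b ≠ 0 → a * b = n →
      (∀ f : R, Prime f → (p : ℤ) ∣ (multiplicity f a : ℤ) - (multiplicity f b : ℤ)) →
      ∃ (c d : R) (e : Rˣ), a * d ^ p = (e : R) * b * c ^ p ∧ c ≠ 0 ∧ d ≠ 0 ∧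
        ∀ f : R, Prime f → f ∣ c * d → f ∣ a * b := by
  intro n
  refine WellFounded.induction (C := fun n : R => ∀ a b : R, a ≠ 0 → b ≠ 0 → a * b = n →
      (∀ f : R, Prime f → (p : ℤ) ∣ (multiplicity f a : ℤ) - (multiplicity f b : ℤ)) →
      ∃ (c d : R) (e : Rˣ), a * d ^ p = (e : R) * b * c ^ p ∧ c ≠ 0 ∧ d ≠ 0 ∧
        ∀ f : R, Prime f → f ∣ c * d → f ∣ a * b)
    (wellFounded_dvdNotUnit (α := R)) n ?_
  intro n ih a b ha hb hab h
  by_cases hu : IsUnit n
  · -- both are units
    have hua : IsUnit a := isUnit_of_mul_isUnit_left (hab ▸ hu)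
    have hub : IsUnit b := isUnit_of_mul_isUnit_right (hab ▸ hu)
    obtain ⟨ua, rfl⟩ := hua
    obtain ⟨ub, rfl⟩ := hub
    refine ⟨1, 1, ua * ub⁻¹, ?_, one_ne_zero, one_ne_zero, ?_⟩
    · simp
    · intro f hf hdvd
      rw [mul_one] at hdvd
      exact absurd (isUnit_of_dvd_one hdvd) hf.not_isUnit
  · have hn0 : n ≠ 0 := hab ▸ mul_ne_zero ha hb
    obtain ⟨q, hqirr, hqn⟩ := WfDvdMonoid.exists_irreducible_factor hu hn0
    have hq : Prime q := UniqueFactorizationMonoid.irreducible_iff_prime.mp hqirr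
    obtain ⟨a', ha', hqa'⟩ := (finMult hq ha).exists_eq_pow_mul_and_not_dvd
    obtain ⟨b', hb', hqb'⟩ := (finMult hq hb).exists_eq_pow_mul_and_not_dvd
    set α := multiplicity q a with hα
    set β := multiplicity q b with hβ
    have ha'0 : a' ≠ 0 := by rintro rfl; rw [mul_zero] at ha'; exact ha ha'
    have hb'0 : b' ≠ 0 := by rintro rfl; rw [mul_zero] at hb'; exact hb hb'
    have hαβ : 0 < α + β := by
      rcases hq.dvd_or_dvd (hab ▸ hqn) with h1 | h1
      · have : 0 < α := multiplicity_pos_of_dvd h1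
        omega
      · have : 0 < β := multiplicity_pos_of_dvd h1
        omega
    -- the smaller pair
    have hn' : n = q ^ (α + β) * (a' * b') := by
      rw [← hab, ha', hb']
      change q ^ α * a' * (q ^ β * b') = _
      ring
    have hlt : DvdNotUnit (a' * b') n := by
      refine ⟨mul_ne_zero ha'0 hb'0, q ^ (α + β), ?_, ?_⟩
      · intro hunit
        exact hq.not_isUnit (isUnit_of_dvd_unit (dvd_pow_self q (by omega)) hunit)
      · rw [hn']; ring
    have h' : ∀ f : R, Prime f →
        (p : ℤ) ∣ (multiplicity f a' : ℤ) - (multiplicity f b' : ℤ) := by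
      intro f hf
      by_cases hfq : Associated f q
      · have e1 : multiplicity f a' = 0 := by
          rw [multiplicity_eq_zero]
          intro hd
          exact hqa' (hfq.symm.dvd.trans hd)
        have e2 : multiplicity f b' = 0 := by
          rw [multiplicity_eq_zero]
          intro hd
          exact hqb' (hfq.symm.dvd.trans hd)
        rw [e1, e2]; simp
      · have e1 : multiplicity f a = multiplicity f a' := by
          conv_lhs => rw [ha']
          exact multiplicity_pow_mul_of_not_associated hf hq hfq ha'0 _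
        have e2 : multiplicity f b = multiplicity f b' := by
          conv_lhs => rw [hb']
          exact multiplicity_pow_mul_of_not_associated hf hq hfq hb'0 _
        rw [← e1, ← e2]
        exact h f hf
    obtain ⟨c', d', e, heq, hc'0, hd'0, hdiv⟩ := ih (a' * b') hlt a' b' ha'0 hb'0 rfl h'
    have hdvdab : a' * b' ∣ a * b := by
      rw [hab, hn']
      exact Dvd.intro_left _ rfl
    have hqab : q ∣ a * b := hab ▸ hqn
    obtain ⟨k, hk⟩ := h q hq
    rw [← hα, ← hβ] at hk
    rcases le_or_gt 0 k with hk0 | hk0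
    · -- α = β + p k
      obtain ⟨k', rfl⟩ := Int.eq_ofNat_of_zero_le hk0
      have hαeq : α = β + p * k' := by
        have : (α : ℤ) = β + p * k' := by linarith
        exact_mod_cast this
      refine ⟨q ^ k' * c', d', e, ?_, mul_ne_zero (pow_ne_zero _ hq.ne_zero) hc'0, hd'0, ?_⟩
      · calc a * d' ^ p = q ^ α * (a' * d' ^ p) := by rw [ha']; ring
          _ = q ^ α * ((e : R) * b' * c' ^ p) := by rw [heq]
          _ = (e : R) * (q ^ β * b') * (q ^ k' * c') ^ p := by
              rw [hαeq, mul_pow, ← pow_mul, pow_add, mul_comm k' p]; ring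
          _ = (e : R) * b * (q ^ k' * c') ^ p := by rw [← hb']
      · intro f hf hdvd
        rw [mul_assoc] at hdvd
        rcases hf.dvd_or_dvd hdvd with h1 | h1
        · have := hf.dvd_of_dvd_pow h1
          exact ((hf.associated_of_dvd hq this).dvd_iff_dvd_left).mpr hqab
        · exact (hdiv f hf h1).trans hdvdab
    · -- β = α + p (-k)
      obtain ⟨k', hk'⟩ := Int.eq_ofNat_of_zero_le (show 0 ≤ -k by omega)
      have hβeq : β = α + p * k' := by
        have : (β : ℤ) = α + p * k' := by rw [← hk']; linarith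
        exact_mod_cast this
      refine ⟨c', q ^ k' * d', e, ?_, hc'0, mul_ne_zero (pow_ne_zero _ hq.ne_zero) hd'0, ?_⟩
      · calc a * (q ^ k' * d') ^ p = q ^ (α + p * k') * (a' * d' ^ p) := by
              rw [ha', mul_pow, ← pow_mul, pow_add, mul_comm k' p]; ring
          _ = q ^ β * ((e : R) * b' * c' ^ p) := by rw [heq, ← hβeq]
          _ = (e : R) * (q ^ β * b') * c' ^ p := by ring
          _ = (e : R) * b * c' ^ p := by rw [← hb']
      · intro f hf hdvd
        have hdvd' : f ∣ q ^ k' * (c' * d') := by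
          have : c' * (q ^ k' * d') = q ^ k' * (c' * d') := by ring
          rwa [this] at hdvd
        rcases hf.dvd_or_dvd hdvd' with h1 | h1
        · have := hf.dvd_of_dvd_pow h1
          exact ((hf.associated_of_dvd hq this).dvd_iff_dvd_left).mpr hqab
        · exact (hdiv f hf h1).trans hdvdab

/-- **Abstract slope lemma.**  `x₁` a prime element, `φ` a multiplicative function with values
in `ℤ` on the elements prime to `x₁`, trivial on units.  If the multiplicities of `a` and `b`
at every prime differ by multiples of `p`, and `x₁` divides neither, then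
`φ a ≡ φ b` modulo `p`. -/
theorem slope_abstract (p : ℕ) (x₁ : R) (hx₁ : Prime x₁) (φ : R → ℤ)
    (hφmul : ∀ u v : R, ¬ x₁ ∣ u → ¬ x₁ ∣ v → φ (u * v) = φ u + φ v)
    (hφunit : ∀ e : Rˣ, φ (e : R) = 0)
    (a b : R) (ha : a ≠ 0) (hb : b ≠ 0) (hxa : ¬ x₁ ∣ a) (hxb : ¬ x₁ ∣ b)
    (h : ∀ f : R, Prime f → (p : ℤ) ∣ (multiplicity f a : ℤ) - (multiplicity f b : ℤ)) :
    (p : ℤ) ∣ φ a - φ b := by
  obtain ⟨c, d, e, heq, hc0, hd0, hdiv⟩ := exists_pow_eq_of_multiplicity p (a * b) a b ha hb rfl h
  have hxab : ¬ x₁ ∣ a * b := fun hd => (hx₁.dvd_or_dvd hd).elim hxa hxb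
  have hxcd : ¬ x₁ ∣ c * d := fun hd => hxab (hdiv x₁ hx₁ hd)
  have hxc : ¬ x₁ ∣ c := fun hd => hxcd (hd.mul_right d)
  have hxd : ¬ x₁ ∣ d := fun hd => hxcd (hd.mul_left c)
  have hpow : ∀ (u : R), ¬ x₁ ∣ u → ∀ n : ℕ, ¬ x₁ ∣ u ^ n ∧ φ (u ^ n) = n * φ u + φ 1 := by
    intro u hu n
    induction n with
    | zero =>
      refine ⟨?_, by simp⟩
      rw [pow_zero]
      exact fun hd => hx₁.not_isUnit (isUnit_of_dvd_one hd)
    | succ n ih =>
      refine ⟨fun hd => hu (hx₁.dvd_of_dvd_pow hd), ?_⟩
      rw [pow_succ, hφmul _ _ ih.1 hu, ih.2]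
      push_cast
      ring
  have h1 : φ (1 : R) = 0 := by simpa using hφunit 1
  have hxe : ¬ x₁ ∣ (e : R) := fun hd => hx₁.not_isUnit (isUnit_of_dvd_unit hd e.isUnit)
  have hxeb : ¬ x₁ ∣ (e : R) * b := fun hd => (hx₁.dvd_or_dvd hd).elim hxe hxb
  have hL : φ (a * d ^ p) = φ a + p * φ d := by
    rw [hφmul _ _ hxa (hpow d hxd p).1, (hpow d hxd p).2, h1, add_zero]
  have hR : φ ((e : R) * b * c ^ p) = φ b + p * φ c := by
    rw [hφmul _ _ hxeb (hpow c hxc p).1, (hpow c hxc p).2, h1, add_zero,
      hφmul _ _ hxe hxb, hφunit, zero_add]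
  rw [heq, hR] at hL
  refine ⟨φ c - φ d, ?_⟩
  linarith

end helper5T8
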