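import Mathlib
import Fermat.Agent.T8.helper5_PthPow

/-!
# T8 leaf [SLOPE], abstract part (helper14, owner): SLOPE + COROLLARY + K1-VERSION

Abstract local model of a double point `s` (used for `X` by [RING-X] and for `X'` by [COVER]):

* `R`      : a unique factorisation domain (from [UFD2]: `helper5T8.ufd_of_quotient_pir`);
             in the instance `R = R_s` = the local ring at `s` of the `I`-fixed regular functions
             with integral pair (resp. `R'` on the cover);
* `D.x`    : the prime element `xx = W b0`  (`w1 = 1`, `w2 = 0`);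
* `D.y`    : the prime element `y = b0`     (`w1 = 0`, `w2 = 1`);
* `D.φ`    : `ord_s ∘ red1` on the elements prime to `xx` (a function `R → ℤ`, additive on the
             elements prime to `xx`, zero on units; its values on multiples of `xx` are junk).

The HORIZONTAL hypothesis `HorDvd D p a b` says that `p` divides the multiplicity of `a / b`
at every prime element of `R` not associated to `xx` or `y` (in the instance: `p ∣ ord_P (a / b)`
at all places `P` specialising to `s`, via the dictionary `horDvd_of_places`).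

Results (all Mathlib only):

* `slope`         : SLOPE      `w1 = 0`, `p ∣ w2`, horizontal  ⟹  `p ∣ φ a - φ b`;
* `slope_cor`     : COROLLARY  `w1 = 0`, horizontal  ⟹  `φ a - φ b ≡ w2 (a / b) * φ y  (mod p)`;
* `slope_cor_x`   : COROLLARY after removing the powers of `xx`;
* `slope_cor_p`   : COROLLARY in the normalisation by a constant `π = ε⁻¹ * xx * y` (`= p`):
                    `ord_s red1 (u * π ^ (- w1 u)) ≡ (w2 - w1) (u) * φ y  (mod p)`;
* `slope_K1`      : K1-VERSION: if `(p - 1) * n = ord_s red1` of the norm, then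
                    `n ≡ (w1 - w2) (norm) * φ y  (mod p)`;
* `multiplicity_eq_of_ord`, `horDvd_of_places` : the dictionary
                    "places centred at a prime element" ⟹ horizontal hypothesis.
-/

set_option autoImplicit false
set_option linter.unusedSectionVars false

namespace Fermat.Agent.T8.helper14

open helper5T8

/-- **Abstract double point.**  `x`, `y` are non-associated prime elements and `φ` is additive
on the elements prime to `x` and zero on units (`φ = ord_s ∘ red1`). -/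
structure DoublePt (R : Type*) [CommRing R] where
  /-- the prime element `xx` (`w1 = 1`, `w2 = 0`) -/
  x : R
  /-- the prime element `y` (`w1 = 0`, `w2 = 1`) -/
  y : R
  /-- `ord_s ∘ red1` (meaningful on the elements prime to `x`) -/
  φ : R → ℤ
  hx : Prime x
  hy : Prime y
  hxy : ¬ x ∣ y
  φ_mul : ∀ u v : R, ¬ x ∣ u → ¬ x ∣ v → φ (u * v) = φ u + φ v
  φ_unit : ∀ e : Rˣ, φ (e : R) = 0

variable {R : Type*} [CommRing R]

/-- the horizontal hypothesis: `p` divides the multiplicity of `a / b` at every prime element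
not associated to `x` or `y`. -/
def HorDvd (D : DoublePt R) (p : ℕ) (a b : R) : Prop :=
  ∀ f : R, Prime f → ¬ Associated f D.x → ¬ Associated f D.y →
    (p : ℤ) ∣ (multiplicity f a : ℤ) - (multiplicity f b : ℤ)

namespace DoublePt

variable (D : DoublePt R)

theorem not_dvd_one : ¬ D.x ∣ (1 : R) := fun h => D.hx.not_isUnit (isUnit_of_dvd_one h)

theorem not_dvd_unit (e : Rˣ) : ¬ D.x ∣ (e : R) :=
  fun h => D.hx.not_isUnit (isUnit_of_dvd_unit h e.isUnit)

theorem φ_one : D.φ 1 = 0 := by simpa using D.φ_unit 1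

theorem not_dvd_mul {u v : R} (hu : ¬ D.x ∣ u) (hv : ¬ D.x ∣ v) : ¬ D.x ∣ u * v :=
  fun h => (D.hx.dvd_or_dvd h).elim hu hv

theorem not_dvd_pow {u : R} (hu : ¬ D.x ∣ u) (n : ℕ) : ¬ D.x ∣ u ^ n := by
  induction n with
  | zero => rw [pow_zero]; exact D.not_dvd_one
  | succ n ih => rw [pow_succ]; exact D.not_dvd_mul ih hu

theorem φ_pow {u : R} (hu : ¬ D.x ∣ u) (n : ℕ) : D.φ (u ^ n) = n * D.φ u := by
  induction n with
  | zero => simp [D.φ_one]
  | succ n ih =>
    rw [pow_succ, D.φ_mul _ _ (D.not_dvd_pow hu n) hu, ih]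
    push_cast
    ring

theorem not_assoc_xy : ¬ Associated D.x D.y := fun h => D.hxy h.dvd

theorem not_assoc_yx : ¬ Associated D.y D.x := fun h => D.hxy h.symm.dvd

end DoublePt

section UFD

variable [IsDomain R] [UniqueFactorizationMonoid R] (D : DoublePt R)

theorem multiplicity_eq_of_assoc {f g a : R} (h : Associated f g) :
    multiplicity f a = multiplicity g a :=
  multiplicity_eq_of_associated_left h.symm

theorem DoublePt.not_y_dvd_x : ¬ D.y ∣ D.x :=
  fun h => D.not_assoc_yx (D.hy.associated_of_dvd D.hx h)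

/-- **SLOPE** (abstract): `a / b` a unit at `w1`, `p ∣ w2 (a / b)`, `p` divides the horizontal
divisor of `a / b` near `s`  ⟹  `p ∣ ord_s red1 (a / b)`. -/
theorem slope (p : ℕ) {a b : R} (ha : a ≠ 0) (hb : b ≠ 0)
    (hxa : ¬ D.x ∣ a) (hxb : ¬ D.x ∣ b) (hhor : HorDvd D p a b)
    (hy : (p : ℤ) ∣ (multiplicity D.y a : ℤ) - (multiplicity D.y b : ℤ)) :
    (p : ℤ) ∣ D.φ a - D.φ b := by
  refine slope_abstract p D.x D.hx D.φ D.φ_mul D.φ_unit a b ha hb hxa hxb ?_
  intro f hf
  by_cases hfx : Associated f D.x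
  · have e1 : multiplicity f a = 0 :=
      multiplicity_eq_zero.mpr fun hd => hxa (hfx.symm.dvd.trans hd)
    have e2 : multiplicity f b = 0 :=
      multiplicity_eq_zero.mpr fun hd => hxb (hfx.symm.dvd.trans hd)
    rw [e1, e2]; simp
  · by_cases hfy : Associated f D.y
    · rw [multiplicity_eq_of_assoc hfy, multiplicity_eq_of_assoc hfy]
      exact hy
    · exact hhor f hf hfx hfy

/-- the horizontal hypothesis does not see powers of `y` -/
theorem HorDvd.of_y_pow {p : ℕ} {a b a' b' : R} {k l : ℕ} (ha' : a' ≠ 0) (hb' : b' ≠ 0)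
    (haa : a = D.y ^ k * a') (hbb : b = D.y ^ l * b') (h : HorDvd D p a b) :
    HorDvd D p a' b' := by
  intro f hf hfx hfy
  have e1 : multiplicity f a = multiplicity f a' := by
    rw [haa]; exact multiplicity_pow_mul_of_not_associated hf D.hy hfy ha' k
  have e2 : multiplicity f b = multiplicity f b' := by
    rw [hbb]; exact multiplicity_pow_mul_of_not_associated hf D.hy hfy hb' l
  rw [← e1, ← e2]
  exact h f hf hfx hfy

/-- the horizontal hypothesis does not see powers of `x` -/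
theorem HorDvd.of_x_pow {p : ℕ} {a b a' b' : R} {k l : ℕ} (ha' : a' ≠ 0) (hb' : b' ≠ 0)
    (haa : a = D.x ^ k * a') (hbb : b = D.x ^ l * b') (h : HorDvd D p a b) :
    HorDvd D p a' b' := by
  intro f hf hfx hfy
  have e1 : multiplicity f a = multiplicity f a' := by
    rw [haa]; exact multiplicity_pow_mul_of_not_associated hf D.hx hfx ha' k
  have e2 : multiplicity f b = multiplicity f b' := by
    rw [hbb]; exact multiplicity_pow_mul_of_not_associated hf D.hx hfx hb' l
  rw [← e1, ← e2]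
  exact h f hf hfx hfy

/-- the horizontal hypothesis is symmetric -/
theorem HorDvd.symm {p : ℕ} {a b : R} (h : HorDvd D p a b) : HorDvd D p b a := by
  intro f hf hfx hfy
  have := h f hf hfx hfy
  rw [← neg_sub]
  exact (dvd_neg).mpr this

/-- the horizontal hypothesis for a product -/
theorem HorDvd.mul {p : ℕ} {a b c d : R} (ha : a ≠ 0) (hb : b ≠ 0) (hc : c ≠ 0) (hd : d ≠ 0)
    (h1 : HorDvd D p a b) (h2 : HorDvd D p c d) : HorDvd D p (a * c) (b * d) := by
  intro f hf hfx hfy
  rw [multiplicity_mul hf (finMult hf (mul_ne_zero ha hc)),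
    multiplicity_mul hf (finMult hf (mul_ne_zero hb hd))]
  have e1 := h1 f hf hfx hfy
  have e2 := h2 f hf hfx hfy
  have : ((multiplicity f a + multiplicity f c : ℕ) : ℤ) -
      ((multiplicity f b + multiplicity f d : ℕ) : ℤ) =
      ((multiplicity f a : ℤ) - multiplicity f b) + ((multiplicity f c : ℤ) - multiplicity f d) := by
    push_cast; ring
  rw [this]
  exact dvd_add e1 e2

/-- **COROLLARY** (abstract), `w1 = 0`:
`ord_s red1 (a / b) ≡ w2 (a / b) * ord_s red1 (y)  (mod p)`. -/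
theorem slope_cor (p : ℕ) {a b : R} (ha : a ≠ 0) (hb : b ≠ 0)
    (hxa : ¬ D.x ∣ a) (hxb : ¬ D.x ∣ b) (hhor : HorDvd D p a b) :
    (p : ℤ) ∣ (D.φ a - D.φ b) -
      ((multiplicity D.y a : ℤ) - (multiplicity D.y b : ℤ)) * D.φ D.y := by
  obtain ⟨a', haa, hya'⟩ := (finMult D.hy ha).exists_eq_pow_mul_and_not_dvd
  obtain ⟨b', hbb, hyb'⟩ := (finMult D.hy hb).exists_eq_pow_mul_and_not_dvd
  set k := multiplicity D.y a with hk
  set l := multiplicity D.y b with hl
  have ha'0 : a' ≠ 0 := by rintro rfl; rw [mul_zero] at haa; exact ha haa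
  have hb'0 : b' ≠ 0 := by rintro rfl; rw [mul_zero] at hbb; exact hb hbb
  have hxa' : ¬ D.x ∣ a' := fun h => hxa (haa ▸ Dvd.dvd.mul_left h _)
  have hxb' : ¬ D.x ∣ b' := fun h => hxb (hbb ▸ Dvd.dvd.mul_left h _)
  have hhor' : HorDvd D p a' b' := HorDvd.of_y_pow D ha'0 hb'0 haa hbb hhor
  have hy0 : (p : ℤ) ∣ (multiplicity D.y a' : ℤ) - (multiplicity D.y b' : ℤ) := by
    rw [multiplicity_eq_zero.mpr hya', multiplicity_eq_zero.mpr hyb']; simp
  have h0 := slope D p ha'0 hb'0 hxa' hxb' hhor' hy0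
  have hφa : D.φ a = k * D.φ D.y + D.φ a' := by
    conv_lhs => rw [haa]
    rw [D.φ_mul _ _ (D.not_dvd_pow D.hxy k) hxa', D.φ_pow D.hxy]
  have hφb : D.φ b = l * D.φ D.y + D.φ b' := by
    conv_lhs => rw [hbb]
    rw [D.φ_mul _ _ (D.not_dvd_pow D.hxy l) hxb', D.φ_pow D.hxy]
  have : (D.φ a - D.φ b) - ((k : ℤ) - (l : ℤ)) * D.φ D.y = D.φ a' - D.φ b' := by
    rw [hφa, hφb]; ring
  rw [this]
  exact h0

/-- **COROLLARY** (abstract), general `w1`: after removing the powers of `x`,
`ord_s red1 ((a / b) * x ^ (- w1)) ≡ w2 (a / b) * ord_s red1 (y)  (mod p)`. -/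
theorem slope_cor_x (p : ℕ) {a b a' b' : R} {i j : ℕ} (ha : a ≠ 0) (hb : b ≠ 0)
    (haa : a = D.x ^ i * a') (hbb : b = D.x ^ j * b') (hxa : ¬ D.x ∣ a') (hxb : ¬ D.x ∣ b')
    (hhor : HorDvd D p a b) :
    (p : ℤ) ∣ (D.φ a' - D.φ b') -
      ((multiplicity D.y a : ℤ) - (multiplicity D.y b : ℤ)) * D.φ D.y := by
  have ha'0 : a' ≠ 0 := by rintro rfl; rw [mul_zero] at haa; exact ha haa
  have hb'0 : b' ≠ 0 := by rintro rfl; rw [mul_zero] at hbb; exact hb hbb
  have hhor' : HorDvd D p a' b' := HorDvd.of_x_pow D ha'0 hb'0 haa hbb hhor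
  have e1 : multiplicity D.y a = multiplicity D.y a' := by
    rw [haa]; exact multiplicity_pow_mul_of_not_associated D.hy D.hx D.not_assoc_yx ha'0 i
  have e2 : multiplicity D.y b = multiplicity D.y b' := by
    rw [hbb]; exact multiplicity_pow_mul_of_not_associated D.hy D.hx D.not_assoc_yx hb'0 j
  rw [e1, e2]
  exact slope_cor D p ha'0 hb'0 hxa hxb hhor'

/-- the `x`-adic and `y`-adic multiplicities of `a = x ^ i * a'`, `x ∤ a'` -/
theorem multiplicity_x_eq {a a' : R} {i : ℕ} (ha : a ≠ 0) (haa : a = D.x ^ i * a')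
    (hxa : ¬ D.x ∣ a') : multiplicity D.x a = i := by
  have ha'0 : a' ≠ 0 := by rintro rfl; rw [mul_zero] at haa; exact ha haa
  rw [haa]; exact multiplicity_pow_mul_self D.hx ha'0 hxa i

/-- **COROLLARY** (abstract), normalisation by the constant `π = ε * x * y` (`ε` a unit; in the
instance `π = p`): if `a * π ^ j = π ^ i * a₁` and `b = b₁` with `x ∤ a₁`, `x ∤ b`
(so `w1 (a / b) = i - j` and `a₁ / b` represents `(a / b) * p ^ (- w1)`), then
`ord_s red1 ((a / b) * p ^ (- w1)) ≡ (w2 - w1) (a / b) * ord_s red1 (y)  (mod p)`. -/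
theorem slope_cor_p (p : ℕ) {π : R} {ε : Rˣ} (hπ : π = (ε : R) * D.x * D.y)
    {a b a₁ : R} {i j : ℕ} (ha : a ≠ 0) (hb : b ≠ 0)
    (haa : a * π ^ j = π ^ i * a₁) (hxa : ¬ D.x ∣ a₁) (hxb : ¬ D.x ∣ b)
    (hhor : HorDvd D p a b) :
    (p : ℤ) ∣ (D.φ a₁ - D.φ b) -
      (((multiplicity D.y a : ℤ) - (multiplicity D.y b : ℤ)) - ((i : ℤ) - (j : ℤ))) *
        D.φ D.y := by
  have hπ0 : π ≠ 0 := by
    rw [hπ]; exact mul_ne_zero (mul_ne_zero ε.ne_zero D.hx.ne_zero) D.hy.ne_zero
  have ha₁0 : a₁ ≠ 0 := by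
    rintro rfl
    rw [mul_zero] at haa
    exact (mul_ne_zero ha (pow_ne_zero _ hπ0)) haa
  -- horizontal hypothesis for `(a₁, b)`
  have hmul : ∀ f : R, Prime f → ¬ Associated f D.x → ¬ Associated f D.y → ∀ n : ℕ, ∀ c : R,
      c ≠ 0 → multiplicity f (π ^ n * c) = multiplicity f c := by
    intro f hf hfx hfy n c hc
    have e : π ^ n * c = D.x ^ n * (D.y ^ n * ((ε : R) ^ n * c)) := by rw [hπ]; ring
    have hε : ((ε : R) ^ n * c) ≠ 0 := mul_ne_zero (pow_ne_zero _ ε.ne_zero) hc
    rw [e, multiplicity_pow_mul_of_not_associated hf D.hx hfx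
      (mul_ne_zero (pow_ne_zero _ D.hy.ne_zero) hε) n,
      multiplicity_pow_mul_of_not_associated hf D.hy hfy hε n]
    have hu : IsUnit ((ε : R) ^ n) := (ε.isUnit).pow n
    rw [multiplicity_mul hf (finMult hf hε), multiplicity_eq_zero.mpr
      (fun hd => hf.not_isUnit (isUnit_of_dvd_unit hd hu)), zero_add]
  have hhor₁ : HorDvd D p a₁ b := by
    intro f hf hfx hfy
    have e1 : multiplicity f a = multiplicity f a₁ := by
      have h1 := hmul f hf hfx hfy j a ha
      have h2 := hmul f hf hfx hfy i a₁ ha₁0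
      rw [← h1, ← h2, mul_comm, haa]
    rw [← e1]
    exact hhor f hf hfx hfy
  have h0 := slope_cor D p ha₁0 hb hxa hxb hhor₁
  -- `y`-multiplicities
  have hym : ∀ n : ℕ, ∀ c : R, c ≠ 0 →
      multiplicity D.y (π ^ n * c) = n + multiplicity D.y c := by
    intro n c hc
    have e : π ^ n * c = D.x ^ n * (D.y ^ n * ((ε : R) ^ n * c)) := by rw [hπ]; ring
    have hε : ((ε : R) ^ n * c) ≠ 0 := mul_ne_zero (pow_ne_zero _ ε.ne_zero) hc
    have hu : IsUnit ((ε : R) ^ n) := (ε.isUnit).pow n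
    rw [e, multiplicity_pow_mul_of_not_associated D.hy D.hx D.not_assoc_yx
      (mul_ne_zero (pow_ne_zero _ D.hy.ne_zero) hε) n,
      multiplicity_mul D.hy (finMult D.hy (mul_ne_zero (pow_ne_zero _ D.hy.ne_zero) hε)),
      multiplicity_pow_self_of_prime D.hy,
      multiplicity_mul D.hy (finMult D.hy hε), multiplicity_eq_zero.mpr
      (fun hd => D.hy.not_isUnit (isUnit_of_dvd_unit hd hu)), zero_add]
  have e3 : (j : ℤ) + multiplicity D.y a = (i : ℤ) + multiplicity D.y a₁ := by
    have h1 := hym j a ha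
    have h2 := hym i a₁ ha₁0
    rw [mul_comm, haa, h2] at h1
    exact_mod_cast h1.symm
  have : ((multiplicity D.y a : ℤ) - (multiplicity D.y b : ℤ)) - ((i : ℤ) - (j : ℤ)) =
      (multiplicity D.y a₁ : ℤ) - (multiplicity D.y b : ℤ) := by linarith
  rw [this]
  exact h0

/-- **K1-VERSION** (abstract arithmetic): if the reduction of the norm `a / b` (degree `p - 1`)
has order `(p - 1) * n` at `s`, then `n ≡ - w2 (a / b) * ord_s red1 (y)  (mod p)`. -/
theorem slope_K1 (p : ℕ) {a b : R} (ha : a ≠ 0) (hb : b ≠ 0)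
    (hxa : ¬ D.x ∣ a) (hxb : ¬ D.x ∣ b) (hhor : HorDvd D p a b)
    (n : ℤ) (hn : ((p : ℤ) - 1) * n = D.φ a - D.φ b) :
    (p : ℤ) ∣ n + ((multiplicity D.y a : ℤ) - (multiplicity D.y b : ℤ)) * D.φ D.y := by
  have h0 := slope_cor D p ha hb hxa hxb hhor
  rw [← hn] at h0
  have : n + ((multiplicity D.y a : ℤ) - (multiplicity D.y b : ℤ)) * D.φ D.y =
      (p : ℤ) * n - (((p : ℤ) - 1) * n -
        ((multiplicity D.y a : ℤ) - (multiplicity D.y b : ℤ)) * D.φ D.y) := by ring
  rw [this]
  exact dvd_sub (Dvd.intro _ rfl) h0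

/-! ### The dictionary: places centred at prime elements -/

/-- an additive function on the nonzero elements which takes the value `e` at the prime `f`
and vanishes on the elements prime to `f` is `e` times the multiplicity at `f`. -/
theorem ord_eq_mul_multiplicity {f : R} (hf : Prime f) (o : R → ℤ) (e : ℤ)
    (hmul : ∀ a b : R, a ≠ 0 → b ≠ 0 → o (a * b) = o a + o b)
    (hf1 : o f = e) (h0 : ∀ g : R, g ≠ 0 → ¬ f ∣ g → o g = 0) {a : R} (ha : a ≠ 0) :
    o a = e * (multiplicity f a : ℤ) := by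
  obtain ⟨a', haa, hfa'⟩ := (finMult hf ha).exists_eq_pow_mul_and_not_dvd
  have ha'0 : a' ≠ 0 := by rintro rfl; rw [mul_zero] at haa; exact ha haa
  have hpow : ∀ n : ℕ, o (f ^ n) = n * e := by
    intro n
    induction n with
    | zero =>
      have h1 := hmul 1 1 one_ne_zero one_ne_zero
      rw [mul_one] at h1
      have : o 1 = 0 := by linarith
      simp [this]
    | succ n ih =>
      rw [pow_succ, hmul _ _ (pow_ne_zero _ hf.ne_zero) hf.ne_zero, ih, hf1]
      push_cast; ring
  conv_lhs => rw [haa]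
  rw [hmul _ _ (pow_ne_zero _ hf.ne_zero) ha'0, hpow, h0 a' ha'0 hfa']
  ring

/-- **dictionary** ⟹ horizontal hypothesis: if every prime element `f` not associated to `x`,
`y` is the centre of a "place" `o` (additive, `o f = e` prime to `p`, `o = 0` on the elements
prime to `f`) with `p ∣ o a - o b`, then `HorDvd D p a b`. -/
theorem horDvd_of_places {p : ℕ} (hp : p.Prime) {a b : R} (ha : a ≠ 0) (hb : b ≠ 0)
    (h : ∀ f : R, Prime f → ¬ Associated f D.x → ¬ Associated f D.y →
      ∃ (o : R → ℤ) (e : ℤ), (∀ a b : R, a ≠ 0 → b ≠ 0 → o (a * b) = o a + o b) ∧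
        o f = e ∧ ¬ (p : ℤ) ∣ e ∧ (∀ g : R, g ≠ 0 → ¬ f ∣ g → o g = 0) ∧
        (p : ℤ) ∣ o a - o b) :
    HorDvd D p a b := by
  intro f hf hfx hfy
  obtain ⟨o, e, hmul, hf1, hpe, h0, hdvd⟩ := h f hf hfx hfy
  rw [ord_eq_mul_multiplicity hf o e hmul hf1 h0 ha,
    ord_eq_mul_multiplicity hf o e hmul hf1 h0 hb, ← mul_sub] at hdvd
  have hp' : Prime (p : ℤ) := Nat.prime_iff_prime_int.mp hp
  exact (hp'.dvd_or_dvd hdvd).resolve_left hpe

end UFD

end Fermat.Agent.T8.helper14
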