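import Mathlib
import Fermat.Agent.T7.helper93_NormDepth

/-!
# T8 / [F3-EXIT], leaf [HECKE-DLOG], abstract core (helper15): the logarithmic derivative of the
Hecke norm formula

Vocabulary of main: `ModularCurve.qExpand` (`q ↦ q ^ n`), `P2.helper94.rot` (`q ↦ u q`),
`T7.helper93.nrm` / `trc` (norm / trace over the rotations by the powers of `u`),
`T3.helper90.qContract` (`U_ℓ`: the coefficient of `q ^ n` is the coefficient of `q ^ (ℓ n)`).
No modular input: Mathlib + these four definitions.

* `theta15`            : the Euler operator `θ = q d/dq` (same coefficient formula as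
                         `T3.helper67.thetaL`), `theta15_mul` (Leibniz rule);
* `IsDlog f g`         : `θ f = g * f` ("`g = θ f / f`", no division), stable under products,
                         powers, `qExpand`, `rot`, `nrm`; `p`-th powers and constants have
                         logarithmic derivative `0` in characteristic `p`;
* `isDlog_of_norm`     : if `Yn (t^ℓ) = Y₁ (t^ℓ) * ∏_{k<ℓ} Y₂ (u^k t)` (the shape of
                         `T8.helper93.normAlpha_red` / `normBeta_red`), then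
                         `θ Yn / Yn = θ Y₁ / Y₁ + U_ℓ (θ Y₂ / Y₂)`;
* `isDlog_hecke`       : for the Hecke operator (`Y₁ = Y (t^ℓ)`, `Y₂ = Y`):
                         `θ Yn / Yn = ℓ V_ℓ g + U_ℓ g = T_ℓ g` in weight `2`, `g = θ Y / Y`;
* `hecke_eigen_of_kummer` : in characteristic `p`, if moreover `Yn * Y ^ am = c * Y ^ ap * w ^ p`
                         (the reduction of the Kummer relation for `T_ℓ x = (ap - am) x`), then
                         `ℓ V_ℓ g + U_ℓ g = (ap - am) g`;
* `hecke_eigen_coeff`  : the same on coefficients: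
                         `g_{ℓ n} + ℓ g_{n / ℓ} = (ap - am) g_n`.
-/

set_option autoImplicit false
set_option linter.unusedSectionVars false
set_option linter.style.longLine false

noncomputable section

namespace Fermat.Agent.T8.helper15

open HahnSeries ModularCurve
open Fermat.Agent.P2.helper94 (rot rot_coeff)
open Fermat.Agent.T3.helper90 (qContract qContract_coeff)
open Fermat.Agent.T7.helper93 (nrm trc rotF nrm_eq_prod_range trc_eq)

section Ring

variable {R : Type*} [CommRing R]

/-- The Euler operator `θ = q d/dq` on Laurent series: the `k`-th coefficient is multiplied by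
`k`.  (Same coefficient formula as `T3.helper67.thetaL`.) -/
def theta15 (f : LaurentSeries R) : LaurentSeries R where
  coeff k := (k : R) * f.coeff k
  isPWO_support' := f.isPWO_support.mono fun k hk => by
    simp only [Function.mem_support, ne_eq] at hk ⊢
    exact fun h => hk (by rw [h, mul_zero])

@[simp]
theorem theta15_coeff (f : LaurentSeries R) (k : ℤ) :
    (theta15 f).coeff k = (k : R) * f.coeff k := rfl

theorem theta15_support (f : LaurentSeries R) : (theta15 f).support ⊆ f.support := by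
  intro k hk
  simp only [HahnSeries.mem_support, theta15_coeff, ne_eq] at hk ⊢
  exact fun h => hk (by rw [h, mul_zero])

theorem theta15_add (f g : LaurentSeries R) : theta15 (f + g) = theta15 f + theta15 g := by
  ext k
  simp [mul_add]

theorem theta15_zero : theta15 (0 : LaurentSeries R) = 0 := by
  ext k
  simp

theorem theta15_one : theta15 (1 : LaurentSeries R) = 0 := by
  ext k
  rw [theta15_coeff, HahnSeries.coeff_one, HahnSeries.coeff_zero]
  split_ifs with h
  · subst h; simp
  · simp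

theorem theta15_C (r : R) : theta15 (HahnSeries.C r : LaurentSeries R) = 0 := by
  ext k
  rw [theta15_coeff, HahnSeries.coeff_zero]
  by_cases h : k = 0
  · subst h; simp
  · rw [HahnSeries.C_apply, HahnSeries.coeff_single_of_ne h, mul_zero]

/-- **Leibniz rule** for the Euler operator. -/
theorem theta15_mul (f g : LaurentSeries R) :
    theta15 (f * g) = theta15 f * g + f * theta15 g := by
  ext n
  rw [theta15_coeff, HahnSeries.coeff_add,
    HahnSeries.coeff_mul_left' f.isPWO_support (theta15_support f),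
    HahnSeries.coeff_mul_right' g.isPWO_support (theta15_support g),
    HahnSeries.coeff_mul, Finset.mul_sum, ← Finset.sum_add_distrib]
  refine Finset.sum_congr rfl fun ij hij => ?_
  rw [Finset.mem_antidiagonal] at hij
  rw [theta15_coeff, theta15_coeff, ← hij.2.2]
  push_cast
  ring

/-! ### Logarithmic derivatives, without division -/

/-- `g` is a logarithmic derivative of `f`: `θ f = g * f`. -/
def IsDlog (f g : LaurentSeries R) : Prop := theta15 f = g * f

theorem IsDlog.mul {f₁ f₂ g₁ g₂ : LaurentSeries R} (h₁ : IsDlog f₁ g₁) (h₂ : IsDlog f₂ g₂) :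
    IsDlog (f₁ * f₂) (g₁ + g₂) := by
  unfold IsDlog at *
  rw [theta15_mul, h₁, h₂]
  ring

theorem isDlog_one : IsDlog (1 : LaurentSeries R) 0 := by
  unfold IsDlog
  rw [theta15_one, zero_mul]

theorem isDlog_C (r : R) : IsDlog (HahnSeries.C r : LaurentSeries R) 0 := by
  unfold IsDlog
  rw [theta15_C, zero_mul]

theorem IsDlog.pow {f g : LaurentSeries R} (h : IsDlog f g) (n : ℕ) :
    IsDlog (f ^ n) ((n : LaurentSeries R) * g) := by
  induction n with
  | zero => simpa using isDlog_one
  | succ n ih =>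
    have := ih.mul h
    rw [pow_succ]
    convert this using 1
    push_cast
    ring

theorem IsDlog.prod {ι : Type*} (s : Finset ι) {f g : ι → LaurentSeries R}
    (h : ∀ i ∈ s, IsDlog (f i) (g i)) : IsDlog (∏ i ∈ s, f i) (∑ i ∈ s, g i) := by
  classical
  induction s using Finset.induction_on with
  | empty => simpa using isDlog_one
  | insert a s ha ih =>
    rw [Finset.prod_insert ha, Finset.sum_insert ha]
    exact (h a (Finset.mem_insert_self a s)).mul
      (ih fun i hi => h i (Finset.mem_insert_of_mem hi))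

theorem natCast_eq_C (n : ℕ) : (n : LaurentSeries R) = HahnSeries.C (n : R) :=
  (map_natCast _ n).symm

theorem theta15_pow_succ (w : LaurentSeries R) (n : ℕ) :
    theta15 (w ^ (n + 1)) = ((n + 1 : ℕ) : LaurentSeries R) * (w ^ n * theta15 w) := by
  induction n with
  | zero => simp
  | succ n ih =>
    rw [pow_succ, theta15_mul, ih]
    push_cast
    ring

/-- a `p`-th power has logarithmic derivative `0` in characteristic `p` -/
theorem isDlog_pow_char (p : ℕ) [CharP R p] (w : LaurentSeries R) :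
    IsDlog (w ^ p) 0 := by
  unfold IsDlog
  rw [zero_mul]
  rcases Nat.eq_zero_or_pos p with h | h
  · subst h
    rw [pow_zero, theta15_one]
  · obtain ⟨m, rfl⟩ := Nat.exists_eq_succ_of_ne_zero h.ne'
    rw [Nat.succ_eq_add_one, theta15_pow_succ, natCast_eq_C, CharP.cast_eq_zero R (m + 1),
      map_zero, zero_mul]

/-! ### Compatibility with `q ↦ q ^ n` and with rotations -/

theorem theta15_qExpand (n : ℕ) [NeZero n] (f : LaurentSeries R) :
    theta15 (qExpand R n f) = (n : LaurentSeries R) * qExpand R n (theta15 f) := by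
  ext k
  rw [theta15_coeff, natCast_eq_C, HahnSeries.C_mul_eq_smul, HahnSeries.coeff_smul, smul_eq_mul]
  by_cases hk : (n : ℤ) ∣ k
  · obtain ⟨m, rfl⟩ := hk
    rw [qExpand_coeff_mul, qExpand_coeff_mul, theta15_coeff]
    push_cast
    ring
  · rw [qExpand_coeff_of_not_dvd n _ hk, qExpand_coeff_of_not_dvd n _ hk, mul_zero, mul_zero]

theorem IsDlog.qExpand {f g : LaurentSeries R} (h : IsDlog f g) (n : ℕ) [NeZero n] :
    IsDlog (qExpand R n f) ((n : LaurentSeries R) * qExpand R n g) := by
  unfold IsDlog at *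
  rw [theta15_qExpand, h, map_mul]
  ring

theorem theta15_rot (u : Rˣ) (f : LaurentSeries R) :
    theta15 (rot u f) = rot u (theta15 f) := by
  ext k
  rw [theta15_coeff, rot_coeff, rot_coeff, theta15_coeff]
  ring

theorem IsDlog.rot {f g : LaurentSeries R} (h : IsDlog f g) (u : Rˣ) :
    IsDlog (rot u f) (rot u g) := by
  unfold IsDlog at *
  rw [theta15_rot, h, map_mul]

/-- the logarithmic derivative of the norm is the trace of the logarithmic derivative -/
theorem IsDlog.nrm {f g : LaurentSeries R} (h : IsDlog f g) (ℓ : ℕ) [NeZero ℓ] (u : Rˣ) :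
    IsDlog (nrm ℓ u f) (trc ℓ u g) := by
  unfold Fermat.Agent.T7.helper93.nrm Fermat.Agent.T7.helper93.trc
    Fermat.Agent.T7.helper93.rotF
  exact IsDlog.prod Finset.univ fun k _ => h.rot (u ^ (k : ℕ))

end Ring

section Domain

variable {A : Type*} [CommRing A] [IsDomain A] {ℓ : ℕ} [NeZero ℓ] {u : Aˣ}

theorem natCast_ne_zero15 (hℓ : (ℓ : A) ≠ 0) : (ℓ : LaurentSeries A) ≠ 0 := by
  rw [natCast_eq_C]
  intro h
  exact hℓ (HahnSeries.C_injective (by rw [h, map_zero]))

/-- **The logarithmic derivative of the norm formula.**  If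
`Yn (t^ℓ) = Y₁ (t^ℓ) * ∏_{k<ℓ} Y₂ (u^k t)` then `θ Yn / Yn = θ Y₁ / Y₁ + U_ℓ (θ Y₂ / Y₂)`. -/
theorem isDlog_of_norm (hu : IsPrimitiveRoot u ℓ) (hℓ : (ℓ : A) ≠ 0)
    {Yn Y₁ Y₂ g₁ g₂ : LaurentSeries A}
    (H : qExpand A ℓ Yn = qExpand A ℓ Y₁ * nrm ℓ u Y₂)
    (h₁ : IsDlog Y₁ g₁) (h₂ : IsDlog Y₂ g₂) :
    IsDlog Yn (g₁ + qContract ℓ g₂) := by
  have h3 : IsDlog (qExpand A ℓ Yn)
      ((ℓ : LaurentSeries A) * qExpand A ℓ g₁ + trc ℓ u g₂) := by
    rw [H]
    exact (h₁.qExpand ℓ).mul (h₂.nrm ℓ u)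
  unfold IsDlog at h3 ⊢
  rw [theta15_qExpand, trc_eq hu] at h3
  have h4 : (ℓ : LaurentSeries A) * qExpand A ℓ (theta15 Yn)
      = (ℓ : LaurentSeries A) * qExpand A ℓ ((g₁ + qContract ℓ g₂) * Yn) := by
    rw [h3, map_mul, map_add]
    ring
  exact Fermat.Agent.P2.helper94.qExpand_injective ℓ
    (mul_left_cancel₀ (natCast_ne_zero15 hℓ) h4)

/-- **The Hecke operator `T_ℓ` on logarithmic derivatives** (weight `2`): if
`Yn (t^ℓ) = Y (t^(ℓ²)) * ∏_{k<ℓ} Y (u^k t)` (`P2.helper93.es_norm`, `T8.helper93.normAlpha_red`)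
and `g = θ Y / Y`, then `θ Yn / Yn = ℓ V_ℓ g + U_ℓ g`. -/
theorem isDlog_hecke (hu : IsPrimitiveRoot u ℓ) (hℓ : (ℓ : A) ≠ 0)
    {Yn Y g : LaurentSeries A}
    (H : qExpand A ℓ Yn = qExpand A ℓ (qExpand A ℓ Y) * nrm ℓ u Y)
    (h : IsDlog Y g) :
    IsDlog Yn ((ℓ : LaurentSeries A) * qExpand A ℓ g + qContract ℓ g) :=
  isDlog_of_norm hu hℓ H (h.qExpand ℓ) h

/-- two logarithmic derivatives of a nonzero series agree -/
theorem IsDlog.unique {f g g' : LaurentSeries A} (hf : f ≠ 0) (h : IsDlog f g)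
    (h' : IsDlog f g') : g = g' := by
  unfold IsDlog at h h'
  rw [h] at h'
  exact mul_right_cancel₀ hf h'

/-- **Eigen relation from the Kummer relation**, characteristic `p`: if the reduced Kummer
functions satisfy `Yn * Y ^ am = c * Y ^ ap * w ^ p` with `Yn` the `T_ℓ`-norm of `Y`, then
`g = θ Y / Y` satisfies `ℓ V_ℓ g + U_ℓ g = (ap - am) g`. -/
theorem hecke_eigen_of_kummer (p : ℕ) [CharP A p] (hu : IsPrimitiveRoot u ℓ) (hℓ : (ℓ : A) ≠ 0)
    {Yn Y g w : LaurentSeries A} (c : A) (ap am : ℕ) (hY : Y ≠ 0) (hYn : Yn ≠ 0)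
    (H : qExpand A ℓ Yn = qExpand A ℓ (qExpand A ℓ Y) * nrm ℓ u Y)
    (hK : Yn * Y ^ am = HahnSeries.C c * Y ^ ap * w ^ p)
    (h : IsDlog Y g) :
    (ℓ : LaurentSeries A) * qExpand A ℓ g + qContract ℓ g
      = ((ap : LaurentSeries A) - (am : LaurentSeries A)) * g := by
  have h1 : IsDlog (Yn * Y ^ am)
      (((ℓ : LaurentSeries A) * qExpand A ℓ g + qContract ℓ g) + (am : LaurentSeries A) * g) :=
    (isDlog_hecke hu hℓ H h).mul (h.pow am)
  have h2 : IsDlog (Yn * Y ^ am) ((0 + (ap : LaurentSeries A) * g) + 0) := by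
    rw [hK]
    exact ((isDlog_C c).mul (h.pow ap)).mul (isDlog_pow_char p w)
  have hne : Yn * Y ^ am ≠ 0 := mul_ne_zero hYn (pow_ne_zero _ hY)
  have h3 := h1.unique hne h2
  linear_combination h3

/-- the same on coefficients: `g_{ℓ n} + ℓ g_{n / ℓ} = (ap - am) g_n` (the second term only if
`ℓ ∣ n`) -/
theorem hecke_eigen_coeff (p : ℕ) [CharP A p] (hu : IsPrimitiveRoot u ℓ) (hℓ : (ℓ : A) ≠ 0)
    {Yn Y g w : LaurentSeries A} (c : A) (ap am : ℕ) (hY : Y ≠ 0) (hYn : Yn ≠ 0)
    (H : qExpand A ℓ Yn = qExpand A ℓ (qExpand A ℓ Y) * nrm ℓ u Y)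
    (hK : Yn * Y ^ am = HahnSeries.C c * Y ^ ap * w ^ p)
    (h : IsDlog Y g) (n : ℤ) :
    g.coeff ((ℓ : ℤ) * n) + (ℓ : A) * (if (ℓ : ℤ) ∣ n then g.coeff (n / (ℓ : ℤ)) else 0)
      = ((ap : A) - (am : A)) * g.coeff n := by
  have e : ((ap : LaurentSeries A) - (am : LaurentSeries A))
      = HahnSeries.C ((ap : A) - (am : A)) := by
    rw [natCast_eq_C, natCast_eq_C, map_sub]
  have h1 := congrArg (fun z : LaurentSeries A => z.coeff n)
    (hecke_eigen_of_kummer p hu hℓ c ap am hY hYn H hK h)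
  beta_reduce at h1
  rw [e, HahnSeries.coeff_add, qContract_coeff, natCast_eq_C, HahnSeries.C_mul_eq_smul,
    HahnSeries.C_mul_eq_smul, HahnSeries.coeff_smul, HahnSeries.coeff_smul, smul_eq_mul,
    smul_eq_mul] at h1
  rw [← h1, add_comm]
  have h2 : (if (ℓ : ℤ) ∣ n then g.coeff (n / (ℓ : ℤ)) else 0) = (qExpand A ℓ g).coeff n := by
    split_ifs with hn
    · obtain ⟨m, rfl⟩ := hn
      have hℓ0 : (ℓ : ℤ) ≠ 0 := by exact_mod_cast NeZero.ne ℓ
      rw [qExpand_coeff_mul ℓ g m, Int.mul_ediv_cancel_left _ hℓ0]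
    · exact (qExpand_coeff_of_not_dvd ℓ g hn).symm
  rw [h2]

end Domain

end Fermat.Agent.T8.helper15
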