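import Fermat.Agent.S13.helper4_Minkowski

/-!
# T8 [W-RAM2], ramification side (helper15)

If a place `A` of `ℚ̄` over `ℓ` has all its inertia inside an open normal subgroup `N` of the
absolute Galois group, then every element of the fixed field of `N` has a valuation which is an
integral power of `A.valuation ℓ`.  Consequently an element `x` of the fixed field of `N` with
`v(x) ^ p = v(ℓ) ^ m`, `p ∤ m`, forces an inertia element outside `N`
(`exists_inertia_not_mem_of_val`).
-/

set_option autoImplicit false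
set_option linter.unusedSectionVars false
set_option linter.unusedVariables false
set_option linter.style.longLine false
set_option linter.style.haveILetI false

namespace Fermat.Agent.T8.helper15

open Fermat.Agent.S54.helper91 Fermat.Agent.S13.helper4
open scoped Pointwise

attribute [local instance] zbarAction zbarTopology algebraFixed

/-- trivial inertia gives ramification index one -/
theorem ramIdx_eq_one_of_inertia_trivial {K 𝒪 G : Type*} [Field K] [NumberField K]
    [CommRing 𝒪] [Algebra 𝒪 K] [IsIntegralClosure 𝒪 ℤ K] [IsGalois ℚ K]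
    [Group G] [Finite G] [MulSemiringAction G 𝒪] [IsGaloisGroup G ℤ 𝒪]
    (P : Ideal 𝒪) [P.IsPrime] {p : ℕ} (hp : p.Prime) (hpP : (p : 𝒪) ∈ P)
    (hall : ∀ τ ∈ Ideal.inertia G P, τ = 1) : P.ramificationIdx ℤ = 1 := by
  have := (IsIntegralClosure.algebraMap_injective 𝒪 ℤ K).isDomain
  have := IsIntegralClosure.isDedekindDomain ℤ ℚ K 𝒪
  have := IsIntegralClosure.isFractionRing_of_finite_extension ℤ ℚ K 𝒪
  have := IsIntegralClosure.finite ℤ ℚ K 𝒪
  have := CharZero.of_module (R := 𝒪) K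
  have hpne : P.under ℤ ≠ ⊥ := by
    intro hbot
    have h1 : (p : ℤ) ∈ P.under ℤ := by
      rw [Ideal.under_def, Ideal.mem_comap]
      simpa using hpP
    rw [hbot, Ideal.mem_bot] at h1
    exact hp.ne_zero (by exact_mod_cast h1)
  have : (P.under ℤ).IsMaximal := Ideal.IsPrime.isMaximal inferInstance hpne
  rw [← Ideal.ramificationIdxIn_eq_ramificationIdx (P.under ℤ) P G,
    ← Ideal.card_inertia_eq_ramificationIdxIn (G := G) (P.under ℤ) P]
  rw [Nat.card_eq_one_iff_unique]
  refine ⟨⟨?_⟩, ⟨1⟩⟩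
  intro a b
  apply Subtype.ext
  rw [hall a.1 a.2, hall b.1 b.2]

/-- the ring of integers of a number field is a Dedekind domain (instance-robust form) -/
theorem isDedekindDomain_of_closure15 {K 𝒪 : Type*} [Field K] [NumberField K]
    [CommRing 𝒪] [Algebra 𝒪 K] [IsIntegralClosure 𝒪 ℤ K] : IsDedekindDomain 𝒪 := by
  have := (IsIntegralClosure.algebraMap_injective 𝒪 ℤ K).isDomain
  exact IsIntegralClosure.isDedekindDomain ℤ ℚ K 𝒪

/-- the prime of `ℤ` under a prime containing `ℓ` -/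
theorem under_int_eq_span {𝒪 : Type*} [CommRing 𝒪] (P : Ideal 𝒪) [P.IsPrime] {ℓ : ℕ}
    (hℓ : ℓ.Prime) (hℓP : (ℓ : 𝒪) ∈ P) : P.under ℤ = Ideal.span {(ℓ : ℤ)} := by
  have hmax : (Ideal.span {(ℓ : ℤ)}).IsMaximal :=
    PrincipalIdealRing.isMaximal_of_irreducible
      (Nat.prime_iff_prime_int.mp hℓ).irreducible
  have hle : Ideal.span {(ℓ : ℤ)} ≤ P.under ℤ := by
    rw [Ideal.span_singleton_le_iff_mem, Ideal.under_def, Ideal.mem_comap]
    simpa using hℓP
  have hne : P.under ℤ ≠ ⊤ := Ideal.IsPrime.ne_top inferInstance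
  exact (hmax.eq_of_le hne hle).symm

/-- at a prime of ramification index one over `ℓ`, every nonzero element is `ℓ ^ n` times a
local unit -/
theorem unit_mul_pow_of_ramIdx_eq_one {𝒪 : Type*} [CommRing 𝒪] [IsDedekindDomain 𝒪]
    [CharZero 𝒪] (P : Ideal 𝒪) [P.IsPrime] {ℓ : ℕ} (hℓ : ℓ.Prime) (hℓP : (ℓ : 𝒪) ∈ P)
    (he : P.ramificationIdx ℤ = 1) (z : 𝒪) (hz : z ≠ 0) :
    ∃ (n : ℕ) (s t : 𝒪), s ∉ P ∧ t ∉ P ∧ z * s = (ℓ : 𝒪) ^ n * t := by
  have hP0 : P ≠ ⊥ := by
    intro h
    rw [h, Ideal.mem_bot] at hℓP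
    exact hℓ.ne_zero (by exact_mod_cast hℓP)
  have hunder := under_int_eq_span P hℓ hℓP
  have hmax : IsLocalRing.maximalIdeal (Localization.AtPrime P) =
      Ideal.span {((ℓ : ℕ) : Localization.AtPrime P)} := by
    rw [Ideal.ramificationIdx_def, ENat.toNat_eq_iff_eq_natCast, Nat.cast_one,
      Module.length_eq_one_iff, isSimpleModule_iff_isCoatom, ← Ideal.isMaximal_def,
      IsLocalRing.isMaximal_iff] at he
    rw [← he, hunder, Ideal.map_span, Set.image_singleton]
    simp
  haveI : IsDiscreteValuationRing (Localization.AtPrime P) :=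
    IsLocalization.AtPrime.isDiscreteValuationRing_of_dedekind_domain 𝒪 hP0 _
  have hirr : Irreducible ((ℓ : ℕ) : Localization.AtPrime P) :=
    (IsDiscreteValuationRing.irreducible_iff_uniformizer _).2 hmax
  have hinj : Function.Injective (algebraMap 𝒪 (Localization.AtPrime P)) :=
    IsLocalization.injective _ P.primeCompl_le_nonZeroDivisors
  have hz' : algebraMap 𝒪 (Localization.AtPrime P) z ≠ 0 := by
    intro h
    exact hz (hinj (by rw [h, map_zero]))
  obtain ⟨n, u, hu⟩ := IsDiscreteValuationRing.eq_unit_mul_pow_irreducible hz' hirr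
  obtain ⟨t, s, hts⟩ := IsLocalization.exists_mk'_eq P.primeCompl (u : Localization.AtPrime P)
  have htP : t ∈ P.primeCompl := by
    rw [← IsLocalization.AtPrime.isUnit_mk'_iff (Localization.AtPrime P) P t s, hts]
    exact u.isUnit
  refine ⟨n, s, t, s.2, htP, ?_⟩
  apply hinj
  rw [map_mul, map_mul, map_pow, map_natCast, hu, ← hts]
  have := IsLocalization.mk'_spec (Localization.AtPrime P) t s
  linear_combination (((ℓ : ℕ) : Localization.AtPrime P)) ^ n * this

/-- powers of an element strictly between `0` and `1` are injective -/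
theorem pow_inj_of_lt_one {Γ : Type*} [LinearOrderedCommGroupWithZero Γ] {a : Γ} (h0 : a ≠ 0)
    (h1 : a < 1) {i j : ℕ} (h : a ^ i = a ^ j) : i = j := by
  have hpos : 0 < a := zero_lt_iff.mpr h0
  rcases lt_trichotomy i j with hij | hij | hij
  · exact absurd h (ne_of_gt (pow_lt_pow_right_of_lt_one₀ hpos h1 hij))
  · exact hij
  · exact absurd h (ne_of_lt (pow_lt_pow_right_of_lt_one₀ hpos h1 hij))

section Val

variable (N : Subgroup GQ) [N.Normal] (A : ValuationSubring Qbar) {ℓ : ℕ}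

/-- an algebraic integer outside `zbarPrime A` has valuation one -/
theorem val_eq_one_of_notMem_zbarPrime {b : Zbar} (hb : b ∉ zbarPrime A) :
    A.valuation (b : Qbar) = 1 := by
  have h1 : A.valuation (b : Qbar) ≤ 1 := valuation_le_one_of_isIntegral A b.2
  rw [mem_zbarPrime_iff] at hb
  exact le_antisymm h1 (not_lt.mp hb)

/-- **integrality of the value group** at a place whose prime in the fixed ring of `N` has
ramification index one -/
theorem val_fixedInts_eq_pow (hℓ : ℓ.Prime) (hA : A.LiesOverPrime ℓ)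
    [IsDedekindDomain (fixedInts N)]
    (he : ((zbarPrime A).under (fixedInts N)).ramificationIdx ℤ = 1)
    (z : fixedInts N) (hz : z ≠ 0) :
    ∃ n : ℕ, A.valuation ((z : Zbar) : Qbar) = A.valuation ((ℓ : ℕ) : Qbar) ^ n := by
  have hℓP : ((ℓ : ℕ) : fixedInts N) ∈ (zbarPrime A).under (fixedInts N) := by
    rw [Ideal.under_def, Ideal.mem_comap]
    have := natCast_mem_zbarPrime A hA
    simpa using this
  obtain ⟨n, s, t, hs, ht, hst⟩ :=
    unit_mul_pow_of_ramIdx_eq_one ((zbarPrime A).under (fixedInts N)) hℓ hℓP he z hz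
  have hs1 : A.valuation ((s : Zbar) : Qbar) = 1 :=
    val_eq_one_of_notMem_zbarPrime A (fun h => hs h)
  have ht1 : A.valuation ((t : Zbar) : Qbar) = 1 :=
    val_eq_one_of_notMem_zbarPrime A (fun h => ht h)
  have h1 := congrArg (fun w : fixedInts N => A.valuation ((w : Zbar) : Qbar)) hst
  simp only [Subalgebra.coe_mul, Subalgebra.coe_pow, map_mul, map_pow,
    hs1, ht1, mul_one] at h1
  refine ⟨n, ?_⟩
  rw [h1]
  congr 2

/-- the same for the elements of the fixed field of `N` -/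
theorem val_fixedFld_mul_pow (hℓ : ℓ.Prime) (hA : A.LiesOverPrime ℓ)
    [IsDedekindDomain (fixedInts N)]
    (he : ((zbarPrime A).under (fixedInts N)).ramificationIdx ℤ = 1)
    (x : Qbar) (hx : x ∈ fixedFld N) (hx0 : x ≠ 0) :
    ∃ n n' : ℕ, A.valuation x * A.valuation ((ℓ : ℕ) : Qbar) ^ n' =
      A.valuation ((ℓ : ℕ) : Qbar) ^ n := by
  obtain ⟨m, hm0, hmint⟩ := (isAlgebraic_int_Qbar x).exists_integral_multiple
  have hmem : (⟨m • x, hmint⟩ : Zbar) ∈ fixedInts N := by
    rw [mem_fixedInts_iff]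
    intro n hn
    apply Subtype.ext
    show n (m • x) = m • x
    rw [map_zsmul]
    congr 1
    exact hx ⟨n, hn⟩
  have hmint' : IsIntegral ℤ ((m : ℤ) : Qbar) := isIntegral_algebraMap (R := ℤ) (A := Qbar) (x := m)
  have hmem' : (⟨((m : ℤ) : Qbar), hmint'⟩ : Zbar) ∈ fixedInts N := by
    rw [mem_fixedInts_iff]
    intro n hn
    apply Subtype.ext
    show n ((m : ℤ) : Qbar) = ((m : ℤ) : Qbar)
    exact map_intCast n m
  have hm0' : ((m : ℤ) : Qbar) ≠ 0 := by exact_mod_cast hm0
  obtain ⟨n, hn⟩ := val_fixedInts_eq_pow N A hℓ hA he ⟨⟨m • x, hmint⟩, hmem⟩ (by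
    intro h
    have h1 := congrArg (fun w : fixedInts N => ((w : Zbar) : Qbar)) h
    simp only [zsmul_eq_mul] at h1
    have h2 : ((m : ℤ) : Qbar) * x = 0 := h1
    rcases mul_eq_zero.mp h2 with h3 | h3
    · exact hm0' h3
    · exact hx0 h3)
  obtain ⟨n', hn'⟩ := val_fixedInts_eq_pow N A hℓ hA he ⟨⟨((m : ℤ) : Qbar), hmint'⟩, hmem'⟩ (by
    intro h
    have h1 := congrArg (fun w : fixedInts N => ((w : Zbar) : Qbar)) h
    exact hm0' h1)
  refine ⟨n, n', ?_⟩
  have e1 : A.valuation (m • x) = A.valuation ((m : ℤ) : Qbar) * A.valuation x := by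
    rw [zsmul_eq_mul, map_mul]
  have hn2 : A.valuation (m • x) = A.valuation ((ℓ : ℕ) : Qbar) ^ n := hn
  have hn2' : A.valuation ((m : ℤ) : Qbar) = A.valuation ((ℓ : ℕ) : Qbar) ^ n' := hn'
  rw [← hn2, e1, hn2', mul_comm]

/-- **[W-RAM2], ramification side**: an element `x` of the fixed field of the open normal
subgroup `N` with `v(x) ^ p = v(ℓ) ^ m`, `p ∤ m`, forces an inertia element of `A` outside `N`. -/
theorem exists_inertia_not_mem_of_val (hN : IsOpen (N : Set GQ)) (hℓ : ℓ.Prime)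
    (hA : A.LiesOverPrime ℓ) (x : Qbar) (hx : x ∈ fixedFld N) {p m : ℕ}
    (hval : A.valuation x ^ p = A.valuation ((ℓ : ℕ) : Qbar) ^ m) (hpm : ¬ p ∣ m) :
    ∃ σ ∈ A.inertiaSubgroupIn ℚ, σ ∉ N := by
  by_contra hcon
  push Not at hcon
  have hNc : IsClosed (N : Set GQ) := Subgroup.isClosed_of_isOpen N hN
  have := finiteDimensional_fixedFld N hN
  have hnf : NumberField (fixedFld N) := ⟨⟩
  have := isGalois_fixedFld N hNc
  have := isIntegralClosure_fixed' N
  have := isGaloisGroup_quotient' N hNc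
  have hcs := compactSpace_GQ
  have : Finite (GQ ⧸ N) := Subgroup.quotient_finite_of_isOpen N hN
  have hpP : ((ℓ : ℕ) : fixedInts N) ∈ (zbarPrime A).under (fixedInts N) := by
    rw [Ideal.under_def, Ideal.mem_comap]
    have := natCast_mem_zbarPrime A hA
    simpa using this
  have hall : ∀ τ ∈ Ideal.inertia (GQ ⧸ N) ((zbarPrime A).under (fixedInts N)), τ = 1 := by
    intro τ hτ
    obtain ⟨σ₀, rfl⟩ := QuotientGroup.mk_surjective τ
    have h₀ : ∀ b ∈ fixedInts N, σ₀ • b - b ∈ zbarPrime A := by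
      intro b hb
      have h1 := hτ ⟨b, hb⟩
      exact h1
    obtain ⟨n, hn, hσQ, hσI⟩ := exists_inertia_lift N hNc (zbarPrime A) σ₀ h₀
    have hmem := hcon _ (mem_inertiaSubgroupIn_of_zbar A hℓ hA _ hσQ hσI)
    have h2 : σ₀ ∈ N := by
      have := N.mul_mem (N.inv_mem hn) hmem
      simpa using this
    exact (QuotientGroup.eq_one_iff σ₀).mpr h2
  have he := ramIdx_eq_one_of_inertia_trivial (K := fixedFld N) (𝒪 := fixedInts N)
    (G := GQ ⧸ N) ((zbarPrime A).under (fixedInts N)) hℓ hpP hall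
  haveI : IsDedekindDomain (fixedInts N) :=
    isDedekindDomain_of_closure15 (K := fixedFld N) (𝒪 := fixedInts N)
  have hvℓ1 : A.valuation ((ℓ : ℕ) : Qbar) < 1 := A.mem_nonunits_iff.mp hA
  have hℓ0 : ((ℓ : ℕ) : Qbar) ≠ 0 := by exact_mod_cast hℓ.ne_zero
  have hvℓ0 : A.valuation ((ℓ : ℕ) : Qbar) ≠ 0 := (Valuation.ne_zero_iff _).mpr hℓ0
  have hx0 : x ≠ 0 := by
    rintro rfl
    rcases Nat.eq_zero_or_pos p with hp0 | hp0
    · subst hp0
      exact hpm (Nat.zero_dvd.mpr (by
        by_contra hm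
        have : A.valuation ((ℓ : ℕ) : Qbar) ^ m < 1 := pow_lt_one₀ zero_le hvℓ1 hm
        rw [← hval, pow_zero] at this
        exact lt_irrefl _ this))
    · rw [map_zero, zero_pow hp0.ne'] at hval
      exact pow_ne_zero _ hvℓ0 hval.symm
  obtain ⟨n, n', hnn⟩ := val_fixedFld_mul_pow N A hℓ hA he x hx hx0
  apply hpm
  have h3 : A.valuation ((ℓ : ℕ) : Qbar) ^ (m + n' * p) =
      A.valuation ((ℓ : ℕ) : Qbar) ^ (n * p) := by
    rw [pow_add, ← hval, pow_mul, pow_mul, ← mul_pow, hnn]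
  have h4 := pow_inj_of_lt_one hvℓ0 hvℓ1 h3
  have h5 : m = (n - n') * p := by
    have : n' * p ≤ n * p := by omega
    rw [Nat.sub_mul]
    omega
  exact ⟨n - n', by rw [h5, mul_comm]⟩

end Val

end Fermat.Agent.T8.helper15
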