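import Fermat.Agent.T8.helper15_WRam2Val
import Fermat.Agent.T8.helper15_WRam2Ram
import Fermat.Agent.S13.helper64_TorsionSmall
import Fermat.Prelude.Def_FLTPrelim_Ramification

/-!
# T8 [W-RAM2] (helper15): the mod `p` representation of a Frey curve is RAMIFIED at `2`

* `frey_ramified_at P A hA`: for EVERY place `A` of `ℚ̄` over `2` there are an element `σ` of the
  inertia group of `A` and a `p`-torsion point `x` of the Frey curve with `σ • x ≠ x`;
* `frey_ramified_two P : ¬ P.GaloisRepUnramifiedAt 2`.

Proof: the torsion polynomial has an even constant term, so some `p`-torsion point reduces to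
the node at `2`; by the sawtooth theorem a multiple `T` has `v (x T) ^ p = v a₄ ^ 2 = v 2 ^ m`
with `p ∤ m`; if inertia acted trivially, the prime of `ℚ(E[p])` under `A` would have
ramification index one and `v (x T)` would be an integral power of `v 2`.
-/

set_option autoImplicit false
set_option linter.unusedSectionVars false
set_option linter.unusedVariables false
set_option linter.style.longLine false
set_option linter.style.haveILetI false

namespace Fermat.Agent.T8.helper15

open WeierstrassCurve WeierstrassCurve.Affine WeierstrassCurve.Affine.Point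
open Fermat.Agent.S54.helper91 Fermat.Agent.S13.helper4 Fermat.Agent.S05.helper7
open Fermat.Agent.S05.helper92

/-- `E[p]` of the Frey curve over `ℚ̄` -/
abbrev FreyTors15 (P : FreyPackage) : Type :=
  ↥(Submodule.torsionBy ℤ ((P.freyCurve : Affine ℚ)⁄Qbar).Point P.p)

/-- the kernel of the Galois action on `E[p]` -/
noncomputable def kerTors15 (P : FreyPackage) : Subgroup GQ :=
  (MulAction.toPermHom GQ (FreyTors15 P)).ker

instance kerTors15_normal (P : FreyPackage) : (kerTors15 P).Normal :=
  MonoidHom.normal_ker _

theorem mem_kerTors15 (P : FreyPackage) (σ : GQ) :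
    σ ∈ kerTors15 P ↔ ∀ x : FreyTors15 P, σ • x = x := by
  unfold kerTors15
  rw [MonoidHom.mem_ker]
  constructor
  · intro h x
    have := congrArg (fun e : Equiv.Perm (FreyTors15 P) => e x) h
    exact this
  · intro h
    ext x
    exact congrArg Subtype.val (h x)

theorem isOpen_kerTors15 (P : FreyPackage) : IsOpen (kerTors15 P : Set GQ) := by
  have hfin : Finite (FreyTors15 P) := (Fermat.Agent.S13.helper64.frey_torsionSmall P).2.1
  have : (kerTors15 P : Set GQ) = ⋂ x : FreyTors15 P, (MulAction.stabilizer GQ x : Set GQ) := by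
    ext σ
    simp only [SetLike.mem_coe, mem_kerTors15, Set.mem_iInter, MulAction.mem_stabilizer_iff]
  rw [this]
  exact isOpen_iInter_of_finite (fun x => isOpen_stabilizer_torsion _ _ x)

/-- **[W-RAM2]**: at every place over `2` some inertia element moves a `p`-torsion point of the
Frey curve -/
theorem frey_ramified_at (P : FreyPackage) (A : ValuationSubring Qbar)
    (hA : A.LiesOverPrime 2) :
    ∃ σ ∈ A.inertiaSubgroupIn ℚ, ∃ x : FreyTors15 P, σ • x ≠ x := by
  obtain ⟨T, hT0, hpT, m, hm, hval⟩ := frey_exists_torsion_val (K := Qbar) P A hA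
  have hTmem : T ∈ Submodule.torsionBy ℤ ((P.freyCurve : Affine ℚ)⁄Qbar).Point P.p := by
    rw [Submodule.mem_torsionBy_iff, natCast_zsmul]
    exact hpT
  have hx : pX (freyK P Qbar) 0 T ∈ fixedFld (kerTors15 P) := by
    rw [IntermediateField.mem_fixedField_iff]
    intro σ hσ
    have h1 := congrArg Subtype.val ((mem_kerTors15 P σ).mp hσ ⟨T, hTmem⟩)
    have h2 : σ • T = T := h1
    cases T with
    | zero => exact absurd rfl hT0
    | some x y h =>
      rw [algEquiv_smul_def] at h2
      simp only [Point.map_some] at h2
      have h3 := (Point.some.injEq _ _ _ _ _ _).mp h2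
      rw [pX_some, sub_zero]
      exact h3.1
  obtain ⟨σ, hσ, hσN⟩ := exists_inertia_not_mem_of_val (kerTors15 P) A (isOpen_kerTors15 P)
    Nat.prime_two hA _ hx hval hm
  refine ⟨σ, hσ, ?_⟩
  by_contra hcon
  push Not at hcon
  exact hσN ((mem_kerTors15 P σ).mpr hcon)

/-- **[W-RAM2]**: the mod `p` representation of a Frey curve is ramified at `2` -/
theorem frey_ramified_two (P : FreyPackage) : ¬ P.GaloisRepUnramifiedAt 2 := by
  intro h
  obtain ⟨A, hA⟩ := exists_valuationSubring_liesOver Nat.prime_two
  obtain ⟨σ, hσ, x, hx⟩ := frey_ramified_at P A hA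
  exact hx (h A hA σ hσ x)

end Fermat.Agent.T8.helper15
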