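import Fermat.Agent.T8.helper15_WRam2
import Fermat.Agent.T8.helper7_RealDefs

/-!
# T8 [W-RAM2], consumer form (helper15): a realisation of `E[p]` forces an EVEN level

* `freyReal_two_dvd`: `FreyReal P W (M' * P.p) V0 → 2 ∣ M'`;
* `modularRep_two_dvd`: under `helper72.RealStatement`, a congruent eigenform of level `M' p`
  (with the hypotheses of the top chain) forces `2 ∣ M'`.

Reason: for odd `M' p` the prime `2` is a prime of good reduction of `J₀(M' p)`, so inertia at
`2` acts trivially on its `p`-torsion (`helper7.p2Core_all`), hence on `E[p]` through the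
equivariant isomorphism of the realisation; but `E[p]` is ramified at `2`
(`frey_ramified_at`).
-/

set_option autoImplicit false
set_option linter.unusedSectionVars false
set_option linter.unusedVariables false
set_option linter.style.longLine false
set_option linter.style.haveILetI false

namespace Fermat.Agent.T8.helper15

open ModularCurve WeierstrassCurve WeierstrassCurve.Affine WeierstrassCurve.Affine.Point
open Fermat.Agent.S54.helper91 Fermat.Agent.T8.helper72

/-- **a realisation of `E[p]` in `J₀(M)` forces `2 ∣ M`** (any level `M` prime to... no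
hypothesis on `M` besides `NeZero`) -/
theorem freyReal_two_dvd_level (P : FreyPackage) (W : WeierstrassCurve ℤ) (M : ℕ) [NeZero M]
    (V0 : AddSubgroup (JZero M)) (h : FreyReal P W M V0) : 2 ∣ M := by
  by_contra h2
  have hp2 : ¬ 2 ∣ P.p := by
    intro hd
    have := (Nat.prime_dvd_prime_iff_eq Nat.prime_two P.pp).mp hd
    have := P.hp5
    omega
  have h2Mp : ¬ 2 ∣ M * P.p := by
    intro hd
    rcases (Nat.Prime.dvd_mul Nat.prime_two).mp hd with h' | h'
    · exact h2 h'
    · exact hp2 h'
  obtain ⟨A, hA⟩ := exists_valuationSubring_liesOver Nat.prime_two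
  obtain ⟨σ, hσ, x, hx⟩ := frey_ramified_at P A hA
  obtain ⟨e, he⟩ := h.iso
  have hcore := (Fermat.Agent.T8.helper7.p2Core_all M P.p 2 Nat.prime_two h2Mp A hA).1 σ hσ
    ((e x : V0) : JZero M) ⟨1, by rw [pow_one]; exact h.tors _ (e x).2⟩
  apply hx
  apply e.injective
  apply Subtype.ext
  rw [he σ x]
  exact hcore

/-- the level `M' p` form -/
theorem freyReal_two_dvd (P : FreyPackage) (W : WeierstrassCurve ℤ) (M' : ℕ) [NeZero M']
    (V0 : AddSubgroup (JZero (M' * P.p))) (h : FreyReal P W (M' * P.p) V0) : 2 ∣ M' := by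
  have h1 := freyReal_two_dvd_level P W (M' * P.p) V0 h
  rcases (Nat.Prime.dvd_mul Nat.prime_two).mp h1 with h' | h'
  · exact h'
  · exfalso
    have := (Nat.prime_dvd_prime_iff_eq Nat.prime_two P.pp).mp h'
    have := P.hp5
    omega

/-- **[W-RAM2], chain form**: under contract (A) [REAL], the hypotheses of the top chain at
level `M' p` force `2 ∣ M'` -/
theorem modularRep_two_dvd (hReal : RealStatement) (P : FreyPackage) (M' : ℕ) [NeZero M']
    (hcond : P.IsConductorLevel (M' * P.p))
    (hirr : GaloisRepIsIrreducible (K := AlgebraicClosure ℚ) ℚ P.freyCurve P.p)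
    (hmod : P.ModularRepOfLevel (M' * P.p)) : 2 ∣ M' := by
  obtain ⟨W, V0, -, hV0⟩ := hReal P M' hcond hirr hmod
  exact freyReal_two_dvd P W M' V0 hV0

end Fermat.Agent.T8.helper15
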