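import Fermat.Agent.S13.helper64_TorsionCount
import Fermat.Agent.S13.helper7_Sawtooth2
import Fermat.Agent.S13.helper1_AtTwo

/-!
# T8 [W-RAM2], valuation side (helper15)

For the Frey curve `E : y² + x y = x³ + a₂ x² + a₄ x` over an algebraically closed field `K` of
characteristic zero and a valuation subring `A` of `K` over `2`:

* `two_dvd_torsPoly_eval_zero`: the constant term of the torsion polynomial of the integral Frey
  curve is even (the ladder dies at the node modulo `2`);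
* `exists_torsion_near_node`: there is a nonzero `p`-torsion point `T` with `v (x T) < 1`;
* `unitX_nsmul`: the `p`-torsion points with unit `x`-coordinate are closed under multiples;
* `exists_torsion_pow_eq`: there is a nonzero `p`-torsion point `T` with
  `v (x T) ^ p = v a₄ ^ 2`;
* `val_a₄_sq`: `v a₄ ^ 2 = v 2 ^ m` with `p ∤ m`.
-/

set_option autoImplicit false
set_option linter.unusedSectionVars false
set_option linter.unusedVariables false
set_option linter.style.longLine false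
set_option linter.style.haveILetI false
set_option linter.unusedSimpArgs false

namespace Fermat.Agent.T8.helper15

open WeierstrassCurve WeierstrassCurve.Affine Polynomial
open Fermat.Agent.S13.helper64 Fermat.Agent.S13.helper7 Fermat.Agent.S05.helper7
open Fermat.Agent.S05.helper92

section Ladder

variable {R : Type*} [CommRing R]

/-- the ladder at the node `x = 0` of a curve with `b₄ = b₆ = b₈ = 0` -/
theorem lad_node15 (b₂ : R) (n : ℕ) :
    (n = 0 ∧ lad b₂ 0 0 0 0 n = ⟨1, 0, 0, 1⟩) ∨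
      (1 ≤ n ∧ (lad b₂ 0 0 0 0 n).X = 0 ∧ (lad b₂ 0 0 0 0 n).X' = 0 ∧
        (lad b₂ 0 0 0 0 n).Z' = 0) := by
  refine lad_induction b₂ 0 0 0 0
    (motive := fun n s => (n = 0 ∧ s = ⟨1, 0, 0, 1⟩) ∨
      (1 ≤ n ∧ s.X = 0 ∧ s.X' = 0 ∧ s.Z' = 0)) ?_ ?_ ?_ n
  · exact Or.inl ⟨rfl, rfl⟩
  · rintro n s (⟨rfl, rfl⟩ | ⟨hn, h1, h2, h3⟩)
    · left
      exact ⟨rfl, evenStep_init b₂ 0 0 0 0⟩
    · right
      refine ⟨by omega, ?_, ?_, ?_⟩
      · simp [evenStep, dblX, h1]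
      · simp [evenStep, oddX, sumNum, oddT, h1, h2, h3]
      · simp [evenStep, oddZ, oddT, h1, h2, h3]
  · rintro n s (⟨rfl, rfl⟩ | ⟨hn, h1, h2, h3⟩)
    · right
      refine ⟨by omega, ?_, ?_, ?_⟩
      · simp [oddStep, oddX, sumNum, oddT]
      · simp [oddStep, dblX]
      · simp [oddStep, dblZ]
    · right
      refine ⟨by omega, ?_, ?_, ?_⟩
      · simp [oddStep, oddX, sumNum, oddT, h1, h2, h3]
      · simp [oddStep, dblX, h2, h3]
      · simp [oddStep, dblZ, h2, h3]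

/-- the torsion polynomial of a nodal model vanishes at the node -/
theorem torsPoly_eval_zero_of_node15 (W : WeierstrassCurve R) (hb₄ : W.b₄ = 0) (hb₆ : W.b₆ = 0)
    (hb₈ : W.b₈ = 0) {n : ℕ} (hn : 1 ≤ n) : (torsPoly W n).eval 0 = 0 := by
  rw [torsPoly_eval, hb₄, hb₆, hb₈]
  rcases lad_node15 W.b₂ n with ⟨h0, -⟩ | ⟨-, h1, h2, h3⟩
  · omega
  · simp [oddT, h1, h2, h3]

end Ladder

/-- the constant term of the torsion polynomial of the integral Frey curve is even -/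
theorem two_dvd_torsPoly_eval_zero (P : FreyPackage) {n : ℕ} (hn : 1 ≤ n) :
    (2 : ℤ) ∣ (torsPoly P.freyCurveInt n).eval 0 := by
  obtain ⟨k, hk⟩ := Fermat.Agent.S13.helper1.two_dvd_freyCurveInt_a₄ P
  have h2 : ((2 : ℤ) : ZMod 2) = 0 := by decide
  have ha₄ : (Int.castRingHom (ZMod 2)) P.freyCurveInt.a₄ = 0 := by
    rw [hk, map_mul]
    simp only [eq_intCast]
    rw [h2, zero_mul]
  have h := torsPoly_eval_zero_of_node15 (P.freyCurveInt.map (Int.castRingHom (ZMod 2)))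
    (by
      rw [WeierstrassCurve.map_b₄]
      simp only [WeierstrassCurve.b₄, Fermat.Agent.S04.freyCurveInt_a₃, map_add, map_mul,
        ha₄, mul_zero, map_zero, add_zero])
    (by
      rw [WeierstrassCurve.map_b₆]
      simp only [WeierstrassCurve.b₆, Fermat.Agent.S04.freyCurveInt_a₃,
        Fermat.Agent.S04.freyCurveInt_a₆]
      simp)
    (by
      rw [WeierstrassCurve.map_b₈]
      simp only [WeierstrassCurve.b₈, Fermat.Agent.S04.freyCurveInt_a₃,
        Fermat.Agent.S04.freyCurveInt_a₆, map_add, map_sub, map_mul, map_pow, ha₄]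
      simp) hn
  rw [← torsPoly_map, eval_zero_map] at h
  exact (ZMod.intCast_zmod_eq_zero_iff_dvd _ 2).mp (by simpa using h)

section Prod

variable {K : Type*} [Field K] {Γ₀ : Type*} [LinearOrderedCommGroupWithZero Γ₀]

/-- if a product of `0 - a` has valuation `< 1`, so has one of the `a` -/
theorem exists_val_lt_one_of_prod15 (v : Valuation K Γ₀) (s : Multiset K)
    (h : v (s.map (fun a => 0 - a)).prod < 1) : ∃ a ∈ s, v a < 1 := by
  induction s using Multiset.induction_on with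
  | empty =>
    simp at h
  | cons a s ih =>
    rw [Multiset.map_cons, Multiset.prod_cons, map_mul, zero_sub, Valuation.map_neg] at h
    by_cases ha : v a < 1
    · exact ⟨a, Multiset.mem_cons_self a s, ha⟩
    · have hs : v (s.map (fun a => 0 - a)).prod < 1 := by
        by_contra hcon
        rw [not_lt] at ha hcon
        have : (1 : Γ₀) ≤ v a * v (s.map (fun a => 0 - a)).prod := by
          calc (1 : Γ₀) = 1 * 1 := (one_mul 1).symm
            _ ≤ v a * v (s.map (fun a => 0 - a)).prod := mul_le_mul' ha hcon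
        exact absurd h (not_lt.mpr this)
      obtain ⟨b, hb, hvb⟩ := ih hs
      exact ⟨b, Multiset.mem_cons_of_mem hb, hvb⟩

end Prod

section Closure

variable {K : Type*} [Field K] [DecidableEq K] [CharZero K] {Γ₀ : Type*}
  [LinearOrderedCommGroupWithZero Γ₀]

/-- the hypotheses of the local theory at a node of `y² + a₁ x y = x³ + a₂ x² + a₄ x` -/
structure NodeHyp15 (v : Valuation K Γ₀) (W : WeierstrassCurve K) (p : ℕ) : Prop where
  a₃ : W.a₃ = 0
  a₆ : W.a₆ = 0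
  va₁ : v W.a₁ ≤ 1
  va₂ : v W.a₂ ≤ 1
  va₄ : v W.a₄ < 1
  vb₂ : v W.b₂ = 1
  vp : v (p : K) = 1
  pp : p.Prime
  p2 : p ≠ 2

variable {v : Valuation K Γ₀} {W : WeierstrassCurve K} {p : ℕ}

theorem eq_one_of_mul_eq_one15 {a b : Γ₀} (ha : a ≤ 1) (hb : b ≤ 1) (h : a * b = 1) : a = 1 := by
  refine le_antisymm ha ?_
  calc (1 : Γ₀) = a * b := h.symm
    _ ≤ a * 1 := mul_le_mul_right hb a
    _ = a := mul_one a

theorem NodeHyp15.model (H : NodeHyp15 v W p) : NodeModel W 0 (4 * W.a₄) W.b₂ :=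
  nodeModel_of_a₃_a₆ W H.a₃ H.a₆

/-- torsion points are integral -/
theorem NodeHyp15.val_le_one (H : NodeHyp15 v W p) {R : W.toAffine.Point} (hR : p • R = 0) :
    v (pX W 0 R) ≤ 1 ∧ v (pM W R) ≤ 1 := by
  cases R with
  | zero =>
    refine ⟨?_, ?_⟩
    · show v (0 : K) ≤ 1
      rw [map_zero]; exact zero_le_one
    · show v (0 : K) ≤ 1
      rw [map_zero]; exact zero_le_one
  | some x y h =>
    have ha₃ : v W.a₃ ≤ 1 := by rw [H.a₃, map_zero]; exact zero_le_one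
    have ha₆ : v W.a₆ ≤ 1 := by rw [H.a₆, map_zero]; exact zero_le_one
    obtain ⟨hx, hy⟩ := Fermat.Agent.S13.v_le_one_of_nsmul_eq_zero v W.toAffine H.va₁ H.va₂ ha₃
      H.va₄.le ha₆ H.vp h hR
    refine ⟨by rw [pX_some, sub_zero]; exact hx, ?_⟩
    rw [pM_some]
    refine v.map_add_le (v.map_add_le ?_ ?_) ha₃
    · rw [map_mul]
      calc v 2 * v y ≤ 1 * 1 := mul_le_mul' (v_two_le_one v) hy
        _ = 1 := one_mul 1
    · rw [map_mul]
      calc v W.a₁ * v x ≤ 1 * 1 := mul_le_mul' H.va₁ hx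
        _ = 1 := one_mul 1

/-- the product formula `x(Q₁ + Q₂) x(Q₁ - Q₂) (x₁ - x₂)² = (x₁ x₂ - a₄)²` -/
theorem NodeHyp15.prod_formula (H : NodeHyp15 v W p) {Q₁ Q₂ : W.toAffine.Point} (h₁ : Q₁ ≠ 0)
    (h₂ : Q₂ ≠ 0) (hsum : Q₁ + Q₂ ≠ 0) (hdiff : Q₁ + -Q₂ ≠ 0)
    (hX : pX W 0 Q₁ ≠ pX W 0 Q₂) (hX₁ : pX W 0 Q₁ ≠ 0) (hX₂ : pX W 0 Q₂ ≠ 0) :
    pX W 0 (Q₁ + Q₂) * pX W 0 (Q₁ + -Q₂) * (pX W 0 Q₁ - pX W 0 Q₂) ^ 2 =
      (pX W 0 Q₁ * pX W 0 Q₂ - W.a₄) ^ 2 := by
  have hm := H.model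
  have I1a := (add_identities hm h₁ h₂ hsum).2.2.2 hX
  have I1b := (add_identities hm h₁ (neg_ne_zero.mpr h₂) hdiff).2.2.2
    (by rw [pX_neg]; exact hX)
  rw [pX_neg, pM_neg] at I1b
  have P1 := isPt_of_ne_zero hm h₁
  have P2 := isPt_of_ne_zero hm h₂
  unfold IsPt at P1 P2
  have hD : (pX W 0 Q₁ - pX W 0 Q₂) ^ 2 ≠ 0 := pow_ne_zero 2 (sub_ne_zero.mpr hX)
  have hfac : (16 : K) * pX W 0 Q₁ ^ 2 * pX W 0 Q₂ ^ 2 * (pX W 0 Q₁ - pX W 0 Q₂) ^ 2 ≠ 0 :=
    mul_ne_zero (mul_ne_zero (mul_ne_zero (by norm_num) (pow_ne_zero 2 hX₁))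
      (pow_ne_zero 2 hX₂)) hD
  apply mul_left_cancel₀ hfac
  linear_combination (4 * pX W 0 Q₁ * pX W 0 Q₂ * pX W 0 (Q₁ + Q₂) *
      (pX W 0 Q₁ - pX W 0 Q₂) ^ 2) * I1b +
    (-pM W Q₂ * pX W 0 Q₁ - pM W Q₁ * pX W 0 Q₂) ^ 2 * I1a +
    ((pM W Q₂ ^ 2 * pX W 0 Q₁ ^ 2 - pM W Q₁ ^ 2 * pX W 0 Q₂ ^ 2) +
      pX W 0 Q₁ * pX W 0 Q₂ * (pX W 0 Q₁ - pX W 0 Q₂) * (4 * W.a₄ - 4 * pX W 0 Q₁ * pX W 0 Q₂)) *
      (pX W 0 Q₁ ^ 2 * P2 - pX W 0 Q₂ ^ 2 * P1)

/-- a unit minus a non-unit is a unit -/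
theorem val_sub_eq_one15 {a c : K} (ha : v a = 1) (hc : v c < 1) : v (a - c) = 1 := by
  have h := Valuation.map_sub_eq_of_lt_left v (x := a) (y := c) (by rw [ha]; exact hc)
  rw [h, ha]

/-- **closure under addition** of the `p`-torsion points with unit `x`-coordinate -/
theorem NodeHyp15.unitX_add (H : NodeHyp15 v W p) {Q₁ Q₂ : W.toAffine.Point} (h₁ : Q₁ ≠ 0)
    (h₂ : Q₂ ≠ 0) (hp₁ : p • Q₁ = 0) (hp₂ : p • Q₂ = 0) (hv₁ : v (pX W 0 Q₁) = 1)
    (hv₂ : v (pX W 0 Q₂) = 1) (hne : Q₁ ≠ Q₂) (hne' : Q₁ ≠ -Q₂) :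
    v (pX W 0 (Q₁ + Q₂)) = 1 := by
  have h2K : (2 : K) ≠ 0 := two_ne_zero
  have hsum : Q₁ + Q₂ ≠ 0 := fun h => hne' (eq_neg_of_add_eq_zero_left h)
  have hdiff : Q₁ + -Q₂ ≠ 0 := fun h => hne (by
    have := eq_neg_of_add_eq_zero_left h
    rwa [neg_neg] at this)
  have hX : pX W 0 Q₁ ≠ pX W 0 Q₂ := by
    intro h
    rcases eq_or_eq_neg_of_pX_eq H.model h2K h₁ h₂ h with h' | h'
    · exact hne h'
    · exact hne' h'
  have hX₁ : pX W 0 Q₁ ≠ 0 := by
    intro h
    rw [h, map_zero] at hv₁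
    exact zero_ne_one hv₁
  have hX₂ : pX W 0 Q₂ ≠ 0 := by
    intro h
    rw [h, map_zero] at hv₂
    exact zero_ne_one hv₂
  have key := H.prod_formula h₁ h₂ hsum hdiff hX hX₁ hX₂
  have hps : p • (Q₁ + Q₂) = 0 := by rw [smul_add, hp₁, hp₂, add_zero]
  have hpd : p • (Q₁ + -Q₂) = 0 := by rw [smul_add, smul_neg, hp₁, hp₂, neg_zero, add_zero]
  have hs := (H.val_le_one hps).1
  have hd := (H.val_le_one hpd).1
  have hD : v ((pX W 0 Q₁ - pX W 0 Q₂) ^ 2) ≤ 1 := by
    rw [map_pow]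
    refine pow_le_one₀ zero_le ?_
    refine v.map_sub_le hv₁.le hv₂.le
  have hR : v ((pX W 0 Q₁ * pX W 0 Q₂ - W.a₄) ^ 2) = 1 := by
    rw [map_pow, val_sub_eq_one15 (by rw [map_mul, hv₁, hv₂, one_mul]) H.va₄, one_pow]
  have hval := congrArg v key
  rw [hR, map_mul, map_mul, mul_assoc] at hval
  refine eq_one_of_mul_eq_one15 hs ?_ hval
  calc v (pX W 0 (Q₁ + -Q₂)) * v ((pX W 0 Q₁ - pX W 0 Q₂) ^ 2) ≤ 1 * 1 := mul_le_mul' hd hD
    _ = 1 := one_mul 1

/-- **closure under doubling** -/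
theorem NodeHyp15.unitX_double (H : NodeHyp15 v W p) {Q : W.toAffine.Point} (h₁ : Q ≠ 0)
    (hp₁ : p • Q = 0) (hv₁ : v (pX W 0 Q) = 1) : v (pX W 0 (Q + Q)) = 1 := by
  have hX₁ : pX W 0 Q ≠ 0 := by
    intro h
    rw [h, map_zero] at hv₁
    exact zero_ne_one hv₁
  have hQQ : Q + Q ≠ 0 := by
    intro h
    have h2 : 2 • Q = 0 := by rw [two_nsmul]; exact h
    have hdvd := (nsmul_eq_zero_iff_of_prime H.pp hp₁ h₁ 2).mp h2
    exact H.p2 ((Nat.prime_dvd_prime_iff_eq H.pp Nat.prime_two).mp hdvd)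
  have I2 := (add_identities H.model h₁ h₁ hQQ).1
  have key : pX W 0 (Q + Q) * pM W Q ^ 2 = (pX W 0 Q ^ 2 - W.a₄) ^ 2 := by
    have hfac : (16 : K) * pX W 0 Q ^ 2 ≠ 0 := mul_ne_zero (by norm_num) (pow_ne_zero 2 hX₁)
    apply mul_left_cancel₀ hfac
    linear_combination I2
  have hpd : p • (Q + Q) = 0 := by rw [smul_add, hp₁, add_zero]
  have hs := (H.val_le_one hpd).1
  have hM := (H.val_le_one hp₁).2
  have hR : v ((pX W 0 Q ^ 2 - W.a₄) ^ 2) = 1 := by
    rw [map_pow, val_sub_eq_one15 (by rw [map_pow, hv₁, one_pow]) H.va₄, one_pow]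
  have hval := congrArg v key
  rw [hR, map_mul] at hval
  refine eq_one_of_mul_eq_one15 hs ?_ hval
  rw [map_pow]
  exact pow_le_one₀ zero_le hM

/-- **closure under multiples** -/
theorem NodeHyp15.unitX_nsmul (H : NodeHyp15 v W p) {Q : W.toAffine.Point} (h₁ : Q ≠ 0)
    (hp₁ : p • Q = 0) (hv₁ : v (pX W 0 Q) = 1) (k : ℕ) :
    k • Q = 0 ∨ v (pX W 0 (k • Q)) = 1 := by
  induction k with
  | zero => left; exact zero_nsmul Q
  | succ k ih =>
    rw [succ_nsmul]
    rcases ih with h0 | hk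
    · right
      rw [h0, zero_add]
      exact hv₁
    · have hkQ : k • Q ≠ 0 := by
        intro h
        rw [h] at hk
        have : v (pX W 0 (0 : W.toAffine.Point)) = 0 := by
          show v (0 : K) = 0
          exact map_zero v
        rw [this] at hk
        exact zero_ne_one hk
      have hpk : p • (k • Q) = 0 := by rw [smul_comm, hp₁, smul_zero]
      by_cases e1 : k • Q = Q
      · right
        rw [e1]
        exact H.unitX_double h₁ hp₁ hv₁
      · by_cases e2 : k • Q = -Q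
        · left
          rw [e2, neg_add_cancel]
        · right
          exact H.unitX_add hkQ h₁ hpk hp₁ hk hv₁ e1 e2

/-- a `p`-torsion point near the node has all its nonzero multiples near the node -/
theorem NodeHyp15.near_nsmul (H : NodeHyp15 v W p) {T : W.toAffine.Point} (h₁ : T ≠ 0)
    (hp₁ : p • T = 0) (hv₁ : v (pX W 0 T) < 1) (k : ℕ) (hk : k • T ≠ 0) :
    v (pX W 0 (k • T)) < 1 := by
  have hpk : p • (k • T) = 0 := by rw [smul_comm, hp₁, smul_zero]
  refine lt_of_le_of_ne (H.val_le_one hpk).1 ?_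
  intro h1
  obtain ⟨j, hj⟩ := exists_nsmul_eq_of_nsmul_ne_zero H.pp hp₁ hk
  rcases H.unitX_nsmul hk hpk h1 j with h0 | h0
  · rw [hj] at h0
    exact h₁ h0
  · rw [hj] at h0
    rw [h0] at hv₁
    exact lt_irrefl _ hv₁

/-- **the sawtooth conclusion**: a `p`-torsion point near the node has a nonzero multiple with
`v (x) ^ p = v a₄ ^ 2` -/
theorem NodeHyp15.exists_pow_eq (H : NodeHyp15 v W p) {T : W.toAffine.Point} (h₁ : T ≠ 0)
    (hp₁ : p • T = 0) (hv₁ : v (pX W 0 T) < 1) :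
    ∃ k : ℕ, k • T ≠ 0 ∧ v (pX W 0 (k • T)) ^ p = v W.a₄ ^ 2 :=
  node_sawtooth v W two_ne_zero H.a₃ H.a₆ H.vb₂ H.va₄ H.pp H.p2 hp₁ h₁
    (fun k hk => H.near_nsmul h₁ hp₁ hv₁ k hk)

end Closure

section Frey

variable {K : Type*} [Field K] [DecidableEq K] [Algebra ℚ K] [CharZero K]

/-- the discriminant of the Frey curve is not zero -/
theorem freyK_Δ_ne_zero15 (P : FreyPackage) : (freyK P K).Δ ≠ 0 := by
  intro h
  have h1 := freyK_Δ P (K := K)
  rw [h, mul_zero] at h1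
  have h2 : fA P K * fB P K * fC P K ≠ 0 :=
    mul_ne_zero (mul_ne_zero (fA_ne_zero P) (fB_ne_zero P)) (fC_ne_zero P)
  exact pow_ne_zero 2 h2 h1.symm

/-- `p = 2 n + 1` with `n ≥ 1` -/
theorem exists_half15 (P : FreyPackage) : ∃ n : ℕ, 1 ≤ n ∧ P.p = 2 * n + 1 := by
  have h5 := P.hp5
  rcases P.pp.eq_two_or_odd with h | h
  · omega
  · exact ⟨P.p / 2, by omega, by omega⟩

/-- the valuation of `p` at a place over `2` is one -/
theorem val_p_eq_one15 (P : FreyPackage) (A : ValuationSubring K) (hA : A.LiesOverPrime 2) :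
    A.valuation ((P.p : ℕ) : K) = 1 := by
  have h := valuation_intCast_eq_one_of_not_dvd (L := K) Nat.prime_two hA (n := (P.p : ℤ))
    (by
      intro h
      have h2 : (2 : ℕ) ∣ P.p := by exact_mod_cast h
      have := (Nat.prime_dvd_prime_iff_eq Nat.prime_two P.pp).1 h2
      have := P.hp5
      omega)
  simpa using h

/-- **there is a nonzero `p`-torsion point near the node at `2`** -/
theorem exists_torsion_near_node [IsAlgClosed K] (P : FreyPackage) (A : ValuationSubring K)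
    (hA : A.LiesOverPrime 2) :
    ∃ T : (freyK P K).Point, T ≠ 0 ∧ P.p • T = 0 ∧ A.valuation (pX (freyK P K) 0 T) < 1 := by
  obtain ⟨n, hn1, hpn⟩ := exists_half15 P
  have hΔ := freyK_Δ_ne_zero15 (K := K) P
  have hpK : (((2 * n + 1 : ℕ)) : K) ≠ 0 := by
    rw [← hpn]
    exact_mod_cast P.pp.ne_zero
  have hmap : torsPoly (freyK P K) n = (torsPoly P.freyCurveInt n).map (Int.castRingHom K) := by
    rw [torsPoly_map, freyK_eq_map_int]
  have heval : (torsPoly (freyK P K) n).eval 0 =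
      (((torsPoly P.freyCurveInt n).eval 0 : ℤ) : K) := by
    rw [hmap, eval_zero_map]
    rfl
  have hv0 : A.valuation ((torsPoly (freyK P K) n).eval 0) < 1 := by
    rw [heval, ← A.mem_nonunits_iff]
    exact (intCast_mem_nonunits_iff Nat.prime_two hA _).2
      (by exact_mod_cast two_dvd_torsPoly_eval_zero P hn1)
  have hsplit := IsAlgClosed.splits (torsPoly (freyK P K) n)
  rw [hsplit.eval_eq_prod_roots 0, map_mul, leadingCoeff_torsPoly _ n hpK] at hv0
  have hlc : A.valuation (-(2 * (n : K) + 1)) = 1 := by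
    rw [Valuation.map_neg]
    have := val_p_eq_one15 (K := K) P A hA
    rw [hpn] at this
    push_cast at this
    exact this
  rw [hlc, one_mul] at hv0
  obtain ⟨a, ha, hva⟩ := exists_val_lt_one_of_prod15 A.valuation _ hv0
  have hroot : (torsPoly (freyK P K) n).eval a = 0 := by
    have := (Polynomial.mem_roots (torsPoly_ne_zero _ n hpK)).mp ha
    exact this
  obtain ⟨y, hy⟩ := exists_equation' (freyK P K) a
  have hns : (freyK P K).Nonsingular a y := (equation_iff_nonsingular_of_Δ_ne_zero hΔ).mp hy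
  refine ⟨Point.some a y hns, Point.some_ne_zero hns, ?_, ?_⟩
  · rw [hpn]
    exact (nsmul_eq_zero_iff_eval_torsPoly (freyK P K) hΔ n hns).mpr hroot
  · rw [pX_some, sub_zero]
    exact hva

/-- the local hypotheses hold for the Frey curve at a place over `2` -/
theorem frey_nodeHyp15 (P : FreyPackage) (A : ValuationSubring K) (hA : A.LiesOverPrime 2) :
    NodeHyp15 A.valuation (freyK P K) P.p where
  a₃ := freyK_a₃ P K
  a₆ := freyK_a₆ P K
  va₁ := by rw [freyK_a₁, map_one]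
  va₂ := (A.valuation_le_one_iff _).mpr (freyK_a₂_mem P K A)
  va₄ := A.mem_nonunits_iff.mp (Fermat.Agent.S13.helper1.freyK_a₄_mem_nonunits P A hA)
  vb₂ := by
    have hv4 : A.valuation (4 * (freyK P K).a₂) < 1 := by
      rw [← A.mem_nonunits_iff]
      exact mul_mem_nonunits (Fermat.Agent.S13.helper1.four_mem_nonunits A hA)
        (freyK_a₂_mem P K A)
    have e : (freyK P K).b₂ = 1 + 4 * (freyK P K).a₂ := by
      simp only [WeierstrassCurve.b₂]
      rw [freyK_a₁]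
      ring
    rw [e]
    exact Valuation.map_one_add_of_lt _ hv4
  vp := val_p_eq_one15 P A hA
  pp := P.pp
  p2 := by have := P.hp5; omega

/-- `a` is odd -/
theorem not_two_dvd_a15 (P : FreyPackage) : ¬ (2 : ℤ) ∣ P.a := by
  intro h
  have h4 := P.ha4
  obtain ⟨k, hk⟩ := h
  rw [hk] at h4
  push_cast at h4
  have : ∀ z : ZMod 4, (2 : ZMod 4) * z ≠ 3 := by decide
  exact this _ h4

/-- **the valuation of `a₄` at `2`**: `v a₄ ^ 2 = v 2 ^ m` with `p ∤ m` -/
theorem val_a₄_sq15 (P : FreyPackage) (A : ValuationSubring K) (hA : A.LiesOverPrime 2) :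
    ∃ m : ℕ, ¬ P.p ∣ m ∧
      A.valuation (freyK P K).a₄ ^ 2 = A.valuation (((2 : ℕ) : K)) ^ m := by
  have hb0 := P.hb0
  have hfin : FiniteMultiplicity (2 : ℤ) P.b :=
    Int.finiteMultiplicity_iff.mpr ⟨by norm_num, hb0⟩
  obtain ⟨c, hc, hc2⟩ := hfin.exists_eq_pow_mul_and_not_dvd
  set k := multiplicity (2 : ℤ) P.b with hk
  have hk1 : 1 ≤ k := by
    by_contra h
    have hk0 : k = 0 := by omega
    rw [hk0, pow_zero, one_mul] at hc
    exact hc2 (hc ▸ Fermat.Agent.S04.two_dvd_b P)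
  have hv2 : A.valuation ((2 : ℕ) : K) < 1 := A.mem_nonunits_iff.mp hA
  have hv2' : A.valuation (2 : K) = A.valuation ((2 : ℕ) : K) := by norm_num
  have hv20 : A.valuation ((2 : ℕ) : K) ≠ 0 :=
    (Valuation.ne_zero_iff _).mpr (by norm_num)
  have hva : A.valuation ((P.a : ℤ) : K) = 1 :=
    valuation_intCast_eq_one_of_not_dvd (L := K) Nat.prime_two hA (by exact_mod_cast not_two_dvd_a15 P)
  have hvc : A.valuation ((c : ℤ) : K) = 1 :=
    valuation_intCast_eq_one_of_not_dvd (L := K) Nat.prime_two hA (by exact_mod_cast hc2)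
  have hvb : A.valuation ((P.b : ℤ) : K) = A.valuation ((2 : ℕ) : K) ^ k := by
    conv_lhs => rw [hc]
    push_cast
    rw [map_mul, map_pow, hvc, mul_one]
  have h16 : (16 : K) * (freyK P K).a₄ = -(((P.a : ℤ) : K) ^ P.p * ((P.b : ℤ) : K) ^ P.p) := by
    rw [freyK_a₄]
    have := Fermat.Agent.S04.sixteen_mul_a₄ P
    exact_mod_cast this
  have hv16 : A.valuation ((2 : ℕ) : K) ^ 4 * A.valuation (freyK P K).a₄ =
      A.valuation ((2 : ℕ) : K) ^ (k * P.p) := by
    have := congrArg A.valuation h16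
    rw [map_mul, Valuation.map_neg, map_mul, map_pow, map_pow, hva, one_pow, one_mul, hvb,
      ← pow_mul] at this
    rw [← this, ← map_pow]
    norm_num
  have h5 := P.hp5
  have hkp : 5 ≤ k * P.p := by nlinarith
  obtain ⟨j, hj⟩ : ∃ j, k * P.p = 4 + j := ⟨k * P.p - 4, by omega⟩
  have hva₄ : A.valuation (freyK P K).a₄ = A.valuation ((2 : ℕ) : K) ^ j := by
    rw [hj, pow_add] at hv16
    exact mul_left_cancel₀ (pow_ne_zero 4 hv20) hv16
  refine ⟨2 * j, ?_, ?_⟩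
  · intro hdvd
    have h8 : P.p ∣ 8 := by
      have e : 8 = 2 * (k * P.p) - 2 * j := by omega
      rw [e]
      exact Nat.dvd_sub (Dvd.dvd.mul_left (Dvd.intro_left k rfl) 2) hdvd
    have h8' : (8 : ℕ) = 2 ^ 3 := by norm_num
    rw [h8'] at h8
    have := (Nat.prime_dvd_prime_iff_eq P.pp Nat.prime_two).mp (P.pp.dvd_of_dvd_pow h8)
    omega
  · rw [hva₄, ← pow_mul, mul_comm]

/-- **[W-RAM2], valuation side**: a nonzero `p`-torsion point of the Frey curve whose
`x`-coordinate has a valuation outside the value group generated by `v 2` -/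
theorem frey_exists_torsion_val [IsAlgClosed K] (P : FreyPackage) (A : ValuationSubring K)
    (hA : A.LiesOverPrime 2) :
    ∃ T : (freyK P K).Point, T ≠ 0 ∧ P.p • T = 0 ∧ ∃ m : ℕ, ¬ P.p ∣ m ∧
      A.valuation (pX (freyK P K) 0 T) ^ P.p = A.valuation (((2 : ℕ) : K)) ^ m := by
  have H := frey_nodeHyp15 P A hA
  obtain ⟨T, hT0, hpT, hvT⟩ := exists_torsion_near_node P A hA
  obtain ⟨k, hk0, hk⟩ := H.exists_pow_eq hT0 hpT hvT
  obtain ⟨m, hm, hval⟩ := val_a₄_sq15 P A hA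
  refine ⟨k • T, hk0, by rw [smul_comm, hpT, smul_zero], m, hm, ?_⟩
  rw [hk, hval]

end Frey

end Fermat.Agent.T8.helper15
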