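import Mathlib
import Fermat.Agent.T8.helper16_RingXMirror

/-!
# T8 (row 38, at risk), leaf [SLOPE-X'], service for the cover instance (helper16)

The BASE form (`R = R_Q = locX A hq hqN Q`, `ρR = redL`, `Fb = FFb A N`, `ordS = ordAt Q`) of the
fields of `helper9.Sheet1`, and the lift of the reduction of a generator:

* `ordAt_redL_of_isUnit` : (unit) `IsUnit r → ord_Q (redL r) = 0`;
* `dvd_of_redL_eq_zero` : (ker) `redL r = 0 → xx ∣ r`; `redL_xx` : `redL xx = 0`;
  `redL_yy` : `redL y = ν`;
* `exists_redL_eq` : every function of the special fibre which is regular at `Q` is `redL a`;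
* `ordAt_nonneg_of_root`, `exists_redL_eq_of_root` : a root `z ∈ FFb A N` of the reduction of a
  MONIC polynomial over `R_Q` is regular at `Q`, hence `z = redL a` (the lift `a` of `t̄`);
* `exists_red2L_eq_of_root` : the same on the second sheet at a double point.
-/

set_option autoImplicit false
set_option synthInstance.maxHeartbeats 400000
set_option maxHeartbeats 1000000
set_option linter.unusedSectionVars false
set_option linter.unusedVariables false
set_option linter.style.longLine false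
set_option linter.style.haveILetI false

noncomputable section

open HahnSeries IntermediateField AlgebraicCurve ModularCurve
open Fermat.Agent.S18.helper19 Fermat.Agent.P2.helper29 Fermat.Agent.T2.helper36
open Fermat.Agent.S24

namespace Fermat.Agent.T8.helper16

open Fermat.Agent.P2.helper66 (iota)
open Fermat.Agent.T3.helper16 (IsUnit0)
open Fermat.Agent.T3.helper36 (RhoQ GaussIs)
open Fermat.Agent.T8.helper63 (IsRX KerRedStatement)

section Sheet1Base

variable {N q : ℕ} [NeZero N] [NeZero q] {A : ValuationSubring Kb} {hq : q.Prime}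
  {hqN : ¬ q ∣ N} {b0 : FF (N * q)} {B : PowerSeries ℤ} {ε : ℤ}

/-- (unit) the reduction of a unit of `R_Q` has order `0` at `Q` -/
theorem ordAt_redL_of_isUnit (hA : A.LiesOverPrime q) (Q : Place (kA A) (FFb A N))
    (hQ : IsFinitePt Q) {r : locX A hq hqN Q} (hr : IsUnit r) :
    ordAt Q (redL hA Q hQ r) = 0 := by
  rw [ordAt_of_mem Q (redL_mem_FFb hA Q hQ r)]
  exact ((isUnit_iff_ord_eq_zero Q _).mp ((isUnit_iff_redQ hA Q hQ r).mp hr)).2

/-- the reduction of a unit of `R_Q` is not zero -/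
theorem redL_ne_zero_of_isUnit (hA : A.LiesOverPrime q) (Q : Place (kA A) (FFb A N))
    (hQ : IsFinitePt Q) {r : locX A hq hqN Q} (hr : IsUnit r) : redL hA Q hQ r ≠ 0 :=
  (hr.map (redL hA Q hQ)).ne_zero

/-- (ker) the kernel of the reduction on the first sheet is `xx R_Q` -/
theorem dvd_of_redL_eq_zero (h : IsUnit0 hq hqN b0 B ε) (hA : A.LiesOverPrime q)
    (Q : Place (kA A) (FFb A N)) (hQ : IsFinitePt Q) (x : locX A hq hqN Q)
    (hx : (x : FF (N * q)) = atkinLehner N q hq hqN b0) {r : locX A hq hqN Q}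
    (hr : redL hA Q hQ r = 0) : x ∣ r := by
  have hK := Fermat.Agent.T8.helper63.kerRedStatement h A hA
  have hb : atkinLehner N q hq hqN b0 ≠ 0 :=
    (map_ne_zero_iff _ (atkinLehner N q hq hqN).injective).mpr h.ne_zero
  have hx' : x = locXIncl Q (xxX hK) := Subtype.ext hx
  rw [hx']
  exact (redQ_eq_zero_iff hA hK hb Q hQ).mp ((redL_eq_zero_iff hA Q hQ r).mp hr)

/-- `redL xx = 0` -/
theorem redL_xx (h : IsUnit0 hq hqN b0 B ε) (hA : A.LiesOverPrime q)
    (Q : Place (kA A) (FFb A N)) (hQ : IsFinitePt Q) (x : locX A hq hqN Q)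
    (hx : (x : FF (N * q)) = atkinLehner N q hq hqN b0) : redL hA Q hQ x = 0 := by
  have hK := Fermat.Agent.T8.helper63.kerRedStatement h A hA
  have hx' : x = locXIncl Q (xxX hK) := Subtype.ext hx
  rw [hx', redL_incl, red1X_xxX]

/-- `redL y = ν` -/
theorem redL_yy (h : IsUnit0 hq hqN b0 B ε) (hA : A.LiesOverPrime q)
    (Q : Place (kA A) (FFb A N)) (hQ : IsFinitePt Q) (y : locX A hq hqN Q)
    (hy : (y : FF (N * q)) = b0) : redL hA Q hQ y = iota (kA A) B := by
  have hK := Fermat.Agent.T8.helper63.kerRedStatement h A hA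
  have hy' : y = locXIncl Q (yyX hK) := Subtype.ext hy
  rw [hy', redL_incl, red1X_yyX]

/-- `red2L y = 0` (double point) -/
theorem red2L_yy (h : IsUnit0 hq hqN b0 B ε) (hA : A.LiesOverPrime q)
    (Q : Place (kA A) (FFb A N)) (hQ : IsFinitePt Q) (hd : 0 < ordAt Q (iota (kA A) B))
    (y : locX A hq hqN Q) (hy : (y : FF (N * q)) = b0) : red2L h hA Q hQ hd y = 0 := by
  have hK := Fermat.Agent.T8.helper63.kerRedStatement h A hA
  have hy' : y = locXIncl Q (yyX hK) := Subtype.ext hy
  rw [hy', red2L_incl, red2X_yyX]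

/-- (ker₂) the kernel of the reduction on the second sheet is `y R_Q` (double point) -/
theorem dvd_of_red2L_eq_zero (h : IsUnit0 hq hqN b0 B ε) (hA : A.LiesOverPrime q)
    (Q : Place (kA A) (FFb A N)) (hQ : IsFinitePt Q) (hd : 0 < ordAt Q (iota (kA A) B))
    (y : locX A hq hqN Q) (hy : (y : FF (N * q)) = b0) {r : locX A hq hqN Q}
    (hr : red2L h hA Q hQ hd r = 0) : y ∣ r := by
  have hK := Fermat.Agent.T8.helper63.kerRedStatement h A hA
  have hy' : y = locXIncl Q (yyX hK) := Subtype.ext hy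
  rw [hy']
  exact (red2L_eq_zero_iff h hA Q hQ hd r).mp hr

/-- every function of the special fibre which is regular at `Q` is a reduction -/
theorem exists_redL_eq (hA : A.LiesOverPrime q) (hN : 4 ∣ N ∨ 9 ∣ N)
    (Q : Place (kA A) (FFb A N)) (hQ : IsFinitePt Q) {z : LaurentSeries (kA A)}
    (hz : z ∈ FFb A N) (h0 : 0 ≤ ordAt Q z) :
    ∃ a : locX A hq hqN Q, redL hA Q hQ a = z := by
  rw [ordAt_of_mem Q hz] at h0
  obtain ⟨a, ha⟩ := redQ_surjective (hq := hq) (hqN := hqN) hA hN Q hQ
    ⟨⟨z, hz⟩, (helper82.mem_iff_ord_nonneg Q).mpr h0⟩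
  exact ⟨a, by rw [redL_apply, ha]⟩

/-- a root in the special fibre field of the reduction of a monic polynomial over `R_Q` is
regular at `Q` (the valuation ring is integrally closed) -/
theorem ordAt_nonneg_of_root (hA : A.LiesOverPrime q) (Q : Place (kA A) (FFb A N))
    (hQ : IsFinitePt Q) (f : Polynomial (locX A hq hqN Q)) (hf : f.Monic)
    {z : LaurentSeries (kA A)} (hz : z ∈ FFb A N)
    (hroot : (f.map (redL hA Q hQ)).eval z = 0) : 0 ≤ ordAt Q z := by
  have hint : IsIntegral Q.toValuationSubring (⟨z, hz⟩ : FFb A N) := by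
    refine ⟨f.map (redQ hA Q hQ), hf.map _, ?_⟩
    apply Subtype.ext
    have h1 := Polynomial.hom_eval₂ (f.map (redQ hA Q hQ))
      (algebraMap Q.toValuationSubring (FFb A N))
      ((FFb A N).val : FFb A N →+* LaurentSeries (kA A)) (⟨z, hz⟩ : FFb A N)
    have h2 : (f.map (redQ hA Q hQ)).eval₂
        (((FFb A N).val : FFb A N →+* LaurentSeries (kA A)).comp
          (algebraMap Q.toValuationSubring (FFb A N)))
        (((FFb A N).val : FFb A N →+* LaurentSeries (kA A)) (⟨z, hz⟩ : FFb A N)) =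
        f.eval₂ (redL hA Q hQ) z := Polynomial.eval₂_map _ _ _
    rw [Polynomial.eval_map] at hroot
    exact h1.trans (h2.trans hroot)
  obtain ⟨y, hy⟩ := IsIntegrallyClosed.isIntegral_iff.mp hint
  rw [ordAt_of_mem Q hz, ← hy]
  exact (helper82.mem_iff_ord_nonneg Q).mp y.2

/-- **the lift of the reduction of a generator**: a root `z` in the special fibre field of the
reduction of a monic polynomial over `R_Q` is the reduction of an element of `R_Q` -/
theorem exists_redL_eq_of_root (hA : A.LiesOverPrime q) (hN : 4 ∣ N ∨ 9 ∣ N)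
    (Q : Place (kA A) (FFb A N)) (hQ : IsFinitePt Q) (f : Polynomial (locX A hq hqN Q))
    (hf : f.Monic) {z : LaurentSeries (kA A)} (hz : z ∈ FFb A N)
    (hroot : (f.map (redL hA Q hQ)).eval z = 0) :
    ∃ a : locX A hq hqN Q, redL hA Q hQ a = z :=
  exists_redL_eq hA hN Q hQ hz (ordAt_nonneg_of_root hA Q hQ f hf hz hroot)

/-- the same on the second sheet at a double point -/
theorem exists_red2L_eq_of_root (h : IsUnit0 hq hqN b0 B ε) (hA : A.LiesOverPrime q)
    (hN : 4 ∣ N ∨ 9 ∣ N) (Q : Place (kA A) (FFb A N)) (hQ : IsFinitePt Q)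
    (hd : 0 < ordAt Q (iota (kA A) B)) (f : Polynomial (locX A hq hqN Q))
    (hf : f.Monic) {z : LaurentSeries (kA A)} (hz : z ∈ FFb A N)
    (hroot : (f.map (red2L h hA Q hQ hd)).eval z = 0) :
    ∃ a : locX A hq hqN Q, red2L h hA Q hQ hd a = z := by
  obtain ⟨Q₂, hfin, hmem, hsurj, -⟩ := exists_mirror h hA hN Q hQ hd
  have hmem' : ∀ r : locX A hq hqN Q,
      red2Loc h hA Q hQ hd r ∈ Q₂.toValuationSubring.toSubring :=
    fun r => (helper82.mem_iff_ord_nonneg Q₂).mpr (hmem r)
  have hint : IsIntegral Q₂.toValuationSubring (⟨z, hz⟩ : FFb A N) := by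
    refine ⟨f.map ((red2Loc h hA Q hQ hd).codRestrict Q₂.toValuationSubring.toSubring hmem'),
      hf.map _, ?_⟩
    apply Subtype.ext
    have h1 := Polynomial.hom_eval₂
      (f.map ((red2Loc h hA Q hQ hd).codRestrict Q₂.toValuationSubring.toSubring hmem'))
      (algebraMap Q₂.toValuationSubring (FFb A N))
      ((FFb A N).val : FFb A N →+* LaurentSeries (kA A)) (⟨z, hz⟩ : FFb A N)
    have h2 : (f.map ((red2Loc h hA Q hQ hd).codRestrict
          Q₂.toValuationSubring.toSubring hmem')).eval₂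
        (((FFb A N).val : FFb A N →+* LaurentSeries (kA A)).comp
          (algebraMap Q₂.toValuationSubring (FFb A N)))
        (((FFb A N).val : FFb A N →+* LaurentSeries (kA A)) (⟨z, hz⟩ : FFb A N)) =
        f.eval₂ (red2L h hA Q hQ hd) z := Polynomial.eval₂_map _ _ _
    rw [Polynomial.eval_map] at hroot
    exact h1.trans (h2.trans hroot)
  obtain ⟨y, hy⟩ := IsIntegrallyClosed.isIntegral_iff.mp hint
  obtain ⟨a, ha⟩ := hsurj (⟨z, hz⟩ : FFb A N)
    (by rw [← hy]; exact (helper82.mem_iff_ord_nonneg Q₂).mp y.2)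
  exact ⟨a, by rw [red2L_apply, ha]⟩

end Sheet1Base

end Fermat.Agent.T8.helper16
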