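/-
T8 (row 38 via S44), leaf [SHEET-FFB] (helper22), part 1: DENSITY ⟹ residue field `FFb`.

`Z` integral with `Z ^ n ∈ F`.  `IsDenseRoot M A Z` : for every `t ≠ 0` of `A` there is an
integral function `f` of `F` with `Z - f ∈ t A((q))`  (`F` is dense in `F(Z)` for the Gauss norm
of the sheet).  Then:

* `red_mem_FFb_of_dense` : every integral element `Y` of the sheet field `F(Z)` has its reduction
  in `FFb A M`;
* `hasRed_red_mem_FFb`   : for `HasRed (SheetGood M A Z) c G r` the reduction `r` lies in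
  `FFb A M`;
* `SheetGoodB`, `sheetGood_iff_sheetGoodB` : the good class with `red Y ∈ FFb`, equal to
  `SheetGood` under density.

The density itself (from newness, T7 `helper43.b3_iterate`) is part 2.
-/
import Mathlib
import Fermat.Agent.T8.helper22_CoverValVG

set_option autoImplicit false
set_option linter.unusedSectionVars false
set_option linter.unusedVariables false
set_option linter.style.longLine false
set_option linter.style.haveILetI false

noncomputable section

namespace Fermat.Agent.T8.helper22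

open HahnSeries IntermediateField AlgebraicCurve ModularCurve
open Fermat.Agent.S18.helper19 Fermat.Agent.P2.helper29 Fermat.Agent.P2.helper93
open Fermat.Agent.T8.helper65 Fermat.Agent.T7.helper82

variable {M : ℕ} [NeZero M] {A : ValuationSubring Kb}

theorem red_single_zero (a : A) :
    red A (HahnSeries.single 0 a) =
      algebraMap (kA A) (LaurentSeries (kA A)) (IsLocalRing.residue A a) := by
  rw [algebraMap_laurentSeries_eq_single]
  exact coeffMap_single _ _ _

theorem incl_inj {X Y : LaurentSeries A} (h : incl A X = incl A Y) : X = Y := by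
  ext j
  have h1 := congrArg (fun z : LaurentSeries Kb => z.coeff j) h
  simp only [coeffMap_coeff] at h1
  exact h1

/-- `F` is dense in `F(Z)` for the Gauss norm: `Z` is a limit of integral functions. -/
def IsDenseRoot (M : ℕ) [NeZero M] (A : ValuationSubring Kb) (Z : LaurentSeries A) : Prop :=
  ∀ t : A, t ≠ 0 → ∃ f R : LaurentSeries A, incl A f ∈ FF M ∧
    Z - f = HahnSeries.single 0 t * R

/-- the integral polynomial form of an element of the sheet field -/
theorem exists_poly_form (hSc : ScaleStatement M A) {n : ℕ} (hn : n ≠ 0) (Z : LaurentSeries A)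
    (hZ : incl A Z ^ n ∈ FF M) {G : LaurentSeries Kb} (hG : G ∈ (FF M)⟮incl A Z⟯) :
    ∃ (d : ℕ) (γ : Kb) (P : ℕ → LaurentSeries A) (Dt : LaurentSeries A), γ ≠ 0 ∧
      IsGood A M Dt ∧ (∀ i, incl A (P i) ∈ FF M) ∧
      G * incl A Dt =
        algebraMap Kb (LaurentSeries Kb) γ * incl A (∑ i ∈ Finset.range d, P i * Z ^ i) := by
  classical
  obtain ⟨d, c, hGsum⟩ := exists_sum_of_mem (isIntegral_of_pow_mem hn hZ) hG
  rcases Nat.eq_zero_or_pos d with hd | hd
  · subst hd
    refine ⟨0, 1, fun _ => 0, 1, one_ne_zero, isGood_one, fun _ => ?_, ?_⟩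
    · rw [map_zero]
      exact zero_mem _
    · rw [hGsum]
      simp
  choose γ N D hγ hN hD hND using fun i => exists_scale hSc (c i)
  have hsne : (Finset.range d).Nonempty := ⟨0, Finset.mem_range.mpr hd⟩
  obtain ⟨Dt, hDt⟩ : ∃ Dt : LaurentSeries A, Dt = ∏ i ∈ Finset.range d, D i := ⟨_, rfl⟩
  have hDtg : IsGood A M Dt := by
    rw [hDt]
    exact Fermat.Agent.T2.helper58.isGood_prod _ D (fun i _ => hD i)
  obtain ⟨E, hE⟩ : ∃ E : ℕ → LaurentSeries A,
      E = fun i => ∏ m ∈ (Finset.range d).erase i, D m := ⟨_, rfl⟩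
  have hEF : ∀ i, incl A (E i) ∈ FF M := by
    intro i
    rw [hE]
    exact (Fermat.Agent.T2.helper58.isGood_prod _ D (fun m _ => hD m)).1
  have hDE : ∀ i ∈ Finset.range d, Dt = D i * E i := by
    intro i hi
    rw [hDt, hE]
    exact (Finset.mul_prod_erase (Finset.range d) D hi).symm
  obtain ⟨i₀, hi₀, hmax⟩ :=
    Finset.exists_max_image (Finset.range d) (fun i => A.valuation (γ i)) hsne
  have hδ : ∀ i, i ∈ Finset.range d → γ i / γ i₀ ∈ A := by
    intro i hi
    rw [← A.valuation_le_one_iff, map_div₀]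
    exact div_le_one_of_le₀ (hmax i hi) zero_le
  obtain ⟨δ, hδdef⟩ : ∃ δ : ℕ → A, ∀ i ∈ Finset.range d, ((δ i : A) : Kb) = γ i / γ i₀ := by
    refine ⟨fun i => if hi : i ∈ Finset.range d then ⟨γ i / γ i₀, hδ i hi⟩ else 0, ?_⟩
    intro i hi
    simp only [dif_pos hi]
  refine ⟨d, γ i₀, fun i => HahnSeries.single 0 (δ i) * (N i * E i), Dt, hγ i₀, hDtg, ?_, ?_⟩
  · intro i
    rw [map_mul, map_mul, incl_single_zero]
    exact mul_mem ((FF M).algebraMap_mem _) (mul_mem (hN i) (hEF i))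
  · rw [hGsum, Finset.sum_mul, map_sum, Finset.mul_sum]
    refine Finset.sum_congr rfl fun i hi => ?_
    rw [hDE i hi]
    simp only [map_mul, map_pow]
    rw [incl_single_zero, hδdef i hi]
    have h1 : algebraMap Kb (LaurentSeries Kb) (γ i₀) *
        algebraMap Kb (LaurentSeries Kb) (γ i / γ i₀) =
        algebraMap Kb (LaurentSeries Kb) (γ i) := by
      rw [← map_mul, mul_div_cancel₀ _ (hγ i₀)]
    linear_combination (-(incl A (E i) * incl A Z ^ i)) * hND i -
      (incl A (N i) * incl A (E i) * incl A Z ^ i) * h1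

/-- comparison of two primitive series: `ε * S' = Y₀` with `S'`, `Y₀` of nonzero reduction:
the reductions are proportional. -/
theorem red_eq_of_const_mul {ε : Kb} {S' Y₀ : LaurentSeries A} (hS' : red A S' ≠ 0)
    (h : algebraMap Kb (LaurentSeries Kb) ε * incl A S' = incl A Y₀) :
    ∃ e : kA A, red A Y₀ = algebraMap (kA A) (LaurentSeries (kA A)) e * red A S' := by
  by_cases hε : ε ∈ A
  · refine ⟨IsLocalRing.residue A ⟨ε, hε⟩, ?_⟩
    have h1 : Y₀ = HahnSeries.single 0 (⟨ε, hε⟩ : A) * S' := by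
      apply incl_inj
      rw [map_mul, incl_single_zero]
      exact h.symm
    rw [h1, map_mul, red_single_zero]
  · exfalso
    have hinv : ε⁻¹ ∈ A := (A.mem_or_inv_mem ε).resolve_left hε
    have hres : IsLocalRing.residue A ⟨ε⁻¹, hinv⟩ = 0 :=
      Fermat.Agent.T2.helper58.residue_inv_eq_zero A hε hinv
    have hε0 : ε ≠ 0 := fun h0 => hε (h0 ▸ A.zero_mem)
    have h2 : S' = HahnSeries.single 0 (⟨ε⁻¹, hinv⟩ : A) * Y₀ := by
      apply incl_inj
      rw [map_mul, incl_single_zero, ← h, ← mul_assoc, ← map_mul]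
      show _ = algebraMap Kb (LaurentSeries Kb) (ε⁻¹ * ε) * _
      rw [inv_mul_cancel₀ hε0, map_one, one_mul]
    apply hS'
    rw [h2, map_mul, red_single_zero, hres, map_zero, zero_mul]

/-- **density ⟹ the residue field of the sheet is `FFb`.** -/
theorem red_mem_FFb_of_dense {p : ℕ} (hp : p.Prime) (hA : A.LiesOverPrime p)
    (hSc : ScaleStatement M A) {n : ℕ} (hn : n ≠ 0) (Z : LaurentSeries A)
    (hZ : incl A Z ^ n ∈ FF M) (hD : IsDenseRoot M A Z) {Y : LaurentSeries A}
    (hY : incl A Y ∈ (FF M)⟮incl A Z⟯) : red A Y ∈ FFb A M := by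
  classical
  by_cases hY0 : red A Y = 0
  · rw [hY0]
    exact zero_mem _
  haveI : CharP (IsLocalRing.ResidueField ↥A) p :=
    Fermat.Agent.P2.helper93.charP_residueField hp hA
  have hpres : IsLocalRing.residue ↥A ((p : ℕ) : ↥A) = 0 := by
    rw [map_natCast]
    exact CharP.cast_eq_zero _ p
  have hpA : ((p : ℕ) : ↥A) ≠ 0 := by
    intro h
    have h1 := congrArg (fun x : A => (x : Kb)) h
    simp only [ZeroMemClass.coe_zero] at h1
    have h2 : ((p : ℕ) : Kb) = 0 := by
      rw [← h1]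
      push_cast
      rfl
    exact hp.ne_zero (by exact_mod_cast h2)
  obtain ⟨d, γ, P, Dt, hγ, hDt, hP, hrel⟩ := exists_poly_form hSc hn Z hZ hY
  obtain ⟨S, hS⟩ : ∃ S : LaurentSeries A, S = ∑ i ∈ Finset.range d, P i * Z ^ i := ⟨_, rfl⟩
  rw [← hS] at hrel
  have hDt0 : incl A Dt ≠ 0 := incl_ne_zero_of_red hDt.2.2
  have hYi0 : incl A Y ≠ 0 := incl_ne_zero_of_red hY0
  have hS0 : S ≠ 0 := by
    intro h0
    rw [h0, map_zero, mul_zero] at hrel
    rcases mul_eq_zero.mp hrel with h | h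
    · exact hYi0 h
    · exact hDt0 h
  have hDtS : incl A Dt ∈ (FF M)⟮incl A Z⟯ := mem_sheet_of_mem _ hDt.1
  have hSS : incl A S ∈ (FF M)⟮incl A Z⟯ := by
    have h1 : incl A S = algebraMap Kb (LaurentSeries Kb) γ⁻¹ * (incl A Y * incl A Dt) := by
      rw [hrel, ← mul_assoc, ← map_mul, inv_mul_cancel₀ hγ, map_one, one_mul]
    rw [h1]
    exact mul_mem (const_mem_sheet _ _) (mul_mem hY hDtS)
  obtain ⟨K₁, hK₁, hco⟩ := coeffNF_of_mem_sheet hn hZ hSS
  haveI := hK₁
  obtain ⟨g, S'f, hg, hS'f, hredf⟩ := Fermat.Agent.T7.helper22.exists_smul_of_coeff_mem A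
    (IsLocalRing.residue A) K₁ (fun _ : Unit => S) (fun h => hS0 (congrFun h ()))
    (fun _ j => by
      have := hco j
      rwa [coeffMap_coeff] at this)
  obtain ⟨S', hS'def⟩ : ∃ S' : LaurentSeries A, S' = S'f () := ⟨_, rfl⟩
  have hSg : S = HahnSeries.single 0 g * S' := by
    have h1 := congrFun hS'f ()
    rw [h1, hS'def]
    show g • S'f () = HahnSeries.single 0 g * S'f ()
    rw [← HahnSeries.C_apply, HahnSeries.C_mul_eq_smul]
  have hS'red : red A S' ≠ 0 := by
    intro h0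
    apply hredf
    funext u
    cases u
    rw [hS'def] at h0
    exact h0
  have hg0 : ((g : A) : Kb) ≠ 0 := fun h => hg (Subtype.ext h)
  -- the approximation
  obtain ⟨f, R, hf, hZf⟩ := hD (g * ((p : ℕ) : ↥A)) (mul_ne_zero hg hpA)
  have hq : ∀ i : ℕ, ∃ q : LaurentSeries A, Z ^ i - f ^ i = (Z - f) * q :=
    fun i => sub_dvd_pow_sub_pow Z f i
  choose q hq using hq
  obtain ⟨Sf, hSf⟩ : ∃ Sf : LaurentSeries A, Sf = ∑ i ∈ Finset.range d, P i * f ^ i := ⟨_, rfl⟩
  have hSfF : incl A Sf ∈ FF M := by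
    rw [hSf, map_sum]
    refine sum_mem fun i _ => ?_
    rw [map_mul, map_pow]
    exact mul_mem (hP i) (pow_mem hf i)
  have hdiff : S - Sf = HahnSeries.single 0 (g * ((p : ℕ) : ↥A)) *
      (R * ∑ i ∈ Finset.range d, P i * q i) := by
    rw [hS, hSf, ← Finset.sum_sub_distrib, ← mul_assoc, ← hZf, Finset.mul_sum]
    refine Finset.sum_congr rfl fun i _ => ?_
    rw [← mul_sub, hq i]
    ring
  obtain ⟨S'', hS''⟩ : ∃ S'' : LaurentSeries A,
      S'' = S' - HahnSeries.single 0 (((p : ℕ) : ↥A)) *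
        (R * ∑ i ∈ Finset.range d, P i * q i) := ⟨_, rfl⟩
  have hsingle : HahnSeries.single 0 (g * ((p : ℕ) : ↥A)) =
      (HahnSeries.single 0 g : LaurentSeries A) * HahnSeries.single 0 (((p : ℕ) : ↥A)) := by
    rw [HahnSeries.single_mul_single, add_zero]
  have hSfg : Sf = HahnSeries.single 0 g * S'' := by
    have h1 : Sf = S - (S - Sf) := by ring
    rw [h1, hdiff, hSg, hS'', hsingle]
    ring
  have hS''red : red A S'' = red A S' := by
    rw [hS'', map_sub, map_mul, red_single_zero, hpres, map_zero, zero_mul, sub_zero]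
  have hS''F : incl A S'' ∈ FF M := by
    have h1 : incl A S'' = algebraMap Kb (LaurentSeries Kb) ((g : A) : Kb)⁻¹ * incl A Sf := by
      rw [hSfg, map_mul, incl_single_zero, ← mul_assoc, ← map_mul, inv_mul_cancel₀ hg0,
        map_one, one_mul]
    rw [h1]
    exact mul_mem ((FF M).algebraMap_mem _) hSfF
  have hS'FFb : red A S' ∈ FFb A M := by
    rw [← hS''red]
    exact Fermat.Agent.T2.helper58.red_mem_FFb_of_scale hSc hS''F
  -- comparison
  have hcmp : algebraMap Kb (LaurentSeries Kb) (γ * ((g : A) : Kb)) * incl A S' =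
      incl A (Y * Dt) := by
    rw [map_mul (incl A) Y Dt, hrel, hSg, map_mul (incl A), incl_single_zero, map_mul, mul_assoc]
  obtain ⟨e, he⟩ := red_eq_of_const_mul hS'red hcmp
  rw [map_mul] at he
  have hfin : red A Y = algebraMap (kA A) (LaurentSeries (kA A)) e * red A S' *
      (red A Dt)⁻¹ := by
    rw [← he, mul_assoc, mul_inv_cancel₀ hDt.2.2, mul_one]
  rw [hfin]
  exact mul_mem (mul_mem ((FFb A M).algebraMap_mem _) hS'FFb) (inv_mem hDt.2.1)

/-- the reduction of a sheet-scaled element lies in `FFb` -/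
theorem hasRed_red_mem_FFb {p : ℕ} (hp : p.Prime) (hA : A.LiesOverPrime p)
    (hSc : ScaleStatement M A) {n : ℕ} (hn : n ≠ 0) (Z : LaurentSeries A)
    (hZ : incl A Z ^ n ∈ FF M) (hD : IsDenseRoot M A Z) {c : Kb} {G : LaurentSeries Kb}
    {r : LaurentSeries (kA A)} (h : HasRed (SheetGood M A (incl A Z)) c G r) :
    r ∈ FFb A M := by
  obtain ⟨Y₁, Y₂, g₁, g₂, -, er⟩ := h
  have h1 := red_mem_FFb_of_dense hp hA hSc hn Z hZ hD g₁.1
  have h2 := red_mem_FFb_of_dense hp hA hSc hn Z hZ hD g₂.1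
  have h3 : r = red A Y₁ * (red A Y₂)⁻¹ := by
    rw [← er, mul_assoc, mul_inv_cancel₀ g₂.2, mul_one]
  rw [h3]
  exact mul_mem h1 (inv_mem h2)

/-- the good class of the sheet with reductions in `FFb` -/
def SheetGoodB (M : ℕ) [NeZero M] (A : ValuationSubring Kb) (Z : LaurentSeries Kb)
    (Y : LaurentSeries A) : Prop :=
  incl A Y ∈ (FF M)⟮Z⟯ ∧ red A Y ∈ FFb A M ∧ red A Y ≠ 0

theorem sheetGood_iff_sheetGoodB {p : ℕ} (hp : p.Prime) (hA : A.LiesOverPrime p)
    (hSc : ScaleStatement M A) {n : ℕ} (hn : n ≠ 0) (Z : LaurentSeries A)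
    (hZ : incl A Z ^ n ∈ FF M) (hD : IsDenseRoot M A Z) (Y : LaurentSeries A) :
    SheetGood M A (incl A Z) Y ↔ SheetGoodB M A (incl A Z) Y :=
  ⟨fun h => ⟨h.1, red_mem_FFb_of_dense hp hA hSc hn Z hZ hD h.1, h.2⟩, fun h => ⟨h.1, h.2.2⟩⟩

end Fermat.Agent.T8.helper22

end
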