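/-
T8 (row 38 via S44), leaf [SHEET-FFB] (helper22), part 1': DENSITY IN QUOTIENT FORM ⟹ `FFb`.

`IsDenseRootQ M A Z` : for every `t ≠ 0` of `A` there are an integral function `f₁` and a GOOD
function `f₂` of `F` with `Z f₂ - f₁ ∈ t A((q))`  (`Z` is a limit of quotients of integral
functions).  This is what the iteration of T7 gives without any normalisation.

* `red_mem_FFb_of_denseQ`, `hasRed_red_mem_FFb_Q`, `sheetGood_iff_sheetGoodB_Q` : as in
  `helper22_SheetDense`, from the quotient form.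
-/
import Mathlib
import Fermat.Agent.T8.helper22_SheetDense

set_option autoImplicit false
set_option linter.unusedSectionVars false
set_option linter.unusedVariables false
set_option linter.style.longLine false
set_option linter.style.haveILetI false

noncomputable section

namespace Fermat.Agent.T8.helper22

open HahnSeries IntermediateField AlgebraicCurve ModularCurve
open Fermat.Agent.S18.helper19 Fermat.Agent.P2.helper29 Fermat.Agent.P2.helper93
open Fermat.Agent.T8.helper65 Fermat.Agent.T7.helper82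

variable {M : ℕ} [NeZero M] {A : ValuationSubring Kb}

/-- `Z` is a limit of quotients `f₁ / f₂` of integral functions, `f₂` good. -/
def IsDenseRootQ (M : ℕ) [NeZero M] (A : ValuationSubring Kb) (Z : LaurentSeries A) : Prop :=
  ∀ t : A, t ≠ 0 → ∃ f₁ f₂ R : LaurentSeries A, incl A f₁ ∈ FF M ∧ IsGood A M f₂ ∧
    Z * f₂ - f₁ = HahnSeries.single 0 t * R

theorem IsDenseRoot.toQ {Z : LaurentSeries A} (h : IsDenseRoot M A Z) : IsDenseRootQ M A Z := by
  intro t ht
  obtain ⟨f, R, hf, e⟩ := h t ht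
  exact ⟨f, 1, R, hf, isGood_one, by rw [mul_one]; exact e⟩

/-- **density (quotient form) ⟹ the residue field of the sheet is `FFb`.** -/
theorem red_mem_FFb_of_denseQ {p : ℕ} (hp : p.Prime) (hA : A.LiesOverPrime p)
    (hSc : ScaleStatement M A) {n : ℕ} (hn : n ≠ 0) (Z : LaurentSeries A)
    (hZ : incl A Z ^ n ∈ FF M) (hD : IsDenseRootQ M A Z) {Y : LaurentSeries A}
    (hY : incl A Y ∈ (FF M)⟮incl A Z⟯) : red A Y ∈ FFb A M := by
  classical
  by_cases hY0 : red A Y = 0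
  · rw [hY0]
    exact zero_mem _
  haveI : CharP (IsLocalRing.ResidueField ↥A) p :=
    Fermat.Agent.P2.helper93.charP_residueField hp hA
  have hpres : IsLocalRing.residue ↥A ((p : ℕ) : ↥A) = 0 := by
    rw [map_natCast]
    exact CharP.cast_eq_zero _ p
  have hpA : ((p : ℕ) : ↥A) ≠ 0 := by
    intro h
    have h1 := congrArg (fun x : A => (x : Kb)) h
    simp only [ZeroMemClass.coe_zero] at h1
    have h2 : ((p : ℕ) : Kb) = 0 := by
      rw [← h1]
      push_cast
      rfl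
    exact hp.ne_zero (by exact_mod_cast h2)
  obtain ⟨d, γ, P, Dt, hγ, hDt, hP, hrel⟩ := exists_poly_form hSc hn Z hZ hY
  obtain ⟨S, hS⟩ : ∃ S : LaurentSeries A, S = ∑ i ∈ Finset.range d, P i * Z ^ i := ⟨_, rfl⟩
  rw [← hS] at hrel
  have hDt0 : incl A Dt ≠ 0 := incl_ne_zero_of_red hDt.2.2
  have hYi0 : incl A Y ≠ 0 := incl_ne_zero_of_red hY0
  have hS0 : S ≠ 0 := by
    intro h0
    rw [h0, map_zero, mul_zero] at hrel
    rcases mul_eq_zero.mp hrel with h | h
    · exact hYi0 h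
    · exact hDt0 h
  have hDtS : incl A Dt ∈ (FF M)⟮incl A Z⟯ := mem_sheet_of_mem _ hDt.1
  have hSS : incl A S ∈ (FF M)⟮incl A Z⟯ := by
    have h1 : incl A S = algebraMap Kb (LaurentSeries Kb) γ⁻¹ * (incl A Y * incl A Dt) := by
      rw [hrel, ← mul_assoc, ← map_mul, inv_mul_cancel₀ hγ, map_one, one_mul]
    rw [h1]
    exact mul_mem (const_mem_sheet _ _) (mul_mem hY hDtS)
  obtain ⟨K₁, hK₁, hco⟩ := coeffNF_of_mem_sheet hn hZ hSS
  haveI := hK₁
  obtain ⟨g, S'f, hg, hS'f, hredf⟩ := Fermat.Agent.T7.helper22.exists_smul_of_coeff_mem A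
    (IsLocalRing.residue A) K₁ (fun _ : Unit => S) (fun h => hS0 (congrFun h ()))
    (fun _ j => by
      have := hco j
      rwa [coeffMap_coeff] at this)
  obtain ⟨S', hS'def⟩ : ∃ S' : LaurentSeries A, S' = S'f () := ⟨_, rfl⟩
  have hSg : S = HahnSeries.single 0 g * S' := by
    have h1 := congrFun hS'f ()
    rw [h1, hS'def]
    show g • S'f () = HahnSeries.single 0 g * S'f ()
    rw [← HahnSeries.C_apply, HahnSeries.C_mul_eq_smul]
  have hS'red : red A S' ≠ 0 := by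
    intro h0
    apply hredf
    funext u
    cases u
    rw [hS'def] at h0
    exact h0
  have hg0 : ((g : A) : Kb) ≠ 0 := fun h => hg (Subtype.ext h)
  -- the approximation
  obtain ⟨f₁, f₂, R, hf₁, hf₂, hZf⟩ := hD (g * ((p : ℕ) : ↥A)) (mul_ne_zero hg hpA)
  have hq : ∀ i : ℕ, ∃ q : LaurentSeries A, (Z * f₂) ^ i - f₁ ^ i = (Z * f₂ - f₁) * q :=
    fun i => sub_dvd_pow_sub_pow (Z * f₂) f₁ i
  choose q hq using hq
  obtain ⟨Sf, hSf⟩ : ∃ Sf : LaurentSeries A,
      Sf = ∑ i ∈ Finset.range d, P i * f₁ ^ i * f₂ ^ (d - i) := ⟨_, rfl⟩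
  have hSfF : incl A Sf ∈ FF M := by
    rw [hSf, map_sum]
    refine sum_mem fun i _ => ?_
    rw [map_mul, map_mul, map_pow, map_pow]
    exact mul_mem (mul_mem (hP i) (pow_mem hf₁ i)) (pow_mem hf₂.1 _)
  have hSpow : S * f₂ ^ d = ∑ i ∈ Finset.range d, P i * (Z * f₂) ^ i * f₂ ^ (d - i) := by
    rw [hS, Finset.sum_mul]
    refine Finset.sum_congr rfl fun i hi => ?_
    have hid : i ≤ d := (Finset.mem_range.mp hi).le
    have h1 : f₂ ^ d = f₂ ^ i * f₂ ^ (d - i) := by
      rw [← _root_.pow_add, Nat.add_sub_cancel' hid]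
    rw [h1, mul_pow]
    ring
  have hdiff : S * f₂ ^ d - Sf = HahnSeries.single 0 (g * ((p : ℕ) : ↥A)) *
      (R * ∑ i ∈ Finset.range d, P i * q i * f₂ ^ (d - i)) := by
    rw [hSpow, hSf, ← Finset.sum_sub_distrib, ← mul_assoc, ← hZf, Finset.mul_sum]
    refine Finset.sum_congr rfl fun i _ => ?_
    have h1 : P i * (Z * f₂) ^ i * f₂ ^ (d - i) - P i * f₁ ^ i * f₂ ^ (d - i) =
        P i * ((Z * f₂) ^ i - f₁ ^ i) * f₂ ^ (d - i) := by ring
    rw [h1, hq i]
    ring
  obtain ⟨S'', hS''⟩ : ∃ S'' : LaurentSeries A,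
      S'' = S' * f₂ ^ d - HahnSeries.single 0 (((p : ℕ) : ↥A)) *
        (R * ∑ i ∈ Finset.range d, P i * q i * f₂ ^ (d - i)) := ⟨_, rfl⟩
  have hsingle : HahnSeries.single 0 (g * ((p : ℕ) : ↥A)) =
      (HahnSeries.single 0 g : LaurentSeries A) * HahnSeries.single 0 (((p : ℕ) : ↥A)) := by
    rw [HahnSeries.single_mul_single, add_zero]
  have hSfg : Sf = HahnSeries.single 0 g * S'' := by
    have h1 : Sf = S * f₂ ^ d - (S * f₂ ^ d - Sf) := by ring
    rw [h1, hdiff, hSg, hS'', hsingle]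
    ring
  have hf₂pow : red A f₂ ^ d ≠ 0 := pow_ne_zero _ hf₂.2.2
  have hS''red : red A S'' = red A S' * red A f₂ ^ d := by
    rw [hS'', map_sub, map_mul, map_mul (red A) (HahnSeries.single 0 _), red_single_zero, hpres,
      map_zero, zero_mul, sub_zero, map_pow]
  have hS''F : incl A S'' ∈ FF M := by
    have h1 : incl A S'' = algebraMap Kb (LaurentSeries Kb) ((g : A) : Kb)⁻¹ * incl A Sf := by
      rw [hSfg, map_mul, incl_single_zero, ← mul_assoc, ← map_mul, inv_mul_cancel₀ hg0,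
        map_one, one_mul]
    rw [h1]
    exact mul_mem ((FF M).algebraMap_mem _) hSfF
  have hS'FFb : red A S' ∈ FFb A M := by
    have h1 : red A S' = red A S'' * (red A f₂ ^ d)⁻¹ := by
      rw [hS''red, mul_assoc, mul_inv_cancel₀ hf₂pow, mul_one]
    rw [h1]
    exact mul_mem (Fermat.Agent.T2.helper58.red_mem_FFb_of_scale hSc hS''F)
      (inv_mem (pow_mem hf₂.2.1 d))
  -- comparison
  have hcmp : algebraMap Kb (LaurentSeries Kb) (γ * ((g : A) : Kb)) * incl A S' =
      incl A (Y * Dt) := by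
    rw [map_mul (incl A) Y Dt, hrel, hSg, map_mul (incl A), incl_single_zero, map_mul, mul_assoc]
  obtain ⟨e, he⟩ := red_eq_of_const_mul hS'red hcmp
  rw [map_mul] at he
  have hfin : red A Y = algebraMap (kA A) (LaurentSeries (kA A)) e * red A S' *
      (red A Dt)⁻¹ := by
    rw [← he, mul_assoc, mul_inv_cancel₀ hDt.2.2, mul_one]
  rw [hfin]
  exact mul_mem (mul_mem ((FFb A M).algebraMap_mem _) hS'FFb) (inv_mem hDt.2.1)

/-- the reduction of a sheet-scaled element lies in `FFb` -/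
theorem hasRed_red_mem_FFb_Q {p : ℕ} (hp : p.Prime) (hA : A.LiesOverPrime p)
    (hSc : ScaleStatement M A) {n : ℕ} (hn : n ≠ 0) (Z : LaurentSeries A)
    (hZ : incl A Z ^ n ∈ FF M) (hD : IsDenseRootQ M A Z) {c : Kb} {G : LaurentSeries Kb}
    {r : LaurentSeries (kA A)} (h : HasRed (SheetGood M A (incl A Z)) c G r) :
    r ∈ FFb A M := by
  obtain ⟨Y₁, Y₂, g₁, g₂, -, er⟩ := h
  have h1 := red_mem_FFb_of_denseQ hp hA hSc hn Z hZ hD g₁.1
  have h2 := red_mem_FFb_of_denseQ hp hA hSc hn Z hZ hD g₂.1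
  have h3 : r = red A Y₁ * (red A Y₂)⁻¹ := by
    rw [← er, mul_assoc, mul_inv_cancel₀ g₂.2, mul_one]
  rw [h3]
  exact mul_mem h1 (inv_mem h2)

theorem sheetGood_iff_sheetGoodB_Q {p : ℕ} (hp : p.Prime) (hA : A.LiesOverPrime p)
    (hSc : ScaleStatement M A) {n : ℕ} (hn : n ≠ 0) (Z : LaurentSeries A)
    (hZ : incl A Z ^ n ∈ FF M) (hD : IsDenseRootQ M A Z) (Y : LaurentSeries A) :
    SheetGood M A (incl A Z) Y ↔ SheetGoodB M A (incl A Z) Y :=
  ⟨fun h => ⟨h.1, red_mem_FFb_of_denseQ hp hA hSc hn Z hZ hD h.1, h.2⟩, fun h => ⟨h.1, h.2.2⟩⟩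

end Fermat.Agent.T8.helper22

end
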