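/-
T8 (row 38 via S44), leaf [SHEET-FFB] (helper22), part 2a: the GAUSS CONSTANT of a Laurent series.

`GaussC A c G` : `G = c * Y₁ / Y₂` with `Y₁`, `Y₂` integral of nonzero reduction (no field of
definition is recorded; `helper65.HasRed` with any class of such series gives it).
The value `v(c)` is the Gauss norm of `G`:

* `GaussC.mul`, `GaussC.prod`, `GaussC.pow` : multiplicativity;
* `GaussC.val_le_of_eq` : if `G * Y = c₀ * I` with `Y` primitive and `I` integral then
  `v(c) ≤ v(c₀)`;
* `GaussC.val_eq` : uniqueness of `v(c)`;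
* `GaussC.val_sub_le` : the ultrametric inequality `v(c'') ≤ max (v c) (v c')` for `G - G'`.
-/
import Mathlib
import Fermat.Agent.T8.helper22_SheetDenseQ

set_option autoImplicit false
set_option linter.unusedSectionVars false
set_option linter.unusedVariables false
set_option linter.style.longLine false
set_option linter.style.haveILetI false

noncomputable section

namespace Fermat.Agent.T8.helper22

open HahnSeries IntermediateField AlgebraicCurve ModularCurve
open Fermat.Agent.S18.helper19 Fermat.Agent.P2.helper29 Fermat.Agent.P2.helper93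
open Fermat.Agent.T8.helper65

variable {A : ValuationSubring Kb}

/-- `G = c * Y₁ / Y₂` with integral `Y₁`, `Y₂` of nonzero reduction -/
def GaussC (A : ValuationSubring Kb) (c : Kb) (G : LaurentSeries Kb) : Prop :=
  ∃ Y₁ Y₂ : LaurentSeries A, red A Y₁ ≠ 0 ∧ red A Y₂ ≠ 0 ∧
    algebraMap Kb (LaurentSeries Kb) c * incl A Y₁ = G * incl A Y₂

theorem gaussC_incl {Y : LaurentSeries A} (h : red A Y ≠ 0) : GaussC A 1 (incl A Y) :=
  ⟨Y, 1, h, by rw [map_one]; exact one_ne_zero, by rw [map_one, one_mul, map_one, mul_one]⟩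

theorem gaussC_const (c : Kb) : GaussC A c (algebraMap Kb (LaurentSeries Kb) c) :=
  ⟨1, 1, by rw [map_one]; exact one_ne_zero, by rw [map_one]; exact one_ne_zero, rfl⟩

theorem GaussC.mul {c c' : Kb} {G G' : LaurentSeries Kb} (h : GaussC A c G)
    (h' : GaussC A c' G') : GaussC A (c * c') (G * G') := by
  obtain ⟨Y₁, Y₂, g₁, g₂, e⟩ := h
  obtain ⟨Z₁, Z₂, k₁, k₂, e'⟩ := h'
  refine ⟨Y₁ * Z₁, Y₂ * Z₂, ?_, ?_, ?_⟩
  · rw [map_mul]; exact mul_ne_zero g₁ k₁
  · rw [map_mul]; exact mul_ne_zero g₂ k₂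
  · rw [map_mul, map_mul, map_mul]
    linear_combination (algebraMap Kb (LaurentSeries Kb) c' * incl A Z₁) * e +
      (G * incl A Y₂) * e'

theorem GaussC.pow {c : Kb} {G : LaurentSeries Kb} (h : GaussC A c G) (n : ℕ) :
    GaussC A (c ^ n) (G ^ n) := by
  induction n with
  | zero =>
    rw [pow_zero, pow_zero]
    have := gaussC_const (A := A) 1
    rwa [map_one] at this
  | succ n ih =>
    rw [pow_succ, pow_succ]
    exact ih.mul h

theorem GaussC.prod {ι : Type*} (s : Finset ι) (c : ι → Kb) (G : ι → LaurentSeries Kb)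
    (h : ∀ i ∈ s, GaussC A (c i) (G i)) : GaussC A (∏ i ∈ s, c i) (∏ i ∈ s, G i) := by
  classical
  induction s using Finset.induction_on with
  | empty =>
    rw [Finset.prod_empty, Finset.prod_empty]
    have := gaussC_const (A := A) 1
    rwa [map_one] at this
  | insert a s ha ih =>
    rw [Finset.prod_insert ha, Finset.prod_insert ha]
    exact (h a (Finset.mem_insert_self a s)).mul
      (ih fun i hi => h i (Finset.mem_insert_of_mem hi))

/-- a primitive integral series has a coefficient of valuation one -/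
theorem exists_coeff_val_one {Y : LaurentSeries A} (h : red A Y ≠ 0) :
    ∃ j : ℤ, A.valuation ((Y.coeff j : A) : Kb) = 1 := by
  obtain ⟨j₀, hj₀⟩ : ∃ j : ℤ, (red A Y).coeff j ≠ 0 := by
    by_contra hn
    push Not at hn
    exact h (HahnSeries.ext (funext fun j => by rw [hn j]; rfl))
  rw [coeffMap_coeff] at hj₀
  have hu : IsUnit (Y.coeff j₀) := by
    by_contra hnu
    exact hj₀ ((IsLocalRing.residue_eq_zero_iff _).mpr ((IsLocalRing.mem_maximalIdeal _).mpr hnu))
  exact ⟨j₀, (A.valuation_eq_one_iff _).mp hu⟩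

/-- **comparison**: `G * Y = c₀ * I`, `Y` primitive, `I` integral ⟹ `v(c) ≤ v(c₀)`. -/
theorem GaussC.val_le_of_eq {c c₀ : Kb} {G : LaurentSeries Kb} (h : GaussC A c G)
    {Y I : LaurentSeries A} (hY : red A Y ≠ 0)
    (e : G * incl A Y = algebraMap Kb (LaurentSeries Kb) c₀ * incl A I) :
    A.valuation c ≤ A.valuation c₀ := by
  obtain ⟨Y₁, Y₂, g₁, g₂, e₁⟩ := h
  have hprim : red A (Y₁ * Y) ≠ 0 := by
    rw [map_mul]; exact mul_ne_zero g₁ hY
  obtain ⟨j₀, hj₀⟩ := exists_coeff_val_one hprim
  have key : algebraMap Kb (LaurentSeries Kb) c * incl A (Y₁ * Y) =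
      algebraMap Kb (LaurentSeries Kb) c₀ * incl A (I * Y₂) := by
    rw [map_mul, map_mul]
    linear_combination (incl A Y) * e₁ + (incl A Y₂) * e
  have h1 := congrArg (fun z : LaurentSeries Kb => z.coeff j₀) key
  simp only [Fermat.Agent.P2.helper44.coeff_algebraMap_mul, coeffMap_coeff] at h1
  have h2 := congrArg A.valuation h1
  rw [map_mul, map_mul] at h2
  have h3 : A.valuation (A.subtype ((Y₁ * Y).coeff j₀)) = 1 := hj₀
  rw [h3, mul_one] at h2
  rw [h2]
  have h4 : A.valuation (A.subtype ((I * Y₂).coeff j₀)) ≤ 1 :=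
    (A.valuation_le_one_iff _).mpr ((I * Y₂).coeff j₀).2
  calc A.valuation c₀ * A.valuation (A.subtype ((I * Y₂).coeff j₀))
      ≤ A.valuation c₀ * 1 := by gcongr
    _ = A.valuation c₀ := mul_one _

/-- **uniqueness** of the Gauss norm -/
theorem GaussC.val_eq {c c' : Kb} {G : LaurentSeries Kb} (h : GaussC A c G)
    (h' : GaussC A c' G) : A.valuation c = A.valuation c' := by
  obtain ⟨Y₁, Y₂, g₁, g₂, e₁⟩ := id h
  obtain ⟨Z₁, Z₂, k₁, k₂, e₂⟩ := id h'
  exact le_antisymm (h.val_le_of_eq k₂ e₂.symm) (h'.val_le_of_eq g₂ e₁.symm)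

/-- the Gauss norm of an integral series is at most one -/
theorem GaussC.val_le_one_of_incl {c : Kb} {Y : LaurentSeries A} (h : GaussC A c (incl A Y)) :
    A.valuation c ≤ 1 := by
  have h1 := h.val_le_of_eq (Y := 1) (I := Y) (c₀ := 1)
    (by rw [map_one]; exact one_ne_zero) (by rw [map_one, mul_one, map_one, one_mul])
  rwa [map_one] at h1

/-- the Gauss norm of `t * Y`, `Y` integral, is at most `v(t)` -/
theorem GaussC.val_le_of_const_mul {c t : Kb} {Y : LaurentSeries A}
    (h : GaussC A c (algebraMap Kb (LaurentSeries Kb) t * incl A Y)) :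
    A.valuation c ≤ A.valuation t :=
  h.val_le_of_eq (Y := 1) (I := Y) (by rw [map_one]; exact one_ne_zero)
    (by rw [map_one, mul_one])

/-- **ultrametric inequality** -/
theorem GaussC.val_sub_le {c c' c'' : Kb} {G G' : LaurentSeries Kb} (h : GaussC A c G)
    (h' : GaussC A c' G') (h'' : GaussC A c'' (G - G')) :
    A.valuation c'' ≤ max (A.valuation c) (A.valuation c') := by
  obtain ⟨Y₁, Y₂, g₁, g₂, e₁⟩ := h
  obtain ⟨Z₁, Z₂, k₁, k₂, e₂⟩ := h'
  have hden : red A (Y₂ * Z₂) ≠ 0 := by
    rw [map_mul]; exact mul_ne_zero g₂ k₂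
  -- symmetric statement
  have key : ∀ (c₀ a a' : Kb) (ha : a ∈ A) (ha' : a' ∈ A), c = c₀ * a → c' = c₀ * a' →
      A.valuation c'' ≤ A.valuation c₀ := by
    intro c₀ a a' ha ha' hc hc'
    refine h''.val_le_of_eq (Y := Y₂ * Z₂)
      (I := HahnSeries.single 0 (⟨a, ha⟩ : A) * (Y₁ * Z₂) -
        HahnSeries.single 0 (⟨a', ha'⟩ : A) * (Z₁ * Y₂)) hden ?_
    rw [map_sub, map_mul, map_mul, map_mul, map_mul, map_mul, incl_single_zero,
      incl_single_zero]
    have hc1 : algebraMap Kb (LaurentSeries Kb) c =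
        algebraMap Kb (LaurentSeries Kb) c₀ * algebraMap Kb (LaurentSeries Kb) a := by
      rw [hc, map_mul]
    have hc2 : algebraMap Kb (LaurentSeries Kb) c' =
        algebraMap Kb (LaurentSeries Kb) c₀ * algebraMap Kb (LaurentSeries Kb) a' := by
      rw [hc', map_mul]
    show (G - G') * (incl A Y₂ * incl A Z₂) = _
    linear_combination (-(incl A Z₂)) * e₁ + (incl A Y₂) * e₂ + (incl A Y₁ * incl A Z₂) * hc1 -
      (incl A Z₁ * incl A Y₂) * hc2
  rcases le_total (A.valuation c) (A.valuation c') with hle | hle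
  · rw [max_eq_right hle]
    rcases eq_or_ne c' 0 with hc0 | hc0
    · have hc00 : c = 0 := by
        rw [hc0, map_zero] at hle
        exact (A.valuation.zero_iff).mp (le_antisymm hle zero_le)
      exact key c' 0 0 A.zero_mem A.zero_mem (by rw [hc00, mul_zero]) (by rw [hc0, mul_zero])
    · refine key c' (c / c') 1 ?_ A.one_mem (by field_simp) (by rw [mul_one])
      rw [← A.valuation_le_one_iff, map_div₀]
      exact div_le_one_of_le₀ hle zero_le
  · rw [max_eq_left hle]
    rcases eq_or_ne c 0 with hc0 | hc0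
    · have hc00 : c' = 0 := by
        rw [hc0, map_zero] at hle
        exact (A.valuation.zero_iff).mp (le_antisymm hle zero_le)
      exact key c 0 0 A.zero_mem A.zero_mem (by rw [hc0, mul_zero]) (by rw [hc00, mul_zero])
    · refine key c 1 (c' / c) A.one_mem ?_ (by rw [mul_one]) (by field_simp)
      rw [← A.valuation_le_one_iff, map_div₀]
      exact div_le_one_of_le₀ hle zero_le

end Fermat.Agent.T8.helper22

end
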