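/-
T8 (row 38 via S44), leaf [SHEET-FFB] (helper22), part 2b: FROM APPROXIMATE `p`-TH POWERS TO
DENSITY.

`Z` integral of reduction `≠ 0`, `Z ^ p ∈ F`.  Hypothesis `IsApproxPow` : for every `s ≠ 0` of
`A` there are a FUNCTION `T ∈ F`, `δ ∈ s A` and an integral series `D` with
`Z ^ p = T ^ p * (1 + δ D)`.  Then `Z` is a limit of quotients of integral functions
(`IsDenseRootQ`): among the `p` factors `Z - μ T` (`μ ^ p = 1`) of `Z ^ p - T ^ p = T ^ p δ D`
exactly one is deep, because the differences `(μ - ν) T` have Gauss norm `v(1 - ζ)` and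
`v(1 - ζ) ^ (p - 1) = v(p)`.
-/
import Mathlib
import Fermat.Agent.T8.helper22_GaussC

set_option autoImplicit false
set_option linter.unusedSectionVars false
set_option linter.unusedVariables false
set_option linter.style.longLine false
set_option linter.style.haveILetI false

noncomputable section

namespace Fermat.Agent.T8.helper22

open HahnSeries IntermediateField AlgebraicCurve ModularCurve
open Fermat.Agent.S18.helper19 Fermat.Agent.P2.helper29 Fermat.Agent.P2.helper93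
open Fermat.Agent.T8.helper65 Fermat.Agent.T7.helper82

variable {M : ℕ} [NeZero M] {A : ValuationSubring Kb}

/-- the factorisation of `x ^ p - y ^ p` over the `p`-th roots of unity of `Kb` -/
theorem pow_sub_pow_eq_prod_roots {p : ℕ} (hp : 0 < p) {ζ : Kb} (hζ : IsPrimitiveRoot ζ p)
    (x y : LaurentSeries Kb) (hy : y ≠ 0) :
    x ^ p - y ^ p = ∏ μ ∈ Polynomial.nthRootsFinset p (1 : Kb),
      (x - algebraMap Kb (LaurentSeries Kb) μ * y) := by
  have h := congrArg (Polynomial.aeval (x / y)) (Polynomial.X_pow_sub_one_eq_prod hp hζ)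
  simp only [map_sub, map_pow, Polynomial.aeval_X, map_one, map_prod, Polynomial.aeval_C] at h
  have h1 : x ^ p - y ^ p = y ^ p * ((x / y) ^ p - 1) := by
    rw [div_pow]
    field_simp
  have hcard : (Polynomial.nthRootsFinset p (1 : Kb)).card = p := hζ.card_nthRootsFinset
  have h2 : y ^ p = ∏ _μ ∈ Polynomial.nthRootsFinset p (1 : Kb), y := by
    rw [Finset.prod_const, hcard]
  rw [h1, h, h2, ← Finset.prod_mul_distrib]
  refine Finset.prod_congr rfl fun μ _ => ?_
  field_simp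

/-- every nonzero element of the sheet field is `c * Y₁ / Y₂` with `Y₂` GOOD in `F` -/
theorem sheetAttF (hSc : ScaleStatement M A) {n : ℕ} (hn : n ≠ 0) (Z : LaurentSeries A)
    (hZ : incl A Z ^ n ∈ FF M) {G : LaurentSeries Kb} (hG : G ∈ (FF M)⟮incl A Z⟯)
    (hG0 : G ≠ 0) :
    ∃ (c : Kb) (Y₁ Y₂ : LaurentSeries A), c ≠ 0 ∧ red A Y₁ ≠ 0 ∧ IsGood A M Y₂ ∧
      algebraMap Kb (LaurentSeries Kb) c * incl A Y₁ = G * incl A Y₂ := by
  obtain ⟨d, γ, P, Dt, hγ, hDt, hP, hrel⟩ := exists_poly_form hSc hn Z hZ hG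
  obtain ⟨S, hS⟩ : ∃ S : LaurentSeries A, S = ∑ i ∈ Finset.range d, P i * Z ^ i := ⟨_, rfl⟩
  rw [← hS] at hrel
  have hDt0 : incl A Dt ≠ 0 := incl_ne_zero_of_red hDt.2.2
  have hS0 : S ≠ 0 := by
    intro h0
    rw [h0, map_zero, mul_zero] at hrel
    rcases mul_eq_zero.mp hrel with h | h
    · exact hG0 h
    · exact hDt0 h
  have hDtS : incl A Dt ∈ (FF M)⟮incl A Z⟯ := mem_sheet_of_mem _ hDt.1
  have hSS : incl A S ∈ (FF M)⟮incl A Z⟯ := by
    have h1 : incl A S = algebraMap Kb (LaurentSeries Kb) γ⁻¹ * (G * incl A Dt) := by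
      rw [hrel, ← mul_assoc, ← map_mul, inv_mul_cancel₀ hγ, map_one, one_mul]
    rw [h1]
    exact mul_mem (const_mem_sheet _ _) (mul_mem hG hDtS)
  obtain ⟨K₁, hK₁, hco⟩ := coeffNF_of_mem_sheet hn hZ hSS
  haveI := hK₁
  obtain ⟨g, S'f, hg, hS'f, hredf⟩ := Fermat.Agent.T7.helper22.exists_smul_of_coeff_mem A
    (IsLocalRing.residue A) K₁ (fun _ : Unit => S) (fun h => hS0 (congrFun h ()))
    (fun _ j => by
      have := hco j
      rwa [coeffMap_coeff] at this)
  have hSg : S = HahnSeries.single 0 g * S'f () := by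
    have h1 := congrFun hS'f ()
    rw [h1]
    show g • S'f () = HahnSeries.single 0 g * S'f ()
    rw [← HahnSeries.C_apply, HahnSeries.C_mul_eq_smul]
  have hS'red : red A (S'f ()) ≠ 0 := by
    intro h0
    apply hredf
    funext u
    cases u
    exact h0
  have hg0 : ((g : A) : Kb) ≠ 0 := fun h => hg (Subtype.ext h)
  refine ⟨γ * (g : Kb), S'f (), Dt, mul_ne_zero hγ hg0, hS'red, hDt, ?_⟩
  rw [hrel, hSg, map_mul (incl A), incl_single_zero, map_mul, mul_assoc]

/-- `Z ^ p` is, for every depth, a `p`-th power of a function times a deep `1`-unit -/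
def IsApproxPow (M : ℕ) [NeZero M] (A : ValuationSubring Kb) (p : ℕ) (Z : LaurentSeries A) :
    Prop :=
  ∀ s : A, s ≠ 0 → ∃ (T : LaurentSeries Kb) (δ : A) (D : LaurentSeries A), T ∈ FF M ∧ s ∣ δ ∧
    incl A Z ^ p = T ^ p * incl A (1 + HahnSeries.single 0 δ * D)

/-- **approximate `p`-th powers ⟹ density.** -/
theorem isDenseRootQ_of_approx {p : ℕ} (hp : p.Prime) (hA : A.LiesOverPrime p)
    (hSc : ScaleStatement M A) (Z : LaurentSeries A) (hZ : incl A Z ^ p ∈ FF M)
    (hZred : red A Z ≠ 0) (hap : IsApproxPow M A p Z) : IsDenseRootQ M A Z := by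
  classical
  intro t ht
  -- the trivial case
  by_cases hZF : incl A Z ∈ FF M
  · exact ⟨Z, 1, 0, hZF, isGood_one, by rw [mul_one, sub_self, mul_zero]⟩
  haveI : CharP (IsLocalRing.ResidueField ↥A) p :=
    Fermat.Agent.P2.helper93.charP_residueField hp hA
  have hpres : IsLocalRing.residue ↥A ((p : ℕ) : ↥A) = 0 := by
    rw [map_natCast]
    exact CharP.cast_eq_zero _ p
  have hpKb : ((p : ℕ) : Kb) ≠ 0 := by exact_mod_cast hp.ne_zero
  have hpA : ((p : ℕ) : ↥A) ≠ 0 := by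
    intro h
    have h1 := congrArg (fun x : A => (x : Kb)) h
    simp only [ZeroMemClass.coe_zero] at h1
    apply hpKb
    rw [← h1]
    push_cast
    rfl
  obtain ⟨ζ, hζ⟩ : ∃ ζ : Kb, IsPrimitiveRoot ζ p := by
    haveI : NeZero p := ⟨hp.ne_zero⟩
    haveI : NeZero ((p : ℕ) : Kb) := ⟨hpKb⟩
    exact HasEnoughRootsOfUnity.exists_primitiveRoot Kb p
  obtain ⟨T, δ, D, hT, hsδ, hrel⟩ := hap (t * ((p : ℕ) : ↥A)) (mul_ne_zero ht hpA)
  have hZ0 : incl A Z ≠ 0 := incl_ne_zero_of_red hZred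
  have hT0 : T ≠ 0 := by
    rintro rfl
    rw [zero_pow hp.ne_zero, zero_mul] at hrel
    exact hZ0 (pow_eq_zero_iff hp.ne_zero |>.mp hrel)
  -- residue of δ
  have hδres : IsLocalRing.residue ↥A δ = 0 := by
    obtain ⟨e, he⟩ := hsδ
    rw [he, map_mul, map_mul, hpres, mul_zero, zero_mul]
  have hunit : red A (1 + HahnSeries.single 0 δ * D) = 1 := by
    rw [map_add, map_one, map_mul, red_single_zero, hδres, map_zero, zero_mul, add_zero]
  -- Gauss constants of Z and T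
  have gZ : GaussC A 1 (incl A Z) := gaussC_incl hZred
  obtain ⟨γ, Y₁T, Y₂T, hγ, hY₁T, hY₂T, eT⟩ := hSc T hT hT0
  have gT : GaussC A γ T := ⟨Y₁T, Y₂T, hY₁T.2.2, hY₂T.2.2, eT⟩
  have hvγ : A.valuation γ = 1 := by
    have g1 : GaussC A (1 ^ p) (incl A Z ^ p) := gZ.pow p
    have g2 : GaussC A (γ ^ p * 1) (T ^ p * incl A (1 + HahnSeries.single 0 δ * D)) :=
      (gT.pow p).mul (gaussC_incl (by rw [hunit]; exact one_ne_zero))
    rw [← hrel] at g2
    have h1 := g2.val_eq g1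
    rw [mul_one, one_pow, map_one, map_pow] at h1
    exact (pow_eq_one_iff_of_nonneg zero_le hp.ne_zero).mp h1
  -- the factors
  obtain ⟨Rts, hRts⟩ : ∃ Rts : Finset Kb, Rts = Polynomial.nthRootsFinset p (1 : Kb) := ⟨_, rfl⟩
  have hμpow : ∀ μ ∈ Rts, μ ^ p = 1 := by
    intro μ hμ
    rw [hRts] at hμ
    exact (Polynomial.mem_nthRootsFinset hp.pos 1).mp hμ
  have hvμ : ∀ μ ∈ Rts, A.valuation μ = 1 := by
    intro μ hμ
    have h1 := congrArg A.valuation (hμpow μ hμ)
    rw [map_pow, map_one] at h1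
    exact (pow_eq_one_iff_of_nonneg zero_le hp.ne_zero).mp h1
  have hFmem : ∀ μ : Kb, incl A Z - algebraMap Kb (LaurentSeries Kb) μ * T ∈
      (FF M)⟮incl A Z⟯ := fun μ =>
    sub_mem (gen_mem_sheet _) (mul_mem (const_mem_sheet _ _) (mem_sheet_of_mem _ hT))
  have hFne : ∀ μ : Kb, incl A Z - algebraMap Kb (LaurentSeries Kb) μ * T ≠ 0 := by
    intro μ h0
    apply hZF
    rw [sub_eq_zero.mp h0]
    exact mul_mem ((FF M).algebraMap_mem _) hT
  choose c Y₁ Y₂ hc hY₁ hY₂ eF using fun μ : Kb => sheetAttF hSc hp.ne_zero Z hZ (hFmem μ) (hFne μ)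
  have gF : ∀ μ, GaussC A (c μ) (incl A Z - algebraMap Kb (LaurentSeries Kb) μ * T) :=
    fun μ => ⟨Y₁ μ, Y₂ μ, hY₁ μ, (hY₂ μ).2.2, eF μ⟩
  -- the product is deep
  have hprod : ∏ μ ∈ Rts, (incl A Z - algebraMap Kb (LaurentSeries Kb) μ * T) =
      T ^ p * incl A (HahnSeries.single 0 δ * D) := by
    rw [hRts, ← pow_sub_pow_eq_prod_roots hp.pos hζ _ _ hT0, hrel, map_add, map_one]
    ring
  have hvprod : A.valuation (∏ μ ∈ Rts, c μ) ≤ A.valuation ((δ : A) : Kb) := by
    have g := GaussC.prod Rts c _ (fun μ _ => gF μ)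
    have h1 := g.val_le_of_eq (Y := Y₂T ^ p) (I := Y₁T ^ p * D) (c₀ := γ ^ p * (δ : Kb))
      (by rw [map_pow]; exact pow_ne_zero _ hY₂T.2.2)
      (by
        rw [hprod, map_mul (incl A), incl_single_zero, map_pow, map_mul, map_pow, map_mul,
          map_pow]
        have e2 : T ^ p * incl A Y₂T ^ p =
            algebraMap Kb (LaurentSeries Kb) γ ^ p * incl A Y₁T ^ p := by
          rw [← mul_pow, ← mul_pow, eT]
        linear_combination (algebraMap Kb (LaurentSeries Kb) ((δ : A) : Kb) * incl A D) * e2)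
    rw [map_mul, map_pow, hvγ, one_pow, one_mul] at h1
    exact h1
  -- the minimal factor
  have hRne : Rts.Nonempty := by
    rw [hRts]
    exact ⟨1, (Polynomial.mem_nthRootsFinset hp.pos 1).mpr (one_pow p)⟩
  obtain ⟨μ₀, hμ₀, hmin⟩ := Finset.exists_min_image Rts (fun μ => A.valuation (c μ)) hRne
  set ℓ := A.valuation (1 - ζ) with hℓ
  have hℓp : ℓ ^ (p - 1) = A.valuation ((p : ℕ) : Kb) :=
    Fermat.Agent.T3.helper84.k0_zeta_val hp A hζ
  have hlow : ∀ ν ∈ Rts.erase μ₀, ℓ ≤ A.valuation (c ν) := by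
    intro ν hν
    have hνR : ν ∈ Rts := Finset.mem_of_mem_erase hν
    have hne : ν ≠ μ₀ := Finset.ne_of_mem_erase hν
    -- the difference
    have hdiff : (incl A Z - algebraMap Kb (LaurentSeries Kb) μ₀ * T) -
        (incl A Z - algebraMap Kb (LaurentSeries Kb) ν * T) =
        algebraMap Kb (LaurentSeries Kb) (ν - μ₀) * T := by
      rw [map_sub]
      ring
    have gd : GaussC A ((ν - μ₀) * γ) ((incl A Z - algebraMap Kb (LaurentSeries Kb) μ₀ * T) -
        (incl A Z - algebraMap Kb (LaurentSeries Kb) ν * T)) := by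
      rw [hdiff]
      exact (gaussC_const _).mul gT
    have h1 := (gF μ₀).val_sub_le (gF ν) gd
    rw [max_eq_right (hmin ν hνR), map_mul, hvγ, mul_one] at h1
    -- `v(ν - μ₀) = ℓ`
    have hμ₀0 : μ₀ ≠ 0 := by
      intro h0
      have := hvμ μ₀ hμ₀
      rw [h0, map_zero] at this
      exact zero_ne_one this
    have hξ : (ν / μ₀) ^ p = 1 := by rw [div_pow, hμpow ν hνR, hμpow μ₀ hμ₀, div_one]
    have hξ1 : ν / μ₀ ≠ 1 := fun h => hne ((div_eq_one_iff_eq hμ₀0).mp h)
    have hξprim : IsPrimitiveRoot (ν / μ₀) p :=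
      _root_.isPrimitiveRoot_of_mem_nthRootsFinset hp
        ((Polynomial.mem_nthRootsFinset hp.pos 1).mpr hξ) hξ1
    have hval : A.valuation (ν - μ₀) = ℓ := by
      have e1 : ν - μ₀ = -(μ₀ * (1 - ν / μ₀)) := by field_simp; ring
      rw [e1, Valuation.map_neg, map_mul, hvμ μ₀ hμ₀, one_mul]
      exact Fermat.Agent.T3.helper84.k0_zeta_eq hp A hζ hξprim
    rw [hval] at h1
    exact h1
  have hcard : (Rts.erase μ₀).card = p - 1 := by
    rw [Finset.card_erase_of_mem hμ₀, hRts, hζ.card_nthRootsFinset]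
  have hlowprod : A.valuation ((p : ℕ) : Kb) ≤ ∏ ν ∈ Rts.erase μ₀, A.valuation (c ν) := by
    rw [← hℓp, ← hcard, ← Finset.prod_const]
    exact Finset.prod_le_prod' hlow
  have hfinal : A.valuation (c μ₀) ≤ A.valuation ((t : A) : Kb) := by
    have h1 : A.valuation (c μ₀) * A.valuation ((p : ℕ) : Kb) ≤
        A.valuation ((t : A) : Kb) * A.valuation ((p : ℕ) : Kb) := by
      calc A.valuation (c μ₀) * A.valuation ((p : ℕ) : Kb)
          ≤ A.valuation (c μ₀) * ∏ ν ∈ Rts.erase μ₀, A.valuation (c ν) := by gcongr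
        _ = A.valuation (∏ μ ∈ Rts, c μ) := by
            rw [map_prod, Finset.mul_prod_erase Rts (fun μ => A.valuation (c μ)) hμ₀]
        _ ≤ A.valuation ((δ : A) : Kb) := hvprod
        _ ≤ A.valuation ((t : A) : Kb) * A.valuation ((p : ℕ) : Kb) := by
            obtain ⟨e, he⟩ := hsδ
            rw [he]
            push_cast
            rw [map_mul, map_mul]
            have h4 : A.valuation ((e : A) : Kb) ≤ 1 := (A.valuation_le_one_iff _).mpr e.2
            calc A.valuation ((t : A) : Kb) * A.valuation ((p : ℕ) : Kb) * A.valuation ((e : A) : Kb)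
                ≤ A.valuation ((t : A) : Kb) * A.valuation ((p : ℕ) : Kb) * 1 := by gcongr
              _ = _ := mul_one _
    have hvp : A.valuation ((p : ℕ) : Kb) ≠ 0 := (Valuation.ne_zero_iff _).mpr hpKb
    exact (mul_le_mul_iff_left₀ (zero_lt_iff.mpr hvp)).mp h1
  -- the output
  have ht0 : ((t : A) : Kb) ≠ 0 := fun h => ht (Subtype.ext h)
  have ha : c μ₀ / (t : Kb) ∈ A := by
    rw [← A.valuation_le_one_iff, map_div₀]
    exact div_le_one_of_le₀ hfinal zero_le
  have hb : μ₀ * γ ∈ A := by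
    rw [← A.valuation_le_one_iff, map_mul, hvμ μ₀ hμ₀, hvγ, one_mul]
  refine ⟨HahnSeries.single 0 (⟨μ₀ * γ, hb⟩ : A) * (Y₁T * Y₂ μ₀), Y₂ μ₀ * Y₂T,
    HahnSeries.single 0 (⟨c μ₀ / (t : Kb), ha⟩ : A) * (Y₁ μ₀ * Y₂T), ?_, (hY₂ μ₀).mul hY₂T, ?_⟩
  · rw [map_mul, map_mul, incl_single_zero]
    exact mul_mem ((FF M).algebraMap_mem _) (mul_mem hY₁T.1 (hY₂ μ₀).1)
  · apply incl_inj
    rw [map_sub, map_mul, map_mul, map_mul, map_mul, map_mul, map_mul, map_mul,
      incl_single_zero, incl_single_zero, incl_single_zero]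
    have e1 : algebraMap Kb (LaurentSeries Kb) ((t : A) : Kb) *
        algebraMap Kb (LaurentSeries Kb) (c μ₀ / (t : Kb)) =
        algebraMap Kb (LaurentSeries Kb) (c μ₀) := by
      rw [← map_mul, mul_div_cancel₀ _ ht0]
    have e2 : algebraMap Kb (LaurentSeries Kb) (μ₀ * γ) =
        algebraMap Kb (LaurentSeries Kb) μ₀ * algebraMap Kb (LaurentSeries Kb) γ := map_mul _ _ _
    show incl A Z * (incl A (Y₂ μ₀) * incl A Y₂T) -
      algebraMap Kb (LaurentSeries Kb) (μ₀ * γ) * (incl A Y₁T * incl A (Y₂ μ₀)) =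
      algebraMap Kb (LaurentSeries Kb) ((t : A) : Kb) *
        (algebraMap Kb (LaurentSeries Kb) (c μ₀ / (t : Kb)) * (incl A (Y₁ μ₀) * incl A Y₂T))
    linear_combination (-(incl A Y₂T)) * eF μ₀ -
      (algebraMap Kb (LaurentSeries Kb) μ₀ * incl A (Y₂ μ₀)) * eT -
      (incl A Y₁T * incl A (Y₂ μ₀)) * e2 - (incl A (Y₁ μ₀) * incl A Y₂T) * e1

end Fermat.Agent.T8.helper22

end
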