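/-
T8 (row 38 via S44), leaf [SHEET-FFB] (helper22), part 2c: NEWNESS GIVES APPROXIMATE `p`-TH
POWERS, hence the residue field of every sheet of the cover is `FFb A N`.

`u` a function of level `N p` whose two norms to the level `N` are constants times `p`-th powers
(`T7.helper27.IsNewN`), `Z` an integral series of reduction `1` with `Z ^ p = u` at `∞`.  The
iterated identity of T7 (`helper43.b3_iterate`) reads `u = T_J ^ p * E^(2J) u` with a FUNCTION
`T_J` of level `N p`, and `E^(2J) u = 1 + c d^(2J) D` is a deep `1`-unit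
(`helper43.iterate_eOp_depth`).  So `IsApproxPow` holds, `Z` is dense (`isDenseRootQ_of_approx`)
and every integral series of the sheet field `F(Z)` has its reduction in `FFb A (N p) = FFb A N`.
-/
import Mathlib
import Fermat.Agent.T8.helper22_SheetCount
import Fermat.Agent.T7.helper43_B3Approx
import Fermat.Agent.T7.helper27_NewQ

set_option autoImplicit false
set_option linter.unusedSectionVars false
set_option linter.unusedVariables false
set_option linter.style.longLine false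
set_option linter.style.haveILetI false

noncomputable section

namespace Fermat.Agent.T8.helper22

open HahnSeries IntermediateField AlgebraicCurve ModularCurve
open Fermat.Agent.S18.helper19 Fermat.Agent.P2.helper29 Fermat.Agent.P2.helper93
open Fermat.Agent.T8.helper65 Fermat.Agent.T7.helper82
open Fermat.Agent.S24 Fermat.Agent.P3.helper94 Fermat.Agent.T2.helper36

variable (N p : ℕ) [NeZero N] [NeZero p] (hp : p.Prime) (hN : ¬ p ∣ N)

include hp hN

/-- **newness ⟹ approximate `p`-th powers** (norm-relation form). -/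
theorem isApproxPow_of_norms (A : ValuationSubring Kb) (hA : A.LiesOverPrime p)
    {u : FF (N * p)} {c₁ c₂ : Kb} {g₁ g₂ : FF N} (hc₂ : c₂ ≠ 0) (hg₂ : g₂ ≠ 0)
    (hα : normAlong (heckeAlphaBar Kb N p) u = algebraMap Kb (FF N) c₁ * g₁ ^ p)
    (hβ : normAlong (heckeBetaBar Kb N p) u = algebraMap Kb (FF N) c₂ * g₂ ^ p)
    (Z : LaurentSeries A) (hZ : incl A Z ^ p = (u : LaurentSeries Kb)) (hred : red A Z = 1) :
    IsApproxPow (N * p) A p Z := by
  classical
  intro s hs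
  haveI : CharP (IsLocalRing.ResidueField ↥A) p :=
    Fermat.Agent.P2.helper93.charP_residueField hp hA
  have hArch := Fermat.Agent.P2.helper74.arch_algebraicClosure A p hp hA
  have hpres : IsLocalRing.residue ↥A ((p : ℕ) : ↥A) = 0 := by
    rw [map_natCast]
    exact CharP.cast_eq_zero _ p
  -- the trivial case
  by_cases hS0 : Z ^ p - 1 = 0
  · refine ⟨1, s, 0, one_mem _, dvd_refl s, ?_⟩
    rw [mul_zero, add_zero, map_one, one_pow, one_mul, ← map_pow, sub_eq_zero.mp hS0, map_one]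
  -- attained content of `Z ^ p - 1`
  have huF : incl A Z ^ p ∈ FF (N * p) := by
    rw [hZ]
    exact u.2
  have hSS : incl A (Z ^ p - 1) ∈ (FF (N * p))⟮incl A Z⟯ := by
    rw [map_sub, map_pow, map_one]
    exact sub_mem (pow_mem (gen_mem_sheet _) _) (one_mem _)
  obtain ⟨K₁, hK₁, hco⟩ := coeffNF_of_mem_sheet hp.ne_zero huF hSS
  haveI := hK₁
  obtain ⟨g, S'f, hg, hS'f, hredf⟩ := Fermat.Agent.T7.helper22.exists_smul_of_coeff_mem A
    (IsLocalRing.residue A) K₁ (fun _ : Unit => Z ^ p - 1) (fun h => hS0 (congrFun h ()))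
    (fun _ j => by
      have := hco j
      rwa [coeffMap_coeff] at this)
  have hSg : Z ^ p - 1 = HahnSeries.single 0 g * S'f () := by
    have h1 := congrFun hS'f ()
    rw [h1]
    show g • S'f () = HahnSeries.single 0 g * S'f ()
    rw [← HahnSeries.C_apply, HahnSeries.C_mul_eq_smul]
  have hS'red : red A (S'f ()) ≠ 0 := by
    intro h0
    apply hredf
    funext u
    cases u
    exact h0
  have hgres : IsLocalRing.residue ↥A g = 0 := by
    have h1 : red A (Z ^ p - 1) = 0 := by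
      rw [map_sub, map_pow, hred, one_pow, map_one, sub_self]
    rw [hSg, map_mul, red_single_zero] at h1
    rcases mul_eq_zero.mp h1 with h | h
    · by_contra hne
      have h2 := congrArg (fun z : LaurentSeries (kA A) => z.coeff 0) h
      rw [algebraMap_laurentSeries_eq_single] at h2
      simp only [HahnSeries.coeff_single_same, HahnSeries.coeff_zero] at h2
      exact hne h2
    · exact absurd h hS'red
  have hu : (u : LaurentSeries Kb) =
      1 + HahnSeries.C (g : Kb) * coeffMap (A.subtype : ↥A →+* Kb) (S'f ()) := by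
    have h1 : Z ^ p = 1 + HahnSeries.single 0 g * S'f () := by
      rw [← hSg]
      ring
    rw [← hZ, ← map_pow, h1, map_add, map_one, map_mul, incl_single_zero,
      algebraMap_laurentSeries_eq_single]
    rfl
  -- the step `d`
  have hcpow : IsLocalRing.residue ↥A (g ^ (p - 1)) = 0 := by
    rw [map_pow, hgres, zero_pow (Nat.sub_ne_zero_of_lt hp.one_lt)]
  obtain ⟨d, e₁, e₂, h₁, h₂, hd⟩ : ∃ d e₁ e₂ : ↥A, g ^ (p - 1) = d * e₁ ∧
      ((p : ℕ) : ↥A) = d * e₂ ∧ IsLocalRing.residue ↥A d = 0 := by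
    rcases ValuationRing.dvd_total (g ^ (p - 1)) (((p : ℕ) : ↥A)) with h | h
    · obtain ⟨e, he⟩ := h
      exact ⟨g ^ (p - 1), 1, e, (mul_one _).symm, he, hcpow⟩
    · obtain ⟨e, he⟩ := h
      exact ⟨((p : ℕ) : ↥A), e, 1, he, (mul_one _).symm, hpres⟩
  obtain ⟨J, hJ⟩ := hArch d hd s hs
  have hsδ : s ∣ g * d ^ (2 * J) := by
    refine Dvd.dvd.mul_left ?_ g
    rw [two_mul, _root_.pow_add]
    exact Dvd.dvd.mul_right hJ _
  -- the iterated identity
  obtain ⟨D, hD⟩ := Fermat.Agent.T7.helper43.iterate_eOp_depth N p hp hN A hA g d e₁ e₂ h₁ h₂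
    u (S'f ()) hu (2 * J)
  have hid := Fermat.Agent.T7.helper43.b3_iterate N p hp hN hα hβ J
  obtain ⟨κ₁, hκ₁⟩ : ∃ κ₁ : Kb, κ₁ = ∏ j ∈ Finset.range J, c₁ ^ (p ^ (2 * j)) := ⟨_, rfl⟩
  obtain ⟨κ₂, hκ₂⟩ : ∃ κ₂ : Kb, κ₂ = ∏ j ∈ Finset.range J, c₂ ^ (p ^ (2 * j + 1)) := ⟨_, rfl⟩
  obtain ⟨AJ, hAJ⟩ : ∃ AJ : FF (N * p), AJ = ∏ j ∈ Finset.range J,
      (Fermat.Agent.T7.helper43.eHom N p hp hN)^[2 * j] (heckeAlphaBar Kb N p g₁) := ⟨_, rfl⟩
  obtain ⟨BJ, hBJ⟩ : ∃ BJ : FF (N * p), BJ = ∏ j ∈ Finset.range J,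
      (Fermat.Agent.T7.helper43.eHom N p hp hN)^[2 * j + 1] (heckeAlphaBar Kb N p g₂) :=
    ⟨_, rfl⟩
  obtain ⟨EJ, hEJ⟩ : ∃ EJ : FF (N * p),
      EJ = (Fermat.Agent.T7.helper43.eHom N p hp hN)^[2 * J] u := ⟨_, rfl⟩
  rw [← hκ₁, ← hκ₂, ← hAJ, ← hBJ, ← hEJ] at hid
  rw [← hEJ] at hD
  have hκ₂0 : κ₂ ≠ 0 := by
    rw [hκ₂]
    exact Finset.prod_ne_zero_iff.mpr fun j _ => pow_ne_zero _ hc₂
  have hBJ0 : BJ ≠ 0 := by
    rw [hBJ]
    refine Finset.prod_ne_zero_iff.mpr fun j _ => ?_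
    exact Fermat.Agent.T7.helper43.iterate_hom_ne_zero _ _
      ((map_ne_zero (heckeAlphaBar Kb N p)).mpr hg₂)
  obtain ⟨κ', hκ'⟩ : ∃ κ' : Kb, κ' ^ p = κ₁ / κ₂ := IsAlgClosed.exists_pow_nat_eq _ hp.pos
  obtain ⟨T0, hT0⟩ : ∃ T0 : FF (N * p),
      T0 = algebraMap Kb (FF (N * p)) κ' * AJ * BJ⁻¹ := ⟨_, rfl⟩
  have e1 : algebraMap Kb (FF (N * p)) κ' ^ p * algebraMap Kb (FF (N * p)) κ₂ =
      algebraMap Kb (FF (N * p)) κ₁ := by
    rw [← map_pow, ← map_mul, hκ', div_mul_cancel₀ _ hκ₂0]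
  have haκ₂ : algebraMap Kb (FF (N * p)) κ₂ ≠ 0 :=
    (map_ne_zero (algebraMap Kb (FF (N * p)))).mpr hκ₂0
  have hBp : BJ⁻¹ ^ p * BJ ^ p = 1 := by
    rw [← mul_pow, inv_mul_cancel₀ hBJ0, one_pow]
  have hT : u = T0 ^ p * EJ := by
    have hne : algebraMap Kb (FF (N * p)) κ₂ * BJ ^ p ≠ 0 :=
      mul_ne_zero haκ₂ (pow_ne_zero _ hBJ0)
    apply mul_right_cancel₀ hne
    rw [← hid, hT0, mul_pow, mul_pow]
    linear_combination (-(AJ ^ p * EJ * (BJ⁻¹ ^ p * BJ ^ p))) * e1 -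
      (algebraMap Kb (FF (N * p)) κ₁ * AJ ^ p * EJ) * hBp
  have hT' : (u : LaurentSeries Kb) = (T0 : LaurentSeries Kb) ^ p * (EJ : LaurentSeries Kb) := by
    have h := congrArg (Fermat.Agent.T7.helper43.expF (N * p)) hT
    rw [map_mul, map_pow] at h
    exact h
  have hcast : (((g * d ^ (2 * J) : ↥A)) : Kb) = (g : Kb) * (d : Kb) ^ (2 * J) := by
    push_cast
    rfl
  have hincl : incl A (1 + HahnSeries.single 0 (g * d ^ (2 * J)) * D) =
      1 + HahnSeries.C ((g : Kb) * (d : Kb) ^ (2 * J)) *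
        coeffMap (A.subtype : ↥A →+* Kb) D := by
    rw [map_add, map_one, map_mul, incl_single_zero, algebraMap_laurentSeries_eq_single, hcast]
    rfl
  refine ⟨(T0 : LaurentSeries Kb), g * d ^ (2 * J), D, T0.2, hsδ, ?_⟩
  rw [hZ, hT', hD, hincl]

/-- **newness ⟹ approximate `p`-th powers**. -/
theorem isApproxPow_of_isNewN (A : ValuationSubring Kb) (hA : A.LiesOverPrime p)
    {u : FF (N * p)} (hnew : Fermat.Agent.T7.helper27.IsNewN N p u)
    (Z : LaurentSeries A) (hZ : incl A Z ^ p = (u : LaurentSeries Kb)) (hred : red A Z = 1) :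
    IsApproxPow (N * p) A p Z := by
  obtain ⟨⟨c₁, g₁, hc₁, hg₁, hα⟩, ⟨c₂, g₂, hc₂, hg₂, hβ⟩⟩ := hnew
  exact isApproxPow_of_norms N p hp hN A hA hc₂ hg₂ hα hβ Z hZ hred

/-- newness is stable under the Atkin-Lehner involution -/
theorem isNewN_atkinLehner {u : FF (N * p)} (hnew : Fermat.Agent.T7.helper27.IsNewN N p u) :
    Fermat.Agent.T7.helper27.IsNewN N p (atkinLehner N p hp hN u) := by
  obtain ⟨⟨c₁, g₁, hc₁, hg₁, hα⟩, ⟨c₂, g₂, hc₂, hg₂, hβ⟩⟩ := hnew
  refine ⟨⟨c₂, g₂, hc₂, hg₂, ?_⟩, ⟨c₁, g₁, hc₁, hg₁, ?_⟩⟩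
  · rw [← Fermat.Agent.T7.helper43.normAlong_beta_eq N p hp hN]
    exact hβ
  · rw [Fermat.Agent.T7.helper43.normAlong_beta_eq N p hp hN, atkinLehner_atkinLehner]
    exact hα

/-- **[SHEET-FFB], density form**: the root of a new function is a limit of quotients of
integral functions. -/
theorem isDenseRootQ_of_isNewN (A : ValuationSubring Kb) (hA : A.LiesOverPrime p)
    {u : FF (N * p)} (hnew : Fermat.Agent.T7.helper27.IsNewN N p u)
    (Z : LaurentSeries A) (hZ : incl A Z ^ p = (u : LaurentSeries Kb)) (hred : red A Z = 1) :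
    IsDenseRootQ (N * p) A Z := by
  have hSc : ScaleStatement (N * p) A :=
    Fermat.Agent.T2.helper58.scaleStatement_bad N p hp hN A hA
  have hZF : incl A Z ^ p ∈ FF (N * p) := by
    rw [hZ]
    exact u.2
  exact isDenseRootQ_of_approx hp hA hSc Z hZF (by rw [hred]; exact one_ne_zero)
    (isApproxPow_of_isNewN N p hp hN A hA hnew Z hZ hred)

/-- **[SHEET-FFB]**: on the sheet field `F(Z)` of the root of a NEW function, every integral
series has its reduction in `FFb A N`. -/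
theorem sheet_red_mem_FFb (A : ValuationSubring Kb) (hA : A.LiesOverPrime p)
    {u : FF (N * p)} (hnew : Fermat.Agent.T7.helper27.IsNewN N p u)
    (Z : LaurentSeries A) (hZ : incl A Z ^ p = (u : LaurentSeries Kb)) (hred : red A Z = 1)
    {Y : LaurentSeries A} (hY : incl A Y ∈ (FF (N * p))⟮incl A Z⟯) : red A Y ∈ FFb A N := by
  have hSc : ScaleStatement (N * p) A :=
    Fermat.Agent.T2.helper58.scaleStatement_bad N p hp hN A hA
  have hZF : incl A Z ^ p ∈ FF (N * p) := by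
    rw [hZ]
    exact u.2
  have h := red_mem_FFb_of_denseQ hp hA hSc hp.ne_zero Z hZF
    (isDenseRootQ_of_isNewN N p hp hN A hA hnew Z hZ hred) hY
  rwa [Fermat.Agent.T2.helper96.FFb_mul_eq N A hp hA] at h

/-- **[SHEET-FFB], `HasRed` form**: every reduction on the sheet lies in `FFb A N`. -/
theorem sheet_hasRed_mem_FFb (A : ValuationSubring Kb) (hA : A.LiesOverPrime p)
    {u : FF (N * p)} (hnew : Fermat.Agent.T7.helper27.IsNewN N p u)
    (Z : LaurentSeries A) (hZ : incl A Z ^ p = (u : LaurentSeries Kb)) (hred : red A Z = 1)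
    {c : Kb} {G : LaurentSeries Kb} {r : LaurentSeries (kA A)}
    (h : HasRed (SheetGood (N * p) A (incl A Z)) c G r) : r ∈ FFb A N := by
  have hSc : ScaleStatement (N * p) A :=
    Fermat.Agent.T2.helper58.scaleStatement_bad N p hp hN A hA
  have hZF : incl A Z ^ p ∈ FF (N * p) := by
    rw [hZ]
    exact u.2
  have h1 := hasRed_red_mem_FFb_Q hp hA hSc hp.ne_zero Z hZF
    (isDenseRootQ_of_isNewN N p hp hN A hA hnew Z hZ hred) h
  rwa [Fermat.Agent.T2.helper96.FFb_mul_eq N A hp hA] at h1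

end Fermat.Agent.T8.helper22

end
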