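/-
T8 (row 38 via S44), leaf [SHEET-FFB] (helper22), final file: THE EXITS FOR THE CONSUMERS.

At the bad pair `(N, p)`, for a NEW function `u` of level `N p` (`T7.helper27.IsNewN`) with an
integral root `Z` (`Z ^ p = u`, `red Z = 1`):

* `goodIn_sheetGood`   : `helper29.GoodIn A N (SheetGood (N p) A Z)` - all the reductions of the
                         good series of the sheet field `F(Z)` lie in `FFb A N`;
* `sheetOrd_sheetGood` : `helper29.SheetOrd A N (SheetGood (N p) A Z) Q (ordAt Q)` for every
                         place `Q` of `FFb A N` - the order function of the exit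
                         `helper29.slopeOutN_of_sheetOrd2` is `helper16.ordAt Q`;
* `goodIn_cov₁`, `goodIn_cov₂`, `sheetOrd_cov₁` : the same for the two roots of a
                         `helper88.CovData` with new Kummer function;
* `isNewN_of_isRootDiv` : the Kummer function of a `p`-new class is new (this is how the
                         newness of `C.K` is obtained from the output of
                         `helper86.exists_covData`).
-/
import Mathlib
import Fermat.Agent.T8.helper22_SheetApprox
import Fermat.Agent.T8.helper29_ConclOrd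
import Fermat.Agent.T8.helper88_CoverGalInst
import Fermat.Agent.T7.helper43_GExt

set_option autoImplicit false
set_option linter.unusedSectionVars false
set_option linter.unusedVariables false
set_option linter.style.longLine false
set_option linter.style.haveILetI false

noncomputable section

namespace Fermat.Agent.T8.helper22

open HahnSeries IntermediateField AlgebraicCurve ModularCurve
open Fermat.Agent.S18.helper19 Fermat.Agent.P2.helper29 Fermat.Agent.P2.helper93
open Fermat.Agent.T8.helper65 Fermat.Agent.T7.helper82
open Fermat.Agent.S24 Fermat.Agent.P3.helper94 Fermat.Agent.T2.helper36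

variable (N p : ℕ) [NeZero N] [NeZero p]

/-- the Kummer function of a `p`-new class is new -/
theorem isNewN_of_isRootDiv {y : JZero (N * p)} (hnew : y ∈ Fermat.Agent.T7.helper43.newPart N p)
    {D : Divisor.degZero (K := Kb) (F := FF (N * p))} {K : FF (N * p)}
    (hD : (Pic0.mk D : JZero (N * p)) = y)
    (HK : IsRootDiv p (D : Divisor Kb (FF (N * p))) K) :
    Fermat.Agent.T7.helper27.IsNewN N p K := by
  obtain ⟨hα, hβ⟩ := (Fermat.Agent.T7.helper43.mem_newPart N p).mp hnew
  exact Fermat.Agent.T7.helper27.isNewN_of_push ⟨HK.1, D, hD, HK.2⟩ hα hβ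

variable (hp : p.Prime) (hN : ¬ p ∣ N)

include hp hN

/-- **[SHEET-FFB], `GoodIn` form.** -/
theorem goodIn_sheetGood (A : ValuationSubring Kb) (hA : A.LiesOverPrime p)
    {u : FF (N * p)} (hnew : Fermat.Agent.T7.helper27.IsNewN N p u)
    (Z : LaurentSeries A) (hZ : incl A Z ^ p = (u : LaurentSeries Kb)) (hred : red A Z = 1) :
    Fermat.Agent.T8.helper29.GoodIn A N (SheetGood (N * p) A (incl A Z)) :=
  ⟨fun _ h => h.2, fun _ h => sheet_red_mem_FFb N p hp hN A hA hnew Z hZ hred h.1⟩

set_option synthInstance.maxHeartbeats 400000 in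
/-- **[SHEET-FFB], `SheetOrd` form**: the order function of the exit is `ordAt Q`. -/
theorem sheetOrd_sheetGood (A : ValuationSubring Kb) (hA : A.LiesOverPrime p)
    {u : FF (N * p)} (hnew : Fermat.Agent.T7.helper27.IsNewN N p u)
    (Z : LaurentSeries A) (hZ : incl A Z ^ p = (u : LaurentSeries Kb)) (hred : red A Z = 1)
    (Q : Place (kA A) (FFb A N)) :
    Fermat.Agent.T8.helper29.SheetOrd A N (SheetGood (N * p) A (incl A Z)) Q
      (Fermat.Agent.T8.helper16.ordAt Q) :=
  (goodIn_sheetGood N p hp hN A hA hnew Z hZ hred).sheetOrd Q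

/-- first sheet field of a cover datum with new Kummer function -/
theorem goodIn_cov₁ {A : ValuationSubring Kb} (hA : A.LiesOverPrime p)
    (C : Fermat.Agent.T8.helper88.CovData (N * p) (atkinLehner N p hp hN) A p)
    (hnew : Fermat.Agent.T7.helper27.IsNewN N p C.K) (hr : red A C.Z₁ = 1) :
    Fermat.Agent.T8.helper29.GoodIn A N (SheetGood (N * p) A C.Z) :=
  goodIn_sheetGood N p hp hN A hA hnew C.Z₁ C.h1 hr

/-- second sheet field of a cover datum with new Kummer function -/
theorem goodIn_cov₂ {A : ValuationSubring Kb} (hA : A.LiesOverPrime p)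
    (C : Fermat.Agent.T8.helper88.CovData (N * p) (atkinLehner N p hp hN) A p)
    (hnew : Fermat.Agent.T7.helper27.IsNewN N p C.K) (hr : red A C.Z₂ = 1) :
    Fermat.Agent.T8.helper29.GoodIn A N (SheetGood (N * p) A C.Z') :=
  goodIn_sheetGood N p hp hN A hA (isNewN_atkinLehner N p hp hN hnew) C.Z₂ C.h2 hr

set_option synthInstance.maxHeartbeats 400000 in
/-- the order function on the first sheet field of a cover datum with new Kummer function -/
theorem sheetOrd_cov₁ {A : ValuationSubring Kb} (hA : A.LiesOverPrime p)
    (C : Fermat.Agent.T8.helper88.CovData (N * p) (atkinLehner N p hp hN) A p)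
    (hnew : Fermat.Agent.T7.helper27.IsNewN N p C.K) (hr : red A C.Z₁ = 1)
    (Q : Place (kA A) (FFb A N)) :
    Fermat.Agent.T8.helper29.SheetOrd A N (SheetGood (N * p) A C.Z) Q
      (Fermat.Agent.T8.helper16.ordAt Q) :=
  (goodIn_cov₁ N p hp hN hA C hnew hr).sheetOrd Q

end Fermat.Agent.T8.helper22

end
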