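import Mathlib
import Fermat.Agent.T8.helper16_RingXSheet1
import Fermat.Agent.T8.helper9_CovPtLoc
import Fermat.Agent.T8.helper97_SheetsRingX
import Fermat.Agent.T8.helper22_SheetFFb
import Fermat.Agent.T8.helper29_ConclCover

/-!
# T8 (row 38, at risk), leaf [SLOPE-X'], item (ii) of the cover instance (helper16)

**The `Sheet1` hypothesis of `helper9.covPtHom_loc`, with the lift `a` of `t̄` and the two root
hypotheses `ha`, `ha'`** at `R = R_Q = locX A hq hqN Q`, `ρR = redL`, `Fb = FFb A N`,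
`ordS = ordAt Q`.

* `sheet1_locX_general` : ABSTRACT in `(S, jS, t, f, t̄)`: `S` any `R_Q`-algebra with a ring
  homomorphism `jS : S →+* F'`, `s₁ ∘ jS` = the expansion on `R_Q`, `f ∈ R_Q[X]` monic with
  `jS (f(t)) = 0` and Artin - Schreier reduction `X ^ q - X - c₁`, `t̄ ∈ FFb A N` the reduction
  of `s₁ (jS t)`.  Output: `a ∈ R_Q` with `redL a = t̄`, `Sheet1 s₁ jS t a xx Fb ordS redL`,
  `f(a) ∈ 𝔪`, `f'(a) ∉ 𝔪`.
* `sheet1_cov` : the INSTANCE at a cover datum `D` with new Kummer function and rational roots: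
  `F' = Cov (N p) D.Z`, `s₁ = helper29.sh1 D hKum ζ _ 0`, `t ↦ tGen D ζ`,
  `f = f₀.map (locXIncl Q)` for the polynomial `f₀` of `helper97.exists_sheets_poly`.
-/

set_option autoImplicit false
set_option synthInstance.maxHeartbeats 400000
set_option maxHeartbeats 1000000
set_option linter.unusedSectionVars false
set_option linter.unusedVariables false
set_option linter.style.longLine false
set_option linter.style.haveILetI false

noncomputable section

open HahnSeries IntermediateField AlgebraicCurve ModularCurve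
open Fermat.Agent.S18.helper19 Fermat.Agent.P2.helper29 Fermat.Agent.T2.helper36
open Fermat.Agent.S24

namespace Fermat.Agent.T8.helper16

open Fermat.Agent.P2.helper66 (iota)
open Fermat.Agent.T3.helper16 (IsUnit0)
open Fermat.Agent.T3.helper36 (RhoQ GaussIs)
open Fermat.Agent.T8.helper63 (IsRX KerRedStatement)

section General

variable {N q : ℕ} [NeZero N] [NeZero q] {A : ValuationSubring Kb} {hq : q.Prime}
  {hqN : ¬ q ∣ N} {b0 : FF (N * q)} {B : PowerSeries ℤ} {ε : ℤ}
variable {F' : Type*} [Field F'] [Algebra Kb F']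
variable {S : Type*} [CommRing S] [IsDomain S]

/-- the reduction of `g(t)` on the first sheet is `(red g)(t̄)` -/
theorem rhoQ_aeval_locX (hA : A.LiesOverPrime q) (Q : Place (kA A) (FFb A N))
    (hQ : IsFinitePt Q) [Algebra (locX A hq hqN Q) S]
    (s₁ : F' →+* LaurentSeries Kb) (jS : S →+* F')
    (hbase : ∀ r : locX A hq hqN Q,
      s₁ (jS (algebraMap (locX A hq hqN Q) S r)) = ((r : FF (N * q)) : LaurentSeries Kb))
    (t : S) (tbar : LaurentSeries (kA A)) (ht : RhoQ A (s₁ (jS t)) tbar)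
    (g : Polynomial (locX A hq hqN Q)) :
    RhoQ A (s₁ (jS (Polynomial.aeval t g))) ((g.map (redL hA Q hQ)).eval tbar) := by
  induction g using Polynomial.induction_on' with
  | add g₁ g₂ h₁ h₂ =>
    rw [map_add, map_add, map_add, Polynomial.map_add, Polynomial.eval_add]
    exact h₁.add h₂
  | monomial n r =>
    rw [Polynomial.aeval_monomial, map_mul, map_mul, map_pow, map_pow, Polynomial.map_monomial,
      Polynomial.eval_monomial, hbase]
    exact (rhoQ_redL hA Q hQ r).mul (ht.pow n)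

/-- **item (ii), abstract form.** -/
theorem sheet1_locX_general (h : IsUnit0 hq hqN b0 B ε) (hA : A.LiesOverPrime q)
    (hN : 4 ∣ N ∨ 9 ∣ N) (Q : Place (kA A) (FFb A N)) (hQ : IsFinitePt Q)
    [Algebra (locX A hq hqN Q) S]
    (s₁ : F' →+* LaurentSeries Kb) (jS : S →+* F')
    (hbase : ∀ r : locX A hq hqN Q,
      s₁ (jS (algebraMap (locX A hq hqN Q) S r)) = ((r : FF (N * q)) : LaurentSeries Kb))
    (t : S) (f : Polynomial (locX A hq hqN Q)) (hf : f.Monic)
    (hroot : jS (Polynomial.aeval t f) = 0)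
    (c₁ : LaurentSeries (kA A))
    (hred : ∀ m, redL hA Q hQ (f.coeff m) =
      (Polynomial.X ^ q - Polynomial.X - Polynomial.C c₁ :
        Polynomial (LaurentSeries (kA A))).coeff m)
    (tbar : LaurentSeries (kA A)) (htmem : tbar ∈ FFb A N) (ht : RhoQ A (s₁ (jS t)) tbar)
    (x : locX A hq hqN Q) (hx : (x : FF (N * q)) = atkinLehner N q hq hqN b0) :
    haveI : IsLocalRing (locX A hq hqN Q) := isLocalRing_locX hA Q hQ
    ∃ a : locX A hq hqN Q, redL hA Q hQ a = tbar ∧
      Fermat.Agent.T8.helper9.Sheet1 (A := A) s₁ jS t a x (FFb A N).toSubfield (ordAt Q)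
        (redL hA Q hQ) ∧
      f.eval a ∈ IsLocalRing.maximalIdeal (locX A hq hqN Q) ∧
      f.derivative.eval a ∉ IsLocalRing.maximalIdeal (locX A hq hqN Q) := by
  haveI : IsLocalRing (locX A hq hqN Q) := isLocalRing_locX hA Q hQ
  have key := rhoQ_aeval_locX hA Q hQ s₁ jS hbase t tbar ht
  have hroot' : (f.map (redL hA Q hQ)).eval tbar = 0 := by
    have h1 := key f
    rw [hroot, map_zero] at h1
    exact h1.eq_zero
  obtain ⟨a, ha⟩ := exists_redL_eq_of_root hA hN Q hQ f hf htmem hroot'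
  have hfmap : f.map (redL hA Q hQ) =
      (Polynomial.X ^ q - Polynomial.X - Polynomial.C c₁ :
        Polynomial (LaurentSeries (kA A))) :=
    Polynomial.ext (fun m => by rw [Polynomial.coeff_map, hred])
  have heval : ∀ g : Polynomial (locX A hq hqN Q),
      redL hA Q hQ (g.eval a) = (g.map (redL hA Q hQ)).eval tbar := by
    intro g
    rw [← ha, Polynomial.eval_map, Polynomial.eval₂_at_apply]
  have hq0 : ((q : ℕ) : LaurentSeries (kA A)) = 0 := redL_natCast_self hA Q hQ
  refine ⟨a, ha, ⟨?_, ?_, ?_, ?_, ?_, ?_, ?_⟩, ?_, ?_⟩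
  · intro r
    rw [hbase]
    exact rhoQ_redL hA Q hQ r
  · intro r
    exact redL_mem_FFb hA Q hQ r
  · intro r
    exact ordAt_redL_nonneg hA Q hQ r
  · intro r hr
    exact ordAt_redL_of_isUnit hA Q hQ hr
  · intro r hr
    exact dvd_of_redL_eq_zero h hA Q hQ x hx hr
  · exact redL_xx h hA Q hQ x hx
  · rw [ha]
    exact ht
  · rw [IsLocalRing.mem_maximalIdeal, mem_nonunits_iff]
    intro hu
    exact redL_ne_zero_of_isUnit hA Q hQ hu (by rw [heval, hroot'])
  · intro hmem
    rw [IsLocalRing.mem_maximalIdeal, mem_nonunits_iff] at hmem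
    apply hmem
    have e : redL hA Q hQ (f.derivative.eval a) = -1 := by
      rw [heval, ← Polynomial.derivative_map, hfmap]
      simp [Polynomial.derivative_X_pow, hq0]
    rw [isUnit_iff_redQ hA Q hQ]
    have e' : redQ hA Q hQ (f.derivative.eval a) = -1 := by
      apply Subtype.ext
      apply Subtype.ext
      exact e
    rw [e']
    exact isUnit_one.neg

end General

section Inst

open Fermat.Agent.T8.helper88 (CovData Cov)
open Fermat.Agent.T8.helper86 (IsKummerRoot)
open Fermat.Agent.T8.helper65 (muFix IA cwAct)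
open Fermat.Agent.T8.helper97 (tGen SheetsPoly phiX)

variable {N p : ℕ} [NeZero N] [NeZero p] {hp : p.Prime} {hpN : ¬ p ∣ N}
  {A : ValuationSubring Kb} {b0 : FF (N * p)} {B : PowerSeries ℤ} {ε : ℤ}
  (D : CovData (N * p) (atkinLehner N p hp hpN) A p)
  [((muFix p ⊓ IA A).subgroupOf (IA A)).FiniteIndex]
  (hKum : IsKummerRoot p D.K D.Z) (ζ : Kb) (hζ : IsPrimitiveRoot ζ p)
variable {S : Type*} [CommRing S] [IsDomain S]

include hKum hζ in
/-- the reduction of the tame trace on the sheet `(1, 0)`: an element of the special fibre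
field with `RhoQ` -/
theorem exists_tbar (hp3 : 3 ≤ p) (hA : A.LiesOverPrime p)
    (hnew : Fermat.Agent.T7.helper27.IsNewN N p D.K)
    (hfix1 : ∀ σ ∈ muFix p ⊓ IA A, cwAct σ (incl A D.Z₁) = incl A D.Z₁)
    (hfix2 : ∀ σ ∈ muFix p ⊓ IA A, cwAct σ (incl A D.Z₂) = incl A D.Z₂)
    (hr1 : red A D.Z₁ = 1) (hr2 : red A D.Z₂ = 1) :
    ∃ tbar : LaurentSeries (kA A), tbar ∈ FFb A N ∧
      RhoQ A ((tGen D ζ : Cov (N * p) D.Z) : LaurentSeries Kb) tbar := by
  obtain ⟨T₁, T₂, h1, -, -, -⟩ :=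
    Fermat.Agent.T8.helper97.exists_sheet_models D hKum ζ hζ hp3 hA hfix1 hfix2 hr1 hr2
  have e : incl A (T₁ 0) = ((tGen D ζ : Cov (N * p) D.Z) : LaurentSeries Kb) := by
    rw [h1 0]
    rfl
  refine ⟨red A (T₁ 0), ?_, ?_⟩
  · by_cases h0 : red A (T₁ 0) = 0
    · rw [h0]
      exact (FFb A N).zero_mem
    · refine (Fermat.Agent.T8.helper22.goodIn_cov₁ N p hp hpN hA D hnew hr1).red_mem (T₁ 0)
        ⟨?_, h0⟩
      rw [e]
      exact (tGen D ζ).2
  · rw [← e]
    exact Fermat.Agent.T3.helper36.rhoQ_incl (T₁ 0)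

/-- **item (ii), instance**: the `Sheet1` hypothesis of `helper9.covPtHom_loc` on the sheet
`(1, 0)` of the cover, with the lift `a` of the reduction of the tame trace. -/
theorem sheet1_cov (h : IsUnit0 hp hpN b0 B ε) (hA : A.LiesOverPrime p) (hN : 4 ∣ N ∨ 9 ∣ N)
    (hp3 : 3 ≤ p) (hnew : Fermat.Agent.T7.helper27.IsNewN N p D.K)
    (hfix1 : ∀ σ ∈ muFix p ⊓ IA A, cwAct σ (incl A D.Z₁) = incl A D.Z₁)
    (hfix2 : ∀ σ ∈ muFix p ⊓ IA A, cwAct σ (incl A D.Z₂) = incl A D.Z₂)
    (hr1 : red A D.Z₁ = 1) (hr2 : red A D.Z₂ = 1)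
    (Q : Place (kA A) (FFb A N)) (hQ : IsFinitePt Q)
    [Algebra (locX A hp hpN Q) S] (jS : S →+* Cov (N * p) D.Z)
    (hjR : ∀ r : locX A hp hpN Q, jS (algebraMap (locX A hp hpN Q) S r) =
      algebraMap (FF (N * p)) (Cov (N * p) D.Z) (r : FF (N * p)))
    (t : S) (hjt : jS t = tGen D ζ)
    {f : Polynomial (ringX A hp hpN)} {c₁ c₂ : LaurentSeries (kA A)}
    (hf : SheetsPoly D hKum ζ hζ f c₁ c₂)
    (x : locX A hp hpN Q) (hx : (x : FF (N * p)) = atkinLehner N p hp hpN b0) :
    haveI : IsLocalRing (locX A hp hpN Q) := isLocalRing_locX hA Q hQ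
    ∃ a : locX A hp hpN Q,
      Fermat.Agent.T8.helper9.Sheet1 (A := A)
        (Fermat.Agent.T8.helper29.sh1 D hKum ζ hζ.pow_eq_one 0) jS t a x
        (FFb A N).toSubfield (ordAt Q) (redL hA Q hQ) ∧
      (f.map (locXIncl Q)).eval a ∈ IsLocalRing.maximalIdeal (locX A hp hpN Q) ∧
      (f.map (locXIncl Q)).derivative.eval a ∉ IsLocalRing.maximalIdeal (locX A hp hpN Q) := by
  haveI : IsLocalRing (locX A hp hpN Q) := isLocalRing_locX hA Q hQ
  obtain ⟨tbar, htmem, ht⟩ := exists_tbar D hKum ζ hζ hp3 hA hnew hfix1 hfix2 hr1 hr2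
  have hbase : ∀ r : locX A hp hpN Q,
      Fermat.Agent.T8.helper29.sh1 D hKum ζ hζ.pow_eq_one 0
        (jS (algebraMap (locX A hp hpN Q) S r)) = ((r : FF (N * p)) : LaurentSeries Kb) := by
    intro r
    rw [hjR, Fermat.Agent.T8.helper29.sh1_zero]
    rfl
  have hroot : jS (Polynomial.aeval t (f.map (locXIncl Q))) = 0 := by
    have h1 := hf.eval_tGen
    rw [Polynomial.aeval_def, Polynomial.hom_eval₂, Polynomial.eval₂_map, hjt]
    have e : (jS.comp (algebraMap (locX A hp hpN Q) S)).comp (locXIncl Q) = phiX D :=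
      RingHom.ext (fun r => hjR (locXIncl Q r))
    rw [e]
    exact h1
  have hred : ∀ m, redL hA Q hQ ((f.map (locXIncl Q)).coeff m) =
      (Polynomial.X ^ p - Polynomial.X - Polynomial.C c₁ :
        Polynomial (LaurentSeries (kA A))).coeff m := by
    intro m
    rw [Polynomial.coeff_map, redL_incl]
    exact hf.red1 m
  obtain ⟨a, -, H, ha, ha'⟩ := sheet1_locX_general h hA hN Q hQ
    (Fermat.Agent.T8.helper29.sh1 D hKum ζ hζ.pow_eq_one 0) jS hbase t (f.map (locXIncl Q))
    (hf.monic.map _) hroot c₁ hred tbar htmem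
    (by rw [hjt, Fermat.Agent.T8.helper29.sh1_zero]; exact ht) x hx
  exact ⟨a, H, ha, ha'⟩

end Inst

end Fermat.Agent.T8.helper16
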