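import Fermat.Agent.T8.helper63_KerRed
import Fermat.Agent.T8.helper48_Vertical

/-!
# T8 (row 38, at risk), leaf [RING-X], sub-box DICTIONARY, VERTICAL half (helper48): instance

Level `N q` (`q` prime, `q ∤ N`; in T8: `q = p`, `N = N'`), `W = atkinLehner N q`, `A` a valuation
subring of `ℚ̄` over `q`, `b₀` the weight-one unit of T3 (`helper16.IsUnit0`), `y := b₀`,
`xx := W b₀`.

`VertSetting A hq hqN b0 Rs` : the properties of a subring `Rs` of `FF (N q)` (the ring `R` of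
`helper63.IsRX`, or any localisation `R_s` of it at a multiplicative set of functions with nonzero
reductions on both components) used by the vertical half: inertia-fixed, Gauss-integral at the
two cusps, `ker red₁ ⊆ xx Rs`, `ker red₂ ⊆ y Rs`, `y, xx ∈ Rs`, integers prime to `q` invertible.

For such a ring:

* `VertSetting.exists_gauss1 / exists_gauss2` : every `r ≠ 0` of `Rs` has Gauss values `q ^ k`
  with `k : ℕ` at the two cusps (`w₁ r = k₁`, `w₂ r = k₂`).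
* `VertSetting.prime_y / prime_xx` : `y` and `xx` are prime elements of `Rs`.
* `VertSetting.gaussIs_of_mult2 / gaussIs_of_mult1` : **(V1)** if `y ^ k` divides `a` exactly,
  then `w₂ a = k`, i.e. `GaussIs A (W a) (q ^ k)` (same for `xx`, `w₁`).
* `VertSetting.assoc_of_dvd_natCast` : **(V2)** a prime element of `Rs` dividing an integer
  `n ≠ 0` is associated to `xx` or to `y`.
* `VertSetting.glue` : **(V3)** for `a, b ≠ 0` in `Rs` with Gauss values `q ^ m₁`, `q ^ m₁'` at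
  `∞` and `q ^ m₂`, `q ^ m₂'` at `∞₂`, `n ∣ m₁ - m₁'`, `n ∣ m₂ - m₂'`, and the horizontal
  conclusion (`helper23.DictModEqStatement`): the hypothesis `h` of `helper6.slope_of_ufm`.
-/

set_option autoImplicit false
set_option synthInstance.maxHeartbeats 400000
set_option maxHeartbeats 1000000
set_option linter.unusedSectionVars false
set_option linter.unusedVariables false
set_option linter.style.haveILetI false
set_option linter.style.longLine false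

noncomputable section

open HahnSeries IntermediateField AlgebraicCurve ModularCurve
open Fermat.Agent.S18.helper19 Fermat.Agent.P2.helper29 Fermat.Agent.T2.helper36

namespace Fermat.Agent.T8.helper48

open Fermat.Agent.P2.helper66 (iota inv1)
open Fermat.Agent.T3.helper16 (IsUnit0)
open Fermat.Agent.T3.helper74 (IsFixI)
open Fermat.Agent.T3.helper36 (RhoQ GaussIs)

/-! ### abstract complement: `y` is prime -/

section Abs

variable {R : Type*} [CommRing R] [IsDomain R]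

/-- in the setting of `vert_mult_eq`, `y` is a prime element. -/
theorem vert_prime_of_w {w : R → ℕ}
    (hmul : ∀ a b : R, a ≠ 0 → b ≠ 0 → w (a * b) = w a + w b)
    {y : R} (hy : y ≠ 0) (hwy : w y = 1)
    (hdiv : ∀ a : R, a ≠ 0 → 0 < w a → y ∣ a) : Prime y := by
  have h1 : w (1 : R) = 0 := by
    have := hmul 1 1 one_ne_zero one_ne_zero
    rw [mul_one] at this
    omega
  refine ⟨hy, ?_, ?_⟩
  · intro hu
    obtain ⟨z, hz⟩ := hu.exists_right_inv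
    have hz0 : z ≠ 0 := by
      rintro rfl
      rw [mul_zero] at hz
      exact zero_ne_one hz
    have := hmul y z hy hz0
    rw [hz, h1, hwy] at this
    omega
  · intro a b hab
    rcases eq_or_ne a 0 with rfl | ha
    · exact Or.inl (dvd_zero y)
    rcases eq_or_ne b 0 with rfl | hb
    · exact Or.inr (dvd_zero y)
    obtain ⟨c, hc⟩ := hab
    have hc0 : c ≠ 0 := by
      rintro rfl
      rw [mul_zero] at hc
      exact mul_ne_zero ha hb hc
    have e1 := hmul a b ha hb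
    have e2 := hmul y c hy hc0
    rw [hc, e2, hwy] at e1
    rcases Nat.eq_zero_or_pos (w a) with h0 | h0
    · exact Or.inr (hdiv b hb (by omega))
    · exact Or.inl (hdiv a ha h0)

end Abs

/-! ### Gauss exponents -/

section Exp

variable {A : ValuationSubring Kb} {q : ℕ}

/-- the exponent of the Gauss value is unique -/
theorem gaussIs_zpow_unique (hq : q.Prime) (hA : A.LiesOverPrime q) {g : LaurentSeries Kb}
    {m m' : ℤ} (h : GaussIs A g ((q : Kb) ^ m)) (h' : GaussIs A g ((q : Kb) ^ m')) :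
    m = m' := by
  have hv := h.valuation_eq h'
  rw [map_zpow₀, map_zpow₀] at hv
  have hvq : A.valuation (q : Kb) < 1 := A.mem_nonunits_iff.mp hA
  have hvq0 : 0 < A.valuation (q : Kb) := by
    rw [zero_lt_iff, Valuation.ne_zero_iff]
    exact Nat.cast_ne_zero.2 hq.ne_zero
  exact (zpow_right_inj₀ hvq0 hvq.ne).mp hv

/-- `q ^ k`, `k ≥ 1`, as an element of `A` with residue `0` -/
theorem rhoQ_const_pow_succ (hA : A.LiesOverPrime q) (k : ℕ) :
    RhoQ A (algebraMap Kb (LaurentSeries Kb) ((q : Kb) ^ (k + 1))) 0 := by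
  have hmem : (q : Kb) ^ (k + 1) ∈ A :=
    A.pow_mem (Fermat.Agent.T8.helper63.natCast_mem_A A q) (k + 1)
  have h1 := Fermat.Agent.T3.helper36.rhoQ_algebraMap (A := A) ⟨(q : Kb) ^ (k + 1), hmem⟩
  have hres : IsLocalRing.residue A ⟨(q : Kb) ^ (k + 1), hmem⟩ = 0 := by
    rw [IsLocalRing.residue_eq_zero_iff]
    refine (A.valuation_lt_one_iff (⟨(q : Kb) ^ (k + 1), hmem⟩ : A)).2 ?_
    show A.valuation ((q : Kb) ^ (k + 1)) < 1
    rw [map_pow]
    have hvq : A.valuation (q : Kb) < 1 := A.mem_nonunits_iff.mp hA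
    exact pow_lt_one₀ zero_le hvq (Nat.succ_ne_zero k)
  rw [hres, map_zero] at h1
  exact h1

/-- positive Gauss exponent: the reduction is `0` -/
theorem rhoQ_zero_of_gaussIs_pos (hA : A.LiesOverPrime q) {g : LaurentSeries Kb} {m : ℤ}
    (hm : 1 ≤ m) (h : GaussIs A g ((q : Kb) ^ m)) : RhoQ A g 0 := by
  obtain ⟨k, rfl⟩ : ∃ k : ℕ, m = ((k + 1 : ℕ) : ℤ) := ⟨(m - 1).toNat, by push_cast; omega⟩
  obtain ⟨hc, r, -, hr⟩ := h
  rw [zpow_natCast] at hr hc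
  have h1 := (rhoQ_const_pow_succ hA k).mul hr
  rw [zero_mul, ← mul_assoc, ← map_mul, mul_inv_cancel₀ hc, map_one, one_mul] at h1
  exact h1

/-- a Gauss-integral series has nonnegative Gauss exponent -/
theorem nonneg_of_gaussIs_of_rhoQ (hA : A.LiesOverPrime q) {g : LaurentSeries Kb} {m : ℤ}
    (h : GaussIs A g ((q : Kb) ^ m)) {s : LaurentSeries (kA A)} (hs : RhoQ A g s) : 0 ≤ m := by
  by_contra hm
  rw [not_le] at hm
  obtain ⟨k, rfl⟩ : ∃ k : ℕ, m = -((k + 1 : ℕ) : ℤ) := ⟨(-m - 1).toNat, by push_cast; omega⟩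
  obtain ⟨hc, r, hr0, hr⟩ := h
  rw [zpow_neg, inv_inv, zpow_natCast] at hr
  have h1 := (rhoQ_const_pow_succ hA k).mul hs
  rw [zero_mul] at h1
  exact hr0 (hr.unique h1)

/-- Gauss exponent `0` for a series with nonzero reduction -/
theorem gaussIs_zero_of_rhoQ {g : LaurentSeries Kb} {s : LaurentSeries (kA A)}
    (hs : RhoQ A g s) (hs0 : s ≠ 0) : GaussIs A g ((q : Kb) ^ (0 : ℤ)) := by
  rw [zpow_zero]
  exact Fermat.Agent.T3.helper36.gaussIs_of_rhoQ hs hs0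

/-- a Gauss-integral series with reduction `≠ 0`... or `0`: dichotomy on the exponent -/
theorem rhoQ_zero_iff_of_gaussIs (hq : q.Prime) (hA : A.LiesOverPrime q) {g : LaurentSeries Kb}
    {m : ℤ} (h : GaussIs A g ((q : Kb) ^ m)) {s : LaurentSeries (kA A)} (hs : RhoQ A g s) :
    s = 0 ↔ 1 ≤ m := by
  constructor
  · intro h0
    rw [h0] at hs
    exact Fermat.Agent.T8.helper63.one_le_of_gaussIs_of_red_zero A h hs
  · intro hm
    exact hs.unique (rhoQ_zero_of_gaussIs_pos hA hm h)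

end Exp

/-! ### the setting -/

section Setting

variable {N q : ℕ} [NeZero N] [NeZero q]

/-- the properties of a subring `Rs` of `FF (N q)` used by the vertical half of the dictionary -/
structure VertSetting (A : ValuationSubring Kb) (hq : q.Prime) (hqN : ¬ q ∣ N)
    (b0 : FF (N * q)) (Rs : Subring (FF (N * q))) : Prop where
  /-- the functions of `Rs` are inertia-fixed -/
  fix : ∀ r ∈ Rs, IsFixI A (N * q) r
  /-- Gauss-integral at `∞` -/
  int1 : ∀ r ∈ Rs, ∃ s : LaurentSeries (kA A), RhoQ A ((r : FF (N * q)) : LaurentSeries Kb) s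
  /-- Gauss-integral at `∞₂` -/
  int2 : ∀ r ∈ Rs, ∃ s : LaurentSeries (kA A),
    RhoQ A ((atkinLehner N q hq hqN r : FF (N * q)) : LaurentSeries Kb) s
  /-- `ker red₁ ⊆ xx Rs` -/
  ker1 : ∀ r ∈ Rs, RhoQ A ((r : FF (N * q)) : LaurentSeries Kb) 0 →
    r * (atkinLehner N q hq hqN b0)⁻¹ ∈ Rs
  /-- `ker red₂ ⊆ y Rs` -/
  ker2 : ∀ r ∈ Rs, RhoQ A ((atkinLehner N q hq hqN r : FF (N * q)) : LaurentSeries Kb) 0 →
    r * b0⁻¹ ∈ Rs
  mem_y : b0 ∈ Rs
  mem_xx : atkinLehner N q hq hqN b0 ∈ Rs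
  /-- the integers prime to `q` are invertible in `Rs` -/
  cop : ∀ m : ℕ, m.Coprime q → ((m : FF (N * q)))⁻¹ ∈ Rs

end Setting

namespace VertSetting

variable {N q : ℕ} [NeZero N] [NeZero q] {hq : q.Prime} {hqN : ¬ q ∣ N}
variable {A : ValuationSubring Kb} {b0 : FF (N * q)} {B : PowerSeries ℤ} {ε : ℤ}
variable {Rs : Subring (FF (N * q))}

/-- the element `y = b₀` of `Rs` -/
def yy (hS : VertSetting A hq hqN b0 Rs) : Rs := ⟨b0, hS.mem_y⟩

/-- the element `xx = W b₀` of `Rs` -/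
def xx (hS : VertSetting A hq hqN b0 Rs) : Rs := ⟨atkinLehner N q hq hqN b0, hS.mem_xx⟩

section Basic

variable (hS : VertSetting A hq hqN b0 Rs) (hA : A.LiesOverPrime q)
include hS hA

/-- Gauss value at `∞` of a nonzero element of `Rs` -/
theorem exists_gauss1 {r : Rs} (hr : r ≠ 0) :
    ∃ k : ℕ, GaussIs A (((r : FF (N * q)) : FF (N * q)) : LaurentSeries Kb) ((q : Kb) ^ (k : ℤ)) := by
  have hr0 : (r : FF (N * q)) ≠ 0 := fun h => hr (Subtype.ext h)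
  have hSC : ScaleStatement (N * q) A :=
    Fermat.Agent.T2.helper58.scaleStatement_bad N q hq hqN A hA
  obtain ⟨m, hm⟩ := Fermat.Agent.T3.helper5.gaussIs_fixI hq hA hSC hr0 (hS.fix r r.2)
  obtain ⟨s, hs⟩ := hS.int1 r r.2
  have h0 := nonneg_of_gaussIs_of_rhoQ hA hm hs
  refine ⟨m.toNat, ?_⟩
  rw [Int.toNat_of_nonneg h0]
  exact hm

/-- Gauss value at `∞₂` of a nonzero element of `Rs` -/
theorem exists_gauss2 {r : Rs} (hr : r ≠ 0) :
    ∃ k : ℕ, GaussIs A ((atkinLehner N q hq hqN (r : FF (N * q)) : FF (N * q)) : LaurentSeries Kb)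
      ((q : Kb) ^ (k : ℤ)) := by
  have hr0 : (r : FF (N * q)) ≠ 0 := fun h => hr (Subtype.ext h)
  have hWr0 : atkinLehner N q hq hqN (r : FF (N * q)) ≠ 0 :=
    (map_ne_zero_iff _ (atkinLehner N q hq hqN).injective).mpr hr0
  have hSC : ScaleStatement (N * q) A :=
    Fermat.Agent.T2.helper58.scaleStatement_bad N q hq hqN A hA
  obtain ⟨m, hm⟩ := Fermat.Agent.T3.helper5.gaussIs_fixI hq hA hSC hWr0
    (Fermat.Agent.T3.helper98.isFixI_atkinLehner A (hS.fix r r.2))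
  obtain ⟨s, hs⟩ := hS.int2 r r.2
  have h0 := nonneg_of_gaussIs_of_rhoQ hA hm hs
  refine ⟨m.toNat, ?_⟩
  rw [Int.toNat_of_nonneg h0]
  exact hm

end Basic

open Classical in
/-- `w₁` on `Rs` -/
def w1 (hS : VertSetting A hq hqN b0 Rs) (hA : A.LiesOverPrime q) (r : Rs) : ℕ :=
  if h : r ≠ 0 then (hS.exists_gauss1 hA h).choose else 0

open Classical in
/-- `w₂` on `Rs` -/
def w2 (hS : VertSetting A hq hqN b0 Rs) (hA : A.LiesOverPrime q) (r : Rs) : ℕ :=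
  if h : r ≠ 0 then (hS.exists_gauss2 hA h).choose else 0

section W

variable (hS : VertSetting A hq hqN b0 Rs) (hA : A.LiesOverPrime q)

theorem w1_spec {r : Rs} (hr : r ≠ 0) :
    GaussIs A ((r : FF (N * q)) : LaurentSeries Kb) ((q : Kb) ^ ((hS.w1 hA r : ℕ) : ℤ)) := by
  unfold w1
  rw [dif_pos hr]
  exact (hS.exists_gauss1 hA hr).choose_spec

theorem w2_spec {r : Rs} (hr : r ≠ 0) :
    GaussIs A ((atkinLehner N q hq hqN (r : FF (N * q)) : FF (N * q)) : LaurentSeries Kb)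
      ((q : Kb) ^ ((hS.w2 hA r : ℕ) : ℤ)) := by
  unfold w2
  rw [dif_pos hr]
  exact (hS.exists_gauss2 hA hr).choose_spec

theorem w1_eq {r : Rs} {m : ℤ}
    (h : GaussIs A ((r : FF (N * q)) : LaurentSeries Kb) ((q : Kb) ^ m)) :
    ((hS.w1 hA r : ℕ) : ℤ) = m := by
  have hr : r ≠ 0 := by
    rintro rfl
    exact h.ne_zero rfl
  exact gaussIs_zpow_unique hq hA (hS.w1_spec hA hr) h

theorem w2_eq {r : Rs} {m : ℤ}
    (h : GaussIs A ((atkinLehner N q hq hqN (r : FF (N * q)) : FF (N * q)) : LaurentSeries Kb)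
      ((q : Kb) ^ m)) :
    ((hS.w2 hA r : ℕ) : ℤ) = m := by
  have hr : r ≠ 0 := by
    rintro rfl
    apply h.ne_zero
    show ((atkinLehner N q hq hqN (0 : FF (N * q)) : FF (N * q)) : LaurentSeries Kb) = 0
    rw [map_zero]
    rfl
  exact gaussIs_zpow_unique hq hA (hS.w2_spec hA hr) h

theorem w1_mul (a b : Rs) (ha : a ≠ 0) (hb : b ≠ 0) :
    hS.w1 hA (a * b) = hS.w1 hA a + hS.w1 hA b := by
  have h := (hS.w1_spec hA ha).mul (hS.w1_spec hA hb)
  rw [← zpow_add₀ (Nat.cast_ne_zero.2 hq.ne_zero)] at h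
  have := hS.w1_eq hA (r := a * b) h
  exact_mod_cast this

theorem w2_mul (a b : Rs) (ha : a ≠ 0) (hb : b ≠ 0) :
    hS.w2 hA (a * b) = hS.w2 hA a + hS.w2 hA b := by
  have h := (hS.w2_spec hA ha).mul (hS.w2_spec hA hb)
  rw [← zpow_add₀ (Nat.cast_ne_zero.2 hq.ne_zero)] at h
  have e : ((atkinLehner N q hq hqN ((a * b : Rs) : FF (N * q)) : FF (N * q)) : LaurentSeries Kb)
      = ((atkinLehner N q hq hqN (a : FF (N * q)) : FF (N * q)) : LaurentSeries Kb) *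
        ((atkinLehner N q hq hqN (b : FF (N * q)) : FF (N * q)) : LaurentSeries Kb) := by
    rw [Subring.coe_mul, map_mul]
    rfl
  have := hS.w2_eq hA (r := a * b) (by rw [e]; exact h)
  exact_mod_cast this

end W

section Unit

variable (h : IsUnit0 hq hqN b0 B ε) (hS : VertSetting A hq hqN b0 Rs)
  (hA : A.LiesOverPrime q)
include h

theorem xx_coe_ne_zero : atkinLehner N q hq hqN b0 ≠ 0 :=
  (map_ne_zero_iff _ (atkinLehner N q hq hqN).injective).mpr h.ne_zero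

theorem yy_ne_zero : hS.yy ≠ 0 := fun h0 => h.ne_zero (congrArg Subtype.val h0)

theorem xx_ne_zero : hS.xx ≠ 0 := fun h0 => xx_coe_ne_zero h (congrArg Subtype.val h0)

/-- `ker red₁ ⊆ xx Rs` as divisibility -/
theorem dvd_of_rho1_zero (a : Rs) (h0 : RhoQ A ((a : FF (N * q)) : LaurentSeries Kb) 0) :
    hS.xx ∣ a := by
  refine ⟨⟨_, hS.ker1 a a.2 h0⟩, ?_⟩
  apply Subtype.ext
  show (a : FF (N * q)) = atkinLehner N q hq hqN b0 * ((a : FF (N * q)) *
    (atkinLehner N q hq hqN b0)⁻¹)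
  rw [mul_comm (a : FF (N * q)), ← mul_assoc, mul_inv_cancel₀ (xx_coe_ne_zero h), one_mul]

/-- `ker red₂ ⊆ y Rs` as divisibility -/
theorem dvd_of_rho2_zero (a : Rs)
    (h0 : RhoQ A ((atkinLehner N q hq hqN (a : FF (N * q)) : FF (N * q)) : LaurentSeries Kb) 0) :
    hS.yy ∣ a := by
  refine ⟨⟨_, hS.ker2 a a.2 h0⟩, ?_⟩
  apply Subtype.ext
  show (a : FF (N * q)) = b0 * ((a : FF (N * q)) * b0⁻¹)
  rw [mul_comm (a : FF (N * q)), ← mul_assoc, mul_inv_cancel₀ h.ne_zero, one_mul]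

include hA in
/-- `0 < w₁ a → xx ∣ a` -/
theorem dvd_of_w1_pos (a : Rs) (ha : a ≠ 0) (hpos : 0 < hS.w1 hA a) : hS.xx ∣ a :=
  dvd_of_rho1_zero h hS a
    (rhoQ_zero_of_gaussIs_pos hA (by exact_mod_cast hpos) (hS.w1_spec hA ha))

include hA in
/-- `0 < w₂ a → y ∣ a` -/
theorem dvd_of_w2_pos (a : Rs) (ha : a ≠ 0) (hpos : 0 < hS.w2 hA a) : hS.yy ∣ a :=
  dvd_of_rho2_zero h hS a
    (rhoQ_zero_of_gaussIs_pos hA (by exact_mod_cast hpos) (hS.w2_spec hA ha))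

/-- `w₂ y = 1` -/
theorem w2_yy : hS.w2 hA hS.yy = 1 := by
  have h1 : GaussIs A ((atkinLehner N q hq hqN ((hS.yy : Rs) : FF (N * q)) : FF (N * q)) :
      LaurentSeries Kb) ((q : Kb) ^ (1 : ℤ)) := by
    rw [zpow_one]
    exact Fermat.Agent.T8.helper63.gaussIs_unitW h A
  have := hS.w2_eq hA h1
  exact_mod_cast this

/-- `w₁ xx = 1` -/
theorem w1_xx : hS.w1 hA hS.xx = 1 := by
  have h1 : GaussIs A (((hS.xx : Rs) : FF (N * q)) : LaurentSeries Kb) ((q : Kb) ^ (1 : ℤ)) := by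
    rw [zpow_one]
    exact Fermat.Agent.T8.helper63.gaussIs_unitW h A
  have := hS.w1_eq hA h1
  exact_mod_cast this

/-- `xx * y = ± q` -/
theorem exists_unit_mul : ∃ e : Rsˣ, hS.xx * hS.yy = (e : Rs) * ((q : ℕ) : Rs) := by
  have hal : atkinLehner N q hq hqN b0 * b0 = ((ε : ℤ) : FF (N * q)) * ((q : ℕ) : FF (N * q)) := by
    rw [h.al, map_mul, map_intCast, map_natCast]
  rcases h.sign with rfl | rfl
  · refine ⟨1, Subtype.ext ?_⟩
    show atkinLehner N q hq hqN b0 * b0 = ((1 : Rs) : FF (N * q)) * (((q : ℕ) : Rs) : FF (N * q))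
    rw [hal]
    simp
  · refine ⟨-1, Subtype.ext ?_⟩
    show atkinLehner N q hq hqN b0 * b0 = (((-1 : Rsˣ) : Rs) : FF (N * q)) *
      (((q : ℕ) : Rs) : FF (N * q))
    rw [hal]
    simp

include hS in
/-- the integers prime to `q` are units of `Rs` -/
theorem isUnit_natCast (m : ℕ) (hm : m.Coprime q) : IsUnit ((m : ℕ) : Rs) := by
  have hm0 : m ≠ 0 := by
    rintro rfl
    rw [Nat.coprime_zero_left] at hm
    exact hq.one_lt.ne' hm
  have hmF : ((m : ℕ) : FF (N * q)) ≠ 0 := Nat.cast_ne_zero.2 hm0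
  refine IsUnit.of_mul_eq_one (⟨_, hS.cop m hm⟩ : Rs) (Subtype.ext ?_)
  show (((m : ℕ) : Rs) : FF (N * q)) * ((m : ℕ) : FF (N * q))⁻¹ = 1
  rw [Subring.coe_natCast, mul_inv_cancel₀ hmF]

end Unit

/-! ### the results -/

section Results

variable (h : IsUnit0 hq hqN b0 B ε) (hS : VertSetting A hq hqN b0 Rs)
  (hA : A.LiesOverPrime q)
include h hS hA

/-- `y` is a prime element of `Rs` -/
theorem prime_yy : Prime hS.yy :=
  vert_prime_of_w (hS.w2_mul hA) (yy_ne_zero h hS) (w2_yy h hS hA) (dvd_of_w2_pos h hS hA)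

/-- `xx` is a prime element of `Rs` -/
theorem prime_xx : Prime hS.xx :=
  vert_prime_of_w (hS.w1_mul hA) (xx_ne_zero h hS) (w1_xx h hS hA) (dvd_of_w1_pos h hS hA)

/-- **(V1)** at `y`: exact multiplicity `k` of `y` in `a` gives `w₂ a = k`. -/
theorem gaussIs_of_mult2 {a : Rs} (ha : a ≠ 0) {k : ℕ} (hk : hS.yy ^ k ∣ a)
    (hk' : ¬ hS.yy ^ (k + 1) ∣ a) :
    GaussIs A ((atkinLehner N q hq hqN (a : FF (N * q)) : FF (N * q)) : LaurentSeries Kb)
      ((q : Kb) ^ (k : ℤ)) := by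
  have e := vert_mult_eq (hS.w2_mul hA) (yy_ne_zero h hS) (w2_yy h hS hA)
    (dvd_of_w2_pos h hS hA) ha hk hk'
  rw [e]
  exact hS.w2_spec hA ha

/-- **(V1)** at `xx`: exact multiplicity `k` of `xx` in `a` gives `w₁ a = k`. -/
theorem gaussIs_of_mult1 {a : Rs} (ha : a ≠ 0) {k : ℕ} (hk : hS.xx ^ k ∣ a)
    (hk' : ¬ hS.xx ^ (k + 1) ∣ a) :
    GaussIs A ((a : FF (N * q)) : LaurentSeries Kb) ((q : Kb) ^ (k : ℤ)) := by
  have e := vert_mult_eq (hS.w1_mul hA) (xx_ne_zero h hS) (w1_xx h hS hA)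
    (dvd_of_w1_pos h hS hA) ha hk hk'
  rw [e]
  exact hS.w1_spec hA ha

/-- **(V2)** a prime element of `Rs` dividing an integer `n ≠ 0` is associated to `xx` or `y`. -/
theorem assoc_of_dvd_natCast {π : Rs} (hπ : Prime π) {n : ℕ} (hn : n ≠ 0)
    (hdvd : π ∣ ((n : ℕ) : Rs)) : Associated π hS.xx ∨ Associated π hS.yy := by
  obtain ⟨e, he⟩ := exists_unit_mul h hS
  exact vert_prime_assoc hq (isUnit_natCast h hS) (prime_xx h hS hA).irreducible
    (prime_yy h hS hA).irreducible he hπ hn hdvd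

/-- **(V3) GLUE on `Rs`**: the hypothesis `h` of `helper6.slope_of_ufm` for `a, b ∈ Rs` whose
Gauss exponents at the two cusps are congruent modulo `n`, from the horizontal conclusion. -/
theorem glue (n : ℕ) {a b : Rs} (ha : a ≠ 0) (hb : b ≠ 0) {m₁ m₁' m₂ m₂' : ℤ}
    (g₁ : GaussIs A ((a : FF (N * q)) : LaurentSeries Kb) ((q : Kb) ^ m₁))
    (g₁' : GaussIs A ((b : FF (N * q)) : LaurentSeries Kb) ((q : Kb) ^ m₁'))
    (g₂ : GaussIs A ((atkinLehner N q hq hqN (a : FF (N * q)) : FF (N * q)) : LaurentSeries Kb)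
      ((q : Kb) ^ m₂))
    (g₂' : GaussIs A ((atkinLehner N q hq hqN (b : FF (N * q)) : FF (N * q)) : LaurentSeries Kb)
      ((q : Kb) ^ m₂'))
    (h₁ : (n : ℤ) ∣ m₁ - m₁') (h₂ : (n : ℤ) ∣ m₂ - m₂')
    (hfin : ∀ π : Rs, Prime π → ∀ r : Rs, r ≠ 0 → ∃ k : ℕ, ¬ π ^ (k + 1) ∣ r)
    (hhor : ∀ π : Rs, Prime π → (∀ m : ℕ, m ≠ 0 → ¬ π ∣ (m : Rs)) →
      (∀ r : Rs, r ≠ 0 → ∃ k : ℕ, ¬ π ^ (k + 1) ∣ r) →
      ∀ k l : ℕ, π ^ k ∣ a → ¬ π ^ (k + 1) ∣ a → π ^ l ∣ b → ¬ π ^ (l + 1) ∣ b →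
        k ≡ l [MOD n]) :
    ∀ π : Rs, Prime π → ∀ k l : ℕ, π ^ k ∣ a → ¬ π ^ (k + 1) ∣ a →
      π ^ l ∣ b → ¬ π ^ (l + 1) ∣ b → k ≡ l [MOD n] := by
  obtain ⟨e, he⟩ := exists_unit_mul h hS
  have e1 : hS.w1 hA a ≡ hS.w1 hA b [MOD n] := by
    rw [Nat.modEq_iff_dvd, hS.w1_eq hA g₁, hS.w1_eq hA g₁']
    have : m₁' - m₁ = -(m₁ - m₁') := by ring
    rw [this]
    exact (dvd_neg).2 h₁
  have e2 : hS.w2 hA a ≡ hS.w2 hA b [MOD n] := by
    rw [Nat.modEq_iff_dvd, hS.w2_eq hA g₂, hS.w2_eq hA g₂']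
    have : m₂' - m₂ = -(m₂ - m₂') := by ring
    rw [this]
    exact (dvd_neg).2 h₂
  exact vert_glue hq (isUnit_natCast h hS) (prime_xx h hS hA).irreducible
    (prime_yy h hS hA).irreducible he (hS.w1_mul hA) (hS.w2_mul hA) (w1_xx h hS hA)
    (w2_yy h hS hA) (dvd_of_w1_pos h hS hA) (dvd_of_w2_pos h hS hA) n ha hb e1 e2 hfin hhor

end Results

end VertSetting

/-! ### the setting holds for the ring `R` of `helper63.IsRX` and for its localisations -/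

section Loc

open Fermat.Agent.T8.helper63 (IsRX)

variable {N q : ℕ} [NeZero N] [NeZero q] {hq : q.Prime} {hqN : ¬ q ∣ N}
variable {A : ValuationSubring Kb} {b0 : FF (N * q)} {B : PowerSeries ℤ} {ε : ℤ}

/-- the constant `1 / m`, `m` prime to `q`, lies in the ring `R` -/
theorem isRX_inv_natCast (hq : q.Prime) (hqN : ¬ q ∣ N) (hA : A.LiesOverPrime q) (m : ℕ)
    (hm : m.Coprime q) :
    ∃ Y₁ Y₂ : LaurentSeries A, IsRX A hq hqN (((m : ℕ) : FF (N * q)))⁻¹ Y₁ Y₂ := by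
  have hnd : ¬ (q : ℤ) ∣ ((m : ℕ) : ℤ) := by
    intro hd
    have h1 : q ∣ m := Int.natCast_dvd_natCast.1 hd
    have h2 : q ∣ Nat.gcd m q := Nat.dvd_gcd h1 dvd_rfl
    rw [hm.gcd_eq_one] at h2
    exact hq.one_lt.ne' (Nat.dvd_one.1 h2)
  have hmem : (((m : ℕ) : ℤ) : Kb)⁻¹ ∈ A :=
    Fermat.Agent.S05.helper92.inv_intCast_mem_of_not_dvd hq hA hnd
  have e : (((m : ℕ) : FF (N * q)))⁻¹ =
      algebraMap Kb (FF (N * q)) (((⟨(((m : ℕ) : ℤ) : Kb)⁻¹, hmem⟩ : A) : Kb)) := by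
    show _ = algebraMap Kb (FF (N * q)) ((((m : ℕ) : ℤ) : Kb)⁻¹)
    rw [map_inv₀, map_intCast, Int.cast_natCast]
  refine ⟨HahnSeries.C ⟨_, hmem⟩, HahnSeries.C ⟨_, hmem⟩, ?_, ?_, ?_⟩
  · intro σ _
    rw [map_inv₀, map_natCast]
  · rw [e]
    exact Fermat.Agent.T3.helper98.isRegJ_algebraMap _
  · rw [e]
    exact Fermat.Agent.T2.helper22.isRep_algebraMap _

/-- **the setting for a localisation of `R`**: `Rs` contains the ring `R` of `helper63.IsRX`
and every element of `Rs` is a quotient `a / b` of elements of `R` where both reductions of `b`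
are nonzero and `1 / b ∈ Rs`. -/
theorem vertSetting_of_loc (h : IsUnit0 hq hqN b0 B ε) (hA : A.LiesOverPrime q)
    (Rs : Subring (FF (N * q)))
    (hR : ∀ (g : FF (N * q)) (Y₁ Y₂ : LaurentSeries A), IsRX A hq hqN g Y₁ Y₂ → g ∈ Rs)
    (hloc : ∀ r ∈ Rs, ∃ (a b : FF (N * q)) (Y₁ Y₂ Z₁ Z₂ : LaurentSeries A),
      IsRX A hq hqN a Y₁ Y₂ ∧ IsRX A hq hqN b Z₁ Z₂ ∧ red A Z₁ ≠ 0 ∧ red A Z₂ ≠ 0 ∧
        r * b = a ∧ b⁻¹ ∈ Rs) :
    VertSetting A hq hqN b0 Rs := by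
  -- the shape of an element
  have key : ∀ r ∈ Rs, ∃ (a b : FF (N * q)) (Y₁ Y₂ Z₁ Z₂ : LaurentSeries A),
      IsRX A hq hqN a Y₁ Y₂ ∧ IsRX A hq hqN b Z₁ Z₂ ∧ red A Z₁ ≠ 0 ∧ red A Z₂ ≠ 0 ∧
        r = a * b⁻¹ ∧ b⁻¹ ∈ Rs ∧ b ≠ 0 ∧
        RhoQ A ((r : FF (N * q)) : LaurentSeries Kb) (red A Y₁ / red A Z₁) ∧
        RhoQ A ((atkinLehner N q hq hqN r : FF (N * q)) : LaurentSeries Kb)
          (red A Y₂ / red A Z₂) := by
    intro r hr
    obtain ⟨a, b, Y₁, Y₂, Z₁, Z₂, ha, hb, hZ₁, hZ₂, hab, hbinv⟩ := hloc r hr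
    have hb0 : b ≠ 0 := by
      rintro rfl
      have := hb.2.2.1
      exact incl_ne_zero_of_red_ne_zero hZ₁ this
    have hr' : r = a * b⁻¹ := by
      rw [← hab, mul_assoc, mul_inv_cancel₀ hb0, mul_one]
    refine ⟨a, b, Y₁, Y₂, Z₁, Z₂, ha, hb, hZ₁, hZ₂, hr', hbinv, hb0, ?_, ?_⟩
    · have h1 := Fermat.Agent.T3.helper36.rhoQ_quot Y₁ Z₁ hZ₁
      rw [ha.2.2.1, hb.2.2.1] at h1
      have e : ((r : FF (N * q)) : LaurentSeries Kb) =
          ((a : FF (N * q)) : LaurentSeries Kb) / ((b : FF (N * q)) : LaurentSeries Kb) := by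
        rw [hr', div_eq_mul_inv]
        rfl
      rw [e]
      exact h1
    · have h1 := Fermat.Agent.T3.helper36.rhoQ_quot Y₂ Z₂ hZ₂
      rw [ha.2.2.2, hb.2.2.2] at h1
      have e : ((atkinLehner N q hq hqN r : FF (N * q)) : LaurentSeries Kb) =
          ((atkinLehner N q hq hqN a : FF (N * q)) : LaurentSeries Kb) /
            ((atkinLehner N q hq hqN b : FF (N * q)) : LaurentSeries Kb) := by
        rw [hr', map_mul, map_inv₀, div_eq_mul_inv]
        rfl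
      rw [e]
      exact h1
  refine ⟨?_, ?_, ?_, ?_, ?_, ?_, ?_, ?_⟩
  · intro r hr
    obtain ⟨a, b, Y₁, Y₂, Z₁, Z₂, ha, hb, -, -, hr', -, -, -, -⟩ := key r hr
    rw [hr']
    exact Fermat.Agent.T3.helper98.isFixI_mul A ha.1 (Fermat.Agent.T3.helper98.isFixI_inv A hb.1)
  · intro r hr
    obtain ⟨a, b, Y₁, Y₂, Z₁, Z₂, -, -, -, -, -, -, -, h1, -⟩ := key r hr
    exact ⟨_, h1⟩
  · intro r hr
    obtain ⟨a, b, Y₁, Y₂, Z₁, Z₂, -, -, -, -, -, -, -, -, h2⟩ := key r hr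
    exact ⟨_, h2⟩
  · intro r hr h0
    obtain ⟨a, b, Y₁, Y₂, Z₁, Z₂, ha, hb, hZ₁, hZ₂, hr', hbinv, hb0, h1, -⟩ := key r hr
    have e := h1.unique h0
    have hY₁ : red A Y₁ = 0 := by
      rcases div_eq_zero_iff.1 e with h3 | h3
      · exact h3
      · exact absurd h3 hZ₁
    obtain ⟨U₁, U₂, hU, -⟩ := Fermat.Agent.T8.helper63.kerRed1 h A hA a Y₁ Y₂ ha hY₁
    have hmem := Rs.mul_mem (hR _ _ _ hU) hbinv
    have e2 : r * (atkinLehner N q hq hqN b0)⁻¹ =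
        a * (atkinLehner N q hq hqN b0)⁻¹ * b⁻¹ := by
      rw [hr']
      ring
    rw [e2]
    exact hmem
  · intro r hr h0
    obtain ⟨a, b, Y₁, Y₂, Z₁, Z₂, ha, hb, hZ₁, hZ₂, hr', hbinv, hb0, -, h2⟩ := key r hr
    have e := h2.unique h0
    have hY₂ : red A Y₂ = 0 := by
      rcases div_eq_zero_iff.1 e with h3 | h3
      · exact h3
      · exact absurd h3 hZ₂
    obtain ⟨U₁, U₂, hU, -⟩ := Fermat.Agent.T8.helper63.kerRed2 h A hA a Y₁ Y₂ ha hY₂
    have hmem := Rs.mul_mem (hR _ _ _ hU) hbinv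
    have e2 : r * b0⁻¹ = a * b0⁻¹ * b⁻¹ := by
      rw [hr']
      ring
    rw [e2]
    exact hmem
  · obtain ⟨Y₁, Y₂, hY, -, -⟩ := Fermat.Agent.T8.helper63.isRX_unit h A hA
    exact hR _ _ _ hY
  · obtain ⟨Y₁, Y₂, hY, -, -⟩ := Fermat.Agent.T8.helper63.isRX_unitW h A hA
    exact hR _ _ _ hY
  · intro m hm
    obtain ⟨Y₁, Y₂, hY⟩ := isRX_inv_natCast (N := N) hq hqN hA m hm
    exact hR _ _ _ hY

/-- `1 ∈ R` -/
theorem isRX_one' (hq : q.Prime) (hqN : ¬ q ∣ N) :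
    IsRX A hq hqN (1 : FF (N * q)) 1 1 := by
  refine ⟨Fermat.Agent.T3.helper98.isFixI_one A, Fermat.Agent.T3.helper98.isRegJ_one, ?_, ?_⟩
  · rw [map_one]
    rfl
  · rw [map_one, map_one]
    rfl

/-- `R` is stable under `-` -/
theorem isRX_neg' {g : FF (N * q)} {Y₁ Y₂ : LaurentSeries A} (hg : IsRX A hq hqN g Y₁ Y₂) :
    IsRX A hq hqN (-g) (-Y₁) (-Y₂) := by
  refine ⟨Fermat.Agent.T3.helper98.isFixI_neg A hg.1, hg.2.1.neg, ?_, ?_⟩
  · rw [map_neg, hg.2.2.1]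
    rfl
  · rw [map_neg, map_neg, hg.2.2.2]
    rfl

/-- the ring `R` of [RING-X] (`helper63.IsRX`) as a subring of `FF (N q)` -/
def ringRX (A : ValuationSubring Kb) (hq : q.Prime) (hqN : ¬ q ∣ N) : Subring (FF (N * q)) where
  carrier := {g | ∃ Y₁ Y₂ : LaurentSeries A, IsRX A hq hqN g Y₁ Y₂}
  mul_mem' := by
    rintro f g ⟨Y₁, Y₂, hf⟩ ⟨Z₁, Z₂, hg⟩
    exact ⟨_, _, hf.mul hg⟩
  one_mem' := ⟨1, 1, isRX_one' hq hqN⟩
  add_mem' := by
    rintro f g ⟨Y₁, Y₂, hf⟩ ⟨Z₁, Z₂, hg⟩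
    exact ⟨_, _, hf.add hg⟩
  zero_mem' := ⟨0, 0, Fermat.Agent.T8.helper63.isRX_zero⟩
  neg_mem' := by
    rintro f ⟨Y₁, Y₂, hf⟩
    exact ⟨_, _, isRX_neg' hf⟩

theorem mem_ringRX {g : FF (N * q)} :
    g ∈ ringRX A hq hqN ↔ ∃ Y₁ Y₂ : LaurentSeries A, IsRX A hq hqN g Y₁ Y₂ := Iff.rfl

/-- the setting holds for the ring `R` itself -/
theorem vertSetting_ringRX (h : IsUnit0 hq hqN b0 B ε) (hA : A.LiesOverPrime q) :
    VertSetting A hq hqN b0 (ringRX A hq hqN) := by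
  refine vertSetting_of_loc h hA _ (fun g Y₁ Y₂ hg => ⟨Y₁, Y₂, hg⟩) ?_
  rintro r ⟨Y₁, Y₂, hr⟩
  refine ⟨r, 1, Y₁, Y₂, 1, 1, hr, isRX_one' hq hqN, ?_, ?_, mul_one r, ?_⟩
  · rw [map_one]
    exact one_ne_zero
  · rw [map_one]
    exact one_ne_zero
  · rw [inv_one]
    exact (ringRX A hq hqN).one_mem

end Loc

end Fermat.Agent.T8.helper48
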