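import Fermat.Agent.T8.helper16_RingXDefs
import Fermat.Agent.T8.helper48_VertInst

/-!
# T8 (row 38, at risk), leaf [RING-X], (VERT) for the local rings `locX Q` of helper16 (helper48)

`Q` a closed point of the component `C₁` of the special fibre where `j̄` is finite
(`helper16.IsFinitePt Q`), `R_Q = helper16.locX A hq hqN Q`, `ν = iota B = red₁ b₀`.

* at a DOUBLE point (`0 < ord_Q ν`) the full vertical setting holds for `R_Q`
  (`vertSetting_locX`): `xx` and `y` are prime, the exact multiplicities are `w₁`, `w₂`;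
* at a SMOOTH point (`ord_Q ν = 0`) `y` is a unit of `R_Q` (`inv_unit_mem_locX`), `xx` is prime
  and the only vertical prime, with exact multiplicity `w₁` (`VertSetting1`);
* `glue_locX` : at EVERY finite point `Q`, for `a, b ≠ 0` in `R_Q` with Gauss exponents
  `m₁ ≡ m₁'` at `∞` and `m₂ ≡ m₂'` at `∞₂` modulo `n`, from the horizontal conclusion (the
  dictionary of helper23) the exact multiplicities of EVERY prime element of `R_Q` in `a` and `b`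
  are congruent modulo `n`: the hypothesis `h` of `helper6.slope_of_ufm`, VERBATIM.

No gluing datum of the two branches is used.
-/

set_option autoImplicit false
set_option synthInstance.maxHeartbeats 400000
set_option maxHeartbeats 1000000
set_option linter.unusedSectionVars false
set_option linter.unusedVariables false
set_option linter.style.haveILetI false
set_option linter.style.longLine false

noncomputable section

open HahnSeries IntermediateField AlgebraicCurve ModularCurve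
open Fermat.Agent.S18.helper19 Fermat.Agent.P2.helper29 Fermat.Agent.T2.helper36

namespace Fermat.Agent.T8.helper48

open Fermat.Agent.P2.helper66 (iota inv1)
open Fermat.Agent.T3.helper16 (IsUnit0)
open Fermat.Agent.T3.helper74 (IsFixI)
open Fermat.Agent.T3.helper36 (RhoQ GaussIs)
open Fermat.Agent.T8.helper63 (IsRX)
open Fermat.Agent.T8.helper16 (ringX red1X red2X locX IsUnitAt IsFinitePt ordAt mem_locX
  mem_ringX isRX_model red1X_eq red2X_eq)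

/-! ### abstract: one vertical prime -/

section Abs1

variable {R : Type*} [CommRing R] [IsDomain R]

/-- **GLUE, one vertical prime**: `xx` irreducible and associated to `p` (`xx * y = ε * p` with
`y` a unit). -/
theorem vert_glue_one {p : ℕ} (hp : p.Prime)
    (hunit : ∀ m : ℕ, m.Coprime p → IsUnit (m : R))
    {xx y : R} (hxx : Irreducible xx) (hy : IsUnit y) {ε : Rˣ}
    (hxy : xx * y = ε * (p : R))
    {w1 : R → ℕ}
    (hmul1 : ∀ a b : R, a ≠ 0 → b ≠ 0 → w1 (a * b) = w1 a + w1 b)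
    (hw1 : w1 xx = 1)
    (hdiv1 : ∀ a : R, a ≠ 0 → 0 < w1 a → xx ∣ a)
    (n : ℕ) {a b : R} (ha : a ≠ 0) (hb : b ≠ 0)
    (h1 : w1 a ≡ w1 b [MOD n])
    (hfin : ∀ π : R, Prime π → ∀ r : R, r ≠ 0 → ∃ k : ℕ, ¬ π ^ (k + 1) ∣ r)
    (hhor : ∀ π : R, Prime π → (∀ m : ℕ, m ≠ 0 → ¬ π ∣ (m : R)) →
      (∀ r : R, r ≠ 0 → ∃ k : ℕ, ¬ π ^ (k + 1) ∣ r) →
      ∀ k l : ℕ, π ^ k ∣ a → ¬ π ^ (k + 1) ∣ a → π ^ l ∣ b → ¬ π ^ (l + 1) ∣ b →
        k ≡ l [MOD n]) :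
    ∀ π : R, Prime π → ∀ k l : ℕ, π ^ k ∣ a → ¬ π ^ (k + 1) ∣ a →
      π ^ l ∣ b → ¬ π ^ (l + 1) ∣ b → k ≡ l [MOD n] := by
  intro π hπ k l hka hka' hlb hlb'
  by_cases hv : ∃ m : ℕ, m ≠ 0 ∧ π ∣ (m : R)
  · obtain ⟨m, hm, hdvd⟩ := hv
    have h1' : π ∣ (p : R) := vert_prime_dvd_p hp hunit hπ hm hdvd
    have h2 : π ∣ xx * y := by
      rw [hxy]
      exact Dvd.dvd.mul_left h1' _
    have h3 : π ∣ xx := by
      rcases hπ.dvd_or_dvd h2 with h | h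
      · exact h
      · exact absurd (isUnit_of_dvd_unit h hy) hπ.not_isUnit
    have hA : Associated π xx := hπ.irreducible.associated_of_dvd hxx h3
    have e1 : k = w1 a := vert_mult_eq hmul1 hxx.ne_zero hw1 hdiv1 ha
      ((vert_mult_assoc hA a k).1 hka) (fun h => hka' ((vert_mult_assoc hA a (k + 1)).2 h))
    have e2 : l = w1 b := vert_mult_eq hmul1 hxx.ne_zero hw1 hdiv1 hb
      ((vert_mult_assoc hA b l).1 hlb) (fun h => hlb' ((vert_mult_assoc hA b (l + 1)).2 h))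
    rw [e1, e2]
    exact h1
  · have hh : ∀ m : ℕ, m ≠ 0 → ¬ π ∣ (m : R) := fun m hm hd => hv ⟨m, hm, hd⟩
    exact hhor π hπ hh (hfin π hπ) k l hka hka' hlb hlb'

end Abs1

/-! ### the setting with one vertical prime -/

section Setting1

variable {N q : ℕ} [NeZero N] [NeZero q]

/-- the cusp-`∞` half of `VertSetting`, with `y = b₀` a unit of `Rs`. -/
structure VertSetting1 (A : ValuationSubring Kb) (hq : q.Prime) (hqN : ¬ q ∣ N)
    (b0 : FF (N * q)) (Rs : Subring (FF (N * q))) : Prop where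
  fix : ∀ r ∈ Rs, IsFixI A (N * q) r
  int1 : ∀ r ∈ Rs, ∃ s : LaurentSeries (kA A), RhoQ A ((r : FF (N * q)) : LaurentSeries Kb) s
  ker1 : ∀ r ∈ Rs, RhoQ A ((r : FF (N * q)) : LaurentSeries Kb) 0 →
    r * (atkinLehner N q hq hqN b0)⁻¹ ∈ Rs
  mem_xx : atkinLehner N q hq hqN b0 ∈ Rs
  mem_y : b0 ∈ Rs
  mem_y_inv : b0⁻¹ ∈ Rs
  cop : ∀ m : ℕ, m.Coprime q → ((m : FF (N * q)))⁻¹ ∈ Rs

end Setting1

namespace VertSetting1

variable {N q : ℕ} [NeZero N] [NeZero q] {hq : q.Prime} {hqN : ¬ q ∣ N}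
variable {A : ValuationSubring Kb} {b0 : FF (N * q)} {B : PowerSeries ℤ} {ε : ℤ}
variable {Rs : Subring (FF (N * q))}

/-- the element `y = b₀` of `Rs` -/
def yy (hS : VertSetting1 A hq hqN b0 Rs) : Rs := ⟨b0, hS.mem_y⟩

/-- the element `xx = W b₀` of `Rs` -/
def xx (hS : VertSetting1 A hq hqN b0 Rs) : Rs := ⟨atkinLehner N q hq hqN b0, hS.mem_xx⟩

section Basic

variable (hS : VertSetting1 A hq hqN b0 Rs) (hA : A.LiesOverPrime q)
include hS hA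

theorem exists_gauss1 {r : Rs} (hr : r ≠ 0) :
    ∃ k : ℕ, GaussIs A (((r : FF (N * q)) : FF (N * q)) : LaurentSeries Kb) ((q : Kb) ^ (k : ℤ)) := by
  have hr0 : (r : FF (N * q)) ≠ 0 := fun h => hr (Subtype.ext h)
  have hSC : ScaleStatement (N * q) A :=
    Fermat.Agent.T2.helper58.scaleStatement_bad N q hq hqN A hA
  obtain ⟨m, hm⟩ := Fermat.Agent.T3.helper5.gaussIs_fixI hq hA hSC hr0 (hS.fix r r.2)
  obtain ⟨s, hs⟩ := hS.int1 r r.2
  have h0 := nonneg_of_gaussIs_of_rhoQ hA hm hs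
  refine ⟨m.toNat, ?_⟩
  rw [Int.toNat_of_nonneg h0]
  exact hm

end Basic

open Classical in
/-- `w₁` on `Rs` -/
def w1 (hS : VertSetting1 A hq hqN b0 Rs) (hA : A.LiesOverPrime q) (r : Rs) : ℕ :=
  if h : r ≠ 0 then (hS.exists_gauss1 hA h).choose else 0

section W

variable (hS : VertSetting1 A hq hqN b0 Rs) (hA : A.LiesOverPrime q)

theorem w1_spec {r : Rs} (hr : r ≠ 0) :
    GaussIs A ((r : FF (N * q)) : LaurentSeries Kb) ((q : Kb) ^ ((hS.w1 hA r : ℕ) : ℤ)) := by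
  unfold w1
  rw [dif_pos hr]
  exact (hS.exists_gauss1 hA hr).choose_spec

theorem w1_eq {r : Rs} {m : ℤ}
    (h : GaussIs A ((r : FF (N * q)) : LaurentSeries Kb) ((q : Kb) ^ m)) :
    ((hS.w1 hA r : ℕ) : ℤ) = m := by
  have hr : r ≠ 0 := by
    rintro rfl
    exact h.ne_zero rfl
  exact gaussIs_zpow_unique hq hA (hS.w1_spec hA hr) h

theorem w1_mul (a b : Rs) (ha : a ≠ 0) (hb : b ≠ 0) :
    hS.w1 hA (a * b) = hS.w1 hA a + hS.w1 hA b := by
  have h := (hS.w1_spec hA ha).mul (hS.w1_spec hA hb)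
  rw [← zpow_add₀ (Nat.cast_ne_zero.2 hq.ne_zero)] at h
  have := hS.w1_eq hA (r := a * b) h
  exact_mod_cast this

end W

section Unit

variable (h : IsUnit0 hq hqN b0 B ε) (hS : VertSetting1 A hq hqN b0 Rs)
  (hA : A.LiesOverPrime q)
include h hS

theorem xx_ne_zero : hS.xx ≠ 0 :=
  fun h0 => VertSetting.xx_coe_ne_zero h (congrArg Subtype.val h0)

/-- `ker red₁ ⊆ xx Rs` as divisibility -/
theorem dvd_of_rho1_zero (a : Rs) (h0 : RhoQ A ((a : FF (N * q)) : LaurentSeries Kb) 0) :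
    hS.xx ∣ a := by
  refine ⟨⟨_, hS.ker1 a a.2 h0⟩, ?_⟩
  apply Subtype.ext
  show (a : FF (N * q)) = atkinLehner N q hq hqN b0 * ((a : FF (N * q)) *
    (atkinLehner N q hq hqN b0)⁻¹)
  rw [mul_comm (a : FF (N * q)), ← mul_assoc,
    mul_inv_cancel₀ (VertSetting.xx_coe_ne_zero h), one_mul]

include hA in
theorem dvd_of_w1_pos (a : Rs) (ha : a ≠ 0) (hpos : 0 < hS.w1 hA a) : hS.xx ∣ a :=
  dvd_of_rho1_zero h hS a
    (rhoQ_zero_of_gaussIs_pos hA (by exact_mod_cast hpos) (hS.w1_spec hA ha))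

include hA in
theorem w1_xx : hS.w1 hA hS.xx = 1 := by
  have h1 : GaussIs A (((hS.xx : Rs) : FF (N * q)) : LaurentSeries Kb) ((q : Kb) ^ (1 : ℤ)) := by
    rw [zpow_one]
    exact Fermat.Agent.T8.helper63.gaussIs_unitW h A
  have := hS.w1_eq hA h1
  exact_mod_cast this

theorem exists_unit_mul : ∃ e : Rsˣ, hS.xx * hS.yy = (e : Rs) * ((q : ℕ) : Rs) := by
  have hal : atkinLehner N q hq hqN b0 * b0 = ((ε : ℤ) : FF (N * q)) * ((q : ℕ) : FF (N * q)) := by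
    rw [h.al, map_mul, map_intCast, map_natCast]
  rcases h.sign with rfl | rfl
  · refine ⟨1, Subtype.ext ?_⟩
    show atkinLehner N q hq hqN b0 * b0 = ((1 : Rs) : FF (N * q)) * (((q : ℕ) : Rs) : FF (N * q))
    rw [hal]
    simp
  · refine ⟨-1, Subtype.ext ?_⟩
    show atkinLehner N q hq hqN b0 * b0 = (((-1 : Rsˣ) : Rs) : FF (N * q)) *
      (((q : ℕ) : Rs) : FF (N * q))
    rw [hal]
    simp

theorem isUnit_natCast (m : ℕ) (hm : m.Coprime q) : IsUnit ((m : ℕ) : Rs) := by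
  have hm0 : m ≠ 0 := by
    rintro rfl
    rw [Nat.coprime_zero_left] at hm
    exact hq.one_lt.ne' hm
  have hmF : ((m : ℕ) : FF (N * q)) ≠ 0 := Nat.cast_ne_zero.2 hm0
  refine IsUnit.of_mul_eq_one (⟨_, hS.cop m hm⟩ : Rs) (Subtype.ext ?_)
  show (((m : ℕ) : Rs) : FF (N * q)) * ((m : ℕ) : FF (N * q))⁻¹ = 1
  rw [Subring.coe_natCast, mul_inv_cancel₀ hmF]

/-- `y` is a unit of `Rs` -/
theorem isUnit_yy : IsUnit hS.yy := by
  refine IsUnit.of_mul_eq_one (⟨_, hS.mem_y_inv⟩ : Rs) (Subtype.ext ?_)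
  show b0 * b0⁻¹ = 1
  exact mul_inv_cancel₀ h.ne_zero

include hA in
/-- `xx` is a prime element of `Rs` -/
theorem prime_xx : Prime hS.xx :=
  vert_prime_of_w (hS.w1_mul hA) (xx_ne_zero h hS) (w1_xx h hS hA) (dvd_of_w1_pos h hS hA)

include hA in
/-- **(V1)** at `xx` -/
theorem gaussIs_of_mult1 {a : Rs} (ha : a ≠ 0) {k : ℕ} (hk : hS.xx ^ k ∣ a)
    (hk' : ¬ hS.xx ^ (k + 1) ∣ a) :
    GaussIs A ((a : FF (N * q)) : LaurentSeries Kb) ((q : Kb) ^ (k : ℤ)) := by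
  have e := vert_mult_eq (hS.w1_mul hA) (xx_ne_zero h hS) (w1_xx h hS hA)
    (dvd_of_w1_pos h hS hA) ha hk hk'
  rw [e]
  exact hS.w1_spec hA ha

include hA in
/-- **(V3) GLUE on `Rs`, one vertical prime.** -/
theorem glue (n : ℕ) {a b : Rs} (ha : a ≠ 0) (hb : b ≠ 0) {m₁ m₁' : ℤ}
    (g₁ : GaussIs A ((a : FF (N * q)) : LaurentSeries Kb) ((q : Kb) ^ m₁))
    (g₁' : GaussIs A ((b : FF (N * q)) : LaurentSeries Kb) ((q : Kb) ^ m₁'))
    (h₁ : (n : ℤ) ∣ m₁ - m₁')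
    (hfin : ∀ π : Rs, Prime π → ∀ r : Rs, r ≠ 0 → ∃ k : ℕ, ¬ π ^ (k + 1) ∣ r)
    (hhor : ∀ π : Rs, Prime π → (∀ m : ℕ, m ≠ 0 → ¬ π ∣ (m : Rs)) →
      (∀ r : Rs, r ≠ 0 → ∃ k : ℕ, ¬ π ^ (k + 1) ∣ r) →
      ∀ k l : ℕ, π ^ k ∣ a → ¬ π ^ (k + 1) ∣ a → π ^ l ∣ b → ¬ π ^ (l + 1) ∣ b →
        k ≡ l [MOD n]) :
    ∀ π : Rs, Prime π → ∀ k l : ℕ, π ^ k ∣ a → ¬ π ^ (k + 1) ∣ a →
      π ^ l ∣ b → ¬ π ^ (l + 1) ∣ b → k ≡ l [MOD n] := by
  obtain ⟨e, he⟩ := exists_unit_mul h hS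
  have e1 : hS.w1 hA a ≡ hS.w1 hA b [MOD n] := by
    rw [Nat.modEq_iff_dvd, hS.w1_eq hA g₁, hS.w1_eq hA g₁']
    have : m₁' - m₁ = -(m₁ - m₁') := by ring
    rw [this]
    exact (dvd_neg).2 h₁
  exact vert_glue_one hq (isUnit_natCast h hS) (prime_xx h hS hA).irreducible
    (isUnit_yy h hS) he (hS.w1_mul hA) (w1_xx h hS hA) (dvd_of_w1_pos h hS hA) n ha hb e1
    hfin hhor

end Unit

end VertSetting1

/-! ### the one-prime setting for localisations -/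

section Loc1

variable {N q : ℕ} [NeZero N] [NeZero q] {hq : q.Prime} {hqN : ¬ q ∣ N}
variable {A : ValuationSubring Kb} {b0 : FF (N * q)} {B : PowerSeries ℤ} {ε : ℤ}

/-- **the one-prime setting for a localisation of `R`** in which `y = b₀` is invertible: `Rs`
contains the ring `R` of `helper63.IsRX` and `1 / b₀`, and every element of `Rs` is a quotient
`a / b` of elements of `R` where the FIRST reduction of `b` is nonzero and `1 / b ∈ Rs`. -/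
theorem vertSetting1_of_loc (h : IsUnit0 hq hqN b0 B ε) (hA : A.LiesOverPrime q)
    (Rs : Subring (FF (N * q)))
    (hR : ∀ (g : FF (N * q)) (Y₁ Y₂ : LaurentSeries A), IsRX A hq hqN g Y₁ Y₂ → g ∈ Rs)
    (hy : b0⁻¹ ∈ Rs)
    (hloc : ∀ r ∈ Rs, ∃ (a b : FF (N * q)) (Y₁ Y₂ Z₁ Z₂ : LaurentSeries A),
      IsRX A hq hqN a Y₁ Y₂ ∧ IsRX A hq hqN b Z₁ Z₂ ∧ red A Z₁ ≠ 0 ∧
        r * b = a ∧ b⁻¹ ∈ Rs) :
    VertSetting1 A hq hqN b0 Rs := by
  have key : ∀ r ∈ Rs, ∃ (a b : FF (N * q)) (Y₁ Y₂ Z₁ Z₂ : LaurentSeries A),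
      IsRX A hq hqN a Y₁ Y₂ ∧ IsRX A hq hqN b Z₁ Z₂ ∧ red A Z₁ ≠ 0 ∧
        r = a * b⁻¹ ∧ b⁻¹ ∈ Rs ∧ b ≠ 0 ∧
        RhoQ A ((r : FF (N * q)) : LaurentSeries Kb) (red A Y₁ / red A Z₁) := by
    intro r hr
    obtain ⟨a, b, Y₁, Y₂, Z₁, Z₂, ha, hb, hZ₁, hab, hbinv⟩ := hloc r hr
    have hb0 : b ≠ 0 := by
      rintro rfl
      have := hb.2.2.1
      exact incl_ne_zero_of_red_ne_zero hZ₁ this
    have hr' : r = a * b⁻¹ := by
      rw [← hab, mul_assoc, mul_inv_cancel₀ hb0, mul_one]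
    refine ⟨a, b, Y₁, Y₂, Z₁, Z₂, ha, hb, hZ₁, hr', hbinv, hb0, ?_⟩
    have h1 := Fermat.Agent.T3.helper36.rhoQ_quot Y₁ Z₁ hZ₁
    rw [ha.2.2.1, hb.2.2.1] at h1
    have e : ((r : FF (N * q)) : LaurentSeries Kb) =
        ((a : FF (N * q)) : LaurentSeries Kb) / ((b : FF (N * q)) : LaurentSeries Kb) := by
      rw [hr', div_eq_mul_inv]
      rfl
    rw [e]
    exact h1
  refine ⟨?_, ?_, ?_, ?_, ?_, hy, ?_⟩
  · intro r hr
    obtain ⟨a, b, Y₁, Y₂, Z₁, Z₂, ha, hb, -, hr', -, -, -⟩ := key r hr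
    rw [hr']
    exact Fermat.Agent.T3.helper98.isFixI_mul A ha.1 (Fermat.Agent.T3.helper98.isFixI_inv A hb.1)
  · intro r hr
    obtain ⟨a, b, Y₁, Y₂, Z₁, Z₂, -, -, -, -, -, -, h1⟩ := key r hr
    exact ⟨_, h1⟩
  · intro r hr h0
    obtain ⟨a, b, Y₁, Y₂, Z₁, Z₂, ha, hb, hZ₁, hr', hbinv, hb0, h1⟩ := key r hr
    have e := h1.unique h0
    have hY₁ : red A Y₁ = 0 := by
      rcases div_eq_zero_iff.1 e with h3 | h3
      · exact h3
      · exact absurd h3 hZ₁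
    obtain ⟨U₁, U₂, hU, -⟩ := Fermat.Agent.T8.helper63.kerRed1 h A hA a Y₁ Y₂ ha hY₁
    have hmem := Rs.mul_mem (hR _ _ _ hU) hbinv
    have e2 : r * (atkinLehner N q hq hqN b0)⁻¹ =
        a * (atkinLehner N q hq hqN b0)⁻¹ * b⁻¹ := by
      rw [hr']
      ring
    rw [e2]
    exact hmem
  · obtain ⟨Y₁, Y₂, hY, -, -⟩ := Fermat.Agent.T8.helper63.isRX_unitW h A hA
    exact hR _ _ _ hY
  · obtain ⟨Y₁, Y₂, hY, -, -⟩ := Fermat.Agent.T8.helper63.isRX_unit h A hA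
    exact hR _ _ _ hY
  · intro m hm
    obtain ⟨Y₁, Y₂, hY⟩ := isRX_inv_natCast (N := N) hq hqN hA m hm
    exact hR _ _ _ hY

end Loc1

/-! ### the local rings `locX Q` of helper16 -/

section LocX

open Fermat.Agent.T3.helper95 (BtAll mem_BtAll)

variable {N q : ℕ} [NeZero N] [NeZero q] {hq : q.Prime} {hqN : ¬ q ∣ N}
variable {A : ValuationSubring Kb} {b0 : FF (N * q)} {B : PowerSeries ℤ} {ε : ℤ}

/-- the first reduction of a function of `R⁰` is regular where `j̄` is finite -/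
theorem red1X_mem_BtAll (hA : A.LiesOverPrime q) (g : ringX A hq hqN) :
    red1X A hq hqN g ∈ BtAll N A := by
  have hg := isRX_model g
  rw [red1X_eq hg]
  exact Fermat.Agent.T3.helper98.mem_BtAll_of_incl_q hq hqN hA hg.2.1 _ _ hg.2.2.1 hg.2.2.2

theorem ordAt_nonneg_of_mem_BtAll {Q : Place (kA A) (FFb A N)} (hQ : IsFinitePt Q)
    {x : LaurentSeries (kA A)} (hx : x ∈ BtAll N A) : 0 ≤ ordAt Q x := by
  obtain ⟨hx', hh⟩ := mem_BtAll.1 hx
  rw [Fermat.Agent.T8.helper16.ordAt_of_mem Q hx']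
  exact hh Q hQ

/-- `ν = iota B` is regular where `j̄` is finite -/
theorem nu_mem_BtAll (h : IsUnit0 hq hqN b0 B ε) (hA : A.LiesOverPrime q) :
    iota (kA A) B ∈ BtAll N A :=
  Fermat.Agent.T3.helper98.hnu_of_isUnit0 h hA

/-- the unit `y = b₀` as an element of `R⁰` -/
def yX (h : IsUnit0 hq hqN b0 B ε) (hA : A.LiesOverPrime q) : ringX A hq hqN :=
  ⟨b0, by
    obtain ⟨Y₁, Y₂, hY, -, -⟩ := Fermat.Agent.T8.helper63.isRX_unit h A hA
    exact ⟨Y₁, Y₂, hY⟩⟩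

theorem red1X_yX (h : IsUnit0 hq hqN b0 B ε) (hA : A.LiesOverPrime q) :
    red1X A hq hqN (yX h hA) = iota (kA A) B := by
  obtain ⟨Y₁, Y₂, hY, h1, -⟩ := Fermat.Agent.T8.helper63.isRX_unit h A hA
  have : IsRX A hq hqN ((yX h hA : ringX A hq hqN) : FF (N * q)) Y₁ Y₂ := hY
  rw [red1X_eq this, h1]

/-- at a double point a function of `R⁰` which is a unit at `Q` has nonzero second reduction -/
theorem red2X_ne_zero_of_isUnitAt (h : IsUnit0 hq hqN b0 B ε) (hA : A.LiesOverPrime q)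
    {Q : Place (kA A) (FFb A N)} (hQ : IsFinitePt Q) (hν : 0 < ordAt Q (iota (kA A) B))
    {s : ringX A hq hqN} (hs : IsUnitAt A hq hqN Q s) : red2X A hq hqN s ≠ 0 := by
  intro h0
  have hm := isRX_model s
  rw [red2X_eq hm] at h0
  obtain ⟨Z₁, Z₂, hZ, hr⟩ := Fermat.Agent.T8.helper63.kerRed2 h A hA _ _ _ hm h0
  have e1 : red1X A hq hqN s = red A Z₁ * iota (kA A) B := by
    rw [red1X_eq hm, hr]
  have hZmem : red A Z₁ ∈ BtAll N A :=
    Fermat.Agent.T3.helper98.mem_BtAll_of_incl_q hq hqN hA hZ.2.1 _ _ hZ.2.2.1 hZ.2.2.2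
  have hνmem := nu_mem_BtAll (A := A) h hA
  have hZ0 : red A Z₁ ≠ 0 := by
    intro hz
    apply hs.2.1
    rw [e1, hz, zero_mul]
  have hν0 : iota (kA A) B ≠ 0 := Fermat.Agent.T8.helper63.nu_ne_zero h A
  have e2 := Fermat.Agent.T8.helper16.ordAt_mul Q (mem_BtAll.1 hZmem).1 (mem_BtAll.1 hνmem).1
    hZ0 hν0
  have e3 := hs.2.2
  rw [e1, e2] at e3
  have e4 := ordAt_nonneg_of_mem_BtAll hQ hZmem
  omega

/-- the inverse of a unit at `Q` lies in `locX Q` -/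
theorem inv_mem_locX {Q : Place (kA A) (FFb A N)} {s : ringX A hq hqN}
    (hs : IsUnitAt A hq hqN Q s) : ((s : FF (N * q)))⁻¹ ∈ locX A hq hqN Q :=
  ⟨1, s, hs, inv_mul_cancel₀ hs.ne_zero⟩

/-- **(VERT) at a double point**: the full vertical setting holds for `locX Q`. -/
theorem vertSetting_locX (h : IsUnit0 hq hqN b0 B ε) (hA : A.LiesOverPrime q)
    {Q : Place (kA A) (FFb A N)} (hQ : IsFinitePt Q) (hν : 0 < ordAt Q (iota (kA A) B)) :
    VertSetting A hq hqN b0 (locX A hq hqN Q) := by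
  refine vertSetting_of_loc h hA (locX A hq hqN Q)
    (fun g Y₁ Y₂ hg => Fermat.Agent.T8.helper16.ringX_le_locX Q ⟨Y₁, Y₂, hg⟩) ?_
  rintro r ⟨a, s, hs, e⟩
  exact ⟨a, s, _, _, _, _, isRX_model a, isRX_model s, hs.2.1,
    red2X_ne_zero_of_isUnitAt h hA hQ hν hs, e, inv_mem_locX hs⟩

/-- `y = b₀` is a unit at a smooth point -/
theorem isUnitAt_yX (h : IsUnit0 hq hqN b0 B ε) (hA : A.LiesOverPrime q)
    {Q : Place (kA A) (FFb A N)} (hν : ordAt Q (iota (kA A) B) = 0) :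
    IsUnitAt A hq hqN Q (yX h hA) := by
  refine ⟨?_, ?_, ?_⟩
  · rw [red1X_yX]
    exact (mem_BtAll.1 (nu_mem_BtAll (A := A) h hA)).1
  · rw [red1X_yX]
    exact Fermat.Agent.T8.helper63.nu_ne_zero h A
  · rw [red1X_yX]
    exact hν

/-- **(VERT) at a smooth point**: `y` is a unit of `locX Q`, `xx` is the only vertical prime. -/
theorem vertSetting1_locX (h : IsUnit0 hq hqN b0 B ε) (hA : A.LiesOverPrime q)
    {Q : Place (kA A) (FFb A N)} (hν : ordAt Q (iota (kA A) B) = 0) :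
    VertSetting1 A hq hqN b0 (locX A hq hqN Q) := by
  have hy : b0⁻¹ ∈ locX A hq hqN Q :=
    ⟨1, yX h hA, isUnitAt_yX h hA hν, inv_mul_cancel₀ h.ne_zero⟩
  refine vertSetting1_of_loc h hA (locX A hq hqN Q)
    (fun g Y₁ Y₂ hg => Fermat.Agent.T8.helper16.ringX_le_locX Q ⟨Y₁, Y₂, hg⟩) hy ?_
  rintro r ⟨a, s, hs, e⟩
  exact ⟨a, s, _, _, _, _, isRX_model a, isRX_model s, hs.2.1, e, inv_mem_locX hs⟩

/-- **(VERT), GLUE on `locX Q` at every finite point `Q`** (smooth or double): for `a, b ≠ 0`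
in `R_Q` whose Gauss exponents at the two cusps are congruent modulo `n`, the horizontal
conclusion (helper23's dictionary) gives the hypothesis `h` of `helper6.slope_of_ufm`. -/
theorem glue_locX (h : IsUnit0 hq hqN b0 B ε) (hA : A.LiesOverPrime q)
    {Q : Place (kA A) (FFb A N)} (hQ : IsFinitePt Q)
    (n : ℕ) {a b : locX A hq hqN Q} (ha : a ≠ 0) (hb : b ≠ 0) {m₁ m₁' m₂ m₂' : ℤ}
    (g₁ : GaussIs A ((a : FF (N * q)) : LaurentSeries Kb) ((q : Kb) ^ m₁))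
    (g₁' : GaussIs A ((b : FF (N * q)) : LaurentSeries Kb) ((q : Kb) ^ m₁'))
    (g₂ : GaussIs A ((atkinLehner N q hq hqN (a : FF (N * q)) : FF (N * q)) : LaurentSeries Kb)
      ((q : Kb) ^ m₂))
    (g₂' : GaussIs A ((atkinLehner N q hq hqN (b : FF (N * q)) : FF (N * q)) : LaurentSeries Kb)
      ((q : Kb) ^ m₂'))
    (h₁ : (n : ℤ) ∣ m₁ - m₁') (h₂ : (n : ℤ) ∣ m₂ - m₂')
    (hfin : ∀ π : locX A hq hqN Q, Prime π → ∀ r : locX A hq hqN Q, r ≠ 0 →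
      ∃ k : ℕ, ¬ π ^ (k + 1) ∣ r)
    (hhor : ∀ π : locX A hq hqN Q, Prime π → (∀ m : ℕ, m ≠ 0 → ¬ π ∣ (m : locX A hq hqN Q)) →
      (∀ r : locX A hq hqN Q, r ≠ 0 → ∃ k : ℕ, ¬ π ^ (k + 1) ∣ r) →
      ∀ k l : ℕ, π ^ k ∣ a → ¬ π ^ (k + 1) ∣ a → π ^ l ∣ b → ¬ π ^ (l + 1) ∣ b →
        k ≡ l [MOD n]) :
    ∀ π : locX A hq hqN Q, Prime π → ∀ k l : ℕ, π ^ k ∣ a → ¬ π ^ (k + 1) ∣ a →
      π ^ l ∣ b → ¬ π ^ (l + 1) ∣ b → k ≡ l [MOD n] := by
  have h0 := ordAt_nonneg_of_mem_BtAll hQ (nu_mem_BtAll (A := A) h hA)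
  rcases eq_or_lt_of_le h0 with hν | hν
  · exact (vertSetting1_locX h hA hν.symm).glue h hA n ha hb g₁ g₁' h₁ hfin hhor
  · exact (vertSetting_locX h hA hQ hν).glue h hA n ha hb g₁ g₁' g₂ g₂' h₁ h₂ hfin hhor

end LocX

end Fermat.Agent.T8.helper48
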