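import Mathlib
import Fermat.Agent.T8.helper16_RingXPt
import Fermat.Agent.T8.helper48_VertLocX
import Fermat.Agent.T8.helper23_DictLocX
import Fermat.Agent.T2.helper58_ScaleBad

/-!
# T8 (row 38, at risk), leaf [RING-X] (helper16, owner): the FINAL ASSEMBLY

`slopeX : SlopeXStatement N q hq hqN A B` for every weight-one unit `b₀` (`IsUnit0 hq hqN b0 B ε`),
`A` over `q`, `q ∤ N`, `4 ∣ N` or `9 ∣ N`: the consumer statement of [RING-X] (the slope at every
closed point `Q` of the component `C₁` where `j̄` is finite), UNCONDITIONAL.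

Proof.  `u₀ := q^(-a₁) u b₀^(a₁ - a₂)` is `I`-fixed with Gauss values `w₁ = w₂ = 0`, reduction
`ρ₀ = r₁ ν^(a₁ - a₂)` and `n ∣ ord_P u₀` at the places where `j` is finite.  Write `u₀ = a / b`,
`a, b ∈ R⁰` (`helper23.hfrac_ringX`).  In the unique factorisation domain `R_Q = locX Q` (`ufdX`)
the exact multiplicities of every prime element in `a` and `b` are congruent modulo `n`
(`helper48.glue_locX` at the vertical primes, `helper23.dictModEq_locX` at the horizontal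
primes), hence `a bⁿ = e b dⁿ` with a unit `e` of `R_Q` (`helper6`), i.e. `u₀ = e fⁿ`,
`f = d / b`.  The unit `e` has a reduction of order `0` at `Q`, `f` has Gauss value `0` and a
reduction `φ` in the function field of the special fibre, and `ρ₀ = red e · φⁿ`.
-/

set_option autoImplicit false
set_option synthInstance.maxHeartbeats 400000
set_option maxHeartbeats 1000000
set_option linter.unusedSectionVars false
set_option linter.unusedVariables false
set_option linter.style.longLine false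
set_option linter.style.haveILetI false

noncomputable section

open HahnSeries IntermediateField AlgebraicCurve ModularCurve
open Fermat.Agent.S18.helper19 Fermat.Agent.P2.helper29 Fermat.Agent.T2.helper36

namespace Fermat.Agent.T8.helper16

open Fermat.Agent.P2.helper66 (iota)
open Fermat.Agent.T3.helper16 (IsUnit0)
open Fermat.Agent.T3.helper74 (IsFixI)
open Fermat.Agent.T3.helper36 (RhoQ GaussIs)
open Fermat.Agent.T3.helper98 (IsRegJ)
open Fermat.Agent.T8.helper63 (IsRX)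

/-! ### Reductions lie in the function field of the special fibre -/

section FFbMem

variable {N q : ℕ} [NeZero N] [NeZero q] {A : ValuationSubring Kb} {hq : q.Prime}
  {hqN : ¬ q ∣ N}

/-- two scaled reductions of the same series differ by a nonzero constant -/
theorem asm_unique_const {g : LaurentSeries Kb} {κ κ₀ : Kb} (hκ : κ ≠ 0) (hκ₀ : κ₀ ≠ 0)
    {r r₀ : LaurentSeries (kA A)} (hr : r ≠ 0) (hr₀ : r₀ ≠ 0)
    (h : RhoQ A (algebraMap Kb (LaurentSeries Kb) κ⁻¹ * g) r)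
    (h₀ : RhoQ A (algebraMap Kb (LaurentSeries Kb) κ₀⁻¹ * g) r₀) :
    ∃ c : kA A, c ≠ 0 ∧ r₀ = algebraMap (kA A) (LaurentSeries (kA A)) c * r := by
  have e : algebraMap Kb (LaurentSeries Kb) (κ / κ₀) *
      (algebraMap Kb (LaurentSeries Kb) κ⁻¹ * g) =
      algebraMap Kb (LaurentSeries Kb) κ₀⁻¹ * g := by
    rw [← mul_assoc, ← map_mul]
    congr 2
    field_simp
  have hv : A.valuation (κ / κ₀) = 1 :=
    Fermat.Agent.T3.helper36.valuation_eq_one_of_rhoQ hr hr₀ h (by rw [e]; exact h₀)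
  have hcA : κ / κ₀ ∈ A := (A.valuation_le_one_iff _).1 hv.le
  have h1 := (Fermat.Agent.T3.helper36.rhoQ_algebraMap (⟨κ / κ₀, hcA⟩ : A)).mul h
  have h2 : RhoQ A (algebraMap Kb (LaurentSeries Kb) κ₀⁻¹ * g)
      (algebraMap (kA A) (LaurentSeries (kA A)) (IsLocalRing.residue A ⟨κ / κ₀, hcA⟩) * r) := by
    rw [← e]
    exact h1
  have h3 := h₀.unique h2
  refine ⟨IsLocalRing.residue A ⟨κ / κ₀, hcA⟩, ?_, h3⟩
  intro h0
  rw [h0, map_zero, zero_mul] at h3
  exact hr₀ h3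

/-- **every scaled reduction of a function of level `N q` lies in `FFb A N`** -/
theorem asm_mem_FFb (hq : q.Prime) (hqN : ¬ q ∣ N) (hA : A.LiesOverPrime q) {u : FF (N * q)}
    (hu : u ≠ 0) {κ : Kb}
    (hκ : κ ≠ 0) {r : LaurentSeries (kA A)}
    (hr : RhoQ A (algebraMap Kb (LaurentSeries Kb) κ⁻¹ * (u : LaurentSeries Kb)) r) :
    r ∈ FFb A N := by
  rcases eq_or_ne r 0 with rfl | hr0
  · exact (FFb A N).zero_mem
  obtain ⟨c, Y₁, Y₂, hc, hY₁, hY₂, hrel⟩ :=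
    Fermat.Agent.T2.helper58.scaleStatement_bad N q hq hqN A hA (u : LaurentSeries Kb) u.2
      (fun h => hu (Subtype.ext h))
  have hFF : FFb A (N * q) = FFb A N := Fermat.Agent.T2.helper96.FFb_mul_eq N A hq hA
  have h1 : red A Y₁ ∈ FFb A N := by rw [← hFF]; exact hY₁.2.1
  have h2 : red A Y₂ ∈ FFb A N := by rw [← hFF]; exact hY₂.2.1
  have h1' : red A Y₁ ≠ 0 := hY₁.2.2
  have h2' : red A Y₂ ≠ 0 := hY₂.2.2
  have hquot : RhoQ A (algebraMap Kb (LaurentSeries Kb) c⁻¹ * (u : LaurentSeries Kb))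
      (red A Y₁ / red A Y₂) := by
    refine ⟨Y₁, Y₂, h2', ?_, ?_⟩
    · have hc' : algebraMap Kb (LaurentSeries Kb) c⁻¹ * algebraMap Kb (LaurentSeries Kb) c = 1 := by
        rw [← map_mul, inv_mul_cancel₀ hc, map_one]
      calc incl A Y₁ = algebraMap Kb (LaurentSeries Kb) c⁻¹ *
            (algebraMap Kb (LaurentSeries Kb) c * incl A Y₁) := by
              rw [← mul_assoc, hc', one_mul]
        _ = algebraMap Kb (LaurentSeries Kb) c⁻¹ * (u : LaurentSeries Kb) * incl A Y₂ := by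
              rw [hrel, mul_assoc]
    · rw [div_mul_cancel₀ _ h2']
  obtain ⟨d, hd, e⟩ := asm_unique_const hc hκ (div_ne_zero h1' h2') hr0 hquot hr
  rw [e]
  exact (FFb A N).mul_mem ((FFb A N).algebraMap_mem d)
    ((FFb A N).div_mem h1 h2)

end FFbMem

/-! ### Reductions of the elements of the local ring -/

section LocRed

variable {N q : ℕ} [NeZero N] [NeZero q] {A : ValuationSubring Kb} {hq : q.Prime}
  {hqN : ¬ q ∣ N}

theorem asm_coe_model1 (a : ringX A hq hqN) :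
    incl A (model1 a) = ((a : FF (N * q)) : LaurentSeries Kb) :=
  (isRX_model a).2.2.1

/-- the reduction of an element of `R⁰` -/
theorem asm_rhoQ_ringX (a : ringX A hq hqN) :
    RhoQ A ((a : FF (N * q)) : LaurentSeries Kb) (red1X A hq hqN a) := by
  have h := Fermat.Agent.T3.helper36.rhoQ_incl (A := A) (model1 a)
  rw [asm_coe_model1] at h
  exact h

/-- every element of `R_Q` has a reduction, a function of the special fibre which is regular
at `Q` -/
theorem asm_rhoQ_locX (hA : A.LiesOverPrime q) {Q : Place (kA A) (FFb A N)} (hQ : IsFinitePt Q)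
    {r : FF (N * q)} (hr : r ∈ locX A hq hqN Q) :
    ∃ ρ : FFb A N, RhoQ A (r : LaurentSeries Kb) (ρ : LaurentSeries (kA A)) ∧ 0 ≤ Q.ord ρ := by
  obtain ⟨a, s, hs, e⟩ := hr
  have hs0 : red1F hA s ≠ 0 := fun h => hs.2.1 (congrArg Subtype.val h)
  have hsQ : Q.ord (red1F hA s) = 0 := by
    have := hs.2.2
    rwa [ordAt_of_mem Q (red1X_mem_FFb hA s)] at this
  refine ⟨red1F hA a / red1F hA s, ?_, ?_⟩
  · have h1 := (asm_rhoQ_ringX a).div (asm_rhoQ_ringX s) hs.2.1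
    have e' : (r : LaurentSeries Kb) =
        ((a : FF (N * q)) : LaurentSeries Kb) / ((s : FF (N * q)) : LaurentSeries Kb) := by
      have hsF : ((s : FF (N * q)) : LaurentSeries Kb) ≠ 0 := fun h =>
        hs.ne_zero (Subtype.ext h)
      rw [eq_div_iff hsF]
      exact congrArg (fun z : FF (N * q) => (z : LaurentSeries Kb)) e
    rw [e']
    exact h1
  · rcases eq_or_ne (red1F hA a) 0 with h0 | h0
    · rw [h0, zero_div, Place.ord_zero]
    · rw [div_eq_mul_inv, Place.ord_mul Q h0 (inv_ne_zero hs0), Place.ord_inv, hsQ, neg_zero,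
        add_zero]
      exact ord_red1F_nonneg hA Q hQ a

/-- the reduction of a unit of `R_Q` has order `0` at `Q` -/
theorem asm_unit_locX (hA : A.LiesOverPrime q) {Q : Place (kA A) (FFb A N)} (hQ : IsFinitePt Q)
    (e : (locX A hq hqN Q)ˣ) :
    ∃ ρ : FFb A N, ρ ≠ 0 ∧
      RhoQ A ((((e : locX A hq hqN Q) : FF (N * q))) : LaurentSeries Kb)
        (ρ : LaurentSeries (kA A)) ∧ Q.ord ρ = 0 := by
  obtain ⟨ρ₁, h1, k1⟩ := asm_rhoQ_locX hA hQ (e : locX A hq hqN Q).2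
  obtain ⟨ρ₂, h2, k2⟩ := asm_rhoQ_locX hA hQ ((e⁻¹ : (locX A hq hqN Q)ˣ) : locX A hq hqN Q).2
  have h3 := h1.mul h2
  have e1 : ((((e : locX A hq hqN Q) : FF (N * q))) : LaurentSeries Kb) *
      (((((e⁻¹ : (locX A hq hqN Q)ˣ) : locX A hq hqN Q) : FF (N * q))) : LaurentSeries Kb) = 1 := by
    have := congrArg (fun z : locX A hq hqN Q => ((z : FF (N * q)) : LaurentSeries Kb))
      (Units.mul_inv e)
    exact this
  rw [e1] at h3
  have e2 : (ρ₁ : LaurentSeries (kA A)) * (ρ₂ : LaurentSeries (kA A)) = 1 := h3.eq_one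
  have e3 : ρ₁ * ρ₂ = 1 := Subtype.ext e2
  have hρ₁ : ρ₁ ≠ 0 := left_ne_zero_of_mul_eq_one e3
  have hρ₂ : ρ₂ ≠ 0 := right_ne_zero_of_mul_eq_one e3
  refine ⟨ρ₁, hρ₁, h1, ?_⟩
  have e4 := Place.ord_mul Q hρ₁ hρ₂
  rw [e3, Place.ord_one] at e4
  omega

end LocRed

/-! ### The final assembly -/

section Main

variable {N q : ℕ} [NeZero N] [NeZero q] {A : ValuationSubring Kb} {hq : q.Prime}
  {hqN : ¬ q ∣ N} {b0 : FF (N * q)} {B : PowerSeries ℤ} {ε : ℤ}

/-- the reduction of the weight-one unit -/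
theorem asm_rhoQ_unit (h : IsUnit0 hq hqN b0 B ε) :
    RhoQ A ((b0 : FF (N * q)) : LaurentSeries Kb) (iota (kA A) B) := by
  have h1 := Fermat.Agent.T3.helper36.rhoQ_incl (A := A) (iota ↥A B)
  rw [Fermat.Agent.T3.helper16.incl_iota, Fermat.Agent.T3.helper16.red_iota, ← h.coe_eq] at h1
  exact h1

/-- the weight-one unit has no zeros and no poles where `j` is finite -/
theorem asm_ord_unit (h : IsUnit0 hq hqN b0 B ε) (P : Place Kb (FF (N * q)))
    (hP : 0 ≤ P.ord (jElt (N * q))) : P.ord b0 = 0 := by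
  have h1 : 0 ≤ P.ord b0 := Fermat.Agent.T3.helper16.isRegJ_of_isIntegral h.int P hP
  have h2 : 0 ≤ P.ord b0⁻¹ := Fermat.Agent.T8.helper63.isRegJ_unit_inv h P hP
  rw [Place.ord_inv] at h2
  omega

theorem asm_isFixI_const (c : ℚ) :
    IsFixI A (N * q) (algebraMap Kb (FF (N * q)) (algebraMap ℚ Kb c)) := by
  intro σ _
  rw [arithmeticRingAut_algebraMap, AlgEquiv.commutes]

/-- **the core of the slope**: an `I`-fixed function `u₀` with Gauss values `w₁ = w₂ = 0` whose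
orders at the places where `j` is finite are divisible by `n` has the reduction
`ρ₀ = ρ_e φⁿ` with functions `ρ_e, φ` of the special fibre, `ord_Q ρ_e = 0`. -/
theorem asm_core (hA : A.LiesOverPrime q) (hN : 4 ∣ N ∨ 9 ∣ N) (h : IsUnit0 hq hqN b0 B ε)
    {n : ℕ} (hn : 0 < n) {u₀ : FF (N * q)} (hu₀ : u₀ ≠ 0) (hfix : IsFixI A (N * q) u₀)
    (hdiv : ∀ P : Place Kb (FF (N * q)), 0 ≤ P.ord (jElt (N * q)) → (n : ℤ) ∣ P.ord u₀)
    {ρ₀ : LaurentSeries (kA A)} (hρ₀0 : ρ₀ ≠ 0) (hρ₀ : RhoQ A (u₀ : LaurentSeries Kb) ρ₀)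
    (hGW : GaussIs A ((atkinLehner N q hq hqN u₀ : FF (N * q)) : LaurentSeries Kb) 1)
    {Q : Place (kA A) (FFb A N)} (hQ : IsFinitePt Q) :
    ∃ ρe φ : FFb A N, ρe ≠ 0 ∧ φ ≠ 0 ∧ Q.ord ρe = 0 ∧
      ρ₀ = (ρe : LaurentSeries (kA A)) * (φ : LaurentSeries (kA A)) ^ n := by
  have hq0 : (q : Kb) ≠ 0 := Nat.cast_ne_zero.2 hq.ne_zero
  have hSC : ScaleStatement (N * q) A :=
    Fermat.Agent.T2.helper58.scaleStatement_bad N q hq hqN A hA
  have hG₀ : GaussIs A (u₀ : LaurentSeries Kb) 1 :=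
    Fermat.Agent.T3.helper36.gaussIs_of_rhoQ hρ₀ hρ₀0
  -- the fraction
  obtain ⟨a, ha, b, hb, hb0, e⟩ :=
    Fermat.Agent.T8.helper23.hfrac_ringX (hq := hq) (hqN := hqN) hA hfix
  have ha0 : a ≠ 0 := by
    rw [← e]
    exact mul_ne_zero hu₀ hb0
  have hbfix : IsFixI A (N * q) b := by
    obtain ⟨_, _, hb'⟩ := hb
    exact hb'.1
  have hWb0 : atkinLehner N q hq hqN b ≠ 0 :=
    (map_ne_zero_iff _ (atkinLehner N q hq hqN).injective).mpr hb0
  obtain ⟨m₁, g₁'⟩ := Fermat.Agent.T3.helper5.gaussIs_fixI hq hA hSC hb0 hbfix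
  obtain ⟨m₂, g₂'⟩ := Fermat.Agent.T3.helper5.gaussIs_fixI hq hA hSC hWb0
    (Fermat.Agent.T3.helper98.isFixI_atkinLehner A hbfix)
  have g₁ : GaussIs A ((a : FF (N * q)) : LaurentSeries Kb) ((q : Kb) ^ m₁) := by
    have h1 := hG₀.mul g₁'
    rw [one_mul] at h1
    rw [← e]
    exact h1
  have g₂ : GaussIs A ((atkinLehner N q hq hqN a : FF (N * q)) : LaurentSeries Kb)
      ((q : Kb) ^ m₂) := by
    have h1 := hGW.mul g₂'
    rw [one_mul] at h1
    rw [← e, map_mul]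
    exact h1
  -- the local ring
  haveI : UniqueFactorizationMonoid (locX A hq hqN Q) := ufdX hA hN Q hQ
  let a' : locX A hq hqN Q := ⟨a, ringX_le_locX Q ha⟩
  let b' : locX A hq hqN Q := ⟨b, ringX_le_locX Q hb⟩
  have ha' : a' ≠ 0 := fun h0 => ha0 (congrArg Subtype.val h0)
  have hb' : b' ≠ 0 := fun h0 => hb0 (congrArg Subtype.val h0)
  have hab : ∀ P : Place Kb (FF (N * q)), 0 ≤ P.ord (jElt (N * q)) →
      (n : ℤ) ∣ P.ord ((a' : locX A hq hqN Q) : FF (N * q)) -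
        P.ord ((b' : locX A hq hqN Q) : FF (N * q)) := by
    intro P hP
    have h1 : P.ord a = P.ord u₀ + P.ord b := by
      rw [← e]
      exact Place.ord_mul P hu₀ hb0
    show (n : ℤ) ∣ P.ord a - P.ord b
    rw [h1, add_sub_cancel_right]
    exact hdiv P hP
  have hfin : ∀ π : locX A hq hqN Q, Prime π → ∀ r : locX A hq hqN Q, r ≠ 0 →
      ∃ k : ℕ, ¬ π ^ (k + 1) ∣ r := by
    intro π hπ r hr
    exact FiniteMultiplicity.of_not_isUnit hπ.not_isUnit hr
  have hglue := Fermat.Agent.T8.helper48.glue_locX h hA hQ n ha' hb' (m₁ := m₁) (m₁' := m₁)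
    (m₂ := m₂) (m₂' := m₂) g₁ g₁' g₂ g₂' (by simp) (by simp) hfin
    (fun π hπ hchar hfin' k l hk hk1 hl hl1 =>
      Fermat.Agent.T8.helper23.dictModEq_locX hA Q n a' b' hab π hπ hchar hfin' k l hk hk1 hl hl1)
  obtain ⟨ee, d, hed⟩ :=
    Fermat.Agent.T8.helper6.exists_unit_mul_pow_of_forall_modEq n hn a' b' ha' hb' hglue
  -- the equation in the function field
  have hedF : a * b ^ n = ((ee : locX A hq hqN Q) : FF (N * q)) * b *
      ((d : locX A hq hqN Q) : FF (N * q)) ^ n :=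
    congrArg (fun z : locX A hq hqN Q => (z : FF (N * q))) hed
  have hd0 : ((d : locX A hq hqN Q) : FF (N * q)) ≠ 0 := by
    intro h0
    rw [h0, zero_pow hn.ne', mul_zero] at hedF
    exact mul_ne_zero ha0 (pow_ne_zero n hb0) hedF
  set f : FF (N * q) := ((d : locX A hq hqN Q) : FF (N * q)) * b⁻¹ with hf
  have hf0 : f ≠ 0 := mul_ne_zero hd0 (inv_ne_zero hb0)
  have hffix : IsFixI A (N * q) f :=
    Fermat.Agent.T3.helper98.isFixI_mul A (Fermat.Agent.T8.helper23.hfix_locX Q d.2)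
      (Fermat.Agent.T3.helper98.isFixI_inv A hbfix)
  have hu₀eq : u₀ = ((ee : locX A hq hqN Q) : FF (N * q)) * f ^ n := by
    have h1 : u₀ * b * b ^ n = ((ee : locX A hq hqN Q) : FF (N * q)) * f ^ n * b * b ^ n := by
      rw [e, hedF, hf, mul_pow, inv_pow]
      field_simp
    exact mul_right_cancel₀ hb0 (mul_right_cancel₀ (pow_ne_zero n hb0) h1)
  -- the reductions
  obtain ⟨ρe, hρe0, hρe, hρeQ⟩ := asm_unit_locX hA hQ ee
  have hGe : GaussIs A ((((ee : locX A hq hqN Q) : FF (N * q))) : LaurentSeries Kb) 1 :=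
    Fermat.Agent.T3.helper36.gaussIs_of_rhoQ hρe (fun h0 => hρe0 (Subtype.ext h0))
  obtain ⟨m, gf⟩ := Fermat.Agent.T3.helper5.gaussIs_fixI hq hA hSC hf0 hffix
  have hm : m = 0 := by
    have h1 := hGe.mul (gf.pow n)
    have e1 : (1 : Kb) * ((q : Kb) ^ m) ^ n = (q : Kb) ^ (m * n) := by
      rw [one_mul, ← zpow_natCast, ← zpow_mul]
    have e2 : ((((ee : locX A hq hqN Q) : FF (N * q))) : LaurentSeries Kb) *
        ((f : FF (N * q)) : LaurentSeries Kb) ^ n = (u₀ : LaurentSeries Kb) := by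
      rw [hu₀eq]
      rfl
    rw [e1, e2] at h1
    have h2 : GaussIs A (u₀ : LaurentSeries Kb) ((q : Kb) ^ (0 : ℤ)) := by
      rw [zpow_zero]
      exact hG₀
    have h3 := Fermat.Agent.T8.helper48.gaussIs_zpow_unique hq hA h1 h2
    have hn' : (n : ℤ) ≠ 0 := by exact_mod_cast hn.ne'
    rcases mul_eq_zero.1 h3 with h4 | h4
    · exact h4
    · exact absurd h4 hn'
  rw [hm, zpow_zero] at gf
  obtain ⟨φ, hφ0, hφ⟩ := gf.rhoQ_one
  have hφmem : φ ∈ FFb A N := by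
    refine asm_mem_FFb hq hqN hA hf0 (κ := 1) one_ne_zero ?_
    rw [inv_one, map_one, one_mul]
    exact hφ
  refine ⟨ρe, ⟨φ, hφmem⟩, hρe0, fun h0 => hφ0 (congrArg Subtype.val h0), hρeQ, ?_⟩
  have h1 := hρe.mul (hφ.pow n)
  have e2 : ((((ee : locX A hq hqN Q) : FF (N * q))) : LaurentSeries Kb) *
      ((f : FF (N * q)) : LaurentSeries Kb) ^ n = (u₀ : LaurentSeries Kb) := by
    rw [hu₀eq]
    rfl
  rw [e2] at h1
  exact hρ₀.unique h1

/-- **[RING-X], consumer statement (the slope at every finite closed point), UNCONDITIONAL**: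
`A` over `q`, `q ∤ N`, `4 ∣ N` or `9 ∣ N`, `b₀` any weight-one unit with expansion `B`. -/
theorem slopeX (hA : A.LiesOverPrime q) (hN : 4 ∣ N ∨ 9 ∣ N) (h : IsUnit0 hq hqN b0 B ε) :
    SlopeXStatement N q hq hqN A B := by
  intro n hn u hu hfix hdiv a₁ a₂ r₁ hr₁ hρ hG₂
  have hq0 : (q : Kb) ≠ 0 := Nat.cast_ne_zero.2 hq.ne_zero
  have hqa : ((q : Kb) ^ a₁)⁻¹ ≠ 0 := inv_ne_zero (zpow_ne_zero _ hq0)
  have hr₁mem : r₁ ∈ FFb A N := asm_mem_FFb hq hqN hA hu (zpow_ne_zero a₁ hq0) hρ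
  refine ⟨hr₁mem, fun Q hQ => ?_⟩
  have hb00 : b0 ≠ 0 := h.ne_zero
  have hν0 : iota (kA A) B ≠ 0 := Fermat.Agent.T8.helper63.nu_ne_zero h A
  have hνρ : RhoQ A ((b0 : FF (N * q)) : LaurentSeries Kb) (iota (kA A) B) := asm_rhoQ_unit h
  have hνmem : iota (kA A) B ∈ FFb A N := by
    refine asm_mem_FFb hq hqN hA hb00 (κ := 1) one_ne_zero ?_
    rw [inv_one, map_one, one_mul]
    exact hνρ
  -- the normalised function
  have hc0 : algebraMap Kb (FF (N * q)) ((q : Kb) ^ a₁)⁻¹ ≠ 0 := by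
    intro h0
    exact hqa ((algebraMap Kb (FF (N * q))).injective (h0.trans (map_zero _).symm))
  have hcfix : IsFixI A (N * q) (algebraMap Kb (FF (N * q)) ((q : Kb) ^ a₁)⁻¹) := by
    have e : ((q : Kb) ^ a₁)⁻¹ = algebraMap ℚ Kb (((q : ℚ) ^ a₁)⁻¹) := by
      rw [map_inv₀, map_zpow₀, map_natCast]
    rw [e]
    exact asm_isFixI_const _
  have hbfix : IsFixI A (N * q) (b0 ^ (a₁ - a₂)) := by
    intro σ hσ
    rw [map_zpow₀, h.isFixI A σ hσ]
  obtain ⟨u₀, hu₀def⟩ : ∃ u₀ : FF (N * q),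
      u₀ = algebraMap Kb (FF (N * q)) ((q : Kb) ^ a₁)⁻¹ * u * b0 ^ (a₁ - a₂) := ⟨_, rfl⟩
  have hu₀ : u₀ ≠ 0 := by
    rw [hu₀def]
    exact mul_ne_zero (mul_ne_zero hc0 hu) (zpow_ne_zero _ hb00)
  have hu₀fix : IsFixI A (N * q) u₀ := by
    rw [hu₀def]
    exact Fermat.Agent.T3.helper98.isFixI_mul A
      (Fermat.Agent.T3.helper98.isFixI_mul A hcfix hfix) hbfix
  have hu₀div : ∀ P : Place Kb (FF (N * q)), 0 ≤ P.ord (jElt (N * q)) →
      (n : ℤ) ∣ P.ord u₀ := by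
    intro P hP
    have e1 : P.ord u₀ = P.ord u := by
      rw [hu₀def, Place.ord_mul P (mul_ne_zero hc0 hu) (zpow_ne_zero _ hb00),
        Place.ord_mul P hc0 hu, Fermat.Agent.T6.helper26.ord_const, zero_add, Place.ord_zpow,
        asm_ord_unit h P hP, mul_zero, add_zero]
    rw [e1]
    exact hdiv P hP
  have hcoe : (u₀ : LaurentSeries Kb) =
      algebraMap Kb (LaurentSeries Kb) ((q : Kb) ^ a₁)⁻¹ * (u : LaurentSeries Kb) *
        ((b0 : FF (N * q)) : LaurentSeries Kb) ^ (a₁ - a₂) := by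
    rw [hu₀def]
    rfl
  have hρ₀ : RhoQ A (u₀ : LaurentSeries Kb) (r₁ * iota (kA A) B ^ (a₁ - a₂)) := by
    rw [hcoe]
    exact hρ.mul (hνρ.zpow hν0 _)
  have hρ₀0 : r₁ * iota (kA A) B ^ (a₁ - a₂) ≠ 0 := mul_ne_zero hr₁ (zpow_ne_zero _ hν0)
  have hGW : GaussIs A ((atkinLehner N q hq hqN u₀ : FF (N * q)) : LaurentSeries Kb) 1 := by
    have e : atkinLehner N q hq hqN u₀ = algebraMap Kb (FF (N * q)) ((q : Kb) ^ a₁)⁻¹ *
        atkinLehner N q hq hqN u * (atkinLehner N q hq hqN b0) ^ (a₁ - a₂) := by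
      rw [hu₀def, map_mul, map_mul, AlgEquiv.commutes, map_zpow₀]
    have h1 := ((Fermat.Agent.T3.helper36.gaussIs_const (A := A) hqa).mul hG₂).mul
      ((Fermat.Agent.T8.helper63.gaussIs_unitW h A).zpow (a₁ - a₂))
    have ec : ((q : Kb) ^ a₁)⁻¹ * (q : Kb) ^ a₂ * (q : Kb) ^ (a₁ - a₂) = 1 := by
      rw [zpow_sub₀ hq0]
      have h1 : (q : Kb) ^ a₁ ≠ 0 := zpow_ne_zero _ hq0
      have h2 : (q : Kb) ^ a₂ ≠ 0 := zpow_ne_zero _ hq0
      field_simp
    rw [ec] at h1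
    rw [e]
    exact h1
  obtain ⟨ρe, φ, hρe0, hφ0, hρeQ, heq⟩ :=
    asm_core hA hN h hn hu₀ hu₀fix hu₀div hρ₀0 hρ₀ hGW hQ
  -- the orders
  have hr₁' : (⟨r₁, hr₁mem⟩ : FFb A N) ≠ 0 := fun h0 => hr₁ (congrArg Subtype.val h0)
  have hν' : (⟨iota (kA A) B, hνmem⟩ : FFb A N) ≠ 0 := fun h0 => hν0 (congrArg Subtype.val h0)
  have heq' : (⟨r₁, hr₁mem⟩ : FFb A N) * (⟨iota (kA A) B, hνmem⟩ : FFb A N) ^ (a₁ - a₂) =
      ρe * φ ^ n := by
    apply Subtype.ext
    exact heq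
  have h1 := congrArg Q.ord heq'
  rw [Place.ord_mul Q hr₁' (zpow_ne_zero _ hν'), Place.ord_zpow,
    Place.ord_mul Q hρe0 (pow_ne_zero _ hφ0), hρeQ, zero_add, ← zpow_natCast, Place.ord_zpow] at h1
  rw [ordAt_of_mem Q hr₁mem, ordAt_of_mem Q hνmem, h1]
  exact Dvd.intro _ rfl

end Main

end Fermat.Agent.T8.helper16
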