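import Mathlib

/-!
# T8 (row 38, at risk), [SLOPE-X'] service (helper16): SHEET MATCHING, abstract

`R` a ring (the local ring `locX Q`), `S` an `R`-algebra generated by `t` with
`S = ∑_{k < p} R t^k`, `E` a field of characteristic `p`, `φ : R →+* E` (the reduction on `R`),
`ψ j : S →+* E`, `j < p` (the reductions on the `p` sheets over one component), with
`ψ j = φ` on `R` and `ψ j t = τ - j`.

`exists_ker_le_of_prime` : for EVERY prime ideal `𝔓` of `S` containing the image of `ker φ`
there is a sheet `j < p` with `ker (ψ j) ≤ 𝔓`.  So every `s ∉ 𝔓` has a NONZERO reduction on the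
sheet `j`, and the reduction of the sheet `j` extends to the localisation `T = S_𝔓`.

No action of the deck group on `S`, no normality of `S`, no gluing datum of the branches at a
double point is used: if `s_j ∈ ker (ψ j) ∖ 𝔓` for all `j`, the product `s = ∏ s_j ∉ 𝔓` has
all its `p` reductions zero; writing `s = ∑_{k<p} r_k t^k`, the polynomial `∑ φ(r_k) X^k` of degree
`< p` has the `p` distinct roots `τ - j`, so `φ(r_k) = 0` for all `k` and `s ∈ (ker φ) S ⊆ 𝔓`.
-/

set_option autoImplicit false
set_option linter.unusedSectionVars false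
set_option linter.unusedVariables false
set_option linter.style.longLine false

namespace Fermat.Agent.T8.helper16

open Polynomial

section Match

variable {R S E : Type*} [CommRing R] [CommRing S] [Algebra R S] [Field E]

/-- a polynomial of degree `< p` over a field of characteristic `p` which vanishes at the `p`
points `τ - j`, `j < p`, is zero -/
theorem eq_zero_of_eval_sub_natCast {p : ℕ} [CharP E p] (G : E[X]) (hG : G.natDegree < p)
    (τ : E) (h : ∀ j : ℕ, j < p → G.eval (τ - (j : E)) = 0) : G = 0 := by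
  classical
  have hinj : Set.InjOn (fun j : ℕ => τ - (j : E)) (Finset.range p : Set ℕ) := by
    intro i hi j hj hij
    have hi' : i < p := Finset.mem_range.1 hi
    have hj' : j < p := Finset.mem_range.1 hj
    have h1 : (i : E) = (j : E) := by
      have := sub_right_injective hij
      exact this
    have h2 := (CharP.natCast_eq_natCast E p).1 h1
    exact Nat.ModEq.eq_of_lt_of_lt h2 hi' hj'
  refine Polynomial.eq_zero_of_natDegree_lt_card_of_eval_eq_zero' G
    ((Finset.range p).image (fun j : ℕ => τ - (j : E))) ?_ ?_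
  · intro x hx
    obtain ⟨j, hj, rfl⟩ := Finset.mem_image.1 hx
    exact h j (Finset.mem_range.1 hj)
  · rw [Finset.card_image_of_injOn hinj, Finset.card_range]
    exact hG

/-- **SHEET MATCHING**: every prime of `S` over `ker φ` contains the kernel of the reduction
of one of the `p` sheets. -/
theorem exists_ker_le_of_prime {p : ℕ} [CharP E p] (t : S)
    (hrep : ∀ s : S, ∃ g : R[X], g.natDegree < p ∧ aeval t g = s)
    (φ : R →+* E) (ψ : ℕ → S →+* E) (hψ : ∀ j, j < p → ∀ r, ψ j (algebraMap R S r) = φ r)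
    (τ : E) (hτ : ∀ j, j < p → ψ j t = τ - (j : E))
    (PP : Ideal S) [hPP : PP.IsPrime] (hker : ∀ r : R, φ r = 0 → algebraMap R S r ∈ PP) :
    ∃ j, j < p ∧ RingHom.ker (ψ j) ≤ PP := by
  classical
  by_contra hcon0
  have hcon : ∀ j, j < p → ¬ RingHom.ker (ψ j) ≤ PP := fun j hj h => hcon0 ⟨j, hj, h⟩
  have hex : ∀ j : ℕ, ∃ s : S, j < p → (ψ j s = 0 ∧ s ∉ PP) := by
    intro j
    by_cases hj : j < p
    · obtain ⟨s, hs, hs'⟩ := SetLike.not_le_iff_exists.1 (hcon j hj)
      exact ⟨s, fun _ => ⟨hs, hs'⟩⟩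
    · exact ⟨0, fun h => absurd h hj⟩
  choose sj hsj using hex
  have hprod : ∏ j ∈ Finset.range p, sj j ∉ PP := by
    intro hmem
    obtain ⟨j, hj, hjm⟩ := (hPP.prod_mem_iff).1 hmem
    exact (hsj j (Finset.mem_range.1 hj)).2 hjm
  obtain ⟨g, hg, hgs⟩ := hrep (∏ j ∈ Finset.range p, sj j)
  have hzero : ∀ j, j < p → (g.map φ).eval (τ - (j : E)) = 0 := by
    intro j hj
    have h1 : ψ j (∏ i ∈ Finset.range p, sj i) = 0 := by
      rw [map_prod]
      exact Finset.prod_eq_zero (Finset.mem_range.2 hj) (hsj j hj).1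
    rw [← hgs] at h1
    have h2 : ψ j (aeval t g) = (g.map φ).eval (τ - (j : E)) := by
      rw [← hτ j hj, Polynomial.eval_map, Polynomial.aeval_def, Polynomial.hom_eval₂]
      congr 1
      ext r
      exact hψ j hj r
    rw [← h2]
    exact h1
  have hG : g.map φ = 0 :=
    eq_zero_of_eval_sub_natCast (g.map φ) (lt_of_le_of_lt (Polynomial.natDegree_map_le) hg) τ hzero
  have hcoef : ∀ k, algebraMap R S (g.coeff k) ∈ PP := by
    intro k
    apply hker
    have := congrArg (fun G : E[X] => G.coeff k) hG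
    simpa using this
  apply hprod
  rw [← hgs, Polynomial.aeval_eq_sum_range]
  refine Ideal.sum_mem _ fun k _ => ?_
  rw [Algebra.smul_def]
  exact Ideal.mul_mem_right _ _ (hcoef k)

/-- consumer form: outside `𝔓` the reduction on the matching sheet does not vanish -/
theorem exists_sheet_ne_zero {p : ℕ} [CharP E p] (t : S)
    (hrep : ∀ s : S, ∃ g : R[X], g.natDegree < p ∧ aeval t g = s)
    (φ : R →+* E) (ψ : ℕ → S →+* E) (hψ : ∀ j, j < p → ∀ r, ψ j (algebraMap R S r) = φ r)
    (τ : E) (hτ : ∀ j, j < p → ψ j t = τ - (j : E))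
    (PP : Ideal S) [hPP : PP.IsPrime] (hker : ∀ r : R, φ r = 0 → algebraMap R S r ∈ PP) :
    ∃ j, j < p ∧ ∀ s : S, s ∉ PP → ψ j s ≠ 0 := by
  obtain ⟨j, hj, hle⟩ := exists_ker_le_of_prime t hrep φ ψ hψ τ hτ PP hker
  exact ⟨j, hj, fun s hs h0 => hs (hle ((RingHom.mem_ker).2 h0))⟩

end Match

end Fermat.Agent.T8.helper16
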