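import Mathlib
import Fermat.Agent.T3.helper84_K0Disc

/-!
# T8 / [RING-X], noetherian leaf: the base ring `O = A^I` (helper1)

`fixSubring A` : the elements of the valuation ring `A ⊆ ℚ̄` fixed by the inertia group of `A`.
For `A` over a prime `q` it is a principal ideal ring (every nonzero element is `q ^ m · unit`,
`T3.helper84.k0_disc_unit`), hence noetherian.
-/

set_option autoImplicit false
set_option linter.style.haveILetI false
set_option linter.unusedSectionVars false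

noncomputable section

namespace Fermat.Agent.T8.helper1

/-- the ring `O = A^I` of the inertia-fixed elements of `A`. -/
def fixSubring (A : ValuationSubring (AlgebraicClosure ℚ)) : Subring (AlgebraicClosure ℚ) where
  carrier := {a | a ∈ A ∧ ∀ σ ∈ A.inertiaSubgroupIn ℚ, σ a = a}
  mul_mem' := by
    rintro a b ⟨ha, ha'⟩ ⟨hb, hb'⟩
    exact ⟨A.mul_mem _ _ ha hb, fun σ hσ => by rw [map_mul, ha' σ hσ, hb' σ hσ]⟩
  one_mem' := ⟨A.one_mem, fun σ _ => map_one σ⟩
  add_mem' := by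
    rintro a b ⟨ha, ha'⟩ ⟨hb, hb'⟩
    exact ⟨A.add_mem _ _ ha hb, fun σ hσ => by rw [map_add, ha' σ hσ, hb' σ hσ]⟩
  zero_mem' := ⟨A.zero_mem, fun σ _ => map_zero σ⟩
  neg_mem' := by
    rintro a ⟨ha, ha'⟩
    exact ⟨A.neg_mem _ ha, fun σ hσ => by rw [map_neg, ha' σ hσ]⟩

variable {A : ValuationSubring (AlgebraicClosure ℚ)}

theorem mem_fixSubring {a : AlgebraicClosure ℚ} :
    a ∈ fixSubring A ↔ a ∈ A ∧ ∀ σ ∈ A.inertiaSubgroupIn ℚ, σ a = a := Iff.rfl

theorem natCast_mem_fixSubring (n : ℕ) : (n : AlgebraicClosure ℚ) ∈ fixSubring A :=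
  natCast_mem (fixSubring A) n

/-- a nonzero element of `O` is `q ^ m` times a unit of `O`. -/
theorem exists_pow_mul_unit {q : ℕ} (hq : q.Prime) (hA : A.LiesOverPrime q)
    {x : AlgebraicClosure ℚ} (hx : x ∈ fixSubring A) (hx0 : x ≠ 0) :
    ∃ (m : ℕ) (u : AlgebraicClosure ℚ), u ∈ fixSubring A ∧ u⁻¹ ∈ fixSubring A ∧ u ≠ 0 ∧
      x = (q : AlgebraicClosure ℚ) ^ m * u := by
  obtain ⟨m, u, hu, hufix, hxe⟩ := Fermat.Agent.T3.helper84.k0_disc_unit hq A hA hx0 hx.2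
  have hu0 : u ≠ 0 := by
    rintro rfl
    rw [map_zero] at hu
    exact zero_ne_one hu
  have huA : u ∈ A := (A.valuation_le_one_iff u).mp hu.le
  have huA' : u⁻¹ ∈ A := by
    apply (A.valuation_le_one_iff _).mp
    rw [map_inv₀, hu, inv_one]
  have hqv : A.valuation (q : AlgebraicClosure ℚ) < 1 := by
    have h1 : (q : AlgebraicClosure ℚ) ∈ A.nonunits := hA
    exact (A.mem_nonunits_iff).mp h1
  have hq0 : (q : AlgebraicClosure ℚ) ≠ 0 := Nat.cast_ne_zero.mpr hq.ne_zero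
  have hqv0 : A.valuation (q : AlgebraicClosure ℚ) ≠ 0 := (Valuation.ne_zero_iff _).mpr hq0
  have hm : 0 ≤ m := by
    by_contra hneg
    push Not at hneg
    have hxv : A.valuation x ≤ 1 := (A.valuation_le_one_iff x).mpr hx.1
    rw [hxe, map_mul, hu, mul_one, map_zpow₀] at hxv
    obtain ⟨k, hk⟩ : ∃ k : ℕ, m = -((k : ℤ) + 1) := ⟨(-m - 1).toNat, by omega⟩
    rw [hk, zpow_neg, ← Nat.cast_add_one, zpow_natCast] at hxv
    have h2 : A.valuation (q : AlgebraicClosure ℚ) ^ (k + 1) < 1 :=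
      pow_lt_one₀ zero_le hqv (Nat.succ_ne_zero k)
    have h3 : A.valuation (q : AlgebraicClosure ℚ) ^ (k + 1) ≠ 0 := pow_ne_zero _ hqv0
    have h4 : 1 < (A.valuation (q : AlgebraicClosure ℚ) ^ (k + 1))⁻¹ :=
      (one_lt_inv₀ (zero_lt_iff.mpr h3)).mpr h2
    exact absurd hxv (not_le.mpr h4)
  obtain ⟨k, rfl⟩ := Int.eq_ofNat_of_zero_le hm
  refine ⟨k, u, ⟨huA, hufix⟩, ⟨huA', fun σ hσ => by rw [map_inv₀, hufix σ hσ]⟩, hu0, ?_⟩
  rw [hxe, zpow_natCast]

/-- **`O = A^I` is a principal ideal ring** (for `A` over a prime). -/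
theorem isPrincipalIdealRing_fixSubring {q : ℕ} (hq : q.Prime) (hA : A.LiesOverPrime q) :
    IsPrincipalIdealRing (fixSubring A) := by
  classical
  refine ⟨fun J => ?_⟩
  by_cases hJ : J = ⊥
  · rw [hJ]
    exact bot_isPrincipal
  obtain ⟨x, hxJ, hx0⟩ := Submodule.exists_mem_ne_zero_of_ne_bot hJ
  set π : fixSubring A := ⟨(q : AlgebraicClosure ℚ), natCast_mem_fixSubring q⟩ with hπ
  have key : ∀ y : fixSubring A, y ∈ J → y ≠ 0 →
      ∃ (m : ℕ) (u : fixSubring A), π ^ m ∈ J ∧ y = π ^ m * u := by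
    intro y hyJ hy0
    have hy0' : (y : AlgebraicClosure ℚ) ≠ 0 := fun h => hy0 (Subtype.ext h)
    obtain ⟨m, u, hu, hu', -, hye⟩ := exists_pow_mul_unit hq hA y.2 hy0'
    have hye' : y = π ^ m * ⟨u, hu⟩ := Subtype.ext hye
    refine ⟨m, ⟨u, hu⟩, ?_, hye'⟩
    have hu0 : u ≠ 0 := by
      rintro rfl
      rw [mul_zero] at hye
      exact hy0' hye
    have : π ^ m = y * ⟨u⁻¹, hu'⟩ := by
      rw [hye', mul_assoc]
      have : (⟨u, hu⟩ : fixSubring A) * ⟨u⁻¹, hu'⟩ = 1 := Subtype.ext (mul_inv_cancel₀ hu0)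
      rw [this, mul_one]
    rw [this]
    exact J.mul_mem_right _ hyJ
  have hex : ∃ m : ℕ, π ^ m ∈ J := by
    obtain ⟨m, u, hm, -⟩ := key x hxJ hx0
    exact ⟨m, hm⟩
  refine ⟨⟨π ^ Nat.find hex, ?_⟩⟩
  apply le_antisymm
  · intro y hy
    rcases eq_or_ne y 0 with rfl | hy0
    · exact Submodule.zero_mem _
    obtain ⟨m, u, hm, hye⟩ := key y hy hy0
    have hle : Nat.find hex ≤ m := Nat.find_min' hex hm
    rw [Submodule.mem_span_singleton]
    refine ⟨π ^ (m - Nat.find hex) * u, ?_⟩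
    rw [smul_eq_mul, hye, mul_assoc, mul_comm u, ← mul_assoc, ← pow_add,
      Nat.sub_add_cancel hle]
  · rw [Submodule.span_le, Set.singleton_subset_iff]
    exact Nat.find_spec hex

theorem isNoetherianRing_fixSubring {q : ℕ} (hq : q.Prime) (hA : A.LiesOverPrime q) :
    IsNoetherianRing (fixSubring A) :=
  haveI := isPrincipalIdealRing_fixSubring hq hA
  inferInstance

end Fermat.Agent.T8.helper1

end
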