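import Mathlib

/-!
# T8 / [RING-X], noetherian leaf: abstract cores (helper1)

Mathlib only.

* `finiteType_of_filtration` : an algebra `R` over a noetherian ring `O` with an exhaustive
  increasing filtration `V n` by `O`-submodules, `V 0` finitely generated, and multiplicative
  "leading coefficient" maps `lc n : R → Λ` (`Λ` a noetherian `O`-module and a ring) with
  `ker (lc (n+1)) ∩ V (n+1) ⊆ V n`, ONTO for `n ≥ n₀`, is a finitely generated `O`-algebra.
* `isNoetherianRing_of_filtration` : hence `R` is noetherian.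
* `isNoetherianRing_localization_of_le` : comparison of local rings: `R₀ ≤ R₁` subrings of a
  field, `R₀` noetherian, `m` a prime of `R₁` such that every `f ∈ R₁` has a denominator
  `h ∈ R₀`, `h ∉ m`, `h f ∈ R₀`; then `(R₁)_m` is noetherian.
* `exists_mul_mem_of_step` : the Nakayama step: `B` noetherian subring of a field `F`, `M` a
  `B`-submodule of `F` with a common denominator `b ≠ 0` (`b M ⊆ B`), `q` a prime of `B`,
  `p ∈ q`, and for every `e ∈ M` there is `S ∈ B ∖ q` with `S e ∈ B + p M`; then every `e ∈ M`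
  has `S ∈ B ∖ q` with `S e ∈ B`.
-/

set_option autoImplicit false
set_option linter.style.haveILetI false

noncomputable section

namespace Fermat.Agent.T8.helper1

/-! ### filtered algebras -/

section Filtration

variable {O R Λ : Type*} [CommRing O] [IsNoetherianRing O] [CommRing R] [Algebra O R]
  [CommRing Λ] [Module O Λ] [IsNoetherian O Λ]

theorem fg_of_filtration (V : ℕ → Submodule O R) (lc : ℕ → R →ₗ[O] Λ) (hV0 : (V 0).FG)
    (hker : ∀ n r, r ∈ V (n + 1) → lc (n + 1) r = 0 → r ∈ V n) : ∀ n, (V n).FG := by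
  intro n
  induction n with
  | zero => exact hV0
  | succ n ih =>
    apply Submodule.fg_of_fg_map_of_fg_inf_ker (lc (n + 1))
    · exact IsNoetherian.noetherian _
    · haveI : IsNoetherian O (V n) := isNoetherian_of_fg_of_noetherian _ ih
      have hle : V (n + 1) ⊓ LinearMap.ker (lc (n + 1)) ≤ V n := by
        rintro r ⟨h1, h2⟩
        exact hker n r h1 (LinearMap.mem_ker.mp h2)
      exact (isNoetherian_submodule.mp this) _ hle

theorem finiteType_of_filtration (V : ℕ → Submodule O R) (lc : ℕ → R →ₗ[O] Λ)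
    (hV0 : (V 0).FG) (hmono : ∀ n, V n ≤ V (n + 1)) (hex : ∀ r, ∃ n, r ∈ V n)
    (hker : ∀ n r, r ∈ V (n + 1) → lc (n + 1) r = 0 → r ∈ V n)
    (hmul : ∀ i j a b, a ∈ V i → b ∈ V j →
      a * b ∈ V (i + j) ∧ lc (i + j) (a * b) = lc i a * lc j b)
    (n₀ : ℕ) (hsurj : ∀ n, n₀ ≤ n → ∀ c : Λ, ∃ r ∈ V n, lc n r = c) :
    Algebra.FiniteType O R := by
  have hfg := fg_of_filtration V lc hV0 hker
  have hmono' : ∀ i j, i ≤ j → V i ≤ V j := by
    intro i j hij
    induction hij with
    | refl => exact le_rfl
    | step _ ih => exact ih.trans (hmono _)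
  set m₀ := max n₀ 1 with hm₀
  have hm₀1 : 1 ≤ m₀ := le_max_right _ _
  have hm₀n : n₀ ≤ m₀ := le_max_left _ _
  set K := 2 * m₀ with hK
  obtain ⟨s, hs⟩ := hfg K
  set S : Subalgebra O R := Algebra.adjoin O (s : Set R) with hS
  have hVK : ∀ r ∈ V K, r ∈ S := by
    intro r hr
    rw [← hs] at hr
    have : Submodule.span O (s : Set R) ≤ Subalgebra.toSubmodule S := by
      rw [Submodule.span_le]
      exact Algebra.subset_adjoin
    exact this hr
  have key : ∀ n, ∀ r ∈ V n, r ∈ S := by
    intro n
    induction n using Nat.strong_induction_on with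
    | _ n ih =>
      intro r hr
      by_cases hn : n ≤ K
      · exact hVK r (hmono' n K hn hr)
      · push Not at hn
        have hn1 : m₀ + (n - m₀) = n := by omega
        obtain ⟨u, hu, hu1⟩ := hsurj m₀ hm₀n 1
        obtain ⟨v, hv, hv1⟩ := hsurj (n - m₀) (by omega) (lc n r)
        obtain ⟨huv, hlc⟩ := hmul m₀ (n - m₀) u v hu hv
        rw [hn1] at huv hlc
        rw [hu1, hv1, one_mul] at hlc
        have h0 : lc n (r - u * v) = 0 := by
          rw [map_sub, hlc, sub_self]
        obtain ⟨n', rfl⟩ : ∃ n', n = n' + 1 := ⟨n - 1, by omega⟩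
        have h1 : r - u * v ∈ V n' := hker n' _ ((V (n' + 1)).sub_mem hr huv) h0
        have h2 : r - u * v ∈ S := ih n' (by omega) _ h1
        have h3 : u ∈ S := ih m₀ (by omega) u hu
        have h4 : v ∈ S := ih (n' + 1 - m₀) (by omega) v hv
        have : r = (r - u * v) + u * v := by ring
        rw [this]
        exact S.add_mem h2 (S.mul_mem h3 h4)
  have htop : S = ⊤ := by
    rw [eq_top_iff]
    intro r _
    obtain ⟨n, hn⟩ := hex r
    exact key n r hn
  exact ⟨⟨s, htop⟩⟩

theorem isNoetherianRing_of_filtration (V : ℕ → Submodule O R) (lc : ℕ → R →ₗ[O] Λ)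
    (hV0 : (V 0).FG) (hmono : ∀ n, V n ≤ V (n + 1)) (hex : ∀ r, ∃ n, r ∈ V n)
    (hker : ∀ n r, r ∈ V (n + 1) → lc (n + 1) r = 0 → r ∈ V n)
    (hmul : ∀ i j a b, a ∈ V i → b ∈ V j →
      a * b ∈ V (i + j) ∧ lc (i + j) (a * b) = lc i a * lc j b)
    (n₀ : ℕ) (hsurj : ∀ n, n₀ ≤ n → ∀ c : Λ, ∃ r ∈ V n, lc n r = c) :
    IsNoetherianRing R :=
  haveI := finiteType_of_filtration V lc hV0 hmono hex hker hmul n₀ hsurj
  Algebra.FiniteType.isNoetherianRing O R

end Filtration

/-! ### comparison of local rings -/

section Compare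

variable {F : Type*} [Field F]

theorem isNoetherianRing_localization_of_le (R₀ R₁ : Subring F) (h01 : R₀ ≤ R₁)
    [IsNoetherianRing R₀] (m : Ideal R₁) [m.IsPrime]
    (hloc : ∀ f : R₁, ∃ h : R₀, Subring.inclusion h01 h ∉ m ∧ (h : F) * (f : F) ∈ R₀) :
    IsNoetherianRing (Localization.AtPrime m) := by
  set ι : R₀ →+* R₁ := Subring.inclusion h01 with hι
  set m₀ : Ideal R₀ := m.comap ι with hm₀
  haveI : m₀.IsPrime := Ideal.comap_isPrime ι m
  letI : Algebra R₀ (Localization.AtPrime m) :=
    ((algebraMap R₁ (Localization.AtPrime m)).comp ι).toAlgebra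
  have halg : ∀ x : R₀, algebraMap R₀ (Localization.AtPrime m) x =
      algebraMap R₁ (Localization.AtPrime m) (ι x) := fun _ => rfl
  have hinj : Function.Injective (algebraMap R₁ (Localization.AtPrime m)) :=
    IsLocalization.injective (Localization.AtPrime m) m.primeCompl_le_nonZeroDivisors
  haveI : IsLocalization m₀.primeCompl (Localization.AtPrime m) := by
    refine ⟨?_, ?_, ?_⟩
    · rintro ⟨y, hy⟩
      rw [halg]
      exact IsLocalization.map_units (Localization.AtPrime m)
        (⟨ι y, fun h => hy (Ideal.mem_comap.mpr h)⟩ : m.primeCompl)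
    · intro z
      obtain ⟨⟨r, t⟩, hz⟩ := IsLocalization.surj m.primeCompl z
      obtain ⟨hr, hrm, hrr⟩ := hloc r
      obtain ⟨ht, htm, htt⟩ := hloc (t : R₁)
      -- numerator `(hr * r) * ht`, denominator `(ht * t) * hr`
      refine ⟨(⟨(hr : F) * (r : F), hrr⟩ * ht, ⟨⟨(ht : F) * ((t : R₁) : F), htt⟩ * hr, ?_⟩), ?_⟩
      · intro hmem
        have hmem' : ι (⟨(ht : F) * ((t : R₁) : F), htt⟩ * hr) ∈ m := Ideal.mem_comap.mp hmem
        have e : ι (⟨(ht : F) * ((t : R₁) : F), htt⟩ * hr) = (ι ht * (t : R₁)) * ι hr := by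
          apply Subtype.ext
          rfl
        rw [e] at hmem'
        rcases (Ideal.IsPrime.mem_or_mem inferInstance hmem') with h1 | h1
        · rcases (Ideal.IsPrime.mem_or_mem inferInstance h1) with h2 | h2
          · exact htm h2
          · exact t.2 h2
        · exact hrm h1
      · show z * algebraMap R₀ (Localization.AtPrime m) (⟨(ht : F) * ((t : R₁) : F), htt⟩ * hr) =
          algebraMap R₀ (Localization.AtPrime m) (⟨(hr : F) * (r : F), hrr⟩ * ht)
        rw [halg, halg]
        have e1 : ι (⟨(ht : F) * ((t : R₁) : F), htt⟩ * hr) = (t : R₁) * (ι ht * ι hr) := by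
          apply Subtype.ext
          show (ht : F) * ((t : R₁) : F) * (hr : F) = ((t : R₁) : F) * ((ht : F) * (hr : F))
          ring
        have e2 : ι (⟨(hr : F) * (r : F), hrr⟩ * ht) = r * (ι ht * ι hr) := by
          apply Subtype.ext
          show (hr : F) * (r : F) * (ht : F) = (r : F) * ((ht : F) * (hr : F))
          ring
        rw [e1, e2, map_mul, map_mul, ← mul_assoc, hz, map_mul, map_mul]
    · intro x y hxy
      rw [halg, halg] at hxy
      have h1 : ι x = ι y := hinj hxy
      have h2 : x = y := Subring.inclusion_injective h01 h1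
      exact ⟨1, by rw [h2]⟩
  exact IsLocalization.isNoetherianRing m₀.primeCompl (Localization.AtPrime m) inferInstance

end Compare

/-! ### the Nakayama step -/

section Nakayama

variable {F : Type*} [Field F]

theorem fg_of_common_denominator (B : Subring F) [IsNoetherianRing B] (M : Submodule B F)
    (b : F) (hb : b ≠ 0) (hbM : ∀ e ∈ M, b * e ∈ B) : M.FG := by
  let φ : M →ₗ[B] B :=
    { toFun := fun e => ⟨b * (e : F), hbM e e.2⟩
      map_add' := fun x y => by
        apply Subtype.ext
        show b * ((x : F) + (y : F)) = b * (x : F) + b * (y : F)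
        ring
      map_smul' := fun c x => by
        apply Subtype.ext
        show b * ((c : F) * (x : F)) = (c : F) * (b * (x : F))
        ring }
  have hinj : Function.Injective φ := by
    intro x y hxy
    have h1 : b * (x : F) = b * (y : F) := congrArg (fun z : B => (z : F)) hxy
    exact Subtype.ext (mul_left_cancel₀ hb h1)
  haveI : Module.Finite B M := Module.Finite.of_injective φ hinj
  exact (Submodule.fg_top M).mp Module.Finite.fg_top

theorem exists_mul_mem_of_step (B : Subring F) [IsNoetherianRing B] (M : Submodule B F)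
    (b : F) (hb : b ≠ 0) (hbM : ∀ e ∈ M, b * e ∈ B) (q : Ideal B) [q.IsPrime] (p : B)
    (hp : p ∈ q)
    (hstep : ∀ e ∈ M, ∃ S : B, S ∉ q ∧ ∃ X : B, ∃ e₁ ∈ M,
      (S : F) * e = (X : F) + (p : F) * e₁) :
    ∀ e ∈ M, ∃ S : B, S ∉ q ∧ (S : F) * e ∈ B := by
  have hMfg : M.FG := fg_of_common_denominator B M b hb hbM
  -- the local ring `B' = B_q` inside `F`
  have hunit : ∀ y : q.primeCompl, IsUnit (B.subtype (y : B)) := by
    rintro ⟨y, hy⟩
    apply IsUnit.mk0
    intro h0
    apply hy
    have : y = 0 := Subtype.ext h0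
    rw [this]
    exact q.zero_mem
  let ψ : Localization.AtPrime q →+* F := IsLocalization.lift hunit
  letI : Algebra (Localization.AtPrime q) F := ψ.toAlgebra
  have hψ : ∀ x : B, ψ (algebraMap B (Localization.AtPrime q) x) = (x : F) :=
    fun x => IsLocalization.lift_eq hunit x
  haveI : IsScalarTower B (Localization.AtPrime q) F := by
    refine IsScalarTower.of_algebraMap_eq (fun x => ?_)
    show (x : F) = ψ (algebraMap B (Localization.AtPrime q) x)
    rw [hψ]
  have hsmul : ∀ (z : Localization.AtPrime q) (f : F), z • f = ψ z * f := fun _ _ => rfl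
  set N : Submodule (Localization.AtPrime q) F :=
    Submodule.span (Localization.AtPrime q) (M : Set F) with hN
  set P : Submodule (Localization.AtPrime q) F :=
    Submodule.span (Localization.AtPrime q) {(1 : F)} with hP
  set I : Ideal (Localization.AtPrime q) :=
    Ideal.span {algebraMap B (Localization.AtPrime q) p} with hI
  have hNfg : N.FG := by
    obtain ⟨s, hs⟩ := hMfg
    refine ⟨s, ?_⟩
    rw [hN, ← hs, Submodule.span_span_of_tower]
  have hIjac : I ≤ Ideal.jacobson ⊥ := by
    rw [IsLocalRing.jacobson_eq_maximalIdeal ⊥ bot_ne_top, hI, Ideal.span_le]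
    intro x hx
    rw [Set.mem_singleton_iff] at hx
    rw [hx]
    exact (IsLocalization.AtPrime.to_map_mem_maximal_iff (Localization.AtPrime q) q p).mpr hp
  have hNN : N ≤ P ⊔ I • N := by
    rw [hN, Submodule.span_le]
    intro e he
    obtain ⟨S, hS, X, e₁, he₁, heq⟩ := hstep e he
    have hS0 : (S : F) ≠ 0 := (hunit ⟨S, hS⟩).ne_zero
    set u : Localization.AtPrime q := IsLocalization.mk' (Localization.AtPrime q) (1 : B)
      (⟨S, hS⟩ : q.primeCompl) with hu
    have hψu : ψ u * (S : F) = 1 := by
      have h1 : u * algebraMap B (Localization.AtPrime q) S =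
          algebraMap B (Localization.AtPrime q) 1 :=
        IsLocalization.mk'_spec (Localization.AtPrime q) (1 : B) (⟨S, hS⟩ : q.primeCompl)
      have h2 := congrArg ψ h1
      rw [map_mul, hψ, hψ] at h2
      simpa using h2
    have hdecomp : e = (u * algebraMap B (Localization.AtPrime q) X) • (1 : F) +
        algebraMap B (Localization.AtPrime q) p • (u • e₁) := by
      rw [hsmul, hsmul, hsmul, map_mul, hψ, hψ, mul_one]
      have : e = ψ u * ((S : F) * e) := by
        rw [← mul_assoc, hψu, one_mul]
      calc e = ψ u * ((S : F) * e) := this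
        _ = ψ u * ((X : F) + (p : F) * e₁) := by rw [heq]
        _ = ψ u * (X : F) + (p : F) * (ψ u * e₁) := by ring
    show e ∈ P ⊔ I • N
    rw [hdecomp]
    apply Submodule.add_mem
    · apply Submodule.mem_sup_left
      exact Submodule.smul_mem _ _ (Submodule.subset_span (Set.mem_singleton _))
    · apply Submodule.mem_sup_right
      apply Submodule.smul_mem_smul
      · exact Ideal.subset_span (Set.mem_singleton _)
      · exact Submodule.smul_mem _ _ (Submodule.subset_span he₁)
  have hle : N ≤ P := Submodule.le_of_le_smul_of_le_jacobson_bot hNfg hIjac hNN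
  intro e he
  have heP : e ∈ P := hle (Submodule.subset_span he)
  rw [hP, Submodule.mem_span_singleton] at heP
  obtain ⟨z, hz⟩ := heP
  rw [hsmul, mul_one] at hz
  obtain ⟨⟨a, s⟩, hzs⟩ := IsLocalization.surj q.primeCompl z
  refine ⟨s, s.2, ?_⟩
  have h2 := congrArg ψ hzs
  rw [map_mul, hψ, hψ] at h2
  have : ((s : B) : F) * e = (a : F) := by
    rw [← hz, mul_comm]
    exact h2
  rw [this]
  exact a.2

end Nakayama

end Fermat.Agent.T8.helper1

end
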