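import Mathlib
import Fermat.Agent.T8.helper63_KerRed
import Fermat.Agent.T2.helper74_RootEndInst
import Fermat.Agent.T8.helper1_NoethAbs

/-!
# T8 / [RING-X], noetherian leaf: contract (helper1)

Level `N q` (`q` prime, `q ∤ N`), `W = atkinLehner N q`, `A` a valuation subring of `ℚ̄`.

* `ringJ N q hq hqN A` : the ring `R` of [RING-X] (helper63 `IsRX`: inertia-fixed, regular where
  `j` is finite, integral pair of expansions), as a subring of `FF (N q)`.
* `ring2 N q hq hqN A` : the smaller ring of the inertia-fixed functions regular off the TWO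
  cusps `∞`, `∞₂` with integral pair of expansions.
* `RingNoethStatement` : **the contract**: the local ring of `ringJ` at every prime containing
  `q` is noetherian (the hypothesis `IsNoetherianRing` of `helper6.ufm_of_quotient`).
* `Ring2NoethStatement` : `ring2` is noetherian.
* `LocBadStatement` : every `f ∈ ringJ` has a denominator `h ∈ ring2` outside a given prime
  `m ∋ q` of `ringJ` (the cusps `≠ ∞, ∞₂` do not specialise to the points of `Spec ringJ`).
* `ringNoeth_of` : `Ring2NoethStatement → LocBadStatement → RingNoethStatement`.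
-/

set_option autoImplicit false
set_option synthInstance.maxHeartbeats 400000
set_option maxHeartbeats 1000000
set_option linter.unusedSectionVars false
set_option linter.unusedVariables false
set_option linter.style.haveILetI false
set_option linter.style.longLine false

noncomputable section

open HahnSeries IntermediateField AlgebraicCurve ModularCurve
open Fermat.Agent.S18.helper19 Fermat.Agent.P2.helper29 Fermat.Agent.T2.helper36

namespace Fermat.Agent.T8.helper1

open Fermat.Agent.T3.helper74 (IsFixI)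
open Fermat.Agent.T3.helper98 (IsRegJ)
open Fermat.Agent.T2.helper22 (IsRep IsReg2)
open Fermat.Agent.T8.helper63 (IsRX)

section Defs

variable {N q : ℕ} [NeZero N] [NeZero q] {hq : q.Prime} {hqN : ¬ q ∣ N}
  {A : ValuationSubring Kb}

theorem isRep_neg {W : FF (N * q) ≃ₐ[Kb] FF (N * q)} {f : FF (N * q)}
    {Y₁ Y₂ : LaurentSeries A} (hf : IsRep A W f Y₁ Y₂) : IsRep A W (-f) (-Y₁) (-Y₂) := by
  refine ⟨?_, ?_⟩
  · rw [map_neg, hf.1]; rfl
  · rw [map_neg, map_neg, hf.2]; rfl

theorem isRep_one' {W : FF (N * q) ≃ₐ[Kb] FF (N * q)} :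
    IsRep A W (1 : FF (N * q)) 1 1 := by
  refine ⟨?_, ?_⟩
  · rw [map_one]; rfl
  · rw [map_one, map_one]; rfl

/-- `IsReg2` implies `IsRegJ` at the Atkin–Lehner pair -/
theorem isRegJ_of_isReg2 {f : FF (N * q)} (hf : IsReg2 (atkinLehner N q hq hqN) f) :
    IsRegJ (N * q) f := by
  intro P hP
  obtain ⟨h1, h2⟩ := Fermat.Agent.T2.helper74.off_cusps_of_ord_jElt_nonneg
    (atkinLehner N q hq hqN) (Fermat.Agent.T2.helper74.order_atkinLehner_jElt N q hq hqN) P hP
  exact hf P h1 h2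

end Defs

section Rings

variable (N q : ℕ) [NeZero N] [NeZero q] (hq : q.Prime) (hqN : ¬ q ∣ N)
  (A : ValuationSubring Kb)

/-- **the ring `R` of [RING-X]** (helper63 `IsRX`) as a subring of `FF (N q)`. -/
def ringJ : Subring (FF (N * q)) where
  carrier := {g | ∃ Y₁ Y₂ : LaurentSeries A, IsRX A hq hqN g Y₁ Y₂}
  mul_mem' := by
    rintro f g ⟨Y₁, Y₂, hf⟩ ⟨Z₁, Z₂, hg⟩
    exact ⟨_, _, hf.mul hg⟩
  one_mem' := ⟨1, 1, Fermat.Agent.T3.helper98.isFixI_one A,
    Fermat.Agent.T3.helper98.isRegJ_one, isRep_one'⟩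
  add_mem' := by
    rintro f g ⟨Y₁, Y₂, hf⟩ ⟨Z₁, Z₂, hg⟩
    exact ⟨_, _, hf.add hg⟩
  zero_mem' := ⟨0, 0, Fermat.Agent.T8.helper63.isRX_zero⟩
  neg_mem' := by
    rintro f ⟨Y₁, Y₂, h1, h2, h3⟩
    exact ⟨-Y₁, -Y₂, Fermat.Agent.T3.helper98.isFixI_neg A h1, h2.neg, isRep_neg h3⟩

/-- the ring of the inertia-fixed functions regular off the two cusps `∞`, `∞₂` with integral
pair of expansions. -/
def ring2 : Subring (FF (N * q)) where
  carrier := {g | IsFixI A (N * q) g ∧ IsReg2 (atkinLehner N q hq hqN) g ∧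
    ∃ Y₁ Y₂ : LaurentSeries A, IsRep A (atkinLehner N q hq hqN) g Y₁ Y₂}
  mul_mem' := by
    rintro f g ⟨hf1, hf2, Y₁, Y₂, hf⟩ ⟨hg1, hg2, Z₁, Z₂, hg⟩
    exact ⟨Fermat.Agent.T3.helper98.isFixI_mul A hf1 hg1, hf2.mul hg2, _, _, hf.mul hg⟩
  one_mem' := ⟨Fermat.Agent.T3.helper98.isFixI_one A, Fermat.Agent.T2.helper22.isReg2_one,
    1, 1, isRep_one'⟩
  add_mem' := by
    rintro f g ⟨hf1, hf2, Y₁, Y₂, hf⟩ ⟨hg1, hg2, Z₁, Z₂, hg⟩
    exact ⟨Fermat.Agent.T3.helper98.isFixI_add A hf1 hg1, hf2.add hg2, _, _, hf.add hg⟩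
  zero_mem' := ⟨fun σ _ => map_zero _, Fermat.Agent.T2.helper22.isReg2_zero, 0, 0,
    Fermat.Agent.T2.helper22.isRep_zero⟩
  neg_mem' := by
    rintro f ⟨h1, h2, Y₁, Y₂, h3⟩
    exact ⟨Fermat.Agent.T3.helper98.isFixI_neg A h1, h2.neg, -Y₁, -Y₂, isRep_neg h3⟩

variable {N q hq hqN A}

theorem mem_ringJ {g : FF (N * q)} :
    g ∈ ringJ N q hq hqN A ↔ ∃ Y₁ Y₂ : LaurentSeries A, IsRX A hq hqN g Y₁ Y₂ := Iff.rfl

theorem mem_ring2 {g : FF (N * q)} :
    g ∈ ring2 N q hq hqN A ↔ IsFixI A (N * q) g ∧ IsReg2 (atkinLehner N q hq hqN) g ∧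
      ∃ Y₁ Y₂ : LaurentSeries A, IsRep A (atkinLehner N q hq hqN) g Y₁ Y₂ := Iff.rfl

theorem ring2_le_ringJ : ring2 N q hq hqN A ≤ ringJ N q hq hqN A := by
  rintro g ⟨h1, h2, Y₁, Y₂, h3⟩
  exact ⟨Y₁, Y₂, h1, isRegJ_of_isReg2 h2, h3⟩

variable (N q hq hqN A)

/-- **[RING-X], noetherian leaf (contract)**: the local ring of `R = ringJ` at every prime
containing `q` is noetherian. -/
def RingNoethStatement : Prop :=
  ∀ (m : Ideal (ringJ N q hq hqN A)) [m.IsPrime], ((q : ℕ) : ringJ N q hq hqN A) ∈ m →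
    IsNoetherianRing (Localization.AtPrime m)

/-- **[R2-NOETH]** `ring2` is noetherian. -/
def Ring2NoethStatement : Prop := IsNoetherianRing (ring2 N q hq hqN A)

/-- **[LOC-BAD]** every function of `ringJ` has a denominator in `ring2` outside `m`. -/
def LocBadStatement : Prop :=
  ∀ (m : Ideal (ringJ N q hq hqN A)) [m.IsPrime], ((q : ℕ) : ringJ N q hq hqN A) ∈ m →
    ∀ f : ringJ N q hq hqN A, ∃ h : ring2 N q hq hqN A,
      Subring.inclusion ring2_le_ringJ h ∉ m ∧ (h : FF (N * q)) * (f : FF (N * q)) ∈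
        ring2 N q hq hqN A

variable {N q hq hqN A}

/-- the contract from its two halves -/
theorem ringNoeth_of (h2 : Ring2NoethStatement N q hq hqN A)
    (hloc : LocBadStatement N q hq hqN A) : RingNoethStatement N q hq hqN A := by
  intro m _ hm
  haveI : IsNoetherianRing (ring2 N q hq hqN A) := h2
  exact isNoetherianRing_localization_of_le (ring2 N q hq hqN A) (ringJ N q hq hqN A)
    ring2_le_ringJ m (hloc m hm)

end Rings

end Fermat.Agent.T8.helper1

end
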