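import Mathlib
import Fermat.Agent.T8.helper1_RingNoeth
import Fermat.Agent.T8.helper16_RingXNoeth

/-!
# T8 / [RING-X], noetherian leaf: the contract is CLOSED (helper1)

`helper16.noethX` (T3 [FG]: `isIntegralElem_level_q` + `completeO` +
`isNoetherianRing_of_fix_integral`) proves that `ringX` is noetherian; `ringJ = ringX`, and a
localisation of a noetherian ring is noetherian.

* `ringJ_eq_ringX`        : the two subrings coincide;
* `isNoetherianRing_ringJ`: `ringJ` is noetherian;
* `ringNoeth`             : **`RingNoethStatement`**, unconditional for `A` over `q`.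
-/

set_option autoImplicit false
set_option synthInstance.maxHeartbeats 400000
set_option linter.unusedSectionVars false
set_option linter.unusedVariables false
set_option linter.style.haveILetI false

noncomputable section

open HahnSeries IntermediateField AlgebraicCurve ModularCurve
open Fermat.Agent.S18.helper19 Fermat.Agent.P2.helper29 Fermat.Agent.T2.helper36

namespace Fermat.Agent.T8.helper1

variable {N q : ℕ} [NeZero N] [NeZero q] {hq : q.Prime} {hqN : ¬ q ∣ N}
  {A : ValuationSubring Kb}

theorem ringJ_eq_ringX : ringJ N q hq hqN A = Fermat.Agent.T8.helper16.ringX A hq hqN :=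
  Subring.ext fun _ => Iff.rfl

theorem isNoetherianRing_ringJ (hA : A.LiesOverPrime q) :
    IsNoetherianRing (ringJ N q hq hqN A) := by
  rw [ringJ_eq_ringX]
  exact Fermat.Agent.T8.helper16.noethX hA

/-- **[RING-X], noetherian leaf**: the local ring of `ringJ` at every prime is noetherian. -/
theorem ringNoeth (hA : A.LiesOverPrime q) : RingNoethStatement N q hq hqN A := by
  intro m _ _
  haveI : IsNoetherianRing (ringJ N q hq hqN A) := isNoetherianRing_ringJ hA
  exact IsLocalization.isNoetherianRing m.primeCompl (Localization.AtPrime m) inferInstance

end Fermat.Agent.T8.helper1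

end
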