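import Fermat.Agent.T8.helper51_SatCusp
import Fermat.Agent.T8.helper74_GapsAnn
import Fermat.Agent.S20

/-!
# T8 (row 38), [F3-EXIT], the COUNT (helper51): `annRb L A` consists of reductions of cusp forms

Glue of helper74's annihilator count (`helper74.annRb`, `finrank_annRb_le`), of the saturation
`helper51.satCusp` and of the characteristic `0` leaf [CUSP-ANN] (taken as a hypothesis, in the
shape `CuspAnnStatement L`): every element of the annihilator `annRb L A` of the reductions of
the integral functions regular off infinity is a `k`-linear combination of reductions of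
`q`-integral cusp forms of weight `2` and level `L` (`helper47.IsRedCusp`, the entry of
[LIFT-Q]).

* `zSeries R z`          : the series `∑ z_m q^m` over `R`, for an integer sequence `z`;
* `CuspAnnStatement L`   : **[CUSP-ANN]** `a₀(h · f) = 0` for `f` a `q`-integral cusp form of
  level `L` and `h` a function of level `L` regular off infinity (characteristic `0`);
* `zSeries_mem_annRb`    : [CUSP-ANN] reduced modulo the maximal ideal of `A`;
* `finrank_annRb_le_finrank_cuspForm` : `dim annRb L A ≤ dim_ℂ S₂(Γ₀(L))`;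
* `isRedCusp_of_mem_annRb` : the count.
-/

set_option autoImplicit false
set_option synthInstance.maxHeartbeats 400000

open ModularCurve CuspForm CongruenceSubgroup ModularFormClass

noncomputable section

namespace Fermat.Agent.T8.helper51

open HahnSeries
open Fermat.Agent.S18.helper19 Fermat.Agent.P2.helper29 Fermat.Agent.T8.helper74

/-! ### The series of an integer sequence -/

section ZSeries

variable (R : Type*) [CommRing R] (z : ℕ → ℤ)

/-- The series `∑ z_m q^m` over `R`. -/
def zSeries : LaurentSeries R :=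
  HahnSeries.ofPowerSeries ℤ R (PowerSeries.mk fun m => ((z m : ℤ) : R))

theorem zSeries_coeff_natCast (m : ℕ) : (zSeries R z).coeff (m : ℤ) = ((z m : ℤ) : R) := by
  unfold zSeries
  rw [HahnSeries.ofPowerSeries_apply_coeff, PowerSeries.coeff_mk]

theorem zSeries_coeff_of_neg {m : ℤ} (hm : m < 0) : (zSeries R z).coeff m = 0 := by
  unfold zSeries
  rw [HahnSeries.ofPowerSeries_apply, HahnSeries.embDomain_of_notMem_range]
  rintro ⟨n, hn⟩
  have hn' : (n : ℤ) = m := hn
  omega

variable {R}

theorem coeffMap_zSeries {S : Type*} [CommRing S] (φ : R →+* S) :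
    coeffMap φ (zSeries R z) = zSeries S z := by
  ext m
  rw [coeffMap_coeff]
  rcases lt_or_ge m 0 with hm | hm
  · rw [zSeries_coeff_of_neg R z hm, zSeries_coeff_of_neg S z hm, map_zero]
  · obtain ⟨n, rfl⟩ := Int.eq_ofNat_of_zero_le hm
    rw [zSeries_coeff_natCast, zSeries_coeff_natCast, map_intCast]

end ZSeries

/-! ### [CUSP-ANN] and its reduction -/

/-- **[CUSP-ANN]** (characteristic `0`): the `q`-expansion of a `q`-integral cusp form of
weight `2` and level `L` annihilates the functions of level `L` which are regular off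
infinity, for the pairing `(h, w) ↦ a₀(h w)`. -/
def CuspAnnStatement (L : ℕ) : Prop :=
  ∀ (f : CuspForm (Gamma0 L) 2) (z : ℕ → ℤ), (∀ m, ((z m : ℤ) : ℂ) = qCoeff ⇑f m) →
    ∀ (n : ℤ) (h : LaurentSeries Kb), InL (FF L) n h → (h * zSeries Kb z).coeff 0 = 0

section Count

variable {L : ℕ} [NeZero L] {A : ValuationSubring Kb}

omit [NeZero L] in
/-- [CUSP-ANN] reduced: the reduction of a `q`-integral cusp form lies in `annRb L A`. -/
theorem zSeries_mem_annRb (hC : CuspAnnStatement L) (f : CuspForm (Gamma0 L) 2) (z : ℕ → ℤ)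
    (hz : ∀ m, ((z m : ℤ) : ℂ) = qCoeff ⇑f m) : zSeries (kA A) z ∈ annRb L A := by
  rw [mem_annRb]
  refine ⟨fun m hm => ?_, fun Y hY => ?_⟩
  · rcases lt_or_eq_of_le hm with hlt | rfl
    · exact zSeries_coeff_of_neg _ z hlt
    · have h0 : ((z 0 : ℤ) : ℂ) = 0 := by rw [hz 0]; exact Fermat.Agent.S49.qc_cusp_zero f
      have h1 : z 0 = 0 := by exact_mod_cast h0
      have := zSeries_coeff_natCast (kA A) z 0
      rw [h1] at this
      simpa using this
  · obtain ⟨n, hn⟩ := hY
    have h1 := hC f z hz n (incl A Y) hn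
    rw [← coeffMap_zSeries z A.subtype, ← map_mul, coeffMap_coeff] at h1
    have h2 : (Y * zSeries A z).coeff 0 = 0 := by
      apply Subtype.ext
      simpa using h1
    rw [← coeffMap_zSeries z (IsLocalRing.residue A), ← map_mul, coeffMap_coeff, h2, map_zero]

/-- `dim annRb L A ≤ dim_ℂ S₂(Γ₀(L))`. -/
theorem finrank_annRb_le_finrank_cuspForm (hP : PrimeToLevel L A) :
    Module.finrank (kA A) (annRb L A) ≤ Module.finrank ℂ (CuspForm (Gamma0 L) 2) := by
  obtain ⟨g, hg⟩ := Fermat.Agent.P2.helper74.riemannStatement L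
  have h1 := finrank_annRb_le hP g hg
  have h2 := Fermat.Agent.P2.helper77.genusFormulaStatement L g hg
  have h3 := Fermat.Agent.S20.result L
  have h4 : ((g : ℕ) : ℚ) = ((Module.finrank ℂ (CuspForm (Gamma0 L) 2) : ℕ) : ℚ) := by
    rw [h2, h3]
  have h5 : g = Module.finrank ℂ (CuspForm (Gamma0 L) 2) := by exact_mod_cast h4
  omega

/-- The coefficients `m ↦ w.coeff m`, `m : ℕ`, as a linear map. -/
def natCoeff (k : Type*) [Field k] : LaurentSeries k →ₗ[k] (ℕ → k) :=
  LinearMap.pi fun m : ℕ => HahnSeries.coeff.linearMap ((m : ℕ) : ℤ)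

theorem natCoeff_apply (k : Type*) [Field k] (w : LaurentSeries k) (m : ℕ) :
    natCoeff k w m = w.coeff (m : ℤ) := rfl

/-- **The count**: under [CUSP-ANN], every element of `annRb L A` is a combination of
reductions of `q`-integral cusp forms of level `L`. -/
theorem isRedCusp_of_mem_annRb (hC : CuspAnnStatement L) (hP : PrimeToLevel L A)
    {w : LaurentSeries (kA A)} (hw : w ∈ annRb L A) :
    Fermat.Agent.T8.helper47.IsRedCusp L (kA A) (fun m => w.coeff (m : ℤ)) := by
  have hP' := hP
  obtain ⟨ℓ, hℓ, -, hA⟩ := hP'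
  have : Fact ℓ.Prime := ⟨hℓ⟩
  have : CharP (kA A) ℓ := Fermat.Agent.P2.helper81.charP_residueField A hA
  have := finiteDimensional_annRb (A := A) (L := L) hP
  refine isRedCusp_of_mem_ann_map L ℓ hℓ (kA A) (natCoeff (kA A)) (annRb L A)
    (finrank_annRb_le_finrank_cuspForm hP) (fun f z hz => ?_) w hw
  refine ⟨zSeries (kA A) z, zSeries_mem_annRb hC f z hz, ?_⟩
  funext m
  rw [natCoeff_apply, zSeries_coeff_natCast]

end Count

end Fermat.Agent.T8.helper51
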