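import Fermat.Agent.T8.helper21_TraceCore
import Fermat.Agent.T8.helper51_AnnCusp

/-!
# T8 [F3-EXIT] leaf 3 [CUSP-ANN] (helper21): the wiring of the trace core

* `HoloOfInLStatement L` : the dictionary side of [CUSP-ANN] ((D1) + (D2), helper37 #3735) :
  every function `h` of level `L` which is regular off `∞` is the `q`-expansion of a holomorphic
  `Γ₀(L)`-invariant function on `ℍ` all of whose translates by `γ ∉ Γ₀(L)` are bounded at `i∞`.
* `cuspAnnStatement_of_holo` : `HoloOfInLStatement L → helper51.CuspAnnStatement L`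
  (the characteristic `0` leaf [CUSP-ANN] in the shape consumed by `helper51.cuspAnnStatement_red`
  and `helper51.modularRepOfLevel_of_mem_annRb_char0`), by `helper21.cuspAnn_core_pointwise`.
-/

set_option autoImplicit false
set_option linter.unusedSectionVars false
set_option linter.style.longLine false
set_option linter.unusedVariables false
set_option linter.style.haveILetI false

noncomputable section

open UpperHalfPlane ModularForm Function Filter CongruenceSubgroup ModularCurve
open scoped MatrixGroups Manifold Topology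

namespace Fermat.Agent.T8.helper21

open Fermat.Agent.S24 Fermat.Agent.S24.helper17
open Fermat.Agent.S18.helper19 Fermat.Agent.P2.helper29

/-- **the dictionary side of [CUSP-ANN]** : a function of level `L` regular off `∞` is the
`q`-expansion of a holomorphic `Γ₀(L)`-invariant function on `ℍ` whose translates by
`γ ∉ Γ₀(L)` are bounded at `i∞`. -/
def HoloOfInLStatement (L : ℕ) [NeZero L] : Prop :=
  ∀ (n : ℤ) (h : LaurentSeries Kb), InL (FF L) n h →
    ∃ H : ℍ → ℂ, MDiff H ∧ (∀ g ∈ Gamma0 L, ∀ τ : ℍ, H (g • τ) = H τ) ∧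
      IsQExp (toC h) H ∧
      ∀ g : SL(2, ℤ), g ∉ Gamma0 L → IsBoundedAtImInfty (fun τ : ℍ => H (g • τ))

/-- the `q`-expansion of a `q`-integral cusp form -/
theorem cuspQ_eq_zSeries {L : ℕ} [NeZero L] (f : CuspForm (Gamma0 L) 2) (z : ℕ → ℤ)
    (hz : ∀ m, ((z m : ℤ) : ℂ) = ModularFormClass.qCoeff ⇑f m) :
    cuspQ f = Fermat.Agent.T8.helper51.zSeries ℂ z := by
  ext m
  rcases lt_or_ge m 0 with hm | hm
  · rw [Fermat.Agent.T8.helper51.zSeries_coeff_of_neg ℂ z hm]
    exact ofPowerSeries_coeff_neg _ hm
  · obtain ⟨k, rfl⟩ := Int.eq_ofNat_of_zero_le hm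
    rw [Fermat.Agent.T8.helper51.zSeries_coeff_natCast, cuspQ_coeff_nat, hz k]
    rfl

/-- **[CUSP-ANN]** (characteristic `0`) from the dictionary side. -/
theorem cuspAnnStatement_of_holo (L : ℕ) [NeZero L] (hD : HoloOfInLStatement L) :
    Fermat.Agent.T8.helper51.CuspAnnStatement L := by
  intro f z hz n h hh
  obtain ⟨H, -, hHinv, hHq, hHb⟩ := hD n h hh
  have key := cuspAnn_core_pointwise f hHq hHinv hHb
  rw [cuspQ_eq_zSeries f z hz] at key
  have e2 : toC (Fermat.Agent.T8.helper51.zSeries Kb z) = Fermat.Agent.T8.helper51.zSeries ℂ z :=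
    Fermat.Agent.T8.helper51.coeffMap_zSeries z _
  have e3 : (toC (h * Fermat.Agent.T8.helper51.zSeries Kb z)).coeff 0 = 0 := by
    rw [map_mul, e2]
    exact key
  rw [toC_coeff] at e3
  exact (map_eq_zero _).mp e3

end Fermat.Agent.T8.helper21

end
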