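import Fermat.Agent.T8.helper48_VertLocX

/-!
# T8 (row 38, at risk), leaf [RING-X], (VERT) for `locX Q` (helper48): consumer variants

* `glue_locX_w` : `glue_locX` where the congruence of the Gauss exponents at `∞₂` is only asked
  at the double points (`0 < ord_Q ν`);
* `mult_xx_locX` : at every finite point `Q`, the exact multiplicity of `xx = W b₀` in
  `a ∈ locX Q` is the Gauss exponent of `a` at `∞`;
* `mult_yy_locX` : at a double point `Q`, the exact multiplicity of `y = b₀` in `a ∈ locX Q` is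
  the Gauss exponent of `W a` at `∞` (i.e. of `a` at `∞₂`);
* `prime_xx_locX`, `prime_yy_locX`, `isUnit_yy_locX`, `not_assoc_xx_yy_locX`.
-/

set_option autoImplicit false
set_option synthInstance.maxHeartbeats 400000
set_option maxHeartbeats 1000000
set_option linter.unusedSectionVars false
set_option linter.unusedVariables false
set_option linter.style.haveILetI false
set_option linter.style.longLine false

noncomputable section

open HahnSeries IntermediateField AlgebraicCurve ModularCurve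
open Fermat.Agent.S18.helper19 Fermat.Agent.P2.helper29 Fermat.Agent.T2.helper36

namespace Fermat.Agent.T8.helper48

open Fermat.Agent.P2.helper66 (iota inv1)
open Fermat.Agent.T3.helper16 (IsUnit0)
open Fermat.Agent.T3.helper74 (IsFixI)
open Fermat.Agent.T3.helper36 (RhoQ GaussIs)
open Fermat.Agent.T8.helper63 (IsRX)
open Fermat.Agent.T8.helper16 (ringX red1X red2X locX IsUnitAt IsFinitePt ordAt mem_locX
  mem_ringX isRX_model red1X_eq red2X_eq)

section LocXw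

variable {N q : ℕ} [NeZero N] [NeZero q] {hq : q.Prime} {hqN : ¬ q ∣ N}
variable {A : ValuationSubring Kb} {b0 : FF (N * q)} {B : PowerSeries ℤ} {ε : ℤ}

/-- `xx = W b₀` as an element of `locX Q` -/
def xxLoc (h : IsUnit0 hq hqN b0 B ε) (hA : A.LiesOverPrime q)
    (Q : Place (kA A) (FFb A N)) : locX A hq hqN Q :=
  ⟨atkinLehner N q hq hqN b0, by
    obtain ⟨Y₁, Y₂, hY, -, -⟩ := Fermat.Agent.T8.helper63.isRX_unitW h A hA
    exact Fermat.Agent.T8.helper16.ringX_le_locX Q ⟨Y₁, Y₂, hY⟩⟩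

/-- `y = b₀` as an element of `locX Q` -/
def yyLoc (h : IsUnit0 hq hqN b0 B ε) (hA : A.LiesOverPrime q)
    (Q : Place (kA A) (FFb A N)) : locX A hq hqN Q :=
  ⟨b0, by
    obtain ⟨Y₁, Y₂, hY, -, -⟩ := Fermat.Agent.T8.helper63.isRX_unit h A hA
    exact Fermat.Agent.T8.helper16.ringX_le_locX Q ⟨Y₁, Y₂, hY⟩⟩

theorem coe_xxLoc (h : IsUnit0 hq hqN b0 B ε) (hA : A.LiesOverPrime q)
    (Q : Place (kA A) (FFb A N)) :
    ((xxLoc h hA Q : locX A hq hqN Q) : FF (N * q)) = atkinLehner N q hq hqN b0 := rfl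

theorem coe_yyLoc (h : IsUnit0 hq hqN b0 B ε) (hA : A.LiesOverPrime q)
    (Q : Place (kA A) (FFb A N)) :
    ((yyLoc h hA Q : locX A hq hqN Q) : FF (N * q)) = b0 := rfl

/-- `0 ≤ ord_Q ν` at a finite point -/
theorem ordAt_nu_nonneg (h : IsUnit0 hq hqN b0 B ε) (hA : A.LiesOverPrime q)
    {Q : Place (kA A) (FFb A N)} (hQ : IsFinitePt Q) : 0 ≤ ordAt Q (iota (kA A) B) :=
  ordAt_nonneg_of_mem_BtAll hQ (nu_mem_BtAll (A := A) h hA)

/-- `xx` is a prime element of `locX Q` at every finite point `Q`. -/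
theorem prime_xx_locX (h : IsUnit0 hq hqN b0 B ε) (hA : A.LiesOverPrime q)
    {Q : Place (kA A) (FFb A N)} (hQ : IsFinitePt Q) : Prime (xxLoc h hA Q) := by
  rcases eq_or_lt_of_le (ordAt_nu_nonneg h hA hQ) with hν | hν
  · exact VertSetting1.prime_xx h (vertSetting1_locX h hA hν.symm) hA
  · exact VertSetting.prime_xx h (vertSetting_locX h hA hQ hν) hA

/-- `y` is a prime element of `locX Q` at a double point `Q`. -/
theorem prime_yy_locX (h : IsUnit0 hq hqN b0 B ε) (hA : A.LiesOverPrime q)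
    {Q : Place (kA A) (FFb A N)} (hQ : IsFinitePt Q) (hν : 0 < ordAt Q (iota (kA A) B)) :
    Prime (yyLoc h hA Q) :=
  VertSetting.prime_yy h (vertSetting_locX h hA hQ hν) hA

/-- `y` is a unit of `locX Q` at a smooth point `Q`. -/
theorem isUnit_yy_locX (h : IsUnit0 hq hqN b0 B ε) (hA : A.LiesOverPrime q)
    {Q : Place (kA A) (FFb A N)} (hν : ordAt Q (iota (kA A) B) = 0) :
    IsUnit (yyLoc h hA Q) :=
  VertSetting1.isUnit_yy h (vertSetting1_locX h hA hν)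

/-- `xx * y = ± q` in `locX Q` -/
theorem xx_mul_yy_locX (h : IsUnit0 hq hqN b0 B ε) (hA : A.LiesOverPrime q)
    (Q : Place (kA A) (FFb A N)) :
    xxLoc h hA Q * yyLoc h hA Q = ((ε : ℤ) : locX A hq hqN Q) * ((q : ℕ) : locX A hq hqN Q) := by
  apply Subtype.ext
  show atkinLehner N q hq hqN b0 * b0 =
    (((ε : ℤ) : locX A hq hqN Q) : FF (N * q)) * (((q : ℕ) : locX A hq hqN Q) : FF (N * q))
  rw [h.al, map_mul, map_intCast, map_natCast]
  simp

/-- **(V1) at `xx`, every finite point**: the exact multiplicity of `xx` is the Gauss exponent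
at `∞`. -/
theorem mult_xx_locX (h : IsUnit0 hq hqN b0 B ε) (hA : A.LiesOverPrime q)
    {Q : Place (kA A) (FFb A N)} (hQ : IsFinitePt Q) {a : locX A hq hqN Q} (ha : a ≠ 0)
    {k : ℕ} (hk : xxLoc h hA Q ^ k ∣ a) (hk' : ¬ xxLoc h hA Q ^ (k + 1) ∣ a) :
    GaussIs A ((a : FF (N * q)) : LaurentSeries Kb) ((q : Kb) ^ (k : ℤ)) := by
  rcases eq_or_lt_of_le (ordAt_nu_nonneg h hA hQ) with hν | hν
  · exact VertSetting1.gaussIs_of_mult1 h (vertSetting1_locX h hA hν.symm) hA ha hk hk'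
  · exact VertSetting.gaussIs_of_mult1 h (vertSetting_locX h hA hQ hν) hA ha hk hk'

/-- **(V1) at `y`, double points**: the exact multiplicity of `y` is the Gauss exponent at
`∞₂`. -/
theorem mult_yy_locX (h : IsUnit0 hq hqN b0 B ε) (hA : A.LiesOverPrime q)
    {Q : Place (kA A) (FFb A N)} (hQ : IsFinitePt Q) (hν : 0 < ordAt Q (iota (kA A) B))
    {a : locX A hq hqN Q} (ha : a ≠ 0)
    {k : ℕ} (hk : yyLoc h hA Q ^ k ∣ a) (hk' : ¬ yyLoc h hA Q ^ (k + 1) ∣ a) :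
    GaussIs A ((atkinLehner N q hq hqN (a : FF (N * q)) : FF (N * q)) : LaurentSeries Kb)
      ((q : Kb) ^ (k : ℤ)) :=
  VertSetting.gaussIs_of_mult2 h (vertSetting_locX h hA hQ hν) hA ha hk hk'

/-- `xx` and `y` are not associated in `locX Q` (double point) -/
theorem not_dvd_xx_yy_locX (h : IsUnit0 hq hqN b0 B ε) (hA : A.LiesOverPrime q)
    {Q : Place (kA A) (FFb A N)} (hQ : IsFinitePt Q) (hν : 0 < ordAt Q (iota (kA A) B)) :
    ¬ xxLoc h hA Q ∣ yyLoc h hA Q := by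
  intro hd
  have hS := vertSetting_locX h hA hQ hν
  -- `w₁ y = 0` but `xx ∣ y` forces `w₁ y ≥ 1`
  obtain ⟨c, hc⟩ := hd
  have hy0 : yyLoc h hA Q ≠ 0 := VertSetting.yy_ne_zero h hS
  have hc0 : c ≠ 0 := by
    rintro rfl
    rw [mul_zero] at hc
    exact hy0 hc
  have hx0 : xxLoc h hA Q ≠ 0 := VertSetting.xx_ne_zero h hS
  have e1 := hS.w1_mul hA (xxLoc h hA Q) c hx0 hc0
  rw [← hc] at e1
  have e2 : hS.w1 hA (xxLoc h hA Q) = 1 := VertSetting.w1_xx h hS hA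
  have e3 : hS.w1 hA (yyLoc h hA Q) = 0 := by
    obtain ⟨Y₁, Y₂, hY, h1, -⟩ := Fermat.Agent.T8.helper63.isRX_unit h A hA
    have hr : RhoQ A ((b0 : FF (N * q)) : LaurentSeries Kb) (iota (kA A) B) := by
      have := Fermat.Agent.T3.helper36.rhoQ_incl (A := A) Y₁
      rwa [hY.2.2.1, h1] at this
    have hg : GaussIs A (((yyLoc h hA Q : locX A hq hqN Q) : FF (N * q)) : LaurentSeries Kb)
        ((q : Kb) ^ (0 : ℤ)) :=
      gaussIs_zero_of_rhoQ hr (Fermat.Agent.T8.helper63.nu_ne_zero h A)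
    have := hS.w1_eq hA hg
    exact_mod_cast this
  omega

/-- **(VERT), GLUE on `locX Q`, consumer form**: the congruence at `∞₂` is only needed at the
double points. -/
theorem glue_locX_w (h : IsUnit0 hq hqN b0 B ε) (hA : A.LiesOverPrime q)
    {Q : Place (kA A) (FFb A N)} (hQ : IsFinitePt Q)
    (n : ℕ) {a b : locX A hq hqN Q} (ha : a ≠ 0) (hb : b ≠ 0) {m₁ m₁' m₂ m₂' : ℤ}
    (g₁ : GaussIs A ((a : FF (N * q)) : LaurentSeries Kb) ((q : Kb) ^ m₁))
    (g₁' : GaussIs A ((b : FF (N * q)) : LaurentSeries Kb) ((q : Kb) ^ m₁'))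
    (g₂ : GaussIs A ((atkinLehner N q hq hqN (a : FF (N * q)) : FF (N * q)) : LaurentSeries Kb)
      ((q : Kb) ^ m₂))
    (g₂' : GaussIs A ((atkinLehner N q hq hqN (b : FF (N * q)) : FF (N * q)) : LaurentSeries Kb)
      ((q : Kb) ^ m₂'))
    (h₁ : (n : ℤ) ∣ m₁ - m₁')
    (h₂ : 0 < ordAt Q (iota (kA A) B) → (n : ℤ) ∣ m₂ - m₂')
    (hfin : ∀ π : locX A hq hqN Q, Prime π → ∀ r : locX A hq hqN Q, r ≠ 0 →
      ∃ k : ℕ, ¬ π ^ (k + 1) ∣ r)
    (hhor : ∀ π : locX A hq hqN Q, Prime π → (∀ m : ℕ, m ≠ 0 → ¬ π ∣ (m : locX A hq hqN Q)) →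
      (∀ r : locX A hq hqN Q, r ≠ 0 → ∃ k : ℕ, ¬ π ^ (k + 1) ∣ r) →
      ∀ k l : ℕ, π ^ k ∣ a → ¬ π ^ (k + 1) ∣ a → π ^ l ∣ b → ¬ π ^ (l + 1) ∣ b →
        k ≡ l [MOD n]) :
    ∀ π : locX A hq hqN Q, Prime π → ∀ k l : ℕ, π ^ k ∣ a → ¬ π ^ (k + 1) ∣ a →
      π ^ l ∣ b → ¬ π ^ (l + 1) ∣ b → k ≡ l [MOD n] := by
  rcases eq_or_lt_of_le (ordAt_nu_nonneg h hA hQ) with hν | hν
  · exact (vertSetting1_locX h hA hν.symm).glue h hA n ha hb g₁ g₁' h₁ hfin hhor
  · exact (vertSetting_locX h hA hQ hν).glue h hA n ha hb g₁ g₁' g₂ g₂' h₁ (h₂ hν) hfin hhor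

end LocXw

end Fermat.Agent.T8.helper48
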