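/-
T8 = row 38 via S44, [SLOPE-X'] ADAPTER (helper9): the open input of the non-split wall,
`helper80.K0CoverStatement` (hence `helper29.SlopeCoverStatement`), from the point contract
`helper9.CovPt` at every finite point.

* `CovPt.k0_two`       : `CovPt.k0` with two classes of good series (shape `helper80.K0CorSheet2`);
* `CovPtStatement`     : at every finite point `Q` of the special fibre there are an order
                         function `ordS` (`helper29.SheetOrd`), a pair of sheets `(i, j)` and a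
                         point `CovPt` of the cover on them with `ordS ν' = ord_Q ν`;
* `k0CoverStatement_of_covPt`    : `CovPtStatement ⟹ helper80.K0CoverStatement`;
* `slopeCoverStatement_of_covPt` : `CovPtStatement ⟹ helper29.SlopeCoverStatement`.
-/
import Mathlib
import Fermat.Agent.T8.helper9_SlopeCover
import Fermat.Agent.T8.helper80_SlopeCoverK0

set_option autoImplicit false
set_option linter.unusedSectionVars false
set_option linter.unusedVariables false
set_option linter.style.longLine false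
set_option linter.style.haveILetI false

noncomputable section

namespace Fermat.Agent.T8.helper9

open HahnSeries IntermediateField AlgebraicCurve ModularCurve
open Fermat.Agent.S18.helper19 Fermat.Agent.P2.helper29 Fermat.Agent.P2.helper93
open Fermat.Agent.T3.helper36 (RhoQ GaussIs)
open Fermat.Agent.T8.helper65 (HasRed GoodClass)
open Fermat.Agent.T8.helper23 (DictModEqStatement covSet dictModEq_cov)
open Fermat.Agent.T8.helper29 (SheetOrd SlopeCoverStatement sh1 sh2)
open Fermat.Agent.T8.helper80 (K0CorSheet2 K0CoverStatement slopeCoverStatement_of_k0)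
open Fermat.Agent.T8.helper88 (CovData Cov)
open Fermat.Agent.T8.helper22 (SheetGood)
open Fermat.Agent.T8.helper86 (IsKummerRoot)

section Two

variable {A : ValuationSubring Kb}
variable {F' : Type*} [Field F'] [Algebra Kb F']
variable {Φ : Set (F' ≃+* F')} {s₁ s₂ : F' →+* LaurentSeries Kb} {T : Subring F'}
  {xx y : T} {Fb : Subfield (LaurentSeries (kA A))} {ordS : LaurentSeries (kA A) → ℤ}
  {ν : LaurentSeries (kA A)} {p : ℕ}

/-- **the K0-corollary at a point of the cover, two classes of good series** (shape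
`helper80.K0CorSheet2`). -/
theorem CovPt.k0_two (h : CovPt Φ s₁ s₂ T xx y Fb ordS ν p) (hp : p.Prime)
    (hA : A.LiesOverPrime p) (hdict : DictModEqStatement Kb F' Φ)
    {Good₁ Good₂ : LaurentSeries A → Prop}
    (hne₁ : ∀ Y : LaurentSeries A, Good₁ Y → red A Y ≠ 0)
    (hne₂ : ∀ Y : LaurentSeries A, Good₂ Y → red A Y ≠ 0)
    {V : F'} (hV : V ≠ 0) (hfix : ∀ g ∈ Φ, g V = V)
    (hdiv : ∀ 𝔓 : Place Kb F', (∀ r : T, 0 ≤ 𝔓.ord (r : F')) → (p : ℤ) ∣ 𝔓.ord V) :
    K0CorSheet2 A Good₁ Good₂ p ordS (ordS ν) (s₁ V) (s₂ V) := by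
  intro c₁ c₂ r₁ r₂ k hc₁ hc₂ hr₁ hr₂ hk hk'
  exact h.k0 hp hA hdict (Good := fun Y => red A Y ≠ 0) (fun Y hY => hY) hV hfix hdiv
    c₁ c₂ r₁ r₂ k hc₁ hc₂ (hr₁.mono hne₁) (hr₂.mono hne₂) hk hk'

end Two

section Adapter

variable {A : ValuationSubring Kb} {N p : ℕ} [NeZero N] [NeZero p]
  {W : FF (N * p) ≃ₐ[Kb] FF (N * p)}
  (D : CovData (N * p) W A p) (hKum : IsKummerRoot p D.K D.Z) (ζ : Kb) (hζp : ζ ^ p = 1)

/-- **the point contract of [SLOPE-X'] at every finite point**: an order function of the point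
of the cover over `Q`, a pair of sheets through it and the local ring `CovPt` of the cover at
it, with `ord ν' = ord_Q ν`. -/
def CovPtStatement (ν : FFb A N) : Prop :=
  ∀ Q : Place (kA A) (FFb A N), 0 ≤ Q.ord (jBar A N) →
    ∃ ordS : LaurentSeries (kA A) → ℤ, SheetOrd A N (SheetGood (N * p) A D.Z) Q ordS ∧
      ∃ (i j : ℕ) (T : Subring (Cov (N * p) D.Z)) (xx y : T)
        (Fb : Subfield (LaurentSeries (kA A))) (ν' : LaurentSeries (kA A)),
        CovPt (covSet D) (sh1 D hKum ζ hζp i) (sh2 D hKum ζ hζp j) T xx y Fb ordS ν' p ∧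
          ordS ν' = Q.ord ν

/-- **`CovPtStatement ⟹ helper80.K0CoverStatement`**. -/
theorem k0CoverStatement_of_covPt (hA : A.LiesOverPrime p)
    {Dv : Divisor Kb (FF (N * p))} (hDv : ∀ v : Place Kb (FF (N * p)), v.ord D.K = p * Dv v)
    (ν : FFb A N) (h : CovPtStatement D hKum ζ hζp ν) : K0CoverStatement D hKum ζ hζp ν := by
  intro U hU hfix hdiv Q hQ
  obtain ⟨ordS, hO, i, j, T, xx, y, Fb, ν', hpt, hν⟩ := h Q hQ
  refine ⟨ordS, hO, i, j, ?_⟩
  rw [← hν]
  refine hpt.k0_two D.hp hA (dictModEq_cov D hKum hDv) (fun Y hY => hY.2) (fun Y hY => hY.2)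
    hU ?_ (fun 𝔓 _ => hdiv 𝔓)
  rintro g ⟨σ, hσ, rfl⟩
  apply Subtype.ext
  rw [CovData.actEquiv_apply, CovData.coe_act]
  exact hfix σ hσ

/-- **`CovPtStatement ⟹ helper29.SlopeCoverStatement`** (the open input of the non-split
wall). -/
theorem slopeCoverStatement_of_covPt (hA : A.LiesOverPrime p)
    {Dv : Divisor Kb (FF (N * p))} (hDv : ∀ v : Place Kb (FF (N * p)), v.ord D.K = p * Dv v)
    (ν : FFb A N) (h : CovPtStatement D hKum ζ hζp ν) :
    SlopeCoverStatement D hKum ζ hζp ν :=
  slopeCoverStatement_of_k0 D hKum ζ hζp hA ν (k0CoverStatement_of_covPt D hKum ζ hζp hA hDv ν h)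

end Adapter

end Fermat.Agent.T8.helper9
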