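/-
T8 = row 38 via S44, cover instance `helper29.CovPtFix`, item (iv) of the field table
(helper22, named second of DECISIONS 11): **`ordS ν' = Q.ord ν`** for `ordS = ordAt Q`,
`Fb = FFb A N`, `ν' = ρR yR` with `ρR = helper16.redL` and `yR = b₀` in `R = locX Q`.

* `rhoQ_b0`             : the first reduction of the unit `b₀` is `iota B`;
* `redL_eq_iota`        : `redL r = iota B` for every `r : locX Q` with `(r : FF) = b₀`;
* `redL_yyLoc`          : the same for `helper48.yyLoc`;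
* `redL_incl_yyX`       : the same for `locXIncl Q (yyX hK)`;
* `redL_ne_zero_of_coe` : `redL r ≠ 0` (hypothesis `hν` of `helper9.covPtHom_loc`);
* `ordAt_redL_eq`       : **`ordAt Q (redL r) = Q.ord ν`** for every first reduction `ν` of `b₀`
                          (`helper54.IsRed1`), the last conjunct of `helper9.CovPtStatement`;
* `ordAt_redL_yyLoc`, `ordAt_iota_eq` : the same for `yyLoc` / for `iota B`;
* `covPtStatement_of_pt`, `covPtStatement_of_pt_redL`, `covPtStatement_of_hom` :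
  `helper9.CovPtStatement` from a point contract at every finite point with
  `ordS = ordAt Q`, `Fb = FFb A N` and `ν' = iota B` (resp. `ν' = redL yR`), the order
  function `SheetOrd` being `helper22.sheetOrd_cov₁`.
-/
import Mathlib
import Fermat.Agent.T8.helper65_SlopeXAll
import Fermat.Agent.T8.helper48_VertLocXw
import Fermat.Agent.T8.helper16_RingXLocal
import Fermat.Agent.T8.helper22_SheetFFb
import Fermat.Agent.T8.helper9_SlopeCoverInst
import Fermat.Agent.T8.helper9_CovPtHom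

set_option autoImplicit false
set_option synthInstance.maxHeartbeats 400000
set_option maxHeartbeats 1000000
set_option linter.unusedSectionVars false
set_option linter.unusedVariables false
set_option linter.style.longLine false
set_option linter.style.haveILetI false

noncomputable section

namespace Fermat.Agent.T8.helper22

open HahnSeries IntermediateField AlgebraicCurve ModularCurve
open Fermat.Agent.S18.helper19 Fermat.Agent.P2.helper29 Fermat.Agent.P2.helper93
open Fermat.Agent.T2.helper36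
open Fermat.Agent.P2.helper66 (iota)
open Fermat.Agent.T3.helper36 (RhoQ GaussIs)
open Fermat.Agent.T3.helper16 (IsUnit0)
open Fermat.Agent.T8.helper16 (ordAt IsFinitePt locX redL ringX locXIncl)
open Fermat.Agent.T8.helper54 (IsRed1)

section Nu

variable {N q : ℕ} [NeZero N] [NeZero q] {A : ValuationSubring Kb} {hq : q.Prime}
  {hqN : ¬ q ∣ N} {b0 : FF (N * q)} {B : PowerSeries ℤ} {ε : ℤ}

/-- the first reduction of the unit `b₀` is `iota B` -/
theorem rhoQ_b0 (h : IsUnit0 hq hqN b0 B ε) :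
    RhoQ A ((b0 : FF (N * q)) : LaurentSeries Kb) (iota (kA A) B) := by
  have := Fermat.Agent.T8.helper65.rhoQ_unit0 (A := A) h
  rwa [inv_one, map_one, one_mul] at this

/-- **the first reduction of `y = b₀` in `locX Q` is `iota B`** -/
theorem redL_eq_iota (h : IsUnit0 hq hqN b0 B ε) (hA : A.LiesOverPrime q)
    (Q : Place (kA A) (FFb A N)) (hQ : IsFinitePt Q) (r : locX A hq hqN Q)
    (hr : (r : FF (N * q)) = b0) : redL hA Q hQ r = iota (kA A) B := by
  have h1 := Fermat.Agent.T8.helper16.rhoQ_redL hA Q hQ r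
  rw [hr] at h1
  exact h1.unique (rhoQ_b0 h)

theorem redL_yyLoc (h : IsUnit0 hq hqN b0 B ε) (hA : A.LiesOverPrime q)
    (Q : Place (kA A) (FFb A N)) (hQ : IsFinitePt Q) :
    redL hA Q hQ (Fermat.Agent.T8.helper48.yyLoc h hA Q) = iota (kA A) B :=
  redL_eq_iota h hA Q hQ _ rfl

/-- the same for `y` as an element of `R⁰` (no `IsUnit0` needed) -/
theorem redL_incl_yyX (hA : A.LiesOverPrime q)
    (hK : Fermat.Agent.T8.helper63.KerRedStatement N q hq hqN A b0 B)
    (Q : Place (kA A) (FFb A N)) (hQ : IsFinitePt Q) :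
    redL hA Q hQ (locXIncl Q (Fermat.Agent.T8.helper16.yyX hK)) = iota (kA A) B := by
  rw [Fermat.Agent.T8.helper16.redL_incl, Fermat.Agent.T8.helper16.red1X_yyX]

/-- the first reduction of `xx = W b₀` in `locX Q` vanishes -/
theorem redL_xxLoc (h : IsUnit0 hq hqN b0 B ε) (hA : A.LiesOverPrime q)
    (Q : Place (kA A) (FFb A N)) (hQ : IsFinitePt Q) (r : locX A hq hqN Q)
    (hr : (r : FF (N * q)) = atkinLehner N q hq hqN b0) : redL hA Q hQ r = 0 := by
  have h1 := Fermat.Agent.T8.helper16.rhoQ_redL hA Q hQ r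
  rw [hr] at h1
  obtain ⟨Y₁, Y₂, hY, h1', -⟩ := Fermat.Agent.T8.helper63.isRX_unitW h A hA
  have hr0 : RhoQ A ((atkinLehner N q hq hqN b0 : FF (N * q)) : LaurentSeries Kb) 0 := by
    have := Fermat.Agent.T3.helper36.rhoQ_incl (A := A) Y₁
    rwa [hY.2.2.1, h1'] at this
  exact h1.unique hr0

theorem redL_ne_zero_of_coe (h : IsUnit0 hq hqN b0 B ε) (hA : A.LiesOverPrime q)
    (Q : Place (kA A) (FFb A N)) (hQ : IsFinitePt Q) (r : locX A hq hqN Q)
    (hr : (r : FF (N * q)) = b0) : redL hA Q hQ r ≠ 0 := by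
  rw [redL_eq_iota h hA Q hQ r hr]
  exact Fermat.Agent.T8.helper63.nu_ne_zero h A

theorem redL_yyLoc_ne_zero (h : IsUnit0 hq hqN b0 B ε) (hA : A.LiesOverPrime q)
    (Q : Place (kA A) (FFb A N)) (hQ : IsFinitePt Q) :
    redL hA Q hQ (Fermat.Agent.T8.helper48.yyLoc h hA Q) ≠ 0 :=
  redL_ne_zero_of_coe h hA Q hQ _ rfl

/-- **item (iv)**: `ord_Q` of `iota B` is `ord_Q ν` for every first reduction `ν` of `b₀` -/
theorem ordAt_iota_eq (h : IsUnit0 hq hqN b0 B ε) {ν : FFb A N} (hν : IsRed1 A N q b0 ν)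
    (Q : Place (kA A) (FFb A N)) : ordAt Q (iota (kA A) B) = Q.ord ν :=
  Fermat.Agent.T8.helper65.ord_nu_eq h hν Q

/-- **item (iv)**: `ordAt Q (redL y) = Q.ord ν` for `y = b₀` in `locX Q` -/
theorem ordAt_redL_eq (h : IsUnit0 hq hqN b0 B ε) (hA : A.LiesOverPrime q)
    {ν : FFb A N} (hν : IsRed1 A N q b0 ν)
    (Q : Place (kA A) (FFb A N)) (hQ : IsFinitePt Q) (r : locX A hq hqN Q)
    (hr : (r : FF (N * q)) = b0) : ordAt Q (redL hA Q hQ r) = Q.ord ν := by
  rw [redL_eq_iota h hA Q hQ r hr]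
  exact ordAt_iota_eq h hν Q

theorem ordAt_redL_yyLoc (h : IsUnit0 hq hqN b0 B ε) (hA : A.LiesOverPrime q)
    {ν : FFb A N} (hν : IsRed1 A N q b0 ν)
    (Q : Place (kA A) (FFb A N)) (hQ : IsFinitePt Q) :
    ordAt Q (redL hA Q hQ (Fermat.Agent.T8.helper48.yyLoc h hA Q)) = Q.ord ν :=
  ordAt_redL_eq h hA hν Q hQ _ rfl

/-- the coercion of `ν` itself -/
theorem ordAt_coe_eq (ν : FFb A N) (Q : Place (kA A) (FFb A N)) :
    ordAt Q (ν : LaurentSeries (kA A)) = Q.ord ν :=
  Fermat.Agent.T8.helper16.ordAt_of_mem Q ν.2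

/-- the first reduction `ν` of `b₀` is a constant multiple of `iota B` -/
theorem exists_const_iota (h : IsUnit0 hq hqN b0 B ε) {ν : FFb A N}
    (hν : IsRed1 A N q b0 ν) :
    ∃ c : kA A, c ≠ 0 ∧ iota (kA A) B =
      algebraMap (kA A) (LaurentSeries (kA A)) c * (ν : LaurentSeries (kA A)) := by
  obtain ⟨hν0, κ, hκ, hρ⟩ := hν
  have hν0' : (ν : LaurentSeries (kA A)) ≠ 0 := fun h0 => hν0 (Subtype.ext h0)
  exact Fermat.Agent.T8.helper29.rhoQ_unique_const hκ one_ne_zero hν0'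
    (Fermat.Agent.T8.helper63.nu_ne_zero h A) hρ (Fermat.Agent.T8.helper65.rhoQ_unit0 h)

end Nu

section Adapter

open Fermat.Agent.T8.helper88 (CovData Cov)
open Fermat.Agent.T8.helper86 (IsKummerRoot)
open Fermat.Agent.T8.helper23 (covSet)
open Fermat.Agent.T8.helper29 (SheetOrd sh1 sh2)
open Fermat.Agent.T8.helper9 (CovPt CovPtHom CovPtStatement)

variable {N p : ℕ} [NeZero N] [NeZero p] {A : ValuationSubring Kb} {hp : p.Prime}
  {hpN : ¬ p ∣ N} {b0 : FF (N * p)} {B : PowerSeries ℤ} {ε : ℤ}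

/-- **`helper9.CovPtStatement` from the point contract at every finite point**, with
`ordS = ordAt Q`, `Fb = FFb A N` and `ν' = iota B` (the first reduction of `y = b₀`). -/
theorem covPtStatement_of_pt (hA : A.LiesOverPrime p) (hb : IsUnit0 hp hpN b0 B ε)
    {ν : FFb A N} (hν : IsRed1 A N p b0 ν)
    (D : CovData (N * p) (atkinLehner N p hp hpN) A p) (hKum : IsKummerRoot p D.K D.Z)
    (ζ : Kb) (hζp : ζ ^ p = 1)
    (hnew : Fermat.Agent.T7.helper27.IsNewN N p D.K) (hr1 : red A D.Z₁ = 1)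
    (hpt : ∀ Q : Place (kA A) (FFb A N), 0 ≤ Q.ord (jBar A N) →
      ∃ (i j : ℕ) (T : Subring (Cov (N * p) D.Z)) (xx y : T),
        CovPt (covSet D) (sh1 D hKum ζ hζp i) (sh2 D hKum ζ hζp j) T xx y (FFb A N).toSubfield
          (ordAt Q) (iota (kA A) B) p) :
    CovPtStatement D hKum ζ hζp ν := by
  intro Q hQ
  obtain ⟨i, j, T, xx, y, h⟩ := hpt Q hQ
  exact ⟨ordAt Q, sheetOrd_cov₁ N p hp hpN hA D hnew hr1 Q, i, j, T, xx, y, (FFb A N).toSubfield,
    iota (kA A) B, h, ordAt_iota_eq hb hν Q⟩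

/-- the same with `ν' = redL yR`, `yR = b₀` in `locX Q` -/
theorem covPtStatement_of_pt_redL (hA : A.LiesOverPrime p) (hb : IsUnit0 hp hpN b0 B ε)
    {ν : FFb A N} (hν : IsRed1 A N p b0 ν)
    (D : CovData (N * p) (atkinLehner N p hp hpN) A p) (hKum : IsKummerRoot p D.K D.Z)
    (ζ : Kb) (hζp : ζ ^ p = 1)
    (hnew : Fermat.Agent.T7.helper27.IsNewN N p D.K) (hr1 : red A D.Z₁ = 1)
    (hpt : ∀ (Q : Place (kA A) (FFb A N)) (hQ : 0 ≤ Q.ord (jBar A N)),
      ∃ (i j : ℕ) (T : Subring (Cov (N * p) D.Z)) (xx y : T) (yR : locX A hp hpN Q),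
        (yR : FF (N * p)) = b0 ∧
        CovPt (covSet D) (sh1 D hKum ζ hζp i) (sh2 D hKum ζ hζp j) T xx y (FFb A N).toSubfield
          (ordAt Q) (redL hA Q hQ yR) p) :
    CovPtStatement D hKum ζ hζp ν := by
  intro Q hQ
  obtain ⟨i, j, T, xx, y, yR, hy, h⟩ := hpt Q hQ
  exact ⟨ordAt Q, sheetOrd_cov₁ N p hp hpN hA D hnew hr1 Q, i, j, T, xx, y, (FFb A N).toSubfield,
    redL hA Q hQ yR, h, ordAt_redL_eq hb hA hν Q hQ yR hy⟩

/-- the same from the contract `helper9.CovPtHom` on a local ring given as a type (transport by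
`CovPtHom.toCovPt`) -/
theorem covPtStatement_of_hom (hA : A.LiesOverPrime p) (hb : IsUnit0 hp hpN b0 B ε)
    {ν : FFb A N} (hν : IsRed1 A N p b0 ν)
    (D : CovData (N * p) (atkinLehner N p hp hpN) A p) (hKum : IsKummerRoot p D.K D.Z)
    (ζ : Kb) (hζp : ζ ^ p = 1)
    (hnew : Fermat.Agent.T7.helper27.IsNewN N p D.K) (hr1 : red A D.Z₁ = 1)
    (hpt : ∀ (Q : Place (kA A) (FFb A N)) (hQ : 0 ≤ Q.ord (jBar A N)),
      ∃ (i j : ℕ) (T₀ : Type) (_ : CommRing T₀) (_ : IsDomain T₀)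
        (ι : T₀ →+* Cov (N * p) D.Z) (xx y : T₀) (yR : locX A hp hpN Q),
        (yR : FF (N * p)) = b0 ∧
        CovPtHom (covSet D) (sh1 D hKum ζ hζp i) (sh2 D hKum ζ hζp j) ι xx y (FFb A N).toSubfield
          (ordAt Q) (redL hA Q hQ yR) p) :
    CovPtStatement D hKum ζ hζp ν := by
  refine covPtStatement_of_pt_redL hA hb hν D hKum ζ hζp hnew hr1 (fun Q hQ => ?_)
  obtain ⟨i, j, T₀, _, _, ι, xx, y, yR, hy, h⟩ := hpt Q hQ
  exact ⟨i, j, ι.range, _, _, yR, hy, h.toCovPt⟩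

end Adapter

end Fermat.Agent.T8.helper22

end
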