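import Fermat.Agent.T8.helper23_CovPtWire
import Fermat.Agent.T8.helper9_CovPtLoc

/-!
# T8 = row 38 via S44, [SLOPE-X'] cover instance, item (i) (helper23): `helper9.covPtHom_loc`
at `R = locX Q` with the inputs `hfixS`, `hfracS`, `hnat`, `hxy` DISCHARGED

`covPtHom_locX` is `helper9.covPtHom_loc` for `R = helper16.locX A hp hpN Q`, `F' = Cov (N p) D.Z`,
`Φ = covSet D`, `jS t = helper97.tGen D ζ`, `xxR`, `yR` any elements of `locX Q` with values
`W b₀`, `b₀`: the four inputs `hfixS`, `hfracS`, `hnat`, `hxy` are proved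
(`helper23_CovPtWire`), the other hypotheses of `covPtHom_loc` are kept VERBATIM.
-/

set_option autoImplicit false
set_option linter.unusedSectionVars false
set_option linter.unusedVariables false
set_option linter.style.longLine false
set_option linter.style.haveILetI false

noncomputable section

namespace Fermat.Agent.T8.helper23

open HahnSeries IntermediateField AlgebraicCurve ModularCurve Polynomial IsLocalRing
open Fermat.Agent.S18.helper19 Fermat.Agent.P2.helper29 Fermat.Agent.P2.helper93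
open Fermat.Agent.T2.helper36
open Fermat.Agent.T3.helper16 (IsUnit0)
open Fermat.Agent.T3.helper36 (RhoQ GaussIs)
open Fermat.Agent.T8.helper16 (ringX locX ringX_le_locX)
open Fermat.Agent.T8.helper88 (CovData Cov)
open Fermat.Agent.T8.helper65 (muFix IA cwAct)
open Fermat.Agent.T8.helper97 (tGen)
open Fermat.Agent.T8.helper33 (IsMonogenic ptIdeal)
open Fermat.Agent.T8.helper9 (Sheet1 CovPtHom covPtHom_loc)

section Inst

variable {N p : ℕ} [NeZero N] [NeZero p] {A : ValuationSubring Kb} {hp : p.Prime}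
  {hpN : ¬ p ∣ N} {b0 : FF (N * p)} {B : PowerSeries ℤ} {ε : ℤ}
  {W : FF (N * p) ≃ₐ[Kb] FF (N * p)}
  [((muFix p ⊓ IA A).subgroupOf (IA A)).FiniteIndex]
  (D : CovData (N * p) W A p) {Q : Place (kA A) (FFb A N)}
  [IsLocalRing (locX A hp hpN Q)] [IsNoetherianRing (locX A hp hpN Q)]
  {S : Type*} [CommRing S] [IsDomain S] [Algebra (locX A hp hpN Q) S]
  {t : S} {f : (locX A hp hpN Q)[X]} {a : locX A hp hpN Q}
  (T₀ : Type*) [CommRing T₀] [Algebra S T₀] [Algebra (locX A hp hpN Q) T₀]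
  [IsScalarTower (locX A hp hpN Q) S T₀]
  [hP : (ptIdeal t a).IsPrime] [IsLocalization.AtPrime T₀ (ptIdeal t a)]
  {s₁ : Cov (N * p) D.Z →+* LaurentSeries Kb} {jS : S →+* Cov (N * p) D.Z}
  {Fb : Subfield (LaurentSeries (kA A))} {ordS : LaurentSeries (kA A) → ℤ}
  {ρR : locX A hp hpN Q →+* LaurentSeries (kA A)}

include hP in
/-- **`helper9.covPtHom_loc` at `R = locX Q`, `Φ = covSet D`, `jS t = tGen D ζ`**, with the
inputs `hfixS`, `hfracS`, `hnat`, `hxy` discharged. -/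
theorem covPtHom_locX (hU : IsUnit0 hp hpN b0 B ε) (hA : A.LiesOverPrime p)
    (hKum : helper86.IsKummerRoot p D.K D.Z) (ζ : Kb) (hζ : IsPrimitiveRoot ζ p) (hp3 : 3 ≤ p)
    (hfix1 : ∀ σ ∈ muFix p ⊓ IA A, cwAct σ (incl A D.Z₁) = incl A D.Z₁)
    (hfix2 : ∀ σ ∈ muFix p ⊓ IA A, cwAct σ (incl A D.Z₂) = incl A D.Z₂)
    (hr1 : red A D.Z₁ = 1) (hr2 : red A D.Z₂ = 1)
    {xxR yR : locX A hp hpN Q}
    (hxx : (xxR : FF (N * p)) = atkinLehner N p hp hpN b0) (hyy : (yR : FF (N * p)) = b0)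
    (h : IsMonogenic t f)
    (ha : f.eval a ∈ maximalIdeal (locX A hp hpN Q))
    (ha' : f.derivative.eval a ∉ maximalIdeal (locX A hp hpN Q))
    (hxxm : xxR ∈ maximalIdeal (locX A hp hpN Q))
    [IsDomain (locX A hp hpN Q ⧸ Ideal.span {xxR})]
    [IsPrincipalIdealRing (locX A hp hpN Q ⧸ Ideal.span {xxR})]
    (s₂ : Cov (N * p) D.Z →+* LaurentSeries Kb)
    (hjS : Function.Injective jS)
    (hjR : ∀ r : locX A hp hpN Q, jS (algebraMap (locX A hp hpN Q) S r) =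
      algebraMap (FF (N * p)) (Cov (N * p) D.Z) (r : FF (N * p)))
    (hjt : jS t = tGen D ζ)
    (ι : T₀ →+* Cov (N * p) D.Z)
    (hι : ∀ s : S, ι (algebraMap S T₀ s) = jS s)
    (H : Sheet1 s₁ jS t a xxR Fb ordS ρR)
    (hmul : ∀ r s : LaurentSeries (kA A), r ∈ Fb → s ∈ Fb → r ≠ 0 → s ≠ 0 →
      ordS (r * s) = ordS r + ordS s)
    (hcm : ∀ c : kA A, c ≠ 0 → ∀ r : LaurentSeries (kA A), r ∈ Fb → r ≠ 0 →
      ordS (algebraMap (kA A) (LaurentSeries (kA A)) c * r) = ordS r)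
    (hν : ρR yR ≠ 0)
    (hy : IsUnit yR ∨ ((∀ x : T₀, ∃ r : LaurentSeries (kA A), RhoQ A (s₂ (ι x)) r) ∧
      (∀ x : T₀, RhoQ A (s₂ (ι x)) 0 → algebraMap (locX A hp hpN Q) T₀ yR ∣ x) ∧
      RhoQ A (s₂ (ι (algebraMap (locX A hp hpN Q) T₀ yR))) 0)) :
    haveI : IsDomain T₀ := IsMonogenic.isDomain_loc (t := t) (a := a) T₀
    CovPtHom (covSet D) s₁ s₂ ι (algebraMap (locX A hp hpN Q) T₀ xxR)
      (algebraMap (locX A hp hpN Q) T₀ yR) Fb ordS (ρR yR) p :=
  covPtHom_loc (T₀ := T₀) h ha ha' hp.ne_zero hxxm (covSet D) s₂ hjS ι hι H hmul hcm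
    (hfixS_tGen D jS hKum ζ hζ hfix1 hjR t h.gen hjt)
    (hfracS_tGen D jS hA hKum ζ hζ hp3 hA hfix1 hfix2 hr1 hr2 hjR t hjt)
    (hnat_locX hA Q) (hxy_locX_of_coe hU Q hxx hyy) hν hy

end Inst

end Fermat.Agent.T8.helper23
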