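import Fermat.Agent.T8.helper29_KRatFinal
import Fermat.Agent.T8.helper22_SheetFFb
import Fermat.Agent.T2.helper74_RootEnd
import Fermat.Agent.T3.helper98_NormRegJ

/-!
# T8 = row 38 via S44, leaf [CONCL] (helper29): the friendliest form of the cover instance

`CovPtRich` is the frontier Prop `CovPtFix` with

* the order function FIXED: `Fb := FFb A N`, `ordS := ordAt Q`, `ν' := ν` (so `SheetOrd` and
  `ordS ν' = ord_Q ν` are no longer to be proved: `helper22.sheetOrd_cov₁`, `ordAt_of_mem`);
* the DERIVED hypotheses added: `3 ≤ p`, `5 ≤ p`, `IsRegJ D.K`, the Kummer property of the second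
  root, a divisor `E` with `div D.K = p E`, `GoodIn` for both sheet fields.

`covPtFix_of_rich : CovPtRich → CovPtFix`,
`nonSplitWall_of_covPtRich π : CovPtRich → helper38.NonSplitWallStatement π wallBN`.
-/

set_option autoImplicit false
set_option linter.unusedSectionVars false
set_option linter.unusedVariables false
set_option linter.style.longLine false
set_option linter.style.haveILetI false

noncomputable section

namespace Fermat.Agent.T8.helper29

open HahnSeries IntermediateField AlgebraicCurve ModularCurve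
open Fermat.Agent.S18.helper19 Fermat.Agent.P2.helper29 Fermat.Agent.P2.helper93
open Fermat.Agent.T2 Fermat.Agent.T2.helper36
open Fermat.Agent.T8.helper54 (IsRed1)
open Fermat.Agent.T8.helper88 (CovData Cov)
open Fermat.Agent.T8.helper22 (SheetGood)
open Fermat.Agent.T8.helper86 (IsKummerRoot)
open Fermat.Agent.T8.helper16 (ordAt)
open Fermat.Agent.T3.helper16 (IsUnit0)
open Fermat.Agent.T3.helper98 (IsRegJ)

variable {A : ValuationSubring Kb}

section Derived

variable {N p : ℕ} [NeZero N] [NeZero p] {hp : p.Prime} {hpN : ¬ p ∣ N}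

/-- a function regular off the two cusps `∞`, `W ∞` is regular where `j` is finite -/
theorem isRegJ_of_isA0One {K : FF (N * p)}
    (h : Fermat.Agent.T2.IsA0One (N * p) (atkinLehner N p hp hpN) A K) : IsRegJ (N * p) K := by
  intro P hP
  have hj0 : jElt (N * p) ≠ 0 := by
    intro h0
    have h1 : ((jElt (N * p) : FF (N * p)) : LaurentSeries Kb).order = -1 := order_jqModC Kb
    rw [h0] at h1
    simp at h1
  refine h.1 P (fun hI => ?_) (fun hI => ?_)
  · have h1 := hI (jElt (N * p)) hj0
    have h2 : ((jElt (N * p) : FF (N * p)) : LaurentSeries Kb).order = -1 := order_jqModC Kb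
    omega
  · have h1 := hI (jElt (N * p)) hj0
    have h2 := Fermat.Agent.T2.helper74.order_atkinLehner_jElt N p hp hpN
    omega

/-- the second root of a cover datum is a Kummer root of `W K` -/
theorem isKummerRoot_second {M : ℕ} [NeZero M] {W : FF M ≃ₐ[Kb] FF M} {p : ℕ}
    (D : CovData M W A p) (hKum : IsKummerRoot p D.K D.Z) :
    IsKummerRoot (F := FF M) (Ω := LaurentSeries Kb) p (W D.K) D.Z' :=
  ⟨hKum.prime, D.h2, fun b hb => hKum.not_pow (W.symm b) (by
    rw [← map_pow, hb, AlgEquiv.symm_apply_apply])⟩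

end Derived

section One

variable {N p : ℕ} [NeZero N] [NeZero p] {hp : p.Prime} {hpN : ¬ p ∣ N}
  (D : CovData (N * p) (atkinLehner N p hp hpN) A p) (hKum : IsKummerRoot p D.K D.Z) (ζ : Kb)
  (hζp : ζ ^ p = 1)

/-- **the point contract with the order function `ordAt Q` on `FFb A N`**: over every closed
point `Q` of the special fibre where `j̄` is finite, a pair of sheets and a local ring of the
cover (`helper9.CovPt`) with `Fb = FFb A N`, `ordS = ordAt Q`, `ν' = ν`. -/
def CovPtOrdStatement (ν : FFb A N) : Prop :=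
  ∀ Q : Place (kA A) (FFb A N), 0 ≤ Q.ord (jBar A N) →
    ∃ (i j : ℕ) (T : Subring (Cov (N * p) D.Z)) (xx y : T),
      Fermat.Agent.T8.helper9.CovPt (A := A) (Fermat.Agent.T8.helper23.covSet D)
        (sh1 D hKum ζ hζp i) (sh2 D hKum ζ hζp j) T xx y (FFb A N).toSubfield (ordAt Q)
        (ν : LaurentSeries (kA A)) p

/-- **`CovPtOrdStatement ⟹ CovPtStatement`** for a new Kummer function. -/
theorem covPtStatement_of_ord (hA : A.LiesOverPrime p)
    (hnew : Fermat.Agent.T7.helper27.IsNewN N p D.K) (hr1 : red A D.Z₁ = 1) (ν : FFb A N)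
    (h : CovPtOrdStatement D hKum ζ hζp ν) : CovPtStatement D hKum ζ hζp ν := by
  intro Q hQ
  obtain ⟨i, j, T, xx, y, hpt⟩ := h Q hQ
  exact ⟨ordAt Q, Fermat.Agent.T8.helper22.sheetOrd_cov₁ N p hp hpN hA D hnew hr1 Q, i, j, T, xx,
    y, (FFb A N).toSubfield, (ν : LaurentSeries (kA A)), hpt,
    Fermat.Agent.T8.helper16.ordAt_of_mem Q ν.2⟩

end One

section Frontier

/-- **the frontier of S44, friendliest form**: `CovPtOrdStatement` at the covers of the new
strongly split Kummer functions with rational roots, with all derived hypotheses. -/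
def CovPtRich : Prop :=
  ∀ (P : FreyPackage) (M' : ℕ) [NeZero M'] (hpN : ¬ P.p ∣ 4 * M')
    (A : ValuationSubring Kb), A.LiesOverPrime P.p →
    (P.p : ℤ) ∣ P.a * P.b * P.c →
    WeierstrassCurve.Affine.Point.GaloisRepIsIrreducible (K := AlgebraicClosure ℚ) ℚ
      P.freyCurve P.p →
    ∀ (b0 : FF (4 * M' * P.p)) (B : PowerSeries ℤ) (ε : ℤ), IsUnit0 P.pp hpN b0 B ε →
    ∀ ν : FFb A (4 * M'), IsRed1 A (4 * M') P.p b0 ν →
    ∀ (D : CovData (4 * M' * P.p) (atkinLehner (4 * M') P.p P.pp hpN) A P.p)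
      (hKum : IsKummerRoot P.p D.K D.Z) (ζ : Kb) (hζp : ζ ^ P.p = 1), IsPrimitiveRoot ζ P.p →
      Fermat.Agent.T7.helper27.StronglySplit (4 * M' * P.p)
        (atkinLehner (4 * M') P.p P.pp hpN) A P.p D.K →
      Fermat.Agent.T7.helper27.IsNewN (4 * M') P.p D.K → red A D.Z₁ = 1 → red A D.Z₂ = 1 →
      RootFix A P.p D.Z₁ → RootFix A P.p D.Z₂ →
      3 ≤ P.p → 5 ≤ P.p → IsRegJ (4 * M' * P.p) D.K →
      IsKummerRoot (F := FF (4 * M' * P.p)) (Ω := LaurentSeries Kb) P.p
        (atkinLehner (4 * M') P.p P.pp hpN D.K) D.Z' →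
      (∃ E : Divisor Kb (FF (4 * M' * P.p)),
        ∀ v : Place Kb (FF (4 * M' * P.p)), v.ord D.K = P.p * E v) →
      GoodIn A (4 * M') (SheetGood (4 * M' * P.p) A D.Z) →
      GoodIn A (4 * M') (SheetGood (4 * M' * P.p) A D.Z') →
      CovPtOrdStatement D hKum ζ hζp ν

theorem covPtFix_of_rich (h : CovPtRich) : CovPtFix := by
  intro P M' _ hpN A hA hdvd hirr b0 B ε hb ν hν D hKum ζ hζp hζ hK hnew hr1 hr2 hf1 hf2
  have hK0 : D.K ≠ 0 := fun h0 => hKum.not_pow 0 (by rw [h0, zero_pow P.pp.ne_zero])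
  haveI : NeZero P.p := ⟨P.pp.ne_zero⟩
  exact covPtStatement_of_ord D hKum ζ hζp hA hnew hr1 ν
    (h P M' hpN A hA hdvd hirr b0 B ε hb ν hν D hKum ζ hζp hζ hK hnew hr1 hr2 hf1 hf2
      (le_trans (by norm_num) P.hp5) P.hp5 (isRegJ_of_isA0One hK.1)
      (isKummerRoot_second D hKum) (exists_divisor_of_dvd hK0 hK.2.1)
      (Fermat.Agent.T8.helper22.goodIn_cov₁ (4 * M') P.p P.pp hpN hA D hnew hr1)
      (Fermat.Agent.T8.helper22.goodIn_cov₂ (4 * M') P.p P.pp hpN hA D hnew hr2))

/-- **the non-split wall from the friendliest form of the cover instance** -/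
theorem nonSplitWall_of_covPtRich (π : Fermat.Agent.T8.helper72.PullData) (h : CovPtRich) :
    Fermat.Agent.T8.helper38.NonSplitWallStatement π wallBN :=
  nonSplitWall_of_covPtFixFinal π (covPtFix_of_rich h)

end Frontier

end Fermat.Agent.T8.helper29

end
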