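import Mathlib
import Fermat.Agent.T8.helper4_SheetS2
import Fermat.Agent.T8.helper16_RingXMirror
import Fermat.Agent.T8.helper97_SheetsInst
import Fermat.Agent.T8.helper29_ConclCover

/-!
# T8 = row 38 via S44, [SLOPE-X'] (helper4): the hypothesis `hy` (`y_case`) of
`helper9.covPtHom_loc` at the local ring `R_Q = helper16.locX Q` of the special fibre

`Q` a finite point of the component `C₁`, `R = locX A hq hqN Q`, `y = b₀`, `xx = W b₀`,
`D` the data of the cover with inertia-fixed roots, `t = helper97.tGen D ζ` the tame trace.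
The setting `(S, t, f, a, T₀, ι, jS)` is ABSTRACT, exactly as in `helper9.covPtHom_loc`:
`S = R[t]` monogenic of degree `q`, `jS : S →+* Cov` the embedding (`jS r = r`, `jS t = tGen`),
`a` a simple root of `f` modulo `𝔪_Q`, `T₀ = S_M`, `ι : T₀ →+* Cov` extending `jS`.

* `isUnit_yy_of_not_pos` : if `ord_Q ν = 0` then `y` is a unit of `R_Q`;
* `yCase_double`         : at a double point (`0 < ord_Q ν`) some sheet `(2, j)`, `j < q`, passes
  through the point: `T₀` is Gauss-integral on it, the reduction kernel is `y T₀`, `y` reduces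
  to `0` (and `y` is prime in `T₀`);
* `yCase_locX`           : the dichotomy, in the shape of the hypothesis `hy` of
  `helper9.covPtHom_loc` (with `s₂ := helper29.sh2 D hKum ζ hζp j`).
-/

set_option autoImplicit false
set_option synthInstance.maxHeartbeats 400000
set_option maxHeartbeats 1000000
set_option linter.unusedSectionVars false
set_option linter.unusedVariables false
set_option linter.style.longLine false
set_option linter.style.haveILetI false

noncomputable section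

open HahnSeries IntermediateField AlgebraicCurve ModularCurve Polynomial
open Fermat.Agent.S18.helper19 Fermat.Agent.P2.helper29 Fermat.Agent.T2.helper36
open Fermat.Agent.S24

namespace Fermat.Agent.T8.helper4

open Fermat.Agent.P2.helper66 (iota)
open Fermat.Agent.T3.helper16 (IsUnit0)
open Fermat.Agent.T3.helper36 (RhoQ GaussIs rhoQ_incl)
open Fermat.Agent.T8.helper63 (IsRX KerRedStatement kerRedStatement)
open Fermat.Agent.T8.helper16
open Fermat.Agent.T8.helper33 (IsMonogenic ptIdeal)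
open Fermat.Agent.T8.helper88 (CovData Cov)
open Fermat.Agent.T8.helper86 (IsKummerRoot)
open Fermat.Agent.T8.helper65 (muFix IA cwAct)

variable {N q : ℕ} [NeZero N] [NeZero q] {A : ValuationSubring Kb} {hq : q.Prime}
  {hqN : ¬ q ∣ N} {b0 : FF (N * q)} {B : PowerSeries ℤ} {ε : ℤ}

/-- any element of `R_Q` with value `b₀` is `y` -/
theorem eq_locXIncl_yyX (hK : KerRedStatement N q hq hqN A b0 B)
    (Q : Place (kA A) (FFb A N)) (yR : locX A hq hqN Q) (hyR : (yR : FF (N * q)) = b0) :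
    yR = locXIncl Q (yyX hK) :=
  Subtype.ext hyR

/-- **the smooth points**: if `ν = red₁ b₀` does not vanish at `Q` then `y = b₀` is a unit of
`R_Q` -/
theorem isUnit_yy_of_not_pos (h : IsUnit0 hq hqN b0 B ε) (hA : A.LiesOverPrime q)
    (Q : Place (kA A) (FFb A N)) (hQ : IsFinitePt Q)
    (hd : ¬ 0 < ordAt Q (iota (kA A) B))
    (yR : locX A hq hqN Q) (hyR : (yR : FF (N * q)) = b0) : IsUnit yR := by
  have hK := kerRedStatement h A hA
  rw [eq_locXIncl_yyX hK Q yR hyR]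
  refine isUnit_locXIncl hA Q hQ ⟨red1X_mem_FFb hA _, ?_, ?_⟩
  · rw [red1X_yyX hK]
    exact Fermat.Agent.T8.helper63.nu_ne_zero h A
  · have h0 := ordAt_redL_nonneg hA Q hQ (locXIncl Q (yyX hK))
    rw [redL_incl, red1X_yyX hK] at h0
    rw [red1X_yyX hK]
    omega

section Double

variable (D : CovData (N * q) (atkinLehner N q hq hqN) A q)
  [((muFix q ⊓ IA A).subgroupOf (IA A)).FiniteIndex]
  (hKum : IsKummerRoot q D.K D.Z) (ζ : Kb) (hζp : ζ ^ q = 1)

/-- the two families of sheets `(2, j)` (helper29 / helper97) are the same maps -/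
theorem sh2_eq_sh2 (hζ : IsPrimitiveRoot ζ q) (j : ℕ) (x : Cov (N * q) D.Z) :
    Fermat.Agent.T8.helper29.sh2 D hKum ζ hζp j x =
      Fermat.Agent.T8.helper97.sh2 D hKum ζ hζ j x := rfl

/-- the sheets `(2, j)` on the base field: `f ↦ W f` -/
theorem sh2_algebraMap (j : ℕ) (g : FF (N * q)) :
    Fermat.Agent.T8.helper29.sh2 D hKum ζ hζp j (algebraMap (FF (N * q)) (Cov (N * q) D.Z) g) =
      ((atkinLehner N q hq hqN g : FF (N * q)) : LaurentSeries Kb) := by
  rw [Fermat.Agent.T8.helper29.sh2_apply, AlgEquiv.commutes, D.sheet2_algebraMap hKum]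

variable {S : Type*} [CommRing S] [IsDomain S] {Q : Place (kA A) (FFb A N)}
  [Algebra (locX A hq hqN Q) S] [IsLocalRing (locX A hq hqN Q)]
  {t : S} {f : (locX A hq hqN Q)[X]} {a : locX A hq hqN Q}
  (T₀ : Type*) [CommRing T₀] [Algebra S T₀] [Algebra (locX A hq hqN Q) T₀]
  [IsScalarTower (locX A hq hqN Q) S T₀]
  [hP : (ptIdeal t a).IsPrime] [IsLocalization.AtPrime T₀ (ptIdeal t a)]

include hP in
/-- **the double points**: some sheet `(2, j)` passes through the etale point of the cover -/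
theorem yCase_double (h : IsUnit0 hq hqN b0 B ε) (hA : A.LiesOverPrime q)
    (hN : 4 ∣ N ∨ 9 ∣ N) (hQ : IsFinitePt Q)
    (hd : 0 < ordAt Q (iota (kA A) B))
    (hζ : IsPrimitiveRoot ζ q) (hq3 : 3 ≤ q)
    (hfix1 : ∀ σ ∈ muFix q ⊓ IA A, cwAct σ (incl A D.Z₁) = incl A D.Z₁)
    (hfix2 : ∀ σ ∈ muFix q ⊓ IA A, cwAct σ (incl A D.Z₂) = incl A D.Z₂)
    (hr1 : red A D.Z₁ = 1) (hr2 : red A D.Z₂ = 1)
    (jS : S →+* Cov (N * q) D.Z)
    (hjR : ∀ r : locX A hq hqN Q, jS (algebraMap (locX A hq hqN Q) S r) =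
      algebraMap (FF (N * q)) (Cov (N * q) D.Z) (r : FF (N * q)))
    (hjt : jS t = Fermat.Agent.T8.helper97.tGen D ζ)
    (hm : IsMonogenic t f) (hdeg : f.natDegree = q)
    (ha : f.eval a ∈ IsLocalRing.maximalIdeal (locX A hq hqN Q))
    (ha' : f.derivative.eval a ∉ IsLocalRing.maximalIdeal (locX A hq hqN Q))
    (ι : T₀ →+* Cov (N * q) D.Z) (hι : ∀ s : S, ι (algebraMap S T₀ s) = jS s)
    (yR : locX A hq hqN Q) (hyR : (yR : FF (N * q)) = b0) :
    ∃ j, j < q ∧
      (∀ x : T₀, ∃ r : LaurentSeries (kA A),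
        RhoQ A (Fermat.Agent.T8.helper29.sh2 D hKum ζ hζp j (ι x)) r) ∧
      (∀ x : T₀, RhoQ A (Fermat.Agent.T8.helper29.sh2 D hKum ζ hζp j (ι x)) 0 →
        algebraMap (locX A hq hqN Q) T₀ yR ∣ x) ∧
      RhoQ A (Fermat.Agent.T8.helper29.sh2 D hKum ζ hζp j
        (ι (algebraMap (locX A hq hqN Q) T₀ yR))) 0 ∧
      Prime (algebraMap (locX A hq hqN Q) T₀ yR) := by
  have hK := kerRedStatement h A hA
  have hyeq := eq_locXIncl_yyX hK Q yR hyR
  haveI : IsNoetherianRing (locX A hq hqN Q) := isNoetherianRing_locX hA Q hQ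
  obtain ⟨hdom, hpid⟩ := dvr_quot_yy h hA hN Q hQ hd yR hyR
  haveI := hdom
  haveI := hpid
  haveI : CharP (kA A) q := Fermat.Agent.P2.helper93.charP_residueField hq hA
  haveI : CharP (LaurentSeries (kA A)) q :=
    charP_of_injective_ringHom
      (f := (HahnSeries.C : kA A →+* LaurentSeries (kA A))) HahnSeries.C_injective q
  obtain ⟨T₁, T₂, -, h2, -, h2'⟩ :=
    Fermat.Agent.T8.helper97.exists_sheet_models D hKum ζ hζ hq3 hA hfix1 hfix2 hr1 hr2
  -- the inputs of `sheet2_point`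
  have e1 : ∀ (j : ℕ) (r : locX A hq hqN Q),
      RhoQ A (((Fermat.Agent.T8.helper29.sh2 D hKum ζ hζp j).comp jS)
        (algebraMap (locX A hq hqN Q) S r)) (red2L h hA Q hQ hd r) := by
    intro j r
    rw [RingHom.comp_apply, hjR, sh2_algebraMap]
    exact rhoQ_red2L h hA Q hQ hd r
  have e2 : ∀ r : locX A hq hqN Q, red2L h hA Q hQ hd r = 0 → yR ∣ r := by
    intro r hr
    rw [hyeq]
    exact (red2L_eq_zero_iff h hA Q hQ hd r).mp hr
  have hρy : red2L h hA Q hQ hd yR = 0 := by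
    rw [red2L_eq_zero_iff h hA Q hQ hd yR, ← hyeq]
  have e3 : ∀ j, j < q → RhoQ A (((Fermat.Agent.T8.helper29.sh2 D hKum ζ hζp j).comp jS) t)
      (red A (T₂ 0) - (j : LaurentSeries (kA A))) := by
    intro j _
    rw [RingHom.comp_apply, hjt, sh2_eq_sh2 D hKum ζ hζp hζ, ← h2 j, ← h2' j]
    exact rhoQ_incl (T₂ j)
  have hym : yR ∈ IsLocalRing.maximalIdeal (locX A hq hqN Q) := by
    rw [IsLocalRing.mem_maximalIdeal, mem_nonunits_iff, hyeq]
    exact not_isUnit_yy hA hK Q hQ hd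
  have hyne : yR ≠ 0 := by
    intro h0
    apply h.ne_zero
    rw [← hyR, h0]
    rfl
  have hwm : locXIncl Q (xxX hK) ∈ IsLocalRing.maximalIdeal (locX A hq hqN Q) := by
    rw [IsLocalRing.mem_maximalIdeal, mem_nonunits_iff]
    exact not_isUnit_xx hA hK Q hQ
  obtain ⟨j, hj, -, hE⟩ := sheet2_point (A := A) T₀ hm ha ha' hym hyne q hq hdeg
    (fun j => (Fermat.Agent.T8.helper29.sh2 D hKum ζ hζp j).comp jS)
    (red2L h hA Q hQ hd) e1 e2 hρy (red A (T₂ 0)) e3
    (locXIncl Q (xxX hK)) hwm (red2L_xx_ne_zero h hA Q hQ hd)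
  obtain ⟨hint, hker, hprime⟩ := hE ((Fermat.Agent.T8.helper29.sh2 D hKum ζ hζp j).comp ι)
    (fun s => by rw [RingHom.comp_apply, RingHom.comp_apply, hι])
  refine ⟨j, hj, hint, hker, ?_, hprime⟩
  have := e1 j yR
  rw [hρy, RingHom.comp_apply] at this
  rw [IsScalarTower.algebraMap_apply (locX A hq hqN Q) S T₀, hι]
  exact this

include hP in
/-- **`y_case` at `R_Q`**, in the shape of the hypothesis `hy` of `helper9.covPtHom_loc`: `y` is a
unit of `R_Q`, or some sheet `(2, j)` passes through the point. -/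
theorem yCase_locX (h : IsUnit0 hq hqN b0 B ε) (hA : A.LiesOverPrime q)
    (hN : 4 ∣ N ∨ 9 ∣ N) (hQ : IsFinitePt Q)
    (hζ : IsPrimitiveRoot ζ q) (hq3 : 3 ≤ q)
    (hfix1 : ∀ σ ∈ muFix q ⊓ IA A, cwAct σ (incl A D.Z₁) = incl A D.Z₁)
    (hfix2 : ∀ σ ∈ muFix q ⊓ IA A, cwAct σ (incl A D.Z₂) = incl A D.Z₂)
    (hr1 : red A D.Z₁ = 1) (hr2 : red A D.Z₂ = 1)
    (jS : S →+* Cov (N * q) D.Z)
    (hjR : ∀ r : locX A hq hqN Q, jS (algebraMap (locX A hq hqN Q) S r) =
      algebraMap (FF (N * q)) (Cov (N * q) D.Z) (r : FF (N * q)))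
    (hjt : jS t = Fermat.Agent.T8.helper97.tGen D ζ)
    (hm : IsMonogenic t f) (hdeg : f.natDegree = q)
    (ha : f.eval a ∈ IsLocalRing.maximalIdeal (locX A hq hqN Q))
    (ha' : f.derivative.eval a ∉ IsLocalRing.maximalIdeal (locX A hq hqN Q))
    (ι : T₀ →+* Cov (N * q) D.Z) (hι : ∀ s : S, ι (algebraMap S T₀ s) = jS s)
    (yR : locX A hq hqN Q) (hyR : (yR : FF (N * q)) = b0) :
    ∃ j, j < q ∧ (IsUnit yR ∨
      ((∀ x : T₀, ∃ r : LaurentSeries (kA A),
        RhoQ A (Fermat.Agent.T8.helper29.sh2 D hKum ζ hζp j (ι x)) r) ∧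
      (∀ x : T₀, RhoQ A (Fermat.Agent.T8.helper29.sh2 D hKum ζ hζp j (ι x)) 0 →
        algebraMap (locX A hq hqN Q) T₀ yR ∣ x) ∧
      RhoQ A (Fermat.Agent.T8.helper29.sh2 D hKum ζ hζp j
        (ι (algebraMap (locX A hq hqN Q) T₀ yR))) 0)) := by
  by_cases hd : 0 < ordAt Q (iota (kA A) B)
  · obtain ⟨j, hj, h1, h2, h3, -⟩ := yCase_double D hKum ζ hζp T₀ h hA hN hQ hd hζ hq3
      hfix1 hfix2 hr1 hr2 jS hjR hjt hm hdeg ha ha' ι hι yR hyR
    exact ⟨j, hj, Or.inr ⟨h1, h2, h3⟩⟩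
  · exact ⟨0, hq.pos, Or.inl (isUnit_yy_of_not_pos h hA Q hQ hd yR hyR)⟩

end Double

end Fermat.Agent.T8.helper4

end
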