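/-
T8 = row 38 via S44, THE COVER INSTANCE (helper22, twin assembler of BOARD 13:00Z):
`helper29.CovPtFix`, hypothesis-free.

Assembly of the pieces on main:
* `helper97.exists_sheets_poly`         : the Artin - Schreier polynomial `f₀ ∈ R⁰[X]` of the tame
                                          trace `t = tGen D ζ`;
* `helper6.isMonogenic_of_base`         : `S = R_Q[t] ⊆ Cov` is monogenic for `f₀`;
* `helper16.sheet1_cov`                 : the first sheet at the point (with the lift `a`);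
* `helper4.yCase_locX`                  : the second sheet at the point;
* `helper23.covPtHom_locX`              : the contract `helper9.CovPtHom` on `T₀ = S_M`;
* `helper22.covPtStatement_of_hom`      : transport + order function + `ordS ν' = ord_Q ν`.
-/
import Mathlib
import Fermat.Agent.T8.helper22_OrdNu
import Fermat.Agent.T8.helper23_CovPtWire2
import Fermat.Agent.T8.helper16_CovSheet1
import Fermat.Agent.T8.helper4_YCaseInst
import Fermat.Agent.T8.helper6_SheetsLocal
import Fermat.Agent.T8.helper6_QuotYInst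
import Fermat.Agent.T8.helper16_RingXMirror
import Fermat.Agent.T8.helper97_SheetsGen
import Fermat.Agent.T8.helper97_SheetsRingX
import Fermat.Agent.T8.helper29_CovPtOrd
import Fermat.Agent.T8.helper65_NormIdx

set_option autoImplicit false
set_option synthInstance.maxHeartbeats 400000
set_option maxHeartbeats 2000000
set_option linter.unusedSectionVars false
set_option linter.unusedVariables false
set_option linter.style.longLine false
set_option linter.style.haveILetI false

noncomputable section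

namespace Fermat.Agent.T8.helper22

open HahnSeries IntermediateField AlgebraicCurve ModularCurve Polynomial
open Fermat.Agent.S18.helper19 Fermat.Agent.P2.helper29 Fermat.Agent.P2.helper93
open Fermat.Agent.T2.helper36
open Fermat.Agent.P2.helper66 (iota)
open Fermat.Agent.T3.helper36 (RhoQ GaussIs)
open Fermat.Agent.T3.helper16 (IsUnit0)
open Fermat.Agent.T3.helper98 (IsRegJ)
open Fermat.Agent.T8.helper16 (ordAt IsFinitePt locX redL ringX locXIncl)
open Fermat.Agent.T8.helper54 (IsRed1)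
open Fermat.Agent.T8.helper88 (CovData Cov)
open Fermat.Agent.T8.helper86 (IsKummerRoot)
open Fermat.Agent.T8.helper23 (covSet)
open Fermat.Agent.T8.helper29 (SheetOrd sh1 sh2)
open Fermat.Agent.T8.helper9 (CovPt CovPtHom CovPtStatement)
open Fermat.Agent.T8.helper65 (muFix IA cwAct)
open Fermat.Agent.T8.helper97 (tGen SheetsPoly phiX)
open Fermat.Agent.T8.helper33 (IsMonogenic ptIdeal)

section Inst

variable {N p : ℕ} [NeZero N] [NeZero p] {A : ValuationSubring Kb} {hp : p.Prime}
  {hpN : ¬ p ∣ N} {b0 : FF (N * p)} {B : PowerSeries ℤ} {ε : ℤ}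

section Setup

variable (D : CovData (N * p) (atkinLehner N p hp hpN) A p)
  [((muFix p ⊓ IA A).subgroupOf (IA A)).FiniteIndex] (ζ : Kb) (Q : Place (kA A) (FFb A N))

/-- the ring `S = R_Q[t] ⊆ Cov`, `t` the tame trace -/
abbrev covS : Subalgebra (locX A hp hpN Q) (Cov (N * p) D.Z) :=
  Algebra.adjoin (locX A hp hpN Q) {tGen D ζ}

/-- the generator `t` of `S` -/
abbrev covT : covS D ζ Q :=
  ⟨tGen D ζ, Algebra.self_mem_adjoin_singleton (locX A hp hpN Q) (tGen D ζ)⟩

/-- the embedding of `S` into the cover -/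
abbrev covJ : covS D ζ Q →+* Cov (N * p) D.Z := (covS D ζ Q).val.toRingHom

theorem covJ_injective : Function.Injective (covJ D ζ Q) := Subtype.val_injective

theorem covJ_algebraMap (r : locX A hp hpN Q) :
    covJ D ζ Q (algebraMap (locX A hp hpN Q) (covS D ζ Q) r) =
      algebraMap (FF (N * p)) (Cov (N * p) D.Z) (r : FF (N * p)) := rfl

theorem covJ_covT : covJ D ζ Q (covT D ζ Q) = tGen D ζ := rfl

end Setup

/-- **the point contract of the cover at every finite point** (`helper9.CovPtStatement`) for a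
cover datum with new Kummer function, regular off the cusps, with rational roots. -/
theorem covPtStatement_inst (hb : IsUnit0 hp hpN b0 B ε) (hA : A.LiesOverPrime p)
    (hN : 4 ∣ N ∨ 9 ∣ N) (hp3 : 3 ≤ p) {ν : FFb A N} (hν : IsRed1 A N p b0 ν)
    (D : CovData (N * p) (atkinLehner N p hp hpN) A p) (hKum : IsKummerRoot p D.K D.Z)
    (ζ : Kb) (hζ : IsPrimitiveRoot ζ p) (hK : IsRegJ (N * p) D.K)
    (hnew : Fermat.Agent.T7.helper27.IsNewN N p D.K)
    (hr1 : red A D.Z₁ = 1) (hr2 : red A D.Z₂ = 1)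
    (hfix1 : ∀ σ ∈ muFix p ⊓ IA A, cwAct σ (incl A D.Z₁) = incl A D.Z₁)
    (hfix2 : ∀ σ ∈ muFix p ⊓ IA A, cwAct σ (incl A D.Z₂) = incl A D.Z₂) :
    CovPtStatement D hKum ζ hζ.pow_eq_one ν := by
  haveI : Fact p.Prime := ⟨hp⟩
  haveI : ((muFix p ⊓ IA A).subgroupOf (IA A)).FiniteIndex :=
    Fermat.Agent.T8.helper65.finiteIndex_muFix (p := p) A hA
  obtain ⟨f₀, c₁, c₂, hf⟩ :=
    Fermat.Agent.T8.helper97.exists_sheets_poly D hKum ζ hζ hp3 hA hK hfix1 hfix2 hr1 hr2
  refine covPtStatement_of_hom hA hb hν D hKum ζ hζ.pow_eq_one hnew hr1 (fun Q hQ => ?_)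
  haveI : IsLocalRing (locX A hp hpN Q) := Fermat.Agent.T8.helper16.isLocalRing_locX hA Q hQ
  haveI : IsNoetherianRing (locX A hp hpN Q) :=
    Fermat.Agent.T8.helper16.isNoetherianRing_locX hA Q hQ
  -- the monogenic extension `S = R_Q[t]`
  have hinj : Function.Injective (algebraMap (locX A hp hpN Q) (FF (N * p))) :=
    Subtype.val_injective
  have hroot : aeval (tGen D ζ) (f₀.map (locXIncl Q)) = 0 := by
    rw [aeval_def, eval₂_map]
    exact hf.eval_tGen
  have hdeg : f₀.natDegree ≤ (minpoly (FF (N * p)) (tGen D ζ)).natDegree := by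
    rw [hf.natDegree,
      Fermat.Agent.T8.helper97.natDegree_minpoly_tGen D hKum ζ hζ hp3 hA hfix1 hfix2 hr1 hr2]
  have hmono : IsMonogenic (covT D ζ Q) (f₀.map (locXIncl Q)) :=
    Fermat.Agent.T8.helper6.isMonogenic_of_base (K := FF (N * p))
      (L := Cov (N * p) D.Z) (locXIncl Q) hinj (tGen D ζ) f₀ hf.monic hroot hdeg
  have hdeg' : (f₀.map (locXIncl Q : ringX A hp hpN →+* locX A hp hpN Q)).natDegree = p := by
    rw [hf.monic.natDegree_map, hf.natDegree]
  -- the first sheet
  obtain ⟨a, H, ha, ha'⟩ := Fermat.Agent.T8.helper16.sheet1_cov D hKum ζ hζ hb hA hN hp3 hnew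
    hfix1 hfix2 hr1 hr2 Q hQ (covJ D ζ Q) (covJ_algebraMap D ζ Q) (covT D ζ Q)
    (covJ_covT D ζ Q) hf (Fermat.Agent.T8.helper48.xxLoc hb hA Q) rfl
  haveI hP : (ptIdeal (covT D ζ Q) a).IsPrime := (hmono.ptIdeal_isMaximal a ha).isPrime
  -- the local ring of the cover at the point and its embedding
  have hunits : ∀ y : (ptIdeal (covT D ζ Q) a).primeCompl,
      IsUnit (covJ D ζ Q (y : covS D ζ Q)) := by
    intro y
    rw [isUnit_iff_ne_zero]
    intro h0
    have h1 : (y : covS D ζ Q) = 0 := covJ_injective D ζ Q (h0.trans (map_zero _).symm)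
    exact y.2 (by rw [h1]; exact Ideal.zero_mem _)
  have hι : ∀ s : covS D ζ Q,
      (IsLocalization.lift (M := (ptIdeal (covT D ζ Q) a).primeCompl)
        (S := Localization.AtPrime (ptIdeal (covT D ζ Q) a)) hunits)
        (algebraMap (covS D ζ Q) (Localization.AtPrime (ptIdeal (covT D ζ Q) a)) s) =
      covJ D ζ Q s :=
    fun s => IsLocalization.lift_eq _ s
  -- the regular parameter `xx`
  obtain ⟨hdom, hpid⟩ := Fermat.Agent.T8.helper16.dvr_quot_xx hb hA hN Q hQ
    (Fermat.Agent.T8.helper48.xxLoc hb hA Q) rfl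
  haveI := hdom
  haveI := hpid
  have hxxm := Fermat.Agent.T8.helper6.xxLoc_mem_maximalIdeal (A := A) hb hA hQ
  -- the second sheet
  obtain ⟨j, hj, hy⟩ := Fermat.Agent.T8.helper4.yCase_locX D hKum ζ hζ.pow_eq_one
    (Localization.AtPrime (ptIdeal (covT D ζ Q) a))
    hb hA hN hQ hζ hp3 hfix1 hfix2 hr1 hr2 (covJ D ζ Q) (covJ_algebraMap D ζ Q)
    (covJ_covT D ζ Q) hmono hdeg' ha ha' _ hι
    (Fermat.Agent.T8.helper48.yyLoc hb hA Q) rfl
  -- the contract
  have hpt := Fermat.Agent.T8.helper23.covPtHom_locX D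
    (Localization.AtPrime (ptIdeal (covT D ζ Q) a))
    hb hA hKum ζ hζ hp3 hfix1 hfix2 hr1 hr2
    (xxR := Fermat.Agent.T8.helper48.xxLoc hb hA Q)
    (yR := Fermat.Agent.T8.helper48.yyLoc hb hA Q) rfl rfl hmono ha ha' hxxm
    (sh2 D hKum ζ hζ.pow_eq_one j) (covJ_injective D ζ Q) (covJ_algebraMap D ζ Q)
    (covJ_covT D ζ Q) _ hι H
    (fun _ _ hr hs hr0 hs0 => Fermat.Agent.T8.helper16.ordAt_mul Q hr hs hr0 hs0)
    (fun _ hc _ hr _ => Fermat.Agent.T8.helper65.ordAt_const_mul Q hc hr)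
    (redL_yyLoc_ne_zero hb hA Q hQ) hy
  exact ⟨0, j, Localization.AtPrime (ptIdeal (covT D ζ Q) a), inferInstance,
    IsMonogenic.isDomain_loc (t := covT D ζ Q) (a := a) _, IsLocalization.lift hunits, _, _,
    Fermat.Agent.T8.helper48.yyLoc hb hA Q, rfl, hpt⟩

end Inst

/-- **THE COVER INSTANCE: `helper29.CovPtFix`, hypothesis-free.** -/
theorem covPtFix22 : Fermat.Agent.T8.helper29.CovPtFix := by
  intro P M' _ hpN A hA hdvd hirr b0 B ε hb ν hν D hKum ζ hζp hζ hK hnew hr1 hr2 hf1 hf2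
  haveI : NeZero P.p := ⟨P.pp.ne_zero⟩
  exact covPtStatement_inst hb hA (Or.inl (Dvd.intro M' rfl)) (le_trans (by norm_num) P.hp5)
    hν D hKum ζ hζ (Fermat.Agent.T8.helper29.isRegJ_of_isA0One hK.1) hnew hr1 hr2 hf1 hf2

end Fermat.Agent.T8.helper22

end
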