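import Fermat.Agent.T8.helper23_DictTame
import Fermat.Agent.T8.helper48_VertLocXw

/-!
# T8 = row 38 via S44, [SLOPE-X'] cover instance, item (i) (helper23): the inputs
`hfixS`, `hfracS`, `hnat`, `hxy` of `helper9.covPtHom_loc` at `R = locX Q`

Level `N p`, `A` over `p`, `D : helper88.CovData (N p) W A p`, `F' = Cov (N p) D.Z`,
`Φ = covSet D` (the inertia action on the cover), `R = helper16.locX A hp hpN Q`.

`S` is ANY commutative ring with an `R`-algebra structure, generated over `R` by one element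
`t` (`Algebra.adjoin R {t} = ⊤`, e.g. `helper33.IsMonogenic.gen`), with a ring homomorphism
`jS : S →+* F'` which is the canonical map on `R` (`hjR`).

* `hfixS_wire`  : if `jS t` is inertia-fixed, every `jS s` is inertia-fixed;
* `hfracS_wire` : if moreover `F⟮jS t⟯ = ⊤`, every inertia-fixed element of the cover is
                  `jS a / jS b`;
* `hfixS_tGen`, `hfracS_tGen` : the instance `jS t = helper97.tGen D ζ` (hypotheses: the rational
                  roots `hfix1`, `hfix2`, `red = 1`, `3 ≤ p`);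
* `hnat_locX`   : the integers prime to `p` are units of `locX Q`;
* `hxy_locX`    : `xx * y = ε' * p` with a unit `ε'` of `locX Q` (`xx = helper48.xxLoc`,
                  `y = helper48.yyLoc`);
* `hxy_locX_of_coe` : the same for any two elements of `locX Q` with values `W b₀`, `b₀`.
-/

set_option autoImplicit false
set_option linter.unusedSectionVars false
set_option linter.unusedVariables false
set_option linter.style.longLine false

noncomputable section

namespace Fermat.Agent.T8.helper23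

open HahnSeries IntermediateField AlgebraicCurve ModularCurve
open Fermat.Agent.S18.helper19 Fermat.Agent.P2.helper29 Fermat.Agent.P2.helper93
open Fermat.Agent.T2.helper36
open Fermat.Agent.T3.helper16 (IsUnit0)
open Fermat.Agent.T8.helper16 (ringX locX ringX_le_locX)
open Fermat.Agent.T8.helper88 (CovData Cov)
open Fermat.Agent.T8.helper65 (muFix IA cwAct)
open Fermat.Agent.T8.helper97 (tGen)
open Fermat.Agent.T8.helper48 (xxLoc yyLoc)

section Wire

variable {N q : ℕ} [NeZero N] [NeZero q] {A : ValuationSubring Kb} {hq : q.Prime}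
  {hqN : ¬ q ∣ N} {W : FF (N * q) ≃ₐ[Kb] FF (N * q)} {p : ℕ}
  (D : CovData (N * q) W A p) {Q : Place (kA A) (FFb A N)}
  {S : Type*} [CommRing S] [Algebra (locX A hq hqN Q) S]
  (jS : S →+* Cov (N * q) D.Z)

/-- **`hfixS`**: the elements of `S = R[t]` are inertia-fixed in the cover. -/
theorem hfixS_wire
    (hjR : ∀ r : locX A hq hqN Q, jS (algebraMap (locX A hq hqN Q) S r) =
      algebraMap (FF (N * q)) (Cov (N * q) D.Z) (r : FF (N * q)))
    (t : S) (hgenS : Algebra.adjoin (locX A hq hqN Q) {t} = ⊤)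
    (htfix : ∀ g ∈ covSet D, g (jS t) = jS t) :
    ∀ s : S, ∀ g ∈ covSet D, g (jS s) = jS s := by
  intro s g hg
  have hs : s ∈ Algebra.adjoin (locX A hq hqN Q) {t} := by
    rw [hgenS]
    exact Algebra.mem_top
  induction hs using Algebra.adjoin_induction with
  | mem x hx =>
      rw [Set.mem_singleton_iff] at hx
      subst hx
      exact htfix g hg
  | algebraMap r =>
      obtain ⟨σ, hσ, hc⟩ := covSet_compat D g hg
      rw [hjR, hc]
      congr 1
      exact hfix_locX Q r.2 σ hσ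
  | add x y _ _ hx hy => rw [map_add, map_add, hx, hy]
  | mul x y _ _ hx hy => rw [map_mul, map_mul, hx, hy]

/-- **`hfracS`**: every inertia-fixed element of the cover is a quotient of elements of
`S = R[t]`. -/
theorem hfracS_wire (hA : A.LiesOverPrime q)
    (hjR : ∀ r : locX A hq hqN Q, jS (algebraMap (locX A hq hqN Q) S r) =
      algebraMap (FF (N * q)) (Cov (N * q) D.Z) (r : FF (N * q)))
    (t : S) (hgen : (FF (N * q))⟮jS t⟯ = ⊤)
    (htfix : ∀ g ∈ covSet D, g (jS t) = jS t) :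
    ∀ f' : Cov (N * q) D.Z, (∀ g ∈ covSet D, g f' = f') →
      ∃ a b : S, b ≠ 0 ∧ f' * jS b = jS a := by
  intro f' hf'
  obtain ⟨a', ⟨a, rfl⟩, b', ⟨b, rfl⟩, hb0, e⟩ :=
    hfrac_covRing (hq := hq) (hqN := hqN) hA D (jS t) hgen htfix jS.range
      (fun r hr => ⟨algebraMap (locX A hq hqN Q) S ⟨r, ringX_le_locX Q hr⟩, hjR _⟩)
      ⟨t, rfl⟩ f' hf'
  refine ⟨a, b, ?_, e⟩
  rintro rfl
  exact hb0 (map_zero jS)

end Wire

section TGen

variable {N q : ℕ} [NeZero N] [NeZero q] {A : ValuationSubring Kb} {hq : q.Prime}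
  {hqN : ¬ q ∣ N} {W : FF (N * q) ≃ₐ[Kb] FF (N * q)} {p : ℕ}
  [((muFix p ⊓ IA A).subgroupOf (IA A)).FiniteIndex]
  (D : CovData (N * q) W A p) {Q : Place (kA A) (FFb A N)}
  {S : Type*} [CommRing S] [Algebra (locX A hq hqN Q) S]
  (jS : S →+* Cov (N * q) D.Z)

/-- **`hfixS` at the tame trace** -/
theorem hfixS_tGen (hKum : helper86.IsKummerRoot p D.K D.Z) (ζ : Kb)
    (hζ : IsPrimitiveRoot ζ p)
    (hfix1 : ∀ σ ∈ muFix p ⊓ IA A, cwAct σ (incl A D.Z₁) = incl A D.Z₁)
    (hjR : ∀ r : locX A hq hqN Q, jS (algebraMap (locX A hq hqN Q) S r) =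
      algebraMap (FF (N * q)) (Cov (N * q) D.Z) (r : FF (N * q)))
    (t : S) (hgenS : Algebra.adjoin (locX A hq hqN Q) {t} = ⊤) (hjt : jS t = tGen D ζ) :
    ∀ s : S, ∀ g ∈ covSet D, g (jS s) = jS s :=
  hfixS_wire D jS hjR t hgenS (by rw [hjt]; exact tGen_fix D hKum ζ hζ hfix1)

/-- **`hfracS` at the tame trace** -/
theorem hfracS_tGen (hAq : A.LiesOverPrime q) (hKum : helper86.IsKummerRoot p D.K D.Z)
    (ζ : Kb) (hζ : IsPrimitiveRoot ζ p) (hp3 : 3 ≤ p) (hA : A.LiesOverPrime p)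
    (hfix1 : ∀ σ ∈ muFix p ⊓ IA A, cwAct σ (incl A D.Z₁) = incl A D.Z₁)
    (hfix2 : ∀ σ ∈ muFix p ⊓ IA A, cwAct σ (incl A D.Z₂) = incl A D.Z₂)
    (hr1 : red A D.Z₁ = 1) (hr2 : red A D.Z₂ = 1)
    (hjR : ∀ r : locX A hq hqN Q, jS (algebraMap (locX A hq hqN Q) S r) =
      algebraMap (FF (N * q)) (Cov (N * q) D.Z) (r : FF (N * q)))
    (t : S) (hjt : jS t = tGen D ζ) :
    ∀ f' : Cov (N * q) D.Z, (∀ g ∈ covSet D, g f' = f') →
      ∃ a b : S, b ≠ 0 ∧ f' * jS b = jS a :=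
  hfracS_wire D jS hAq hjR t
    (by rw [hjt]; exact adjoin_tGen D hKum ζ hζ hp3 hA hfix1 hfix2 hr1 hr2)
    (by rw [hjt]; exact tGen_fix D hKum ζ hζ hfix1)

end TGen

section LocX

variable {N q : ℕ} [NeZero N] [NeZero q] {A : ValuationSubring Kb} {hq : q.Prime}
  {hqN : ¬ q ∣ N} {b0 : FF (N * q)} {B : PowerSeries ℤ} {ε : ℤ}

/-- **`hnat`**: the integers prime to `q` are units of `locX Q`. -/
theorem hnat_locX (hA : A.LiesOverPrime q) (Q : Place (kA A) (FFb A N)) :
    ∀ m : ℕ, m.Coprime q → IsUnit ((m : ℕ) : locX A hq hqN Q) := by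
  intro m hm
  obtain ⟨Y₁, Y₂, hY⟩ :=
    Fermat.Agent.T8.helper48.isRX_inv_natCast (N := N) (A := A) hq hqN hA m hm
  have hmem : (((m : ℕ) : FF (N * q)))⁻¹ ∈ locX A hq hqN Q := ringX_le_locX Q ⟨Y₁, Y₂, hY⟩
  have hm0 : ((m : ℕ) : FF (N * q)) ≠ 0 := by
    have h1 : m ≠ 0 := by
      rintro rfl
      rw [Nat.coprime_zero_left] at hm
      exact hq.one_lt.ne' hm
    exact Nat.cast_ne_zero.mpr h1
  refine IsUnit.of_mul_eq_one (⟨_, hmem⟩ : locX A hq hqN Q) ?_
  apply Subtype.ext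
  show (((m : ℕ) : locX A hq hqN Q) : FF (N * q)) * (((m : ℕ) : FF (N * q)))⁻¹ = 1
  rw [show (((m : ℕ) : locX A hq hqN Q) : FF (N * q)) = ((m : ℕ) : FF (N * q)) from
    map_natCast (locX A hq hqN Q).subtype m]
  exact mul_inv_cancel₀ hm0

/-- the sign `ε = ± 1` is a unit of `locX Q` -/
theorem isUnit_sign_locX (h : IsUnit0 hq hqN b0 B ε) (Q : Place (kA A) (FFb A N)) :
    IsUnit ((ε : ℤ) : locX A hq hqN Q) := by
  rcases h.sign with rfl | rfl
  · simp
  · simp

/-- **`hxy`**: `xx * y = ε' * q` with a unit `ε'` of `locX Q`. -/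
theorem hxy_locX (h : IsUnit0 hq hqN b0 B ε) (hA : A.LiesOverPrime q)
    (Q : Place (kA A) (FFb A N)) :
    ∃ ε' : (locX A hq hqN Q)ˣ,
      xxLoc h hA Q * yyLoc h hA Q = (ε' : locX A hq hqN Q) * ((q : ℕ) : locX A hq hqN Q) := by
  obtain ⟨u, hu⟩ := isUnit_sign_locX (A := A) h Q
  exact ⟨u, by rw [hu]; exact Fermat.Agent.T8.helper48.xx_mul_yy_locX h hA Q⟩

/-- **`hxy`** for any two elements of `locX Q` with values `W b₀` and `b₀`. -/
theorem hxy_locX_of_coe (h : IsUnit0 hq hqN b0 B ε) (Q : Place (kA A) (FFb A N))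
    {xxR yR : locX A hq hqN Q} (hxx : (xxR : FF (N * q)) = atkinLehner N q hq hqN b0)
    (hy : (yR : FF (N * q)) = b0) :
    ∃ ε' : (locX A hq hqN Q)ˣ, xxR * yR = (ε' : locX A hq hqN Q) * ((q : ℕ) : locX A hq hqN Q) := by
  obtain ⟨u, hu⟩ := isUnit_sign_locX (A := A) h Q
  refine ⟨u, ?_⟩
  rw [hu]
  apply Subtype.ext
  show (xxR : FF (N * q)) * (yR : FF (N * q)) =
    (((ε : ℤ) : locX A hq hqN Q) : FF (N * q)) * (((q : ℕ) : locX A hq hqN Q) : FF (N * q))
  rw [hxx, hy, h.al, map_mul, map_intCast, map_natCast]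
  simp

end LocX

end Fermat.Agent.T8.helper23
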