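import Fermat.Agent.T8.helper23_Unram

/-!
# T8 (row 38, at risk), [RING-X] DICTIONARY (helper23): horizontal primes give places

`dict_of_setting : DictSetting K F Φ → DictStatement K F Φ` and the consumer form
`dictModEq_of_setting : DictSetting K F Φ → DictModEqStatement K F Φ`
(contracts of `helper23_DictContract`).

For a subring `R` of `Φ`-fixed functions with `Frac R = F^Φ` and a horizontal prime element `π`
of `R` with finite multiplicities: a valuation subring `V` of `F` dominating the localisation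
`R_(π)` contains the constants and is `≠ ⊤`, so it is a place `𝔓` (D5); `ord_𝔓 = e · mult_π` on
`R`, `e = ord_𝔓 π > 0`, and `e = 1` by `unram`.
-/

set_option autoImplicit false
set_option linter.unusedSectionVars false
set_option linter.style.longLine false

noncomputable section

namespace Fermat.Agent.T8.helper23

open AlgebraicCurve
open Fermat.Agent.T6.helper26

section Dict

variable {K F : Type*} [Field K] [Field F] [Algebra K F]

/-- exact multiplicity exists (finite multiplicity). -/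
theorem exists_exact_mult {R : Type*} [CommRing R] (π r : R)
    (h : ∃ k : ℕ, ¬ π ^ (k + 1) ∣ r) :
    ∃ k : ℕ, π ^ k ∣ r ∧ ¬ π ^ (k + 1) ∣ r := by
  classical
  refine ⟨Nat.find h, ?_, Nat.find_spec h⟩
  rcases Nat.eq_zero_or_pos (Nat.find h) with h0 | hpos
  · rw [h0, pow_zero]
    exact one_dvd _
  · have hlt : Nat.find h - 1 < Nat.find h := by omega
    have := Nat.find_min h hlt
    rw [not_not] at this
    have e : Nat.find h - 1 + 1 = Nat.find h := by omega
    rwa [e] at this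

/-- The place attached to a prime element `π` of a subring `R` of `F` in which no integer
`n ≠ 0` is divisible by `π`: `ord_𝔓 = e · mult_π` on `R` with `e = ord_𝔓 π > 0`. -/
theorem exists_place_of_prime_elt
    (hd5 : ∀ V : ValuationSubring F, (∀ a : K, algebraMap K F a ∈ V) → V ≠ ⊤ →
      ∃ 𝔓 : Place K F, 𝔓.toValuationSubring = V)
    (hconst : ∀ V : ValuationSubring F, (∀ n : ℕ, n ≠ 0 → ((n : F))⁻¹ ∈ V) →
      ∀ c : K, algebraMap K F c ∈ V)
    (R : Subring F) (π : R) (hπ : Prime π) (hchar : ∀ n : ℕ, n ≠ 0 → ¬ π ∣ (n : R)) :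
    ∃ 𝔓 : Place K F, 0 < 𝔓.ord (π : F) ∧ (∀ r : R, ¬ π ∣ r → 𝔓.ord (r : F) = 0) ∧
      ∀ (r : R) (k : ℕ), π ^ k ∣ r → ¬ π ^ (k + 1) ∣ r →
        𝔓.ord (r : F) = (k : ℤ) * 𝔓.ord (π : F) := by
  classical
  haveI hP : (Ideal.span {π} : Ideal R).IsPrime :=
    (Ideal.span_singleton_prime hπ.ne_zero).mpr hπ
  obtain ⟨V, hle, hloc⟩ :=
    (LocalSubring.ofPrime R (Ideal.span {π})).exists_le_valuationSubring
  have hRL : R ≤ (LocalSubring.ofPrime R (Ideal.span {π})).toSubring :=
    LocalSubring.le_ofPrime R _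
  have hmemV : ∀ r : R, (r : F) ∈ V := fun r => hle (hRL r.2)
  -- elements outside the prime are units of `V`
  have hunit : ∀ r : R, ¬ π ∣ r → ((r : F))⁻¹ ∈ V := by
    intro r hr
    have hr' : r ∈ (Ideal.span {π} : Ideal R).primeCompl := by
      intro h
      exact hr (Ideal.mem_span_singleton.mp h)
    have hu : IsUnit (algebraMap R (LocalSubring.ofPrime R (Ideal.span {π})).toSubring r) :=
      IsLocalization.map_units (LocalSubring.ofPrime R (Ideal.span {π})).toSubring
        (⟨r, hr'⟩ : (Ideal.span {π} : Ideal R).primeCompl)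
    obtain ⟨w, hw⟩ := isUnit_iff_exists_inv.mp hu
    have hw1 : (r : F) * ((w : (LocalSubring.ofPrime R (Ideal.span {π})).toSubring) : F) = 1 := by
      have h := congrArg Subtype.val hw
      simp only [Subring.coe_mul, Subring.coe_one] at h
      exact h
    have e : ((r : F))⁻¹ = ((w : (LocalSubring.ofPrime R (Ideal.span {π})).toSubring) : F) :=
      (eq_inv_of_mul_eq_one_right hw1).symm
    rw [e]
    exact hle w.2
  -- `π` is not a unit of `V`
  have hπV : ((π : R) : F)⁻¹ ∉ V := by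
    intro hinv
    have hπL : ¬ IsUnit (algebraMap R (LocalSubring.ofPrime R (Ideal.span {π})).toSubring π) := by
      intro hu
      have := (IsLocalization.AtPrime.isUnit_to_map_iff
        (LocalSubring.ofPrime R (Ideal.span {π})).toSubring (Ideal.span {π}) π).mp hu
      exact this (Ideal.mem_span_singleton_self π)
    apply hπL
    have := hloc
    apply isUnit_of_map_unit (Subring.inclusion hle)
    have hπ0 : ((π : R) : F) ≠ 0 := by
      intro h
      exact hπ.ne_zero (Subtype.ext h)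
    refine isUnit_iff_exists_inv.mpr ⟨⟨((π : R) : F)⁻¹, hinv⟩, ?_⟩
    apply Subtype.ext
    show ((π : R) : F) * ((π : R) : F)⁻¹ = 1
    exact mul_inv_cancel₀ hπ0
  have hn : ∀ n : ℕ, n ≠ 0 → ((n : F))⁻¹ ∈ V := by
    intro n hn
    have := hunit (n : R) (hchar n hn)
    simpa using this
  have hK := hconst V hn
  have hVtop : V ≠ ⊤ := by
    intro h
    apply hπV
    rw [h]
    exact ValuationSubring.mem_top _
  obtain ⟨𝔓, h𝔓⟩ := hd5 V hK hVtop
  have hnn : ∀ r : R, 0 ≤ 𝔓.ord (r : F) := by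
    intro r
    apply Fermat.Agent.S24.helper82.ord_nonneg_of_mem
    rw [h𝔓]
    exact hmemV r
  have hzero : ∀ r : R, ¬ π ∣ r → 𝔓.ord (r : F) = 0 := by
    intro r hr
    have h1 := hnn r
    have h2 : 0 ≤ 𝔓.ord ((r : F))⁻¹ := by
      apply Fermat.Agent.S24.helper82.ord_nonneg_of_mem
      rw [h𝔓]
      exact hunit r hr
    rw [Place.ord_inv] at h2
    omega
  have hpos : 0 < 𝔓.ord (π : F) := by
    have h1 := hnn π
    rcases h1.lt_or_eq with h | h
    · exact h
    · exfalso
      apply hπV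
      have h2 : 0 ≤ 𝔓.ord ((π : F))⁻¹ := by
        rw [Place.ord_inv]
        omega
      have := Fermat.Agent.S24.helper82.mem_of_ord_nonneg 𝔓 h2
      rwa [h𝔓] at this
  refine ⟨𝔓, hpos, hzero, ?_⟩
  intro r k hk hk1
  obtain ⟨r', rfl⟩ := hk
  have hr' : ¬ π ∣ r' := by
    rintro ⟨s, rfl⟩
    apply hk1
    exact ⟨s, by rw [pow_succ, mul_assoc]⟩
  have hr'0 : (r' : F) ≠ 0 := by
    intro h
    apply hr'
    have : r' = 0 := Subtype.ext h
    rw [this]
    exact dvd_zero _
  have hπ0 : ((π : R) : F) ≠ 0 := by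
    intro h
    exact hπ.ne_zero (Subtype.ext h)
  have e1 : ((π ^ k * r' : R) : F) = ((π : R) : F) ^ (k : ℤ) * (r' : F) := by
    rw [zpow_natCast]
    simp
  rw [e1, 𝔓.ord_mul (zpow_ne_zero _ hπ0) hr'0, Place.ord_zpow, hzero r' hr', add_zero]

/-- **Dictionary** (`helper23_DictContract.DictStatement`). -/
theorem dict_of_setting {Φ : Set (F ≃+* F)} (hS : DictSetting K F Φ) : DictStatement K F Φ := by
  intro R hfix hfrac π hπ hchar hfin
  obtain ⟨𝔓, hpos, hzero, hmult⟩ := exists_place_of_prime_elt hS.d5 hS.const R π hπ hchar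
  have hdiv : ∀ f : F, (∀ g ∈ Φ, g f = f) → f ≠ 0 → 𝔓.ord (π : F) ∣ 𝔓.ord f := by
    intro f hf hf0
    obtain ⟨a, ha, b, hb, hb0, hab⟩ := hfrac f hf
    have ha0 : a ≠ 0 := by
      rw [← hab]
      exact mul_ne_zero hf0 hb0
    have ha0' : (⟨a, ha⟩ : R) ≠ 0 := fun h => ha0 (congrArg Subtype.val h)
    have hb0' : (⟨b, hb⟩ : R) ≠ 0 := fun h => hb0 (congrArg Subtype.val h)
    obtain ⟨k, hk, hk1⟩ := exists_exact_mult π ⟨a, ha⟩ (hfin _ ha0')
    obtain ⟨l, hl, hl1⟩ := exists_exact_mult π ⟨b, hb⟩ (hfin _ hb0')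
    have h1 := hmult ⟨a, ha⟩ k hk hk1
    have h2 := hmult ⟨b, hb⟩ l hl hl1
    have h3 : 𝔓.ord f = 𝔓.ord a - 𝔓.ord b := by
      rw [← hab, 𝔓.ord_mul hf0 hb0]
      ring
    change 𝔓.ord a = _ at h1
    change 𝔓.ord b = _ at h2
    rw [h3, h1, h2]
    exact ⟨(k : ℤ) - l, by ring⟩
  have he : 𝔓.ord (π : F) = 1 :=
    unram (fun f hf => hS.residue 𝔓 f hf) hS.orbit hS.gen
      (fun g hg => hfix π π.2 g hg) hpos rfl hdiv
  refine ⟨𝔓, fun r k hk hk1 => ?_⟩
  rw [hmult r k hk hk1, he, mul_one]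

/-- **Dictionary, consumer form** (`helper23_DictContract.DictModEqStatement`). -/
theorem dictModEq_of_setting {Φ : Set (F ≃+* F)} (hS : DictSetting K F Φ) :
    DictModEqStatement K F Φ := by
  intro R hfix hfrac n a b ha hb hn π hπ hchar hfin k l hk hk1 hl hl1
  obtain ⟨𝔓, h𝔓⟩ := dict_of_setting hS R hfix hfrac π hπ hchar hfin
  have hnn : ∀ r : R, 0 ≤ 𝔓.ord (r : F) := by
    intro r
    rcases eq_or_ne r 0 with rfl | hr
    · simp
    · obtain ⟨m, hm, hm1⟩ := exists_exact_mult π r (hfin r hr)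
      rw [h𝔓 r m hm hm1]
      exact Int.natCast_nonneg m
  have h1 := hn 𝔓 hnn
  rw [h𝔓 a k hk hk1, h𝔓 b l hl hl1] at h1
  exact ((Int.natCast_modEq_iff).mp ((Int.modEq_iff_dvd.mpr (by
    have : (n : ℤ) ∣ (k : ℤ) - l := h1
    simpa using (dvd_neg.mpr this))))).symm.symm

end Dict

end Fermat.Agent.T8.helper23
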