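import Fermat.Agent.T8.helper23_Dict
import Fermat.Agent.P2.helper23_Disc
import Fermat.Agent.P2.helper23_DiscDict
import Fermat.Agent.P2.helper22_IdealStep

/-!
# T8 (row 38, at risk), [RING-X] DICTIONARY (helper23): the instance on `X₀(M)`

`dictSetting_FF M Γ : DictSetting ℚ̄ (FF M) (galSet M Γ)` for ANY set `Γ` of automorphisms of
`ℚ̄` (in the application the inertia group of `A`), hence

* `dict_FF M Γ : DictStatementFF M Γ` : a horizontal prime element `π` of a subring `R` of
  `Γ`-fixed functions with `Frac R = (FF M)^Γ` gives a place `𝔓` of `FF M` with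
  `ord_𝔓 r = mult_π r` on `R`;
* `dictModEq_FF M Γ : DictModEqStatementFF M Γ` : the consumer form.

Reusable for the cover: `dictSetting_orbit_of_gal` (finite stable sets of constants for any
semilinear set of automorphisms over `ℚ̄`), `dictSetting_const_of_isAlgebraic`.
-/

set_option autoImplicit false
set_option linter.unusedSectionVars false
set_option linter.style.longLine false

noncomputable section

namespace Fermat.Agent.T8.helper23

open HahnSeries IntermediateField AlgebraicCurve ModularCurve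
open Fermat.Agent.S18.helper19 Fermat.Agent.P2.helper93

section General

variable {F : Type*} [Field F] [Algebra Kb F]

/-- the field `const` of `DictSetting` for any field over `ℚ̄` -/
theorem dictSetting_const_of_isAlgebraic (V : ValuationSubring F)
    (hV : ∀ n : ℕ, n ≠ 0 → ((n : F))⁻¹ ∈ V) (c : Kb) : algebraMap Kb F c ∈ V := by
  have : CharZero F := charZero_of_injective_algebraMap (algebraMap Kb F).injective
  refine Fermat.Agent.P2.helper23.mem_valuationSubring_of_isAlgebraic V ?_ _ ?_
  · intro y hy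
    obtain ⟨n, rfl | rfl⟩ := y.eq_nat_or_neg
    · have hn : n ≠ 0 := by
        rintro rfl
        exact hy rfl
      simpa using hV n hn
    · have hn : n ≠ 0 := by
        rintro rfl
        exact hy rfl
      have := neg_mem (hV n hn)
      simpa [inv_neg] using this
  · have h1 : IsAlgebraic ℚ c := (AlgebraicClosure.isAlgebraic ℚ).isAlgebraic c
    have h2 : IsAlgebraic ℤ c := (IsFractionRing.isAlgebraic_iff ℤ ℚ Kb).mpr h1
    exact h2.algebraMap

/-- the field `orbit` of `DictSetting` for any set of automorphisms which act on the constants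
through `Gal(ℚ̄ / ℚ)`: the conjugates of `c` form a finite stable set. -/
theorem dictSetting_orbit_of_gal (Φ : Set (F ≃+* F))
    (hΦ : ∀ g ∈ Φ, ∃ σ : Kb ≃ₐ[ℚ] Kb, ∀ c : Kb, g (algebraMap Kb F c) = algebraMap Kb F (σ c))
    (c : Kb) : ∃ S : Finset Kb, c ∈ S ∧
      ∀ g ∈ Φ, ∀ b ∈ S, ∃ b' ∈ S, g (algebraMap Kb F b) = algebraMap Kb F b' := by
  classical
  have hint : IsIntegral ℚ c := (AlgebraicClosure.isAlgebraic ℚ).isAlgebraic c |>.isIntegral
  have hne : minpoly ℚ c ≠ 0 := minpoly.ne_zero hint
  refine ⟨((minpoly ℚ c).aroots Kb).toFinset, ?_, ?_⟩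
  · rw [Multiset.mem_toFinset, Polynomial.mem_aroots]
    exact ⟨hne, minpoly.aeval ℚ c⟩
  · intro g hg b hb
    obtain ⟨σ, hσ⟩ := hΦ g hg
    refine ⟨σ b, ?_, hσ b⟩
    rw [Multiset.mem_toFinset, Polynomial.mem_aroots] at hb ⊢
    refine ⟨hne, ?_⟩
    rw [Polynomial.aeval_algHom_apply, hb.2, map_zero]

end General

section Modular

variable (M : ℕ) [NeZero M]

/-- `FF M` is generated by the constants and the functions with rational `q`-expansion, which
are fixed by the whole Galois group. -/
theorem gen_FF (Γ : Set (Kb ≃ₐ[ℚ] Kb)) (t : FF M) :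
    t ∈ Subfield.closure
      (Set.range (algebraMap Kb (FF M)) ∪ {f : FF M | ∀ g ∈ galSet M Γ, g f = f}) := by
  have hle : Subfield.closure (Set.range (algebraMap Kb (LaurentSeries Kb)) ∪
        (⇑(coeffEmb Kb) '' ((modularFunctionFieldFull M : IntermediateField ℚ (LaurentSeries ℚ)) :
          Set (LaurentSeries ℚ)))) ≤
      (Subfield.closure
        (Set.range (algebraMap Kb (FF M)) ∪ {f : FF M | ∀ g ∈ galSet M Γ, g f = f})).map
        ((FF M).val : FF M →+* LaurentSeries Kb) := by
    rw [Subfield.closure_le]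
    rintro z (⟨a, rfl⟩ | ⟨w, hw, rfl⟩)
    · refine ⟨algebraMap Kb (FF M) a, Subfield.subset_closure (Or.inl ⟨a, rfl⟩), rfl⟩
    · refine ⟨⟨coeffEmb Kb w, coeffEmb_mem_laurentBaseChange Kb hw⟩,
        Subfield.subset_closure (Or.inr ?_), rfl⟩
      rintro g ⟨σ, -, rfl⟩
      apply Subtype.ext
      rw [coe_galF]
      exact coeffMap_coeffEmb σ w
  obtain ⟨t', ht', h⟩ := hle (mem_laurentBaseChange_iff.mp t.2)
  have : t' = t := Subtype.ext h
  rwa [this] at ht'

/-- **The dictionary setting on `X₀(M)`**, for any set `Γ` of automorphisms of `ℚ̄`. -/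
theorem dictSetting_FF (Γ : Set (Kb ≃ₐ[ℚ] Kb)) : DictSetting Kb (FF M) (galSet M Γ) where
  d5 := Fermat.Agent.P2.helper23.exists_place_of_valuationSubring_FF M
  residue := (Fermat.Agent.P2.helper22.riemannSetting_FF M).residue
  orbit := dictSetting_orbit_of_gal (galSet M Γ) (by
    rintro g ⟨σ, -, rfl⟩
    exact ⟨σ, fun c => galF_algebraMap M σ c⟩)
  gen := gen_FF M Γ
  const := dictSetting_const_of_isAlgebraic

/-- **Dictionary on `X₀(M)`.** -/
theorem dict_FF (Γ : Set (Kb ≃ₐ[ℚ] Kb)) : DictStatementFF M Γ :=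
  dict_of_setting (dictSetting_FF M Γ)

/-- **Dictionary on `X₀(M)`, consumer form.** -/
theorem dictModEq_FF (Γ : Set (Kb ≃ₐ[ℚ] Kb)) : DictModEqStatementFF M Γ :=
  dictModEq_of_setting (dictSetting_FF M Γ)

end Modular

end Fermat.Agent.T8.helper23
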