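import Fermat.Agent.T8.helper23_DictWeak
import Fermat.Agent.T8.helper23_DictFF
import Fermat.Agent.T8.helper9_CoverField

/-!
# T8 (row 38, at risk), DICTIONARY ON THE COVER `X'` (helper23)

`F' = (FF M)⟮Z⟯`, `Z ^ p = h` a Kummer root (`helper86.IsKummerRoot`), `p ∣ div h`
(`helper9_CoverField`: `F' / FF M` is unramified).  `Φ'` any set of ring automorphisms of `F'`
each of which EXTENDS the coefficientwise action `galF M σ` of some `σ ∈ Γ` on `FF M`
(`hcompat`; for the coefficientwise action of the inertia group on `F' ⊆ ℚ̄((q))` this is `rfl`).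

* `dictSettingW_cover` : the weak dictionary setting for `(F', Φ')`;
* `dict_cover : DictStatement ℚ̄ F' Φ'` : a horizontal prime element `π` of a subring `R'` of
  `Φ'`-fixed functions of `F'` with `Frac R' = F'^Φ'` gives a place `𝔓` of `F'` with
  `ord_𝔓 r = mult_π r` on `R'`;
* `dictModEq_cover : DictModEqStatement ℚ̄ F' Φ'` : the consumer form for [SLOPE] on `X'`.

NO Galois descent on `F'` is needed: `Z` need not be generated by `Φ'`-fixed functions.
-/

set_option autoImplicit false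
set_option linter.unusedSectionVars false
set_option linter.style.longLine false

noncomputable section

namespace Fermat.Agent.T8.helper23

open HahnSeries IntermediateField AlgebraicCurve ModularCurve
open Fermat.Agent.S18.helper19 Fermat.Agent.P2.helper93

section CoverFF

variable (M : ℕ) [NeZero M] {p : ℕ} {h : FF M} {Z : LaurentSeries Kb}

/-- **The weak dictionary setting on the cover.** -/
theorem dictSettingW_cover (H : helper86.IsKummerRoot p h Z) {D : Divisor Kb (FF M)}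
    (hD : ∀ v : Place Kb (FF M), v.ord h = p * D v)
    (Γ : Set (Kb ≃ₐ[ℚ] Kb)) (Φ' : Set ((FF M)⟮Z⟯ ≃+* (FF M)⟮Z⟯))
    (hcompat : ∀ g' ∈ Φ', ∃ σ ∈ Γ, ∀ f : FF M,
      g' (algebraMap (FF M) (FF M)⟮Z⟯ f) = algebraMap (FF M) (FF M)⟮Z⟯ (galF M σ f)) :
    DictSettingW Kb (FF M)⟮Z⟯ Φ' := by
  haveI := Fermat.Agent.T8.helper9.finiteDimensional_cover H
  refine dictSettingW_of_unramified (galSet M Γ) Φ' (gen_FF M Γ) ?_ ?_
    (Fermat.Agent.T8.helper9.d5_coverFF M H)
    (Fermat.Agent.T8.helper9.riemannSetting_coverFF M H).residue ?_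
    dictSetting_const_of_isAlgebraic
  · intro g' hg'
    obtain ⟨σ, hσ, h1⟩ := hcompat g' hg'
    exact ⟨galF M σ, ⟨σ, hσ, rfl⟩, h1⟩
  · intro w
    exact ⟨w.restrict (FF M), fun f =>
      Fermat.Agent.T8.helper9.ord_algebraMap_coverFF M H hD w f⟩
  · apply dictSetting_orbit_of_gal
    intro g' hg'
    obtain ⟨σ, -, h1⟩ := hcompat g' hg'
    refine ⟨σ, fun c => ?_⟩
    rw [IsScalarTower.algebraMap_apply Kb (FF M) (FF M)⟮Z⟯, h1, galF_algebraMap,
      ← IsScalarTower.algebraMap_apply Kb (FF M) (FF M)⟮Z⟯]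

/-- **Dictionary on the cover.** -/
theorem dict_cover (H : helper86.IsKummerRoot p h Z) {D : Divisor Kb (FF M)}
    (hD : ∀ v : Place Kb (FF M), v.ord h = p * D v)
    (Γ : Set (Kb ≃ₐ[ℚ] Kb)) (Φ' : Set ((FF M)⟮Z⟯ ≃+* (FF M)⟮Z⟯))
    (hcompat : ∀ g' ∈ Φ', ∃ σ ∈ Γ, ∀ f : FF M,
      g' (algebraMap (FF M) (FF M)⟮Z⟯ f) = algebraMap (FF M) (FF M)⟮Z⟯ (galF M σ f)) :
    DictStatement Kb (FF M)⟮Z⟯ Φ' :=
  dict_of_settingW (dictSettingW_cover M H hD Γ Φ' hcompat)

/-- **Dictionary on the cover, consumer form.** -/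
theorem dictModEq_cover (H : helper86.IsKummerRoot p h Z) {D : Divisor Kb (FF M)}
    (hD : ∀ v : Place Kb (FF M), v.ord h = p * D v)
    (Γ : Set (Kb ≃ₐ[ℚ] Kb)) (Φ' : Set ((FF M)⟮Z⟯ ≃+* (FF M)⟮Z⟯))
    (hcompat : ∀ g' ∈ Φ', ∃ σ ∈ Γ, ∀ f : FF M,
      g' (algebraMap (FF M) (FF M)⟮Z⟯ f) = algebraMap (FF M) (FF M)⟮Z⟯ (galF M σ f)) :
    DictModEqStatement Kb (FF M)⟮Z⟯ Φ' :=
  dictModEq_of_settingW (dictSettingW_cover M H hD Γ Φ' hcompat)

end CoverFF

end Fermat.Agent.T8.helper23
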