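import Fermat.Agent.T8.helper23_DictCovRing
import Fermat.Agent.T8.helper97_SheetsInst

/-!
# T8 (row 38, at risk), DICTIONARY (helper23): the cover rings with the TAME TRACE as generator

`D : helper88.CovData (N q) W A p`, `t = helper97.tGen D ζ` the tame trace of `Z / (ζ - 1)`.

* `adjoin_eq_top_of_prime` : in an extension of prime degree every element outside the base
                             generates (Mathlib only);
* `adjoin_tGen`  : `F⟮t⟯ = ⊤`  (`ρ t ≠ t`, `helper97.rho_pow_tGen_ne`; `[F' : F] = p`);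
* `tGen_fix`     : `t` is fixed by `covSet D` (`helper97.act_tGen`);
* `dict_tame` / `dictModEq_tame`       : `dict_covRing` / `dictModEq_covRing` at `t = tGen`;
* `dict_tameHom` / `dictModEq_tameHom` : the forms for `ι : T →+* F'` injective.

So the [SLOPE]-on-`X'` glue gets the horizontal primes of ANY ring of inertia-fixed elements of
the cover which contains the image of `helper16.ringX` and the tame trace `t`.
-/

set_option autoImplicit false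
set_option synthInstance.maxHeartbeats 400000
set_option linter.unusedSectionVars false
set_option linter.unusedVariables false
set_option linter.style.longLine false

noncomputable section

namespace Fermat.Agent.T8.helper23

open HahnSeries IntermediateField AlgebraicCurve ModularCurve
open Fermat.Agent.S18.helper19 Fermat.Agent.P2.helper29 Fermat.Agent.P2.helper93
open Fermat.Agent.T8.helper16 (ringX)
open Fermat.Agent.T8.helper88 (CovData Cov)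
open Fermat.Agent.T8.helper65 (muFix IA cwAct)
open Fermat.Agent.T8.helper97 (tGen)

section Prime

variable {F F' : Type*} [Field F] [Field F'] [Algebra F F']

/-- in an extension of prime degree, an element outside the base field generates -/
theorem adjoin_eq_top_of_prime (hp : (Module.finrank F F').Prime) {t : F'}
    (ht : t ∉ Set.range (algebraMap F F')) : F⟮t⟯ = ⊤ := by
  haveI := IntermediateField.isSimpleOrder_of_finrank_prime F F' hp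
  rcases eq_bot_or_eq_top (F⟮t⟯) with h | h
  · exfalso
    apply ht
    have h1 : t ∈ F⟮t⟯ := IntermediateField.mem_adjoin_simple_self F t
    rw [h, IntermediateField.mem_bot] at h1
    exact h1
  · exact h

end Prime

section Tame

variable {N q : ℕ} [NeZero N] [NeZero q] {A : ValuationSubring Kb} {hq : q.Prime}
  {hqN : ¬ q ∣ N} {W : FF (N * q) ≃ₐ[Kb] FF (N * q)} {p : ℕ}
  [((muFix p ⊓ IA A).subgroupOf (IA A)).FiniteIndex]

/-- **the tame trace generates the cover** -/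
theorem adjoin_tGen (D : CovData (N * q) W A p) (hKum : helper86.IsKummerRoot p D.K D.Z)
    (ζ : Kb) (hζ : IsPrimitiveRoot ζ p) (hp3 : 3 ≤ p) (hA : A.LiesOverPrime p)
    (hfix1 : ∀ σ ∈ muFix p ⊓ IA A, cwAct σ (incl A D.Z₁) = incl A D.Z₁)
    (hfix2 : ∀ σ ∈ muFix p ⊓ IA A, cwAct σ (incl A D.Z₂) = incl A D.Z₂)
    (hr1 : red A D.Z₁ = 1) (hr2 : red A D.Z₂ = 1) :
    (FF (N * q))⟮tGen D ζ⟯ = ⊤ := by
  have hfr : Module.finrank (FF (N * q)) (Cov (N * q) D.Z) = p := hKum.finrank_eq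
  apply adjoin_eq_top_of_prime (by rw [hfr]; exact D.hp)
  rintro ⟨f, hf⟩
  have h := Fermat.Agent.T8.helper97.rho_pow_tGen_ne D hKum ζ hζ hp3 hA hfix1 hfix2 hr1 hr2
    (j := 1) one_pos (by omega)
  apply h
  rw [pow_one, ← hf]
  exact (D.rho hKum ζ hζ.pow_eq_one).commutes f

/-- **the tame trace is inertia-fixed** -/
theorem tGen_fix (D : CovData (N * q) W A p) (hKum : helper86.IsKummerRoot p D.K D.Z)
    (ζ : Kb) (hζ : IsPrimitiveRoot ζ p)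
    (hfix1 : ∀ σ ∈ muFix p ⊓ IA A, cwAct σ (incl A D.Z₁) = incl A D.Z₁) :
    ∀ g ∈ covSet D, g (tGen D ζ) = tGen D ζ := by
  rintro g ⟨σ, hσ, rfl⟩
  exact Fermat.Agent.T8.helper97.act_tGen D hKum ζ hζ hfix1 σ hσ

/-- **The dictionary at the rings of the cover containing the tame trace.** -/
theorem dict_tame (hAq : A.LiesOverPrime q) (D : CovData (N * q) W A p)
    (hKum : helper86.IsKummerRoot p D.K D.Z)
    {Dv : Divisor Kb (FF (N * q))} (hDv : ∀ v : Place Kb (FF (N * q)), v.ord D.K = p * Dv v)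
    (ζ : Kb) (hζ : IsPrimitiveRoot ζ p) (hp3 : 3 ≤ p) (hA : A.LiesOverPrime p)
    (hfix1 : ∀ σ ∈ muFix p ⊓ IA A, cwAct σ (incl A D.Z₁) = incl A D.Z₁)
    (hfix2 : ∀ σ ∈ muFix p ⊓ IA A, cwAct σ (incl A D.Z₂) = incl A D.Z₂)
    (hr1 : red A D.Z₁ = 1) (hr2 : red A D.Z₂ = 1)
    (S : Subring (Cov (N * q) D.Z)) (hSfix : ∀ r ∈ S, ∀ g ∈ covSet D, g r = r)
    (hRS : ∀ r ∈ ringX A hq hqN, algebraMap (FF (N * q)) (Cov (N * q) D.Z) r ∈ S)
    (htS : tGen D ζ ∈ S)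
    (π : S) (hπ : Prime π) (hchar : ∀ n : ℕ, n ≠ 0 → ¬ π ∣ (n : S))
    (hfin : ∀ r : S, r ≠ 0 → ∃ k : ℕ, ¬ π ^ (k + 1) ∣ r) :
    ∃ 𝔓 : Place Kb (Cov (N * q) D.Z), 0 ≤ 𝔓.ord (jCov D) ∧
      ∀ (r : S) (k : ℕ), π ^ k ∣ r → ¬ π ^ (k + 1) ∣ r →
        𝔓.ord (r : Cov (N * q) D.Z) = (k : ℤ) :=
  dict_covRing (hq := hq) (hqN := hqN) hAq D hKum hDv (tGen D ζ)
    (adjoin_tGen D hKum ζ hζ hp3 hA hfix1 hfix2 hr1 hr2) (tGen_fix D hKum ζ hζ hfix1)
    S hSfix hRS htS π hπ hchar hfin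

/-- **The dictionary at the rings of the cover containing the tame trace, consumer form.** -/
theorem dictModEq_tame (hAq : A.LiesOverPrime q) (D : CovData (N * q) W A p)
    (hKum : helper86.IsKummerRoot p D.K D.Z)
    {Dv : Divisor Kb (FF (N * q))} (hDv : ∀ v : Place Kb (FF (N * q)), v.ord D.K = p * Dv v)
    (ζ : Kb) (hζ : IsPrimitiveRoot ζ p) (hp3 : 3 ≤ p) (hA : A.LiesOverPrime p)
    (hfix1 : ∀ σ ∈ muFix p ⊓ IA A, cwAct σ (incl A D.Z₁) = incl A D.Z₁)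
    (hfix2 : ∀ σ ∈ muFix p ⊓ IA A, cwAct σ (incl A D.Z₂) = incl A D.Z₂)
    (hr1 : red A D.Z₁ = 1) (hr2 : red A D.Z₂ = 1)
    (S : Subring (Cov (N * q) D.Z)) (hSfix : ∀ r ∈ S, ∀ g ∈ covSet D, g r = r)
    (hRS : ∀ r ∈ ringX A hq hqN, algebraMap (FF (N * q)) (Cov (N * q) D.Z) r ∈ S)
    (htS : tGen D ζ ∈ S) (n : ℕ) (a b : S)
    (hab : ∀ P : Place Kb (Cov (N * q) D.Z), 0 ≤ P.ord (jCov D) →
      (n : ℤ) ∣ P.ord (a : Cov (N * q) D.Z) - P.ord (b : Cov (N * q) D.Z))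
    (π : S) (hπ : Prime π) (hchar : ∀ m : ℕ, m ≠ 0 → ¬ π ∣ (m : S))
    (hfin : ∀ r : S, r ≠ 0 → ∃ k : ℕ, ¬ π ^ (k + 1) ∣ r)
    (k l : ℕ) (hk : π ^ k ∣ a) (hk1 : ¬ π ^ (k + 1) ∣ a) (hl : π ^ l ∣ b)
    (hl1 : ¬ π ^ (l + 1) ∣ b) : k ≡ l [MOD n] :=
  dictModEq_covRing (hq := hq) (hqN := hqN) hAq D hKum hDv (tGen D ζ)
    (adjoin_tGen D hKum ζ hζ hp3 hA hfix1 hfix2 hr1 hr2) (tGen_fix D hKum ζ hζ hfix1)
    S hSfix hRS htS n a b hab π hπ hchar hfin k l hk hk1 hl hl1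

variable {T : Type*} [CommRing T]

/-- **The dictionary for `ι : T →+* F'` injective, tame trace in the image.** -/
theorem dict_tameHom (hAq : A.LiesOverPrime q) (D : CovData (N * q) W A p)
    (hKum : helper86.IsKummerRoot p D.K D.Z)
    {Dv : Divisor Kb (FF (N * q))} (hDv : ∀ v : Place Kb (FF (N * q)), v.ord D.K = p * Dv v)
    (ζ : Kb) (hζ : IsPrimitiveRoot ζ p) (hp3 : 3 ≤ p) (hA : A.LiesOverPrime p)
    (hfix1 : ∀ σ ∈ muFix p ⊓ IA A, cwAct σ (incl A D.Z₁) = incl A D.Z₁)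
    (hfix2 : ∀ σ ∈ muFix p ⊓ IA A, cwAct σ (incl A D.Z₂) = incl A D.Z₂)
    (hr1 : red A D.Z₁ = 1) (hr2 : red A D.Z₂ = 1)
    (ι : T →+* Cov (N * q) D.Z) (hι : Function.Injective ι)
    (hTfix : ∀ r : T, ∀ g ∈ covSet D, g (ι r) = ι r)
    (hRT : ∀ r ∈ ringX A hq hqN, ∃ r' : T,
      ι r' = algebraMap (FF (N * q)) (Cov (N * q) D.Z) r)
    (htT : ∃ t' : T, ι t' = tGen D ζ)
    (π : T) (hπ : Prime π) (hchar : ∀ n : ℕ, n ≠ 0 → ¬ π ∣ (n : T))
    (hfin : ∀ r : T, r ≠ 0 → ∃ k : ℕ, ¬ π ^ (k + 1) ∣ r) :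
    ∃ 𝔓 : Place Kb (Cov (N * q) D.Z), 0 ≤ 𝔓.ord (jCov D) ∧
      ∀ (r : T) (k : ℕ), π ^ k ∣ r → ¬ π ^ (k + 1) ∣ r → 𝔓.ord (ι r) = (k : ℤ) :=
  dict_covHom (hq := hq) (hqN := hqN) hAq D hKum hDv (tGen D ζ)
    (adjoin_tGen D hKum ζ hζ hp3 hA hfix1 hfix2 hr1 hr2) (tGen_fix D hKum ζ hζ hfix1)
    ι hι hTfix hRT htT π hπ hchar hfin

/-- **The dictionary for `ι : T →+* F'` injective, tame trace in the image, consumer form.** -/
theorem dictModEq_tameHom (hAq : A.LiesOverPrime q) (D : CovData (N * q) W A p)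
    (hKum : helper86.IsKummerRoot p D.K D.Z)
    {Dv : Divisor Kb (FF (N * q))} (hDv : ∀ v : Place Kb (FF (N * q)), v.ord D.K = p * Dv v)
    (ζ : Kb) (hζ : IsPrimitiveRoot ζ p) (hp3 : 3 ≤ p) (hA : A.LiesOverPrime p)
    (hfix1 : ∀ σ ∈ muFix p ⊓ IA A, cwAct σ (incl A D.Z₁) = incl A D.Z₁)
    (hfix2 : ∀ σ ∈ muFix p ⊓ IA A, cwAct σ (incl A D.Z₂) = incl A D.Z₂)
    (hr1 : red A D.Z₁ = 1) (hr2 : red A D.Z₂ = 1)
    (ι : T →+* Cov (N * q) D.Z) (hι : Function.Injective ι)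
    (hTfix : ∀ r : T, ∀ g ∈ covSet D, g (ι r) = ι r)
    (hRT : ∀ r ∈ ringX A hq hqN, ∃ r' : T,
      ι r' = algebraMap (FF (N * q)) (Cov (N * q) D.Z) r)
    (htT : ∃ t' : T, ι t' = tGen D ζ) (n : ℕ) (a b : T)
    (hab : ∀ P : Place Kb (Cov (N * q) D.Z), 0 ≤ P.ord (jCov D) →
      (n : ℤ) ∣ P.ord (ι a) - P.ord (ι b))
    (π : T) (hπ : Prime π) (hchar : ∀ m : ℕ, m ≠ 0 → ¬ π ∣ (m : T))
    (hfin : ∀ r : T, r ≠ 0 → ∃ k : ℕ, ¬ π ^ (k + 1) ∣ r)
    (k l : ℕ) (hk : π ^ k ∣ a) (hk1 : ¬ π ^ (k + 1) ∣ a) (hl : π ^ l ∣ b)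
    (hl1 : ¬ π ^ (l + 1) ∣ b) : k ≡ l [MOD n] :=
  dictModEq_covHom (hq := hq) (hqN := hqN) hAq D hKum hDv (tGen D ζ)
    (adjoin_tGen D hKum ζ hζ hp3 hA hfix1 hfix2 hr1 hr2) (tGen_fix D hKum ζ hζ hfix1)
    ι hι hTfix hRT htT n a b hab π hπ hchar hfin k l hk hk1 hl hl1

end Tame

end Fermat.Agent.T8.helper23
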