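import Fermat.Agent.T8.helper23_Dict

/-!
# T8 (row 38, at risk), DICTIONARY (helper23): weak setting, for unramified covers

`DictSettingW K F Φ` is `DictSetting K F Φ` with the field `gen` (`F` is generated by the
constants and the `Φ`-fixed functions) replaced by the weaker

  `unif` : every place of `F / K` has a uniformiser in the field generated by the constants and
           the `Φ`-fixed functions.

* `dict_of_settingW : DictSettingW K F Φ → DictStatement K F Φ`,
  `dictModEq_of_settingW : DictSettingW K F Φ → DictModEqStatement K F Φ`.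
* `dictSettingW_of_unramified` : if `F' / F` is UNRAMIFIED (every place `w` of `F'` has a place
  `v` of `F` with `ord_w f = ord_v f` on `F`), `F` is generated by constants and `Φ`-fixed
  functions, and every `g' ∈ Φ'` extends some `g ∈ Φ`, then `unif` holds for `(F', Φ')`: NO
  Galois descent on the cover is needed (the generator `Z₁` of the cover need not be a
  combination of `Φ'`-fixed functions).
-/

set_option autoImplicit false
set_option linter.unusedSectionVars false
set_option linter.style.longLine false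

noncomputable section

namespace Fermat.Agent.T8.helper23

open AlgebraicCurve
open Fermat.Agent.T6.helper26

section Weak

variable (K F : Type*) [Field K] [Field F] [Algebra K F]

/-- The weak dictionary setting. -/
structure DictSettingW (Φ : Set (F ≃+* F)) : Prop where
  /-- (D5) every valuation subring `≠ ⊤` containing the constants is a place -/
  d5 : ∀ V : ValuationSubring F, (∀ a : K, algebraMap K F a ∈ V) → V ≠ ⊤ →
    ∃ 𝔓 : Place K F, 𝔓.toValuationSubring = V
  /-- the residue field of every place is `K` -/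
  residue : ∀ (v : Place K F) (f : F), 0 ≤ v.ord f →
    ∃ a : K, f = algebraMap K F a ∨ 0 < v.ord (f - algebraMap K F a)
  /-- every constant lies in a finite `Φ`-stable set of constants -/
  orbit : ∀ c : K, ∃ S : Finset K, c ∈ S ∧
    ∀ g ∈ Φ, ∀ b ∈ S, ∃ b' ∈ S, g (algebraMap K F b) = algebraMap K F b'
  /-- every place has a uniformiser in the field generated by the constants and the
  `Φ`-fixed elements -/
  unif : ∀ 𝔓 : Place K F, ∃ t : F, t ∈ Subfield.closure
    (Set.range (algebraMap K F) ∪ {f : F | ∀ g ∈ Φ, g f = f}) ∧ 𝔓.ord t = 1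
  /-- a valuation subring in which every integer `n ≠ 0` is invertible contains the
  constants -/
  const : ∀ V : ValuationSubring F, (∀ n : ℕ, n ≠ 0 → ((n : F))⁻¹ ∈ V) →
    ∀ c : K, algebraMap K F c ∈ V

variable {K F}

theorem DictSetting.toW {Φ : Set (F ≃+* F)} (hS : DictSetting K F Φ) : DictSettingW K F Φ where
  d5 := hS.d5
  residue := hS.residue
  orbit := hS.orbit
  unif := fun 𝔓 => by
    obtain ⟨ϖ, hϖ⟩ := IsDiscreteValuationRing.exists_irreducible 𝔓.toValuationSubring
    exact ⟨(ϖ : F), hS.gen _, 𝔓.ord_coe_irreducible hϖ⟩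
  const := hS.const

/-- **Unramified, weak form**: one uniformiser in the field generated by the constants and the
fixed functions suffices. -/
theorem unram_of_unif {𝔓 : Place K F} {Φ : Set (F ≃+* F)}
    (hres : ∀ f : F, 0 ≤ 𝔓.ord f →
      ∃ a : K, f = algebraMap K F a ∨ 0 < 𝔓.ord (f - algebraMap K F a))
    (horb : ∀ c : K, ∃ S : Finset K, c ∈ S ∧
      ∀ g ∈ Φ, ∀ b ∈ S, ∃ b' ∈ S, g (algebraMap K F b) = algebraMap K F b')
    (hunif : ∃ t : F, t ∈ Subfield.closure
      (Set.range (algebraMap K F) ∪ {f : F | ∀ g ∈ Φ, g f = f}) ∧ 𝔓.ord t = 1)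
    {π₀ : F} (hπfix : ∀ g ∈ Φ, g π₀ = π₀) {e : ℤ} (he : 0 < e) (hπ : 𝔓.ord π₀ = e)
    (hdiv : ∀ f : F, (∀ g ∈ Φ, g f = f) → f ≠ 0 → e ∣ 𝔓.ord f) :
    e = 1 := by
  obtain ⟨t, ht, h1⟩ := hunif
  have key : ∀ A : F, A ∈ regAlg 𝔓 Φ → A ≠ 0 → e ∣ 𝔓.ord A := by
    intro A hA hA0
    have hnn := ord_nonneg_of_mem_regAlg 𝔓 Φ hA
    have h2 := dvd_ord_of_mem_regAlg hres horb hπfix he hπ hdiv (𝔓.ord A).toNat A hA hA0
      (Int.toNat_of_nonneg hnn).symm
    rwa [Int.toNat_of_nonneg hnn] at h2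
  have ht0 : t ≠ 0 := by
    intro h
    rw [h, Place.ord_zero] at h1
    omega
  obtain ⟨A, B, hA, hB, hB0, h⟩ := exists_ratio_regAlg (𝔓 := 𝔓) ht
  have hA0 : A ≠ 0 := by
    rw [← h]
    exact mul_ne_zero ht0 hB0
  have h3 : 𝔓.ord t = 𝔓.ord A - 𝔓.ord B := by
    rw [← h, 𝔓.ord_mul ht0 hB0]
    ring
  have h4 : e ∣ (1 : ℤ) := by
    rw [← h1, h3]
    exact dvd_sub (key A hA hA0) (key B hB hB0)
  exact Int.eq_one_of_dvd_one he.le h4

/-- **Dictionary, weak setting.** -/
theorem dict_of_settingW {Φ : Set (F ≃+* F)} (hS : DictSettingW K F Φ) :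
    DictStatement K F Φ := by
  intro R hfix hfrac π hπ hchar hfin
  obtain ⟨𝔓, hpos, hzero, hmult⟩ := exists_place_of_prime_elt hS.d5 hS.const R π hπ hchar
  have hdiv : ∀ f : F, (∀ g ∈ Φ, g f = f) → f ≠ 0 → 𝔓.ord (π : F) ∣ 𝔓.ord f := by
    intro f hf hf0
    obtain ⟨a, ha, b, hb, hb0, hab⟩ := hfrac f hf
    have ha0 : a ≠ 0 := by
      rw [← hab]
      exact mul_ne_zero hf0 hb0
    have ha0' : (⟨a, ha⟩ : R) ≠ 0 := fun h => ha0 (congrArg Subtype.val h)
    have hb0' : (⟨b, hb⟩ : R) ≠ 0 := fun h => hb0 (congrArg Subtype.val h)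
    obtain ⟨k, hk, hk1⟩ := exists_exact_mult π ⟨a, ha⟩ (hfin _ ha0')
    obtain ⟨l, hl, hl1⟩ := exists_exact_mult π ⟨b, hb⟩ (hfin _ hb0')
    have h1 := hmult ⟨a, ha⟩ k hk hk1
    have h2 := hmult ⟨b, hb⟩ l hl hl1
    have h3 : 𝔓.ord f = 𝔓.ord a - 𝔓.ord b := by
      rw [← hab, 𝔓.ord_mul hf0 hb0]
      ring
    change 𝔓.ord a = _ at h1
    change 𝔓.ord b = _ at h2
    rw [h3, h1, h2]
    exact ⟨(k : ℤ) - l, by ring⟩
  have he : 𝔓.ord (π : F) = 1 :=
    unram_of_unif (fun f hf => hS.residue 𝔓 f hf) hS.orbit (hS.unif 𝔓)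
      (fun g hg => hfix π π.2 g hg) hpos rfl hdiv
  refine ⟨𝔓, fun r k hk hk1 => ?_⟩
  rw [hmult r k hk hk1, he, mul_one]

/-- **Dictionary, consumer form, weak setting.** -/
theorem dictModEq_of_settingW {Φ : Set (F ≃+* F)} (hS : DictSettingW K F Φ) :
    DictModEqStatement K F Φ := by
  intro R hfix hfrac n a b ha hb hn π hπ hchar hfin k l hk hk1 hl hl1
  obtain ⟨𝔓, h𝔓⟩ := dict_of_settingW hS R hfix hfrac π hπ hchar hfin
  have hnn : ∀ r : R, 0 ≤ 𝔓.ord (r : F) := by
    intro r
    rcases eq_or_ne r 0 with rfl | hr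
    · simp
    · obtain ⟨m, hm, hm1⟩ := exists_exact_mult π r (hfin r hr)
      rw [h𝔓 r m hm hm1]
      exact Int.natCast_nonneg m
  have h1 := hn 𝔓 hnn
  rw [h𝔓 a k hk hk1, h𝔓 b l hl hl1] at h1
  have h2 : (l : ℤ) ≡ (k : ℤ) [ZMOD (n : ℤ)] := Int.modEq_iff_dvd.mpr h1
  exact (Int.natCast_modEq_iff.mp h2).symm

end Weak

section Cover

variable {K F F' : Type*} [Field K] [Field F] [Field F'] [Algebra K F] [Algebra K F']
  [Algebra F F'] [IsScalarTower K F F']

/-- **The weak setting on an unramified cover.**  `F' / F` unramified at every place, `F`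
generated by the constants and the `Φ`-fixed functions, every `g' ∈ Φ'` extends some `g ∈ Φ`:
then every place of `F'` has a uniformiser in the field generated by the constants and the
`Φ'`-fixed functions (namely a uniformiser of the place below). -/
theorem unif_of_unramified (Φ : Set (F ≃+* F)) (Φ' : Set (F' ≃+* F'))
    (hgen : ∀ t : F, t ∈ Subfield.closure
      (Set.range (algebraMap K F) ∪ {f : F | ∀ g ∈ Φ, g f = f}))
    (hcompat : ∀ g' ∈ Φ', ∃ g ∈ Φ, ∀ f : F, g' (algebraMap F F' f) = algebraMap F F' (g f))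
    (hunr : ∀ w : Place K F', ∃ v : Place K F, ∀ f : F, w.ord (algebraMap F F' f) = v.ord f)
    (w : Place K F') :
    ∃ t : F', t ∈ Subfield.closure
      (Set.range (algebraMap K F') ∪ {f : F' | ∀ g ∈ Φ', g f = f}) ∧ w.ord t = 1 := by
  obtain ⟨v, hv⟩ := hunr w
  obtain ⟨ϖ, hϖ⟩ := IsDiscreteValuationRing.exists_irreducible v.toValuationSubring
  refine ⟨algebraMap F F' (ϖ : F), ?_, by rw [hv, v.ord_coe_irreducible hϖ]⟩
  have hle : Subfield.closure (Set.range (algebraMap K F) ∪ {f : F | ∀ g ∈ Φ, g f = f}) ≤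
      (Subfield.closure
        (Set.range (algebraMap K F') ∪ {f : F' | ∀ g ∈ Φ', g f = f})).comap
        (algebraMap F F') := by
    rw [Subfield.closure_le]
    rintro z (⟨a, rfl⟩ | hz)
    · apply Subfield.subset_closure
      left
      exact ⟨a, (IsScalarTower.algebraMap_apply K F F' a)⟩
    · apply Subfield.subset_closure
      right
      intro g' hg'
      obtain ⟨g, hg, h⟩ := hcompat g' hg'
      rw [h, hz g hg]
  exact hle (hgen (ϖ : F))

/-- the weak dictionary setting on an unramified cover -/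
theorem dictSettingW_of_unramified (Φ : Set (F ≃+* F)) (Φ' : Set (F' ≃+* F'))
    (hgen : ∀ t : F, t ∈ Subfield.closure
      (Set.range (algebraMap K F) ∪ {f : F | ∀ g ∈ Φ, g f = f}))
    (hcompat : ∀ g' ∈ Φ', ∃ g ∈ Φ, ∀ f : F, g' (algebraMap F F' f) = algebraMap F F' (g f))
    (hunr : ∀ w : Place K F', ∃ v : Place K F, ∀ f : F, w.ord (algebraMap F F' f) = v.ord f)
    (hd5 : ∀ V : ValuationSubring F', (∀ a : K, algebraMap K F' a ∈ V) → V ≠ ⊤ →
      ∃ 𝔓 : Place K F', 𝔓.toValuationSubring = V)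
    (hres : ∀ (v : Place K F') (f : F'), 0 ≤ v.ord f →
      ∃ a : K, f = algebraMap K F' a ∨ 0 < v.ord (f - algebraMap K F' a))
    (horb : ∀ c : K, ∃ S : Finset K, c ∈ S ∧
      ∀ g ∈ Φ', ∀ b ∈ S, ∃ b' ∈ S, g (algebraMap K F' b) = algebraMap K F' b')
    (hconst : ∀ V : ValuationSubring F', (∀ n : ℕ, n ≠ 0 → ((n : F'))⁻¹ ∈ V) →
      ∀ c : K, algebraMap K F' c ∈ V) :
    DictSettingW K F' Φ' where
  d5 := hd5
  residue := hres
  orbit := horb
  unif := unif_of_unramified Φ Φ' hgen hcompat hunr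
  const := hconst

end Cover

end Fermat.Agent.T8.helper23
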