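import Mathlib
import Fermat.Agent.P2.helper74_Arch
import Fermat.Agent.P3.helper85_Cont
import Fermat.Agent.T7.helper22_AttNF
import Fermat.Agent.T3.helper5_Gauss3C

/-!
# T8 = row 38 via S44, box [K-RAT], leaves (L1) + (L2) of helper97 (helper23)

* `exists_pow_mul_mem` (L1): for a valuation subring `A` of `ℚ̄` over the prime `p` and every
  constant `c`, some `p ^ n * c` lies in `A`;
* `exists_pow_mul_mem_finset`: the same with one `n` for a finite family of constants;
* `fixedByOpen_of_pow_eq` (L2): a Laurent series `Z` whose `p`-th power is a modular function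
  of level `M` is defined over a number field (`P3.helper85.FixedByOpen`);
* `coeff_mem_adjoin_of_pow_eq`: the explicit number field (coefficients of `Z ^ p` and the
  leading coefficient of `Z`);
* `fixedByOpen_pair_of_pow_eq`: a common number field for two such roots;
* `finite_orbit_of_pow_eq`: the orbit of `Z` under any subgroup of `G_ℚ` is finite.
-/

set_option autoImplicit false
set_option linter.unusedSectionVars false
set_option linter.unusedVariables false
set_option linter.style.longLine false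

noncomputable section

namespace Fermat.Agent.T8.helper23

open HahnSeries IntermediateField AlgebraicCurve ModularCurve
open Fermat.Agent.S18.helper19 Fermat.Agent.P2.helper29 Fermat.Agent.P2.helper93
open Fermat.Agent.P3.helper85 (FixedByOpen)

/-! ### (L1) -/

/-- **(L1)** every constant becomes integral after multiplication by a power of `p`. -/
theorem exists_pow_mul_mem {A : ValuationSubring Kb} {p : ℕ} (hp : p.Prime)
    (hA : A.LiesOverPrime p) (c : Kb) : ∃ n : ℕ, (p : Kb) ^ n * c ∈ A := by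
  by_cases hcA : c ∈ A
  · exact ⟨0, by rwa [pow_zero, one_mul]⟩
  · have hc : c ≠ 0 := by
      rintro rfl
      exact hcA A.zero_mem
    have hinv : c⁻¹ ∈ A := (A.mem_or_inv_mem c).resolve_left hcA
    have he : (⟨c⁻¹, hinv⟩ : A) ≠ 0 := fun h0 => inv_ne_zero hc (congrArg Subtype.val h0)
    have halg : IsAlgebraic ℤ (((⟨c⁻¹, hinv⟩ : A) : Kb)⁻¹) :=
      (IsFractionRing.isAlgebraic_iff ℤ ℚ Kb).mpr
        ((AlgebraicClosure.isAlgebraic ℚ).isAlgebraic _)
    obtain ⟨n, t, ht⟩ :=
      Fermat.Agent.P2.helper74.exists_dvd_natCast_pow A p hp hA ⟨c⁻¹, hinv⟩ he halg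
    refine ⟨n, ?_⟩
    have h1 : (p : Kb) ^ n = c⁻¹ * (t : Kb) := by
      have := congrArg Subtype.val ht
      simpa using this
    rw [h1, mul_comm, ← mul_assoc, mul_inv_cancel₀ hc, one_mul]
    exact t.2

/-- `p ^ n ∈ A` -/
theorem natCast_pow_mem (A : ValuationSubring Kb) (p n : ℕ) : (p : Kb) ^ n ∈ A :=
  A.pow_mem (by
    have h : ((p : A) : Kb) = (p : Kb) := by simp
    rw [← h]
    exact (p : A).2) n

/-- **(L1)**, monotone form -/
theorem exists_pow_mul_mem_of_le {A : ValuationSubring Kb} {p : ℕ} {c : Kb} {n m : ℕ}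
    (h : (p : Kb) ^ n * c ∈ A) (hnm : n ≤ m) : (p : Kb) ^ m * c ∈ A := by
  obtain ⟨k, rfl⟩ := Nat.exists_eq_add_of_le hnm
  have h1 : (p : Kb) ^ (n + k) * c = (p : Kb) ^ k * ((p : Kb) ^ n * c) := by ring
  rw [h1]
  exact A.mul_mem _ _ (natCast_pow_mem A p k) h

/-- **(L1)** for a finite family: one exponent for all. -/
theorem exists_pow_mul_mem_finset {A : ValuationSubring Kb} {p : ℕ} (hp : p.Prime)
    (hA : A.LiesOverPrime p) {ι : Type*} (s : Finset ι) (c : ι → Kb) :
    ∃ n : ℕ, ∀ i ∈ s, (p : Kb) ^ n * c i ∈ A := by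
  classical
  induction s using Finset.induction_on with
  | empty => exact ⟨0, fun i hi => absurd hi (Finset.notMem_empty i)⟩
  | insert a s ha ih =>
      obtain ⟨n, hn⟩ := ih
      obtain ⟨m, hm⟩ := exists_pow_mul_mem hp hA (c a)
      refine ⟨max n m, fun i hi => ?_⟩
      rcases Finset.mem_insert.1 hi with rfl | hi
      · exact exists_pow_mul_mem_of_le hm (le_max_right _ _)
      · exact exists_pow_mul_mem_of_le (hn i hi) (le_max_left _ _)

/-! ### (L2) -/

/-- the explicit number field of a `p`-th root `Z` of a modular function: every subfield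
containing a suitable finite set (coefficients of the function, leading coefficient of `Z`)
contains all coefficients of `Z` and of `Z ^ p`. -/
theorem coeff_mem_adjoin_of_pow_eq {M : ℕ} [NeZero M] {p : ℕ} (hp : 0 < p) (K : FF M)
    (Z : LaurentSeries Kb) (h : Z ^ p = (K : LaurentSeries Kb)) :
    ∃ S : Finset Kb, ∀ K₀ : IntermediateField ℚ Kb, (S : Set Kb) ⊆ K₀ →
      (∀ j, Z.coeff j ∈ K₀) ∧ (∀ j, (K : LaurentSeries Kb).coeff j ∈ K₀) := by
  classical
  obtain ⟨S₀, hS₀⟩ :=
    Fermat.Agent.T7.helper22.exists_finset_coeff_mem M ⊤ (K : LaurentSeries Kb) K.2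
  refine ⟨insert (Z.coeff Z.order) S₀, fun K₀ hK₀ => ?_⟩
  have h1 : (S₀ : Set Kb) ⊆ K₀ := fun x hx => hK₀ (by
    rw [Finset.coe_insert]
    exact Set.mem_insert_of_mem _ hx)
  have h2 : Z.coeff Z.order ∈ K₀ := hK₀ (by
    rw [Finset.coe_insert]
    exact Set.mem_insert _ _)
  exact ⟨Fermat.Agent.T7.helper22.coeff_mem_of_pow_coeff_mem hp K₀ Z
    (by rw [h]; exact hS₀ K₀ h1) h2, hS₀ K₀ h1⟩

/-- a series with coefficients in a number field is `FixedByOpen` -/
theorem fixedByOpen_of_coeff_mem {Z : LaurentSeries Kb} (K₀ : IntermediateField ℚ Kb)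
    (hfd : FiniteDimensional ℚ K₀) (h : ∀ j, Z.coeff j ∈ K₀) : FixedByOpen Z := by
  refine ⟨K₀, hfd, fun g hg => ?_⟩
  ext j
  rw [coeffMap_coeff]
  exact hg _ (h j)

/-- **(L2)** a `p`-th root (in `ℚ̄((q))`) of a modular function of level `M` is defined over a
number field. -/
theorem fixedByOpen_of_pow_eq {M : ℕ} [NeZero M] {p : ℕ} (hp : 0 < p) (K : FF M)
    (Z : LaurentSeries Kb) (h : Z ^ p = (K : LaurentSeries Kb)) : FixedByOpen Z := by
  obtain ⟨S, hS⟩ := coeff_mem_adjoin_of_pow_eq hp K Z h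
  exact fixedByOpen_of_coeff_mem (IntermediateField.adjoin ℚ (S : Set Kb))
    (Fermat.Agent.T7.helper22.finiteDimensional_adjoin_finset' S)
    (hS _ (IntermediateField.subset_adjoin ℚ _)).1

/-- **(L2)**, integral form: `Z₁ : A((q))` with `incl Z₁ ^ p = K`. -/
theorem fixedByOpen_incl_of_pow_eq {M : ℕ} [NeZero M] {p : ℕ} (hp : 0 < p)
    {A : ValuationSubring Kb} (K : FF M) (Z₁ : LaurentSeries A)
    (h : incl A Z₁ ^ p = (K : LaurentSeries Kb)) : FixedByOpen (incl A Z₁) :=
  fixedByOpen_of_pow_eq hp K _ h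

/-- **(L2)** for a pair: a common number field `E₀` containing all coefficients of two roots
(of two modular functions, of possibly different levels). -/
theorem exists_numberField_pair_of_pow_eq {M M' : ℕ} [NeZero M] [NeZero M'] {p : ℕ} (hp : 0 < p)
    (K : FF M) (K' : FF M') (Z Z' : LaurentSeries Kb) (h : Z ^ p = (K : LaurentSeries Kb))
    (h' : Z' ^ p = (K' : LaurentSeries Kb)) :
    ∃ E₀ : IntermediateField ℚ Kb, FiniteDimensional ℚ E₀ ∧
      (∀ j, Z.coeff j ∈ E₀) ∧ (∀ j, Z'.coeff j ∈ E₀) ∧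
      (∀ j, (K : LaurentSeries Kb).coeff j ∈ E₀) ∧
      (∀ j, (K' : LaurentSeries Kb).coeff j ∈ E₀) := by
  classical
  obtain ⟨S, hS⟩ := coeff_mem_adjoin_of_pow_eq hp K Z h
  obtain ⟨S', hS'⟩ := coeff_mem_adjoin_of_pow_eq hp K' Z' h'
  have hsub : ((S : Set Kb)) ⊆ IntermediateField.adjoin ℚ ((S ∪ S' : Finset Kb) : Set Kb) :=
    fun x hx => IntermediateField.subset_adjoin ℚ _ (by
      rw [Finset.coe_union]
      exact Set.mem_union_left _ hx)
  have hsub' : ((S' : Set Kb)) ⊆ IntermediateField.adjoin ℚ ((S ∪ S' : Finset Kb) : Set Kb) :=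
    fun x hx => IntermediateField.subset_adjoin ℚ _ (by
      rw [Finset.coe_union]
      exact Set.mem_union_right _ hx)
  have hZ := hS _ hsub
  have hZ' := hS' _ hsub'
  exact ⟨IntermediateField.adjoin ℚ ((S ∪ S' : Finset Kb) : Set Kb),
    Fermat.Agent.T7.helper22.finiteDimensional_adjoin_finset' _, hZ.1, hZ'.1, hZ.2, hZ'.2⟩

/-- the `H`-orbit of a `p`-th root of a modular function is finite -/
theorem finite_orbit_of_pow_eq {M : ℕ} [NeZero M] {p : ℕ} (hp : 0 < p)
    (H : Subgroup (Kb ≃ₐ[ℚ] Kb)) (K : FF M) (Z : LaurentSeries Kb)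
    (h : Z ^ p = (K : LaurentSeries Kb)) :
    (Set.range fun σ : H => coeffMap (((σ : Kb ≃ₐ[ℚ] Kb)) : Kb →+* Kb) Z).Finite :=
  Fermat.Agent.T3.helper5.finite_orbit H (fixedByOpen_of_pow_eq hp K Z h)

end Fermat.Agent.T8.helper23
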