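import Mathlib
import Fermat.Agent.T8.helper65_NormInst

/-!
# T8 [CONCL], K-FORM core (helper80, second of helper29).

Vocabulary of `helper65_NormInst` (`HasRed Good c f r`: `f = c * Y₁ / Y₂` with `Good` integral
series, `r = red Y₁ / red Y₂`) and of `helper65_K1Cor` (`k` with `(c₂ / c₁) ^ (p - 1) / p ^ k` a
unit of `A`).

* `IsU A c`            : `c` is a unit of `A` (`A.valuation c = 1`);
* `IsVal A p c e`      : `c ^ (p - 1) / p ^ e` is a unit of `A`
                         (`(p - 1) v(c) = e v(p)`; holds for the scaling constants of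
                         `I_K1`-fixed functions);
* `hasRed_inv`, `hasRed_pow`, `hasRed_div`, `hasRed_const` : algebra of scaled reductions;
* `hasRed_sheet_shift` : **sheet shift** `f' * (a * g ^ p) = f`: scaling of `u'` on the next
                         sheet from the scaling on the sheet, the constant `a = α ^ p` and the
                         scaling of `g₁`;
* `IsVal.sheet_shift`  : the exponent on the next sheet is `e - p * e_g` when `a` is a unit
                         (peu ramifie);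
* `hasRed_transfer`    : `u' * h ^ p = u`: scaling of `u'` from the scalings of `u` and `h`;
* `isU_k_of_isVal`     : `IsVal c₁ a`, `IsVal c₂ b` give the hypothesis on `k := b - a` of the
                         K1-corollary;
* `dvd_of_k1cor`       : the conclusion at one point: from the K1-corollary
                         `p ∣ ord r₁' + k m` for `u'`, `k ≡ k₀` and `ord r₁' ≡ ord f₁` mod `p`:
                         `p ∣ ord f₁ - (- k₀) * m`.
-/

set_option autoImplicit false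
set_option linter.unusedSectionVars false
set_option linter.style.haveILetI false

noncomputable section

namespace Fermat.Agent.T8.helper80

open HahnSeries
open Fermat.Agent.S18.helper19 Fermat.Agent.P2.helper29 Fermat.Agent.T8.helper65

variable {A : ValuationSubring Kb}

/-! ### Units of `A` -/

/-- `c` is a unit of `A` -/
def IsU (A : ValuationSubring Kb) (c : Kb) : Prop := A.valuation c = 1

theorem isU_one : IsU A 1 := map_one _

theorem IsU.ne_zero {c : Kb} (hc : IsU A c) : c ≠ 0 := by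
  rintro rfl
  unfold IsU at hc
  rw [map_zero] at hc
  exact zero_ne_one hc

theorem IsU.mul {c d : Kb} (hc : IsU A c) (hd : IsU A d) : IsU A (c * d) := by
  unfold IsU at *
  rw [map_mul, hc, hd, one_mul]

theorem IsU.inv {c : Kb} (hc : IsU A c) : IsU A c⁻¹ := by
  unfold IsU at *
  rw [map_inv₀, hc, inv_one]

theorem IsU.div {c d : Kb} (hc : IsU A c) (hd : IsU A d) : IsU A (c / d) := by
  rw [div_eq_mul_inv]; exact hc.mul hd.inv

theorem IsU.pow {c : Kb} (hc : IsU A c) (n : ℕ) : IsU A (c ^ n) := by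
  unfold IsU at *
  rw [map_pow, hc, one_pow]

theorem IsU.zpow {c : Kb} (hc : IsU A c) (n : ℤ) : IsU A (c ^ n) := by
  unfold IsU at *
  rw [map_zpow₀, hc, one_zpow]

theorem IsU.mem {c : Kb} (hc : IsU A c) : c ∈ A :=
  (A.valuation_le_one_iff c).mp (le_of_eq hc)

theorem IsU.inv_mem {c : Kb} (hc : IsU A c) : c⁻¹ ∈ A := hc.inv.mem

theorem isU_of_mem {c : Kb} (h : c ∈ A) (h' : c⁻¹ ∈ A) (hc : c ≠ 0) : IsU A c := by
  have h1 : A.valuation c ≤ 1 := (A.valuation_le_one_iff c).mpr h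
  have h2 : A.valuation c⁻¹ ≤ 1 := (A.valuation_le_one_iff _).mpr h'
  have hv : A.valuation c ≠ 0 := (Valuation.ne_zero_iff _).mpr hc
  rw [map_inv₀] at h2
  have h3 : 1 ≤ A.valuation c := by
    have := (inv_le_one₀ (zero_lt_iff.mpr hv)).mp h2
    exact this
  exact le_antisymm h1 h3

/-- the shape used in `helper65.K1CorAt`: `x / y ∈ A` and `y / x ∈ A` -/
theorem isU_div_of_mem {x y : Kb} (hx : x ≠ 0) (hy : y ≠ 0) (h : x / y ∈ A) (h' : y / x ∈ A) :
    IsU A (x / y) :=
  isU_of_mem h (by rw [inv_div]; exact h') (div_ne_zero hx hy)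

theorem IsU.div_mem {x y : Kb} (h : IsU A (x / y)) : x / y ∈ A ∧ y / x ∈ A :=
  ⟨h.mem, by have := h.inv_mem; rwa [inv_div] at this⟩

/-! ### Constants of tame valuation -/

/-- `(p - 1) v(c) = e v(p)`: the constant `c ^ (p - 1) / p ^ e` is a unit of `A`. -/
def IsVal (A : ValuationSubring Kb) (p : ℕ) (c : Kb) (e : ℤ) : Prop :=
  IsU A (c ^ (p - 1) / (p : Kb) ^ e)

theorem isVal_of_isU {p : ℕ} {c : Kb} (hc : IsU A c) : IsVal A p c 0 := by
  unfold IsVal
  rw [zpow_zero, div_one]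
  exact hc.pow _

theorem IsVal.mul {p : ℕ} {c d : Kb} {e e' : ℤ} (hp : (p : Kb) ≠ 0) (hc : IsVal A p c e)
    (hd : IsVal A p d e') : IsVal A p (c * d) (e + e') := by
  unfold IsVal at *
  have h := hc.mul hd
  have e1 : (c * d) ^ (p - 1) / (p : Kb) ^ (e + e') =
      c ^ (p - 1) / (p : Kb) ^ e * (d ^ (p - 1) / (p : Kb) ^ e') := by
    rw [mul_pow, zpow_add₀ hp]
    field_simp
  rw [e1]
  exact h

theorem IsVal.inv {p : ℕ} {c : Kb} {e : ℤ} (hc : IsVal A p c e) : IsVal A p c⁻¹ (-e) := by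
  unfold IsVal at *
  have h := hc.inv
  have e1 : c⁻¹ ^ (p - 1) / (p : Kb) ^ (-e) = (c ^ (p - 1) / (p : Kb) ^ e)⁻¹ := by
    rw [inv_pow, zpow_neg, inv_div, div_eq_mul_inv, inv_inv, mul_comm, div_eq_mul_inv]
  rw [e1]
  exact h

theorem IsVal.div {p : ℕ} {c d : Kb} {e e' : ℤ} (hp : (p : Kb) ≠ 0) (hc : IsVal A p c e)
    (hd : IsVal A p d e') : IsVal A p (c / d) (e - e') := by
  rw [div_eq_mul_inv, sub_eq_add_neg]
  exact hc.mul hp hd.inv

theorem IsVal.pow {p : ℕ} {c : Kb} {e : ℤ} (hc : IsVal A p c e) (n : ℕ) :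
    IsVal A p (c ^ n) (n * e) := by
  unfold IsVal at *
  have h := hc.pow n
  have e1 : (c ^ n) ^ (p - 1) / (p : Kb) ^ ((n : ℤ) * e) = (c ^ (p - 1) / (p : Kb) ^ e) ^ n := by
    rw [div_pow, ← pow_mul, ← pow_mul, mul_comm n (p - 1), mul_comm (n : ℤ) e, zpow_mul,
      zpow_natCast]
  rw [e1]
  exact h

theorem IsVal.of_unitRel {p : ℕ} {c c' : Kb} {e : ℤ} (hc : IsVal A p c e)
    (h : IsU A (c' / c)) : IsVal A p c' e := by
  unfold IsVal at *
  have hc0 : c ≠ 0 := by
    rintro rfl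
    rw [div_zero] at h
    exact h.ne_zero rfl
  have h1 := (h.pow (p - 1)).mul hc
  have e1 : c' ^ (p - 1) / (p : Kb) ^ e = (c' / c) ^ (p - 1) * (c ^ (p - 1) / (p : Kb) ^ e) := by
    rw [div_pow]
    field_simp
  rw [e1]
  exact h1

/-- **sheet shift of the exponent** (peu ramifie: `a = α ^ p` is a unit): if the scaling
constant on the sheet has exponent `e` and the scaling constant of `g₁` has exponent `eg`, the
scaling constant `c / (a * γ ^ p)` on the next sheet has exponent `e - p * eg`. -/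
theorem IsVal.sheet_shift {p : ℕ} {c a γ : Kb} {e eg : ℤ} (hp : (p : Kb) ≠ 0)
    (hc : IsVal A p c e) (ha : IsU A a) (hγ : IsVal A p γ eg) :
    IsVal A p (c / (a * γ ^ p)) (e - p * eg) := by
  have h1 : IsVal A p (a * γ ^ p) (0 + (p : ℤ) * eg) := (isVal_of_isU ha).mul hp (hγ.pow p)
  rw [zero_add] at h1
  exact hc.div hp h1

/-- the hypothesis on `k` of the K1-corollary from the two exponents -/
theorem isU_k_of_isVal {p : ℕ} {c₁ c₂ : Kb} {a b : ℤ} (hp : (p : Kb) ≠ 0)
    (h₁ : IsVal A p c₁ a) (h₂ : IsVal A p c₂ b) :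
    IsU A ((c₂ / c₁) ^ (p - 1) / (p : Kb) ^ (b - a)) :=
  h₂.div hp h₁

/-! ### Algebra of scaled reductions -/

variable {Good : LaurentSeries A → Prop}

theorem hasRed_const (hG : GoodClass A Good) (c : Kb) :
    HasRed Good c (algebraMap Kb (LaurentSeries Kb) c) (1 : LaurentSeries (kA A)) :=
  ⟨1, 1, hG.one, hG.one, by simp, by simp⟩

theorem hasRed_inv {c : Kb} {f : LaurentSeries Kb} {r : LaurentSeries (kA A)}
    (h : HasRed Good c f r) (hc : c ≠ 0) (hf : f ≠ 0) (hr : r ≠ 0) :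
    HasRed Good c⁻¹ f⁻¹ r⁻¹ := by
  obtain ⟨Y₁, Y₂, g₁, g₂, e, er⟩ := h
  refine ⟨Y₂, Y₁, g₂, g₁, ?_, ?_⟩
  · have hC : algebraMap Kb (LaurentSeries Kb) c ≠ 0 :=
      (map_ne_zero (algebraMap Kb (LaurentSeries Kb))).mpr hc
    rw [map_inv₀]
    field_simp
    rw [mul_comm (incl A Y₂) f, ← e, mul_comm]
  · field_simp
    rw [← er, mul_comm]

theorem hasRed_div (hG : GoodClass A Good) {c c' : Kb} {f f' : LaurentSeries Kb}
    {r r' : LaurentSeries (kA A)} (h : HasRed Good c f r) (h' : HasRed Good c' f' r')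
    (hc : c' ≠ 0) (hf : f' ≠ 0) (hr : r' ≠ 0) :
    HasRed Good (c / c') (f / f') (r / r') := by
  rw [div_eq_mul_inv, div_eq_mul_inv, div_eq_mul_inv]
  exact HasRed.mul hG h (hasRed_inv h' hc hf hr)

theorem hasRed_pow (hG : GoodClass A Good) {c : Kb} {f : LaurentSeries Kb}
    {r : LaurentSeries (kA A)} (h : HasRed Good c f r) (n : ℕ) :
    HasRed Good (c ^ n) (f ^ n) (r ^ n) := by
  induction n with
  | zero => simpa using hasRed_one hG
  | succ n ih =>
    rw [pow_succ, pow_succ, pow_succ]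
    exact HasRed.mul hG ih h

/-- **sheet shift**: if `f' * (a * g ^ p) = f` (formula `ρ u' * (α ^ p * g₁ ^ p) = u'` read on
a sheet), the scaling of `f'` is `c / (a * γ ^ p)` with reduction `r / rg ^ p`. -/
theorem hasRed_sheet_shift (hG : GoodClass A Good) {p : ℕ} {c a γ : Kb}
    {f f' g : LaurentSeries Kb} {r rg : LaurentSeries (kA A)}
    (h : HasRed Good c f r) (hg : HasRed Good γ g rg)
    (ha : a ≠ 0) (hγ : γ ≠ 0) (hg0 : g ≠ 0) (hrg : rg ≠ 0)
    (hrel : f' * (algebraMap Kb (LaurentSeries Kb) a * g ^ p) = f) :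
    HasRed Good (c / (a * γ ^ p)) f' (r / rg ^ p) := by
  have hC : algebraMap Kb (LaurentSeries Kb) a ≠ 0 :=
    (map_ne_zero (algebraMap Kb (LaurentSeries Kb))).mpr ha
  have hden : algebraMap Kb (LaurentSeries Kb) a * g ^ p ≠ 0 :=
    mul_ne_zero hC (pow_ne_zero _ hg0)
  have h1 : HasRed Good (a * γ ^ p) (algebraMap Kb (LaurentSeries Kb) a * g ^ p)
      (1 * rg ^ p) := HasRed.mul hG (hasRed_const hG a) (hasRed_pow hG hg p)
  rw [one_mul] at h1
  have h2 := hasRed_div hG h h1 (mul_ne_zero ha (pow_ne_zero _ hγ)) hden (pow_ne_zero _ hrg)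
  have e1 : f / (algebraMap Kb (LaurentSeries Kb) a * g ^ p) = f' := by
    rw [← hrel]
    field_simp
  rwa [e1] at h2

/-- **transfer `u' = u / h ^ p`**: scaling of `u'` from the scalings of `u` and of `h`. -/
theorem hasRed_transfer (hG : GoodClass A Good) {p : ℕ} {κ ch : Kb}
    {u u' h : LaurentSeries Kb} {f rh : LaurentSeries (kA A)}
    (hu : HasRed Good κ u f) (hh : HasRed Good ch h rh)
    (hch : ch ≠ 0) (hh0 : h ≠ 0) (hrh : rh ≠ 0) (hrel : u' * h ^ p = u) :
    HasRed Good (κ / ch ^ p) u' (f / rh ^ p) := by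
  have h1 := hasRed_div hG hu (hasRed_pow hG hh p) (pow_ne_zero _ hch) (pow_ne_zero _ hh0)
    (pow_ne_zero _ hrh)
  have e1 : u / h ^ p = u' := by
    rw [← hrel]
    field_simp
  rwa [e1] at h1

/-! ### The conclusion at one point -/

/-- **the conclusion at one closed point** (peu ramifie case): the K1-corollary for `u'` on a
sheet pair with exponent `k`, `k ≡ k₀` mod `p`, and `ord r₁' = ord f₁ - p * ord rh` give
`p ∣ ord f₁ - (- k₀) * m`. -/
theorem dvd_of_k1cor {p : ℕ} {of₁ or₁ orh k k₀ m : ℤ}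
    (hcor : (p : ℤ) ∣ or₁ + k * m) (hk : k ≡ k₀ [ZMOD p]) (hr : or₁ = of₁ - p * orh) :
    (p : ℤ) ∣ of₁ - (-k₀) * m := by
  have h1 : (p : ℤ) ∣ (k - k₀) * m := Dvd.dvd.mul_right ((Int.modEq_iff_dvd.mp hk.symm)) m
  have h2 : of₁ - (-k₀) * m = (or₁ + k * m) - (k - k₀) * m + p * orh := by
    rw [hr]; ring
  rw [h2]
  exact dvd_add (dvd_sub hcor h1) (dvd_mul_right _ _)

/-- congruence of the exponents `k = b - a` on two sheet pairs from the sheet shifts -/
theorem k_modEq_of_shift {p : ℕ} {a a' b b' ea eb : ℤ}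
    (ha : a' = a - p * ea) (hb : b' = b - p * eb) :
    b' - a' ≡ b - a [ZMOD p] := by
  rw [ha, hb]
  have h : b - p * eb - (a - p * ea) = (b - a) + p * (ea - eb) := by ring
  rw [h]
  have h0 : (p : ℤ) * (ea - eb) ≡ 0 [ZMOD p] := Int.modEq_zero_iff_dvd.mpr (dvd_mul_right _ _)
  have h5 := (Int.ModEq.refl (b - a)).add h0
  rwa [add_zero] at h5

end Fermat.Agent.T8.helper80
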