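import Mathlib
import Fermat.Agent.T8.helper98_SplitDesc
import Fermat.Agent.P3.helper94_Kummer

/-!
# T8 = row 38 via S44, leaf [SPLIT] (helper98, owner): the split case in CLASS form

Kummer dictionary (P3 `helper94_Kummer`) + the descent `desc_statement`:

* `classFixedBy_of_smul_eq` : if `σ • x = x` for all `σ ∈ H`, every Kummer representative `u` of
  `x` satisfies `ClassFixedBy M H n u` (`σ u = c v ^ n u`);
* `exists_fixed_kummerRep`  : a class `x` killed by `n` and fixed by a subgroup `H` of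
  `Gal(ℚ̄/ℚ)` has a Kummer representative `u'` which is FIXED by `H` (coefficients in the fixed
  field of `H`) and has leading coefficient `1` at `∞`;
* `exists_k1_kummerRep`     : the case `H = I_K1` (split case of the wall: `u'` is `K1`-rational);
* `exists_k0_kummerRep`     : the case `H = I_A` (`u'` is `K0`-rational: UFD2 / SLOPE apply
  directly, no norm).
-/

set_option autoImplicit false
set_option linter.unusedSectionVars false
set_option linter.unusedVariables false

noncomputable section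

namespace Fermat.Agent.T8.helper98

open HahnSeries ModularCurve AlgebraicCurve
open Fermat.Agent.S18.helper19 Fermat.Agent.P2.helper93 Fermat.Agent.P3.helper94

variable {M : ℕ} [NeZero M]

/-- Kummer form of "`H` fixes the class `x`". -/
theorem classFixedBy_of_smul_eq {n : ℕ} {x : JZero M} {u : FF M} (hu : IsKummerRep n x u)
    (H : (Kb ≃ₐ[ℚ] Kb) → Prop) (hx : ∀ σ, H σ → σ • x = x) : ClassFixedBy M H n u := by
  intro σ hσ
  have h1 : IsKummerRep n x (galF M σ u) := by
    have h2 := hu.galois_smul_jZero σ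
    rw [hx σ hσ] at h2
    exact h2
  obtain ⟨v, w, hv, hw, he⟩ := hu.unique h1
  obtain ⟨c, rfl⟩ := const_of_ord_eq_zero M w hw.2
  refine ⟨c, v, ?_⟩
  rw [he]
  ring

/-- a class killed by `n` and fixed by the subgroup `H` has an `H`-fixed Kummer representative
with leading coefficient `1`. -/
theorem exists_fixed_kummerRep (H : Subgroup (Kb ≃ₐ[ℚ] Kb)) {n : ℕ} (hn : 0 < n) {x : JZero M}
    (hx : n • x = 0) (hfix : ∀ σ ∈ H, σ • x = x) :
    ∃ u' : FF M, IsKummerRep n x u' ∧ FixedBy M (· ∈ H) u' ∧ lcF u' = 1 := by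
  obtain ⟨u, hu⟩ := exists_isKummerRep (K := Kb) (F := FF M) hx
  obtain ⟨c₀, G, hc₀, hG, hfixed, hlc⟩ := desc_statement (M := M) H hn u hu.ne_zero
    (classFixedBy_of_smul_eq hu (· ∈ H) hfix)
  have := Fermat.Agent.S18.helper19.hasPD M
  refine ⟨algebraMap Kb (FF M) c₀ * G ^ n * u, ?_, hfixed, hlc⟩
  have h1 := hu.mul_pow (u := G) (w := algebraMap Kb (FF M) c₀) hG (hasTrivialDiv_algebraMap hc₀)
  have e : algebraMap Kb (FF M) c₀ * G ^ n * u = u * (algebraMap Kb (FF M) c₀ * G ^ n) := by ring
  rw [e]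
  exact h1

/-- **[SPLIT]**, class form: a `p`-torsion class fixed by `I_K1` has a `K1`-rational Kummer
representative with leading coefficient `1`. -/
theorem exists_k1_kummerRep (A : ValuationSubring Kb) {p : ℕ} (hp : 0 < p) {x : JZero M}
    (hx : p • x = 0) (hfix : ∀ σ, IsIK1 A p σ → σ • x = x) :
    ∃ u' : FF M, IsKummerRep p x u' ∧ FixedBy M (IsIK1 A p) u' ∧ lcF u' = 1 := by
  obtain ⟨u', h1, h2, h3⟩ := exists_fixed_kummerRep (M := M) (ik1Subgroup A p) hp hx
    (fun σ hσ => hfix σ (mem_ik1Subgroup.1 hσ))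
  exact ⟨u', h1, fun σ hσ => h2 σ (mem_ik1Subgroup.2 hσ), h3⟩

/-- the `K0`-rational version: a class killed by `n` and fixed by the inertia group of `A` has an
inertia-fixed Kummer representative with leading coefficient `1`. -/
theorem exists_k0_kummerRep (A : ValuationSubring Kb) {n : ℕ} (hn : 0 < n) {x : JZero M}
    (hx : n • x = 0) (hfix : ∀ σ ∈ A.inertiaSubgroupIn ℚ, σ • x = x) :
    ∃ u' : FF M, IsKummerRep n x u' ∧ (∀ σ ∈ A.inertiaSubgroupIn ℚ, galF M σ u' = u') ∧
      lcF u' = 1 :=
  exists_fixed_kummerRep (M := M) (A.inertiaSubgroupIn ℚ) hn hx hfix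

end Fermat.Agent.T8.helper98

end
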