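import Mathlib
import Fermat.Agent.T8.helper29_ConclN
import Fermat.Agent.T8.helper65_K1SlopeX
import Fermat.Agent.T8.helper98_SplitKum
import Fermat.Agent.T8.helper80_ConclK
import Fermat.Agent.T8.helper38_WallChain
import Fermat.Agent.T8.helper29_ConclOrd
import Fermat.Agent.T8.helper54_Phi

/-!
# T8 = row 38 via S44, leaf [SPLIT], exit in the TEAM VOCABULARY (helper57, second of helper98)

The split case of the wall in the binding vocabulary of `helper29_ConclN` / `helper54_PhiDefs` /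
`helper16_RingXDefs` (level `N q`, special fibre field `FFb A N`, `IsRed1`, `ModEqOff`, places
off the cusps), from the consumer contract of [RING-X] ALONE:

* `slopeOutN_of_k1Fixed`   : `helper16.SlopeXStatement N q hq hqN A B`, `u ≠ 0` fixed by `I_K1`,
  `q ∣ div u`  ⟹  `∃ k`, `IsRed1 u f₁`, `ModEqOff (-k) f₁ ν`, `IsRed1 (W u) f₂`, `ModEqOff k f₂ ν`;
* `slopeOutN_of_classFixed`: the same conclusion (`SlopeOutN` for `u` and for `W u`) for ANY
  Kummer function `u` whose class is fixed by `I_K1` (`helper98.ClassFixedBy`): this is the split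
  case of `helper29.ConclStatementN`;
* `isWallBN2_of_fixed`     : class form `helper29.IsWallBN2`;
* `splitWall_wallBN`       : **the split box of the wall**,
  `SlopeXAllStatement → helper38.SplitWallStatement π helper29.wallBN`.

`ν` is ANY first-component reduction of the weight-one unit `b₀` (`IsUnit0 b₀ B ε`,
`IsRed1 b₀ ν`): `ordAt_iota_eq` identifies `ord_Q ν` with `ordAt Q (iota B)`.

Inputs on main: `helper98.splitDesc_statement` / `exists_k1_kummerRep` (Hilbert 90),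
`helper65.exists_k1Slope` (norm to `K0` + `SlopeXStatement`), `T2.helper58.scaleStatement_bad`,
`T2.helper96.FFb_mul_eq`.  No cover, no cusp clause.
-/

set_option autoImplicit false
set_option linter.unusedSectionVars false
set_option linter.unusedVariables false
set_option linter.style.longLine false
set_option linter.style.haveILetI false

noncomputable section

namespace Fermat.Agent.T8.helper57

open HahnSeries IntermediateField AlgebraicCurve ModularCurve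
open Fermat.Agent.S18.helper19 Fermat.Agent.P2.helper29 Fermat.Agent.P2.helper93
open Fermat.Agent.T2.helper36
open Fermat.Agent.P2.helper66 (iota)
open Fermat.Agent.T3.helper36 (RhoQ)
open Fermat.Agent.T3.helper16 (IsUnit0)
open Fermat.Agent.P3.helper94 (IsKummerRep)
open Fermat.Agent.T8.helper65 Fermat.Agent.T8.helper80
open Fermat.Agent.T8.helper98 (IsIK1 ClassFixedBy FixedBy)
open Fermat.Agent.T8.helper54 (IsRed1 DvdOff ModEqOff)
open Fermat.Agent.T8.helper16 (ordAt ordAt_of_mem ordAt_mul IsFinitePt SlopeXStatement)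
open Fermat.Agent.T8.helper29 (SlopeOutN IsWallBN2 wallBN)

variable {N q : ℕ} [NeZero N] [NeZero q] {A : ValuationSubring Kb}

/-! ### Dictionary -/

/-- a scaling with good series of level `N q` is a first-component reduction in `FFb A N` -/
theorem isRed1_of_hasRed (hq : q.Prime) (hA : A.LiesOverPrime q) {κ : Kb} (hκ : κ ≠ 0)
    {u : FF (N * q)} {r : LaurentSeries (kA A)}
    (h : HasRed (IsGood A (N * q)) κ (u : LaurentSeries Kb) r) :
    ∃ hr : r ∈ FFb A N, IsRed1 A N q u ⟨r, hr⟩ := by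
  have hFF : FFb A (N * q) = FFb A N := Fermat.Agent.T2.helper96.FFb_mul_eq N A hq hA
  have hr : r ∈ FFb A N := by
    rw [← hFF]
    exact h.mem_FFb
  obtain ⟨h1, h2⟩ := h.rhoQ_isGood hκ
  exact ⟨hr, fun h0 => h2 (congrArg Subtype.val h0), κ, hκ, h1⟩

/-- `ord_Q ν = ordAt Q (iota B)` for every first-component reduction `ν` of the unit `b₀` -/
theorem ordAt_iota_eq (hq : q.Prime) (hqN : ¬ q ∣ N) {b0 : FF (N * q)} {B : PowerSeries ℤ}
    {ε : ℤ} (hb : IsUnit0 hq hqN b0 B ε) {ν : FFb A N} (hν : IsRed1 A N q b0 ν)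
    (Q : Place (kA A) (FFb A N)) : ordAt Q (iota (kA A) B) = Q.ord ν := by
  obtain ⟨hν0, κ, hκ, hρ⟩ := hν
  have hν0' : (ν : LaurentSeries (kA A)) ≠ 0 := fun h => hν0 (Subtype.ext h)
  have h0 : RhoQ A (algebraMap Kb (LaurentSeries Kb) (1 : Kb)⁻¹ * (b0 : LaurentSeries Kb))
      (iota (kA A) B) := by
    rw [inv_one, map_one, one_mul, hb.coe_eq]
    exact Fermat.Agent.T3.helper16.rhoQ_of_model A
      ⟨iota (↥A) B, Fermat.Agent.T3.helper16.incl_iota A B,
        Fermat.Agent.T3.helper16.red_iota A B⟩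
  have hi0 : iota (kA A) B ≠ 0 :=
    Fermat.Agent.T3.helper16.iota_ne_zero_of_coeff (R := kA A) hb.const
  obtain ⟨c, hc, e⟩ := Fermat.Agent.T8.helper29.rhoQ_unique_const hκ one_ne_zero hν0' hi0 hρ h0
  rw [e, ordAt_const_mul Q hc ν.2, ordAt_of_mem Q ν.2]

/-! ### The split case, function level -/

section Function

variable (hq : q.Prime) (hqN : ¬ q ∣ N) (hA : A.LiesOverPrime q) {B : PowerSeries ℤ}

include hA in
/-- **[SPLIT], `K1`-rational Kummer function.**  For `u ≠ 0` fixed by `I_K1` with `q ∣ div u`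
the period formula holds for `u` and for `W u`, with opposite constants. -/
theorem slopeOutN_of_k1Fixed (hS : SlopeXStatement N q hq hqN A B) {ν : FFb A N}
    (hν : ∀ Q : Place (kA A) (FFb A N), ordAt Q (iota (kA A) B) = Q.ord ν)
    {u : FF (N * q)} (hu : u ≠ 0) (hfix : FixedBy (N * q) (IsIK1 A q) u)
    (hdiv : ∀ P : Place Kb (FF (N * q)), (q : ℤ) ∣ P.ord u) :
    ∃ (k : ℤ) (f₁ f₂ : FFb A N), IsRed1 A N q u f₁ ∧ ModEqOff A N q (-k) f₁ ν ∧
      IsRed1 A N q (atkinLehner N q hq hqN u) f₂ ∧ ModEqOff A N q k f₂ ν := by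
  have hSc : ScaleStatement (N * q) A :=
    Fermat.Agent.T2.helper58.scaleStatement_bad N q hq hqN A hA
  have hWu : atkinLehner N q hq hqN u ≠ 0 :=
    (map_ne_zero_iff _ (atkinLehner N q hq hqN).injective).mpr hu
  have hfix' : ∀ σ ∈ muFix q ⊓ IA A, galF (N * q) σ u = u := fun σ hσ => hfix σ ⟨hσ.2, hσ.1⟩
  obtain ⟨c₁, Y₁, Y₁', hc₁, gY₁, gY₁', e₁⟩ := hSc (u : LaurentSeries Kb) u.2
    (fun h => hu (Subtype.ext h))
  obtain ⟨c₂, Y₂, Y₂', hc₂, gY₂, gY₂', e₂⟩ :=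
    hSc ((atkinLehner N q hq hqN u : FF (N * q)) : LaurentSeries Kb)
      (atkinLehner N q hq hqN u).2 (fun h => hWu (Subtype.ext h))
  have h₁ : HasRed (IsGood A (N * q)) c₁ (u : LaurentSeries Kb) (red A Y₁ / red A Y₁') :=
    ⟨Y₁, Y₁', gY₁, gY₁', e₁, div_mul_cancel₀ _ gY₁'.2.2⟩
  have h₂ : HasRed (IsGood A (N * q)) c₂
      ((atkinLehner N q hq hqN u : FF (N * q)) : LaurentSeries Kb) (red A Y₂ / red A Y₂') :=
    ⟨Y₂, Y₂', gY₂, gY₂', e₂, div_mul_cancel₀ _ gY₂'.2.2⟩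
  obtain ⟨k, -, hk⟩ := exists_k1Slope hA hS hu hfix' hdiv hc₁ hc₂ h₁ h₂
  obtain ⟨hr₁, R₁⟩ := isRed1_of_hasRed hq hA hc₁ h₁
  obtain ⟨hr₂, R₂⟩ := isRed1_of_hasRed hq hA hc₂ h₂
  refine ⟨k, ⟨_, hr₁⟩, ⟨_, hr₂⟩, R₁, ?_, R₂, ?_⟩
  · intro Q hQ
    obtain ⟨d₁, -⟩ := hk Q hQ
    rw [ordAt_of_mem Q hr₁, hν Q] at d₁
    rw [Int.modEq_iff_dvd]
    obtain ⟨t, ht⟩ := d₁
    exact ⟨-t, by linear_combination -ht⟩
  · intro Q hQ
    obtain ⟨-, d₂⟩ := hk Q hQ
    rw [ordAt_of_mem Q hr₂, hν Q] at d₂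
    rw [Int.modEq_iff_dvd]
    obtain ⟨t, ht⟩ := d₂
    exact ⟨-t, by linear_combination -ht⟩

end Function

/-! ### The split case for an arbitrary Kummer function of a fixed class -/

section ClassFixed

variable (hq : q.Prime) (hqN : ¬ q ∣ N) (hA : A.LiesOverPrime q) {B : PowerSeries ℤ}

/-- `q ∣ div u` is stable under `u ↦ c₀ * G ^ q * u` -/
theorem dvd_ord_twistN {c₀ : Kb} {G u : FF (N * q)} (hc₀ : c₀ ≠ 0) (hG : G ≠ 0) (hu : u ≠ 0)
    (hdiv : ∀ P : Place Kb (FF (N * q)), (q : ℤ) ∣ P.ord u) (P : Place Kb (FF (N * q))) :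
    (q : ℤ) ∣ P.ord (algebraMap Kb (FF (N * q)) c₀ * G ^ q * u) := by
  have hc : algebraMap Kb (FF (N * q)) c₀ ≠ 0 := by
    rw [Ne, map_eq_zero_iff _ (algebraMap Kb (FF (N * q))).injective]
    exact hc₀
  have hGp : G ^ q ≠ 0 := pow_ne_zero _ hG
  have e : P.ord (G ^ q) = (q : ℤ) * P.ord G := by
    have := P.ord_zpow G (q : ℤ)
    rwa [zpow_natCast] at this
  rw [P.ord_mul (mul_ne_zero hc hGp) hu, P.ord_mul hc hGp,
    Fermat.Agent.P3.helper94.ord_algebraMap_eq_zero, zero_add, e]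
  exact dvd_add (Dvd.intro _ rfl) (hdiv P)

/-- the reduction of `u` from the reductions of `c₀ * G ^ q * u` and of `G` -/
theorem isRed1_untwistN {c₀ : Kb} {G u : FF (N * q)} (hc₀ : c₀ ≠ 0) (hG : G ≠ 0)
    {F₁ G₁ : FFb A N} (h₁ : IsRed1 A N q (algebraMap Kb (FF (N * q)) c₀ * G ^ q * u) F₁)
    (hg : IsRed1 A N q G G₁) : IsRed1 A N q u (F₁ * (1 * G₁ ^ q)⁻¹) := by
  have h := h₁.mul (((Fermat.Agent.T8.helper54.isRed1_const (A := A) (N := N) (q := q) hc₀).mul
    (hg.pow q)).inv)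
  have hc : algebraMap Kb (FF (N * q)) c₀ ≠ 0 := by
    rw [Ne, map_eq_zero_iff _ (algebraMap Kb (FF (N * q))).injective]
    exact hc₀
  have e : algebraMap Kb (FF (N * q)) c₀ * G ^ q * u * (algebraMap Kb (FF (N * q)) c₀ * G ^ q)⁻¹
      = u := by
    have h0 : algebraMap Kb (FF (N * q)) c₀ * G ^ q ≠ 0 := mul_ne_zero hc (pow_ne_zero _ hG)
    field_simp
  rwa [e] at h

/-- `ModEqOff` does not see `q`-th powers -/
theorem modEqOff_untwistN {β : ℤ} {F₁ G₁ ν : FFb A N} (hF : F₁ ≠ 0) (hG : G₁ ≠ 0)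
    (h : ModEqOff A N q β F₁ ν) : ModEqOff A N q β (F₁ * (1 * G₁ ^ q)⁻¹) ν := by
  intro Q hQ
  have e : Q.ord (G₁ ^ q) = (q : ℤ) * Q.ord G₁ := by
    have := Q.ord_zpow G₁ (q : ℤ)
    rwa [zpow_natCast] at this
  have e2 : Q.ord (F₁ * (1 * G₁ ^ q)⁻¹) = Q.ord F₁ - (q : ℤ) * Q.ord G₁ := by
    rw [one_mul, Q.ord_mul hF (inv_ne_zero (pow_ne_zero _ hG)), Q.ord_inv, e]
    ring
  rw [e2]
  have h1 := h Q hQ
  have h2 : Q.ord F₁ - (q : ℤ) * Q.ord G₁ ≡ Q.ord F₁ [ZMOD q] := by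
    rw [Int.modEq_iff_dvd]
    exact ⟨Q.ord G₁, by ring⟩
  exact h2.trans h1

include hA in
/-- **[SPLIT], Kummer form, team vocabulary.**  If the class of the Kummer function `u` is fixed
by `I_K1`, the period formula holds for `u` and for `W u`, with opposite constants.  This is the
split case of `helper29.ConclStatementN`. -/
theorem slopeOutN_of_classFixed (hS : SlopeXStatement N q hq hqN A B) {ν : FFb A N}
    (hν : ∀ Q : Place (kA A) (FFb A N), ordAt Q (iota (kA A) B) = Q.ord ν)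
    {u : FF (N * q)} (hu : u ≠ 0) (hdiv : ∀ P : Place Kb (FF (N * q)), (q : ℤ) ∣ P.ord u)
    (hcl : ClassFixedBy (N * q) (IsIK1 A q) q u) :
    ∃ (k : ℤ) (f₁ f₂ : FFb A N), IsRed1 A N q u f₁ ∧ ModEqOff A N q (-k) f₁ ν ∧
      IsRed1 A N q (atkinLehner N q hq hqN u) f₂ ∧ ModEqOff A N q k f₂ ν := by
  obtain ⟨c₀, G, hc₀, hG, hfix, -⟩ :=
    Fermat.Agent.T8.helper98.splitDesc_statement (M := N * q) A hq.pos u hu hcl
  have hc0F : algebraMap Kb (FF (N * q)) c₀ ≠ 0 := by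
    rw [Ne, map_eq_zero_iff _ (algebraMap Kb (FF (N * q))).injective]
    exact hc₀
  have hu''0 : algebraMap Kb (FF (N * q)) c₀ * G ^ q * u ≠ 0 :=
    mul_ne_zero (mul_ne_zero hc0F (pow_ne_zero _ hG)) hu
  have hWG0 : atkinLehner N q hq hqN G ≠ 0 :=
    (map_ne_zero_iff _ (atkinLehner N q hq hqN).injective).mpr hG
  obtain ⟨k, F₁, F₂, R₁, M₁, R₂, M₂⟩ := slopeOutN_of_k1Fixed hq hqN hA hS hν hu''0 hfix
    (dvd_ord_twistN hc₀ hG hu hdiv)
  obtain ⟨G₁, S₁⟩ := Fermat.Agent.T8.helper54.exists_isRed1 hq hqN hA hG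
  obtain ⟨G₂, S₂⟩ := Fermat.Agent.T8.helper54.exists_isRed1 hq hqN hA hWG0
  have hW : atkinLehner N q hq hqN (algebraMap Kb (FF (N * q)) c₀ * G ^ q * u)
      = algebraMap Kb (FF (N * q)) c₀ * (atkinLehner N q hq hqN G) ^ q *
        atkinLehner N q hq hqN u := by
    rw [map_mul, map_mul, map_pow, AlgEquiv.commutes]
  rw [hW] at R₂
  exact ⟨k, _, _, isRed1_untwistN hc₀ hG R₁ S₁, modEqOff_untwistN R₁.1 S₁.1 M₁,
    isRed1_untwistN hc₀ hWG0 R₂ S₂, modEqOff_untwistN R₂.1 S₂.1 M₂⟩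

include hA in
/-- the split case of `helper29.ConclStatementN` in the shape `SlopeOutN` (both components) -/
theorem slopeOutN_pair_of_classFixed (hS : SlopeXStatement N q hq hqN A B) {ν : FFb A N}
    (hν : ∀ Q : Place (kA A) (FFb A N), ordAt Q (iota (kA A) B) = Q.ord ν)
    {u : FF (N * q)} (hu : u ≠ 0) (hdiv : ∀ P : Place Kb (FF (N * q)), (q : ℤ) ∣ P.ord u)
    (hcl : ClassFixedBy (N * q) (IsIK1 A q) q u) :
    SlopeOutN A N q ν u ∧ SlopeOutN A N q ν (atkinLehner N q hq hqN u) := by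
  obtain ⟨k, f₁, f₂, h1, h2, h3, h4⟩ := slopeOutN_of_classFixed hq hqN hA hS hν hu hdiv hcl
  exact ⟨⟨f₁, -k, h1, h2⟩, ⟨f₂, k, h3, h4⟩⟩

end ClassFixed

/-! ### Class form and the split box of the wall -/

section Class

variable (hq : q.Prime) (hqN : ¬ q ∣ N) (hA : A.LiesOverPrime q) {B : PowerSeries ℤ}

include hA in
/-- **[SPLIT], class form**: a class killed by `q` and fixed by `I_K1` satisfies the period
formula (`helper29.IsWallBN2`), with a `K1`-rational Kummer function. -/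
theorem isWallBN2_of_fixed (hS : SlopeXStatement N q hq hqN A B) {ν : FFb A N}
    (hν : ∀ Q : Place (kA A) (FFb A N), ordAt Q (iota (kA A) B) = Q.ord ν)
    {x : JZero (N * q)} (hx : q • x = 0)
    (hfix : ∀ σ : Kb ≃ₐ[ℚ] Kb, IsIK1 A q σ → σ • x = x) :
    IsWallBN2 A N q (atkinLehner N q hq hqN) ν x := by
  obtain ⟨u, hk, hu, -⟩ :=
    Fermat.Agent.T8.helper98.exists_k1_kummerRep (M := N * q) A hq.pos hx hfix
  have hdiv : ∀ P : Place Kb (FF (N * q)), (q : ℤ) ∣ P.ord u := by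
    obtain ⟨-, D, -, hD⟩ := hk
    exact fun P => ⟨_, (hD P).symm⟩
  obtain ⟨k, f₁, f₂, h1, h2, h3, h4⟩ := slopeOutN_of_k1Fixed hq hqN hA hS hν hk.1 hu hdiv
  exact ⟨u, f₁, f₂, -k, k, hk, h1, h2, h3, h4⟩

end Class

section Wall

open Fermat.Agent.T8.helper72 Fermat.Agent.T8.helper38

/-- the consumer contract of [RING-X] at all the bad pairs of the wall -/
def SlopeXAllStatement : Prop :=
  ∀ (P : FreyPackage) (M' : ℕ) [NeZero M'] (hpN : ¬ P.p ∣ 4 * M') (A : ValuationSubring Kb),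
    A.LiesOverPrime P.p → ∀ (b0 : FF (4 * M' * P.p)) (B : PowerSeries ℤ) (ε : ℤ),
      IsUnit0 P.pp hpN b0 B ε → SlopeXStatement (4 * M') P.p P.pp hpN A B

/-- **[SPLIT]: the split box of the wall** at `B = helper29.wallBN`, from the consumer contract
of [RING-X] alone. -/
theorem splitWall_wallBN (π : PullData) (h : SlopeXAllStatement) :
    SplitWallStatement π wallBN := by
  intro P W M' _ hpN A V0 ctx x hx hfix hpN' b0 B ε hb ν hν
  exact isWallBN2_of_fixed P.pp hpN' ctx.liesOver (h P M' hpN' A ctx.liesOver b0 B ε hb)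
    (fun Q => ordAt_iota_eq P.pp hpN' hb hν Q) (ctx.real.tors x hx) hfix

end Wall

end Fermat.Agent.T8.helper57

end
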