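import Fermat.Agent.T8.helper29_ConclAsm
import Fermat.Agent.T8.helper5_SlopeX
import Fermat.Agent.T8.helper65_K1SlopeX
import Fermat.Agent.T8.helper57_SplitN

/-!
# T8 (row 38, at risk), [SLOPE] on `X`: the instance `helper29.SlopeXAll` (helper23)

`helper29.SlopeXAll` (first open Prop of `helper29.walls_of_slopes` /
`helper29.conclAll_of_slopes`) is the K1-corollary on `X` at every bad pair `(4 M', p)` of a Frey
package, with `m = ord_Q ν` for ANY first-component reduction `ν` of the unit `b₀`.

* `slopeXAll : helper29.SlopeXAll`, unconditional, from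
  `helper5.slopeX` (`helper16.SlopeXStatement`, `4 ∣ 4 M'`),
  `helper65.k1CorAt_of_slopeX` (norm from `K1` to `K0`) and
  `helper57.ordAt_iota_eq` (`ord_Q ν = ordAt Q (iota B)`).
-/

set_option autoImplicit false
set_option linter.unusedSectionVars false
set_option linter.unusedVariables false
set_option linter.style.longLine false

noncomputable section

namespace Fermat.Agent.T8.helper23

/-- **[SLOPE] K1-version on `X` at the bad pairs of the Frey packages** -/
theorem slopeXAll : Fermat.Agent.T8.helper29.SlopeXAll := by
  intro P M' _ hpN A hA b0 B ε hb ν hν Q hQ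
  have hS := Fermat.Agent.T8.helper5.slopeX hb hA (Or.inl (Dvd.intro M' rfl))
  have h := Fermat.Agent.T8.helper65.k1CorAt_of_slopeX hA hS Q hQ
  rw [Fermat.Agent.T8.helper57.ordAt_iota_eq P.pp hpN hb hν Q] at h
  exact h

end Fermat.Agent.T8.helper23
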