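import Fermat.Agent.T8.helper23_DictContract
import Fermat.Agent.T6.helper26_PVal

/-!
# T8 (row 38, at risk), [RING-X] DICTIONARY (helper23): constant field extensions are unramified

`F / K` a function field with the Prelude `Place` API, `Φ` a set of ring automorphisms of `F`,
`𝔓` a place.  If the orders at `𝔓` of all nonzero `Φ`-fixed functions are divisible by
`e = ord_𝔓 π₀ > 0` (`π₀` a `Φ`-fixed function), then `e = 1` (`unram`): the place `𝔓` is
unramified over the field of `Φ`-fixed functions.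

Inputs (`DictSetting`): the residue field of `𝔓` is `K`; every constant lies in a finite
`Φ`-stable set of constants; `F` is generated by the constants and the `Φ`-fixed functions.

Proof.  For a `Φ`-fixed `a`, regular at `𝔓`, with value `c`, and `S ∋ c` finite `Φ`-stable, the
product `μ = ∏_{b ∈ S} (a - b)` is `Φ`-fixed and `μ = (a - c) U` with `U` a unit at `𝔓`, so
`(a - c) U = π₀ A'` with `A'` fixed and regular.  Such identities are stable under sums and
products, so they hold for every `A` in the `K`-algebra `regAlg` generated by the regular fixed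
functions; induction on `ord_𝔓 A` gives `e ∣ ord_𝔓 A` on `regAlg`, hence on its fraction field
`F`.  Elementary: no Galois theory, no completion.
-/

set_option autoImplicit false
set_option linter.unusedSectionVars false
set_option linter.style.longLine false

noncomputable section

namespace Fermat.Agent.T8.helper23

open AlgebraicCurve
open Fermat.Agent.T6.helper26

section Unram

variable {K F : Type*} [Field K] [Field F] [Algebra K F]

/-- ultrametric: adding an element of positive order to a nonzero element of order `0`. -/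
theorem ord_add_of_pos_of_zero (𝔓 : Place K F) {x y : F} (hx : 0 < 𝔓.ord x) (hy0 : y ≠ 0)
    (hy : 𝔓.ord y = 0) : x + y ≠ 0 ∧ 𝔓.ord (x + y) = 0 := by
  have hne : x + y ≠ 0 := by
    intro h
    have : x = -y := eq_neg_of_add_eq_zero_left h
    rw [this, ord_neg_eq, hy] at hx
    exact lt_irrefl _ hx
  refine ⟨hne, le_antisymm ?_ ?_⟩
  · by_contra hlt
    push_neg at hlt
    have e : y = (x + y) + (-x) := by ring
    have h1 : 0 < 𝔓.ord (-x) := by rwa [ord_neg_eq]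
    have h2 := ord_add_pos 𝔓 hlt h1 (by rwa [← e])
    rw [← e, hy] at h2
    exact lt_irrefl _ h2
  · have := Fermat.Agent.P2.helper74.ord_add_ge 𝔓 hne
    rw [hy] at this
    exact le_trans (le_min hx.le le_rfl) this

variable (𝔓 : Place K F) (Φ : Set (F ≃+* F))

/-- the `Φ`-fixed functions regular at `𝔓` -/
def fixReg : Set F := {a | (∀ g ∈ Φ, g a = a) ∧ 0 ≤ 𝔓.ord a}

/-- the `K`-algebra generated by the `Φ`-fixed functions regular at `𝔓` -/
def regAlg : Subalgebra K F := Algebra.adjoin K (fixReg 𝔓 Φ)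

theorem ord_nonneg_of_mem_regAlg {A : F} (hA : A ∈ regAlg 𝔓 Φ) : 0 ≤ 𝔓.ord A := by
  induction hA using Algebra.adjoin_induction with
  | mem x hx => exact hx.2
  | algebraMap r => rw [ord_const]
  | add x y _ _ hx hy => exact ord_add_nonneg 𝔓 hx hy
  | mul x y _ _ hx hy => exact ord_mul_nonneg 𝔓 hx hy

variable {𝔓 Φ}

/-- Step 1: the generators. -/
theorem exists_mul_eq_of_fixReg
    (hres : ∀ f : F, 0 ≤ 𝔓.ord f →
      ∃ a : K, f = algebraMap K F a ∨ 0 < 𝔓.ord (f - algebraMap K F a))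
    (horb : ∀ c : K, ∃ S : Finset K, c ∈ S ∧
      ∀ g ∈ Φ, ∀ b ∈ S, ∃ b' ∈ S, g (algebraMap K F b) = algebraMap K F b')
    {π₀ : F} (hπfix : ∀ g ∈ Φ, g π₀ = π₀) {e : ℤ} (he : 0 < e) (hπ : 𝔓.ord π₀ = e)
    (hdiv : ∀ f : F, (∀ g ∈ Φ, g f = f) → f ≠ 0 → e ∣ 𝔓.ord f)
    {a : F} (ha : a ∈ fixReg 𝔓 Φ) :
    ∃ (c : K) (U A' : F), U ∈ regAlg 𝔓 Φ ∧ A' ∈ regAlg 𝔓 Φ ∧ U ≠ 0 ∧ 𝔓.ord U = 0 ∧
      (a - algebraMap K F c) * U = π₀ * A' := by
  classical
  obtain ⟨c, hc⟩ := hres a ha.2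
  rcases hc with hc | hc
  · refine ⟨c, 1, 0, one_mem _, zero_mem _, one_ne_zero, 𝔓.ord_one, ?_⟩
    rw [hc]
    simp
  obtain ⟨S, hcS, hS⟩ := horb c
  have hac : a - algebraMap K F c ≠ 0 := by
    intro h
    rw [h, Place.ord_zero] at hc
    exact lt_irrefl _ hc
  have hfac : ∀ b ∈ S.erase c,
      a - algebraMap K F b ≠ 0 ∧ 𝔓.ord (a - algebraMap K F b) = 0 := by
    intro b hb
    have hbc : b ≠ c := (Finset.mem_erase.mp hb).1
    have e1 : a - algebraMap K F b = (a - algebraMap K F c) + algebraMap K F (c - b) := by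
      rw [map_sub]
      ring
    rw [e1]
    apply ord_add_of_pos_of_zero 𝔓 hc
    · intro h
      have h2 : c - b = 0 := (algebraMap K F).injective (h.trans (map_zero _).symm)
      exact hbc (sub_eq_zero.mp h2).symm
    · exact ord_const 𝔓 _
  have hUprop : (∏ b ∈ S.erase c, (a - algebraMap K F b)) ≠ 0 ∧
      𝔓.ord (∏ b ∈ S.erase c, (a - algebraMap K F b)) = 0 := by
    apply Finset.prod_induction (fun b => a - algebraMap K F b)
      (fun x => x ≠ 0 ∧ 𝔓.ord x = 0)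
    · rintro x y ⟨hx0, hx⟩ ⟨hy0, hy⟩
      exact ⟨mul_ne_zero hx0 hy0, by rw [𝔓.ord_mul hx0 hy0, hx, hy, add_zero]⟩
    · exact ⟨one_ne_zero, 𝔓.ord_one⟩
    · exact hfac
  have haA : a ∈ regAlg 𝔓 Φ := Algebra.subset_adjoin ha
  have hUA : (∏ b ∈ S.erase c, (a - algebraMap K F b)) ∈ regAlg 𝔓 Φ := by
    apply prod_mem
    intro b _
    exact sub_mem haA (Subalgebra.algebraMap_mem _ b)
  have hμU : (a - algebraMap K F c) * (∏ b ∈ S.erase c, (a - algebraMap K F b))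
      = ∏ b ∈ S, (a - algebraMap K F b) :=
    Finset.mul_prod_erase S (fun b => a - algebraMap K F b) hcS
  have hμfix : ∀ g ∈ Φ, g (∏ b ∈ S, (a - algebraMap K F b))
      = ∏ b ∈ S, (a - algebraMap K F b) := by
    intro g hg
    have hex : ∀ b : K, ∃ b' : K, b ∈ S → (b' ∈ S ∧ g (algebraMap K F b) = algebraMap K F b') := by
      intro b
      by_cases hb : b ∈ S
      · obtain ⟨b', hb', h⟩ := hS g hg b hb
        exact ⟨b', fun _ => ⟨hb', h⟩⟩
      · exact ⟨b, fun h => absurd h hb⟩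
    choose τ hτ using hex
    rw [map_prod]
    have h1 : ∀ b ∈ S, g (a - algebraMap K F b) = a - algebraMap K F (τ b) := by
      intro b hb
      rw [map_sub, ha.1 g hg, (hτ b hb).2]
    rw [Finset.prod_congr rfl h1]
    have hinj : ∀ x ∈ S, ∀ y ∈ S, τ x = τ y → x = y := by
      intro b hb b' hb' h
      have h1 := (hτ b hb).2
      have h2 := (hτ b' hb').2
      rw [h] at h1
      exact (algebraMap K F).injective (g.injective (h1.trans h2.symm))
    have himg : S.image τ = S := by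
      apply Finset.eq_of_subset_of_card_le
      · intro x hx
        obtain ⟨b, hb, rfl⟩ := Finset.mem_image.mp hx
        exact (hτ b hb).1
      · rw [Finset.card_image_of_injOn (fun x hx y hy h => hinj x hx y hy h)]
    have h2 := Finset.prod_image (s := S) (g := τ) (f := fun b => a - algebraMap K F b) hinj
    rw [himg] at h2
    exact h2.symm
  have hμ0 : (∏ b ∈ S, (a - algebraMap K F b)) ≠ 0 := by
    rw [← hμU]
    exact mul_ne_zero hac hUprop.1
  have hμord : 𝔓.ord (∏ b ∈ S, (a - algebraMap K F b)) = 𝔓.ord (a - algebraMap K F c) := by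
    rw [← hμU, 𝔓.ord_mul hac hUprop.1, hUprop.2, add_zero]
  have hπ0 : π₀ ≠ 0 := by
    intro h
    rw [h, Place.ord_zero] at hπ
    omega
  obtain ⟨m, hm⟩ := hdiv _ hμfix hμ0
  have hm1 : 1 ≤ m := by
    have h3 : 0 < e * m := by
      rw [← hm, hμord]
      exact hc
    by_contra h
    push_neg at h
    have h4 : m ≤ 0 := by omega
    nlinarith
  refine ⟨c, _, (∏ b ∈ S, (a - algebraMap K F b)) * π₀⁻¹, hUA, ?_, hUprop.1, hUprop.2, ?_⟩
  · apply Algebra.subset_adjoin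
    refine ⟨fun g hg => ?_, ?_⟩
    · rw [map_mul, map_inv₀, hμfix g hg, hπfix g hg]
    · rw [𝔓.ord_mul hμ0 (inv_ne_zero hπ0), Place.ord_inv, hπ, hm]
      nlinarith
  · rw [hμU]
    field_simp

/-- Step 2: every element of `regAlg`. -/
theorem exists_mul_eq_of_mem_regAlg
    (hres : ∀ f : F, 0 ≤ 𝔓.ord f →
      ∃ a : K, f = algebraMap K F a ∨ 0 < 𝔓.ord (f - algebraMap K F a))
    (horb : ∀ c : K, ∃ S : Finset K, c ∈ S ∧
      ∀ g ∈ Φ, ∀ b ∈ S, ∃ b' ∈ S, g (algebraMap K F b) = algebraMap K F b')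
    {π₀ : F} (hπfix : ∀ g ∈ Φ, g π₀ = π₀) {e : ℤ} (he : 0 < e) (hπ : 𝔓.ord π₀ = e)
    (hdiv : ∀ f : F, (∀ g ∈ Φ, g f = f) → f ≠ 0 → e ∣ 𝔓.ord f)
    {A : F} (hA : A ∈ regAlg 𝔓 Φ) :
    ∃ (c : K) (U A' : F), U ∈ regAlg 𝔓 Φ ∧ A' ∈ regAlg 𝔓 Φ ∧ U ≠ 0 ∧ 𝔓.ord U = 0 ∧
      (A - algebraMap K F c) * U = π₀ * A' := by
  induction hA using Algebra.adjoin_induction with
  | mem x hx => exact exists_mul_eq_of_fixReg hres horb hπfix he hπ hdiv hx
  | algebraMap r =>
    exact ⟨r, 1, 0, one_mem _, zero_mem _, one_ne_zero, 𝔓.ord_one, by simp⟩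
  | add x y _ _ hx hy =>
    obtain ⟨c1, U1, A1, hU1, hA1, hU10, hU1o, h1⟩ := hx
    obtain ⟨c2, U2, A2, hU2, hA2, hU20, hU2o, h2⟩ := hy
    refine ⟨c1 + c2, U1 * U2, A1 * U2 + A2 * U1, mul_mem hU1 hU2,
      add_mem (mul_mem hA1 hU2) (mul_mem hA2 hU1), mul_ne_zero hU10 hU20,
      by rw [𝔓.ord_mul hU10 hU20, hU1o, hU2o, add_zero], ?_⟩
    rw [map_add]
    linear_combination U2 * h1 + U1 * h2
  | mul x y _ hy' hx hy =>
    obtain ⟨c1, U1, A1, hU1, hA1, hU10, hU1o, h1⟩ := hx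
    obtain ⟨c2, U2, A2, hU2, hA2, hU20, hU2o, h2⟩ := hy
    refine ⟨c1 * c2, U1 * U2, A1 * y * U2 + algebraMap K F c1 * A2 * U1, mul_mem hU1 hU2,
      add_mem (mul_mem (mul_mem hA1 hy') hU2)
        (mul_mem (mul_mem (Subalgebra.algebraMap_mem _ c1) hA2) hU1),
      mul_ne_zero hU10 hU20, by rw [𝔓.ord_mul hU10 hU20, hU1o, hU2o, add_zero], ?_⟩
    rw [map_mul]
    linear_combination (y * U2) * h1 + (algebraMap K F c1 * U1) * h2

/-- Step 2b: `e` divides the order of every nonzero element of `regAlg`. -/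
theorem dvd_ord_of_mem_regAlg
    (hres : ∀ f : F, 0 ≤ 𝔓.ord f →
      ∃ a : K, f = algebraMap K F a ∨ 0 < 𝔓.ord (f - algebraMap K F a))
    (horb : ∀ c : K, ∃ S : Finset K, c ∈ S ∧
      ∀ g ∈ Φ, ∀ b ∈ S, ∃ b' ∈ S, g (algebraMap K F b) = algebraMap K F b')
    {π₀ : F} (hπfix : ∀ g ∈ Φ, g π₀ = π₀) {e : ℤ} (he : 0 < e) (hπ : 𝔓.ord π₀ = e)
    (hdiv : ∀ f : F, (∀ g ∈ Φ, g f = f) → f ≠ 0 → e ∣ 𝔓.ord f) :
    ∀ (n : ℕ) (A : F), A ∈ regAlg 𝔓 Φ → A ≠ 0 → 𝔓.ord A = n → e ∣ (n : ℤ) := by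
  intro n
  induction n using Nat.strong_induction_on with
  | _ n ih =>
    intro A hA hA0 hn
    rcases Nat.eq_zero_or_pos n with h0 | hpos
    · subst h0
      simp
    obtain ⟨c, U, A', hU, hA', hU0, hUo, h⟩ :=
      exists_mul_eq_of_mem_regAlg hres horb hπfix he hπ hdiv hA
    have hApos : 0 < 𝔓.ord A := by
      rw [hn]
      exact_mod_cast hpos
    have hπ0 : π₀ ≠ 0 := by
      intro h
      rw [h, Place.ord_zero] at hπ
      omega
    have hA'nn := ord_nonneg_of_mem_regAlg 𝔓 Φ hA'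
    have hc : c = 0 := by
      by_contra hc0
      have hcc : algebraMap K F (-c) ≠ 0 := by
        intro h
        have : -c = 0 := (algebraMap K F).injective (h.trans (map_zero _).symm)
        exact hc0 (neg_eq_zero.mp this)
      have h3 := ord_add_of_pos_of_zero 𝔓 hApos hcc (ord_const 𝔓 _)
      have e1 : A + algebraMap K F (-c) = A - algebraMap K F c := by
        rw [map_neg]
        ring
      rw [e1] at h3
      have hL0 : (A - algebraMap K F c) * U ≠ 0 := mul_ne_zero h3.1 hU0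
      have hLo : 𝔓.ord ((A - algebraMap K F c) * U) = 0 := by
        rw [𝔓.ord_mul h3.1 hU0, h3.2, hUo, add_zero]
      rw [h] at hL0 hLo
      have hA'0 : A' ≠ 0 := right_ne_zero_of_mul hL0
      rw [𝔓.ord_mul hπ0 hA'0, hπ] at hLo
      omega
    rw [hc, map_zero, sub_zero] at h
    have hA'0 : A' ≠ 0 := by
      intro h0
      rw [h0, mul_zero] at h
      exact mul_ne_zero hA0 hU0 h
    have hord : 𝔓.ord A = e + 𝔓.ord A' := by
      have h5 := congrArg 𝔓.ord h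
      rwa [𝔓.ord_mul hA0 hU0, hUo, add_zero, 𝔓.ord_mul hπ0 hA'0, hπ] at h5
    obtain ⟨m, hm⟩ : ∃ m : ℕ, 𝔓.ord A' = m :=
      ⟨(𝔓.ord A').toNat, (Int.toNat_of_nonneg hA'nn).symm⟩
    have hlt : m < n := by
      have : (m : ℤ) < n := by
        rw [← hm, ← hn, hord]
        omega
      exact_mod_cast this
    have h6 := ih m hlt A' hA' hA'0 hm
    rw [← hn, hord, hm]
    exact (dvd_add_right (dvd_refl e)).mpr h6

/-- Step 3: every element of the field generated by the constants and the fixed functions is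
a ratio of elements of `regAlg`. -/
theorem exists_ratio_regAlg {t : F}
    (ht : t ∈ Subfield.closure (Set.range (algebraMap K F) ∪ {f : F | ∀ g ∈ Φ, g f = f})) :
    ∃ A B : F, A ∈ regAlg 𝔓 Φ ∧ B ∈ regAlg 𝔓 Φ ∧ B ≠ 0 ∧ t * B = A := by
  induction ht using Subfield.closure_induction with
  | mem x hx =>
    rcases hx with ⟨c, rfl⟩ | hx
    · exact ⟨algebraMap K F c, 1, Subalgebra.algebraMap_mem _ c, one_mem _, one_ne_zero,
        mul_one _⟩
    · by_cases h : 0 ≤ 𝔓.ord x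
      · exact ⟨x, 1, Algebra.subset_adjoin ⟨hx, h⟩, one_mem _, one_ne_zero, mul_one _⟩
      · push_neg at h
        have hx0 : x ≠ 0 := by
          intro h0
          rw [h0, Place.ord_zero] at h
          exact lt_irrefl _ h
        refine ⟨1, x⁻¹, one_mem _, Algebra.subset_adjoin ⟨fun g hg => ?_, ?_⟩,
          inv_ne_zero hx0, mul_inv_cancel₀ hx0⟩
        · rw [map_inv₀, hx g hg]
        · rw [Place.ord_inv]
          omega
  | one => exact ⟨1, 1, one_mem _, one_mem _, one_ne_zero, mul_one _⟩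
  | add x y _ _ hx hy =>
    obtain ⟨A1, B1, hA1, hB1, hB10, h1⟩ := hx
    obtain ⟨A2, B2, hA2, hB2, hB20, h2⟩ := hy
    exact ⟨A1 * B2 + A2 * B1, B1 * B2, add_mem (mul_mem hA1 hB2) (mul_mem hA2 hB1),
      mul_mem hB1 hB2, mul_ne_zero hB10 hB20, by rw [← h1, ← h2]; ring⟩
  | neg x _ hx =>
    obtain ⟨A1, B1, hA1, hB1, hB10, h1⟩ := hx
    exact ⟨-A1, B1, neg_mem hA1, hB1, hB10, by rw [← h1]; ring⟩
  | inv x _ hx =>
    obtain ⟨A1, B1, hA1, hB1, hB10, h1⟩ := hx
    by_cases hx0 : x = 0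
    · exact ⟨0, 1, zero_mem _, one_mem _, one_ne_zero, by rw [hx0]; simp⟩
    · have hA10 : A1 ≠ 0 := by
        rw [← h1]
        exact mul_ne_zero hx0 hB10
      refine ⟨B1, A1, hB1, hA1, hA10, ?_⟩
      rw [← h1]
      field_simp
  | mul x y _ _ hx hy =>
    obtain ⟨A1, B1, hA1, hB1, hB10, h1⟩ := hx
    obtain ⟨A2, B2, hA2, hB2, hB20, h2⟩ := hy
    exact ⟨A1 * A2, B1 * B2, mul_mem hA1 hA2, mul_mem hB1 hB2, mul_ne_zero hB10 hB20,
      by rw [← h1, ← h2]; ring⟩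

/-- **Constant field extensions are unramified.** -/
theorem unram
    (hres : ∀ f : F, 0 ≤ 𝔓.ord f →
      ∃ a : K, f = algebraMap K F a ∨ 0 < 𝔓.ord (f - algebraMap K F a))
    (horb : ∀ c : K, ∃ S : Finset K, c ∈ S ∧
      ∀ g ∈ Φ, ∀ b ∈ S, ∃ b' ∈ S, g (algebraMap K F b) = algebraMap K F b')
    (hgen : ∀ t : F, t ∈ Subfield.closure
      (Set.range (algebraMap K F) ∪ {f : F | ∀ g ∈ Φ, g f = f}))
    {π₀ : F} (hπfix : ∀ g ∈ Φ, g π₀ = π₀) {e : ℤ} (he : 0 < e) (hπ : 𝔓.ord π₀ = e)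
    (hdiv : ∀ f : F, (∀ g ∈ Φ, g f = f) → f ≠ 0 → e ∣ 𝔓.ord f) :
    e = 1 := by
  obtain ⟨ϖ, hϖ⟩ := IsDiscreteValuationRing.exists_irreducible 𝔓.toValuationSubring
  have h1 : 𝔓.ord (ϖ : F) = 1 := 𝔓.ord_coe_irreducible hϖ
  have key : ∀ A : F, A ∈ regAlg 𝔓 Φ → A ≠ 0 → e ∣ 𝔓.ord A := by
    intro A hA hA0
    have hnn := ord_nonneg_of_mem_regAlg 𝔓 Φ hA
    have h2 := dvd_ord_of_mem_regAlg hres horb hπfix he hπ hdiv (𝔓.ord A).toNat A hA hA0
      (Int.toNat_of_nonneg hnn).symm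
    rwa [Int.toNat_of_nonneg hnn] at h2
  have hϖ0 : (ϖ : F) ≠ 0 := by
    intro h
    rw [h, Place.ord_zero] at h1
    omega
  obtain ⟨A, B, hA, hB, hB0, h⟩ := exists_ratio_regAlg (𝔓 := 𝔓) (hgen (ϖ : F))
  have hA0 : A ≠ 0 := by
    rw [← h]
    exact mul_ne_zero hϖ0 hB0
  have h3 : 𝔓.ord (ϖ : F) = 𝔓.ord A - 𝔓.ord B := by
    rw [← h, 𝔓.ord_mul hϖ0 hB0]
    ring
  have h4 : e ∣ (1 : ℤ) := by
    rw [← h1, h3]
    exact dvd_sub (key A hA hA0) (key B hB hB0)
  exact Int.eq_one_of_dvd_one he.le h4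

end Unram

end Fermat.Agent.T8.helper23
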