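import Fermat.Agent.T8.helper27_G1EndDefs
import Fermat.Agent.T8.helper72_ChainDefs
import Fermat.Agent.T7.helper72_S33Wire
import Fermat.Agent.S13.helper72_FreyAtP
import Fermat.Agent.S13.helper64_TorsionCount
import Fermat.Agent.T3.helper84_K0Ring

/-!
# T8 = row 38 via S44, leaf [G1-END] (helper27, owner): PROOF of the contract

* `natDegree_le_card_of_inertia_stable` : valuation count.  `f ∈ ℤ[X]` with leading coefficient
  `p` and no root in `A`; a nonempty finite set of roots which is stable under the inertia group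
  of `A` contains at least `deg f` elements (the product over the set is fixed by inertia, so its
  valuation is an integral power of `v(p)`, while the product over all roots has valuation
  `≥ v(p)⁻¹ ` only).
* `freyNotScalar` : `FreyNotScalarStatement`.  If inertia acted on `E[p]` by the cyclotomic
  scalar, then `(σ₂ - 1) x = x` for `σ₂ ζ = ζ ^ 2`, so every `p`-torsion point would lie in the
  kernel of reduction (S13, `frey_inertia_sub_mem_kernel_at_p`); the `x`-coordinates of the
  nonzero multiples of one torsion point form an inertia-stable set of at most `p - 1` roots of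
  the torsion polynomial (degree `(p ^ 2 - 1) / 2`): contradiction with the valuation count.
* `g1_bad` : (G1) of T7 at every bad pair (`helper72.g1_of_b3_b4`).
* `g1End`, `g1EndSub` : the contracts `G1EndStatement`, `G1EndSubStatement`.
* `g1End72` : **the contract (G) of the top chain**, `helper72.G1EndStatement`.
-/

set_option autoImplicit false
set_option linter.unusedSectionVars false
set_option linter.unusedVariables false
set_option linter.style.longLine false
set_option linter.style.haveILetI false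

noncomputable section

namespace Fermat.Agent.T8.helper27

open Polynomial ModularCurve WeierstrassCurve WeierstrassCurve.Affine
  WeierstrassCurve.Affine.Point
open Fermat.Agent.T7 Fermat.Agent.S13.helper38 Fermat.Agent.S13.helper64

local notation "Kb" => AlgebraicClosure ℚ

/-! ### The valuation count -/

/-- the valuation of a product over a multiset of non-integral elements is `> 1` as soon as the
multiset is nonempty -/
theorem one_lt_val_prod (A : ValuationSubring Kb) (R : Multiset Kb)
    (hR : ∀ ξ ∈ R, ξ ∉ A) (hne : R ≠ 0) : 1 < A.valuation R.prod := by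
  induction R using Multiset.induction_on with
  | empty => exact absurd rfl hne
  | cons ξ R ih =>
    have hξ : 1 < A.valuation ξ := by
      by_contra h
      exact hR ξ (Multiset.mem_cons_self ξ R) ((A.valuation_le_one_iff ξ).mp (not_lt.mp h))
    rw [Multiset.prod_cons, map_mul]
    by_cases hR0 : R = 0
    · rw [hR0, Multiset.prod_zero, map_one, mul_one]
      exact hξ
    · have h2 := ih (fun η hη => hR η (Multiset.mem_cons_of_mem hη)) hR0
      calc (1 : A.ValueGroup) = 1 * 1 := (one_mul 1).symm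
        _ < A.valuation ξ * A.valuation R.prod := by
            exact mul_lt_mul'' hξ h2 zero_le_one zero_le_one

/-- **Valuation count.**  `f ∈ ℤ[X]` with leading coefficient `p`, no root of `f` in `A`
(`A` over `p`).  A nonempty finite set of roots of `f` which is stable under the inertia group of
`A` has at least `deg f` elements (so it is the set of all roots). -/
theorem natDegree_le_card_of_inertia_stable {p : ℕ} (hp : p.Prime)
    (A : ValuationSubring Kb) (hA : A.LiesOverPrime p)
    (f : ℤ[X]) (hlc : f.leadingCoeff = (p : ℤ))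
    (hroots : ∀ ξ : Kb, (f.map (Int.castRingHom Kb)).IsRoot ξ → ξ ∉ A)
    (S : Finset Kb) (hSne : S.Nonempty)
    (hS : ∀ ξ ∈ S, (f.map (Int.castRingHom Kb)).IsRoot ξ)
    (hstab : ∀ σ ∈ A.inertiaSubgroupIn ℚ, ∀ ξ ∈ S, σ ξ ∈ S) :
    f.natDegree ≤ S.card := by
  classical
  by_contra hlt
  have hlt' : S.card < f.natDegree := not_le.mp hlt
  have hinj : Function.Injective (Int.castRingHom Kb) := Int.cast_injective
  set g : Kb[X] := f.map (Int.castRingHom Kb) with hg
  have hgdeg : g.natDegree = f.natDegree := natDegree_map_eq_of_injective hinj f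
  have hglc : g.leadingCoeff = (p : Kb) := by
    rw [hg, leadingCoeff_map_of_injective hinj, hlc]
    simp
  have hp0 : (p : Kb) ≠ 0 := Nat.cast_ne_zero.mpr hp.ne_zero
  have hg0 : g ≠ 0 := by
    intro h
    rw [h, leadingCoeff_zero] at hglc
    exact hp0 hglc.symm
  have hsplit : g.Splits := IsAlgClosed.splits g
  have hcard : g.roots.card = g.natDegree := splits_iff_card_roots.mp hsplit
  have hc0 := hsplit.coeff_zero_eq_leadingCoeff_mul_prod_roots
  -- `S ≤ roots`
  have hSle : S.val ≤ g.roots := by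
    rw [Finset.val_le_iff_val_subset]
    intro ξ hξ
    exact (mem_roots hg0).mpr (hS ξ (Finset.mem_val.mp hξ))
  obtain ⟨R', hR'⟩ := Multiset.le_iff_exists_add.mp hSle
  have hR'ne : R' ≠ 0 := by
    intro h0
    have := congrArg Multiset.card hR'
    rw [h0, add_zero, hcard, hgdeg] at this
    have h2 : S.val.card = S.card := rfl
    omega
  have hR'roots : ∀ ξ ∈ R', ξ ∉ A := by
    intro ξ hξ
    apply hroots ξ
    have : ξ ∈ g.roots := by
      rw [hR']
      exact Multiset.mem_add.mpr (Or.inr hξ)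
    exact (mem_roots hg0).mp this
  have hSroots : ∀ ξ ∈ S.val, ξ ∉ A := fun ξ hξ => hroots ξ (hS ξ (Finset.mem_val.mp hξ))
  have hSval_ne : S.val ≠ 0 := by
    intro h0
    exact hSne.ne_empty (Finset.val_eq_zero.mp h0)
  have h1 : 1 < A.valuation R'.prod := one_lt_val_prod A R' hR'roots hR'ne
  have h2 : 1 < A.valuation S.val.prod := one_lt_val_prod A S.val hSroots hSval_ne
  -- the product over `S` is fixed by inertia
  have hSprod : S.val.prod = ∏ ξ ∈ S, ξ := by
    rw [Finset.prod_eq_multiset_prod, Multiset.map_id']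
  have hfix : ∀ σ ∈ A.inertiaSubgroupIn ℚ, σ (∏ ξ ∈ S, ξ) = ∏ ξ ∈ S, ξ := by
    intro σ hσ
    rw [map_prod]
    have himg : S.image (fun ξ => σ ξ) = S := by
      apply Finset.eq_of_subset_of_card_le
      · intro b hb
        obtain ⟨a, ha, rfl⟩ := Finset.mem_image.mp hb
        exact hstab σ hσ a ha
      · rw [Finset.card_image_of_injective S σ.injective]
    conv_rhs => rw [← himg]
    rw [Finset.prod_image (fun a _ b _ hab => σ.injective hab)]
  have hprod0 : (∏ ξ ∈ S, ξ) ≠ 0 := by
    rw [Finset.prod_ne_zero_iff]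
    intro ξ hξ h0
    exact hroots ξ (hS ξ hξ) (h0 ▸ A.zero_mem)
  obtain ⟨m, u, hu1, -, hmu⟩ := Fermat.Agent.T3.helper84.k0_disc_unit hp A hA hprod0 hfix
  have hvp : A.valuation ((p : ℕ) : Kb) < 1 := A.mem_nonunits_iff.mp hA
  have hvp0 : 0 < A.valuation ((p : ℕ) : Kb) :=
    zero_lt_iff.mpr ((Valuation.ne_zero_iff _).mpr hp0)
  have hvS : A.valuation S.val.prod = A.valuation ((p : ℕ) : Kb) ^ m := by
    rw [hSprod, hmu, map_mul, hu1, mul_one, map_zpow₀]
  have hm : m < 0 := by
    by_contra hm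
    have hm0 : 0 ≤ m := not_lt.mp hm
    have : A.valuation ((p : ℕ) : Kb) ^ m ≤ 1 := by
      have h3 := zpow_le_zpow_right_of_le_one₀ hvp0 hvp.le hm0
      simpa using h3
    rw [← hvS] at this
    exact absurd h2 (not_lt.mpr this)
  have hvS' : (A.valuation ((p : ℕ) : Kb))⁻¹ ≤ A.valuation S.val.prod := by
    rw [hvS, ← zpow_neg_one]
    exact zpow_le_zpow_right_of_le_one₀ hvp0 hvp.le (by omega)
  -- the constant coefficient
  have hc0' : g.coeff 0 = ((f.coeff 0 : ℤ) : Kb) := by
    rw [hg, coeff_map]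
    simp
  have hval0 : A.valuation (g.coeff 0) ≤ 1 := by
    rw [hc0']
    exact (A.valuation_le_one_iff _).mpr (intCast_mem A _)
  have hval : A.valuation (g.coeff 0)
      = A.valuation ((p : ℕ) : Kb) * (A.valuation S.val.prod * A.valuation R'.prod) := by
    have hneg : A.valuation ((-1 : Kb) ^ g.natDegree) = 1 := by
      rw [map_pow, Valuation.map_neg, map_one, one_pow]
    rw [hc0, hglc, hR', Multiset.prod_add, map_mul, map_mul, map_mul, hneg, one_mul]
  have hgt : 1 < A.valuation (g.coeff 0) := by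
    rw [hval]
    calc (1 : A.ValueGroup) = A.valuation ((p : ℕ) : Kb) * ((A.valuation ((p : ℕ) : Kb))⁻¹ * 1) := by
          rw [mul_one, mul_inv_cancel₀ hvp0.ne']
      _ < A.valuation ((p : ℕ) : Kb) * (A.valuation S.val.prod * A.valuation R'.prod) := by
          apply mul_lt_mul_of_pos_left _ hvp0
          have hpos : 0 < (A.valuation ((p : ℕ) : Kb))⁻¹ := inv_pos.mpr hvp0
          calc (A.valuation ((p : ℕ) : Kb))⁻¹ * 1 < (A.valuation ((p : ℕ) : Kb))⁻¹ * A.valuation R'.prod :=
                mul_lt_mul_of_pos_left h1 hpos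
            _ ≤ A.valuation S.val.prod * A.valuation R'.prod :=
                mul_le_mul_of_nonneg_right hvS' zero_le
  exact absurd hval0 (not_le.mpr hgt)


/-! ### The `x`-coordinate -/

/-- the `x`-coordinate of a point (`0` at the origin) -/
def xc {W : Affine Kb} : W.Point → Kb
  | Point.zero => 0
  | Point.some x _ _ => x

theorem xc_some {W : Affine Kb} {x y : Kb} (h : W.Nonsingular x y) :
    xc (Point.some x y h) = x := rfl

theorem xc_smul (E : WeierstrassCurve ℚ) (σ : Kb ≃ₐ[ℚ] Kb) (T : (E.toAffine⁄Kb).Point) :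
    xc (σ • T) = σ (xc T) := by
  rcases T with _ | ⟨x, y, h⟩
  · exact (map_zero σ).symm
  · rfl

/-! ### The curve side -/

/-- **[G1-END], curve side.** -/
theorem freyNotScalar : FreyNotScalarStatement := by
  intro P A hA H
  haveI := Fermat.Agent.S13.helper72.isAlgebraic_Kbar
  haveI : NeZero P.p := ⟨P.hp0⟩
  have hp : P.p.Prime := P.pp
  have hp5 := P.hp5
  obtain ⟨n, hn⟩ := P.hp_odd
  have hn2 : 2 ≤ n := by omega
  -- the discriminant
  have hΔ : P.freyCurve.Δ ≠ 0 := by
    rw [← Fermat.Agent.S04.freyCurveInt_map, WeierstrassCurve.map_Δ]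
    simpa using Fermat.Agent.S04.freyCurveInt_Δ_ne_zero P
  have hΔK : (P.freyCurve.toAffine⁄Kb).Δ ≠ 0 := by
    have h : (P.freyCurve.toAffine⁄Kb).Δ = algebraMap ℚ Kb P.freyCurve.Δ :=
      P.freyCurve.map_Δ _
    rw [h]
    exact (_root_.map_ne_zero _).mpr hΔ
  -- the automorphism `σ₂`
  obtain ⟨ζ, hζ⟩ : ∃ ζ : Kb, IsPrimitiveRoot ζ P.p :=
    HasEnoughRootsOfUnity.exists_primitiveRoot Kb P.p
  have h2p : ¬ P.p ∣ 2 := fun h => by
    have := Nat.le_of_dvd (by norm_num) h
    omega
  obtain ⟨σ₂, hσ₂I, hσ₂⟩ := Fermat.Agent.T3.helper84.k0_zeta_trans hp A hA hζ h2p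
  have hσ₂z : ∀ z : Kb, z ^ P.p = 1 → σ₂ z = z ^ 2 := by
    intro z hz
    obtain ⟨j, -, rfl⟩ := hζ.eq_pow_of_pow_eq_one hz
    rw [map_pow, hσ₂, ← pow_mul, ← pow_mul, mul_comm]
  have h2 : ∀ x : FreyTors P, σ₂ • x = 2 • x := H σ₂ hσ₂I 2 hσ₂z
  -- every torsion point lies in the kernel of reduction
  have hall : ∀ (x y : Kb) (h : (P.freyCurve.toAffine⁄Kb).Nonsingular x y),
      (P.p : ℤ) • (Point.some x y h : (P.freyCurve.toAffine⁄Kb).Point) = 0 → x ∉ A := by
    intro x y h ht
    have h3 := Fermat.Agent.S13.helper5.frey_inertia_sub_mem_kernel_at_p P A hA σ₂ hσ₂I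
      (Point.some x y h) ht
    have h4 : σ₂ • (Point.some x y h : (P.freyCurve.toAffine⁄Kb).Point)
        = 2 • (Point.some x y h : (P.freyCurve.toAffine⁄Kb).Point) := by
      have := congrArg Subtype.val
        (h2 ⟨Point.some x y h, (Submodule.mem_torsionBy_iff _ _).mpr ht⟩)
      exact this
    rw [h4] at h3
    have h5 : 2 • (Point.some x y h : (P.freyCurve.toAffine⁄Kb).Point) - Point.some x y h
        = Point.some x y h := by
      rw [two_nsmul]; abel
    rw [h5] at h3
    rcases h3 with h0 | ⟨a, b, h', e, ha⟩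
    · exact absurd h0 (by simp)
    · have hxa : x = a := by
        have := congrArg xc e
        exact this
      rw [hxa]
      exact ha
  -- a nonzero torsion point
  have hpK : ((P.p : ℕ) : Kb) ≠ 0 := Nat.cast_ne_zero.mpr hp.ne_zero
  have hsmall : Nontrivial (FreyTors P) :=
    (torsionBy_small (P.freyCurve.toAffine⁄Kb) hΔK P.hp_odd (by omega) hpK).1
  obtain ⟨P₁, hP₁⟩ := exists_ne (0 : FreyTors P)
  have hP₁t : P.p • P₁ = 0 := by
    apply Subtype.ext
    have := (Submodule.mem_torsionBy_iff _ _).mp P₁.2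
    rw [natCast_zsmul] at this
    exact this
  have hord : ∀ k : ℕ, k • P₁ = 0 → P.p ∣ k := by
    intro k hk
    by_contra hnd
    have hcop : Nat.Coprime k P.p := (Nat.Coprime.symm ((Nat.Prime.coprime_iff_not_dvd hp).mpr hnd))
    have h1 : (Nat.gcd k P.p) • P₁ = 0 := by
      have hg := Nat.gcd_eq_gcd_ab k P.p
      have h2 : ((Nat.gcd k P.p : ℕ) : ℤ) • P₁ = 0 := by
        rw [hg, add_zsmul, mul_comm (k : ℤ), mul_comm (P.p : ℤ), mul_zsmul, mul_zsmul,
          natCast_zsmul, natCast_zsmul, hk, hP₁t, smul_zero, smul_zero, add_zero]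
      rwa [natCast_zsmul] at h2
    rw [hcop, one_nsmul] at h1
    exact hP₁ h1
  -- the polynomial
  have hWK : (P.freyCurve.toAffine⁄Kb : WeierstrassCurve Kb)
      = P.freyCurveInt.map (Int.castRingHom Kb) :=
    Fermat.Agent.S13.helper72.baseChange_eq_map_int P.freyCurve P.freyCurveInt
      (Fermat.Agent.S04.freyCurveInt_map P)
  have hcoeff : (torsPoly P.freyCurveInt n).coeff (2 * n * (n + 1)) = -((2 * n + 1 : ℕ) : ℤ) := by
    rw [coeff_torsPoly_top]; push_cast; ring
  have hc0 : (torsPoly P.freyCurveInt n).coeff (2 * n * (n + 1)) ≠ 0 := by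
    rw [hcoeff, neg_ne_zero]
    exact Int.natCast_ne_zero.mpr (Nat.succ_ne_zero (2 * n))
  have hnat : (torsPoly P.freyCurveInt n).natDegree = 2 * n * (n + 1) :=
    le_antisymm (natDegree_torsPoly_le _ n) (le_natDegree_of_ne_zero hc0)
  set f : ℤ[X] := -(torsPoly P.freyCurveInt n) with hf
  have hlc : f.leadingCoeff = ((P.p : ℕ) : ℤ) := by
    rw [hf, leadingCoeff_neg, leadingCoeff, hnat, hcoeff, neg_neg, hn]
  have hfdeg : f.natDegree = 2 * n * (n + 1) := by
    rw [hf, natDegree_neg, hnat]
  have hfmap : f.map (Int.castRingHom Kb)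
      = -(torsPoly (P.freyCurve.toAffine⁄Kb : WeierstrassCurve Kb) n) := by
    rw [hf, Polynomial.map_neg, torsPoly_map, hWK]
  have hroot_iff : ∀ ξ : Kb, (f.map (Int.castRingHom Kb)).IsRoot ξ ↔
      (torsPoly (P.freyCurve.toAffine⁄Kb : WeierstrassCurve Kb) n).eval ξ = 0 := by
    intro ξ
    rw [hfmap, IsRoot.def, eval_neg, neg_eq_zero]
  have hcrit : ∀ {x y : Kb} (h : (P.freyCurve.toAffine⁄Kb).Nonsingular x y),
      (P.p : ℤ) • (Point.some x y h : (P.freyCurve.toAffine⁄Kb).Point) = 0 ↔
        (torsPoly (P.freyCurve.toAffine⁄Kb : WeierstrassCurve Kb) n).eval x = 0 := by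
    intro x y h
    rw [natCast_zsmul, hn]
    exact nsmul_eq_zero_iff_eval_torsPoly (P.freyCurve.toAffine⁄Kb : WeierstrassCurve Kb) hΔK n h
  have hroots : ∀ ξ : Kb, (f.map (Int.castRingHom Kb)).IsRoot ξ → ξ ∉ A := by
    intro ξ hξ
    rw [hroot_iff] at hξ
    obtain ⟨y, hy⟩ := Fermat.Agent.S13.helper72.exists_equation (P.freyCurve.toAffine⁄Kb) ξ
    have hns : (P.freyCurve.toAffine⁄Kb).Nonsingular ξ y :=
      (equation_iff_nonsingular_of_Δ_ne_zero hΔK).mp hy
    exact hall ξ y hns ((hcrit hns).mpr hξ)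
  -- the `x`-coordinates of the nonzero multiples of `P₁`
  have hmult_root : ∀ k : ℕ, ¬ P.p ∣ k →
      (f.map (Int.castRingHom Kb)).IsRoot (xc ((k • P₁ : FreyTors P) : (P.freyCurve.toAffine⁄Kb).Point)) := by
    intro k hk
    have hne : k • P₁ ≠ 0 := fun h0 => hk (hord k h0)
    have ht : (P.p : ℤ) • ((k • P₁ : FreyTors P) : (P.freyCurve.toAffine⁄Kb).Point) = 0 :=
      (Submodule.mem_torsionBy_iff _ _).mp (k • P₁).2
    rcases hQ : ((k • P₁ : FreyTors P) : (P.freyCurve.toAffine⁄Kb).Point) with _ | ⟨x, y, h⟩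
    · exact absurd (Subtype.ext hQ) hne
    · rw [hQ] at ht
      rw [hroot_iff]
      exact (hcrit h).mp ht
  set S : Finset Kb := (Finset.Ico 1 P.p).image
    (fun k => xc ((k • P₁ : FreyTors P) : (P.freyCurve.toAffine⁄Kb).Point)) with hS
  have hSne : S.Nonempty := by
    refine ⟨xc ((1 • P₁ : FreyTors P) : (P.freyCurve.toAffine⁄Kb).Point), ?_⟩
    rw [hS]
    exact Finset.mem_image.mpr ⟨1, Finset.mem_Ico.mpr ⟨le_refl 1, by omega⟩, rfl⟩
  have hSroot : ∀ ξ ∈ S, (f.map (Int.castRingHom Kb)).IsRoot ξ := by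
    intro ξ hξ
    obtain ⟨k, hk, rfl⟩ := Finset.mem_image.mp hξ
    obtain ⟨hk1, hk2⟩ := Finset.mem_Ico.mp hk
    exact hmult_root k (fun hd => by
      have := Nat.le_of_dvd (by omega) hd
      omega)
  have hstab : ∀ σ ∈ A.inertiaSubgroupIn ℚ, ∀ ξ ∈ S, σ ξ ∈ S := by
    intro σ hσ ξ hξ
    obtain ⟨k, hk, rfl⟩ := Finset.mem_image.mp hξ
    obtain ⟨hk1, hk2⟩ := Finset.mem_Ico.mp hk
    obtain ⟨a, ha⟩ := Fermat.Agent.T7.helper72.exists_pow_on_roots72 P.p σ
    have hσP : σ • P₁ = a • P₁ := H σ hσ a ha P₁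
    have hkP : σ • (k • P₁) = ((k * a) % P.p) • P₁ := by
      have h1 : σ • (k • P₁) = k • (σ • P₁) :=
        map_nsmul (DistribSMul.toAddMonoidHom (FreyTors P) σ) k P₁
      rw [h1, hσP, ← mul_nsmul']
      conv_lhs => rw [← Nat.mod_add_div (k * a) P.p]
      rw [add_nsmul, mul_nsmul, hP₁t, smul_zero, add_zero]
    have hk0 : k • P₁ ≠ 0 := fun h0 => by
      have := Nat.le_of_dvd (by omega) (hord k h0)
      omega
    have hne : ((k * a) % P.p) • P₁ ≠ 0 := by
      rw [← hkP]
      intro h0
      apply hk0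
      have := congrArg (fun y => σ⁻¹ • y) h0
      simpa using this
    have hmod0 : (k * a) % P.p ≠ 0 := by
      intro h0
      apply hne
      rw [h0, zero_nsmul]
    have hx : σ (xc ((k • P₁ : FreyTors P) : (P.freyCurve.toAffine⁄Kb).Point))
        = xc ((((k * a) % P.p) • P₁ : FreyTors P) : (P.freyCurve.toAffine⁄Kb).Point) := by
      rw [← xc_smul P.freyCurve σ, ← hkP]
      rfl
    rw [hx, hS]
    exact Finset.mem_image.mpr ⟨(k * a) % P.p,
      Finset.mem_Ico.mpr ⟨Nat.one_le_iff_ne_zero.mpr hmod0, Nat.mod_lt _ hp.pos⟩, rfl⟩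
  -- the count
  have hcount := natDegree_le_card_of_inertia_stable hp A hA f hlc hroots S hSne hSroot hstab
  have hcard : S.card ≤ P.p - 1 := by
    have h1 := Finset.card_image_le (s := Finset.Ico 1 P.p)
      (f := fun k => xc ((k • P₁ : FreyTors P) : (P.freyCurve.toAffine⁄Kb).Point))
    rw [Nat.card_Ico] at h1
    exact h1
  rw [hfdeg] at hcount
  have h3 : 2 * n * (n + 1) ≤ 2 * n := by omega
  nlinarith

/-! ### (G1) of T7 and the contracts -/

/-- **(G1)** of T7, operator form, at every bad pair (unconditional). -/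
theorem g1_bad : Fermat.Agent.T7.helper72.S33G1Statement :=
  Fermat.Agent.T7.helper72.g1_of_b3_b4 Fermat.Agent.T7.helper72.s33B3Statement72
    Fermat.Agent.T7.helper72.s33B4Statement72

/-- **[G1-END]**, embedding form. -/
theorem g1End : G1EndStatement := by
  intro P N' _ h4 hpN A hA
  haveI : NeZero P.p := ⟨P.hp0⟩
  intro φ hinj heq hT0 hnew
  have hp2 : P.p ≠ 2 := by have := P.hp5; omega
  refine freyNotScalar P A hA ?_
  intro σ hσ a ha x
  apply hinj
  rw [heq σ hσ x, map_nsmul]
  exact g1_bad P.p P.pp hp2 N' h4 hpN A hA (φ x) (hT0 x) (hnew x) σ hσ a ha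

/-- **[G1-END]**, subgroup form. -/
theorem g1EndSub : G1EndSubStatement := by
  intro P N' _ h4 hpN A hA
  haveI : NeZero P.p := ⟨P.hp0⟩
  intro V e heq hT0 hnew
  refine g1End P N' h4 hpN A hA (V.subtype.comp e.toAddMonoidHom) ?_ ?_ ?_ ?_
  · exact V.subtype_injective.comp e.injective
  · intro σ hσ x
    exact heq σ hσ x
  · intro x
    exact hT0 _ (e x).2
  · intro x
    exact hnew _ (e x).2

/-- **Contract (G) of the top chain** (`helper72_ChainDefs`): a `p`-new realisation of `E[p]` at
level `4 M' p` is not contained in the kernel of reduction `T0` at exponent `p`. -/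
theorem g1End72 : Fermat.Agent.T8.helper72.G1EndStatement := by
  intro P W M' _ hW hirr hpN A hA V hV hVnew hT0
  obtain ⟨e, he⟩ := hV.iso
  exact g1EndSub P (4 * M') (Dvd.intro M' rfl) hpN A hA V e (fun σ _ x => he σ x) hT0
    (fun y hy => hVnew hy)

end Fermat.Agent.T8.helper27

end
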