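import Fermat.Agent.T8.helper27_G1End
import Fermat.Agent.T8.helper72_ChainDefs2

/-!
# T8 = row 38 via S44, leaf [G1-END] (helper27): the contract (G) of the chain, version 2

`g1End72_2 : helper72.G1EndStatement2` (`helper72_ChainDefs2`), unconditional.
-/

set_option autoImplicit false

namespace Fermat.Agent.T8.helper27

/-- **Contract (G) of the top chain, version 2.** -/
theorem g1End72_2 : Fermat.Agent.T8.helper72.G1EndStatement2 :=
  Fermat.Agent.T8.helper72.g1End2_of_g1End g1End72

end Fermat.Agent.T8.helper27
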