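import Fermat.Agent.T7.helper72_G1Asm
import Fermat.Agent.S13.helper38_Assembly

/-!
# T8 = row 38 via S44, leaf [G1-END] (helper27, owner): the CONTRACT

Blueprint `NOTES_helper96_T8_BLUEPRINT`, step (G): a copy `V` of `E[p]` (Frey curve) inside
`J₀(N' p)[p]`, `4 ∣ N'`, which lies in `T0_1 ∩ NEW` is impossible: inertia at `p` would act on
`E[p]` by the cyclotomic scalar (T7 (G1)), but it does not.

* `FreyNotScalarStatement` : curve side.  For every Frey package and every place `A` over `p`,
  the inertia group at `A` does NOT act on `E[p]` through the cyclotomic scalar.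
* `G1EndStatement`         : the box (G) in embedding form: there is no injective additive map
  `φ : E[p] → J₀(N' p)`, equivariant for the inertia group at `A`, with values in `T0_1 ∩ NEW`.
* `G1EndSubStatement`      : the same for an inertia-stable subgroup `V` and an equivariant
  additive bijection `e : E[p] ≃ V`.

All three are PROVED in `helper27_G1End.lean`.
-/

set_option autoImplicit false
set_option linter.unusedSectionVars false
set_option linter.unusedVariables false
set_option linter.style.longLine false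

noncomputable section

namespace Fermat.Agent.T8.helper27

open ModularCurve WeierstrassCurve WeierstrassCurve.Affine
open Fermat.Agent.T7 Fermat.Agent.S13.helper38

/-- the `p`-torsion of the Frey curve over `ℚ̄` (`= S13.helper38.Tors P.freyCurve P.p`) -/
abbrev FreyTors (P : FreyPackage) : Type := Tors P.freyCurve P.p

/-- **[G1-END], curve side**: inertia at `p` does not act on `E[p]` by the cyclotomic scalar. -/
def FreyNotScalarStatement : Prop :=
  ∀ (P : FreyPackage) (A : ValuationSubring (AlgebraicClosure ℚ)), A.LiesOverPrime P.p →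
    ¬ ∀ σ ∈ A.inertiaSubgroupIn ℚ, ∀ a : ℕ,
        (∀ z : AlgebraicClosure ℚ, z ^ P.p = 1 → σ z = z ^ a) →
        ∀ x : FreyTors P, σ • x = a • x

/-- **[G1-END]**, embedding form: no inertia-equivariant copy of `E[p]` inside `T0_1 ∩ NEW` at
the bad pair `(N' p, A)`, `4 ∣ N'`. -/
def G1EndStatement : Prop :=
  ∀ (P : FreyPackage) (N' : ℕ) [NeZero N'], 4 ∣ N' → ∀ (hpN : ¬ P.p ∣ N')
    (A : ValuationSubring (AlgebraicClosure ℚ)), A.LiesOverPrime P.p →
      haveI : NeZero P.p := ⟨P.hp0⟩
      ∀ φ : FreyTors P →+ JZero (N' * P.p), Function.Injective φ →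
        (∀ σ ∈ A.inertiaSubgroupIn ℚ, ∀ x : FreyTors P, φ (σ • x) = σ • φ x) →
        (∀ x : FreyTors P, helper2.IsT0 N' P.p P.pp hpN A P.p (φ x)) →
        (∀ x : FreyTors P, φ x ∈ helper43.newPart N' P.p) → False

/-- **[G1-END]**, subgroup form: an inertia-stable subgroup `V` of `J₀(N' p)` inside
`T0_1 ∩ NEW` is not isomorphic to `E[p]` as a module over the inertia group at `A`. -/
def G1EndSubStatement : Prop :=
  ∀ (P : FreyPackage) (N' : ℕ) [NeZero N'], 4 ∣ N' → ∀ (hpN : ¬ P.p ∣ N')
    (A : ValuationSubring (AlgebraicClosure ℚ)), A.LiesOverPrime P.p →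
      haveI : NeZero P.p := ⟨P.hp0⟩
      ∀ (V : AddSubgroup (JZero (N' * P.p))) (e : FreyTors P ≃+ V),
        (∀ σ ∈ A.inertiaSubgroupIn ℚ, ∀ x : FreyTors P, ((e (σ • x) : V) : JZero (N' * P.p))
          = σ • ((e x : V) : JZero (N' * P.p))) →
        (∀ y ∈ V, helper2.IsT0 N' P.p P.pp hpN A P.p y) →
        (∀ y ∈ V, y ∈ helper43.newPart N' P.p) → False

end Fermat.Agent.T8.helper27

end
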