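import Fermat.Agent.T8.helper29_ConclSheet
import Fermat.Agent.T8.helper29_ConclN
import Fermat.Agent.T8.helper16_RingXDefs
import Fermat.Agent.T8.helper65_NormCover

/-!
# T8 = row 38 via S44, leaf [CONCL] (helper29, owner): from the sheets to the exit `SlopeOutN`

`slopeOutN_of_sheets` : the instance form of `concl_family`.  Level `N p`, special fibre field
`FFb A N`, `ordAt Q` of `helper16_RingXDefs`.  INPUT (all in the vocabulary of the boxes):

* a class `Good` of integral series (`helper65.GoodClass`) whose reductions are nonzero and lie in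
  `FFb A N` (the good series of the cover, box [COVER-VAL]);
* the two sheet families of the cover (`SheetFam`, boxes [COVER] + [DESC] + [COVER-VAL]) with a
  unit `a = α ^ p` (peu ramifie, box [W-MULT]);
* scalings of `u'` on the two base sheets with constants of tame valuation (`IsVal`);
* a scaling of `h` on the base sheet and `u = u' * h ^ p` there (box [DESC]);
* the K1-corollary on the cover at ONE pair of sheets through every closed point `Q` of the
  special fibre where `j̄` is finite (`K1CorSheet`, boxes [SLOPE] + [COVER-RING] + [SHEETS]).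

OUTPUT: `SlopeOutN A N p ν u` (`helper29_ConclN`), with `β = e₁ - e₂`.
-/

set_option autoImplicit false
set_option linter.unusedSectionVars false
set_option linter.unusedVariables false
set_option linter.style.longLine false
set_option linter.style.haveILetI false

noncomputable section

namespace Fermat.Agent.T8.helper29

open HahnSeries IntermediateField AlgebraicCurve ModularCurve
open Fermat.Agent.S18.helper19 Fermat.Agent.P2.helper29 Fermat.Agent.P2.helper93
open Fermat.Agent.T8.helper65 Fermat.Agent.T8.helper80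
open Fermat.Agent.T8.helper54 (IsRed1 DvdOff ModEqOff)
open Fermat.Agent.T8.helper16 (ordAt ordAt_of_mem ordAt_mul)
open Fermat.Agent.T3.helper36 (RhoQ)

variable {A : ValuationSubring Kb} {Good : LaurentSeries A → Prop} {N p : ℕ} [NeZero N]
  [NeZero p]

/-- a class of good series with nonzero reductions in the special fibre field `FFb A N` -/
structure GoodIn (A : ValuationSubring Kb) (N : ℕ) [NeZero N] (Good : LaurentSeries A → Prop) :
    Prop where
  red_ne : ∀ Y : LaurentSeries A, Good Y → red A Y ≠ 0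
  red_mem : ∀ Y : LaurentSeries A, Good Y → red A Y ∈ FFb A N

theorem GoodIn.mem_of_isRedQuot (hI : GoodIn A N Good) {r : LaurentSeries (kA A)}
    (hr : IsRedQuot Good r) : r ∈ FFb A N := by
  obtain ⟨Y₁, Y₂, g₁, g₂, e⟩ := hr
  have h2 : red A Y₂ ≠ 0 := hI.red_ne Y₂ g₂
  have e' : r = red A Y₁ * (red A Y₂)⁻¹ := by
    rw [← e, mul_assoc, mul_inv_cancel₀ h2, mul_one]
  rw [e']
  exact (FFb A N).mul_mem (hI.red_mem Y₁ g₁) ((FFb A N).inv_mem (hI.red_mem Y₂ g₂))

theorem GoodIn.ordMul (hI : GoodIn A N Good) (Q : Place (kA A) (FFb A N)) :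
    OrdMul Good (ordAt Q) := fun r s hr hs hr0 hs0 =>
  ordAt_mul Q (hI.mem_of_isRedQuot hr) (hI.mem_of_isRedQuot hs) hr0 hs0

theorem GoodIn.hasRed_redNe (hI : GoodIn A N Good) {c : Kb} {g : LaurentSeries Kb}
    {r : LaurentSeries (kA A)} (h : HasRed Good c g r) :
    HasRed (fun Y : LaurentSeries A => red A Y ≠ 0) c g r := by
  obtain ⟨Y₁, Y₂, g₁, g₂, e, er⟩ := h
  exact ⟨Y₁, Y₂, hI.red_ne Y₁ g₁, hI.red_ne Y₂ g₂, e, er⟩

/-- a scaling of `u` in a class `GoodIn` is a first-component reduction in the sense of [PHI] -/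
theorem GoodIn.isRed1 (hI : GoodIn A N Good) {κ : Kb} (hκ : κ ≠ 0) {u : FF (N * p)}
    {f : LaurentSeries (kA A)} (h : HasRed Good κ (u : LaurentSeries Kb) f) :
    ∃ hf : f ∈ FFb A N, IsRed1 A N p u ⟨f, hf⟩ := by
  have hf : f ∈ FFb A N := hI.mem_of_isRedQuot h.isRedQuot
  obtain ⟨h1, h2⟩ := (hasRed_redNe_iff hκ).mp (hI.hasRed_redNe h)
  exact ⟨hf, fun h0 => h2 (congrArg Subtype.val h0), κ, hκ, h1⟩

/-- **[CONCL], instance form**: from the sheets of the cover to the exit `SlopeOutN`. -/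
theorem slopeOutN_of_sheets (hG : GoodClass A Good) (hI : GoodIn A N Good)
    (hp : (p : Kb) ≠ 0) {a : Kb} (ha : IsU A a)
    {U₁ G₁ U₂ G₂ : ℕ → LaurentSeries Kb}
    (hF₁ : SheetFam A Good p a U₁ G₁) (hF₂ : SheetFam A Good p a U₂ G₂)
    {c₁ c₂ : Kb} {r₁ r₂ : LaurentSeries (kA A)} {e₁ e₂ : ℤ} (hc₁ : c₁ ≠ 0) (hc₂ : c₂ ≠ 0)
    (hr₁0 : r₁ ≠ 0)
    (h₁ : HasRed Good c₁ (U₁ 0) r₁) (h₂ : HasRed Good c₂ (U₂ 0) r₂)
    (hv₁ : IsVal A p c₁ e₁) (hv₂ : IsVal A p c₂ e₂)
    {u : FF (N * p)} {H : LaurentSeries Kb} {ch : Kb} {rh : LaurentSeries (kA A)}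
    (hch : ch ≠ 0) (hrh0 : rh ≠ 0) (hh : HasRed Good ch H rh)
    (hrel : U₁ 0 * H ^ p = (u : LaurentSeries Kb))
    (ν : FFb A N)
    (hS : ∀ Q : Place (kA A) (FFb A N), 0 ≤ Q.ord (jBar A N) →
      ∃ i j : ℕ, K1CorSheet A Good p (ordAt Q) (Q.ord ν) (U₁ i) (U₂ j)) :
    SlopeOutN A N p ν u := by
  have hp0 : 0 < p := Nat.pos_of_ne_zero (NeZero.ne p)
  obtain ⟨κ, f, hκ, hf0, hfq, hf, hdvd⟩ :=
    concl_family hG hp hp0 ha hF₁ hF₂ hc₁ hc₂ hr₁0 h₁ h₂ hv₁ hv₂ hch hrh0 hh hrel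
      (T := {Q : Place (kA A) (FFb A N) // 0 ≤ Q.ord (jBar A N)})
      (fun Q => ordAt Q.1) (fun Q => Q.1.ord ν) (fun Q => hI.ordMul Q.1)
      (fun Q => hS Q.1 Q.2)
  obtain ⟨hfm, hred⟩ := hI.isRed1 (p := p) hκ hf
  refine ⟨⟨f, hfm⟩, e₁ - e₂, hred, fun Q hQ => ?_⟩
  have h := hdvd ⟨Q, hQ⟩
  simp only at h
  rw [ordAt_of_mem Q hfm] at h
  apply Int.ModEq.symm
  rw [Int.modEq_iff_dvd]
  have e : Q.ord (⟨f, hfm⟩ : FFb A N) - (e₁ - e₂) * Q.ord ν =
      Q.ord (⟨f, hfm⟩ : FFb A N) + (e₂ - e₁) * Q.ord ν := by ring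
  rw [e]
  exact h

end Fermat.Agent.T8.helper29

end
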