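import Fermat.Agent.T8.helper89_NonSplit

/-!
# T8 (row 38), helper89: the non-split wall from a WEAKER form of [CONCL]

`helper29.PeuShape` hides three facts which hold in the non-split case of the wall and which the
cover route may need: the strongly split function `K` is `p`-NEW (`helper27.IsNewN`), `K` is NOT a
`p`-th power (so that `Z ^ p = K` defines a cover of degree `p`), and some `τ ∈ I_K1` really moves
`α` (`τ α = ζ α`).  This file carries them along.

* `PeuShapeNew N p hp hpN A u`   : `PeuShape` + `K` new + `K` not a `p`-th power + the witness `τ`;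
* `PeuShapeNew.peuShape`         : it implies `helper29.PeuShape`;
* `isNewN_atkinLehner`           : `IsNewN` is stable under the Atkin-Lehner involution;
* `peuShapeNew_atkinLehner`      : `PeuShapeNew` is stable under the Atkin-Lehner involution;
* `exists_split_new_of_isT0_new` : a nonzero `p`-new class of `T0` has a strongly split, new
                                   Kummer function which is not a `p`-th power;
* `peuShapeNew_of_ctx`           : in the context of the wall (non-split case) every Kummer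
                                   function of `x` has `PeuShapeNew`;
* `ConclNewStatement`            : [CONCL] with the hypothesis `PeuShapeNew` (WEAKER than
                                   `helper29.ConclStatementN`);
* `ConclNewFreyStatement`        : the same at the bad pairs of a Frey package, with `p ∣ a b c`
                                   and the irreducibility of `E[p]` as extra hypotheses;
* `conclNewFrey_of_conclFrey`    : `ConclFreyStatement → ConclNewFreyStatement`;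
* `nonSplitWall_of_conclNew`     : **`ConclNewFreyStatement ⟹
                                   helper38.NonSplitWallStatement π helper29.wallBN`**.
-/

set_option autoImplicit false
set_option linter.unusedSectionVars false
set_option linter.unusedVariables false
set_option linter.style.longLine false
set_option linter.style.haveILetI false

noncomputable section

namespace Fermat.Agent.T8.helper89

open HahnSeries IntermediateField AlgebraicCurve ModularCurve
open Fermat.Agent.S18.helper19 Fermat.Agent.P2.helper29 Fermat.Agent.P2.helper93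
open Fermat.Agent.T2 Fermat.Agent.T2.helper36
open Fermat.Agent.T7 Fermat.Agent.T8.helper72 Fermat.Agent.T8.helper38
open Fermat.Agent.T8.helper54 (IsRed1 DvdOff ModEqOff)
open Fermat.Agent.P3.helper94 (IsKummerRep normAlong)
open Fermat.Agent.T3.helper16 (IsUnit0)

section Bad

variable (N p : ℕ) [NeZero N] [NeZero p] (hp : p.Prime) (hpN : ¬ p ∣ N)

/-- **`PeuShape` with the extra facts of the non-split case**: `K` is new, `K` is not a `p`-th
power, and some `τ ∈ I_K1` moves `α`. -/
def PeuShapeNew (A : ValuationSubring Kb) (u : FF (N * p)) : Prop :=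
  ∃ (K : FF (N * p)) (ζ α : Kb),
    Fermat.Agent.T7.helper27.StronglySplit (N * p) (atkinLehner N p hp hpN) A p K ∧
    Fermat.Agent.T7.helper27.IsNewN N p K ∧ (∀ g : FF (N * p), g ^ p ≠ K) ∧
    IsPrimitiveRoot ζ p ∧ α ≠ 0 ∧ A.valuation (α ^ p) = 1 ∧
    (∃ τ : Kb ≃ₐ[ℚ] Kb, Fermat.Agent.T8.helper98.IsIK1 A p τ ∧ τ α = ζ * α) ∧
    ∀ σ : Kb ≃ₐ[ℚ] Kb, Fermat.Agent.T8.helper98.IsIK1 A p σ →
      ∃ (j : ℕ) (c : Kb) (v : FF (N * p)), σ α = ζ ^ j * α ∧ c ≠ 0 ∧ v ≠ 0 ∧
        galF (N * p) σ u = algebraMap Kb (FF (N * p)) c * v ^ p * u * K ^ j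

variable {N p hp hpN}

theorem PeuShapeNew.peuShape {A : ValuationSubring Kb} {u : FF (N * p)}
    (h : PeuShapeNew N p hp hpN A u) :
    Fermat.Agent.T8.helper29.PeuShape (atkinLehner N p hp hpN) A p u := by
  obtain ⟨K, ζ, α, hK, -, -, hζ, hα0, hαv, -, hσ⟩ := h
  exact ⟨K, ζ, α, hK, hζ, hα0, hαv, hσ⟩

variable (N p hp hpN)

/-- `IsNewN` is stable under the Atkin-Lehner involution (`N_β = N_α ∘ W`). -/
theorem isNewN_atkinLehner {K : FF (N * p)} (h : Fermat.Agent.T7.helper27.IsNewN N p K) :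
    Fermat.Agent.T7.helper27.IsNewN N p (atkinLehner N p hp hpN K) := by
  obtain ⟨⟨c, v, hc, hv, e⟩, ⟨c', v', hc', hv', e'⟩⟩ := h
  refine ⟨⟨c', v', hc', hv', ?_⟩, ⟨c, v, hc, hv, ?_⟩⟩
  · rw [← Fermat.Agent.T7.helper43.normAlong_beta_eq N p hp hpN K]
    exact e'
  · rw [Fermat.Agent.T7.helper43.normAlong_beta_eq N p hp hpN, atkinLehner_atkinLehner]
    exact e

/-- **`PeuShapeNew` is stable under the Atkin-Lehner involution.** -/
theorem peuShapeNew_atkinLehner {A : ValuationSubring Kb} {u : FF (N * p)}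
    (h : PeuShapeNew N p hp hpN A u) :
    PeuShapeNew N p hp hpN A (atkinLehner N p hp hpN u) := by
  obtain ⟨K, ζ, α, hK, hnew, hnp, hζ, hα0, hαv, hτ, hσ⟩ := h
  refine ⟨atkinLehner N p hp hpN K, ζ, α,
    stronglySplit_W _ (atkinLehner_atkinLehner N p hp hpN) hK,
    isNewN_atkinLehner N p hp hpN hnew, ?_, hζ, hα0, hαv, hτ, fun σ hs => ?_⟩
  · intro g hg
    apply hnp (atkinLehner N p hp hpN g)
    rw [← map_pow, hg, atkinLehner_atkinLehner]
  · obtain ⟨j, c, v, h1, hc, hv, e⟩ := hσ σ hs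
    refine ⟨j, c, atkinLehner N p hp hpN v, h1, hc,
      (map_ne_zero (atkinLehner N p hp hpN)).mpr hv, ?_⟩
    rw [← Fermat.Agent.T7.helper23.hWgal_atkinLehner, e, map_mul, map_mul, map_mul, map_pow,
      map_pow, AlgEquiv.commutes]

/-- **a strongly split, new Kummer function, not a `p`-th power**, of a nonzero `p`-new class of
`T0` at the bad pair. -/
theorem exists_split_new_of_isT0_new (hN : 4 ∣ N ∨ 9 ∣ N) (A : ValuationSubring Kb)
    (hA : A.LiesOverPrime p) {y : JZero (N * p)} (hy : helper2.IsT0 N p hp hpN A p y)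
    (hnew : y ∈ helper43.newPart N p) (hy0 : y ≠ 0) :
    ∃ (E : Divisor.degZero (K := Kb) (F := FF (N * p))) (K : FF (N * p)),
      (Pic0.mk E : JZero (N * p)) = y ∧ IsRootDiv p (E : Divisor Kb (FF (N * p))) K ∧
        Fermat.Agent.T7.helper27.StronglySplit (N * p) (atkinLehner N p hp hpN) A p K ∧
        Fermat.Agent.T7.helper27.IsNewN N p K ∧ ∀ g : FF (N * p), g ^ p ≠ K := by
  obtain ⟨E, K, hE, HK, hK⟩ := exists_stronglySplit_of_isT0_new N p hp hpN hN A hA hy hnew
  obtain ⟨hα, hβ⟩ := (helper43.mem_newPart N p).mp hnew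
  have hKR : IsKummerRep p y K := ⟨HK.1, E, hE, HK.2⟩
  refine ⟨E, K, hE, HK, hK, helper27.isNewN_of_push hKR hα hβ, fun g hg => hy0 ?_⟩
  have hg0 : g ≠ 0 := by
    rintro rfl
    rw [zero_pow hp.ne_zero] at hg
    exact HK.1 hg.symm
  rw [← hE]
  refine kum_mk_eq_zero_of_ord hg0 fun P => ?_
  have h1 := HK.2 P
  rw [← hg] at h1
  have h2 : P.ord (g ^ p) = (p : ℤ) * P.ord g := by
    have := P.ord_zpow g (p : ℤ)
    rwa [zpow_natCast] at this
  rw [h2] at h1
  exact mul_left_cancel₀ (by exact_mod_cast hp.ne_zero) h1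

/-- **[CONCL] with the hypothesis `PeuShapeNew`** (weaker than `helper29.ConclStatementN`). -/
def ConclNewStatement (A : ValuationSubring Kb) (ν : FFb A N) : Prop :=
  ∀ u : FF (N * p), u ≠ 0 → (∀ P : Place Kb (FF (N * p)), (p : ℤ) ∣ P.ord u) →
    PeuShapeNew N p hp hpN A u → Fermat.Agent.T8.helper29.SlopeOutN A N p ν u

variable {N p hp hpN}

theorem conclNew_of_concl {A : ValuationSubring Kb} {ν : FFb A N}
    (h : Fermat.Agent.T8.helper29.ConclStatementN A N p (atkinLehner N p hp hpN) ν) :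
    ConclNewStatement N p hp hpN A ν :=
  fun u hu hdiv hpeu => h u hu hdiv hpeu.peuShape

/-- **[CONCL] in class form, both components**, from the weaker contract. -/
theorem isWallBN2_of_conclNew {A : ValuationSubring Kb} {ν : FFb A N}
    (hC : ConclNewStatement N p hp hpN A ν)
    {x : JZero (N * p)} {u : FF (N * p)} (hk : IsKummerRep p x u)
    (hpeu : PeuShapeNew N p hp hpN A u) :
    Fermat.Agent.T8.helper29.IsWallBN2 A N p (atkinLehner N p hp hpN) ν x := by
  obtain ⟨hu0, D, hD, hdiv⟩ := hk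
  have hdvd : ∀ P : Place Kb (FF (N * p)), (p : ℤ) ∣ P.ord u := fun P =>
    ⟨(D : Divisor Kb (FF (N * p))) P, (hdiv P).symm⟩
  obtain ⟨f₁, β₁, a1, a2⟩ := hC u hu0 hdvd hpeu
  obtain ⟨f₂, β₂, b1, b2⟩ := hC (atkinLehner N p hp hpN u)
    ((map_ne_zero (atkinLehner N p hp hpN)).mpr hu0) (dvd_ord_W _ hdvd)
    (peuShapeNew_atkinLehner N p hp hpN hpeu)
  exact ⟨u, f₁, f₂, β₁, β₂, ⟨hu0, D, hD, hdiv⟩, a1, a2, b1, b2⟩

end Bad

variable {π : PullData} {P : FreyPackage} {W : WeierstrassCurve ℤ} {M' : ℕ} [NeZero M']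
  {hpN : ¬ P.p ∣ 4 * M'} {A : ValuationSubring (AlgebraicClosure ℚ)}
  {V0 : AddSubgroup (JZero (M' * P.p))}

/-- **`PeuShapeNew` in the context of the wall** (non-split case): every Kummer function `u` of
a class `x ∈ V` moved by some `τ ∈ I_K1`. -/
theorem peuShapeNew_of_ctx (ctx : WallCtx π P W M' hpN A V0) {x : JZero (4 * M' * P.p)}
    (hx : x ∈ V0.map (π M' P.p)) {τ : AlgebraicClosure ℚ ≃ₐ[ℚ] AlgebraicClosure ℚ}
    (hτ : helper98.IsIK1 A P.p τ) (hτx : τ • x ≠ x)
    {D : Divisor.degZero (K := Kb) (F := FF (4 * M' * P.p))} {u : FF (4 * M' * P.p)}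
    (hD : (Pic0.mk D : JZero (4 * M' * P.p)) = x)
    (H : IsRootDiv P.p (D : Divisor Kb (FF (4 * M' * P.p))) u) :
    PeuShapeNew (4 * M') P.p P.pp hpN A u := by
  obtain ⟨ζ, α, hζ, hα0, hαv, hτα, hσ⟩ :=
    exists_peu_alpha Fermat.Agent.T8.helper47.wMult' ctx hx hτ hτx
  obtain ⟨E, K, hE, HK, hK, hnew, hnp⟩ := exists_split_new_of_isT0_new (4 * M') P.p P.pp hpN
    (Or.inl (Dvd.intro M' rfl)) A ctx.liesOver (nonSplit_isT0 ctx hx hτ.1) (nonSplit_new ctx hx τ)
    (sub_ne_zero.mpr hτx)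
  refine ⟨K, ζ, α, hK, hnew, hnp, hζ, hα0, hαv, ⟨τ, hτ, hτα⟩, fun σ hs => ?_⟩
  obtain ⟨j, hj1, hj2⟩ := hσ σ hs
  have HKj : IsRootDiv P.p
      ((j • E : Divisor.degZero (K := Kb) (F := FF (4 * M' * P.p))) :
        Divisor Kb (FF (4 * M' * P.p))) (K ^ j) := by
    rw [AddSubgroup.coe_nsmul]
    exact HK.pow j
  have hjE : (Pic0.mk (j • E) : JZero (4 * M' * P.p)) = j • (τ • x - x) := by
    have : (Pic0.mk (j • E) : JZero (4 * M' * P.p))
        = j • (Pic0.mk E : JZero (4 * M' * P.p)) := rfl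
    rw [this, hE]
  have h : σ • (Pic0.mk D : JZero (4 * M' * P.p)) = Pic0.mk D + Pic0.mk (j • E) := by
    rw [hD, hjE]
    exact hj2
  obtain ⟨c, v, hc, hv, e⟩ := galF_eq_of_smul_eq_add σ H HKj h
  refine ⟨j, c, v, hj1, hc, hv, ?_⟩
  rw [e]
  ring

/-- **the instance contract of [CONCL], weak form**: `ConclNewStatement` at the bad pair
`(4 M', p)` of a Frey package with `p ∣ a b c` and `E[p]` irreducible. -/
def ConclNewFreyStatement : Prop :=
  ∀ (P : FreyPackage) (M' : ℕ) [NeZero M'] (hpN : ¬ P.p ∣ 4 * M')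
    (A : ValuationSubring (AlgebraicClosure ℚ)), A.LiesOverPrime P.p →
    (P.p : ℤ) ∣ P.a * P.b * P.c →
    WeierstrassCurve.Affine.Point.GaloisRepIsIrreducible (K := AlgebraicClosure ℚ) ℚ P.freyCurve P.p →
    ∀ (b0 : FF (4 * M' * P.p)) (B : PowerSeries ℤ) (ε : ℤ), IsUnit0 P.pp hpN b0 B ε →
      ∀ ν : FFb A (4 * M'), IsRed1 A (4 * M') P.p b0 ν →
        ConclNewStatement (4 * M') P.p P.pp hpN A ν

theorem conclNewFrey_of_conclFrey (h : ConclFreyStatement) : ConclNewFreyStatement :=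
  fun P M' _ hpN A hA _ _ b0 B ε hb ν hν => conclNew_of_concl (h P M' hpN A hA b0 B ε hb ν hν)

/-- **the NON-SPLIT case of the wall from the weak form of [CONCL]**, with
`B := helper29.wallBN`. -/
theorem nonSplitWall_of_conclNew (π : PullData) (hC : ConclNewFreyStatement) :
    NonSplitWallStatement π Fermat.Agent.T8.helper29.wallBN := by
  intro P W M' _ hpN A V0 ctx x hx τ hτ hτx hpN' b0 B ε hb0 ν hν
  obtain ⟨D, u, hD, H⟩ := exists_isRootDiv_of_nsmul_eq_zero (ctx.real.tors x hx)
  have hdiv : (P.p : ℤ) ∣ P.a * P.b * P.c := ctx.cond.p_dvd_abc (Dvd.intro_left M' rfl)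
  exact isWallBN2_of_conclNew
    (hC P M' hpN' A ctx.liesOver hdiv ctx.irr b0 B ε hb0 ν hν) ⟨H.1, D, hD, H.2⟩
    (peuShapeNew_of_ctx ctx hx hτ hτx hD H)

end Fermat.Agent.T8.helper89

end
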