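import Fermat.Agent.T8.helper29_ConclAsm
import Fermat.Agent.T8.helper80_SlopeCoverK0
import Fermat.Agent.T8.helper9_SlopeCover
import Fermat.Agent.T8.helper89_PeuNew

/-!
# T8 = row 38 via S44, leaf [CONCL] (helper29, owner): the wiring WITH NEWNESS

The non-split box of the wall from the instance contract of [SLOPE-X'], in three interchangeable
forms (each one at the covers of the NEW strongly split Kummer functions only):

* `CovPtNew`      : at every closed point `Q` of the special fibre where `j̄` is finite, a local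
                    ring of the cover (`helper9.CovPt`) through a pair of sheets `(1, i)`, `(2, j)`
                    together with an order function `ordS` of the point (`SheetOrd`);
* `K0CoverNew`    : `helper80.K0CoverStatement` (the K0-corollary on the cover);
* `SlopeCoverNew` : `SlopeCoverStatement` (the K1-corollary on the cover).

`CovPtNew → K0CoverNew → SlopeCoverNew → helper89.ConclNewFreyStatement →
helper38.NonSplitWallStatement π wallBN`.

The hypotheses handed to the prover of the instance: a Frey package with `p ∣ a b c` and `E[p]`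
irreducible, the bad pair `(4 M', p)`, a weight-one unit `b₀` with first-component reduction `ν`,
a cover datum `D` (it carries the pair form of the inertia action, `helper88.CovData.pair`), the
Kummer property of `D.Z` (so `D.K` is not a `p`-th power), a primitive `p`-th root of unity,
`StronglySplit D.K`, `IsNewN D.K`, `red Z₁ = 1`, `red Z₂ = 1`.

The split case needs nothing (`helper5.splitWall`); in the non-split case the Kummer function
`K` of `PeuShapeNew` is not a `p`-th power, so the K1-corollary on `X` is not used here.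
-/

set_option autoImplicit false
set_option linter.unusedSectionVars false
set_option linter.unusedVariables false
set_option linter.style.longLine false
set_option linter.style.haveILetI false

noncomputable section

namespace Fermat.Agent.T8.helper29

open HahnSeries IntermediateField AlgebraicCurve ModularCurve
open Fermat.Agent.S18.helper19 Fermat.Agent.P2.helper29 Fermat.Agent.P2.helper93
open Fermat.Agent.T2 Fermat.Agent.T2.helper36
open Fermat.Agent.T8.helper65 (HasRed GoodClass)
open Fermat.Agent.T8.helper54 (IsRed1 DvdOff ModEqOff)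
open Fermat.Agent.T3.helper36 (RhoQ)
open Fermat.Agent.T8.helper88 (CovData Cov)
open Fermat.Agent.T8.helper22 (SheetGood)
open Fermat.Agent.T8.helper86 (IsKummerRoot)
open Fermat.Agent.T8.helper98 (IsIK1)
open Fermat.Agent.T8.helper16 (ordAt)
open Fermat.Agent.T3.helper16 (IsUnit0)

variable {A : ValuationSubring Kb}

/-! ### One cover -/

section One

variable {N p : ℕ} [NeZero N] [NeZero p] {W : FF (N * p) ≃ₐ[Kb] FF (N * p)}
  (D : CovData (N * p) W A p) (hKum : IsKummerRoot p D.K D.Z) (ζ : Kb) (hζp : ζ ^ p = 1)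

/-- **the instance contract of [SLOPE-X'] at the points of the cover**: over every closed point
`Q` of the special fibre where `j̄` is finite there are an order function `ordS` (`SheetOrd`), a
pair of sheets `(1, i)`, `(2, j)` and a local ring `T` of the cover (`helper9.CovPt`) whose second
vertical element reduces on the first sheet to a series `ν'` with `ordS ν' = ord_Q ν`. -/
def CovPtStatement (ν : FFb A N) : Prop :=
  ∀ Q : Place (kA A) (FFb A N), 0 ≤ Q.ord (jBar A N) →
    ∃ ordS : LaurentSeries (kA A) → ℤ, SheetOrd A N (SheetGood (N * p) A D.Z) Q ordS ∧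
      ∃ (i j : ℕ) (T : Subring (Cov (N * p) D.Z)) (xx y : T)
        (Fb : Subfield (LaurentSeries (kA A))) (ν' : LaurentSeries (kA A)),
        Fermat.Agent.T8.helper9.CovPt (A := A) (Fermat.Agent.T8.helper23.covSet D)
          (sh1 D hKum ζ hζp i) (sh2 D hKum ζ hζp j) T xx y Fb ordS ν' p ∧
        ordS ν' = Q.ord ν

/-- **`CovPtStatement ⟹ helper80.K0CoverStatement`** (`helper9.CovPt.k0` and the dictionary
`helper23.dictModEq_cov`). -/
theorem k0CoverStatement_of_covPt (hA : A.LiesOverPrime p)
    {E : Divisor Kb (FF (N * p))} (hE : ∀ v : Place Kb (FF (N * p)), v.ord D.K = p * E v)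
    (ν : FFb A N) (h : CovPtStatement D hKum ζ hζp ν) :
    Fermat.Agent.T8.helper80.K0CoverStatement D hKum ζ hζp ν := by
  intro U hU hfix hdiv Q hQ
  obtain ⟨ordS, hS, i, j, T, xx, y, Fb, ν', hpt, hν'⟩ := h Q hQ
  refine ⟨ordS, hS, i, j, ?_⟩
  intro c₁ c₂ r₁ r₂ k hc₁ hc₂ hr₁ hr₂ hk hk'
  have hfix' : ∀ g ∈ Fermat.Agent.T8.helper23.covSet D, g U = U := by
    rintro g ⟨σ, hσ, rfl⟩
    apply Subtype.ext
    rw [CovData.actEquiv_apply, CovData.coe_act]
    exact hfix σ hσ
  have key := hpt.k0 D.hp hA (Fermat.Agent.T8.helper23.dictModEq_cov D hKum hE)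
    (Good := fun Y : LaurentSeries A => red A Y ≠ 0) (fun Y hY => hY) hU hfix'
    (fun 𝔓 _ => hdiv 𝔓) c₁ c₂ r₁ r₂ k hc₁ hc₂
    (HasRed.mono (fun Y hY => hY.2) hr₁) (HasRed.mono (fun Y hY => hY.2) hr₂) hk hk'
  rw [hν'] at key
  exact key

/-- **`CovPtStatement ⟹ SlopeCoverStatement`**. -/
theorem slopeCoverStatement_of_covPt (hA : A.LiesOverPrime p)
    {E : Divisor Kb (FF (N * p))} (hE : ∀ v : Place Kb (FF (N * p)), v.ord D.K = p * E v)
    (ν : FFb A N) (h : CovPtStatement D hKum ζ hζp ν) :
    SlopeCoverStatement D hKum ζ hζp ν :=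
  Fermat.Agent.T8.helper80.slopeCoverStatement_of_k0 D hKum ζ hζp hA ν
    (k0CoverStatement_of_covPt D hKum ζ hζp hA hE ν h)

end One

/-! ### [CONCL] with newness at one bad pair -/

section Concl

variable {N p : ℕ} [NeZero N] [NeZero p]

/-- **[CONCL] with newness = the K1-corollary on the covers of the new strongly split Kummer
functions**. -/
theorem conclNew_of_slopeCover (hp : p.Prime) (hpN : ¬ p ∣ N) (hN : 4 ∣ N ∨ 9 ∣ N)
    (hA : A.LiesOverPrime p) (ν : FFb A N)
    (hX' : ∀ (D : CovData (N * p) (atkinLehner N p hp hpN) A p)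
      (hKum : IsKummerRoot p D.K D.Z) (ζ : Kb) (hζp : ζ ^ p = 1), IsPrimitiveRoot ζ p →
      Fermat.Agent.T7.helper27.StronglySplit (N * p) (atkinLehner N p hp hpN) A p D.K →
      Fermat.Agent.T7.helper27.IsNewN N p D.K → red A D.Z₁ = 1 → red A D.Z₂ = 1 →
      SlopeCoverStatement D hKum ζ hζp ν) :
    Fermat.Agent.T8.helper89.ConclNewStatement N p hp hpN A ν := by
  intro u hu hdiv hpeu
  obtain ⟨K, ζ, α, hK, hnew, hnp, hζ, hα, hv, -, hgal⟩ := hpeu
  obtain ⟨hA0, hKdiv, Z₁, Z₂, h1, h2, hr1, hr2⟩ := id hK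
  have hK0 : K ≠ 0 := fun h0 => hnp 0 (by rw [h0, zero_pow hp.ne_zero])
  let D : CovData (N * p) (atkinLehner N p hp hpN) A p :=
    CovData.ofBad N p hp hpN hN A hA K hA0 Z₁ Z₂ h1 h2 hr1 hr2
  have hKum : IsKummerRoot p D.K D.Z := ⟨hp, h1, hnp⟩
  have hI : Fermat.Agent.T8.helper83.DescInput (N * p) A p K u D.Z ζ α :=
    { root := hKum
      zeta := hζ.pow_eq_one
      alpha := hα
      u_ne := hu
      galZ := by
        intro σ hσ
        obtain ⟨w, -, hw, -⟩ := D.pair σ hσ.1 1 hp.one_lt.le
          (fun z hz => by rw [pow_one]; exact hσ.2 z hz)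
        refine ⟨w, ?_⟩
        rw [pow_one] at hw
        exact hw
      galu := hgal }
  have hD := Fermat.Agent.T8.helper59.descOutput_of_primitive hI hζ
  obtain ⟨E, hE⟩ := exists_divisor_of_dvd hK0 hKdiv
  exact slopeOutN_of_descOutput D hKum ζ hζ.pow_eq_one hp hpN hA hζ hE hu hdiv hv hD ν
    (hX' D hKum ζ hζ.pow_eq_one hζ hK hnew hr1 hr2)

end Concl

/-! ### The frontier -/

section Frontier

/-- the common hypotheses of the three frontier forms -/
def CoverNewAll (S : ∀ (N p : ℕ) [NeZero N] [NeZero p] (hp : p.Prime) (hpN : ¬ p ∣ N)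
    (A : ValuationSubring Kb) (D : CovData (N * p) (atkinLehner N p hp hpN) A p)
    (hKum : IsKummerRoot p D.K D.Z) (ζ : Kb) (hζp : ζ ^ p = 1) (ν : FFb A N), Prop) : Prop :=
  ∀ (P : FreyPackage) (M' : ℕ) [NeZero M'] (hpN : ¬ P.p ∣ 4 * M')
    (A : ValuationSubring Kb), A.LiesOverPrime P.p →
    (P.p : ℤ) ∣ P.a * P.b * P.c →
    WeierstrassCurve.Affine.Point.GaloisRepIsIrreducible (K := AlgebraicClosure ℚ) ℚ
      P.freyCurve P.p →
    ∀ (b0 : FF (4 * M' * P.p)) (B : PowerSeries ℤ) (ε : ℤ), IsUnit0 P.pp hpN b0 B ε →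
    ∀ ν : FFb A (4 * M'), IsRed1 A (4 * M') P.p b0 ν →
    ∀ (D : CovData (4 * M' * P.p) (atkinLehner (4 * M') P.p P.pp hpN) A P.p)
      (hKum : IsKummerRoot P.p D.K D.Z) (ζ : Kb) (hζp : ζ ^ P.p = 1), IsPrimitiveRoot ζ P.p →
      Fermat.Agent.T7.helper27.StronglySplit (4 * M' * P.p)
        (atkinLehner (4 * M') P.p P.pp hpN) A P.p D.K →
      Fermat.Agent.T7.helper27.IsNewN (4 * M') P.p D.K → red A D.Z₁ = 1 → red A D.Z₂ = 1 →
      S (4 * M') P.p P.pp hpN A D hKum ζ hζp ν

/-- **frontier, K1-form**: `SlopeCoverStatement` at the covers of the new strongly split Kummer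
functions at the bad pairs of the Frey packages. -/
def SlopeCoverNew : Prop :=
  CoverNewAll (fun N p _ _ hp hpN A D hKum ζ hζp ν => SlopeCoverStatement D hKum ζ hζp ν)

/-- **frontier, K0-form**: `helper80.K0CoverStatement` at the same covers. -/
def K0CoverNew : Prop :=
  CoverNewAll (fun N p _ _ hp hpN A D hKum ζ hζp ν =>
    Fermat.Agent.T8.helper80.K0CoverStatement D hKum ζ hζp ν)

/-- **frontier, point form**: `CovPtStatement` at the same covers. -/
def CovPtNew : Prop :=
  CoverNewAll (fun N p _ _ hp hpN A D hKum ζ hζp ν => CovPtStatement D hKum ζ hζp ν)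

theorem slopeCoverNew_of_k0 (h : K0CoverNew) : SlopeCoverNew := by
  intro P M' _ hpN A hA hdvd hirr b0 B ε hb ν hν D hKum ζ hζp hζ hK hnew hr1 hr2
  exact Fermat.Agent.T8.helper80.slopeCoverStatement_of_k0 D hKum ζ hζp hA ν
    (h P M' hpN A hA hdvd hirr b0 B ε hb ν hν D hKum ζ hζp hζ hK hnew hr1 hr2)

theorem k0CoverNew_of_covPt (h : CovPtNew) : K0CoverNew := by
  intro P M' _ hpN A hA hdvd hirr b0 B ε hb ν hν D hKum ζ hζp hζ hK hnew hr1 hr2
  have hK0 : D.K ≠ 0 := fun h0 => hKum.not_pow 0 (by rw [h0, zero_pow P.pp.ne_zero])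
  obtain ⟨E, hE⟩ := exists_divisor_of_dvd hK0 hK.2.1
  exact k0CoverStatement_of_covPt D hKum ζ hζp hA hE ν
    (h P M' hpN A hA hdvd hirr b0 B ε hb ν hν D hKum ζ hζp hζ hK hnew hr1 hr2)

theorem slopeCoverNew_of_covPt (h : CovPtNew) : SlopeCoverNew :=
  slopeCoverNew_of_k0 (k0CoverNew_of_covPt h)

/-- **[CONCL] with newness from the K1-corollary on the new covers** -/
theorem conclNewFrey_of_slopeCoverNew (h : SlopeCoverNew) :
    Fermat.Agent.T8.helper89.ConclNewFreyStatement := by
  intro P M' _ hpN A hA hdvd hirr b0 B ε hb ν hν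
  exact conclNew_of_slopeCover P.pp hpN (Or.inl (Dvd.intro M' rfl)) hA ν
    (fun D hKum ζ hζp hζ hK hnew hr1 hr2 =>
      h P M' hpN A hA hdvd hirr b0 B ε hb ν hν D hKum ζ hζp hζ hK hnew hr1 hr2)

/-- **the non-split wall from the K1-corollary on the new covers** -/
theorem nonSplitWall_of_slopeCoverNew (π : Fermat.Agent.T8.helper72.PullData)
    (h : SlopeCoverNew) : Fermat.Agent.T8.helper38.NonSplitWallStatement π wallBN :=
  Fermat.Agent.T8.helper89.nonSplitWall_of_conclNew π (conclNewFrey_of_slopeCoverNew h)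

/-- **the non-split wall from the K0-corollary on the new covers** -/
theorem nonSplitWall_of_k0CoverNew (π : Fermat.Agent.T8.helper72.PullData)
    (h : K0CoverNew) : Fermat.Agent.T8.helper38.NonSplitWallStatement π wallBN :=
  nonSplitWall_of_slopeCoverNew π (slopeCoverNew_of_k0 h)

/-- **the non-split wall from the local rings of the new covers** -/
theorem nonSplitWall_of_covPtNew (π : Fermat.Agent.T8.helper72.PullData)
    (h : CovPtNew) : Fermat.Agent.T8.helper38.NonSplitWallStatement π wallBN :=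
  nonSplitWall_of_k0CoverNew π (k0CoverNew_of_covPt h)

end Frontier

end Fermat.Agent.T8.helper29

end
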