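import Fermat.Agent.T8.helper29_Concl

/-!
# T8 = row 38 via S44, leaf [CONCL] (helper29, owner): CONTRACT, QUOTIENT FORM (binding)

CORRECTION of `helper29_Concl.lean`: there `IsRedPair` asks for an INTEGRAL scaled expansion of
`u`.  A function of Gauss valuation `0` need not have one (`1 / (p + q)`), and `PeuShape` is stable
under `u ↦ G ^ p * u`, so `ConclStatement` of that file is too strong.  As everywhere in P2 / T2 /
T7 (`IsRedOne`, `ScaleStatement`) the reduction has to be taken in QUOTIENT FORM: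

  `c * incl Y = u * incl Y'`,  `Y`, `Y'` good,   reduction of `u / c`  :=  `red Y / red Y'`.

Binding contracts of [CONCL] (Kummer form, vocabulary `M`, `W`, `A`, `p` of T2 / T7):

* `IsRedQ A u f`             : `f ∈ FFb A M` is the reduction of (a constant multiple of) the
                               series `u`, quotient form; automatically `f ≠ 0`;
* `IsRedPairQ W A u f₁ f₂`   : `f₁`, `f₂` are the reductions of the two expansions `u`, `W u`;
* `SlopeFormQ W A p ν β₁ β₂ u` : the period formula `c(x) = β m`;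
* `RedDivDvdQ W A p u`       : OUTPUT OF THE WALL `c(x) = 0`;
* `ConclStatementQ M W A p ν` : **[CONCL]**  `PeuShape u ⟹ ∃ β₁ β₂, SlopeFormQ β₁ β₂ u`
                               (`PeuShape`, `jbar` are those of `helper29_Concl.lean`);
* `redDivDvdQ_of_slopeFormQ` : [PHI] (`p ∣ β₁`, `p ∣ β₂`) gives the output of the wall;
* `IsWallCQ`, `wallCQ`       : class form, `wallCQ : helper72.WallData`.

Calculus (used by the wiring and by the consumers): `IsRedQ` is multiplicative
(`IsRedQ.mul`, `IsRedQ.inv`, `IsRedQ.pow`, `isRedQ_const`), and two reductions of the same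
function differ by a nonzero constant (`IsRedQ.unique`), so the orders `Q.ord f` depend only on
`u`.
-/

set_option autoImplicit false
set_option linter.unusedSectionVars false
set_option linter.unusedVariables false
set_option linter.style.longLine false

noncomputable section

namespace Fermat.Agent.T8.helper29

open HahnSeries IntermediateField AlgebraicCurve ModularCurve
open Fermat.Agent.S18.helper19 Fermat.Agent.P2.helper29 Fermat.Agent.P2.helper93
open Fermat.Agent.T2 Fermat.Agent.T2.helper36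

variable {M : ℕ} [NeZero M]

/-- `f` is the reduction of a constant multiple of the series `u`, in quotient form:
`c * incl Y = u * incl Y'` with `Y`, `Y'` good and `f * red Y' = red Y`. -/
def IsRedQ (A : ValuationSubring Kb) (u : LaurentSeries Kb) (f : FFb A M) : Prop :=
  ∃ (c : Kb) (Y Y' : LaurentSeries A), c ≠ 0 ∧ IsGood A M Y ∧ IsGood A M Y' ∧
    algebraMap Kb (LaurentSeries Kb) c * incl A Y = u * incl A Y' ∧
    (f : LaurentSeries (kA A)) * red A Y' = red A Y

/-- `f₁`, `f₂` are the reductions of the two expansions of `u`. -/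
def IsRedPairQ (W : FF M ≃ₐ[Kb] FF M) (A : ValuationSubring Kb) (u : FF M)
    (f₁ f₂ : FFb A M) : Prop :=
  IsRedQ A (u : LaurentSeries Kb) f₁ ∧ IsRedQ A ((W u : FF M) : LaurentSeries Kb) f₂

/-- **the period formula `c(x) = β m`** for the Kummer function `u`, quotient form. -/
def SlopeFormQ (W : FF M ≃ₐ[Kb] FF M) (A : ValuationSubring Kb) (p : ℕ) (ν : FFb A M)
    (β₁ β₂ : ℤ) (u : FF M) : Prop :=
  ∃ f₁ f₂ : FFb A M, IsRedPairQ W A u f₁ f₂ ∧
    ∀ Q : Place (kA A) (FFb A M), ¬ IsInfty Q →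
      (0 ≤ Q.ord (jbar A M) →
        (p : ℤ) ∣ Q.ord f₁ - β₁ * Q.ord ν ∧ (p : ℤ) ∣ Q.ord f₂ - β₂ * Q.ord ν) ∧
      (Q.ord (jbar A M) < 0 → (p : ℤ) ∣ Q.ord f₁ ∧ (p : ℤ) ∣ Q.ord f₂)

/-- **the output of the wall, `c(x) = 0`**, quotient form. -/
def RedDivDvdQ (W : FF M ≃ₐ[Kb] FF M) (A : ValuationSubring Kb) (p : ℕ) (u : FF M) : Prop :=
  ∃ f₁ f₂ : FFb A M, IsRedPairQ W A u f₁ f₂ ∧
    ∀ Q : Place (kA A) (FFb A M), ¬ IsInfty Q → (p : ℤ) ∣ Q.ord f₁ ∧ (p : ℤ) ∣ Q.ord f₂

/-- **[CONCL]** the period formula in the peu ramifie case, quotient form (binding). -/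
def ConclStatementQ (M : ℕ) [NeZero M] (W : FF M ≃ₐ[Kb] FF M) (A : ValuationSubring Kb)
    (p : ℕ) (ν : FFb A M) : Prop :=
  ∀ u : FF M, u ≠ 0 → (∀ P : Place Kb (FF M), (p : ℤ) ∣ P.ord u) → PeuShape W A p u →
    ∃ β₁ β₂ : ℤ, SlopeFormQ W A p ν β₁ β₂ u

/-- [PHI] kills the constants: the output of the wall. -/
theorem redDivDvdQ_of_slopeFormQ {W : FF M ≃ₐ[Kb] FF M} {A : ValuationSubring Kb} {p : ℕ}
    {ν : FFb A M} {β₁ β₂ : ℤ} {u : FF M} (h : SlopeFormQ W A p ν β₁ β₂ u)
    (h₁ : (p : ℤ) ∣ β₁) (h₂ : (p : ℤ) ∣ β₂) : RedDivDvdQ W A p u := by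
  obtain ⟨f₁, f₂, hf, hQ⟩ := h
  refine ⟨f₁, f₂, hf, fun Q hQi => ?_⟩
  obtain ⟨hfin, hcusp⟩ := hQ Q hQi
  rcases lt_or_ge (Q.ord (jbar A M)) 0 with hj | hj
  · exact hcusp hj
  · obtain ⟨a, b⟩ := hfin hj
    constructor
    · have := dvd_add a (Dvd.dvd.mul_right h₁ (Q.ord ν))
      simpa using this
    · have := dvd_add b (Dvd.dvd.mul_right h₂ (Q.ord ν))
      simpa using this

/-! ### Calculus of `IsRedQ` -/

section Calculus

variable {A : ValuationSubring Kb}

theorem IsRedQ.ne_zero {u : LaurentSeries Kb} {f : FFb A M} (h : IsRedQ A u f) : f ≠ 0 := by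
  obtain ⟨c, Y, Y', hc, hY, hY', h1, h2⟩ := h
  rintro rfl
  apply hY.2.2
  rw [← h2]
  simp

theorem IsRedQ.series_ne_zero {u : LaurentSeries Kb} {f : FFb A M} (h : IsRedQ A u f) :
    u ≠ 0 := by
  obtain ⟨c, Y, Y', hc, hY, hY', h1, h2⟩ := h
  rintro rfl
  rw [zero_mul] at h1
  have hc' : algebraMap Kb (LaurentSeries Kb) c ≠ 0 := by
    rw [Ne, map_eq_zero_iff _ (algebraMap Kb (LaurentSeries Kb)).injective]
    exact hc
  rcases mul_eq_zero.mp h1 with h3 | h3
  · exact hc' h3
  · apply hY.2.2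
    have h4 : Y = 0 := by
      have hinj : Function.Injective (incl A) := by
        intro a b hab
        refine HahnSeries.ext (funext fun n => ?_)
        have := congrArg (fun s : LaurentSeries Kb => s.coeff n) hab
        simpa [incl] using Subtype.ext this
      exact hinj (by rw [h3, map_zero])
    rw [h4, map_zero]

/-- the reduction of `1` is `1` -/
theorem isRedQ_one : IsRedQ A (1 : LaurentSeries Kb) (1 : FFb A M) :=
  ⟨1, 1, 1, one_ne_zero, isGood_one, isGood_one, by simp, by simp⟩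

/-- the reduction of a product is the product of the reductions -/
theorem IsRedQ.mul {u v : LaurentSeries Kb} {f g : FFb A M} (hu : IsRedQ A u f)
    (hv : IsRedQ A v g) : IsRedQ A (u * v) (f * g) := by
  obtain ⟨c, Y, Y', hc, hY, hY', h1, h2⟩ := hu
  obtain ⟨d, Z, Z', hd, hZ, hZ', h3, h4⟩ := hv
  refine ⟨c * d, Y * Z, Y' * Z', mul_ne_zero hc hd, hY.mul hZ, hY'.mul hZ', ?_, ?_⟩
  · rw [map_mul, map_mul, map_mul]
    calc algebraMap Kb (LaurentSeries Kb) c * algebraMap Kb (LaurentSeries Kb) d *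
          (incl A Y * incl A Z)
        = (algebraMap Kb (LaurentSeries Kb) c * incl A Y) *
          (algebraMap Kb (LaurentSeries Kb) d * incl A Z) := by ring
      _ = (u * incl A Y') * (v * incl A Z') := by rw [h1, h3]
      _ = u * v * (incl A Y' * incl A Z') := by ring
  · rw [map_mul, map_mul]
    calc ((f * g : FFb A M) : LaurentSeries (kA A)) * (red A Y' * red A Z')
        = ((f : LaurentSeries (kA A)) * red A Y') * ((g : LaurentSeries (kA A)) * red A Z') := by
          push_cast; ring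
      _ = red A Y * red A Z := by rw [h2, h4]

/-- the reduction of the inverse is the inverse of the reduction -/
theorem IsRedQ.inv {u : LaurentSeries Kb} {f : FFb A M} (hu : IsRedQ A u f) :
    IsRedQ A u⁻¹ f⁻¹ := by
  have hf0 := hu.ne_zero
  have hu0 := hu.series_ne_zero
  obtain ⟨c, Y, Y', hc, hY, hY', h1, h2⟩ := hu
  have hc' : algebraMap Kb (LaurentSeries Kb) c ≠ 0 := by
    rw [Ne, map_eq_zero_iff _ (algebraMap Kb (LaurentSeries Kb)).injective]
    exact hc
  refine ⟨c⁻¹, Y', Y, inv_ne_zero hc, hY', hY, ?_, ?_⟩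
  · rw [map_inv₀]
    have h5 : incl A Y = (algebraMap Kb (LaurentSeries Kb) c)⁻¹ * (u * incl A Y') := by
      rw [← h1, ← mul_assoc, inv_mul_cancel₀ hc', one_mul]
    rw [h5]
    field_simp
  · have hf0' : (f : LaurentSeries (kA A)) ≠ 0 := fun h => hf0 (Subtype.ext h)
    rw [← h2]
    push_cast
    field_simp

/-- the reduction of a power is the power of the reduction -/
theorem IsRedQ.pow {u : LaurentSeries Kb} {f : FFb A M} (hu : IsRedQ A u f) (n : ℕ) :
    IsRedQ A (u ^ n) (f ^ n) := by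
  induction n with
  | zero => simpa using (isRedQ_one (M := M) (A := A))
  | succ n ih => rw [pow_succ, pow_succ]; exact ih.mul hu

/-- a nonzero constant has reduction `1` -/
theorem isRedQ_const {c : Kb} (hc : c ≠ 0) :
    IsRedQ A (algebraMap Kb (LaurentSeries Kb) c) (1 : FFb A M) :=
  ⟨c, 1, 1, hc, isGood_one, isGood_one, by simp, by simp⟩

end Calculus

/-! ### Class form -/

/-- the wall predicate `c(x) = 0` on classes, quotient form. -/
def IsWallCQ (N q : ℕ) [NeZero N] [NeZero q] (hq : q.Prime) (hqN : ¬ q ∣ N)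
    (A : ValuationSubring Kb) (x : JZero (N * q)) : Prop :=
  ∃ (D : Divisor.degZero (K := Kb) (F := FF (N * q))) (u : FF (N * q)),
    (Pic0.mk D : JZero (N * q)) = x ∧ IsRootDiv q (D : Divisor Kb (FF (N * q))) u ∧
      RedDivDvdQ (atkinLehner N q hq hqN) A q u

/-- the wall predicate as `helper72.WallData` (level `4 M' p`, bad pair `(4 M', p)`). -/
def wallCQ : Fermat.Agent.T8.helper72.WallData := fun P M' _ A x =>
  ∀ hpN : ¬ P.p ∣ 4 * M', IsWallCQ (4 * M') P.p P.pp hpN A x

end Fermat.Agent.T8.helper29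

end
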