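/-
T8 [SLOPE-X'] cover instance, item (iv) of the coordinator's table (helper65, second):
**the order function of the point contract** `helper9.covPtHom_loc` / `helper9.CovPtStatement`
at `R = R_Q = locX A hq hqN Q`, `ρR = redL`, `Fb = FFb A N`, `ordS = ordAt Q`.

* `covFb A N`          : `FFb A N` as a `Subfield (LaurentSeries (kA A))` (the `Fb` of `CovPt`);
* `covOrd_mul`         : hypothesis `hmul` of `helper9.covPtHom_loc` VERBATIM;
* `covOrd_const_mul`   : hypothesis `hcm` of `helper9.covPtHom_loc` VERBATIM;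
* `redL_yy_ne_zero`    : hypothesis `hν` of `helper9.covPtHom_loc` (`ρR yR ≠ 0`);
* `ordAt_iota_eq`      : `ordAt Q (iota B) = Q.ord ν` for every first-component reduction `ν`
                         of the unit `b₀`;
* `ordAt_redL_yy`      : **`ordS ν' = Q.ord ν`** with `ν' = redL y` (last conjunct of
                         `helper9.CovPtStatement`).

Small closure: `helper16_RingXSheet1`, `helper29_ConclOrd`, `helper65_K1SlopeX`.
-/
import Mathlib
import Fermat.Agent.T8.helper16_RingXSheet1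
import Fermat.Agent.T8.helper29_ConclOrd
import Fermat.Agent.T8.helper65_K1SlopeX

set_option autoImplicit false
set_option linter.unusedSectionVars false
set_option linter.unusedVariables false
set_option linter.style.haveILetI false
set_option linter.style.longLine false

noncomputable section

namespace Fermat.Agent.T8.helper65

open HahnSeries IntermediateField AlgebraicCurve ModularCurve
open Fermat.Agent.S18.helper19 Fermat.Agent.P2.helper29 Fermat.Agent.P2.helper93
open Fermat.Agent.T2.helper36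
open Fermat.Agent.P2.helper66 (iota)
open Fermat.Agent.T3.helper36 (RhoQ GaussIs)
open Fermat.Agent.T3.helper16 (IsUnit0)
open Fermat.Agent.T8.helper16 (ordAt IsFinitePt locX redL)
open Fermat.Agent.T8.helper54 (IsRed1)

section Fb

variable (A : ValuationSubring Kb) (N : ℕ) [NeZero N]

/-- the residue function field `FFb A N` as a subfield of the Laurent series (the `Fb` of the
point contract `helper9.CovPt`) -/
def covFb : Subfield (LaurentSeries (kA A)) := (FFb A N).toSubfield

variable {A N}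

theorem mem_covFb {r : LaurentSeries (kA A)} : r ∈ covFb A N ↔ r ∈ FFb A N := Iff.rfl

/-- hypothesis `hmul` of `helper9.covPtHom_loc` (field `ord_mul` of `CovPt`) -/
theorem covOrd_mul (Q : Place (kA A) (FFb A N)) :
    ∀ r s : LaurentSeries (kA A), r ∈ covFb A N → s ∈ covFb A N → r ≠ 0 → s ≠ 0 →
      ordAt Q (r * s) = ordAt Q r + ordAt Q s :=
  fun _ _ hr hs hr0 hs0 => Fermat.Agent.T8.helper16.ordAt_mul Q hr hs hr0 hs0

/-- hypothesis `hcm` of `helper9.covPtHom_loc` (field `ord_const_mul` of `CovPt`) -/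
theorem covOrd_const_mul (Q : Place (kA A) (FFb A N)) :
    ∀ c : kA A, c ≠ 0 → ∀ r : LaurentSeries (kA A), r ∈ covFb A N → r ≠ 0 →
      ordAt Q (algebraMap (kA A) (LaurentSeries (kA A)) c * r) = ordAt Q r :=
  fun _ hc _ hr _ => ordAt_const_mul Q hc hr

end Fb

section Nu

variable {N q : ℕ} [NeZero N] [NeZero q] {A : ValuationSubring Kb} {hq : q.Prime}
  {hqN : ¬ q ∣ N} {b0 : FF (N * q)} {B : PowerSeries ℤ} {ε : ℤ}

/-- the first reduction of the unit `b₀` is `iota B` (relational form with the constant `1`) -/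
theorem rhoQ_b0 (h : IsUnit0 hq hqN b0 B ε) :
    RhoQ A (algebraMap Kb (LaurentSeries Kb) (1 : Kb)⁻¹ * (b0 : LaurentSeries Kb))
      (iota (kA A) B) := by
  rw [inv_one, map_one, one_mul, h.coe_eq, ← Fermat.Agent.T3.helper16.incl_iota,
    ← Fermat.Agent.T3.helper16.red_iota A B]
  exact Fermat.Agent.T3.helper36.rhoQ_incl _

/-- every first-component reduction `ν` of `b₀` has the orders of `iota B` -/
theorem ordAt_iota_eq (h : IsUnit0 hq hqN b0 B ε) {ν : FFb A N} (hν : IsRed1 A N q b0 ν)
    (Q : Place (kA A) (FFb A N)) : ordAt Q (iota (kA A) B) = Q.ord ν := by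
  obtain ⟨hν0, κ, hκ, hρ⟩ := hν
  have hν0' : (ν : LaurentSeries (kA A)) ≠ 0 := fun h0 => hν0 (Subtype.ext h0)
  obtain ⟨c, hc, e⟩ := Fermat.Agent.T8.helper29.rhoQ_unique_const hκ one_ne_zero hν0'
    (Fermat.Agent.T8.helper63.nu_ne_zero h A) hρ (rhoQ_b0 h)
  rw [e, ordAt_const_mul Q hc ν.2, Fermat.Agent.T8.helper16.ordAt_of_mem Q ν.2]

/-- hypothesis `hν` of `helper9.covPtHom_loc`: the reduction of `y = b₀` does not vanish -/
theorem redL_yy_ne_zero (h : IsUnit0 hq hqN b0 B ε) (hA : A.LiesOverPrime q)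
    (Q : Place (kA A) (FFb A N)) (hQ : IsFinitePt Q) (y : locX A hq hqN Q)
    (hy : (y : FF (N * q)) = b0) : redL hA Q hQ y ≠ 0 := by
  rw [Fermat.Agent.T8.helper16.redL_yy h hA Q hQ y hy]
  exact Fermat.Agent.T8.helper63.nu_ne_zero h A

/-- **item (iv): `ordS ν' = Q.ord ν`** for `ordS = ordAt Q`, `ν' = redL y`, `y = b₀` in `R_Q`
and `ν` any first-component reduction of `b₀` (last conjunct of `helper9.CovPtStatement`). -/
theorem ordAt_redL_yy (h : IsUnit0 hq hqN b0 B ε) (hA : A.LiesOverPrime q)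
    {ν : FFb A N} (hν : IsRed1 A N q b0 ν)
    (Q : Place (kA A) (FFb A N)) (hQ : IsFinitePt Q) (y : locX A hq hqN Q)
    (hy : (y : FF (N * q)) = b0) : ordAt Q (redL hA Q hQ y) = Q.ord ν := by
  rw [Fermat.Agent.T8.helper16.redL_yy h hA Q hQ y hy]
  exact ordAt_iota_eq h hν Q

/-- the point is a double point iff `ν` vanishes at `Q` -/
theorem ordAt_iota_pos_iff (h : IsUnit0 hq hqN b0 B ε) {ν : FFb A N} (hν : IsRed1 A N q b0 ν)
    (Q : Place (kA A) (FFb A N)) : 0 < ordAt Q (iota (kA A) B) ↔ 0 < Q.ord ν := by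
  rw [ordAt_iota_eq h hν Q]

end Nu

end Fermat.Agent.T8.helper65

end
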