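import Fermat.Agent.T8.helper29_CovPtOrd
import Fermat.Agent.T8.helper23_CovPtWire2
import Fermat.Agent.T8.helper16_CovSheet1
import Fermat.Agent.T8.helper4_YCaseInst
import Fermat.Agent.T8.helper65_CovOrd
import Fermat.Agent.T8.helper97_SheetsGen

/-!
# T8 = row 38 via S44, leaf [SLOPE-X'] (helper29): assembly of the cover instance

The point contract `CovPtStatement` at the cover of a new strongly split Kummer function with
rational roots, from the landed pieces:

* `helper97.exists_sheets_poly`    : the polynomial `f₀` of the tame trace `t = tGen D ζ`;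
* `helper33.IsMonogenic.of_adjoin` : `S = R_Q[t]` is monogenic (`R_Q = helper16.locX Q`);
* `helper16.sheet1_cov`            : the first sheet at the point, the lift `a` of `t̄`;
* `helper4.yCase_locX`             : the second sheet at the point;
* `helper23.covPtHom_locX`         : the contract `helper9.CovPtHom` at `T₀ = S_M`;
* `helper9.CovPtHom.toCovPt`       : transport to the subring `ι.range` of the cover;
* `helper22.sheetOrd_cov₁`, `helper65.ordAt_redL_yy` : the order function.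

Output: `covPtStatement_inst`, `covPtFixInst : CovPtFix` and the non-split wall.
-/

set_option autoImplicit false
set_option synthInstance.maxHeartbeats 400000
set_option maxHeartbeats 1000000
set_option linter.unusedSectionVars false
set_option linter.unusedVariables false
set_option linter.style.longLine false
set_option linter.style.haveILetI false

noncomputable section

namespace Fermat.Agent.T8.helper29

open HahnSeries IntermediateField AlgebraicCurve ModularCurve Polynomial IsLocalRing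
open Fermat.Agent.S18.helper19 Fermat.Agent.P2.helper29 Fermat.Agent.P2.helper93
open Fermat.Agent.T2 Fermat.Agent.T2.helper36
open Fermat.Agent.T8.helper54 (IsRed1)
open Fermat.Agent.T8.helper88 (CovData Cov)
open Fermat.Agent.T8.helper86 (IsKummerRoot)
open Fermat.Agent.T8.helper16 (ordAt locX locXIncl IsFinitePt)
open Fermat.Agent.T3.helper16 (IsUnit0)
open Fermat.Agent.T3.helper98 (IsRegJ)
open Fermat.Agent.T8.helper33 (IsMonogenic ptIdeal)
open Fermat.Agent.T8.helper97 (tGen SheetsPoly phiX)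
open Fermat.Agent.T8.helper48 (xxLoc yyLoc)
open Fermat.Agent.T8.helper65 (muFix IA cwAct)

section Glue

variable {L : Type*} [Field L] {S : Type*} [CommRing S] [IsDomain S]

/-- the extension of an injective ring homomorphism into a field to the localisation at a
prime -/
def locLift (jS : S →+* L) (hjS : Function.Injective jS) (P : Ideal S) [P.IsPrime] :
    Localization.AtPrime P →+* L :=
  IsLocalization.lift (M := P.primeCompl) (g := jS) (fun y => by
    refine IsUnit.mk0 _ ?_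
    intro h0
    have h1 : (y : S) = 0 := hjS (h0.trans (map_zero jS).symm)
    exact y.2 (h1 ▸ P.zero_mem))

theorem locLift_algebraMap (jS : S →+* L) (hjS : Function.Injective jS) (P : Ideal S)
    [P.IsPrime] (s : S) :
    locLift jS hjS P (algebraMap S (Localization.AtPrime P) s) = jS s :=
  IsLocalization.lift_eq _ s

end Glue

section Inst

variable {N p : ℕ} [NeZero N] [NeZero p] {hp : p.Prime} {hpN : ¬ p ∣ N}
  {A : ValuationSubring Kb} {b0 : FF (N * p)} {B : PowerSeries ℤ} {ε : ℤ}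
  (D : CovData (N * p) (atkinLehner N p hp hpN) A p)
  (hKum : IsKummerRoot p D.K D.Z) (ζ : Kb) (hζp : ζ ^ p = 1)

section Loc

variable [((muFix p ⊓ IA A).subgroupOf (IA A)).FiniteIndex] {Q : Place (kA A) (FFb A N)}
  [IsLocalRing (locX A hp hpN Q)] [IsNoetherianRing (locX A hp hpN Q)]
  {S : Type*} [CommRing S] [IsDomain S] [Algebra (locX A hp hpN Q) S]
  {t : S} {f : (locX A hp hpN Q)[X]} {a : locX A hp hpN Q}
  (T₀ : Type*) [CommRing T₀] [Algebra S T₀] [Algebra (locX A hp hpN Q) T₀]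
  [IsScalarTower (locX A hp hpN Q) S T₀]
  [hP : (ptIdeal t a).IsPrime] [IsLocalization.AtPrime T₀ (ptIdeal t a)]

include hP in
/-- **step B**: the contract `helper9.CovPtHom` at the etale point `T₀ = S_M` over `Q`, on the
sheet `(1, 0)` and a sheet `(2, j)`, from the first-sheet data `Sheet1` at the point. -/
theorem covPtHom_inst (hU : IsUnit0 hp hpN b0 B ε) (hA : A.LiesOverPrime p)
    (hN : 4 ∣ N ∨ 9 ∣ N) (hp3 : 3 ≤ p) (hζ : IsPrimitiveRoot ζ p) (hQ : IsFinitePt Q)
    (hr1 : red A D.Z₁ = 1) (hr2 : red A D.Z₂ = 1)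
    (hfix1 : RootFix A p D.Z₁) (hfix2 : RootFix A p D.Z₂)
    (jS : S →+* Cov (N * p) D.Z) (hjS : Function.Injective jS)
    (hjR : ∀ r : locX A hp hpN Q, jS (algebraMap (locX A hp hpN Q) S r) =
      algebraMap (FF (N * p)) (Cov (N * p) D.Z) (r : FF (N * p)))
    (hjt : jS t = tGen D ζ)
    (hm : IsMonogenic t f) (hdeg : f.natDegree = p)
    (ha : f.eval a ∈ maximalIdeal (locX A hp hpN Q))
    (ha' : f.derivative.eval a ∉ maximalIdeal (locX A hp hpN Q))
    (ι : T₀ →+* Cov (N * p) D.Z) (hι : ∀ s : S, ι (algebraMap S T₀ s) = jS s)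
    (H : Fermat.Agent.T8.helper9.Sheet1 (A := A) (sh1 D hKum ζ hζp 0) jS t a (xxLoc hU hA Q)
      (FFb A N).toSubfield (ordAt Q) (Fermat.Agent.T8.helper16.redL hA Q hQ)) :
    haveI : IsDomain T₀ := IsMonogenic.isDomain_loc (t := t) (a := a) T₀
    ∃ j : ℕ, Fermat.Agent.T8.helper9.CovPtHom (A := A) (Fermat.Agent.T8.helper23.covSet D)
      (sh1 D hKum ζ hζp 0) (sh2 D hKum ζ hζp j) ι
      (algebraMap (locX A hp hpN Q) T₀ (xxLoc hU hA Q))
      (algebraMap (locX A hp hpN Q) T₀ (yyLoc hU hA Q)) (FFb A N).toSubfield (ordAt Q)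
      (Fermat.Agent.T8.helper16.redL hA Q hQ (yyLoc hU hA Q)) p := by
  haveI : IsDomain T₀ := IsMonogenic.isDomain_loc (t := t) (a := a) T₀
  have hK' := Fermat.Agent.T8.helper63.kerRedStatement hU A hA
  obtain ⟨hdom, hpid⟩ := Fermat.Agent.T8.helper16.dvr_quot_xx hU hA hN Q hQ (xxLoc hU hA Q)
    (Fermat.Agent.T8.helper48.coe_xxLoc hU hA Q)
  haveI := hdom
  haveI := hpid
  have hxxm : xxLoc hU hA Q ∈ maximalIdeal (locX A hp hpN Q) := by
    rw [mem_maximalIdeal, mem_nonunits_iff]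
    have e : xxLoc hU hA Q = locXIncl Q (Fermat.Agent.T8.helper16.xxX hK') := Subtype.ext rfl
    rw [e]
    exact Fermat.Agent.T8.helper16.not_isUnit_xx hA hK' Q hQ
  obtain ⟨j, -, hy⟩ := Fermat.Agent.T8.helper4.yCase_locX D hKum ζ hζp T₀ hU hA hN hQ hζ hp3
    hfix1 hfix2 hr1 hr2 jS hjR hjt hm hdeg ha ha' ι hι (yyLoc hU hA Q)
    (Fermat.Agent.T8.helper48.coe_yyLoc hU hA Q)
  exact ⟨j, Fermat.Agent.T8.helper23.covPtHom_locX D T₀ hU hA hKum ζ hζ hp3 hfix1 hfix2 hr1 hr2
    (Fermat.Agent.T8.helper48.coe_xxLoc hU hA Q) (Fermat.Agent.T8.helper48.coe_yyLoc hU hA Q)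
    hm ha ha' hxxm (sh2 D hKum ζ hζp j) hjS hjR hjt ι hι H
    (Fermat.Agent.T8.helper65.covOrd_mul Q) (Fermat.Agent.T8.helper65.covOrd_const_mul Q)
    (Fermat.Agent.T8.helper65.redL_yy_ne_zero hU hA Q hQ (yyLoc hU hA Q)
      (Fermat.Agent.T8.helper48.coe_yyLoc hU hA Q)) hy⟩

end Loc

section Mono

variable [((muFix p ⊓ IA A).subgroupOf (IA A)).FiniteIndex] {Q : Place (kA A) (FFb A N)}
  {S : Type*} [CommRing S] [IsDomain S] [Algebra (locX A hp hpN Q) S]
  {t : S}

/-- **step A**: the point of the cover over `Q`, from a monogenic model `S = R_Q[t]` of the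
cover with the polynomial of the tame trace. -/
theorem covPt_of_monogenic (hU : IsUnit0 hp hpN b0 B ε) (hA : A.LiesOverPrime p)
    (hN : 4 ∣ N ∨ 9 ∣ N) (hp3 : 3 ≤ p) (hζ : IsPrimitiveRoot ζ p) (hQ : IsFinitePt Q)
    (hnew : Fermat.Agent.T7.helper27.IsNewN N p D.K)
    (hr1 : red A D.Z₁ = 1) (hr2 : red A D.Z₂ = 1)
    (hfix1 : RootFix A p D.Z₁) (hfix2 : RootFix A p D.Z₂)
    (jS : S →+* Cov (N * p) D.Z) (hjS : Function.Injective jS)
    (hjR : ∀ r : locX A hp hpN Q, jS (algebraMap (locX A hp hpN Q) S r) =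
      algebraMap (FF (N * p)) (Cov (N * p) D.Z) (r : FF (N * p)))
    (hjt : jS t = tGen D ζ)
    {f₀ : Polynomial (Fermat.Agent.T8.helper16.ringX A hp hpN)} {c₁ c₂ : LaurentSeries (kA A)}
    (hf : SheetsPoly D hKum ζ hζ f₀ c₁ c₂)
    (hm : IsMonogenic t (f₀.map (locXIncl Q))) :
    ∃ (j : ℕ) (T : Subring (Cov (N * p) D.Z)) (xx y : T) (ν' : LaurentSeries (kA A)),
      Fermat.Agent.T8.helper9.CovPt (A := A) (Fermat.Agent.T8.helper23.covSet D)
        (sh1 D hKum ζ hζp 0) (sh2 D hKum ζ hζp j) T xx y (FFb A N).toSubfield (ordAt Q) ν' p ∧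
      ν' = Fermat.Agent.T8.helper16.redL hA Q hQ (yyLoc hU hA Q) := by
  haveI : IsLocalRing (locX A hp hpN Q) := Fermat.Agent.T8.helper16.isLocalRing_locX hA Q hQ
  haveI : IsNoetherianRing (locX A hp hpN Q) :=
    Fermat.Agent.T8.helper16.isNoetherianRing_locX hA Q hQ
  have hdeg : (f₀.map (locXIncl Q)).natDegree = p := by
    rw [hf.monic.natDegree_map, hf.natDegree]
  obtain ⟨a, H, ha, ha'⟩ := Fermat.Agent.T8.helper16.sheet1_cov D hKum ζ hζ hU hA hN hp3 hnew
    hfix1 hfix2 hr1 hr2 Q hQ jS hjR t hjt hf (xxLoc hU hA Q)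
    (Fermat.Agent.T8.helper48.coe_xxLoc hU hA Q)
  haveI hP : (ptIdeal t a).IsPrime := (hm.ptIdeal_isMaximal a ha).isPrime
  haveI : IsDomain (Localization.AtPrime (ptIdeal t a)) :=
    IsMonogenic.isDomain_loc (t := t) (a := a) (Localization.AtPrime (ptIdeal t a))
  obtain ⟨j, hpt⟩ := covPtHom_inst D hKum ζ hζp (Localization.AtPrime (ptIdeal t a)) hU hA hN
    hp3 hζ hQ hr1 hr2 hfix1 hfix2 jS hjS hjR hjt hm hdeg ha ha'
    (locLift jS hjS (ptIdeal t a)) (locLift_algebraMap jS hjS (ptIdeal t a)) H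
  exact ⟨j, _, _, _, _, hpt.toCovPt, rfl⟩

end Mono

/-- **the cover instance at one cover datum** -/
theorem covPtStatement_inst (hU : IsUnit0 hp hpN b0 B ε) (hA : A.LiesOverPrime p)
    (hN : 4 ∣ N ∨ 9 ∣ N) (hp3 : 3 ≤ p) (hζ : IsPrimitiveRoot ζ p)
    (hK : IsRegJ (N * p) D.K) (hnew : Fermat.Agent.T7.helper27.IsNewN N p D.K)
    (hr1 : red A D.Z₁ = 1) (hr2 : red A D.Z₂ = 1)
    (hfix1 : RootFix A p D.Z₁) (hfix2 : RootFix A p D.Z₂)
    (ν : FFb A N) (hν : IsRed1 A N p b0 ν) :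
    CovPtStatement D hKum ζ hζp ν := by
  intro Q hQ
  have hQ' : IsFinitePt Q := hQ
  haveI : Fact p.Prime := ⟨hp⟩
  haveI := Fermat.Agent.T8.helper65.finiteIndex_muFix (p := p) A hA
  obtain ⟨f₀, c₁, c₂, hf⟩ :=
    Fermat.Agent.T8.helper97.exists_sheets_poly D hKum ζ hζ hp3 hA hK hfix1 hfix2 hr1 hr2
  -- the monogenic model `S = R_Q[t]` inside the cover
  have hroot : aeval (tGen D ζ) (f₀.map (locXIncl Q)) = 0 := by
    rw [aeval_def, eval₂_map]
    exact hf.eval_tGen
  have hdeg : (f₀.map (locXIncl Q)).natDegree ≤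
      (minpoly (FF (N * p)) (tGen D ζ)).natDegree := by
    rw [hf.monic.natDegree_map, hf.natDegree,
      Fermat.Agent.T8.helper97.natDegree_minpoly_tGen D hKum ζ hζ hp3 hA hfix1 hfix2 hr1 hr2]
  have hm := IsMonogenic.of_adjoin (R := locX A hp hpN Q) (tGen D ζ) (f₀.map (locXIncl Q))
    (hf.monic.map _) hroot
    (Fermat.Agent.T8.helper33.free_of_natDegree_le_minpoly (K := FF (N * p))
      Subtype.val_injective (tGen D ζ) (f₀.map (locXIncl Q)) hdeg)
  obtain ⟨j, T, xx, y, ν', hpt, hν'⟩ := covPt_of_monogenic D hKum ζ hζp hU hA hN hp3 hζ hQ'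
    hnew hr1 hr2 hfix1 hfix2
    (Algebra.adjoin (locX A hp hpN Q) {tGen D ζ}).val.toRingHom Subtype.val_injective
    (fun r => rfl) rfl hf hm
  refine ⟨ordAt Q, Fermat.Agent.T8.helper22.sheetOrd_cov₁ N p hp hpN hA D hnew hr1 Q, 0, j, T,
    xx, y, (FFb A N).toSubfield, ν', hpt, ?_⟩
  rw [hν']
  exact Fermat.Agent.T8.helper65.ordAt_redL_yy hU hA hν Q hQ' (yyLoc hU hA Q)
    (Fermat.Agent.T8.helper48.coe_yyLoc hU hA Q)

end Inst

section Frontier

/-- **the cover instance: the frontier Prop `CovPtFix` of S44** -/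
theorem covPtFixInst : CovPtFix := by
  intro P M' _ hpN A hA hdvd hirr b0 B ε hb ν hν D hKum ζ hζp hζ hK hnew hr1 hr2 hf1 hf2
  haveI : NeZero P.p := ⟨P.pp.ne_zero⟩
  exact covPtStatement_inst D hKum ζ hζp hb hA (Or.inl (Dvd.intro M' rfl))
    (le_trans (by norm_num) P.hp5) hζ (isRegJ_of_isA0One hK.1) hnew hr1 hr2 hf1 hf2 ν hν

/-- **the non-split wall, unconditional** -/
theorem nonSplitWallInst (π : Fermat.Agent.T8.helper72.PullData) :
    Fermat.Agent.T8.helper38.NonSplitWallStatement π wallBN :=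
  nonSplitWall_of_covPtFixFinal π covPtFixInst

end Frontier

end Fermat.Agent.T8.helper29

end
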