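import Fermat.Agent.T8.helper29_KRatTrace
import Fermat.Agent.T8.helper29_ConclFix
import Fermat.Agent.T7.helper60_Gal
import Fermat.Agent.T7.helper22_AttNF

/-!
# T8 = row 38 via S44, box [K-RAT] (helper29): rational roots from a contractive trace weight

`kRat_of_theta : ThetaStatement A (muFix p ⊓ I_A) → KRatStatement N p hp hpN A`.

Let `K` be strongly split with integral roots `Z₁`, `Z₂` of reduction `1`, `H = I_K1`.  By the
pair form of [B4] (`helper88.b4_pair_bad` at `a = 1`) every `σ ∈ H` has a function `w_σ` with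
`σ Z₁ = w_σ Z₁`, `σ Z₂ = W(w_σ) Z₂`.  Let `E₀` be the number field generated by the coefficients
of `K`, `W K` and the constant terms of `Z₁`, `Z₂`: an element of `H` which is the identity on
`E₀` fixes `Z₁` and `Z₂`.  For representatives `g i` of the restrictions of `H` to `E₀` and a
contractive trace weight `θ` put `h = ∑ i, (g i θ) • w_(g i)`.  Then `h Z₁ = trW g θ Z₁` and
`W(h) Z₂ = trW g θ Z₂` are integral, of reduction `1` and coefficientwise fixed by `H`, and
`K' = h ^ p K` is regular off the two cusps since every `w_σ ^ p K = σ K` is.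
-/

set_option autoImplicit false
set_option linter.unusedSectionVars false
set_option linter.unusedVariables false
set_option linter.style.longLine false
set_option linter.style.haveILetI false

noncomputable section

namespace Fermat.Agent.T8.helper29

open HahnSeries IntermediateField AlgebraicCurve ModularCurve
open Fermat.Agent.S18.helper19 Fermat.Agent.P2.helper29 Fermat.Agent.P2.helper93
open Fermat.Agent.T2 Fermat.Agent.T2.helper36
open Fermat.Agent.T8.helper98 (IsIK1)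

variable {A : ValuationSubring Kb}

/-! ### Roots with rational coefficients are fixed -/

theorem kr_coeff_const_mul (c : Kb) (f : LaurentSeries Kb) (j : ℤ) :
    (algebraMap Kb (LaurentSeries Kb) c * f).coeff j = c * f.coeff j := by
  rw [algebraMap_laurentSeries_eq_single, HahnSeries.coeff_single_zero_mul]

theorem kr_smul_eq (c : Kb) (f : LaurentSeries Kb) :
    c • f = algebraMap Kb (LaurentSeries Kb) c * f := by
  ext j
  rw [HahnSeries.coeff_smul, kr_coeff_const_mul, smul_eq_mul]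

section RootFixed

variable {M : ℕ} [NeZero M] {p : ℕ}

/-- a root `Z` of `K` with `σ Z = w Z` for a function `w`, where `σ` fixes the coefficients of
`K` and the constant term of `Z`, is fixed by `σ` -/
theorem coeffMap_root_eq_self (hp : p.Prime) {σ : Kb ≃ₐ[ℚ] Kb} {K w : FF M}
    {Z : LaurentSeries A} (h1 : incl A Z ^ p = (K : LaurentSeries Kb)) (hr : red A Z = 1)
    (hw : coeffMap (σ : Kb →+* Kb) (incl A Z) = (w : LaurentSeries Kb) * incl A Z)
    (hK : ∀ n, σ ((K : LaurentSeries Kb).coeff n) = (K : LaurentSeries Kb).coeff n)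
    (h0 : σ ((Z.coeff 0 : A) : Kb) = ((Z.coeff 0 : A) : Kb)) :
    coeffMap (σ : Kb →+* Kb) (incl A Z) = incl A Z := by
  haveI : Fact p.Prime := ⟨hp⟩
  haveI : NeZero p := ⟨hp.ne_zero⟩
  -- the constant term is a unit
  have hc0 : ((Z.coeff 0 : A) : Kb) ≠ 0 := by
    intro h
    have h2 : Z.coeff 0 = 0 := Subtype.ext h
    have h3 : (red A Z).coeff 0 = 0 := by
      rw [coeffMap_coeff, h2, map_zero]
    rw [hr, HahnSeries.coeff_one, if_pos rfl] at h3
    exact one_ne_zero h3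
  have hZ0 : incl A Z ≠ 0 := by
    intro h
    have h2 := congrArg (fun x : LaurentSeries Kb => x.coeff 0) h
    simp only [coeffMap_coeff, HahnSeries.coeff_zero] at h2
    exact hc0 h2
  have hK0 : (K : LaurentSeries Kb) ≠ 0 := by
    rw [← h1]
    exact pow_ne_zero _ hZ0
  -- `σ K = K`
  have hσK : coeffMap (σ : Kb →+* Kb) (K : LaurentSeries Kb) = (K : LaurentSeries Kb) := by
    ext n
    rw [coeffMap_coeff]
    exact hK n
  -- `w ^ p = 1`
  have hwp : (w : LaurentSeries Kb) ^ p = 1 := by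
    have e1 : coeffMap (σ : Kb →+* Kb) (incl A Z ^ p) =
        ((w : LaurentSeries Kb) * incl A Z) ^ p := by
      rw [map_pow, hw]
    rw [h1, hσK, mul_pow, h1] at e1
    have e2 : (w : LaurentSeries Kb) ^ p * (K : LaurentSeries Kb) = 1 * (K : LaurentSeries Kb) := by
      rw [one_mul]
      exact e1.symm
    exact mul_right_cancel₀ hK0 e2
  -- `w` is a constant root of unity
  obtain ⟨ζ, hζ⟩ := Fermat.Agent.T8.helper65.exists_primitiveRoot_Kb (p := p)
  have hζ' : IsPrimitiveRoot (algebraMap Kb (LaurentSeries Kb) ζ) p :=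
    hζ.map_of_injective (algebraMap Kb (LaurentSeries Kb)).injective
  obtain ⟨i, -, hi⟩ := hζ'.eq_pow_of_pow_eq_one hwp
  rw [← map_pow] at hi
  -- the constant term
  have e3 := congrArg (fun x : LaurentSeries Kb => x.coeff 0) hw
  simp only [coeffMap_coeff] at e3
  rw [← hi, kr_coeff_const_mul, coeffMap_coeff] at e3
  have e4 : (A.subtype (Z.coeff 0) : Kb) = ((Z.coeff 0 : A) : Kb) := rfl
  rw [e4] at e3
  have e5 : σ ((Z.coeff 0 : A) : Kb) = ζ ^ i * ((Z.coeff 0 : A) : Kb) := e3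
  rw [h0] at e5
  have e6 : ζ ^ i = 1 := by
    have : (1 : Kb) * ((Z.coeff 0 : A) : Kb) = ζ ^ i * ((Z.coeff 0 : A) : Kb) := by
      rw [one_mul]
      exact e5
    exact (mul_right_cancel₀ hc0 this).symm
  rw [hw, ← hi, e6, map_one, one_mul]

end RootFixed

/-! ### Regularity of the twisted function -/

section Reg

variable {M : ℕ} [NeZero M] {ι : Type} [Fintype ι]

/-- if every `w i ^ p * K` is regular at `P`, so is `(∑ i, c i • w i) ^ p * K` -/
theorem ord_sum_smul_pow_mul_nonneg [Nonempty ι] (P : Place Kb (FF M)) (p : ℕ) (K : FF M)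
    (c : ι → Kb) (w : ι → FF M) (h : ∀ i, 0 ≤ P.ord (w i ^ p * K)) :
    0 ≤ P.ord ((∑ i, c i • w i) ^ p * K) := by
  classical
  rw [← Fermat.Agent.S24.helper82.mem_iff_ord_nonneg]
  have hmem : ∀ i, w i ^ p * K ∈ P.toValuationSubring := fun i =>
    (Fermat.Agent.S24.helper82.mem_iff_ord_nonneg P).2 (h i)
  have hconst : ∀ a : Kb, algebraMap Kb (FF M) a ∈ P.toValuationSubring := fun a =>
    (Fermat.Agent.S24.helper82.mem_iff_ord_nonneg P).2
      (Fermat.Agent.T6.helper26.ord_const P a).ge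
  set v := P.toValuationSubring.valuation with hv
  obtain ⟨i₀, -, hi₀⟩ := Finset.exists_max_image (Finset.univ : Finset ι) (fun i => v (w i))
    Finset.univ_nonempty
  have h1 : v (∑ i, c i • w i) ≤ v (w i₀) := by
    refine Valuation.map_sum_le v (fun i _ => ?_)
    rw [Algebra.smul_def, map_mul]
    have h2 : v (algebraMap Kb (FF M) (c i)) ≤ 1 :=
      (ValuationSubring.valuation_le_one_iff _ _).2 (hconst (c i))
    calc v (algebraMap Kb (FF M) (c i)) * v (w i) ≤ 1 * v (w i) :=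
          mul_le_mul_left h2 _
      _ = v (w i) := one_mul _
      _ ≤ v (w i₀) := hi₀ i (Finset.mem_univ i)
  rw [← ValuationSubring.valuation_le_one_iff, map_mul, map_pow]
  have h3 : v (w i₀ ^ p * K) ≤ 1 :=
    (ValuationSubring.valuation_le_one_iff _ _).2 (hmem i₀)
  rw [map_mul, map_pow] at h3
  calc v (∑ i, c i • w i) ^ p * v K ≤ v (w i₀) ^ p * v K :=
        mul_le_mul_left (pow_le_pow_left₀ zero_le h1 p) _
    _ ≤ 1 := h3

end Reg

/-! ### The box [K-RAT] from the contractive trace weights -/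

section Main

variable {N p : ℕ} [NeZero N] [NeZero p] {hp : p.Prime} {hpN : ¬ p ∣ N}

/-- **[K-RAT] from (KR1)**. -/
theorem kRat_of_theta (hN : 4 ∣ N ∨ 9 ∣ N) (hA : A.LiesOverPrime p)
    (hθ : ThetaStatement A
      (Fermat.Agent.T8.helper65.muFix p ⊓ Fermat.Agent.T8.helper65.IA A)) :
    KRatStatement N p hp hpN A := by
  classical
  intro K hK hnew hnp
  obtain ⟨hA0, hKdiv, Z₁, Z₂, h1, h2, hr1, hr2⟩ := hK
  have hWgal : ∀ (σ : Kb ≃ₐ[ℚ] Kb) (x : FF (N * p)),
      atkinLehner N p hp hpN (galF (N * p) σ x) = galF (N * p) σ (atkinLehner N p hp hpN x) :=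
    fun σ x => atkinLehner_arithmeticRingAut N p hp hpN σ x
  obtain ⟨H, hH⟩ : ∃ H : Subgroup (Kb ≃ₐ[ℚ] Kb),
      H = Fermat.Agent.T8.helper65.muFix p ⊓ Fermat.Agent.T8.helper65.IA A := ⟨_, rfl⟩
  rw [← hH] at hθ
  have hHmem : ∀ σ ∈ H, σ ∈ A.inertiaSubgroupIn ℚ ∧ ∀ z : Kb, z ^ p = 1 → σ z = z := by
    intro σ hσ
    rw [hH] at hσ
    exact ⟨hσ.2, hσ.1⟩
  -- the pair form at `a = 1`
  have hpair : ∀ σ : Kb ≃ₐ[ℚ] Kb, ∃ w : FF (N * p), σ ∈ H →
      (coeffMap (σ : Kb →+* Kb) (incl A Z₁) = (w : LaurentSeries Kb) * incl A Z₁ ∧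
        coeffMap (σ : Kb →+* Kb) (incl A Z₂) =
          ((atkinLehner N p hp hpN w : FF (N * p)) : LaurentSeries Kb) * incl A Z₂) := by
    intro σ
    by_cases hσ : σ ∈ H
    · obtain ⟨w, -, e1, e2⟩ := Fermat.Agent.T8.helper88.b4_pair_bad N p hp hpN hN A hA K hA0
        Z₁ Z₂ h1 h2 hr1 hr2 σ (hHmem σ hσ).1 1 hp.one_lt.le
        (fun z hz => by rw [pow_one]; exact (hHmem σ hσ).2 z hz)
      rw [pow_one] at e1 e2
      exact ⟨w, fun _ => ⟨e1, e2⟩⟩
    · exact ⟨1, fun h => absurd h hσ⟩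
  choose w hw using hpair
  -- the number field
  obtain ⟨S₁, hS₁⟩ :=
    Fermat.Agent.T7.helper22.exists_finset_coeff_mem (N * p) A (K : LaurentSeries Kb) K.2
  obtain ⟨S₂, hS₂⟩ :=
    Fermat.Agent.T7.helper22.exists_finset_coeff_mem (N * p) A
      ((atkinLehner N p hp hpN K : FF (N * p)) : LaurentSeries Kb) (atkinLehner N p hp hpN K).2
  obtain ⟨S, hSdef⟩ : ∃ S : Finset Kb,
      S = S₁ ∪ S₂ ∪ {((Z₁.coeff 0 : A) : Kb), ((Z₂.coeff 0 : A) : Kb)} := ⟨_, rfl⟩
  obtain ⟨E₀, hE₀⟩ : ∃ E₀ : IntermediateField ℚ Kb,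
      E₀ = IntermediateField.adjoin ℚ (S : Set Kb) := ⟨_, rfl⟩
  have hfd : FiniteDimensional ℚ E₀ := by
    rw [hE₀]
    exact Fermat.Agent.T7.helper22.finiteDimensional_adjoin_finset' S
  have hSE : (S : Set Kb) ⊆ E₀ := by
    rw [hE₀]
    exact IntermediateField.subset_adjoin ℚ _
  have hS₁E : (S₁ : Set Kb) ⊆ E₀ := fun x hx => hSE (by
    rw [hSdef]
    simp only [Finset.coe_union, Set.mem_union, Finset.mem_coe]
    exact Or.inl (Or.inl hx))
  have hS₂E : (S₂ : Set Kb) ⊆ E₀ := fun x hx => hSE (by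
    rw [hSdef]
    simp only [Finset.coe_union, Set.mem_union, Finset.mem_coe]
    exact Or.inl (Or.inr hx))
  have hc₁E : ((Z₁.coeff 0 : A) : Kb) ∈ E₀ := hSE (by
    rw [hSdef]
    simp)
  have hc₂E : ((Z₂.coeff 0 : A) : Kb) ∈ E₀ := hSE (by
    rw [hSdef]
    simp)
  -- the roots are fixed by `H₀`
  have hfix1 : ∀ σ ∈ H, (∀ e ∈ E₀, σ e = e) →
      coeffMap ((σ : Kb ≃ₐ[ℚ] Kb) : Kb →+* Kb) (incl A Z₁) = incl A Z₁ := fun σ hσ he =>
    coeffMap_root_eq_self hp h1 hr1 (hw σ hσ).1 (fun n => he _ (hS₁ E₀ hS₁E n)) (he _ hc₁E)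
  have hfix2 : ∀ σ ∈ H, (∀ e ∈ E₀, σ e = e) →
      coeffMap ((σ : Kb ≃ₐ[ℚ] Kb) : Kb →+* Kb) (incl A Z₂) = incl A Z₂ := fun σ hσ he =>
    coeffMap_root_eq_self hp h2 hr2 (hw σ hσ).2 (fun n => he _ (hS₂ E₀ hS₂E n)) (he _ hc₂E)
  -- restriction to `E₀` and the index type
  obtain ⟨res, hresdef⟩ : ∃ res : (Kb ≃ₐ[ℚ] Kb) → (E₀ →ₐ[ℚ] Kb),
      ∀ σ (x : E₀), res σ x = σ (x : Kb) :=
    ⟨fun σ => (σ : Kb →ₐ[ℚ] Kb).comp E₀.val, fun σ x => rfl⟩
  obtain ⟨T, hTiff⟩ : ∃ T : Set (E₀ →ₐ[ℚ] Kb), ∀ s, s ∈ T ↔ ∃ σ ∈ H, res σ = s :=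
    ⟨{s | ∃ σ ∈ H, res σ = s}, fun s => Iff.rfl⟩
  haveI : Fintype T := Fintype.ofFinite T
  have hTmem : ∀ s : T, ∃ σ, σ ∈ H ∧ res σ = s.1 := by
    intro s
    obtain ⟨σ, hσ, h2⟩ := (hTiff s.1).1 s.2
    exact ⟨σ, hσ, h2⟩
  choose lift hlift using hTmem
  have hmemT : ∀ σ ∈ H, res σ ∈ T := fun σ hσ => (hTiff _).2 ⟨σ, hσ, rfl⟩
  haveI : Nonempty T := ⟨⟨res 1, hmemT 1 H.one_mem⟩⟩
  have hliftE : ∀ (s : T) (e : Kb) (he : e ∈ E₀), lift s e = s.1 ⟨e, he⟩ := by
    intro s e he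
    rw [← (hlift s).2, hresdef]
  have huniq : ∀ σ ∈ H, ∃! i : T, ∀ e ∈ E₀, σ e = lift i e := by
    intro σ hσ
    refine ⟨⟨res σ, hmemT σ hσ⟩, fun e he => ?_, fun j hj => ?_⟩
    · rw [hliftE _ e he, hresdef]
    · apply Subtype.ext
      ext x
      show j.1 x = res σ x
      rw [hresdef, hj x.1 x.2, hliftE j x.1 x.2]
  -- the weight
  obtain ⟨θ, hθfix, hθ1, hθint, hθmax⟩ := hθ E₀ hfd T lift (fun s => (hlift s).1) huniq
  have hTW : IsTraceWeight A H E₀ lift θ := ⟨hθfix, hθ1, hθint, hθmax⟩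
  -- the traces of the roots
  obtain ⟨Y₁, hY₁, hrY₁⟩ := exists_incl_trW hTW hr1 hfix1
  obtain ⟨Y₂, hY₂, hrY₂⟩ := exists_incl_trW hTW hr2 hfix2
  have hYfix₁ : ∀ τ ∈ H, coeffMap ((τ : Kb ≃ₐ[ℚ] Kb) : Kb →+* Kb) (incl A Y₁) = incl A Y₁ := by
    intro τ hτ
    rw [hY₁]
    exact coeffMap_trW hTW (fun s => (hlift s).1) huniq hfix1 hτ
  have hYfix₂ : ∀ τ ∈ H, coeffMap ((τ : Kb ≃ₐ[ℚ] Kb) : Kb →+* Kb) (incl A Y₂) = incl A Y₂ := by
    intro τ hτ
    rw [hY₂]
    exact coeffMap_trW hTW (fun s => (hlift s).1) huniq hfix2 hτ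
  -- the twist
  obtain ⟨h, hhdef⟩ : ∃ h : FF (N * p), h = ∑ s : T, (lift s θ) • w (lift s) := ⟨_, rfl⟩
  have hcoe_smul : ∀ (c : Kb) (x : FF (N * p)),
      ((c • x : FF (N * p)) : LaurentSeries Kb) = c • (x : LaurentSeries Kb) := by
    intro c x
    rw [Algebra.smul_def, kr_smul_eq]
    rfl
  have hh1 : (h : LaurentSeries Kb) * incl A Z₁ = incl A Y₁ := by
    rw [hY₁, hhdef]
    unfold trW
    have e1 : ((∑ s : T, (lift s θ) • w (lift s) : FF (N * p)) : LaurentSeries Kb) =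
        ∑ s : T, (lift s θ) • (w (lift s) : LaurentSeries Kb) := by
      rw [← IntermediateField.coe_val, map_sum]
      exact Finset.sum_congr rfl fun s _ => hcoe_smul _ _
    rw [e1, Finset.sum_mul]
    refine Finset.sum_congr rfl fun s _ => ?_
    rw [(hw (lift s) (hlift s).1).1, kr_smul_eq, kr_smul_eq, mul_assoc]
  have hh2 : ((atkinLehner N p hp hpN h : FF (N * p)) : LaurentSeries Kb) * incl A Z₂ =
      incl A Y₂ := by
    rw [hY₂, hhdef, map_sum]
    unfold trW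
    have e1 : ((∑ s : T, atkinLehner N p hp hpN ((lift s θ) • w (lift s)) : FF (N * p)) :
          LaurentSeries Kb) =
        ∑ s : T, (lift s θ) •
          ((atkinLehner N p hp hpN (w (lift s)) : FF (N * p)) : LaurentSeries Kb) := by
      rw [← IntermediateField.coe_val, map_sum]
      refine Finset.sum_congr rfl fun s _ => ?_
      have e0 : atkinLehner N p hp hpN ((lift s θ) • w (lift s)) =
          (lift s θ) • atkinLehner N p hp hpN (w (lift s)) := by
        rw [Algebra.smul_def, map_mul, AlgEquiv.commutes, ← Algebra.smul_def]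
      rw [e0]
      exact hcoe_smul _ _
    rw [e1, Finset.sum_mul]
    refine Finset.sum_congr rfl fun s _ => ?_
    rw [(hw (lift s) (hlift s).1).2, kr_smul_eq, kr_smul_eq, mul_assoc]
  -- nonvanishing
  have hinj : Function.Injective (incl A) := Fermat.Agent.P2.helper29.incl_injective A
  have hY₁0 : incl A Y₁ ≠ 0 := by
    intro h0
    have : Y₁ = 0 := hinj (by rw [h0, map_zero])
    rw [this, map_zero] at hrY₁
    exact zero_ne_one hrY₁
  have hh0 : h ≠ 0 := by
    rintro rfl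
    apply hY₁0
    rw [← hh1]
    simp
  -- the new Kummer function
  have hK'1 : incl A Y₁ ^ p = ((h ^ p * K : FF (N * p)) : LaurentSeries Kb) := by
    rw [← hh1, mul_pow, h1]
    rfl
  have hK'2 : incl A Y₂ ^ p =
      ((atkinLehner N p hp hpN (h ^ p * K) : FF (N * p)) : LaurentSeries Kb) := by
    rw [← hh2, mul_pow, h2, map_mul, map_pow]
    rfl
  -- regularity off the two cusps
  have hgal : ∀ s : T, galF (N * p) (lift s) K = w (lift s) ^ p * K := by
    intro s
    apply Subtype.ext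
    rw [coe_galF]
    have e1 : coeffMap ((lift s : Kb ≃ₐ[ℚ] Kb) : Kb →+* Kb) (incl A Z₁ ^ p) =
        ((w (lift s) : LaurentSeries Kb) * incl A Z₁) ^ p := by
      rw [map_pow, (hw (lift s) (hlift s).1).1]
    rw [h1, mul_pow, h1] at e1
    rw [e1]
    rfl
  have hreg : ∀ P : Place Kb (FF (N * p)), ¬ IsInfty P →
      ¬ IsInftyW (atkinLehner N p hp hpN) P → 0 ≤ P.ord (h ^ p * K) := by
    intro P hP1 hP2
    rw [hhdef]
    refine ord_sum_smul_pow_mul_nonneg P p K (fun s : T => lift s θ) (fun s : T => w (lift s))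
      (fun s => ?_)
    rw [← hgal s]
    exact (Fermat.Agent.T7.helper60.isA0One_galF hWgal (hHmem _ (hlift s).1).1 hA0).1 P hP1 hP2
  have hone : algebraMap Kb (FF (N * p)) 1 * h ^ p * K = h ^ p * K := by
    rw [map_one, one_mul]
  refine ⟨1, h, Y₁, Y₂, one_ne_zero, hh0, ?_, ?_, ?_, ?_, hrY₁, hrY₂, ?_, ?_⟩
  · rw [hone]
    refine ⟨hreg, Y₁ ^ p, Y₂ ^ p, ?_, ?_, ?_, ?_⟩
    · rw [map_pow, hK'1]
    · rw [map_pow, hK'2]
    · rw [map_pow, hrY₁, one_pow]
    · rw [map_pow, hrY₂, one_pow]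
  · rw [hone]
    exact Fermat.Agent.T7.helper27.isNewN_mul_pow K h hh0 hnew
  · rw [hone]
    exact hK'1
  · rw [hone]
    exact hK'2
  · intro σ hσ
    exact hYfix₁ σ (by rw [hH]; exact hσ)
  · intro σ hσ
    exact hYfix₂ σ (by rw [hH]; exact hσ)

end Main

/-! ### The frontier -/

section Frontier

/-- **the box (KR1)** at every prime: contractive trace weights for `I_K1 = muFix p ⊓ I_A`. -/
def ThetaAll : Prop :=
  ∀ (p : ℕ) (A : ValuationSubring Kb), p.Prime → A.LiesOverPrime p →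
    ThetaStatement A (Fermat.Agent.T8.helper65.muFix p ⊓ Fermat.Agent.T8.helper65.IA A)

/-- **[K-RAT] from (KR1)** at the bad pairs of the Frey packages -/
theorem kRatAll_of_theta (h : ThetaAll) : KRatAll := by
  intro P M' _ hpN A hA _ _
  haveI : NeZero P.p := ⟨P.pp.ne_zero⟩
  exact kRat_of_theta (Or.inl (Dvd.intro M' rfl)) hA (h P.p A P.pp hA)

/-- **the non-split wall from (KR1) and the local rings of the covers with rational roots** -/
theorem nonSplitWall_of_theta_covPtFix (π : Fermat.Agent.T8.helper72.PullData)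
    (hθ : ThetaAll) (h : CovPtFix) :
    Fermat.Agent.T8.helper38.NonSplitWallStatement π wallBN :=
  nonSplitWall_of_covPtFix π (kRatAll_of_theta hθ) h

/-- **the non-split wall from (KR1) and the K0-corollary on the covers with rational roots** -/
theorem nonSplitWall_of_theta_k0CoverFix (π : Fermat.Agent.T8.helper72.PullData)
    (hθ : ThetaAll) (h : K0CoverFix) :
    Fermat.Agent.T8.helper38.NonSplitWallStatement π wallBN :=
  nonSplitWall_of_k0CoverFix π (kRatAll_of_theta hθ) h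

end Frontier

end Fermat.Agent.T8.helper29

end
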