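import Fermat.Agent.T8.helper7_KRatProj
import Fermat.Agent.T8.helper22_CoverValVG
import Fermat.Agent.S05.helper92_Inertia

/-!
# T8 (row 38 via S44), box [K-RAT], piece (KR1) (helper7): the weight `θ` of the trace

Instance of `helper7.exists_theta_trace` for `K = Kb = ℚ̄`, `H = muFix p ⊓ IA A` (`= I_K1`),
`A` over `p`:

* `fixOver H E0`, `fixAll H` : the fixed fields of `H₀ = {σ ∈ H : σ = id on E0}` and of `H`;
* `exists_perm_of_mem` : `σ ∈ H` permutes a system `g : I → H` of representatives of `H / H₀`;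
* `thetaStatement_of` : the statement for every subgroup `H ≤ IA A` with a uniformiser `lam` of
  its fixed field;
* `thetaStatement` : **the body of `helper29.ThetaStatement A (muFix p ⊓ IA A)`**, verbatim.
-/

set_option autoImplicit false
set_option linter.unusedSectionVars false
set_option linter.unusedVariables false
set_option linter.style.longLine false
set_option linter.style.haveILetI false

noncomputable section

namespace Fermat.Agent.T8.helper7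

open Fermat.Agent.S18.helper19
open Fermat.Agent.T8.helper65 (muFix IA)

/-- the fixed field of `H₀ = {σ ∈ H : σ = id on E0}` -/
def fixOver (H : Subgroup (Kb ≃ₐ[ℚ] Kb)) (E0 : IntermediateField ℚ Kb) : Subfield Kb where
  carrier := {x | ∀ σ ∈ H, (∀ e ∈ E0, σ e = e) → σ x = x}
  mul_mem' := fun ha hb σ hσ h => by rw [map_mul, ha σ hσ h, hb σ hσ h]
  one_mem' := fun σ _ _ => map_one σ
  add_mem' := fun ha hb σ hσ h => by rw [map_add, ha σ hσ h, hb σ hσ h]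
  zero_mem' := fun σ _ _ => map_zero σ
  neg_mem' := fun ha σ hσ h => by rw [map_neg, ha σ hσ h]
  inv_mem' := fun x ha σ hσ h => by rw [map_inv₀, ha σ hσ h]

/-- the fixed field of `H` -/
def fixAll (H : Subgroup (Kb ≃ₐ[ℚ] Kb)) : Subfield Kb where
  carrier := {x | ∀ σ ∈ H, σ x = x}
  mul_mem' := fun ha hb σ hσ => by rw [map_mul, ha σ hσ, hb σ hσ]
  one_mem' := fun σ _ => map_one σ
  add_mem' := fun ha hb σ hσ => by rw [map_add, ha σ hσ, hb σ hσ]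
  zero_mem' := fun σ _ => map_zero σ
  neg_mem' := fun ha σ hσ => by rw [map_neg, ha σ hσ]
  inv_mem' := fun x ha σ hσ => by rw [map_inv₀, ha σ hσ]

theorem mem_fixOver {H : Subgroup (Kb ≃ₐ[ℚ] Kb)} {E0 : IntermediateField ℚ Kb} {x : Kb} :
    x ∈ fixOver H E0 ↔ ∀ σ ∈ H, (∀ e ∈ E0, σ e = e) → σ x = x := Iff.rfl

theorem mem_fixAll {H : Subgroup (Kb ≃ₐ[ℚ] Kb)} {x : Kb} :
    x ∈ fixAll H ↔ ∀ σ ∈ H, σ x = x := Iff.rfl

theorem fixAll_le_fixOver (H : Subgroup (Kb ≃ₐ[ℚ] Kb)) (E0 : IntermediateField ℚ Kb) :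
    fixAll H ≤ fixOver H E0 := fun _ hx σ hσ _ => hx σ hσ

section Perm

variable {H : Subgroup (Kb ≃ₐ[ℚ] Kb)} {E0 : IntermediateField ℚ Kb} {I : Type} [Fintype I]
  {g : I → (Kb ≃ₐ[ℚ] Kb)}

/-- `σ ∈ H` permutes the representatives -/
theorem exists_perm_of_mem (hg : ∀ i, g i ∈ H)
    (huniq : ∀ σ ∈ H, ∃! i, ∀ e ∈ E0, σ e = g i e) (σ : Kb ≃ₐ[ℚ] Kb) (hσ : σ ∈ H) :
    ∃ π : I → I, Function.Bijective π ∧ ∀ i, ∀ y ∈ fixOver H E0, σ (g i y) = g (π i) y := by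
  classical
  have hex : ∀ i, ∃ j, ∀ e ∈ E0, (σ * g i) e = g j e := fun i =>
    (huniq (σ * g i) (H.mul_mem hσ (hg i))).exists
  choose π hπ using hex
  have hinj : Function.Injective π := by
    intro i i' hii
    have h1 : ∀ e ∈ E0, g i e = g i' e := by
      intro e he
      have h2 := hπ i e he
      have h3 := hπ i' e he
      rw [hii] at h2
      have h4 : σ (g i e) = σ (g i' e) := h2.trans h3.symm
      exact σ.injective h4
    exact (huniq (g i) (hg i)).unique (fun e _ => rfl) h1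
  refine ⟨π, Finite.injective_iff_bijective.1 hinj, fun i y hy => ?_⟩
  have hmem : (g (π i))⁻¹ * (σ * g i) ∈ H :=
    H.mul_mem (H.inv_mem (hg (π i))) (H.mul_mem hσ (hg i))
  have hfix : ∀ e ∈ E0, ((g (π i))⁻¹ * (σ * g i)) e = e := by
    intro e he
    show (g (π i))⁻¹ ((σ * g i) e) = e
    rw [hπ i e he]
    exact (g (π i)).symm_apply_apply e
  have h1 := hy _ hmem hfix
  have h2 : (g (π i))⁻¹ (σ (g i y)) = y := h1
  calc σ (g i y) = g (π i) ((g (π i))⁻¹ (σ (g i y))) := ((g (π i)).apply_symm_apply _).symm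
    _ = g (π i) y := by rw [h2]

theorem sum_mem_fixAll (hg : ∀ i, g i ∈ H)
    (huniq : ∀ σ ∈ H, ∃! i, ∀ e ∈ E0, σ e = g i e) {y : Kb} (hy : y ∈ fixOver H E0) :
    ∑ i, g i y ∈ fixAll H := by
  intro σ hσ
  obtain ⟨π, hπ, h⟩ := exists_perm_of_mem hg huniq σ hσ
  rw [map_sum]
  calc ∑ i, σ (g i y) = ∑ i, g (π i) y := Finset.sum_congr rfl fun i _ => h i y hy
    _ = ∑ i, g i y := Fintype.sum_bijective π hπ _ _ fun _ => rfl

theorem prod_mem_fixAll (hg : ∀ i, g i ∈ H)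
    (huniq : ∀ σ ∈ H, ∃! i, ∀ e ∈ E0, σ e = g i e) {y : Kb} (hy : y ∈ fixOver H E0) :
    ∏ i, g i y ∈ fixAll H := by
  intro σ hσ
  obtain ⟨π, hπ, h⟩ := exists_perm_of_mem hg huniq σ hσ
  rw [map_prod]
  calc ∏ i, σ (g i y) = ∏ i, g (π i) y := Finset.prod_congr rfl fun i _ => h i y hy
    _ = ∏ i, g i y := Fintype.prod_bijective π hπ _ _ fun _ => rfl

end Perm

/-- **(KR1), general subgroup of the inertia group** -/
theorem thetaStatement_of (A : ValuationSubring Kb) (H : Subgroup (Kb ≃ₐ[ℚ] Kb))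
    (hH : H ≤ A.inertiaSubgroupIn ℚ)
    (lam : Kb) (hlamH : ∀ σ ∈ H, σ lam = lam) (hlam0 : lam ≠ 0) (hlam1 : A.valuation lam < 1)
    (hVG : ∀ x : Kb, x ≠ 0 → (∀ σ ∈ H, σ x = x) → ∃ m : ℤ, A.valuation x = A.valuation lam ^ m)
    (hres : ∀ x ∈ A, ∃ y ∈ A, (∀ σ ∈ H, σ y = y) ∧ A.valuation (x - y) < 1)
    (E0 : IntermediateField ℚ Kb) (I : Type) [Fintype I] (g : I → (Kb ≃ₐ[ℚ] Kb))
    (hg : ∀ i, g i ∈ H) (huniq : ∀ σ ∈ H, ∃! i, ∀ e ∈ E0, σ e = g i e) :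
    ∃ θ : Kb, (∀ σ ∈ H, (∀ e ∈ E0, σ e = e) → σ θ = θ) ∧ (∑ i, g i θ) = 1 ∧
      (∀ x ∈ A, (∀ σ ∈ H, (∀ e ∈ E0, σ e = e) → σ x = x) → (∑ i, g i (θ * x)) ∈ A) ∧
      (∀ x, A.valuation x < 1 → (∀ σ ∈ H, (∀ e ∈ E0, σ e = e) → σ x = x) →
        A.valuation (∑ i, g i (θ * x)) < 1) := by
  classical
  haveI : Algebra.IsAlgebraic ℚ Kb := AlgebraicClosure.isAlgebraic ℚ
  haveI : Nonempty I := ⟨(huniq 1 H.one_mem).exists.choose⟩
  have hn : ((Fintype.card I : ℕ) : Kb) ≠ 0 := Nat.cast_ne_zero.2 Fintype.card_ne_zero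
  obtain ⟨θ, hθE, h1, h2, h3⟩ := exists_theta_trace A (fun i => ((g i : Kb ≃ₐ[ℚ] Kb) : Kb →+* Kb))
    (fixOver H E0) (fixAll H) (fixAll_le_fixOver H E0)
    (fun i x => Fermat.Agent.S05.helper92.valuation_apply_of_mem_inertiaSubgroupIn
      (hH (hg i)) x)
    (fun i c hc => hc (g i) (hg i))
    (fun y hy => sum_mem_fixAll hg huniq hy)
    (fun y hy => prod_mem_fixAll hg huniq hy)
    hn lam hlamH hlam0 hlam1
    (fun x hx hx0 => hVG x hx0 hx)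
    (fun x _ hxA => by
      obtain ⟨y, hyA, hyH, hxy⟩ := hres x hxA
      exact ⟨y, hyH, hyA, hxy⟩)
  exact ⟨θ, hθE, h1, fun x hxA hxE => h2 x hxE hxA, fun x hx1 hxE => h3 x hxE hx1⟩

/-- **(KR1) = the body of `helper29.ThetaStatement A (muFix p ⊓ IA A)`**: the contractive
weight of the trace of `I_K1`. -/
theorem thetaStatement {p : ℕ} (hp : p.Prime) (A : ValuationSubring Kb)
    (hA : A.LiesOverPrime p) :
    ∀ (E0 : IntermediateField ℚ Kb), FiniteDimensional ℚ E0 →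
      ∀ (I : Type) [Fintype I] (g : I → (Kb ≃ₐ[ℚ] Kb)),
      (∀ i, g i ∈ muFix p ⊓ IA A) → (∀ σ ∈ muFix p ⊓ IA A, ∃! i, ∀ e ∈ E0, σ e = g i e) →
      ∃ θ : Kb, (∀ σ ∈ muFix p ⊓ IA A, (∀ e ∈ E0, σ e = e) → σ θ = θ) ∧ (∑ i, g i θ) = 1 ∧
        (∀ x ∈ A, (∀ σ ∈ muFix p ⊓ IA A, (∀ e ∈ E0, σ e = e) → σ x = x) →
          (∑ i, g i (θ * x)) ∈ A) ∧
        (∀ x, A.valuation x < 1 → (∀ σ ∈ muFix p ⊓ IA A, (∀ e ∈ E0, σ e = e) → σ x = x) →
          A.valuation (∑ i, g i (θ * x)) < 1) := by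
  intro E0 _ I _ g hg huniq
  haveI : NeZero p := ⟨hp.ne_zero⟩
  haveI : Fact p.Prime := ⟨hp⟩
  obtain ⟨ζ, hζ⟩ := HasEnoughRootsOfUnity.exists_primitiveRoot Kb p
  have hζ1 : (1 : Kb) - ζ ≠ 0 := by
    rw [sub_ne_zero]
    exact fun h => hζ.ne_one hp.one_lt h.symm
  refine thetaStatement_of A (muFix p ⊓ IA A) (fun σ hσ => (Subgroup.mem_inf.1 hσ).2)
    (1 - ζ) ?_ hζ1 (Fermat.Agent.T3.helper84.k0_zeta_val_lt hp A hA hζ) ?_ ?_ E0 I g hg huniq
  · intro σ hσ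
    have h1 : σ ζ = ζ :=
      (Fermat.Agent.T8.helper65.mem_muFix_iff hζ).1 (Subgroup.mem_inf.1 hσ).1
    rw [map_sub, map_one, h1]
  · intro x hx0 hx
    obtain ⟨m, hm⟩ := Fermat.Agent.T8.helper22.val_fixed_muFix hp hA hζ x hx0 hx
    exact ⟨m, by rw [hm, map_zpow₀]⟩
  · intro x hxA
    obtain ⟨y, hyA, hyI, hxy⟩ := Fermat.Agent.T3.helper84.k0_res hp A hA hxA
    exact ⟨y, hyA, fun σ hσ => hyI σ (Subgroup.mem_inf.1 hσ).2, hxy⟩

end Fermat.Agent.T8.helper7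

end
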