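import Fermat.Agent.T8.helper29_KRat
import Fermat.Agent.T8.helper7_KRatTheta

/-!
# T8 = row 38 via S44, box [K-RAT] (helper29): CLOSED

* `thetaAll : ThetaAll`  : the contractive trace weights (`helper7.thetaStatement`, (KR1));
* `kRatAll : KRatAll`    : **the box [K-RAT]**, unconditional;
* `nonSplitWall_of_covPtFixFinal π : CovPtFix → helper38.NonSplitWallStatement π wallBN`
  (and the K0 / K1 forms): the non-split wall from the instance of [SLOPE-X'] at the covers of
  the new strongly split Kummer functions with RATIONAL roots.
-/

set_option autoImplicit false
set_option linter.unusedSectionVars false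
set_option linter.unusedVariables false
set_option linter.style.longLine false

noncomputable section

namespace Fermat.Agent.T8.helper29

open Fermat.Agent.S18.helper19

/-- **(KR1)** at every prime -/
theorem thetaAll : ThetaAll :=
  fun _ A hp hA => Fermat.Agent.T8.helper7.thetaStatement hp A hA

/-- **the box [K-RAT]**, unconditional -/
theorem kRatAll : KRatAll := kRatAll_of_theta thetaAll

/-- **the non-split wall from the local rings of the covers with rational roots** -/
theorem nonSplitWall_of_covPtFixFinal (π : Fermat.Agent.T8.helper72.PullData) (h : CovPtFix) :
    Fermat.Agent.T8.helper38.NonSplitWallStatement π wallBN :=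
  nonSplitWall_of_covPtFix π kRatAll h

/-- **the non-split wall from the K0-corollary on the covers with rational roots** -/
theorem nonSplitWall_of_k0CoverFixFinal (π : Fermat.Agent.T8.helper72.PullData)
    (h : K0CoverFix) : Fermat.Agent.T8.helper38.NonSplitWallStatement π wallBN :=
  nonSplitWall_of_k0CoverFix π kRatAll h

/-- **the non-split wall from the K1-corollary on the covers with rational roots** -/
theorem nonSplitWall_of_slopeCoverFixFinal (π : Fermat.Agent.T8.helper72.PullData)
    (h : SlopeCoverFix) : Fermat.Agent.T8.helper38.NonSplitWallStatement π wallBN :=
  nonSplitWall_of_slopeCoverFix π kRatAll h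

end Fermat.Agent.T8.helper29

end
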