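import Mathlib
import Fermat.Agent.P2.helper29_Interface
import Fermat.Agent.T7.helper82_AttNF

/-!
# T8 = row 38 via S44, box [K-RAT] (helper29): the weighted trace of an integral series

`A` a valuation subring of `ℚ̄`, `H` a group of automorphisms preserving `A`, `E₀` a subfield,
`g : ι → H` a finite system of representatives of the restrictions of `H` to `E₀`, `θ` a
**contractive trace weight** (`IsTraceWeight`): `θ` is fixed by `H₀ = H ∩ Fix(E₀)`,
`∑ i, g i θ = 1`, and `x ↦ ∑ i, g i (θ x)` maps the `H₀`-fixed elements of `A` (of `m_A`) into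
`A` (into `m_A`).

For an integral series `Z` of reduction `1` whose expansion is coefficientwise fixed by `H₀`,
the weighted trace `trW g θ Z = ∑ i, (g i θ) • (g i) Z` is

* `exists_incl_trW` : the expansion of an integral series `Y` of reduction `1`;
* `coeffMap_trW`    : coefficientwise fixed by `H`.
-/

set_option autoImplicit false
set_option linter.unusedSectionVars false
set_option linter.unusedVariables false
set_option linter.style.longLine false

noncomputable section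

namespace Fermat.Agent.T8.helper29

open HahnSeries ModularCurve
open Fermat.Agent.S18.helper19 Fermat.Agent.P2.helper29

variable {A : ValuationSubring Kb}

/-- `x` is fixed by `H₀ = H ∩ Fix(E₀)` -/
def IsFix0 (H : Subgroup (Kb ≃ₐ[ℚ] Kb)) (E₀ : IntermediateField ℚ Kb) (x : Kb) : Prop :=
  ∀ σ ∈ H, (∀ e ∈ E₀, σ e = e) → σ x = x

/-- **contractive trace weight** -/
structure IsTraceWeight (A : ValuationSubring Kb) (H : Subgroup (Kb ≃ₐ[ℚ] Kb))
    (E₀ : IntermediateField ℚ Kb) {ι : Type} [Fintype ι] (g : ι → (Kb ≃ₐ[ℚ] Kb)) (θ : Kb) :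
    Prop where
  fix : IsFix0 H E₀ θ
  tr_one : ∑ i, g i θ = 1
  tr_int : ∀ x ∈ A, IsFix0 H E₀ x → ∑ i, g i (θ * x) ∈ A
  tr_max : ∀ x, A.valuation x < 1 → IsFix0 H E₀ x → A.valuation (∑ i, g i (θ * x)) < 1

/-- **the box (KR1)**: contractive trace weights exist. -/
def ThetaStatement (A : ValuationSubring Kb) (H : Subgroup (Kb ≃ₐ[ℚ] Kb)) : Prop :=
  ∀ (E₀ : IntermediateField ℚ Kb), FiniteDimensional ℚ E₀ →
    ∀ (ι : Type) [Fintype ι] (g : ι → (Kb ≃ₐ[ℚ] Kb)), (∀ i, g i ∈ H) →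
      (∀ σ ∈ H, ∃! i, ∀ e ∈ E₀, σ e = g i e) →
      ∃ θ : Kb, (∀ σ ∈ H, (∀ e ∈ E₀, σ e = e) → σ θ = θ) ∧ ∑ i, g i θ = 1 ∧
        (∀ x ∈ A, (∀ σ ∈ H, (∀ e ∈ E₀, σ e = e) → σ x = x) → ∑ i, g i (θ * x) ∈ A) ∧
        (∀ x, A.valuation x < 1 → (∀ σ ∈ H, (∀ e ∈ E₀, σ e = e) → σ x = x) →
          A.valuation (∑ i, g i (θ * x)) < 1)

section Trace

variable {H : Subgroup (Kb ≃ₐ[ℚ] Kb)} {E₀ : IntermediateField ℚ Kb} {ι : Type} [Fintype ι]
  {g : ι → (Kb ≃ₐ[ℚ] Kb)} {θ : Kb}

/-- the weighted trace of a Laurent series -/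
def trW (g : ι → (Kb ≃ₐ[ℚ] Kb)) (θ : Kb) (f : LaurentSeries Kb) : LaurentSeries Kb :=
  ∑ i, (g i θ) • coeffMap ((g i : Kb ≃ₐ[ℚ] Kb) : Kb →+* Kb) f

theorem trW_coeff (f : LaurentSeries Kb) (n : ℤ) :
    (trW g θ f).coeff n = ∑ i, g i (θ * f.coeff n) := by
  unfold trW
  rw [HahnSeries.coeff_sum]
  refine Finset.sum_congr rfl fun i _ => ?_
  rw [HahnSeries.coeff_smul, coeffMap_coeff, smul_eq_mul, map_mul]
  rfl

theorem isFix0_coeff {f : LaurentSeries Kb}
    (hf : ∀ σ ∈ H, (∀ e ∈ E₀, σ e = e) → coeffMap ((σ : Kb ≃ₐ[ℚ] Kb) : Kb →+* Kb) f = f)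
    (n : ℤ) : IsFix0 H E₀ (f.coeff n) := by
  intro σ hσ he
  have h := congrArg (fun x : LaurentSeries Kb => x.coeff n) (hf σ hσ he)
  simp only [coeffMap_coeff] at h
  exact h

theorem isFix0_sub_one {x : Kb} (hx : IsFix0 H E₀ x) : IsFix0 H E₀ (x - 1) := by
  intro σ hσ he
  rw [map_sub, map_one, hx σ hσ he]

/-- **the weighted trace of an integral series of reduction `1`** is the expansion of an
integral series of reduction `1`. -/
theorem exists_incl_trW (hθ : IsTraceWeight A H E₀ g θ) {Z : LaurentSeries A}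
    (hr : red A Z = 1)
    (hfix : ∀ σ ∈ H, (∀ e ∈ E₀, σ e = e) →
      coeffMap ((σ : Kb ≃ₐ[ℚ] Kb) : Kb →+* Kb) (incl A Z) = incl A Z) :
    ∃ Y : LaurentSeries A, incl A Y = trW g θ (incl A Z) ∧ red A Y = 1 := by
  have hc : ∀ n, (incl A Z).coeff n = ((Z.coeff n : A) : Kb) := fun n => by
    rw [coeffMap_coeff]
    rfl
  have hfx : ∀ n, IsFix0 H E₀ (((Z.coeff n : A) : Kb)) := fun n => by
    rw [← hc]
    exact isFix0_coeff hfix n
  have hint : ∀ n, (trW g θ (incl A Z)).coeff n ∈ A := by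
    intro n
    rw [trW_coeff, hc]
    exact hθ.tr_int _ (Z.coeff n).2 (hfx n)
  obtain ⟨Y, hY⟩ := Fermat.Agent.T7.helper82.exists_incl_eq A (trW g θ (incl A Z)) hint
  refine ⟨Y, hY, ?_⟩
  -- the reduction
  have hYc : ∀ n, ((Y.coeff n : A) : Kb) = ∑ i, g i (θ * ((Z.coeff n : A) : Kb)) := by
    intro n
    have h1 := congrArg (fun x : LaurentSeries Kb => x.coeff n) hY
    simp only [coeffMap_coeff] at h1
    rw [trW_coeff, hc] at h1
    exact h1
  have hres : ∀ n, IsLocalRing.residue A (Z.coeff n) = (1 : LaurentSeries (kA A)).coeff n := by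
    intro n
    rw [← hr, coeffMap_coeff]
  ext n
  rw [coeffMap_coeff]
  by_cases hn : n = 0
  · subst hn
    rw [HahnSeries.coeff_one, if_pos rfl]
    have h0 : IsLocalRing.residue A (Z.coeff 0) = 1 := by
      rw [hres 0, HahnSeries.coeff_one, if_pos rfl]
    have hm : Z.coeff 0 - 1 ∈ IsLocalRing.maximalIdeal A := by
      rw [← IsLocalRing.residue_eq_zero_iff, map_sub, h0, map_one, sub_self]
    have hv : A.valuation (((Z.coeff 0 - 1 : A) : A) : Kb) < 1 :=
      (ValuationSubring.valuation_lt_one_iff A _).1 hm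
    have hfx0 : IsFix0 H E₀ (((Z.coeff 0 - 1 : A) : A) : Kb) := by
      have : (((Z.coeff 0 - 1 : A) : A) : Kb) = ((Z.coeff 0 : A) : Kb) - 1 := by
        push_cast
        rfl
      rw [this]
      exact isFix0_sub_one (hfx 0)
    have h2 := hθ.tr_max _ hv hfx0
    have e : ((Y.coeff 0 : A) : Kb) - 1 = ∑ i, g i (θ * (((Z.coeff 0 - 1 : A) : A) : Kb)) := by
      have : (((Z.coeff 0 - 1 : A) : A) : Kb) = ((Z.coeff 0 : A) : Kb) - 1 := by
        push_cast
        rfl
      rw [hYc 0, this]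
      have h3 : ∀ i, g i (θ * (((Z.coeff 0 : A) : Kb) - 1)) =
          g i (θ * ((Z.coeff 0 : A) : Kb)) - g i θ := by
        intro i
        rw [mul_sub, mul_one, map_sub]
      rw [Finset.sum_congr rfl (fun i _ => h3 i), Finset.sum_sub_distrib, hθ.tr_one]
    rw [← e] at h2
    have hm' : Y.coeff 0 - 1 ∈ IsLocalRing.maximalIdeal A := by
      rw [ValuationSubring.valuation_lt_one_iff]
      have : (((Y.coeff 0 - 1 : A) : A) : Kb) = ((Y.coeff 0 : A) : Kb) - 1 := by
        push_cast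
        rfl
      rw [this]
      exact h2
    have h4 := (IsLocalRing.residue_eq_zero_iff (Y.coeff 0 - 1)).2 hm'
    rw [map_sub, map_one, sub_eq_zero] at h4
    exact h4
  · rw [HahnSeries.coeff_one, if_neg hn]
    have h0 : IsLocalRing.residue A (Z.coeff n) = 0 := by
      rw [hres n, HahnSeries.coeff_one, if_neg hn]
    have hm : Z.coeff n ∈ IsLocalRing.maximalIdeal A :=
      (IsLocalRing.residue_eq_zero_iff _).1 h0
    have hv : A.valuation ((Z.coeff n : A) : Kb) < 1 :=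
      (ValuationSubring.valuation_lt_one_iff A _).1 hm
    have h2 := hθ.tr_max _ hv (hfx n)
    rw [← hYc n] at h2
    exact (IsLocalRing.residue_eq_zero_iff _).2
      ((ValuationSubring.valuation_lt_one_iff A _).2 h2)

/-- **the weighted trace is coefficientwise fixed by `H`**. -/
theorem coeffMap_trW (hθ : IsTraceWeight A H E₀ g θ) (hg : ∀ i, g i ∈ H)
    (huniq : ∀ σ ∈ H, ∃! i, ∀ e ∈ E₀, σ e = g i e) {f : LaurentSeries Kb}
    (hfix : ∀ σ ∈ H, (∀ e ∈ E₀, σ e = e) →
      coeffMap ((σ : Kb ≃ₐ[ℚ] Kb) : Kb →+* Kb) f = f)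
    {τ : Kb ≃ₐ[ℚ] Kb} (hτ : τ ∈ H) :
    coeffMap ((τ : Kb ≃ₐ[ℚ] Kb) : Kb →+* Kb) (trW g θ f) = trW g θ f := by
  classical
  ext n
  rw [coeffMap_coeff, trW_coeff, map_sum]
  -- the permutation
  have hex : ∀ i, ∃ j, ∀ e ∈ E₀, (τ * g i) e = g j e := fun i =>
    (huniq (τ * g i) (H.mul_mem hτ (hg i))).exists
  choose π hπ using hex
  have hx : IsFix0 H E₀ (θ * f.coeff n) := by
    intro σ hσ he
    rw [map_mul, hθ.fix σ hσ he, isFix0_coeff hfix n σ hσ he]
  have hval : ∀ i, τ (g i (θ * f.coeff n)) = g (π i) (θ * f.coeff n) := by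
    intro i
    have hmem : (g (π i))⁻¹ * (τ * g i) ∈ H :=
      H.mul_mem (H.inv_mem (hg _)) (H.mul_mem hτ (hg i))
    have hid : ∀ e ∈ E₀, ((g (π i))⁻¹ * (τ * g i)) e = e := by
      intro e he
      have h1 := hπ i e he
      show (g (π i))⁻¹ ((τ * g i) e) = e
      rw [h1]
      exact (g (π i)).symm_apply_apply e
    have h2 := hx _ hmem hid
    have h3 : ((g (π i))⁻¹ * (τ * g i)) (θ * f.coeff n) =
        (g (π i)).symm (τ (g i (θ * f.coeff n))) := rfl
    rw [h3] at h2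
    have h4 := congrArg (g (π i)) h2
    rw [AlgEquiv.apply_symm_apply] at h4
    exact h4
  have hinj : Function.Injective π := by
    intro i i' h
    have h1 : ∀ e ∈ E₀, g i e = g i' e := by
      intro e he
      have a1 := hπ i e he
      have a2 := hπ i' e he
      rw [h] at a1
      have a3 : (τ * g i) e = (τ * g i') e := a1.trans a2.symm
      exact τ.injective a3
    obtain ⟨j, -, hj⟩ := huniq (g i) (hg i)
    have b1 := hj i (fun e _ => rfl)
    have b2 := hj i' (fun e he => h1 e he)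
    rw [b1, b2]
  have hbij : Function.Bijective π := Finite.injective_iff_bijective.1 hinj
  refine (Finset.sum_congr rfl (fun i _ => ?_)).trans
    (hbij.sum_comp (fun j => g j (θ * f.coeff n)))
  exact hval i

end Trace

end Fermat.Agent.T8.helper29

end
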