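import Fermat.Agent.T8.helper29_ConclN
import Fermat.Agent.T3.helper23_PlaceTransport

/-!
# T8 = row 38 via S44, leaf [CONCL] (helper29, owner): the input `PeuShape` is stable under `W`

`W` an involution of `FF M` over `ℚ̄` commuting with the coefficientwise Galois action (the
Atkin - Lehner involution `atkinLehner N p`).

* `stronglySplit_al` : `StronglySplit K → StronglySplit (W K)`;
* `PeuShape.al`      : `PeuShape u → PeuShape (W u)`;
* `isWallBN2_of_concl` : the contract `ConclStatementN` (first component) gives the two-component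
  exit `IsWallBN2` at every class with a Kummer function of peu ramifie shape;
* `peuShape_al_bad`, `isWallBN2_of_concl_bad` : the instances at `W = atkinLehner N p`.
-/

set_option autoImplicit false
set_option linter.unusedSectionVars false
set_option linter.unusedVariables false
set_option linter.style.longLine false

noncomputable section

namespace Fermat.Agent.T8.helper29

open HahnSeries IntermediateField AlgebraicCurve ModularCurve
open Fermat.Agent.S18.helper19 Fermat.Agent.P2.helper29 Fermat.Agent.P2.helper93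
open Fermat.Agent.T2 Fermat.Agent.T2.helper36
open Fermat.Agent.T8.helper54 (IsRed1 DvdOff ModEqOff)
open Fermat.Agent.P3.helper94 (IsKummerRep)
open Fermat.Agent.T3.helper23 (placeComap ord_placeComap)
open Fermat.Agent.T7.helper27 (StronglySplit)

section General

variable {M : ℕ} [NeZero M] {W : FF M ≃ₐ[Kb] FF M} {A : ValuationSubring Kb} {p : ℕ}

theorem isInfty_placeComap_of_isInftyW_iff (hWW : ∀ x : FF M, W (W x) = x)
    (P : Place Kb (FF M)) : IsInfty (placeComap W P) ↔ IsInftyW W P := by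
  constructor
  · intro h f hf
    have h1 := h (W f) ((map_ne_zero W).mpr hf)
    rw [ord_placeComap, hWW] at h1
    exact h1
  · intro h f hf
    rw [ord_placeComap, h (W f) ((map_ne_zero W).mpr hf), hWW]

theorem isInftyW_placeComap_iff (hWW : ∀ x : FF M, W (W x) = x)
    (P : Place Kb (FF M)) : IsInftyW W (placeComap W P) ↔ IsInfty P := by
  constructor
  · intro h f hf
    have h1 := h (W f) ((map_ne_zero W).mpr hf)
    rw [ord_placeComap, hWW] at h1
    exact h1
  · intro h f hf
    rw [ord_placeComap]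
    exact h (W f) ((map_ne_zero W).mpr hf)

theorem isA0One_al (hWW : ∀ x : FF M, W (W x) = x) {K : FF M} (h : IsA0One M W A K) :
    IsA0One M W A (W K) := by
  obtain ⟨hreg, Y₁, Y₂, e₁, e₂, r₁, r₂⟩ := h
  refine ⟨fun P hP hP' => ?_, Y₂, Y₁, e₂, by rw [hWW]; exact e₁, r₂, r₁⟩
  rw [← ord_placeComap]
  exact hreg (placeComap W P)
    (fun h => hP' ((isInfty_placeComap_of_isInftyW_iff hWW P).mp h))
    (fun h => hP ((isInftyW_placeComap_iff hWW P).mp h))

/-- **`StronglySplit` is stable under `W`** -/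
theorem stronglySplit_al (hWW : ∀ x : FF M, W (W x) = x) {K : FF M}
    (h : StronglySplit M W A p K) : StronglySplit M W A p (W K) := by
  obtain ⟨h0, hdiv, Z₁, Z₂, e₁, e₂, r₁, r₂⟩ := h
  refine ⟨isA0One_al hWW h0, fun P => ?_, Z₂, Z₁, e₂, by rw [hWW]; exact e₁, r₂, r₁⟩
  rw [← ord_placeComap]
  exact hdiv (placeComap W P)

/-- **`PeuShape` is stable under `W`** -/
theorem PeuShape.al (hWW : ∀ x : FF M, W (W x) = x)
    (hWgal : ∀ (σ : Kb ≃ₐ[ℚ] Kb) (x : FF M), W (galF M σ x) = galF M σ (W x))
    {u : FF M} (h : PeuShape W A p u) : PeuShape W A p (W u) := by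
  obtain ⟨K, ζ, α, hK, hζ, hα, hv, hgal⟩ := h
  refine ⟨W K, ζ, α, stronglySplit_al hWW hK, hζ, hα, hv, fun σ hσ => ?_⟩
  obtain ⟨j, c, v, h1, hc, hv0, h2⟩ := hgal σ hσ
  refine ⟨j, c, W v, h1, hc, (map_ne_zero W).mpr hv0, ?_⟩
  rw [← hWgal, h2, map_mul, map_mul, map_mul, map_pow, map_pow, AlgEquiv.commutes]

/-- divisibility of the divisor is stable under `W` -/
theorem dvd_ord_al {n : ℕ} {u : FF M} (h : ∀ P : Place Kb (FF M), (n : ℤ) ∣ P.ord u)
    (P : Place Kb (FF M)) : (n : ℤ) ∣ P.ord (W u) := by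
  rw [← ord_placeComap]
  exact h (placeComap W P)

end General

section Level

variable {A : ValuationSubring Kb} {N p : ℕ} [NeZero N] [NeZero p]

/-- **[CONCL] in class form, both components**: the function-level contract gives `IsWallBN2` at
every class with a Kummer function of peu ramifie shape. -/
theorem isWallBN2_of_concl {W : FF (N * p) ≃ₐ[Kb] FF (N * p)}
    (hWW : ∀ x : FF (N * p), W (W x) = x)
    (hWgal : ∀ (σ : Kb ≃ₐ[ℚ] Kb) (x : FF (N * p)), W (galF (N * p) σ x) = galF (N * p) σ (W x))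
    {ν : FFb A N} (hC : ConclStatementN A N p W ν) {x : JZero (N * p)} {u : FF (N * p)}
    (hk : IsKummerRep p x u) (hpeu : PeuShape W A p u) : IsWallBN2 A N p W ν x := by
  obtain ⟨hu0, D, hD, hdiv⟩ := hk
  have hdvd : ∀ P : Place Kb (FF (N * p)), (p : ℤ) ∣ P.ord u := fun P =>
    ⟨(D : Divisor Kb (FF (N * p))) P, (hdiv P).symm⟩
  obtain ⟨f₁, β₁, h1, h2⟩ := hC u hu0 hdvd hpeu
  obtain ⟨f₂, β₂, h3, h4⟩ := hC (W u) ((map_ne_zero W).mpr hu0) (dvd_ord_al hdvd)
    (hpeu.al hWW hWgal)
  exact ⟨u, f₁, f₂, β₁, β₂, ⟨hu0, D, hD, hdiv⟩, h1, h2, h3, h4⟩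

/-- `PeuShape` is stable under the Atkin - Lehner involution -/
theorem peuShape_al_bad (hp : p.Prime) (hpN : ¬ p ∣ N) {u : FF (N * p)}
    (h : PeuShape (atkinLehner N p hp hpN) A p u) :
    PeuShape (atkinLehner N p hp hpN) A p (atkinLehner N p hp hpN u) :=
  h.al (atkinLehner_atkinLehner N p hp hpN)
    (fun σ x => atkinLehner_arithmeticRingAut N p hp hpN σ x)

/-- the two-component exit at the bad pair `(N, p)` -/
theorem isWallBN2_of_concl_bad (hp : p.Prime) (hpN : ¬ p ∣ N) {ν : FFb A N}
    (hC : ConclStatementN A N p (atkinLehner N p hp hpN) ν) {x : JZero (N * p)}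
    {u : FF (N * p)} (hk : IsKummerRep p x u)
    (hpeu : PeuShape (atkinLehner N p hp hpN) A p u) :
    IsWallBN2 A N p (atkinLehner N p hp hpN) ν x :=
  isWallBN2_of_concl (atkinLehner_atkinLehner N p hp hpN)
    (fun σ x => atkinLehner_arithmeticRingAut N p hp hpN σ x) hC hk hpeu

end Level

end Fermat.Agent.T8.helper29

end
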