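import Fermat.Agent.T8.helper29_ConclAsm
import Fermat.Agent.T8.helper38_WallGlue

/-!
# T8 = row 38 via S44, box 4 of the frontier (helper29): the SPLIT wall from the K1-corollary on `X`

* `slopeOutN_of_classFixed` : a Kummer function whose class is fixed by `I_K1` satisfies the exit
  `SlopeOutN` (`helper98.desc_statement` + `slopeOutN_of_fixed`);
* `splitWall_of_slopeX`     : `SlopeXAll → helper38.SplitWallStatement π wallBN`;
* `walls_of_slopes`         : both walls (boxes 4 and 5) from `SlopeXAll` and `SlopeCoverAll`.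
-/

set_option autoImplicit false
set_option linter.unusedSectionVars false
set_option linter.unusedVariables false
set_option linter.style.longLine false
set_option linter.style.haveILetI false

noncomputable section

namespace Fermat.Agent.T8.helper29

open HahnSeries IntermediateField AlgebraicCurve ModularCurve
open Fermat.Agent.S18.helper19 Fermat.Agent.P2.helper29 Fermat.Agent.P2.helper93
open Fermat.Agent.T2 Fermat.Agent.T2.helper36
open Fermat.Agent.T8.helper65 Fermat.Agent.T8.helper80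
open Fermat.Agent.T8.helper54 (IsRed1 DvdOff ModEqOff)
open Fermat.Agent.P3.helper94 (IsKummerRep)
open Fermat.Agent.T8.helper98 (IsIK1 ClassFixedBy)
open Fermat.Agent.T8.helper16 (ordAt)
open Fermat.Agent.T8.helper72 Fermat.Agent.T8.helper38

variable {A : ValuationSubring Kb}

section Level

variable {N p : ℕ} [NeZero N] [NeZero p]

/-- **[CONCL], split case, class form of the hypothesis** -/
theorem slopeOutN_of_classFixed (hp : p.Prime) (hpN : ¬ p ∣ N) (hA : A.LiesOverPrime p)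
    (W : FF (N * p) ≃ₐ[Kb] FF (N * p))
    (hWgal : ∀ (σ : Kb ≃ₐ[ℚ] Kb) (x : FF (N * p)), W (galF (N * p) σ x) = galF (N * p) σ (W x))
    {u : FF (N * p)} (hu : u ≠ 0)
    (hdiv : ∀ P : Place Kb (FF (N * p)), (p : ℤ) ∣ P.ord u)
    (hcl : ClassFixedBy (N * p) (IsIK1 A p) p u) (ν : FFb A N)
    (hX : ∀ Q : Place (kA A) (FFb A N), 0 ≤ Q.ord (jBar A N) →
      K1CorAt (N * p) (W : FF (N * p) →+* FF (N * p)) A p (IsGood A (N * p)) (ordAt Q)
        (Q.ord ν)) :
    SlopeOutN A N p ν u := by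
  obtain ⟨c₀, G, hc₀, hG, hfix, -⟩ :=
    Fermat.Agent.T8.helper98.splitDesc_statement (M := N * p) A hp.pos u hu hcl
  exact slopeOutN_of_fixed hp hpN hA W hWgal hu hc₀ hG hdiv hfix ν hX

theorem classFixedBy_al {W : FF (N * p) ≃ₐ[Kb] FF (N * p)}
    (hWgal : ∀ (σ : Kb ≃ₐ[ℚ] Kb) (x : FF (N * p)), W (galF (N * p) σ x) = galF (N * p) σ (W x))
    {H : (Kb ≃ₐ[ℚ] Kb) → Prop} {n : ℕ} {u : FF (N * p)} (h : ClassFixedBy (N * p) H n u) :
    ClassFixedBy (N * p) H n (W u) := by
  intro σ hσ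
  obtain ⟨c, v, hg⟩ := h σ hσ
  refine ⟨c, W v, ?_⟩
  rw [← hWgal, hg, map_mul, map_mul, map_pow, AlgEquiv.commutes]

end Level

/-- **the split wall from the K1-corollary on `X`** -/
theorem splitWall_of_slopeX (π : PullData) (hX : SlopeXAll) :
    SplitWallStatement π wallBN := by
  intro P W M' _ hpN A V0 ctx x hx hfixx
  intro hpN' b0 B ε hb ν hν
  haveI : NeZero P.p := ⟨P.pp.ne_zero⟩
  obtain ⟨D, u, hD, H⟩ := exists_isRootDiv_of_nsmul_eq_zero (ctx.real.tors x hx)
  have hcl : ClassFixedBy (4 * M' * P.p) (IsIK1 A P.p) P.p u :=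
    classFixedBy_of_smul_eq (IsIK1 A P.p) H (fun σ hσ => by rw [hD]; exact hfixx σ hσ)
  have hdiv : ∀ Q : Place Kb (FF (4 * M' * P.p)), (P.p : ℤ) ∣ Q.ord u := fun Q =>
    ⟨(D : Divisor Kb (FF (4 * M' * P.p))) Q, (H.2 Q).symm⟩
  have hWgal : ∀ (σ : Kb ≃ₐ[ℚ] Kb) (y : FF (4 * M' * P.p)),
      atkinLehner (4 * M') P.p P.pp hpN' (galF (4 * M' * P.p) σ y) =
        galF (4 * M' * P.p) σ (atkinLehner (4 * M') P.p P.pp hpN' y) :=
    fun σ y => atkinLehner_arithmeticRingAut (4 * M') P.p P.pp hpN' σ y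
  have hXν := hX P M' hpN' A ctx.liesOver b0 B ε hb ν hν
  obtain ⟨f₁, β₁, h1, h2⟩ := slopeOutN_of_classFixed P.pp hpN' ctx.liesOver
    (atkinLehner (4 * M') P.p P.pp hpN') hWgal H.1 hdiv hcl ν hXν
  obtain ⟨f₂, β₂, h3, h4⟩ := slopeOutN_of_classFixed P.pp hpN' ctx.liesOver
    (atkinLehner (4 * M') P.p P.pp hpN') hWgal
    ((map_ne_zero (atkinLehner (4 * M') P.p P.pp hpN')).mpr H.1) (dvd_ord_al hdiv)
    (classFixedBy_al hWgal hcl) ν hXν
  exact ⟨u, f₁, f₂, β₁, β₂, ⟨H.1, D, hD, H.2⟩, h1, h2, h3, h4⟩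

/-- **both walls (boxes 4 and 5 of the frontier) from the two K1-corollaries** -/
theorem walls_of_slopes (π : PullData) (hX : SlopeXAll) (hX' : SlopeCoverAll) :
    SplitWallStatement π wallBN ∧ NonSplitWallStatement π wallBN :=
  ⟨splitWall_of_slopeX π hX, nonSplitWall_of_slopes π hX hX'⟩

end Fermat.Agent.T8.helper29

end
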