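import Fermat.Agent.T7.helper2_T0Sat
import Fermat.Agent.T2.helper36_PairScale
import Fermat.Agent.T2.helper49_FrobBase
import Fermat.Agent.T7.helper15_FCInst

/-!
# T8 / S44, box [D-HECKE], branch (F4) (helper2): `d₁ = d₂ = 0 ⇒ x ∈ T0`

Setting of T7 (`helper2_RamT0`): `p` a prime, `p ∤ N`, level `N p`, `A` a valuation subring of
`ℚ̄` over `p`, `W = helper36.atkinLehner N p` the Atkin-Lehner involution, `w₁` the Gauss
valuation of the expansion at `∞`, `w₂ = w₁ ∘ W`; `RhoIs A (N p) f r` : `f` is `w₁`-integral with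
reduction `r`.

* `exists_rhoIs_of_mem_FFb` : the reduction is ONTO the special fibre field (every level).
* `exists_lift_one` : for `y` in the special fibre field there is a function `G` with
  `ρ₁(G) = y` and `ρ₂(G) = 1`.
* `pair_lift` : **weak approximation with residues**: for `y₁, y₂` in the special fibre field
  there is a function `G` with `ρ₁(G) = y₁` and `ρ₂(G) = y₂`.
* `exists_pair_const` : for every constant `d ≠ 0` a function `H` with `H ≡ d` for `w₁` and
  `W H ≡ 1` for `w₁` (constant reductions on both sides).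
* `isT0_of_rhoIs_pow_mem` : **(F4)** a class `[D]` with a Kummer function `u` (`n D = div u`)
  whose two reductions, after scaling by constants, are `n`-th powers of nonzero elements of the
  special fibre field lies in the kernel of reduction `T0` at exponent `n` (any `n ≠ 0`).
* `isT0_of_rhoIs_pow`, `isT0_of_rhoIs_pow_pow` : the same for `n = p`, `n = p ^ k`, the roots
  being arbitrary Laurent series over the residue field (the special fibre field is `p`-root
  closed).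
-/

set_option autoImplicit false
set_option linter.unusedSectionVars false
set_option linter.unusedVariables false
set_option linter.style.longLine false
set_option linter.style.haveILetI false

noncomputable section

open HahnSeries IntermediateField AlgebraicCurve ModularCurve

namespace Fermat.Agent.T8.helper2

open Fermat.Agent.S18.helper19 Fermat.Agent.P2.helper29 Fermat.Agent.P2.helper93
open Fermat.Agent.T2 Fermat.Agent.T2.helper20 Fermat.Agent.T2.helper36
open Fermat.Agent.T7.helper2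

section Lift

variable {A : ValuationSubring Kb} {M : ℕ}

/-- the reduction is onto the special fibre field -/
theorem exists_rhoIs_of_mem_FFb {y : LaurentSeries (kA A)} (hy : y ∈ FFb A M) :
    ∃ f : FF M, RhoIs A M (f : LaurentSeries Kb) y := by
  rcases exists_good_lift hy with rfl | ⟨P, Q, hP, hQ, e⟩
  · exact ⟨0, rhoIs_zero⟩
  · have h := rhoIs_quot (isInt_of_isGood hP) hQ
    have e' : red A P / red A Q = y := by
      rw [← e, mul_div_assoc, div_self hQ.2.2, mul_one]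
    rw [e'] at h
    exact ⟨⟨_, h.mem⟩, h⟩

/-- `RedC` from `RhoIs` -/
theorem redC_of_rhoIs {f : FF M} {c : Kb} (hc : c ≠ 0)
    (h : RhoIs A M (algebraMap Kb (LaurentSeries Kb) c⁻¹ * (f : LaurentSeries Kb)) 1) :
    RedC A M f c := by
  obtain ⟨Y₁, Y₂, h1, h2, h3, h4⟩ := h
  rw [one_mul] at h4
  refine ⟨Y₁, Y₂, h1.isGood (by rw [h4]; exact h2.2.2), h2, ?_, h4⟩
  rw [h3, ← mul_assoc, ← mul_assoc, ← map_mul, mul_inv_cancel₀ hc, map_one, one_mul]

/-- `RhoIs` from `RedC` -/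
theorem rhoIs_of_redC {f : FF M} {c : Kb} (hc : c ≠ 0) (h : RedC A M f c) :
    RhoIs A M (algebraMap Kb (LaurentSeries Kb) c⁻¹ * (f : LaurentSeries Kb)) 1 := by
  obtain ⟨Y₁, Y₂, g₁, g₂, e, r⟩ := h
  refine ⟨Y₁, Y₂, isInt_of_isGood g₁, g₂, ?_, by rw [one_mul]; exact r⟩
  rw [mul_assoc, ← e, ← mul_assoc, ← map_mul, inv_mul_cancel₀ hc, map_one, one_mul]

/-- a function with reduction `0` in the sense of `IsRedZero` -/
theorem rhoIs_zero_of_isRedZero {f : LaurentSeries Kb} (h : IsRedZero A M f) :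
    RhoIs A M f 0 := by
  obtain ⟨Y₁, Y₂, h1, h2, h3, h4⟩ := h
  refine ⟨Y₁, Y₂, ⟨h1, ?_⟩, h2, h3, by rw [zero_mul]; exact h4⟩
  show red A Y₁ ∈ FFb A M
  rw [h4]
  exact zero_mem _

end Lift

section Pair

variable {N p : ℕ} [NeZero N] [NeZero p] (hp : p.Prime) (hpN : ¬ p ∣ N)
  (A : ValuationSubring Kb) (hA : A.LiesOverPrime p)

include hp hA in
/-- the residue characteristic: `ρ₁(p) = 0` -/
theorem rhoIs_natCast_zero (M : ℕ) :
    RhoIs A M (algebraMap Kb (LaurentSeries Kb) (p : Kb)) 0 := by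
  haveI : CharP (kA A) p := charP_residueField hp hA
  have h := rhoIs_algebraMap (A := A) (M := M) ((p : ℕ) : A)
  have e1 : (((p : ℕ) : A) : Kb) = (p : Kb) := by push_cast; rfl
  have e2 : IsLocalRing.residue A ((p : ℕ) : A) = 0 := by
    rw [map_natCast]
    exact CharP.cast_eq_zero (kA A) p
  rwa [e1, e2, map_zero] at h

include hA in
/-- for `y` in the special fibre field there is a function `G` with `ρ₁(G) = y` and
`ρ₂(G) = 1`. -/
theorem exists_lift_one {y : LaurentSeries (kA A)} (hy : y ∈ FFb A (N * p)) :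
    ∃ G : FF (N * p), RhoIs A (N * p) (G : LaurentSeries Kb) y ∧
      RhoIs A (N * p) ((atkinLehner N p hp hpN G : FF (N * p)) : LaurentSeries Kb) 1 := by
  obtain ⟨e, he1, he0⟩ := sepStatement N p hp hpN A hA
  have hE1 : RhoIs A (N * p) (e : LaurentSeries Kb) 1 := Fermat.Agent.T2.helper49.fb_rhoIs_of_isRedOne he1
  have hE0 : RhoIs A (N * p)
      ((atkinLehner N p hp hpN e : FF (N * p)) : LaurentSeries Kb) 0 :=
    rhoIs_zero_of_isRedZero he0
  obtain ⟨f, hf⟩ := exists_rhoIs_of_mem_FFb (A := A) (M := N * p) hy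
  by_cases hf0 : f = 0
  · -- `y = 0`
    have hy0 : y = 0 := by
      rw [hf0] at hf
      exact hf.eq_zero
    refine ⟨atkinLehner N p hp hpN e, ?_, ?_⟩
    · rw [hy0]
      exact hE0
    · rw [atkinLehner_atkinLehner]
      exact hE1
  · have hWf : atkinLehner N p hp hpN f ≠ 0 := (map_ne_zero _).mpr hf0
    obtain ⟨c, r', hc, hr', k⟩ := exists_rhoIs_bad hp hpN A hA (atkinLehner N p hp hpN f) hWf
    have hp0 : (p : Kb) ≠ 0 := by exact_mod_cast hp.ne_zero
    have hd : (p : Kb) / c ≠ 0 := div_ne_zero hp0 hc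
    obtain ⟨g, r, hr, g1, g2⟩ := exists_pair_unit hp hpN A hA ((p : Kb) / c) hd
    refine ⟨f * g + atkinLehner N p hp hpN e, ?_, ?_⟩
    · have h1 := (hf.mul g1).add hE0
      rw [mul_one, add_zero] at h1
      exact h1
    · have h2 := (((rhoIs_natCast_zero hp A hA (N * p)).mul k).mul g2).add hE1
      rw [zero_mul, zero_mul, zero_add] at h2
      have e2 : ((atkinLehner N p hp hpN (f * g + atkinLehner N p hp hpN e) : FF (N * p)) :
            LaurentSeries Kb)
          = algebraMap Kb (LaurentSeries Kb) (p : Kb) *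
              (algebraMap Kb (LaurentSeries Kb) c⁻¹ *
                ((atkinLehner N p hp hpN f : FF (N * p)) : LaurentSeries Kb)) *
              (algebraMap Kb (LaurentSeries Kb) ((p : Kb) / c)⁻¹ *
                ((atkinLehner N p hp hpN g : FF (N * p)) : LaurentSeries Kb))
            + (e : LaurentSeries Kb) := by
        rw [map_add, map_mul, atkinLehner_atkinLehner]
        have hcL : algebraMap Kb (LaurentSeries Kb) (p : Kb) *
            algebraMap Kb (LaurentSeries Kb) c⁻¹ *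
            algebraMap Kb (LaurentSeries Kb) ((p : Kb) / c)⁻¹ = 1 := by
          rw [← map_mul, ← map_mul]
          have : (p : Kb) * c⁻¹ * ((p : Kb) / c)⁻¹ = 1 := by field_simp
          rw [this, map_one]
        show ((atkinLehner N p hp hpN f : FF (N * p)) : LaurentSeries Kb) *
            ((atkinLehner N p hp hpN g : FF (N * p)) : LaurentSeries Kb) + (e : LaurentSeries Kb)
          = _
        linear_combination (-(((atkinLehner N p hp hpN f : FF (N * p)) : LaurentSeries Kb) *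
            ((atkinLehner N p hp hpN g : FF (N * p)) : LaurentSeries Kb))) * hcL
      rw [e2]
      exact h2

include hA in
/-- **weak approximation with residues** for the pair of Gauss valuations `w₁`, `w₂ = w₁ ∘ W`:
the reduction from the functions which are integral for both onto the product of the two
residue fields is surjective. -/
theorem pair_lift {y₁ y₂ : LaurentSeries (kA A)} (hy₁ : y₁ ∈ FFb A (N * p))
    (hy₂ : y₂ ∈ FFb A (N * p)) :
    ∃ G : FF (N * p), RhoIs A (N * p) (G : LaurentSeries Kb) y₁ ∧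
      RhoIs A (N * p) ((atkinLehner N p hp hpN G : FF (N * p)) : LaurentSeries Kb) y₂ := by
  obtain ⟨G₁, a1, a2⟩ := exists_lift_one hp hpN A hA hy₁
  obtain ⟨G₂, b1, b2⟩ := exists_lift_one hp hpN A hA hy₂
  refine ⟨G₁ * atkinLehner N p hp hpN G₂, ?_, ?_⟩
  · have h := a1.mul b2
    rw [mul_one] at h
    exact h
  · rw [map_mul, atkinLehner_atkinLehner]
    have h := a2.mul b1
    rw [one_mul] at h
    exact h

include hA in
/-- for every constant `d ≠ 0` there is a function `H` with constant reductions `d` (for `w₁`)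
and `1` (for `w₂`). -/
theorem exists_pair_const (d : Kb) (hd : d ≠ 0) :
    ∃ H : FF (N * p), RedC A (N * p) H d ∧ RedC A (N * p) (atkinLehner N p hp hpN H) 1 := by
  obtain ⟨g, r, hr, g1, g2⟩ := exists_pair_unit hp hpN A hA d hd
  have hrm : r ∈ FFb A (N * p) := g2.red_mem
  obtain ⟨G', c1, c2⟩ := pair_lift hp hpN A hA (one_mem (FFb A (N * p))) hrm
  -- `H' = g / G'` : reductions `1` and `d · 1`
  have k1 : RhoIs A (N * p) (((g : FF (N * p)) / G' : FF (N * p)) : LaurentSeries Kb) 1 := by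
    have h := g1.mul (c1.inv one_ne_zero)
    rw [inv_one, mul_one] at h
    exact h
  have k2 : RhoIs A (N * p) (algebraMap Kb (LaurentSeries Kb) d⁻¹ *
      ((atkinLehner N p hp hpN ((g : FF (N * p)) / G') : FF (N * p)) : LaurentSeries Kb)) 1 := by
    have h := g2.mul (c2.inv hr)
    rw [mul_inv_cancel₀ hr] at h
    have e : algebraMap Kb (LaurentSeries Kb) d⁻¹ *
        ((atkinLehner N p hp hpN ((g : FF (N * p)) / G') : FF (N * p)) : LaurentSeries Kb)
        = algebraMap Kb (LaurentSeries Kb) d⁻¹ *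
            ((atkinLehner N p hp hpN g : FF (N * p)) : LaurentSeries Kb) *
          ((atkinLehner N p hp hpN G' : FF (N * p)) : LaurentSeries Kb)⁻¹ := by
      rw [map_div₀]
      show algebraMap Kb (LaurentSeries Kb) d⁻¹ *
        (((atkinLehner N p hp hpN g : FF (N * p)) : LaurentSeries Kb) /
          ((atkinLehner N p hp hpN G' : FF (N * p)) : LaurentSeries Kb)) = _
      rw [div_eq_mul_inv, mul_assoc]
    rw [e]
    exact h
  refine ⟨atkinLehner N p hp hpN ((g : FF (N * p)) / G'), redC_of_rhoIs hd k2, ?_⟩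
  rw [atkinLehner_atkinLehner]
  exact redC_one_iff.mpr (Fermat.Agent.T2.helper49.fb_isRedOne_of_rhoIs k1)

end Pair

section Main

variable {N p : ℕ} [NeZero N] [NeZero p] {hp : p.Prime} {hpN : ¬ p ∣ N}
  {A : ValuationSubring Kb}

/-- **[D-HECKE] (F4)**, general exponent: a class `[D]` with a Kummer function `u`
(`n D = div u`) whose reductions for `w₁` and `w₂`, after scaling by constants `κ₁`, `κ₂`, are
`n`-th powers of nonzero elements of the special fibre field lies in the kernel of reduction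
`T0` at exponent `n`. -/
theorem isT0_of_rhoIs_pow_mem (hA : A.LiesOverPrime p) {n : ℕ} (hn : n ≠ 0)
    {D : Divisor.degZero (K := Kb) (F := FF (N * p))} {u : FF (N * p)}
    (H : IsRootDiv n (D : Divisor Kb (FF (N * p))) u)
    {κ₁ κ₂ : Kb} (hκ₁ : κ₁ ≠ 0) (hκ₂ : κ₂ ≠ 0) {y₁ y₂ : LaurentSeries (kA A)}
    (hy₁ : y₁ ∈ FFb A (N * p)) (hy₂ : y₂ ∈ FFb A (N * p)) (hy₁0 : y₁ ≠ 0) (hy₂0 : y₂ ≠ 0)
    (h1 : RhoIs A (N * p)
      (algebraMap Kb (LaurentSeries Kb) κ₁⁻¹ * (u : LaurentSeries Kb)) (y₁ ^ n))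
    (h2 : RhoIs A (N * p) (algebraMap Kb (LaurentSeries Kb) κ₂⁻¹ *
      ((atkinLehner N p hp hpN u : FF (N * p)) : LaurentSeries Kb)) (y₂ ^ n)) :
    IsT0 N p hp hpN A n (Pic0.mk D : JZero (N * p)) := by
  have hu0 : u ≠ 0 := H.1
  -- the common root of the two reductions
  obtain ⟨G, G1, G2⟩ := pair_lift hp hpN A hA hy₁ hy₂
  have hG0 : G ≠ 0 := by
    rintro rfl
    exact hy₁0 G1.eq_zero
  have hy₁n : y₁ ^ n ≠ 0 := pow_ne_zero _ hy₁0
  have hy₂n : y₂ ^ n ≠ 0 := pow_ne_zero _ hy₂0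
  have R1 : RedC A (N * p) (u / G ^ n) κ₁ := by
    apply redC_of_rhoIs hκ₁
    have h := h1.mul ((G1.pow n).inv hy₁n)
    rw [mul_inv_cancel₀ hy₁n] at h
    have e : algebraMap Kb (LaurentSeries Kb) κ₁⁻¹ * ((u / G ^ n : FF (N * p)) : LaurentSeries Kb)
        = algebraMap Kb (LaurentSeries Kb) κ₁⁻¹ * (u : LaurentSeries Kb) *
          ((G : LaurentSeries Kb) ^ n)⁻¹ := by
      show algebraMap Kb (LaurentSeries Kb) κ₁⁻¹ *
        ((u : LaurentSeries Kb) / (G : LaurentSeries Kb) ^ n) = _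
      rw [div_eq_mul_inv, mul_assoc]
    rw [e]
    exact h
  have R2 : RedC A (N * p) (atkinLehner N p hp hpN (u / G ^ n)) κ₂ := by
    apply redC_of_rhoIs hκ₂
    have h := h2.mul ((G2.pow n).inv hy₂n)
    rw [mul_inv_cancel₀ hy₂n] at h
    have e : algebraMap Kb (LaurentSeries Kb) κ₂⁻¹ *
        ((atkinLehner N p hp hpN (u / G ^ n) : FF (N * p)) : LaurentSeries Kb)
        = algebraMap Kb (LaurentSeries Kb) κ₂⁻¹ *
            ((atkinLehner N p hp hpN u : FF (N * p)) : LaurentSeries Kb) *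
          (((atkinLehner N p hp hpN G : FF (N * p)) : LaurentSeries Kb) ^ n)⁻¹ := by
      rw [map_div₀, map_pow]
      show algebraMap Kb (LaurentSeries Kb) κ₂⁻¹ *
        (((atkinLehner N p hp hpN u : FF (N * p)) : LaurentSeries Kb) /
          ((atkinLehner N p hp hpN G : FF (N * p)) : LaurentSeries Kb) ^ n) = _
      rw [div_eq_mul_inv, mul_assoc]
    rw [e]
    exact h
  -- the constant correction
  obtain ⟨d, hd⟩ := IsAlgClosed.exists_pow_nat_eq (κ₁ / κ₂) (Nat.pos_of_ne_zero hn)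
  have hd0 : d ≠ 0 := by
    rintro rfl
    rw [zero_pow hn] at hd
    exact div_ne_zero hκ₁ hκ₂ hd.symm
  obtain ⟨Hc, Hc1, Hc2⟩ := exists_pair_const hp hpN A hA d hd0
  have hHc0 : Hc ≠ 0 := Hc1.ne_zero hd0
  have hκ₂' : κ₂⁻¹ ≠ 0 := inv_ne_zero hκ₂
  have hκF : algebraMap Kb (FF (N * p)) κ₂⁻¹ ≠ 0 := (map_ne_zero _).mpr hκ₂'
  have hGn : G ^ n ≠ 0 := pow_ne_zero _ hG0
  have hHn : Hc ^ n ≠ 0 := pow_ne_zero _ hHc0
  have hv0 : u / G ^ n ≠ 0 := div_ne_zero hu0 hGn
  have hw0 : algebraMap Kb (FF (N * p)) κ₂⁻¹ * (u / G ^ n) / Hc ^ n ≠ 0 :=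
    div_ne_zero (mul_ne_zero hκF hv0) hHn
  have Ru : RedC A (N * p) (algebraMap Kb (FF (N * p)) κ₂⁻¹ * (u / G ^ n) / Hc ^ n) 1 := by
    refine ((R1.const_mul κ₂⁻¹).div (Hc1.pow n) (pow_ne_zero _ hd0)).congr ?_
    rw [hd]
    field_simp
  have RWu : RedC A (N * p) (atkinLehner N p hp hpN
      (algebraMap Kb (FF (N * p)) κ₂⁻¹ * (u / G ^ n) / Hc ^ n)) 1 := by
    have e5 : atkinLehner N p hp hpN (algebraMap Kb (FF (N * p)) κ₂⁻¹ * (u / G ^ n) / Hc ^ n)
        = algebraMap Kb (FF (N * p)) κ₂⁻¹ * atkinLehner N p hp hpN (u / G ^ n)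
          / (atkinLehner N p hp hpN Hc) ^ n := by
      rw [map_div₀, map_mul, map_pow, AlgEquiv.commutes]
    rw [e5]
    refine ((R2.const_mul κ₂⁻¹).div (Hc2.pow n) (pow_ne_zero _ one_ne_zero)).congr ?_
    rw [one_pow, div_one, inv_mul_cancel₀ hκ₂]
  -- the principal divisor of `G * Hc`
  have hGH0 : G * Hc ≠ 0 := mul_ne_zero hG0 hHc0
  obtain ⟨DG, hDG, hdeg⟩ := (hasPD (N * p)).exists_divisor (G * Hc) hGH0
  let EG : Divisor.degZero (K := Kb) (F := FF (N * p)) := ⟨DG, hdeg⟩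
  have hEG : (Pic0.mk EG : JZero (N * p)) = 0 :=
    kum_mk_eq_zero_of_ord hGH0 (fun P => hDG P)
  refine ⟨D - EG, algebraMap Kb (FF (N * p)) κ₂⁻¹ * (u / G ^ n) / Hc ^ n, ?_, ⟨hw0, ?_⟩,
    redC_one_iff.mp Ru, redC_one_iff.mp RWu⟩
  · have h1 : (Pic0.mk (D - EG) : JZero (N * p)) = Pic0.mk D - Pic0.mk EG := rfl
    rw [h1, hEG, sub_zero]
  · intro P
    have e0 : algebraMap Kb (FF (N * p)) κ₂⁻¹ * (u / G ^ n) / Hc ^ n
        = algebraMap Kb (FF (N * p)) κ₂⁻¹ * u / (G * Hc) ^ n := by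
      rw [mul_pow]
      field_simp
    have o1 : P.ord (algebraMap Kb (FF (N * p)) κ₂⁻¹ * (u / G ^ n) / Hc ^ n)
        = P.ord u - (n : ℤ) * P.ord (G * Hc) := by
      rw [e0, ord_div' P (mul_ne_zero hκF hu0) (pow_ne_zero _ hGH0),
        ord_const_mul' P hκ₂' hu0, ord_pow' P (G * Hc) n]
    have o2 := H.2 P
    have e6 : ((D - EG : Divisor.degZero (K := Kb) (F := FF (N * p))) :
        Divisor Kb (FF (N * p))) P = (D : Divisor Kb (FF (N * p))) P - DG P := by
      rw [AddSubgroup.coe_sub, Finsupp.sub_apply]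
    rw [e6, o1, ← o2, hDG P]
    ring

/-- **[D-HECKE] (F4)** at exponent `p ^ k`: the roots `y₁`, `y₂` of the reductions are arbitrary
nonzero Laurent series over the residue field. -/
theorem isT0_of_rhoIs_pow_pow (hA : A.LiesOverPrime p) (k : ℕ)
    {D : Divisor.degZero (K := Kb) (F := FF (N * p))} {u : FF (N * p)}
    (H : IsRootDiv (p ^ k) (D : Divisor Kb (FF (N * p))) u)
    {κ₁ κ₂ : Kb} (hκ₁ : κ₁ ≠ 0) (hκ₂ : κ₂ ≠ 0) {y₁ y₂ : LaurentSeries (kA A)}
    (hy₁0 : y₁ ≠ 0) (hy₂0 : y₂ ≠ 0)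
    (h1 : RhoIs A (N * p)
      (algebraMap Kb (LaurentSeries Kb) κ₁⁻¹ * (u : LaurentSeries Kb)) (y₁ ^ p ^ k))
    (h2 : RhoIs A (N * p) (algebraMap Kb (LaurentSeries Kb) κ₂⁻¹ *
      ((atkinLehner N p hp hpN u : FF (N * p)) : LaurentSeries Kb)) (y₂ ^ p ^ k)) :
    IsT0 N p hp hpN A (p ^ k) (Pic0.mk D : JZero (N * p)) := by
  haveI : Fact p.Prime := ⟨hp⟩
  haveI : CharP (kA A) p := charP_residueField hp hA
  have hy₁ : y₁ ∈ FFb A (N * p) :=
    Fermat.Agent.T7.helper15.mem_FFb_of_pow_pow_mem A (N * p) p k h1.red_mem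
  have hy₂ : y₂ ∈ FFb A (N * p) :=
    Fermat.Agent.T7.helper15.mem_FFb_of_pow_pow_mem A (N * p) p k h2.red_mem
  exact isT0_of_rhoIs_pow_mem hA (pow_ne_zero _ hp.ne_zero) H hκ₁ hκ₂ hy₁ hy₂ hy₁0 hy₂0 h1 h2

/-- **[D-HECKE] (F4)** at exponent `p`. -/
theorem isT0_of_rhoIs_pow (hA : A.LiesOverPrime p)
    {D : Divisor.degZero (K := Kb) (F := FF (N * p))} {u : FF (N * p)}
    (H : IsRootDiv p (D : Divisor Kb (FF (N * p))) u)
    {κ₁ κ₂ : Kb} (hκ₁ : κ₁ ≠ 0) (hκ₂ : κ₂ ≠ 0) {y₁ y₂ : LaurentSeries (kA A)}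
    (hy₁0 : y₁ ≠ 0) (hy₂0 : y₂ ≠ 0)
    (h1 : RhoIs A (N * p)
      (algebraMap Kb (LaurentSeries Kb) κ₁⁻¹ * (u : LaurentSeries Kb)) (y₁ ^ p))
    (h2 : RhoIs A (N * p) (algebraMap Kb (LaurentSeries Kb) κ₂⁻¹ *
      ((atkinLehner N p hp hpN u : FF (N * p)) : LaurentSeries Kb)) (y₂ ^ p)) :
    IsT0 N p hp hpN A p (Pic0.mk D : JZero (N * p)) := by
  haveI : Fact p.Prime := ⟨hp⟩
  haveI : CharP (kA A) p := charP_residueField hp hA
  have hy₁ : y₁ ∈ FFb A (N * p) :=
    Fermat.Agent.T7.helper15.mem_FFb_of_pow_mem A (N * p) p h1.red_mem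
  have hy₂ : y₂ ∈ FFb A (N * p) :=
    Fermat.Agent.T7.helper15.mem_FFb_of_pow_mem A (N * p) p h2.red_mem
  exact isT0_of_rhoIs_pow_mem hA hp.ne_zero H hκ₁ hκ₂ hy₁ hy₂ hy₁0 hy₂0 h1 h2

end Main

end Fermat.Agent.T8.helper2

end
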