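import Fermat.Agent.T8.helper72_ChainDefs2
import Fermat.Agent.T8.helper29_ConclQ

/-!
# T8 = row 38 via S44, leaf [D-HECKE] = box (F) (helper44, owner): CONTRACT and reduction

Entry of the box: the output of the wall in the binding quotient form of [CONCL],
`helper29.wallCQ` (`helper29_ConclQ.lean`): every `x ∈ V` has a Kummer generator `u`
(`p • D = div u`, `[D] = x`) and reductions `f₁`, `f₂` of the two expansions `u`, `W u` with
`p ∣ ord_Q f_i` at every place `Q ≠ ∞` of the special fibre.

Target: `helper72.DHeckeStatement2 π helper29.wallCQ` (`helper72_ChainDefs2.lean`).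

The box splits into TWO sub-contracts, glued here (`dHecke2_of_t0Side_exit`, proved):

* `IsPowC A M p f`     : `f = c * g ^ p` in the special fibre field (the class
                         `d(f) = [div f / p]` of `Pic⁰[p]` of the special fibre vanishes);
* `T0SideStatement`    : **(F-T0)** `d₁(x) = d₂(x) = 0 ⟹ x ∈ T0`: a Kummer generator whose two
                         reductions are constants times `p`-th powers can be changed by a `p`-th
                         power into one which is `≡ 1` for both Gauss valuations.  Pure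
                         valuation theory at the bad pair (approximation for `w₁`, `w₂`:
                         `exists_good_lift`, T2 `sepStatement`, `scaleStatement_bad`,
                         `pairScaleStatement`).
* `ExitStatement π`    : **(F-EXIT)** if for SOME `x ∈ V` the pair `(d₁(x), d₂(x))` is not zero,
                         then the Frey representation is modular of level `M'`.

(F-EXIT) is the place where the eigenform of level `M'` of the whole chain is produced: the
class `d(x)` is a nonzero eigenclass in `Pic⁰[p]` of the SPECIAL FIBRE of `X₀(M')`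
(characteristic `p`), and it has to be transported to a Hecke eigensystem of level `M'` in
characteristic `0`.
-/

set_option autoImplicit false
set_option synthInstance.maxHeartbeats 400000
set_option maxHeartbeats 1600000
set_option linter.unusedSectionVars false
set_option linter.unusedVariables false
set_option linter.style.longLine false

noncomputable section

namespace Fermat.Agent.T8.helper44

open HahnSeries IntermediateField AlgebraicCurve ModularCurve
open Fermat.Agent.S18.helper19 Fermat.Agent.P2.helper29 Fermat.Agent.P2.helper93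
open Fermat.Agent.T2 Fermat.Agent.T2.helper36
open Fermat.Agent.T7 Fermat.Agent.T8.helper72 Fermat.Agent.T8.helper29

/-- `f` is a constant times a `p`-th power in the special fibre field. -/
def IsPowC (A : ValuationSubring Kb) (M : ℕ) [NeZero M] (p : ℕ) (f : FFb A M) : Prop :=
  ∃ (c : kA A) (g : FFb A M), f = algebraMap (kA A) (FFb A M) c * g ^ p

/-- the wall data of a Kummer function `u` with VANISHING classes `d₁`, `d₂`: the two reductions
are constants times `p`-th powers. -/
def RedPow {M : ℕ} [NeZero M] (W : FF M ≃ₐ[Kb] FF M) (A : ValuationSubring Kb) (p : ℕ)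
    (u : FF M) : Prop :=
  ∃ f₁ f₂ : FFb A M, IsRedPairQ W A u f₁ f₂ ∧ IsPowC A M p f₁ ∧ IsPowC A M p f₂

/-- the wall data of a Kummer function `u` with a NONVANISHING class: `p` divides the divisors
of the two reductions off `∞`, and one of them is not a constant times a `p`-th power. -/
def RedNotPow {M : ℕ} [NeZero M] (W : FF M ≃ₐ[Kb] FF M) (A : ValuationSubring Kb) (p : ℕ)
    (u : FF M) : Prop :=
  ∃ f₁ f₂ : FFb A M, IsRedPairQ W A u f₁ f₂ ∧
    (∀ Q : Place (kA A) (FFb A M), ¬ IsInfty Q → (p : ℤ) ∣ Q.ord f₁ ∧ (p : ℤ) ∣ Q.ord f₂) ∧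
    ¬ (IsPowC A M p f₁ ∧ IsPowC A M p f₂)

/-- **(F-T0)**, class form at the bad pair `(4 M', p)`: a class with a Kummer generator whose two
reductions are constants times `p`-th powers lies in `T0`. -/
def T0SideStatement : Prop :=
  ∀ (M' p : ℕ) [NeZero M'] [NeZero p] (hp : p.Prime) (hpN : ¬ p ∣ 4 * M')
    (A : ValuationSubring Kb), A.LiesOverPrime p →
    ∀ (x : JZero (4 * M' * p)) (D : Divisor.degZero (K := Kb) (F := FF (4 * M' * p)))
      (u : FF (4 * M' * p)),
      (Pic0.mk D : JZero (4 * M' * p)) = x →
      IsRootDiv p (D : Divisor Kb (FF (4 * M' * p))) u →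
      RedPow (atkinLehner (4 * M') p hp hpN) A p u →
      helper2.IsT0 (4 * M') p hp hpN A p x

/-- **(F-EXIT)**: a class of `V` with nonvanishing `(d₁, d₂)` gives the eigenform of level
`M'`. -/
def ExitStatement (π : PullData) : Prop :=
  ∀ (P : FreyPackage) (W : WeierstrassCurve ℤ) (M' : ℕ) [NeZero M'], ChainCtx P M' W →
    ∀ (hpN : ¬ P.p ∣ 4 * M') (A : ValuationSubring (AlgebraicClosure ℚ)), A.LiesOverPrime P.p →
    ∀ V0 : AddSubgroup (JZero (M' * P.p)), FreyReal P W (M' * P.p) V0 →
      V0 ≤ helper43.newPart M' P.p →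
      FreyReal P W (4 * M' * P.p) (V0.map (π M' P.p)) →
      V0.map (π M' P.p) ≤ helper43.newPart (4 * M') P.p →
      (∃ x ∈ V0.map (π M' P.p),
        ∃ (D : Divisor.degZero (K := Kb) (F := FF (4 * M' * P.p))) (u : FF (4 * M' * P.p)),
          (Pic0.mk D : JZero (4 * M' * P.p)) = x ∧
          IsRootDiv P.p (D : Divisor Kb (FF (4 * M' * P.p))) u ∧
          RedNotPow (atkinLehner (4 * M') P.p P.pp hpN) A P.p u) →
      P.ModularRepOfLevel M'

/-- **box (F) from its two halves** -/
theorem dHecke2_of_t0Side_exit (π : PullData) (hT0 : T0SideStatement)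
    (hExit : ExitStatement π) : DHeckeStatement2 π wallCQ := by
  intro P W M' _ hc hpN A hA V0 hV0 hnew hV hVnew hC
  by_cases hex : ∃ x ∈ V0.map (π M' P.p),
      ∃ (D : Divisor.degZero (K := Kb) (F := FF (4 * M' * P.p))) (u : FF (4 * M' * P.p)),
        (Pic0.mk D : JZero (4 * M' * P.p)) = x ∧
        IsRootDiv P.p (D : Divisor Kb (FF (4 * M' * P.p))) u ∧
        RedNotPow (atkinLehner (4 * M') P.p P.pp hpN) A P.p u
  · exact Or.inl (hExit P W M' hc hpN A hA V0 hV0 hnew hV hVnew hex)
  · refine Or.inr fun x hx => ?_
    obtain ⟨D, u, hD, hu, f₁, f₂, hf, hQ⟩ := hC x hx hpN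
    by_cases hpow : IsPowC A (4 * M' * P.p) P.p f₁ ∧ IsPowC A (4 * M' * P.p) P.p f₂
    · exact hT0 M' P.p P.pp hpN A hA x D u hD hu ⟨f₁, f₂, hf, hpow.1, hpow.2⟩
    · exact (hex ⟨x, hx, D, u, hD, hu, f₁, f₂, hf, hQ, hpow⟩).elim

end Fermat.Agent.T8.helper44

end
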