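import Fermat.Agent.T8.helper2_DHeckeT0
import Fermat.Agent.T8.helper44_DHecke

/-!
# T8 / S44, box [D-HECKE], half (F-T0) (helper2): `helper44.T0SideStatement`, proved

* `rhoIs_of_isRedQ` : the quotient-form reduction `helper29.IsRedQ` in the vocabulary `RhoIs`;
* `exists_pow_of_isPowC` : a nonzero constant times a `p`-th power is a `p`-th power (the
  residue field is algebraically closed);
* `isT0_of_redPow` : a class with a Kummer generator `u` satisfying `helper44.RedPow`
  (both reductions are constants times `p`-th powers) lies in `T0`, at every bad pair `(N, p)`;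
* `t0SideStatement : helper44.T0SideStatement`.
-/

set_option autoImplicit false
set_option synthInstance.maxHeartbeats 400000
set_option maxHeartbeats 1600000
set_option linter.unusedSectionVars false
set_option linter.unusedVariables false
set_option linter.style.longLine false
set_option linter.style.haveILetI false

noncomputable section

open HahnSeries IntermediateField AlgebraicCurve ModularCurve

namespace Fermat.Agent.T8.helper2

open Fermat.Agent.S18.helper19 Fermat.Agent.P2.helper29 Fermat.Agent.P2.helper93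
open Fermat.Agent.T2 Fermat.Agent.T2.helper20 Fermat.Agent.T2.helper36
open Fermat.Agent.T7.helper2

section Dict

variable {A : ValuationSubring Kb} {M : ℕ} [NeZero M]

/-- the quotient-form reduction of `helper29` in the vocabulary `RhoIs`: there is a constant
`c ≠ 0` such that `c⁻¹ u` is integral for the Gauss valuation with reduction `f`. -/
theorem rhoIs_of_isRedQ {u : LaurentSeries Kb} {f : FFb A M}
    (h : Fermat.Agent.T8.helper29.IsRedQ A u f) :
    ∃ c : Kb, c ≠ 0 ∧
      RhoIs A M (algebraMap Kb (LaurentSeries Kb) c⁻¹ * u) (f : LaurentSeries (kA A)) := by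
  obtain ⟨c, Y, Y', hc, hY, hY', h1, h2⟩ := h
  refine ⟨c, hc, Y, Y', isInt_of_isGood hY, hY', ?_, h2.symm⟩
  rw [mul_assoc, ← h1, ← mul_assoc, ← map_mul, inv_mul_cancel₀ hc, map_one, one_mul]

/-- a nonzero constant times a `p`-th power is a `p`-th power of a nonzero element (the residue
field is algebraically closed). -/
theorem exists_pow_of_isPowC {p : ℕ} (hp : p ≠ 0) {f : FFb A M} (hf : f ≠ 0)
    (h : Fermat.Agent.T8.helper44.IsPowC A M p f) :
    ∃ y : LaurentSeries (kA A), y ∈ FFb A M ∧ y ≠ 0 ∧ (f : LaurentSeries (kA A)) = y ^ p := by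
  haveI : IsAlgClosed (kA A) := Fermat.Agent.P2.helper95.isAlgClosed_residueField A
  obtain ⟨c, g, rfl⟩ := h
  obtain ⟨e, he⟩ := IsAlgClosed.exists_pow_nat_eq c (Nat.pos_of_ne_zero hp)
  have hy0 : algebraMap (kA A) (FFb A M) e * g ≠ 0 := by
    intro h0
    apply hf
    rw [← he, map_pow, ← mul_pow, h0, zero_pow hp]
  refine ⟨((algebraMap (kA A) (FFb A M) e * g : FFb A M) : LaurentSeries (kA A)),
    (algebraMap (kA A) (FFb A M) e * g).2, fun h0 => hy0 (Subtype.ext h0), ?_⟩
  rw [← he, map_pow, ← mul_pow]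
  rfl

end Dict

section T0Side

variable {N p : ℕ} [NeZero N] [NeZero p] {hp : p.Prime} {hpN : ¬ p ∣ N}
  {A : ValuationSubring Kb}

/-- **(F-T0)** at every bad pair `(N, p)`: a class with a Kummer generator whose two reductions
are constants times `p`-th powers lies in `T0`. -/
theorem isT0_of_redPow (hA : A.LiesOverPrime p)
    {D : Divisor.degZero (K := Kb) (F := FF (N * p))} {u : FF (N * p)}
    (H : IsRootDiv p (D : Divisor Kb (FF (N * p))) u)
    (hR : Fermat.Agent.T8.helper44.RedPow (atkinLehner N p hp hpN) A p u) :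
    IsT0 N p hp hpN A p (Pic0.mk D : JZero (N * p)) := by
  obtain ⟨f₁, f₂, ⟨r₁, r₂⟩, hp₁, hp₂⟩ := hR
  obtain ⟨y₁, hy₁, hy₁0, e₁⟩ := exists_pow_of_isPowC hp.ne_zero r₁.ne_zero hp₁
  obtain ⟨y₂, hy₂, hy₂0, e₂⟩ := exists_pow_of_isPowC hp.ne_zero r₂.ne_zero hp₂
  obtain ⟨κ₁, hκ₁, k₁⟩ := rhoIs_of_isRedQ r₁
  obtain ⟨κ₂, hκ₂, k₂⟩ := rhoIs_of_isRedQ r₂
  rw [e₁] at k₁
  rw [e₂] at k₂
  exact isT0_of_rhoIs_pow_mem hA hp.ne_zero H hκ₁ hκ₂ hy₁ hy₂ hy₁0 hy₂0 k₁ k₂

end T0Side

/-- **(F-T0)** : `helper44.T0SideStatement`. -/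
theorem t0SideStatement : Fermat.Agent.T8.helper44.T0SideStatement := by
  intro M' p _ _ hp hpN A hA x D u hD hu hR
  rw [← hD]
  exact isT0_of_redPow hA hu hR

end Fermat.Agent.T8.helper2

end
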