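import Fermat.Agent.T8.helper47_LiftQ
import Fermat.Agent.T8.helper56_Wire2
import Fermat.Agent.T8.helper74_GapsAnn
import Fermat.Agent.P2.helper29_Final
import Fermat.Agent.S20.Wiring
import Fermat.Agent.S20.helper66_Res
import Fermat.Agent.S49.QCoeff

/-!
# T8 / S44, box [D-HECKE], (F-EXIT), THE END of the exit (helper2)

Route of helper91 (annihilator duality).  `L` a level, `A` a valuation subring of `ℚ̄` over the
prime `p ∤ L`, `k = kA A`, `annRb L A` (helper74) the annihilator in `q k[[q]]` of the reductions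
of the `A`-integral functions of level `L` which are regular off `∞`.

* `serOf w`          : the Laurent series `∑_{m ≥ 0} w m q^m` of a sequence `w : ℕ → k`;
* `CuspAnnStatement L A` : **[CUSP-ANN]**, reduced form: the reduction of every `q`-integral cusp
                       form of weight `2` and level `L` lies in `annRb L A`;
* `SatCuspStatement L k` : **[SAT-CUSP]** (shape of helper51): there are
                       `g = dim S₂(Γ₀(L))` `q`-integral cusp forms with `k`-linearly independent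
                       reductions;
* `hasRiemannGenus_finrank` : the Riemann genus of `FF L` is `dim S₂(Γ₀(L))` (S20 + P2);
* `isRedCusp_of_mem_annRb` : an element of `annRb L A` is a `k`-linear combination of
                       reductions of `q`-integral cusp forms (`helper47.IsRedCusp`);
* `exists_eigenform_of_mem_annRb` : a nonzero formal Hecke eigenvector in `annRb L A` gives a
                       normalised eigenform of level `L` (`helper47.liftQ`);
* `modularRepOfLevel_of_mem_annRb` : **the end of (F-EXIT)**: a nonzero element of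
                       `annRb M' A` which is a formal eigenvector of `T_ℓ` with eigenvalue
                       `a_ℓ(W)` at the good primes `ℓ ≠ 2, p`, `ℓ ∤ M'` gives
                       `P.ModularRepOfLevel M'`.
-/

set_option autoImplicit false
set_option synthInstance.maxHeartbeats 400000
set_option maxHeartbeats 1600000
set_option linter.unusedSectionVars false
set_option linter.unusedVariables false
set_option linter.style.longLine false
set_option linter.style.haveILetI false

noncomputable section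

open HahnSeries ModularCurve CuspForm CongruenceSubgroup ModularFormClass

namespace Fermat.Agent.T8.helper2

open Fermat.Agent.S18.helper19 Fermat.Agent.P2.helper29

section Series

variable {k : Type*} [Field k]

/-- the Laurent series `∑_{m ≥ 0} w m q^m` -/
def serOf (w : ℕ → k) : LaurentSeries k :=
  HahnSeries.ofPowerSeries ℤ k (PowerSeries.mk w)

theorem serOf_coeff_natCast (w : ℕ → k) (m : ℕ) : (serOf w).coeff (m : ℤ) = w m := by
  rw [serOf, HahnSeries.ofPowerSeries_apply_coeff, PowerSeries.coeff_mk]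

theorem serOf_coeff_neg (w : ℕ → k) {m : ℤ} (hm : m < 0) : (serOf w).coeff m = 0 := by
  rw [serOf, HahnSeries.ofPowerSeries_apply]
  rw [HahnSeries.embDomain_of_notMem_range]
  rintro ⟨n, hn⟩
  have : (0 : ℤ) ≤ m := by
    rw [← hn]
    exact Int.natCast_nonneg n
  omega

/-- `w ↦ serOf w` is additive and commutes with scalars, coefficientwise -/
theorem serOf_sum_smul {ι : Type*} (s : Finset ι) (c : ι → k) (v : ι → ℕ → k) :
    ∑ i ∈ s, c i • serOf (v i) = serOf (fun m => ∑ i ∈ s, c i * v i m) := by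
  ext m
  have h1 : (∑ i ∈ s, c i • serOf (v i)).coeff m = ∑ i ∈ s, (c i • serOf (v i)).coeff m :=
    map_sum (HahnSeries.coeff.linearMap (R := k) m) _ _
  rw [h1]
  rcases lt_or_ge m 0 with hm | hm
  · rw [serOf_coeff_neg _ hm]
    refine Finset.sum_eq_zero fun i _ => ?_
    rw [HahnSeries.coeff_smul, serOf_coeff_neg _ hm, smul_zero]
  · obtain ⟨n, rfl⟩ := Int.eq_ofNat_of_zero_le hm
    rw [serOf_coeff_natCast]
    refine Finset.sum_congr rfl fun i _ => ?_
    rw [HahnSeries.coeff_smul, serOf_coeff_natCast, smul_eq_mul]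

theorem serOf_injective : Function.Injective (serOf : (ℕ → k) → LaurentSeries k) := by
  intro v w h
  funext m
  rw [← serOf_coeff_natCast v m, ← serOf_coeff_natCast w m, h]

end Series

/-- **[CUSP-ANN]**, reduced form: the reduction of a `q`-integral cusp form of weight `2` and
level `L` annihilates the reductions of the integral functions regular off `∞`. -/
def CuspAnnStatement (L : ℕ) (A : ValuationSubring Kb) : Prop :=
  ∀ (f : CuspForm (Gamma0 L) 2) (z : ℕ → ℤ), (∀ m, ((z m : ℤ) : ℂ) = qCoeff ⇑f m) →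
    serOf (fun m => ((z m : ℤ) : kA A)) ∈ Fermat.Agent.T8.helper74.annRb L A

/-- **[SAT-CUSP]**: `dim S₂(Γ₀(L))` `q`-integral cusp forms with `k`-linearly independent
reductions. -/
def SatCuspStatement (L : ℕ) (k : Type*) [Field k] : Prop :=
  ∃ (f : Fin (Module.finrank ℂ (CuspForm (Gamma0 L) 2)) → CuspForm (Gamma0 L) 2)
    (z : Fin (Module.finrank ℂ (CuspForm (Gamma0 L) 2)) → ℕ → ℤ),
    (∀ i m, ((z i m : ℤ) : ℂ) = qCoeff ⇑(f i) m) ∧
      LinearIndependent k (fun i => fun m : ℕ => ((z i m : ℤ) : k))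

section End

variable (L : ℕ) [NeZero L]

/-- the Riemann genus of `FF L` is the dimension of `S₂(Γ₀(L))` -/
theorem hasRiemannGenus_finrank :
    HasRiemannGenus Kb (FF L) (Module.finrank ℂ (CuspForm (Gamma0 L) 2)) := by
  obtain ⟨g, hg⟩ := Fermat.Agent.P2.helper74.riemannStatement L
  have h1 : (g : ℚ) = genusFormula L := Fermat.Agent.P2.helper29.genusFormulaStatement L g hg
  have h2 : (Module.finrank ℂ (CuspForm (Gamma0 L) 2) : ℚ) = genusFormula L :=
    Fermat.Agent.S20.result_of L (Fermat.Agent.S20.finrank_M2_ge L)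
      (Fermat.Agent.S20.helper66.finrank_M2_le L)
  have h3 : g = Module.finrank ℂ (CuspForm (Gamma0 L) 2) := by
    exact_mod_cast h1.trans h2.symm
  rw [← h3]
  exact hg

variable {L} {A : ValuationSubring Kb}

/-- an element of the annihilator is a `k`-linear combination of reductions of `q`-integral
cusp forms -/
theorem isRedCusp_of_mem_annRb (hP : PrimeToLevel L A) (hCA : CuspAnnStatement L A)
    (hSat : SatCuspStatement L (kA A)) {w : LaurentSeries (kA A)}
    (hw : w ∈ Fermat.Agent.T8.helper74.annRb L A) :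
    Fermat.Agent.T8.helper47.IsRedCusp L (kA A) (fun m : ℕ => w.coeff (m : ℤ)) := by
  obtain ⟨f, z, hz, hli⟩ := hSat
  have hv : ∀ i, serOf (fun m => ((z i m : ℤ) : kA A)) ∈ Fermat.Agent.T8.helper74.annRb L A :=
    fun i => hCA (f i) (z i) (hz i)
  have hli' : LinearIndependent (kA A) (fun i => serOf (fun m => ((z i m : ℤ) : kA A))) := by
    rw [Fintype.linearIndependent_iff]
    intro c hc
    rw [serOf_sum_smul] at hc
    have h0 : (fun m : ℕ => ∑ i, c i * ((z i m : ℤ) : kA A)) = fun _ => 0 := by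
      apply serOf_injective
      rw [hc]
      ext m
      rcases lt_or_ge m 0 with hm | hm
      · rw [serOf_coeff_neg _ hm]
        rfl
      · obtain ⟨n, rfl⟩ := Int.eq_ofNat_of_zero_le hm
        rw [serOf_coeff_natCast]
        rfl
    refine Fintype.linearIndependent_iff.mp hli c ?_
    funext m
    have := congrFun h0 m
    simp only [Finset.sum_apply, Pi.smul_apply, smul_eq_mul, Pi.zero_apply]
    exact this
  obtain ⟨c, hc⟩ := Fermat.Agent.T8.helper74.annRb_coeff_span hP _ (hasRiemannGenus_finrank L)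
    _ hv hli' hw
  refine ⟨_, f, z, c, hz, fun m => ?_⟩
  show w.coeff (m : ℤ) = _
  rw [hc (m : ℤ)]
  refine Finset.sum_congr rfl fun i _ => ?_
  rw [serOf_coeff_natCast]

/-- a nonzero element of the annihilator has a nonzero coefficient of positive index -/
theorem exists_coeff_ne_zero_of_mem_annRb {w : LaurentSeries (kA A)}
    (hw : w ∈ Fermat.Agent.T8.helper74.annRb L A) (hw0 : w ≠ 0) :
    ∃ m : ℕ, w.coeff (m : ℤ) ≠ 0 := by
  by_contra hcon
  rw [not_exists] at hcon
  apply hw0
  ext m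
  rcases le_or_gt m 0 with hm | hm
  · exact hw.1 m hm
  · obtain ⟨n, rfl⟩ := Int.eq_ofNat_of_zero_le hm.le
    exact not_not.mp (hcon n)

/-- **[LIFT-Q] applied to the annihilator**: a nonzero formal Hecke eigenvector in `annRb L A`
gives a normalised eigenform of level `L`. -/
theorem exists_eigenform_of_mem_annRb {p : ℕ} (hp : p.Prime) (hA : A.LiesOverPrime p)
    (hpL : ¬ p ∣ L) (hCA : CuspAnnStatement L A) (hSat : SatCuspStatement L (kA A))
    (G : Set Nat.Primes) (a : Nat.Primes → ℤ) (hG : ∀ ℓ ∈ G, ¬ ((ℓ : Nat.Primes) : ℕ) ∣ L)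
    {w : LaurentSeries (kA A)} (hw : w ∈ Fermat.Agent.T8.helper74.annRb L A) (hw0 : w ≠ 0)
    (heig : ∀ ℓ ∈ G, Fermat.Agent.T8.helper47.IsFormalEigen ((ℓ : Nat.Primes) : ℕ) (a ℓ)
      (fun m : ℕ => w.coeff (m : ℤ))) :
    ∃ (g : CuspForm (Gamma0 L) 2) (𝔪' : Ideal (integralClosure ℤ ℂ)),
      g.IsNormalizedEigenform ∧ 𝔪'.IsMaximal ∧ (p : integralClosure ℤ ℂ) ∈ 𝔪' ∧
      (∀ ℓ ∈ G, ∃ y : integralClosure ℤ ℂ, (y : ℂ) = qCoeff ⇑g ((ℓ : Nat.Primes) : ℕ) ∧
        y - ((a ℓ : ℤ) : integralClosure ℤ ℂ) ∈ 𝔪') := by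
  haveI : CharP (kA A) p := Fermat.Agent.P2.helper93.charP_residueField hp hA
  have hP : PrimeToLevel L A := ⟨p, hp, hpL, hA⟩
  exact Fermat.Agent.T8.helper47.liftQ L p hp (kA A) G a hG _
    (isRedCusp_of_mem_annRb hP hCA hSat hw) (exists_coeff_ne_zero_of_mem_annRb hw hw0) heig

end End

section Frey

/-- **the end of (F-EXIT)**: a nonzero element `w` of `annRb M' A` (`A` over `p = P.p`,
`p ∤ M'`) which is a formal eigenvector of `T_ℓ` with eigenvalue `a_ℓ(W)` at every good prime
`ℓ ≠ 2, p` not dividing `M'` gives `P.ModularRepOfLevel M'`. -/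
theorem modularRepOfLevel_of_mem_annRb (P : FreyPackage) {M' : ℕ} [NeZero M']
    {W : WeierstrassCurve ℤ} (hW : W.IsIntegralModelOf P.freyCurve)
    {A : ValuationSubring Kb} (hA : A.LiesOverPrime P.p) (hpM : ¬ P.p ∣ M')
    (hCA : CuspAnnStatement M' A) (hSat : SatCuspStatement M' (kA A))
    {w : LaurentSeries (kA A)} (hw : w ∈ Fermat.Agent.T8.helper74.annRb M' A) (hw0 : w ≠ 0)
    (heig : ∀ ℓ : Nat.Primes, W.IsGoodPrimeFor (ℓ : ℕ) → (ℓ : ℕ) ≠ 2 → (ℓ : ℕ) ≠ P.p →
      ¬ (ℓ : ℕ) ∣ M' →
      Fermat.Agent.T8.helper47.IsFormalEigen (ℓ : ℕ) (W.apOfModel (ℓ : ℕ))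
        (fun m : ℕ => w.coeff (m : ℤ))) :
    P.ModularRepOfLevel M' := by
  set G : Set Nat.Primes := {ℓ | W.IsGoodPrimeFor (ℓ : ℕ) ∧ (ℓ : ℕ) ≠ 2 ∧ (ℓ : ℕ) ≠ P.p ∧
    ¬ (ℓ : ℕ) ∣ M'} with hGdef
  obtain ⟨g, 𝔪', hg, hmax, hp𝔪, hcong⟩ := exists_eigenform_of_mem_annRb P.pp hA hpM hCA hSat G
    (fun ℓ => W.apOfModel (ℓ : ℕ)) (fun ℓ hℓ => hℓ.2.2.2) hw hw0
    (fun ℓ hℓ => heig ℓ hℓ.1 hℓ.2.1 hℓ.2.2.1 hℓ.2.2.2)
  exact Fermat.Agent.T8.helper56.modularRepOfLevel_of_eigenform_set P hW G
    (fun ℓ => W.apOfModel (ℓ : ℕ))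
    (fun ℓ h1 h2 h3 h4 => ⟨⟨h1, h2, h3, h4⟩, rfl⟩) g 𝔪' hg hmax hp𝔪 hcong

end Frey

end Fermat.Agent.T8.helper2

end
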