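import Fermat.Agent.T8.helper91_AnnAbs
import Fermat.Agent.T8.helper44_DHecke
import Fermat.Agent.T8.helper47_LiftQ
import Fermat.Agent.T8.helper67_AuxDef
import Fermat.Agent.T3.helper67_MidCore

/-!
# T8 = row 38 via S44, box [F3-EXIT] (helper91, architect): CONTRACTS of the leaves

Target of the box: `helper44.ExitStatement π` for `π = helper67.auxPull67` (`β_4^*`), i.e. a class
`x = π x₀` of the realisation at level `4 M' p` with a Kummer generator `u` whose two reductions
`f₁`, `f₂` (special fibre field of level `4 M' p` at `A ∣ p`) have divisors divisible by `p` off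
`∞` and are not both constants times `p`-th powers gives a congruent eigenform of level `M'`.

Route (finding #3612, annihilator duality at `∞`; audits #3632): `k = kA A`,

* `redReg L A`  : the `k`-span of the reductions of the `A`-integral functions of level `L` which
                  are regular off `∞` (`L` prime to the residue characteristic);
* `annR L A`    : its annihilator in `q k[[q]]` for the pairing `(h, ω) ↦ a₀(h ω)`
                  (`helper91.ann`, file `helper91_AnnAbs.lean`) - the "regular differentials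
                  `ω dq/q`" of the special fibre, with NO differentials and NO Riemann-Roch in
                  characteristic `p`;
* `dlogL f`     : `θ f / f`, `θ = q d/dq` (`T3.helper67.thetaL`);
* `seqOf ω`     : the sequence of coefficients `n ↦ a_n(ω)`; `vSeq r w` : `V_r w`.

Leaves (every leaf is a `Prop` here; owners prove them in their own files):

1. [ANN-ABS]   `helper91_AnnAbs.lean` (theorems, Mathlib only): `finrank_ann_le_of_pp`, ...
2. [GAPS]      `GapsStatement L A`      : `dim annR L A ≤ g` (`g` = Riemann genus of `FF L`).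
3. [CUSP-ANN]  `CuspAnnStatement L A`   : reductions of `q`-integral cusp forms lie in `annR L A`;
   [CUSP-RANK] `CuspRankStatement L A`  : `g` of them are linearly independent modulo `A`.
   ⟹ `AnnCuspStatement L A` : every `ω ∈ annR L A` is `helper47.IsRedCusp L k (seqOf ω)`.
4. [OMEGA]     `OmegaStatement`         : `p ∣ ord_Q f` for all `Q ≠ ∞` ⟹ `dlogL f ∈ annR N' A`;
               `OmegaNeStatement`       : `θ f = 0` ⟹ `f` is a constant times a `p`-th power.
5. [HECKE]     `HeckeStatement`         : the two `dlogL f_i` of a Kummer generator of a Frey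
               eigenclass are formal `T_ℓ`-eigenvectors with eigenvalue `a_ℓ(W)`.
6. [LIFT-Q]    `helper47.LiftQStatement` (DONE, `helper47.liftQ`).
7. [DESCENT]   `V4ShapeStatement`       : for `x = β_4^* x₀` the two `dlogL f_i` are supported on
               the multiples of `4` (formal: `u = c β_4(u₀) v ^ p`);
               `DescentStatement`       : **mod `p` Atkin-Lehner lemma** `V_4 w` of level `4 M'`
               ⟹ `w` of level `M'`.

The assembly `exit_of_leaves` is in `helper91_F3Exit.lean`.
-/

set_option autoImplicit false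
set_option synthInstance.maxHeartbeats 400000
set_option maxHeartbeats 1600000
set_option linter.unusedSectionVars false
set_option linter.unusedVariables false
set_option linter.style.longLine false
set_option linter.style.haveILetI false

noncomputable section

namespace Fermat.Agent.T8.helper91

open HahnSeries IntermediateField AlgebraicCurve ModularCurve
open CuspForm CongruenceSubgroup ModularFormClass
open Fermat.Agent.S18.helper19 Fermat.Agent.P2.helper29 Fermat.Agent.P2.helper93
open Fermat.Agent.T2 Fermat.Agent.T2.helper36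
open Fermat.Agent.T7 Fermat.Agent.T8.helper72 Fermat.Agent.T8.helper29
open Fermat.Agent.T8.helper44 Fermat.Agent.T8.helper47

/-! ### Vocabulary -/

/-- the `k`-span of the reductions of the `A`-integral functions of level `L` which are regular
off `∞`. -/
def redReg (L : ℕ) (A : ValuationSubring Kb) : Submodule (kA A) (LaurentSeries (kA A)) :=
  Submodule.span (kA A)
    {y | ∃ (Y : LaurentSeries A) (n : ℤ), InL (FF L) n (incl A Y) ∧ red A Y = y}

/-- the annihilator of `redReg L A` in `q k[[q]]`: the regular differentials `ω dq/q` of the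
special fibre of level `L`, as `q`-expansions. -/
def annR (L : ℕ) (A : ValuationSubring Kb) : Submodule (kA A) (LaurentSeries (kA A)) :=
  ann (redReg L A)

/-- the logarithmic derivative `θ f / f`, `θ = q d/dq`. -/
def dlogL {k : Type*} [Field k] (f : LaurentSeries k) : LaurentSeries k :=
  Fermat.Agent.T3.helper67.thetaL f * f⁻¹

/-- the sequence of coefficients of nonnegative index. -/
def seqOf {k : Type*} [Field k] (ω : LaurentSeries k) : ℕ → k := fun n => ω.coeff (n : ℤ)

/-- `V_r` on sequences: `(V_r w)(r n) = w n`, zero off the multiples of `r`. -/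
def vSeq {k : Type*} [Zero k] (r : ℕ) (w : ℕ → k) : ℕ → k :=
  fun n => if r ∣ n then w (n / r) else 0

/-- the reduction modulo `A` of a `q`-expansion with integer coefficients (no constant term is
used: cusp forms have `z 0 = 0`). -/
def redSeries (k : Type*) [Field k] (z : ℕ → ℤ) : LaurentSeries k :=
  HahnSeries.ofPowerSeries ℤ k (PowerSeries.mk fun n => ((z n : ℤ) : k))

/-! ### Leaf 2 [GAPS] -/

/-- **[GAPS]** the annihilator has dimension at most the genus (`#gaps ≤ g` by saturation;
consumer form, through `helper91.finrank_ann_le_of_pp`). -/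
def GapsStatement (L : ℕ) [NeZero L] (A : ValuationSubring Kb) : Prop :=
  ∀ g : ℕ, HasRiemannGenus Kb (FF L) g →
    Module.Finite (kA A) (annR L A) ∧ Module.finrank (kA A) (annR L A) ≤ g

/-! ### Leaf 3 [CUSP-ANN] -/

/-- **[CUSP-ANN]** the reduction of a cusp form of weight `2` and level `L` with integral
`q`-expansion annihilates the reductions of the integral functions regular off `∞`
(residue theorem in characteristic `0` for `H · F dq/q`). -/
def CuspAnnStatement (L : ℕ) [NeZero L] (A : ValuationSubring Kb) : Prop :=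
  ∀ (F : CuspForm (Gamma0 L) 2) (z : ℕ → ℤ), (∀ m, ((z m : ℤ) : ℂ) = qCoeff ⇑F m) →
    redSeries (kA A) z ∈ annR L A

/-- **[CUSP-RANK]** there are `g` cusp forms with integral `q`-expansions whose reductions are
linearly independent (saturation of the lattice of `q`-integral cusp forms). -/
def CuspRankStatement (L : ℕ) [NeZero L] (A : ValuationSubring Kb) : Prop :=
  ∀ g : ℕ, HasRiemannGenus Kb (FF L) g →
    ∃ (F : Fin g → CuspForm (Gamma0 L) 2) (z : Fin g → ℕ → ℤ),
      (∀ i m, ((z i m : ℤ) : ℂ) = qCoeff ⇑(F i) m) ∧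
      LinearIndependent (kA A) (fun i => redSeries (kA A) (z i))

/-- **[ANN = CUSP]**, the consumer form of leaves 1-3: every element of the annihilator is a
`k`-linear combination of reductions of `q`-integral cusp forms of level `L`. -/
def AnnCuspStatement (L : ℕ) [NeZero L] (A : ValuationSubring Kb) : Prop :=
  ∀ ω ∈ annR L A, IsRedCusp L (kA A) (seqOf ω)

/-! ### Leaf 4 [OMEGA] -/

/-- **[OMEGA] (ii)** at the bad pair `(N' p, A)`, `A ∣ p`, `4 ∣ N'`: if `p` divides the divisor of
`f` off `∞` then `θ f / f` is a regular differential of level `N'`. -/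
def OmegaStatement : Prop :=
  ∀ (N' p : ℕ) [NeZero N'] [NeZero p] (hp : p.Prime) (hpN : ¬ p ∣ N'), 4 ∣ N' →
    ∀ A : ValuationSubring Kb, A.LiesOverPrime p →
    ∀ f : FFb A (N' * p), f ≠ 0 →
      (∀ Q : Place (kA A) (FFb A (N' * p)), ¬ IsInfty Q → (p : ℤ) ∣ Q.ord f) →
      dlogL (f : LaurentSeries (kA A)) ∈ annR N' A

/-- **[OMEGA] (i)** `θ f = 0` only for constants times `p`-th powers. -/
def OmegaNeStatement : Prop :=
  ∀ (N' p : ℕ) [NeZero N'] [NeZero p] (hp : p.Prime) (hpN : ¬ p ∣ N')
    (A : ValuationSubring Kb), A.LiesOverPrime p →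
    ∀ f : FFb A (N' * p),
      Fermat.Agent.T3.helper67.thetaL (f : LaurentSeries (kA A)) = 0 → IsPowC A (N' * p) p f

/-! ### Leaf 5 [HECKE] -/

/-- **[HECKE]** the logarithmic derivatives of the two reductions of a Kummer generator of a
`p`-torsion Frey eigenclass of level `4 M' p` are formal eigenvectors of `T_ℓ = U_ℓ + ℓ V_ℓ` with
eigenvalue `a_ℓ(W)`, for the primes `ℓ` good for `W`, `ℓ ∤ 4 M' p`. -/
def HeckeStatement : Prop :=
  ∀ (P : FreyPackage) (W : WeierstrassCurve ℤ) (M' : ℕ) [NeZero M'], ChainCtx P M' W →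
    ∀ (hpN : ¬ P.p ∣ 4 * M') (A : ValuationSubring (AlgebraicClosure ℚ)), A.LiesOverPrime P.p →
    ∀ (x : JZero (4 * M' * P.p)), P.p • x = 0 → IsFreyEigen P W (4 * M' * P.p) x →
    ∀ (D : Divisor.degZero (K := Kb) (F := FF (4 * M' * P.p))) (u : FF (4 * M' * P.p)),
      (Pic0.mk D : JZero (4 * M' * P.p)) = x →
      IsRootDiv P.p (D : Divisor Kb (FF (4 * M' * P.p))) u →
      ∀ f₁ f₂ : FFb A (4 * M' * P.p),
        IsRedPairQ (atkinLehner (4 * M') P.p P.pp hpN) A u f₁ f₂ →
        ∀ ℓ : Nat.Primes, W.IsGoodPrimeFor (ℓ : ℕ) → ¬ (ℓ : ℕ) ∣ 4 * M' * P.p →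
          IsFormalEigen (ℓ : ℕ) (W.apOfModel (ℓ : ℕ))
              (seqOf (dlogL (f₁ : LaurentSeries (kA A)))) ∧
            IsFormalEigen (ℓ : ℕ) (W.apOfModel (ℓ : ℕ))
              (seqOf (dlogL (f₂ : LaurentSeries (kA A))))

/-! ### Leaf 7 [DESCENT] -/

/-- **[V4-SHAPE]** for a class `x = β_4^* x₀` pulled back from level `M' p` the logarithmic
derivatives of the two reductions of a Kummer generator are supported on the multiples of `4`
(`u = c · β_4(u₀) · v ^ p`, `W β_4 = β_4 W`, and a reduction of `u₀(q ^ 4)` is invariant under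
`q ↦ i q` up to a constant). -/
def V4ShapeStatement : Prop :=
  ∀ (P : FreyPackage) (W : WeierstrassCurve ℤ) (M' : ℕ) [NeZero M'], ChainCtx P M' W →
    ∀ (hpN : ¬ P.p ∣ 4 * M') (A : ValuationSubring (AlgebraicClosure ℚ)), A.LiesOverPrime P.p →
    ∀ (x₀ : JZero (M' * P.p)), P.p • x₀ = 0 →
    ∀ (D : Divisor.degZero (K := Kb) (F := FF (4 * M' * P.p))) (u : FF (4 * M' * P.p)),
      (Pic0.mk D : JZero (4 * M' * P.p)) = Fermat.Agent.T8.helper67.auxPull67 M' P.p x₀ →
      IsRootDiv P.p (D : Divisor Kb (FF (4 * M' * P.p))) u →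
      ∀ f₁ f₂ : FFb A (4 * M' * P.p),
        IsRedPairQ (atkinLehner (4 * M') P.p P.pp hpN) A u f₁ f₂ →
        ∀ n : ℕ, ¬ 4 ∣ n →
          seqOf (dlogL (f₁ : LaurentSeries (kA A))) n = 0 ∧
            seqOf (dlogL (f₂ : LaurentSeries (kA A))) n = 0

/-- **[DESCENT]**, the mod `p` Atkin-Lehner lemma: if `V_4 w` is a `k`-linear combination of
reductions of `q`-integral cusp forms of level `4 M'` then `w` is one of level `M'`
(`M'` squarefree, `A` over a prime `p ≥ 5` not dividing `M'`). -/
def DescentStatement : Prop :=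
  ∀ (M' p : ℕ) [NeZero M'] (hp : p.Prime), 5 ≤ p → ¬ p ∣ M' → Squarefree M' →
    ∀ A : ValuationSubring Kb, A.LiesOverPrime p →
    ∀ w : ℕ → kA A, IsRedCusp (4 * M') (kA A) (vSeq 4 w) → IsRedCusp M' (kA A) w

end Fermat.Agent.T8.helper91

end
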