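import Fermat.Agent.T8.helper32_CuspAnnDefs
import Fermat.Agent.T8.helper21_TraceCore
import Fermat.Agent.T8.helper2_ExitEnd
import Fermat.Agent.T8.helper91_F3Defs

/-!
# T8 [F3-EXIT], leaf 3 [CUSP-ANN] (helper32, owner): ASSEMBLY of the trace route

Route T (helper21, `cuspAnn_core_pointwise`): `a₀(h g) = 0` by trace to level one.  The only
open input is the analytic dictionary

* `HoloStatement L` **[CA-HOLO]** : a function `h` of level `L` over `ℚ̄` which is regular off
  infinity is the `q`-expansion of a holomorphic `Γ₀(L)`-invariant function on the upper half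
  plane whose translates by `γ ∉ Γ₀(L)` are bounded at `i∞`.

Proved here (from `HoloStatement L`):

* `cuspAnn0_of_holo`   : `CuspAnn0Statement L` (characteristic `0`, over `ℚ̄`);
* `cuspAnn2_of_holo`   : `helper2.CuspAnnStatement L A`   (consumer `helper2_ExitEnd`);
* `cuspAnn91_of_holo`  : `helper91.CuspAnnStatement L A`  (contract of `helper91_F3Defs`).
-/

set_option autoImplicit false
set_option linter.unusedSectionVars false
set_option linter.unusedVariables false
set_option linter.style.longLine false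
set_option synthInstance.maxHeartbeats 400000
set_option maxHeartbeats 1600000

open ModularCurve CuspForm CongruenceSubgroup ModularFormClass AlgebraicCurve HahnSeries
open UpperHalfPlane
open scoped MatrixGroups

noncomputable section

namespace Fermat.Agent.T8.helper32

open Fermat.Agent.S18.helper19 Fermat.Agent.P2.helper29
open Fermat.Agent.T3.helper67 Fermat.Agent.LEF.helper99 Fermat.Agent.S49

variable (L : ℕ) [NeZero L]

/-- **[CA-HOLO]** the analytic dictionary of the functions regular off infinity. -/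
def HoloStatement : Prop :=
  ∀ (n : ℤ) (h : LaurentSeries Kb), InL (FF L) n h →
    ∃ H : ℍ → ℂ, (∀ γ ∈ Gamma0 L, ∀ τ : ℍ, H (γ • τ) = H τ) ∧
      Fermat.Agent.S24.helper17.IsQExp (Fermat.Agent.S24.helper17.toC h) H ∧
      ∀ γ : SL(2, ℤ), γ ∉ Gamma0 L → IsBoundedAtImInfty (fun τ : ℍ => H (γ • τ))

theorem cuspQ_eq_qLS (f : CuspForm (Gamma0 L) 2) :
    Fermat.Agent.T8.helper21.cuspQ f = qLS L f := rfl

/-- **[CUSP-ANN-0]** from [CA-HOLO] (trace route). -/
theorem cuspAnn0_of_holo (hH : HoloStatement L) : CuspAnn0Statement L := by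
  intro f m hm n h hh
  obtain ⟨H, hinv, hq, hb⟩ := hH n h hh
  have h1 := Fermat.Agent.T8.helper21.cuspAnn_core_pointwise f hq hinv hb
  rw [cuspQ_eq_qLS, qLS_eq_seqLS L hm] at h1
  have h2 : Fermat.Agent.S24.helper17.toC h = coeffMap jC h := rfl
  rw [h2, ← seqLS_coeffMap jC m, ← map_mul, coeffMap_coeff] at h1
  exact (map_eq_zero_iff jC jC.injective).mp h1

theorem serOf_eq_seqLS {k : Type*} [Field k] (m : ℕ → ℤ) :
    Fermat.Agent.T8.helper2.serOf (fun i => ((m i : ℤ) : k)) = seqLS k m := by
  ext j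
  rcases lt_or_ge j 0 with hj | hj
  · rw [Fermat.Agent.T8.helper2.serOf_coeff_neg _ hj]
    unfold seqLS
    exact (ModularCurve.ofPowerSeries_coeff_of_neg _ hj).symm
  · obtain ⟨i, rfl⟩ := Int.eq_ofNat_of_zero_le hj
    rw [Fermat.Agent.T8.helper2.serOf_coeff_natCast]
    unfold seqLS
    rw [HahnSeries.ofPowerSeries_apply_coeff, PowerSeries.coeff_mk]

/-- **[CUSP-ANN]** in the shape of the consumer `helper2_ExitEnd`, from [CUSP-ANN-0]. -/
theorem cuspAnn2_of (A : ValuationSubring Kb) (h0 : CuspAnn0Statement L) :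
    Fermat.Agent.T8.helper2.CuspAnnStatement L A := by
  intro f z hz
  rw [serOf_eq_seqLS]
  exact cuspAnn_of L A h0 f z (fun i => (hz i).symm)

/-- **[CUSP-ANN]** in the shape of the consumer `helper2_ExitEnd`, from [CA-HOLO]. -/
theorem cuspAnn2_of_holo (A : ValuationSubring Kb) (hH : HoloStatement L) :
    Fermat.Agent.T8.helper2.CuspAnnStatement L A :=
  cuspAnn2_of L A (cuspAnn0_of_holo L hH)

/-- **[CUSP-ANN]** in the shape of the contract `helper91_F3Defs`, from [CUSP-ANN-0]. -/
theorem cuspAnn91_of (A : ValuationSubring Kb) (h0 : CuspAnn0Statement L) :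
    Fermat.Agent.T8.helper91.CuspAnnStatement L A := by
  intro F z hz
  have hmem := cuspAnn_of L A h0 F z (fun i => (hz i).symm)
  rw [Fermat.Agent.T8.helper74.mem_annRb] at hmem
  have e : Fermat.Agent.T8.helper91.redSeries (kA A) z = seqLS (kA A) z := rfl
  rw [e]
  refine Fermat.Agent.T8.helper91.mem_ann.mpr ⟨hmem.1, fun h hh => ?_⟩
  induction hh using Submodule.span_induction with
  | mem y hy =>
    obtain ⟨Y, n, hY, rfl⟩ := hy
    exact hmem.2 Y ⟨n, hY⟩
  | zero => rw [zero_mul, HahnSeries.coeff_zero]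
  | add a b _ _ ha hb => rw [add_mul, HahnSeries.coeff_add, ha, hb, add_zero]
  | smul c a _ ha =>
    have e : c • a * seqLS (kA A) z = c • (a * seqLS (kA A) z) := by
      rw [← HahnSeries.C_mul_eq_smul, ← HahnSeries.C_mul_eq_smul, mul_assoc]
    rw [e, HahnSeries.coeff_smul, ha, smul_zero]

/-- **[CUSP-ANN]** in the shape of the contract `helper91_F3Defs`, from [CA-HOLO]. -/
theorem cuspAnn91_of_holo (A : ValuationSubring Kb) (hH : HoloStatement L) :
    Fermat.Agent.T8.helper91.CuspAnnStatement L A :=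
  cuspAnn91_of L A (cuspAnn0_of_holo L hH)

end Fermat.Agent.T8.helper32
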