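import Fermat.Agent.T8.helper74_GapsAnn
import Fermat.Agent.P3.helper80_DictC
import Fermat.Agent.T3.helper67_MidCore
import Fermat.Agent.S24.helper88_FFDeriv
import Fermat.Agent.LEF.helper99_Desc
import Fermat.Agent.S49.QCoeff

/-!
# T8 [F3-EXIT], leaf 3 [CUSP-ANN] (helper32, owner): CONTRACTS + assembly

`f` a cusp form of weight `2` on `Γ₀(L)`, `h` a function of level `L` regular off infinity:
`a₀(h f) = 0` (the differential `h f dq/q` has its only pole at infinity).

Sub-leaves (each a `Prop`, proved in its own file):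
* `HolDiffStatement L`    [CA-HOLDIFF] : `φ := f / θ(j) ∈ F_ℂ` and the differential `φ dj` is
                                        regular at EVERY place of `F_ℂ` (P3 dictionary);
* `ResInfStatement L`     [RES-INF]    : a differential `x dt` of `F_ℂ` which is regular off
                                        infinity has `a₀(x θ(t)) = 0` (residue theorem, P5);
* `BaseChangeStatement L` [CA-BC]      : a function of `F_ℚ̄` regular off infinity stays regular
                                        off infinity in `F_ℂ` (LEF).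
Assembly (this file):
* `cuspAnnC_of`  : `HolDiffStatement L → ResInfStatement L → CuspAnnCStatement L`;
* `cuspAnn0_of`  : `BaseChangeStatement L → CuspAnnCStatement L → CuspAnn0Statement L`;
* `cuspAnn_of`   : `CuspAnn0Statement L → CuspAnnStatement L A`
  (the reductions of the integral cusp forms lie in `helper74.annRb L A`).
-/

set_option autoImplicit false
set_option linter.unusedSectionVars false
set_option synthInstance.maxHeartbeats 400000

open ModularCurve CuspForm CongruenceSubgroup ModularFormClass AlgebraicCurve HahnSeries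
open KaehlerDifferential

noncomputable section

namespace Fermat.Agent.T8.helper32

open Fermat.Agent.S18.helper19 Fermat.Agent.P2.helper29 Fermat.Agent.P3.helper80
open Fermat.Agent.T3.helper67 Fermat.Agent.LEF.helper99 Fermat.Agent.S49

variable (L : ℕ) [NeZero L]

/-- the `q`-expansion of a cusp form, as a Laurent series over `ℂ` -/
def qLS (f : CuspForm (Gamma0 L) 2) : LaurentSeries ℂ :=
  HahnSeries.ofPowerSeries ℤ ℂ (UpperHalfPlane.qExpansion 1 f)

/-- the `q`-series over `R` of a sequence of integers -/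
def seqLS (R : Type*) [CommRing R] (m : ℕ → ℤ) : LaurentSeries R :=
  HahnSeries.ofPowerSeries ℤ R (PowerSeries.mk fun i => ((m i : ℤ) : R))

/-- **[CA-HOLDIFF]** the holomorphic differential of a cusp form: `φ = f / θ(j)` lies in `F_ℂ`
and `φ dj` is regular at every place. -/
def HolDiffStatement : Prop :=
  ∀ f : CuspForm (Gamma0 L) 2, ∃ φ : FC L,
    (φ : LaurentSeries ℂ) * thetaL ((xJC L : FC L) : LaurentSeries ℂ) = qLS L f ∧
    ∀ Q : Place ℂ (FC L), 0 ≤ Q.ordDifferential (φ • D ℂ (FC L) (xJC L))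

/-- **[RES-INF]** (helper42): a differential `x dt` of `F_ℂ` regular off infinity has
`a₀(x θ(t)) = 0`. -/
def ResInfStatement : Prop :=
  ∀ x t : FC L,
    (∀ Q : Place ℂ (FC L), ¬ IsInfty Q → 0 ≤ Q.ordDifferential (x • D ℂ (FC L) t)) →
    ((x : LaurentSeries ℂ) * thetaL (t : LaurentSeries ℂ)).coeff 0 = 0

/-- **[CUSP-ANN-C]** over `ℂ`. -/
def CuspAnnCStatement : Prop :=
  ∀ (f : CuspForm (Gamma0 L) 2) (h : FC L),
    (∀ Q : Place ℂ (FC L), ¬ IsInfty Q → 0 ≤ Q.ord h) →
    ((h : LaurentSeries ℂ) * qLS L f).coeff 0 = 0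

/-- **[CA-BC]** a function of `F_ℚ̄` regular off infinity stays regular off infinity in
`F_ℂ`. -/
def BaseChangeStatement : Prop :=
  ∀ (n : ℤ) (h : LaurentSeries Kb), InL (FF L) n h →
    ∃ hC : FC L, (hC : LaurentSeries ℂ) = coeffMap jC h ∧
      ∀ Q : Place ℂ (FC L), ¬ IsInfty Q → 0 ≤ Q.ord hC

/-- **[CUSP-ANN-0]** over `ℚ̄`, for cusp forms with integral `q`-expansion. -/
def CuspAnn0Statement : Prop :=
  ∀ (f : CuspForm (Gamma0 L) 2) (m : ℕ → ℤ), (∀ i, qCoeff ⇑f i = (m i : ℂ)) →
    ∀ (n : ℤ) (h : LaurentSeries Kb), InL (FF L) n h → (h * seqLS Kb m).coeff 0 = 0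

/-- **[CUSP-ANN]** the reductions of the cusp forms with integral `q`-expansion lie in the
annihilator `annRb L A`. -/
def CuspAnnStatement (A : ValuationSubring Kb) : Prop :=
  ∀ (f : CuspForm (Gamma0 L) 2) (m : ℕ → ℤ), (∀ i, qCoeff ⇑f i = (m i : ℂ)) →
    seqLS (kA A) m ∈ Fermat.Agent.T8.helper74.annRb L A

/-! ### Assembly -/

/-- **[CUSP-ANN-C]** from [CA-HOLDIFF] and [RES-INF]. -/
theorem cuspAnnC_of (hH : HolDiffStatement L) (hR : ResInfStatement L) :
    CuspAnnCStatement L := by
  intro f h hreg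
  obtain ⟨φ, hφ, hφreg⟩ := hH f
  have key := hR (h * φ) (xJC L) (fun Q hQ => by
    have := Fermat.Agent.S24.helper82.ff_dCoordGenerates (xJC L) (xJC_transcendental L) Q
    have := Fermat.Agent.S24.helper88.ff_nontrivial_kaehler (xJC L) (xJC_transcendental L)
    rw [mul_smul]
    by_cases h0 : h = 0
    · rw [h0, zero_smul, Place.ordDifferential, Place.differentialCoeff_zero, Place.ord_zero]
    by_cases hc : Q.differentialCoeff (φ • D ℂ (FC L) (xJC L)) = 0
    · rw [Place.ordDifferential, Place.differentialCoeff_smul, hc, mul_zero, Place.ord_zero]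
    · rw [Place.ordDifferential_smul Q h0 hc]
      exact add_nonneg (hreg Q hQ) (hφreg Q))
  have e : (((h * φ : FC L)) : LaurentSeries ℂ) * thetaL ((xJC L : FC L) : LaurentSeries ℂ)
      = (h : LaurentSeries ℂ) * qLS L f := by
    rw [← hφ, ← mul_assoc]
    rfl
  rw [e] at key
  exact key

theorem seqLS_coeffMap {R S : Type*} [CommRing R] [CommRing S] (φ : R →+* S) (m : ℕ → ℤ) :
    coeffMap φ (seqLS R m) = seqLS S m := by
  unfold seqLS
  rw [coeffMap_ofPowerSeries]
  congr 1
  ext i
  simp

theorem qLS_eq_seqLS {f : CuspForm (Gamma0 L) 2} {m : ℕ → ℤ}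
    (hm : ∀ i, qCoeff ⇑f i = (m i : ℂ)) : qLS L f = seqLS ℂ m := by
  unfold qLS seqLS
  congr 1
  ext i
  rw [PowerSeries.coeff_mk]
  exact hm i

/-- **[CUSP-ANN-0]** from [CA-BC] and [CUSP-ANN-C]. -/
theorem cuspAnn0_of (hB : BaseChangeStatement L) (hC : CuspAnnCStatement L) :
    CuspAnn0Statement L := by
  intro f m hm n h hh
  obtain ⟨hc, hc1, hc2⟩ := hB n h hh
  have h1 := hC f hc hc2
  rw [hc1, qLS_eq_seqLS L hm, ← seqLS_coeffMap jC m, ← map_mul, coeffMap_coeff] at h1
  exact (map_eq_zero_iff jC jC.injective).mp h1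

/-- **[CUSP-ANN]** from [CUSP-ANN-0]. -/
theorem cuspAnn_of (A : ValuationSubring Kb) (h0 : CuspAnn0Statement L) :
    CuspAnnStatement L A := by
  intro f m hm
  rw [Fermat.Agent.T8.helper74.mem_annRb]
  refine ⟨fun k hk => ?_, fun Y hY => ?_⟩
  · rcases lt_or_eq_of_le hk with hk | hk
    · unfold seqLS
      exact ModularCurve.ofPowerSeries_coeff_of_neg _ hk
    · rw [hk]
      unfold seqLS
      have h1 : ((0 : ℕ) : ℤ) = 0 := rfl
      rw [← h1, HahnSeries.ofPowerSeries_apply_coeff, PowerSeries.coeff_mk]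
      have h2 : (m 0 : ℂ) = 0 := by rw [← hm 0]; exact qc_cusp_zero f
      have h3 : m 0 = 0 := by exact_mod_cast h2
      rw [h3, Int.cast_zero]
  · obtain ⟨n, hn⟩ := hY
    have h1 := h0 f m hm n (incl A Y) hn
    rw [← seqLS_coeffMap A.subtype m, ← map_mul, coeffMap_coeff] at h1
    have h2 : (Y * seqLS A m).coeff 0 = 0 := by
      apply Subtype.ext
      exact h1
    rw [← seqLS_coeffMap (IsLocalRing.residue A) m, ← map_mul, coeffMap_coeff, h2, map_zero]

end Fermat.Agent.T8.helper32
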