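import Mathlib
import Fermat.Agent.S24.helper37_Cusp
import Fermat.Agent.S24.helper77_Degree
import Fermat.Agent.P2.helper81_ValInt
import Fermat.Agent.P2.helper29_Interface
import Fermat.Agent.P2.helper98_RootN
import Fermat.Agent.S23.HoloQuot
import Fermat.Agent.P3.helper48_AN1Ratio
import Fermat.Agent.P3.helper34_Ev
import Fermat.Agent.T4.helper77_QExpDiv
import Fermat.Agent.T8.helper21_TraceCore

/-!
# T8 [F3-EXIT], leaf 3 [CUSP-ANN], dictionary half (D1) (helper32)

`h ∈ L(n ∞)` of level `L` over `ℚ̄` (regular off infinity) is the `q`-expansion of a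
HOLOMORPHIC `Γ₀(L)`-invariant function on the upper half plane:

* `polyAn L P` : the analytic function of a polynomial `P` in the `J_d` (`d ∣ L`);
* `holoD1` : for `h ∈ InL (FF L) n` there are polynomials `P`, `Q` in the `J_d` with
  `h * Q(J) = P(J)`, `Q(J) ≠ 0`, and a holomorphic `H` with `H * Q^ = P^` on the upper half
  plane; `H` is `Γ₀(L)`-invariant and `IsQExp (toC h) H`.

Route: `h` is integral over `ℚ̄[j]` (`P2.helper81.isIntegral_of_forall_place`), the monic relation
is transported to the analytic functions by the bridge (`S24.helper17.bridge`), the quotient is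
holomorphic by `S23.exists_holomorphic_quotient`, it has at most exponential growth by the
Cauchy bound for the roots of a monic polynomial, hence a `q`-expansion
(`P3.helper48.exists_isQExp`).
-/

set_option autoImplicit false
set_option linter.unusedSectionVars false
set_option linter.unusedVariables false
set_option linter.style.longLine false
set_option linter.style.haveILetI false
set_option synthInstance.maxHeartbeats 400000
set_option maxHeartbeats 1600000

noncomputable section

open UpperHalfPlane Filter Topology Function ModularCurve CongruenceSubgroup AlgebraicCurve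
open ModularForm
open scoped MatrixGroups Manifold

namespace Fermat.Agent.T8.helper32

open Fermat.Agent.S24 Fermat.Agent.S24.helper17 Fermat.Agent.S24.helper37
open Fermat.Agent.S24.helper77

/-! ### Holomorphic functions on `ℍ` form a domain -/

/-- if `b ≠ 0` is holomorphic on `ℍ`, `f` is holomorphic and `b f = 0` then `f = 0`. -/
theorem eq_zero_of_mul_eq_zero_holo {b f : ℍ → ℂ} (hb : MDiff b) (hf : MDiff f) (hb0 : b ≠ 0)
    (h : ∀ τ, b τ * f τ = 0) : f = 0 := by
  funext τ
  have hτ : (0 : ℝ) < (τ : ℂ).im := τ.im_pos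
  have h1 := Fermat.Agent.P3.helper34.eventually_comp_ofComplex_ne_zero hb hb0 hτ
  have h2 : ∀ᶠ w in 𝓝[≠] (τ : ℂ), (f ∘ ofComplex) w = 0 := by
    filter_upwards [h1] with w hw
    have := h (ofComplex w)
    rcases mul_eq_zero.mp this with h3 | h3
    · exact absurd h3 hw
    · exact h3
  have hc : ContinuousAt (f ∘ ofComplex) (τ : ℂ) :=
    ((UpperHalfPlane.mdifferentiable_iff.mp hf).differentiableAt
      (isOpen_upperHalfPlaneSet.mem_nhds hτ)).continuousAt
  have h3 : Tendsto (f ∘ ofComplex) (𝓝[≠] (τ : ℂ)) (𝓝 ((f ∘ ofComplex) (τ : ℂ))) :=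
    hc.tendsto.mono_left nhdsWithin_le_nhds
  have h4 : Tendsto (f ∘ ofComplex) (𝓝[≠] (τ : ℂ)) (𝓝 0) :=
    (tendsto_congr' h2).mpr tendsto_const_nhds
  have h5 := tendsto_nhds_unique h3 h4
  simpa [ofComplex_apply] using h5

/-! ### The Cauchy bound -/

/-- a root of a monic polynomial is bounded by `1 +` the sum of the norms of the coefficients -/
theorem norm_le_of_monic_relation {μ : ℕ} (z : ℂ) (c : Fin μ → ℂ)
    (h : z ^ μ + ∑ i : Fin μ, c i * z ^ (i : ℕ) = 0) : ‖z‖ ≤ 1 + ∑ i : Fin μ, ‖c i‖ := by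
  have hs : 0 ≤ ∑ i : Fin μ, ‖c i‖ := Finset.sum_nonneg fun i _ => norm_nonneg _
  rcases le_or_gt ‖z‖ 1 with h1 | h1
  · linarith
  rcases Nat.eq_zero_or_pos μ with hμ | hμ
  · subst hμ
    simp at h
  have e : z ^ μ = - ∑ i : Fin μ, c i * z ^ (i : ℕ) := eq_neg_of_add_eq_zero_left h
  have h2 : ‖z‖ ^ μ ≤ (∑ i : Fin μ, ‖c i‖) * ‖z‖ ^ (μ - 1) := by
    calc ‖z‖ ^ μ = ‖z ^ μ‖ := (norm_pow z μ).symm
      _ = ‖∑ i : Fin μ, c i * z ^ (i : ℕ)‖ := by rw [e, norm_neg]
      _ ≤ ∑ i : Fin μ, ‖c i * z ^ (i : ℕ)‖ := norm_sum_le _ _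
      _ ≤ ∑ i : Fin μ, ‖c i‖ * ‖z‖ ^ (μ - 1) := by
          apply Finset.sum_le_sum
          intro i _
          rw [norm_mul, norm_pow]
          apply mul_le_mul_of_nonneg_left _ (norm_nonneg _)
          exact pow_le_pow_right₀ h1.le (by have := i.2; omega)
      _ = (∑ i : Fin μ, ‖c i‖) * ‖z‖ ^ (μ - 1) := by rw [Finset.sum_mul]
  have h3 : ‖z‖ ^ μ = ‖z‖ * ‖z‖ ^ (μ - 1) := by
    rw [← pow_succ']
    congr 1
    omega
  rw [h3] at h2
  have h4 : 0 < ‖z‖ ^ (μ - 1) := pow_pos (by linarith) _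
  have h5 := le_of_mul_le_mul_right h2 h4
  linarith

/-! ### The analytic function of a polynomial in the `J_d` -/

variable (L : ℕ) [NeZero L]

/-- the analytic function of a polynomial in the `J_d`, `d ∣ L`. -/
def polyAn (P : MvPolynomial (Idx L) Kbar) : ℍ → ℂ :=
  fun τ => MvPolynomial.eval₂ (iotaC : Kbar →+* ℂ) (fun i : Idx L => jfunDT i.1 τ) P

theorem polyFun_eq_polyAn (g : SL(2, ℤ)) (P : MvPolynomial (Idx L) Kbar) (τ : ℍ) :
    polyFun L g P τ = polyAn L P (g⁻¹ • τ) := rfl

theorem polyAn_mul (P Q : MvPolynomial (Idx L) Kbar) :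
    polyAn L (P * Q) = polyAn L P * polyAn L Q := by
  funext τ
  simp [polyAn, MvPolynomial.eval₂_mul]

theorem polyAn_add (P Q : MvPolynomial (Idx L) Kbar) :
    polyAn L (P + Q) = polyAn L P + polyAn L Q := by
  funext τ
  simp [polyAn, MvPolynomial.eval₂_add]

theorem polyAn_pow (P : MvPolynomial (Idx L) Kbar) (n : ℕ) :
    polyAn L (P ^ n) = polyAn L P ^ n := by
  funext τ
  simp [polyAn, MvPolynomial.eval₂_pow]

theorem polyAn_one : polyAn L (1 : MvPolynomial (Idx L) Kbar) = 1 := by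
  funext τ
  simp [polyAn]

theorem polyAn_sum {ι : Type*} (s : Finset ι) (P : ι → MvPolynomial (Idx L) Kbar) :
    polyAn L (∑ i ∈ s, P i) = ∑ i ∈ s, polyAn L (P i) := by
  funext τ
  simp [polyAn, MvPolynomial.eval₂_sum]

/-- the `q`-expansion of `polyAn L P` is `toC (P(J))`. -/
theorem isQExp_polyAn (P : MvPolynomial (Idx L) Kbar) :
    IsQExp (toC (MvPolynomial.aeval (helper24.genJ L) P)) (polyAn L P) := by
  rw [toC_aeval]
  have e : (fun i : Idx L => toC (helper24.genJ L i)) = fun i : Idx L => JdTC i.1 := by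
    funext i
    exact toC_JdT i.1
  rw [e]
  have := IsQExp.aeval (f := fun i : Idx L => JdTC i.1) (g := fun i : Idx L => jfunDT i.1)
    (fun i => isQExp_jfunDT i.1) (MvPolynomial.map (iotaC : Kbar →+* ℂ) P)
  refine this.congr_right fun τ => ?_
  rw [MvPolynomial.eval_map]
  rfl

theorem mdiff_polyAn (P : MvPolynomial (Idx L) Kbar) : MDiff (polyAn L P) :=
  (isQExp_polyAn L P).mdiff

theorem polyAn_eq_zero_iff (P : MvPolynomial (Idx L) Kbar) :
    MvPolynomial.aeval (helper24.genJ L) P = 0 ↔ polyAn L P = 0 := by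
  rw [← (isQExp_polyAn L P).eq_zero_iff, ← toC_injective.eq_iff, map_zero]

theorem polyAn_smul (P : MvPolynomial (Idx L) Kbar) {γ : SL(2, ℤ)} (hγ : γ ∈ Gamma0 L) (τ : ℍ) :
    polyAn L P (γ • τ) = polyAn L P τ := by
  have e : (fun i : Idx L => jfunDT i.1 (γ • τ)) = fun i : Idx L => jfunDT i.1 τ :=
    funext fun d => Fermat.Agent.P3.helper34.jfunDT_smul_of_mem_Gamma0 d hγ τ
  unfold polyAn
  rw [e]

/-! ### Representation by polynomials in the `J_d` -/

theorem exists_poly_repr_FF {h : LaurentSeries Kbar} (hh : h ∈ modularFunctionFieldBar L) :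
    ∃ P Q : MvPolynomial (Idx L) Kbar, MvPolynomial.aeval (helper24.genJ L) Q ≠ 0 ∧
      h * MvPolynomial.aeval (helper24.genJ L) Q = MvPolynomial.aeval (helper24.genJ L) P := by
  rw [helper24.modularFunctionFieldBar_eq_adjoin, IntermediateField.mem_adjoin_range_iff] at hh
  obtain ⟨P, Q, hPQ⟩ := hh
  by_cases hQ : MvPolynomial.aeval (helper24.genJ L) Q = 0
  · refine ⟨0, 1, by simp, ?_⟩
    rw [hPQ, hQ, div_zero]
    simp
  · exact ⟨P, Q, hQ, by rw [hPQ, div_mul_cancel₀ _ hQ]⟩

/-- the place at infinity is a pole of `j` -/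
theorem not_isInfty_of_ord_xJ_nonneg (P : Place Kbar (FN L)) (hP : 0 ≤ P.ord (xJ L)) :
    ¬ Fermat.Agent.P2.helper29.IsInfty P := by
  intro hinf
  have h1 := hinf (xJ L) (Fermat.Agent.P2.helper98.xJ_ne_zero L)
  rw [Fermat.Agent.P2.helper98.order_xJ] at h1
  omega

/-- **integrality**: a function regular off infinity satisfies a monic equation over `ℚ̄[j]`,
written in the Laurent series. -/
theorem exists_monic_of_inL {n : ℤ} {h : LaurentSeries Kbar}
    (hh : Fermat.Agent.P2.helper29.InL (modularFunctionFieldBar L) n h) :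
    ∃ p : Polynomial (Polynomial Kbar), p.Monic ∧
      ∑ i ∈ Finset.range (p.natDegree + 1),
        Polynomial.aeval (helper24.genJ L (helper37.idxOne L)) (p.coeff i) * h ^ i = 0 := by
  obtain ⟨hf, hreg, -⟩ := hh
  haveI := an_finiteDimensional L
  have h1 : ∀ P : Place Kbar (FN L), 0 ≤ P.ord (xJ L) → 0 ≤ P.ord (⟨h, hf⟩ : FN L) :=
    fun P hP => hreg P (not_isInfty_of_ord_xJ_nonneg L P hP)
  have h2 := Fermat.Agent.P2.helper81.isIntegral_of_forall_place (xJ L) (⟨h, hf⟩ : FN L) h1
  obtain ⟨p, hp, hp0⟩ :=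
    Fermat.Agent.P2.helper81.exists_monic_of_isIntegral_adjoin (xJ L) (⟨h, hf⟩ : FN L) h2
  refine ⟨p, hp, ?_⟩
  have h3 := congrArg ((modularFunctionFieldBar L).val : FN L →+* LaurentSeries Kbar) hp0
  rw [Fermat.Agent.P2.helper81.ev₂_apply, Polynomial.hom_eval₂, map_zero,
    Polynomial.eval₂_eq_sum_range] at h3
  rw [← h3]
  apply Finset.sum_congr rfl
  intro i _
  congr 1
  simp only [RingHom.comp_apply, RingHom.coe_coe]
  rw [← Polynomial.aeval_algHom_apply]
  congr 1

/-! ### The relation polynomial -/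

/-- the coefficient `c_i(J_1)` of the monic relation as a polynomial in the `J_d` -/
def coeffPoly (p : Polynomial (Polynomial Kbar)) (i : ℕ) : MvPolynomial (Idx L) Kbar :=
  Polynomial.aeval (MvPolynomial.X (helper37.idxOne L)) (p.coeff i)

theorem aeval_coeffPoly (p : Polynomial (Polynomial Kbar)) (i : ℕ) :
    MvPolynomial.aeval (helper24.genJ L) (coeffPoly L p i)
      = Polynomial.aeval (helper24.genJ L (helper37.idxOne L)) (p.coeff i) := by
  unfold coeffPoly
  rw [← Polynomial.aeval_algHom_apply, MvPolynomial.aeval_X]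

/-- the homogenised relation `∑ c_i P^i Q^(μ - i)` -/
def relPoly (p : Polynomial (Polynomial Kbar)) (P Q : MvPolynomial (Idx L) Kbar) :
    MvPolynomial (Idx L) Kbar :=
  ∑ i ∈ Finset.range (p.natDegree + 1), coeffPoly L p i * P ^ i * Q ^ (p.natDegree - i)

theorem aeval_relPoly (p : Polynomial (Polynomial Kbar)) (P Q : MvPolynomial (Idx L) Kbar)
    (h : LaurentSeries Kbar)
    (hPQ : h * MvPolynomial.aeval (helper24.genJ L) Q = MvPolynomial.aeval (helper24.genJ L) P)
    (hrel : ∑ i ∈ Finset.range (p.natDegree + 1),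
        Polynomial.aeval (helper24.genJ L (helper37.idxOne L)) (p.coeff i) * h ^ i = 0) :
    MvPolynomial.aeval (helper24.genJ L) (relPoly L p P Q) = 0 := by
  unfold relPoly
  rw [map_sum]
  have key : ∀ i ∈ Finset.range (p.natDegree + 1),
      MvPolynomial.aeval (helper24.genJ L) (coeffPoly L p i * P ^ i * Q ^ (p.natDegree - i))
        = (Polynomial.aeval (helper24.genJ L (helper37.idxOne L)) (p.coeff i) * h ^ i)
          * (MvPolynomial.aeval (helper24.genJ L) Q) ^ p.natDegree := by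
    intro i hi
    rw [map_mul, map_mul, map_pow, map_pow, aeval_coeffPoly, ← hPQ, mul_pow]
    have hi' : i ≤ p.natDegree := by
      have := Finset.mem_range.mp hi
      omega
    have e : (MvPolynomial.aeval (helper24.genJ L) Q) ^ p.natDegree
        = (MvPolynomial.aeval (helper24.genJ L) Q) ^ i
          * (MvPolynomial.aeval (helper24.genJ L) Q) ^ (p.natDegree - i) := by
      rw [← pow_add, Nat.add_sub_cancel' hi']
    rw [e]
    ring
  rw [Finset.sum_congr rfl key, ← Finset.sum_mul, hrel, zero_mul]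

theorem polyAn_relation (p : Polynomial (Polynomial Kbar)) (hp : p.Monic)
    (P Q : MvPolynomial (Idx L) Kbar)
    (hR : MvPolynomial.aeval (helper24.genJ L) (relPoly L p P Q) = 0) (τ : ℍ) :
    polyAn L P τ ^ p.natDegree + ∑ i : Fin p.natDegree,
      polyAn L (coeffPoly L p i) τ * polyAn L Q τ ^ (p.natDegree - (i : ℕ))
        * polyAn L P τ ^ (i : ℕ) = 0 := by
  have h0 := congrFun ((polyAn_eq_zero_iff L _).mp hR) τ
  unfold relPoly at h0
  rw [polyAn_sum, Finset.sum_apply, Finset.sum_range_succ] at h0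
  have hc : coeffPoly L p p.natDegree = 1 := by
    unfold coeffPoly
    rw [Polynomial.coeff_natDegree, hp.leadingCoeff, map_one]
  rw [hc, Nat.sub_self, pow_zero, one_mul, mul_one] at h0
  simp only [polyAn_mul, polyAn_pow, Pi.mul_apply, Pi.pow_apply, Pi.zero_apply] at h0
  rw [Fin.sum_univ_eq_sum_range (fun i => polyAn L (coeffPoly L p i) τ
    * polyAn L Q τ ^ (p.natDegree - i) * polyAn L P τ ^ i) p.natDegree, add_comm]
  rw [← h0]
  congr 1
  apply Finset.sum_congr rfl
  intro i _
  ring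

/-! ### The holomorphic quotient -/

/-- **(D1)**: a function of level `L` regular off infinity is the `q`-expansion of a holomorphic
`Γ₀(L)`-invariant function `H` on the upper half plane, with `Q^ H = P^` for a representation
`h = P(J) / Q(J)`. -/
theorem holoD1 {n : ℤ} {h : LaurentSeries Kbar}
    (hh : Fermat.Agent.P2.helper29.InL (modularFunctionFieldBar L) n h) :
    ∃ (P Q : MvPolynomial (Idx L) Kbar) (H : ℍ → ℂ),
      MvPolynomial.aeval (helper24.genJ L) Q ≠ 0 ∧
      h * MvPolynomial.aeval (helper24.genJ L) Q = MvPolynomial.aeval (helper24.genJ L) P ∧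
      MDiff H ∧ (∀ τ, polyAn L Q τ * H τ = polyAn L P τ) ∧
      (∀ γ ∈ Gamma0 L, ∀ τ : ℍ, H (γ • τ) = H τ) ∧ IsQExp (toC h) H := by
  obtain ⟨p, hp, hrel⟩ := exists_monic_of_inL L hh
  obtain ⟨hf, -, -⟩ := hh
  obtain ⟨P, Q, hQ, hPQ⟩ := exists_poly_repr_FF L hf
  have hR := aeval_relPoly L p P Q h hPQ hrel
  have hb0 : polyAn L Q ≠ 0 := fun h0 => hQ ((polyAn_eq_zero_iff L Q).mpr h0)
  obtain ⟨G, hG, hGmul⟩ := Fermat.Agent.S23.exists_holomorphic_quotient (polyAn L P)
    (polyAn L Q) (fun i : Fin p.natDegree => polyAn L (coeffPoly L p i)) (mdiff_polyAn L P)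
    (mdiff_polyAn L Q) (fun i => mdiff_polyAn L _) hb0 (polyAn_relation L p hp P Q hR)
  -- invariance
  have hinv : ∀ γ ∈ Gamma0 L, ∀ τ : ℍ, G (γ • τ) = G τ := by
    intro γ hγ
    have e : (G ∣[(0 : ℤ)] γ) = fun τ => G (γ • τ) :=
      funext (Fermat.Agent.T8.helper21.slash_zero_apply G γ)
    have hm : MDiff (fun τ : ℍ => G (γ • τ) - G τ) := by
      have := (Fermat.Agent.T8.helper21.mdiff_slash_SL hG 0 γ).sub hG
      rw [e] at this
      exact this
    have hz := eq_zero_of_mul_eq_zero_holo (mdiff_polyAn L Q) hm hb0 (fun τ => by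
      rw [mul_sub, hGmul τ, ← polyAn_smul L Q hγ τ, hGmul (γ • τ), polyAn_smul L P hγ τ,
        sub_self])
    intro τ
    have := congrFun hz τ
    simpa [sub_eq_zero] using this
  -- the monic relation of `G`
  have hmon : ∀ τ, G τ ^ p.natDegree + ∑ i : Fin p.natDegree,
      polyAn L (coeffPoly L p i) τ * G τ ^ (i : ℕ) = 0 := by
    have hm : MDiff (fun τ => G τ ^ p.natDegree + ∑ i : Fin p.natDegree,
        polyAn L (coeffPoly L p i) τ * G τ ^ (i : ℕ)) := by
      have h1 : MDiff (G ^ p.natDegree + ∑ i : Fin p.natDegree,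
          polyAn L (coeffPoly L p i) * G ^ (i : ℕ)) :=
        (hG.pow _).add (MDifferentiable.sum fun i _ => (mdiff_polyAn L _).mul (hG.pow _))
      convert h1 using 1
      funext τ
      simp [Finset.sum_apply]
    have hbμ : polyAn L (Q ^ p.natDegree) ≠ 0 := fun h0 =>
      (pow_ne_zero p.natDegree hQ) (by
        rw [← map_pow]
        exact (polyAn_eq_zero_iff L _).mpr h0)
    have hz := eq_zero_of_mul_eq_zero_holo (mdiff_polyAn L (Q ^ p.natDegree)) hm hbμ (fun τ => by
      have h1 := polyAn_relation L p hp P Q hR τ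
      rw [polyAn_pow]
      simp only [Pi.pow_apply]
      rw [← h1, mul_add, Finset.mul_sum]
      congr 1
      · rw [← hGmul τ, mul_pow]
      · apply Finset.sum_congr rfl
        intro i _
        rw [← hGmul τ, mul_pow]
        have e : polyAn L Q τ ^ p.natDegree
            = polyAn L Q τ ^ (p.natDegree - (i : ℕ)) * polyAn L Q τ ^ (i : ℕ) := by
          rw [← pow_add, Nat.sub_add_cancel i.2.le]
        rw [e]
        ring)
    intro τ
    exact congrFun hz τ
  -- growth
  have hbound : ∀ τ, ‖G τ‖ ≤ 1 + ∑ i : Fin p.natDegree, ‖polyAn L (coeffPoly L p i) τ‖ :=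
    fun τ => norm_le_of_monic_relation (G τ) _ (hmon τ)
  have hexp : ∀ i : Fin p.natDegree, ∃ M : ℕ, polyAn L (coeffPoly L p i) =O[atImInfty]
      fun τ => Real.exp (2 * Real.pi * M * τ.im) :=
    fun i => (Fermat.Agent.T4.helper77.mem_holoExp_of_isQExp (isQExp_polyAn L _)).2
  choose Mi hMi using hexp
  have hG_exp : G =O[atImInfty] fun τ => Real.exp (2 * Real.pi * (∑ i, Mi i : ℕ) * τ.im) := by
    have h1 : (fun τ : ℍ => (1 : ℝ) + ∑ i : Fin p.natDegree, ‖polyAn L (coeffPoly L p i) τ‖)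
        =O[atImInfty] fun τ => Real.exp (2 * Real.pi * (∑ i, Mi i : ℕ) * τ.im) := by
      apply Asymptotics.IsBigO.add
      · have := exp_isBigO_exp_of_le (Nat.zero_le (∑ i, Mi i))
        simpa using this
      · apply Asymptotics.IsBigO.fun_sum
        intro i _
        exact ((hMi i).norm_left).trans (exp_isBigO_exp_of_le
          (Finset.single_le_sum (fun _ _ => Nat.zero_le _) (Finset.mem_univ i)))
    exact (Asymptotics.IsBigO.of_norm_le hbound).trans h1
  -- the `q`-expansion
  have hper : ∀ τ : ℍ, G ((1 : ℝ) +ᵥ τ) = G τ := by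
    intro τ
    have := hinv _ (Fermat.Agent.T8.helper21.T_mem_Gamma0' L) τ
    rwa [UpperHalfPlane.modular_T_smul] at this
  obtain ⟨S, hS⟩ := Fermat.Agent.P3.helper48.exists_isQExp ⟨hG, _, hG_exp⟩ hper
  have h1 : IsQExp (toC (MvPolynomial.aeval (helper24.genJ L) Q) * S) (polyAn L Q * G) :=
    (isQExp_polyAn L Q).mul hS
  have h2 : polyAn L Q * G = polyAn L P := funext hGmul
  rw [h2] at h1
  have h3 := h1.left_unique (isQExp_polyAn L P)
  have h4 : toC (MvPolynomial.aeval (helper24.genJ L) Q) ≠ 0 := fun h0 =>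
    hQ (toC_injective (by rw [h0, map_zero]))
  have h5 : S = toC h := by
    apply mul_left_cancel₀ h4
    rw [h3, ← map_mul, mul_comm, hPQ]
  rw [h5] at hS
  exact ⟨P, Q, G, hQ, hPQ, hG, hGmul, hinv, hS⟩

end Fermat.Agent.T8.helper32
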