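import Mathlib
import Fermat.Agent.T8.helper32_HoloD1
import Fermat.Agent.T4.helper37_CuspDict1
import Fermat.Agent.S24.helper37_CuspCount
import Fermat.Agent.S24.helper77_Finrank
import Fermat.Agent.S24.helper55_RH
import Fermat.Agent.P2.helper93_ESEmb
import Fermat.Agent.P2.helper93_ESNorm

/-!
# T8 [F3-EXIT], leaf 3 [CUSP-ANN], dictionary half (D2) (helper32)

For `h ∈ L(n ∞)` of level `L` and the holomorphic function `H` of `holoD1`: the translates
`H ∘ γ`, `γ ∉ Γ₀(L)`, are bounded at `i∞`.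

* `order_embG_nonneg_of_inL` : the coset expansions `embG L g h`, `g ∉ Γ₀(L)`, have no pole
  (cusp dictionary `T4.helper37c.led_dictionary` on `S24.helper37.cuspData L`);
* `isBounded_of_isTExpAt` : a `t`-expansion without polar part is bounded at `i∞`;
* `holoD2`, `holoStatement : HoloStatement L`.
-/

set_option autoImplicit false
set_option linter.unusedSectionVars false
set_option linter.unusedVariables false
set_option linter.style.longLine false
set_option linter.style.haveILetI false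
set_option synthInstance.maxHeartbeats 400000
set_option maxHeartbeats 1600000

noncomputable section

open UpperHalfPlane Filter Topology Function ModularCurve CongruenceSubgroup AlgebraicCurve
open ModularForm IntermediateField WithZero
open scoped MatrixGroups Manifold

namespace Fermat.Agent.T8.helper32

open Fermat.Agent.S24 Fermat.Agent.S24.helper17 Fermat.Agent.S24.helper37
open Fermat.Agent.S24.helper77

local notation "𝕢" => Function.Periodic.qParam

variable (L : ℕ) [NeZero L]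

/-! ### The cusp dictionary at level `Γ₀(L)` -/

/-- the cusp dictionary of `S24.helper37.cuspData L`, raw form -/
theorem exists_cuspDict0 :
    ∃ (W : X0 L → Place Kbar (FN L)) (d : X0 L → ℕ),
      (∀ i j, W i = W j ↔ j ∈ MulAction.orbit (Subgroup.zpowers (cuspData L).π) i) ∧
      (∀ i, d i * Nat.card (MulAction.orbit (Subgroup.zpowers (cuspData L).π) i) = L) ∧
      (∀ i (f : FN L), f ≠ 0 →
        (Valued.v ((cuspData L).emb i f) : ℤᵐ⁰) = exp (-((d i : ℤ) * (W i).ord f))) := by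
  classical
  haveI : Finite (X0 L) := finite_quotient_Gamma0 L
  letI : Fintype (X0 L) := Fintype.ofFinite _
  haveI := an_finiteDimensional L
  haveI : FiniteDimensional Kbar⟮(xJ L)⁻¹⟯ (FN L) := by
    rw [helper55.adjoin_inv_eq]; infer_instance
  obtain ⟨W, d, -, -, h3, -, h5, h6, -, -⟩ :=
    Fermat.Agent.T4.helper37c.led_dictionary (xJ L)⁻¹
      (helper55.transcendental_inv (an_transcendental L)) (cuspData L)
      (by rw [helper55.adjoin_inv_eq, an_finrank, Nat.card_eq_fintype_card])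
  exact ⟨W, d, h3, h5, h6⟩

/-- the identity coset -/
def oneC : X0 L := QuotientGroup.mk 1

theorem mk_eq_oneC_iff (g : SL(2, ℤ)) : (QuotientGroup.mk g : X0 L) = oneC L ↔ g ∈ Gamma0 L := by
  unfold oneC
  rw [QuotientGroup.eq, mul_one, inv_mem_iff]

/-- the `⟨T⟩`-orbit of the identity coset is a point -/
theorem orbit_oneC {j : X0 L}
    (hj : j ∈ MulAction.orbit (Subgroup.zpowers (cuspData L).π) (oneC L)) : j = oneC L := by
  obtain ⟨⟨σ, hσ⟩, rfl⟩ := hj
  have hle : Subgroup.zpowers (cuspData L).π ≤ MulAction.stabilizer (Equiv.Perm (X0 L)) (oneC L) := by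
    rw [Subgroup.zpowers_le, MulAction.mem_stabilizer_iff]
    show (ModularGroup.T : SL(2, ℤ)) • (oneC L) = oneC L
    have : (ModularGroup.T : SL(2, ℤ)) • (oneC L) = (QuotientGroup.mk (ModularGroup.T * 1) : X0 L) := rfl
    rw [this, mul_one, mk_eq_oneC_iff]
    exact Fermat.Agent.T8.helper21.T_mem_Gamma0' L
  exact MulAction.mem_stabilizer_iff.mp (hle hσ)

/-- the place of a coset -/
def cuspW : X0 L → Place Kbar (FN L) := (exists_cuspDict0 L).choose

/-- the multiplicity of a coset -/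
def cuspD : X0 L → ℕ := (exists_cuspDict0 L).choose_spec.choose

theorem cuspW_spec :
    (∀ i j, cuspW L i = cuspW L j ↔
      j ∈ MulAction.orbit (Subgroup.zpowers (cuspData L).π) i) ∧
    (∀ i, cuspD L i * Nat.card (MulAction.orbit (Subgroup.zpowers (cuspData L).π) i) = L) ∧
    (∀ i (f : FN L), f ≠ 0 →
      (Valued.v ((cuspData L).emb i f) : ℤᵐ⁰) = exp (-((cuspD L i : ℤ) * (cuspW L i).ord f))) :=
  (exists_cuspDict0 L).choose_spec.choose_spec

theorem cuspD_oneC : cuspD L (oneC L) = L := by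
  have h := (cuspW_spec L).2.1 (oneC L)
  have hset : MulAction.orbit (Subgroup.zpowers (cuspData L).π) (oneC L) = {oneC L} := by
    ext j
    constructor
    · intro hj
      exact orbit_oneC L hj
    · intro hj
      rw [Set.mem_singleton_iff.mp hj]
      exact MulAction.mem_orbit_self _
  have hcard : Nat.card (MulAction.orbit (Subgroup.zpowers (cuspData L).π) (oneC L)) = 1 := by
    rw [hset]
    simp
  rwa [hcard, mul_one] at h

theorem emb_eq_embG (g : SL(2, ℤ)) : (cuspData L).emb (QuotientGroup.mk g) = embG L g := by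
  rw [cuspData_emb]
  apply embG_congr
  apply QuotientGroup.eq.mp
  rw [QuotientGroup.out_eq']

theorem order_emb (c : X0 L) (f : FN L) (hf : f ≠ 0) :
    ((cuspData L).emb c f).order = (cuspD L c : ℤ) * (cuspW L c).ord f := by
  have h := (cuspW_spec L).2.2 c f hf
  have hne : (cuspData L).emb c f ≠ 0 := (map_ne_zero _).mpr hf
  rw [helper80.laurent_valuation_eq_exp_neg_order hne] at h
  have h1 := WithZero.exp_injective h
  linarith

theorem isInfty_cuspW_oneC : Fermat.Agent.P2.helper29.IsInfty (cuspW L (oneC L)) := by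
  intro f hf
  have h1 := order_emb L (oneC L) f hf
  have h2 : (cuspData L).emb (oneC L) = embG L 1 := emb_eq_embG L 1
  rw [h2, Fermat.Agent.P2.helper93.embG_one_eq, Fermat.Agent.T4.helper37c.order_qExpand1,
    Fermat.Agent.T4.helper37c.order_toC, cuspD_oneC] at h1
  have hL : (L : ℤ) ≠ 0 := by exact_mod_cast NeZero.ne L
  exact (mul_left_cancel₀ hL h1).symm

/-- **regularity off infinity in terms of the coset expansions**: an element of `L(n ∞)` has
expansions without poles at all cosets different from the identity coset. -/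
theorem order_embG_nonneg_of_inL {n : ℤ} {h : LaurentSeries Kbar}
    (hh : Fermat.Agent.P2.helper29.InL (modularFunctionFieldBar L) n h)
    (g : SL(2, ℤ)) (hg : g ∉ Gamma0 L) :
    0 ≤ (embG L g ⟨h, hh.choose⟩).order := by
  obtain ⟨hf, hreg, -⟩ := hh
  rcases eq_or_ne (⟨h, hf⟩ : FN L) 0 with h0 | h0
  · rw [h0, map_zero]
    simp
  · rw [← emb_eq_embG, order_emb L _ _ h0]
    apply mul_nonneg (Int.natCast_nonneg _)
    apply hreg
    intro hI
    have h1 := Fermat.Agent.T4.helper37c.eq_of_isInfty (isInfty_cuspW_oneC L) hI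
    rw [(cuspW_spec L).1] at h1
    exact hg ((mk_eq_oneC_iff L g).mp (orbit_oneC L h1))

/-! ### A `t`-expansion without polar part is bounded -/

theorem isBounded_of_isTExpAt {N : ℕ} [NeZero N] {M : ℕ} {F : LaurentSeries ℂ} {f : ℍ → ℂ}
    (h : IsTExpAt N M F f) (h0 : ∀ n : ℤ, n < 0 → F.coeff n = 0) : IsBoundedAtImInfty f := by
  obtain ⟨hn, hc⟩ := isTExpAt_iff.mp h
  have ha : ∀ k : ℕ, k < M →
      (qExpansion (N : ℝ) (fun τ : ℍ => 𝕢 (N : ℝ) (τ : ℂ) ^ M * f τ)).coeff k = 0 := by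
    intro k hk
    have h1 := hc (k : ℤ)
    rw [HahnSeries.ofPowerSeries_apply_coeff] at h1
    rw [← h1]
    exact h0 _ (by omega)
  refine isBoundedAtImInfty_of_hasSum_qExpansion (h := (N : ℝ))
    (c := fun j => (qExpansion (N : ℝ) (fun τ : ℍ => 𝕢 (N : ℝ) (τ : ℂ) ^ M * f τ)).coeff (j + M))
    (natCast_pos_real N) fun τ => ?_
  have h1 := hn.hasSum τ
  have h2 := (hasSum_nat_add_iff' M).mpr h1
  have h3 : ∑ i ∈ Finset.range M,
      (qExpansion (N : ℝ) (fun τ : ℍ => 𝕢 (N : ℝ) (τ : ℂ) ^ M * f τ)).coeff i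
        * 𝕢 (N : ℝ) (τ : ℂ) ^ i = 0 :=
    Finset.sum_eq_zero fun i hi => by rw [ha i (Finset.mem_range.mp hi), zero_mul]
  rw [h3, sub_zero] at h2
  have hq : 𝕢 (N : ℝ) (τ : ℂ) ^ M ≠ 0 := pow_ne_zero _ (Periodic.qParam_ne_zero _)
  have h4 := h2.mul_right ((𝕢 (N : ℝ) (τ : ℂ) ^ M)⁻¹)
  have e1 : (fun j : ℕ =>
      (qExpansion (N : ℝ) (fun τ : ℍ => 𝕢 (N : ℝ) (τ : ℂ) ^ M * f τ)).coeff (j + M) •
      𝕢 (N : ℝ) (τ : ℂ) ^ j) = fun j : ℕ =>
      (qExpansion (N : ℝ) (fun τ : ℍ => 𝕢 (N : ℝ) (τ : ℂ) ^ M * f τ)).coeff (j + M) *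
        𝕢 (N : ℝ) (τ : ℂ) ^ (j + M) * (𝕢 (N : ℝ) (τ : ℂ) ^ M)⁻¹ := by
    funext j
    simp only [smul_eq_mul]
    rw [pow_add]
    field_simp
  have e2 : 𝕢 (N : ℝ) (τ : ℂ) ^ M * f τ * (𝕢 (N : ℝ) (τ : ℂ) ^ M)⁻¹ = f τ := by
    field_simp
  rw [e1]
  rw [e2] at h4
  exact h4

/-! ### The coefficients of the monic relation -/

theorem eval₂_aeval_X {ι : Type*} (v : ι → ℂ) (i₀ : ι) (c : Polynomial Kbar) :
    MvPolynomial.eval₂ (iotaC : Kbar →+* ℂ) v
        (Polynomial.aeval (MvPolynomial.X i₀ : MvPolynomial ι Kbar) c)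
      = Polynomial.eval₂ (iotaC : Kbar →+* ℂ) (v i₀) c := by
  have e : (MvPolynomial.eval₂Hom (iotaC : Kbar →+* ℂ) v).comp
      ((Polynomial.aeval (MvPolynomial.X i₀ : MvPolynomial ι Kbar) :
        Polynomial Kbar →ₐ[Kbar] MvPolynomial ι Kbar) : Polynomial Kbar →+* MvPolynomial ι Kbar)
      = Polynomial.eval₂RingHom (iotaC : Kbar →+* ℂ) (v i₀) := by
    apply Polynomial.ringHom_ext
    · intro a
      simp
    · simp
  exact RingHom.congr_fun e c

theorem jfunDT_one_smul (γ : SL(2, ℤ)) (τ : ℍ) :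
    jfunDT (helper37.idxOne L).1 (γ • τ) = jfunDT (helper37.idxOne L).1 τ := by
  have h1 := congrFun (conjFun_one L γ⁻¹) τ
  have h2 := congrFun (conjFun_one L 1) τ
  simp only [conjFun, inv_inv, inv_one, one_smul] at h1 h2
  rw [h1, h2]

/-- the coefficients `c_i(j)` of the monic relation are `SL(2, ℤ)`-invariant -/
theorem polyAn_coeffPoly_smul (p : Polynomial (Polynomial Kbar)) (i : ℕ) (γ : SL(2, ℤ)) (τ : ℍ) :
    polyAn L (coeffPoly L p i) (γ • τ) = polyAn L (coeffPoly L p i) τ := by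
  unfold polyAn coeffPoly
  rw [eval₂_aeval_X, eval₂_aeval_X, jfunDT_one_smul]

/-- the monic relation of the holomorphic quotient -/
theorem monic_of_quot (p : Polynomial (Polynomial Kbar)) (hp : p.Monic)
    (P Q : MvPolynomial (Idx L) Kbar) (hQ : MvPolynomial.aeval (helper24.genJ L) Q ≠ 0)
    (hR : MvPolynomial.aeval (helper24.genJ L) (relPoly L p P Q) = 0) {G : ℍ → ℂ}
    (hG : MDiff G) (hGmul : ∀ τ, polyAn L Q τ * G τ = polyAn L P τ) :
    ∀ τ, G τ ^ p.natDegree + ∑ i : Fin p.natDegree,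
      polyAn L (coeffPoly L p i) τ * G τ ^ (i : ℕ) = 0 := by
  have hm : MDiff (fun τ => G τ ^ p.natDegree + ∑ i : Fin p.natDegree,
      polyAn L (coeffPoly L p i) τ * G τ ^ (i : ℕ)) := by
    have h1 : MDiff (G ^ p.natDegree + ∑ i : Fin p.natDegree,
        polyAn L (coeffPoly L p i) * G ^ (i : ℕ)) :=
      (hG.pow _).add (MDifferentiable.sum fun i _ => (mdiff_polyAn L _).mul (hG.pow _))
    convert h1 using 1
    funext τ
    simp [Finset.sum_apply]
  have hbμ : polyAn L (Q ^ p.natDegree) ≠ 0 := fun h0 =>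
    (pow_ne_zero p.natDegree hQ) (by
      rw [← map_pow]
      exact (polyAn_eq_zero_iff L _).mpr h0)
  have hz := eq_zero_of_mul_eq_zero_holo (mdiff_polyAn L (Q ^ p.natDegree)) hm hbμ (fun τ => by
    have h1 := polyAn_relation L p hp P Q hR τ
    rw [polyAn_pow]
    simp only [Pi.pow_apply]
    rw [← h1, mul_add, Finset.mul_sum]
    congr 1
    · rw [← hGmul τ, mul_pow]
    · apply Finset.sum_congr rfl
      intro i _
      rw [← hGmul τ, mul_pow]
      have e : polyAn L Q τ ^ p.natDegree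
          = polyAn L Q τ ^ (p.natDegree - (i : ℕ)) * polyAn L Q τ ^ (i : ℕ) := by
        rw [← pow_add, Nat.sub_add_cancel i.2.le]
      rw [e]
      ring)
  intro τ
  exact congrFun hz τ

/-! ### (D2) -/

/-- **(D1) + (D2)**: a function of level `L` regular off infinity is the `q`-expansion of a
holomorphic `Γ₀(L)`-invariant function on the upper half plane whose translates by
`γ ∉ Γ₀(L)` are bounded at `i∞`. -/
theorem holoD2 {n : ℤ} {h : LaurentSeries Kbar}
    (hh : Fermat.Agent.P2.helper29.InL (modularFunctionFieldBar L) n h) :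
    ∃ H : ℍ → ℂ, MDiff H ∧ (∀ γ ∈ Gamma0 L, ∀ τ : ℍ, H (γ • τ) = H τ) ∧ IsQExp (toC h) H ∧
      ∀ γ : SL(2, ℤ), γ ∉ Gamma0 L → IsBoundedAtImInfty (fun τ : ℍ => H (γ • τ)) := by
  obtain ⟨P, Q, H, hQ, hPQ, hG, hGmul, hinv, hS⟩ := holoD1 L hh
  refine ⟨H, hG, hinv, hS, fun γ hγ => ?_⟩
  obtain ⟨p, hp, hrel⟩ := exists_monic_of_inL L hh
  have hR := aeval_relPoly L p P Q h hPQ hrel
  have hmon := monic_of_quot L p hp P Q hQ hR hG hGmul
  have hφm : MDiff (fun τ : ℍ => H (γ • τ)) := by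
    have e : (H ∣[(0 : ℤ)] γ) = fun τ : ℍ => H (γ • τ) :=
      funext (Fermat.Agent.T8.helper21.slash_zero_apply H γ)
    rw [← e]
    exact Fermat.Agent.T8.helper21.mdiff_slash_SL hG 0 γ
  -- the bound
  have hbound : ∀ τ : ℍ, ‖H (γ • τ)‖ ≤ 1 + ∑ i : Fin p.natDegree,
      ‖polyAn L (coeffPoly L p i) τ‖ := by
    intro τ
    have := norm_le_of_monic_relation (H (γ • τ)) _ (hmon (γ • τ))
    simpa only [polyAn_coeffPoly_smul] using this
  have hexp : ∀ i : Fin p.natDegree, ∃ M : ℕ, polyAn L (coeffPoly L p i) =O[atImInfty]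
      fun τ => Real.exp (2 * Real.pi * M * τ.im) :=
    fun i => (Fermat.Agent.T4.helper77.mem_holoExp_of_isQExp (isQExp_polyAn L _)).2
  choose Mi hMi using hexp
  have hφ_exp : (fun τ : ℍ => H (γ • τ)) =O[atImInfty]
      fun τ => Real.exp (2 * Real.pi * (∑ i, Mi i : ℕ) * τ.im) := by
    have h1 : (fun τ : ℍ => (1 : ℝ) + ∑ i : Fin p.natDegree, ‖polyAn L (coeffPoly L p i) τ‖)
        =O[atImInfty] fun τ => Real.exp (2 * Real.pi * (∑ i, Mi i : ℕ) * τ.im) := by
      apply Asymptotics.IsBigO.add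
      · have := exp_isBigO_exp_of_le (Nat.zero_le (∑ i, Mi i))
        simpa using this
      · apply Asymptotics.IsBigO.fun_sum
        intro i _
        exact ((hMi i).norm_left).trans (exp_isBigO_exp_of_le
          (Finset.single_le_sum (fun _ _ => Nat.zero_le _) (Finset.mem_univ i)))
    exact (Asymptotics.IsBigO.of_norm_le hbound).trans h1
  -- the `t`-expansion
  have hnice : helper37.IsNice L
      (fun τ : ℍ => 𝕢 (L : ℝ) (τ : ℂ) ^ (L * ∑ i, Mi i) * H (γ • τ)) :=
    { per := fun τ => by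
        show 𝕢 (L : ℝ) ((((L : ℝ) +ᵥ τ : ℍ)) : ℂ) ^ (L * ∑ i, Mi i)
          * H (γ • ((L : ℝ) +ᵥ τ)) = _
        rw [helper37.qParam_vadd]
        congr 1
        rw [vadd_eq_T_pow_smul]
        have hmem := conj_T_pow_mem L γ⁻¹
        rw [inv_inv] at hmem
        have := hinv _ hmem (γ • τ)
        rw [← this, ← mul_smul, ← mul_smul]
        congr 2
        group
      mdiff := (helper37.isNice_qParam_pow (N := L) (L * ∑ i, Mi i)).mdiff.mul hφm
      bdd := by
        have h2 : (fun τ : ℍ => 𝕢 (L : ℝ) (τ : ℂ) ^ (L * ∑ i, Mi i))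
            =O[atImInfty] fun τ : ℍ => Real.exp (-(2 * Real.pi * (∑ i, Mi i : ℕ) * τ.im)) := by
          refine Asymptotics.IsBigO.of_bound 1 (Filter.Eventually.of_forall fun τ => ?_)
          rw [helper37.norm_qParam_pow, one_mul, Real.norm_of_nonneg (Real.exp_pos _).le]
          apply le_of_eq
          congr 1
          have hN : (L : ℝ) ≠ 0 := (natCast_pos_real L).ne'
          push_cast
          field_simp
        have h3 := h2.mul hφ_exp
        have h4 : (fun τ : ℍ => Real.exp (-(2 * Real.pi * (∑ i, Mi i : ℕ) * τ.im)) *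
            Real.exp (2 * Real.pi * (∑ i, Mi i : ℕ) * τ.im)) = fun _ => (1 : ℝ) := by
          funext τ
          rw [← Real.exp_add]
          simp
        rw [h4] at h3
        exact h3 }
  have hT := exists_isTExp (L * ∑ i, Mi i) hnice
  -- identification with the coset embedding
  have hTP := isTExp_Theta L γ⁻¹ P
  have hTQ := isTExp_Theta L γ⁻¹ Q
  have hfun : polyFun L γ⁻¹ Q * (fun τ : ℍ => H (γ • τ)) = polyFun L γ⁻¹ P := by
    funext τ
    show polyFun L γ⁻¹ Q τ * H (γ • τ) = polyFun L γ⁻¹ P τ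
    rw [polyFun_eq_polyAn, polyFun_eq_polyAn, inv_inv]
    exact hGmul (γ • τ)
  have h1 := hTQ.mul ⟨_, hT⟩
  rw [hfun] at h1
  have h2 := h1.unique hTP
  have h3 : Theta L γ⁻¹ Q * embG L γ⁻¹ ⟨h, hh.choose⟩ = Theta L γ⁻¹ P := by
    rw [← embG_aeval, ← embG_aeval, ← map_mul]
    congr 1
    apply Subtype.ext
    show MvPolynomial.aeval (helper24.genJ L) Q * h = MvPolynomial.aeval (helper24.genJ L) P
    rw [mul_comm]
    exact hPQ
  have hΘ : Theta L γ⁻¹ Q ≠ 0 := fun h0 => hQ ((Theta_eq_zero_iff L γ⁻¹ Q).mpr h0)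
  have hFE := mul_left_cancel₀ hΘ (h2.trans h3.symm)
  have hord := order_embG_nonneg_of_inL L hh γ⁻¹ (fun hm => hγ (by simpa using inv_mem hm))
  refine isBounded_of_isTExpAt hT fun n hn => ?_
  rw [hFE]
  by_contra hne
  have := HahnSeries.order_le_of_coeff_ne_zero hne
  omega

/-- **[CA-HOLO]** the analytic dictionary of the functions regular off infinity,
unconditional. -/
theorem holoReal (n : ℤ) (h : LaurentSeries Kbar)
    (hh : Fermat.Agent.P2.helper29.InL (modularFunctionFieldBar L) n h) :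
    ∃ H : ℍ → ℂ, MDiff H ∧ (∀ γ ∈ Gamma0 L, ∀ τ : ℍ, H (γ • τ) = H τ) ∧ IsQExp (toC h) H ∧
      ∀ γ : SL(2, ℤ), γ ∉ Gamma0 L → IsBoundedAtImInfty (fun τ : ℍ => H (γ • τ)) :=
  holoD2 L hh

end Fermat.Agent.T8.helper32
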