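import Fermat.Agent.T8.helper32_RankLat
import Fermat.Agent.P6.helper32_LiftMain

/-!
# T8 [OLD-LIFT], part (L) (helper32): lifting a Hecke eigenclass of `J₀(M)[p]` to an eigenform

* `i0_eq_heckeIncl` : the evaluation `i0 M` of Hecke polynomials in the complex Hecke algebra is
  `heckeIncl ∘ heckeEvalForms`; hence `hTr_eq_zero_of_i0` : a Hecke polynomial which is zero in
  the Hecke algebra acts by zero on the period lattice;
* `lift_forms_ker` : Deligne–Serre lifting for the Hecke algebra of `S₂(Γ₀(M))` itself: if every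
  Hecke polynomial `P` in the `T_ℓ`, `ℓ ∈ G`, which is zero on `S₂(Γ₀(M))` satisfies `p ∣ P(a)`,
  there is a normalised eigenform `g` of level `M` and a maximal ideal `𝔪' ∋ p` of `ℤ̄` with
  `a_ℓ(g) ≡ a ℓ mod 𝔪'` for `ℓ ∈ G`;
* `liftJ : LiftJStatement` : **(L)** a nonzero class `x ∈ J₀(M)[p]` with
  `T_ℓ x = a ℓ • x` for all `ℓ ∈ G` (a set of primes not dividing `M`) lifts to a normalised
  eigenform `g` of level `M` with `a_ℓ(g) ≡ a ℓ mod 𝔪'` for all `ℓ ∈ G`.
-/

set_option autoImplicit false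

open ModularCurve CuspForm CongruenceSubgroup AlgebraicCurve ModularFormClass

noncomputable section

namespace Fermat.Agent.T8.helper32

open Fermat.Agent.P3 Fermat.Agent.P3.helper16 Fermat.Agent.S49 Fermat.Agent.P6.helper32

variable (M : ℕ) [NeZero M]

/-- `i0 M = heckeIncl ∘ heckeEvalForms`. -/
theorem i0_eq_heckeIncl (P : MvPolynomial Nat.Primes ℤ) :
    i0 M P = heckeIncl M (heckeEvalForms M 2 P) := by
  have h : i0 M = (heckeIncl M).comp (heckeEvalForms M 2) := by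
    apply MvPolynomial.ringHom_ext
    · intro c
      rw [i0_C, RingHom.comp_apply, heckeEvalForms_C]
      simp
    · intro ℓ
      rw [i0_X, RingHom.comp_apply]
      have := heckeEvalForms_heckeGen M 2 ℓ
      unfold ModularCurve.heckeGen at this
      rw [this]
      rfl
  rw [h]
  rfl

/-- A Hecke polynomial which is zero in the Hecke algebra of `S₂(Γ₀(M))` acts by zero on the
period lattice. -/
theorem hTr_eq_zero_of_i0 (P : MvPolynomial Nat.Primes ℤ) (h : i0 M P = 0) : hTr M P = 0 := by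
  rw [i0_eq_heckeIncl] at h
  have h1 : heckeEvalForms M 2 P = 0 := heckeIncl_injective M (by rw [h, map_zero])
  refine AddMonoidHom.ext fun lam => Subtype.ext ?_
  rw [coe_hTr]
  have h2 : evalPairLin M P = 0 := by
    unfold evalPairLin
    rw [h1]
    refine LinearMap.ext fun x => ?_
    rfl
  rw [h2, LinearMap.comp_zero]
  rfl

/-- **Deligne–Serre lifting** for the full Hecke algebra of `S₂(Γ₀(M))`. -/
theorem lift_forms_ker (p : ℕ) (hp : p.Prime) (G : Set Nat.Primes) (a : Nat.Primes → ℤ)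
    (H : ∀ Q : MvPolynomial G ℤ, i0 M (ren G Q) = 0 →
      (p : ℤ) ∣ MvPolynomial.eval a (ren G Q)) :
    ∃ (g : CuspForm (Gamma0 M) 2) (𝔪' : Ideal (integralClosure ℤ ℂ)),
      g.IsNormalizedEigenform ∧ 𝔪'.IsMaximal ∧ (p : integralClosure ℤ ℂ) ∈ 𝔪' ∧
      (∀ ℓ ∈ G, ∃ x : integralClosure ℤ ℂ, (x : ℂ) = qCoeff ⇑g ((ℓ : Nat.Primes) : ℕ) ∧
        x - ((a ℓ : ℤ) : integralClosure ℤ ℂ) ∈ 𝔪') := by
  have : Fact p.Prime := ⟨hp⟩
  have hfinV : FiniteDimensional ℂ (CuspForm (Gamma0 M) 2) :=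
    Fermat.Agent.S23.helper87.finiteDimensional_cuspForm_Gamma0 M 2
  have hfinA : FiniteDimensional ℂ (heckeAlgC M) :=
    (exists_vector_of_pairing (heckeRep M) (heckeRep_injective M) (qcLin M 2 1)
      (pairing_nondeg M) 0).1
  let ι : MvPolynomial G ℤ →+* heckeAlgC M := (i0 M).comp (ren G)
  have h𝔫prime : (RingHom.ker (evp G a p)).IsPrime := RingHom.ker_isPrime (evp G a p)
  have hker : RingHom.ker ι ≤ RingHom.ker (evp G a p) := by
    intro P hP
    have h1 : i0 M (ren G P) = 0 := hP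
    exact mem_ker_evp G a p (H P h1)
  obtain ⟨χ, hχ⟩ := exists_algHom_ker_le_of_ker_le (K := ℂ) ι (RingHom.ker (evp G a p)) hker
  obtain ⟨g, hg1, hg⟩ := exists_eigenform_of_character χ
  have hgN := isNormalizedEigenform_of_eigen χ g hg1 hg
  let φ : MvPolynomial G ℤ →+* integralClosure ℤ ℂ :=
    MvPolynomial.eval₂Hom (Int.castRingHom (integralClosure ℤ ℂ))
      (fun ℓ : G => ⟨χ (tgen M ℓ), isIntegral_tgen M χ ℓ⟩)
  have hφ : ∀ P : MvPolynomial G ℤ, ((φ P : integralClosure ℤ ℂ) : ℂ) = χ (ι P) := by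
    intro P
    have h1 : ((algebraMap (integralClosure ℤ ℂ) ℂ).comp φ) =
        ((χ : heckeAlgC M →+* ℂ).comp ι) := by
      apply MvPolynomial.ringHom_ext
      · intro c
        simp
      · intro ℓ
        show ((φ (MvPolynomial.X ℓ) : integralClosure ℤ ℂ) : ℂ)
          = χ (i0 M (ren G (MvPolynomial.X ℓ)))
        rw [ren_X, i0_X]
        show ((MvPolynomial.eval₂Hom (Int.castRingHom (integralClosure ℤ ℂ))
          (fun ℓ : G => (⟨χ (tgen M ℓ), isIntegral_tgen M χ ℓ⟩ : integralClosure ℤ ℂ))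
          (MvPolynomial.X ℓ) : integralClosure ℤ ℂ) : ℂ) = _
        rw [MvPolynomial.eval₂Hom_X']
    exact congrArg (fun f : MvPolynomial G ℤ →+* ℂ => f P) h1
  obtain ⟨𝔪', hmax, hle⟩ := exists_maximal_ideal_map_le φ (RingHom.ker (evp G a p))
    h𝔫prime.ne_top
    (fun x hx => hχ x (by
      have h1 : φ x = 0 := hx
      rw [← hφ, h1]
      rfl))
  refine ⟨g, 𝔪', hgN, hmax, ?_, ?_⟩
  · have h1 := hle _ (natCast_mem_ker_evp G a p)
    have h2 : φ (MvPolynomial.C (p : ℤ)) = (p : integralClosure ℤ ℂ) := by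
      show MvPolynomial.eval₂Hom (Int.castRingHom (integralClosure ℤ ℂ)) _ _ = _
      rw [MvPolynomial.eval₂Hom_C]
      simp
    rwa [h2] at h1
  · intro ℓ hℓ
    refine ⟨⟨χ (tgen M ℓ), isIntegral_tgen M χ ℓ⟩, ?_, ?_⟩
    · exact (qCoeff_tgen_of_eigen M χ g hg1 hg ℓ).symm
    · have h1 := hle _ (X_sub_C_mem_ker_evp G a p ⟨ℓ, hℓ⟩)
      have h2 : φ (MvPolynomial.X (⟨ℓ, hℓ⟩ : G) - MvPolynomial.C (a ℓ))
          = (⟨χ (tgen M ℓ), isIntegral_tgen M χ ℓ⟩ : integralClosure ℤ ℂ)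
            - ((a ℓ : ℤ) : integralClosure ℤ ℂ) := by
        rw [map_sub]
        show MvPolynomial.eval₂Hom (Int.castRingHom (integralClosure ℤ ℂ)) _ _
          - MvPolynomial.eval₂Hom (Int.castRingHom (integralClosure ℤ ℂ)) _ _ = _
        rw [MvPolynomial.eval₂Hom_C, MvPolynomial.eval₂Hom_X']
        rfl
      rwa [h2] at h1

section Eigen

variable (p : ℕ) (G : Set Nat.Primes) (a : Nat.Primes → ℤ)

/-- a lattice character all of whose values are divisible by `p` is `p` times a lattice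
character -/
theorem exists_smul_of_forall_dvd (hp : p ≠ 0) (ε : LatChar M)
    (h : ∀ lam : perLat M, (p : ℤ) ∣ ε lam) : ∃ ε' : LatChar M, ε = p • ε' := by
  have hp' : (p : ℤ) ≠ 0 := by exact_mod_cast hp
  refine ⟨{ toFun := fun lam => ε lam / (p : ℤ)
            map_zero' := by simp
            map_add' := fun lam mu => by
              rw [map_add, Int.add_ediv_of_dvd_left (h lam)] }, ?_⟩
  refine AddMonoidHom.ext fun lam => ?_
  rw [AddMonoidHom.nsmul_apply]
  show ε lam = p • (ε lam / (p : ℤ))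
  rw [nsmul_eq_mul, Int.mul_ediv_cancel' (h lam)]

/-- the eigen-property of a lattice character modulo `p`, propagated to Hecke polynomials -/
theorem eigen_poly (ε : LatChar M)
    (hε : ∀ ℓ ∈ G, ∀ lam : perLat M,
      (p : ℤ) ∣ ε (hTr M (MvPolynomial.X ℓ) lam) - a ℓ * ε lam)
    (Q : MvPolynomial G ℤ) :
    ∀ lam : perLat M, (p : ℤ) ∣ ε (hTr M (ren G Q) lam) - MvPolynomial.eval a (ren G Q) * ε lam := by
  induction Q using MvPolynomial.induction_on with
  | C c =>
    intro lam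
    rw [ren_C, hTr_C, MvPolynomial.eval_C, map_zsmul, smul_eq_mul, sub_self]
    exact dvd_zero _
  | add P Q hP hQ =>
    intro lam
    rw [map_add, hTr_add, map_add, AddMonoidHom.add_apply, map_add, add_mul]
    have := dvd_add (hP lam) (hQ lam)
    have e : ε (hTr M (ren G P) lam) - MvPolynomial.eval a (ren G P) * ε lam +
        (ε (hTr M (ren G Q) lam) - MvPolynomial.eval a (ren G Q) * ε lam) =
        ε (hTr M (ren G P) lam) + ε (hTr M (ren G Q) lam) -
        (MvPolynomial.eval a (ren G P) * ε lam + MvPolynomial.eval a (ren G Q) * ε lam) := by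
      ring
    rw [← e]
    exact this
  | mul_X P ℓ hP =>
    intro lam
    rw [map_mul, ren_X, hTr_mul, AddMonoidHom.comp_apply, map_mul, MvPolynomial.eval_X]
    have h1 := hP (hTr M (MvPolynomial.X (ℓ : Nat.Primes)) lam)
    have h2 := hε ℓ ℓ.2 lam
    have e : ε (hTr M (ren G P) (hTr M (MvPolynomial.X (ℓ : Nat.Primes)) lam)) -
        MvPolynomial.eval a (ren G P) * a ℓ * ε lam =
        (ε (hTr M (ren G P) (hTr M (MvPolynomial.X (ℓ : Nat.Primes)) lam)) -
          MvPolynomial.eval a (ren G P) * ε (hTr M (MvPolynomial.X (ℓ : Nat.Primes)) lam)) +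
        MvPolynomial.eval a (ren G P) *
          (ε (hTr M (MvPolynomial.X (ℓ : Nat.Primes)) lam) - a ℓ * ε lam) := by
      ring
    rw [e]
    exact dvd_add h1 (Dvd.dvd.mul_left h2 _)

end Eigen

/-- **(L)**, the statement: a nonzero Hecke eigenclass of `J₀(M)[p]` (eigen for the `T_ℓ`,
`ℓ ∈ G`, `G` a set of primes not dividing `M`) lifts to a normalised eigenform of level `M`. -/
def LiftJStatement : Prop :=
  ∀ (M : ℕ) [NeZero M] (p : ℕ), p.Prime → ∀ (G : Set Nat.Primes) (a : Nat.Primes → ℤ),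
    (∀ ℓ ∈ G, ¬ ((ℓ : Nat.Primes) : ℕ) ∣ M) →
    ∀ x : JZero M, x ≠ 0 → p • x = 0 →
    (∀ ℓ ∈ G, heckeOperatorBar M ℓ x = a ℓ • x) →
    ∃ (g : CuspForm (Gamma0 M) 2) (𝔪' : Ideal (integralClosure ℤ ℂ)),
      g.IsNormalizedEigenform ∧ 𝔪'.IsMaximal ∧ (p : integralClosure ℤ ℂ) ∈ 𝔪' ∧
      (∀ ℓ ∈ G, ∃ y : integralClosure ℤ ℂ, (y : ℂ) = qCoeff ⇑g ((ℓ : Nat.Primes) : ℕ) ∧
        y - ((a ℓ : ℤ) : integralClosure ℤ ℂ) ∈ 𝔪')

/-- **(L)**: lifting a Hecke eigenclass of `J₀(M)[p]` to an eigenform of level `M`. -/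
theorem liftJ : LiftJStatement := by
  intro M _ p hp G a hG x hx0 hxp hx
  have : Fact p.Prime := ⟨hp⟩
  obtain ⟨κC, hκ1, hκ2, -, hκ4⟩ := anKappaStatement M p hp.pos
  obtain ⟨ε, hε⟩ := exists_latChar_of_torsion M p κC hκ1 hκ2 x hxp
  -- `ε` is not divisible by `p`
  have hne : ∃ lam : perLat M, ¬ (p : ℤ) ∣ ε lam := by
    by_contra hcon
    have hcon' : ∀ lam : perLat M, (p : ℤ) ∣ ε lam := fun lam =>
      Classical.byContradiction fun h => hcon ⟨lam, h⟩
    obtain ⟨ε', rfl⟩ := exists_smul_of_forall_dvd M p hp.ne_zero ε hcon'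
    have h1 : κC 1 (p • ε') = 0 := by
      rw [map_nsmul]
      have := hκ1 1 ε'
      rwa [pow_one] at this
    rw [h1] at hε
    have h2 : conC M x = conC M 0 := by rw [← hε, map_zero]
    exact hx0 (conC_injective M h2)
  obtain ⟨lam0, hlam0⟩ := hne
  -- the eigen-property of `ε` modulo `p`
  have heig : ∀ ℓ ∈ G, ∀ lam : perLat M,
      (p : ℤ) ∣ ε (hTr M (MvPolynomial.X ℓ) lam) - a ℓ * ε lam := by
    intro ℓ hℓ lam
    have h1 : κC 1 (latCharT M ℓ ε - a ℓ • ε) = 0 := by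
      rw [map_sub, hκ4 1 ℓ (hG ℓ hℓ) ε, map_zsmul, hε, ← conC_heckeOperatorBar, hx ℓ hℓ,
        map_zsmul, sub_self]
    have h2 := hκ2 1 _ h1 lam
    rw [pow_one] at h2
    exact h2
  apply lift_forms_ker M p hp G a
  intro Q hQ
  have h1 := eigen_poly M p G a ε heig Q lam0
  rw [hTr_eq_zero_of_i0 M _ hQ, AddMonoidHom.zero_apply, map_zero, zero_sub, dvd_neg] at h1
  rcases (Int.prime_iff_natAbs_prime.mpr (by simpa using hp)).dvd_or_dvd h1 with h | h
  · exact h
  · exact absurd h hlam0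

end Fermat.Agent.T8.helper32
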