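import Fermat.Agent.T8.helper32_LiftCore8

/-!
# T8 [F3-EXIT], leaf [LIFT-Q] (helper32): lifting an eigen `q`-expansion modulo `p`

`k` a field of characteristic `p`, `L` a level.

* `redSeq k L f : ℕ → k` : the reduction of the `q`-expansion of a cusp form `f` of level `L` with
  integral `q`-coefficients (`redSeq_eq_of` : if `a_n(f) = m n` with `m n : ℤ`, it is
  `n ↦ (m n : k)`);
* `tSeq k ℓ` : the formal Hecke operator `T_ℓ = U_ℓ + ℓ V_ℓ` of weight `2` on sequences,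
  `tSeq k ℓ v n = v (n ℓ) + [ℓ ∣ n] ℓ v (n / ℓ)`;
* `redSeq_heckeT` : `redSeq (T_ℓ f) = tSeq ℓ (redSeq f)` for `ℓ ∤ L`;
* `liftQ : LiftQStatement` : **[LIFT-Q]** a nonzero sequence `w : ℕ → k` in the `k`-span of the
  reductions of the integral cusp forms of level `L`, with `tSeq ℓ w = a ℓ • w` for all `ℓ ∈ G`
  (`G` a set of primes not dividing `L`), gives a normalised eigenform `g` of level `L` and a
  maximal ideal `𝔪' ∋ p` of `ℤ̄` with `a_ℓ(g) ≡ a ℓ mod 𝔪'` for `ℓ ∈ G`.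
-/

set_option autoImplicit false
set_option linter.unusedSectionVars false

open ModularCurve CuspForm CongruenceSubgroup ModularFormClass

noncomputable section

namespace Fermat.Agent.T8.helper32

open Fermat.Agent.S49 Fermat.Agent.P6.helper32

open Classical in
/-- the integer equal to a complex number (`0` if there is none) -/
def intOf (z : ℂ) : ℤ := if h : ∃ m : ℤ, z = (m : ℂ) then h.choose else 0

theorem intOf_intCast (m : ℤ) : intOf (m : ℂ) = m := by
  have h : ∃ m' : ℤ, (m : ℂ) = (m' : ℂ) := ⟨m, rfl⟩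
  unfold intOf
  rw [dif_pos h]
  have := h.choose_spec
  exact_mod_cast this.symm

section Seq

variable (k : Type*) [Field k] (L : ℕ) [NeZero L]

/-- reduction of the `q`-expansion of a cusp form with integral coefficients -/
def redSeq (f : CuspForm (Gamma0 L) 2) : ℕ → k := fun n => ((intOf (qCoeff ⇑f n) : ℤ) : k)

theorem redSeq_eq_of {f : CuspForm (Gamma0 L) 2} {m : ℕ → ℤ}
    (hm : ∀ n, qCoeff ⇑f n = (m n : ℂ)) : redSeq k L f = fun n => ((m n : ℤ) : k) := by
  funext n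
  unfold redSeq
  rw [hm n, intOf_intCast]

/-- integer coefficients of an element of the lattice -/
theorem exists_coeff_int {f : CuspForm (Gamma0 L) 2} (hf : f ∈ CuspForm.intLattice L 2) :
    ∃ m : ℕ → ℤ, ∀ n, qCoeff ⇑f n = (m n : ℂ) := by
  have h := (mem_intLat_iff f).mp hf
  choose m hm using h
  exact ⟨m, hm⟩

theorem redSeq_zero : redSeq k L 0 = 0 := by
  rw [redSeq_eq_of k L (f := 0) (m := fun _ => 0) (fun n => by rw [qc_zero]; simp)]
  funext n
  simp

theorem redSeq_add {f g : CuspForm (Gamma0 L) 2} (hf : f ∈ CuspForm.intLattice L 2)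
    (hg : g ∈ CuspForm.intLattice L 2) :
    redSeq k L (f + g) = redSeq k L f + redSeq k L g := by
  obtain ⟨m, hm⟩ := exists_coeff_int L hf
  obtain ⟨m', hm'⟩ := exists_coeff_int L hg
  rw [redSeq_eq_of k L hm, redSeq_eq_of k L hm',
    redSeq_eq_of k L (f := f + g) (m := fun n => m n + m' n)
      (fun n => by rw [qc_add, hm, hm']; push_cast; rfl)]
  funext n
  simp

theorem redSeq_zsmul (c : ℤ) {f : CuspForm (Gamma0 L) 2} (hf : f ∈ CuspForm.intLattice L 2) :
    redSeq k L (c • f) = (c : k) • redSeq k L f := by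
  obtain ⟨m, hm⟩ := exists_coeff_int L hf
  rw [redSeq_eq_of k L hm,
    redSeq_eq_of k L (f := c • f) (m := fun n => c * m n)
      (fun n => by rw [qc_zsmul, hm]; push_cast; rfl)]
  funext n
  simp

/-- the formal Hecke operator `T_ℓ = U_ℓ + ℓ V_ℓ` of weight `2` on sequences -/
def tSeq (ℓ : ℕ) : (ℕ → k) →ₗ[k] (ℕ → k) where
  toFun v := fun n => v (n * ℓ) + if ℓ ∣ n then (ℓ : k) * v (n / ℓ) else 0
  map_add' v v' := by
    funext n
    simp only [Pi.add_apply]
    split_ifs <;> ring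
  map_smul' c v := by
    funext n
    simp only [Pi.smul_apply, smul_eq_mul, RingHom.id_apply]
    split_ifs <;> ring

theorem tSeq_apply (ℓ : ℕ) (v : ℕ → k) (n : ℕ) :
    tSeq k ℓ v n = v (n * ℓ) + if ℓ ∣ n then (ℓ : k) * v (n / ℓ) else 0 := rfl

/-- the reduction commutes with `T_ℓ`, `ℓ ∤ L` -/
theorem redSeq_heckeT {ℓ : ℕ} (hℓ : ℓ.Prime) (hℓL : ¬ ℓ ∣ L) {f : CuspForm (Gamma0 L) 2}
    (hf : f ∈ CuspForm.intLattice L 2) :
    redSeq k L (CuspForm.heckeTLin 2 hℓ hℓL f) = tSeq k ℓ (redSeq k L f) := by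
  obtain ⟨m, hm⟩ := exists_coeff_int L hf
  rw [redSeq_eq_of k L hm,
    redSeq_eq_of k L (f := CuspForm.heckeTLin 2 hℓ hℓL f)
      (m := fun n => m (n * ℓ) + if ℓ ∣ n then (ℓ : ℤ) * m (n / ℓ) else 0)
      (fun n => by
        rw [qc_heckeT hℓ hℓL, hm, hm]
        split_ifs <;> push_cast <;> simp)]
  funext n
  rw [tSeq_apply]
  split_ifs <;> push_cast <;> simp

/-- the Hecke polynomials preserve the lattice of integral forms -/
theorem opV_mem_intLattice (P : MvPolynomial Nat.Primes ℤ) {f : CuspForm (Gamma0 L) 2}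
    (hf : f ∈ CuspForm.intLattice L 2) : opV L P f ∈ CuspForm.intLattice L 2 := by
  have h : opV L P = ((heckeEvalForms L 2 P : heckeAlgebra L 2 ∅) :
      Module.End ℂ (CuspForm (Gamma0 L) 2)) := by
    unfold opV
    rw [i0_eq_heckeIncl, heckeIncl_val]
  rw [h]
  exact CuspForm.mem_intLattice_of_mem_heckeAlgebra (by norm_num) (heckeEvalForms L 2 P).2 hf

/-- the Hecke polynomials on the lattice -/
def opZ (P : MvPolynomial Nat.Primes ℤ) :
    ↥(CuspForm.intLattice L 2) → ↥(CuspForm.intLattice L 2) :=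
  fun f => ⟨opV L P f, opV_mem_intLattice L P f.2⟩

/-- the reduction on the lattice -/
def redZ : ↥(CuspForm.intLattice L 2) → ℕ → k := fun f => redSeq k L (f : CuspForm (Gamma0 L) 2)

theorem redZ_opZ_X (ℓ : Nat.Primes) (hℓ : ¬ (ℓ : ℕ) ∣ L) (f : ↥(CuspForm.intLattice L 2)) :
    redZ k L (opZ L (MvPolynomial.X ℓ) f) = tSeq k (ℓ : ℕ) (redZ k L f) := by
  unfold redZ opZ
  simp only
  rw [opV_X, CuspForm.heckeFormsGen_of_not_dvd hℓ, CuspForm.heckeAlgebra.coe_T]
  exact redSeq_heckeT k L ℓ.2 hℓ f.2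

end Seq

section Main

variable {k : Type*} [Field k] (L : ℕ) [NeZero L]

/-- propagation of the eigen-property to Hecke polynomials -/
theorem lin_opZ (G : Set Nat.Primes) (a : Nat.Primes → ℤ)
    (hG : ∀ ℓ ∈ G, ¬ ((ℓ : Nat.Primes) : ℕ) ∣ L) (w : ℕ → k)
    (hw : ∀ ℓ ∈ G, tSeq k ((ℓ : Nat.Primes) : ℕ) w = ((a ℓ : ℤ) : k) • w)
    (Q : MvPolynomial G ℤ) :
    ∀ (η : ↥(CuspForm.intLattice L 2) →₀ k) (c : k),
      Finsupp.linearCombination k (redZ k L) η = c • w →
      Finsupp.linearCombination k (redZ k L ∘ opZ L (ren G Q)) η =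
        (((MvPolynomial.eval a (ren G Q) : ℤ) : k) * c) • w := by
  induction Q using MvPolynomial.induction_on with
  | C m =>
    intro η c h
    rw [ren_C, MvPolynomial.eval_C, mul_smul, ← h]
    have e : (redZ k L ∘ opZ L (MvPolynomial.C m)) = fun f => ((m : ℤ) : k) • redZ k L f := by
      funext f
      show redSeq k L (opV L (MvPolynomial.C m) (f : CuspForm (Gamma0 L) 2)) = _
      rw [opV_C, redSeq_zsmul k L m f.2]
      rfl
    rw [e, Finsupp.linearCombination_apply, Finsupp.linearCombination_apply, Finsupp.smul_sum]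
    refine Finsupp.sum_congr fun f _ => ?_
    rw [smul_comm]
  | add P Q hP hQ =>
    intro η c h
    rw [map_add, map_add, Int.cast_add, add_mul, add_smul, ← hP η c h, ← hQ η c h]
    have e : (redZ k L ∘ opZ L (ren G P + ren G Q)) =
        fun f => (redZ k L ∘ opZ L (ren G P)) f + (redZ k L ∘ opZ L (ren G Q)) f := by
      funext f
      show redSeq k L (opV L (ren G P + ren G Q) (f : CuspForm (Gamma0 L) 2)) = _
      rw [opV_add, redSeq_add k L (opV_mem_intLattice L _ f.2) (opV_mem_intLattice L _ f.2)]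
      rfl
    rw [e, Finsupp.linearCombination_apply, Finsupp.linearCombination_apply,
      Finsupp.linearCombination_apply, ← Finsupp.sum_add]
    refine Finsupp.sum_congr fun f _ => ?_
    rw [smul_add]
  | mul_X P ℓ hP =>
    intro η c h
    rw [map_mul, ren_X, map_mul, MvPolynomial.eval_X, Int.cast_mul]
    have e : (redZ k L ∘ opZ L (ren G P * MvPolynomial.X (ℓ : Nat.Primes))) =
        (redZ k L ∘ opZ L (ren G P)) ∘ opZ L (MvPolynomial.X (ℓ : Nat.Primes)) := by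
      funext f
      show redSeq k L (opV L (ren G P * MvPolynomial.X (ℓ : Nat.Primes))
        (f : CuspForm (Gamma0 L) 2)) = _
      rw [opV_mul]
      rfl
    rw [e, ← Finsupp.linearCombination_mapDomain]
    have h1 : Finsupp.linearCombination k (redZ k L)
        (Finsupp.mapDomain (opZ L (MvPolynomial.X (ℓ : Nat.Primes))) η) =
        (((a ℓ : ℤ) : k) * c) • w := by
      rw [Finsupp.linearCombination_mapDomain]
      have e2 : (redZ k L ∘ opZ L (MvPolynomial.X (ℓ : Nat.Primes))) =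
          ⇑(tSeq k ((ℓ : Nat.Primes) : ℕ)) ∘ redZ k L := by
        funext f
        exact redZ_opZ_X k L ℓ (hG ℓ ℓ.2) f
      rw [e2, ← LinearMap.map_finsupp_linearCombination, h, map_smul, hw ℓ ℓ.2, smul_smul,
        mul_comm]
    rw [hP _ _ h1, mul_assoc]

/-- **[LIFT-Q]**, the statement. -/
def LiftQStatement : Prop :=
  ∀ (k : Type) [Field k] (L : ℕ) [NeZero L] (p : ℕ), p.Prime → CharP k p →
    ∀ (G : Set Nat.Primes) (a : Nat.Primes → ℤ), (∀ ℓ ∈ G, ¬ ((ℓ : Nat.Primes) : ℕ) ∣ L) →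
    ∀ w : ℕ → k, w ≠ 0 →
    w ∈ Submodule.span k (Set.range fun f : ↥(CuspForm.intLattice L 2) =>
      redSeq k L (f : CuspForm (Gamma0 L) 2)) →
    (∀ ℓ ∈ G, ∀ n : ℕ, w (n * ((ℓ : Nat.Primes) : ℕ)) +
      (if ((ℓ : Nat.Primes) : ℕ) ∣ n then (((ℓ : Nat.Primes) : ℕ) : k) * w (n / ((ℓ : Nat.Primes) : ℕ))
        else 0) = ((a ℓ : ℤ) : k) * w n) →
    ∃ (g : CuspForm (Gamma0 L) 2) (𝔪' : Ideal (integralClosure ℤ ℂ)),
      g.IsNormalizedEigenform ∧ 𝔪'.IsMaximal ∧ (p : integralClosure ℤ ℂ) ∈ 𝔪' ∧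
      (∀ ℓ ∈ G, ∃ y : integralClosure ℤ ℂ, (y : ℂ) = qCoeff ⇑g ((ℓ : Nat.Primes) : ℕ) ∧
        y - ((a ℓ : ℤ) : integralClosure ℤ ℂ) ∈ 𝔪')

/-- **[LIFT-Q]** (any universe). -/
theorem liftQ_univ (p : ℕ) (hp : p.Prime) [CharP k p]
    (G : Set Nat.Primes) (a : Nat.Primes → ℤ) (hG : ∀ ℓ ∈ G, ¬ ((ℓ : Nat.Primes) : ℕ) ∣ L)
    (w : ℕ → k) (hw0 : w ≠ 0)
    (hspan : w ∈ Submodule.span k (Set.range fun f : ↥(CuspForm.intLattice L 2) =>
      redSeq k L (f : CuspForm (Gamma0 L) 2)))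
    (hw : ∀ ℓ ∈ G, ∀ n : ℕ, w (n * ((ℓ : Nat.Primes) : ℕ)) +
      (if ((ℓ : Nat.Primes) : ℕ) ∣ n then (((ℓ : Nat.Primes) : ℕ) : k) * w (n / ((ℓ : Nat.Primes) : ℕ))
        else 0) = ((a ℓ : ℤ) : k) * w n) :
    ∃ (g : CuspForm (Gamma0 L) 2) (𝔪' : Ideal (integralClosure ℤ ℂ)),
      g.IsNormalizedEigenform ∧ 𝔪'.IsMaximal ∧ (p : integralClosure ℤ ℂ) ∈ 𝔪' ∧
      (∀ ℓ ∈ G, ∃ y : integralClosure ℤ ℂ, (y : ℂ) = qCoeff ⇑g ((ℓ : Nat.Primes) : ℕ) ∧
        y - ((a ℓ : ℤ) : integralClosure ℤ ℂ) ∈ 𝔪') := by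
  apply lift_forms_ker L p hp G a
  intro Q hQ
  obtain ⟨η, hη⟩ := (Finsupp.mem_span_range_iff_exists_finsupp).mp hspan
  have hη' : Finsupp.linearCombination k (redZ k L) η = (1 : k) • w := by
    rw [one_smul, Finsupp.linearCombination_apply]
    exact hη
  have hw' : ∀ ℓ ∈ G, tSeq k ((ℓ : Nat.Primes) : ℕ) w = ((a ℓ : ℤ) : k) • w := by
    intro ℓ hℓ
    funext n
    rw [tSeq_apply]
    exact hw ℓ hℓ n
  have h1 := lin_opZ L G a hG w hw' Q η 1 hη'
  have e : (redZ k L ∘ opZ L (ren G Q)) = fun _ => (0 : ℕ → k) := by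
    funext f
    show redSeq k L (opV L (ren G Q) (f : CuspForm (Gamma0 L) 2)) = _
    have h2 : opV L (ren G Q) = 0 := by
      unfold opV
      rw [hQ]
      rfl
    rw [h2, LinearMap.zero_apply, redSeq_zero]
  rw [e, Finsupp.linearCombination_apply] at h1
  have h0 : (η.sum fun (_ : ↥(CuspForm.intLattice L 2)) (c : k) => c • (0 : ℕ → k)) = 0 := by
    unfold Finsupp.sum
    simp
  rw [h0, mul_one] at h1
  rcases smul_eq_zero.mp h1.symm with h3 | h3
  · exact (CharP.intCast_eq_zero_iff k p _).mp h3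
  · exact absurd h3 hw0

/-- **[LIFT-Q]**. -/
theorem liftQ : LiftQStatement := by
  intro k _ L _ p hp hchar G a hG w hw0 hspan hw
  exact liftQ_univ L p hp G a hG w hw0 hspan hw

end Main

end Fermat.Agent.T8.helper32
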