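/-
T8 (S44, at risk), helper78, box [OLD]: **norm transitivity, transport and base change**.

Abstract part (fields, `normAlong` of P3):
* `normAlong_comp` : `N_{ψ₁} (N_{ψ₂} y) = N_{ψ₂ ∘ ψ₁} y`;
* `normAlong_congr` : equal homomorphisms have equal norms;
* `normAlong_equiv` : `N_{e ∘ ψ} (e y) = N_ψ y` for an isomorphism `e` of the top field.

Modular part (levels `N`, primes `p ≠ ℓ` not dividing `N`):
* `swapEquiv N p ℓ : F_{N p ℓ} ≃ F_{N ℓ p}` (the identity on `q`-expansions);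
* `betaUp N p ℓ : F_{N p} → F_{N ℓ p}`, `y(q) ↦ y(q^ℓ)`;
* `atkinLehner_betaUp` : `W_p` at level `N ℓ p` commutes with `betaUp`;
* `normAlpha_betaUp`, `normBeta_betaUp` : **base change**
  `N_{α_p} (betaUp h) = β_ℓ (N_{α_p} h)`, `N_{β_p} (betaUp h) = β_ℓ (N_{β_p} h)`.
-/
import Mathlib
import Fermat.Agent.T7.helper43_NormPair
import Fermat.Agent.T7.helper43_DegMaps

set_option autoImplicit false
set_option linter.unusedSectionVars false
set_option linter.unusedVariables false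
set_option linter.style.haveILetI false
set_option linter.style.longLine false

noncomputable section

open ModularCurve AlgebraicCurve IntermediateField

namespace Fermat.Agent.T8.helper78

open Fermat.Agent.S24 Fermat.Agent.P2.helper93 Fermat.Agent.P3.helper94
  Fermat.Agent.T2.helper36 Fermat.Agent.T7.helper43

/-! ### Abstract part -/

section Abstract

variable {K A B C C' : Type*} [Field K] [Field A] [Field B] [Field C] [Field C']
  [Algebra K A] [Algebra K B] [Algebra K C] [Algebra K C']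

/-- **transitivity of the norm** -/
theorem normAlong_comp (ψ₁ : A →ₐ[K] B) (ψ₂ : B →ₐ[K] C) (y : C) :
    normAlong ψ₁ (normAlong ψ₂ y) = normAlong (ψ₂.comp ψ₁) y := by
  letI i1 := algebraAlong ψ₁
  letI i2 := algebraAlong ψ₂
  letI i3 := algebraAlong (ψ₂.comp ψ₁)
  haveI : IsScalarTower A B C := IsScalarTower.of_algebraMap_eq fun x => rfl
  exact Algebra.norm_norm (R := A) (S := B) (a := y)

/-- equal homomorphisms have equal norms -/
theorem normAlong_congr {ψ ψ' : A →ₐ[K] C} (h : ψ = ψ') (y : C) :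
    normAlong ψ y = normAlong ψ' y := by
  subst h; rfl

/-- **transport of the norm** along an isomorphism of the top field -/
theorem normAlong_equiv (ψ : A →ₐ[K] C) (e : C ≃ₐ[K] C') (y : C) :
    normAlong ((e : C →ₐ[K] C').comp ψ) (e y) = normAlong ψ y := by
  have he : (@algebraMap A C' _ _ (algebraAlong ((e : C →ₐ[K] C').comp ψ))).comp
        ((RingEquiv.refl A) : A →+* A)
      = (e.toRingEquiv : C →+* C').comp (@algebraMap A C _ _ (algebraAlong ψ)) := by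
    refine RingHom.ext fun x => ?_
    rfl
  have key := @Algebra.norm_eq_of_equiv_equiv A C A C' _ _ _ _
    (algebraAlong ψ) (algebraAlong ((e : C →ₐ[K] C').comp ψ))
    (RingEquiv.refl A) e.toRingEquiv he y
  rw [normAlong_apply' ((e : C →ₐ[K] C').comp ψ) (e y), normAlong_apply' ψ y]
  exact key.symm

end Abstract

/-! ### Laurent series -/

section Laurent

variable {K : Type*} [Field K]

/-- `(f(q^n))(c q) = (f(c^n q))(q^n)` -/
theorem twistL_qExpand_pow (c : K) (n : ℕ) [NeZero n] (f : LaurentSeries K) :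
    twistL c (qExpand K n f) = qExpand K n (twistL (c ^ n) f) := by
  ext k
  rw [twistL_coeff]
  by_cases hk : (n : ℤ) ∣ k
  · obtain ⟨m, rfl⟩ := hk
    rw [qExpand_coeff_mul, qExpand_coeff_mul, twistL_coeff, zpow_mul, zpow_natCast]
  · rw [qExpand_coeff_of_not_dvd n f hk, qExpand_coeff_of_not_dvd n _ hk, mul_zero]

/-- `qExpand` commutes with itself -/
theorem qExpand_comm (m n : ℕ) [NeZero m] [NeZero n] (f : LaurentSeries K) :
    qExpand K m (qExpand K n f) = qExpand K n (qExpand K m f) := by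
  rw [qExpand_qExpand, qExpand_qExpand]
  exact qExpand_congr (mul_comm m n) f

end Laurent

/-! ### The modular part -/

section Modular

theorem ff_congr {M M' : ℕ} [NeZero M] [NeZero M'] (h : M = M') :
    modularFunctionFieldBar M = modularFunctionFieldBar M' := by
  subst h; rfl

variable (N p ℓ : ℕ) [NeZero N] [NeZero p] [NeZero ℓ]

/-- the identification `F_{N p ℓ} = F_{N ℓ p}` (identity on `q`-expansions) -/
def swapEquiv : FN (N * p * ℓ) ≃ₐ[Kbar] FN (N * ℓ * p) :=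
  IntermediateField.equivOfEq (ff_congr (Nat.mul_right_comm N p ℓ))

@[simp]
theorem coe_swapEquiv (y : FN (N * p * ℓ)) :
    ((swapEquiv N p ℓ y : FN (N * ℓ * p)) : LaurentSeries Kbar) = (y : LaurentSeries Kbar) := by
  rw [swapEquiv, IntermediateField.equivOfEq_apply]

/-- `y(q) ↦ y(q^ℓ)`, from level `N p` to level `N ℓ p` -/
def betaUp : FN (N * p) →ₐ[Kbar] FN (N * ℓ * p) :=
  ((swapEquiv N p ℓ : FN (N * p * ℓ) ≃ₐ[Kbar] FN (N * ℓ * p)) :
    FN (N * p * ℓ) →ₐ[Kbar] FN (N * ℓ * p)).comp (heckeBetaBar Kbar (N * p) ℓ)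

@[simp]
theorem coe_betaUp (y : FN (N * p)) :
    ((betaUp N p ℓ y : FN (N * ℓ * p)) : LaurentSeries Kbar)
      = qExpand Kbar ℓ (y : LaurentSeries Kbar) := by
  rw [betaUp, AlgHom.comp_apply]
  show ((swapEquiv N p ℓ (heckeBetaBar Kbar (N * p) ℓ y) : FN (N * ℓ * p)) :
    LaurentSeries Kbar) = _
  rw [coe_swapEquiv, coe_heckeBetaBar]

/-- the inclusion, from level `N p` to level `N ℓ p` -/
def alphaUp : FN (N * p) →ₐ[Kbar] FN (N * ℓ * p) :=
  ((swapEquiv N p ℓ : FN (N * p * ℓ) ≃ₐ[Kbar] FN (N * ℓ * p)) :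
    FN (N * p * ℓ) →ₐ[Kbar] FN (N * ℓ * p)).comp (heckeAlphaBar Kbar (N * p) ℓ)

@[simp]
theorem coe_alphaUp (y : FN (N * p)) :
    ((alphaUp N p ℓ y : FN (N * ℓ * p)) : LaurentSeries Kbar) = (y : LaurentSeries Kbar) := by
  rw [alphaUp, AlgHom.comp_apply]
  show ((swapEquiv N p ℓ (heckeAlphaBar Kbar (N * p) ℓ y) : FN (N * ℓ * p)) :
    LaurentSeries Kbar) = _
  rw [coe_swapEquiv, coe_heckeAlphaBar]

variable {N p ℓ}

theorem mul_mem_divisors_swap {d : ℕ} (hd : d ∈ (N * p).divisors) :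
    d * ℓ ∈ (N * ℓ * p).divisors := by
  rw [Nat.mul_right_comm N ℓ p]
  exact mul_mem_divisors_mul hd

/-- `betaUp (j_d) = j_{d ℓ}` -/
theorem betaUp_genBar (d : (N * p).divisors) :
    betaUp N p ℓ (genBar (N * p) d) = genBar (N * ℓ * p) ⟨d.1 * ℓ, mul_mem_divisors_swap d.2⟩ := by
  apply Subtype.ext
  rw [coe_betaUp, coe_genBar, coe_genBar]
  exact qExpand_JdT ℓ d.1 (Nat.pos_of_mem_divisors d.2).ne'

theorem alNat_mul_of_ne (hp : p.Prime) (hℓ : ℓ.Prime) (hpℓ : p ≠ ℓ) (d : ℕ) :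
    alNat p (d * ℓ) = alNat p d * ℓ := by
  have hnd : ¬ p ∣ ℓ := fun h => hpℓ ((Nat.prime_dvd_prime_iff_eq hp hℓ).mp h)
  by_cases h : p ∣ d
  · rw [alNat_of_dvd (h.mul_right ℓ), alNat_of_dvd h]
    exact (Nat.div_mul_right_comm h ℓ).symm
  · have h' : ¬ p ∣ d * ℓ := fun hh => (hp.dvd_mul.mp hh).elim h hnd
    rw [alNat_of_not_dvd h', alNat_of_not_dvd h]
    ring

/-- **`W_p` commutes with `betaUp`** -/
theorem atkinLehner_betaUp (hp : p.Prime) (hℓ : ℓ.Prime) (hpℓ : p ≠ ℓ) (hpN : ¬ p ∣ N)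
    (hpNℓ : ¬ p ∣ N * ℓ) (y : FN (N * p)) :
    atkinLehner (N * ℓ) p hp hpNℓ (betaUp N p ℓ y)
      = betaUp N p ℓ (atkinLehner N p hp hpN y) := by
  have h : ((atkinLehner (N * ℓ) p hp hpNℓ : FN (N * ℓ * p) →ₐ[Kbar] FN (N * ℓ * p)).comp
        (betaUp N p ℓ))
      = (betaUp N p ℓ).comp (atkinLehner N p hp hpN : FN (N * p) →ₐ[Kbar] FN (N * p)) := by
    apply algHom_ext_genBar
    intro d
    rw [AlgHom.comp_apply, AlgHom.comp_apply, betaUp_genBar]
    show atkinLehner (N * ℓ) p hp hpNℓ _ = betaUp N p ℓ (atkinLehner N p hp hpN _)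
    rw [atkinLehner_genBar, atkinLehner_genBar, betaUp_genBar]
    apply Subtype.ext
    rw [coe_genBar, coe_genBar]
    show JdT _ = JdT _
    congr 1
    exact alNat_mul_of_ne hp hℓ hpℓ d.1
  exact congrArg (fun φ : FN (N * p) →ₐ[Kbar] FN (N * ℓ * p) => φ y) h

theorem not_dvd_mul_of_ne (hp : p.Prime) (hℓ : ℓ.Prime) (hpℓ : p ≠ ℓ) (hpN : ¬ p ∣ N) :
    ¬ p ∣ N * ℓ := fun h =>
  (hp.dvd_mul.mp h).elim hpN fun h' => hpℓ ((Nat.prime_dvd_prime_iff_eq hp hℓ).mp h')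

/-- **base change for `N_{α_p}`** along `β_ℓ` -/
theorem normAlpha_betaUp (hp : p.Prime) (hℓ : ℓ.Prime) (hpℓ : p ≠ ℓ) (hpN : ¬ p ∣ N)
    (h : FN (N * p)) :
    normAlong (heckeAlphaBar Kbar (N * ℓ) p) (betaUp N p ℓ h)
      = heckeBetaBar Kbar N ℓ (normAlong (heckeAlphaBar Kbar N p) h) := by
  have hpNℓ : ¬ p ∣ N * ℓ := not_dvd_mul_of_ne hp hℓ hpℓ hpN
  obtain ⟨ζ, hζ⟩ := HasEnoughRootsOfUnity.exists_primitiveRoot Kbar p
  have hcop : Nat.Coprime ℓ p :=
    (Nat.coprime_primes hℓ hp).mpr (Ne.symm hpℓ)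
  have hζ' : IsPrimitiveRoot (ζ ^ ℓ) p := hζ.pow_of_coprime ℓ hcop
  apply Subtype.ext
  apply qExpand_injective (R := Kbar) (N := p)
  have L := normAlpha_pair (N * ℓ) p hp hpNℓ ζ hζ (betaUp N p ℓ h)
  rw [atkinLehner_betaUp hp hℓ hpℓ hpN hpNℓ, coe_betaUp, coe_betaUp] at L
  have R := congrArg (qExpand Kbar ℓ) (normAlpha_pair N p hp hpN (ζ ^ ℓ) hζ' h)
  rw [map_mul, map_prod] at R
  rw [L, coe_heckeBetaBar, qExpand_comm p ℓ (_ : LaurentSeries Kbar),
    qExpand_comm p ℓ ((normAlong _ h : FN N) : LaurentSeries Kbar), R]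
  congr 1
  refine Finset.prod_congr rfl fun k _ => ?_
  rw [twistL_qExpand_pow, pow_right_comm]

/-- **base change for `N_{β_p}`** along `β_ℓ` -/
theorem normBeta_betaUp (hp : p.Prime) (hℓ : ℓ.Prime) (hpℓ : p ≠ ℓ) (hpN : ¬ p ∣ N)
    (h : FN (N * p)) :
    normAlong (heckeBetaBar Kbar (N * ℓ) p) (betaUp N p ℓ h)
      = heckeBetaBar Kbar N ℓ (normAlong (heckeBetaBar Kbar N p) h) := by
  have hpNℓ : ¬ p ∣ N * ℓ := not_dvd_mul_of_ne hp hℓ hpℓ hpN
  obtain ⟨ζ, hζ⟩ := HasEnoughRootsOfUnity.exists_primitiveRoot Kbar p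
  have hcop : Nat.Coprime ℓ p :=
    (Nat.coprime_primes hℓ hp).mpr (Ne.symm hpℓ)
  have hζ' : IsPrimitiveRoot (ζ ^ ℓ) p := hζ.pow_of_coprime ℓ hcop
  apply Subtype.ext
  apply qExpand_injective (R := Kbar) (N := p)
  have L := normBeta_pair (N * ℓ) p hp hpNℓ ζ hζ (betaUp N p ℓ h)
  rw [atkinLehner_betaUp hp hℓ hpℓ hpN hpNℓ, coe_betaUp, coe_betaUp] at L
  have R := congrArg (qExpand Kbar ℓ) (normBeta_pair N p hp hpN (ζ ^ ℓ) hζ' h)
  rw [map_mul, map_prod] at R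
  rw [L, coe_heckeBetaBar, qExpand_comm p ℓ (_ : LaurentSeries Kbar),
    qExpand_comm p ℓ ((normAlong _ h : FN N) : LaurentSeries Kbar), R]
  congr 1
  refine Finset.prod_congr rfl fun k _ => ?_
  rw [twistL_qExpand_pow, pow_right_comm]

end Modular

end Fermat.Agent.T8.helper78

end
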