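/-
T8 (S44, at risk), helper78, box [OLD]: **the degeneracy maps `α_*, β_* : J₀(N p) → J₀(N)` commute
with the Hecke operators `T_ℓ`, `ℓ ∤ N p`, on torsion classes**.

* `norm_alpha_hecke`, `norm_beta_hecke` : the identities of functions
  `N_{α_ℓ} (β_ℓ (N_{α_p} h)) = N_{α_p} (N_{α_ℓ} (β_ℓ h))` (and the same with `β_p`);
* `alphaPush_hecke`, `betaPush_hecke` : for `x ∈ J₀(N p)` with `n x = 0`, `n ≠ 0`,
  `T_ℓ (α_* x) = α_* (T_ℓ x)`, `T_ℓ (β_* x) = β_* (T_ℓ x)`;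
* `OldHeckeStatement` + `oldHeckeStatement` : the contract of box [OLD], proved.
-/
import Mathlib
import Fermat.Agent.T8.helper78_NormBC
import Fermat.Prelude.Def_ModularCurve_HeckeModule

set_option autoImplicit false
set_option linter.unusedSectionVars false
set_option linter.unusedVariables false
set_option linter.style.haveILetI false
set_option linter.style.longLine false

noncomputable section

open ModularCurve AlgebraicCurve IntermediateField

namespace Fermat.Agent.T8.helper78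

open Fermat.Agent.S24 Fermat.Agent.P2.helper93 Fermat.Agent.P3.helper94
  Fermat.Agent.T2.helper36 Fermat.Agent.T7.helper43

/-! ### Kummer representatives determine the class -/

section Kummer

variable {K F : Type*} [Field K] [Field F] [Algebra K F]

/-- two classes with the same Kummer representative are equal -/
theorem kummer_ext {n : ℕ} (hn : n ≠ 0) {x y : Pic0 K F} {h : F} (H : IsKummerRep n x h)
    (H' : IsKummerRep n y h) : x = y := by
  have h0 := H.sub H'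
  have hh : h * h⁻¹ = (1 : F) ^ n := by
    rw [one_pow, mul_inv_cancel₀ H.ne_zero]
  exact sub_eq_zero.mp (h0.eq_zero_of_eq_pow hn hh)

end Kummer

/-! ### The identities of functions -/

section Functions

variable {N p ℓ : ℕ} [NeZero N] [NeZero p] [NeZero ℓ]

/-- the two composite inclusions `F_N → F_{N ℓ p}` agree -/
theorem swap_alpha_alpha :
    ((swapEquiv N p ℓ : FN (N * p * ℓ) ≃ₐ[Kbar] FN (N * ℓ * p)) :
        FN (N * p * ℓ) →ₐ[Kbar] FN (N * ℓ * p)).comp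
      ((heckeAlphaBar Kbar (N * p) ℓ).comp (heckeAlphaBar Kbar N p))
      = (heckeAlphaBar Kbar (N * ℓ) p).comp (heckeAlphaBar Kbar N ℓ) := by
  refine AlgHom.ext fun x => Subtype.ext ?_
  rw [AlgHom.comp_apply, AlgHom.comp_apply, AlgHom.comp_apply]
  show ((swapEquiv N p ℓ _ : FN (N * ℓ * p)) : LaurentSeries Kbar) = _
  rw [coe_swapEquiv, coe_heckeAlphaBar, coe_heckeAlphaBar, coe_heckeAlphaBar,
    coe_heckeAlphaBar]

/-- the two composite maps `f(q) ↦ f(q^p)`, `F_N → F_{N ℓ p}`, agree -/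
theorem swap_alpha_beta :
    ((swapEquiv N p ℓ : FN (N * p * ℓ) ≃ₐ[Kbar] FN (N * ℓ * p)) :
        FN (N * p * ℓ) →ₐ[Kbar] FN (N * ℓ * p)).comp
      ((heckeAlphaBar Kbar (N * p) ℓ).comp (heckeBetaBar Kbar N p))
      = (heckeBetaBar Kbar (N * ℓ) p).comp (heckeAlphaBar Kbar N ℓ) := by
  refine AlgHom.ext fun x => Subtype.ext ?_
  rw [AlgHom.comp_apply, AlgHom.comp_apply, AlgHom.comp_apply]
  show ((swapEquiv N p ℓ _ : FN (N * ℓ * p)) : LaurentSeries Kbar) = _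
  rw [coe_swapEquiv, coe_heckeAlphaBar, coe_heckeBetaBar, coe_heckeBetaBar,
    coe_heckeAlphaBar]

theorem swap_beta_eq_betaUp (h : FN (N * p)) :
    swapEquiv N p ℓ (heckeBetaBar Kbar (N * p) ℓ h) = betaUp N p ℓ h := rfl

/-- **`T_ℓ ∘ N_{α_p} = N_{α_p} ∘ T_ℓ` on functions** -/
theorem norm_alpha_hecke (hp : p.Prime) (hℓ : ℓ.Prime) (hpℓ : p ≠ ℓ) (hpN : ¬ p ∣ N)
    (h : FN (N * p)) :
    normAlong (heckeAlphaBar Kbar N ℓ)
        (heckeBetaBar Kbar N ℓ (normAlong (heckeAlphaBar Kbar N p) h))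
      = normAlong (heckeAlphaBar Kbar N p)
          (normAlong (heckeAlphaBar Kbar (N * p) ℓ) (heckeBetaBar Kbar (N * p) ℓ h)) := by
  rw [normAlong_comp (heckeAlphaBar Kbar N p) (heckeAlphaBar Kbar (N * p) ℓ),
    ← normAlong_equiv _ (swapEquiv N p ℓ), swap_beta_eq_betaUp,
    normAlong_congr swap_alpha_alpha,
    ← normAlong_comp (heckeAlphaBar Kbar N ℓ) (heckeAlphaBar Kbar (N * ℓ) p),
    normAlpha_betaUp hp hℓ hpℓ hpN]

/-- **`T_ℓ ∘ N_{β_p} = N_{β_p} ∘ T_ℓ` on functions** -/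
theorem norm_beta_hecke (hp : p.Prime) (hℓ : ℓ.Prime) (hpℓ : p ≠ ℓ) (hpN : ¬ p ∣ N)
    (h : FN (N * p)) :
    normAlong (heckeAlphaBar Kbar N ℓ)
        (heckeBetaBar Kbar N ℓ (normAlong (heckeBetaBar Kbar N p) h))
      = normAlong (heckeBetaBar Kbar N p)
          (normAlong (heckeAlphaBar Kbar (N * p) ℓ) (heckeBetaBar Kbar (N * p) ℓ h)) := by
  rw [normAlong_comp (heckeBetaBar Kbar N p) (heckeAlphaBar Kbar (N * p) ℓ),
    ← normAlong_equiv _ (swapEquiv N p ℓ), swap_beta_eq_betaUp,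
    normAlong_congr swap_alpha_beta,
    ← normAlong_comp (heckeAlphaBar Kbar N ℓ) (heckeBetaBar Kbar (N * ℓ) p),
    normBeta_betaUp hp hℓ hpℓ hpN]

end Functions

/-! ### The classes -/

section Classes

variable {N p ℓ : ℕ} [NeZero N] [NeZero p] [NeZero ℓ]

/-- `T_ℓ` on Kummer representatives -/
theorem isKummerRep_hecke {M : ℕ} [NeZero M] {n : ℕ} {x : JZero M} {h : FN M}
    (H : IsKummerRep n x h) :
    IsKummerRep n (heckeOperatorAlong Kbar M ℓ x)
      (normAlong (heckeAlphaBar Kbar M ℓ) (heckeBetaBar Kbar M ℓ h)) := by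
  rw [← alphaPush_betaPull]
  exact isKummerRep_alphaPush (isKummerRep_betaPull H)

/-- **`T_ℓ (α_* x) = α_* (T_ℓ x)`** on torsion classes -/
theorem alphaPush_hecke (hp : p.Prime) (hℓ : ℓ.Prime) (hpℓ : p ≠ ℓ) (hpN : ¬ p ∣ N)
    {n : ℕ} (hn : n ≠ 0) {x : JZero (N * p)} (hx : n • x = 0) :
    heckeOperatorAlong Kbar N ℓ (alphaPush N p x)
      = alphaPush N p (heckeOperatorAlong Kbar (N * p) ℓ x) := by
  obtain ⟨h, H⟩ := exists_isKummerRep hx
  have H1 := isKummerRep_hecke (ℓ := ℓ) (isKummerRep_alphaPush H)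
  have H2 := isKummerRep_alphaPush (isKummerRep_hecke (ℓ := ℓ) H)
  rw [norm_alpha_hecke hp hℓ hpℓ hpN] at H1
  exact kummer_ext hn H1 H2

/-- **`T_ℓ (β_* x) = β_* (T_ℓ x)`** on torsion classes -/
theorem betaPush_hecke (hp : p.Prime) (hℓ : ℓ.Prime) (hpℓ : p ≠ ℓ) (hpN : ¬ p ∣ N)
    {n : ℕ} (hn : n ≠ 0) {x : JZero (N * p)} (hx : n • x = 0) :
    heckeOperatorAlong Kbar N ℓ (betaPush N p x)
      = betaPush N p (heckeOperatorAlong Kbar (N * p) ℓ x) := by
  obtain ⟨h, H⟩ := exists_isKummerRep hx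
  have H1 := isKummerRep_hecke (ℓ := ℓ) (isKummerRep_betaPush H)
  have H2 := isKummerRep_betaPush (isKummerRep_hecke (ℓ := ℓ) H)
  rw [norm_beta_hecke hp hℓ hpℓ hpN] at H1
  exact kummer_ext hn H1 H2

end Classes

/-! ### The contract of box [OLD] -/

/-- **Contract [OLD]**: the degeneracy maps `α_*, β_* : J₀(N p) → J₀(N)` (`p ∤ N` prime) commute
with `heckeOperatorBar` at every prime `ℓ ≠ p` on torsion classes. -/
def OldHeckeStatement : Prop :=
  ∀ (N p : ℕ) [NeZero N] [NeZero p], p.Prime → ¬ p ∣ N →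
    ∀ ℓ : Nat.Primes, (ℓ : ℕ) ≠ p →
    ∀ (n : ℕ), n ≠ 0 → ∀ x : JZero (N * p), n • x = 0 →
      heckeOperatorBar N ℓ (alphaPush N p x) = alphaPush N p (heckeOperatorBar (N * p) ℓ x) ∧
      heckeOperatorBar N ℓ (betaPush N p x) = betaPush N p (heckeOperatorBar (N * p) ℓ x)

/-- **[OLD] is proved.** -/
theorem oldHeckeStatement : OldHeckeStatement := by
  intro N p _ _ hp hpN ℓ hℓp n hn x hx
  haveI : NeZero (ℓ : ℕ) := ⟨ℓ.2.ne_zero⟩
  refine ⟨?_, ?_⟩
  · show heckeOperatorAlong Kbar N (ℓ : ℕ) (alphaPush N p x)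
      = alphaPush N p (heckeOperatorAlong Kbar (N * p) (ℓ : ℕ) x)
    exact alphaPush_hecke hp ℓ.2 (Ne.symm hℓp) hpN hn hx
  · show heckeOperatorAlong Kbar N (ℓ : ℕ) (betaPush N p x)
      = betaPush N p (heckeOperatorAlong Kbar (N * p) (ℓ : ℕ) x)
    exact betaPush_hecke hp ℓ.2 (Ne.symm hℓp) hpN hn hx

end Fermat.Agent.T8.helper78

end
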