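/-
T8 (S44, at risk), helper78 (owner of box (C) [OLD-LIFT]): **a realisation of `E[p]` at level
`M' p` which is not `p`-new gives a congruent eigenform of level `M'`**.

* `LiftJStatement` : the contract (L) of helper32 (a nonzero `p`-torsion eigenclass of `J₀(M)`
  gives a congruent normalised eigenform of level `M`);
* `exists_old_eigenclass` : [OLD], from `oldHeckeStatement`: a realisation `V0 ⊆ J₀(M' p)[p]`
  which is not contained in the `p`-new part has a nonzero eigenclass in `J₀(M')[p]`;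
* `oldLiftStatement_of_liftJ` : `LiftJStatement → helper72.OldLiftStatement`.
-/
import Mathlib
import Fermat.Agent.T8.helper78_OldHecke
import Fermat.Agent.T8.helper72_ChainDefs

set_option autoImplicit false
set_option linter.unusedSectionVars false
set_option linter.unusedVariables false
set_option linter.style.haveILetI false
set_option linter.style.longLine false

noncomputable section

open ModularCurve AlgebraicCurve

namespace Fermat.Agent.T8.helper78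

open Fermat.Agent.T7 Fermat.Agent.T7.helper43 Fermat.Agent.T8.helper72

/-- **Contract (L) [LIFT]** (helper32): a nonzero `p`-torsion class of `J₀(M)` which is an
eigenclass of the `T_ℓ`, `ℓ ∈ G` (a set of primes not dividing `p M`), with integer eigenvalues
`a ℓ`, gives a normalised eigenform of level `M` congruent to `a` on `G` modulo a maximal ideal
over `p`. -/
def LiftJStatement : Prop :=
  ∀ (M p : ℕ) [NeZero M], p.Prime → ∀ (G : Set Nat.Primes) (a : Nat.Primes → ℤ),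
    (∀ ℓ ∈ G, ¬ (ℓ : ℕ) ∣ p * M) →
    ∀ x : JZero M, x ≠ 0 → p • x = 0 →
    (∀ ℓ ∈ G, heckeOperatorBar M ℓ x = a ℓ • x) →
    ∃ (g : CuspForm (CongruenceSubgroup.Gamma0 M) 2) (𝔪 : Ideal (integralClosure ℤ ℂ)),
      g.IsNormalizedEigenform ∧ 𝔪.IsMaximal ∧ (p : integralClosure ℤ ℂ) ∈ 𝔪 ∧
      ∀ ℓ ∈ G, ∃ b : integralClosure ℤ ℂ,
        (b : ℂ) = ModularFormClass.qCoeff g (ℓ : ℕ) ∧
          b - ((a ℓ : ℤ) : integralClosure ℤ ℂ) ∈ 𝔪

/-- **[OLD]**: a realisation at level `M' p` which is not `p`-new has a nonzero eigenclass at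
level `M'`. -/
theorem exists_old_eigenclass (P : FreyPackage) (W : WeierstrassCurve ℤ) (M' : ℕ) [NeZero M']
    (hpM : ¬ P.p ∣ M') (V0 : AddSubgroup (JZero (M' * P.p))) (hV : FreyReal P W (M' * P.p) V0)
    (hnew : ¬ V0 ≤ helper43.newPart M' P.p) :
    ∃ y : JZero M', y ≠ 0 ∧ P.p • y = 0 ∧
      ∀ ℓ : Nat.Primes, W.IsGoodPrimeFor (ℓ : ℕ) → ¬ (ℓ : ℕ) ∣ M' * P.p → (ℓ : ℕ) ≠ P.p →
        heckeOperatorBar M' ℓ y = W.apOfModel (ℓ : ℕ) • y := by
  obtain ⟨x, hxV, hx⟩ := SetLike.not_le_iff_exists.mp hnew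
  have hp0 : P.p ≠ 0 := P.pp.ne_zero
  have htors : P.p • x = 0 := hV.tors x hxV
  have hE := hV.eigen x hxV
  have key := fun ℓ : Nat.Primes => fun hℓp : (ℓ : ℕ) ≠ P.p =>
    oldHeckeStatement M' P.p P.pp hpM ℓ hℓp P.p hp0 x htors
  rw [helper43.mem_newPart, not_and_or] at hx
  rcases hx with hx | hx
  · refine ⟨alphaPush M' P.p x, hx, ?_, fun ℓ hg hℓM hℓp => ?_⟩
    · rw [← map_nsmul, htors, map_zero]
    · rw [(key ℓ hℓp).1, hE ℓ hg hℓM hℓp, map_zsmul]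
  · refine ⟨betaPush M' P.p x, hx, ?_, fun ℓ hg hℓM hℓp => ?_⟩
    · rw [← map_nsmul, htors, map_zero]
    · rw [(key ℓ hℓp).2, hE ℓ hg hℓM hℓp, map_zsmul]

/-- **Box (C) [OLD-LIFT]** from the contract (L). -/
theorem oldLiftStatement_of_liftJ (hL : LiftJStatement) : OldLiftStatement := by
  intro P W M' _ hW hcond hirr V0 hV hnew
  have hpM : ¬ P.p ∣ M' := by
    intro h
    have h2 : P.p ^ 2 ∣ M' * P.p := by
      rw [pow_two]
      exact Nat.mul_dvd_mul h dvd_rfl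
    exact hcond.sq_not_dvd P.pp h2
  obtain ⟨y, hy0, hyp, hye⟩ := exists_old_eigenclass P W M' hpM V0 hV hnew
  obtain ⟨g, 𝔪, hg, hmax, hp𝔪, hcong⟩ := hL M' P.p P.pp
    {ℓ : Nat.Primes | W.IsGoodPrimeFor (ℓ : ℕ) ∧ ¬ (ℓ : ℕ) ∣ M' * P.p ∧ (ℓ : ℕ) ≠ P.p}
    (fun ℓ => W.apOfModel (ℓ : ℕ))
    (fun ℓ hℓ => by rw [mul_comm]; exact hℓ.2.1) y hy0 hyp
    (fun ℓ hℓ => hye ℓ hℓ.1 hℓ.2.1 hℓ.2.2)
  refine ⟨g, W, 𝔪, hg, hW, hmax, hp𝔪, fun ℓ hℓ hgood hℓM hℓp => ?_⟩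
  have hmem : (⟨ℓ, hℓ⟩ : Nat.Primes) ∈
      {ℓ : Nat.Primes | W.IsGoodPrimeFor (ℓ : ℕ) ∧ ¬ (ℓ : ℕ) ∣ M' * P.p ∧ (ℓ : ℕ) ≠ P.p} := by
    refine ⟨hgood, fun h => ?_, hℓp⟩
    rcases (Nat.Prime.dvd_mul hℓ).mp h with h1 | h1
    · exact hℓM h1
    · exact hℓp ((Nat.prime_dvd_prime_iff_eq hℓ P.pp).mp h1)
  exact hcong ⟨ℓ, hℓ⟩ hmem

end Fermat.Agent.T8.helper78

end
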