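import Fermat.Agent.T8.helper32_LiftCore8
import Fermat.Agent.T8.helper78_OldLift
import Fermat.Agent.T8.helper72_ChainDefs2

/-!
# T8 box (C) [OLD-LIFT], CLOSED (helper32 + helper78)

* `liftJ78 : helper78.LiftJStatement` : the contract (L) in the shape of helper78, from
  `helper32.liftJ`;
* `oldLiftStatement : helper72.OldLiftStatement` and
  `oldLiftStatement2 : helper72.OldLiftStatement2` : box (C) of the top chain, unconditional.
-/

set_option autoImplicit false

open ModularCurve CuspForm CongruenceSubgroup

noncomputable section

namespace Fermat.Agent.T8.helper32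

/-- the contract (L) in the shape of helper78 -/
theorem liftJ78 : Fermat.Agent.T8.helper78.LiftJStatement := by
  intro M p _ hp G a hG x hx0 hxp hx
  exact liftJ M p hp G a (fun ℓ hℓ h => hG ℓ hℓ (Dvd.dvd.mul_left h p)) x hx0 hxp hx

/-- **Box (C) [OLD-LIFT]**, version 1, unconditional. -/
theorem oldLiftStatement : Fermat.Agent.T8.helper72.OldLiftStatement :=
  Fermat.Agent.T8.helper78.oldLiftStatement_of_liftJ liftJ78

/-- **Box (C) [OLD-LIFT]**, version 2, unconditional. -/
theorem oldLiftStatement2 : Fermat.Agent.T8.helper72.OldLiftStatement2 :=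
  Fermat.Agent.T8.helper72.oldLift2_of_oldLift oldLiftStatement

end Fermat.Agent.T8.helper32
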