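import Fermat.Agent.P3.helper16_AnUncond
import Fermat.Agent.T6.helper85_FinT6
import Fermat.Agent.P5.helper42_RRFinal
import Fermat.Agent.P2.helper29_Final
import Fermat.Agent.P2.helper74_RieInst
import Fermat.Agent.S20
import Fermat.Agent.S23

/-!
# T8 [OLD-LIFT], part (S) (helper32): every class of `J₀(M)[p]` is a lattice class

* `finrank_le_of_separates` : a finitely generated free subgroup of the dual of a finite
  dimensional complex vector space which separates the points has rank at least the dimension;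
* `genusFF_eq_finrank` : the Riemann genus of `F_M` is `dim S₂(Γ₀(M))` (S20, P2 genus formula,
  P5 Riemann-Roch);
* `exists_latChar_of_torsion` : **(S)** for every `x ∈ J₀(M)` with `p x = 0` there is a character
  `ε` of the period lattice with `κ₁ ε = con x` (`κ` any analytic Kummer map as in
  `P3.helper16.AnKappaStatement`), by counting: `#J₀(M)[p] = p^(2g)` (S27) and
  `rank perLat ≥ 2 dim S₂`.
-/

set_option autoImplicit false

open ModularCurve CuspForm CongruenceSubgroup AlgebraicCurve

noncomputable section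

namespace Fermat.Agent.T8.helper32

open Fermat.Agent.P3 Fermat.Agent.P3.helper16

/-- A finitely generated free subgroup of the dual which separates points has rank at least the
dimension. -/
theorem finrank_le_of_separates {V : Type*} [AddCommGroup V] [Module ℂ V]
    [FiniteDimensional ℂ V] (L : AddSubgroup (V →ₗ[ℂ] ℂ)) [Module.Free ℤ L] [Module.Finite ℤ L]
    (hsep : ∀ x : V, (∀ lam ∈ L, lam x = 0) → x = 0) :
    Module.finrank ℂ V ≤ Module.finrank ℤ L := by
  classical
  set b := Module.Free.chooseBasis ℤ L with hb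
  let Φ : V →ₗ[ℂ] (Module.Free.ChooseBasisIndex ℤ L → ℂ) :=
    LinearMap.pi fun i => ((b i : L) : V →ₗ[ℂ] ℂ)
  have hΦ : Function.Injective Φ := by
    rw [← LinearMap.ker_eq_bot, LinearMap.ker_eq_bot']
    intro x hx
    apply hsep
    intro lam hlam
    let ev : L →ₗ[ℤ] ℂ :=
      { toFun := fun mu => (mu : V →ₗ[ℂ] ℂ) x
        map_add' := fun mu nu => by simp
        map_smul' := fun n mu => by simp }
    have hev : ev = 0 := by
      apply b.ext
      intro i
      have := congrFun hx i
      exact this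
    have := LinearMap.congr_fun hev ⟨lam, hlam⟩
    simpa [ev] using this
  have h1 := LinearMap.finrank_le_finrank_of_injective hΦ
  rw [Module.finrank_fintype_fun_eq_card] at h1
  have h2 : Module.finrank ℤ L = Fintype.card (Module.Free.ChooseBasisIndex ℤ L) :=
    Module.finrank_eq_card_chooseBasisIndex ℤ L
  rw [h2]
  exact h1

variable (M : ℕ) [NeZero M]

/-- `rank perLat M ≥ 2 dim S₂(Γ₀(M))`. -/
theorem two_mul_finrank_le_finrank_perLat :
    2 * Module.finrank ℂ (CuspForm (Gamma0 M) 2) ≤ Module.finrank ℤ (perLat M) := by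
  have : FiniteDimensional ℂ (CuspForm (Gamma0 M) 2) :=
    Fermat.Agent.S23.helper87.finiteDimensional_cuspForm_Gamma0 M 2
  have h := finrank_le_of_separates (V := V2 M) (perLat M) (fun x hx => perLat_separates M x hx)
  rw [Module.finrank_prod] at h
  omega


/-- The Riemann genus of `F_M` (`genusFF`) is `dim S₂(Γ₀(M))`. -/
theorem genusFF_eq_finrank :
    genusFF (AlgebraicClosure ℚ) ↥(modularFunctionFieldBar M) =
      Module.finrank ℂ (CuspForm (Gamma0 M) 2) := by
  obtain ⟨h1, h2⟩ := Fermat.Agent.T6.helper85.isCurveOver_modularFunctionFieldBar M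
  have hg : Fermat.Agent.P2.helper74.HasRiemannGenus (AlgebraicClosure ℚ)
      ↥(modularFunctionFieldBar M) (genusFF (AlgebraicClosure ℚ) ↥(modularFunctionFieldBar M)) :=
    Fermat.Agent.P5.helper42.hasRiemannGenus_genusFF_uncond _ _
  have hS := Fermat.Agent.P2.helper74.riemannSetting_FF M
  have hg' : Fermat.Agent.P2.helper29.HasRiemannGenus (AlgebraicClosure ℚ)
      ↥(modularFunctionFieldBar M) (genusFF (AlgebraicClosure ℚ) ↥(modularFunctionFieldBar M)) :=
    ⟨fun D => hg.ineq hS D, hg⟩
  have h3 := Fermat.Agent.P2.helper29.genusFormulaStatement M _ hg'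
  have h4 := Fermat.Agent.S20.result M
  have h5 : ((genusFF (AlgebraicClosure ℚ) ↥(modularFunctionFieldBar M) : ℕ) : ℚ) =
      ((Module.finrank ℂ (CuspForm (Gamma0 M) 2) : ℕ) : ℚ) := by rw [h3, h4]
  exact_mod_cast h5

/-- `#J₀(M)[p] = p ^ (2 dim S₂)`. -/
theorem card_torsion_eq (p : ℕ) [Fact p.Prime] :
    Nat.card ↥(Submodule.torsionBy ℤ (JZero M) ((p : ℤ) ^ 1)) =
      p ^ (2 * Module.finrank ℂ (CuspForm (Gamma0 M) 2)) := by
  rw [Fermat.Agent.T6.helper85.card_torsionBy_jZero M p 1, genusFF_eq_finrank, mul_one]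


section Surj

variable (p : ℕ)

/-- the lattice character with prescribed residues on the chosen basis -/
def latOfVec (c : Module.Free.ChooseBasisIndex ℤ (perLat M) → ZMod p) : LatChar M :=
  ∑ i, ((c i).val : ℤ) • ((Module.Free.chooseBasis ℤ (perLat M)).coord i).toAddMonoidHom

theorem latOfVec_basis (c : Module.Free.ChooseBasisIndex ℤ (perLat M) → ZMod p)
    (j : Module.Free.ChooseBasisIndex ℤ (perLat M)) :
    latOfVec M p c (Module.Free.chooseBasis ℤ (perLat M) j) = ((c j).val : ℤ) := by
  classical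
  unfold latOfVec
  rw [AddMonoidHom.finsetSum_apply]
  rw [Finset.sum_eq_single j]
  · simp
  · intro i _ hij
    have h0 : (Module.Free.chooseBasis ℤ (perLat M)).coord i
        (Module.Free.chooseBasis ℤ (perLat M) j) = 0 := by
      rw [Module.Basis.coord_apply, Module.Basis.repr_self]
      exact Finsupp.single_eq_of_ne hij
    simp only [AddMonoidHom.smul_apply, LinearMap.toAddMonoidHom_coe, h0, smul_zero]
  · intro h
    exact absurd (Finset.mem_univ j) h

/-- **(S)** every class of `J₀(M)[p]` is `κ₁` of a lattice character (by counting). -/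
theorem exists_latChar_of_torsion [Fact p.Prime]
    (κC : ℕ → LatChar M →+ JC M)
    (hκ1 : ∀ (n : ℕ) (ε : LatChar M), p ^ n • κC n ε = 0)
    (hκ2 : ∀ (n : ℕ) (ε : LatChar M), κC n ε = 0 →
      ∀ lam : perLat M, ((p ^ n : ℕ) : ℤ) ∣ ε lam)
    (x : JZero M) (hx : p • x = 0) : ∃ ε : LatChar M, κC 1 ε = conC M x := by
  classical
  have hp : p.Prime := Fact.out
  set b := Module.Free.chooseBasis ℤ (perLat M) with hb
  -- the classes of `J₀(M)` attached to the vectors
  have hex : ∀ c : Module.Free.ChooseBasisIndex ℤ (perLat M) → ZMod p,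
      ∃ z : JZero M, conC M z = κC 1 (latOfVec M p c) := fun c =>
    conC_torsion_surj M _ ⟨p ^ 1, pow_pos hp.pos 1, hκ1 1 _⟩
  choose z hz using hex
  have hzt : ∀ c, z c ∈ Submodule.torsionBy ℤ (JZero M) ((p : ℤ) ^ 1) := by
    intro c
    rw [Submodule.mem_torsionBy_iff]
    apply conC_injective M
    rw [map_zsmul, hz, map_zero]
    have := hκ1 1 (latOfVec M p c)
    rw [← natCast_zsmul] at this
    simpa using this
  let Ψ : (Module.Free.ChooseBasisIndex ℤ (perLat M) → ZMod p) →
      ↥(Submodule.torsionBy ℤ (JZero M) ((p : ℤ) ^ 1)) := fun c => ⟨z c, hzt c⟩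
  have hΨ : Function.Injective Ψ := by
    intro c c' hcc
    have h1 : z c = z c' := congrArg Subtype.val hcc
    have h2 : κC 1 (latOfVec M p c - latOfVec M p c') = 0 := by
      rw [map_sub, ← hz, ← hz, h1, sub_self]
    funext j
    have h3 := hκ2 1 _ h2 (b j)
    rw [AddMonoidHom.sub_apply, latOfVec_basis, latOfVec_basis] at h3
    have h4 : (((c j).val : ℤ) : ZMod p) = (((c' j).val : ℤ) : ZMod p) := by
      rw [ZMod.intCast_eq_intCast_iff_dvd_sub]
      have h5 : ((p ^ 1 : ℕ) : ℤ) ∣ ((c' j).val : ℤ) - ((c j).val : ℤ) := by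
        have := dvd_neg.mpr h3
        simpa using this
      simpa using h5
    have : NeZero p := ⟨hp.ne_zero⟩
    simpa using h4
  have : Finite ↥(Submodule.torsionBy ℤ (JZero M) ((p : ℤ) ^ 1)) :=
    Fermat.Agent.T6.helper85.finite_torsionBy_jZero M p 1
  have hcard : Nat.card ↥(Submodule.torsionBy ℤ (JZero M) ((p : ℤ) ^ 1)) ≤
      Nat.card (Module.Free.ChooseBasisIndex ℤ (perLat M) → ZMod p) := by
    rw [card_torsion_eq, Nat.card_fun, Nat.card_eq_fintype_card, Nat.card_eq_fintype_card,
      ZMod.card]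
    apply Nat.pow_le_pow_right hp.pos
    rw [← Module.finrank_eq_card_chooseBasisIndex]
    exact two_mul_finrank_le_finrank_perLat M
  have hbij := hΨ.bijective_of_nat_card_le hcard
  have hxt : x ∈ Submodule.torsionBy ℤ (JZero M) ((p : ℤ) ^ 1) := by
    rw [Submodule.mem_torsionBy_iff, pow_one, natCast_zsmul]
    exact hx
  obtain ⟨c, hc⟩ := hbij.2 ⟨x, hxt⟩
  refine ⟨latOfVec M p c, ?_⟩
  rw [← hz]
  have h6 : z c = x := congrArg Subtype.val hc
  rw [h6]

end Surj

end Fermat.Agent.T8.helper32
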