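import Mathlib

/-!
# T8 (row 38, at risk), helper33: the quotient of a localisation by the kernel generator

Mathlib only.  Answers the gap "`R_Q ⧸ (y)` is a discrete valuation ring at a double point".

`R0` a commutative ring, `red : R0 →+* D0` a SURJECTIVE ring homomorphism onto a Dedekind domain
with kernel generated by `y` (`red y = 0`, `red r = 0 → y ∣ r`), `P` a prime ideal of `R0`
containing `y`, and `R` a localisation of `R0` at `P`.  Then

* `locRedMap` : the induced homomorphism `R →+* Localization.AtPrime (P.map red)`;
* `locRedMap_surjective`, `ker_locRedMap` : it is onto with kernel `(y)`;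
* `quotient_loc_of_dedekind` : `R ⧸ (y)` is a domain and a principal ideal ring.

In the application `R0 = ringX`, `red = red2X` (onto `Bt`, Dedekind), `y = b0`, `P = primeX Q`,
`R = locX Q`: no Atkin-Lehner mirror and no identification of the image point is needed.
-/

set_option autoImplicit false
set_option linter.unusedSectionVars false
set_option linter.style.haveILetI false
set_option linter.unnecessarySimpa false

namespace Fermat.Agent.T8.helper33

open IsLocalRing

section LocQuot

variable {R0 D0 : Type*} [CommRing R0] [CommRing D0]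

/-- the image of a prime containing the kernel under a surjection is prime -/
theorem map_isPrime_of_ker_le (red : R0 →+* D0) (hsurj : Function.Surjective red)
    (P : Ideal R0) [hP : P.IsPrime] (hker : RingHom.ker red ≤ P) : (P.map red).IsPrime :=
  Ideal.map_isPrime_of_surjective hsurj hker

theorem comap_map_eq_of_ker_le (red : R0 →+* D0) (hsurj : Function.Surjective red)
    (P : Ideal R0) (hker : RingHom.ker red ≤ P) : (P.map red).comap red = P := by
  rw [Ideal.comap_map_of_surjective _ hsurj, ← RingHom.ker_eq_comap_bot]
  exact sup_eq_left.mpr hker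

variable (red : R0 →+* D0) (y : R0) (P : Ideal R0) [hP : P.IsPrime]
  (R : Type*) [CommRing R] [Algebra R0 R] [IsLocalization.AtPrime R P]

theorem ker_le_of_gen (hker : ∀ r : R0, red r = 0 → y ∣ r) (hyP : y ∈ P) :
    RingHom.ker red ≤ P := by
  intro r hr
  obtain ⟨c, rfl⟩ := hker r (RingHom.mem_ker.mp hr)
  exact Ideal.mul_mem_right _ _ hyP

theorem primeCompl_le_comap (hsurj : Function.Surjective red) (hkerP : RingHom.ker red ≤ P)
    [hPm : (P.map red).IsPrime] :
    P.primeCompl ≤ (P.map red).primeCompl.comap red := by
  intro r hr
  rw [Submonoid.mem_comap]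
  intro hmem
  apply hr
  have : r ∈ (P.map red).comap red := hmem
  rwa [comap_map_eq_of_ker_le red hsurj P hkerP] at this

/-- the induced map on the localisations -/
noncomputable def locRedMap (hsurj : Function.Surjective red) (hkerP : RingHom.ker red ≤ P)
    [hPm : (P.map red).IsPrime] :
    R →+* Localization.AtPrime (P.map red) :=
  IsLocalization.map (M := P.primeCompl) (T := (P.map red).primeCompl)
    (Localization.AtPrime (P.map red)) red (primeCompl_le_comap red P hsurj hkerP)

theorem locRedMap_algebraMap (hsurj : Function.Surjective red) (hkerP : RingHom.ker red ≤ P)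
    [hPm : (P.map red).IsPrime]
    (r : R0) : locRedMap red P R hsurj hkerP (algebraMap R0 R r) =
      algebraMap D0 (Localization.AtPrime (P.map red)) (red r) :=
  IsLocalization.map_eq _ r

theorem locRedMap_surjective (hsurj : Function.Surjective red) (hkerP : RingHom.ker red ≤ P)
    [hPm : (P.map red).IsPrime] :
    Function.Surjective (locRedMap red P R hsurj hkerP) := by
  intro z
  obtain ⟨⟨d, s⟩, hz⟩ := IsLocalization.surj (P.map red).primeCompl z
  simp only at hz
  obtain ⟨a, rfl⟩ := hsurj d
  obtain ⟨b, hb⟩ := hsurj (s : D0)
  have hbP : b ∈ P.primeCompl := by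
    intro hmem
    exact s.2 (hb ▸ Ideal.mem_map_of_mem red hmem)
  refine ⟨IsLocalization.mk' R a ⟨b, hbP⟩, ?_⟩
  have hu : IsUnit (algebraMap D0 (Localization.AtPrime (P.map red)) (s : D0)) :=
    IsLocalization.map_units _ s
  apply hu.mul_right_cancel
  rw [hz, ← hb, ← locRedMap_algebraMap red P R hsurj hkerP b,
    ← locRedMap_algebraMap red P R hsurj hkerP a, ← map_mul]
  congr 1
  exact IsLocalization.mk'_spec R a ⟨b, hbP⟩

theorem ker_locRedMap [IsDomain D0] (hsurj : Function.Surjective red) (hy0 : red y = 0)
    (hker : ∀ r : R0, red r = 0 → y ∣ r)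
    (hkerP : RingHom.ker red ≤ P) [hPm : (P.map red).IsPrime] :
    RingHom.ker (locRedMap red P R hsurj hkerP) = Ideal.span {algebraMap R0 R y} := by
  apply le_antisymm
  · intro x hx
    rw [RingHom.mem_ker] at hx
    obtain ⟨⟨a, b⟩, hab⟩ := IsLocalization.surj P.primeCompl x
    simp only at hab
    have h1 : locRedMap red P R hsurj hkerP (algebraMap R0 R a) = 0 := by
      rw [← hab, map_mul, hx, zero_mul]
    rw [locRedMap_algebraMap] at h1
    have hinj : Function.Injective (algebraMap D0 (Localization.AtPrime (P.map red))) :=
      IsLocalization.injective _ (Ideal.primeCompl_le_nonZeroDivisors (P.map red))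
    have h2 : red a = 0 := hinj (h1.trans (map_zero _).symm)
    obtain ⟨c, rfl⟩ := hker a h2
    have hu : IsUnit (algebraMap R0 R (b : R0)) := IsLocalization.map_units R b
    obtain ⟨v, hv⟩ := hu
    have hx' : x = algebraMap R0 R y * (algebraMap R0 R c * ((v⁻¹ : Rˣ) : R)) := by
      have : x * (v : R) = algebraMap R0 R y * algebraMap R0 R c := by
        rw [hv, hab, map_mul]
      calc x = x * (v : R) * ((v⁻¹ : Rˣ) : R) := by rw [mul_assoc, Units.mul_inv, mul_one]
        _ = algebraMap R0 R y * (algebraMap R0 R c * ((v⁻¹ : Rˣ) : R)) := by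
          rw [this, mul_assoc]
    rw [hx']
    exact Ideal.mul_mem_right _ _ (Ideal.mem_span_singleton_self _)
  · rw [Ideal.span_singleton_le_iff_mem, RingHom.mem_ker, locRedMap_algebraMap, hy0, map_zero]

/-- **`R_P ⧸ (y)` is a domain and a principal ideal ring** when `R0 ⧸ (y)` is a Dedekind
domain (through the surjection `red`). -/
theorem quotient_loc_of_dedekind [IsDedekindDomain D0]
    (hsurj : Function.Surjective red)
    (hy0 : red y = 0) (hker : ∀ r : R0, red r = 0 → y ∣ r) (hyP : y ∈ P) :
    IsDomain (R ⧸ Ideal.span {algebraMap R0 R y}) ∧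
      IsPrincipalIdealRing (R ⧸ Ideal.span {algebraMap R0 R y}) := by
  have hkerP := ker_le_of_gen red y P hker hyP
  haveI hPm : (P.map red).IsPrime := map_isPrime_of_ker_le red hsurj P hkerP
  have hk := ker_locRedMap red y P R hsurj hy0 hker hkerP
  have hs := locRedMap_surjective red P R hsurj hkerP
  -- the target is a local Dedekind domain, hence a principal ideal ring
  haveI : IsDomain (Localization.AtPrime (P.map red)) :=
    IsLocalization.isDomain_of_le_nonZeroDivisors (Localization.AtPrime (P.map red))
      (Ideal.primeCompl_le_nonZeroDivisors (P.map red))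
  have hded : IsDedekindDomain (Localization.AtPrime (P.map red)) :=
    IsLocalization.AtPrime.isDedekindDomain D0 (P.map red) _
  have htfae := (tfae_of_isNoetherianRing_of_isLocalRing_of_isDomain
      (R := Localization.AtPrime (P.map red))).out 0 2
  haveI : IsPrincipalIdealRing (Localization.AtPrime (P.map red)) := htfae.mpr hded
  let e : (R ⧸ RingHom.ker (locRedMap red P R hsurj hkerP)) ≃+*
      Localization.AtPrime (P.map red) := RingHom.quotientKerEquivOfSurjective hs
  rw [← hk]
  refine ⟨?_, ?_⟩
  · exact MulEquiv.isDomain (Localization.AtPrime (P.map red)) e.toMulEquiv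
  · exact IsPrincipalIdealRing.of_surjective e.symm.toRingHom e.symm.surjective

end LocQuot

end Fermat.Agent.T8.helper33
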