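import Mathlib
import Fermat.Agent.T8.helper33_SheetsAbs2
import Fermat.Agent.T8.helper6_SlopeAbs

/-!
# T8 (row 38, at risk), helper33: [SHEETS], the order function on the etale point

Setting of `helper33_SheetsAbs`: `T = (R[t])_M` at a simple root, `y ∈ 𝔪` with `D = R ⧸ (y)` a
domain and a principal ideal ring.  `B = T ⧸ (y)` is then a discrete valuation ring (or a field)
which is UNRAMIFIED over `D`, but its fraction field may be bigger than that of `D` (the cover
need not split over the component).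

* `ordAt ϖ x` : the exponent `k` in `x = unit * ϖ ^ k` (noetherian local ring with maximal ideal
  `(ϖ)`, `ϖ` a non-zero-divisor), with `ordAt_eq`, `ordAt_mul`, `ordAt_unit`;
* `IsMonogenic.comap_span_loc` : `y T ∩ R = y R`  (so `D ↪ B`);
* `IsMonogenic.exists_ord_loc` : every order function `ordD` on `D` (additive on nonzero
  products, zero on the images of the units of `R`) extends to an order function `ordB` on `B`
  with the same two properties for `T`, and `ordB (r mod y T) = ordD (r mod y R)` for `r ∈ R`.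
  This is the input `ord` of `helper6.slope_of_ufm` for the UFD `T`, and the compatibility
  descends its conclusion to `D`;
* `IsMonogenic.slope_loc` : the package - [SLOPE] on `T` with the conclusion in `D`:
  if `A, B ∈ T` are prime to `y`, their prime multiplicities in `T` are congruent modulo `n`,
  and `A / B ≡ d₁ / d₂` modulo `y` with `d₁, d₂ ∈ R` prime to `y`, then
  `n ∣ ordD d₁ - ordD d₂`.
-/

set_option autoImplicit false
set_option linter.unusedSectionVars false
set_option linter.style.haveILetI false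
set_option linter.unnecessarySimpa false

namespace Fermat.Agent.T8.helper33

open Polynomial IsLocalRing

section OrdAt

variable {B : Type*} [CommRing B] [IsNoetherianRing B] [IsLocalRing B]

theorem pow_mul_ne_zero_of_nzd {ϖ : B} (hnzd : ∀ x : B, ϖ * x = 0 → x = 0) (n : ℕ) {x : B}
    (hx : ϖ ^ n * x = 0) : x = 0 := by
  induction n generalizing x with
  | zero => simpa using hx
  | succ n ih =>
    rw [pow_succ, mul_assoc] at hx
    exact hnzd x (ih hx)

/-- uniqueness of the exponent -/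
theorem exponent_unique {ϖ : B} (hϖm : ϖ ∈ maximalIdeal B)
    (hnzd : ∀ x : B, ϖ * x = 0 → x = 0) {u u' : Bˣ} {k l : ℕ}
    (h : (u : B) * ϖ ^ k = u' * ϖ ^ l) : k = l := by
  have key : ∀ (u u' : Bˣ) (k l : ℕ), (u : B) * ϖ ^ k = u' * ϖ ^ l → ¬ k < l := by
    intro u u' k l h hkl
    obtain ⟨d, rfl⟩ : ∃ d, l = k + (d + 1) := ⟨l - k - 1, by omega⟩
    have h1 : ϖ ^ k * ((u : B) - u' * ϖ ^ (d + 1)) = 0 := by
      rw [pow_add] at h
      linear_combination h
    have h2 := pow_mul_ne_zero_of_nzd hnzd k h1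
    have h3 : (u : B) ∈ maximalIdeal B := by
      rw [sub_eq_zero.mp h2, pow_succ]
      exact Ideal.mul_mem_left _ _ (Ideal.mul_mem_left _ _ hϖm)
    exact (IsLocalRing.mem_maximalIdeal _).mp h3 u.isUnit
  rcases lt_trichotomy k l with hlt | heq | hgt
  · exact absurd hlt (key u u' k l h)
  · exact heq
  · exact absurd hgt (key u' u l k h.symm)

/-- The exponent `k` in `x = unit * ϖ ^ k` (and `0` if there is no such expression). -/
noncomputable def ordAt (ϖ : B) (x : B) : ℕ := sInf {n : ℕ | ∃ u : Bˣ, x = u * ϖ ^ n}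

theorem ordAt_eq {ϖ : B} (hϖm : ϖ ∈ maximalIdeal B) (hnzd : ∀ x : B, ϖ * x = 0 → x = 0)
    {x : B} {u : Bˣ} {k : ℕ} (hx : x = u * ϖ ^ k) : ordAt ϖ x = k := by
  have hne : {n : ℕ | ∃ u : Bˣ, x = u * ϖ ^ n}.Nonempty := ⟨k, u, hx⟩
  obtain ⟨u', hu'⟩ := Nat.sInf_mem hne
  exact exponent_unique hϖm hnzd (hu'.symm.trans hx)

theorem ordAt_unit {ϖ : B} (hϖm : ϖ ∈ maximalIdeal B) (hnzd : ∀ x : B, ϖ * x = 0 → x = 0)
    {x : B} (hx : IsUnit x) : ordAt ϖ x = 0 := by
  obtain ⟨u, rfl⟩ := hx
  exact ordAt_eq hϖm hnzd (by rw [pow_zero, mul_one])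

theorem ordAt_mul {ϖ : B} (hm : maximalIdeal B = Ideal.span {ϖ})
    (hnzd : ∀ x : B, ϖ * x = 0 → x = 0) {x x' : B} (hx : x ≠ 0) (hx' : x' ≠ 0) :
    ordAt ϖ (x * x') = ordAt ϖ x + ordAt ϖ x' := by
  have hϖm : ϖ ∈ maximalIdeal B := by rw [hm]; exact Ideal.mem_span_singleton_self ϖ
  obtain ⟨k, u, hu⟩ := exists_unit_mul_pow_of_maximalIdeal_eq_span hm hx
  obtain ⟨l, u', hu'⟩ := exists_unit_mul_pow_of_maximalIdeal_eq_span hm hx'
  rw [ordAt_eq hϖm hnzd hu, ordAt_eq hϖm hnzd hu']
  refine ordAt_eq hϖm hnzd (u := u * u') ?_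
  rw [hu, hu', Units.val_mul, pow_add]
  ring

end OrdAt

section OrdLoc

variable {R : Type*} [CommRing R] [IsDomain R] [IsLocalRing R]
variable {S : Type*} [CommRing S] [IsDomain S] [Algebra R S]
variable {t : S} {f : R[X]} {a : R}
variable (T : Type*) [CommRing T] [Algebra S T] [Algebra R T] [IsScalarTower R S T]
variable [hP : (ptIdeal t a).IsPrime] [IsLocalization.AtPrime T (ptIdeal t a)]

namespace IsMonogenic

include hP in
/-- `y T ∩ R = y R`: the quotient `R ⧸ (y)` embeds into `T ⧸ (y)`. -/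
theorem comap_span_loc (h : IsMonogenic t f) {y : R}
    (hyp : (Ideal.span {y}).IsPrime) :
    (Ideal.span {algebraMap R T y}).comap (algebraMap R T) = Ideal.span {y} := by
  apply le_antisymm
  · intro r hr
    rw [Ideal.mem_comap, Ideal.mem_span_singleton'] at hr
    obtain ⟨x, hx⟩ := hr
    by_contra hry
    -- `r` is a non-zero-divisor modulo `y`, applied to `1`
    obtain ⟨x'', hx''⟩ := h.nzd_loc (a := a) T hyp hry (x := 1) (x' := x)
      (by rw [mul_one, ← hx, mul_comm])
    -- so `y` is a unit of `T`, impossible if `y ∈ 𝔪`; if `y ∉ 𝔪` then `(y) = ⊤`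
    haveI : IsLocalRing T := isLocalRing_loc (t := t) (a := a) T
    have hyu : IsUnit (algebraMap R T y) := IsUnit.of_mul_eq_one _ hx''.symm
    have hym : y ∈ maximalIdeal R := by
      rw [IsLocalRing.mem_maximalIdeal, mem_nonunits_iff]
      intro hu
      exact hyp.ne_top (Ideal.span_singleton_eq_top.mpr hu)
    have hmem : algebraMap R T y ∈ maximalIdeal T := by
      rw [← IsLocalization.AtPrime.map_eq_maximalIdeal (ptIdeal t a) T,
        IsScalarTower.algebraMap_apply R S T]
      exact Ideal.mem_map_of_mem _ (algebraMap_mem_ptIdeal t a hym)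
    exact (IsLocalRing.mem_maximalIdeal _).mp hmem hyu
  · rw [Ideal.span_singleton_le_iff_mem, Ideal.mem_comap]
    exact Ideal.mem_span_singleton_self _

include hP in
/-- **The order function on the etale point.**  Every order function on `D = R ⧸ (y)` extends
to `B = T ⧸ (y)`. -/
theorem exists_ord_loc [IsNoetherianRing R] (h : IsMonogenic t f)
    (ha : f.eval a ∈ maximalIdeal R) (ha' : f.derivative.eval a ∉ maximalIdeal R)
    {y : R} (hy : y ∈ maximalIdeal R)
    [IsDomain (R ⧸ Ideal.span {y})] [IsPrincipalIdealRing (R ⧸ Ideal.span {y})]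
    (ordD : R ⧸ Ideal.span {y} → ℤ)
    (hmulD : ∀ x x' : R ⧸ Ideal.span {y}, x ≠ 0 → x' ≠ 0 → ordD (x * x') = ordD x + ordD x')
    (hunitD : ∀ u : Rˣ, ordD (Ideal.Quotient.mk (Ideal.span {y}) (u : R)) = 0) :
    ∃ ordB : T ⧸ Ideal.span {algebraMap R T y} → ℤ,
      (∀ x x' : T ⧸ Ideal.span {algebraMap R T y}, x ≠ 0 → x' ≠ 0 →
        ordB (x * x') = ordB x + ordB x') ∧
      (∀ u : Tˣ, ordB (Ideal.Quotient.mk (Ideal.span {algebraMap R T y}) (u : T)) = 0) ∧
      (∀ r : R, r ∉ Ideal.span {y} →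
        ordB (Ideal.Quotient.mk (Ideal.span {algebraMap R T y}) (algebraMap R T r)) =
          ordD (Ideal.Quotient.mk (Ideal.span {y}) r)) := by
  haveI : IsLocalRing T := isLocalRing_loc (t := t) (a := a) T
  haveI : IsNoetherianRing T := h.isNoetherianRing_loc (a := a) T
  obtain ⟨π, hπm, hπ⟩ := exists_maximalIdeal_eq_span_pair hy
  have hmT : maximalIdeal T = Ideal.span {algebraMap R T y, algebraMap R T π} := by
    rw [h.maximalIdeal_loc T ha ha', hπ, Ideal.map_span, Set.image_pair]
  have hyT : algebraMap R T y ∈ maximalIdeal T := by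
    rw [hmT]; exact Ideal.subset_span (by simp)
  haveI : Nontrivial (T ⧸ Ideal.span {algebraMap R T y}) := by
    rw [Ideal.Quotient.nontrivial_iff]
    intro htop
    have hle : Ideal.span {algebraMap R T y} ≤ maximalIdeal T := by
      rw [Ideal.span_singleton_le_iff_mem]; exact hyT
    rw [htop] at hle
    exact Ideal.IsPrime.ne_top' (top_le_iff.mp hle)
  haveI : IsLocalRing (T ⧸ Ideal.span {algebraMap R T y}) :=
    IsLocalRing.of_surjective' (Ideal.Quotient.mk _) Ideal.Quotient.mk_surjective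
  haveI : IsLocalRing (R ⧸ Ideal.span {y}) :=
    IsLocalRing.of_surjective' (Ideal.Quotient.mk _) Ideal.Quotient.mk_surjective
  have hmB := maximalIdeal_quotient_eq_span hyT hmT
  have hmD := maximalIdeal_quotient_eq_span hy hπ
  have hyp : (Ideal.span {y} : Ideal R).IsPrime :=
    (Ideal.Quotient.isDomain_iff_prime _).mp inferInstance
  obtain ⟨hdomB, -⟩ := h.quotient_loc T ha ha' hy
  -- units of `R` and of `T` stay units in the quotients
  by_cases hπy : π ∈ Ideal.span {y}
  · -- `D` is a field: everything outside `(y)` is a unit of `R`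
    refine ⟨fun _ => 0, fun _ _ _ _ => by simp, fun _ => rfl, fun r hr => ?_⟩
    have hru : IsUnit r := by
      by_contra hnu
      have hrm : r ∈ maximalIdeal R := (IsLocalRing.mem_maximalIdeal r).mpr hnu
      rw [hπ, Ideal.mem_span_pair] at hrm
      obtain ⟨c, d, rfl⟩ := hrm
      exact hr (Ideal.add_mem _ (Ideal.mul_mem_left _ _ (Ideal.mem_span_singleton_self y))
        (Ideal.mul_mem_left _ _ hπy))
    obtain ⟨u, rfl⟩ := hru
    exact (hunitD u).symm
  · -- `D` is a discrete valuation ring with uniformiser `π`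
    set ϖ : T ⧸ Ideal.span {algebraMap R T y} :=
      Ideal.Quotient.mk (Ideal.span {algebraMap R T y}) (algebraMap R T π) with hϖ
    have hϖm : ϖ ∈ maximalIdeal (T ⧸ Ideal.span {algebraMap R T y}) := by
      rw [hmB]; exact Ideal.mem_span_singleton_self _
    have hnzd : ∀ b : T ⧸ Ideal.span {algebraMap R T y}, ϖ * b = 0 → b = 0 := by
      intro b hb
      obtain ⟨x, rfl⟩ := Ideal.Quotient.mk_surjective b
      rw [hϖ, ← map_mul, Ideal.Quotient.eq_zero_iff_mem, Ideal.mem_span_singleton'] at hb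
      obtain ⟨x', hx'⟩ := hb
      obtain ⟨x'', rfl⟩ := h.nzd_loc (a := a) T hyp hπy (x := x) (x' := x')
        (by rw [← hx', mul_comm])
      rw [Ideal.Quotient.eq_zero_iff_mem]
      exact Ideal.mul_mem_right _ _ (Ideal.mem_span_singleton_self _)
    have hπD : Ideal.Quotient.mk (Ideal.span {y}) π ≠ 0 := by
      rwa [Ne, Ideal.Quotient.eq_zero_iff_mem]
    -- `ordD (unit * π ^ k) = k * ordD π`
    have hordD : ∀ (u : Rˣ) (k : ℕ),
        ordD (Ideal.Quotient.mk (Ideal.span {y}) ((u : R) * π ^ k)) =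
          k * ordD (Ideal.Quotient.mk (Ideal.span {y}) π) := by
      intro u k
      induction k with
      | zero => simpa using hunitD u
      | succ k ih =>
        have hne1 : Ideal.Quotient.mk (Ideal.span {y}) ((u : R) * π ^ k) ≠ 0 := by
          rw [map_mul, map_pow]
          exact mul_ne_zero ((u.isUnit.map _).ne_zero) (pow_ne_zero _ hπD)
        rw [pow_succ, ← mul_assoc, map_mul, hmulD _ _ hne1 hπD, ih]
        push_cast
        ring
    refine ⟨fun x => (ordAt ϖ x : ℤ) * ordD (Ideal.Quotient.mk (Ideal.span {y}) π), ?_, ?_, ?_⟩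
    · intro x x' hx hx'
      simp only
      rw [ordAt_mul hmB hnzd hx hx']
      push_cast
      ring
    · intro u
      simp only
      rw [ordAt_unit hϖm hnzd (u.isUnit.map _)]
      simp
    · intro r hr
      simp only
      have hrD : Ideal.Quotient.mk (Ideal.span {y}) r ≠ 0 := by
        rwa [Ne, Ideal.Quotient.eq_zero_iff_mem]
      obtain ⟨k, ubar, hk⟩ := exists_unit_mul_pow_of_maximalIdeal_eq_span hmD hrD
      obtain ⟨u0, hu0⟩ := Ideal.Quotient.mk_surjective (ubar : R ⧸ Ideal.span {y})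
      have hu0u : IsUnit u0 := by
        by_contra hnu
        have hmem : u0 ∈ maximalIdeal R := (IsLocalRing.mem_maximalIdeal u0).mpr hnu
        have hmem' : Ideal.Quotient.mk (Ideal.span {y}) u0 ∈
            maximalIdeal (R ⧸ Ideal.span {y}) := by
          rw [hπ, Ideal.mem_span_pair] at hmem
          obtain ⟨c, d, rfl⟩ := hmem
          rw [hmD, map_add, map_mul, map_mul,
            Ideal.Quotient.eq_zero_iff_mem.mpr (Ideal.mem_span_singleton_self y), mul_zero,
            zero_add]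
          exact Ideal.mul_mem_left _ _ (Ideal.mem_span_singleton_self _)
        rw [hu0] at hmem'
        exact (IsLocalRing.mem_maximalIdeal _).mp hmem' ubar.isUnit
      obtain ⟨u, rfl⟩ := hu0u
      have hrel : r - (u : R) * π ^ k ∈ Ideal.span {y} := by
        rw [← Ideal.Quotient.eq, hk, map_mul, map_pow, hu0]
      have hD : ordD (Ideal.Quotient.mk (Ideal.span {y}) r) =
          k * ordD (Ideal.Quotient.mk (Ideal.span {y}) π) := by
        rw [Ideal.Quotient.eq.mpr hrel]
        exact hordD u k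
      rw [hD]
      congr 1
      have huT : IsUnit (Ideal.Quotient.mk (Ideal.span {algebraMap R T y})
          (algebraMap R T (u : R))) := (u.isUnit.map _).map _
      obtain ⟨v, hv⟩ := huT
      have hB : Ideal.Quotient.mk (Ideal.span {algebraMap R T y}) (algebraMap R T r) =
          (v : T ⧸ Ideal.span {algebraMap R T y}) * ϖ ^ k := by
        rw [hv, hϖ, ← map_pow, ← map_mul, ← map_pow, ← map_mul, Ideal.Quotient.eq, ← map_sub]
        obtain ⟨c, hc⟩ := Ideal.mem_span_singleton'.mp hrel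
        rw [← hc, map_mul]
        exact Ideal.mul_mem_left _ _ (Ideal.mem_span_singleton_self _)
      exact_mod_cast ordAt_eq hϖm hnzd hB

include hP in
/-- **[SLOPE] at the etale point, with the conclusion on the base.**  `A, B ∈ T` prime to `y`
with congruent prime multiplicities modulo `n`, and `A * d₂ ≡ B * d₁` modulo `y T` with
`d₁, d₂ ∈ R` prime to `y`: then `n ∣ ordD d₁ - ordD d₂` for every order function `ordD` on
`D = R ⧸ (y)`. -/
theorem slope_loc [IsNoetherianRing R] (h : IsMonogenic t f)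
    (ha : f.eval a ∈ maximalIdeal R) (ha' : f.derivative.eval a ∉ maximalIdeal R)
    {y : R} (hy : y ∈ maximalIdeal R)
    [IsDomain (R ⧸ Ideal.span {y})] [IsPrincipalIdealRing (R ⧸ Ideal.span {y})]
    (ordD : R ⧸ Ideal.span {y} → ℤ)
    (hmulD : ∀ x x' : R ⧸ Ideal.span {y}, x ≠ 0 → x' ≠ 0 → ordD (x * x') = ordD x + ordD x')
    (hunitD : ∀ u : Rˣ, ordD (Ideal.Quotient.mk (Ideal.span {y}) (u : R)) = 0)
    (n : ℕ) (hn : 0 < n) {A B : T}
    (hA : A ∉ Ideal.span {algebraMap R T y}) (hB : B ∉ Ideal.span {algebraMap R T y})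
    (hmult : ∀ π : T, Prime π → ∀ k l : ℕ, π ^ k ∣ A → ¬ π ^ (k + 1) ∣ A →
      π ^ l ∣ B → ¬ π ^ (l + 1) ∣ B → k ≡ l [MOD n])
    {d₁ d₂ : R} (hd₁ : d₁ ∉ Ideal.span {y}) (hd₂ : d₂ ∉ Ideal.span {y})
    (hrel : A * algebraMap R T d₂ - B * algebraMap R T d₁ ∈ Ideal.span {algebraMap R T y}) :
    (n : ℤ) ∣ ordD (Ideal.Quotient.mk (Ideal.span {y}) d₁) -
      ordD (Ideal.Quotient.mk (Ideal.span {y}) d₂) := by
  haveI : IsDomain T := isDomain_loc (t := t) (a := a) T
  haveI : UniqueFactorizationMonoid T := h.ufm_loc T ha ha' hy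
  obtain ⟨hdomB, -⟩ := h.quotient_loc T ha ha' hy
  obtain ⟨ordB, hmulB, hunitB, hcompat⟩ := h.exists_ord_loc T ha ha' hy ordD hmulD hunitD
  have hyp : (Ideal.span {y} : Ideal R).IsPrime :=
    (Ideal.Quotient.isDomain_iff_prime _).mp inferInstance
  have hA0 : Ideal.Quotient.mk (Ideal.span {algebraMap R T y}) A ≠ 0 := by
    rwa [Ne, Ideal.Quotient.eq_zero_iff_mem]
  have hB0 : Ideal.Quotient.mk (Ideal.span {algebraMap R T y}) B ≠ 0 := by
    rwa [Ne, Ideal.Quotient.eq_zero_iff_mem]
  have hd0 : ∀ d : R, d ∉ Ideal.span {y} →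
      Ideal.Quotient.mk (Ideal.span {algebraMap R T y}) (algebraMap R T d) ≠ 0 := by
    intro d hd h0
    rw [Ideal.Quotient.eq_zero_iff_mem, ← Ideal.mem_comap, h.comap_span_loc (a := a) T hyp] at h0
    exact hd h0
  have hslope := Fermat.Agent.T8.helper6.slope_of_ufm
    (Ideal.Quotient.mk (Ideal.span {algebraMap R T y})) ordB hmulB hunitB n hn hA0 hB0 hmult
  have hrel' : Ideal.Quotient.mk (Ideal.span {algebraMap R T y}) A *
      Ideal.Quotient.mk (Ideal.span {algebraMap R T y}) (algebraMap R T d₂) =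
      Ideal.Quotient.mk (Ideal.span {algebraMap R T y}) B *
      Ideal.Quotient.mk (Ideal.span {algebraMap R T y}) (algebraMap R T d₁) := by
    rw [← map_mul, ← map_mul, Ideal.Quotient.eq]
    exact hrel
  have h1 := congrArg ordB hrel'
  rw [hmulB _ _ hA0 (hd0 d₂ hd₂), hmulB _ _ hB0 (hd0 d₁ hd₁), hcompat d₂ hd₂,
    hcompat d₁ hd₁] at h1
  have h2 : ordD (Ideal.Quotient.mk (Ideal.span {y}) d₁) -
      ordD (Ideal.Quotient.mk (Ideal.span {y}) d₂) =
      ordB (Ideal.Quotient.mk (Ideal.span {algebraMap R T y}) A) -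
        ordB (Ideal.Quotient.mk (Ideal.span {algebraMap R T y}) B) := by
    linear_combination (-1 : ℤ) * h1
  rw [h2]
  exact hslope

end IsMonogenic

end OrdLoc

end Fermat.Agent.T8.helper33
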