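import Mathlib
import Fermat.Agent.T8.helper33_SheetsOrd

/-!
# T8 (row 38, at risk), helper33: [SHEETS] / [SLOPE-X'], the order function through a sheet

Mathlib + `helper33_Sheets*` only.  Setting of `helper33_SheetsAbs`: `T = (R[t])_M` the etale
point, `y ∈ 𝔪` with `D = R ⧸ (y)` a domain and a principal ideal ring, and now a ring
homomorphism `φ : T →+* E` into a FIELD (the reduction of the expansion on a sheet) with
`φ y = 0`, not identically zero on `𝔪`.

* `ker_eq_span_of_quotient_pid` : then `ker φ = (y)`  (the field `ker1` of the slope contracts);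
* `fracRange φ` : the subfield of `E` of the quotients `φ a / φ b`;
* `exists_ord_fracRange` : an order function on a ring extends to the quotients;
* `IsMonogenic.ord_loc_nonneg` : the order function of `helper33.IsMonogenic.exists_ord_loc` is
  `≥ 0` as soon as `ordD` is;
* `IsMonogenic.exists_ordE_loc` : THE PACKAGE - there is `ordE : E → ℤ`, additive on nonzero
  products in `fracRange φ`, `≥ 0` on `φ T`, zero on `φ` of units of `T`, equal to `ordD` on the
  image of `R`, and `φ a = 0 ↔ y ∣ a`.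
-/

set_option autoImplicit false
set_option linter.unusedSectionVars false
set_option linter.style.haveILetI false
set_option linter.unnecessarySimpa false

namespace Fermat.Agent.T8.helper33

open Polynomial IsLocalRing

section FracOrd

variable {B : Type*} [CommRing B] {E : Type*} [Field E]

/-- the subfield of `E` of the quotients `ψ a / ψ b` -/
def fracRange (ψ : B →+* E) : Subfield E where
  carrier := {x | ∃ a b : B, ψ b ≠ 0 ∧ x * ψ b = ψ a}
  mul_mem' := by
    rintro x x' ⟨a, b, hb, h⟩ ⟨a', b', hb', h'⟩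
    refine ⟨a * a', b * b', by rw [map_mul]; exact mul_ne_zero hb hb', ?_⟩
    rw [map_mul, map_mul, ← h, ← h']; ring
  one_mem' := ⟨1, 1, by simp, by simp⟩
  add_mem' := by
    rintro x x' ⟨a, b, hb, h⟩ ⟨a', b', hb', h'⟩
    refine ⟨a * b' + a' * b, b * b', by rw [map_mul]; exact mul_ne_zero hb hb', ?_⟩
    rw [map_add, map_mul, map_mul, map_mul, ← h, ← h']; ring
  zero_mem' := ⟨0, 1, by simp, by simp⟩
  neg_mem' := by
    rintro x ⟨a, b, hb, h⟩
    exact ⟨-a, b, hb, by rw [map_neg, ← h]; ring⟩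
  inv_mem' := by
    rintro x ⟨a, b, hb, h⟩
    by_cases hx : x = 0
    · rw [hx, inv_zero]
      exact ⟨0, 1, by simp, by simp⟩
    · have ha : ψ a ≠ 0 := by rw [← h]; exact mul_ne_zero hx hb
      refine ⟨b, a, ha, ?_⟩
      rw [← h]
      field_simp

theorem mem_fracRange {ψ : B →+* E} {x : E} :
    x ∈ fracRange ψ ↔ ∃ a b : B, ψ b ≠ 0 ∧ x * ψ b = ψ a := Iff.rfl

theorem map_mem_fracRange (ψ : B →+* E) (a : B) : ψ a ∈ fracRange ψ :=
  ⟨a, 1, by simp, by simp⟩

/-- **Extension of an order function to the quotients.**  `ord : B → ℤ` additive on products of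
elements outside the kernel of `ψ`; then there is `ordE : E → ℤ`, additive on nonzero products
in `fracRange ψ`, with `ordE (ψ a) = ord a` whenever `ψ a ≠ 0`. -/
theorem exists_ord_fracRange (ψ : B →+* E) (ord : B → ℤ)
    (hmul : ∀ a b : B, ψ a ≠ 0 → ψ b ≠ 0 → ord (a * b) = ord a + ord b)
    (hker : ∀ a b : B, ψ a ≠ 0 → ψ a = ψ b → ord a = ord b) :
    ∃ ordE : E → ℤ,
      (∀ x x' : E, x ∈ fracRange ψ → x' ∈ fracRange ψ → x ≠ 0 → x' ≠ 0 →
        ordE (x * x') = ordE x + ordE x') ∧
      (∀ a : B, ψ a ≠ 0 → ordE (ψ a) = ord a) ∧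
      (∀ a b : B, ψ a ≠ 0 → ψ b ≠ 0 → ordE (ψ a / ψ b) = ord a - ord b) := by
  classical
  -- the value on a quotient does not depend on the representation
  have hwd : ∀ a b a' b' : B, ψ a ≠ 0 → ψ b ≠ 0 → ψ a' ≠ 0 → ψ b' ≠ 0 →
      ψ a * ψ b' = ψ a' * ψ b → ord a - ord b = ord a' - ord b' := by
    intro a b a' b' ha hb ha' hb' h
    have h1 : ψ (a * b') ≠ 0 := by rw [map_mul]; exact mul_ne_zero ha hb'
    have h2 : ψ (a * b') = ψ (a' * b) := by rw [map_mul, map_mul, h]
    have h3 := hker _ _ h1 h2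
    rw [hmul a b' ha hb', hmul a' b ha' hb] at h3
    linarith
  let P : E → Prop := fun x => ∃ a b : B, ψ a ≠ 0 ∧ ψ b ≠ 0 ∧ x * ψ b = ψ a
  let ordE : E → ℤ := fun x =>
    if h : P x then ord h.choose - ord h.choose_spec.choose else 0
  have hval : ∀ (x : E) (a b : B), ψ a ≠ 0 → ψ b ≠ 0 → x * ψ b = ψ a →
      ordE x = ord a - ord b := by
    intro x a b ha hb hx
    have hP : P x := ⟨a, b, ha, hb, hx⟩
    have hdef : ordE x = ord hP.choose - ord hP.choose_spec.choose := dif_pos hP
    rw [hdef]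
    obtain ⟨h1, h2, h3⟩ := hP.choose_spec.choose_spec
    apply hwd _ _ _ _ h1 h2 ha hb
    -- `a₀ / b₀ = x = a / b`
    linear_combination (ψ hP.choose_spec.choose) * hx - (ψ b) * h3
  refine ⟨ordE, ?_, ?_, ?_⟩
  · rintro x x' ⟨a, b, hb, h⟩ ⟨a', b', hb', h'⟩ hx hx'
    have ha : ψ a ≠ 0 := by rw [← h]; exact mul_ne_zero hx hb
    have ha' : ψ a' ≠ 0 := by rw [← h']; exact mul_ne_zero hx' hb'
    rw [hval x a b ha hb h, hval x' a' b' ha' hb' h',
      hval (x * x') (a * a') (b * b') (by rw [map_mul]; exact mul_ne_zero ha ha')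
        (by rw [map_mul]; exact mul_ne_zero hb hb')
        (by rw [map_mul, map_mul, ← h, ← h']; ring),
      hmul a a' ha ha', hmul b b' hb hb']
    ring
  · intro a ha
    have h1 : ψ (1 : B) ≠ 0 := by simp
    have h2 := hval (ψ a) a 1 ha h1 (by simp)
    have h3 : ord (1 : B) = 0 := by
      have := hmul 1 1 h1 h1
      rw [mul_one] at this
      linarith
    rw [h2, h3, sub_zero]
  · intro a b ha hb
    exact hval _ a b ha hb (by field_simp)

end FracOrd

section KerPid

variable {T : Type*} [CommRing T] [IsLocalRing T] {E : Type*} [CommRing E] [IsDomain E]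

/-- `T` local, `T ⧸ (x)` a domain and a principal ideal ring, `φ : T →+* E` into a domain with
`φ x = 0` and `φ` not zero on the maximal ideal: then `ker φ = (x)`. -/
theorem ker_eq_span_of_quotient_pid {x : T} [IsDomain (T ⧸ Ideal.span {x})]
    [IsPrincipalIdealRing (T ⧸ Ideal.span {x})] (φ : T →+* E) (hx : φ x = 0)
    (hne : ∃ r ∈ maximalIdeal T, φ r ≠ 0) : RingHom.ker φ = Ideal.span {x} := by
  have hsurj : Function.Surjective (Ideal.Quotient.mk (Ideal.span {x})) :=
    Ideal.Quotient.mk_surjective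
  have hle : Ideal.span {x} ≤ RingHom.ker φ := by
    rw [Ideal.span_singleton_le_iff_mem, RingHom.mem_ker]; exact hx
  have hkerle : RingHom.ker (Ideal.Quotient.mk (Ideal.span {x})) ≤ RingHom.ker φ := by
    rw [Ideal.mk_ker]; exact hle
  haveI hP : (RingHom.ker φ).IsPrime := RingHom.ker_isPrime φ
  have hcm : Ideal.comap (Ideal.Quotient.mk (Ideal.span {x}))
      (Ideal.map (Ideal.Quotient.mk (Ideal.span {x})) (RingHom.ker φ)) = RingHom.ker φ := by
    rw [Ideal.comap_map_of_surjective _ hsurj, ← RingHom.ker_eq_comap_bot, Ideal.mk_ker]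
    exact sup_eq_left.mpr hle
  have hPbar : (Ideal.map (Ideal.Quotient.mk (Ideal.span {x})) (RingHom.ker φ)).IsPrime :=
    Ideal.map_isPrime_of_surjective hsurj hkerle
  by_cases hbot : Ideal.map (Ideal.Quotient.mk (Ideal.span {x})) (RingHom.ker φ) = ⊥
  · refine le_antisymm ?_ hle
    intro a ha
    have h1 : Ideal.Quotient.mk (Ideal.span {x}) a ∈
        Ideal.map (Ideal.Quotient.mk (Ideal.span {x})) (RingHom.ker φ) :=
      Ideal.mem_map_of_mem _ ha
    rw [hbot, Ideal.mem_bot, Ideal.Quotient.eq_zero_iff_mem] at h1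
    exact h1
  · exfalso
    have hmax := @_root_.IsPrime.to_maximal_ideal _ _ _ _ _ hPbar hbot
    have hmax' : (RingHom.ker φ).IsMaximal := by
      rw [← hcm]
      exact Ideal.comap_isMaximal_of_surjective _ hsurj
    have heq := IsLocalRing.eq_maximalIdeal hmax'
    obtain ⟨r, hr, hr'⟩ := hne
    rw [← heq, RingHom.mem_ker] at hr
    exact hr' hr

end KerPid

section OrdE

variable {R : Type*} [CommRing R] [IsDomain R] [IsLocalRing R]
variable {S : Type*} [CommRing S] [IsDomain S] [Algebra R S]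
variable {t : S} {f : R[X]} {a : R}
variable (T : Type*) [CommRing T] [Algebra S T] [Algebra R T] [IsScalarTower R S T]
variable [hP : (ptIdeal t a).IsPrime] [IsLocalization.AtPrime T (ptIdeal t a)]

namespace IsMonogenic

include hP in
/-- Any order function on `B = T ⧸ (y)` which is additive, zero on units of `T` and equal to
`ordD` on the image of `R` is `≥ 0` as soon as `ordD` is. -/
theorem ord_loc_nonneg [IsNoetherianRing R] (h : IsMonogenic t f)
    (ha : f.eval a ∈ maximalIdeal R) (ha' : f.derivative.eval a ∉ maximalIdeal R)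
    {y : R} (hy : y ∈ maximalIdeal R)
    [IsDomain (R ⧸ Ideal.span {y})] [IsPrincipalIdealRing (R ⧸ Ideal.span {y})]
    (ordD : R ⧸ Ideal.span {y} → ℤ)
    (hnonneg : ∀ d : R ⧸ Ideal.span {y}, d ≠ 0 → 0 ≤ ordD d)
    (ordB : T ⧸ Ideal.span {algebraMap R T y} → ℤ)
    (hmulB : ∀ x x' : T ⧸ Ideal.span {algebraMap R T y}, x ≠ 0 → x' ≠ 0 →
      ordB (x * x') = ordB x + ordB x')
    (hunitB : ∀ u : Tˣ, ordB (Ideal.Quotient.mk (Ideal.span {algebraMap R T y}) (u : T)) = 0)
    (hcompat : ∀ r : R, r ∉ Ideal.span {y} →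
      ordB (Ideal.Quotient.mk (Ideal.span {algebraMap R T y}) (algebraMap R T r)) =
        ordD (Ideal.Quotient.mk (Ideal.span {y}) r))
    (b : T ⧸ Ideal.span {algebraMap R T y}) (hb : b ≠ 0) : 0 ≤ ordB b := by
  haveI : IsLocalRing T := isLocalRing_loc (t := t) (a := a) T
  haveI : IsNoetherianRing T := h.isNoetherianRing_loc (a := a) T
  obtain ⟨π, hπm, hπ⟩ := exists_maximalIdeal_eq_span_pair hy
  have hmT : maximalIdeal T = Ideal.span {algebraMap R T y, algebraMap R T π} := by
    rw [h.maximalIdeal_loc T ha ha', hπ, Ideal.map_span, Set.image_pair]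
  have hyT : algebraMap R T y ∈ maximalIdeal T := by
    rw [hmT]; exact Ideal.subset_span (by simp)
  haveI : Nontrivial (T ⧸ Ideal.span {algebraMap R T y}) := by
    rw [Ideal.Quotient.nontrivial_iff]
    intro htop
    have hle : Ideal.span {algebraMap R T y} ≤ maximalIdeal T := by
      rw [Ideal.span_singleton_le_iff_mem]; exact hyT
    rw [htop] at hle
    exact Ideal.IsPrime.ne_top' (top_le_iff.mp hle)
  haveI : IsLocalRing (T ⧸ Ideal.span {algebraMap R T y}) :=
    IsLocalRing.of_surjective' (Ideal.Quotient.mk _) Ideal.Quotient.mk_surjective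
  have hmB := maximalIdeal_quotient_eq_span hyT hmT
  obtain ⟨hdomB, -⟩ := h.quotient_loc T ha ha' hy
  obtain ⟨k, u, hu⟩ := exists_unit_mul_pow_of_maximalIdeal_eq_span hmB hb
  -- the unit `u` of `B` comes from a unit of `T`
  obtain ⟨x, hx⟩ := Ideal.Quotient.mk_surjective (u : T ⧸ Ideal.span {algebraMap R T y})
  have hxu : IsUnit x := by
    by_contra hnu
    have hxm : x ∈ maximalIdeal T := (IsLocalRing.mem_maximalIdeal x).mpr hnu
    rw [hmT, Ideal.mem_span_pair] at hxm
    obtain ⟨c, d, rfl⟩ := hxm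
    have : (u : T ⧸ Ideal.span {algebraMap R T y}) ∈
        maximalIdeal (T ⧸ Ideal.span {algebraMap R T y}) := by
      rw [← hx, hmB, map_add, map_mul, map_mul,
        Ideal.Quotient.eq_zero_iff_mem.mpr (Ideal.mem_span_singleton_self _), mul_zero, zero_add]
      exact Ideal.mul_mem_left _ _ (Ideal.mem_span_singleton_self _)
    exact (IsLocalRing.mem_maximalIdeal _).mp this u.isUnit
  obtain ⟨v, rfl⟩ := hxu
  have hordu : ordB (u : T ⧸ Ideal.span {algebraMap R T y}) = 0 := by
    rw [← hx]; exact hunitB v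
  by_cases hk : k = 0
  · rw [hu, hk, pow_zero, mul_one, hordu]
  · -- `ϖ ≠ 0`, so `π ∉ (y)` and `ordB ϖ = ordD π ≥ 0`
    have hϖ0 : Ideal.Quotient.mk (Ideal.span {algebraMap R T y}) (algebraMap R T π) ≠ 0 := by
      intro h0
      apply hb
      rw [hu, h0, zero_pow hk, mul_zero]
    have hπy : π ∉ Ideal.span {y} := by
      intro hmem
      apply hϖ0
      obtain ⟨c, rfl⟩ := Ideal.mem_span_singleton'.mp hmem
      rw [map_mul, Ideal.Quotient.eq_zero_iff_mem]
      exact Ideal.mul_mem_left _ _ (Ideal.mem_span_singleton_self _)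
    have hπD : Ideal.Quotient.mk (Ideal.span {y}) π ≠ 0 := by
      rwa [Ne, Ideal.Quotient.eq_zero_iff_mem]
    have hordϖ : 0 ≤ ordB (Ideal.Quotient.mk (Ideal.span {algebraMap R T y})
        (algebraMap R T π)) := by
      rw [hcompat π hπy]; exact hnonneg _ hπD
    have hpow : ∀ j : ℕ, 0 ≤ ordB ((u : T ⧸ Ideal.span {algebraMap R T y}) *
        Ideal.Quotient.mk (Ideal.span {algebraMap R T y}) (algebraMap R T π) ^ j) := by
      intro j
      induction j with
      | zero => rw [pow_zero, mul_one, hordu]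
      | succ j ih =>
        rw [pow_succ, ← mul_assoc, hmulB _ _ (mul_ne_zero u.ne_zero (pow_ne_zero _ hϖ0)) hϖ0]
        exact add_nonneg ih hordϖ
    rw [hu]
    exact hpow k

include hP in
/-- **The order function through a sheet.**  `φ : T →+* E` a ring homomorphism into a field
with `φ y = 0`, not zero on `𝔪`.  Every order function `ordD ≥ 0` on `D = R ⧸ (y)` induces
`ordE : E → ℤ`, additive on nonzero products in the subfield `fracRange φ`, nonnegative on
`φ T`, zero on the images of the units of `T`, equal to `ordD` on the image of `R`; and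
`φ a = 0 ↔ y ∣ a`. -/
theorem exists_ordE_loc [IsNoetherianRing R] (h : IsMonogenic t f)
    (ha : f.eval a ∈ maximalIdeal R) (ha' : f.derivative.eval a ∉ maximalIdeal R)
    {y : R} (hy : y ∈ maximalIdeal R)
    [IsDomain (R ⧸ Ideal.span {y})] [IsPrincipalIdealRing (R ⧸ Ideal.span {y})]
    (ordD : R ⧸ Ideal.span {y} → ℤ)
    (hmulD : ∀ x x' : R ⧸ Ideal.span {y}, x ≠ 0 → x' ≠ 0 → ordD (x * x') = ordD x + ordD x')
    (hunitD : ∀ u : Rˣ, ordD (Ideal.Quotient.mk (Ideal.span {y}) (u : R)) = 0)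
    (hnonneg : ∀ d : R ⧸ Ideal.span {y}, d ≠ 0 → 0 ≤ ordD d)
    {E : Type*} [Field E] (φ : T →+* E) (hφy : φ (algebraMap R T y) = 0)
    (hφne : ∃ r ∈ maximalIdeal R, φ (algebraMap R T r) ≠ 0) :
    (∀ x : T, φ x = 0 ↔ algebraMap R T y ∣ x) ∧
    ∃ ordE : E → ℤ,
      (∀ x x' : E, x ∈ fracRange φ → x' ∈ fracRange φ → x ≠ 0 → x' ≠ 0 →
        ordE (x * x') = ordE x + ordE x') ∧
      (∀ x : T, φ x ≠ 0 → 0 ≤ ordE (φ x)) ∧
      (∀ u : Tˣ, ordE (φ u) = 0) ∧
      (∀ r : R, φ (algebraMap R T r) ≠ 0 →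
        ordE (φ (algebraMap R T r)) = ordD (Ideal.Quotient.mk (Ideal.span {y}) r)) := by
  haveI : IsLocalRing T := isLocalRing_loc (t := t) (a := a) T
  obtain ⟨hdomB, hpidB⟩ := h.quotient_loc T ha ha' hy
  obtain ⟨ordB, hmulB, hunitB, hcompat⟩ := h.exists_ord_loc T ha ha' hy ordD hmulD hunitD
  have hnnB := h.ord_loc_nonneg T ha ha' hy ordD hnonneg ordB hmulB hunitB hcompat
  have hmT : maximalIdeal T = (maximalIdeal R).map (algebraMap R T) :=
    h.maximalIdeal_loc T ha ha'
  have hker : RingHom.ker φ = Ideal.span {algebraMap R T y} := by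
    refine ker_eq_span_of_quotient_pid φ hφy ?_
    obtain ⟨r, hr, hr'⟩ := hφne
    exact ⟨algebraMap R T r, by rw [hmT]; exact Ideal.mem_map_of_mem _ hr, hr'⟩
  have hzero : ∀ x : T, φ x = 0 ↔ algebraMap R T y ∣ x := by
    intro x
    rw [← RingHom.mem_ker, hker, Ideal.mem_span_singleton]
  have hmk : ∀ x : T, φ x ≠ 0 →
      Ideal.Quotient.mk (Ideal.span {algebraMap R T y}) x ≠ 0 := by
    intro x hx h0
    rw [Ideal.Quotient.eq_zero_iff_mem, ← hker, RingHom.mem_ker] at h0
    exact hx h0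
  obtain ⟨ordE, hE1, hE2, -⟩ := exists_ord_fracRange φ
    (fun x => ordB (Ideal.Quotient.mk (Ideal.span {algebraMap R T y}) x))
    (fun x x' hx hx' => by
      simp only [map_mul]
      exact hmulB _ _ (hmk x hx) (hmk x' hx'))
    (fun x x' _ hxx' => by
      congr 1
      rw [Ideal.Quotient.eq, ← hker, RingHom.mem_ker, map_sub, hxx', sub_self])
  refine ⟨hzero, ordE, hE1, ?_, ?_, ?_⟩
  · intro x hx
    rw [hE2 x hx]
    exact hnnB _ (hmk x hx)
  · intro u
    rw [hE2 _ (u.isUnit.map φ).ne_zero]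
    exact hunitB u
  · intro r hr
    rw [hE2 _ hr]
    apply hcompat
    intro hmem
    apply hr
    rw [hzero]
    obtain ⟨c, rfl⟩ := Ideal.mem_span_singleton'.mp hmem
    rw [map_mul]
    exact Dvd.intro_left _ rfl

end IsMonogenic

end OrdE

end Fermat.Agent.T8.helper33
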