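import Mathlib
import Fermat.Agent.T8.helper12_E1Ord
import Fermat.Agent.P2.helper28_CuspBar
import Fermat.Agent.S24.helper80_LocalEmb

/-!
# T8 = row 38 via S44, box [CUSP-GAP], leaf [CUSP-4] (helper35, second): the PLACE half

Transfer of "`n ∣ ord f₀` at every pole of `j̄`" from the level `M'` to the level `4 M'` along
`β̄₄ : FFb A M' → FFb A (4 M')`, `q ↦ q⁴` (special fibre, `A` over a prime `p ∤ 4 M'`).

* `thetaB A M`        : `Θ̄ = j̄(q^M)` as an element of `FFb A M`;
* `ord_thetaB_neg`    : **(A)** every pole of `j̄` on `FFb A M` is a pole of `Θ̄` (cusp dictionary of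
                        P2: the reduced coset expansions of `Θ` have order `-(a i)² < 0`);
* `ord_j4_neg`        : **(B)** every pole of `j̄` on `FFb A (4 M')` is a pole of `j̄(q⁴)`
                        (restriction to `FFb A 4` and (A) at level `4`; no symmetry of the modular
                        equation is used);
* `beta4Bar A M'`     : `β̄₄ : FFb A M' →ₐ FFb A (4 * M')`, `coe_beta4Bar` (`rfl`);
* `cusp4`             : **(C) = [CUSP-4]** a pole `Q` of `j̄` at level `4 M'` restricts to a pole `Q₀`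
                        of `j̄` at level `M'`, and `ord_Q (β̄₄ f₀) = e · ord_{Q₀} f₀`, `e > 0`;
* `dvd_ord_beta4`     : consumer form: `n ∣ ord_{Q₀} f₀` at every pole of `j̄` (level `M'`)
                        `⟹ n ∣ ord_Q (β̄₄ f₀)` at every pole of `j̄` (level `4 M'`);
* `dvd_ord_beta4_mul` : the same for `c · β̄₄ f₀ · g ^ n`.
-/

set_option autoImplicit false
set_option linter.unusedSectionVars false
set_option linter.unusedVariables false
set_option linter.style.longLine false
set_option linter.style.haveILetI false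
set_option synthInstance.maxHeartbeats 400000
set_option maxHeartbeats 1000000

noncomputable section

open ModularCurve AlgebraicCurve IntermediateField Polynomial

namespace Fermat.Agent.T8.helper35

open Fermat.Agent.S18.helper19 Fermat.Agent.P2.helper29

/-! ### (A) the full-level pole lemma -/

section FullLevel

variable (A : ValuationSubring Kb) (M : ℕ) [NeZero M]

/-- `Θ̄ = j̄(q^M)` as an element of the special fibre field of level `M` -/
def thetaB : FFb A M :=
  ⟨qExpand (kA A) M (jqModC (kA A)), jqModCd_mem_full (kA A) M dvd_rfl⟩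

theorem coe_thetaB :
    ((thetaB A M : FFb A M) : LaurentSeries (kA A)) = qExpand (kA A) M (jqModC (kA A)) := rfl

variable {A M}

/-- **(A)** every pole of `j̄` on the special fibre field of level `M` is a pole of
`Θ̄ = j̄(q^M)`. -/
theorem ord_thetaB_neg {ℓ : ℕ} (hℓ : ℓ.Prime) (hA : A.LiesOverPrime ℓ) (hM : ¬ ℓ ∣ M)
    (Q : Place (kA A) (FFb A M)) (hQ : Q.ord (jBar A M) < 0) :
    Q.ord (thetaB A M) < 0 := by
  obtain ⟨W, d, h1, h2, h3, h4, h5, h6, h7, h8⟩ :=
    Fermat.Agent.P2.helper28.cusp_dictionary_A (M := M) (A := A) hℓ hA hM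
  obtain ⟨i, rfl⟩ := h2 Q hQ
  have hs : Fermat.Agent.P2.helper28.sigmaA hℓ hA hM i (thetaB A M) =
      Fermat.Agent.P2.helper28.Eb (Fermat.Agent.P2.helper28.conjX M)
        (Fermat.Agent.P2.helper28.SA A) (Fermat.Agent.P2.helper28.rA A) i
        (Fermat.Agent.P2.helper28.ThS (Fermat.Agent.P2.helper28.conjX M)
          (Fermat.Agent.P2.helper28.SA A) (Fermat.Agent.P2.helper28.zetaC_mem_SA A M)
          (Fermat.Agent.P2.helper28.natCast_inv_mem_SA A hℓ hA M hM)) :=
    Fermat.Agent.P2.helper28.sigma_thetaBar (Fermat.Agent.P2.helper28.conjX M)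
      (Fermat.Agent.P2.helper28.SA A) (Fermat.Agent.P2.helper28.rA A)
      (Fermat.Agent.P2.helper28.zetaC_mem_SA A M)
      (Fermat.Agent.P2.helper28.natCast_inv_mem_SA A hℓ hA M hM)
      (Fermat.Agent.P2.helper28.rA_surjective A) i
  have ho := Fermat.Agent.P2.helper28.Eb_ThS_order (Fermat.Agent.P2.helper28.conjX M)
      (Fermat.Agent.P2.helper28.SA A) (Fermat.Agent.P2.helper28.rA A)
      (Fermat.Agent.P2.helper28.zetaC_mem_SA A M)
      (Fermat.Agent.P2.helper28.natCast_inv_mem_SA A hℓ hA M hM) i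
  have ha0 : (Fermat.Agent.P2.helper28.conjX M).a i ≠ 0 := by
    intro h0
    have := (Fermat.Agent.P2.helper28.conjX M).ha i
    rw [h0, zero_dvd_iff] at this
    exact NeZero.ne M this
  have hθ0 : thetaB A M ≠ 0 := by
    intro h0
    have h00 := congrArg (Fermat.Agent.P2.helper28.sigmaA hℓ hA hM i) h0
    rw [map_zero, hs] at h00
    rw [h00] at ho
    simp only [HahnSeries.order_zero] at ho
    have h3' : (0 : ℤ) < ((Fermat.Agent.P2.helper28.conjX M).a i : ℤ) ^ 2 := by positivity
    omega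
  have hv := h6 i (thetaB A M) hθ0
  have hne : Fermat.Agent.P2.helper28.sigmaA hℓ hA hM i (thetaB A M) ≠ 0 := by
    intro h00
    rw [hs] at h00
    rw [h00] at ho
    simp only [HahnSeries.order_zero] at ho
    have h3' : (0 : ℤ) < ((Fermat.Agent.P2.helper28.conjX M).a i : ℤ) ^ 2 := by positivity
    omega
  rw [Fermat.Agent.S24.helper80.laurent_valuation_eq_exp_neg_order hne, hs, ho] at hv
  have hv' := WithZero.exp_injective hv
  have h3' : (0 : ℤ) < ((Fermat.Agent.P2.helper28.conjX M).a i : ℤ) ^ 2 := by positivity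
  have hd0 : (0 : ℤ) ≤ (d i : ℤ) := Int.natCast_nonneg _
  by_contra hcon
  rw [not_lt] at hcon
  have : (0 : ℤ) ≤ (d i : ℤ) * (W i).ord (thetaB A M) := mul_nonneg hd0 hcon
  omega

end FullLevel

/-! ### Integrality of homomorphisms between special fibre fields -/

section Integral

variable (A : ValuationSubring Kb)

/-- every `k`-algebra homomorphism between special fibre fields (target of level prime to the
residue characteristic) is integral -/
theorem isIntegral_ffb {p : ℕ} (hp : p.Prime) (hA : A.LiesOverPrime p) {N N' : ℕ} [NeZero N]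
    [NeZero N'] (hpN' : ¬ p ∣ N') (φ : FFb A N →ₐ[kA A] FFb A N') :
    φ.toRingHom.IsIntegral := by
  haveI : Fact p.Prime := ⟨hp⟩
  haveI : IsAlgClosed (kA A) := Fermat.Agent.P2.helper74.isAlgClosed_residueField A
  haveI : FiniteDimensional (kA A)⟮Fermat.Agent.P2.helper81.xBar A N'⟯ (FFb A N') :=
    Fermat.Agent.P2.helper81.finiteDimensional_xBar A hA N' hpN'
  exact Fermat.Agent.T8.helper12.isIntegral_of_finiteAlongS φ
    (Fermat.Agent.T8.helper12.finiteAlong_of_ffS φ (Fermat.Agent.P2.helper81.xBar A N)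
      (Fermat.Agent.P2.helper81.transcendental_xBar A N) (Fermat.Agent.P2.helper81.xBar A N')
      (Fermat.Agent.P2.helper81.transcendental_xBar A N'))

/-- the ramification index along an integral homomorphism is positive -/
theorem ramificationIndexAlong_pos35 {K F F' : Type*} [Field K] [Field F] [Field F']
    [Algebra K F] [Algebra K F'] (φ : F →ₐ[K] F') (hφ : φ.toRingHom.IsIntegral)
    (w : Place K F') : 0 < Place.ramificationIndexAlong φ w := by
  letI := algebraAlong φ
  haveI := isScalarTower_along φ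
  haveI := isIntegral_along φ hφ
  exact Place.ramificationIndex_pos (F := F) w

/-- negativity of the order descends along an integral homomorphism -/
theorem ord_restrictAlong_neg_iff {K F F' : Type*} [Field K] [Field F] [Field F']
    [Algebra K F] [Algebra K F'] (φ : F →ₐ[K] F') (hφ : φ.toRingHom.IsIntegral)
    (w : Place K F') (f : F) :
    w.ord (φ f) < 0 ↔ (w.restrictAlong φ hφ).ord f < 0 := by
  have he := ramificationIndexAlong_pos35 φ hφ w
  have he' : (0 : ℤ) < (Place.ramificationIndexAlong φ w : ℤ) := by exact_mod_cast he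
  rw [Place.ord_restrictAlong φ hφ w f]
  constructor
  · intro h
    by_contra hcon
    rw [not_lt] at hcon
    have := mul_nonneg he'.le hcon
    omega
  · intro h
    exact mul_neg_of_pos_of_neg he' h

end Integral

/-! ### (B) the tower over level `4` -/

section Tower

variable (A : ValuationSubring Kb) (M' : ℕ) [NeZero M']

/-- the inclusion `FFb A 4 ⊆ FFb A (4 M')` -/
def alpha4Bar : FFb A 4 →ₐ[kA A] FFb A (4 * M') :=
  IntermediateField.inclusion (full_degeneracyC_le (kA A) (dvd_mul_right 4 M'))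

/-- `j̄(q⁴)` as an element of the special fibre field of level `4 M'` -/
def j4B : FFb A (4 * M') :=
  ⟨qExpand (kA A) 4 (jqModC (kA A)), jqModCd_mem_full (kA A) (4 * M') (dvd_mul_right 4 M')⟩

theorem coe_j4B :
    ((j4B A M' : FFb A (4 * M')) : LaurentSeries (kA A)) = qExpand (kA A) 4 (jqModC (kA A)) :=
  rfl

variable {A M'}

/-- **(B)** every pole of `j̄` on the special fibre field of level `4 M'` is a pole of
`j̄(q⁴)`. -/
theorem ord_j4_neg {p : ℕ} (hp : p.Prime) (hA : A.LiesOverPrime p) (hpN : ¬ p ∣ 4 * M')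
    (Q : Place (kA A) (FFb A (4 * M'))) (hQ : Q.ord (jBar A (4 * M')) < 0) :
    Q.ord (j4B A M') < 0 := by
  have hp4 : ¬ p ∣ 4 := fun h => hpN (h.mul_right M')
  have hα := isIntegral_ffb A hp hA hpN (alpha4Bar A M')
  have e1 : alpha4Bar A M' (jBar A 4) = jBar A (4 * M') := Subtype.ext rfl
  have e2 : alpha4Bar A M' (thetaB A 4) = j4B A M' := Subtype.ext rfl
  rw [← e1, ord_restrictAlong_neg_iff _ hα] at hQ
  rw [← e2, ord_restrictAlong_neg_iff _ hα]
  exact ord_thetaB_neg hp hA hp4 _ hQ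

end Tower

/-! ### (C) restriction along `β̄₄` -/

section Beta

variable (A : ValuationSubring Kb) (M' : ℕ) [NeZero M']

/-- `β̄₄ : FFb A M' → FFb A (4 M')`, `q ↦ q⁴` -/
def beta4Bar : FFb A M' →ₐ[kA A] FFb A (4 * M') :=
  ((qExpandAlgHomC (kA A) 4).comp (FFb A M').val).codRestrict (FFb A (4 * M')).toSubalgebra
    (fun x => full_degeneracyC_le (kA A) (dvd_of_eq (mul_comm M' 4))
      (full_degeneracyC_map_le (kA A) M' 4 ⟨x, x.2, rfl⟩))

theorem coe_beta4Bar (f : FFb A M') :
    ((beta4Bar A M' f : FFb A (4 * M')) : LaurentSeries (kA A)) =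
      qExpand (kA A) 4 (f : LaurentSeries (kA A)) :=
  rfl

theorem beta4Bar_jBar : beta4Bar A M' (jBar A M') = j4B A M' := Subtype.ext rfl

variable {A M'}

/-- **(C) = [CUSP-4], place form.**  A pole `Q` of `j̄` at level `4 M'` restricts along `β̄₄` to a
pole `Q₀` of `j̄` at level `M'`, and `ord_Q (β̄₄ f₀) = e · ord_{Q₀} f₀` with `e > 0`. -/
theorem cusp4 {p : ℕ} (hp : p.Prime) (hA : A.LiesOverPrime p) (hpN : ¬ p ∣ 4 * M')
    (Q : Place (kA A) (FFb A (4 * M'))) (hQ : Q.ord (jBar A (4 * M')) < 0) :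
    ∃ (Q₀ : Place (kA A) (FFb A M')) (e : ℕ), 0 < e ∧ Q₀.ord (jBar A M') < 0 ∧
      ∀ f₀ : FFb A M', Q.ord (beta4Bar A M' f₀) = (e : ℤ) * Q₀.ord f₀ := by
  have hβ := isIntegral_ffb A hp hA hpN (beta4Bar A M')
  refine ⟨Q.restrictAlong (beta4Bar A M') hβ, Place.ramificationIndexAlong (beta4Bar A M') Q,
    ramificationIndexAlong_pos35 _ hβ Q, ?_, fun f₀ => Place.ord_restrictAlong _ hβ Q f₀⟩
  rw [← ord_restrictAlong_neg_iff _ hβ, beta4Bar_jBar]
  exact ord_j4_neg hp hA hpN Q hQ

/-- **[CUSP-4], consumer form.**  If `n` divides the order of `f₀` at every pole of `j̄` (level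
`M'`), then `n` divides the order of `β̄₄ f₀ = f₀(q⁴)` at every pole of `j̄` (level `4 M'`). -/
theorem dvd_ord_beta4 {p : ℕ} (hp : p.Prime) (hA : A.LiesOverPrime p) (hpN : ¬ p ∣ 4 * M')
    (n : ℤ) (f₀ : FFb A M')
    (h : ∀ Q₀ : Place (kA A) (FFb A M'), Q₀.ord (jBar A M') < 0 → n ∣ Q₀.ord f₀)
    (Q : Place (kA A) (FFb A (4 * M'))) (hQ : Q.ord (jBar A (4 * M')) < 0) :
    n ∣ Q.ord (beta4Bar A M' f₀) := by
  obtain ⟨Q₀, e, -, hQ₀, hord⟩ := cusp4 hp hA hpN Q hQ
  rw [hord f₀]
  exact Dvd.dvd.mul_left (h Q₀ hQ₀) _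

/-- **[CUSP-4], consumer form with the Kummer ambiguity**: the same for
`f = c · β̄₄ f₀ · g ^ n`. -/
theorem dvd_ord_beta4_mul {p : ℕ} (hp : p.Prime) (hA : A.LiesOverPrime p) (hpN : ¬ p ∣ 4 * M')
    (n : ℕ) (f₀ : FFb A M')
    (h : ∀ Q₀ : Place (kA A) (FFb A M'), Q₀.ord (jBar A M') < 0 → (n : ℤ) ∣ Q₀.ord f₀)
    (c : kA A) (g f : FFb A (4 * M')) (hf0 : f ≠ 0)
    (hf : f = algebraMap (kA A) (FFb A (4 * M')) c * beta4Bar A M' f₀ * g ^ n)
    (Q : Place (kA A) (FFb A (4 * M'))) (hQ : Q.ord (jBar A (4 * M')) < 0) :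
    (n : ℤ) ∣ Q.ord f := by
  have hc0 : algebraMap (kA A) (FFb A (4 * M')) c ≠ 0 := by
    intro h0
    apply hf0
    rw [hf, h0, zero_mul, zero_mul]
  have hb0 : beta4Bar A M' f₀ ≠ 0 := by
    intro h0
    apply hf0
    rw [hf, h0, mul_zero, zero_mul]
  have hg0 : g ^ n ≠ 0 := by
    intro h0
    apply hf0
    rw [hf, h0, mul_zero]
  rw [hf, Place.ord_mul _ (mul_ne_zero hc0 hb0) hg0, Place.ord_mul _ hc0 hb0,
    Fermat.Agent.P3.helper94.ord_algebraMap_eq_zero, zero_add,
    Fermat.Agent.P3.helper94.ord_pow]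
  exact dvd_add (dvd_ord_beta4 hp hA hpN n f₀ h Q hQ) (Dvd.intro _ rfl)

end Beta

end Fermat.Agent.T8.helper35

end
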