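import Fermat.Agent.S05.Formal
import Fermat.Agent.S05.helper6_Vieta

/-!
# T8 [W-MULT] (b), helper35: depth of the `p`-torsion in the kernel of reduction, by the toric
coordinate (no formal group)

Model `y² = x³ + a₂ x² + a₄ x` (`IsTwoNF`) over a valued field, `β ^ 2 = a₂`, `v 2 = 1`,
`v a₂ = 1`, `v a₄ ≤ 1`.  The *toric coordinate* of an affine point is
`nu P = (y - β x) / (y + β x)` (`nu 0 = 1`).

* `toric_prod`            : for the three points of a line `y = ℓ x + κ` (Vieta relations),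
                            `∏ ((ℓ - β) xᵢ + κ) = κ (κ² + a₄ (ℓ - β)²)`           (exact identity);
* `IsTwoNF.nu_triple`     : `P₁ + P₂ + P₃ = 0` in the kernel of reduction `E₁`  ⟹
                            `v (nu P₁ * nu P₂ * nu P₃ - 1) ≤ v a₄ * v (t P₁)`;
* `IsTwoNF.nu_nsmul`      : `v (nu (k • Q) - nu Q ^ k) ≤ v a₄ * v (t Q)` for `Q ∈ E₁`;
* `val_one_add_pow_sub_one`: `v ((1 + δ) ^ p - 1) = v p * v δ` if `v δ ^ (p - 1) < v p`;
* `IsTwoNF.E1_torsion_depth` : `Q ∈ E₁`, `Q ≠ 0`, `p • Q = 0`, `v a₄ < v p`  ⟹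
                            `v p ≤ v (t Q) ^ (p - 1)`   (the point is not deeper than `ζ_p - 1`).
-/

set_option autoImplicit false
set_option linter.unusedSectionVars false
set_option linter.unusedVariables false

namespace Fermat.Agent.T8.helper35

open WeierstrassCurve WeierstrassCurve.Affine
open Fermat.Agent.S05

section Algebra

variable {K : Type*} [Field K]

/-- the exact identity behind the toric coordinate -/
lemma toric_prod (a b β ℓ κ x₁ x₂ x₃ : K) (hβ : β ^ 2 = a)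
    (e1 : x₁ + x₂ + x₃ = ℓ ^ 2 - a) (e2 : x₁ * x₂ + x₁ * x₃ + x₂ * x₃ = b - 2 * ℓ * κ)
    (e3 : x₁ * x₂ * x₃ = κ ^ 2) :
    ((ℓ - β) * x₁ + κ) * ((ℓ - β) * x₂ + κ) * ((ℓ - β) * x₃ + κ) =
      κ * (κ ^ 2 + b * (ℓ - β) ^ 2) := by
  linear_combination (ℓ - β) ^ 3 * e3 + (ℓ - β) ^ 2 * κ * e2 + (ℓ - β) * κ ^ 2 * e1 +
    κ ^ 2 * (ℓ - β) * hβ

lemma toric_prod' (a b β ℓ κ x₁ x₂ x₃ : K) (hβ : β ^ 2 = a)
    (e1 : x₁ + x₂ + x₃ = ℓ ^ 2 - a) (e2 : x₁ * x₂ + x₁ * x₃ + x₂ * x₃ = b - 2 * ℓ * κ)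
    (e3 : x₁ * x₂ * x₃ = κ ^ 2) :
    ((ℓ + β) * x₁ + κ) * ((ℓ + β) * x₂ + κ) * ((ℓ + β) * x₃ + κ) =
      κ * (κ ^ 2 + b * (ℓ + β) ^ 2) := by
  have := toric_prod a b (-β) ℓ κ x₁ x₂ x₃ (by rw [neg_sq]; exact hβ) e1 e2 e3
  simpa only [sub_neg_eq_add] using this

end Algebra

section Val

variable {K : Type*} [Field K] [DecidableEq K]
variable {Γ₀ : Type*} [LinearOrderedCommGroupWithZero Γ₀]
variable (v : Valuation K Γ₀) {W : Affine K}

lemma le_of_sq_le_sq' {a b : Γ₀} (h : a ^ 2 ≤ b ^ 2) : a ≤ b := by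
  by_contra hlt
  rw [not_le] at hlt
  exact absurd h (not_le.mpr (pow_lt_pow_left₀ hlt zero_le (by norm_num)))

/-- for a point of the kernel of reduction, `v x < v y` -/
lemma val_x_lt_val_y (hW : IsTwoNF W) (ha : v W.a₂ ≤ 1) (hb : v W.a₄ ≤ 1)
    {x y : K} (h : W.Nonsingular x y) (hx : 1 < v x) : v x < v y := by
  have hα := hW.val_alpha_sq_of_one_lt v ha hb h hx
  have hα1 : 1 < v (y / x) := one_lt_of_one_lt_sq (by rw [hα]; exact hx)
  have hx0 : x ≠ 0 := ne_zero_of_one_lt_val v hx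
  have hxpos : 0 < v x := val_pos v hx0
  have : v y = v (y / x) * v x := by
    rw [← map_mul]; congr 1; field_simp
  rw [this]
  exact lt_mul_of_one_lt_left hxpos hα1

/-- for a point of the kernel of reduction, `v (x / y) ^ 2 * v x = 1` -/
lemma val_t_sq_mul (hW : IsTwoNF W) (ha : v W.a₂ ≤ 1) (hb : v W.a₄ ≤ 1)
    {x y : K} (h : W.Nonsingular x y) (hx : 1 < v x) : v (x / y) ^ 2 * v x = 1 := by
  have hα := hW.val_alpha_sq_of_one_lt v ha hb h hx
  have hx0 : x ≠ 0 := ne_zero_of_one_lt_val v hx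
  have hy0 : y ≠ 0 := by
    have := val_x_lt_val_y v hW ha hb h hx
    rintro rfl
    simp at this
  rw [← hα, ← mul_pow, ← map_mul]
  have : x / y * (y / x) = 1 := by field_simp
  rw [this, map_one, one_pow]

lemma val_beta_le_one {a β : K} (hβ : β ^ 2 = a) (ha : v a ≤ 1) : v β ≤ 1 := by
  apply le_one_of_sq_le_one
  rw [← map_pow, hβ]; exact ha

/-- for a point of the kernel of reduction, `v (y ± β x) = v y` -/
lemma val_y_add (hW : IsTwoNF W) (ha : v W.a₂ ≤ 1) (hb : v W.a₄ ≤ 1)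
    {β : K} (hβ : v β ≤ 1) {x y : K} (h : W.Nonsingular x y) (hx : 1 < v x) :
    v (y + β * x) = v y := by
  apply v.map_add_eq_of_lt_left
  rw [map_mul]
  calc v β * v x ≤ 1 * v x := by gcongr
    _ = v x := one_mul _
    _ < v y := val_x_lt_val_y v hW ha hb h hx

lemma val_y_sub (hW : IsTwoNF W) (ha : v W.a₂ ≤ 1) (hb : v W.a₄ ≤ 1)
    {β : K} (hβ : v β ≤ 1) {x y : K} (h : W.Nonsingular x y) (hx : 1 < v x) :
    v (y - β * x) = v y := by
  have := val_y_add v hW ha hb (β := -β) (by rw [Valuation.map_neg]; exact hβ) h hx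
  rw [neg_mul, ← sub_eq_add_neg] at this
  exact this

/-- **the toric estimate for a collinear triple in the kernel of reduction** -/
lemma triple_val (hW : IsTwoNF W) (ha : v W.a₂ ≤ 1) (hb : v W.a₄ ≤ 1) {β : K}
    (hβ : β ^ 2 = W.a₂) {x₁ y₁ x₂ y₂ x₃ y₃ : K} (h₁ : W.Nonsingular x₁ y₁)
    (h₂ : W.Nonsingular x₂ y₂) (h₃ : W.Nonsingular x₃ y₃)
    (hx₁ : 1 < v x₁) (hx₂ : 1 < v x₂) (hx₃ : 1 < v x₃)
    (hsum : Point.some x₁ y₁ h₁ + Point.some x₂ y₂ h₂ + Point.some x₃ y₃ h₃ = 0) :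
    v ((y₁ - β * x₁) * (y₂ - β * x₂) * (y₃ - β * x₃) -
        (y₁ + β * x₁) * (y₂ + β * x₂) * (y₃ + β * x₃)) ≤
      v W.a₄ * v (x₁ / y₁) * v ((y₁ + β * x₁) * (y₂ + β * x₂) * (y₃ + β * x₃)) := by
  obtain ⟨ℓ, κ, hy₁, hy₂, hy₃, e1, e2, e3⟩ := helper6.vieta_of_add_eq_zero h₁ h₂ h₃ hsum
  rw [hW.a₁, hW.a₃, hW.a₆] at *
  simp only [zero_mul, add_zero, sub_zero] at e1 e2 e3
  have hvβ : v β ≤ 1 := val_beta_le_one v hβ ha
  have Pm := toric_prod W.a₂ W.a₄ β ℓ κ x₁ x₂ x₃ hβ e1 e2 e3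
  have Pp := toric_prod' W.a₂ W.a₄ β ℓ κ x₁ x₂ x₃ hβ e1 e2 e3
  have hU : (y₁ - β * x₁) * (y₂ - β * x₂) * (y₃ - β * x₃) =
      κ * (κ ^ 2 + W.a₄ * (ℓ - β) ^ 2) := by
    rw [hy₁, hy₂, hy₃]; linear_combination Pm
  have hV : (y₁ + β * x₁) * (y₂ + β * x₂) * (y₃ + β * x₃) =
      κ * (κ ^ 2 + W.a₄ * (ℓ + β) ^ 2) := by
    rw [hy₁, hy₂, hy₃]; linear_combination Pp
  have hdiff : (y₁ - β * x₁) * (y₂ - β * x₂) * (y₃ - β * x₃) -
      (y₁ + β * x₁) * (y₂ + β * x₂) * (y₃ + β * x₃) = -(4 * β * (ℓ * W.a₄ * κ)) := by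
    rw [hU, hV]; ring
  -- valuations
  have hX₁ : 0 < v x₁ := lt_trans zero_lt_one hx₁
  have hX₂ : 0 < v x₂ := lt_trans zero_lt_one hx₂
  have hX₃ : 0 < v x₃ := lt_trans zero_lt_one hx₃
  have hκ2 : v κ ^ 2 = v x₁ * v x₂ * v x₃ := by
    rw [← map_pow, ← e3, map_mul, map_mul]
  have h23 : 1 < v x₂ * v x₃ := by
    calc (1 : Γ₀) = 1 * 1 := (one_mul 1).symm
      _ < v x₂ * v x₃ := mul_lt_mul'' hx₂ hx₃ zero_le zero_le
  have h13 : 1 < v x₁ * v x₃ := by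
    calc (1 : Γ₀) = 1 * 1 := (one_mul 1).symm
      _ < v x₁ * v x₃ := mul_lt_mul'' hx₁ hx₃ zero_le zero_le
  have h12 : 1 < v x₁ * v x₂ := by
    calc (1 : Γ₀) = 1 * 1 := (one_mul 1).symm
      _ < v x₁ * v x₂ := mul_lt_mul'' hx₁ hx₂ zero_le zero_le
  have hPi1 : v x₁ < v κ ^ 2 := by
    rw [hκ2, mul_assoc]
    exact lt_mul_of_one_lt_right hX₁ h23
  have hPi2 : v x₂ < v κ ^ 2 := by
    rw [hκ2]
    calc v x₂ < (v x₁ * v x₃) * v x₂ := lt_mul_of_one_lt_left hX₂ h13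
      _ = v x₁ * v x₂ * v x₃ := by ac_rfl
  have hPi3 : v x₃ < v κ ^ 2 := by
    rw [hκ2]
    exact lt_mul_of_one_lt_left hX₃ h12
  have hPi0 : 1 < v κ ^ 2 := lt_trans hx₁ hPi1
  have hκpos : 0 < v κ := by
    rw [zero_lt_iff]
    intro h0
    rw [h0] at hPi0
    simp at hPi0
  -- the slope
  have hℓ2 : v ℓ ^ 2 ≤ v x₁ ∨ v ℓ ^ 2 ≤ v x₂ ∨ v ℓ ^ 2 ≤ v x₃ := by
    have e : ℓ ^ 2 = x₁ + x₂ + x₃ + W.a₂ := by linear_combination -e1
    rw [← map_pow, e]
    rcases v.map_add' (x₁ + x₂ + x₃) W.a₂ with h | h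
    · rcases v.map_add' (x₁ + x₂) x₃ with h' | h'
      · rcases v.map_add' x₁ x₂ with h'' | h''
        · exact Or.inl (h.trans (h'.trans h''))
        · exact Or.inr (Or.inl (h.trans (h'.trans h'')))
      · exact Or.inr (Or.inr (h.trans h'))
    · exact Or.inl (h.trans (ha.trans hx₁.le))
  have hℓPi : v ℓ ^ 2 < v κ ^ 2 := by
    rcases hℓ2 with h | h | h
    · exact lt_of_le_of_lt h hPi1
    · exact lt_of_le_of_lt h hPi2
    · exact lt_of_le_of_lt h hPi3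
  have hD : v (κ ^ 2 + W.a₄ * (ℓ + β) ^ 2) = v κ ^ 2 := by
    rw [← map_pow]
    apply v.map_add_eq_of_lt_left
    rw [map_mul, map_pow, map_pow]
    have h1 : v (ℓ + β) ^ 2 < v κ ^ 2 := by
      rcases v.map_add' ℓ β with h | h
      · exact lt_of_le_of_lt (pow_le_pow_left₀ zero_le h 2) hℓPi
      · exact lt_of_le_of_lt (pow_le_one₀ zero_le (h.trans hvβ)) hPi0
    calc v W.a₄ * v (ℓ + β) ^ 2 ≤ 1 * v (ℓ + β) ^ 2 := by gcongr
      _ = v (ℓ + β) ^ 2 := one_mul _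
      _ < v κ ^ 2 := h1
  have hvV : v ((y₁ + β * x₁) * (y₂ + β * x₂) * (y₃ + β * x₃)) = v κ * v κ ^ 2 := by
    rw [hV, map_mul, hD]
  -- the key inequality `v ℓ ≤ v t₁ * v κ ^ 2`
  have ht := val_t_sq_mul v hW ha hb h₁ hx₁
  have hkey : v ℓ ≤ v (x₁ / y₁) * v κ ^ 2 := by
    apply le_of_sq_le_sq'
    have e : (v (x₁ / y₁) * v κ ^ 2) ^ 2 = v κ ^ 2 * (v x₂ * v x₃) := by
      calc (v (x₁ / y₁) * v κ ^ 2) ^ 2 = v (x₁ / y₁) ^ 2 * (v κ ^ 2 * v κ ^ 2) := by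
            rw [mul_pow, pow_two (v κ ^ 2)]
        _ = v (x₁ / y₁) ^ 2 * (v κ ^ 2 * (v x₁ * v x₂ * v x₃)) := by rw [hκ2]
        _ = (v (x₁ / y₁) ^ 2 * v x₁) * (v κ ^ 2 * (v x₂ * v x₃)) := by ac_rfl
        _ = v κ ^ 2 * (v x₂ * v x₃) := by rw [ht, one_mul]
    rw [e]
    calc v ℓ ^ 2 ≤ v κ ^ 2 := hℓPi.le
      _ = v κ ^ 2 * 1 := (mul_one _).symm
      _ ≤ v κ ^ 2 * (v x₂ * v x₃) := by gcongr
  have h4β : v (4 * β) ≤ 1 := by
    rw [map_mul]
    have h4 : v (4 : K) ≤ 1 := by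
      have := val_natCast_le_one v 4
      simpa using this
    calc v 4 * v β ≤ 1 * 1 := by gcongr
      _ = 1 := one_mul 1
  have e : v (4 * β * (ℓ * W.a₄ * κ)) = v (4 * β) * (v ℓ * v W.a₄ * v κ) := by
    rw [map_mul v (4 * β), map_mul v (ℓ * W.a₄), map_mul v ℓ]
  rw [hdiff, hvV, Valuation.map_neg, e]
  calc v (4 * β) * (v ℓ * v W.a₄ * v κ) ≤ 1 * (v ℓ * v W.a₄ * v κ) := by gcongr
    _ = v W.a₄ * v ℓ * v κ := by rw [one_mul]; ac_rfl
    _ ≤ v W.a₄ * (v (x₁ / y₁) * v κ ^ 2) * v κ := by gcongr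
    _ = v W.a₄ * v (x₁ / y₁) * (v κ * v κ ^ 2) := by ac_rfl

/-- the toric coordinate `(y - β x) / (y + β x)` -/
def nu (β : K) : W.Point → K
  | .zero => 1
  | .some x y _ => (y - β * x) / (y + β * x)

@[simp] lemma nu_zero (β : K) : nu β (0 : W.Point) = 1 := rfl

@[simp] lemma nu_some (β : K) {x y : K} (h : W.Nonsingular x y) :
    nu β (Point.some x y h) = (y - β * x) / (y + β * x) := rfl

lemma nu_neg (hW : IsTwoNF W) (β : K) (P : W.Point) : nu β (-P) = (nu β P)⁻¹ := by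
  rcases P with _ | ⟨x, y, h⟩
  · show nu β (-(0 : W.Point)) = (nu β (0 : W.Point))⁻¹
    rw [neg_zero, nu_zero, inv_one]
  · rw [Point.neg_some, nu_some, nu_some, hW.negY, inv_div]
    have e1 : -y - β * x = -(y + β * x) := by ring
    have e2 : -y + β * x = -(y - β * x) := by ring
    rw [e1, e2, neg_div_neg_eq]

lemma inE1_neg' (hW : IsTwoNF W) {P : W.Point} (h : InE1 v P) : InE1 v (-P) := by
  rcases h with rfl | ⟨x, y, h, rfl, hx⟩
  · rw [neg_zero]; exact Or.inl rfl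
  · rw [Point.neg_some]
    exact Or.inr ⟨x, _, _, rfl, hx⟩

lemma inE1_add' (hW : IsTwoNF W) (ha : v W.a₂ ≤ 1) (hb : v W.a₄ ≤ 1) {P Q : W.Point}
    (hP : InE1 v P) (hQ : InE1 v Q) : InE1 v (P + Q) :=
  (hW.E1_add v ha hb hP hQ (r := 1) zero_lt_one
    (by
      rcases hP with rfl | ⟨x, y, h, rfl, hx⟩
      · simp
      · rw [tC_some]
        have := val_t_sq_mul v hW ha hb h hx
        apply le_one_of_sq_le_one
        by_contra hcon
        rw [not_le] at hcon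
        have h1 : (1 : Γ₀) < v (x / y) ^ 2 * v x := by
          calc (1 : Γ₀) = 1 * 1 := (one_mul 1).symm
            _ < v (x / y) ^ 2 * v x := mul_lt_mul'' hcon hx zero_le zero_le
        rw [this] at h1
        exact lt_irrefl _ h1)
    (by
      rcases hQ with rfl | ⟨x, y, h, rfl, hx⟩
      · simp
      · rw [tC_some]
        have := val_t_sq_mul v hW ha hb h hx
        apply le_one_of_sq_le_one
        by_contra hcon
        rw [not_le] at hcon
        have h1 : (1 : Γ₀) < v (x / y) ^ 2 * v x := by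
          calc (1 : Γ₀) = 1 * 1 := (one_mul 1).symm
            _ < v (x / y) ^ 2 * v x := mul_lt_mul'' hcon hx zero_le zero_le
        rw [this] at h1
        exact lt_irrefl _ h1)).1

lemma inE1_nsmul' (hW : IsTwoNF W) (ha : v W.a₂ ≤ 1) (hb : v W.a₄ ≤ 1) {P : W.Point}
    (hP : InE1 v P) (k : ℕ) : InE1 v (k • P) := by
  induction k with
  | zero => rw [zero_smul]; exact Or.inl rfl
  | succ k ih => rw [succ_nsmul]; exact inE1_add' v hW ha hb ih hP

/-- the toric coordinate of a point of the kernel of reduction is a unit -/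
lemma val_nu (hW : IsTwoNF W) (ha : v W.a₂ ≤ 1) (hb : v W.a₄ ≤ 1) {β : K} (hβ : v β ≤ 1)
    {P : W.Point} (hP : InE1 v P) : v (nu β P) = 1 := by
  rcases hP with rfl | ⟨x, y, h, rfl, hx⟩
  · simp
  · rw [nu_some, map_div₀, val_y_add v hW ha hb hβ h hx, val_y_sub v hW ha hb hβ h hx]
    have hy : 0 < v y := lt_trans (lt_trans zero_lt_one hx) (val_x_lt_val_y v hW ha hb h hx)
    exact div_self hy.ne'

/-- the toric coordinate is congruent to `1` exactly to the order of `t` -/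
lemma val_nu_sub_one (hW : IsTwoNF W) (ha : v W.a₂ ≤ 1) (hb : v W.a₄ ≤ 1) {β : K}
    (hβ : v β = 1) (hv2 : v 2 = 1) {P : W.Point} (hP : InE1 v P) :
    v (nu β P - 1) = v (tC P) := by
  rcases hP with rfl | ⟨x, y, h, rfl, hx⟩
  · simp
  · have hy : 0 < v y := lt_trans (lt_trans zero_lt_one hx) (val_x_lt_val_y v hW ha hb h hx)
    have hV := val_y_add v hW ha hb hβ.le h hx
    have hV0 : y + β * x ≠ 0 := by
      intro h0
      rw [h0, map_zero] at hV
      exact hy.ne' hV.symm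
    have e : nu β (Point.some x y h) - 1 = -(2 * β * x) / (y + β * x) := by
      rw [nu_some]; field_simp; ring
    rw [e, tC_some, map_div₀, map_div₀, hV, Valuation.map_neg, map_mul, map_mul, hv2, hβ,
      one_mul, one_mul]

/-- **the toric coordinate is multiplicative on the kernel of reduction up to `a₄`** -/
lemma nu_triple (hW : IsTwoNF W) (ha : v W.a₂ ≤ 1) (hb : v W.a₄ ≤ 1) {β : K}
    (hβ : β ^ 2 = W.a₂) {P₁ P₂ P₃ : W.Point} (h₁ : InE1 v P₁) (h₂ : InE1 v P₂)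
    (h₃ : InE1 v P₃) (n₁ : P₁ ≠ 0) (n₂ : P₂ ≠ 0) (n₃ : P₃ ≠ 0) (hsum : P₁ + P₂ + P₃ = 0) :
    v (nu β P₁ * nu β P₂ * nu β P₃ - 1) ≤ v W.a₄ * v (tC P₁) := by
  rcases h₁ with rfl | ⟨x₁, y₁, h₁, rfl, hx₁⟩
  · exact absurd rfl n₁
  rcases h₂ with rfl | ⟨x₂, y₂, h₂, rfl, hx₂⟩
  · exact absurd rfl n₂
  rcases h₃ with rfl | ⟨x₃, y₃, h₃, rfl, hx₃⟩
  · exact absurd rfl n₃
  have hvβ : v β ≤ 1 := val_beta_le_one v hβ ha
  have key := triple_val v hW ha hb hβ h₁ h₂ h₃ hx₁ hx₂ hx₃ hsum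
  have hy₁ : 0 < v y₁ := lt_trans (lt_trans zero_lt_one hx₁) (val_x_lt_val_y v hW ha hb h₁ hx₁)
  have hy₂ : 0 < v y₂ := lt_trans (lt_trans zero_lt_one hx₂) (val_x_lt_val_y v hW ha hb h₂ hx₂)
  have hy₃ : 0 < v y₃ := lt_trans (lt_trans zero_lt_one hx₃) (val_x_lt_val_y v hW ha hb h₃ hx₃)
  have hV₁ := val_y_add v hW ha hb hvβ h₁ hx₁
  have hV₂ := val_y_add v hW ha hb hvβ h₂ hx₂
  have hV₃ := val_y_add v hW ha hb hvβ h₃ hx₃
  have hV₁0 : y₁ + β * x₁ ≠ 0 := by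
    intro h0; rw [h0, map_zero] at hV₁; exact hy₁.ne' hV₁.symm
  have hV₂0 : y₂ + β * x₂ ≠ 0 := by
    intro h0; rw [h0, map_zero] at hV₂; exact hy₂.ne' hV₂.symm
  have hV₃0 : y₃ + β * x₃ ≠ 0 := by
    intro h0; rw [h0, map_zero] at hV₃; exact hy₃.ne' hV₃.symm
  have hVpos : 0 < v ((y₁ + β * x₁) * (y₂ + β * x₂) * (y₃ + β * x₃)) := by
    rw [map_mul, map_mul, hV₁, hV₂, hV₃]
    exact mul_pos (mul_pos hy₁ hy₂) hy₃
  have e : nu β (Point.some x₁ y₁ h₁) * nu β (Point.some x₂ y₂ h₂) * nu β (Point.some x₃ y₃ h₃)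
      - 1 = ((y₁ - β * x₁) * (y₂ - β * x₂) * (y₃ - β * x₃) -
        (y₁ + β * x₁) * (y₂ + β * x₂) * (y₃ + β * x₃)) /
        ((y₁ + β * x₁) * (y₂ + β * x₂) * (y₃ + β * x₃)) := by
    simp only [nu_some]; field_simp
  rw [e, map_div₀, tC_some, div_le_iff₀ hVpos]
  exact key

/-- **the toric coordinate of a multiple** -/
lemma nu_nsmul (hW : IsTwoNF W) (ha : v W.a₂ ≤ 1) (hb : v W.a₄ ≤ 1) {β : K}
    (hβ : β ^ 2 = W.a₂) {Q : W.Point} (hQ : InE1 v Q) (k : ℕ) :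
    v (nu β (k • Q) - nu β Q ^ k) ≤ v W.a₄ * v (tC Q) := by
  have hvβ : v β ≤ 1 := val_beta_le_one v hβ ha
  have hνQ : v (nu β Q) = 1 := val_nu v hW ha hb hvβ hQ
  have hνQ0 : nu β Q ≠ 0 := ne_zero_of_val_eq_one v hνQ
  induction k with
  | zero => simp
  | succ k ih =>
    have hR : InE1 v (k • Q) := inE1_nsmul' v hW ha hb hQ k
    have hS : InE1 v (k • Q + Q) := inE1_add' v hW ha hb hR hQ
    rw [succ_nsmul]
    by_cases hQ0 : Q = 0
    · subst hQ0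
      simp
    by_cases hR0 : k • Q = 0
    · rw [hR0, zero_add]
      rw [hR0, nu_zero] at ih
      have e : nu β Q - nu β Q ^ (k + 1) = nu β Q * (1 - nu β Q ^ k) := by ring
      rw [e, map_mul, hνQ, one_mul]
      exact ih
    by_cases hS0 : k • Q + Q = 0
    · rw [hS0, nu_zero]
      have hRQ : k • Q = -Q := eq_neg_of_add_eq_zero_left hS0
      rw [hRQ, nu_neg hW] at ih
      have e : 1 - nu β Q ^ (k + 1) = nu β Q * ((nu β Q)⁻¹ - nu β Q ^ k) := by
        field_simp; ring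
      rw [e, map_mul, hνQ, one_mul]
      exact ih
    · have hνS : v (nu β (k • Q + Q)) = 1 := val_nu v hW ha hb hvβ hS
      have hνS0 : nu β (k • Q + Q) ≠ 0 := ne_zero_of_val_eq_one v hνS
      have hnS : -(k • Q + Q) ≠ 0 := neg_ne_zero.mpr hS0
      have hsum : Q + k • Q + -(k • Q + Q) = 0 := by abel
      have key := nu_triple v hW ha hb hβ hQ hR (inE1_neg' v hW hS) hQ0 hR0 hnS hsum
      rw [nu_neg hW] at key
      have e1 : nu β Q * nu β (k • Q) - nu β (k • Q + Q) =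
          nu β (k • Q + Q) * (nu β Q * nu β (k • Q) * (nu β (k • Q + Q))⁻¹ - 1) := by
        field_simp
      have h1 : v (nu β Q * nu β (k • Q) - nu β (k • Q + Q)) ≤ v W.a₄ * v (tC Q) := by
        rw [e1, map_mul, hνS, one_mul]; exact key
      have e2 : nu β (k • Q + Q) - nu β Q ^ (k + 1) =
          -(nu β Q * nu β (k • Q) - nu β (k • Q + Q)) +
            nu β Q * (nu β (k • Q) - nu β Q ^ k) := by ring
      rw [e2]
      apply v.map_add_le
      · rw [Valuation.map_neg]; exact h1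
      · rw [map_mul, hνQ, one_mul]; exact ih

/-- **`p`-th powers of deep one-units**: if `v δ ^ (p - 1) < v p` then
`v ((1 + δ) ^ p - 1) = v p * v δ`. -/
lemma val_one_add_pow_sub_one {p : ℕ} (hp : p.Prime) {δ : K} (hδ1 : v δ < 1)
    (hdeep : v δ ^ (p - 1) < v (p : K)) : v ((1 + δ) ^ p - 1) = v (p : K) * v δ := by
  by_cases hδ0 : δ = 0
  · subst hδ0; simp
  have hr : 0 < v δ := val_pos v hδ0
  have hvp : 0 < v (p : K) := lt_of_le_of_lt zero_le hdeep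
  obtain ⟨n, hn⟩ : ∃ n, p = n + 2 := ⟨p - 2, by have := hp.two_le; omega⟩
  have hexp : (1 + δ) ^ p - 1 = (p : K) * δ +
      ∑ m ∈ Finset.range (n + 1), δ ^ (m + 2) * ((p.choose (m + 2) : ℕ) : K) := by
    rw [add_comm 1 δ, add_pow, hn, Finset.sum_range_succ', Finset.sum_range_succ']
    simp only [one_pow, mul_one, pow_zero, Nat.choose_zero_right, Nat.cast_one, zero_add,
      pow_one, Nat.choose_one_right]
    push_cast
    ring
  have hsum : v (∑ m ∈ Finset.range (n + 1), δ ^ (m + 2) * ((p.choose (m + 2) : ℕ) : K)) <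
      v (p : K) * v δ := by
    apply Valuation.map_sum_lt v (mul_pos hvp hr).ne'
    intro m hm
    rw [Finset.mem_range] at hm
    rw [map_mul, map_pow]
    rcases Nat.lt_succ_iff_lt_or_eq.mp hm with hlt | heq
    · -- `m + 2 < p`
      have hdvd : p ∣ p.choose (m + 2) := hp.dvd_choose_self (by omega) (by omega)
      obtain ⟨c, hc⟩ := hdvd
      have h1 : v ((p.choose (m + 2) : ℕ) : K) ≤ v (p : K) := by
        rw [hc]; push_cast
        rw [map_mul]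
        calc v (p : K) * v (c : K) ≤ v (p : K) * 1 := by
              gcongr; exact val_natCast_le_one v c
          _ = v (p : K) := mul_one _
      have h2 : v δ ^ (m + 2) < v δ := by
        calc v δ ^ (m + 2) = v δ ^ (m + 1) * v δ := pow_succ _ _
          _ < 1 * v δ := by
              apply mul_lt_mul_of_pos_right _ hr
              exact pow_lt_one₀ zero_le hδ1 (by omega)
          _ = v δ := one_mul _
      calc v δ ^ (m + 2) * v ((p.choose (m + 2) : ℕ) : K) ≤ v δ ^ (m + 2) * v (p : K) := by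
            gcongr
        _ < v δ * v (p : K) := mul_lt_mul_of_pos_right h2 hvp
        _ = v (p : K) * v δ := mul_comm _ _
    · -- `m + 2 = p`
      have hmp : m + 2 = p := by omega
      rw [hmp, Nat.choose_self, Nat.cast_one, map_one, mul_one]
      calc v δ ^ p = v δ ^ (p - 1) * v δ := by
            rw [← pow_succ]; congr 1; have := hp.two_le; omega
        _ < v (p : K) * v δ := mul_lt_mul_of_pos_right hdeep hr
  rw [hexp]
  rw [v.map_add_eq_of_lt_left (by rw [map_mul]; exact hsum), map_mul]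

/-- **DEPTH**: a nonzero `p`-torsion point of the kernel of reduction of
`y² = x³ + a₂ x² + a₄ x` (`v 2 = 1`, `v a₂ = 1`, `v a₄ < v p`) is not deeper than `ζ_p - 1`:
`v p ≤ v (x / y) ^ (p - 1)`. -/
theorem E1_torsion_depth (hW : IsTwoNF W) (ha : v W.a₂ = 1) (hv2 : v 2 = 1) {β : K}
    (hβ : β ^ 2 = W.a₂) {p : ℕ} (hp : p.Prime) (hbp : v W.a₄ < v (p : K))
    {x y : K} (h : W.Nonsingular x y) (hx : 1 < v x) (hpQ : p • Point.some x y h = 0) :
    v (p : K) ≤ v (x / y) ^ (p - 1) := by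
  by_contra hdeep
  rw [not_le] at hdeep
  have hb : v W.a₄ ≤ 1 := hbp.le.trans (val_natCast_le_one v p)
  have hQ : InE1 v (Point.some x y h) := Or.inr ⟨x, y, h, rfl, hx⟩
  have hvβ : v β = 1 := by
    apply eq_one_of_sq_eq_one
    rw [← map_pow, hβ]; exact ha
  have hδ := val_nu_sub_one v hW ha.le hb hvβ hv2 hQ
  rw [tC_some] at hδ
  have ht := val_t_sq_mul v hW ha.le hb h hx
  have hx0 : x ≠ 0 := ne_zero_of_one_lt_val v hx
  have hy0 : y ≠ 0 := by
    have := val_x_lt_val_y v hW ha.le hb h hx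
    rintro rfl
    simp at this
  have hr : 0 < v (x / y) := val_pos v (div_ne_zero hx0 hy0)
  have hr1 : v (x / y) < 1 := by
    apply lt_one_of_sq_lt_one
    by_contra hcon
    rw [not_lt] at hcon
    have h1 : (1 : Γ₀) < v (x / y) ^ 2 * v x := by
      calc (1 : Γ₀) = 1 * 1 := (one_mul 1).symm
        _ < v (x / y) ^ 2 * v x := mul_lt_mul_of_le_of_lt_of_nonneg_of_pos hcon hx zero_le
            (lt_of_lt_of_le zero_lt_one hcon)
    rw [ht] at h1
    exact lt_irrefl _ h1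
  have key := nu_nsmul v hW ha.le hb hβ hQ p
  rw [hpQ, nu_zero, tC_some, Valuation.map_sub_swap] at key
  have e : nu β (Point.some x y h) = 1 + (nu β (Point.some x y h) - 1) := by ring
  rw [e, val_one_add_pow_sub_one v hp (by rw [hδ]; exact hr1) (by rw [hδ]; exact hdeep),
    hδ] at key
  have := le_of_mul_le_mul_right key hr
  exact absurd hbp (not_lt.mpr this)

end Val

end Fermat.Agent.T8.helper35
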