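/-
T8 (row 38 via S44, at risk), leaf [AUX] (helper36, owner): **change of level along a divisibility
`N₀ ∣ N₁`** (e.g. `M' p ∣ 4 M' p`), definitions and CONTRACT.

* `inclL N₀ N₁ h : F_{N₀} → F_{N₁}` the inclusion of function fields (`q`-expansions unchanged);
* `pullL N₀ N₁ h : J₀(N₀) → J₀(N₁)` pull-back of divisor classes, `pushL N₀ N₁ h` push-forward;
* Kummer dictionary: `pullL x` is represented by the SAME function, `pushL y` by the norm;
* Galois equivariance of `pullL`, `pushL` (unconditional);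
* `AuxSquareStatement`, `AuxInjStatement`, `AuxStatement` : the contract of the leaf [AUX]
  (base-change squares with the two degeneracy maps at a prime `ℓ ∤ N₁`, Hecke equivariance,
  injectivity on `p`-torsion for `N₁ = 4 N₀`, `5 ≤ p`), all on TORSION classes.
-/
import Mathlib
import Fermat.Agent.T7.helper43_NewNorm
import Fermat.Agent.T7.helper43_GExt
import Fermat.Agent.S18.helper19_Transfer

set_option autoImplicit false
set_option linter.unusedSectionVars false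
set_option linter.unusedVariables false
set_option linter.style.haveILetI false
set_option linter.style.longLine false

noncomputable section

open ModularCurve AlgebraicCurve IntermediateField

namespace Fermat.Agent.T8.helper36

open Fermat.Agent.S24 Fermat.Agent.P3.helper94 Fermat.Agent.T2.helper36 Fermat.Agent.T7.helper43

/-! ### The inclusion of levels -/

/-- `F_{N₀} ⊆ F_{N₁}` for `N₀ ∣ N₁` -/
theorem ffBar_le (N₀ N₁ : ℕ) [NeZero N₀] [NeZero N₁] (h : N₀ ∣ N₁) :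
    modularFunctionFieldBar N₀ ≤ modularFunctionFieldBar N₁ :=
  Fermat.Agent.S18.helper19.FF_le h

/-- the inclusion `F_{N₀} → F_{N₁}` (`q`-expansions unchanged) -/
def inclL (N₀ N₁ : ℕ) [NeZero N₀] [NeZero N₁] (h : N₀ ∣ N₁) :
    modularFunctionFieldBar N₀ →ₐ[Kbar] modularFunctionFieldBar N₁ :=
  IntermediateField.inclusion (ffBar_le N₀ N₁ h)

@[simp]
theorem coe_inclL (N₀ N₁ : ℕ) [NeZero N₀] [NeZero N₁] (h : N₀ ∣ N₁)
    (x : modularFunctionFieldBar N₀) :
    (inclL N₀ N₁ h x : LaurentSeries Kbar) = (x : LaurentSeries Kbar) :=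
  IntermediateField.coe_inclusion _ x

/-- the inputs of push-forward and pull-back along `inclL` -/
theorem inputs_inclL (N₀ N₁ : ℕ) [NeZero N₀] [NeZero N₁] (h : N₀ ∣ N₁) :
    ∃ (_ : (inclL N₀ N₁ h).toRingHom.IsIntegral)
      (hφ : (inclL N₀ N₁ h).toRingHom.IsIntegral)
      (_ : HasPrincipalDivisors Kbar (modularFunctionFieldBar N₁))
      (hfin : FiniteAlong Kbar (inclL N₀ N₁ h)),
      FundamentalIdentityAlong Kbar (inclL N₀ N₁ h) hφ ∧
        NormFormulaAlong Kbar (inclL N₀ N₁ h) hfin := by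
  haveI := helper77.an_finiteDimensional N₀
  haveI := helper77.an_finiteDimensional N₁
  exact Fermat.Agent.P3.helper58.heckeInputs_of_ff (inclL N₀ N₁ h)
    (inclL N₀ N₁ h) (xJ N₀) (helper77.an_transcendental N₀)
    (xJ N₁) (helper77.an_transcendental N₁)

theorem inclL_isIntegral (N₀ N₁ : ℕ) [NeZero N₀] [NeZero N₁] (h : N₀ ∣ N₁) :
    (inclL N₀ N₁ h).toRingHom.IsIntegral :=
  (inputs_inclL N₀ N₁ h).choose

theorem hasPrincipalDivisors_top (N₀ N₁ : ℕ) [NeZero N₀] [NeZero N₁] (h : N₀ ∣ N₁) :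
    HasPrincipalDivisors Kbar (modularFunctionFieldBar N₁) :=
  (inputs_inclL N₀ N₁ h).choose_spec.choose_spec.choose

theorem inclL_finiteAlong (N₀ N₁ : ℕ) [NeZero N₀] [NeZero N₁] (h : N₀ ∣ N₁) :
    FiniteAlong Kbar (inclL N₀ N₁ h) :=
  (inputs_inclL N₀ N₁ h).choose_spec.choose_spec.choose_spec.choose

theorem inclL_normFormula (N₀ N₁ : ℕ) [NeZero N₀] [NeZero N₁] (h : N₀ ∣ N₁) :
    NormFormulaAlong Kbar (inclL N₀ N₁ h) (inclL_finiteAlong N₀ N₁ h) :=
  (inputs_inclL N₀ N₁ h).choose_spec.choose_spec.choose_spec.choose_spec.2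

theorem inclL_fundamentalIdentity (N₀ N₁ : ℕ) [NeZero N₀] [NeZero N₁] (h : N₀ ∣ N₁) :
    haveI := hasPrincipalDivisors_top N₀ N₁ h
    FundamentalIdentityAlong Kbar (inclL N₀ N₁ h) (inclL_isIntegral N₀ N₁ h) :=
  (inputs_inclL N₀ N₁ h).choose_spec.choose_spec.choose_spec.choose_spec.1

/-- **pull-back `π^* : J₀(N₀) → J₀(N₁)`** along the inclusion of levels -/
def pullL (N₀ N₁ : ℕ) [NeZero N₀] [NeZero N₁] (h : N₀ ∣ N₁) : JZero N₀ →+ JZero N₁ :=
  haveI := hasPrincipalDivisors_top N₀ N₁ h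
  pullPic (inclL N₀ N₁ h) (inclL_isIntegral N₀ N₁ h) (inclL_fundamentalIdentity N₀ N₁ h)

/-- **push-forward `π_* : J₀(N₁) → J₀(N₀)`** along the inclusion of levels -/
def pushL (N₀ N₁ : ℕ) [NeZero N₀] [NeZero N₁] (h : N₀ ∣ N₁) : JZero N₁ →+ JZero N₀ :=
  pushPic (inclL N₀ N₁ h) (inclL_isIntegral N₀ N₁ h) (inclL_finiteAlong N₀ N₁ h)
    (inclL_normFormula N₀ N₁ h)

/-- `π^* x` is represented by the same function -/
theorem isKummerRep_pullL {N₀ N₁ : ℕ} [NeZero N₀] [NeZero N₁] (h : N₀ ∣ N₁)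
    {n : ℕ} {x : JZero N₀} {u : modularFunctionFieldBar N₀}
    (H : IsKummerRep n x u) : IsKummerRep n (pullL N₀ N₁ h x) (inclL N₀ N₁ h u) := by
  haveI := hasPrincipalDivisors_top N₀ N₁ h
  exact isKummerRep_pullPic _ _ _ H

/-- `π_* y` is represented by the norm -/
theorem isKummerRep_pushL {N₀ N₁ : ℕ} [NeZero N₀] [NeZero N₁] (h : N₀ ∣ N₁)
    {n : ℕ} {y : JZero N₁} {u : modularFunctionFieldBar N₁}
    (H : IsKummerRep n y u) :
    IsKummerRep n (pushL N₀ N₁ h y) (normAlong (inclL N₀ N₁ h) u) :=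
  isKummerRep_pushPic _ _ _ _ H

/-- the inclusion of levels intertwines the Galois actions -/
theorem intertwines_inclL {N₀ N₁ : ℕ} [NeZero N₀] [NeZero N₁] (h : N₀ ∣ N₁)
    (σ : Kbar ≃ₐ[ℚ] Kbar) :
    SemilinearAut.IntertwinesAlong ((inclL N₀ N₁ h) : _ →+* _)
      (arithmeticGalois (modularFunctionFieldFull N₀) σ)
      (arithmeticGalois (modularFunctionFieldFull N₁) σ) := fun x => Subtype.ext <| by
  show ModularCurve.coeffMap (σ : Kbar →+* Kbar) ((inclL N₀ N₁ h x : _) : LaurentSeries Kbar)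
    = ((inclL N₀ N₁ h (arithmeticGalois (modularFunctionFieldFull N₀) σ • x) : _) :
        LaurentSeries Kbar)
  rw [coe_inclL, coe_inclL, coe_arithmeticGalois_smul]

/-- `π^*` commutes with the Galois action -/
theorem pullL_galois_smul {N₀ N₁ : ℕ} [NeZero N₀] [NeZero N₁] (h : N₀ ∣ N₁)
    (σ : Kbar ≃ₐ[ℚ] Kbar) (x : JZero N₀) :
    pullL N₀ N₁ h (σ • x) = σ • pullL N₀ N₁ h x := by
  haveI := hasPrincipalDivisors_top N₀ N₁ h
  rw [galois_smul_pic0_def, galois_smul_pic0_def]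
  exact pullPic_smul _ _ _ (intertwines_inclL h σ) x

/-- `π_*` commutes with the Galois action -/
theorem pushL_galois_smul {N₀ N₁ : ℕ} [NeZero N₀] [NeZero N₁] (h : N₀ ∣ N₁)
    (σ : Kbar ≃ₐ[ℚ] Kbar) (y : JZero N₁) :
    pushL N₀ N₁ h (σ • y) = σ • pushL N₀ N₁ h y := by
  rw [galois_smul_pic0_def, galois_smul_pic0_def]
  exact pushPic_smul _ _ _ _ (intertwines_inclL h σ) y

/-! ### The contract of the leaf [AUX] -/

/-- the divisibility `M p ∣ 4 M p` -/
theorem dvd_four_mul (M p : ℕ) : M * p ∣ 4 * M * p := ⟨4, by ring⟩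

/-- **[AUX-SQ]** base change along `N₀ ∣ N₁` at a prime `ℓ ∤ N₁`, on torsion classes: the two
squares with the degeneracy push-forwards, the square with `β^*`, Hecke equivariance. -/
def AuxSquareStatement : Prop :=
  ∀ (N₀ N₁ : ℕ) [NeZero N₀] [NeZero N₁] (h : N₀ ∣ N₁) (ℓ : ℕ) [NeZero ℓ], ℓ.Prime → ¬ ℓ ∣ N₁ →
    ∀ (n : ℕ), n ≠ 0 →
      (∀ x : JZero (N₀ * ℓ), n • x = 0 →
        alphaPush N₁ ℓ (pullL (N₀ * ℓ) (N₁ * ℓ) (Nat.mul_dvd_mul_right h ℓ) x)
          = pullL N₀ N₁ h (alphaPush N₀ ℓ x)) ∧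
      (∀ x : JZero (N₀ * ℓ), n • x = 0 →
        betaPush N₁ ℓ (pullL (N₀ * ℓ) (N₁ * ℓ) (Nat.mul_dvd_mul_right h ℓ) x)
          = pullL N₀ N₁ h (betaPush N₀ ℓ x)) ∧
      (∀ x : JZero N₀, n • x = 0 →
        betaPull N₁ ℓ (pullL N₀ N₁ h x)
          = pullL (N₀ * ℓ) (N₁ * ℓ) (Nat.mul_dvd_mul_right h ℓ) (betaPull N₀ ℓ x)) ∧
      (∀ x : JZero N₀, n • x = 0 →
        heckeOperatorAlong Kbar N₁ ℓ (pullL N₀ N₁ h x)
          = pullL N₀ N₁ h (heckeOperatorAlong Kbar N₀ ℓ x))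

/-- **[AUX-INJ]** the pull-back from level `N₀` to level `4 N₀` is injective on the `p`-torsion,
`5 ≤ p` (its degree is `4` or `6`). -/
def AuxInjStatement : Prop :=
  ∀ (N₀ : ℕ) [NeZero N₀] (p : ℕ), p.Prime → 5 ≤ p →
    ∀ x : JZero N₀, p • x = 0 → pullL N₀ (4 * N₀) (dvd_mul_left N₀ 4) x = 0 → x = 0

/-- **[AUX]** the contract: levels `M p` and `4 M p` (`= N' p`, `N' = 4 M`), `p ∤ M`, `5 ≤ p`.
`π^* := pullL (M * p) (4 * M * p)`:
* commutes with the Galois action (`pullL_galois_smul`, unconditional);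
* is injective on the `p`-torsion;
* `α_* π^* = π₀^* α_*`, `β_* π^* = π₀^* β_*` on `p`-torsion (`π₀^* := pullL M (4 * M)`), hence
  it maps the `p`-torsion of the new part at level `(M, p)` into the new part at level `(4 M, p)`;
* commutes with `T_ℓ`, `ℓ ∤ 4 M p`, on `p`-torsion. -/
def AuxStatement : Prop :=
  ∀ (p : ℕ) [NeZero p], p.Prime → 5 ≤ p → ∀ (M : ℕ) [NeZero M], ¬ p ∣ M →
    (∀ x : JZero (M * p), p • x = 0 →
        pullL (M * p) (4 * M * p) (dvd_four_mul M p) x = 0 → x = 0) ∧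
    (∀ x : JZero (M * p), p • x = 0 →
        alphaPush (4 * M) p (pullL (M * p) (4 * M * p) (dvd_four_mul M p) x)
          = pullL M (4 * M) (dvd_mul_left M 4) (alphaPush M p x)) ∧
    (∀ x : JZero (M * p), p • x = 0 →
        betaPush (4 * M) p (pullL (M * p) (4 * M * p) (dvd_four_mul M p) x)
          = pullL M (4 * M) (dvd_mul_left M 4) (betaPush M p x)) ∧
    (∀ x : JZero (M * p), p • x = 0 → x ∈ newPart M p →
        pullL (M * p) (4 * M * p) (dvd_four_mul M p) x ∈ newPart (4 * M) p) ∧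
    (∀ (ℓ : ℕ) [NeZero ℓ], ℓ.Prime → ¬ ℓ ∣ 4 * M * p → ∀ x : JZero (M * p), p • x = 0 →
        heckeOperatorAlong Kbar (4 * M * p) ℓ (pullL (M * p) (4 * M * p) (dvd_four_mul M p) x)
          = pullL (M * p) (4 * M * p) (dvd_four_mul M p) (heckeOperatorAlong Kbar (M * p) ℓ x))

end Fermat.Agent.T8.helper36

end
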