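import Fermat.Agent.T8.helper38_WallChain
import Fermat.Agent.T7.helper72_S33Wire

/-!
# T8 = row 38 via S44, [CHAIN] middle layer (M2) (helper38): the data of the non-split case

In the context `WallCtx` of the wall, for `x ∈ V` and `τ ∈ I_K1` put `l₀ := τ • x - x`.  From what
is on main (T7) we get, unconditionally:

* `smul_mem_of_real`   : `V` is stable under `Gal(ℚ̄/ℚ)` (it is a realisation of `E[p]`);
* `nonSplit_mem`       : `l₀ ∈ V`;
* `nonSplit_tors`      : `p • l₀ = 0`;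
* `nonSplit_new`       : `l₀` is `p`-new;
* `nonSplit_isT0`      : `l₀ ∈ T0` at exponent `p` (T7 [RAM-T0], `helper2.ram_isT0_bad`);
* `nonSplit_fixed`     : `σ • l₀ = l₀` for every `σ ∈ I_K1` (T7 (G1): inertia acts on `T0 ∩ NEW`
  through the cyclotomic character, which is trivial on `I_K1`);
* `nonSplit_unipotent` : `τ ^ k • x = x + k • l₀` for all `k`.
-/

set_option autoImplicit false
set_option linter.unusedSectionVars false
set_option linter.unusedVariables false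
set_option linter.style.longLine false
set_option linter.style.haveILetI false

noncomputable section

namespace Fermat.Agent.T8.helper38

open ModularCurve WeierstrassCurve WeierstrassCurve.Affine WeierstrassCurve.Affine.Point
open Fermat.Agent.T7 Fermat.Agent.T8.helper72

/-- a realisation of `E[p]` is stable under the absolute Galois group -/
theorem smul_mem_of_real {P : FreyPackage} {W : WeierstrassCurve ℤ} {M : ℕ} [NeZero M]
    {V : AddSubgroup (JZero M)} (h : FreyReal P W M V)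
    (σ : AlgebraicClosure ℚ ≃ₐ[ℚ] AlgebraicClosure ℚ) {x : JZero M} (hx : x ∈ V) :
    σ • x ∈ V := by
  obtain ⟨e, he⟩ := h.iso
  have h1 := he σ (e.symm ⟨x, hx⟩)
  rw [AddEquiv.apply_symm_apply] at h1
  rw [← h1]
  exact (e (σ • e.symm ⟨x, hx⟩)).2

variable {π : PullData} {P : FreyPackage} {W : WeierstrassCurve ℤ} {M' : ℕ} [NeZero M']
  {hpN : ¬ P.p ∣ 4 * M'} {A : ValuationSubring (AlgebraicClosure ℚ)}
  {V0 : AddSubgroup (JZero (M' * P.p))}

theorem nonSplit_mem (ctx : WallCtx π P W M' hpN A V0) {x : JZero (4 * M' * P.p)}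
    (hx : x ∈ V0.map (π M' P.p)) (τ : AlgebraicClosure ℚ ≃ₐ[ℚ] AlgebraicClosure ℚ) :
    τ • x - x ∈ V0.map (π M' P.p) :=
  AddSubgroup.sub_mem _ (smul_mem_of_real ctx.real τ hx) hx

theorem nonSplit_tors (ctx : WallCtx π P W M' hpN A V0) {x : JZero (4 * M' * P.p)}
    (hx : x ∈ V0.map (π M' P.p)) (τ : AlgebraicClosure ℚ ≃ₐ[ℚ] AlgebraicClosure ℚ) :
    P.p • (τ • x - x) = 0 :=
  ctx.real.tors _ (nonSplit_mem ctx hx τ)

theorem nonSplit_new (ctx : WallCtx π P W M' hpN A V0) {x : JZero (4 * M' * P.p)}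
    (hx : x ∈ V0.map (π M' P.p)) (τ : AlgebraicClosure ℚ ≃ₐ[ℚ] AlgebraicClosure ℚ) :
    τ • x - x ∈ helper43.newPart (4 * M') P.p :=
  ctx.new (nonSplit_mem ctx hx τ)

theorem nonSplit_isT0 (ctx : WallCtx π P W M' hpN A V0) {x : JZero (4 * M' * P.p)}
    (hx : x ∈ V0.map (π M' P.p)) {τ : AlgebraicClosure ℚ ≃ₐ[ℚ] AlgebraicClosure ℚ}
    (hτ : τ ∈ A.inertiaSubgroupIn ℚ) :
    helper2.IsT0 (4 * M') P.p P.pp hpN A P.p (τ • x - x) :=
  helper2.ram_isT0_bad (4 * M') P.p P.pp hpN A ctx.liesOver P.p P.pp.ne_zero τ hτ x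
    (ctx.real.tors x hx)

/-- the prime of a Frey package is odd -/
theorem frey_p_ne_two38 (P : FreyPackage) : P.p ≠ 2 := by
  have := P.hp5
  omega

/-- **T7 (G1)** for `I_K1`: a `p`-new class of `T0` at exponent `p` is fixed by every element
of the inertia group which fixes `μ_p`. -/
theorem smul_eq_of_isT0_new {hpN' : ¬ P.p ∣ 4 * M'}
    (hA : A.LiesOverPrime P.p) {y : JZero (4 * M' * P.p)}
    (hy : helper2.IsT0 (4 * M') P.p P.pp hpN' A P.p y)
    (hnew : y ∈ helper43.newPart (4 * M') P.p)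
    {σ : AlgebraicClosure ℚ ≃ₐ[ℚ] AlgebraicClosure ℚ} (hσ : helper98.IsIK1 A P.p σ) :
    σ • y = y := by
  have hG1 := Fermat.Agent.T7.helper72.g1_of_b3_b4 Fermat.Agent.T7.helper72.s33B3Statement72
    Fermat.Agent.T7.helper72.s33B4Statement72
  have h := hG1 P.p P.pp (frey_p_ne_two38 P) (4 * M') (Dvd.intro M' rfl) hpN' A hA y hy hnew σ
    hσ.1 1 (fun z hz => by rw [pow_one]; exact hσ.2 z hz)
  rw [one_smul] at h
  exact h

theorem nonSplit_fixed (ctx : WallCtx π P W M' hpN A V0) {x : JZero (4 * M' * P.p)}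
    (hx : x ∈ V0.map (π M' P.p)) {τ : AlgebraicClosure ℚ ≃ₐ[ℚ] AlgebraicClosure ℚ}
    (hτ : τ ∈ A.inertiaSubgroupIn ℚ)
    {σ : AlgebraicClosure ℚ ≃ₐ[ℚ] AlgebraicClosure ℚ} (hσ : helper98.IsIK1 A P.p σ) :
    σ • (τ • x - x) = τ • x - x :=
  smul_eq_of_isT0_new ctx.liesOver (nonSplit_isT0 ctx hx hτ) (nonSplit_new ctx hx τ) hσ

/-- `τ` acts unipotently on `x`: `τ ^ k • x = x + k • l₀`. -/
theorem nonSplit_unipotent (ctx : WallCtx π P W M' hpN A V0) {x : JZero (4 * M' * P.p)}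
    (hx : x ∈ V0.map (π M' P.p)) {τ : AlgebraicClosure ℚ ≃ₐ[ℚ] AlgebraicClosure ℚ}
    (hτ : helper98.IsIK1 A P.p τ) (k : ℕ) :
    (τ ^ k) • x = x + k • (τ • x - x) := by
  induction k with
  | zero => simp
  | succ k ih =>
    have h1 : (τ ^ (k + 1)) • x = τ • ((τ ^ k) • x) := by
      rw [pow_succ', mul_smul]
    rw [h1, ih, smul_add, smul_comm τ k, nonSplit_fixed ctx hx hτ.1 hτ, succ_nsmul]
    abel

end Fermat.Agent.T8.helper38

end
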