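import Fermat.Agent.T8.helper38_WallChain
import Fermat.Agent.T8.helper38_WallGlue
import Fermat.Agent.T8.helper89_PeuShape
import Fermat.Agent.T8.helper29_ConclN
import Fermat.Agent.T8.helper54_Phi
import Fermat.Agent.T8.helper54_WComm
import Fermat.Agent.T8.helper54_PhiE2
import Fermat.Agent.P6.helper78_NAsm
import Fermat.Agent.S04.Wiring
import Fermat.Agent.T7.helper60_Gal

/-!
# T8 = row 38 via S44, [CHAIN] middle layer (M2) (helper38): the wall from [CONCL] and [PHI]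

`B := helper29.wallBN` (`c(x) = β m`), `C := helper29.wallCN` (`c(x) = 0`).

* `stronglySplit_atkinLehner`, `peuShape_atkinLehner` : the input `PeuShape` of [CONCL] is stable
  under the Atkin-Lehner involution `W` (so the mirror component needs no second contract);
* `peuShape_one` : the SPLIT case is the case `K = 1`, `α = 1`, all exponents `0`;
* `ConclCtxStatement π` : [CONCL] (`helper29.ConclStatementN`) at every bad pair of the chain;
* `splitWall_of_concl`, `nonSplitWall_of_concl` : the two class-level wall statements at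
  `B = wallBN` from [CONCL] (+ [W-MULT] through `helper89.peuShape_of_ctx`);
* `PhiCtxStatement π` : [PHI] (`helper54.PhiStatement`) at every bad pair of the chain and every
  prime `ℓ ∤ 4 M' p`;
* `phiWall_of_phi` : `PhiWallStatement π wallBN wallCN` from [PHI] (non-Eisenstein prime
  `P6.helper78.nonEis`, mirror component via `helper54.atkinLehner_heckeNormFn`);
* `wall_of_concl_phi` : **`helper72.WallStatement π wallCN`** from [W-MULT], [CONCL], [PHI];
* `phiCtx_of_phiE1` : [PHI] from [PHI-E1] alone ([PHI-E2] is on main).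
-/

set_option autoImplicit false
set_option linter.unusedSectionVars false
set_option linter.unusedVariables false
set_option linter.style.longLine false
set_option linter.style.haveILetI false

noncomputable section

namespace Fermat.Agent.T8.helper38

open HahnSeries IntermediateField AlgebraicCurve ModularCurve
open WeierstrassCurve WeierstrassCurve.Affine WeierstrassCurve.Affine.Point
open Fermat.Agent.S18.helper19 Fermat.Agent.P2.helper29 Fermat.Agent.P2.helper93
open Fermat.Agent.T2 Fermat.Agent.T2.helper36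
open Fermat.Agent.T7 Fermat.Agent.T8.helper72
open Fermat.Agent.P3.helper94 (IsKummerRep)
open Fermat.Agent.T3.helper16 (IsUnit0)
open Fermat.Agent.T8.helper54 (IsRed1 DvdOff ModEqOff heckeNormFn)
open Fermat.Agent.T8.helper29 (PeuShape ConclStatementN IsWallBN2 IsWallCN2 wallBN wallCN)

/-! ### The mirror -/

section Mirror

variable {N q : ℕ} [NeZero N] [NeZero q] (hq : q.Prime) (hqN : ¬ q ∣ N)
  (A : ValuationSubring Kb) (p : ℕ)

/-- `p ∣ div (W u)` as soon as `p ∣ div u` -/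
theorem dvd_ord_atkinLehner {u : FF (N * q)}
    (h : ∀ Q : Place Kb (FF (N * q)), (p : ℤ) ∣ Q.ord u) (Q : Place Kb (FF (N * q))) :
    (p : ℤ) ∣ Q.ord (atkinLehner N q hq hqN u) := by
  have h1 := Place.ord_smul (atkinLehner N q hq hqN) ((atkinLehner N q hq hqN)⁻¹ • Q) u
  rw [smul_inv_smul] at h1
  rw [h1]
  exact h _

/-- strongly split functions are stable under `W` -/
theorem stronglySplit_atkinLehner {K : FF (N * q)}
    (h : helper27.StronglySplit (N * q) (atkinLehner N q hq hqN) A p K) :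
    helper27.StronglySplit (N * q) (atkinLehner N q hq hqN) A p (atkinLehner N q hq hqN K) := by
  obtain ⟨⟨hreg, Y₁, Y₂, h1, h2, h3, h4⟩, hdiv, Z₁, Z₂, e1, e2, r1, r2⟩ := h
  have hWW : ∀ f : FF (N * q), atkinLehner N q hq hqN (atkinLehner N q hq hqN f) = f :=
    atkinLehner_atkinLehner N q hq hqN
  refine ⟨⟨Fermat.Agent.T2.helper74.RegOff2.map_W _ hWW hreg, Y₂, Y₁, h2, ?_, h4, h3⟩,
    dvd_ord_atkinLehner hq hqN p hdiv, Z₂, Z₁, e2, ?_, r2, r1⟩
  · rw [hWW]; exact h1
  · rw [hWW]; exact e1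

/-- **the input of [CONCL] is stable under `W`** -/
theorem peuShape_atkinLehner {u : FF (N * q)}
    (h : PeuShape (atkinLehner N q hq hqN) A p u) :
    PeuShape (atkinLehner N q hq hqN) A p (atkinLehner N q hq hqN u) := by
  obtain ⟨K, ζ, α, hSS, hζ, hα, hαv, hσ⟩ := h
  refine ⟨atkinLehner N q hq hqN K, ζ, α, stronglySplit_atkinLehner hq hqN A p hSS, hζ, hα, hαv,
    fun σ hs => ?_⟩
  obtain ⟨j, c, v, e1, hc, hv, e2⟩ := hσ σ hs
  refine ⟨j, c, atkinLehner N q hq hqN v, e1, hc, (map_ne_zero _).mpr hv, ?_⟩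
  have h1 : galF (N * q) σ (atkinLehner N q hq hqN u)
      = atkinLehner N q hq hqN (galF (N * q) σ u) :=
    (atkinLehner_arithmeticRingAut N q hq hqN σ u).symm
  rw [h1, e2, map_mul, map_mul, map_mul, map_pow, map_pow, AlgEquiv.commutes]

end Mirror

/-- **SPLIT case**: if `I_K1` fixes the class of `u`, then `u` has the shape `PeuShape`
(`K = 1`, `α = 1`, all exponents `0`). -/
theorem peuShape_one {M : ℕ} [NeZero M] (Wa : FF M ≃ₐ[Kb] FF M) (A : ValuationSubring Kb)
    {p : ℕ} (hp : p.Prime)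
    {D : Divisor.degZero (K := Kb) (F := FF M)} {u : FF M}
    (H : IsRootDiv p (D : Divisor Kb (FF M)) u)
    (hfix : ∀ σ : Kb ≃ₐ[ℚ] Kb, helper98.IsIK1 A p σ →
      σ • (Pic0.mk D : JZero M) = Pic0.mk D) :
    PeuShape Wa A p u := by
  haveI : NeZero p := ⟨hp.ne_zero⟩
  obtain ⟨ζ, hζ⟩ : ∃ ζ : Kb, IsPrimitiveRoot ζ p :=
    HasEnoughRootsOfUnity.exists_primitiveRoot Kb p
  have hSS : helper27.StronglySplit M Wa A p (1 : FF M) := by
    refine ⟨helper60.isA0One_one, fun Q => ?_, 1, 1, ?_, ?_, map_one _, map_one _⟩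
    · rw [Place.ord_one]
      exact dvd_zero _
    · rw [map_one, one_pow]; rfl
    · rw [map_one, one_pow, map_one]; rfl
  refine ⟨1, ζ, 1, hSS, hζ, one_ne_zero, by simp, fun σ hσ => ?_⟩
  have H0 : IsRootDiv p ((0 : Divisor.degZero (K := Kb) (F := FF M)) : Divisor Kb (FF M))
      (1 : FF M) := by
    refine ⟨one_ne_zero, fun Q => ?_⟩
    rw [Place.ord_one]
    simp
  have h' : σ • (Pic0.mk D : JZero M)
      = Pic0.mk D + Pic0.mk (0 : Divisor.degZero (K := Kb) (F := FF M)) := by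
    rw [hfix σ hσ]
    exact (add_zero _).symm
  obtain ⟨c, v, hc, hv, e⟩ := galF_eq_of_smul_eq_add σ H H0 h'
  refine ⟨0, c, v, by simp, hc, hv, ?_⟩
  rw [e, pow_zero, one_mul, mul_one]

/-! ### [CONCL] in class form, both components -/

/-- **[CONCL] in class form, with the mirror**: the function-level contract gives the exit
`IsWallBN2` at every class with a Kummer function of peu ramifie shape. -/
theorem isWallBN2_of_concl {N q : ℕ} [NeZero N] [NeZero q] (hq : q.Prime) (hqN : ¬ q ∣ N)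
    {A : ValuationSubring Kb} {ν : FFb A N}
    (hC : ConclStatementN A N q (atkinLehner N q hq hqN) ν) {x : JZero (N * q)}
    {u : FF (N * q)} (hk : IsKummerRep q x u)
    (hpeu : PeuShape (atkinLehner N q hq hqN) A q u) :
    IsWallBN2 A N q (atkinLehner N q hq hqN) ν x := by
  have hu0 : u ≠ 0 := hk.ne_zero
  have hdvd : ∀ Q : Place Kb (FF (N * q)), (q : ℤ) ∣ Q.ord u := fun Q => hk.dvd_ord Q
  obtain ⟨f₁, β₁, h1, h2⟩ := hC u hu0 hdvd hpeu
  obtain ⟨f₂, β₂, h3, h4⟩ := hC (atkinLehner N q hq hqN u) ((map_ne_zero _).mpr hu0)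
    (dvd_ord_atkinLehner hq hqN q hdvd) (peuShape_atkinLehner hq hqN A q hpeu)
  exact ⟨u, f₁, f₂, β₁, β₂, hk, h1, h2, h3, h4⟩

/-! ### The two wall statements from [CONCL] -/

/-- **[CONCL] at every bad pair of the chain** (`N = 4 M'`, `q = p`, in the context of the
wall, for every reduction `ν` of a weight-one unit `b₀`). -/
def ConclCtxStatement (π : PullData) : Prop :=
  ∀ (P : FreyPackage) (W : WeierstrassCurve ℤ) (M' : ℕ) [NeZero M'] (hpN : ¬ P.p ∣ 4 * M')
    (A : ValuationSubring (AlgebraicClosure ℚ)) (V0 : AddSubgroup (JZero (M' * P.p))),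
    WallCtx π P W M' hpN A V0 →
    ∀ (b0 : FF (4 * M' * P.p)) (B : PowerSeries ℤ) (ε : ℤ), IsUnit0 P.pp hpN b0 B ε →
    ∀ ν : FFb A (4 * M'), IsRed1 A (4 * M') P.p b0 ν →
      ConclStatementN A (4 * M') P.p (atkinLehner (4 * M') P.p P.pp hpN) ν

/-- the class-level exit of [CONCL] on all of `V` -/
theorem wallBN_of_concl {π : PullData} (hWM : helper47.WMultStatement')
    (hC : ConclCtxStatement π)
    {P : FreyPackage} {W : WeierstrassCurve ℤ} {M' : ℕ} [NeZero M']
    {hpN : ¬ P.p ∣ 4 * M'} {A : ValuationSubring (AlgebraicClosure ℚ)}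
    {V0 : AddSubgroup (JZero (M' * P.p))} (ctx : WallCtx π P W M' hpN A V0)
    {x : JZero (4 * M' * P.p)} (hx : x ∈ V0.map (π M' P.p)) : wallBN P M' A x := by
  intro hpN' b0 B ε hb ν hν
  obtain ⟨D, u, hD, H⟩ := exists_isRootDiv_of_nsmul_eq_zero (ctx.real.tors x hx)
  have hk : IsKummerRep P.p x u := ⟨H.1, D, hD, H.2⟩
  refine isWallBN2_of_concl P.pp hpN' (hC P W M' hpN A V0 ctx b0 B ε hb ν hν) hk ?_
  by_cases hfix : ∀ σ : AlgebraicClosure ℚ ≃ₐ[ℚ] AlgebraicClosure ℚ,
      helper98.IsIK1 A P.p σ → σ • x = x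
  · exact peuShape_one _ A P.pp H (fun σ hσ => by rw [hD]; exact hfix σ hσ)
  · obtain ⟨τ, hτ'⟩ := not_forall.mp hfix
    obtain ⟨hτ, hτx⟩ := Classical.not_imp.mp hτ'
    exact helper89.peuShape_of_ctx hWM ctx hx hτ hτx hD H

/-- **SPLIT case of the wall** at `B = wallBN`, from [CONCL]. -/
theorem splitWall_of_concl {π : PullData} (hWM : helper47.WMultStatement')
    (hC : ConclCtxStatement π) : SplitWallStatement π wallBN :=
  fun P W M' _ hpN A V0 ctx x hx _ => wallBN_of_concl hWM hC ctx hx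

/-- **NON-SPLIT case of the wall** at `B = wallBN`, from [W-MULT] and [CONCL]. -/
theorem nonSplitWall_of_concl {π : PullData} (hWM : helper47.WMultStatement')
    (hC : ConclCtxStatement π) : NonSplitWallStatement π wallBN :=
  fun P W M' _ hpN A V0 ctx x hx _ _ _ => wallBN_of_concl hWM hC ctx hx

/-! ### [PHI] -/

/-- **[PHI] at every bad pair of the chain**, every prime `ℓ ∤ 4 M' p`. -/
def PhiCtxStatement (π : PullData) : Prop :=
  ∀ (P : FreyPackage) (W : WeierstrassCurve ℤ) (M' : ℕ) [NeZero M'] (hpN : ¬ P.p ∣ 4 * M')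
    (A : ValuationSubring (AlgebraicClosure ℚ)) (V0 : AddSubgroup (JZero (M' * P.p))),
    WallCtx π P W M' hpN A V0 →
    ∀ (ℓ : ℕ) [NeZero ℓ], ℓ.Prime → ¬ ℓ ∣ 4 * M' * P.p →
      helper54.PhiStatement (4 * M') P.p P.pp hpN A ℓ

/-- **[PHI-E1] at every bad pair of the chain**, every prime `ℓ ∤ 4 M' p`. -/
def PhiE1CtxStatement (π : PullData) : Prop :=
  ∀ (P : FreyPackage) (W : WeierstrassCurve ℤ) (M' : ℕ) [NeZero M'] (hpN : ¬ P.p ∣ 4 * M')
    (A : ValuationSubring (AlgebraicClosure ℚ)) (V0 : AddSubgroup (JZero (M' * P.p))),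
    WallCtx π P W M' hpN A V0 →
    ∀ (ℓ : ℕ) [NeZero ℓ], ℓ.Prime → ¬ ℓ ∣ 4 * M' * P.p →
      helper54.PhiE1Statement (4 * M') P.p A ℓ

/-- [PHI] from [PHI-E1] ([PHI-E2] and the assembly are on main). -/
theorem phiCtx_of_phiE1 {π : PullData} (h : PhiE1CtxStatement π) : PhiCtxStatement π :=
  fun P W M' _ hpN A V0 ctx ℓ _ hℓ hℓM =>
    helper54.phi_of_boxes P.pp hpN ctx.liesOver (h P W M' hpN A V0 ctx ℓ hℓ hℓM)
      (helper54.phiE2 hℓ hℓM ctx.liesOver)

/-- the non-Eisenstein prime of the Frey curve, prime to the level -/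
theorem exists_nonEis_prime {P : FreyPackage} {W : WeierstrassCurve ℤ}
    (hW : W.IsIntegralModelOf P.freyCurve)
    (hirr : GaloisRepIsIrreducible (K := AlgebraicClosure ℚ) ℚ P.freyCurve P.p)
    (m : ℕ) (hm : 0 < m) :
    ∃ ℓ : ℕ, ℓ.Prime ∧ ¬ ℓ ∣ m ∧ W.IsGoodPrimeFor ℓ ∧
      ¬ (P.p : ℤ) ∣ W.apOfModel ℓ - ((ℓ : ℤ) + 1) := by
  have hΔ : P.freyCurve.Δ ≠ 0 := by
    rw [← Fermat.Agent.S04.freyCurveInt_map, WeierstrassCurve.map_Δ]
    simpa using Fermat.Agent.S04.freyCurveInt_Δ_ne_zero P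
  haveI : P.freyCurve.IsElliptic := ⟨isUnit_iff_ne_zero.mpr hΔ⟩
  have hp2 : P.p ≠ 2 := by have := P.hp5; omega
  obtain ⟨ℓ, hℓ, -, hℓm, hgood, hne⟩ :=
    Fermat.Agent.P6.helper78.nonEis P.freyCurve W P.p hW P.pp hp2 hirr m hm
  refine ⟨ℓ, hℓ, hℓm, hgood, ?_⟩
  rwa [add_comm]

/-- **[PHI] in class form**: `c(x) = β m` on all of `V` forces `c(x) = 0` on all of `V`. -/
theorem phiWall_of_phi {π : PullData} (hPhi : PhiCtxStatement π) :
    PhiWallStatement π wallBN wallCN := by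
  intro P W M' _ hpN A V0 ctx hB x hx hpN'
  have h4 : 4 ∣ 4 * M' := Dvd.intro M' rfl
  -- the unit `b₀` and its reduction
  obtain ⟨b0, B, ε, hb⟩ := Fermat.Agent.T3.helper16.exists_isUnit0 P.pp hpN' (Or.inl h4)
  obtain ⟨ν, hν⟩ := helper54.exists_isRed1 (A := A) P.pp hpN' ctx.liesOver hb.ne_zero
  -- the exit of [CONCL]
  obtain ⟨u, f₁, f₂, β₁, β₂, hk, h1, h2, h3, h4'⟩ := hB x hx hpN' b0 B ε hb ν hν
  -- the non-Eisenstein prime
  have hm : 0 < 4 * M' * P.p :=
    Nat.mul_pos (Nat.mul_pos (by norm_num) (Nat.pos_of_ne_zero (NeZero.ne M'))) P.pp.pos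
  obtain ⟨ℓ, hℓ, hℓm, hgood, hne⟩ := exists_nonEis_prime ctx.model ctx.irr (4 * M' * P.p) hm
  haveI : NeZero ℓ := ⟨hℓ.ne_zero⟩
  have hℓp : ℓ ≠ P.p := by
    rintro rfl
    exact hℓm (Dvd.intro_left _ rfl)
  have hpℓ : ¬ P.p ∣ ℓ := by
    intro h
    exact hℓp ((Nat.prime_dvd_prime_iff_eq P.pp hℓ).mp h).symm
  -- the eigen-equation
  have heig : heckeOperatorAlong Kb (4 * M' * P.p) ℓ x = W.apOfModel ℓ • x :=
    ctx.real.eigen x hx ⟨ℓ, hℓ⟩ hgood hℓm hℓp
  have hP := hPhi P W M' hpN' A V0 ctx ℓ hℓ hℓm b0 B ε hb ν hν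
  -- first component
  have hd1 : DvdOff A (4 * M') P.p f₁ := hP x (W.apOfModel ℓ) heig hne u f₁ β₁ hk h1 h2
  -- mirror component
  set Wa := atkinLehner (4 * M') P.p P.pp hpN' with hWa
  have hk' : IsKummerRep P.p (Wa • x) (Wa u) := hk.algEquiv_smul Wa
  have heig' : heckeOperatorAlong Kb (4 * M' * P.p) ℓ (Wa • x) = W.apOfModel ℓ • (Wa • x) := by
    have e1 : IsKummerRep P.p (heckeOperatorAlong Kb (4 * M' * P.p) ℓ (Wa • x))
        (heckeNormFn (4 * M' * P.p) ℓ (Wa u)) := helper54.isKummerRep_heckeNormFn hk'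
    have e2 : IsKummerRep P.p (heckeOperatorAlong Kb (4 * M' * P.p) ℓ x)
        (heckeNormFn (4 * M' * P.p) ℓ u) := helper54.isKummerRep_heckeNormFn hk
    rw [heig] at e2
    have e3 : IsKummerRep P.p (Wa • (W.apOfModel ℓ • x))
        (Wa (heckeNormFn (4 * M' * P.p) ℓ u)) := e2.algEquiv_smul Wa
    rw [hWa, helper54.atkinLehner_heckeNormFn (4 * M') P.p ℓ P.pp hpN' hpℓ u, ← hWa] at e3
    have e4 := helper43.eq_of_isKummerRep P.pp.ne_zero e1 e3
    rw [e4]
    exact map_zsmul (DistribMulAction.toAddMonoidHom (JZero (4 * M' * P.p)) Wa)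
      (W.apOfModel ℓ) x
  have hd2 : DvdOff A (4 * M') P.p f₂ :=
    hP (Wa • x) (W.apOfModel ℓ) heig' hne (Wa u) f₂ β₂ hk' h3 h4'
  exact ⟨u, f₁, f₂, hk, h1, hd1, h3, hd2⟩

/-! ### The wall -/

/-- **The wall `helper72.WallStatement π wallCN`** from [W-MULT], [CONCL] and [PHI]. -/
theorem wall_of_concl_phi (π : PullData) (hWM : helper47.WMultStatement')
    (hC : ConclCtxStatement π) (hPhi : PhiCtxStatement π) : WallStatement π wallCN :=
  wall_of_boxes π wallBN wallCN (splitWall_of_concl hWM hC) (nonSplitWall_of_concl hWM hC)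
    (phiWall_of_phi hPhi)

/-- **The wall** from [W-MULT], [CONCL] and [PHI-E1]. -/
theorem wall_of_concl_phiE1 (π : PullData) (hWM : helper47.WMultStatement')
    (hC : ConclCtxStatement π) (hE1 : PhiE1CtxStatement π) : WallStatement π wallCN :=
  wall_of_concl_phi π hWM hC (phiCtx_of_phiE1 hE1)

end Fermat.Agent.T8.helper38

end
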