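import Fermat.Agent.T8.helper38_WallExit
import Fermat.Agent.T8.helper29_NonSplitWall
import Fermat.Agent.T8.helper54_PhiWall
import Fermat.Agent.T8.helper47_WMult

/-!
# T8 = row 38 via S44, [CHAIN] middle layer (M2) (helper38): the wall, final form

Contract (E) of the top chain, `helper72.WallStatement π helper29.wallCN`, for EVERY pull-back
datum `π`, from the two open Props of the box owners:

* `helper29.ConclAll`           : [CONCL] (`ConclStatementN` at every bad pair `(4 M', p)`);
* `helper54.PhiE1AllStatement`  : [PHI-E1] at every prime `ℓ ∤ N q`.

[W-MULT] is plugged in (`helper47.wMult'`).  The split case is fed to [CONCL] through `PeuShape`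
with `K = 1`, `α = 1`, all exponents `0` (`peuShape_one`); `wall_of_split_all` is the variant
which takes the split case as a separate class-level statement.
-/

set_option autoImplicit false
set_option linter.unusedSectionVars false
set_option linter.unusedVariables false
set_option linter.style.longLine false
set_option linter.style.haveILetI false

noncomputable section

namespace Fermat.Agent.T8.helper38

open ModularCurve
open Fermat.Agent.T8.helper72
open Fermat.Agent.T8.helper29 (wallBN wallCN)

/-- the owner's form of [CONCL] gives the form in the context of the wall -/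
theorem conclCtx_of_conclAll (π : PullData) (h : helper29.ConclAll) : ConclCtxStatement π :=
  fun P W M' _ hpN A V0 ctx b0 B ε hb ν hν => h P M' hpN A ctx.liesOver b0 B ε hb ν hν

/-- the owner's form of [PHI-E1] gives the form in the context of the wall -/
theorem phiE1Ctx_of_phiE1All (π : PullData) (h : helper54.PhiE1AllStatement) :
    PhiE1CtxStatement π :=
  fun P W M' _ hpN A V0 ctx ℓ _ hℓ hℓM =>
    h (4 * M') P.p P.pp hpN ⟨M', rfl⟩ P.hp5 A ctx.liesOver ℓ hℓ hℓM

/-- **Contract (E) of the top chain** from [CONCL] and [PHI-E1] (split case through [CONCL]). -/
theorem wall_of_all (π : PullData) (hC : helper29.ConclAll)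
    (hE1 : helper54.PhiE1AllStatement) : WallStatement π wallCN :=
  wall_of_concl_phiE1 π helper47.wMult' (conclCtx_of_conclAll π hC) (phiE1Ctx_of_phiE1All π hE1)

/-- **Contract (E) of the top chain** from the split wall statement, [CONCL] and [PHI-E1]. -/
theorem wall_of_split_all (π : PullData) (hS : SplitWallStatement π wallBN)
    (hC : helper29.ConclAll) (hE1 : helper54.PhiE1AllStatement) : WallStatement π wallCN :=
  wall_of_boxes π wallBN wallCN hS (helper29.nonSplitWall_of_concl π hC)
    (helper54.phiWall_of_phiE1 π hE1)

end Fermat.Agent.T8.helper38

end
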