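import Fermat.Agent.T8.helper13_ExitMid
import Fermat.Agent.T8.helper7_CuspGapDefs

/-!
# T8 = row 38 via S44, box (F) [D-HECKE]: [F3-EXIT] from its leaves, CLASS form of [CUSP-GAP]
(helper40, contract auditor)

`helper13.f3Exit_of_leaves` consumes `helper81.CuspGapChainStatement`, the FUNCTION form of
[CUSP-GAP]: EVERY function `u` of level `4 M' p` with `p ∣ div u` has a first-component reduction
with `p ∣ ord_Q` at the cuspidal places `Q ≠ ∞`.  The route of [CUSP-GAP] (transport of the cusps
of the squarefree level `M'` to `∞` by the Atkin-Lehner involutions `W_D`, `D ∣ M'`, then transfer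
along `β_4`) proves the statement only for the Kummer functions of the classes `π x₀` pulled back
from level `M' p`.  This is all the assembly uses:

* `CuspGapClassStatement π` : **[CUSP-GAP], class form**, in the context of
  `helper13.DescentChainStatement`: for `x₀ ∈ V0`, a Kummer function `u` of `π x₀` and a
  first-component reduction `f` of `u` or of `W u`: `p ∣ ord_Q f` at the cuspidal places
  `Q ≠ ∞`;
* `cuspGapClass_of_chain`   : the function form `helper81.CuspGapChainStatement` implies it;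
* `cuspGapClass_of_cuspGap7` : the contract `helper7.CuspGapStatement π` of [CUSP-ASM] implies it;
* `f3Exit_of_leaves2`       : `helper44.F3ExitStatement π` from the class form of [CUSP-GAP] and
  the other four leaves of `helper13.f3Exit_of_leaves`;
* `dHecke2_of_leaves2`      : box (F) from the same leaves;
* `f3Exit_of_leaves7`, `dHecke2_of_leaves7` : the same from `helper7.CuspGapStatement π`.
-/

set_option autoImplicit false
set_option synthInstance.maxHeartbeats 400000
set_option maxHeartbeats 1600000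
set_option linter.unusedSectionVars false
set_option linter.unusedVariables false
set_option linter.style.longLine false

noncomputable section

namespace Fermat.Agent.T8.helper40

open HahnSeries IntermediateField AlgebraicCurve ModularCurve
open Fermat.Agent.S18.helper19 Fermat.Agent.P2.helper29 Fermat.Agent.P2.helper93
open Fermat.Agent.T2 Fermat.Agent.T2.helper36
open Fermat.Agent.T8.helper54 (IsRed1 DvdOff)
open Fermat.Agent.P3.helper94 (IsKummerRep)
open Fermat.Agent.T8.helper81 (DvdFin DvdCusp CuspGapChainStatement)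
open Fermat.Agent.T8.helper74 (annRb mem_annRb)
open Fermat.Agent.T8.helper87 (dlogL)
open Fermat.Agent.T8.helper44 (IsPthPow F3ExitStatement)
open Fermat.Agent.T8.helper13 (IsRedComp OmegaChainStatement HeckeChainStatement
  DescentChainStatement CuspAnnChainStatement goodPrimes apSeq)
open Fermat.Agent.T7 Fermat.Agent.T8.helper72 Fermat.Agent.T8.helper29

/-- **[CUSP-GAP], class form** in the context of box (F): for a class `x₀` of the realisation
`V0` at level `M' p`, a Kummer function `u` of the pulled back class `π x₀` and a first-component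
reduction `f` of `u` or of `W u`, `p` divides `ord_Q f` at every cuspidal place `Q ≠ ∞` of the
special fibre of level `4 M'`. -/
def CuspGapClassStatement (π : PullData) : Prop :=
  ∀ (P : FreyPackage) (W : WeierstrassCurve ℤ) (M' : ℕ) [NeZero M'], ChainCtx P M' W →
    ∀ (hpN : ¬ P.p ∣ 4 * M') (A : ValuationSubring (AlgebraicClosure ℚ)), A.LiesOverPrime P.p →
    ∀ V0 : AddSubgroup (JZero (M' * P.p)), FreyReal P W (M' * P.p) V0 →
      V0 ≤ helper43.newPart M' P.p →
      ∀ x0 ∈ V0, ∀ (u : FF (4 * M' * P.p)) (f : FFb A (4 * M')),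
        IsKummerRep P.p (π M' P.p x0) u → IsRedComp (4 * M') P.p P.pp hpN A u f →
        DvdCusp A (4 * M') P.p f

/-- the function form of [CUSP-GAP] implies the class form -/
theorem cuspGapClass_of_chain (π : PullData) (hCG : CuspGapChainStatement) :
    CuspGapClassStatement π := by
  intro P W M' _ hc hpN A hA V0 hV0 hnew x0 hx0 u f hk hcomp
  have hu : ∀ Q : Place Kb (FF (4 * M' * P.p)), (P.p : ℤ) ∣ Q.ord u :=
    Fermat.Agent.T8.helper81.dvd_ord_of_isKummerRep hk
  rcases hcomp with h1 | h2
  · exact hCG P M' A hA hpN u f hk.1 hu h1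
  · have hWu0 : atkinLehner (4 * M') P.p P.pp hpN u ≠ 0 := fun h0 => hk.1 (by simpa using h0)
    exact hCG P M' A hA hpN _ f hWu0 (Fermat.Agent.T8.helper81.dvd_ord_equiv _ hu) h2

/-- the contract of [CUSP-ASM] (`helper7.CuspGapStatement π`: both components, `∞` included)
implies the class form -/
theorem cuspGapClass_of_cuspGap7 (π : PullData)
    (hCG : Fermat.Agent.T8.helper7.CuspGapStatement π) : CuspGapClassStatement π := by
  intro P W M' _ hc hpN A hA V0 hV0 hnew x0 hx0 u f hk hcomp
  have hx : π M' P.p x0 ∈ V0.map (π M' P.p) := AddSubgroup.mem_map_of_mem _ hx0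
  have hWu0 : atkinLehner (4 * M') P.p P.pp hpN u ≠ 0 := fun h0 => hk.1 (by simpa using h0)
  rcases hcomp with h1 | h2
  · obtain ⟨f₂, h2⟩ := Fermat.Agent.T8.helper54.exists_isRed1 (A := A) P.pp hpN hA hWu0
    have h := (hCG P W M' hc hpN A hA V0 hV0 _ hx u f f₂ hk h1 h2).1
    exact fun Q hQ _ => h Q hQ
  · obtain ⟨f₁, h1⟩ := Fermat.Agent.T8.helper54.exists_isRed1 (A := A) P.pp hpN hA hk.1
    have h := (hCG P W M' hc hpN A hA V0 hV0 _ hx u f₁ f hk h1 h2).2
    exact fun Q hQ _ => h Q hQ

/-- **[F3-EXIT] from its leaves**, with [CUSP-GAP] in class form. -/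
theorem f3Exit_of_leaves2 (π : PullData) (hCG : CuspGapClassStatement π)
    (hO : OmegaChainStatement) (hH : HeckeChainStatement) (hD : DescentChainStatement π)
    (hCA : CuspAnnChainStatement) : F3ExitStatement π := by
  intro P W M' _ hc hpN A hA V0 hV0 hnew hV hVnew x hx u f₁ f₂ hk h1 d1 h2 d2 hnot
  have hCharP : CharP (kA A) P.p := Fermat.Agent.P2.helper93.charP_residueField P.pp hA
  -- the class comes from level `M' p`
  obtain ⟨x0, hx0, rfl⟩ := AddSubgroup.mem_map.1 hx
  -- both reductions are divisible by `p` at every place `≠ ∞`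
  have D1 : DvdFin A (4 * M') P.p f₁ :=
    Fermat.Agent.T8.helper81.dvdFin_of_off_cusp d1
      (hCG P W M' hc hpN A hA V0 hV0 hnew x0 hx0 u f₁ hk (Or.inl h1))
  have D2 : DvdFin A (4 * M') P.p f₂ :=
    Fermat.Agent.T8.helper81.dvdFin_of_off_cusp d2
      (hCG P W M' hc hpN A hA V0 hV0 hnew x0 hx0 u f₂ hk (Or.inr h2))
  -- the main step, for one component `f` which is not a `p`-th power
  have main : ∀ f : FFb A (4 * M'), IsRedComp (4 * M') P.p P.pp hpN A u f →
      DvdFin A (4 * M') P.p f → (f : LaurentSeries (kA A)) ≠ 0 →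
      ¬ IsPthPow P.p (f : LaurentSeries (kA A)) → P.ModularRepOfLevel M' := by
    intro f hcomp hD' hf0 hnp
    set w : LaurentSeries (kA A) := dlogL (f : LaurentSeries (kA A)) with hw
    have hwAnn : w ∈ annRb (4 * M') A := hO M' P.p P.pp hpN A hA _ u f hk hcomp hD'
    have hw0 : w ≠ 0 := Fermat.Agent.T8.helper13.dlogL_ne_zero_of_not_pthPow P.pp hA hf0 hnp
    obtain ⟨w0, c, hw0Ann, hc0, h4, hoff⟩ :=
      hD P W M' hc hpN A hA V0 hV0 hnew x0 hx0 u f hk hcomp hwAnn
    -- `w₀` is a reduction of cusp forms of level `M'`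
    have hPL : PrimeToLevel M' A := ⟨P.p, P.pp, hc.not_p_dvd, hA⟩
    have hred : Fermat.Agent.T8.helper47.IsRedCusp M' (kA A) (fun m => w0.coeff (m : ℤ)) :=
      Fermat.Agent.T8.helper13.isRedCusp_of_mem_annRb hPL P.p P.pp (hCA M' A hPL) hw0Ann
    -- `w₀ ≠ 0`
    have hne : ∃ m : ℕ, w0.coeff (m : ℤ) ≠ 0 :=
      Fermat.Agent.T8.helper13.exists_coeff_ne_zero_of_mul_four h4 hoff
        ((mem_annRb.1 hw0Ann).1) hw0
    -- `w₀` is an eigenvector
    have heig : ∀ ℓ ∈ goodPrimes W, Fermat.Agent.T8.helper47.IsFormalEigen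
        ((ℓ : Nat.Primes) : ℕ) (apSeq W ℓ) (fun m => w0.coeff (m : ℤ)) := by
      intro ℓ hℓ
      have hgood : W.IsGoodPrimeFor ((ℓ : Nat.Primes) : ℕ) := hℓ
      have hℓ2 : ((ℓ : Nat.Primes) : ℕ) ≠ 2 :=
        Fermat.Agent.T8.helper56.ne_two_of_isGoodPrimeFor P hc.model hgood
      have hℓN : ¬ ((ℓ : Nat.Primes) : ℕ) ∣ 4 * M' * P.p := by
        have := Fermat.Agent.T8.helper56.good_not_dvd_level P hc.cond hc.model ℓ.2 hgood
        rwa [← mul_assoc] at this
      have hℓp : ((ℓ : Nat.Primes) : ℕ) ≠ P.p := fun h =>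
        hℓN (h ▸ Dvd.intro_left (4 * M') rfl)
      have hxe : heckeOperatorBar (4 * M' * P.p) ℓ (π M' P.p x0)
          = W.apOfModel ((ℓ : Nat.Primes) : ℕ) • (π M' P.p x0) :=
        hV.eigen _ hx ℓ hgood hℓN hℓp
      have hwe := hH (4 * M') P.p P.pp hpN A hA ℓ hℓN (W.apOfModel ((ℓ : Nat.Primes) : ℕ))
        (π M' P.p x0) u f hk hxe hcomp
      exact Fermat.Agent.T8.helper13.formalEigen_of_mul_four hc0 h4 ℓ.2 hℓ2 _ hwe
    exact Fermat.Agent.T8.helper13.modularRepOfLevel_of_redCusp hc (kA A) _ hred hne heig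
  -- choose the component
  by_cases hp1 : IsPthPow P.p (f₁ : LaurentSeries (kA A))
  · have hp2 : ¬ IsPthPow P.p (f₂ : LaurentSeries (kA A)) := fun h => hnot ⟨hp1, h⟩
    exact main f₂ (Or.inr h2) D2 (fun h0 => h2.1 (Subtype.ext h0)) hp2
  · exact main f₁ (Or.inl h1) D1 (fun h0 => h1.1 (Subtype.ext h0)) hp1

/-- **box (F) = [D-HECKE] from the leaves of [F3-EXIT]**, with [CUSP-GAP] in class form. -/
theorem dHecke2_of_leaves2 (π : PullData) (hCG : CuspGapClassStatement π)
    (hO : OmegaChainStatement) (hH : HeckeChainStatement) (hD : DescentChainStatement π)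
    (hCA : CuspAnnChainStatement) : DHeckeStatement2 π wallCN :=
  Fermat.Agent.T8.helper44.dHecke2_of_f3Exit π (f3Exit_of_leaves2 π hCG hO hH hD hCA)

/-- **[F3-EXIT] from its leaves**, with [CUSP-GAP] in the form of [CUSP-ASM]
(`helper7.CuspGapStatement π`). -/
theorem f3Exit_of_leaves7 (π : PullData) (hCG : Fermat.Agent.T8.helper7.CuspGapStatement π)
    (hO : OmegaChainStatement) (hH : HeckeChainStatement) (hD : DescentChainStatement π)
    (hCA : CuspAnnChainStatement) : F3ExitStatement π :=
  f3Exit_of_leaves2 π (cuspGapClass_of_cuspGap7 π hCG) hO hH hD hCA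

/-- **box (F) = [D-HECKE] from the leaves of [F3-EXIT]**, with [CUSP-GAP] in the form of
[CUSP-ASM]. -/
theorem dHecke2_of_leaves7 (π : PullData) (hCG : Fermat.Agent.T8.helper7.CuspGapStatement π)
    (hO : OmegaChainStatement) (hH : HeckeChainStatement) (hD : DescentChainStatement π)
    (hCA : CuspAnnChainStatement) : DHeckeStatement2 π wallCN :=
  Fermat.Agent.T8.helper44.dHecke2_of_f3Exit π (f3Exit_of_leaves7 π hCG hO hH hD hCA)

end Fermat.Agent.T8.helper40

end
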