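import Mathlib

/-!
# T8 / [RING-X], abstract local core (helper63): `R_𝔫 / (y) ≃ B_𝔪`

`ρ : R →+* B` a ring homomorphism into a domain `B`, `𝔪` a prime of `B`, `𝔫 = ρ⁻¹ 𝔪`,
`R_𝔫 = Localization.AtPrime 𝔫`, `B_𝔪 = Localization.AtPrime 𝔪`.  Hypotheses:

* (KER)  `ker ρ = (y)`;
* (SURJ, local form) every `b ∈ B` is `ρ r / ρ s` with `ρ s ∉ 𝔪`.

Then `locMap ρ 𝔪 : R_𝔫 →+* B_𝔪` is surjective with kernel `(y)`, so
`locQuotEquiv : R_𝔫 ⧸ (y) ≃+* B_𝔪`; `y` lies in the maximal ideal of `R_𝔫`; and if `B` is a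
Dedekind domain, `R_𝔫 ⧸ (y)` is a domain and a principal ideal ring (`ufd2_hyps_of_local`):
these are the hypotheses of [UFD2] (`helper6.ufm_of_quotient`) except noetherianity.

In T8: `R = R⁰` (helper16 `ringX`), `B = BtAll N A` (Dedekind, helper95), `ρ = red₁`, `y = xx`
(`= W b₀`, `ker red₁ = xx R⁰`: helper63 `kerRed1`) at EVERY closed point of `C₁` where `j̄` is
finite (smooth or double), resp. `ρ = red₂`, `y = b₀` on `C₂`.
-/

set_option autoImplicit false
set_option linter.unusedSectionVars false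
set_option linter.style.haveILetI false
set_option linter.overlappingInstances false

namespace Fermat.Agent.T8.helper63

open Ideal IsLocalRing

section LocQuot

variable {R B : Type*} [CommRing R] [CommRing B] [IsDomain B]
  (ρ : R →+* B) (y : R) (𝔪 : Ideal B) [h𝔪 : 𝔪.IsPrime]

/-- the induced map on the localisations -/
noncomputable def locMap : Localization.AtPrime (𝔪.comap ρ) →+* Localization.AtPrime 𝔪 :=
  Localization.localRingHom (𝔪.comap ρ) 𝔪 ρ rfl

theorem locMap_algebraMap (r : R) :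
    locMap ρ 𝔪 (algebraMap R (Localization.AtPrime (𝔪.comap ρ)) r) =
      algebraMap B (Localization.AtPrime 𝔪) (ρ r) :=
  Localization.localRingHom_to_map _ _ _ _ _

theorem locMap_surjective
    (hsurj : ∀ b : B, ∃ r s : R, ρ s ∉ 𝔪 ∧ b * ρ s = ρ r) :
    Function.Surjective (locMap ρ 𝔪) := by
  intro z
  obtain ⟨⟨b, t⟩, rfl⟩ := IsLocalization.mk'_surjective 𝔪.primeCompl z
  simp only
  obtain ⟨r, s, hs, hbs⟩ := hsurj b
  obtain ⟨r', s', hs', hts⟩ := hsurj (t : B)
  -- b / t = (r / s) / (r' / s') = r s' / (s r')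
  have hr' : ρ r' ∉ 𝔪 := by
    rw [← hts]
    intro h
    rcases h𝔪.mem_or_mem h with h | h
    · exact t.2 h
    · exact hs' h
  have hden : s * r' ∈ (𝔪.comap ρ).primeCompl := by
    show ¬ (s * r' ∈ 𝔪.comap ρ)
    rw [Ideal.mem_comap, map_mul]
    intro h
    rcases h𝔪.mem_or_mem h with h | h
    · exact hs h
    · exact hr' h
  refine ⟨IsLocalization.mk' _ (r * s') ⟨s * r', hden⟩, ?_⟩
  have h1 : locMap ρ 𝔪 (IsLocalization.mk' _ (r * s') ⟨s * r', hden⟩) *
      algebraMap B (Localization.AtPrime 𝔪) (ρ (s * r')) =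
      algebraMap B (Localization.AtPrime 𝔪) (ρ (r * s')) := by
    rw [← locMap_algebraMap, ← locMap_algebraMap, ← map_mul]
    congr 1
    exact IsLocalization.mk'_spec _ _ _
  have h2 : IsLocalization.mk' (Localization.AtPrime 𝔪) b t *
      algebraMap B (Localization.AtPrime 𝔪) (ρ (s * r')) =
      algebraMap B (Localization.AtPrime 𝔪) (ρ (r * s')) := by
    have e : ρ (r * s') * (t : B) = b * ρ (s * r') := by
      rw [map_mul, map_mul, ← hbs, ← hts]
      ring
    have h3 := IsLocalization.mk'_spec (Localization.AtPrime 𝔪) b t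
    have hu : IsUnit (algebraMap B (Localization.AtPrime 𝔪) (t : B)) :=
      IsLocalization.map_units _ t
    apply hu.mul_right_cancel
    calc IsLocalization.mk' (Localization.AtPrime 𝔪) b t *
          algebraMap B (Localization.AtPrime 𝔪) (ρ (s * r')) *
          algebraMap B (Localization.AtPrime 𝔪) (t : B)
        = (IsLocalization.mk' (Localization.AtPrime 𝔪) b t *
            algebraMap B (Localization.AtPrime 𝔪) (t : B)) *
          algebraMap B (Localization.AtPrime 𝔪) (ρ (s * r')) := by ring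
      _ = algebraMap B (Localization.AtPrime 𝔪) b *
          algebraMap B (Localization.AtPrime 𝔪) (ρ (s * r')) := by rw [h3]
      _ = algebraMap B (Localization.AtPrime 𝔪) (ρ (r * s')) *
          algebraMap B (Localization.AtPrime 𝔪) (t : B) := by
        rw [← map_mul, ← map_mul, e]
  have hu : IsUnit (algebraMap B (Localization.AtPrime 𝔪) (ρ (s * r'))) := by
    have : ρ (s * r') ∈ 𝔪.primeCompl := hden
    exact IsLocalization.map_units _ (⟨_, this⟩ : 𝔪.primeCompl)
  exact hu.mul_right_cancel (h1.trans h2.symm)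

theorem locMap_ker (hker : RingHom.ker ρ = Ideal.span {y}) :
    RingHom.ker (locMap ρ 𝔪) =
      Ideal.span {algebraMap R (Localization.AtPrime (𝔪.comap ρ)) y} := by
  apply le_antisymm
  · intro z hz
    obtain ⟨⟨r, s⟩, rfl⟩ := IsLocalization.mk'_surjective (𝔪.comap ρ).primeCompl z
    simp only at hz ⊢
    rw [RingHom.mem_ker] at hz
    have h1 : locMap ρ 𝔪 (algebraMap R _ r) = 0 := by
      have h3 := IsLocalization.mk'_spec (Localization.AtPrime (𝔪.comap ρ)) r s
      rw [← h3, map_mul, hz, zero_mul]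
    rw [locMap_algebraMap] at h1
    have h2 : ρ r = 0 := by
      have hinj := IsLocalization.injective (Localization.AtPrime 𝔪)
        (M := 𝔪.primeCompl) 𝔪.primeCompl_le_nonZeroDivisors
      exact hinj (by rw [h1, map_zero])
    have h3 : r ∈ Ideal.span {y} := by
      rw [← hker, RingHom.mem_ker]
      exact h2
    obtain ⟨c, rfl⟩ := Ideal.mem_span_singleton.mp h3
    rw [Ideal.mem_span_singleton]
    refine ⟨IsLocalization.mk' _ c s, ?_⟩
    rw [IsLocalization.mul_mk'_eq_mk'_of_mul]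
  · rw [Ideal.span_le, Set.singleton_subset_iff, SetLike.mem_coe, RingHom.mem_ker,
      locMap_algebraMap]
    have : ρ y = 0 := by
      rw [← RingHom.mem_ker, hker]
      exact Ideal.mem_span_singleton_self y
    rw [this, map_zero]

/-- `y` lies in the maximal ideal of `R_𝔫` -/
theorem algebraMap_mem_maximalIdeal (hker : RingHom.ker ρ = Ideal.span {y}) :
    algebraMap R (Localization.AtPrime (𝔪.comap ρ)) y ∈
      maximalIdeal (Localization.AtPrime (𝔪.comap ρ)) := by
  have hy : ρ y = 0 := by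
    rw [← RingHom.mem_ker, hker]
    exact Ideal.mem_span_singleton_self y
  rw [← Localization.AtPrime.map_eq_maximalIdeal]
  apply Ideal.mem_map_of_mem
  rw [Ideal.mem_comap, hy]
  exact 𝔪.zero_mem

/-- **the local quotient**: `R_𝔫 / (y) ≃ B_𝔪`. -/
noncomputable def locQuotEquiv
    (hsurj : ∀ b : B, ∃ r s : R, ρ s ∉ 𝔪 ∧ b * ρ s = ρ r)
    (hker : RingHom.ker ρ = Ideal.span {y}) :
    (Localization.AtPrime (𝔪.comap ρ) ⧸
      Ideal.span {algebraMap R (Localization.AtPrime (𝔪.comap ρ)) y}) ≃+*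
      Localization.AtPrime 𝔪 :=
  (Ideal.quotEquivOfEq (locMap_ker ρ y 𝔪 hker).symm).trans
    (RingHom.quotientKerEquivOfSurjective (locMap_surjective ρ 𝔪 hsurj))

theorem isDomain_locQuot
    (hsurj : ∀ b : B, ∃ r s : R, ρ s ∉ 𝔪 ∧ b * ρ s = ρ r)
    (hker : RingHom.ker ρ = Ideal.span {y}) :
    IsDomain (Localization.AtPrime (𝔪.comap ρ) ⧸
      Ideal.span {algebraMap R (Localization.AtPrime (𝔪.comap ρ)) y}) :=
  (locQuotEquiv ρ y 𝔪 hsurj hker).toMulEquiv.isDomain _

theorem isPrincipalIdealRing_locQuot [IsPrincipalIdealRing (Localization.AtPrime 𝔪)]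
    (hsurj : ∀ b : B, ∃ r s : R, ρ s ∉ 𝔪 ∧ b * ρ s = ρ r)
    (hker : RingHom.ker ρ = Ideal.span {y}) :
    IsPrincipalIdealRing (Localization.AtPrime (𝔪.comap ρ) ⧸
      Ideal.span {algebraMap R (Localization.AtPrime (𝔪.comap ρ)) y}) :=
  IsPrincipalIdealRing.of_surjective (locQuotEquiv ρ y 𝔪 hsurj hker).symm.toRingHom
    (locQuotEquiv ρ y 𝔪 hsurj hker).symm.surjective

/-- the localisation of a Dedekind domain at a prime is a principal ideal ring -/
theorem isPrincipalIdealRing_atPrime_of_dedekind [IsDedekindDomain B] :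
    IsPrincipalIdealRing (Localization.AtPrime 𝔪) := by
  by_cases h0 : 𝔪 = ⊥
  · have hmax : maximalIdeal (Localization.AtPrime 𝔪) = ⊥ := by
      rw [← Localization.AtPrime.map_eq_maximalIdeal]
      have : 𝔪 ≤ ⊥ := h0.le
      exact le_bot_iff.mp ((Ideal.map_mono this).trans (Ideal.map_bot).le)
    exact (IsLocalRing.isField_iff_maximalIdeal_eq.mpr hmax).isPrincipalIdealRing
  · haveI : IsDiscreteValuationRing (Localization.AtPrime 𝔪) :=
      IsLocalization.AtPrime.isDiscreteValuationRing_of_dedekind_domain B h0 _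
    infer_instance

/-- **[RING-X], abstract local form**: the hypotheses of [UFD2] / [SLOPE] on `R_𝔫`. -/
theorem ufd2_hyps_of_local [IsDedekindDomain B]
    (hsurj : ∀ b : B, ∃ r s : R, ρ s ∉ 𝔪 ∧ b * ρ s = ρ r)
    (hker : RingHom.ker ρ = Ideal.span {y}) :
    algebraMap R (Localization.AtPrime (𝔪.comap ρ)) y ∈
        maximalIdeal (Localization.AtPrime (𝔪.comap ρ)) ∧
      IsDomain (Localization.AtPrime (𝔪.comap ρ) ⧸
        Ideal.span {algebraMap R (Localization.AtPrime (𝔪.comap ρ)) y}) ∧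
      IsPrincipalIdealRing (Localization.AtPrime (𝔪.comap ρ) ⧸
        Ideal.span {algebraMap R (Localization.AtPrime (𝔪.comap ρ)) y}) := by
  haveI := isPrincipalIdealRing_atPrime_of_dedekind 𝔪
  exact ⟨algebraMap_mem_maximalIdeal ρ y 𝔪 hker, isDomain_locQuot ρ y 𝔪 hsurj hker,
    isPrincipalIdealRing_locQuot ρ y 𝔪 hsurj hker⟩

end LocQuot

end Fermat.Agent.T8.helper63
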