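/-
T8 (row 38, S44), helper77, piece (DVR) of [SLOPE-X'] (helper5 #3832, helper9 #3859):
the two branches of the special fibre at a closed point `Q` of `C₁` where `j̄` is finite.

`R_Q = helper16.locX A hq hqN Q` (local ring of the arithmetic surface at `Q`), `xx = W b₀`
(local equation of `C₁`), `y = b₀` (local equation of `C₂`).

* `quot_abstract` : ABSTRACT. `ρ : R⁰ → B₂` onto a Dedekind domain with kernel `y R⁰`, `P` a prime
  of `R⁰` containing `y`, `R = R⁰_P` ⟹ `R ⧸ (y)` is a domain and a principal ideal ring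
  (it is the localisation of `B₂` at the prime `ρ P`).  NO `W`-mirror place needed.
* `wX`, `red1X_wX`, `red2X_wX`, `red2X_mem_FFb` : the `W`-mirror on `R⁰`.
* `isDedekindDomain_range_red2X` : the range of `red₂` is a Dedekind domain (an overring of
  `Bt A N`, by `helper96.exists_ringX_red2` and T3 `helper3.isDedekindDomain_of_between`).
* `quotY_locSub`, `quotY_of_mem`, `quotY_of_ordAt_pos`, `quotY` : **(DVR, b)**:
  `IsDomain (R_Q ⧸ (y)) ∧ IsPrincipalIdealRing (R_Q ⧸ (y))` if `y ∈ 𝔪_Q` (resp. if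
  `0 < ord_Q b̄₀`); in general `IsUnit y ∨ (…)`.
* `quotXX` : **(DVR, a)**: `IsDomain (R_Q ⧸ (xx)) ∧ IsPrincipalIdealRing (R_Q ⧸ (xx))`.
-/
import Mathlib
import Fermat.Agent.T8.helper16_RingXPt
import Fermat.Agent.T8.helper96_LocSurjX
import Fermat.Agent.T8.helper63_LocQuot
import Fermat.Agent.T3.helper3_Overring
import Fermat.Agent.T3.helper95_BtDed

set_option autoImplicit false
set_option synthInstance.maxHeartbeats 400000
set_option maxHeartbeats 1000000
set_option linter.unusedSectionVars false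
set_option linter.unusedVariables false
set_option linter.style.longLine false
set_option linter.style.haveILetI false

noncomputable section

namespace Fermat.Agent.T8.helper77

open Ideal IsLocalRing

/-! ### The abstract statement -/

section Abstract

variable {R0 : Type*} [CommRing R0] [IsDomain R0]
  {B2 : Type*} [CommRing B2] [IsDedekindDomain B2]
  (ρ : R0 →+* B2) (hρ : Function.Surjective ρ)
  (y : R0) (hy : ρ y = 0) (hker : ∀ r : R0, ρ r = 0 → y ∣ r)
  (P : Ideal R0) [hP : P.IsPrime] (hyP : y ∈ P)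
  (R : Type*) [CommRing R] [Algebra R0 R] [IsLocalization.AtPrime R P]

include hρ hy hker hyP in
/-- **the second branch at a double point, abstract form.**  `ρ : R⁰ → B₂` onto a Dedekind
domain with kernel `y R⁰`, `P` a prime of `R⁰` containing `y`, `R = R⁰_P`: then `R ⧸ (y)` is the
localisation of `B₂` at the prime `ρ P`, a domain and a principal ideal ring. -/
theorem quot_abstract :
    IsDomain (R ⧸ Ideal.span {algebraMap R0 R y}) ∧
      IsPrincipalIdealRing (R ⧸ Ideal.span {algebraMap R0 R y}) := by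
  classical
  have hkerP : RingHom.ker ρ ≤ P := fun r hr => by
    obtain ⟨c, rfl⟩ := hker r (RingHom.mem_ker.mp hr)
    exact P.mul_mem_right c hyP
  haveI hm2 : (P.map ρ).IsPrime := Ideal.map_isPrime_of_surjective hρ hkerP
  have hcomap : (P.map ρ).comap ρ = P := by
    rw [Ideal.comap_map_of_surjective ρ hρ]
    exact sup_eq_left.mpr (by
      intro r hr
      exact hkerP (by simpa [RingHom.mem_ker, Ideal.mem_comap] using hr))
  let O := Localization.AtPrime (P.map ρ)
  haveI : IsDomain O := IsLocalization.isDomain_localization (P.map ρ).primeCompl_le_nonZeroDivisors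
  haveI : IsPrincipalIdealRing O :=
    Fermat.Agent.T8.helper63.isPrincipalIdealRing_atPrime_of_dedekind (P.map ρ)
  let φ : R0 →+* O := (algebraMap B2 O).comp ρ
  have hinj : Function.Injective (algebraMap B2 O) :=
    IsLocalization.injective O (P.map ρ).primeCompl_le_nonZeroDivisors
  have hunder : (maximalIdeal O).comap (algebraMap B2 O) = P.map ρ :=
    IsLocalization.AtPrime.under_maximalIdeal O (P.map ρ)
  have hcomapφ : (maximalIdeal O).comap φ = P := by
    show (maximalIdeal O).comap ((algebraMap B2 O).comp ρ) = P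
    rw [← Ideal.comap_comap, hunder, hcomap]
  have hS : ((maximalIdeal O).comap φ).primeCompl = P.primeCompl := by
    ext x
    show x ∉ (maximalIdeal O).comap φ ↔ x ∉ P
    rw [hcomapφ]
  haveI : IsLocalization.AtPrime R ((maximalIdeal O).comap φ) := by
    show IsLocalization ((maximalIdeal O).comap φ).primeCompl R
    rw [hS]
    infer_instance
  have hsurj : Function.Surjective (Fermat.Agent.T8.helper16.redLoc φ R) := by
    apply Fermat.Agent.T8.helper16.redLoc_surjective
    intro g
    obtain ⟨b, t, rfl⟩ := IsLocalization.exists_mk'_eq (P.map ρ).primeCompl g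
    obtain ⟨a, rfl⟩ := hρ b
    obtain ⟨s, hs⟩ := hρ (t : B2)
    refine ⟨a, s, ?_, ?_⟩
    · show IsUnit (algebraMap B2 O (ρ s))
      rw [hs]
      exact IsLocalization.map_units O t
    · show IsLocalization.mk' O (ρ a) t * algebraMap B2 O (ρ s) = algebraMap B2 O (ρ a)
      rw [hs]
      exact IsLocalization.mk'_spec O (ρ a) t
  have hφy : φ y = 0 := by
    show algebraMap B2 O (ρ y) = 0
    rw [hy, map_zero]
  have hφker : ∀ r : R0, φ r = 0 → y ∣ r := fun r hr =>
    hker r (hinj (by rw [map_zero]; exact hr))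
  have hk := Fermat.Agent.T8.helper16.ker_redLoc φ R hφy hφker
  let e : (R ⧸ Ideal.span {algebraMap R0 R y}) ≃+* O :=
    (Ideal.quotEquivOfEq hk.symm).trans
      (RingHom.quotientKerEquivOfSurjective hsurj)
  exact ⟨e.toMulEquiv.isDomain O, IsPrincipalIdealRing.of_surjective e.symm.toRingHom
    e.symm.surjective⟩

end Abstract

/-! ### The instance -/

section Inst

open HahnSeries IntermediateField AlgebraicCurve ModularCurve
open Fermat.Agent.S18.helper19 Fermat.Agent.P2.helper29 Fermat.Agent.T2.helper36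
open Fermat.Agent.S24
open Fermat.Agent.P2.helper66 (iota)
open Fermat.Agent.T2.helper22 (Bt mem_Bt)
open Fermat.Agent.T8.helper63 (IsRX KerRedStatement)
open Fermat.Agent.T8.helper16

variable {N q : ℕ} [NeZero N] [NeZero q] {A : ValuationSubring Kb} {hq : q.Prime}
  {hqN : ¬ q ∣ N}

/-- the `W`-mirror of an element of `R⁰` -/
def wX (g : ringX A hq hqN) : ringX A hq hqN :=
  ⟨atkinLehner N q hq hqN (g : FF (N * q)), model2 g, model1 g, (isRX_model g).swap⟩

theorem coe_wX (g : ringX A hq hqN) :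
    ((wX g : ringX A hq hqN) : FF (N * q)) = atkinLehner N q hq hqN (g : FF (N * q)) := rfl

theorem red1X_wX (g : ringX A hq hqN) : red1X A hq hqN (wX g) = red2X A hq hqN g := by
  rw [red1X_eq (g := wX g) (isRX_model g).swap, red2X_eq (isRX_model g)]

theorem red2X_wX (g : ringX A hq hqN) : red2X A hq hqN (wX g) = red1X A hq hqN g := by
  rw [red2X_eq (g := wX g) (isRX_model g).swap, red1X_eq (isRX_model g)]

/-- the second reduction of a function of `R⁰` is a function of the special fibre -/
theorem red2X_mem_FFb (hA : A.LiesOverPrime q) (g : ringX A hq hqN) :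
    red2X A hq hqN g ∈ FFb A N := by
  rw [← red1X_wX]
  exact red1X_mem_FFb hA _

/-- **the coordinate ring of the second component**: the range of `red₂` is a Dedekind domain
(an overring of `Bt A N` inside the function field of the special fibre). -/
theorem isDedekindDomain_range_red2X (hA : A.LiesOverPrime q) (hN : 4 ∣ N ∨ 9 ∣ N) :
    IsDedekindDomain (red2X A hq hqN).range := by
  haveI := Fermat.Agent.T3.helper95.isDedekindDomain_Bt N A
  exact Fermat.Agent.T3.helper3.isDedekindDomain_of_between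
    ((Bt A N).val.toRingHom : Bt A N →+* LaurentSeries (kA A))
    (fun x y h => Subtype.ext h) (red2X A hq hqN).range
    (fun d => by
      obtain ⟨a, ha, -⟩ := Fermat.Agent.T8.helper96.exists_ringX_red2 N q hq hqN A hA hN d.2
      exact ⟨a, ha⟩)
    (fun r hr => by
      obtain ⟨g, rfl⟩ := hr
      obtain ⟨x, s, hx, hs, hs0, hxy⟩ :=
        Fermat.Agent.T3.helper95.fracBt N A ⟨_, red2X_mem_FFb hA g⟩
      refine ⟨⟨x, hx⟩, ⟨s, hs⟩, fun h => hs0 (Subtype.ext
        (congrArg (fun z : Bt A N => (z : LaurentSeries (kA A))) h)), ?_⟩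
      exact congrArg (fun z : FFb A N => (z : LaurentSeries (kA A))) hxy)

variable {b0 : FF (N * q)} {B : PowerSeries ℤ}

/-- **(DVR, b), localisation form.**  At a point `Q` of `C₁` through which the second component
passes (`y = b₀ ∈ 𝔪_Q`), the quotient `R_Q ⧸ (y)` is a domain and a principal ideal ring. -/
theorem quotY_locSub (hA : A.LiesOverPrime q) (hN : 4 ∣ N ∨ 9 ∣ N)
    (hK : KerRedStatement N q hq hqN A b0 B) (hb : b0 ≠ 0)
    (Q : Place (kA A) (FFb A N)) (hQ : IsFinitePt Q)
    (hyQ : yyX hK ∈ primeX hA Q hQ) :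
    letI := locSubAlgebra (ringX A hq hqN) (primeX hA Q hQ).primeCompl
    IsDomain (locSub (ringX A hq hqN) (primeX hA Q hQ).primeCompl ⧸
        Ideal.span {algebraMap (ringX A hq hqN)
          (locSub (ringX A hq hqN) (primeX hA Q hQ).primeCompl) (yyX hK)}) ∧
      IsPrincipalIdealRing (locSub (ringX A hq hqN) (primeX hA Q hQ).primeCompl ⧸
        Ideal.span {algebraMap (ringX A hq hqN)
          (locSub (ringX A hq hqN) (primeX hA Q hQ).primeCompl) (yyX hK)}) := by
  letI := locSubAlgebra (ringX A hq hqN) (primeX hA Q hQ).primeCompl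
  haveI : IsLocalization.AtPrime
      (locSub (ringX A hq hqN) (primeX hA Q hQ).primeCompl) (primeX hA Q hQ) :=
    isLocalization_locSub _ _ (zero_notMem_primeCompl hA Q hQ)
  haveI := isDedekindDomain_range_red2X (hq := hq) (hqN := hqN) hA hN
  exact quot_abstract (red2X A hq hqN).rangeRestrict
    (RingHom.rangeRestrict_surjective _) (yyX hK)
    (Subtype.ext (red2X_yyX hK))
    (fun r hr => yyX_dvd_of_red2X_eq_zero hK hb
      (congrArg (fun z : (red2X A hq hqN).range => (z : LaurentSeries (kA A))) hr))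
    (primeX hA Q hQ) hyQ (locSub (ringX A hq hqN) (primeX hA Q hQ).primeCompl)

/-- transport of the conclusion along an equality of subrings -/
theorem quot_transport {F : Type*} [Field F] (R1 R2 : Subring F) (h : R1 = R2) (y1 : R1)
    (y2 : R2) (hy : (y1 : F) = (y2 : F))
    (H : IsDomain (R2 ⧸ Ideal.span {y2}) ∧ IsPrincipalIdealRing (R2 ⧸ Ideal.span {y2})) :
    IsDomain (R1 ⧸ Ideal.span {y1}) ∧ IsPrincipalIdealRing (R1 ⧸ Ideal.span {y1}) := by
  subst h
  have e : y1 = y2 := Subtype.ext hy
  subst e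
  exact H

theorem isUnit_transport {F : Type*} [Field F] (R1 R2 : Subring F) (h : R1 = R2) (y1 : R1)
    (y2 : R2) (hy : (y1 : F) = (y2 : F)) (H : IsUnit y2) : IsUnit y1 := by
  subst h
  have e : y1 = y2 := Subtype.ext hy
  subst e
  exact H

/-- **(DVR, b)**: at a point `Q` of `C₁` through which the second component passes
(`y = b₀ ∈ 𝔪_Q`), the quotient `R_Q ⧸ (y)` of the local ring `R_Q = locX Q` is a domain and a
principal ideal ring. -/
theorem quotY_of_mem (hA : A.LiesOverPrime q) (hN : 4 ∣ N ∨ 9 ∣ N)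
    (hK : KerRedStatement N q hq hqN A b0 B) (hb : b0 ≠ 0)
    (Q : Place (kA A) (FFb A N)) (hQ : IsFinitePt Q)
    (hyQ : yyX hK ∈ primeX hA Q hQ)
    (y : locX A hq hqN Q) (hy : (y : FF (N * q)) = b0) :
    IsDomain (locX A hq hqN Q ⧸ Ideal.span {y}) ∧
      IsPrincipalIdealRing (locX A hq hqN Q ⧸ Ideal.span {y}) := by
  letI := locSubAlgebra (ringX A hq hqN) (primeX hA Q hQ).primeCompl
  exact quot_transport _ _ (locX_eq hA Q hQ) y
    (algebraMap (ringX A hq hqN) (locSub (ringX A hq hqN) (primeX hA Q hQ).primeCompl)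
      (yyX hK)) hy (quotY_locSub hA hN hK hb Q hQ hyQ)

/-- the second component passes through `Q` as soon as `b̄₀ = red₁ b₀` vanishes at `Q` -/
theorem yyX_mem_primeX_of_ordAt_pos (hA : A.LiesOverPrime q)
    (hK : KerRedStatement N q hq hqN A b0 B)
    (Q : Place (kA A) (FFb A N)) (hQ : IsFinitePt Q)
    (h : 0 < ordAt Q (iota (kA A) B)) : yyX hK ∈ primeX hA Q hQ := by
  by_contra hn
  have h1 : yyX hK ∈ (primeX hA Q hQ).primeCompl := hn
  have h3 := ((mem_primeCompl_iff hA Q hQ _).mp h1).2.2
  rw [red1X_yyX hK] at h3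
  omega

/-- **(DVR, b), in the shape of helper9 #3859**: if `0 < ord_Q b̄₀` then `R_Q ⧸ (y)` is a domain
and a principal ideal ring (`y = b₀`). -/
theorem quotY_of_ordAt_pos (hA : A.LiesOverPrime q) (hN : 4 ∣ N ∨ 9 ∣ N)
    (hK : KerRedStatement N q hq hqN A b0 B) (hb : b0 ≠ 0)
    (Q : Place (kA A) (FFb A N)) (hQ : IsFinitePt Q)
    (h : 0 < ordAt Q (iota (kA A) B))
    (y : locX A hq hqN Q) (hy : (y : FF (N * q)) = b0) :
    IsDomain (locX A hq hqN Q ⧸ Ideal.span {y}) ∧
      IsPrincipalIdealRing (locX A hq hqN Q ⧸ Ideal.span {y}) :=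
  quotY_of_mem hA hN hK hb Q hQ (yyX_mem_primeX_of_ordAt_pos hA hK Q hQ h) y hy

/-- **(DVR, b), dichotomy**: `y = b₀` is a unit of `R_Q`, or `R_Q ⧸ (y)` is a domain and a
principal ideal ring. -/
theorem quotY (hA : A.LiesOverPrime q) (hN : 4 ∣ N ∨ 9 ∣ N)
    (hK : KerRedStatement N q hq hqN A b0 B) (hb : b0 ≠ 0)
    (Q : Place (kA A) (FFb A N)) (hQ : IsFinitePt Q)
    (y : locX A hq hqN Q) (hy : (y : FF (N * q)) = b0) :
    IsUnit y ∨ (IsDomain (locX A hq hqN Q ⧸ Ideal.span {y}) ∧
      IsPrincipalIdealRing (locX A hq hqN Q ⧸ Ideal.span {y})) := by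
  by_cases hyQ : yyX hK ∈ primeX hA Q hQ
  · exact Or.inr (quotY_of_mem hA hN hK hb Q hQ hyQ y hy)
  · left
    letI := locSubAlgebra (ringX A hq hqN) (primeX hA Q hQ).primeCompl
    haveI : IsLocalization.AtPrime
        (locSub (ringX A hq hqN) (primeX hA Q hQ).primeCompl) (primeX hA Q hQ) :=
      isLocalization_locSub _ _ (zero_notMem_primeCompl hA Q hQ)
    exact isUnit_transport _ _ (locX_eq hA Q hQ) y
      (algebraMap (ringX A hq hqN) (locSub (ringX A hq hqN) (primeX hA Q hQ).primeCompl)
        (yyX hK)) hy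
      (IsLocalization.map_units (M := (primeX hA Q hQ).primeCompl)
        (locSub (ringX A hq hqN) (primeX hA Q hQ).primeCompl) ⟨yyX hK, hyQ⟩)

/-- **(DVR, a)**: the quotient `R_Q ⧸ (xx)` (`xx = W b₀`, the local equation of `C₁`) is a domain
and a principal ideal ring (it is the local ring `O_Q` of the point). -/
theorem quotXX (hA : A.LiesOverPrime q) (hN : 4 ∣ N ∨ 9 ∣ N)
    (hK : KerRedStatement N q hq hqN A b0 B) (hb : atkinLehner N q hq hqN b0 ≠ 0)
    (Q : Place (kA A) (FFb A N)) (hQ : IsFinitePt Q)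
    (x : locX A hq hqN Q) (hx : (x : FF (N * q)) = atkinLehner N q hq hqN b0) :
    IsDomain (locX A hq hqN Q ⧸ Ideal.span {x}) ∧
      IsPrincipalIdealRing (locX A hq hqN Q ⧸ Ideal.span {x}) := by
  letI := locSubAlgebra (ringX A hq hqN) (primeX hA Q hQ).primeCompl
  haveI : IsLocalization.AtPrime
      (locSub (ringX A hq hqN) (primeX hA Q hQ).primeCompl)
      ((IsLocalRing.maximalIdeal Q.toValuationSubring).comap (red1Q hA Q hQ)) :=
    isLocalization_locSub _ _ (zero_notMem_primeCompl hA Q hQ)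
  refine quot_transport _ _ (locX_eq hA Q hQ) x
    (algebraMap (ringX A hq hqN) (locSub (ringX A hq hqN) (primeX hA Q hQ).primeCompl)
      (xxX hK)) hx ?_
  have hk := ker_redLoc (red1Q hA Q hQ) (locSub (ringX A hq hqN) (primeX hA Q hQ).primeCompl)
    (xx := xxX hK) ((red1Q_eq_zero_iff hA Q hQ _).mpr (red1X_xxX hK))
    (fun r hr => xxX_dvd_of_red1X_eq_zero hK hb ((red1Q_eq_zero_iff hA Q hQ r).mp hr))
  have hsurj := redLoc_surjective (red1Q hA Q hQ)
    (locSub (ringX A hq hqN) (primeX hA Q hQ).primeCompl)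
    (hsurj_red1Q hA (Fermat.Agent.T8.helper16.locSurjX hA hN) Q hQ)
  let e : (locSub (ringX A hq hqN) (primeX hA Q hQ).primeCompl ⧸
      Ideal.span {algebraMap (ringX A hq hqN)
        (locSub (ringX A hq hqN) (primeX hA Q hQ).primeCompl) (xxX hK)}) ≃+*
      Q.toValuationSubring :=
    (Ideal.quotEquivOfEq hk.symm).trans (RingHom.quotientKerEquivOfSurjective hsurj)
  exact ⟨e.toMulEquiv.isDomain _, IsPrincipalIdealRing.of_surjective e.symm.toRingHom
    e.symm.surjective⟩

end Inst

end Fermat.Agent.T8.helper77
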