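import Mathlib
import Fermat.Agent.T8.helper29_KRatFinal
import Fermat.Agent.T8.helper23_CovPtWire2
import Fermat.Agent.T8.helper4_YCaseInst
import Fermat.Agent.T8.helper16_CovSheet1
import Fermat.Agent.T8.helper65_CovOrd
import Fermat.Agent.T8.helper22_OrdNu
import Fermat.Agent.T8.helper77_QuotY
import Fermat.Agent.T8.helper6_SheetsLocal
import Fermat.Agent.T8.helper97_SheetsGen
import Fermat.Agent.T8.helper29_CovPtOrd

/-!
# T8 = row 38 via S44, the cover instance, FINAL ASSEMBLY (helper41, spare assembler)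

`covPtFix41 : helper29.CovPtFix` from the pieces on main:
`helper97.exists_sheets_poly` (the polynomial of the tame trace), `helper6.isMonogenic_of_base`,
`helper16.sheet1_cov` (first sheet, lift of the reduction, simple root), `helper4.yCase_locX`
(second sheet), `helper23.covPtHom_locX` (the point contract), `helper22.covPtStatement_of_hom`.
-/

set_option autoImplicit false
set_option synthInstance.maxHeartbeats 400000
set_option maxHeartbeats 1000000
set_option linter.unusedSectionVars false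
set_option linter.unusedVariables false
set_option linter.style.longLine false
set_option linter.style.haveILetI false

noncomputable section

open HahnSeries IntermediateField AlgebraicCurve ModularCurve Polynomial
open Fermat.Agent.S18.helper19 Fermat.Agent.P2.helper29 Fermat.Agent.T2.helper36
open Fermat.Agent.S24

namespace Fermat.Agent.T8.helper41

open Fermat.Agent.P2.helper66 (iota)
open Fermat.Agent.T3.helper16 (IsUnit0)
open Fermat.Agent.T3.helper36 (RhoQ GaussIs)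
open Fermat.Agent.T8.helper63 (IsRX KerRedStatement kerRedStatement)
open Fermat.Agent.T8.helper16
open Fermat.Agent.T8.helper33 (IsMonogenic ptIdeal)
open Fermat.Agent.T8.helper88 (CovData Cov)
open Fermat.Agent.T8.helper86 (IsKummerRoot)
open Fermat.Agent.T8.helper65 (muFix IA cwAct)
open Fermat.Agent.T8.helper97 (tGen SheetsPoly phiX)
open Fermat.Agent.T8.helper54 (IsRed1)
open Fermat.Agent.T8.helper9 (CovPtHom CovPtStatement)
open Fermat.Agent.T8.helper23 (covSet)
open Fermat.Agent.T8.helper29 (sh1 sh2)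

section Point

variable {N p : ℕ} [NeZero N] [NeZero p] {hp : p.Prime} {hpN : ¬ p ∣ N}
  {A : ValuationSubring Kb} {b0 : FF (N * p)} {B : PowerSeries ℤ} {ε : ℤ}
  (D : CovData (N * p) (atkinLehner N p hp hpN) A p)
  [((muFix p ⊓ IA A).subgroupOf (IA A)).FiniteIndex]
  (hKum : IsKummerRoot p D.K D.Z) (ζ : Kb) (hζ : IsPrimitiveRoot ζ p)

/-- **the point contract at a finite point `Q`, from an abstract monogenic setup** -/
theorem covPtHom_of_setup (hU : IsUnit0 hp hpN b0 B ε) (hA : A.LiesOverPrime p)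
    (hN : 4 ∣ N ∨ 9 ∣ N) (hp3 : 3 ≤ p)
    (hnew : Fermat.Agent.T7.helper27.IsNewN N p D.K)
    (hfix1 : ∀ σ ∈ muFix p ⊓ IA A, cwAct σ (incl A D.Z₁) = incl A D.Z₁)
    (hfix2 : ∀ σ ∈ muFix p ⊓ IA A, cwAct σ (incl A D.Z₂) = incl A D.Z₂)
    (hr1 : red A D.Z₁ = 1) (hr2 : red A D.Z₂ = 1)
    (Q : Place (kA A) (FFb A N)) (hQ : IsFinitePt Q)
    {S : Type} [CommRing S] [IsDomain S] [Algebra (locX A hp hpN Q) S]
    (jS : S →+* Cov (N * p) D.Z) (hjS : Function.Injective jS)
    (hjR : ∀ r : locX A hp hpN Q, jS (algebraMap (locX A hp hpN Q) S r) =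
      algebraMap (FF (N * p)) (Cov (N * p) D.Z) (r : FF (N * p)))
    (t : S) (hjt : jS t = tGen D ζ)
    {f₀ : Polynomial (ringX A hp hpN)} {c₁ c₂ : LaurentSeries (kA A)}
    (hf : SheetsPoly D hKum ζ hζ f₀ c₁ c₂)
    (hm : IsMonogenic t (f₀.map (locXIncl (A := A) (hq := hp) (hqN := hpN) Q))) :
    ∃ (i j : ℕ) (T₀ : Type) (_ : CommRing T₀) (_ : IsDomain T₀)
      (ι : T₀ →+* Cov (N * p) D.Z) (xx y : T₀) (yR : locX A hp hpN Q),
      (yR : FF (N * p)) = b0 ∧
      CovPtHom (covSet D) (sh1 D hKum ζ hζ.pow_eq_one i) (sh2 D hKum ζ hζ.pow_eq_one j) ι xx y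
        (FFb A N).toSubfield (ordAt Q) (redL hA Q hQ yR) p := by
  classical
  haveI : IsLocalRing (locX A hp hpN Q) := isLocalRing_locX hA Q hQ
  haveI : IsNoetherianRing (locX A hp hpN Q) := isNoetherianRing_locX hA Q hQ
  have hK := kerRedStatement hU A hA
  have hdeg' : (f₀.map (locXIncl (A := A) (hq := hp) (hqN := hpN) Q)).natDegree = p := by
    rw [hf.monic.natDegree_map, hf.natDegree]
  -- the vertical elements
  obtain ⟨xxR, hxx⟩ : ∃ xxR : locX A hp hpN Q,
      (xxR : FF (N * p)) = atkinLehner N p hp hpN b0 := ⟨locXIncl Q (xxX hK), rfl⟩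
  obtain ⟨yR, hyy⟩ : ∃ yR : locX A hp hpN Q, (yR : FF (N * p)) = b0 :=
    ⟨locXIncl Q (yyX hK), rfl⟩
  have hxxm : xxR ∈ IsLocalRing.maximalIdeal (locX A hp hpN Q) := by
    have e : xxR = locXIncl Q (xxX hK) := Subtype.ext hxx
    rw [IsLocalRing.mem_maximalIdeal, mem_nonunits_iff, e]
    exact not_isUnit_xx hA hK Q hQ
  have hb : atkinLehner N p hp hpN b0 ≠ 0 := by
    intro h0
    apply hU.ne_zero
    have := congrArg (atkinLehner N p hp hpN).symm h0
    rwa [AlgEquiv.symm_apply_apply, map_zero] at this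
  -- the first sheet
  obtain ⟨a, H, ha, ha'⟩ := sheet1_cov D hKum ζ hζ hU hA hN hp3 hnew hfix1 hfix2 hr1 hr2 Q hQ
    jS hjR t hjt hf xxR hxx
  -- the local ring at the etale point
  haveI hP : (ptIdeal t a).IsPrime := (hm.ptIdeal_isMaximal a ha).isPrime
  have hunits : ∀ y : (ptIdeal t a).primeCompl, IsUnit (jS (y : S)) := by
    intro y
    refine IsUnit.mk0 _ ?_
    intro h0
    have h1 : (y : S) = 0 := hjS (h0.trans (map_zero jS).symm)
    exact y.2 (by rw [h1]; exact (ptIdeal t a).zero_mem)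
  obtain ⟨ι, hι⟩ : ∃ ι : Localization.AtPrime (ptIdeal t a) →+* Cov (N * p) D.Z,
      ∀ s : S, ι (algebraMap S (Localization.AtPrime (ptIdeal t a)) s) = jS s :=
    ⟨IsLocalization.lift hunits, fun s => IsLocalization.lift_eq hunits s⟩
  -- the second sheet
  obtain ⟨j, hj, hy⟩ := Fermat.Agent.T8.helper4.yCase_locX D hKum ζ hζ.pow_eq_one
    (Localization.AtPrime (ptIdeal t a)) hU hA hN hQ hζ hp3 hfix1 hfix2 hr1 hr2 jS hjR hjt hm
    hdeg' ha ha' ι hι yR hyy
  -- the quotient by `xx`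
  obtain ⟨hD, hPIR⟩ := Fermat.Agent.T8.helper77.quotXX hA hN hK hb Q hQ xxR hxx
  haveI := hD
  haveI := hPIR
  have hν : redL hA Q hQ yR ≠ 0 :=
    Fermat.Agent.T8.helper65.redL_yy_ne_zero hU hA Q hQ yR hyy
  have hpt := Fermat.Agent.T8.helper23.covPtHom_locX D (Localization.AtPrime (ptIdeal t a))
    hU hA hKum ζ hζ hp3 hfix1 hfix2 hr1 hr2 hxx hyy hm ha ha' hxxm
    (sh2 D hKum ζ hζ.pow_eq_one j) hjS hjR hjt ι hι H
    (Fermat.Agent.T8.helper65.covOrd_mul Q) (Fermat.Agent.T8.helper65.covOrd_const_mul Q) hν hy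
  exact ⟨0, j, Localization.AtPrime (ptIdeal t a), inferInstance,
    IsMonogenic.isDomain_loc (t := t) (a := a) (Localization.AtPrime (ptIdeal t a)), ι, _, _,
    yR, hyy, hpt⟩

/-- **the point contract at a finite point `Q`** -/
theorem covPtHom_point (hU : IsUnit0 hp hpN b0 B ε) (hA : A.LiesOverPrime p)
    (hN : 4 ∣ N ∨ 9 ∣ N) (hp3 : 3 ≤ p)
    (hreg : Fermat.Agent.T3.helper98.IsRegJ (N * p) D.K)
    (hnew : Fermat.Agent.T7.helper27.IsNewN N p D.K)
    (hfix1 : ∀ σ ∈ muFix p ⊓ IA A, cwAct σ (incl A D.Z₁) = incl A D.Z₁)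
    (hfix2 : ∀ σ ∈ muFix p ⊓ IA A, cwAct σ (incl A D.Z₂) = incl A D.Z₂)
    (hr1 : red A D.Z₁ = 1) (hr2 : red A D.Z₂ = 1)
    (Q : Place (kA A) (FFb A N)) (hQ : IsFinitePt Q) :
    ∃ (i j : ℕ) (T₀ : Type) (_ : CommRing T₀) (_ : IsDomain T₀)
      (ι : T₀ →+* Cov (N * p) D.Z) (xx y : T₀) (yR : locX A hp hpN Q),
      (yR : FF (N * p)) = b0 ∧
      CovPtHom (covSet D) (sh1 D hKum ζ hζ.pow_eq_one i) (sh2 D hKum ζ hζ.pow_eq_one j) ι xx y
        (FFb A N).toSubfield (ordAt Q) (redL hA Q hQ yR) p := by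
  classical
  -- the polynomial of the tame trace
  obtain ⟨f₀, c₁, c₂, hf⟩ :=
    Fermat.Agent.T8.helper97.exists_sheets_poly D hKum ζ hζ hp3 hA hreg hfix1 hfix2 hr1 hr2
  -- the monogenic ring `S = R_Q[t]` inside the cover
  have hinj : Function.Injective
      (algebraMap (locX A hp hpN Q) (FF (N * p))) := Subtype.val_injective
  have hcomp : (algebraMap (locX A hp hpN Q) (Cov (N * p) D.Z)).comp (locXIncl Q) = phiX D :=
    RingHom.ext (fun r => rfl)
  have hroot : f₀.eval₂ ((algebraMap (locX A hp hpN Q) (Cov (N * p) D.Z)).comp (locXIncl Q))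
      (tGen D ζ) = 0 := by
    rw [hcomp]
    exact hf.eval_tGen
  have hdeg : f₀.natDegree ≤ (minpoly (FF (N * p)) (tGen D ζ)).natDegree := by
    rw [hf.natDegree]
    exact Fermat.Agent.T8.helper97.le_natDegree_minpoly_tGen D hKum ζ hζ hp3 hA hfix1 hfix2
      hr1 hr2
  have hm := Fermat.Agent.T8.helper6.isMonogenic_of_base_eval₂ (K := FF (N * p))
    (L := Cov (N * p) D.Z) (locXIncl (A := A) (hq := hp) (hqN := hpN) Q) hinj (tGen D ζ) f₀
    hf.monic hroot hdeg
  exact covPtHom_of_setup D hKum ζ hζ hU hA hN hp3 hnew hfix1 hfix2 hr1 hr2 Q hQ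
    (S := Algebra.adjoin (locX A hp hpN Q) {tGen D ζ})
    (Subalgebra.val (Algebra.adjoin (locX A hp hpN Q) {tGen D ζ})).toRingHom
    Subtype.val_injective (fun r => rfl)
    ⟨tGen D ζ, Algebra.self_mem_adjoin_singleton (locX A hp hpN Q) (tGen D ζ)⟩ rfl hf hm

end Point

/-- **the cover instance**: the last open Prop of the frontier of S44. -/
theorem covPtFix41 : Fermat.Agent.T8.helper29.CovPtFix := by
  intro P M' _ hpN A hA hdvd hirr b0 B ε hb ν hν D hKum ζ hζp hζ hK hnew hr1 hr2 hf1 hf2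
  haveI : NeZero P.p := ⟨P.pp.ne_zero⟩
  haveI : Fact P.p.Prime := ⟨P.pp⟩
  haveI : ((muFix P.p ⊓ IA A).subgroupOf (IA A)).FiniteIndex :=
    Fermat.Agent.T8.helper65.finiteIndex_muFix A hA
  refine Fermat.Agent.T8.helper22.covPtStatement_of_hom hA hb hν D hKum ζ hζp hnew hr1
    (fun Q hQ => ?_)
  exact covPtHom_point D hKum ζ hζ hb hA (Or.inl (Dvd.intro M' rfl))
    (le_trans (by norm_num) P.hp5) (Fermat.Agent.T8.helper29.isRegJ_of_isA0One hK.1) hnew
    hf1 hf2 hr1 hr2 Q hQ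

/-- **the non-split wall**, hypothesis-free. -/
theorem nonSplitWall41 (π : Fermat.Agent.T8.helper72.PullData) :
    Fermat.Agent.T8.helper38.NonSplitWallStatement π Fermat.Agent.T8.helper29.wallBN :=
  Fermat.Agent.T8.helper29.nonSplitWall_of_covPtFixFinal π covPtFix41

end Fermat.Agent.T8.helper41

end
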