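import Fermat.Agent.T8.helper54_Phi
import Fermat.Agent.T8.helper67_AuxDef
import Fermat.Agent.T8.helper43_PhiE1
import Fermat.Agent.T3.helper36_RhoQStab

/-!
# T8 [CUSP-ASM], sub-lemma (K) (helper41, second): Kummer and reduction bookkeeping for `β_r^*`

Levels `M * r = N`, prime `p ∤ N`, `A` a valuation subring of `ℚ̄` over `p`.  Let
`x₀ ∈ J₀(M p)[p]`, `x = β_r^* x₀ ∈ J₀(N p)` (`helper67.pullTo`), `u` ANY Kummer function of `x`
and `f` ANY first-component reduction of `u` (`helper54.IsRed1`).  Then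

  `f = c · f₀(q ^ r) · g ^ p`

with `f₀` a first-component reduction of a Kummer function `u₀` of `x₀`, `g ∈ FFb A N`, `g ≠ 0`,
`c ∈ k^×` (`cuspAsmK`); hence `ord_Q f ≡ ord_Q f₀(q ^ r)` mod `p` at every place `Q` of the
special fibre of level `N` (`cuspAsmK_ord`, `cuspAsmK_dvd_iff`).

* `isRed1_betaTo` : reduction commutes with `β_r` (`q ↦ q ^ r`);
* `cuspAsmK`, `cuspAsmK_ord`, `cuspAsmK_dvd_iff`.
-/

set_option autoImplicit false
set_option synthInstance.maxHeartbeats 400000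
set_option maxHeartbeats 1000000
set_option linter.unusedSectionVars false
set_option linter.unusedVariables false
set_option linter.style.longLine false
set_option linter.style.haveILetI false

noncomputable section

open HahnSeries IntermediateField AlgebraicCurve ModularCurve
open Fermat.Agent.S18.helper19 Fermat.Agent.P2.helper29 Fermat.Agent.T2.helper36

namespace Fermat.Agent.T8.helper41

open Fermat.Agent.T3.helper36 (RhoQ)
open Fermat.Agent.P3.helper94 (IsKummerRep HasTrivialDiv)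
open Fermat.Agent.T8.helper54 (IsRed1)
open Fermat.Agent.T8.helper67 (betaTo pullTo)

variable {A : ValuationSubring Kb} {M r N p : ℕ} [NeZero M] [NeZero r] [NeZero N] [NeZero p]

/-- `f₀(q ^ r)` as an element of the special fibre field of level `N = M * r` -/
def betaBarTo41 (A : ValuationSubring Kb) (h : M * r = N) (f₀ : FFb A M) : FFb A N :=
  ⟨qExpand (kA A) r (f₀ : LaurentSeries (kA A)), by
    subst h
    exact (Fermat.Agent.T8.helper43.betaBarC M r A f₀).2⟩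

@[simp]
theorem coe_betaBarTo41 (h : M * r = N) (f₀ : FFb A M) :
    ((betaBarTo41 A h f₀ : FFb A N) : LaurentSeries (kA A)) =
      qExpand (kA A) r (f₀ : LaurentSeries (kA A)) := rfl

theorem betaBarTo41_ne_zero (h : M * r = N) {f₀ : FFb A M} (hf₀ : f₀ ≠ 0) :
    betaBarTo41 A h f₀ ≠ 0 := by
  intro h0
  have h1 : qExpand (kA A) r (f₀ : LaurentSeries (kA A)) = 0 := congrArg Subtype.val h0
  exact hf₀ (Subtype.ext (qExpand_injective r (h1.trans (map_zero _).symm)))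

/-- **reduction commutes with `β_r`** -/
theorem isRed1_betaTo (h : M * r = N) (h' : M * p * r = N * p) {u₀ : FF (M * p)} {f₀ : FFb A M}
    (h0 : IsRed1 A M p u₀ f₀) :
    IsRed1 A N p (betaTo (M * p) r (N * p) h' u₀) (betaBarTo41 A h f₀) := by
  obtain ⟨hf₀, κ, hκ, hr⟩ := h0
  refine ⟨betaBarTo41_ne_zero h hf₀, κ, hκ, ?_⟩
  have h1 := hr.qExpand r
  rw [map_mul, Fermat.Agent.T3.helper36.qExpand_algebraMap_val] at h1
  rw [Fermat.Agent.T8.helper67.coe_betaTo]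
  exact h1

/-- **(K)**: every first-component reduction of a Kummer function of `β_r^* x₀` is
`c · f₀(q ^ r) · g ^ p`, `f₀` a first-component reduction of a Kummer function of `x₀`. -/
theorem cuspAsmK (hp : p.Prime) (hpN : ¬ p ∣ N) (hA : A.LiesOverPrime p) (h : M * r = N)
    (h' : M * p * r = N * p) {x₀ : JZero (M * p)} (hx₀ : p • x₀ = 0)
    {u : FF (N * p)} {f : FFb A N}
    (hk : IsKummerRep p (pullTo (M * p) r (N * p) h' x₀) u) (hr : IsRed1 A N p u f) :
    ∃ (u₀ : FF (M * p)) (f₀ : FFb A M) (g : FFb A N) (c : kA A),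
      IsKummerRep p x₀ u₀ ∧ IsRed1 A M p u₀ f₀ ∧ g ≠ 0 ∧ c ≠ 0 ∧
        f = algebraMap (kA A) (FFb A N) c * (betaBarTo41 A h f₀ * g ^ p) := by
  have hpM : ¬ p ∣ M := fun hd => hpN (h ▸ Dvd.dvd.mul_right hd r)
  obtain ⟨u₀, hu₀⟩ := Fermat.Agent.P3.helper94.exists_isKummerRep hx₀
  obtain ⟨f₀, hf₀⟩ := Fermat.Agent.T8.helper54.exists_isRed1 hp hpM hA hu₀.ne_zero
  have hk1 : IsKummerRep p (pullTo (M * p) r (N * p) h' x₀) (betaTo (M * p) r (N * p) h' u₀) :=
    Fermat.Agent.T8.helper67.isKummerRep_pullTo h' hu₀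
  obtain ⟨G, w, hG, hw, e⟩ := hk1.unique hk
  obtain ⟨c₀, hc₀, rfl⟩ := Fermat.Agent.T7.helper43.exists_const_of_hasTrivialDiv hw
  obtain ⟨g, hg⟩ := Fermat.Agent.T8.helper54.exists_isRed1 hp hpN hA hG
  have h1 : IsRed1 A N p u (betaBarTo41 A h f₀ * (1 * g ^ p)) := by
    rw [e]
    exact (isRed1_betaTo h h' hf₀).mul
      ((Fermat.Agent.T8.helper54.isRed1_const hc₀).mul (hg.pow p))
  obtain ⟨c, hc, hfc⟩ := hr.exists_const h1
  refine ⟨u₀, f₀, g, c, hu₀, hf₀, hg.1, hc, ?_⟩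
  rw [hfc, one_mul]

/-- the orders of `f` and of `f₀(q ^ r)` are congruent modulo `p` at every place -/
theorem cuspAsmK_ord (h : M * r = N) {f₀ : FFb A M} {f g : FFb A N} {c : kA A}
    (hf₀ : f₀ ≠ 0) (hg : g ≠ 0) (hc : c ≠ 0)
    (e : f = algebraMap (kA A) (FFb A N) c * (betaBarTo41 A h f₀ * g ^ p))
    (Q : Place (kA A) (FFb A N)) :
    Q.ord f = Q.ord (betaBarTo41 A h f₀) + (p : ℤ) * Q.ord g := by
  have hc' : algebraMap (kA A) (FFb A N) c ≠ 0 := by
    rw [Ne, map_eq_zero]; exact hc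
  have hb := betaBarTo41_ne_zero (A := A) h hf₀
  rw [e, Q.ord_mul hc' (mul_ne_zero hb (pow_ne_zero p hg)),
    Fermat.Agent.P3.helper94.ord_algebraMap_eq_zero, zero_add,
    Q.ord_mul hb (pow_ne_zero p hg), Fermat.Agent.P3.helper94.ord_pow]

/-- `p ∣ ord_Q f ↔ p ∣ ord_Q f₀(q ^ r)` -/
theorem cuspAsmK_dvd_iff (h : M * r = N) {f₀ : FFb A M} {f g : FFb A N} {c : kA A}
    (hf₀ : f₀ ≠ 0) (hg : g ≠ 0) (hc : c ≠ 0)
    (e : f = algebraMap (kA A) (FFb A N) c * (betaBarTo41 A h f₀ * g ^ p))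
    (Q : Place (kA A) (FFb A N)) :
    (p : ℤ) ∣ Q.ord f ↔ (p : ℤ) ∣ Q.ord (betaBarTo41 A h f₀) := by
  rw [cuspAsmK_ord h hf₀ hg hc e Q]
  exact (Int.dvd_add_left (Dvd.intro _ rfl))

/-- **(K), divisibility form**: if `p ∣ ord_Q f₀(q ^ r)` at the place `Q` for EVERY
first-component reduction `f₀` of EVERY Kummer function of `x₀`, then `p ∣ ord_Q f`. -/
theorem cuspAsmK_dvd (hp : p.Prime) (hpN : ¬ p ∣ N) (hA : A.LiesOverPrime p) (h : M * r = N)
    (h' : M * p * r = N * p) {x₀ : JZero (M * p)} (hx₀ : p • x₀ = 0)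
    {u : FF (N * p)} {f : FFb A N}
    (hk : IsKummerRep p (pullTo (M * p) r (N * p) h' x₀) u) (hr : IsRed1 A N p u f)
    (Q : Place (kA A) (FFb A N))
    (hQ : ∀ (u₀ : FF (M * p)) (f₀ : FFb A M), IsKummerRep p x₀ u₀ → IsRed1 A M p u₀ f₀ →
      (p : ℤ) ∣ Q.ord (betaBarTo41 A h f₀)) :
    (p : ℤ) ∣ Q.ord f := by
  obtain ⟨u₀, f₀, g, c, hu₀, hf₀, hg, hc, e⟩ := cuspAsmK hp hpN hA h h' hx₀ hk hr
  exact (cuspAsmK_dvd_iff h hf₀.1 hg hc e Q).mpr (hQ u₀ f₀ hu₀ hf₀)

/-! ### Transport to the shape of [CUSP-4] (`helper43.betaBarC`, level `M * r`) -/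

theorem betaBarTo41_rfl (f₀ : FFb A M) :
    betaBarTo41 A (rfl : M * r = M * r) f₀ = Fermat.Agent.T8.helper43.betaBarC M r A f₀ :=
  Subtype.ext rfl

/-- a statement on all cuspidal places of level `M * r` about `β̄ f₀` is a statement on all
cuspidal places of level `N = M * r` about `betaBarTo41 f₀` -/
theorem forall_place_betaBarTo41 (h : M * r = N) (f₀ : FFb A M)
    (C : ∀ L : ℕ, Place (kA A) (FFb A L) → FFb A L → Prop)
    (H : ∀ Q' : Place (kA A) (FFb A (M * r)),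
      C (M * r) Q' (Fermat.Agent.T8.helper43.betaBarC M r A f₀)) :
    ∀ Q : Place (kA A) (FFb A N), C N Q (betaBarTo41 A h f₀) := by
  subst h
  intro Q
  rw [betaBarTo41_rfl]
  exact H Q

end Fermat.Agent.T8.helper41

end
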