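import Mathlib
import Fermat.Agent.P3.helper85_Cont
import Fermat.Agent.T8.helper59_DescLaurent
import Fermat.Agent.T8.helper65_NormInst

/-!
# T8 (row 38 via S44), box [K-RAT], leaf (L2) (helper41): roots are fixed by an open subgroup

`FixedByOpen x` (`P3.helper85`): some number field `E₀ ⊆ ℚ̄` such that every `g ∈ G_ℚ` fixing `E₀`
fixes the Laurent series `x ∈ ℚ̄((q))` coefficientwise.

* `fixedByOpen_of_pow`  : `x` fixed by an open subgroup, `Z ^ n = x`, `0 < n`  ⟹  `Z` is fixed by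
  an open subgroup (`E₀ := E_x(leading coefficient of Z)`: for `g` fixing `E₀`, `(g Z / Z) ^ n = 1`
  is a constant root of unity, equal to `1` by the leading coefficient);
* `fixedByOpen_coe_FF`  : the expansion of a function `K ∈ FF M` is `FixedByOpen`;
* `fixedByOpen_root`    : every `n`-th root of the expansion of `K ∈ FF M` is `FixedByOpen`;
* `exists_field_fixing_roots`, `exists_field_fixing_roots_cwAct` : ONE number field for `K`,
  a root `Z₁` of `K` and a root `Z₂` of `K'` (e.g. `K' = W K`): `g` fixing `E₀` gives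
  `galF g K = K`, `galF g K' = K'`, `g Z₁ = Z₁`, `g Z₂ = Z₂` (coefficientwise).
-/

set_option autoImplicit false
set_option linter.unusedSectionVars false
set_option linter.unusedVariables false
set_option linter.style.longLine false
set_option linter.style.haveILetI false

noncomputable section

namespace Fermat.Agent.T8.helper41

open HahnSeries IntermediateField ModularCurve
open Fermat.Agent.S18.helper19 Fermat.Agent.P2.helper93
open Fermat.Agent.P3.helper85 (FixedByOpen)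

/-- **(L2), abstract form**: an `n`-th root of a series fixed by an open subgroup is fixed by an
open subgroup. -/
theorem fixedByOpen_of_pow {n : ℕ} (hn : 0 < n) {x Z : LaurentSeries Kb}
    (hx : FixedByOpen x) (hZ : Z ^ n = x) : FixedByOpen Z := by
  classical
  rcases eq_or_ne Z 0 with rfl | hZ0
  · exact ⟨⊥, inferInstance, fun g _ => map_zero _⟩
  obtain ⟨E, hE, hfix⟩ := hx
  have hint : IsIntegral ℚ Z.leadingCoeff :=
    (AlgebraicClosure.isAlgebraic ℚ).isIntegral.isIntegral _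
  haveI : FiniteDimensional ℚ E := hE
  haveI : FiniteDimensional ℚ ℚ⟮Z.leadingCoeff⟯ := IntermediateField.adjoin.finiteDimensional hint
  refine ⟨E ⊔ ℚ⟮Z.leadingCoeff⟯, IntermediateField.finiteDimensional_sup _ _, fun g hg => ?_⟩
  have h1 : coeffMap ((g : Kb ≃ₐ[ℚ] Kb) : Kb →+* Kb) x = x :=
    hfix g fun y hy => hg y ((le_sup_left : E ≤ E ⊔ ℚ⟮Z.leadingCoeff⟯) hy)
  have h2 : g Z.leadingCoeff = Z.leadingCoeff :=
    hg _ ((le_sup_right : ℚ⟮Z.leadingCoeff⟯ ≤ E ⊔ ℚ⟮Z.leadingCoeff⟯)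
      (IntermediateField.mem_adjoin_simple_self ℚ _))
  have hpow : (coeffMap ((g : Kb ≃ₐ[ℚ] Kb) : Kb →+* Kb) Z) ^ n = Z ^ n := by
    rw [← map_pow, hZ, h1]
  have hρ : (coeffMap ((g : Kb ≃ₐ[ℚ] Kb) : Kb →+* Kb) Z / Z) ^ n = 1 := by
    rw [div_pow, hpow, div_self (pow_ne_zero _ hZ0)]
  obtain ⟨ζ, -, hζ⟩ := Fermat.Agent.T7.helper22.exists_const_of_pow_eq_one hn _ hρ
  have h3 : coeffMap ((g : Kb ≃ₐ[ℚ] Kb) : Kb →+* Kb) Z
      = algebraMap Kb (LaurentSeries Kb) ζ * Z := by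
    rw [← hζ, div_mul_cancel₀ _ hZ0]
  have h4 := congrArg HahnSeries.leadingCoeff h3
  rw [Fermat.Agent.T8.helper59.leadingCoeff_coeffMap_equiv, HahnSeries.leadingCoeff_mul,
    Fermat.Agent.P2.helper44.algebraMap_laurent_eq_single0] at h4
  have hlc0 : Z.leadingCoeff ≠ 0 := HahnSeries.leadingCoeff_ne_zero.2 hZ0
  have hζ1 : ζ = 1 := by
    by_cases hζ0 : ζ = 0
    · exfalso
      rw [hζ0, map_zero, HahnSeries.leadingCoeff_zero, zero_mul] at h4
      rw [h2] at h4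
      exact hlc0 h4
    · rw [HahnSeries.leadingCoeff_of_single, h2] at h4
      have h5 : (1 : Kb) * Z.leadingCoeff = ζ * Z.leadingCoeff := by rw [one_mul]; exact h4
      exact (mul_right_cancel₀ hlc0 h5).symm
  rw [h3, hζ1, map_one, one_mul]

variable {M : ℕ} [NeZero M]

/-- the expansion of a function of `FF M` is fixed by an open subgroup -/
theorem fixedByOpen_coe_FF (K : FF M) : FixedByOpen (K : LaurentSeries Kb) :=
  Fermat.Agent.P3.helper85.exists_numberField_fixing_series (modularFunctionFieldFull M) K.2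

/-- **(L2)**: every `n`-th root of the expansion of a function is fixed by an open subgroup -/
theorem fixedByOpen_root {n : ℕ} (hn : 0 < n) (K : FF M) (Z : LaurentSeries Kb)
    (hZ : Z ^ n = (K : LaurentSeries Kb)) : FixedByOpen Z :=
  fixedByOpen_of_pow hn (fixedByOpen_coe_FF K) hZ

/-- a function whose expansion is fixed coefficientwise is fixed by `galF` -/
theorem galF_eq_of_coeffMap_eq (σ : Kb ≃ₐ[ℚ] Kb) (K : FF M)
    (h : coeffMap (σ : Kb →+* Kb) (K : LaurentSeries Kb) = (K : LaurentSeries Kb)) :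
    galF M σ K = K := by
  apply Subtype.ext
  rw [coe_galF]
  exact h

/-- **(L2), pair form**: one number field for `K`, `K'`, a root of `K` and a root of `K'`. -/
theorem exists_field_fixing_roots {n : ℕ} (hn : 0 < n) (K K' : FF M)
    (Z₁ Z₂ : LaurentSeries Kb) (h₁ : Z₁ ^ n = (K : LaurentSeries Kb))
    (h₂ : Z₂ ^ n = (K' : LaurentSeries Kb)) :
    ∃ E₀ : IntermediateField ℚ Kb, FiniteDimensional ℚ E₀ ∧
      ∀ g : Kb ≃ₐ[ℚ] Kb, (∀ e ∈ E₀, g e = e) →
        galF M g K = K ∧ galF M g K' = K' ∧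
        coeffMap (g : Kb →+* Kb) Z₁ = Z₁ ∧ coeffMap (g : Kb →+* Kb) Z₂ = Z₂ := by
  obtain ⟨E₁, hE₁, hf₁⟩ := fixedByOpen_root hn K Z₁ h₁
  obtain ⟨E₂, hE₂, hf₂⟩ := fixedByOpen_root hn K' Z₂ h₂
  haveI := hE₁
  haveI := hE₂
  refine ⟨E₁ ⊔ E₂, IntermediateField.finiteDimensional_sup _ _, fun g hg => ?_⟩
  have hZ₁ : coeffMap (g : Kb →+* Kb) Z₁ = Z₁ :=
    hf₁ g fun y hy => hg y ((le_sup_left : E₁ ≤ E₁ ⊔ E₂) hy)
  have hZ₂ : coeffMap (g : Kb →+* Kb) Z₂ = Z₂ :=
    hf₂ g fun y hy => hg y ((le_sup_right : E₂ ≤ E₁ ⊔ E₂) hy)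
  refine ⟨?_, ?_, hZ₁, hZ₂⟩
  · apply galF_eq_of_coeffMap_eq
    rw [← h₁, map_pow, hZ₁]
  · apply galF_eq_of_coeffMap_eq
    rw [← h₂, map_pow, hZ₂]

/-- **(L2), pair form, `cwAct` vocabulary** (`helper65.cwAct`, as in `helper97.KRat` /
`helper29.RootFix`). -/
theorem exists_field_fixing_roots_cwAct {n : ℕ} (hn : 0 < n) (K K' : FF M)
    (Z₁ Z₂ : LaurentSeries Kb) (h₁ : Z₁ ^ n = (K : LaurentSeries Kb))
    (h₂ : Z₂ ^ n = (K' : LaurentSeries Kb)) :
    ∃ E₀ : IntermediateField ℚ Kb, FiniteDimensional ℚ E₀ ∧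
      ∀ g : Kb ≃ₐ[ℚ] Kb, (∀ e ∈ E₀, g e = e) →
        galF M g K = K ∧ galF M g K' = K' ∧
        Fermat.Agent.T8.helper65.cwAct g Z₁ = Z₁ ∧ Fermat.Agent.T8.helper65.cwAct g Z₂ = Z₂ :=
  exists_field_fixing_roots hn K K' Z₁ Z₂ h₁ h₂

end Fermat.Agent.T8.helper41

end
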