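import Fermat.Agent.P3.helper16_AnUncond
import Fermat.Agent.P3.helper54_EigenChar
import Fermat.Agent.P3.helper10_GalHecke
import Fermat.Prelude.Def_FLTPrelim_Modularity
import Fermat.Prelude.Def_FLTPrelim_ModularRep

/-!
# T8 [REAL-OCC] / [REAL-EIGEN] (helper41): the eigensystem of a congruent eigenform occurs in
`J₀(M)[p]`

Let `f` be a normalised eigenform of weight `2` and level `Γ₀(M)`, `𝔪` a maximal ideal of `ℤ̄`
over the prime `p`, `G` a set of primes not dividing `M` and `a : G → ℤ` integers with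
`a_ℓ(f) ≡ a ℓ mod 𝔪` for `ℓ ∈ G`.  Then there is a NONZERO class `x ∈ J₀(M)` with `p • x = 0` and
`T_ℓ x = a ℓ • x` for all `ℓ ∈ G` (`exists_eigenclass`).

Proof: the Hecke polynomial ring `HeckeAlg = ℤ[X_ℓ]` acts on the period lattice `L = perLat M`
(P3, helper16) through `hTr`, faithfully modulo the kernel of `heckeEvalForms`.  The ideal
`𝔫 = (p, X_ℓ - a ℓ : ℓ ∈ G)` is mapped into `𝔪` by the eigencharacter of `f`, so `𝔫 L ≠ L`
(Nakayama + faithfulness).  A character `ε : L → ℤ` whose reduction modulo `p` kills `𝔫 L` but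
not `L` gives the class `x = κ₁(ε)` by the analytic Kummer map (`anDescStatement`).
-/

set_option autoImplicit false
set_option linter.unusedSectionVars false
set_option linter.style.longLine false
set_option linter.unusedVariables false
set_option linter.style.haveILetI false

noncomputable section

namespace Fermat.Agent.T8.helper41

open CongruenceSubgroup ModularCurve CuspForm
open Fermat.Agent.P3.helper16

variable (M : ℕ) [NeZero M]

/-- the transpose Hecke action on the period lattice, as a ring homomorphism -/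
def hTrRing41 : HeckeAlg →+* AddMonoid.End (perLat M) where
  toFun P := hTr M P
  map_one' := hTr_one M
  map_mul' P Q := hTr_mul M P Q
  map_zero' := hTr_zero M
  map_add' P Q := hTr_add M P Q

theorem hTrRing41_apply (P : HeckeAlg) (lam : perLat M) : hTrRing41 M P lam = hTr M P lam := rfl

/-- the period lattice as a module over the Hecke polynomial ring -/
@[reducible] def heckeModule41 : Module HeckeAlg (perLat M) :=
  Module.compHom (perLat M) (hTrRing41 M)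

theorem heckeModule41_smul (P : HeckeAlg) (lam : perLat M) :
    letI := heckeModule41 M
    P • lam = hTr M P lam := rfl

/-! ### The eigencharacter on the Hecke polynomial ring -/

section EigenChar

variable {M}
variable (f : CuspForm (Gamma0 M) 2) (hf : f.IsNormalizedEigenform)

/-- the eigencharacter of `f` on the Hecke polynomial ring -/
def polyChar41 : HeckeAlg →+* integralClosure ℤ ℂ :=
  (Fermat.Agent.P3.helper54.eigenChar (∅ : Set ℕ) f hf).comp (heckeEvalForms M 2)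

theorem coe_polyChar41_X (ℓ : Nat.Primes) (hℓ : ¬ (ℓ : ℕ) ∣ M) :
    ((polyChar41 f hf (MvPolynomial.X ℓ) : integralClosure ℤ ℂ) : ℂ) =
      ModularFormClass.qCoeff f ℓ := by
  have h1 : heckeEvalForms M 2 (MvPolynomial.X ℓ) =
      heckeAlgebra.T ℓ.2 hℓ (Set.notMem_empty _) :=
    heckeEvalForms_heckeGen_of_not_dvd (k := 2) hℓ
  rw [polyChar41, RingHom.comp_apply, h1, Fermat.Agent.P3.helper54.coe_eigenChar,
    Fermat.Agent.P3.helper54.eigenCharC_T]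

/-- the eigencharacter kills every Hecke polynomial which acts as zero on the period lattice -/
theorem polyChar41_eq_zero (P : HeckeAlg) (h : ∀ lam : perLat M, hTr M P lam = 0) :
    polyChar41 f hf P = 0 := by
  have h1 : heckeEvalForms M 2 P = 0 := heckeEvalForms_eq_zero_of_hTr M P fun γ => h _
  rw [polyChar41, RingHom.comp_apply, h1, map_zero]

end EigenChar

/-! ### The congruence ideal -/

section Ideal

variable {M}

/-- the generators of the congruence ideal `(p, X_ℓ - a ℓ : ℓ ∈ G)` -/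
def congGens41 (p : ℕ) (G : Nat.Primes → Prop) (a : Nat.Primes → ℤ) : Set HeckeAlg :=
  {P | P = (p : HeckeAlg) ∨ ∃ ℓ : Nat.Primes, G ℓ ∧ P = MvPolynomial.X ℓ - MvPolynomial.C (a ℓ)}

/-- the congruence ideal `(p, X_ℓ - a ℓ : ℓ ∈ G)` -/
def congIdeal41 (p : ℕ) (G : Nat.Primes → Prop) (a : Nat.Primes → ℤ) : Ideal HeckeAlg :=
  Ideal.span (congGens41 p G a)

theorem p_mem_congIdeal41 (p : ℕ) (G : Nat.Primes → Prop) (a : Nat.Primes → ℤ) :
    (p : HeckeAlg) ∈ congIdeal41 p G a :=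
  Ideal.subset_span (Or.inl rfl)

theorem X_sub_C_mem_congIdeal41 (p : ℕ) (G : Nat.Primes → Prop) (a : Nat.Primes → ℤ)
    (ℓ : Nat.Primes) (hℓ : G ℓ) :
    (MvPolynomial.X ℓ - MvPolynomial.C (a ℓ) : HeckeAlg) ∈ congIdeal41 p G a :=
  Ideal.subset_span (Or.inr ⟨ℓ, hℓ, rfl⟩)

/-- the eigencharacter of a congruent eigenform maps the congruence ideal into `𝔪` -/
theorem congIdeal41_le_comap (f : CuspForm (Gamma0 M) 2) (hf : f.IsNormalizedEigenform)
    {p : ℕ} (𝔪 : Ideal (integralClosure ℤ ℂ)) (hp𝔪 : (p : integralClosure ℤ ℂ) ∈ 𝔪)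
    (G : Nat.Primes → Prop) (a : Nat.Primes → ℤ)
    (hGM : ∀ ℓ : Nat.Primes, G ℓ → ¬ (ℓ : ℕ) ∣ M)
    (hcong : ∀ ℓ : Nat.Primes, G ℓ → ∃ c : integralClosure ℤ ℂ,
      (c : ℂ) = ModularFormClass.qCoeff f ℓ ∧ c - ((a ℓ : ℤ) : integralClosure ℤ ℂ) ∈ 𝔪) :
    congIdeal41 p G a ≤ 𝔪.comap (polyChar41 f hf) := by
  refine Ideal.span_le.mpr ?_
  rintro P (rfl | ⟨ℓ, hℓ, rfl⟩)
  · show polyChar41 f hf (p : HeckeAlg) ∈ 𝔪
    rw [map_natCast]
    exact hp𝔪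
  · show polyChar41 f hf (MvPolynomial.X ℓ - MvPolynomial.C (a ℓ)) ∈ 𝔪
    obtain ⟨c, hc, hc𝔪⟩ := hcong ℓ hℓ
    have h1 : polyChar41 f hf (MvPolynomial.X ℓ) = c :=
      Subtype.ext ((coe_polyChar41_X f hf ℓ (hGM ℓ hℓ)).trans hc.symm)
    have h2 : polyChar41 f hf (MvPolynomial.C (a ℓ)) = ((a ℓ : ℤ) : integralClosure ℤ ℂ) := by
      have : (MvPolynomial.C (a ℓ) : HeckeAlg) = ((a ℓ : ℤ) : HeckeAlg) := by
        simp
      rw [this, map_intCast]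
    rw [map_sub, h1, h2]
    exact hc𝔪

end Ideal

/-! ### Nakayama -/

section Nakayama

variable {M}

/-- **Nakayama + faithfulness**: the congruence ideal of a congruent eigenform does not
generate the unit ideal on the period lattice. -/
theorem congIdeal41_smul_ne_top (f : CuspForm (Gamma0 M) 2) (hf : f.IsNormalizedEigenform)
    {p : ℕ} (𝔪 : Ideal (integralClosure ℤ ℂ)) (h𝔪 : 𝔪.IsMaximal)
    (hp𝔪 : (p : integralClosure ℤ ℂ) ∈ 𝔪)
    (G : Nat.Primes → Prop) (a : Nat.Primes → ℤ)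
    (hGM : ∀ ℓ : Nat.Primes, G ℓ → ¬ (ℓ : ℕ) ∣ M)
    (hcong : ∀ ℓ : Nat.Primes, G ℓ → ∃ c : integralClosure ℤ ℂ,
      (c : ℂ) = ModularFormClass.qCoeff f ℓ ∧ c - ((a ℓ : ℤ) : integralClosure ℤ ℂ) ∈ 𝔪) :
    letI := heckeModule41 M
    congIdeal41 p G a • (⊤ : Submodule HeckeAlg (perLat M)) ≠ ⊤ := by
  letI := heckeModule41 M
  intro htop
  have hfg : (⊤ : Submodule HeckeAlg (perLat M)).FG := by
    have : Module.Finite HeckeAlg (perLat M) :=
      Module.Finite.of_restrictScalars_finite ℤ HeckeAlg (perLat M)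
    exact Module.finite_def.mp this
  obtain ⟨r, hr1, hr0⟩ :=
    Submodule.exists_sub_one_mem_and_smul_eq_zero_of_fg_of_le_smul (congIdeal41 p G a)
      (⊤ : Submodule HeckeAlg (perLat M)) hfg (le_of_eq htop.symm)
  have h0 : polyChar41 f hf r = 0 :=
    polyChar41_eq_zero f hf r fun lam => hr0 lam Submodule.mem_top
  have h1 : polyChar41 f hf (r - 1) ∈ 𝔪 :=
    congIdeal41_le_comap f hf 𝔪 hp𝔪 G a hGM hcong hr1
  rw [map_sub, h0, map_one, zero_sub] at h1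
  have h2 : (1 : integralClosure ℤ ℂ) ∈ 𝔪 := by
    have := 𝔪.neg_mem h1
    rwa [neg_neg] at this
  exact h𝔪.ne_top ((Ideal.eq_top_iff_one 𝔪).mpr h2)

end Nakayama

/-! ### A character of the period lattice -/

section Character

variable {M}

/-- a character `ε : L → ℤ` of the period lattice whose values on the subgroup `L' ⊇ p L` are
divisible by `p`, but whose value at `y₀ ∉ L'` is not -/
theorem exists_latChar41 {p : ℕ} (hp : p.Prime) (L' : AddSubgroup (perLat M))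
    (hpL : ∀ y : perLat M, p • y ∈ L') (y₀ : perLat M) (hy₀ : y₀ ∉ L') :
    ∃ ε : LatChar M, (∀ y ∈ L', (p : ℤ) ∣ ε y) ∧ ¬ (p : ℤ) ∣ ε y₀ := by
  haveI : Fact p.Prime := ⟨hp⟩
  obtain ⟨_I⟩ : Nonempty (Module (ZMod p) (perLat M ⧸ L')) := ⟨QuotientAddGroup.zmodModule hpL⟩
  have hq : (QuotientAddGroup.mk y₀ : perLat M ⧸ L') ≠ 0 := by
    rwa [Ne, QuotientAddGroup.eq_zero_iff]
  obtain ⟨φ, hφ⟩ : ∃ φ : (perLat M ⧸ L') →ₗ[ZMod p] ZMod p,
      φ (QuotientAddGroup.mk y₀) ≠ 0 := by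
    by_contra h
    have h' : ∀ φ : Module.Dual (ZMod p) (perLat M ⧸ L'),
        φ (QuotientAddGroup.mk y₀ : perLat M ⧸ L') = 0 := fun φ =>
      not_not.mp fun hφ => h ⟨φ, hφ⟩
    exact hq ((Module.forall_dual_apply_eq_zero_iff (ZMod p) _).mp h')
  -- the character modulo `p`
  let εbar : perLat M →+ ZMod p := φ.toAddMonoidHom.comp (QuotientAddGroup.mk' L')
  have hεbar : ∀ y, εbar y = φ (QuotientAddGroup.mk y) := fun y => rfl
  -- lift through a basis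
  let b := Module.Free.chooseBasis ℤ (perLat M)
  let ε' : perLat M →ₗ[ℤ] ℤ := b.constr ℤ fun i => ((εbar (b i)).val : ℤ)
  have hε : ∀ y, ((ε' y : ℤ) : ZMod p) = εbar y := by
    have h1 : (Int.castAddHom (ZMod p)).toIntLinearMap ∘ₗ ε' = εbar.toIntLinearMap := by
      apply b.ext
      intro i
      simp [ε']
    intro y
    exact LinearMap.congr_fun h1 y
  refine ⟨ε'.toAddMonoidHom, ?_, ?_⟩
  · intro y hy
    rw [← ZMod.intCast_zmod_eq_zero_iff_dvd]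
    show ((ε' y : ℤ) : ZMod p) = 0
    rw [hε, hεbar, (QuotientAddGroup.eq_zero_iff y).mpr hy, map_zero]
  · intro hdiv
    rw [← ZMod.intCast_zmod_eq_zero_iff_dvd] at hdiv
    apply hφ
    rw [← hεbar, ← hε]
    exact hdiv

end Character

/-! ### The eigenclass -/

section Main

/-- **[REAL-OCC]**, general form: the eigensystem of a congruent eigenform occurs in
`J₀(M)[p]`. -/
theorem exists_eigenclass {p : ℕ} (hp : p.Prime)
    (f : CuspForm (Gamma0 M) 2) (hf : f.IsNormalizedEigenform)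
    (𝔪 : Ideal (integralClosure ℤ ℂ)) (h𝔪 : 𝔪.IsMaximal)
    (hp𝔪 : (p : integralClosure ℤ ℂ) ∈ 𝔪)
    (G : Nat.Primes → Prop) (a : Nat.Primes → ℤ)
    (hGM : ∀ ℓ : Nat.Primes, G ℓ → ¬ (ℓ : ℕ) ∣ M)
    (hcong : ∀ ℓ : Nat.Primes, G ℓ → ∃ c : integralClosure ℤ ℂ,
      (c : ℂ) = ModularFormClass.qCoeff f ℓ ∧ c - ((a ℓ : ℤ) : integralClosure ℤ ℂ) ∈ 𝔪) :
    ∃ x : JZero M, x ≠ 0 ∧ p • x = 0 ∧
      ∀ ℓ : Nat.Primes, G ℓ → heckeOperatorBar M ℓ x = a ℓ • x := by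
  letI := heckeModule41 M
  have hne := congIdeal41_smul_ne_top f hf 𝔪 h𝔪 hp𝔪 G a hGM hcong
  obtain ⟨y₀, hy₀⟩ : ∃ y₀ : perLat M,
      y₀ ∉ congIdeal41 p G a • (⊤ : Submodule HeckeAlg (perLat M)) := by
    by_contra h
    exact hne (eq_top_iff.mpr fun y _ => not_not.mp fun hy => h ⟨y, hy⟩)
  have hpL : ∀ y : perLat M,
      p • y ∈ (congIdeal41 p G a • (⊤ : Submodule HeckeAlg (perLat M))).toAddSubgroup := by
    intro y
    have h1 : (p : HeckeAlg) • y ∈ congIdeal41 p G a • (⊤ : Submodule HeckeAlg (perLat M)) :=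
      Submodule.smul_mem_smul (p_mem_congIdeal41 p G a) Submodule.mem_top
    rwa [Nat.cast_smul_eq_nsmul] at h1
  obtain ⟨ε, hε1, hε2⟩ := exists_latChar41 hp _ hpL y₀ hy₀
  obtain ⟨κC, con, ha, hb, hc, hinj, hex, hB⟩ := anDescStatement M p hp.pos
  obtain ⟨x, hx⟩ := hex 1 ε
  have hp1 : ∀ δ : LatChar M, p • κC 1 δ = 0 := fun δ => by
    have := ha 1 δ
    rwa [pow_one] at this
  refine ⟨x, ?_, ?_, ?_⟩
  · rintro rfl
    rw [map_zero] at hx
    have := hb 1 ε hx.symm y₀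
    rw [pow_one] at this
    exact hε2 this
  · apply hinj
    rw [map_nsmul, hx, map_zero]
    exact hp1 ε
  · intro ℓ hℓ
    apply hinj
    rw [hB 1 ℓ (hGM ℓ hℓ) ε x hx, map_zsmul, hx]
    have hdiv : ∀ lam : perLat M, ((p : ℕ) : ℤ) ∣ (latCharT M ℓ ε - a ℓ • ε) lam := by
      intro lam
      have h1 : (latCharT M ℓ ε - a ℓ • ε) lam =
          ε ((MvPolynomial.X ℓ - MvPolynomial.C (a ℓ) : HeckeAlg) • lam) := by
        have h2 : (MvPolynomial.X ℓ - MvPolynomial.C (a ℓ) : HeckeAlg) • lam =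
            hTr M (MvPolynomial.X ℓ) lam - a ℓ • lam := by
          rw [sub_smul]
          congr 1
          exact hTr_C M (a ℓ) lam
        rw [h2, map_sub, map_zsmul]
        rfl
      rw [h1]
      exact hε1 _ (Submodule.smul_mem_smul (X_sub_C_mem_congIdeal41 p G a ℓ hℓ)
        Submodule.mem_top)
    obtain ⟨δ, hδ⟩ := exists_eq_nsmul_of_forall_dvd M p _ hdiv
    have h3 : latCharT M ℓ ε = a ℓ • ε + p • δ := by
      rw [← hδ]
      abel
    rw [h3, map_add, map_zsmul, map_nsmul, hp1 δ, add_zero]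

end Main

/-! ### The eigenspace -/

section Eigenspace

/-- the eigenspace `{x ∈ J₀(M) | p x = 0, T_ℓ x = a ℓ x for all ℓ ∈ G}` -/
def eigenSub41 (p : ℕ) (G : Nat.Primes → Prop) (a : Nat.Primes → ℤ) : AddSubgroup (JZero M) where
  carrier := {x | p • x = 0 ∧ ∀ ℓ : Nat.Primes, G ℓ → heckeOperatorBar M ℓ x = a ℓ • x}
  zero_mem' := ⟨nsmul_zero _, fun ℓ _ => by rw [map_zero, zsmul_zero]⟩
  add_mem' := by
    rintro x y ⟨hx, hx'⟩ ⟨hy, hy'⟩
    refine ⟨by rw [nsmul_add, hx, hy, add_zero], fun ℓ hℓ => ?_⟩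
    rw [map_add, hx' ℓ hℓ, hy' ℓ hℓ, zsmul_add]
  neg_mem' := by
    rintro x ⟨hx, hx'⟩
    refine ⟨by rw [neg_nsmul, hx, neg_zero], fun ℓ hℓ => ?_⟩
    rw [map_neg, hx' ℓ hℓ, zsmul_neg]

variable {M} in
theorem mem_eigenSub41 {p : ℕ} {G : Nat.Primes → Prop} {a : Nat.Primes → ℤ} {x : JZero M} :
    x ∈ eigenSub41 M p G a ↔
      p • x = 0 ∧ ∀ ℓ : Nat.Primes, G ℓ → heckeOperatorBar M ℓ x = a ℓ • x := Iff.rfl

/-- **[REAL-OCC]**: the eigenspace of a congruent eigenform is not zero. -/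
theorem eigenSub41_ne_bot {p : ℕ} (hp : p.Prime)
    (f : CuspForm (Gamma0 M) 2) (hf : f.IsNormalizedEigenform)
    (𝔪 : Ideal (integralClosure ℤ ℂ)) (h𝔪 : 𝔪.IsMaximal)
    (hp𝔪 : (p : integralClosure ℤ ℂ) ∈ 𝔪)
    (G : Nat.Primes → Prop) (a : Nat.Primes → ℤ)
    (hGM : ∀ ℓ : Nat.Primes, G ℓ → ¬ (ℓ : ℕ) ∣ M)
    (hcong : ∀ ℓ : Nat.Primes, G ℓ → ∃ c : integralClosure ℤ ℂ,
      (c : ℂ) = ModularFormClass.qCoeff f ℓ ∧ c - ((a ℓ : ℤ) : integralClosure ℤ ℂ) ∈ 𝔪) :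
    eigenSub41 M p G a ≠ ⊥ := by
  obtain ⟨x, hx0, hpx, hx⟩ := exists_eigenclass M hp f hf 𝔪 h𝔪 hp𝔪 G a hGM hcong
  intro hbot
  have h1 : x ∈ eigenSub41 M p G a := ⟨hpx, hx⟩
  rw [hbot, AddSubgroup.mem_bot] at h1
  exact hx0 h1

variable {M} in
theorem smul_nsmul_comm41 (σ : AlgebraicClosure ℚ ≃ₐ[ℚ] AlgebraicClosure ℚ) (n : ℕ)
    (x : JZero M) : σ • (n • x) = n • (σ • x) :=
  map_nsmul (DistribSMul.toAddMonoidHom (JZero M) σ) n x

variable {M} in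
theorem smul_zsmul_comm41 (σ : AlgebraicClosure ℚ ≃ₐ[ℚ] AlgebraicClosure ℚ) (n : ℤ)
    (x : JZero M) : σ • (n • x) = n • (σ • x) :=
  map_zsmul (DistribSMul.toAddMonoidHom (JZero M) σ) n x

/-- the eigenspace is stable under the absolute Galois group of `ℚ` -/
theorem smul_mem_eigenSub41 (p : ℕ) (G : Nat.Primes → Prop) (a : Nat.Primes → ℤ)
    (σ : AlgebraicClosure ℚ ≃ₐ[ℚ] AlgebraicClosure ℚ) (x : JZero M)
    (hx : x ∈ eigenSub41 M p G a) : σ • x ∈ eigenSub41 M p G a := by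
  obtain ⟨hpx, hx'⟩ := hx
  refine ⟨?_, fun ℓ hℓ => ?_⟩
  · rw [← smul_nsmul_comm41 σ p x, hpx]
    exact map_zero (DistribSMul.toAddMonoidHom (JZero M) σ)
  · rw [Fermat.Agent.P3.helper10.galHeckeComm M ℓ σ x, hx' ℓ hℓ]
    exact smul_zsmul_comm41 σ (a ℓ) x

end Eigenspace

/-! ### The eigenspace of an integral Weierstrass model

The shape consumed by the top chain of T8 (`helper72.IsFreyEigen`, `helper72.ChainCtx.modular`,
`helper10.RealChebStatement`), stated in Prelude terms only. -/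

section Model

/-- the primes of the eigensystem of the integral model `W`: good for `W`, prime to `M`,
different from `p` -/
def modelPrimes41 (W : WeierstrassCurve ℤ) (p : ℕ) : Nat.Primes → Prop := fun ℓ =>
  W.IsGoodPrimeFor (ℓ : ℕ) ∧ ¬ (ℓ : ℕ) ∣ M ∧ (ℓ : ℕ) ≠ p

/-- the eigenspace of the eigensystem `a_ℓ(W)` in `J₀(M)[p]` -/
def modelEigenSub41 (W : WeierstrassCurve ℤ) (p : ℕ) : AddSubgroup (JZero M) :=
  eigenSub41 M p (modelPrimes41 M W p) fun ℓ => W.apOfModel (ℓ : ℕ)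

variable {M} in
theorem mem_modelEigenSub41 {W : WeierstrassCurve ℤ} {p : ℕ} {x : JZero M} :
    x ∈ modelEigenSub41 M W p ↔ p • x = 0 ∧
      ∀ ℓ : Nat.Primes, W.IsGoodPrimeFor (ℓ : ℕ) → ¬ (ℓ : ℕ) ∣ M → (ℓ : ℕ) ≠ p →
        heckeOperatorBar M ℓ x = W.apOfModel (ℓ : ℕ) • x :=
  ⟨fun h => ⟨h.1, fun ℓ h1 h2 h3 => h.2 ℓ ⟨h1, h2, h3⟩⟩,
    fun h => ⟨h.1, fun ℓ hℓ => h.2 ℓ hℓ.1 hℓ.2.1 hℓ.2.2⟩⟩

/-- the eigenspace is killed by `p` -/
theorem nsmul_eq_zero_of_mem_modelEigenSub41 (W : WeierstrassCurve ℤ) (p : ℕ) (x : JZero M)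
    (hx : x ∈ modelEigenSub41 M W p) : p • x = 0 := hx.1

/-- the eigenspace consists of eigenclasses (`helper72.IsFreyEigen P W M x` for `p = P.p`) -/
theorem hecke_of_mem_modelEigenSub41 (W : WeierstrassCurve ℤ) (p : ℕ) (x : JZero M)
    (hx : x ∈ modelEigenSub41 M W p) (ℓ : Nat.Primes) (h1 : W.IsGoodPrimeFor (ℓ : ℕ))
    (h2 : ¬ (ℓ : ℕ) ∣ M) (h3 : (ℓ : ℕ) ≠ p) :
    heckeOperatorBar M ℓ x = W.apOfModel (ℓ : ℕ) • x :=
  (mem_modelEigenSub41.mp hx).2 ℓ h1 h2 h3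

/-- the eigenspace is stable under the absolute Galois group of `ℚ` -/
theorem smul_mem_modelEigenSub41 (W : WeierstrassCurve ℤ) (p : ℕ)
    (σ : AlgebraicClosure ℚ ≃ₐ[ℚ] AlgebraicClosure ℚ) (x : JZero M)
    (hx : x ∈ modelEigenSub41 M W p) : σ • x ∈ modelEigenSub41 M W p :=
  smul_mem_eigenSub41 M p _ _ σ x hx

/-- **[REAL-OCC]**, consumer form: if a normalised eigenform of level `M` is congruent to the
integral model `W` modulo a maximal ideal over `p` (the shape of `FreyPackage.ModularRepOfLevel`,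
`WeierstrassCurve.IsResiduallyModularOfLevel` and `helper72.ChainCtx.modular`), then the
eigenspace of `W` in `J₀(M)[p]` is not zero. -/
theorem modelEigenSub41_ne_bot (W : WeierstrassCurve ℤ) {p : ℕ} (hp : p.Prime)
    (f : CuspForm (Gamma0 M) 2) (𝔪 : Ideal (integralClosure ℤ ℂ))
    (hf : f.IsNormalizedEigenform) (h𝔪 : 𝔪.IsMaximal) (hp𝔪 : (p : integralClosure ℤ ℂ) ∈ 𝔪)
    (hcong : ∀ ℓ : ℕ, ℓ.Prime → W.IsGoodPrimeFor ℓ → ¬ ℓ ∣ M → ℓ ≠ p →
      ∃ a : integralClosure ℤ ℂ, (a : ℂ) = ModularFormClass.qCoeff f ℓ ∧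
        a - ((W.apOfModel ℓ : ℤ) : integralClosure ℤ ℂ) ∈ 𝔪) :
    modelEigenSub41 M W p ≠ ⊥ :=
  eigenSub41_ne_bot M hp f hf 𝔪 h𝔪 hp𝔪 _ _ (fun ℓ hℓ => hℓ.2.1)
    fun ℓ hℓ => hcong ℓ ℓ.2 hℓ.1 hℓ.2.1 hℓ.2.2

/-- **[REAL-OCC]**, element form. -/
theorem exists_model_eigenclass (W : WeierstrassCurve ℤ) {p : ℕ} (hp : p.Prime)
    (f : CuspForm (Gamma0 M) 2) (𝔪 : Ideal (integralClosure ℤ ℂ))
    (hf : f.IsNormalizedEigenform) (h𝔪 : 𝔪.IsMaximal) (hp𝔪 : (p : integralClosure ℤ ℂ) ∈ 𝔪)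
    (hcong : ∀ ℓ : ℕ, ℓ.Prime → W.IsGoodPrimeFor ℓ → ¬ ℓ ∣ M → ℓ ≠ p →
      ∃ a : integralClosure ℤ ℂ, (a : ℂ) = ModularFormClass.qCoeff f ℓ ∧
        a - ((W.apOfModel ℓ : ℤ) : integralClosure ℤ ℂ) ∈ 𝔪) :
    ∃ x : JZero M, x ≠ 0 ∧ p • x = 0 ∧
      ∀ ℓ : Nat.Primes, W.IsGoodPrimeFor (ℓ : ℕ) → ¬ (ℓ : ℕ) ∣ M → (ℓ : ℕ) ≠ p →
        heckeOperatorBar M ℓ x = W.apOfModel (ℓ : ℕ) • x := by
  obtain ⟨x, hx0, hpx, hx⟩ := exists_eigenclass M hp f hf 𝔪 h𝔪 hp𝔪 (modelPrimes41 M W p)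
    (fun ℓ => W.apOfModel (ℓ : ℕ)) (fun ℓ hℓ => hℓ.2.1)
    fun ℓ hℓ => hcong ℓ ℓ.2 hℓ.1 hℓ.2.1 hℓ.2.2
  exact ⟨x, hx0, hpx, fun ℓ h1 h2 h3 => hx ℓ ⟨h1, h2, h3⟩⟩

end Model

end Fermat.Agent.T8.helper41

end
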