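import Fermat.Agent.T8.helper41_RealEigen
import Fermat.Agent.T8.helper7_RealDefs

/-!
# T8 [REAL-OCC] (helper41): the contract `helper7.OccStatement`, UNCONDITIONAL

`occStatement41 : Fermat.Agent.T8.helper7.OccStatement`: if the integral model `W` of the Frey
curve is residually modular of level `M` at `p`, the eigenspace
`helper7.eigenSub P W M ⊆ J₀(M)[p]` of the eigensystem of `W` is not zero.
Proof: `exists_model_eigenclass` (`helper41_RealEigen.lean`).
-/

set_option autoImplicit false

namespace Fermat.Agent.T8.helper41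

/-- **Contract [REAL-OCC]**, unconditional. -/
theorem occStatement41 : Fermat.Agent.T8.helper7.OccStatement := by
  intro P M _ W _ hres
  obtain ⟨f, 𝔪, hf, h𝔪, hp𝔪, hcong⟩ := hres
  obtain ⟨x, hx0, hpx, hx⟩ := exists_model_eigenclass M W P.pp f 𝔪 hf h𝔪 hp𝔪 hcong
  exact ⟨x, ⟨hpx, hx⟩, hx0⟩

end Fermat.Agent.T8.helper41
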