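import Mathlib
import Fermat.Agent.T3.helper67_MidCore
import Fermat.Agent.P5.helper42_RRFinal

/-!
# T8 / [F3-EXIT], leaf [RES-INF] (helper42): the residue at infinity is the constant coefficient

Abstract char-0 residue input for the leaves [CUSP-ANN] and [OMEGA] (ii) of the annihilator
route.  `K` is an algebraically closed field of characteristic zero, `F` a function field over
`K` with an expansion `ι : F →+* K((q))` (`ι c = C c` on constants), `P` a place of `F` whose
order function is the `q`-order (`IsInfty`), `θ = q d/dq` (`T3.helper67.thetaL`).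

* `thetaL_mul42`           : the Leibniz rule for `θ` on Laurent series;
* `coeff_zero_inv_mul_thetaL` : `a₀ (g⁻¹ θ g) = ord g`;
* `res_infty_eq_coeff`     : `res_P (f dt) = a₀ (ι f · θ (ι t))` for EVERY residue system;
* `coeff_zero_of_regular_off` : if `f dt` is regular at every place `≠ P` then
                             `a₀ (ι f · θ (ι t)) = 0`                 (abstract [CUSP-ANN]);
* `res_dlog_of_value`      : `res_v (h du / u) = ord_v (u) · h(v)` if `h` is regular at `v`;
* `coeff_zero_dlog`        : `a₀ (ι h · θ (ι u) / ι u) = - ∑_{v ∈ S} ord_v (u) · h(v)` for `h`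
                             regular off `P`, `S` a finite set of places `≠ P` containing the
                             zeros and poles of `u` off `P`           (abstract [OMEGA] (ii));
* `..._ff`                 : the same for `E : IntermediateField K K((q))` with the inclusion
                             (`x` transcendental, `E` finite over `K(x)`), residue system from
                             `P5.helper42.residueStatement`.
-/

set_option autoImplicit false
set_option linter.unusedSectionVars false
set_option linter.style.longLine false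
set_option linter.unusedVariables false
set_option linter.style.haveILetI false

open AlgebraicCurve KaehlerDifferential HahnSeries
open Fermat.Agent.T3.helper67 (thetaL thetaL_coeff thetaL_add)
open Fermat.Agent.P5.helper42

namespace Fermat.Agent.T8.helper42

/-! ### The Leibniz rule for `θ` -/

section Leibniz

variable {R : Type*} [CommRing R]

theorem thetaL_support_subset (f : LaurentSeries R) : (thetaL f).support ⊆ f.support := by
  intro k hk
  simp only [HahnSeries.mem_support, thetaL_coeff, ne_eq] at hk ⊢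
  exact fun h => hk (by rw [h, mul_zero])

/-- the Leibniz rule for `θ = q d/dq` on Laurent series -/
theorem thetaL_mul42 (f g : LaurentSeries R) :
    thetaL (f * g) = thetaL f * g + f * thetaL g := by
  ext n
  rw [thetaL_coeff, HahnSeries.coeff_add', Pi.add_apply, HahnSeries.coeff_mul,
    HahnSeries.coeff_mul_left' f.isPWO_support (thetaL_support_subset f),
    HahnSeries.coeff_mul_right' g.isPWO_support (thetaL_support_subset g),
    Finset.mul_sum, ← Finset.sum_add_distrib]
  refine Finset.sum_congr rfl fun ij hij => ?_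
  have h : ij.1 + ij.2 = n := (Finset.mem_antidiagonal.mp hij).2.2
  simp only [thetaL_coeff]
  rw [← h]
  push_cast
  ring

theorem thetaL_one42 : thetaL (1 : LaurentSeries R) = 0 := by
  ext k
  rw [thetaL_coeff, HahnSeries.coeff_one]
  by_cases hk : k = 0
  · simp [hk]
  · simp [hk]

theorem thetaL_C42 (c : R) : thetaL (HahnSeries.C c : LaurentSeries R) = 0 := by
  ext k
  rw [thetaL_coeff, HahnSeries.C_apply, HahnSeries.coeff_single]
  by_cases hk : k = 0
  · simp [hk]
  · simp [hk]

theorem thetaL_C_mul42 (c : R) (f : LaurentSeries R) :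
    thetaL (HahnSeries.C c * f) = HahnSeries.C c * thetaL f := by
  rw [thetaL_mul42, thetaL_C42, zero_mul, zero_add]

/-- the constant coefficient of `θ f` vanishes -/
theorem coeff_zero_thetaL42 (f : LaurentSeries R) : (thetaL f).coeff 0 = 0 := by
  simp

theorem coeff_zero_C_mul42 (c : R) (f : LaurentSeries R) :
    (HahnSeries.C c * f).coeff 0 = c * f.coeff 0 := by
  rw [HahnSeries.C_mul_eq_smul, HahnSeries.coeff_smul, smul_eq_mul]

end Leibniz

/-! ### Orders of Laurent series over a field -/

section Order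

variable {K : Type*} [Field K]

/-- a product of positive total order has no constant coefficient -/
theorem coeff_zero_mul_of_pos {a b : LaurentSeries K} (h : a ≠ 0 → b ≠ 0 → 0 < a.order + b.order) :
    (a * b).coeff 0 = 0 := by
  rcases eq_or_ne a 0 with rfl | ha
  · simp
  rcases eq_or_ne b 0 with rfl | hb
  · simp
  apply HahnSeries.coeff_eq_zero_of_lt_order
  rw [HahnSeries.order_mul ha hb]
  exact h ha hb

theorem order_le_order_thetaL {g : LaurentSeries K} (h : thetaL g ≠ 0) :
    g.order ≤ (thetaL g).order := by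
  apply HahnSeries.order_le_of_coeff_ne_zero
  intro h0
  have := (not_iff_not.mpr HahnSeries.coeff_order_eq_zero).mpr h
  rw [thetaL_coeff, h0, mul_zero] at this
  exact this rfl

/-- `a₀ (g⁻¹ θ g) = ord g` -/
theorem coeff_zero_inv_mul_thetaL {g : LaurentSeries K} (hg : g ≠ 0) :
    (g⁻¹ * thetaL g).coeff 0 = (g.order : K) := by
  set n : ℤ := g.order with hn
  set r : LaurentSeries K := thetaL g - HahnSeries.C (n : K) * g with hr
  have hrc : ∀ k, r.coeff k = ((k : K) - (n : K)) * g.coeff k := by
    intro k
    rw [hr, HahnSeries.coeff_sub', Pi.sub_apply, thetaL_coeff, HahnSeries.C_mul_eq_smul,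
      HahnSeries.coeff_smul, smul_eq_mul]
    ring
  have hθ : thetaL g = HahnSeries.C (n : K) * g + r := by rw [hr]; ring
  have h1 : g⁻¹ * thetaL g = HahnSeries.C (n : K) + g⁻¹ * r := by
    rw [hθ, mul_add, ← mul_assoc, mul_comm g⁻¹ (HahnSeries.C (n : K)), mul_assoc,
      inv_mul_cancel₀ hg, mul_one]
  have h2 : (g⁻¹ * r).coeff 0 = 0 := by
    apply coeff_zero_mul_of_pos
    intro hgi hr0
    have hgio : g⁻¹.order = -n := by
      have := HahnSeries.order_mul hgi hg
      rw [inv_mul_cancel₀ hg, HahnSeries.order_one] at this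
      omega
    have hro : n < r.order := by
      by_contra hle
      have hle := not_lt.mp hle
      have hc := (not_iff_not.mpr HahnSeries.coeff_order_eq_zero).mpr hr0
      rw [hrc] at hc
      rcases lt_or_eq_of_le hle with hlt | heq
      · exact hc (by rw [HahnSeries.coeff_eq_zero_of_lt_order (hn ▸ hlt), mul_zero])
      · exact hc (by rw [heq, sub_self, zero_mul])
    rw [hgio]
    omega
  rw [h1, HahnSeries.coeff_add', Pi.add_apply, h2, add_zero, HahnSeries.C_apply,
    HahnSeries.coeff_single_same]

end Order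

/-! ### The `q`-expansion of a Kähler differential -/

section QExp

variable {K F : Type*} [Field K] [Field F] [Algebra K F]
  (ι : F →+* LaurentSeries K) (hι : ∀ c : K, ι (algebraMap K F c) = HahnSeries.C c)

include hι in
/-- **the `q`-expansion of Kähler differentials** (as multiples of `dq / q`): an additive,
`ι`-semilinear map `Λ` with `Λ (dt) = θ (ι t)`. -/
theorem exists_qExpDiff :
    ∃ Λ : Ω[F⁄K] → LaurentSeries K, (∀ ω ω', Λ (ω + ω') = Λ ω + Λ ω') ∧
      (∀ (f : F) (ω : Ω[F⁄K]), Λ (f • ω) = ι f * Λ ω) ∧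
      ∀ t : F, Λ (D K F t) = thetaL (ι t) := by
  letI mF : Module F (LaurentSeries K) := Module.compHom _ ι
  have hF : ∀ (f : F) (x : LaurentSeries K), f • x = ι f * x := fun f x => rfl
  haveI : IsScalarTower K F (LaurentSeries K) := ⟨fun c f x => by
    rw [hF, hF, Algebra.smul_def, map_mul, hι, mul_assoc, HahnSeries.C_mul_eq_smul]⟩
  let der : Derivation K F (LaurentSeries K) :=
    Derivation.mk'
      { toFun := fun f => thetaL (ι f)
        map_add' := fun f g => by rw [map_add, thetaL_add]
        map_smul' := fun c f => by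
          simp only [RingHom.id_apply]
          rw [Algebra.smul_def, map_mul, hι, thetaL_C_mul42, HahnSeries.C_mul_eq_smul] }
      (fun a b => by
        show thetaL (ι (a * b)) = a • thetaL (ι b) + b • thetaL (ι a)
        rw [hF, hF, map_mul, thetaL_mul42]
        ring)
  refine ⟨fun ω => der.liftKaehlerDifferential ω, fun ω ω' => map_add _ _ _, fun f ω => ?_,
    fun t => ?_⟩
  · show der.liftKaehlerDifferential (f • ω) = ι f * der.liftKaehlerDifferential ω
    rw [map_smul, hF]
  · show der.liftKaehlerDifferential (D K F t) = thetaL (ι t)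
    rw [Derivation.liftKaehlerDifferential_comp_D]
    rfl

end QExp

/-! ### The residue at infinity -/

section Main

variable {K F : Type*} [Field K] [Field F] [Algebra K F]
  (hL : LocalSetting K F)

include hL in
/-- every differential is a multiple of `dt`, `t` a uniformiser at `v` -/
theorem exists_eq_smul_D42 (v : Place K F) {t : F} (ht : v.ord t = 1) (ω : Ω[F⁄K]) :
    ∃ c : F, ω = c • D K F t ∧ (ω ≠ 0 → c ≠ 0 ∧ v.ord c = v.ordDifferential ω) := by
  obtain ⟨hDt, hDt0⟩ := hL.unif v t ht
  set c : F := v.differentialCoeff ω * (v.differentialCoeff (D K F t))⁻¹ with hc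
  have hcD : (v.differentialCoeff (D K F t)) ≠ 0 := fun h => hDt ((coeff_eq_zero_iff hL v).mp h)
  have hωc : ω = c • D K F t := by
    conv_lhs => rw [← coeff_smul_dCoord hL v ω]
    conv_rhs => rw [← coeff_smul_dCoord hL v (D K F t)]
    rw [smul_smul, hc, inv_mul_cancel_right₀ hcD]
  refine ⟨c, hωc, fun hω0 => ?_⟩
  have hc0 : c ≠ 0 := by
    rintro h0
    rw [h0, zero_smul] at hωc
    exact hω0 hωc
  refine ⟨hc0, ?_⟩
  have := ordDifferential_smul_eq hL v hc0 hDt
  rw [← hωc, hDt0, add_zero] at this
  exact this.symm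

variable {res : Place K F → (Ω[F⁄K] →ₗ[K] K)} (hres : IsResidueSystem res)
  (ι : F →+* LaurentSeries K) (hι : ∀ c : K, ι (algebraMap K F c) = HahnSeries.C c)
  (P : Place K F) (hP : ∀ f : F, f ≠ 0 → P.ord f = (ι f).order)
  (Λ : Ω[F⁄K] → LaurentSeries K) (hadd : ∀ ω ω', Λ (ω + ω') = Λ ω + Λ ω')
  (hsmul : ∀ (f : F) (ω : Ω[F⁄K]), Λ (f • ω) = ι f * Λ ω)
  (hD : ∀ t : F, Λ (D K F t) = thetaL (ι t))

include hadd in
theorem qExp_zero : Λ 0 = 0 := by
  have := hadd 0 0
  rw [add_zero] at this
  exact left_eq_add.mp this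

include hadd in
theorem qExp_sub (ω ω' : Ω[F⁄K]) : Λ (ω - ω') = Λ ω - Λ ω' := by
  have := hadd (ω - ω') ω'
  rw [sub_add_cancel] at this
  rw [this, add_sub_cancel_right]

include hι hsmul in
theorem qExp_const_smul (a : K) (ω : Ω[F⁄K]) :
    (Λ (a • ω)).coeff 0 = a * (Λ ω).coeff 0 := by
  rw [← algebraMap_smul F a ω, hsmul, hι, coeff_zero_C_mul42]

include hD in
theorem qExp_exact (h : F) : (Λ (D K F h)).coeff 0 = 0 := by
  rw [hD, coeff_zero_thetaL42]

include hsmul hD hP in
theorem qExp_dlog_unif {t : F} (ht : P.ord t = 1) : (Λ (t⁻¹ • D K F t)).coeff 0 = 1 := by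
  have ht0 : t ≠ 0 := ne_zero_of_ord_eq_one P ht
  have hιt : ι t ≠ 0 := (map_ne_zero ι).mpr ht0
  rw [hsmul, hD, map_inv₀, coeff_zero_inv_mul_thetaL hιt, ← hP t ht0, ht]
  norm_num

include hL hadd hsmul hD hP in
theorem qExp_regular {ω : Ω[F⁄K]} (hω : 0 ≤ P.ordDifferential ω) : (Λ ω).coeff 0 = 0 := by
  obtain ⟨t, ht⟩ := exists_ord_eq_one P
  have ht0 : t ≠ 0 := ne_zero_of_ord_eq_one P ht
  obtain ⟨c, hωc, hc⟩ := exists_eq_smul_D42 hL P ht ω
  rcases eq_or_ne ω 0 with rfl | hω0
  · rw [qExp_zero Λ hadd]
    simp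
  obtain ⟨hc0, hcord⟩ := hc hω0
  rw [hωc, hsmul, hD]
  apply coeff_zero_mul_of_pos
  intro _ hθ
  have h1 : 0 ≤ (ι c).order := by rw [← hP c hc0, hcord]; exact hω
  have h2 : 1 ≤ (thetaL (ι t)).order := by
    have := order_le_order_thetaL hθ
    rw [← hP t ht0, ht] at this
    exact this
  omega

include hL hres hι hadd hsmul hD hP in
theorem res_eq_coeff_aux [CharZero K] (m : ℕ) : ∀ ω : Ω[F⁄K], -(m : ℤ) - 1 ≤ P.ordDifferential ω →
    res P ω = (Λ ω).coeff 0 := by
  obtain ⟨t, ht⟩ := exists_ord_eq_one P
  have ht0 : t ≠ 0 := ne_zero_of_ord_eq_one P ht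
  induction m with
  | zero =>
    intro ω hω
    have hω' : -1 ≤ P.ordDifferential ω := by simpa using hω
    obtain ⟨a, ha⟩ := exists_logPoleK hL P hω' ht
    rw [res_eq_of_logPoleK' hres ht ha]
    have h1 : ω = (ω - a • (t⁻¹ • D K F t)) + a • (t⁻¹ • D K F t) := by abel
    rw [h1, hadd, HahnSeries.coeff_add', Pi.add_apply,
      qExp_regular hL ι P hP Λ hadd hsmul hD ha, zero_add,
      qExp_const_smul ι hι Λ hsmul, qExp_dlog_unif ι P hP Λ hsmul hD ht, mul_one]
  | succ m ih =>
    intro ω hω
    rcases eq_or_ne ω 0 with rfl | hω0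
    · rw [map_zero, qExp_zero Λ hadd]
      simp
    obtain ⟨c, hωc, hc⟩ := exists_eq_smul_D42 hL P ht ω
    obtain ⟨hc0, hcord⟩ := hc hω0
    obtain ⟨hDt, hDt0⟩ := hL.unif P t ht
    -- the leading coefficient
    set N : ℤ := (m : ℤ) + 2 with hN
    have htN : t ^ N ≠ 0 := zpow_ne_zero _ ht0
    have htN' : t ^ (-N) ≠ 0 := zpow_ne_zero _ ht0
    have hg : 0 ≤ P.ord (c * t ^ N) := by
      rw [P.ord_mul hc0 htN, Place.ord_zpow, ht, hcord]
      push_cast at hω
      omega
    obtain ⟨a, ha⟩ := hL.residue P (c * t ^ N) hg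
    -- the exact differential with the same leading term
    have hm1 : ((m : K) + 1) ≠ 0 := by
      have : ((m + 1 : ℕ) : K) ≠ 0 := Nat.cast_ne_zero.mpr (Nat.succ_ne_zero m)
      simpa using this
    set b : K := -a / ((m : K) + 1) with hb
    set h : F := algebraMap K F b * t ^ (-(m : ℤ) - 1) with hh
    have hDh : D K F h = (algebraMap K F a * t ^ (-N)) • D K F t := by
      have e1 : h = b • t ^ (-(m : ℤ) - 1) := by rw [hh, Algebra.smul_def]
      have e2 : (-(m : ℤ) - 1 - 1) = -N := by rw [hN]; ring
      have e3 : algebraMap K F a = algebraMap K F b * ((-(m : ℤ) - 1 : ℤ) : F) := by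
        have : a = b * (-(m : K) - 1) := by
          rw [hb]
          field_simp
          ring
        rw [this, map_mul]
        congr 1
        push_cast
        simp
      calc D K F h = b • D K F (t ^ (-(m : ℤ) - 1)) := by rw [e1, Derivation.map_smul]
        _ = b • ((-(m : ℤ) - 1 : ℤ) • (t ^ (-N) • D K F t)) := by
            rw [Derivation.leibniz_zpow, e2]
        _ = algebraMap K F b • (((-(m : ℤ) - 1 : ℤ) : F) • (t ^ (-N) • D K F t)) := by
            rw [algebraMap_smul, Int.cast_smul_eq_zsmul]
        _ = (algebraMap K F a * t ^ (-N)) • D K F t := by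
            rw [smul_smul, smul_smul, e3]
    have hdiff : ω - D K F h = ((c * t ^ N - algebraMap K F a) * t ^ (-N)) • D K F t := by
      rw [hDh, hωc, ← sub_smul]
      congr 1
      rw [sub_mul, mul_assoc, ← zpow_add₀ ht0]
      simp
    have hres0 : res P ω = res P (ω - D K F h) := by
      rw [map_sub, hres.2.2.1 P h, sub_zero]
    have hΛ0 : (Λ ω).coeff 0 = (Λ (ω - D K F h)).coeff 0 := by
      rw [qExp_sub Λ hadd, HahnSeries.coeff_sub', Pi.sub_apply, qExp_exact ι Λ hD, sub_zero]
    rw [hres0, hΛ0]
    apply ih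
    rcases ha with ha | ha
    · rw [hdiff, ha, sub_self, zero_mul, zero_smul]
      have := regular_zero hL P
      omega
    · have hne : c * t ^ N - algebraMap K F a ≠ 0 := by
        rintro h0
        rw [h0] at ha
        simp at ha
      rw [hdiff, ordDifferential_smul_eq hL P (mul_ne_zero hne htN') hDt, hDt0,
        P.ord_mul hne htN', Place.ord_zpow, ht]
      omega

include hL hres hι hadd hsmul hD hP in
/-- the residue at `P` is the constant coefficient of the `q`-expansion -/
theorem res_eq_coeff [CharZero K] (ω : Ω[F⁄K]) : res P ω = (Λ ω).coeff 0 := by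
  apply res_eq_coeff_aux hL hres ι hι P hP Λ hadd hsmul hD (-P.ordDifferential ω).toNat ω
  have := Int.self_le_toNat (-P.ordDifferential ω)
  omega

end Main

/-! ### The statements, abstract form -/

section Statements

variable {K F : Type*} [Field K] [Field F] [Algebra K F] [CharZero K]
  (hL : LocalSetting K F)
  {res : Place K F → (Ω[F⁄K] →ₗ[K] K)} (hres : IsResidueSystem res)
  (ι : F →+* LaurentSeries K) (hι : ∀ c : K, ι (algebraMap K F c) = HahnSeries.C c)
  (P : Place K F) (hP : ∀ f : F, f ≠ 0 → P.ord f = (ι f).order)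

include hL hres hι hP in
/-- **the residue at infinity is the constant coefficient**:
`res_P (f dt) = a₀ (ι f · θ (ι t))`. -/
theorem res_infty_eq_coeff (f t : F) :
    res P (f • D K F t) = (ι f * thetaL (ι t)).coeff 0 := by
  obtain ⟨Λ, hadd, hsmul, hD⟩ := exists_qExpDiff ι hι
  rw [res_eq_coeff hL hres ι hι P hP Λ hadd hsmul hD, hsmul, hD]

include hL hres hι hP in
/-- **abstract [CUSP-ANN]**: a differential `f dt` which is regular at every place different
from `P` has `a₀ (ι f · θ (ι t)) = 0`. -/
theorem coeff_zero_of_regular_off (f t : F)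
    (hreg : ∀ v : Place K F, v ≠ P → 0 ≤ v.ordDifferential (f • D K F t)) :
    (ι f * thetaL (ι t)).coeff 0 = 0 := by
  rw [← res_infty_eq_coeff hL hres ι hι P hP f t]
  have hsum := hres.2.2.2.2 (f • D K F t)
  rw [finsum_eq_single (fun v => res v (f • D K F t)) P
    (fun v hv => hres.1 v _ (hreg v hv))] at hsum
  exact hsum

include hL hres in
/-- the local residue of `h du / u` at a place where `h` is regular with value `c` -/
theorem res_dlog_of_value (v : Place K F) (h u : F) (hu : u ≠ 0) (c : K)
    (hc : h = algebraMap K F c ∨ 0 < v.ord (h - algebraMap K F c)) :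
    res v (h • (u⁻¹ • D K F u)) = (v.ord u : K) * c := by
  obtain ⟨t, ht⟩ := exists_ord_eq_one v
  have ht0 : t ≠ 0 := ne_zero_of_ord_eq_one v ht
  obtain ⟨hDt, hDt0⟩ := hL.unif v t ht
  set n : ℤ := v.ord u with hn
  have htn : t ^ (-n) ≠ 0 := zpow_ne_zero _ ht0
  have htn' : t ^ n ≠ 0 := zpow_ne_zero _ ht0
  set w : F := u * t ^ (-n) with hw
  have hw0 : w ≠ 0 := mul_ne_zero hu htn
  have hword : v.ord w = 0 := by
    rw [hw, v.ord_mul hu htn, Place.ord_zpow, ht, ← hn]
    ring
  have huw : u = w * t ^ n := by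
    rw [hw, mul_assoc, ← zpow_add₀ ht0]
    simp
  have hdlog : u⁻¹ • D K F u = w⁻¹ • D K F w + n • (t⁻¹ • D K F t) := by
    conv_lhs => rw [huw]
    rw [dlog_mul_eq hw0 htn', dlog_zpow_eq ht0]
  have hh : 0 ≤ v.ord h := by
    rcases hc with hc | hc
    · rw [hc, hL.ord_const]
    · have h1 : h = (h - algebraMap K F c) + algebraMap K F c := by ring
      rw [h1]
      exact ord_add_nonneg v hc.le (hL.ord_const v c).ge
  have hreg1 : 0 ≤ v.ordDifferential (h • (w⁻¹ • D K F w)) :=
    regular_smul hL v hh (regular_dlog_of_ord_eq_zero hL v hword)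
  have hreg2 : 0 ≤ v.ordDifferential ((h - algebraMap K F c) • (t⁻¹ • D K F t)) := by
    rcases hc with hc | hc
    · rw [hc, sub_self, zero_smul]
      exact regular_zero hL v
    · have hne : h - algebraMap K F c ≠ 0 := by
        rintro h0
        rw [h0] at hc
        simp at hc
      have hdl : t⁻¹ • D K F t ≠ 0 := smul_ne_zero (inv_ne_zero ht0) hDt
      rw [ordDifferential_smul_eq hL v hne hdl, ordDifferential_dlog_unif hL v ht]
      omega
  have key : h • (u⁻¹ • D K F u) - ((n : K) * c) • (t⁻¹ • D K F t)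
      = h • (w⁻¹ • D K F w) + n • ((h - algebraMap K F c) • (t⁻¹ • D K F t)) := by
    rw [hdlog, smul_add, sub_smul, smul_sub, mul_smul, algebraMap_smul,
      ← Int.cast_smul_eq_zsmul K n (c • (t⁻¹ • D K F t)),
      smul_comm h n (t⁻¹ • D K F t)]
    abel
  refine res_eq_of_logPoleK' hres ht ?_
  rw [key]
  exact regular_add hL v hreg1 (regular_zsmul hL v n hreg2)

include hL hres hι hP in
/-- **abstract [OMEGA] (ii)**: for `h` regular off `P` with values `val v` at the places of a
finite set `S ∌ P` containing the zeros and poles of `u` off `P`,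
`a₀ (ι h · (ι u)⁻¹ · θ (ι u)) = - ∑_{v ∈ S} ord_v (u) · val v`. -/
theorem coeff_zero_dlog (h u : F) (hu : u ≠ 0) (S : Finset (Place K F)) (hPS : P ∉ S)
    (hS : ∀ v : Place K F, v ≠ P → v.ord u ≠ 0 → v ∈ S)
    (hreg : ∀ v : Place K F, v ≠ P → 0 ≤ v.ord h) (val : Place K F → K)
    (hval : ∀ v ∈ S, h = algebraMap K F (val v) ∨ 0 < v.ord (h - algebraMap K F (val v))) :
    (ι h * (ι u)⁻¹ * thetaL (ι u)).coeff 0 = - ∑ v ∈ S, (v.ord u : K) * val v := by
  classical
  have h1 := res_infty_eq_coeff hL hres ι hι P hP (h * u⁻¹) u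
  rw [map_mul, map_inv₀] at h1
  rw [← h1]
  set ω : Ω[F⁄K] := (h * u⁻¹) • D K F u with hω
  have hω' : ω = h • (u⁻¹ • D K F u) := by rw [hω, smul_smul]
  have hsum := hres.2.2.2.2 ω
  have hsupp : (Function.support fun v => res v ω) ⊆ ↑(insert P S) := by
    intro v hv
    rw [Function.mem_support] at hv
    rw [Finset.coe_insert, Set.mem_insert_iff, Finset.mem_coe]
    by_contra hcon
    rw [not_or] at hcon
    apply hv
    have hord : v.ord u = 0 := by
      by_contra h0
      exact hcon.2 (hS v hcon.1 h0)
    rw [hω']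
    exact hres.1 v _ (regular_smul hL v (hreg v hcon.1) (regular_dlog_of_ord_eq_zero hL v hord))
  rw [finsum_eq_sum_of_support_subset _ hsupp, Finset.sum_insert hPS] at hsum
  have h2 : ∑ v ∈ S, res v ω = ∑ v ∈ S, (v.ord u : K) * val v :=
    Finset.sum_congr rfl fun v hv => by
      rw [hω']
      exact res_dlog_of_value hL hres v h u hu (val v) (hval v hv)
  rw [h2] at hsum
  exact eq_neg_of_add_eq_zero_left hsum

end Statements

/-! ### The statements for a subfield of `K((q))` -/

section FF

set_option synthInstance.maxHeartbeats 400000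
set_option maxHeartbeats 1000000

open IntermediateField
open Fermat.Agent.P2.helper29 (IsInfty)

variable {K : Type*} [Field K] [IsAlgClosed K] [CharZero K]
  (E : IntermediateField K (LaurentSeries K))

theorem incl_const42 (c : K) :
    (algebraMap E (LaurentSeries K)) (algebraMap K E c) = HahnSeries.C c := by
  rw [← IsScalarTower.algebraMap_apply K E (LaurentSeries K), Algebra.algebraMap_eq_smul_one,
    Algebra.smul_def, mul_one]
  show (HahnSeries.ofPowerSeries ℤ K) (algebraMap K (PowerSeries K) c) = HahnSeries.C c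
  rw [PowerSeries.algebraMap_apply, Algebra.algebraMap_self, RingHom.id_apply,
    HahnSeries.ofPowerSeries_C]

variable (x : E) (hx : Transcendental K x) [FiniteDimensional K⟮x⟯ E]

include hx in
/-- `res_P (f dt) = a₀ (f · θ t)` at the place at infinity of a subfield of `K((q))` -/
theorem res_infty_eq_coeff_ff {res : Place K E → (Ω[E⁄K] →ₗ[K] K)} (hres : IsResidueSystem res)
    (P : Place K E) (hP : IsInfty P) (f t : E) :
    res P (f • D K E t) = ((f : LaurentSeries K) * thetaL (t : LaurentSeries K)).coeff 0 :=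
  res_infty_eq_coeff (LocalSetting.of_ff x hx) hres (algebraMap E (LaurentSeries K))
    (incl_const42 E) P hP f t

include hx in
/-- **[CUSP-ANN], abstract form**: if `f dt` is regular at every place different from the place
at infinity then `a₀ (f · θ t) = 0`. -/
theorem coeff_zero_of_regular_off_ff (P : Place K E) (hP : IsInfty P) (f t : E)
    (hreg : ∀ v : Place K E, v ≠ P → 0 ≤ v.ordDifferential (f • D K E t)) :
    ((f : LaurentSeries K) * thetaL (t : LaurentSeries K)).coeff 0 = 0 := by
  obtain ⟨res, hres⟩ := residueStatement K E x hx inferInstance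
  exact coeff_zero_of_regular_off (LocalSetting.of_ff x hx) hres (algebraMap E (LaurentSeries K))
    (incl_const42 E) P hP f t hreg

include hx in
/-- **[OMEGA] (ii), abstract form**: `a₀ (h · θ u / u) = - ∑_{v ∈ S} ord_v (u) · h(v)` for `h`
regular off the place at infinity. -/
theorem coeff_zero_dlog_ff (P : Place K E) (hP : IsInfty P) (h u : E) (hu : u ≠ 0)
    (S : Finset (Place K E)) (hPS : P ∉ S)
    (hS : ∀ v : Place K E, v ≠ P → v.ord u ≠ 0 → v ∈ S)
    (hreg : ∀ v : Place K E, v ≠ P → 0 ≤ v.ord h) (val : Place K E → K)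
    (hval : ∀ v ∈ S, h = algebraMap K E (val v) ∨ 0 < v.ord (h - algebraMap K E (val v))) :
    ((h : LaurentSeries K) * (u : LaurentSeries K)⁻¹ * thetaL (u : LaurentSeries K)).coeff 0
      = - ∑ v ∈ S, (v.ord u : K) * val v := by
  obtain ⟨res, hres⟩ := residueStatement K E x hx inferInstance
  exact coeff_zero_dlog (LocalSetting.of_ff x hx) hres (algebraMap E (LaurentSeries K))
    (incl_const42 E) P hP h u hu S hPS hS hreg val hval

end FF

end Fermat.Agent.T8.helper42
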