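import Fermat.Agent.T8.helper42_ResInf

/-!
# T8 / [F3-EXIT], leaf [RES-INF] (helper42), part 2: several cusps

The residue theorem with poles at SEVERAL places `Pt i`, `i ∈ I`, each with its own expansion
`emb i : F →+* K((q))` (`emb i c = C c` on constants, `ord_(Pt i) = q`-order of `emb i`), e.g.
the cusps `∞`, `W ∞`, ... with their coset expansions.  Char `0`; input of the `3`-cusp form of
[OMEGA] (box [DESCENT], odd case).

* `sum_coeff_zero_of_regular_off` : if `f dt` is regular at every place different from the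
  `Pt i` then `∑_i a₀ (emb i f · θ (emb i t)) = 0`;
* `sum_coeff_zero_dlog` : for `h` regular off the `Pt i`, `S` a finite set of places disjoint
  from the `Pt i` containing the zeros and poles of `u` off the `Pt i`,
  `∑_i a₀ (emb i h · θ (emb i u) / emb i u) = - ∑_{v ∈ S} ord_v (u) · h(v)`;
* `..._ff` : the same for `E : IntermediateField K K((q))` (residue system from
  `P5.helper42.residueStatement`).
-/

set_option autoImplicit false
set_option linter.unusedSectionVars false
set_option linter.style.longLine false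
set_option linter.unusedVariables false
set_option linter.style.haveILetI false

open AlgebraicCurve KaehlerDifferential HahnSeries
open Fermat.Agent.T3.helper67 (thetaL thetaL_coeff thetaL_add)
open Fermat.Agent.P5.helper42

namespace Fermat.Agent.T8.helper42

section Multi

variable {K F : Type*} [Field K] [Field F] [Algebra K F] [CharZero K]
  (hL : LocalSetting K F)
  {res : Place K F → (Ω[F⁄K] →ₗ[K] K)} (hres : IsResidueSystem res)
  {ι : Type*} (I : Finset ι) (Pt : ι → Place K F) (emb : ι → F →+* LaurentSeries K)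
  (hemb : ∀ i ∈ I, ∀ c : K, emb i (algebraMap K F c) = HahnSeries.C c)
  (hPt : ∀ i ∈ I, ∀ f : F, f ≠ 0 → (Pt i).ord f = (emb i f).order)
  (hinj : ∀ i ∈ I, ∀ j ∈ I, Pt i = Pt j → i = j)

include hL hres hemb hPt in
/-- the sum of the residues at the `Pt i` in terms of the expansions -/
theorem sum_res_eq_sum_coeff (f t : F) :
    ∑ i ∈ I, res (Pt i) (f • D K F t)
      = ∑ i ∈ I, (emb i f * thetaL (emb i t)).coeff 0 :=
  Finset.sum_congr rfl fun i hi =>
    res_infty_eq_coeff hL hres (emb i) (hemb i hi) (Pt i) (hPt i hi) f t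

include hL hres hemb hPt hinj in
/-- **several poles**: if `f dt` is regular at every place different from the `Pt i` then
`∑_i a₀ (emb i f · θ (emb i t)) = 0`. -/
theorem sum_coeff_zero_of_regular_off (f t : F)
    (hreg : ∀ v : Place K F, (∀ i ∈ I, v ≠ Pt i) → 0 ≤ v.ordDifferential (f • D K F t)) :
    ∑ i ∈ I, (emb i f * thetaL (emb i t)).coeff 0 = 0 := by
  classical
  rw [← sum_res_eq_sum_coeff hL hres I Pt emb hemb hPt f t,
    ← Finset.sum_image (f := fun v => res v (f • D K F t)) (fun i hi j hj h => hinj i hi j hj h)]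
  have hsum := hres.2.2.2.2 (f • D K F t)
  have hsupp : (Function.support fun v => res v (f • D K F t)) ⊆ ↑(I.image Pt) := by
    intro v hv
    rw [Function.mem_support] at hv
    rw [Finset.mem_coe, Finset.mem_image]
    by_contra hcon
    apply hv
    refine hres.1 v _ (hreg v fun i hi h => hcon ⟨i, hi, h.symm⟩)
  rw [finsum_eq_sum_of_support_subset _ hsupp] at hsum
  exact hsum

include hL hres hemb hPt hinj in
/-- **the dlog formula with several poles**: for `h` regular off the `Pt i` with values `val v`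
at the places of a finite set `S` disjoint from the `Pt i` and containing the zeros and poles of
`u` off the `Pt i`,
`∑_i a₀ (emb i h · (emb i u)⁻¹ · θ (emb i u)) = - ∑_{v ∈ S} ord_v (u) · val v`. -/
theorem sum_coeff_zero_dlog (h u : F) (hu : u ≠ 0) (S : Finset (Place K F))
    (hdisj : ∀ i ∈ I, Pt i ∉ S)
    (hS : ∀ v : Place K F, (∀ i ∈ I, v ≠ Pt i) → v.ord u ≠ 0 → v ∈ S)
    (hreg : ∀ v : Place K F, (∀ i ∈ I, v ≠ Pt i) → 0 ≤ v.ord h) (val : Place K F → K)
    (hval : ∀ v ∈ S, h = algebraMap K F (val v) ∨ 0 < v.ord (h - algebraMap K F (val v))) :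
    ∑ i ∈ I, (emb i h * (emb i u)⁻¹ * thetaL (emb i u)).coeff 0
      = - ∑ v ∈ S, (v.ord u : K) * val v := by
  classical
  have h1 := sum_res_eq_sum_coeff hL hres I Pt emb hemb hPt (h * u⁻¹) u
  have h1' : ∑ i ∈ I, (emb i (h * u⁻¹) * thetaL (emb i u)).coeff 0
      = ∑ i ∈ I, (emb i h * (emb i u)⁻¹ * thetaL (emb i u)).coeff 0 :=
    Finset.sum_congr rfl fun i _ => by rw [map_mul, map_inv₀]
  rw [← h1', ← h1]
  set ω : Ω[F⁄K] := (h * u⁻¹) • D K F u with hω
  rw [← Finset.sum_image (f := fun v => res v ω) (fun i hi j hj h => hinj i hi j hj h)]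
  have hω' : ω = h • (u⁻¹ • D K F u) := by rw [hω, smul_smul]
  have hsum := hres.2.2.2.2 ω
  have hd : Disjoint (I.image Pt) S := by
    rw [Finset.disjoint_left]
    intro v hv hvS
    obtain ⟨i, hi, rfl⟩ := Finset.mem_image.mp hv
    exact hdisj i hi hvS
  have hsupp : (Function.support fun v => res v ω) ⊆ ↑(I.image Pt ∪ S) := by
    intro v hv
    rw [Function.mem_support] at hv
    rw [Finset.mem_coe, Finset.mem_union, Finset.mem_image]
    by_contra hcon
    rw [not_or] at hcon
    apply hv
    have hoff : ∀ i ∈ I, v ≠ Pt i := fun i hi h => hcon.1 ⟨i, hi, h.symm⟩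
    have hord : v.ord u = 0 := by
      by_contra h0
      exact hcon.2 (hS v hoff h0)
    rw [hω']
    exact hres.1 v _ (regular_smul hL v (hreg v hoff) (regular_dlog_of_ord_eq_zero hL v hord))
  rw [finsum_eq_sum_of_support_subset _ hsupp, Finset.sum_union hd] at hsum
  have h2 : ∑ v ∈ S, res v ω = ∑ v ∈ S, (v.ord u : K) * val v :=
    Finset.sum_congr rfl fun v hv => by
      rw [hω']
      exact res_dlog_of_value hL hres v h u hu (val v) (hval v hv)
  rw [h2] at hsum
  exact eq_neg_of_add_eq_zero_left hsum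

end Multi

section MultiFF

set_option synthInstance.maxHeartbeats 400000
set_option maxHeartbeats 1000000

open IntermediateField

variable {K : Type*} [Field K] [IsAlgClosed K] [CharZero K]
  (E : IntermediateField K (LaurentSeries K))
  (x : E) (hx : Transcendental K x) [FiniteDimensional K⟮x⟯ E]
  {ι : Type*} (I : Finset ι) (Pt : ι → Place K E) (emb : ι → E →+* LaurentSeries K)
  (hemb : ∀ i ∈ I, ∀ c : K, emb i (algebraMap K E c) = HahnSeries.C c)
  (hPt : ∀ i ∈ I, ∀ f : E, f ≠ 0 → (Pt i).ord f = (emb i f).order)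
  (hinj : ∀ i ∈ I, ∀ j ∈ I, Pt i = Pt j → i = j)

include hx hemb hPt hinj in
/-- several poles, subfield of `K((q))` -/
theorem sum_coeff_zero_of_regular_off_ff (f t : E)
    (hreg : ∀ v : Place K E, (∀ i ∈ I, v ≠ Pt i) → 0 ≤ v.ordDifferential (f • D K E t)) :
    ∑ i ∈ I, (emb i f * thetaL (emb i t)).coeff 0 = 0 := by
  obtain ⟨res, hres⟩ := residueStatement K E x hx inferInstance
  exact sum_coeff_zero_of_regular_off (LocalSetting.of_ff x hx) hres I Pt emb hemb hPt hinj f t
    hreg

include hx hemb hPt hinj in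
/-- the dlog formula with several poles, subfield of `K((q))` -/
theorem sum_coeff_zero_dlog_ff (h u : E) (hu : u ≠ 0) (S : Finset (Place K E))
    (hdisj : ∀ i ∈ I, Pt i ∉ S)
    (hS : ∀ v : Place K E, (∀ i ∈ I, v ≠ Pt i) → v.ord u ≠ 0 → v ∈ S)
    (hreg : ∀ v : Place K E, (∀ i ∈ I, v ≠ Pt i) → 0 ≤ v.ord h) (val : Place K E → K)
    (hval : ∀ v ∈ S, h = algebraMap K E (val v) ∨ 0 < v.ord (h - algebraMap K E (val v))) :
    ∑ i ∈ I, (emb i h * (emb i u)⁻¹ * thetaL (emb i u)).coeff 0
      = - ∑ v ∈ S, (v.ord u : K) * val v := by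
  obtain ⟨res, hres⟩ := residueStatement K E x hx inferInstance
  exact sum_coeff_zero_dlog (LocalSetting.of_ff x hx) hres I Pt emb hemb hPt hinj h u hu S hdisj
    hS hreg val hval

end MultiFF

end Fermat.Agent.T8.helper42
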