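import Fermat.Agent.T8.helper42_ResMulti

/-!
# T8 / [F3-EXIT], leaf [RES-INF] (helper42), part 3: expansions with a ramification exponent

The coset expansions of the cusp dictionary (`T3.helper96.exists_dictionary`) satisfy
`order (emb f) = d * ord_P f` with a ramification exponent `d ≥ 1`.  For such an expansion the
constant coefficient of the `q`-expansion of a differential is `d` times the residue.

* `res_unique42`           : a functional on Kähler differentials which is additive,
                             `K`-homogeneous, kills exact differentials and the differentials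
                             regular at `P`, and takes the value `κ` on `dt / t` (`t` a
                             uniformiser at `P`) is `κ · res_P`;
* `res_ram_eq_coeff`       : `d · res_P (f dt) = a₀ (emb f · θ (emb t))`;
* `sum_ram_coeff_zero_of_regular_off`, `sum_ram_coeff_zero_dlog` : the residue theorem with
  poles at several places `Pt i`, expansions `emb i` of exponents `d i`:
  `∑_i (d i)⁻¹ a₀ (emb i h · θ (emb i u) / emb i u) = - ∑_{v ∈ S} ord_v (u) · h(v)`;
* `..._ff` : the same for `E : IntermediateField K K((q))`.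
-/

set_option autoImplicit false
set_option linter.unusedSectionVars false
set_option linter.style.longLine false
set_option linter.unusedVariables false
set_option linter.style.haveILetI false

open AlgebraicCurve KaehlerDifferential HahnSeries
open Fermat.Agent.T3.helper67 (thetaL thetaL_coeff thetaL_add)
open Fermat.Agent.P5.helper42

namespace Fermat.Agent.T8.helper42

section Unique

variable {K F : Type*} [Field K] [Field F] [Algebra K F] [CharZero K]
  (hL : LocalSetting K F)
  {res : Place K F → (Ω[F⁄K] →ₗ[K] K)} (hres : IsResidueSystem res)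
  (P : Place K F) (ρ : Ω[F⁄K] → K) (κ : K)
  (hadd : ∀ ω ω', ρ (ω + ω') = ρ ω + ρ ω') (hK : ∀ (a : K) (ω : Ω[F⁄K]), ρ (a • ω) = a * ρ ω)
  (hexact : ∀ h : F, ρ (D K F h) = 0)
  (hreg : ∀ ω : Ω[F⁄K], 0 ≤ P.ordDifferential ω → ρ ω = 0)
  (hlog : ∀ t : F, P.ord t = 1 → ρ (t⁻¹ • D K F t) = κ)

include hadd in
theorem rho_zero42 : ρ 0 = 0 := by
  have := hadd 0 0
  rw [add_zero] at this
  exact left_eq_add.mp this

include hadd in
theorem rho_sub42 (ω ω' : Ω[F⁄K]) : ρ (ω - ω') = ρ ω - ρ ω' := by
  have := hadd (ω - ω') ω'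
  rw [sub_add_cancel] at this
  rw [this, add_sub_cancel_right]

include hL hres hadd hK hexact hreg hlog in
theorem res_unique_aux42 (m : ℕ) : ∀ ω : Ω[F⁄K], -(m : ℤ) - 1 ≤ P.ordDifferential ω →
    ρ ω = κ * res P ω := by
  obtain ⟨t, ht⟩ := exists_ord_eq_one P
  have ht0 : t ≠ 0 := ne_zero_of_ord_eq_one P ht
  induction m with
  | zero =>
    intro ω hω
    have hω' : -1 ≤ P.ordDifferential ω := by simpa using hω
    obtain ⟨a, ha⟩ := exists_logPoleK hL P hω' ht
    rw [res_eq_of_logPoleK' hres ht ha]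
    have h1 : ω = (ω - a • (t⁻¹ • D K F t)) + a • (t⁻¹ • D K F t) := by abel
    rw [h1, hadd, hreg _ ha, zero_add, hK, hlog t ht, mul_comm]
  | succ m ih =>
    intro ω hω
    rcases eq_or_ne ω 0 with rfl | hω0
    · rw [map_zero, rho_zero42 ρ hadd, mul_zero]
    obtain ⟨c, hωc, hc⟩ := exists_eq_smul_D42 hL P ht ω
    obtain ⟨hc0, hcord⟩ := hc hω0
    obtain ⟨hDt, hDt0⟩ := hL.unif P t ht
    set N : ℤ := (m : ℤ) + 2 with hN
    have htN : t ^ N ≠ 0 := zpow_ne_zero _ ht0
    have htN' : t ^ (-N) ≠ 0 := zpow_ne_zero _ ht0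
    have hg : 0 ≤ P.ord (c * t ^ N) := by
      rw [P.ord_mul hc0 htN, Place.ord_zpow, ht, hcord]
      push_cast at hω
      omega
    obtain ⟨a, ha⟩ := hL.residue P (c * t ^ N) hg
    have hm1 : ((m : K) + 1) ≠ 0 := by
      have : ((m + 1 : ℕ) : K) ≠ 0 := Nat.cast_ne_zero.mpr (Nat.succ_ne_zero m)
      simpa using this
    set b : K := -a / ((m : K) + 1) with hb
    set h : F := algebraMap K F b * t ^ (-(m : ℤ) - 1) with hh
    have hDh : D K F h = (algebraMap K F a * t ^ (-N)) • D K F t := by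
      have e1 : h = b • t ^ (-(m : ℤ) - 1) := by rw [hh, Algebra.smul_def]
      have e2 : (-(m : ℤ) - 1 - 1) = -N := by rw [hN]; ring
      have e3 : algebraMap K F a = algebraMap K F b * ((-(m : ℤ) - 1 : ℤ) : F) := by
        have : a = b * (-(m : K) - 1) := by
          rw [hb]
          field_simp
          ring
        rw [this, map_mul]
        congr 1
        push_cast
        simp
      calc D K F h = b • D K F (t ^ (-(m : ℤ) - 1)) := by rw [e1, Derivation.map_smul]
        _ = b • ((-(m : ℤ) - 1 : ℤ) • (t ^ (-N) • D K F t)) := by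
            rw [Derivation.leibniz_zpow, e2]
        _ = algebraMap K F b • (((-(m : ℤ) - 1 : ℤ) : F) • (t ^ (-N) • D K F t)) := by
            rw [algebraMap_smul, Int.cast_smul_eq_zsmul]
        _ = (algebraMap K F a * t ^ (-N)) • D K F t := by
            rw [smul_smul, smul_smul, e3]
    have hdiff : ω - D K F h = ((c * t ^ N - algebraMap K F a) * t ^ (-N)) • D K F t := by
      rw [hDh, hωc, ← sub_smul]
      congr 1
      rw [sub_mul, mul_assoc, ← zpow_add₀ ht0]
      simp
    have hres0 : res P ω = res P (ω - D K F h) := by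
      rw [map_sub, hres.2.2.1 P h, sub_zero]
    have hρ0 : ρ ω = ρ (ω - D K F h) := by
      rw [rho_sub42 ρ hadd, hexact, sub_zero]
    rw [hres0, hρ0]
    apply ih
    rcases ha with ha | ha
    · rw [hdiff, ha, sub_self, zero_mul, zero_smul]
      have := regular_zero hL P
      omega
    · have hne : c * t ^ N - algebraMap K F a ≠ 0 := by
        rintro h0
        rw [h0] at ha
        simp at ha
      rw [hdiff, ordDifferential_smul_eq hL P (mul_ne_zero hne htN') hDt, hDt0,
        P.ord_mul hne htN', Place.ord_zpow, ht]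
      omega

include hL hres hadd hK hexact hreg hlog in
/-- **uniqueness of the local residue**: `ρ = κ · res_P`. -/
theorem res_unique42 (ω : Ω[F⁄K]) : ρ ω = κ * res P ω := by
  apply res_unique_aux42 hL hres P ρ κ hadd hK hexact hreg hlog (-P.ordDifferential ω).toNat ω
  have := Int.self_le_toNat (-P.ordDifferential ω)
  omega

end Unique

section Ram

variable {K F : Type*} [Field K] [Field F] [Algebra K F] [CharZero K]
  (hL : LocalSetting K F)
  {res : Place K F → (Ω[F⁄K] →ₗ[K] K)} (hres : IsResidueSystem res)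
  (ι : F →+* LaurentSeries K) (hι : ∀ c : K, ι (algebraMap K F c) = HahnSeries.C c)
  (P : Place K F) (d : ℕ) (hd : 0 < d)
  (hP : ∀ f : F, f ≠ 0 → (ι f).order = (d : ℤ) * P.ord f)

include hL hres hι hd hP in
/-- **the residue at a place with a ramified expansion**:
`d · res_P (f dt) = a₀ (ι f · θ (ι t))` if `order (ι f) = d · ord_P f`. -/
theorem res_ram_eq_coeff (f t : F) :
    (d : K) * res P (f • D K F t) = (ι f * thetaL (ι t)).coeff 0 := by
  obtain ⟨Λ, hadd, hsmul, hD⟩ := exists_qExpDiff ι hι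
  have key := res_unique42 hL hres P (fun ω => (Λ ω).coeff 0) (d : K)
    (fun ω ω' => by
      show (Λ (ω + ω')).coeff 0 = (Λ ω).coeff 0 + (Λ ω').coeff 0
      rw [hadd, HahnSeries.coeff_add', Pi.add_apply])
    (fun a ω => qExp_const_smul ι hι Λ hsmul a ω)
    (fun h => qExp_exact ι Λ hD h)
    (fun ω hω => by
      show (Λ ω).coeff 0 = 0
      obtain ⟨t, ht⟩ := exists_ord_eq_one P
      have ht0 : t ≠ 0 := ne_zero_of_ord_eq_one P ht
      obtain ⟨c, hωc, hc⟩ := exists_eq_smul_D42 hL P ht ω
      rcases eq_or_ne ω 0 with rfl | hω0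
      · rw [qExp_zero Λ hadd]
        simp
      obtain ⟨hc0, hcord⟩ := hc hω0
      rw [hωc, hsmul, hD]
      apply coeff_zero_mul_of_pos
      intro _ hθ
      have h1 : 0 ≤ (ι c).order := by
        rw [hP c hc0, hcord]
        exact mul_nonneg (Int.natCast_nonneg d) hω
      have h2 : 1 ≤ (thetaL (ι t)).order := by
        have := order_le_order_thetaL hθ
        rw [hP t ht0, ht, mul_one] at this
        have hd' : (1 : ℤ) ≤ (d : ℤ) := by exact_mod_cast hd
        omega
      omega)
    (fun t ht => by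
      show (Λ (t⁻¹ • D K F t)).coeff 0 = (d : K)
      have ht0 : t ≠ 0 := ne_zero_of_ord_eq_one P ht
      have hιt : ι t ≠ 0 := (map_ne_zero ι).mpr ht0
      rw [hsmul, hD, map_inv₀, coeff_zero_inv_mul_thetaL hιt, hP t ht0, ht, mul_one]
      norm_num)
    (f • D K F t)
  rw [← key]
  show (Λ (f • D K F t)).coeff 0 = _
  rw [hsmul, hD]

end Ram

section MultiRam

variable {K F : Type*} [Field K] [Field F] [Algebra K F] [CharZero K]
  (hL : LocalSetting K F)
  {res : Place K F → (Ω[F⁄K] →ₗ[K] K)} (hres : IsResidueSystem res)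
  {ι : Type*} (I : Finset ι) (Pt : ι → Place K F) (emb : ι → F →+* LaurentSeries K)
  (d : ι → ℕ) (hd : ∀ i ∈ I, 0 < d i)
  (hemb : ∀ i ∈ I, ∀ c : K, emb i (algebraMap K F c) = HahnSeries.C c)
  (hPt : ∀ i ∈ I, ∀ f : F, f ≠ 0 → (emb i f).order = (d i : ℤ) * (Pt i).ord f)
  (hinj : ∀ i ∈ I, ∀ j ∈ I, Pt i = Pt j → i = j)

include hL hres hd hemb hPt in
theorem sum_res_eq_sum_ram_coeff (f t : F) :
    ∑ i ∈ I, res (Pt i) (f • D K F t)
      = ∑ i ∈ I, ((d i : K))⁻¹ * (emb i f * thetaL (emb i t)).coeff 0 :=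
  Finset.sum_congr rfl fun i hi => by
    have hdi : (d i : K) ≠ 0 := Nat.cast_ne_zero.mpr (hd i hi).ne'
    rw [← res_ram_eq_coeff hL hres (emb i) (hemb i hi) (Pt i) (d i) (hd i hi) (hPt i hi) f t,
      inv_mul_cancel_left₀ hdi]

include hL hres hd hemb hPt hinj in
/-- several poles with ramified expansions: if `f dt` is regular off the `Pt i` then
`∑_i (d i)⁻¹ a₀ (emb i f · θ (emb i t)) = 0`. -/
theorem sum_ram_coeff_zero_of_regular_off (f t : F)
    (hreg : ∀ v : Place K F, (∀ i ∈ I, v ≠ Pt i) → 0 ≤ v.ordDifferential (f • D K F t)) :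
    ∑ i ∈ I, ((d i : K))⁻¹ * (emb i f * thetaL (emb i t)).coeff 0 = 0 := by
  classical
  rw [← sum_res_eq_sum_ram_coeff hL hres I Pt emb d hd hemb hPt f t,
    ← Finset.sum_image (f := fun v => res v (f • D K F t)) (fun i hi j hj h => hinj i hi j hj h)]
  have hsum := hres.2.2.2.2 (f • D K F t)
  have hsupp : (Function.support fun v => res v (f • D K F t)) ⊆ ↑(I.image Pt) := by
    intro v hv
    rw [Function.mem_support] at hv
    rw [Finset.mem_coe, Finset.mem_image]
    by_contra hcon
    apply hv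
    refine hres.1 v _ (hreg v fun i hi h => hcon ⟨i, hi, h.symm⟩)
  rw [finsum_eq_sum_of_support_subset _ hsupp] at hsum
  exact hsum

include hL hres hd hemb hPt hinj in
/-- **the dlog formula with several poles and ramified expansions**:
`∑_i (d i)⁻¹ a₀ (emb i h · (emb i u)⁻¹ · θ (emb i u)) = - ∑_{v ∈ S} ord_v (u) · val v`. -/
theorem sum_ram_coeff_zero_dlog (h u : F) (hu : u ≠ 0) (S : Finset (Place K F))
    (hdisj : ∀ i ∈ I, Pt i ∉ S)
    (hS : ∀ v : Place K F, (∀ i ∈ I, v ≠ Pt i) → v.ord u ≠ 0 → v ∈ S)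
    (hreg : ∀ v : Place K F, (∀ i ∈ I, v ≠ Pt i) → 0 ≤ v.ord h) (val : Place K F → K)
    (hval : ∀ v ∈ S, h = algebraMap K F (val v) ∨ 0 < v.ord (h - algebraMap K F (val v))) :
    ∑ i ∈ I, ((d i : K))⁻¹ * (emb i h * (emb i u)⁻¹ * thetaL (emb i u)).coeff 0
      = - ∑ v ∈ S, (v.ord u : K) * val v := by
  classical
  have h1 := sum_res_eq_sum_ram_coeff hL hres I Pt emb d hd hemb hPt (h * u⁻¹) u
  have h1' : ∑ i ∈ I, ((d i : K))⁻¹ * (emb i (h * u⁻¹) * thetaL (emb i u)).coeff 0
      = ∑ i ∈ I, ((d i : K))⁻¹ * (emb i h * (emb i u)⁻¹ * thetaL (emb i u)).coeff 0 :=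
    Finset.sum_congr rfl fun i _ => by rw [map_mul, map_inv₀]
  rw [← h1', ← h1]
  set ω : Ω[F⁄K] := (h * u⁻¹) • D K F u with hω
  rw [← Finset.sum_image (f := fun v => res v ω) (fun i hi j hj h => hinj i hi j hj h)]
  have hω' : ω = h • (u⁻¹ • D K F u) := by rw [hω, smul_smul]
  have hsum := hres.2.2.2.2 ω
  have hdj : Disjoint (I.image Pt) S := by
    rw [Finset.disjoint_left]
    intro v hv hvS
    obtain ⟨i, hi, rfl⟩ := Finset.mem_image.mp hv
    exact hdisj i hi hvS
  have hsupp : (Function.support fun v => res v ω) ⊆ ↑(I.image Pt ∪ S) := by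
    intro v hv
    rw [Function.mem_support] at hv
    rw [Finset.mem_coe, Finset.mem_union, Finset.mem_image]
    by_contra hcon
    rw [not_or] at hcon
    apply hv
    have hoff : ∀ i ∈ I, v ≠ Pt i := fun i hi h => hcon.1 ⟨i, hi, h.symm⟩
    have hord : v.ord u = 0 := by
      by_contra h0
      exact hcon.2 (hS v hoff h0)
    rw [hω']
    exact hres.1 v _ (regular_smul hL v (hreg v hoff) (regular_dlog_of_ord_eq_zero hL v hord))
  rw [finsum_eq_sum_of_support_subset _ hsupp, Finset.sum_union hdj] at hsum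
  have h2 : ∑ v ∈ S, res v ω = ∑ v ∈ S, (v.ord u : K) * val v :=
    Finset.sum_congr rfl fun v hv => by
      rw [hω']
      exact res_dlog_of_value hL hres v h u hu (val v) (hval v hv)
  rw [h2] at hsum
  exact eq_neg_of_add_eq_zero_left hsum

end MultiRam

section MultiRamFF

set_option synthInstance.maxHeartbeats 400000
set_option maxHeartbeats 1000000

open IntermediateField

variable {K : Type*} [Field K] [IsAlgClosed K] [CharZero K]
  {F : Type*} [Field F] [Algebra K F]
  (x : F) (hx : Transcendental K x) [FiniteDimensional K⟮x⟯ F]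
  {ι : Type*} (I : Finset ι) (Pt : ι → Place K F) (emb : ι → F →+* LaurentSeries K)
  (d : ι → ℕ) (hd : ∀ i ∈ I, 0 < d i)
  (hemb : ∀ i ∈ I, ∀ c : K, emb i (algebraMap K F c) = HahnSeries.C c)
  (hPt : ∀ i ∈ I, ∀ f : F, f ≠ 0 → (emb i f).order = (d i : ℤ) * (Pt i).ord f)
  (hinj : ∀ i ∈ I, ∀ j ∈ I, Pt i = Pt j → i = j)

include hx hd hemb hPt hinj in
/-- several poles, ramified expansions, any function field of one variable over `K` (in the
universe of `K`) -/
theorem sum_ram_coeff_zero_of_regular_off_ff (f t : F)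
    (hreg : ∀ v : Place K F, (∀ i ∈ I, v ≠ Pt i) → 0 ≤ v.ordDifferential (f • D K F t)) :
    ∑ i ∈ I, ((d i : K))⁻¹ * (emb i f * thetaL (emb i t)).coeff 0 = 0 := by
  obtain ⟨res, hres⟩ := residueStatement K F x hx inferInstance
  exact sum_ram_coeff_zero_of_regular_off (LocalSetting.of_ff x hx) hres I Pt emb d hd hemb hPt
    hinj f t hreg

include hx hd hemb hPt hinj in
/-- the dlog formula with several poles and ramified expansions, any function field of one
variable over `K` -/
theorem sum_ram_coeff_zero_dlog_ff (h u : F) (hu : u ≠ 0) (S : Finset (Place K F))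
    (hdisj : ∀ i ∈ I, Pt i ∉ S)
    (hS : ∀ v : Place K F, (∀ i ∈ I, v ≠ Pt i) → v.ord u ≠ 0 → v ∈ S)
    (hreg : ∀ v : Place K F, (∀ i ∈ I, v ≠ Pt i) → 0 ≤ v.ord h) (val : Place K F → K)
    (hval : ∀ v ∈ S, h = algebraMap K F (val v) ∨ 0 < v.ord (h - algebraMap K F (val v))) :
    ∑ i ∈ I, ((d i : K))⁻¹ * (emb i h * (emb i u)⁻¹ * thetaL (emb i u)).coeff 0
      = - ∑ v ∈ S, (v.ord u : K) * val v := by
  obtain ⟨res, hres⟩ := residueStatement K F x hx inferInstance
  exact sum_ram_coeff_zero_dlog (LocalSetting.of_ff x hx) hres I Pt emb d hd hemb hPt hinj h u hu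
    S hdisj hS hreg val hval

end MultiRamFF

end Fermat.Agent.T8.helper42
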