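/-
T8 (row 38 via S44, at risk), box [CUSP-GAP], leaf [CUSP-SQF] (helper43): the leaf contract
`helper7.CuspSqfStatement` from the contract [CUSP-A] at all squarefree levels.

* `CuspAOrdAllStatement`, `CuspAAllStatement` : [CUSP-A] (weak / strong form) at every squarefree
  level prime to `p`;
* `cuspSqf_of_cuspAOrd`, `cuspSqf_of_cuspA` : `helper7.CuspSqfStatement`.
-/
import Mathlib
import Fermat.Agent.T8.helper43_CuspCount
import Fermat.Agent.T8.helper7_CuspGapDefs

set_option autoImplicit false
set_option linter.unusedSectionVars false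
set_option linter.unusedVariables false
set_option linter.style.longLine false
set_option linter.style.haveILetI false

noncomputable section

open ModularCurve AlgebraicCurve IntermediateField

namespace Fermat.Agent.T8.helper43

open Fermat.Agent.S18.helper19 Fermat.Agent.P2.helper29

/-- **[CUSP-A], weak form, at every squarefree level.** -/
def CuspAOrdAllStatement : Prop :=
  ∀ (M p : ℕ) [NeZero M] [NeZero p], p.Prime → ¬ p ∣ M → Squarefree M →
    ∀ A : ValuationSubring Kb, A.LiesOverPrime p → CuspAOrdStatement A M p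

/-- **[CUSP-A], strong form, at every squarefree level.** -/
def CuspAAllStatement : Prop :=
  ∀ (M p : ℕ) [NeZero M] [NeZero p], p.Prime → ¬ p ∣ M → Squarefree M →
    ∀ A : ValuationSubring Kb, A.LiesOverPrime p → CuspAStatement A M p

theorem cuspAOrdAll_of_cuspAAll (h : CuspAAllStatement) : CuspAOrdAllStatement :=
  fun M p _ _ hp hpM hM A hA => cuspAOrd_of_cuspA hp hpM hA (h M p hp hpM hM A hA)

/-- **leaf [CUSP-SQF]** from [CUSP-A] (weak form). -/
theorem cuspSqf_of_cuspAOrd (h : CuspAOrdAllStatement) :
    Fermat.Agent.T8.helper7.CuspSqfStatement :=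
  fun M p _ _ hp hpM hM A hA u f hu hdiv hred Q hQ =>
    dvdPoles_of_cuspAOrd hM hp hpM hA (h M p hp hpM hM A hA) u f hu hdiv hred Q hQ

/-- **leaf [CUSP-SQF]** from [CUSP-A] (strong form). -/
theorem cuspSqf_of_cuspA (h : CuspAAllStatement) : Fermat.Agent.T8.helper7.CuspSqfStatement :=
  cuspSqf_of_cuspAOrd (cuspAOrdAll_of_cuspAAll h)

end Fermat.Agent.T8.helper43

end
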