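import Fermat.Agent.T8.helper72_ChainDefs2
import Fermat.Agent.T8.helper29_ConclN
import Fermat.Agent.T8.helper2_DHeckeT0

/-!
# T8 = row 38 via S44, box (F) = [D-HECKE] (helper44, owner): ASSEMBLY against `wallCN`

Entry: the binding exit of the wall `helper29.wallCN` (`helper29_ConclN.lean`): every `x ∈ V` has
a Kummer function `u` and first-component reductions `f₁` of `u`, `f₂` of `W u` (elements of
`FFb A (4 M')`, up to constants, `helper54.IsRed1`) whose divisors are divisible by `p` off the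
cusps (`helper54.DvdOff`).

Target: `helper72.DHeckeStatement2 π helper29.wallCN`.

* `IsPthPow p f`        : the Laurent series `f` is a `p`-th power of a Laurent series;
* `rhoIs_of_rhoQ_bad`   : adapter `T3.RhoQ → T2.RhoIs` for functions of the bad level;
* `isT0_of_isRed1_pow`  : **(F4)** in the vocabulary of the wall (helper2's
                          `isT0_of_rhoIs_pow`): both reductions are `p`-th powers `⟹ x ∈ T0`;
* `F3ExitStatement π`   : **(F3) = [F3-EXIT], consumer form**: some `x ∈ V` has wall data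
                          `(u, f₁, f₂)` with `f₁` or `f₂` NOT a `p`-th power `⟹` the Frey
                          representation is modular of level `M'`;
* `dHecke2_of_f3Exit`   : **box (F)** `F3ExitStatement π → DHeckeStatement2 π wallCN`.

The dichotomy is "`f_i` is a `p`-th power in `k((q))`" (equivalently `θ f_i = 0`, `θ = q d/dq`):
no divisibility at the cusps is needed for the `T0` branch.
-/

set_option autoImplicit false
set_option synthInstance.maxHeartbeats 400000
set_option maxHeartbeats 1600000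
set_option linter.unusedSectionVars false
set_option linter.unusedVariables false
set_option linter.style.longLine false

noncomputable section

namespace Fermat.Agent.T8.helper44

open HahnSeries IntermediateField AlgebraicCurve ModularCurve
open Fermat.Agent.S18.helper19 Fermat.Agent.P2.helper29 Fermat.Agent.P2.helper93
open Fermat.Agent.T2 Fermat.Agent.T2.helper36
open Fermat.Agent.T8.helper54 (IsRed1 DvdOff)
open Fermat.Agent.P3.helper94 (IsKummerRep)
open Fermat.Agent.T3.helper36 (RhoQ)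

/-- the Laurent series `f` is a `p`-th power -/
def IsPthPow {k : Type*} [Field k] (p : ℕ) (f : LaurentSeries k) : Prop :=
  ∃ y : LaurentSeries k, f = y ^ p

section Adapter

variable {N p : ℕ} [NeZero N] [NeZero p] (hp : p.Prime) (hpN : ¬ p ∣ N)
  (A : ValuationSubring Kb) (hA : A.LiesOverPrime p)

include hp hpN hA in
/-- adapter: a quotient-form reduction of (a constant multiple of) a function of the bad level is
a reduction in the sense of T2. -/
theorem rhoIs_of_rhoQ_bad {u : FF (N * p)} (hu : u ≠ 0) {κ : Kb} (hκ : κ ≠ 0)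
    {f : LaurentSeries (kA A)} (hf : f ≠ 0)
    (h : RhoQ A (algebraMap Kb (LaurentSeries Kb) κ⁻¹ * (u : LaurentSeries Kb)) f) :
    RhoIs A (N * p) (algebraMap Kb (LaurentSeries Kb) κ⁻¹ * (u : LaurentSeries Kb)) f := by
  obtain ⟨c, r, hc, hr, hcr⟩ := exists_rhoIs_bad hp hpN A hA u hu
  have hcrQ : RhoQ A (algebraMap Kb (LaurentSeries Kb) c⁻¹ * (u : LaurentSeries Kb)) r :=
    hcr.rhoQ
  have e : algebraMap Kb (LaurentSeries Kb) (κ⁻¹ * c) *
      (algebraMap Kb (LaurentSeries Kb) c⁻¹ * (u : LaurentSeries Kb))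
      = algebraMap Kb (LaurentSeries Kb) κ⁻¹ * (u : LaurentSeries Kb) := by
    rw [← mul_assoc, ← map_mul]
    have : κ⁻¹ * c * c⁻¹ = κ⁻¹ := by field_simp
    rw [this]
  have hval : A.valuation (κ⁻¹ * c) = 1 := by
    refine Fermat.Agent.T3.helper36.valuation_eq_one_of_rhoQ hr hf hcrQ ?_
    rw [e]
    exact h
  have hmem : κ⁻¹ * c ∈ A := (A.valuation_le_one_iff _).1 hval.le
  have hd := rhoIs_algebraMap (A := A) (M := N * p) (⟨κ⁻¹ * c, hmem⟩ : A)
  have hprod := hd.mul hcr
  have e' : algebraMap Kb (LaurentSeries Kb) ((⟨κ⁻¹ * c, hmem⟩ : A) : Kb) *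
      (algebraMap Kb (LaurentSeries Kb) c⁻¹ * (u : LaurentSeries Kb))
      = algebraMap Kb (LaurentSeries Kb) κ⁻¹ * (u : LaurentSeries Kb) := e
  rw [e'] at hprod
  have huniq := h.unique hprod.rhoQ
  rw [huniq]
  exact hprod

include hA in
/-- **(F4)** in the vocabulary of the wall: if the two first-component reductions `f₁` (of `u`)
and `f₂` (of `W u`) are `p`-th powers, the class of `u` lies in `T0`. -/
theorem isT0_of_isRed1_pow {x : JZero (N * p)} {u : FF (N * p)} {f₁ f₂ : FFb A N}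
    (hk : IsKummerRep p x u) (h1 : IsRed1 A N p u f₁)
    (h2 : IsRed1 A N p (atkinLehner N p hp hpN u) f₂)
    (hp1 : IsPthPow p (f₁ : LaurentSeries (kA A)))
    (hp2 : IsPthPow p (f₂ : LaurentSeries (kA A))) :
    Fermat.Agent.T7.helper2.IsT0 N p hp hpN A p x := by
  obtain ⟨hu0, D, hD, hdiv⟩ := hk
  obtain ⟨hf₁, κ₁, hκ₁, hr₁⟩ := h1
  obtain ⟨hf₂, κ₂, hκ₂, hr₂⟩ := h2
  obtain ⟨y₁, hy₁⟩ := hp1
  obtain ⟨y₂, hy₂⟩ := hp2
  have hf₁' : (f₁ : LaurentSeries (kA A)) ≠ 0 := fun h => hf₁ (Subtype.ext h)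
  have hf₂' : (f₂ : LaurentSeries (kA A)) ≠ 0 := fun h => hf₂ (Subtype.ext h)
  have hy₁0 : y₁ ≠ 0 := by
    rintro rfl
    rw [zero_pow hp.ne_zero] at hy₁
    exact hf₁' hy₁
  have hy₂0 : y₂ ≠ 0 := by
    rintro rfl
    rw [zero_pow hp.ne_zero] at hy₂
    exact hf₂' hy₂
  have hWu : atkinLehner N p hp hpN u ≠ 0 := (map_ne_zero _).mpr hu0
  have k1 := rhoIs_of_rhoQ_bad hp hpN A hA hu0 hκ₁ hf₁' hr₁
  have k2 := rhoIs_of_rhoQ_bad hp hpN A hA hWu hκ₂ hf₂' hr₂
  rw [hy₁] at k1
  rw [hy₂] at k2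
  have H : IsRootDiv p (D : Divisor Kb (FF (N * p))) u := ⟨hu0, hdiv⟩
  have := Fermat.Agent.T8.helper2.isT0_of_rhoIs_pow (hp := hp) (hpN := hpN) hA H hκ₁ hκ₂ hy₁0 hy₂0 k1 k2
  rwa [hD] at this

end Adapter

open Fermat.Agent.T7 Fermat.Agent.T8.helper72 Fermat.Agent.T8.helper29

/-- **(F3) = [F3-EXIT], consumer form.**  In the context of box (F): if SOME class `x ∈ V` has
wall data `(u, f₁, f₂)` (Kummer function, first-component reductions of `u` and `W u`, both with
divisor divisible by `p` off the cusps) such that `f₁` or `f₂` is NOT a `p`-th power, then the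
Frey representation is modular of level `M'`. -/
def F3ExitStatement (π : PullData) : Prop :=
  ∀ (P : FreyPackage) (W : WeierstrassCurve ℤ) (M' : ℕ) [NeZero M'], ChainCtx P M' W →
    ∀ (hpN : ¬ P.p ∣ 4 * M') (A : ValuationSubring (AlgebraicClosure ℚ)), A.LiesOverPrime P.p →
    ∀ V0 : AddSubgroup (JZero (M' * P.p)), FreyReal P W (M' * P.p) V0 →
      V0 ≤ helper43.newPart M' P.p →
      FreyReal P W (4 * M' * P.p) (V0.map (π M' P.p)) →
      V0.map (π M' P.p) ≤ helper43.newPart (4 * M') P.p →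
      ∀ x ∈ V0.map (π M' P.p), ∀ (u : FF (4 * M' * P.p)) (f₁ f₂ : FFb A (4 * M')),
        IsKummerRep P.p x u →
        IsRed1 A (4 * M') P.p u f₁ → DvdOff A (4 * M') P.p f₁ →
        IsRed1 A (4 * M') P.p (atkinLehner (4 * M') P.p P.pp hpN u) f₂ →
        DvdOff A (4 * M') P.p f₂ →
        ¬ (IsPthPow P.p (f₁ : LaurentSeries (kA A)) ∧ IsPthPow P.p (f₂ : LaurentSeries (kA A))) →
        P.ModularRepOfLevel M'

/-- **box (F) = [D-HECKE]** from [F3-EXIT]; the `T0` branch (F4) is unconditional. -/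
theorem dHecke2_of_f3Exit (π : PullData) (hExit : F3ExitStatement π) :
    DHeckeStatement2 π wallCN := by
  intro P W M' _ hc hpN A hA V0 hV0 hnew hV hVnew hC
  by_cases hM : P.ModularRepOfLevel M'
  · exact Or.inl hM
  · refine Or.inr fun x hx => ?_
    obtain ⟨u, f₁, f₂, hk, h1, d1, h2, d2⟩ := hC x hx hpN
    by_cases hpow : IsPthPow P.p (f₁ : LaurentSeries (kA A)) ∧
        IsPthPow P.p (f₂ : LaurentSeries (kA A))
    · exact isT0_of_isRed1_pow P.pp hpN A hA hk h1 h2 hpow.1 hpow.2
    · exact (hM (hExit P W M' hc hpN A hA V0 hV0 hnew hV hVnew x hx u f₁ f₂ hk h1 d1 h2 d2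
        hpow)).elim

end Fermat.Agent.T8.helper44

end
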