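/-
T8 (row 38 via S44, at risk), box [AUX], helper67: **proof of the contract (D)**
`helper72.AuxStatement auxPull67`.

`π = β_4^* : J₀(M' p) → J₀(4 M' p)` (`helper67_AuxDef.lean`).  On torsion classes, in Kummer form:

* `hecke_pullTo`  : `T_ℓ (β_r^* x) = β_r^* (T_ℓ x)` for a prime `ℓ ∤ C = A r`
  (`T_ℓ = α_* β^*`; `β_ℓ β_r = β_r β_ℓ` and the base change `N_α (β_r y) = β_r (N_α y)`);
* `alphaPush_pullTo_eq_zero`, `betaPush_pullTo_eq_zero` : `β_r^*` maps `ℓ`-new classes to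
  `ℓ`-new classes (`ℓ ∤ r`);
* `auxStatement67` : the contract.
-/
import Mathlib
import Fermat.Agent.T8.helper67_AuxDef
import Fermat.Agent.T7.helper43_NewNorm

set_option autoImplicit false
set_option linter.unusedSectionVars false
set_option linter.unusedVariables false
set_option linter.style.haveILetI false
set_option linter.style.longLine false

noncomputable section
open ModularCurve AlgebraicCurve IntermediateField
namespace Fermat.Agent.T8.helper67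
open Fermat.Agent.S24 Fermat.Agent.P3.helper94 Fermat.Agent.T7

section Hecke

variable (A r C : ℕ) [NeZero A] [NeZero r] [NeZero C] (h : A * r = C)

/-- `T_ℓ x` is represented by `N_α (β_ℓ u)` -/
theorem isKummerRep_hecke67 (M : ℕ) [NeZero M] (ℓ : Nat.Primes) {n : ℕ} {x : JZero M}
    {u : modularFunctionFieldBar M} (H : IsKummerRep n x u) :
    haveI : NeZero (ℓ : ℕ) := ⟨ℓ.2.ne_zero⟩
    IsKummerRep n (heckeOperatorBar M ℓ x)
      (normAlong (heckeAlphaBar Kbar M (ℓ : ℕ)) (heckeBetaBar Kbar M (ℓ : ℕ) u)) := by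
  haveI : NeZero (ℓ : ℕ) := ⟨ℓ.2.ne_zero⟩
  rw [heckeOperatorBar_apply, ← helper43.alphaPush_betaPull]
  exact helper43.isKummerRep_alphaPush (helper43.isKummerRep_betaPull H)

/-- `β_ℓ ∘ β_r = β_r ∘ β_ℓ` -/
theorem heckeBetaBar_betaTo (ℓ : ℕ) [NeZero ℓ] (h' : A * ℓ * r = C * ℓ)
    (u : modularFunctionFieldBar A) :
    heckeBetaBar Kbar C ℓ (betaTo A r C h u)
      = betaTo (A * ℓ) r (C * ℓ) h' (heckeBetaBar Kbar A ℓ u) := by
  apply Subtype.ext
  rw [coe_heckeBetaBar, coe_betaTo, coe_betaTo, coe_heckeBetaBar, qExpand_comm']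

/-- **`T_ℓ ∘ β_r^* = β_r^* ∘ T_ℓ`** on torsion classes, `ℓ ∤ C = A r` -/
theorem hecke_pullTo (ℓ : Nat.Primes) (hℓC : ¬ (ℓ : ℕ) ∣ C) {n : ℕ} (hn : n ≠ 0)
    {x : JZero A} (hx : n • x = 0) :
    heckeOperatorBar C ℓ (pullTo A r C h x) = pullTo A r C h (heckeOperatorBar A ℓ x) := by
  haveI : NeZero (ℓ : ℕ) := ⟨ℓ.2.ne_zero⟩
  have hℓr : ¬ (ℓ : ℕ) ∣ r := fun hd => hℓC (h ▸ Dvd.dvd.mul_left hd A)
  have h' : A * (ℓ : ℕ) * r = C * (ℓ : ℕ) := by rw [← h]; ring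
  obtain ⟨u, H⟩ := exists_isKummerRep hx
  have H2 := isKummerRep_pullTo h (isKummerRep_hecke67 A ℓ H)
  have H3 := isKummerRep_hecke67 C ℓ (isKummerRep_pullTo h H)
  rw [heckeBetaBar_betaTo A r C h (ℓ : ℕ) h' u,
    normAlpha_betaTo' A r (ℓ : ℕ) C ℓ.2 hℓr hℓC h h'] at H3
  exact helper43.eq_of_isKummerRep hn H3 H2

end Hecke

section New

variable (A r ℓ B : ℕ) [NeZero A] [NeZero r] [NeZero ℓ] [NeZero B]

/-- `β_r^*` preserves the kernel of `α_*` (torsion classes) -/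
theorem alphaPush_pullTo_eq_zero (hℓ : ℓ.Prime) (hℓr : ¬ ℓ ∣ r) (hℓB : ¬ ℓ ∣ B) (hB : A * r = B)
    (h' : A * ℓ * r = B * ℓ) {n : ℕ} (hn : n ≠ 0) {x : JZero (A * ℓ)} (hx : n • x = 0)
    (h0 : helper43.alphaPush A ℓ x = 0) :
    helper43.alphaPush B ℓ (pullTo (A * ℓ) r (B * ℓ) h' x) = 0 := by
  obtain ⟨u, H⟩ := exists_isKummerRep hx
  obtain ⟨c, v, hc, hv, e⟩ := helper43.normAlpha_eq_const_mul_pow_of_alphaPush H h0
  refine helper43.alphaPush_eq_zero_of_norm hn (isKummerRep_pullTo h' H) (c := c)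
    (v := betaTo A r B hB v) ?_
  rw [normAlpha_betaTo' A r ℓ B hℓ hℓr hℓB hB h', e, map_mul, map_pow, AlgHom.commutes]

/-- `β_r^*` preserves the kernel of `β_*` (torsion classes) -/
theorem betaPush_pullTo_eq_zero (hℓ : ℓ.Prime) (hℓr : ¬ ℓ ∣ r) (hℓB : ¬ ℓ ∣ B) (hB : A * r = B)
    (h' : A * ℓ * r = B * ℓ) {n : ℕ} (hn : n ≠ 0) {x : JZero (A * ℓ)} (hx : n • x = 0)
    (h0 : helper43.betaPush A ℓ x = 0) :
    helper43.betaPush B ℓ (pullTo (A * ℓ) r (B * ℓ) h' x) = 0 := by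
  obtain ⟨u, H⟩ := exists_isKummerRep hx
  obtain ⟨c, v, hc, hv, e⟩ := helper43.normBeta_eq_const_mul_pow_of_betaPush H h0
  refine helper43.betaPush_eq_zero_of_norm hn (isKummerRep_pullTo h' H) (c := c)
    (v := betaTo A r B hB v) ?_
  rw [normBeta_betaTo' A r ℓ B hℓ hℓr hℓB hB h', e, map_mul, map_pow, AlgHom.commutes]

/-- **`β_r^*` maps the `ℓ`-new torsion classes to `ℓ`-new classes** -/
theorem pullTo_mem_newPart (hℓ : ℓ.Prime) (hℓr : ¬ ℓ ∣ r) (hℓB : ¬ ℓ ∣ B) (hB : A * r = B)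
    (h' : A * ℓ * r = B * ℓ) {n : ℕ} (hn : n ≠ 0) {x : JZero (A * ℓ)} (hx : n • x = 0)
    (hnew : x ∈ helper43.newPart A ℓ) :
    pullTo (A * ℓ) r (B * ℓ) h' x ∈ helper43.newPart B ℓ := by
  obtain ⟨h1, h2⟩ := (helper43.mem_newPart A ℓ).mp hnew
  exact (helper43.mem_newPart B ℓ).mpr
    ⟨alphaPush_pullTo_eq_zero A r ℓ B hℓ hℓr hℓB hB h' hn hx h1,
      betaPush_pullTo_eq_zero A r ℓ B hℓ hℓr hℓB hB h' hn hx h2⟩

end New

/-! ### The contract -/

section Contract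

open WeierstrassCurve WeierstrassCurve.Affine WeierstrassCurve.Affine.Point
open Fermat.Agent.T8.helper72

/-- the restriction of an additive map, injective on `V`, as an isomorphism `V ≃+ V.map f` -/
def equivMapOfInjOn67 {G H : Type*} [AddCommGroup G] [AddCommGroup H] (f : G →+ H)
    (V : AddSubgroup G) (hinj : ∀ x ∈ V, f x = 0 → x = 0) : V ≃+ V.map f :=
  AddEquiv.ofBijective
    ((f.comp V.subtype).codRestrict (V.map f) (fun x => AddSubgroup.mem_map_of_mem f x.2))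
    ⟨by
      intro x y hxy
      have h1 : f (x : G) = f (y : G) := congrArg Subtype.val hxy
      have h2 : f ((x : G) - (y : G)) = 0 := by rw [map_sub, h1, sub_self]
      have h3 := hinj _ (V.sub_mem x.2 y.2) h2
      exact Subtype.ext (sub_eq_zero.mp h3),
    by
      rintro ⟨y, hy⟩
      obtain ⟨x, hx, rfl⟩ := AddSubgroup.mem_map.mp hy
      exact ⟨⟨x, hx⟩, rfl⟩⟩

theorem coe_equivMapOfInjOn67 {G H : Type*} [AddCommGroup G] [AddCommGroup H] (f : G →+ H)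
    (V : AddSubgroup G) (hinj : ∀ x ∈ V, f x = 0 → x = 0) (x : V) :
    ((equivMapOfInjOn67 f V hinj x : V.map f) : H) = f (x : G) := rfl

/-- **Contract (D) [AUX]** for `π = auxPull67`. -/
theorem auxStatement67 : AuxStatement auxPull67 := by
  intro P W M' _ hW hcond hirr V0 hV0 hnew
  have hp0 : P.p ≠ 0 := P.pp.ne_zero
  have hp4 : ¬ P.p ∣ 4 := by
    intro hd
    have h1 : P.p ≤ 4 := Nat.le_of_dvd (by norm_num) hd
    have h2 := P.hp5
    omega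
  have hpM : ¬ P.p ∣ M' := by
    rintro ⟨k, rfl⟩
    have h1 : P.p * P.p ∣ P.p * k * P.p := ⟨k, by ring⟩
    exact P.pp.not_isUnit (hcond.squarefree P.p h1)
  have hpN : ¬ P.p ∣ 4 * M' := by
    intro h1
    rcases (Nat.Prime.dvd_mul P.pp).mp h1 with h2 | h2
    · exact hp4 h2
    · exact hpM h2
  have hlev : M' * P.p * 4 = 4 * M' * P.p := by ring
  refine ⟨⟨?_, ?_, ?_⟩, ?_⟩
  · -- killed by `p`
    rintro _ ⟨x, hx, rfl⟩
    rw [← map_nsmul, hV0.tors x hx, _root_.map_zero]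
  · -- eigen
    rintro _ ⟨x, hx, rfl⟩ ℓ hgood hℓ hℓp
    have hℓ' : ¬ (ℓ : ℕ) ∣ M' * P.p := fun hd => hℓ (Dvd.dvd.trans hd ⟨4, by ring⟩)
    show heckeOperatorBar (4 * M' * P.p) ℓ (pullTo (M' * P.p) 4 (4 * M' * P.p) hlev x) = _
    rw [hecke_pullTo (M' * P.p) 4 (4 * M' * P.p) hlev ℓ hℓ hp0 (hV0.tors x hx),
      hV0.eigen x hx ℓ hgood hℓ' hℓp, map_zsmul]
    rfl
  · -- iso
    obtain ⟨e, he⟩ := hV0.iso
    have hinj : ∀ x ∈ V0, auxPull67 M' P.p x = 0 → x = 0 :=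
      fun x hx h0 => auxPull67_inj hp0 (hV0.tors x hx) h0
    refine ⟨e.trans (equivMapOfInjOn67 (auxPull67 M' P.p) V0 hinj), fun σ x => ?_⟩
    rw [AddEquiv.trans_apply, AddEquiv.trans_apply, coe_equivMapOfInjOn67,
      coe_equivMapOfInjOn67, he σ x, auxPull67_galois_smul]
  · -- new
    rintro _ ⟨x, hx, rfl⟩
    exact pullTo_mem_newPart M' 4 P.p (4 * M') P.pp hp4 hpN (by ring) hlev hp0
      (hV0.tors x hx) (hnew hx)

end Contract

end Fermat.Agent.T8.helper67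

end
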