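import Fermat.Agent.T8.helper44_DHeckeAsm
import Fermat.Agent.T8.helper81_CuspGapDefs
import Fermat.Agent.T8.helper54_PhiWall
import Fermat.Agent.T8.helper67_Aux
import Fermat.Agent.T8.helper13_ExitEnd

/-!
# T8 = row 38 via S44, box (F) = [D-HECKE] (helper44, owner / assembler): [F3-EXIT], top half

`F3ExitStatement helper67.auxPull67` (the only open input of box (F), `helper44_DHeckeAsm`) is
reduced to

* `helper81.CuspGapChainStatement` ([CUSP-GAP], helper81), and
* `ExitFnStatement` : **the FUNCTION-LEVEL exit** (target of the middle glue): for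
  - `u0 ≠ 0` of level `M' p` with `p ∣ div u0` satisfying the function-level eigen-relations
    `helper54.IsEigenFn M' p ℓ a_ℓ u0` at every good prime `ℓ`,
  - `u = c v ^ p β₄(u0)` of level `4 M' p` (`β₄ = helper67.betaTo`, `q ↦ q ^ 4`),
  - a first-component reduction `f` of `u` (`helper54.IsRed1`) with `p ∣ ord_Q f` at EVERY place
    `Q ≠ ∞` of `FFb A (4 M')` (`helper81.DvdFin`) which is NOT a `p`-th power in `k((q))`,
  there is a nonzero formal Hecke eigenvector `w` with the eigenvalues of the Frey curve in the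
  reduction of the `q`-integral cusp forms of level `M'` (`helper47.IsRedCusp`,
  `helper47.IsFormalEigen`), i.e. the input of `helper13.modularRepOfLevel_of_redCusp`.

No class, no `V`, no Galois action and no Atkin-Lehner involution appears in `ExitFnStatement`:
the second component (`W u`, `f₂`) is reduced to the first one here, by
`helper54.IsEigenFn.al` and `helper67.atkinLehner_betaTo` (`W_p ∘ β₄ = β₄ ∘ W_p`).

* `f3Exit_of_exitFn` : `CuspGapChainStatement → ExitFnStatement → F3ExitStatement auxPull67`;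
* `dHecke2_of_exitFn` : box (F) `helper72.DHeckeStatement2 auxPull67 helper29.wallCN` from the
  same two inputs.
-/

set_option autoImplicit false
set_option synthInstance.maxHeartbeats 400000
set_option maxHeartbeats 1600000
set_option linter.unusedSectionVars false
set_option linter.unusedVariables false
set_option linter.style.longLine false
set_option linter.style.haveILetI false

noncomputable section

namespace Fermat.Agent.T8.helper44

open HahnSeries IntermediateField AlgebraicCurve ModularCurve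
open Fermat.Agent.S18.helper19 Fermat.Agent.P2.helper29 Fermat.Agent.P2.helper93
open Fermat.Agent.T2 Fermat.Agent.T2.helper36
open Fermat.Agent.T8.helper54 (IsRed1 DvdOff IsEigenFn)
open Fermat.Agent.T8.helper81 (DvdFin CuspGapChainStatement)
open Fermat.Agent.P3.helper94 (IsKummerRep HasTrivialDiv)
open Fermat.Agent.T8.helper67 (betaTo auxPull67)
open Fermat.Agent.T7 Fermat.Agent.T8.helper72 Fermat.Agent.T8.helper29

/-- `4 M' p = (M' p) 4` -/
theorem level_four (M' p : ℕ) : M' * p * 4 = 4 * M' * p := by ring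

/-- `u` is `β₄(u0)` up to a constant and a `p`-th power -/
def IsPull4 (M' p : ℕ) [NeZero M'] [NeZero p] (u0 : FF (M' * p)) (u : FF (4 * M' * p)) : Prop :=
  ∃ (c : Kb) (v : FF (4 * M' * p)), c ≠ 0 ∧ v ≠ 0 ∧
    u = algebraMap Kb (FF (4 * M' * p)) c * v ^ p *
      betaTo (M' * p) 4 (4 * M' * p) (level_four M' p) u0

/-- **[F3-EXIT], function level** (target of the middle glue). -/
def ExitFnStatement : Prop :=
  ∀ (P : FreyPackage) (W : WeierstrassCurve ℤ) (M' : ℕ) [NeZero M'], ChainCtx P M' W →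
    ∀ (hpN : ¬ P.p ∣ 4 * M') (A : ValuationSubring (AlgebraicClosure ℚ)), A.LiesOverPrime P.p →
    ∀ (u0 : FF (M' * P.p)) (u : FF (4 * M' * P.p)) (f : FFb A (4 * M')),
      u0 ≠ 0 → (∀ Q : Place Kb (FF (M' * P.p)), (P.p : ℤ) ∣ Q.ord u0) →
      (∀ (ℓ : ℕ) [NeZero ℓ], ℓ.Prime → W.IsGoodPrimeFor ℓ →
        IsEigenFn M' P.p ℓ (W.apOfModel ℓ) u0) →
      IsPull4 M' P.p u0 u →
      IsRed1 A (4 * M') P.p u f → DvdFin A (4 * M') P.p f →
      ¬ IsPthPow P.p (f : LaurentSeries (kA A)) →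
      ∃ w : ℕ → kA A, Fermat.Agent.T8.helper47.IsRedCusp M' (kA A) w ∧ (∃ m, w m ≠ 0) ∧
        ∀ ℓ ∈ Fermat.Agent.T8.helper13.goodPrimes W,
          Fermat.Agent.T8.helper47.IsFormalEigen ((ℓ : Nat.Primes) : ℕ)
            (Fermat.Agent.T8.helper13.apSeq W ℓ) w

section Mirror

variable {M' p : ℕ} [NeZero M'] [NeZero p]

/-- `W_p ∘ β₄ = β₄ ∘ W_p`, at the levels of the chain -/
theorem atkinLehner_betaTo_four (hp : p.Prime) (hpM : ¬ p ∣ M') (hpN : ¬ p ∣ 4 * M')
    (y : FF (M' * p)) :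
    atkinLehner (4 * M') p hp hpN (betaTo (M' * p) 4 (4 * M' * p) (level_four M' p) y)
      = betaTo (M' * p) 4 (4 * M' * p) (level_four M' p) (atkinLehner M' p hp hpM y) := by
  have key : ∀ (B : ℕ) [NeZero B] (hB : M' * 4 = B) (hpB : ¬ p ∣ B)
      (h' : M' * p * 4 = B * p) (y : FF (M' * p)),
      atkinLehner B p hp hpB (betaTo (M' * p) 4 (B * p) h' y)
        = betaTo (M' * p) 4 (B * p) h' (atkinLehner M' p hp hpM y) := by
    intro B _ hB
    subst hB
    intro hpB h' y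
    have hp4 : ¬ p ∣ 4 := fun h => hpB (Dvd.dvd.mul_left h M')
    exact Fermat.Agent.T8.helper67.atkinLehner_betaTo M' 4 p hp hpM hp4 hpB h' y
  exact key (4 * M') (mul_comm M' 4) hpN (level_four M' p) y

/-- the mirror of `IsPull4` -/
theorem IsPull4.al (hp : p.Prime) (hpM : ¬ p ∣ M') (hpN : ¬ p ∣ 4 * M')
    {u0 : FF (M' * p)} {u : FF (4 * M' * p)} (h : IsPull4 M' p u0 u) :
    IsPull4 M' p (atkinLehner M' p hp hpM u0) (atkinLehner (4 * M') p hp hpN u) := by
  obtain ⟨c, v, hc, hv, e⟩ := h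
  refine ⟨c, atkinLehner (4 * M') p hp hpN v, hc, (map_ne_zero _).mpr hv, ?_⟩
  rw [e, map_mul, map_mul, map_pow, AlgEquiv.commutes, atkinLehner_betaTo_four hp hpM hpN]

end Mirror

/-- **[F3-EXIT] from [CUSP-GAP] and the function-level exit.** -/
theorem f3Exit_of_exitFn (hCG : CuspGapChainStatement) (hFn : ExitFnStatement) :
    F3ExitStatement auxPull67 := by
  intro P W M' _ hc hpN A hA V0 hV0 hnew hV hVnew x hx u f₁ f₂ hk h1 d1 h2 d2 hnot
  have hpM : ¬ P.p ∣ M' := hc.not_p_dvd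
  -- the class `x0` and its Kummer function
  obtain ⟨x0, hx0, rfl⟩ := AddSubgroup.mem_map.mp hx
  obtain ⟨u0, hk0⟩ := Fermat.Agent.P3.helper94.exists_isKummerRep (hV0.tors x0 hx0)
  have hu0 : u0 ≠ 0 := hk0.1
  have hdiv0 : ∀ Q : Place Kb (FF (M' * P.p)), (P.p : ℤ) ∣ Q.ord u0 := fun Q => by
    obtain ⟨-, D, -, hD⟩ := hk0
    exact ⟨(D : Divisor Kb (FF (M' * P.p))) Q, (hD Q).symm⟩
  -- the eigen-relations
  have heig : ∀ (ℓ : ℕ) [NeZero ℓ], ℓ.Prime → W.IsGoodPrimeFor ℓ →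
      IsEigenFn M' P.p ℓ (W.apOfModel ℓ) u0 := by
    intro ℓ _ hℓ hgood
    have hℓN : ¬ ℓ ∣ M' * P.p :=
      Fermat.Agent.T8.helper56.good_not_dvd_conductorLevel P hc.cond hc.model hℓ hgood
    have hℓp : ℓ ≠ P.p :=
      Fermat.Agent.T8.helper56.good_ne_p P hc.cond (Dvd.intro_left M' rfl) hc.model hgood
    have he := hV0.eigen x0 hx0 ⟨ℓ, hℓ⟩ hgood hℓN hℓp
    have he' : heckeOperatorAlong Kb (M' * P.p) ℓ x0 = W.apOfModel ℓ • x0 := he
    exact Fermat.Agent.T8.helper54.isEigenFn_of_kummer hk0 he'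
  -- `u` is `β₄ u0` up to a constant and a `p`-th power
  have hK := Fermat.Agent.T8.helper67.isKummerRep_auxPull67 hk0
  obtain ⟨v, w, hv, hw, e⟩ := hK.unique hk
  obtain ⟨c, hc0, rfl⟩ := Fermat.Agent.T7.helper43.exists_const_of_hasTrivialDiv hw
  have hpull : IsPull4 M' P.p u0 u := by
    refine ⟨c, v, hc0, hv, ?_⟩
    rw [e]
    ring
  -- [CUSP-GAP]
  have hdivu : ∀ Q : Place Kb (FF (4 * M' * P.p)), (P.p : ℤ) ∣ Q.ord u :=
    Fermat.Agent.T8.helper81.dvd_ord_of_isKummerRep hk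
  have hCG' := hCG P M' A hA hpN
  have D1 : DvdFin A (4 * M') P.p f₁ :=
    Fermat.Agent.T8.helper81.dvdFin_of_off_cusp d1 (hCG' u f₁ hk.1 hdivu h1)
  have hWu : atkinLehner (4 * M') P.p P.pp hpN u ≠ 0 := (map_ne_zero _).mpr hk.1
  have D2 : DvdFin A (4 * M') P.p f₂ :=
    Fermat.Agent.T8.helper81.dvdFin_of_off_cusp d2
      (hCG' _ f₂ hWu (Fermat.Agent.T8.helper81.dvd_ord_equiv _ hdivu) h2)
  -- choice of the component
  have hw : ∃ w : ℕ → kA A, Fermat.Agent.T8.helper47.IsRedCusp M' (kA A) w ∧ (∃ m, w m ≠ 0) ∧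
      ∀ ℓ ∈ Fermat.Agent.T8.helper13.goodPrimes W,
        Fermat.Agent.T8.helper47.IsFormalEigen ((ℓ : Nat.Primes) : ℕ)
          (Fermat.Agent.T8.helper13.apSeq W ℓ) w := by
    by_cases hp1 : IsPthPow P.p (f₁ : LaurentSeries (kA A))
    · have hp2 : ¬ IsPthPow P.p (f₂ : LaurentSeries (kA A)) := fun h => hnot ⟨hp1, h⟩
      refine hFn P W M' hc hpN A hA (atkinLehner M' P.p P.pp hpM u0) _ f₂
        ((map_ne_zero _).mpr hu0)
        (Fermat.Agent.T8.helper81.dvd_ord_equiv _ hdiv0) ?_ (hpull.al P.pp hpM hpN) h2 D2 hp2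
      intro ℓ _ hℓ hgood
      have hℓp : ℓ ≠ P.p :=
        Fermat.Agent.T8.helper56.good_ne_p P hc.cond (Dvd.intro_left M' rfl) hc.model hgood
      have hpℓ : ¬ P.p ∣ ℓ := fun h =>
        hℓp ((Nat.prime_dvd_prime_iff_eq P.pp hℓ).mp h).symm
      exact (heig ℓ hℓ hgood).al hpℓ
    · exact hFn P W M' hc hpN A hA u0 u f₁ hu0 hdiv0 heig hpull h1 D1 hp1
  obtain ⟨w, hw1, hw2, hw3⟩ := hw
  haveI : CharP (kA A) P.p := Fermat.Agent.P2.helper93.charP_residueField P.pp hA
  exact Fermat.Agent.T8.helper13.modularRepOfLevel_of_redCusp hc (kA A) w hw1 hw2 hw3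

/-- **box (F) = [D-HECKE]** from [CUSP-GAP] and the function-level exit. -/
theorem dHecke2_of_exitFn (hCG : CuspGapChainStatement) (hFn : ExitFnStatement) :
    DHeckeStatement2 auxPull67 wallCN :=
  dHecke2_of_f3Exit auxPull67 (f3Exit_of_exitFn hCG hFn)

end Fermat.Agent.T8.helper44

end
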