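/-
T8 (row 38 via S44), box [K-RAT] (helper44): THE WEIGHT LEMMA.

`A` a valuation subring of `ℚ̄` over `p`, `ζ` a primitive `p`-th root of unity,
`G = I_K1 = {σ ∈ I_A | σ ζ = ζ}`, `U ≤ G` a subgroup with a finite left transversal `R` in `G`
(`IsTransv A ζ U R`), `L = ℚ̄^U`, `Tr x = ∑ ρ ∈ R, ρ x`.

* `IsTransv.map_apply_eq`  : `σ` permutes the conjugates `ρ x` (`x ∈ L`, `σ ∈ G`);
* `IsTransv.tr_fixed`      : `Tr x` is fixed by `G` for `x ∈ L`;
* `IsTransv.exists_pow_eq` : **(DISC)** `v(x) ^ k = v(1 - ζ) ^ m` with `1 ≤ k ≤ #R` for `x ∈ L`;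
* `IsTransv.exists_unif`   : the valuation of `L` is discrete: a uniformiser `π` of `L`;
* `IsTransv.exists_weight` : **the integral trace-one weight**: there is `d ∈ L` such that for
  every `c ∈ A ∩ L` the weighted trace `∑ ρ ∈ R, ρ (d * c)` lies in `A`, is fixed by `G` and is
  congruent to `c` modulo the maximal ideal of `A`.

The weighted trace replaces the average `(1 / #R) ∑ ρ ∈ R, ρ c`, which is not integral when
`p ∣ #R` (wild ramification).  Inputs: `T3.helper84` (`k0_disc_zeta`, `k0_res`, `k0_disc_unit`,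
`k0_zeta_val`).
-/
import Mathlib
import Fermat.Agent.T3.helper84_K0Zeta

set_option autoImplicit false
set_option linter.unusedSectionVars false
set_option linter.unusedVariables false
set_option linter.style.haveILetI false

noncomputable section

namespace Fermat.Agent.T8.helper44

open Polynomial
open scoped Pointwise

/-- the inertia group preserves `A` -/
theorem apply_mem_of_inertia {A : ValuationSubring (AlgebraicClosure ℚ)}
    {σ : AlgebraicClosure ℚ ≃ₐ[ℚ] AlgebraicClosure ℚ} (hσ : σ ∈ A.inertiaSubgroupIn ℚ)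
    {x : AlgebraicClosure ℚ} (hx : x ∈ A) : σ x ∈ A := by
  have hσD : σ ∈ A.decompositionSubgroup ℚ := by
    obtain ⟨τ, -, rfl⟩ := hσ
    exact τ.2
  have h1 : σ • A = A := hσD
  have h2 : σ • x ∈ σ • A := ValuationSubring.smul_mem_pointwise_smul σ x A hx
  rw [h1] at h2
  exact h2

/-- `R` is a finite left transversal in `G = {σ ∈ I_A | σ ζ = ζ}` of the subgroup `U ≤ G`. -/
structure IsTransv (A : ValuationSubring (AlgebraicClosure ℚ)) (ζ : AlgebraicClosure ℚ)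
    (U : Subgroup (AlgebraicClosure ℚ ≃ₐ[ℚ] AlgebraicClosure ℚ))
    (R : Finset (AlgebraicClosure ℚ ≃ₐ[ℚ] AlgebraicClosure ℚ)) : Prop where
  memR : ∀ ρ ∈ R, ρ ∈ A.inertiaSubgroupIn ℚ ∧ ρ ζ = ζ
  memU : ∀ u ∈ U, u ∈ A.inertiaSubgroupIn ℚ ∧ u ζ = ζ
  cover : ∀ σ ∈ A.inertiaSubgroupIn ℚ, σ ζ = ζ → ∃ ρ ∈ R, ρ⁻¹ * σ ∈ U
  uniq : ∀ ρ ∈ R, ∀ ρ' ∈ R, ρ⁻¹ * ρ' ∈ U → ρ = ρ'

namespace IsTransv

variable {A : ValuationSubring (AlgebraicClosure ℚ)} {ζ : AlgebraicClosure ℚ}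
  {U : Subgroup (AlgebraicClosure ℚ ≃ₐ[ℚ] AlgebraicClosure ℚ)}
  {R : Finset (AlgebraicClosure ℚ ≃ₐ[ℚ] AlgebraicClosure ℚ)}

/-- **`σ ∈ G` permutes the conjugates**: the multiset of the `σ (ρ x)` is the multiset of the
`ρ x`, for `x` fixed by `U`. -/
theorem map_apply_eq (h : IsTransv A ζ U R)
    {σ : AlgebraicClosure ℚ ≃ₐ[ℚ] AlgebraicClosure ℚ} (hσ : σ ∈ A.inertiaSubgroupIn ℚ)
    (hσζ : σ ζ = ζ) {x : AlgebraicClosure ℚ} (hx : ∀ u ∈ U, u x = x) :
    R.val.map (fun ρ => σ (ρ x)) = R.val.map (fun ρ => ρ x) := by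
  classical
  have hex : ∀ ρ ∈ R, ∃ ρ' ∈ R, ρ'⁻¹ * (σ * ρ) ∈ U := by
    intro ρ hρ
    refine h.cover (σ * ρ) (mul_mem hσ (h.memR ρ hρ).1) ?_
    rw [AlgEquiv.mul_apply, (h.memR ρ hρ).2, hσζ]
  choose! f hfR hfU using hex
  refine Multiset.map_eq_map_of_bij_of_nodup _ _ R.nodup R.nodup (fun ρ _ => f ρ)
    (fun ρ hρ => hfR ρ (Finset.mem_val.mp hρ)) ?_ ?_ ?_
  · intro ρ₁ h₁ ρ₂ h₂ e
    have h₁' := Finset.mem_val.mp h₁
    have h₂' := Finset.mem_val.mp h₂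
    apply h.uniq ρ₁ h₁' ρ₂ h₂'
    have a1 := hfU ρ₁ h₁'
    have a2 := hfU ρ₂ h₂'
    rw [e] at a1
    have : ρ₁⁻¹ * ρ₂ = ((f ρ₂)⁻¹ * (σ * ρ₁))⁻¹ * ((f ρ₂)⁻¹ * (σ * ρ₂)) := by group
    rw [this]
    exact mul_mem (inv_mem a1) a2
  · intro ρ' hρ'
    have hρ'R := Finset.mem_val.mp hρ'
    obtain ⟨ρ, hρ, hu⟩ := h.cover (σ⁻¹ * ρ')
      (mul_mem (inv_mem hσ) (h.memR ρ' hρ'R).1) (by
        rw [AlgEquiv.mul_apply, (h.memR ρ' hρ'R).2]
        have := congrArg (σ⁻¹ : AlgebraicClosure ℚ ≃ₐ[ℚ] AlgebraicClosure ℚ) hσζ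
        rw [← AlgEquiv.mul_apply, inv_mul_cancel] at this
        exact this.symm)
    refine ⟨ρ, Finset.mem_val.mpr hρ, ?_⟩
    apply h.uniq (f ρ) (hfR ρ hρ) ρ' hρ'R
    have a1 := hfU ρ hρ
    have : (f ρ)⁻¹ * ρ' = ((f ρ)⁻¹ * (σ * ρ)) * (ρ⁻¹ * (σ⁻¹ * ρ')) := by group
    rw [this]
    exact mul_mem a1 hu
  · intro ρ hρ
    have hρR := Finset.mem_val.mp hρ
    have a1 := hx _ (hfU ρ hρR)
    rw [AlgEquiv.mul_apply, AlgEquiv.mul_apply] at a1
    have := congrArg (f ρ) a1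
    rw [← AlgEquiv.mul_apply (f ρ) (f ρ)⁻¹, mul_inv_cancel] at this
    exact this

/-- the trace `∑ ρ ∈ R, ρ x` of an element fixed by `U` is fixed by `G` -/
theorem tr_fixed (h : IsTransv A ζ U R)
    {σ : AlgebraicClosure ℚ ≃ₐ[ℚ] AlgebraicClosure ℚ} (hσ : σ ∈ A.inertiaSubgroupIn ℚ)
    (hσζ : σ ζ = ζ) {x : AlgebraicClosure ℚ} (hx : ∀ u ∈ U, u x = x) :
    σ (∑ ρ ∈ R, ρ x) = ∑ ρ ∈ R, ρ x := by
  rw [map_sum]
  have := congrArg Multiset.sum (h.map_apply_eq hσ hσζ hx)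
  exact this


/-! ### Discreteness of the valuation on `L = ℚ̄^U` -/

section Disc

variable {p : ℕ} (hp : p.Prime) (hA : A.LiesOverPrime p) (hζ : IsPrimitiveRoot ζ p)

/-- the polynomial of the conjugates of `x` -/
def conjPoly (R : Finset (AlgebraicClosure ℚ ≃ₐ[ℚ] AlgebraicClosure ℚ))
    (x : AlgebraicClosure ℚ) : (AlgebraicClosure ℚ)[X] :=
  ∏ ρ ∈ R, (X - C (ρ x))

theorem conjPoly_monic (x : AlgebraicClosure ℚ) : (conjPoly R x).Monic :=
  monic_prod_of_monic _ _ fun ρ _ => monic_X_sub_C _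

theorem conjPoly_natDegree (x : AlgebraicClosure ℚ) : (conjPoly R x).natDegree = R.card := by
  rw [conjPoly, natDegree_prod_of_monic _ _ fun ρ _ => monic_X_sub_C _]
  simp

theorem conjPoly_map (h : IsTransv A ζ U R)
    {σ : AlgebraicClosure ℚ ≃ₐ[ℚ] AlgebraicClosure ℚ} (hσ : σ ∈ A.inertiaSubgroupIn ℚ)
    (hσζ : σ ζ = ζ) {x : AlgebraicClosure ℚ} (hx : ∀ u ∈ U, u x = x) :
    (conjPoly R x).map (σ : AlgebraicClosure ℚ →+* AlgebraicClosure ℚ) = conjPoly R x := by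
  rw [conjPoly, Polynomial.map_prod]
  have e1 : ∀ ρ ∈ R, (X - C (ρ x)).map (σ : AlgebraicClosure ℚ →+* AlgebraicClosure ℚ)
      = X - C (σ (ρ x)) := by
    intro ρ _
    rw [Polynomial.map_sub, Polynomial.map_X, Polynomial.map_C]
    rfl
  rw [Finset.prod_congr rfl e1]
  have e2 := congrArg (fun m : Multiset (AlgebraicClosure ℚ) =>
    (m.map (fun y => (X - C y : (AlgebraicClosure ℚ)[X]))).prod) (h.map_apply_eq hσ hσζ hx)
  simp only [Multiset.map_map, Function.comp_def] at e2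
  exact e2

theorem conjPoly_eval (h : IsTransv A ζ U R) {x : AlgebraicClosure ℚ}
    (hx : ∀ u ∈ U, u x = x) : (conjPoly R x).eval x = 0 := by
  obtain ⟨ρ₀, hρ₀, hu⟩ := h.cover 1 (one_mem _) rfl
  rw [mul_one] at hu
  have e : ρ₀ x = x := by
    have h1 := hx _ hu
    have h2 := congrArg ρ₀ h1
    rw [← AlgEquiv.mul_apply, mul_inv_cancel] at h2
    exact h2.symm
  rw [conjPoly, eval_prod]
  refine Finset.prod_eq_zero hρ₀ ?_
  rw [eval_sub, eval_X, eval_C, e, sub_self]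

include hp hA hζ in
/-- **(DISC)**: for `x ≠ 0` in `L = ℚ̄^U` some power `v(x) ^ k`, `1 ≤ k ≤ #R`, is a power of
`v(1 - ζ)`. -/
theorem exists_pow_eq (h : IsTransv A ζ U R) {x : AlgebraicClosure ℚ} (hx0 : x ≠ 0)
    (hx : ∀ u ∈ U, u x = x) :
    ∃ (k : ℕ) (m : ℤ), 1 ≤ k ∧ k ≤ R.card ∧
      A.valuation x ^ k = A.valuation (1 - ζ) ^ m := by
  classical
  set Q := conjPoly R x with hQ
  set n := R.card with hn
  have hdeg : Q.natDegree = n := conjPoly_natDegree x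
  have hmon : Q.Monic := conjPoly_monic x
  have hfixc : ∀ i, ∀ σ ∈ A.inertiaSubgroupIn ℚ, σ ζ = ζ → σ (Q.coeff i) = Q.coeff i := by
    intro i σ hσ hσζ
    have := congrArg (fun P : (AlgebraicClosure ℚ)[X] => P.coeff i) (conjPoly_map h hσ hσζ hx)
    simp only [coeff_map] at this
    exact this
  set f : ℕ → AlgebraicClosure ℚ := fun i => Q.coeff i * x ^ i with hf
  have hsum : ∑ i ∈ Finset.range (n + 1), f i = 0 := by
    have := conjPoly_eval h hx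
    rw [← hQ, eval_eq_sum_range, hdeg] at this
    exact this
  have hfn : f n ≠ 0 := by
    have : Q.coeff n = 1 := by
      rw [← hdeg]
      exact hmon.coeff_natDegree
    simp only [hf, this, one_mul]
    exact pow_ne_zero _ hx0
  have hnd : ¬ (∀ i ∈ Finset.range (n + 1), ∀ j ∈ Finset.range (n + 1), i ≠ j → f i ≠ 0 →
      f j ≠ 0 → A.valuation (f i) ≠ A.valuation (f j)) := by
    intro hdist
    obtain ⟨i, -, hi0, hi⟩ := Fermat.Agent.T3.helper84.k0_val_sum_of_distinct A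
      (Finset.range (n + 1)) f ⟨n, Finset.mem_range.mpr (Nat.lt_succ_self n), hfn⟩ hdist
    rw [hsum, map_zero] at hi
    exact hi0 ((Valuation.zero_iff _).mp hi.symm)
  push Not at hnd
  obtain ⟨i, hi, j, hj, hij, hfi, hfj, hv⟩ := hnd
  have hvx0 : A.valuation x ≠ 0 := (Valuation.ne_zero_iff _).mpr hx0
  -- the key computation for `i < j`
  have key : ∀ i j : ℕ, i < j → j < n + 1 → f i ≠ 0 → f j ≠ 0 →
      A.valuation (f i) = A.valuation (f j) →
      ∃ (k : ℕ) (m : ℤ), 1 ≤ k ∧ k ≤ n ∧ A.valuation x ^ k = A.valuation (1 - ζ) ^ m := by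
    intro i j hij hj hfi hfj hv
    have hqi : Q.coeff i ≠ 0 := fun h0 => hfi (by simp only [hf, h0, zero_mul])
    have hqj : Q.coeff j ≠ 0 := fun h0 => hfj (by simp only [hf, h0, zero_mul])
    obtain ⟨a, ha⟩ := Fermat.Agent.T3.helper84.k0_disc_zeta hp A hA hζ hqi (hfixc i)
    obtain ⟨b, hb⟩ := Fermat.Agent.T3.helper84.k0_disc_zeta hp A hA hζ hqj (hfixc j)
    rw [map_zpow₀] at ha hb
    have hγ0 : A.valuation (1 - ζ) ≠ 0 := Fermat.Agent.T3.helper84.k0_zeta_val_ne_zero hp A hζ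
    simp only [hf, map_mul, map_pow, ha, hb] at hv
    refine ⟨j - i, a - b, by omega, by omega, ?_⟩
    have hji : j = (j - i) + i := by omega
    rw [hji, pow_add, ← mul_assoc] at hv
    have hv' := mul_right_cancel₀ (pow_ne_zero i hvx0) hv
    rw [zpow_sub₀ hγ0, hv', mul_comm, mul_div_assoc, div_self (zpow_ne_zero _ hγ0), mul_one]
  rcases lt_or_gt_of_ne hij with hlt | hlt
  · exact key i j hlt (Finset.mem_range.mp hj) hfi hfj hv
  · exact key j i hlt (Finset.mem_range.mp hi) hfj hfi hv.symm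

include hp hA hζ in
/-- for `x ≠ 0` in `L` the power `v(x) ^ (#R)!` is a power of `v(1 - ζ)` -/
theorem exists_pow_factorial_eq (h : IsTransv A ζ U R) {x : AlgebraicClosure ℚ} (hx0 : x ≠ 0)
    (hx : ∀ u ∈ U, u x = x) :
    ∃ m : ℤ, A.valuation x ^ R.card.factorial = A.valuation (1 - ζ) ^ m := by
  obtain ⟨k, m, hk1, hkn, e⟩ := exists_pow_eq hp hA hζ h hx0 hx
  obtain ⟨c, hc⟩ := Nat.dvd_factorial (by omega : 0 < k) hkn
  refine ⟨m * c, ?_⟩
  rw [hc, pow_mul, e, zpow_mul, zpow_natCast]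

include hp hA hζ in
/-- **the valuation of `L = ℚ̄^U` is discrete**: a uniformiser `π` of `L`. -/
theorem exists_unif (h : IsTransv A ζ U R) :
    ∃ π : AlgebraicClosure ℚ, (∀ u ∈ U, u π = π) ∧ π ≠ 0 ∧ A.valuation π < 1 ∧
      (∀ y : AlgebraicClosure ℚ, (∀ u ∈ U, u y = y) → A.valuation y < 1 →
        A.valuation y ≤ A.valuation π) ∧
      ∃ M : ℕ, 1 ≤ M ∧ A.valuation π ^ R.card.factorial = A.valuation (1 - ζ) ^ M := by
  classical
  set N := R.card.factorial with hN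
  have hN0 : N ≠ 0 := Nat.factorial_ne_zero _
  set γ := A.valuation (1 - ζ) with hγ
  have hγ0 : γ ≠ 0 := Fermat.Agent.T3.helper84.k0_zeta_val_ne_zero hp A hζ
  have hγpos : 0 < γ := zero_lt_iff.mpr hγ0
  have hγ1 : γ < 1 := Fermat.Agent.T3.helper84.k0_zeta_val_lt hp A hA hζ
  -- every element of the maximal ideal of `L` has a positive exponent
  have hexp : ∀ x : AlgebraicClosure ℚ, x ≠ 0 → (∀ u ∈ U, u x = x) → A.valuation x < 1 →
      ∃ M : ℕ, 1 ≤ M ∧ A.valuation x ^ N = γ ^ M := by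
    intro x hx0 hx hlt
    obtain ⟨m, hm⟩ := exists_pow_factorial_eq hp hA hζ h hx0 hx
    have h1 : A.valuation x ^ N < 1 := pow_lt_one₀ zero_le hlt hN0
    rw [hm] at h1
    have h2 : 0 < m := by
      have := (zpow_lt_zpow_iff_right_of_lt_one₀ hγpos hγ1 (m := m) (n := 0)).mp
        (by simpa using h1)
      exact this
    refine ⟨m.toNat, by omega, ?_⟩
    rw [hm, ← zpow_natCast, Int.toNat_of_nonneg h2.le]
  let P : ℕ → Prop := fun M => ∃ x : AlgebraicClosure ℚ, x ≠ 0 ∧ (∀ u ∈ U, u x = x) ∧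
    A.valuation x < 1 ∧ 1 ≤ M ∧ A.valuation x ^ N = γ ^ M
  have hζ1 : (1 : AlgebraicClosure ℚ) - ζ ≠ 0 := (Valuation.ne_zero_iff _).mp hγ0
  have hfixζ : ∀ u ∈ U, u (1 - ζ) = 1 - ζ := fun u hu => by
    rw [map_sub, map_one, (h.memU u hu).2]
  have hex : ∃ M, P M := by
    obtain ⟨M, hM1, hM⟩ := hexp (1 - ζ) hζ1 hfixζ hγ1
    exact ⟨M, 1 - ζ, hζ1, hfixζ, hγ1, hM1, hM⟩
  obtain ⟨π, hπ0, hπfix, hπlt, hM1, hπM⟩ := Nat.find_spec hex
  refine ⟨π, hπfix, hπ0, hπlt, ?_, Nat.find hex, hM1, hπM⟩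
  intro y hy hylt
  rcases eq_or_ne y 0 with rfl | hy0
  · rw [map_zero]
    exact zero_le
  obtain ⟨M, hMy1, hMy⟩ := hexp y hy0 hy hylt
  have hle : Nat.find hex ≤ M := Nat.find_min' hex ⟨y, hy0, hy, hylt, hMy1, hMy⟩
  have h3 : A.valuation y ^ N ≤ A.valuation π ^ N := by
    rw [hMy, hπM]
    exact pow_le_pow_of_le_one hγpos.le hγ1.le hle
  by_contra hcon
  have h4 : A.valuation π < A.valuation y := not_le.mp hcon
  have h5 : A.valuation π ^ N < A.valuation y ^ N := pow_lt_pow_left₀ h4 zero_le hN0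
  exact absurd h3 (not_le.mpr h5)

end Disc

/-! ### The trace -/

section Trace

/-- the trace `∑ ρ ∈ R, ρ x` -/
def trR (R : Finset (AlgebraicClosure ℚ ≃ₐ[ℚ] AlgebraicClosure ℚ)) (x : AlgebraicClosure ℚ) :
    AlgebraicClosure ℚ :=
  ∑ ρ ∈ R, ρ x

theorem trR_add (x y : AlgebraicClosure ℚ) : trR R (x + y) = trR R x + trR R y := by
  simp only [trR, map_add, Finset.sum_add_distrib]

theorem trR_mul_fixed (h : IsTransv A ζ U R) (x : AlgebraicClosure ℚ) {b : AlgebraicClosure ℚ}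
    (hb : ∀ σ ∈ A.inertiaSubgroupIn ℚ, σ ζ = ζ → σ b = b) :
    trR R (x * b) = trR R x * b := by
  simp only [trR, Finset.sum_mul]
  refine Finset.sum_congr rfl fun ρ hρ => ?_
  rw [map_mul, hb ρ (h.memR ρ hρ).1 (h.memR ρ hρ).2]

theorem trR_mem (h : IsTransv A ζ U R) {x : AlgebraicClosure ℚ} (hx : x ∈ A) :
    trR R x ∈ A :=
  A.toSubring.sum_mem fun ρ hρ => apply_mem_of_inertia (h.memR ρ hρ).1 hx

theorem trR_one : trR R 1 = (R.card : AlgebraicClosure ℚ) := by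
  simp only [trR, map_one, Finset.sum_const, nsmul_eq_mul, mul_one]

theorem card_ne_zero (h : IsTransv A ζ U R) : R.card ≠ 0 := by
  obtain ⟨ρ₀, hρ₀, -⟩ := h.cover 1 (one_mem _) rfl
  exact Finset.card_ne_zero_of_mem hρ₀

end Trace

/-! ### The weight -/

section Weight

variable {p : ℕ} (hp : p.Prime) (hA : A.LiesOverPrime p) (hζ : IsPrimitiveRoot ζ p)

include hp hA hζ in
/-- there is `x₀ ∈ L` whose trace is not integral although `Tr (x₀ m)` is integral for every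
`m` in the maximal ideal of `L`. -/
theorem exists_codiff (h : IsTransv A ζ U R) :
    ∃ x₀ : AlgebraicClosure ℚ, (∀ u ∈ U, u x₀ = x₀) ∧
      (∀ m : AlgebraicClosure ℚ, (∀ u ∈ U, u m = m) → A.valuation m < 1 →
        trR R (x₀ * m) ∈ A) ∧ trR R x₀ ∉ A := by
  classical
  by_contra hno
  push Not at hno
  -- integral elements of `L`
  have C1 : ∀ x : AlgebraicClosure ℚ, (∀ u ∈ U, u x = x) →
      (∀ m : AlgebraicClosure ℚ, (∀ u ∈ U, u m = m) → A.valuation m < 1 →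
        trR R (x * m) ∈ A) →
      ∀ c : AlgebraicClosure ℚ, (∀ u ∈ U, u c = c) → c ∈ A → trR R (x * c) ∈ A := by
    intro x hx hS c hc hcA
    obtain ⟨b, hbA, hbfix, hlt⟩ := Fermat.Agent.T3.helper84.k0_res hp A hA hcA
    have e : x * c = x * b + x * (c - b) := by ring
    rw [e, trR_add, trR_mul_fixed h x (fun σ hσ _ => hbfix σ hσ)]
    refine A.add_mem _ _ (A.mul_mem _ _ (hno x hx hS) hbA) (hS (c - b) ?_ hlt)
    intro u hu
    rw [map_sub, hc u hu, hbfix u (h.memU u hu).1]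
  obtain ⟨π, hπfix, hπ0, hπlt, hπmax, M, hM1, hπM⟩ := exists_unif hp hA hζ h
  have hvπ0 : A.valuation π ≠ 0 := (Valuation.ne_zero_iff _).mpr hπ0
  -- the codifferent is stable under division by `π`
  have hpow : ∀ k : ℕ, ∀ m : AlgebraicClosure ℚ, (∀ u ∈ U, u m = m) → A.valuation m < 1 →
      trR R ((π ^ k)⁻¹ * m) ∈ A := by
    intro k
    induction k with
    | zero =>
      intro m hm hlt
      rw [pow_zero, inv_one, one_mul]
      exact trR_mem h ((A.valuation_le_one_iff _).mp hlt.le)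
    | succ k ih =>
      intro m hm hlt
      have e : (π ^ (k + 1))⁻¹ * m = (π ^ k)⁻¹ * (m * π⁻¹) := by
        rw [pow_succ, mul_inv]
        ring
      rw [e]
      refine C1 ((π ^ k)⁻¹) ?_ ih (m * π⁻¹) ?_ ?_
      · intro u hu
        rw [map_inv₀, map_pow, hπfix u hu]
      · intro u hu
        rw [map_mul, map_inv₀, hm u hu, hπfix u hu]
      · rw [← A.valuation_le_one_iff, map_mul, map_inv₀]
        have h1 := hπmax m hm hlt
        calc A.valuation m * (A.valuation π)⁻¹ ≤ A.valuation π * (A.valuation π)⁻¹ := by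
              gcongr
          _ = 1 := mul_inv_cancel₀ hvπ0
  have hpowc : ∀ k : ℕ, ∀ c : AlgebraicClosure ℚ, (∀ u ∈ U, u c = c) → c ∈ A →
      trR R ((π ^ k)⁻¹ * c) ∈ A := by
    intro k c hc hcA
    refine C1 ((π ^ k)⁻¹) ?_ (hpow k) c hc hcA
    intro u hu
    rw [map_inv₀, map_pow, hπfix u hu]
  -- the contradiction: `Tr (1 / (n p)) = 1 / p`
  set n := R.card with hn
  have hn0 : (n : AlgebraicClosure ℚ) ≠ 0 := Nat.cast_ne_zero.mpr (card_ne_zero h)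
  have hp0 : ((p : ℕ) : AlgebraicClosure ℚ) ≠ 0 := Nat.cast_ne_zero.mpr hp.ne_zero
  have hvp : A.valuation ((p : ℕ) : AlgebraicClosure ℚ) < 1 := A.mem_nonunits_iff.mp hA
  have hvp0 : A.valuation ((p : ℕ) : AlgebraicClosure ℚ) ≠ 0 :=
    (Valuation.ne_zero_iff _).mpr hp0
  have hvppos : 0 < A.valuation ((p : ℕ) : AlgebraicClosure ℚ) := zero_lt_iff.mpr hvp0
  obtain ⟨a, w, hw1, -, hnw⟩ := Fermat.Agent.T3.helper84.k0_disc_unit hp A hA hn0
    (fun σ _ => map_natCast σ n)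
  have hvn : A.valuation (n : AlgebraicClosure ℚ)
      = A.valuation ((p : ℕ) : AlgebraicClosure ℚ) ^ a := by
    rw [hnw, map_mul, hw1, mul_one, map_zpow₀]
  set j : ℕ := (a + 1).toNat with hj
  set k : ℕ := R.card.factorial * (p - 1) * j with hk
  have hvπk : A.valuation π ^ k ≤ A.valuation ((p : ℕ) : AlgebraicClosure ℚ) ^ j := by
    have e2 : (A.valuation (1 - ζ) ^ M) ^ (p - 1)
        = A.valuation ((p : ℕ) : AlgebraicClosure ℚ) ^ M := by
      rw [← pow_mul, mul_comm M (p - 1), pow_mul,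
        Fermat.Agent.T3.helper84.k0_zeta_val hp A hζ]
    rw [hk, pow_mul, pow_mul, hπM, e2]
    refine pow_le_pow_left₀ zero_le ?_ j
    calc A.valuation ((p : ℕ) : AlgebraicClosure ℚ) ^ M
        ≤ A.valuation ((p : ℕ) : AlgebraicClosure ℚ) ^ 1 :=
          pow_le_pow_of_le_one zero_le hvp.le hM1
      _ = A.valuation ((p : ℕ) : AlgebraicClosure ℚ) := pow_one _
  have hvj : A.valuation ((p : ℕ) : AlgebraicClosure ℚ) ^ j
      ≤ A.valuation ((n : AlgebraicClosure ℚ) * (p : ℕ)) := by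
    rw [map_mul, hvn, ← zpow_add_one₀ hvp0, ← zpow_natCast]
    exact zpow_le_zpow_right_of_le_one₀ hvppos hvp.le (Int.self_le_toNat (a + 1))
  set c : AlgebraicClosure ℚ := π ^ k * ((n : AlgebraicClosure ℚ) * (p : ℕ))⁻¹ with hc
  have hnp0 : (n : AlgebraicClosure ℚ) * (p : ℕ) ≠ 0 := mul_ne_zero hn0 hp0
  have hcA : c ∈ A := by
    rw [← A.valuation_le_one_iff, hc, map_mul, map_inv₀, map_pow]
    calc A.valuation π ^ k * (A.valuation ((n : AlgebraicClosure ℚ) * (p : ℕ)))⁻¹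
        ≤ A.valuation ((n : AlgebraicClosure ℚ) * (p : ℕ))
            * (A.valuation ((n : AlgebraicClosure ℚ) * (p : ℕ)))⁻¹ := by
          gcongr
          exact hvπk.trans hvj
      _ = 1 := mul_inv_cancel₀ ((Valuation.ne_zero_iff _).mpr hnp0)
  have hcfix : ∀ u ∈ U, u c = c := by
    intro u hu
    rw [hc, map_mul, map_pow, hπfix u hu, map_inv₀, map_mul, map_natCast, map_natCast]
  have hbad := hpowc k c hcfix hcA
  have e1 : (π ^ k)⁻¹ * c = 1 * ((n : AlgebraicClosure ℚ) * (p : ℕ))⁻¹ := by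
    rw [hc, ← mul_assoc, inv_mul_cancel₀ (pow_ne_zero k hπ0)]
  have e2 : trR R ((π ^ k)⁻¹ * c) = ((p : ℕ) : AlgebraicClosure ℚ)⁻¹ := by
    rw [e1, trR_mul_fixed h 1 (b := ((n : AlgebraicClosure ℚ) * (p : ℕ))⁻¹)
      (fun σ _ _ => by rw [map_inv₀, map_mul, map_natCast, map_natCast]), trR_one, ← hn,
      mul_inv, ← mul_assoc, mul_inv_cancel₀ hn0, one_mul]
  rw [e2, ← A.valuation_le_one_iff, map_inv₀] at hbad
  have h1 : (1 : A.ValueGroup) < (A.valuation ((p : ℕ) : AlgebraicClosure ℚ))⁻¹ :=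
    (one_lt_inv₀ hvppos).mpr hvp
  exact absurd hbad (not_le.mpr h1)

include hp hA hζ in
/-- **THE WEIGHT LEMMA**: there is `d ∈ L = ℚ̄^U` such that for every `c ∈ A ∩ L` the weighted
trace `∑ ρ ∈ R, ρ (d * c)` lies in `A`, is fixed by `G = {σ ∈ I_A | σ ζ = ζ}`, and is congruent
to `c` modulo the maximal ideal of `A`. -/
theorem exists_weight (h : IsTransv A ζ U R) :
    ∃ d : AlgebraicClosure ℚ, (∀ u ∈ U, u d = d) ∧
      ∀ c : AlgebraicClosure ℚ, c ∈ A → (∀ u ∈ U, u c = c) →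
        (∑ ρ ∈ R, ρ (d * c)) ∈ A ∧
        (∀ σ ∈ A.inertiaSubgroupIn ℚ, σ ζ = ζ →
          σ (∑ ρ ∈ R, ρ (d * c)) = ∑ ρ ∈ R, ρ (d * c)) ∧
        A.valuation (∑ ρ ∈ R, ρ (d * c) - c) < 1 := by
  obtain ⟨x₀, hx₀, hS, hT⟩ := exists_codiff hp hA hζ h
  set t := trR R x₀ with ht
  have htfix : ∀ σ ∈ A.inertiaSubgroupIn ℚ, σ ζ = ζ → σ t = t := fun σ hσ hσζ =>
    h.tr_fixed hσ hσζ hx₀
  have ht0 : t ≠ 0 := fun h0 => hT (h0 ▸ A.zero_mem)
  have hvt : 1 < A.valuation t := by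
    by_contra hcon
    exact hT ((A.valuation_le_one_iff _).mp (not_lt.mp hcon))
  have hvt' : A.valuation t⁻¹ < 1 := by
    rw [map_inv₀]
    exact inv_lt_one_of_one_lt₀ hvt
  have htinvfix : ∀ σ ∈ A.inertiaSubgroupIn ℚ, σ ζ = ζ → σ t⁻¹ = t⁻¹ := fun σ hσ hσζ => by
    rw [map_inv₀, htfix σ hσ hσζ]
  have hdfix : ∀ u ∈ U, u (x₀ * t⁻¹) = x₀ * t⁻¹ := fun u hu => by
    rw [map_mul, hx₀ u hu, htinvfix u (h.memU u hu).1 (h.memU u hu).2]
  refine ⟨x₀ * t⁻¹, hdfix, fun c hcA hc => ?_⟩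
  obtain ⟨b, hbA, hbfix, hlt⟩ := Fermat.Agent.T3.helper84.k0_res hp A hA hcA
  have hmfix : ∀ u ∈ U, u (c - b) = c - b := fun u hu => by
    rw [map_sub, hc u hu, hbfix u (h.memU u hu).1]
  have key : trR R (x₀ * t⁻¹ * c) = b + t⁻¹ * trR R (x₀ * (c - b)) := by
    have e : x₀ * t⁻¹ * c = x₀ * b * t⁻¹ + x₀ * (c - b) * t⁻¹ := by ring
    rw [e, trR_add, trR_mul_fixed h _ htinvfix, trR_mul_fixed h _ htinvfix,
      trR_mul_fixed h x₀ (fun σ hσ _ => hbfix σ hσ), ← ht]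
    field_simp
  have hTm : trR R (x₀ * (c - b)) ∈ A := hS (c - b) hmfix hlt
  have hsmall : A.valuation (t⁻¹ * trR R (x₀ * (c - b))) < 1 := by
    rw [map_mul]
    calc A.valuation t⁻¹ * A.valuation (trR R (x₀ * (c - b)))
        ≤ A.valuation t⁻¹ * 1 := by
          gcongr
          exact (A.valuation_le_one_iff _).mpr hTm
      _ = A.valuation t⁻¹ := mul_one _
      _ < 1 := hvt'
  have hfixdc : ∀ u ∈ U, u (x₀ * t⁻¹ * c) = x₀ * t⁻¹ * c := fun u hu => by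
    rw [map_mul, hdfix u hu, hc u hu]
  refine ⟨?_, fun σ hσ hσζ => h.tr_fixed hσ hσζ hfixdc, ?_⟩
  · show trR R (x₀ * t⁻¹ * c) ∈ A
    rw [key]
    exact A.add_mem _ _ hbA ((A.valuation_le_one_iff _).mp hsmall.le)
  · show A.valuation (trR R (x₀ * t⁻¹ * c) - c) < 1
    rw [key]
    have e : b + t⁻¹ * trR R (x₀ * (c - b)) - c = -(c - b) + t⁻¹ * trR R (x₀ * (c - b)) := by
      ring
    rw [e]
    refine lt_of_le_of_lt (Valuation.map_add _ _ _) (max_lt ?_ hsmall)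
    rw [Valuation.map_neg]
    exact hlt

end Weight

end IsTransv

end Fermat.Agent.T8.helper44

end
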