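import Mathlib
import Fermat.Agent.T3.helper90_CuspQCoverB
import Fermat.Agent.T3.helper23_DiscEx3c
import Fermat.Agent.T3.helper5_CuspQTab

/-!
# T8 (row 38), [CUSP-GAP] route Q, leaf (L2) [CUSP-EMB] (helper47)

`N` a level, `p` a prime not dividing `N`, `A` a valuation ring of `ℚ̄`.  For every coset `i` of
`Γ₀(N)` there is an embedding `E : FF (N p) →ₐ[ℚ̄] ℚ̄((T))` (`T = q^(1/N)`: the expansion at the
cusp of `X₀(N p)` over `(i, ∞_p)`) with

* (a) every `E y` is a ratio of `A ∩ K₀`-integral power series (`IsRatioEv A (E y)`);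
* (b) `E (α y) = EC N i y` for `y` of level `N` (`α = heckeAlphaBar`, the inclusion);
* (c) `E (β j) = j (T ^ (N p))` (`β = heckeBetaBar`, `j_p = j (q ^ p)`).

Construction: `I = cosetOf (N p) g` with `cosetOf N g = i` and `p ∣ g 1 0`
(`helper87.exists_sel`); the expansion `sigmaFF (N p) I` in `q^(1/(N p))` has its exponents
divisible by `p` (`helper5.dloc_cosetOf`), and `E` is its un-substitution
(`helper90.unsub p`): `qExpand p (E y) = sigmaFF (N p) I y`.  The tables are
`helper90.raw_table` with `r = 1` and `r = p`.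
-/

set_option autoImplicit false
set_option synthInstance.maxHeartbeats 400000
set_option maxHeartbeats 1000000
set_option linter.unusedSectionVars false
set_option linter.unusedVariables false
set_option linter.style.haveILetI false
set_option linter.style.longLine false

noncomputable section

open HahnSeries ModularCurve
open Fermat.Agent.S18.helper19
open Fermat.Agent.S28 (IX rep)
open Fermat.Agent.P2.helper28
open Fermat.Agent.P2.helper94 (rot rot_one)
open Fermat.Agent.P2.helper73 (IsRatioEv)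
open Fermat.Agent.T3.helper23 (sigmaFF sigmaFF_apply toFullC coe_toFullC sigmaFF_jElt
  sigmaFF_algebraMap isRatioEv_sigmaFF)
open Fermat.Agent.T3.helper90 (cosetOf cosetOf_rep uK iotaK_uK unsub qExpand_unsub)
open Fermat.Agent.T3.helper87
open Fermat.Agent.S24.helper37 (mk2 det_eq_one' mem_Gamma0_iff_dvd mk2_zero_zero mk2_one_zero)
open scoped MatrixGroups
open CongruenceSubgroup

namespace Fermat.Agent.T8.helper47

section Table

variable (N p : ℕ) [NeZero N] [NeZero p]

/-- the trivial root of unity -/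
theorem iotaK_one_eq_xi (D : ℕ) (hD : 0 < D) :
    iotaK (((1 : Kbˣ) : Kbˣ) : Kb) = Fermat.Agent.S23.helper74.xi D 0 := by
  rw [← Fermat.Agent.T3.helper5.uK_zero D hD]
  exact iotaK_uK D hD 0

/-- **table for `α`**: the expansion at a coset of level `N p` of a function of level `N`. -/
theorem sigmaFF_alpha (g : SL(2, ℤ)) (y : FF N) :
    sigmaFF (N * p) (cosetOf (N * p) g) (heckeAlphaBar Kb N p y) =
      qExpand Kb p (sigmaFF N (cosetOf N g) y) := by
  have hN : 0 < N := Nat.pos_of_ne_zero (NeZero.ne N)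
  rw [sigmaFF_apply, sigmaFF_apply]
  have h := Fermat.Agent.T3.helper90.raw_table (N := N) (M := N * p) (r := 1) g g 1 1 p 0
    one_pos one_pos (by push_cast; ring) (by push_cast; ring) (by push_cast; ring)
    (by push_cast; ring) (by ring)
    (fun d₀ hd₀ => by rw [mul_one]; exact Dvd.dvd.mul_right hd₀ p)
    1 (iotaK_one_eq_xi (1 * N) (by omega))
    (toFullC N y) (toFullC (N * p) (heckeAlphaBar Kb N p y))
    (by rw [coe_toFullC, coe_toFullC, coe_heckeAlphaBar, qExpand_one_apply])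
  rw [h, rot_one]

/-- the Hermite partner of a matrix with `p ∣ g 1 0` for the scaling by `p` -/
def betaPartner (g : SL(2, ℤ)) : SL(2, ℤ) :=
  if h : (p : ℤ) ∣ g 1 0 then
    mk2 (g 0 0) ((p : ℤ) * g 0 1) (g 1 0 / (p : ℤ)) (g 1 1) (by
      have hdet := Fermat.Agent.S24.helper37.det_eq_one' g
      have e : g 1 0 / (p : ℤ) * (p : ℤ) = g 1 0 := Int.ediv_mul_cancel h
      linear_combination hdet - g 0 1 * e)
  else 1

/-- **table for `β`**: the expansion of `j (q ^ p)` at a coset of level `N p` with `p ∣ g 1 0`. -/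
theorem sigmaFF_beta_j (g : SL(2, ℤ)) (hg : (p : ℤ) ∣ g 1 0) :
    sigmaFF (N * p) (cosetOf (N * p) g) (heckeBetaBar Kb N p (Fermat.Agent.P2.helper29.jElt N)) =
      qExpand Kb (p * p * N) (jqModC Kb) := by
  have hN : 0 < N := Nat.pos_of_ne_zero (NeZero.ne N)
  have hp0 : 0 < p := Nat.pos_of_ne_zero (NeZero.ne p)
  haveI : NeZero (p * p) := ⟨(Nat.mul_pos hp0 hp0).ne'⟩
  have e : g 1 0 / (p : ℤ) * (p : ℤ) = g 1 0 := Int.ediv_mul_cancel hg
  have hd : betaPartner p g = mk2 (g 0 0) ((p : ℤ) * g 0 1) (g 1 0 / (p : ℤ)) (g 1 1) (by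
      have hdet := Fermat.Agent.S24.helper37.det_eq_one' g
      linear_combination hdet - g 0 1 * e) := by
    unfold betaPartner
    rw [dif_pos hg]
  rw [sigmaFF_apply]
  have h := Fermat.Agent.T3.helper90.raw_table (N := N) (M := N * p) (r := p) g (betaPartner p g)
    p 1 (p * p) 0 hp0 one_pos
    (by rw [hd, mk2_zero_zero]; ring)
    (by rw [hd, mk2_zero_zero, mk2_zero_one]; push_cast; ring)
    (by rw [hd, mk2_one_zero]; exact e.symm)
    (by rw [hd, mk2_one_zero, mk2_one_one]; push_cast; ring)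
    (by ring)
    (fun d₀ hd₀ => Nat.mul_dvd_mul_right hd₀ p)
    1 (iotaK_one_eq_xi (1 * N) (by omega))
    (toFullC N (Fermat.Agent.P2.helper29.jElt N))
    (toFullC (N * p) (heckeBetaBar Kb N p (Fermat.Agent.P2.helper29.jElt N)))
    (by rw [coe_toFullC, coe_toFullC, coe_heckeBetaBar])
  rw [h, rot_one, ← sigmaFF_apply, sigmaFF_jElt, jqNModC, qExpand_qExpand]

end Table

/-! ### the coset and the embedding -/

section Emb

variable (N p : ℕ) [NeZero N] [NeZero p]

/-- every coset of level `N` has a representative with `p ∣ g 1 0` -/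
theorem exists_rep_dvd (hp : p.Prime) (hpN : ¬ p ∣ N) (i : IX N) :
    ∃ g : SL(2, ℤ), cosetOf N g = i ∧ (p : ℤ) ∣ g 1 0 := by
  obtain ⟨h, hh, hdiv⟩ := exists_sel N p hp hpN (rep N i) 0 1
    (Or.inr (by
      intro h1
      have := Int.eq_one_of_dvd_one (by positivity) h1
      have h2 := hp.one_lt
      omega))
  refine ⟨h * rep N i, ?_, ?_⟩
  · rw [cosetOf_mul_of_mem N _ _ hh, cosetOf_rep]
  · have e : (h * rep N i) 1 0 * 1 - (h * rep N i) 1 1 * 0 = (h * rep N i) 1 0 := by ring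
    rw [e] at hdiv
    exact (Dvd.intro _ rfl : (p : ℤ) ∣ (p : ℤ) * (p : ℤ)).trans hdiv

/-- at a coset with `p ∣ g 1 0` the exponent of the local parameter is divisible by `p` -/
theorem dvd_dloc_of_dvd (g : SL(2, ℤ)) (hg : (p : ℤ) ∣ g 1 0) :
    p ∣ dloc (N * p) (cosetOf (N * p) g) := by
  rw [Fermat.Agent.T3.helper5.dloc_cosetOf]
  refine Nat.dvd_gcd (Dvd.intro_left N rfl) ?_
  have h1 : p ∣ (g 1 0).natAbs := Int.natCast_dvd.mp hg
  exact h1.trans (Dvd.intro_left _ (sq _).symm)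

/-- the exponents of the expansion at such a coset are divisible by `p` -/
theorem coeff_sigmaFF_of_not_dvd_p (g : SL(2, ℤ)) (hg : (p : ℤ) ∣ g 1 0) (y : FF (N * p))
    (n : ℤ) (hn : ¬ (p : ℤ) ∣ n) : (sigmaFF (N * p) (cosetOf (N * p) g) y).coeff n = 0 := by
  apply coeff_sigmaFF_of_not_dvd (N * p) (cosetOf (N * p) g) y n
  intro h
  apply hn
  exact (Int.natCast_dvd_natCast.mpr (dvd_dloc_of_dvd N p g hg)).trans h

/-- **the embedding at the coset of `g`** (`p ∣ g 1 0`), as a ring homomorphism: the expansion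
in `T = q^(1/N)` -/
def cuspEmbRing (g : SL(2, ℤ)) (hg : (p : ℤ) ∣ g 1 0) : FF (N * p) →+* LaurentSeries Kb :=
  unsub p (sigmaFF (N * p) (cosetOf (N * p) g)) (coeff_sigmaFF_of_not_dvd_p N p g hg)

theorem qExpand_cuspEmbRing (g : SL(2, ℤ)) (hg : (p : ℤ) ∣ g 1 0) (y : FF (N * p)) :
    qExpand Kb p (cuspEmbRing N p g hg y) = sigmaFF (N * p) (cosetOf (N * p) g) y :=
  qExpand_unsub p _ _ y

theorem cuspEmbRing_algebraMap (g : SL(2, ℤ)) (hg : (p : ℤ) ∣ g 1 0) (c : Kb) :
    cuspEmbRing N p g hg (algebraMap Kb (FF (N * p)) c) = algebraMap Kb (LaurentSeries Kb) c := by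
  apply Fermat.Agent.P2.helper94.qExpand_injective p
  rw [qExpand_cuspEmbRing, sigmaFF_algebraMap,
    Fermat.Agent.S28.helper93.algebraMap_laurent_eq_C, qExpand_C]

/-- **the embedding at the coset of `g`** (`p ∣ g 1 0`) -/
def cuspEmb (g : SL(2, ℤ)) (hg : (p : ℤ) ∣ g 1 0) : FF (N * p) →ₐ[Kb] LaurentSeries Kb :=
  { cuspEmbRing N p g hg with
    commutes' := cuspEmbRing_algebraMap N p g hg }

theorem cuspEmb_apply (g : SL(2, ℤ)) (hg : (p : ℤ) ∣ g 1 0) (y : FF (N * p)) :
    cuspEmb N p g hg y = cuspEmbRing N p g hg y := rfl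

theorem qExpand_cuspEmb (g : SL(2, ℤ)) (hg : (p : ℤ) ∣ g 1 0) (y : FF (N * p)) :
    qExpand Kb p (cuspEmb N p g hg y) = sigmaFF (N * p) (cosetOf (N * p) g) y :=
  qExpand_cuspEmbRing N p g hg y

/-- (a) the expansions are ratios of integral power series -/
theorem isRatioEv_cuspEmb (A : ValuationSubring Kb) (g : SL(2, ℤ)) (hg : (p : ℤ) ∣ g 1 0)
    (y : FF (N * p)) : IsRatioEv A (cuspEmb N p g hg y) := by
  apply Fermat.Agent.T3.helper23.isRatioEv_of_qExpand p A
  rw [qExpand_cuspEmb]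
  exact isRatioEv_sigmaFF (N * p) A _ y

/-- (b) on the functions of level `N` the embedding is the expansion at the coset of `g` -/
theorem cuspEmb_alpha (g : SL(2, ℤ)) (hg : (p : ℤ) ∣ g 1 0) (y : FF N) :
    cuspEmb N p g hg (heckeAlphaBar Kb N p y) = sigmaFF N (cosetOf N g) y := by
  apply Fermat.Agent.P2.helper94.qExpand_injective p
  rw [qExpand_cuspEmb, sigmaFF_alpha]

/-- (c) `j (q ^ p)` expands as `j (T ^ (N p))` -/
theorem cuspEmb_beta_j (g : SL(2, ℤ)) (hg : (p : ℤ) ∣ g 1 0) :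
    cuspEmb N p g hg (heckeBetaBar Kb N p (Fermat.Agent.P2.helper29.jElt N)) =
      qExpand Kb (N * p) (jqModC Kb) := by
  apply Fermat.Agent.P2.helper94.qExpand_injective p
  rw [qExpand_cuspEmb, sigmaFF_beta_j N p g hg, qExpand_qExpand]
  exact qExpand_congr (by ring) _

/-- **(L2) [CUSP-EMB]**, the contract of finding #3770. -/
def CuspEmbStatement (A : ValuationSubring Kb) : Prop :=
  ∀ i : Fermat.Agent.T3.helper81.IXN N, ∃ E : FF (N * p) →ₐ[Kb] LaurentSeries Kb,
    (∀ y, IsRatioEv A (E y)) ∧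
    (∀ y : FF N, E (heckeAlphaBar Kb N p y) = Fermat.Agent.T3.helper81.EC N i y) ∧
    E (heckeBetaBar Kb N p (Fermat.Agent.P2.helper29.jElt N)) = qExpand Kb (N * p) (jqModC Kb)

/-- **(L2) [CUSP-EMB]** -/
theorem cuspEmbStatement (hp : p.Prime) (hpN : ¬ p ∣ N) (A : ValuationSubring Kb) :
    CuspEmbStatement N p A := by
  intro i
  obtain ⟨g, hgi, hg⟩ := exists_rep_dvd N p hp hpN i
  refine ⟨cuspEmb N p g hg, isRatioEv_cuspEmb N p A g hg, fun y => ?_, cuspEmb_beta_j N p g hg⟩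
  rw [cuspEmb_alpha, Fermat.Agent.T3.helper90.EC_eq_sigmaFF, hgi]

/-- the same with the coset of level `N p` made explicit: `E` is the expansion of level `N p` at
`I` read in `T = q^(1/N)`. -/
theorem exists_cuspEmb (hp : p.Prime) (hpN : ¬ p ∣ N) (A : ValuationSubring Kb)
    (i : Fermat.Agent.T3.helper81.IXN N) :
    ∃ (I : Fermat.Agent.T3.helper81.IXN (N * p)) (E : FF (N * p) →ₐ[Kb] LaurentSeries Kb),
      (∀ y, IsRatioEv A (E y)) ∧
      (∀ y : FF N, E (heckeAlphaBar Kb N p y) = Fermat.Agent.T3.helper81.EC N i y) ∧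
      E (heckeBetaBar Kb N p (Fermat.Agent.P2.helper29.jElt N)) =
        qExpand Kb (N * p) (jqModC Kb) ∧
      (∀ y, qExpand Kb p (E y) = Fermat.Agent.T3.helper81.EC (N * p) I y) ∧
      Function.Injective E := by
  obtain ⟨g, hgi, hg⟩ := exists_rep_dvd N p hp hpN i
  refine ⟨cosetOf (N * p) g, cuspEmb N p g hg, isRatioEv_cuspEmb N p A g hg, fun y => ?_,
    cuspEmb_beta_j N p g hg, fun y => ?_, (cuspEmb N p g hg).toRingHom.injective⟩
  · rw [cuspEmb_alpha, Fermat.Agent.T3.helper90.EC_eq_sigmaFF, hgi]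
  · rw [qExpand_cuspEmb, Fermat.Agent.T3.helper90.EC_eq_sigmaFF]

end Emb

end Fermat.Agent.T8.helper47

end
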