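import Fermat.Agent.T8.helper48_CuspA
import Fermat.Agent.T3.helper20_GaussAll
import Fermat.Agent.T8.helper23_ClearPoles
import Fermat.Agent.T3.helper36_RhoQStab

/-!
# T8 = row 38 via S44, box [CUSP-GAP], leaf (L3) [CUSP-VAL] (helper81): the valuation core

Level `N p` (`p` prime, `p ∤ N`), `A` a valuation subring of `ℚ̄` over `p`, `W = atkinLehner N p`.
`E : FF (N p) →+* ℚ̄((T))` ANY expansion map (identity on the constants, values = ratios of integral
power series over number fields, `E j` `A`-integral with a pole after reduction), e.g. the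
expansion at a cusp, or `f ↦` expansion at `∞` of `θ f` for an automorphism `θ`.

If the test function `t = j - (W j) ^ p` (`red₂ t = 0`, Frobenius) has a NONZERO reduction at `E`,
then the Gauss valuation of `E` is the first Gauss valuation `w₁`:

* `rhoQ_emb_of_reg`   : regular where `j` is finite + Gauss-integral at `∞` and at `W ∞`
                        ⟹ Gauss-integral at `E` (integrality over `A[j]`);
* `rhoQ_emb_zero_of_reg` : the same with reduction `0` at `∞` ⟹ reduction `0` at `E`;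
* `rhoQ_emb_zero`     : **for EVERY `h ∈ FF (N p)`** (no regularity, no inertia):
                        `RhoQ A h 0 ⟹ RhoQ A (E h) 0`;
* `cuspVal_core`      : **(L3)**: if moreover `E` is compatible with a ring homomorphism
                        `Eb : FFb A N →+* k((T))` on enough functions (`hold`: every `f ∈ FFb A N`
                        is a quotient `fa / fb` of reductions of functions `a, b` with
                        `red (E a) = Eb fa`, `red (E b) = Eb fb`), then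
                        `RhoQ A g f ⟹ RhoQ A (E g) (Eb f)` for every `g ∈ FF (N p)`.
-/

set_option autoImplicit false
set_option synthInstance.maxHeartbeats 400000
set_option maxHeartbeats 1000000
set_option linter.unusedSectionVars false
set_option linter.unusedVariables false
set_option linter.style.haveILetI false
set_option linter.style.longLine false

noncomputable section

open HahnSeries IntermediateField AlgebraicCurve ModularCurve
open Fermat.Agent.S18.helper19 Fermat.Agent.P2.helper29 Fermat.Agent.T2.helper36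

namespace Fermat.Agent.T8.helper81

open Fermat.Agent.T3.helper36 (RhoQ GaussIs)
open Fermat.Agent.T3.helper98 (IsRegJ)
open Fermat.Agent.P2.helper23 (capSubring)
open Fermat.Agent.P2.helper73 (IsRatioEv)

/-! ### The value group is archimedean -/

section Arch

variable (A : ValuationSubring Kb)

/-- **the valuation of `ℚ̄` is of rank one**: if `v(x) < 1` then `x ^ m y ∈ A` for some `m`. -/
theorem exists_pow_mul_mem {x y : Kb} (hx0 : x ≠ 0) (hx : A.valuation x < 1) (hy : y ≠ 0) :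
    ∃ m : ℕ, x ^ m * y ∈ A := by
  classical
  by_contra hcon
  simp only [not_exists] at hcon
  set K₀ : IntermediateField ℚ Kb := IntermediateField.adjoin ℚ ({x, y} : Set Kb) with hK₀
  have halg : Algebra.IsAlgebraic ℚ (AlgebraicClosure ℚ) := AlgebraicClosure.isAlgebraic ℚ
  haveI : FiniteDimensional ℚ K₀ :=
    IntermediateField.finiteDimensional_adjoin fun z _ => (halg.isAlgebraic z).isIntegral
  haveI := Fermat.Agent.P2.helper89.isPrincipalIdealRing_capSubring A K₀
  haveI := Fermat.Agent.T2.helper45.isLocalRing_capSubring A K₀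
  have hxK : x ∈ K₀ := IntermediateField.subset_adjoin ℚ _ (by simp)
  have hyK : y ∈ K₀ := IntermediateField.subset_adjoin ℚ _ (by simp)
  have hxA : x ∈ A := (A.valuation_le_one_iff x).1 hx.le
  have hxR : x ∈ capSubring A K₀ := Fermat.Agent.P2.helper23.mem_capSubring.2 ⟨hxA, hxK⟩
  -- `w = y⁻¹`
  have hwA : ∀ m : ℕ, (x ^ m * y)⁻¹ ∈ A := fun m =>
    (A.mem_or_inv_mem (x ^ m * y)).resolve_left (hcon m)
  have hwR : ∀ m : ℕ, (x ^ m * y)⁻¹ ∈ capSubring A K₀ := fun m =>
    Fermat.Agent.P2.helper23.mem_capSubring.2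
      ⟨hwA m, K₀.inv_mem (K₀.mul_mem (pow_mem hxK m) hyK)⟩
  set X : capSubring A K₀ := ⟨x, hxR⟩ with hX
  set w : capSubring A K₀ := ⟨(x ^ 0 * y)⁻¹, hwR 0⟩ with hw
  have hXnu : ¬ IsUnit X := by
    intro hu
    obtain ⟨u, hu⟩ := hu
    have h1 : x * ((u⁻¹ : (capSubring A K₀)ˣ) : capSubring A K₀) = 1 := by
      have := congrArg (fun z : capSubring A K₀ => (z : Kb)) (u.mul_inv)
      simp only [Subring.coe_mul, Subring.coe_one] at this
      rw [← this, hu]
    have h2 : x⁻¹ ∈ A := by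
      have h3 : x⁻¹ = (((u⁻¹ : (capSubring A K₀)ˣ) : capSubring A K₀) : Kb) := by
        rw [eq_comm, ← mul_right_inj' hx0, h1, mul_inv_cancel₀ hx0]
      rw [h3]
      exact (Fermat.Agent.P2.helper23.mem_capSubring.1
        ((u⁻¹ : (capSubring A K₀)ˣ) : capSubring A K₀).2).1
    have h4 : A.valuation x⁻¹ ≤ 1 := (A.valuation_le_one_iff _).2 h2
    rw [map_inv₀] at h4
    have h5 : (1 : A.ValueGroup) ≤ A.valuation x := by
      by_contra h6
      rw [not_le] at h6
      have h7 : A.valuation x ≠ 0 := (Valuation.ne_zero_iff _).2 hx0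
      exact absurd h4 (not_le.mpr (by
        rw [one_lt_inv₀ (zero_lt_iff.mpr h7)]
        exact h6))
    exact absurd hx (not_lt.mpr h5)
  have hI : Ideal.span ({X} : Set (capSubring A K₀)) ≠ ⊤ := by
    rw [Ne, Ideal.span_singleton_eq_top]
    exact hXnu
  have hkrull := Ideal.iInf_pow_eq_bot_of_isLocalRing (Ideal.span ({X} : Set (capSubring A K₀))) hI
  have hwmem : w ∈ ⨅ i : ℕ, Ideal.span ({X} : Set (capSubring A K₀)) ^ i := by
    rw [Ideal.mem_iInf]
    intro m
    rw [Ideal.span_singleton_pow, Ideal.mem_span_singleton]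
    refine ⟨⟨(x ^ m * y)⁻¹, hwR m⟩, Subtype.ext ?_⟩
    simp only [Subring.coe_mul, Subring.coe_pow, hw, hX, pow_zero, one_mul]
    rw [mul_inv, ← mul_assoc, mul_inv_cancel₀ (pow_ne_zero m hx0), one_mul]
  rw [hkrull, Ideal.mem_bot] at hwmem
  have h0 := congrArg (fun z : capSubring A K₀ => (z : Kb)) hwmem
  simp only [hw, pow_zero, one_mul, Subring.coe_zero, inv_eq_zero] at h0
  exact hy h0

end Arch

/-! ### The test function -/

section Test

variable {N p : ℕ} [NeZero N] [NeZero p] {A : ValuationSubring Kb}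
  (hp : p.Prime) (hpN : ¬ p ∣ N)

/-- the test function `t = j - (W j) ^ p` -/
def tTest (N p : ℕ) [NeZero N] [NeZero p] (hp : p.Prime) (hpN : ¬ p ∣ N) : FF (N * p) :=
  Fermat.Agent.S24.xJ (N * p) - (atkinLehner N p hp hpN (Fermat.Agent.S24.xJ (N * p))) ^ p

theorem tTest_eq_yZero (A : ValuationSubring Kb) :
    tTest N p hp hpN
      = ((Fermat.Agent.T8.helper48.yZero A hp hpN : Fermat.Agent.T8.helper16.ringX A hp hpN) :
          FF (N * p)) := rfl

theorem isRegJ_xJ81 (M : ℕ) [NeZero M] : IsRegJ M (Fermat.Agent.S24.xJ M) := by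
  rw [← Fermat.Agent.T3.helper48.jElt_eq_xJ (M := M)]
  exact Fermat.Agent.T3.helper98.isRegJ_jElt

theorem isRegJ_tTest : IsRegJ (N * p) (tTest N p hp hpN) :=
  (isRegJ_xJ81 (N * p)).sub
    ((Fermat.Agent.T3.helper98.isRegJ_atkinLehner (isRegJ_xJ81 (N * p))).pow p)

/-- the test function is integral at `∞` -/
theorem exists_rhoQ_tTest (A : ValuationSubring Kb) :
    ∃ r : LaurentSeries (kA A), RhoQ A ((tTest N p hp hpN : FF (N * p)) : LaurentSeries Kb) r := by
  obtain ⟨Y₁, Y₂, -, -, hY₁, -⟩ := (Fermat.Agent.T8.helper48.yZero A hp hpN).2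
  refine ⟨red A Y₁, ?_⟩
  rw [tTest_eq_yZero hp hpN A, ← hY₁]
  exact Fermat.Agent.T3.helper36.rhoQ_incl Y₁

/-- **Frobenius**: the second reduction of the test function is `0` -/
theorem rhoQ_atkinLehner_tTest (hA : A.LiesOverPrime p) :
    RhoQ A ((atkinLehner N p hp hpN (tTest N p hp hpN) : FF (N * p)) : LaurentSeries Kb) 0 := by
  obtain ⟨Y₁, Y₂, h⟩ := (Fermat.Agent.T8.helper48.yZero A hp hpN).2
  have h2 := Fermat.Agent.T8.helper16.red2X_eq h
  rw [Fermat.Agent.T8.helper48.red2X_yZero hA] at h2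
  have h3 := Fermat.Agent.T3.helper36.rhoQ_incl (A := A) Y₂
  rw [← h2, h.2.2.2] at h3
  rw [tTest_eq_yZero hp hpN A]
  exact h3

end Test

/-! ### The core -/

section Core

variable {N p : ℕ} [NeZero N] [NeZero p] {A : ValuationSubring Kb}
  (hp : p.Prime) (hpN : ¬ p ∣ N) (hA : A.LiesOverPrime p)
  (E : FF (N * p) →+* LaurentSeries Kb)
  (hE : ∀ c : Kb, E (algebraMap Kb (FF (N * p)) c) = algebraMap Kb (LaurentSeries Kb) c)
  (hratio : ∀ y : FF (N * p), IsRatioEv A (E y))
  (Yj : LaurentSeries A) (hYj : incl A Yj = E (Fermat.Agent.S24.xJ (N * p)))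

theorem isRatioEv_coe (A : ValuationSubring Kb) (M : ℕ) [NeZero M] (g : FF M) :
    IsRatioEv A (g : LaurentSeries Kb) :=
  Fermat.Agent.P2.helper73.exists_finset_isRatio M A _ g.2

theorem coe_const_mul (M : ℕ) [NeZero M] (c : Kb) (g : FF M) :
    ((algebraMap Kb (FF M) c * g : FF M) : LaurentSeries Kb)
      = algebraMap Kb (LaurentSeries Kb) c * (g : LaurentSeries Kb) := rfl

include hA hE hratio hYj in
/-- **(K)** a function which is regular where `j` is finite and Gauss-integral at `∞` and at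
`W ∞` is Gauss-integral at `E`. -/
theorem rhoQ_emb_of_reg {g : FF (N * p)} (hreg : IsRegJ (N * p) g)
    (h1 : ∃ r : LaurentSeries (kA A), RhoQ A (g : LaurentSeries Kb) r)
    (h2 : ∃ r : LaurentSeries (kA A),
      RhoQ A ((atkinLehner N p hp hpN g : FF (N * p)) : LaurentSeries Kb) r) :
    ∃ r : LaurentSeries (kA A), RhoQ A (E g) r := by
  obtain ⟨r₁, U₁, U₂, hU2, hU, -⟩ := h1
  obtain ⟨r₂, V₁, V₂, hV2, hV, -⟩ := h2
  have hx : Fermat.Agent.S24.xJ (N * p) = jElt (N * p) :=
    (Fermat.Agent.T3.helper48.jElt_eq_xJ (M := N * p)).symm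
  have i1 : ∃ Y : LaurentSeries A, incl A Y = (g : LaurentSeries Kb) :=
    Fermat.Agent.T2.helper45.integrality_of_isQuotInt (N * p) A (g : LaurentSeries Kb) g.2
      (fun Q hQ => by
        rw [hx] at hQ
        exact hreg Q hQ) ⟨U₁, U₂, hU2, hU⟩
  have hregW : IsRegJ (N * p) (atkinLehner N p hp hpN g) :=
    Fermat.Agent.T3.helper98.isRegJ_atkinLehner hreg
  have i2 : ∃ Y : LaurentSeries A,
      incl A Y = ((atkinLehner N p hp hpN g : FF (N * p)) : LaurentSeries Kb) :=
    Fermat.Agent.T2.helper45.integrality_of_isQuotInt (N * p) A _ (atkinLehner N p hp hpN g).2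
      (fun Q hQ => by
        rw [hx] at hQ
        exact hregW Q hQ) ⟨V₁, V₂, hV2, hV⟩
  have hint := Fermat.Agent.T3.helper48.isIntegralElem_level_q A N p hp hpN hA g i1 i2
    (Fermat.Agent.T3.helper98.isIntegralElem_evK_of_isRegJ (N * p) hreg)
  exact Fermat.Agent.T3.helper20.rhoQ_of_isIntegralElem A E hratio hE Yj hYj hint

theorem rhoQ_const_zero {c : Kb} (hc0 : c ≠ 0) (hc : A.valuation c < 1) :
    RhoQ A (algebraMap Kb (LaurentSeries Kb) c) 0 :=
  Fermat.Agent.T3.helper20.rhoQ_zero_of_gaussIs_lt (Fermat.Agent.T3.helper36.gaussIs_const hc0) hc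

include hA hE hratio hYj in
/-- **(A')** a regular function with reduction `0` at `∞`, Gauss-integral at `W ∞`, has reduction
`0` at `E`, if the test function has a nonzero reduction at `E`. -/
theorem rhoQ_emb_zero_of_reg {τ : LaurentSeries (kA A)} (hτ : τ ≠ 0)
    (hEt : RhoQ A (E (tTest N p hp hpN)) τ)
    {g : FF (N * p)} (hreg : IsRegJ (N * p) g)
    (h1 : RhoQ A (g : LaurentSeries Kb) 0)
    (h2 : ∃ r : LaurentSeries (kA A),
      RhoQ A ((atkinLehner N p hp hpN g : FF (N * p)) : LaurentSeries Kb) r) :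
    RhoQ A (E g) 0 := by
  classical
  rcases eq_or_ne g 0 with rfl | hg0
  · rw [map_zero]
    exact Fermat.Agent.T3.helper36.rhoQ_zero
  set W := atkinLehner N p hp hpN with hW
  set t := tTest N p hp hpN with ht
  have ht0 : t ≠ 0 := by
    rintro h0
    rw [h0, map_zero] at hEt
    exact hτ hEt.eq_zero
  have hgt0 : g * t ≠ 0 := mul_ne_zero hg0 ht0
  obtain ⟨rt, hrt⟩ := exists_rhoQ_tTest hp hpN A
  obtain ⟨r₂, hr₂⟩ := h2
  -- reductions of `g t`
  have e1 : RhoQ A ((g * t : FF (N * p)) : LaurentSeries Kb) 0 := by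
    have := h1.mul hrt
    rwa [zero_mul] at this
  have e2 : RhoQ A ((W (g * t) : FF (N * p)) : LaurentSeries Kb) 0 := by
    have := hr₂.mul (rhoQ_atkinLehner_tTest hp hpN hA)
    rw [mul_zero] at this
    rw [map_mul]
    exact this
  have hc1 : ((g * t : FF (N * p)) : LaurentSeries Kb) ≠ 0 := fun h => hgt0 (Subtype.ext h)
  have hWgt0 : W (g * t) ≠ 0 := (EmbeddingLike.map_ne_zero_iff).mpr hgt0
  have hc2 : ((W (g * t) : FF (N * p)) : LaurentSeries Kb) ≠ 0 := fun h => hWgt0 (Subtype.ext h)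
  obtain ⟨c₁, hc₁⟩ := Fermat.Agent.T3.helper20.exists_gaussIs_of_isRatioEv A
    (isRatioEv_coe A (N * p) (g * t)) hc1
  obtain ⟨c₂, hc₂⟩ := Fermat.Agent.T3.helper20.exists_gaussIs_of_isRatioEv A
    (isRatioEv_coe A (N * p) (W (g * t))) hc2
  have hv1 := Fermat.Agent.T3.helper20.valuation_lt_one_of_rhoQ_zero hc₁ e1
  have hv2 := Fermat.Agent.T3.helper20.valuation_lt_one_of_rhoQ_zero hc₂ e2
  -- the larger constant
  obtain ⟨π, hπ0, hπ, hπ1, hπ2⟩ : ∃ π : Kb, π ≠ 0 ∧ A.valuation π < 1 ∧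
      A.valuation c₁ ≤ A.valuation π ∧ A.valuation c₂ ≤ A.valuation π := by
    rcases le_total (A.valuation c₁) (A.valuation c₂) with h | h
    · exact ⟨c₂, hc₂.1, hv2, h, le_rfl⟩
    · exact ⟨c₁, hc₁.1, hv1, le_rfl, h⟩
  have hmem : ∀ c : Kb, A.valuation c ≤ A.valuation π → π⁻¹ * c ∈ A := by
    intro c hc
    rw [← A.valuation_le_one_iff, map_mul, map_inv₀]
    have h7 : A.valuation π ≠ 0 := (Valuation.ne_zero_iff _).2 hπ0
    rw [inv_mul_le_iff₀ (zero_lt_iff.mpr h7), mul_one]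
    exact hc
  set g' : FF (N * p) := algebraMap Kb (FF (N * p)) π⁻¹ * (g * t) with hg'
  have hreg' : IsRegJ (N * p) g' :=
    (Fermat.Agent.T3.helper98.isRegJ_algebraMap π⁻¹).mul (hreg.mul (isRegJ_tTest hp hpN))
  have k1 : ∃ r : LaurentSeries (kA A), RhoQ A (g' : LaurentSeries Kb) r := by
    have := hc₁.const_mul (inv_ne_zero hπ0)
    rw [← coe_const_mul] at this
    exact Fermat.Agent.T3.helper20.exists_rhoQ_of_gaussIs_mem this (hmem c₁ hπ1)
  have k2 : ∃ r : LaurentSeries (kA A),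
      RhoQ A ((W g' : FF (N * p)) : LaurentSeries Kb) r := by
    have := hc₂.const_mul (inv_ne_zero hπ0)
    rw [← coe_const_mul] at this
    have e : W g' = algebraMap Kb (FF (N * p)) π⁻¹ * W (g * t) := by
      rw [hg', map_mul, AlgEquiv.commutes]
    rw [e]
    exact Fermat.Agent.T3.helper20.exists_rhoQ_of_gaussIs_mem this (hmem c₂ hπ2)
  obtain ⟨r', hr'⟩ := rhoQ_emb_of_reg hp hpN hA E hE hratio Yj hYj hreg' k1 k2
  have e3 : E (g * t) = algebraMap Kb (LaurentSeries Kb) π * E g' := by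
    rw [hg', map_mul E (algebraMap Kb (FF (N * p)) π⁻¹), hE, ← mul_assoc, ← map_mul,
      mul_inv_cancel₀ hπ0, map_one, one_mul]
  have e4 : RhoQ A (E (g * t)) 0 := by
    have := (rhoQ_const_zero (A := A) hπ0 hπ).mul hr'
    rw [zero_mul, ← e3] at this
    exact this
  obtain ⟨rg, hrg⟩ := rhoQ_emb_of_reg hp hpN hA E hE hratio Yj hYj hreg ⟨0, h1⟩ ⟨r₂, hr₂⟩
  have e5 := hrg.mul hEt
  rw [← map_mul] at e5
  have e6 := e5.unique e4
  rcases mul_eq_zero.1 e6 with h | h
  · rwa [h] at hrg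
  · exact absurd h hτ

end Core

/-! ### Multipliers -/

section Mult

variable {N p : ℕ} [NeZero N] [NeZero p] {A : ValuationSubring Kb}
  (hp : p.Prime) (hpN : ¬ p ∣ N) (hA : A.LiesOverPrime p)
  (E : FF (N * p) →+* LaurentSeries Kb)
  (hE : ∀ c : Kb, E (algebraMap Kb (FF (N * p)) c) = algebraMap Kb (LaurentSeries Kb) c)
  (hratio : ∀ y : FF (N * p), IsRatioEv A (E y))
  (Yj : LaurentSeries A) (hYj : incl A Yj = E (Fermat.Agent.S24.xJ (N * p)))
  (hYj0 : (red A Yj).order < 0)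

/-- good multipliers: nonzero, regular where `j` is finite, Gauss-integral at `∞` and at `W ∞`,
Gauss UNIT at `E`. -/
def IsMult (hp : p.Prime) (hpN : ¬ p ∣ N) (A : ValuationSubring Kb)
    (E : FF (N * p) →+* LaurentSeries Kb) (s : FF (N * p)) : Prop :=
  s ≠ 0 ∧ IsRegJ (N * p) s ∧ (∃ r : LaurentSeries (kA A), RhoQ A (s : LaurentSeries Kb) r) ∧
    (∃ r : LaurentSeries (kA A),
      RhoQ A ((atkinLehner N p hp hpN s : FF (N * p)) : LaurentSeries Kb) r) ∧
    ∃ r : LaurentSeries (kA A), r ≠ 0 ∧ RhoQ A (E s) r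

theorem isMult_one : IsMult hp hpN A E (1 : FF (N * p)) := by
  refine ⟨one_ne_zero, Fermat.Agent.T3.helper98.isRegJ_one, ⟨1, ?_⟩, ⟨1, ?_⟩, 1, one_ne_zero, ?_⟩
  · exact Fermat.Agent.T3.helper36.rhoQ_one
  · rw [map_one]
    exact Fermat.Agent.T3.helper36.rhoQ_one
  · rw [map_one]
    exact Fermat.Agent.T3.helper36.rhoQ_one

theorem IsMult.mul {s t : FF (N * p)} (hs : IsMult hp hpN A E s) (ht : IsMult hp hpN A E t) :
    IsMult hp hpN A E (s * t) := by
  obtain ⟨s0, sreg, ⟨r1, h1⟩, ⟨r2, h2⟩, r3, hr3, h3⟩ := hs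
  obtain ⟨t0, treg, ⟨u1, k1⟩, ⟨u2, k2⟩, u3, hu3, k3⟩ := ht
  refine ⟨mul_ne_zero s0 t0, sreg.mul treg, ⟨r1 * u1, h1.mul k1⟩, ⟨r2 * u2, ?_⟩,
    r3 * u3, mul_ne_zero hr3 hu3, ?_⟩
  · rw [map_mul]
    exact h2.mul k2
  · rw [map_mul]
    exact h3.mul k3

theorem IsMult.pow {s : FF (N * p)} (hs : IsMult hp hpN A E s) (n : ℕ) :
    IsMult hp hpN A E (s ^ n) := by
  induction n with
  | zero => rw [pow_zero]; exact isMult_one hp hpN E
  | succ n ih => rw [pow_succ]; exact ih.mul hp hpN E hs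

theorem isMult_prod {ι : Type*} (S : Finset ι) (f : ι → FF (N * p))
    (hf : ∀ i ∈ S, IsMult hp hpN A E (f i)) : IsMult hp hpN A E (∏ i ∈ S, f i) := by
  classical
  induction S using Finset.induction_on with
  | empty => rw [Finset.prod_empty]; exact isMult_one hp hpN E
  | insert a S ha ih =>
    rw [Finset.prod_insert ha]
    exact (hf a (Finset.mem_insert_self a S)).mul hp hpN E
      (ih fun i hi => hf i (Finset.mem_insert_of_mem hi))

theorem rhoQ_jq (A : ValuationSubring Kb) : RhoQ A (jqModC Kb) (jqModC (kA A)) := by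
  have := Fermat.Agent.T3.helper36.rhoQ_incl (A := A) (jqModC A)
  rwa [show incl A (jqModC A) = jqModC Kb from coeffMap_jqModC _,
    show red A (jqModC A) = jqModC (kA A) from coeffMap_jqModC _] at this

include hE hYj in
/-- the three reductions of `a j - b`, `a, b ∈ A` -/
theorem rhoQ_linear (a b : A) :
    RhoQ A ((algebraMap Kb (FF (N * p)) (a : Kb) * Fermat.Agent.S24.xJ (N * p)
        - algebraMap Kb (FF (N * p)) (b : Kb) : FF (N * p)) : LaurentSeries Kb)
      (algebraMap (kA A) (LaurentSeries (kA A)) (IsLocalRing.residue A a) * jqModC (kA A)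
        - algebraMap (kA A) (LaurentSeries (kA A)) (IsLocalRing.residue A b)) ∧
    RhoQ A ((atkinLehner N p hp hpN (algebraMap Kb (FF (N * p)) (a : Kb)
        * Fermat.Agent.S24.xJ (N * p) - algebraMap Kb (FF (N * p)) (b : Kb)) : FF (N * p)) :
          LaurentSeries Kb)
      (algebraMap (kA A) (LaurentSeries (kA A)) (IsLocalRing.residue A a)
          * qExpand (kA A) p (jqModC (kA A))
        - algebraMap (kA A) (LaurentSeries (kA A)) (IsLocalRing.residue A b)) ∧
    RhoQ A (E (algebraMap Kb (FF (N * p)) (a : Kb) * Fermat.Agent.S24.xJ (N * p)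
        - algebraMap Kb (FF (N * p)) (b : Kb)))
      (algebraMap (kA A) (LaurentSeries (kA A)) (IsLocalRing.residue A a) * red A Yj
        - algebraMap (kA A) (LaurentSeries (kA A)) (IsLocalRing.residue A b)) := by
  have ha := Fermat.Agent.T3.helper36.rhoQ_algebraMap (A := A) a
  have hb := Fermat.Agent.T3.helper36.rhoQ_algebraMap (A := A) b
  refine ⟨?_, ?_, ?_⟩
  · have h1 : ((algebraMap Kb (FF (N * p)) (a : Kb) * Fermat.Agent.S24.xJ (N * p)
        - algebraMap Kb (FF (N * p)) (b : Kb) : FF (N * p)) : LaurentSeries Kb)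
        = algebraMap Kb (LaurentSeries Kb) (a : Kb) * jqModC Kb
          - algebraMap Kb (LaurentSeries Kb) (b : Kb) := by
      rw [← Fermat.Agent.T3.helper98.coe_xJ' (N * p)]
      rfl
    rw [h1]
    exact (ha.mul (rhoQ_jq A)).sub hb
  · have h1 : ((atkinLehner N p hp hpN (algebraMap Kb (FF (N * p)) (a : Kb)
        * Fermat.Agent.S24.xJ (N * p) - algebraMap Kb (FF (N * p)) (b : Kb)) : FF (N * p)) :
          LaurentSeries Kb)
        = algebraMap Kb (LaurentSeries Kb) (a : Kb) * qExpand Kb p (jqModC Kb)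
          - algebraMap Kb (LaurentSeries Kb) (b : Kb) := by
      rw [map_sub, map_mul, AlgEquiv.commutes, AlgEquiv.commutes,
        ← Fermat.Agent.T8.helper48.coe_atkinLehner_xJ (N := N) (q := p) (hq := hp) (hqN := hpN)]
      rfl
    rw [h1]
    exact (ha.mul (Fermat.Agent.T3.helper36.RhoQ.qExpand p (rhoQ_jq A))).sub hb
  · rw [map_sub, map_mul, hE, hE, ← hYj]
    exact (ha.mul (Fermat.Agent.T3.helper36.rhoQ_incl Yj)).sub hb

theorem order_algebraMap_sub_ne (k : Type*) [Field k] (x : LaurentSeries k) (hx : x.order < 0)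
    (c : k) : x - algebraMap k (LaurentSeries k) c ≠ 0 := by
  intro h
  have h1 : x = algebraMap k (LaurentSeries k) c := sub_eq_zero.1 h
  rw [h1, algebraMap_laurentSeries_eq_single] at hx
  by_cases hc : c = 0
  · rw [hc, HahnSeries.single_eq_zero, HahnSeries.order_zero] at hx
    exact lt_irrefl _ hx
  · rw [HahnSeries.order_single hc] at hx
    exact lt_irrefl _ hx

include hE hYj hYj0 in
/-- at every place where `j` is finite there is a good multiplier vanishing at the place -/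
theorem exists_mult_vanishing (P : Place Kb (FF (N * p))) (hP : 0 ≤ P.ord (jElt (N * p))) :
    ∃ μ : FF (N * p), IsMult hp hpN A E μ ∧ 0 < P.ord μ := by
  classical
  have hx : Fermat.Agent.S24.xJ (N * p) = jElt (N * p) :=
    (Fermat.Agent.T3.helper48.jElt_eq_xJ (M := N * p)).symm
  obtain ⟨c, hc⟩ := (Fermat.Agent.P2.helper22.riemannSetting_FF (N * p)).residue P
    (jElt (N * p)) hP
  rcases hc with hc | hc
  · exfalso
    have := Fermat.Agent.T8.helper23.jElt_sub_const_ne_zero (N * p) c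
    rw [hc, sub_self] at this
    exact this rfl
  have hne := Fermat.Agent.T8.helper23.jElt_sub_const_ne_zero (N * p) c
  by_cases hcA : c ∈ A
  · -- `μ = j - c`
    obtain ⟨h1, h2, h3⟩ := rhoQ_linear hp hpN E hE Yj hYj (1 : A) ⟨c, hcA⟩
    have e : algebraMap Kb (FF (N * p)) (((1 : A) : A) : Kb) * Fermat.Agent.S24.xJ (N * p)
        - algebraMap Kb (FF (N * p)) (((⟨c, hcA⟩ : A) : A) : Kb)
        = jElt (N * p) - algebraMap Kb (FF (N * p)) c := by
      rw [hx]
      simp
    rw [e] at h1 h2 h3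
    refine ⟨jElt (N * p) - algebraMap Kb (FF (N * p)) c,
      ⟨hne, Fermat.Agent.T3.helper98.isRegJ_jElt.sub
        (Fermat.Agent.T3.helper98.isRegJ_algebraMap c), ⟨_, h1⟩, ⟨_, h2⟩, _, ?_, h3⟩, hc⟩
    rw [map_one, map_one, one_mul]
    exact order_algebraMap_sub_ne (kA A) (red A Yj) hYj0 _
  · -- `μ = c⁻¹ j - 1`
    have hc0 : c ≠ 0 := fun h0 => hcA (h0 ▸ A.zero_mem)
    have hinv : c⁻¹ ∈ A := (A.mem_or_inv_mem c).resolve_left hcA
    have hlt : A.valuation c⁻¹ < 1 := by
      rw [map_inv₀]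
      have h1 : 1 < A.valuation c := by
        rw [← not_le, A.valuation_le_one_iff]
        exact hcA
      exact inv_lt_one_of_one_lt₀ h1
    have hres : IsLocalRing.residue A ⟨c⁻¹, hinv⟩ = 0 :=
      Fermat.Agent.T3.helper20.residue_eq_zero_of_lt hinv hlt
    obtain ⟨h1, h2, h3⟩ := rhoQ_linear hp hpN E hE Yj hYj (⟨c⁻¹, hinv⟩ : A) (1 : A)
    have e : algebraMap Kb (FF (N * p)) (((⟨c⁻¹, hinv⟩ : A) : A) : Kb)
          * Fermat.Agent.S24.xJ (N * p) - algebraMap Kb (FF (N * p)) (((1 : A) : A) : Kb)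
        = algebraMap Kb (FF (N * p)) c⁻¹ * (jElt (N * p) - algebraMap Kb (FF (N * p)) c) := by
      rw [hx, mul_sub, ← map_mul, inv_mul_cancel₀ hc0]
      simp
    rw [e] at h1 h2 h3
    have hc0' : algebraMap Kb (FF (N * p)) c⁻¹ ≠ 0 := by
      rw [Ne, map_eq_zero]
      exact inv_ne_zero hc0
    refine ⟨algebraMap Kb (FF (N * p)) c⁻¹ * (jElt (N * p) - algebraMap Kb (FF (N * p)) c),
      ⟨mul_ne_zero hc0' hne, (Fermat.Agent.T3.helper98.isRegJ_algebraMap c⁻¹).mul
        (Fermat.Agent.T3.helper98.isRegJ_jElt.sub (Fermat.Agent.T3.helper98.isRegJ_algebraMap c)),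
        ⟨_, h1⟩, ⟨_, h2⟩, _, ?_, h3⟩, ?_⟩
    · rw [hres, map_zero, zero_mul, map_one, map_one, zero_sub]
      exact neg_ne_zero.mpr one_ne_zero
    · rw [P.ord_mul hc0' hne, Fermat.Agent.T6.helper26.ord_const P c⁻¹, zero_add]
      exact hc

include hE hYj hYj0 in
/-- **clearing the poles by a good multiplier** -/
theorem exists_mult_clear (f : FF (N * p)) :
    ∃ b : FF (N * p), IsMult hp hpN A E b ∧ IsRegJ (N * p) (f * b) := by
  classical
  rcases eq_or_ne f 0 with rfl | hf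
  · exact ⟨1, isMult_one hp hpN E, by rw [zero_mul]; exact Fermat.Agent.T3.helper98.isRegJ_zero⟩
  have hfin := Fermat.Agent.P2.helper23.finite_ord_ne_zero (N * p) f hf
  have hex : ∀ P : Place Kb (FF (N * p)), ∃ μ : FF (N * p), IsMult hp hpN A E μ ∧
      (0 ≤ P.ord (jElt (N * p)) → 0 < P.ord μ) := by
    intro P
    by_cases hP : 0 ≤ P.ord (jElt (N * p))
    · obtain ⟨μ, h1, h2⟩ := exists_mult_vanishing hp hpN E hE Yj hYj hYj0 P hP
      exact ⟨μ, h1, fun _ => h2⟩
    · exact ⟨1, isMult_one hp hpN E, fun h => absurd h hP⟩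
  choose μ hμ hμpos using hex
  set PS : Finset (Place Kb (FF (N * p))) := hfin.toFinset with hPSdef
  have hμ0 : ∀ P, μ P ≠ 0 := fun P => (hμ P).1
  have hμreg : ∀ P, IsRegJ (N * p) (μ P) := fun P => (hμ P).2.1
  refine ⟨∏ P ∈ PS, μ P ^ (-(P.ord f)).toNat,
    isMult_prod hp hpN E _ _ fun P _ => (hμ P).pow hp hpN E _, ?_⟩
  intro Q hQ
  have hb0 : (∏ P ∈ PS, μ P ^ (-(P.ord f)).toNat) ≠ 0 :=
    Finset.prod_ne_zero_iff.mpr fun P _ => pow_ne_zero _ (hμ0 P)
  have hbreg : IsRegJ (N * p) (∏ P ∈ PS, μ P ^ (-(P.ord f)).toNat) :=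
    Fermat.Agent.T3.helper98.isRegJ_prod _ _ fun P _ => (hμreg P).pow _
  rw [Q.ord_mul hf hb0]
  by_cases hQf : 0 ≤ Q.ord f
  · have := hbreg Q hQ
    omega
  · rw [not_le] at hQf
    have hQPS : Q ∈ PS := by
      rw [hPSdef, Set.Finite.mem_toFinset]
      show Q.ord f ≠ 0
      omega
    have hsplit : μ Q ^ (-(Q.ord f)).toNat *
        (∏ P ∈ PS.erase Q, μ P ^ (-(P.ord f)).toNat) = ∏ P ∈ PS, μ P ^ (-(P.ord f)).toNat :=
      Finset.mul_prod_erase PS (fun P => μ P ^ (-(P.ord f)).toNat) hQPS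
    have hrest : IsRegJ (N * p) (∏ P ∈ PS.erase Q, μ P ^ (-(P.ord f)).toNat) :=
      Fermat.Agent.T3.helper98.isRegJ_prod _ _ fun P _ => (hμreg P).pow _
    have hrest0 : (∏ P ∈ PS.erase Q, μ P ^ (-(P.ord f)).toNat) ≠ 0 :=
      Finset.prod_ne_zero_iff.mpr fun P _ => pow_ne_zero _ (hμ0 P)
    rw [← hsplit, Q.ord_mul (pow_ne_zero _ (hμ0 Q)) hrest0]
    have h1 := hrest Q hQ
    have h2 := hμpos Q hQ
    have h3 : Q.ord (μ Q ^ (-(Q.ord f)).toNat) = ((-(Q.ord f)).toNat : ℤ) * Q.ord (μ Q) := by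
      rw [← zpow_natCast, Place.ord_zpow]
    rw [h3]
    have h4 : ((-(Q.ord f)).toNat : ℤ) = -(Q.ord f) := Int.toNat_of_nonneg (by omega)
    rw [h4]
    nlinarith

end Mult

/-! ### The kernel of the first reduction, all functions -/

section Main

variable {N p : ℕ} [NeZero N] [NeZero p] {A : ValuationSubring Kb}
  (hp : p.Prime) (hpN : ¬ p ∣ N) (hA : A.LiesOverPrime p)
  (E : FF (N * p) →+* LaurentSeries Kb)
  (hE : ∀ c : Kb, E (algebraMap Kb (FF (N * p)) c) = algebraMap Kb (LaurentSeries Kb) c)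
  (hratio : ∀ y : FF (N * p), IsRatioEv A (E y))
  (Yj : LaurentSeries A) (hYj : incl A Yj = E (Fermat.Agent.S24.xJ (N * p)))
  (hYj0 : (red A Yj).order < 0)

include hA hE hratio hYj hYj0 in
/-- **(M)** for EVERY function `h` of level `N p`: reduction `0` at `∞` implies reduction `0` at
`E`, if the test function has a nonzero reduction at `E`. -/
theorem rhoQ_emb_zero {τ : LaurentSeries (kA A)} (hτ : τ ≠ 0)
    (hEt : RhoQ A (E (tTest N p hp hpN)) τ)
    {h : FF (N * p)} (h1 : RhoQ A (h : LaurentSeries Kb) 0) : RhoQ A (E h) 0 := by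
  classical
  rcases eq_or_ne h 0 with rfl | hh0
  · rw [map_zero]
    exact Fermat.Agent.T3.helper36.rhoQ_zero
  set W := atkinLehner N p hp hpN with hW
  set t := tTest N p hp hpN with ht
  have ht0 : t ≠ 0 := by
    rintro h0
    rw [h0, map_zero] at hEt
    exact hτ hEt.eq_zero
  obtain ⟨s, hs, hreg⟩ := exists_mult_clear hp hpN E hE Yj hYj hYj0 h
  obtain ⟨s0, sreg, ⟨r1, hs1⟩, ⟨r2, hs2⟩, r3, hr3, hs3⟩ := hs
  have hhs0 : h * s ≠ 0 := mul_ne_zero hh0 s0
  -- Gauss values at `W ∞`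
  have hWhs0 : W (h * s) ≠ 0 := (EmbeddingLike.map_ne_zero_iff).mpr hhs0
  have hc2 : ((W (h * s) : FF (N * p)) : LaurentSeries Kb) ≠ 0 := fun e => hWhs0 (Subtype.ext e)
  obtain ⟨c₂, hc₂⟩ := Fermat.Agent.T3.helper20.exists_gaussIs_of_isRatioEv A
    (isRatioEv_coe A (N * p) (W (h * s))) hc2
  have hWt0 : W t ≠ 0 := (EmbeddingLike.map_ne_zero_iff).mpr ht0
  have hct : ((W t : FF (N * p)) : LaurentSeries Kb) ≠ 0 := fun e => hWt0 (Subtype.ext e)
  obtain ⟨ct, hct'⟩ := Fermat.Agent.T3.helper20.exists_gaussIs_of_isRatioEv A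
    (isRatioEv_coe A (N * p) (W t)) hct
  have hvt := Fermat.Agent.T3.helper20.valuation_lt_one_of_rhoQ_zero hct'
    (rhoQ_atkinLehner_tTest hp hpN hA)
  obtain ⟨m, hm⟩ := exists_pow_mul_mem A hct'.1 hvt hc₂.1
  -- the function `h s t^m`
  set g : FF (N * p) := h * s * t ^ m with hg
  have hgreg : IsRegJ (N * p) g := hreg.mul ((isRegJ_tTest hp hpN).pow m)
  obtain ⟨rt, hrt⟩ := exists_rhoQ_tTest hp hpN A
  have g1 : RhoQ A (g : LaurentSeries Kb) 0 := by
    have := (h1.mul hs1).mul (hrt.pow m)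
    rwa [zero_mul, zero_mul] at this
  have g2 : ∃ r : LaurentSeries (kA A),
      RhoQ A ((W g : FF (N * p)) : LaurentSeries Kb) r := by
    have e : ((W g : FF (N * p)) : LaurentSeries Kb)
        = ((W (h * s) : FF (N * p)) : LaurentSeries Kb)
          * ((W t : FF (N * p)) : LaurentSeries Kb) ^ m := by
      rw [hg, map_mul, map_pow]
      rfl
    rw [e]
    have := hc₂.mul (hct'.pow m)
    refine Fermat.Agent.T3.helper20.exists_rhoQ_of_gaussIs_mem this ?_
    rw [mul_comm]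
    exact hm
  have g3 := rhoQ_emb_zero_of_reg hp hpN hA E hE hratio Yj hYj hτ hEt hgreg g1 g2
  -- the unit part
  have hU : RhoQ A (E (s * t ^ m)) (r3 * τ ^ m) := by
    rw [map_mul, map_pow]
    exact hs3.mul (hEt.pow m)
  have hU0 : r3 * τ ^ m ≠ 0 := mul_ne_zero hr3 (pow_ne_zero m hτ)
  have e1 : E g = E h * E (s * t ^ m) := by
    rw [hg, mul_assoc, map_mul]
  rw [e1] at g3
  rcases Fermat.Agent.T3.helper20.rhoQ_or_rhoQ_inv A (hratio h) with ⟨r, hr⟩ | hinv
  · have := (hr.mul hU).unique g3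
    rcases mul_eq_zero.1 this with h0 | h0
    · rwa [h0] at hr
    · exact absurd h0 hU0
  · exfalso
    have hEh0 : E h ≠ 0 := (map_ne_zero E).2 hh0
    have := hinv.mul g3
    rw [mul_zero, ← mul_assoc, inv_mul_cancel₀ hEh0, one_mul] at this
    exact hU0 (hU.unique this)

include hA hE hratio hYj hYj0 in
/-- **(L3) [CUSP-VAL]**: the Gauss valuation of `E` is the first Gauss valuation, with the
reduction map `Eb`, as soon as the test function has a nonzero reduction at `E` and `E`, `Eb` are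
compatible on enough functions. -/
theorem cuspVal_core {τ : LaurentSeries (kA A)} (hτ : τ ≠ 0)
    (hEt : RhoQ A (E (tTest N p hp hpN)) τ)
    (Eb : FFb A N →+* LaurentSeries (kA A))
    (hold : ∀ f : FFb A N, ∃ (a b : FF (N * p)) (fa fb : FFb A N), fb ≠ 0 ∧ f * fb = fa ∧
      RhoQ A (a : LaurentSeries Kb) (fa : LaurentSeries (kA A)) ∧
      RhoQ A (b : LaurentSeries Kb) (fb : LaurentSeries (kA A)) ∧
      RhoQ A (E a) (Eb fa) ∧ RhoQ A (E b) (Eb fb))
    (g : FF (N * p)) (f : FFb A N)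
    (hg : RhoQ A (g : LaurentSeries Kb) (f : LaurentSeries (kA A))) :
    RhoQ A (E g) (Eb f) := by
  obtain ⟨a, b, fa, fb, hfb, hfab, ha, hb, hEa, hEb⟩ := hold f
  have h1 : RhoQ A ((g * b - a : FF (N * p)) : LaurentSeries Kb) 0 := by
    have := (hg.mul hb).sub ha
    have e : (f : LaurentSeries (kA A)) * (fb : LaurentSeries (kA A))
        - (fa : LaurentSeries (kA A)) = 0 := by
      rw [← hfab]
      exact sub_self _
    rwa [e] at this
  have h2 := rhoQ_emb_zero hp hpN hA E hE hratio Yj hYj hYj0 hτ hEt h1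
  rw [map_sub, map_mul] at h2
  have hEfb : Eb fb ≠ 0 := (map_ne_zero Eb).2 hfb
  have hEb0 : E b ≠ 0 := hEb.ne_zero hEfb
  have h3 := (h2.add hEa).div hEb hEfb
  have e1 : (E g * E b - E a + E a) / E b = E g := by
    rw [sub_add_cancel, mul_div_assoc, div_self hEb0, mul_one]
  have e2 : (0 + Eb fa) / Eb fb = Eb f := by
    rw [zero_add, ← hfab, map_mul, mul_div_assoc, div_self hEfb, mul_one]
  rwa [e1, e2] at h3

end Main

end Fermat.Agent.T8.helper81

end
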