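import Mathlib
import Fermat.Agent.T8.helper47_CuspEmb
import Fermat.Agent.T8.helper81_CuspVal

/-!
# T8 (row 38), [CUSP-GAP] route Q, leaf (L2) [CUSP-EMB]: the inputs of `helper81.cuspVal_core`

For the cusp embedding `E = cuspEmb N p g hg` of `helper47_CuspEmb` (the expansion at the cusp of
`X₀(N p)` over `(i, ∞_p)`, read in `T = q^(1/N)`):

* `cuspEmb_xJ`            : `E j = j (T ^ N)`;
* `cuspEmb_atkinLehner_xJ`: `E (W j) = j (T ^ (N p))`  (`W = atkinLehner N p`);
* `cuspEmb_tTest`         : `E (j - (W j) ^ p) = j (T ^ N) - j (T ^ (N p)) ^ p`;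
* `tauEmb_ne_zero`        : its reduction `τ = j̄ (T ^ N) - j̄ (T ^ (N p)) ^ p` is NOT zero
                            (orders `-N ≠ -N p²`);
* `rhoQ_cuspEmb_tTest`    : `RhoQ A (E t) τ`;
* `exists_cuspEmbVal`     : the package: for every coset `i` of level `N` an expansion map `E`
  with ALL the hypotheses `hE`, `hratio`, `Yj`, `hYj`, `hYj0`, `hτ`, `hEt` of
  `helper81.rhoQ_emb_zero` / `helper81.cuspVal_core`, and `E ∘ α = EC N i`.
-/

set_option autoImplicit false
set_option synthInstance.maxHeartbeats 400000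
set_option maxHeartbeats 1000000
set_option linter.unusedSectionVars false
set_option linter.unusedVariables false
set_option linter.style.haveILetI false
set_option linter.style.longLine false

noncomputable section

open HahnSeries ModularCurve
open Fermat.Agent.S18.helper19
open Fermat.Agent.P2.helper28
open Fermat.Agent.P2.helper29 (incl red)
open Fermat.Agent.P2.helper73 (IsRatioEv)
open Fermat.Agent.T2.helper36 (atkinLehner atkinLehner_heckeAlphaBar)
open Fermat.Agent.T3.helper36 (RhoQ)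
open Fermat.Agent.T3.helper90 (cosetOf)
open scoped MatrixGroups

namespace Fermat.Agent.T8.helper47

section EmbW

variable (N p : ℕ) [NeZero N] [NeZero p]

theorem xJ_eq_alpha_jElt :
    Fermat.Agent.S24.xJ (N * p) = heckeAlphaBar Kb N p (Fermat.Agent.P2.helper29.jElt N) := by
  rw [Fermat.Agent.T3.helper81.jElt_eq_xJ]
  exact Subtype.ext rfl

/-- `E j = j (T ^ N)` -/
theorem cuspEmb_xJ (g : SL(2, ℤ)) (hg : (p : ℤ) ∣ g 1 0) :
    cuspEmb N p g hg (Fermat.Agent.S24.xJ (N * p)) = qExpand Kb N (jqModC Kb) := by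
  rw [xJ_eq_alpha_jElt, cuspEmb_alpha, ← Fermat.Agent.T3.helper90.EC_eq_sigmaFF,
    Fermat.Agent.T3.helper81.EC_jElt]

/-- `E (W j) = j (T ^ (N p))` -/
theorem cuspEmb_atkinLehner_xJ (hp : p.Prime) (hpN : ¬ p ∣ N) (g : SL(2, ℤ))
    (hg : (p : ℤ) ∣ g 1 0) :
    cuspEmb N p g hg (atkinLehner N p hp hpN (Fermat.Agent.S24.xJ (N * p))) =
      qExpand Kb (N * p) (jqModC Kb) := by
  rw [xJ_eq_alpha_jElt, atkinLehner_heckeAlphaBar, cuspEmb_beta_j]

/-- the expansion of the test function -/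
theorem cuspEmb_tTest (hp : p.Prime) (hpN : ¬ p ∣ N) (g : SL(2, ℤ)) (hg : (p : ℤ) ∣ g 1 0) :
    cuspEmb N p g hg (Fermat.Agent.T8.helper81.tTest N p hp hpN) =
      qExpand Kb N (jqModC Kb) - qExpand Kb (N * p) (jqModC Kb) ^ p := by
  rw [Fermat.Agent.T8.helper81.tTest, map_sub, map_pow, cuspEmb_xJ,
    cuspEmb_atkinLehner_xJ N p hp hpN]

/-- the reduction of the expansion of the test function -/
def tauEmb (k : Type*) [Field k] : LaurentSeries k :=
  qExpand k N (jqModC k) - qExpand k (N * p) (jqModC k) ^ p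

theorem tauEmb_ne_zero (hp : p.Prime) (k : Type*) [Field k] : tauEmb N p k ≠ 0 := by
  intro h
  rw [tauEmb, sub_eq_zero] at h
  have h1 : (qExpand k N (jqModC k)).order = -(N : ℤ) := by
    rw [Fermat.Agent.T2.helper36.order_qExpand_val, Fermat.Agent.T2.helper36.order_jqModC_val]
    ring
  have h2 : (qExpand k (N * p) (jqModC k) ^ p).order = -((N * p * p : ℕ) : ℤ) := by
    rw [HahnSeries.order_pow, Fermat.Agent.T2.helper36.order_qExpand_val,
      Fermat.Agent.T2.helper36.order_jqModC_val]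
    push_cast
    simp only [nsmul_eq_mul]
    ring
  rw [h] at h1
  rw [h1] at h2
  have hN : 0 < N := Nat.pos_of_ne_zero (NeZero.ne N)
  have h3 : N = N * p * p := by exact_mod_cast neg_injective h2
  have h4 : 1 < p * p := by
    have := hp.two_le
    nlinarith
  have h5 : N * 1 < N * (p * p) := Nat.mul_lt_mul_of_pos_left h4 hN
  rw [mul_one, ← mul_assoc] at h5
  omega

theorem rhoQ_tauEmb (A : ValuationSubring Kb) :
    RhoQ A (qExpand Kb N (jqModC Kb) - qExpand Kb (N * p) (jqModC Kb) ^ p)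
      (tauEmb N p (kA A)) :=
  ((Fermat.Agent.T8.helper81.rhoQ_jq A).qExpand N).sub
    (((Fermat.Agent.T8.helper81.rhoQ_jq A).qExpand (N * p)).pow p)

/-- **`hEt`** of `helper81.cuspVal_core` at the cusp embedding -/
theorem rhoQ_cuspEmb_tTest (hp : p.Prime) (hpN : ¬ p ∣ N) (A : ValuationSubring Kb)
    (g : SL(2, ℤ)) (hg : (p : ℤ) ∣ g 1 0) :
    RhoQ A (cuspEmb N p g hg (Fermat.Agent.T8.helper81.tTest N p hp hpN))
      (tauEmb N p (kA A)) := by
  rw [cuspEmb_tTest]
  exact rhoQ_tauEmb N p A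

/-- **`Yj`, `hYj`, `hYj0`** of `helper81.cuspVal_core` at the cusp embedding -/
theorem exists_Yj_cuspEmb (A : ValuationSubring Kb) (g : SL(2, ℤ)) (hg : (p : ℤ) ∣ g 1 0) :
    ∃ Yj : LaurentSeries A,
      incl A Yj = cuspEmb N p g hg (Fermat.Agent.S24.xJ (N * p)) ∧ (red A Yj).order < 0 := by
  refine ⟨qExpand A N (jqModC A), ?_, ?_⟩
  · rw [cuspEmb_xJ]
    show coeffMap A.subtype (qExpand A N (jqModC A)) = _
    rw [Fermat.Agent.P2.helper94.coeffMap_qExpand]
    congr 1
    exact coeffMap_jqModC _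
  · have e : red A (qExpand A N (jqModC A)) = qExpand (kA A) N (jqModC (kA A)) := by
      show coeffMap (IsLocalRing.residue A) (qExpand A N (jqModC A)) = _
      rw [Fermat.Agent.P2.helper94.coeffMap_qExpand]
      congr 1
      exact coeffMap_jqModC _
    rw [e, Fermat.Agent.T2.helper36.order_qExpand_val, Fermat.Agent.T2.helper36.order_jqModC_val]
    have hN : (0 : ℤ) < N := by exact_mod_cast Nat.pos_of_ne_zero (NeZero.ne N)
    linarith

/-- **(L2) in the shape of `helper81.cuspVal_core`**: for every coset `i` of level `N` an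
expansion map `E` of `FF (N p)` with all the hypotheses of the valuation core and `E ∘ α = EC N i`,
`E (W j) = j (T ^ (N p))`. -/
theorem exists_cuspEmbVal (hp : p.Prime) (hpN : ¬ p ∣ N) (A : ValuationSubring Kb)
    (i : Fermat.Agent.T3.helper81.IXN N) :
    ∃ (E : FF (N * p) →+* LaurentSeries Kb) (Yj : LaurentSeries A) (τ : LaurentSeries (kA A)),
      (∀ c : Kb, E (algebraMap Kb (FF (N * p)) c) = algebraMap Kb (LaurentSeries Kb) c) ∧
      (∀ y : FF (N * p), IsRatioEv A (E y)) ∧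
      incl A Yj = E (Fermat.Agent.S24.xJ (N * p)) ∧
      (red A Yj).order < 0 ∧
      τ ≠ 0 ∧
      RhoQ A (E (Fermat.Agent.T8.helper81.tTest N p hp hpN)) τ ∧
      (∀ y : FF N, E (heckeAlphaBar Kb N p y) = Fermat.Agent.T3.helper81.EC N i y) ∧
      E (atkinLehner N p hp hpN (Fermat.Agent.S24.xJ (N * p))) =
        qExpand Kb (N * p) (jqModC Kb) ∧
      E (Fermat.Agent.S24.xJ (N * p)) = qExpand Kb N (jqModC Kb) := by
  obtain ⟨g, hgi, hg⟩ := exists_rep_dvd N p hp hpN i
  obtain ⟨Yj, hYj, hYj0⟩ := exists_Yj_cuspEmb N p A g hg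
  refine ⟨(cuspEmb N p g hg : FF (N * p) →+* LaurentSeries Kb), Yj, tauEmb N p (kA A),
    fun c => (cuspEmb N p g hg).commutes c, fun y => isRatioEv_cuspEmb N p A g hg y,
    hYj, hYj0, tauEmb_ne_zero N p hp (kA A), rhoQ_cuspEmb_tTest N p hp hpN A g hg,
    fun y => ?_, cuspEmb_atkinLehner_xJ N p hp hpN g hg, cuspEmb_xJ N p g hg⟩
  show cuspEmb N p g hg (heckeAlphaBar Kb N p y) = _
  rw [cuspEmb_alpha, Fermat.Agent.T3.helper90.EC_eq_sigmaFF, hgi]

end EmbW

end Fermat.Agent.T8.helper47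

end
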