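import Fermat.Agent.T8.helper47_RamTwo
import Fermat.Agent.T8.helper7_RealDefs
import Fermat.Agent.S13.helper38_Adapters

/-!
# T8 (row 38), box [W-RAM2] (helper47): a realisation of `E[p]` at an ODD level is contradictory

`E[p]` of the Frey curve is ramified at `2` (`frey_ramified_two`), while the `p`-torsion of
`J₀(M)`, `M p` odd, is unramified at `2` (`helper7.p2Core_all`).  Hence:

* `freyReal_ramified_two` : on a realisation `V ⊆ J₀(M)` of `E[p]` some inertia element at `2`
  moves some class;
* `odd_level_false`       : `helper72.FreyReal P W M V → ¬ 2 ∣ M → False`;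
* `two_dvd_of_freyReal`   : `helper72.FreyReal P W M V → 2 ∣ M`;
* `two_dvd_of_freyReal_mul` : `helper72.FreyReal P W (M' * P.p) V → 2 ∣ M'`;
* `two_dvd_of_chainCtx_real` : the same in the context of the top chain.

So every box of the chain may assume `2 ∣ M'` (`N' = 4 M' = 8 m`): the level descent
`4 M' → M'` is needed in the EVEN case only.
-/

set_option autoImplicit false
set_option linter.unusedSectionVars false
set_option linter.unusedVariables false
set_option linter.style.longLine false

namespace Fermat.Agent.T8.helper47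

open ModularCurve WeierstrassCurve WeierstrassCurve.Affine
open Fermat.Agent.T8.helper72

/-- on a realisation of `E[p]` some inertia element at `2` moves some class -/
theorem freyReal_ramified_two (P : FreyPackage) (W : WeierstrassCurve ℤ) (M : ℕ) [NeZero M]
    (V : AddSubgroup (JZero M)) (hV : FreyReal P W M V)
    (A : ValuationSubring (AlgebraicClosure ℚ)) (hA : A.LiesOverPrime 2) :
    ∃ σ ∈ A.inertiaSubgroupIn ℚ, ∃ x ∈ V, σ • x ≠ x := by
  obtain ⟨σ, hσ, T, hT, hne⟩ := frey_ramified_two P A hA
  obtain ⟨e, he⟩ := hV.iso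
  have hTm : T ∈ Submodule.torsionBy ℤ
      ((P.freyCurve : Affine ℚ)⁄(AlgebraicClosure ℚ)).Point P.p := by
    rw [Submodule.mem_torsionBy_iff]; exact hT
  refine ⟨σ, hσ, ((e ⟨T, hTm⟩ : V) : JZero M), (e ⟨T, hTm⟩).2, ?_⟩
  intro h
  apply hne
  have h1 : e (σ • (⟨T, hTm⟩ : FreyTors P)) = e ⟨T, hTm⟩ := by
    apply Subtype.ext
    rw [he σ ⟨T, hTm⟩, h]
  have h2 : σ • (⟨T, hTm⟩ : FreyTors P) = ⟨T, hTm⟩ := e.injective h1
  exact congrArg Subtype.val h2

/-- **a realisation of `E[p]` at an odd level is contradictory** -/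
theorem odd_level_false (P : FreyPackage) (W : WeierstrassCurve ℤ) (M : ℕ) [NeZero M]
    (V : AddSubgroup (JZero M)) (hV : FreyReal P W M V) (hM : ¬ 2 ∣ M) : False := by
  obtain ⟨A, hA⟩ := Fermat.Agent.S13.helper38.exists_liesOverPrime Nat.prime_two
  obtain ⟨σ, hσ, x, hx, hne⟩ := freyReal_ramified_two P W M V hV A hA
  have h2 : ¬ 2 ∣ M * P.p := by
    intro h
    rcases (Nat.Prime.dvd_mul Nat.prime_two).mp h with h | h
    · exact hM h
    · have := (Nat.prime_dvd_prime_iff_eq Nat.prime_two P.pp).1 h
      have := P.hp5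
      omega
  have hcore := (Fermat.Agent.T8.helper7.p2Core_all M P.p 2 Nat.prime_two h2 A hA).1
  exact hne (hcore σ hσ x ⟨1, by rw [pow_one]; exact hV.tors x hx⟩)

/-- the level of a realisation of `E[p]` is even -/
theorem two_dvd_of_freyReal (P : FreyPackage) (W : WeierstrassCurve ℤ) (M : ℕ) [NeZero M]
    (V : AddSubgroup (JZero M)) (hV : FreyReal P W M V) : 2 ∣ M := by
  by_contra h
  exact odd_level_false P W M V hV h

/-- a realisation of `E[p]` at level `M' p` has `2 ∣ M'` -/
theorem two_dvd_of_freyReal_mul (P : FreyPackage) (W : WeierstrassCurve ℤ) (M' : ℕ) [NeZero M']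
    (V : AddSubgroup (JZero (M' * P.p))) (hV : FreyReal P W (M' * P.p) V) : 2 ∣ M' := by
  have h := two_dvd_of_freyReal P W (M' * P.p) V hV
  rcases (Nat.Prime.dvd_mul Nat.prime_two).mp h with h | h
  · exact h
  · have := (Nat.prime_dvd_prime_iff_eq Nat.prime_two P.pp).1 h
    have := P.hp5
    omega

end Fermat.Agent.T8.helper47
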