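import Fermat.Agent.S13.helper5_NodeTwo
import Fermat.Agent.S13.helper64_TorsionCount
import Fermat.Agent.S13.helper1_AtTwo
import Fermat.Agent.T3.helper84_K0Disc

/-!
# T8 (row 38), box [W-RAM2] (helper47): `E[p]` of the Frey curve is RAMIFIED at `2`

The Frey curve `y² + x y = x³ + a₂ x² + a₄ x` has a node at `2` and
`v₂(a₄) = p v₂(b) - 4` is prime to `p`.

* `lad_node`, `torsPoly_eval_zero_of_node` : at the node `x = 0` of a nodal cubic
  (`b₄ = b₆ = b₈ = 0`) the ladder polynomial of `S13.helper64` vanishes;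
* `two_dvd_torsPoly_eval_zero` : the constant term of the `p`-torsion polynomial of the integral
  Frey curve is even;
* `exists_root_lt_one` : a polynomial over an algebraically closed valued field with unit leading
  coefficient and constant term in the maximal ideal has a root in the maximal ideal;
* `exists_torsion_node_two` : there is a nonzero `p`-torsion point `(x, y)` with `v x < 1`;
* `val_a₄_lt_of_torsion` : a nonzero `p`-torsion point with `v x < 1` has `v a₄ < v x`
  (doubling formula; `2 ^ (p - 1) T = T`);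
* `frey_ramified_two` : some element of the inertia group at `2` moves some `p`-torsion point
  (`S13.helper5.frey_not_node_two_of_val` + `T3.helper84.k0_disc`).
-/

set_option autoImplicit false
set_option linter.unusedSectionVars false
set_option linter.unusedVariables false
set_option linter.style.longLine false

namespace Fermat.Agent.T8.helper47

open WeierstrassCurve WeierstrassCurve.Affine Polynomial
open Fermat.Agent.S13.helper64 Fermat.Agent.S05.helper92

/-! ### the ladder at the node -/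

section Ladder

variable {R : Type*} [CommRing R]

/-- at the node `x = 0` of a nodal cubic the ladder states have `X_n = X_{n+1} = 0`, `n ≥ 1` -/
lemma lad_node (b₂ : R) (n : ℕ) (hn : 1 ≤ n) :
    (lad b₂ 0 0 0 0 n).X = 0 ∧ (lad b₂ 0 0 0 0 n).X' = 0 := by
  induction n using Nat.strong_induction_on with
  | _ n ih =>
    rcases Nat.even_or_odd' n with ⟨k, hk | hk⟩
    · subst hk
      have hk1 : 1 ≤ k := by omega
      obtain ⟨h1, h2⟩ := ih k (by omega) hk1
      rw [lad_two_mul]
      constructor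
      · simp [evenStep, dblX, h1]
      · simp [evenStep, oddX, sumNum, oddT, h1, h2]
    · subst hk
      rw [lad_two_mul_add_one]
      rcases Nat.eq_zero_or_pos k with rfl | hk0
      · rw [lad_zero]
        constructor
        · simp [oddStep, oddX, sumNum, oddT]
        · simp [oddStep, dblX]
      · obtain ⟨h1, h2⟩ := ih k (by omega) hk0
        constructor
        · simp [oddStep, oddX, sumNum, oddT, h1, h2]
        · simp [oddStep, dblX, h2]

/-- the torsion polynomial of a nodal cubic vanishes at the node -/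
lemma torsPoly_eval_zero_of_node (W : WeierstrassCurve R) (h4 : W.b₄ = 0) (h6 : W.b₆ = 0)
    (h8 : W.b₈ = 0) (n : ℕ) (hn : 1 ≤ n) : (torsPoly W n).eval 0 = 0 := by
  rw [torsPoly_eval, h4, h6, h8]
  obtain ⟨h1, h2⟩ := lad_node W.b₂ n hn
  simp [oddT, h1, h2]

end Ladder

/-! ### the constant term of the torsion polynomial of the Frey curve -/

/-- the constant term of the `(2 n + 1)`-torsion polynomial of the integral Frey curve is even -/
lemma two_dvd_torsPoly_eval_zero (P : FreyPackage) (n : ℕ) (hn : 1 ≤ n) :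
    (2 : ℤ) ∣ (torsPoly P.freyCurveInt n).eval 0 := by
  have h2 : (2 : ℤ) ∣ P.freyCurveInt.a₄ := Fermat.Agent.S13.helper1.two_dvd_freyCurveInt_a₄ P
  have ha₃ : P.freyCurveInt.a₃ = 0 := rfl
  have ha₆ : P.freyCurveInt.a₆ = 0 := rfl
  have ha₄ : ((P.freyCurveInt.a₄ : ℤ) : ZMod 2) = 0 :=
    (ZMod.intCast_zmod_eq_zero_iff_dvd _ 2).mpr h2
  have h22 : (2 : ZMod 2) = 0 := by decide
  have h42 : (4 : ZMod 2) = 0 := by decide
  have h4 : (P.freyCurveInt.map (Int.castRingHom (ZMod 2))).b₄ = 0 := by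
    rw [WeierstrassCurve.map_b₄]
    have e : P.freyCurveInt.b₄ = 2 * P.freyCurveInt.a₄ := by
      simp only [WeierstrassCurve.b₄, ha₃]
      ring
    rw [e, map_mul, eq_intCast, eq_intCast, ha₄, mul_zero]
  have h6 : (P.freyCurveInt.map (Int.castRingHom (ZMod 2))).b₆ = 0 := by
    rw [WeierstrassCurve.map_b₆]
    have e : P.freyCurveInt.b₆ = 0 := by
      simp only [WeierstrassCurve.b₆, ha₃, ha₆]
      ring
    rw [e, map_zero]
  have h8 : (P.freyCurveInt.map (Int.castRingHom (ZMod 2))).b₈ = 0 := by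
    rw [WeierstrassCurve.map_b₈]
    have e : P.freyCurveInt.b₈ = -(P.freyCurveInt.a₄ ^ 2) := by
      simp only [WeierstrassCurve.b₈, ha₃, ha₆]
      ring
    rw [e, map_neg, map_pow, eq_intCast, ha₄]
    simp
  have h := torsPoly_eval_zero_of_node (P.freyCurveInt.map (Int.castRingHom (ZMod 2))) h4 h6 h8
    n hn
  rw [← torsPoly_map, Polynomial.eval_zero_map, eq_intCast] at h
  exact (ZMod.intCast_zmod_eq_zero_iff_dvd _ 2).mp h

/-! ### a root in the maximal ideal -/

section Root

variable {K : Type*} [Field K] {Γ₀ : Type*} [LinearOrderedCommGroupWithZero Γ₀]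

lemma one_le_val_multiset_prod (v : Valuation K Γ₀) (s : Multiset K) (h : ∀ a ∈ s, 1 ≤ v a) :
    1 ≤ v s.prod := by
  induction s using Multiset.induction_on with
  | empty => simp
  | cons a s ih =>
    rw [Multiset.prod_cons, map_mul]
    calc (1 : Γ₀) = 1 * 1 := (one_mul 1).symm
      _ ≤ v a * v s.prod :=
        mul_le_mul' (h a (Multiset.mem_cons_self a s))
          (ih fun b hb => h b (Multiset.mem_cons_of_mem hb))

/-- a polynomial over an algebraically closed valued field with unit leading coefficient and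
constant term in the maximal ideal has a root in the maximal ideal -/
lemma exists_root_lt_one [IsAlgClosed K] (v : Valuation K Γ₀) (f : K[X])
    (hlead : v f.leadingCoeff = 1) (h0 : v (f.eval 0) < 1) : ∃ r, f.eval r = 0 ∧ v r < 1 := by
  by_contra hcon
  push Not at hcon
  have hf0 : f ≠ 0 := by
    rintro rfl
    rw [leadingCoeff_zero, map_zero] at hlead
    exact zero_ne_one hlead
  have hs := (IsAlgClosed.splits f).coeff_zero_eq_leadingCoeff_mul_prod_roots
  have h1 : 1 ≤ v f.roots.prod :=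
    one_le_val_multiset_prod v _ fun a ha => hcon a ((mem_roots hf0).mp ha)
  rw [← coeff_zero_eq_eval_zero, hs, map_mul, map_mul, map_pow, Valuation.map_neg, map_one,
    one_pow, one_mul, hlead, one_mul] at h0
  exact absurd h1 (not_le.mpr h0)

end Root

/-! ### the doubling formula near the node -/

section Double

variable {K : Type*} [Field K] [DecidableEq K] {Γ₀ : Type*} [LinearOrderedCommGroupWithZero Γ₀]

/-- the points off the node: the origin and the points with `1 ≤ v x` -/
def OffNodeX (v : Valuation K Γ₀) {W : Affine K} : W.Point → Prop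
  | .zero => True
  | .some x _ _ => 1 ≤ v x

/-- the hypotheses: `y² + a₁ x y = x³ + a₂ x² + a₄ x`, integral, `a₄` in the maximal ideal -/
structure NodeCoef (v : Valuation K Γ₀) (W : Affine K) : Prop where
  a₃ : W.a₃ = 0
  a₆ : W.a₆ = 0
  va₁ : v W.a₁ ≤ 1
  va₂ : v W.a₂ ≤ 1
  va₄ : v W.a₄ < 1
  a₄_ne : W.a₄ ≠ 0
  hΔ : W.Δ ≠ 0

variable {v : Valuation K Γ₀} {W : Affine K}

lemma val_four_le_one' (v : Valuation K Γ₀) : v (4 : K) ≤ 1 := by
  have := Fermat.Agent.S13.v_natCast_le_one v 4
  simpa using this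

lemma NodeCoef.vb₂ (hW : NodeCoef v W) : v W.b₂ ≤ 1 := by
  rw [WeierstrassCurve.b₂]
  apply v.map_add_le
  · rw [map_pow]; exact pow_le_one₀ zero_le hW.va₁
  · rw [map_mul]; exact mul_le_one' (val_four_le_one' v) hW.va₂

lemma NodeCoef.dblX_eq (hW : NodeCoef v W) (x : K) :
    dblX W.b₄ W.b₆ W.b₈ x 1 = (x ^ 2 - W.a₄) ^ 2 := by
  simp only [dblX, WeierstrassCurve.b₄, WeierstrassCurve.b₆, WeierstrassCurve.b₈, hW.a₃, hW.a₆]
  ring

lemma NodeCoef.dblZ_eq (hW : NodeCoef v W) (x : K) :
    dblZ W.b₂ W.b₄ W.b₆ x 1 = x * (4 * x ^ 2 + W.b₂ * x + 4 * W.a₄) := by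
  simp only [dblZ, WeierstrassCurve.b₄, WeierstrassCurve.b₆, hW.a₃, hW.a₆]
  ring

/-- the key estimate: `v (dblZ) ≤ v (dblX)` off the open node region -/
lemma NodeCoef.val_dblZ_le (hW : NodeCoef v W) {x : K} (hx : 1 ≤ v x ∨ v x ≤ v W.a₄) :
    v (dblZ W.b₂ W.b₄ W.b₆ x 1) ≤ v (dblX W.b₄ W.b₆ W.b₈ x 1) := by
  rw [hW.dblX_eq, hW.dblZ_eq, map_mul, map_pow]
  have h4 := val_four_le_one' v
  have hb := hW.vb₂
  have ha0 : 0 < v W.a₄ := (Valuation.pos_iff v).mpr hW.a₄_ne
  rcases hx with hx | hx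
  · -- `1 ≤ v x`
    have hx2 : 1 ≤ v x ^ 2 := one_le_pow₀ hx
    have h1 : v (x ^ 2 - W.a₄) = v x ^ 2 := by
      rw [← map_pow]
      apply Valuation.map_sub_eq_of_lt_left
      rw [map_pow]
      exact lt_of_lt_of_le hW.va₄ hx2
    rw [h1]
    have h2 : v (4 * x ^ 2 + W.b₂ * x + 4 * W.a₄) ≤ v x ^ 2 := by
      apply v.map_add_le
      · apply v.map_add_le
        · rw [map_mul, map_pow]
          calc v 4 * v x ^ 2 ≤ 1 * v x ^ 2 := mul_le_mul' h4 le_rfl
            _ = v x ^ 2 := one_mul _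
        · rw [map_mul]
          calc v W.b₂ * v x ≤ 1 * v x := mul_le_mul' hb le_rfl
            _ = v x := one_mul _
            _ = v x * 1 := (mul_one _).symm
            _ ≤ v x * v x := mul_le_mul' le_rfl hx
            _ = v x ^ 2 := (sq _).symm
      · rw [map_mul]
        calc v 4 * v W.a₄ ≤ 1 * 1 := mul_le_mul' h4 hW.va₄.le
          _ = 1 := one_mul _
          _ ≤ v x ^ 2 := hx2
    calc v x * v (4 * x ^ 2 + W.b₂ * x + 4 * W.a₄) ≤ v x ^ 2 * v x ^ 2 :=
          mul_le_mul' (by
            calc v x = v x * 1 := (mul_one _).symm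
              _ ≤ v x * v x := mul_le_mul' le_rfl hx
              _ = v x ^ 2 := (sq _).symm) h2
      _ = (v x ^ 2) ^ 2 := (sq _).symm
  · -- `v x ≤ v a₄`
    have hx1 : v x ≤ 1 := hx.trans hW.va₄.le
    have hxx : v x ^ 2 ≤ v x := by
      calc v x ^ 2 = v x * v x := sq _
        _ ≤ v x * 1 := mul_le_mul' le_rfl hx1
        _ = v x := mul_one _
    have hlt : v x ^ 2 < v W.a₄ := by
      rcases eq_or_lt_of_le (zero_le (a := v x)) with h0 | h0
      · rw [← h0]; simpa using ha0
      · calc v x ^ 2 = v x * v x := sq _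
          _ < v x * 1 := mul_lt_mul_of_pos_left (lt_of_le_of_lt hx hW.va₄) h0
          _ = v x := mul_one _
          _ ≤ v W.a₄ := hx
    have h1 : v (x ^ 2 - W.a₄) = v W.a₄ := by
      apply Valuation.map_sub_eq_of_lt_right
      rw [map_pow]
      exact hlt
    rw [h1]
    have h2 : v (4 * x ^ 2 + W.b₂ * x + 4 * W.a₄) ≤ v W.a₄ := by
      apply v.map_add_le
      · apply v.map_add_le
        · rw [map_mul, map_pow]
          calc v 4 * v x ^ 2 ≤ 1 * v x ^ 2 := mul_le_mul' h4 le_rfl
            _ = v x ^ 2 := one_mul _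
            _ ≤ v W.a₄ := hlt.le
        · rw [map_mul]
          calc v W.b₂ * v x ≤ 1 * v x := mul_le_mul' hb le_rfl
            _ = v x := one_mul _
            _ ≤ v W.a₄ := hx
      · rw [map_mul]
        calc v 4 * v W.a₄ ≤ 1 * v W.a₄ := mul_le_mul' h4 le_rfl
          _ = v W.a₄ := one_mul _
    calc v x * v (4 * x ^ 2 + W.b₂ * x + 4 * W.a₄) ≤ v W.a₄ * v W.a₄ := mul_le_mul' hx h2
      _ = v W.a₄ ^ 2 := (sq _).symm

/-- doubling: a point with `1 ≤ v x` or `v x ≤ v a₄` has its double off the node -/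
lemma NodeCoef.offNodeX_two_nsmul (hW : NodeCoef v W) {x y : K} (h : W.Nonsingular x y)
    (hx : 1 ≤ v x ∨ v x ≤ v W.a₄) : OffNodeX v (2 • Point.some x y h) := by
  have hrep : IsRep (Point.some x y h) x 1 := isRep_some_iff.mpr ⟨one_ne_zero, by ring⟩
  have h2 := hrep.two_nsmul hW.hΔ
  have hle := hW.val_dblZ_le hx
  generalize (2 • Point.some x y h) = Q at h2
  cases Q with
  | zero => exact trivial
  | some x₂ y₂ h₂ =>
    obtain ⟨hZ, hX⟩ := isRep_some_iff.mp h2
    show 1 ≤ v x₂
    rw [hX, map_mul] at hle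
    have hZ0 : 0 < v (dblZ W.b₂ W.b₄ W.b₆ x 1) := (Valuation.pos_iff v).mpr hZ
    by_contra hlt
    rw [not_le] at hlt
    have : v x₂ * v (dblZ W.b₂ W.b₄ W.b₆ x 1) < 1 * v (dblZ W.b₂ W.b₄ W.b₆ x 1) :=
      mul_lt_mul_of_pos_right hlt hZ0
    rw [one_mul] at this
    exact absurd hle (not_le.mpr this)

/-- the doubles of a point off the node are off the node -/
lemma NodeCoef.offNodeX_double (hW : NodeCoef v W) {Q : W.Point} (hQ : OffNodeX v Q) :
    OffNodeX v (2 • Q) := by
  cases Q with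
  | zero =>
    have h0 : (2 : ℕ) • (Point.zero : W.Point) = 0 := smul_zero 2
    rw [h0]; exact trivial
  | some x y h => exact hW.offNodeX_two_nsmul h (Or.inl hQ)

lemma NodeCoef.offNodeX_pow_two (hW : NodeCoef v W) {x y : K} (h : W.Nonsingular x y)
    (hx : 1 ≤ v x ∨ v x ≤ v W.a₄) (j : ℕ) : OffNodeX v (2 ^ (j + 1) • Point.some x y h) := by
  induction j with
  | zero => simpa using hW.offNodeX_two_nsmul h hx
  | succ j ih =>
    have e : 2 ^ (j + 1 + 1) • Point.some x y h = 2 • (2 ^ (j + 1) • Point.some x y h) := by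
      rw [← mul_smul, pow_succ, mul_comm]
    rw [e]
    exact hW.offNodeX_double ih

/-- **the open node region**: a nonzero `p`-torsion point (`p` an odd prime) with `v x < 1` has
`v a₄ < v x`. -/
theorem NodeCoef.val_a₄_lt_of_torsion (hW : NodeCoef v W) {p : ℕ} (hp : p.Prime) (hp2 : p ≠ 2)
    {x y : K} (h : W.Nonsingular x y) (hT : p • Point.some x y h = 0) (hx : v x < 1) :
    v W.a₄ < v x := by
  by_contra hcon
  rw [not_lt] at hcon
  have hp1 : 1 ≤ p - 1 := by have := hp.two_le; omega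
  obtain ⟨j, hj⟩ : ∃ j, p - 1 = j + 1 := ⟨p - 2, by have := hp.two_le; omega⟩
  have hoff := hW.offNodeX_pow_two h (Or.inr hcon) j
  rw [← hj] at hoff
  -- `2 ^ (p - 1) = 1 + p * k`
  have hcop : Nat.Coprime 2 p := by
    rw [Nat.coprime_comm]
    exact (Nat.coprime_primes hp Nat.prime_two).mpr hp2
  have hmod : 2 ^ (p - 1) ≡ 1 [MOD p] := by
    have := Nat.ModEq.pow_totient hcop
    rwa [Nat.totient_prime hp] at this
  have hge : 1 ≤ 2 ^ (p - 1) := Nat.one_le_two_pow
  obtain ⟨k, hk⟩ := (Nat.modEq_iff_dvd' hge).mp hmod.symm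
  have hpow : 2 ^ (p - 1) = 1 + p * k := by omega
  have e : 2 ^ (p - 1) • Point.some x y h = Point.some x y h := by
    rw [hpow, add_smul, one_smul, mul_comm, mul_smul, hT, smul_zero, add_zero]
  rw [e] at hoff
  exact absurd (show 1 ≤ v x from hoff) (not_le.mpr hx)

end Double

/-! ### the Frey curve at `2` -/

section Frey

variable {K : Type*} [Field K] [DecidableEq K] [Algebra ℚ K] [CharZero K]

lemma freyK_Δ_ne_zero (P : FreyPackage) : (freyK P K).Δ ≠ 0 := by
  rw [freyK_eq_map_int, WeierstrassCurve.map_Δ]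
  intro h
  rw [eq_intCast] at h
  exact Fermat.Agent.S04.freyCurveInt_Δ_ne_zero P (by exact_mod_cast h)

/-- the coefficient data of the Frey curve at a place over `2` -/
lemma frey_nodeCoef (P : FreyPackage) (A : ValuationSubring K) (hA : A.LiesOverPrime 2) :
    NodeCoef A.valuation (freyK P K) where
  a₃ := freyK_a₃ P K
  a₆ := freyK_a₆ P K
  va₁ := by rw [freyK_a₁, map_one]
  va₂ := (A.valuation_le_one_iff _).mpr (freyK_a₂_mem P K A)
  va₄ := A.mem_nonunits_iff.mp (Fermat.Agent.S13.helper1.freyK_a₄_mem_nonunits P A hA)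
  a₄_ne := Fermat.Agent.S13.helper1.freyK_a₄_ne_zero P
  hΔ := freyK_Δ_ne_zero P

/-- `p` is a unit at a place over `2` -/
lemma val_p_eq_one (P : FreyPackage) (A : ValuationSubring K) (hA : A.LiesOverPrime 2) :
    A.valuation ((P.p : ℕ) : K) = 1 := by
  have h := valuation_intCast_eq_one_of_not_dvd (L := K) Nat.prime_two hA (n := (P.p : ℤ))
    (by
      intro h
      have h2 : (2 : ℕ) ∣ P.p := by exact_mod_cast h
      have := (Nat.prime_dvd_prime_iff_eq Nat.prime_two P.pp).1 h2
      have := P.hp5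
      omega)
  simpa using h

/-- **a `p`-torsion point at the node at `2`** -/
theorem exists_torsion_node_two [IsAlgClosed K] (P : FreyPackage) (A : ValuationSubring K)
    (hA : A.LiesOverPrime 2) :
    ∃ (x y : K) (h : (freyK P K).Nonsingular x y),
      P.p • Point.some x y h = 0 ∧ A.valuation x < 1 := by
  obtain ⟨n, hn⟩ : ∃ n, P.p = 2 * n + 1 := by
    obtain ⟨n, hn⟩ := P.hp_odd
    exact ⟨n, hn⟩
  have hn1 : 1 ≤ n := by have := P.hp5; omega
  have hpK : ((2 * n + 1 : ℕ) : K) ≠ 0 := by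
    rw [← hn]; exact_mod_cast P.pp.ne_zero
  have hmap : torsPoly (freyK P K) n = (torsPoly P.freyCurveInt n).map (Int.castRingHom K) := by
    rw [torsPoly_map, ← freyK_eq_map_int]
  have h0 : A.valuation ((torsPoly (freyK P K) n).eval 0) < 1 := by
    rw [hmap, Polynomial.eval_zero_map, eq_intCast, ← A.mem_nonunits_iff]
    exact (intCast_mem_nonunits_iff Nat.prime_two hA _).mpr
      (by exact_mod_cast two_dvd_torsPoly_eval_zero P n hn1)
  have hlead : A.valuation (torsPoly (freyK P K) n).leadingCoeff = 1 := by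
    rw [leadingCoeff_torsPoly _ n hpK, Valuation.map_neg]
    have := val_p_eq_one P A hA
    rw [hn] at this
    push_cast at this
    exact this
  obtain ⟨r, hr, hrv⟩ := exists_root_lt_one A.valuation _ hlead h0
  obtain ⟨y, hy⟩ := exists_equation' (freyK P K) r
  have hns : (freyK P K).Nonsingular r y :=
    (equation_iff_nonsingular_of_Δ_ne_zero (freyK_Δ_ne_zero P)).mp hy
  refine ⟨r, y, hns, ?_, hrv⟩
  rw [hn]
  exact (nsmul_eq_zero_iff_eval_torsPoly (freyK P K) (freyK_Δ_ne_zero P) n hns).mpr hr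

/-- a `p`-torsion point strictly inside the node region at `2` -/
theorem exists_torsion_mid_two [IsAlgClosed K] (P : FreyPackage) (A : ValuationSubring K)
    (hA : A.LiesOverPrime 2) :
    ∃ (x y : K) (h : (freyK P K).Nonsingular x y),
      P.p • Point.some x y h = 0 ∧ A.valuation (freyK P K).a₄ < A.valuation x ∧
        A.valuation x < 1 := by
  obtain ⟨x, y, h, hT, hx⟩ := exists_torsion_node_two P A hA
  have hp2 : P.p ≠ 2 := by have := P.hp5; omega
  exact ⟨x, y, h, hT, (frey_nodeCoef P A hA).val_a₄_lt_of_torsion P.pp hp2 h hT hx, hx⟩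

end Frey

/-! ### ramification at `2` -/

/-- **[W-RAM2]**: the `p`-torsion of the Frey curve is ramified at `2`: for every place `A` of
`ℚ̄` over `2` some element of the inertia group of `A` moves some `p`-torsion point. -/
theorem frey_ramified_two (P : FreyPackage) (A : ValuationSubring (AlgebraicClosure ℚ))
    (hA : A.LiesOverPrime 2) :
    ∃ σ ∈ A.inertiaSubgroupIn ℚ,
      ∃ T : ((P.freyCurve : Affine ℚ)⁄(AlgebraicClosure ℚ)).Point,
        (P.p : ℤ) • T = 0 ∧ σ • T ≠ T := by
  obtain ⟨x, y, h, hT, hmid, hx⟩ := exists_torsion_mid_two P A hA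
  by_contra hcon
  push Not at hcon
  have hTz : (P.p : ℤ) • (Point.some x y h :
      ((P.freyCurve : Affine ℚ)⁄(AlgebraicClosure ℚ)).Point) = 0 := by
    rw [natCast_zsmul]; exact hT
  have hfix : ∀ σ ∈ A.inertiaSubgroupIn ℚ, σ x = x := by
    intro σ hσ
    have e := hcon σ hσ _ hTz
    rw [Point.algEquiv_smul_def, Point.map_some, Point.some.injEq] at e
    exact e.1
  have hx0 : x ≠ 0 := by
    rintro rfl
    rw [map_zero] at hmid
    exact absurd hmid (not_lt.mpr zero_le)
  obtain ⟨m, hm⟩ := Fermat.Agent.T3.helper84.k0_disc Nat.prime_two A hA hx0 hfix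
  have h2 : (((2 : ℕ) : AlgebraicClosure ℚ)) = 2 := by norm_num
  rw [h2, map_zpow₀] at hm
  have ht0 : A.valuation (2 : AlgebraicClosure ℚ) ≠ 0 :=
    (Valuation.ne_zero_iff _).mpr two_ne_zero
  refine Fermat.Agent.S13.helper5.frey_not_node_two_of_val P A hA h hT ?_ hmid hx
  rcases Int.le_total 0 m with hm0 | hm0
  · obtain ⟨a, rfl⟩ := Int.eq_ofNat_of_zero_le hm0
    exact ⟨a, 0, by rw [hm, pow_zero, mul_one, zpow_natCast]⟩
  · obtain ⟨b, hb⟩ := Int.eq_ofNat_of_zero_le (neg_nonneg.mpr hm0)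
    have hmb : m = -(b : ℤ) := by omega
    refine ⟨0, b, ?_⟩
    rw [hm, hmb, zpow_neg, zpow_natCast, pow_zero, inv_mul_cancel₀ (pow_ne_zero _ ht0)]

end Fermat.Agent.T8.helper47
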