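import Fermat.Agent.T8.helper47_WMult
import Fermat.Agent.T8.helper72_ChainDefs

/-!
# T8 (row 38), box [W-MULT] (helper47): the contract TRANSPORTED to a realisation of `E[p]`

`wmult_real` : in the vocabulary of the chain (`helper72.FreyReal P W M V`, `V ⊆ J₀(M)` a
Galois-equivariant copy of `E[p]`): for `A` over `p ∣ a b c`, a class `x ∈ V` and `τ` in the
inertia group of `A` with `τ • x ≠ x` there is an INTEGRAL `z`, fixed by every `κ` fixing `x`,
with `v (τ z - z) ^ (p - 1) = v p`; in particular `(τ z - z) ^ (p - 1)` is not `p` times a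
non-unit — the hypotheses `z`, `hzA`, `hz`, `hdepth` of
`helper89.exists_unit_kummer_of_points_pow`.

`wmult_real_cond` : the same with `p ∣ a b c` read off from `P.IsConductorLevel (M' * P.p)`.
-/

set_option autoImplicit false
set_option linter.unusedSectionVars false
set_option linter.unusedVariables false

namespace Fermat.Agent.T8.helper47

open ModularCurve WeierstrassCurve WeierstrassCurve.Affine
open Fermat.Agent.T8.helper72

/-- **[W-MULT] on a realisation of `E[p]`.** -/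
theorem wmult_real (P : FreyPackage) (W : WeierstrassCurve ℤ) (M : ℕ) [NeZero M]
    (V : AddSubgroup (JZero M)) (hV : FreyReal P W M V)
    (hdiv : (P.p : ℤ) ∣ P.a * P.b * P.c)
    (A : ValuationSubring (AlgebraicClosure ℚ)) (hA : A.LiesOverPrime P.p)
    (x : JZero M) (hx : x ∈ V) (τ : AlgebraicClosure ℚ ≃ₐ[ℚ] AlgebraicClosure ℚ)
    (hτ : τ ∈ A.inertiaSubgroupIn ℚ) (hne : τ • x ≠ x) :
    ∃ z ∈ A, (∀ κ : AlgebraicClosure ℚ ≃ₐ[ℚ] AlgebraicClosure ℚ, κ • x = x → κ z = z) ∧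
      A.valuation (τ z - z) ^ (P.p - 1) = A.valuation ((P.p : ℕ) : AlgebraicClosure ℚ) ∧
      ¬ ∃ w ∈ A.nonunits, (τ z - z) ^ (P.p - 1) = ((P.p : ℕ) : AlgebraicClosure ℚ) * w := by
  obtain ⟨e, he⟩ := hV.iso
  obtain ⟨T, hT⟩ : ∃ T : FreyTors P, e T = ⟨x, hx⟩ := ⟨e.symm ⟨x, hx⟩, e.apply_symm_apply _⟩
  have hTx : ((e T : V) : JZero M) = x := by rw [hT]
  have hfix : ∀ κ : AlgebraicClosure ℚ ≃ₐ[ℚ] AlgebraicClosure ℚ, κ • x = x →
      κ • (T : ((P.freyCurve : Affine ℚ)⁄(AlgebraicClosure ℚ)).Point) = T := by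
    intro κ hκ
    have h1 : e (κ • T) = e T := by
      apply Subtype.ext
      rw [he κ T, hTx, hκ]
    have h2 : κ • T = T := e.injective h1
    exact congrArg Subtype.val h2
  have hTp : (P.p : ℤ) • (T : ((P.freyCurve : Affine ℚ)⁄(AlgebraicClosure ℚ)).Point) = 0 := by
    have := T.2
    rw [Submodule.mem_torsionBy_iff] at this
    exact this
  have hneT : τ • (T : ((P.freyCurve : Affine ℚ)⁄(AlgebraicClosure ℚ)).Point) ≠ T := by
    intro h
    apply hne
    have h2 : τ • T = T := Subtype.ext h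
    have h3 := he τ T
    rw [h2, hTx] at h3
    exact h3.symm
  obtain ⟨z, hzA, hz, hval⟩ := wMult P A hA hdiv T hTp τ hτ hneT
  refine ⟨z, hzA, fun κ hκ => hz κ (hfix κ hκ), hval, ?_⟩
  obtain ⟨z', hzA', hz', hval'⟩ : ∃ z' ∈ A, z' = z ∧
      ¬ ∃ w ∈ A.nonunits, (τ z' - z') ^ (P.p - 1) = ((P.p : ℕ) : AlgebraicClosure ℚ) * w := by
    refine ⟨z, hzA, rfl, ?_⟩
    rintro ⟨w, hw, he'⟩
    have h1 := congrArg A.valuation he'
    rw [map_pow, hval, map_mul] at h1
    have hw1 : A.valuation w < 1 := (ValuationSubring.mem_nonunits_iff A).mp hw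
    have hp0 : A.valuation ((P.p : ℕ) : AlgebraicClosure ℚ) ≠ 0 := by
      rw [ne_eq, map_eq_zero]
      exact_mod_cast P.pp.ne_zero
    have h2 : A.valuation ((P.p : ℕ) : AlgebraicClosure ℚ) * A.valuation w
        < A.valuation ((P.p : ℕ) : AlgebraicClosure ℚ) := by
      calc A.valuation ((P.p : ℕ) : AlgebraicClosure ℚ) * A.valuation w
          < A.valuation ((P.p : ℕ) : AlgebraicClosure ℚ) * 1 :=
            mul_lt_mul_of_pos_left hw1 (zero_lt_iff.mpr hp0)
        _ = _ := mul_one _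
    rw [← h1] at h2
    exact lt_irrefl _ h2
  rw [hz'] at hval'
  exact hval'

/-- **[W-MULT] on a realisation**, with `p ∣ a b c` read off from the conductor level. -/
theorem wmult_real_cond (P : FreyPackage) (W : WeierstrassCurve ℤ) (M' : ℕ) (M : ℕ) [NeZero M]
    (hcond : P.IsConductorLevel (M' * P.p))
    (V : AddSubgroup (JZero M)) (hV : FreyReal P W M V)
    (A : ValuationSubring (AlgebraicClosure ℚ)) (hA : A.LiesOverPrime P.p)
    (x : JZero M) (hx : x ∈ V) (τ : AlgebraicClosure ℚ ≃ₐ[ℚ] AlgebraicClosure ℚ)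
    (hτ : τ ∈ A.inertiaSubgroupIn ℚ) (hne : τ • x ≠ x) :
    ∃ z ∈ A, (∀ κ : AlgebraicClosure ℚ ≃ₐ[ℚ] AlgebraicClosure ℚ, κ • x = x → κ z = z) ∧
      A.valuation (τ z - z) ^ (P.p - 1) = A.valuation ((P.p : ℕ) : AlgebraicClosure ℚ) ∧
      ¬ ∃ w ∈ A.nonunits, (τ z - z) ^ (P.p - 1) = ((P.p : ℕ) : AlgebraicClosure ℚ) * w :=
  wmult_real P W M V hV (hcond.p_dvd_abc (dvd_mul_left _ _)) A hA x hx τ hτ hne

end Fermat.Agent.T8.helper47
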