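import Fermat.Agent.T8.helper23_DictLocX
import Fermat.Agent.T8.helper16_RingXNoeth
import Fermat.Agent.T8.helper48_VertInst
import Fermat.Agent.T3.helper48_CompleteA
import Fermat.Agent.T3.helper98_Hnu
import Fermat.Agent.T2.helper96_ValBase

/-!
# T8 (row 38, at risk), [CUSP-GAP], sub-leaf [CUSP-A] (helper48): automorphisms of `X₀(N q)`
preserve the first component

Level `N q` (`q` prime, `q ∤ N`), `A` over `q`, `W = atkinLehner N q`, `R⁰ = ringX` (helper16).
`W'` a `ℚ̄`-automorphism of `FF (N q)` (in the application the Atkin–Lehner involution `W_D` at an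
exact divisor `D` of `N`, `T3.helper48.atkinLehnerM`) which is an involution, commutes with the
Galois action and with `W`, and maps `j ↦ j_d`, `j_q ↦ j_{d q}` for a divisor `d` of `N`
(`CuspAut`).

* `gauss_nonneg_of_monic` : a series with a Gauss value `q ^ m` which satisfies a monic equation
  with `A`-integral coefficients has `m ≥ 0`.
* `CuspAut.mem_ringX` : **`W' (R⁰) ⊆ R⁰`**.
* `div_q_mem_ringX` : **`ker red₁ ∩ ker red₂ = q R⁰`**.
* `CuspAut.red1X_eq_zero` : **`red₁ g = 0 ⟹ red₁ (W' g) = 0`** (no valuation theory, no unit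
  `b₀`: multiply by `y₀ = j - j_q ^ q ∈ ker red₂`, whose image has nonzero first reduction).
* `CuspAut.red1X_eq_zero_iff`, `CuspAut.red2X_eq_zero_iff`.
-/

set_option autoImplicit false
set_option synthInstance.maxHeartbeats 400000
set_option maxHeartbeats 1000000
set_option linter.unusedSectionVars false
set_option linter.unusedVariables false
set_option linter.style.haveILetI false
set_option linter.style.longLine false

noncomputable section

open HahnSeries IntermediateField AlgebraicCurve ModularCurve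
open Fermat.Agent.S18.helper19 Fermat.Agent.P2.helper29 Fermat.Agent.T2.helper36

namespace Fermat.Agent.T8.helper48

open Fermat.Agent.T3.helper74 (IsFixI)
open Fermat.Agent.T3.helper36 (RhoQ GaussIs)
open Fermat.Agent.T3.helper98 (IsRegJ)
open Fermat.Agent.T8.helper63 (IsRX)
open Fermat.Agent.T8.helper16 (ringX red1X red2X mem_ringX isRX_model red1X_eq red2X_eq)

/-! ### Gauss-integrality from a monic equation -/

section Monic

variable {A : ValuationSubring Kb} {q : ℕ}

/-- a series with a Gauss value `q ^ m` which satisfies a monic equation with `A`-integral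
coefficients has `m ≥ 0`. -/
theorem gauss_nonneg_of_monic (hA : A.LiesOverPrime q) {E : LaurentSeries Kb} {m : ℤ}
    (hE : GaussIs A E ((q : Kb) ^ m)) (P : Polynomial (LaurentSeries A)) (hP : P.Monic)
    (h0 : Polynomial.eval₂ (incl A) E P = 0) : 0 ≤ m := by
  by_contra hm
  rw [not_le] at hm
  have hE0 : E ≠ 0 := hE.ne_zero
  have hinv : GaussIs A E⁻¹ ((q : Kb) ^ (-m)) := by
    have := hE.inv
    rwa [← zpow_neg] at this
  have hr0 : RhoQ A E⁻¹ 0 := rhoQ_zero_of_gaussIs_pos hA (by omega) hinv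
  set n := P.natDegree with hn
  have hsum : ∑ i ∈ Finset.range (n + 1), incl A (P.coeff i) * E ^ i = 0 := by
    rw [← Polynomial.eval₂_eq_sum_range]
    exact h0
  have hsum' : ∑ i ∈ Finset.range (n + 1), incl A (P.coeff i) * E⁻¹ ^ (n - i) = 0 := by
    have h1 : (∑ i ∈ Finset.range (n + 1), incl A (P.coeff i) * E ^ i) * E⁻¹ ^ n = 0 := by
      rw [hsum, zero_mul]
    rw [Finset.sum_mul] at h1
    rw [← h1]
    refine Finset.sum_congr rfl fun i hi => ?_
    have hi' : i ≤ n := Nat.lt_succ_iff.mp (Finset.mem_range.mp hi)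
    have e : E ^ i * E⁻¹ ^ n = E⁻¹ ^ (n - i) := by
      have h2 : E⁻¹ ^ n = E⁻¹ ^ (n - i) * E⁻¹ ^ i := by
        rw [← _root_.pow_add, Nat.sub_add_cancel hi']
      rw [h2, mul_comm (E⁻¹ ^ (n - i)), ← mul_assoc, ← mul_pow, mul_inv_cancel₀ hE0, one_pow,
        one_mul]
    rw [mul_assoc, e]
  have hrho : RhoQ A (∑ i ∈ Finset.range (n + 1), incl A (P.coeff i) * E⁻¹ ^ (n - i))
      (∑ i ∈ Finset.range (n + 1), red A (P.coeff i) * (0 : LaurentSeries (kA A)) ^ (n - i)) :=
    RhoQ.sum _ fun i _ => (Fermat.Agent.T3.helper36.rhoQ_incl (P.coeff i)).mul (hr0.pow _)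
  rw [hsum'] at hrho
  have hval : ∑ i ∈ Finset.range (n + 1),
      red A (P.coeff i) * (0 : LaurentSeries (kA A)) ^ (n - i) = 1 := by
    rw [Finset.sum_range_succ]
    have h3 : ∑ i ∈ Finset.range n, red A (P.coeff i) * (0 : LaurentSeries (kA A)) ^ (n - i)
        = 0 := by
      refine Finset.sum_eq_zero fun i hi => ?_
      have hi' : i < n := Finset.mem_range.mp hi
      rw [zero_pow (by omega), mul_zero]
    rw [h3, zero_add, Nat.sub_self, pow_zero, mul_one]
    have h4 : P.coeff n = 1 := hP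
    rw [h4, map_one]
  rw [hval] at hrho
  exact one_ne_zero hrho.eq_zero

end Monic

/-! ### Integrality of the expansions of `θ g` -/

section Aut

variable {A : ValuationSubring Kb} {M : ℕ} [NeZero M]

/-- the expansion of `θ f` -/
def exAut (θ : FF M ≃ₐ[Kb] FF M) : FF M →+* LaurentSeries Kb :=
  (algebraMap (FF M) (LaurentSeries Kb)).comp (θ : FF M →+* FF M)

theorem exAut_apply (θ : FF M ≃ₐ[Kb] FF M) (f : FF M) :
    exAut θ f = ((θ f : FF M) : LaurentSeries Kb) := rfl

theorem exAut_comp_evX (θ : FF M ≃ₐ[Kb] FF M) (J : LaurentSeries A)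
    (hJ : incl A J = ((θ (Fermat.Agent.S24.xJ M) : FF M) : LaurentSeries Kb)) :
    (exAut θ).comp (Fermat.Agent.P2.helper81.evX A M)
      = (incl A).comp ((Polynomial.aeval J : Polynomial A →ₐ[A] LaurentSeries A) :
          Polynomial A →+* LaurentSeries A) := by
  apply Polynomial.ringHom_ext
  · intro a
    simp only [RingHom.coe_comp, Function.comp_apply, RingHom.coe_coe, Polynomial.aeval_C]
    rw [Fermat.Agent.P2.helper81.evX_C, exAut_apply, AlgEquiv.commutes]
    rw [Fermat.Agent.S28.helper25.coeffMap_algebraMap_laurent]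
    rfl
  · simp only [RingHom.coe_comp, Function.comp_apply, RingHom.coe_coe, Polynomial.aeval_X]
    rw [Fermat.Agent.P2.helper81.evX_X, exAut_apply, hJ]

/-- the Gauss value of the image under `θ` of a function which is integral over `A[j]` is
`≥ 0`, when the expansion of `θ j` is `A`-integral. -/
theorem gauss_nonneg_of_aut {q : ℕ} (hA : A.LiesOverPrime q) (θ : FF M ≃ₐ[Kb] FF M)
    (J : LaurentSeries A)
    (hJ : incl A J = ((θ (Fermat.Agent.S24.xJ M) : FF M) : LaurentSeries Kb))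
    {g : FF M} (hg : (Fermat.Agent.P2.helper81.evX A M).IsIntegralElem g) {m : ℤ}
    (hm : GaussIs A ((θ g : FF M) : LaurentSeries Kb) ((q : Kb) ^ m)) : 0 ≤ m := by
  obtain ⟨p, hp, hp0⟩ := hg
  have h1 := congrArg (exAut θ) hp0
  rw [Polynomial.hom_eval₂, map_zero, exAut_comp_evX θ J hJ] at h1
  refine gauss_nonneg_of_monic hA hm
    (p.map ((Polynomial.aeval J : Polynomial A →ₐ[A] LaurentSeries A) :
      Polynomial A →+* LaurentSeries A)) (hp.map _) ?_
  rw [Polynomial.eval₂_map]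
  exact h1

end Aut

/-! ### The ring `R⁰` is stable under `θ` -/

section Stable

variable {N q : ℕ} [NeZero N] [NeZero q] {hq : q.Prime} {hqN : ¬ q ∣ N}
variable {A : ValuationSubring Kb}

/-- a function which is `I`-fixed, regular where `j` is finite, with Gauss value `≥ 0` at the
first expansion has an `A`-integral first expansion. -/
theorem exists_incl_of_gauss (hq : q.Prime) (hqN : ¬ q ∣ N) (hA : A.LiesOverPrime q)
    {f : FF (N * q)}
    (hfix : IsFixI A (N * q) f) (hreg : IsRegJ (N * q) f)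
    (h : ∀ m : ℤ, GaussIs A (f : LaurentSeries Kb) ((q : Kb) ^ m) → 0 ≤ m) :
    ∃ Y : LaurentSeries A, incl A Y = (f : LaurentSeries Kb) := by
  rcases eq_or_ne f 0 with rfl | hf0
  · exact ⟨0, by rw [map_zero]; rfl⟩
  have hSC : ScaleStatement (N * q) A :=
    Fermat.Agent.T2.helper58.scaleStatement_bad N q hq hqN A hA
  obtain ⟨m, hm⟩ := Fermat.Agent.T3.helper5.gaussIs_fixI hq hA hSC hf0 hfix
  have hm0 := h m hm
  obtain ⟨k, hk⟩ : ∃ k : ℕ, m = (k : ℤ) := ⟨m.toNat, by omega⟩
  rw [hk, zpow_natCast] at hm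
  obtain ⟨r, U₁, U₂, hU2, hU, -⟩ := Fermat.Agent.T8.helper63.exists_rhoQ_of_gaussIs_natPow A hm
  have hx : Fermat.Agent.S24.xJ (N * q) = jElt (N * q) :=
    (Fermat.Agent.T3.helper48.jElt_eq_xJ (M := N * q)).symm
  exact Fermat.Agent.T2.helper45.integrality_of_isQuotInt (N * q) A
    (f : LaurentSeries Kb) f.2
    (fun Q hQ => by
      rw [hx] at hQ
      exact hreg Q hQ) ⟨U₁, U₂, hU2, hU⟩

/-- **the expansion of `θ g`, `g ∈ R⁰`, is `A`-integral** for an automorphism `θ` which commutes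
with the Galois action, when `θ j` has an `A`-integral expansion and `θ g` is regular where `j`
is finite. -/
theorem exists_incl_of_aut (hA : A.LiesOverPrime q) (θ : FF (N * q) ≃ₐ[Kb] FF (N * q))
    (hgal : ∀ (σ : Kb ≃ₐ[ℚ] Kb) (x : FF (N * q)),
      θ (arithmeticRingAut (modularFunctionFieldFull (N * q)) σ x)
        = arithmeticRingAut (modularFunctionFieldFull (N * q)) σ (θ x))
    (J : LaurentSeries A)
    (hJ : incl A J = ((θ (Fermat.Agent.S24.xJ (N * q)) : FF (N * q)) : LaurentSeries Kb))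
    {g : FF (N * q)} (hg : g ∈ ringX A hq hqN) (hreg : IsRegJ (N * q) (θ g)) :
    ∃ Y : LaurentSeries A, incl A Y = ((θ g : FF (N * q)) : LaurentSeries Kb) := by
  obtain ⟨Y₁, Y₂, hfix, hregg, hY₁, hY₂⟩ := hg
  have hint : (Fermat.Agent.P2.helper81.evX A (N * q)).IsIntegralElem g :=
    Fermat.Agent.T3.helper48.isIntegralElem_level_q A N q hq hqN hA g ⟨Y₁, hY₁⟩ ⟨Y₂, hY₂⟩
      (Fermat.Agent.T3.helper98.isIntegralElem_evK_of_isRegJ (N * q) hregg)
  refine exists_incl_of_gauss hq hqN hA ?_ hreg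
    (fun m hm => gauss_nonneg_of_aut hA θ J hJ hint hm)
  intro σ hσ
  rw [← hgal, hfix σ hσ]

end Stable

/-! ### `ker red₁ ∩ ker red₂ = q R⁰` -/

section DivQ

variable {N q : ℕ} [NeZero N] [NeZero q] {hq : q.Prime} {hqN : ¬ q ∣ N}
variable {A : ValuationSubring Kb}

/-- the constant `1 / q` of the function field -/
def invQ (N q : ℕ) [NeZero N] [NeZero q] : FF (N * q) := algebraMap Kb (FF (N * q)) ((q : Kb)⁻¹)

theorem coe_invQ_mul (g : FF (N * q)) :
    ((invQ N q * g : FF (N * q)) : LaurentSeries Kb)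
      = algebraMap Kb (LaurentSeries Kb) ((q : Kb)⁻¹) * (g : LaurentSeries Kb) := rfl

theorem isFixI_invQ : IsFixI A (N * q) (invQ N q) := by
  intro σ _
  have e : invQ N q = ((q : FF (N * q)))⁻¹ := by
    show algebraMap Kb (FF (N * q)) ((q : Kb)⁻¹) = _
    rw [map_inv₀, map_natCast]
  rw [e, map_inv₀, map_natCast]

theorem q_mul_invQ (hq : q.Prime) (g : FF (N * q)) :
    algebraMap Kb (FF (N * q)) (q : Kb) * (invQ N q * g) = g := by
  have hq0 : (q : Kb) ≠ 0 := Nat.cast_ne_zero.2 hq.ne_zero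
  rw [← mul_assoc]
  show (algebraMap Kb (FF (N * q)) (q : Kb) * algebraMap Kb (FF (N * q)) ((q : Kb)⁻¹)) * g = g
  rw [← map_mul, mul_inv_cancel₀ hq0, map_one, one_mul]

/-- a function which is `I`-fixed, regular where `j` is finite, with an `A`-integral first
expansion with reduction `0`: the first expansion of `g / q` is `A`-integral. -/
theorem exists_incl_invQ (hq : q.Prime) (hqN : ¬ q ∣ N) (hA : A.LiesOverPrime q)
    {g : FF (N * q)} (hfix : IsFixI A (N * q) g) (hreg : IsRegJ (N * q) g)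
    (Y : LaurentSeries A) (hY : incl A Y = (g : LaurentSeries Kb)) (h0 : red A Y = 0) :
    ∃ Z : LaurentSeries A, incl A Z = ((invQ N q * g : FF (N * q)) : LaurentSeries Kb) := by
  have hq0 : (q : Kb) ≠ 0 := Nat.cast_ne_zero.2 hq.ne_zero
  refine exists_incl_of_gauss hq hqN hA
    (Fermat.Agent.T3.helper98.isFixI_mul A isFixI_invQ hfix)
    ((Fermat.Agent.T3.helper98.isRegJ_algebraMap _).mul hreg) (fun m hm => ?_)
  rw [coe_invQ_mul] at hm
  have h1 := hm.const_mul hq0
  rw [← mul_assoc, ← map_mul, mul_inv_cancel₀ hq0, map_one, one_mul] at h1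
  have e : (q : Kb) * (q : Kb) ^ m = (q : Kb) ^ (m + 1) := by
    rw [zpow_add₀ hq0, zpow_one, mul_comm]
  rw [e] at h1
  have hr : RhoQ A (g : LaurentSeries Kb) 0 := by
    have := Fermat.Agent.T3.helper36.rhoQ_incl (A := A) Y
    rwa [hY, h0] at this
  have := Fermat.Agent.T8.helper63.one_le_of_gaussIs_of_red_zero A h1 hr
  omega

/-- **`ker red₁ ∩ ker red₂ = q R⁰`**. -/
theorem invQ_mul_mem_ringX (hA : A.LiesOverPrime q) (g : ringX A hq hqN)
    (h1 : red1X A hq hqN g = 0) (h2 : red2X A hq hqN g = 0) :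
    invQ N q * (g : FF (N * q)) ∈ ringX A hq hqN := by
  have hg := isRX_model g
  rw [red1X_eq hg] at h1
  rw [red2X_eq hg] at h2
  obtain ⟨hfix, hreg, hY₁, hY₂⟩ := hg
  obtain ⟨Z₁, hZ₁⟩ := exists_incl_invQ hq hqN hA hfix hreg _ hY₁ h1
  obtain ⟨Z₂, hZ₂⟩ := exists_incl_invQ hq hqN hA
    (Fermat.Agent.T3.helper98.isFixI_atkinLehner A hfix)
    (Fermat.Agent.T3.helper98.isRegJ_atkinLehner (hq := hq) (hqN := hqN) hreg) _ hY₂ h2
  refine ⟨Z₁, Z₂, Fermat.Agent.T3.helper98.isFixI_mul A isFixI_invQ hfix,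
    (Fermat.Agent.T3.helper98.isRegJ_algebraMap _).mul hreg, hZ₁, ?_⟩
  rw [hZ₂, map_mul]
  congr 2
  exact (AlgEquiv.commutes _ _).symm

/-- the first reduction of a multiple of `q` is `0` -/
theorem red1X_q_mul (hA : A.LiesOverPrime q) (h : ringX A hq hqN) (g : ringX A hq hqN)
    (e : (g : FF (N * q)) = algebraMap Kb (FF (N * q)) (q : Kb) * (h : FF (N * q))) :
    red1X A hq hqN g = 0 := by
  have hh := isRX_model h
  have hqA : (q : Kb) ∈ A := Fermat.Agent.T8.helper63.natCast_mem_A A q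
  have hc : IsRX A hq hqN (algebraMap Kb (FF (N * q)) (q : Kb))
      (HahnSeries.C (⟨(q : Kb), hqA⟩ : A)) (HahnSeries.C (⟨(q : Kb), hqA⟩ : A)) := by
    refine ⟨?_, Fermat.Agent.T3.helper98.isRegJ_algebraMap _,
      Fermat.Agent.T2.helper22.isRep_algebraMap (⟨(q : Kb), hqA⟩ : A)⟩
    intro σ _
    rw [map_natCast, map_natCast]
  have hg : IsRX A hq hqN (g : FF (N * q))
      (HahnSeries.C (⟨(q : Kb), hqA⟩ : A) * Fermat.Agent.T8.helper16.model1 h)
      (HahnSeries.C (⟨(q : Kb), hqA⟩ : A) * Fermat.Agent.T8.helper16.model2 h) := by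
    rw [e]
    exact hc.mul hh
  rw [red1X_eq hg, map_mul]
  have h0 : red A (HahnSeries.C (⟨(q : Kb), hqA⟩ : A)) = 0 := by
    have hres : IsLocalRing.residue A ⟨(q : Kb), hqA⟩ = 0 := by
      rw [IsLocalRing.residue_eq_zero_iff]
      exact (A.valuation_lt_one_iff (⟨(q : Kb), hqA⟩ : A)).2 (A.mem_nonunits_iff.mp hA)
    rw [Fermat.Agent.T2.helper22.red_C, hres, map_zero]
  rw [h0, zero_mul]

end DivQ

/-! ### The automorphism `W'` -/

section Cusp

variable {N q : ℕ} [NeZero N] [NeZero q] {hq : q.Prime} {hqN : ¬ q ∣ N}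
variable {A : ValuationSubring Kb}

/-- **the hypotheses on the automorphism `W'`** of the function field of `X₀(N q)`: it commutes
with the Galois action, preserves the functions which are regular where `j` is finite, maps
`j ↦ j_d = j(t^d)` and `j_q = W j ↦ j_{d q}`, and the second expansion of `W' j` is
`A`-integral. -/
structure CuspAut (A : ValuationSubring Kb) (hq : q.Prime) (hqN : ¬ q ∣ N) (d : ℕ) [NeZero d]
    (W' : FF (N * q) ≃ₐ[Kb] FF (N * q)) : Prop where
  gal : ∀ (σ : Kb ≃ₐ[ℚ] Kb) (x : FF (N * q)),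
    W' (arithmeticRingAut (modularFunctionFieldFull (N * q)) σ x)
      = arithmeticRingAut (modularFunctionFieldFull (N * q)) σ (W' x)
  reg : ∀ g : FF (N * q), IsRegJ (N * q) g → IsRegJ (N * q) (W' g)
  exp_j : ((W' (Fermat.Agent.S24.xJ (N * q)) : FF (N * q)) : LaurentSeries Kb)
    = qExpand Kb d (jqModC Kb)
  exp_jq : ((W' (atkinLehner N q hq hqN (Fermat.Agent.S24.xJ (N * q))) : FF (N * q)) :
      LaurentSeries Kb) = qExpand Kb d (qExpand Kb q (jqModC Kb))
  int2 : ∃ J : LaurentSeries A, incl A J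
    = ((atkinLehner N q hq hqN (W' (Fermat.Agent.S24.xJ (N * q))) : FF (N * q)) :
        LaurentSeries Kb)

variable {d : ℕ} [NeZero d] {W' : FF (N * q) ≃ₐ[Kb] FF (N * q)}

theorem incl_qExpand_jqModC (d : ℕ) [NeZero d] :
    incl A (qExpand A d (jqModC A)) = qExpand Kb d (jqModC Kb) := by
  show coeffMap A.subtype (qExpand A d (jqModC A)) = _
  rw [Fermat.Agent.P2.helper94.coeffMap_qExpand, coeffMap_jqModC]

theorem red_qExpand_jqModC (d : ℕ) [NeZero d] :
    red A (qExpand A d (jqModC A)) = qExpand (kA A) d (jqModC (kA A)) := by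
  show coeffMap (IsLocalRing.residue A) (qExpand A d (jqModC A)) = _
  rw [Fermat.Agent.P2.helper94.coeffMap_qExpand, coeffMap_jqModC]

/-- **`W' (R⁰) ⊆ R⁰`**. -/
theorem CuspAut.mem_ringX (h : CuspAut A hq hqN d W') (hA : A.LiesOverPrime q)
    {g : FF (N * q)} (hg : g ∈ ringX A hq hqN) : W' g ∈ ringX A hq hqN := by
  have hfix : IsFixI A (N * q) (W' g) := by
    obtain ⟨_, _, hfix, -⟩ := hg
    intro σ hσ
    rw [← h.gal, hfix σ hσ]
  have hreg : IsRegJ (N * q) (W' g) := by
    obtain ⟨_, _, -, hreg, -⟩ := hg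
    exact h.reg g hreg
  obtain ⟨Y₁, hY₁⟩ := exists_incl_of_aut hA W' h.gal (qExpand A d (jqModC A))
    ((incl_qExpand_jqModC d).trans h.exp_j.symm) hg hreg
  obtain ⟨J₂, hJ₂⟩ := h.int2
  obtain ⟨Y₂, hY₂⟩ := exists_incl_of_aut hA (W'.trans (atkinLehner N q hq hqN))
    (fun σ x => by
      show atkinLehner N q hq hqN (W' _) = _
      rw [h.gal, atkinLehner_arithmeticRingAut]
      rfl) J₂ hJ₂ hg
    (Fermat.Agent.T3.helper98.isRegJ_atkinLehner (hq := hq) (hqN := hqN) hreg)
  exact ⟨Y₁, Y₂, hfix, hreg, hY₁, hY₂⟩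

/-- the restriction of `W'` to the ring `R⁰` -/
def CuspAut.ringHom (h : CuspAut A hq hqN d W') (hA : A.LiesOverPrime q) :
    ringX A hq hqN →+* ringX A hq hqN where
  toFun g := ⟨W' g, h.mem_ringX hA g.2⟩
  map_one' := Subtype.ext (map_one W')
  map_mul' f g := Subtype.ext (map_mul W' _ _)
  map_zero' := Subtype.ext (map_zero W')
  map_add' f g := Subtype.ext (map_add W' _ _)

@[simp]
theorem CuspAut.coe_ringHom (h : CuspAut A hq hqN d W') (hA : A.LiesOverPrime q)
    (g : ringX A hq hqN) : ((h.ringHom hA g : ringX A hq hqN) : FF (N * q)) = W' g := rfl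

theorem red1X_eq_of_incl (g : ringX A hq hqN) (Z : LaurentSeries A)
    (hZ : incl A Z = ((g : FF (N * q)) : LaurentSeries Kb)) : red1X A hq hqN g = red A Z := by
  have hg := isRX_model g
  rw [red1X_eq hg]
  congr 1
  exact Fermat.Agent.T2.helper36.incl_injective_val A (hg.2.2.1.trans hZ.symm)

theorem red2X_eq_of_incl (g : ringX A hq hqN) (Z : LaurentSeries A)
    (hZ : incl A Z = ((atkinLehner N q hq hqN (g : FF (N * q)) : FF (N * q)) :
      LaurentSeries Kb)) : red2X A hq hqN g = red A Z := by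
  have hg := isRX_model g
  rw [red2X_eq hg]
  congr 1
  exact Fermat.Agent.T2.helper36.incl_injective_val A (hg.2.2.2.trans hZ.symm)

/-! ### The function `y₀ = j - j_q ^ q` -/

/-- `j ∈ R⁰` -/
def jX (A : ValuationSubring Kb) (hq : q.Prime) (hqN : ¬ q ∣ N) : ringX A hq hqN := ⟨Fermat.Agent.S24.xJ (N * q), Fermat.Agent.T8.helper16.xJ_mem_ringX⟩

/-- `j_q = W j ∈ R⁰` -/
def jqX (A : ValuationSubring Kb) (hq : q.Prime) (hqN : ¬ q ∣ N) : ringX A hq hqN :=
  ⟨atkinLehner N q hq hqN (Fermat.Agent.S24.xJ (N * q)), by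
    obtain ⟨Y₁, Y₂, h⟩ := (Fermat.Agent.T8.helper16.xJ_mem_ringX :
      Fermat.Agent.S24.xJ (N * q) ∈ ringX A hq hqN)
    exact ⟨Y₂, Y₁, h.swap⟩⟩

/-- `y₀ = j - j_q ^ q ∈ R⁰` -/
def yZero (A : ValuationSubring Kb) (hq : q.Prime) (hqN : ¬ q ∣ N) : ringX A hq hqN :=
  jX A hq hqN - jqX A hq hqN ^ q

theorem coe_jX : ((jX A hq hqN : ringX A hq hqN) : FF (N * q)) = Fermat.Agent.S24.xJ (N * q) :=
  rfl

theorem coe_jqX : ((jqX A hq hqN : ringX A hq hqN) : FF (N * q))
    = atkinLehner N q hq hqN (Fermat.Agent.S24.xJ (N * q)) := rfl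

theorem coe_atkinLehner_xJ :
    ((atkinLehner N q hq hqN (Fermat.Agent.S24.xJ (N * q)) : FF (N * q)) : LaurentSeries Kb)
      = qExpand Kb q (jqModC Kb) := by
  rw [← Fermat.Agent.P2.helper93.alpha_xJ (N := N) (ℓ := q), atkinLehner_heckeAlphaBar,
    coe_heckeBetaBar]
  congr 1
  exact Fermat.Agent.T3.helper98.coe_xJ' N

theorem red1X_jX : red1X A hq hqN (jX A hq hqN) = jqModC (kA A) := by
  rw [red1X_eq_of_incl (jX A hq hqN) (jqModC A)
    ((coeffMap_jqModC _).trans (Fermat.Agent.T3.helper98.coe_xJ' (N * q)).symm)]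
  exact coeffMap_jqModC _

theorem red2X_jX : red2X A hq hqN (jX A hq hqN) = qExpand (kA A) q (jqModC (kA A)) := by
  rw [red2X_eq_of_incl (jX A hq hqN) (qExpand A q (jqModC A))
    ((incl_qExpand_jqModC q).trans coe_atkinLehner_xJ.symm)]
  exact red_qExpand_jqModC q

theorem red2X_jqX : red2X A hq hqN (jqX A hq hqN) = jqModC (kA A) := by
  rw [red2X_eq_of_incl (jqX A hq hqN) (jqModC A) (by
    rw [coe_jqX, atkinLehner_atkinLehner]
    exact (coeffMap_jqModC _).trans (Fermat.Agent.T3.helper98.coe_xJ' (N * q)).symm)]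
  exact coeffMap_jqModC _

/-- **`red₂ y₀ = 0`** (Frobenius). -/
theorem red2X_yZero (hA : A.LiesOverPrime q) : red2X A hq hqN (yZero A hq hqN) = 0 := by
  haveI : Fact q.Prime := ⟨hq⟩
  haveI : CharP (kA A) q := Fermat.Agent.P2.helper93.charP_residueField hq hA
  unfold yZero
  rw [map_sub, map_pow, red2X_jX, red2X_jqX, Fermat.Agent.T2.helper96.jqNModC_char, sub_self]

/-- **`red₁ (W' y₀) ≠ 0`**. -/
theorem CuspAut.red1X_yZero_ne_zero (h : CuspAut A hq hqN d W') (hA : A.LiesOverPrime q) :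
    red1X A hq hqN (h.ringHom hA (yZero A hq hqN)) ≠ 0 := by
  haveI : Fact q.Prime := ⟨hq⟩
  haveI : CharP (kA A) q := Fermat.Agent.P2.helper93.charP_residueField hq hA
  have h1 : red1X A hq hqN (h.ringHom hA (jX A hq hqN)) = qExpand (kA A) d (jqModC (kA A)) := by
    rw [red1X_eq_of_incl _ (qExpand A d (jqModC A))
      ((incl_qExpand_jqModC d).trans h.exp_j.symm)]
    exact red_qExpand_jqModC d
  have h2 : red1X A hq hqN (h.ringHom hA (jqX A hq hqN))
      = qExpand (kA A) d (qExpand (kA A) q (jqModC (kA A))) := by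
    rw [red1X_eq_of_incl _ (qExpand A d (qExpand A q (jqModC A))) (by
      rw [CuspAut.coe_ringHom, coe_jqX, h.exp_jq]
      show coeffMap A.subtype _ = _
      rw [Fermat.Agent.P2.helper94.coeffMap_qExpand, Fermat.Agent.P2.helper94.coeffMap_qExpand,
        coeffMap_jqModC])]
    show coeffMap (IsLocalRing.residue A) _ = _
    rw [Fermat.Agent.P2.helper94.coeffMap_qExpand, Fermat.Agent.P2.helper94.coeffMap_qExpand,
      coeffMap_jqModC]
  unfold yZero
  rw [map_sub, map_pow, map_sub, map_pow, h1, h2,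
    Fermat.Agent.T2.helper96.jqNModC_char (kA A) q, map_pow]
  set X := qExpand (kA A) d (jqModC (kA A)) with hX
  have hX0 : X ≠ 0 := by
    intro h0
    have h3 : qExpand (kA A) d (jqModC (kA A)) = qExpand (kA A) d 0 := by
      rw [map_zero]
      exact h0
    exact jqModC_ne_zero_of_nontrivial (kA A) (qExpand_injective d h3)
  have hord : X.order = -(d : ℤ) := by
    rw [hX, Fermat.Agent.T2.helper36.order_qExpand_val, Fermat.Agent.T2.helper36.order_jqModC_val]
    ring
  intro h0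
  have h4 : X = (X ^ q) ^ q := sub_eq_zero.1 h0
  have h5 := congrArg HahnSeries.order h4
  rw [HahnSeries.order_pow, HahnSeries.order_pow, hord] at h5
  have hd : (0 : ℤ) < d := by exact_mod_cast Nat.pos_of_ne_zero (NeZero.ne d)
  have hq2 : (2 : ℤ) ≤ q := by exact_mod_cast hq.two_le
  simp only [nsmul_eq_mul] at h5
  have h6 : (4 : ℤ) ≤ q * q := by nlinarith
  have h7 : (d : ℤ) = (q * q) * d := by linear_combination -h5
  have h8 : (4 : ℤ) * d ≤ (q * q) * d := mul_le_mul_of_nonneg_right h6 hd.le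
  linarith

/-- **`W'` preserves the kernel of `red₁`**: `red₁ g = 0 ⟹ red₁ (W' g) = 0`. -/
theorem CuspAut.red1X_eq_zero (h : CuspAut A hq hqN d W') (hA : A.LiesOverPrime q)
    (g : ringX A hq hqN) (hg : red1X A hq hqN g = 0) :
    red1X A hq hqN (h.ringHom hA g) = 0 := by
  have e1 : red1X A hq hqN (g * yZero A hq hqN) = 0 := by rw [map_mul, hg, zero_mul]
  have e2 : red2X A hq hqN (g * yZero A hq hqN) = 0 := by
    rw [map_mul, red2X_yZero hA, mul_zero]
  have hmem := invQ_mul_mem_ringX hA (g * yZero A hq hqN) e1 e2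
  have e3 : red1X A hq hqN (h.ringHom hA (g * yZero A hq hqN)) = 0 := by
    refine red1X_q_mul hA (h.ringHom hA ⟨_, hmem⟩) _ ?_
    rw [CuspAut.coe_ringHom, CuspAut.coe_ringHom]
    show W' _ = algebraMap Kb (FF (N * q)) (q : Kb) * W' (invQ N q * _)
    rw [← AlgEquiv.commutes W' (q : Kb), ← map_mul, q_mul_invQ hq]
  rw [map_mul, map_mul] at e3
  rcases mul_eq_zero.1 e3 with h0 | h0
  · exact h0
  · exact absurd h0 (h.red1X_yZero_ne_zero hA)

end Cusp

end Fermat.Agent.T8.helper48
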