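import Fermat.Agent.T8.helper48_CuspA
import Fermat.Agent.T3.helper48_AtkinLehnerQ
import Fermat.Agent.T3.helper23_Disc3W

/-!
# T8 (row 38, at risk), [CUSP-GAP], sub-leaf [CUSP-A] (helper48): the instance `W_D`

Level `N q` (`q` prime, `q ∤ N`), `N = N₁ D` with `gcd(N₁, D) = 1`: the Atkin–Lehner involution
`W_D = atkinLehnerM (N q) (N₁ q) D` satisfies `CuspAut A hq hqN D W_D`.

* `JdT_eq_qExpand` : the expansion of the generator `j_d` is `j(t^d)`;
* `atkinD` : `W_D`;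
* `cuspAut_atkinD` : **`CuspAut A hq hqN D (atkinD …)`**;
* `atkinD_mem_ringX`, `red1X_atkinD_eq_zero` : `W_D (R⁰) ⊆ R⁰`, `W_D (ker red₁) ⊆ ker red₁`.
-/

set_option autoImplicit false
set_option synthInstance.maxHeartbeats 400000
set_option maxHeartbeats 1000000
set_option linter.unusedSectionVars false
set_option linter.unusedVariables false
set_option linter.style.haveILetI false
set_option linter.style.longLine false

noncomputable section

open HahnSeries IntermediateField AlgebraicCurve ModularCurve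
open Fermat.Agent.S18.helper19 Fermat.Agent.P2.helper29 Fermat.Agent.T2.helper36

namespace Fermat.Agent.T8.helper48

open Fermat.Agent.T3.helper74 (IsFixI)
open Fermat.Agent.T3.helper36 (RhoQ GaussIs)
open Fermat.Agent.T3.helper98 (IsRegJ)
open Fermat.Agent.T8.helper63 (IsRX)
open Fermat.Agent.T8.helper16 (ringX red1X red2X mem_ringX isRX_model red1X_eq red2X_eq)

/-- the expansion of the generator `j_d` is `j(t^d)` -/
theorem JdT_eq_qExpand (d : ℕ) [NeZero d] :
    Fermat.Agent.S24.JdT d = qExpand Kb d (jqModC Kb) := by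
  rw [Fermat.Agent.S24.helper24.JdT_eq_coeffEmb]
  have e : coeffEmb Kb (qExpand ℚ d jq) = jqNModC Kb d := by
    rw [coeffEmb, ← jqModC_rat, ← coeffMap_jqNModC (algebraMap ℚ Kb) d]
    rfl
  rw [e]
  rfl

section Inst

variable {N q : ℕ} [NeZero N] [NeZero q] {hq : q.Prime} {hqN : ¬ q ∣ N}
variable {A : ValuationSubring Kb}

theorem atkinD_hM {N q N₁ D : ℕ} (hN : N = N₁ * D) : N * q = N₁ * q * D := by
  rw [hN]; ring

theorem atkinD_hcop {N q N₁ D : ℕ} (hq : q.Prime) (hqN : ¬ q ∣ N) (hN : N = N₁ * D)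
    (hcop : Nat.Coprime N₁ D) : Nat.Coprime (N₁ * q) D := by
  refine Nat.Coprime.mul_left hcop ?_
  rw [Nat.Prime.coprime_iff_not_dvd hq]
  intro h
  exact hqN (h.trans ⟨N₁, by rw [hN, mul_comm]⟩)

/-- **the Atkin–Lehner involution `W_D`** of the function field of `X₀(N q)`, `D` an exact
divisor of `N`. -/
def atkinD (hq : q.Prime) (hqN : ¬ q ∣ N) (N₁ D : ℕ) (hN : N = N₁ * D)
    (hcop : Nat.Coprime N₁ D) : FF (N * q) ≃ₐ[Kb] FF (N * q) :=
  Fermat.Agent.T3.helper48.atkinLehnerM (N * q) (N₁ * q) D (atkinD_hM hN)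
    (atkinD_hcop hq hqN hN hcop)

variable {N₁ D : ℕ} (hN : N = N₁ * D) (hcop : Nat.Coprime N₁ D)

theorem atkinD_atkinD (x : FF (N * q)) :
    atkinD hq hqN N₁ D hN hcop (atkinD hq hqN N₁ D hN hcop x) = x :=
  Fermat.Agent.T3.helper48.atkinLehnerM_atkinLehnerM _ _ _ _ _ x

theorem atkinD_genBar (d : (N * q).divisors) :
    atkinD hq hqN N₁ D hN hcop (genBar (N * q) d)
      = genBar (N * q) (Fermat.Agent.T3.helper48.alIdxM (atkinD_hM hN) d) :=
  Fermat.Agent.T3.helper48.atkinLehnerM_genBar _ _ _ _ _ d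

theorem xJ_eq_genBar :
    Fermat.Agent.S24.xJ (N * q) = genBar (N * q) (Fermat.Agent.S24.helper77.idxOne (N * q)) := by
  rw [← Fermat.Agent.T3.helper48.jElt_eq_xJ]
  exact Fermat.Agent.T3.helper23.jElt_eq_genBar

include hN hcop in
theorem alExact_one_eq : alExact (N₁ * q) D 1 = D := by
  unfold alExact
  simp

include hN hcop in
theorem alExact_q_eq (hq : q.Prime) (hqN : ¬ q ∣ N) : alExact (N₁ * q) D q = D * q := by
  have h1 : Nat.gcd q D = 1 := by
    rw [← Nat.coprime_iff_gcd_eq_one, Nat.Prime.coprime_iff_not_dvd hq]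
    intro h
    exact hqN (h.trans ⟨N₁, by rw [hN, mul_comm]⟩)
  have h2 : Nat.gcd q (N₁ * q) = q := Nat.gcd_eq_left (dvd_mul_left q N₁)
  unfold alExact
  rw [h1, h2, Nat.div_one]

include hN in
theorem not_dvd_D (hqN : ¬ q ∣ N) : ¬ q ∣ D := fun h =>
  hqN (h.trans ⟨N₁, by rw [hN, mul_comm]⟩)

/-- **the instance**: `W_D` satisfies the hypotheses `CuspAut`. -/
theorem cuspAut_atkinD [NeZero D] :
    CuspAut A hq hqN D (atkinD hq hqN N₁ D hN hcop) := by
  haveI : NeZero (D * q) := ⟨Nat.mul_ne_zero (NeZero.ne D) (NeZero.ne q)⟩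
  have hD : D ∈ (N * q).divisors :=
    Nat.mem_divisors.2 ⟨⟨N₁ * q, by rw [hN]; ring⟩, NeZero.ne _⟩
  have hWj : atkinD hq hqN N₁ D hN hcop (Fermat.Agent.S24.xJ (N * q))
      = genBar (N * q) ⟨D, hD⟩ := by
    rw [xJ_eq_genBar, atkinD_genBar]
    congr 1
    exact Subtype.ext (alExact_one_eq hN hcop)
  refine ⟨?_, ?_, ?_, ?_, ?_⟩
  · intro σ x
    exact Fermat.Agent.T3.helper48.atkinLehnerM_arithmeticRingAut _ _ _ _ _ σ x
  · intro g hg
    refine hg.map_invol _ (atkinD_atkinD hN hcop) ⟨⟨D, hD⟩, ?_⟩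
    rw [Fermat.Agent.T3.helper48.jElt_eq_xJ]
    exact hWj
  · rw [hWj, coe_genBar]
    show Fermat.Agent.S24.JdT D = _
    exact JdT_eq_qExpand D
  · have h1 : atkinLehner N q hq hqN (Fermat.Agent.S24.xJ (N * q))
        = genBar (N * q) (alIdx hq (Fermat.Agent.S24.helper77.idxOne (N * q))) := by
      rw [xJ_eq_genBar, atkinLehner_genBar]
    rw [h1, atkinD_genBar, coe_genBar]
    show Fermat.Agent.S24.JdT (alExact (N₁ * q) D (alNat q 1)) = _
    have h2 : alNat q 1 = q := by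
      rw [alNat_of_not_dvd (fun h => hq.one_lt.ne' (Nat.dvd_one.1 h)), one_mul]
    rw [h2, alExact_q_eq hN hcop hq hqN, JdT_eq_qExpand (D * q), ← qExpand_qExpand]
  · refine ⟨qExpand A (D * q) (jqModC A), ?_⟩
    rw [incl_qExpand_jqModC, hWj, atkinLehner_genBar, coe_genBar]
    show _ = Fermat.Agent.S24.JdT (alNat q D)
    rw [alNat_of_not_dvd (not_dvd_D hN hqN), JdT_eq_qExpand (D * q)]

/-- **`W_D (R⁰) ⊆ R⁰`**. -/
theorem atkinD_mem_ringX [NeZero D] (hA : A.LiesOverPrime q) {g : FF (N * q)}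
    (hg : g ∈ ringX A hq hqN) : atkinD hq hqN N₁ D hN hcop g ∈ ringX A hq hqN :=
  (cuspAut_atkinD hN hcop).mem_ringX hA hg

/-- **`W_D (ker red₁) ⊆ ker red₁`**. -/
theorem red1X_atkinD_eq_zero [NeZero D] (hA : A.LiesOverPrime q) (g : ringX A hq hqN)
    (hg : red1X A hq hqN g = 0) :
    red1X A hq hqN ((cuspAut_atkinD (A := A) hN hcop).ringHom hA g) = 0 :=
  (cuspAut_atkinD hN hcop).red1X_eq_zero hA g hg

end Inst

end Fermat.Agent.T8.helper48
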