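import Fermat.Agent.T8.helper48_CuspAFix
import Fermat.Agent.T3.helper5_Gauss3C
import Fermat.Agent.T8.helper43_CuspCount
import Fermat.Agent.T8.helper95_CuspGapR1

/-!
# T8 (row 38, at risk), [CUSP-GAP], sub-leaf [CUSP-A] (helper48): the norm over the inertia
orbit and the contract `helper95.CuspAOrdAll`

Level `N q` (`q` prime, `q ∤ N`), `A` over `q`.

* `isRed1_galF` : the inertia group acts trivially on the residue field, so the conjugates
  `σ u`, `σ ∈ I`, of a function `u` have the same first reduction as `u`;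
* `exists_norm_isRed1` : the product `U` of the (finitely many) `I`-conjugates of `u` is
  `I`-fixed, with first reduction `f ^ n`, and `W U` has first reduction `f' ^ n`
  (`f'` a first reduction of `W u`, `W` commuting with the Galois action);
* `dvd_order_of_transport` : the transport for `I`-fixed functions gives
  `q ∣ ord_∞ (W̄ f)` for the first reduction `f` of EVERY function `u` with `q ∣ div u`;
* `cuspAOrd_squarefree` : **`helper43.CuspAOrdStatement A M p`** for squarefree `M`;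
* `cuspAOrdAll` : **`helper95.CuspAOrdAll`**; `cuspGap_R1` : `helper7.CuspGapStatement auxPull67`.
-/

set_option autoImplicit false
set_option synthInstance.maxHeartbeats 400000
set_option maxHeartbeats 1000000
set_option linter.unusedSectionVars false
set_option linter.unusedVariables false
set_option linter.style.haveILetI false
set_option linter.style.longLine false

noncomputable section

open HahnSeries IntermediateField AlgebraicCurve ModularCurve
open Fermat.Agent.S18.helper19 Fermat.Agent.P2.helper29 Fermat.Agent.T2.helper36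
open Fermat.Agent.P2.helper93 (galF coe_galF actA decK coeffMap_subtype_actA
  coeffMap_residue_actA decK_eq_id_of_mem_inertia)

namespace Fermat.Agent.T8.helper48

open Fermat.Agent.T3.helper74 (IsFixI)
open Fermat.Agent.T3.helper36 (RhoQ GaussIs)
open Fermat.Agent.T8.helper54 (IsRed1)

section Conj

variable {N q : ℕ} [NeZero N] [NeZero q] {A : ValuationSubring Kb}

/-- **the conjugates under the inertia group have the same first reduction** -/
theorem isRed1_galF {σ : Kb ≃ₐ[ℚ] Kb} (hσ : σ ∈ A.inertiaSubgroupIn ℚ) {u : FF (N * q)}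
    {f : FFb A N} (h : IsRed1 A N q u f) : IsRed1 A N q (galF (N * q) σ u) f := by
  obtain ⟨hf, κ, hκ, Y₁, Y₂, h2, e1, e2⟩ := h
  obtain ⟨hσ', hid⟩ := decK_eq_id_of_mem_inertia hσ
  have r1 : red A (actA σ hσ' Y₁) = red A Y₁ := by
    show coeffMap (IsLocalRing.residue A) (actA σ hσ' Y₁) = _
    rw [coeffMap_residue_actA, hid, coeffMap_id]
  have r2 : red A (actA σ hσ' Y₂) = red A Y₂ := by
    show coeffMap (IsLocalRing.residue A) (actA σ hσ' Y₂) = _
    rw [coeffMap_residue_actA, hid, coeffMap_id]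
  refine ⟨hf, σ κ, (map_ne_zero σ).2 hκ, actA σ hσ' Y₁, actA σ hσ' Y₂, ?_, ?_, ?_⟩
  · rw [r2]
    exact h2
  · have h3 := congrArg (coeffMap ((σ : Kb ≃ₐ[ℚ] Kb) : Kb →+* Kb)) e1
    rw [map_mul, map_mul, coeffMap_algebraMap] at h3
    have e3 : ((σ : Kb ≃ₐ[ℚ] Kb) : Kb →+* Kb) κ⁻¹ = (σ κ)⁻¹ := map_inv₀ σ κ
    rw [e3] at h3
    show coeffMap A.subtype (actA σ hσ' Y₁) = _ * coeffMap A.subtype (actA σ hσ' Y₂)
    rw [coeffMap_subtype_actA, coeffMap_subtype_actA, coe_galF]
    exact h3
  · rw [r1, r2]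
    exact e2

theorem isRed1_prod {ι : Type*} (S : Finset ι) (g : ι → FF (N * q)) (f : FFb A N)
    (h : ∀ i ∈ S, IsRed1 A N q (g i) f) : IsRed1 A N q (∏ i ∈ S, g i) (f ^ S.card) := by
  classical
  induction S using Finset.induction_on with
  | empty =>
    rw [Finset.prod_empty, Finset.card_empty, pow_zero]
    exact Fermat.Agent.T8.helper54.isRed1_one
  | insert a S ha ih =>
    rw [Finset.prod_insert ha, Finset.card_insert_of_notMem ha, pow_succ']
    exact (h a (Finset.mem_insert_self a S)).mul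
      (ih fun i hi => h i (Finset.mem_insert_of_mem hi))

/-- **the norm over the inertia orbit** -/
theorem exists_norm_isRed1 (W : FF (N * q) ≃ₐ[Kb] FF (N * q))
    (hgal : ∀ (σ : Kb ≃ₐ[ℚ] Kb) (x : FF (N * q)),
      W (arithmeticRingAut (modularFunctionFieldFull (N * q)) σ x)
        = arithmeticRingAut (modularFunctionFieldFull (N * q)) σ (W x))
    {u : FF (N * q)} {f f' : FFb A N} (h1 : IsRed1 A N q u f) (h2 : IsRed1 A N q (W u) f') :
    ∃ (n : ℕ) (U : FF (N * q)), 0 < n ∧ IsFixI A (N * q) U ∧ IsRed1 A N q U (f ^ n) ∧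
      IsRed1 A N q (W U) (f' ^ n) := by
  classical
  set H : Subgroup (Kb ≃ₐ[ℚ] Kb) := A.inertiaSubgroupIn ℚ with hH
  set x : LaurentSeries Kb := (u : LaurentSeries Kb) with hx
  have hfo : Fermat.Agent.P3.helper85.FixedByOpen x :=
    Fermat.Agent.P3.helper85.exists_numberField_fixing_series
      (modularFunctionFieldFull (N * q)) u.2
  have hfin := Fermat.Agent.T3.helper5.finite_orbit H hfo
  set T : Finset (LaurentSeries Kb) := hfin.toFinset with hT
  have hmemT : ∀ s, s ∈ T ↔ ∃ σ : H, coeffMap (((σ : Kb ≃ₐ[ℚ] Kb)) : Kb →+* Kb) x = s := by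
    intro s
    rw [hT, Set.Finite.mem_toFinset]
    rfl
  have hxT : x ∈ T := (hmemT x).mpr ⟨1, Fermat.Agent.T3.helper5.coeffMap_gal_one x⟩
  let τ : LaurentSeries Kb → H := fun s =>
    if h : ∃ σ : H, coeffMap (((σ : Kb ≃ₐ[ℚ] Kb)) : Kb →+* Kb) x = s then h.choose else 1
  have hτ : ∀ s ∈ T, coeffMap ((((τ s : H) : Kb ≃ₐ[ℚ] Kb)) : Kb →+* Kb) x = s := by
    intro s hs
    have hex := (hmemT s).mp hs
    show coeffMap ((((if h : ∃ σ : H, coeffMap (((σ : Kb ≃ₐ[ℚ] Kb)) : Kb →+* Kb) x = s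
      then h.choose else 1 : H) : Kb ≃ₐ[ℚ] Kb)) : Kb →+* Kb) x = s
    rw [dif_pos hex]
    exact hex.choose_spec
  set U : FF (N * q) := ∏ s ∈ T, galF (N * q) ((τ s : H) : Kb ≃ₐ[ℚ] Kb) u with hU
  have hcoeU : (U : LaurentSeries Kb) = ∏ s ∈ T, s := by
    have h := map_prod (IntermediateField.val (FF (N * q)))
      (fun s => galF (N * q) ((τ s : H) : Kb ≃ₐ[ℚ] Kb) u) T
    refine h.trans ?_
    refine Finset.prod_congr rfl fun s hs => ?_
    exact hτ s hs
  refine ⟨T.card, U, Finset.card_pos.2 ⟨x, hxT⟩, ?_, ?_, ?_⟩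
  · intro σ hσ
    apply Subtype.ext
    rw [coe_arithmeticRingAut_apply, hcoeU, map_prod]
    have himg : T.image (coeffMap ((σ : Kb ≃ₐ[ℚ] Kb) : Kb →+* Kb)) = T := by
      apply Finset.eq_of_subset_of_card_le
      · intro s hs
        obtain ⟨s', hs', rfl⟩ := Finset.mem_image.mp hs
        obtain ⟨ρ, rfl⟩ := (hmemT s').mp hs'
        refine (hmemT _).mpr ⟨⟨σ, hσ⟩ * ρ, ?_⟩
        exact Fermat.Agent.T3.helper5.coeffMap_gal_mul σ ρ x
      · rw [Finset.card_image_of_injective _
          (Fermat.Agent.T3.helper5.coeffMap_gal_injective σ)]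
    conv_rhs => rw [← himg]
    rw [Finset.prod_image fun a _ b _ hab =>
      Fermat.Agent.T3.helper5.coeffMap_gal_injective σ hab]
  · exact isRed1_prod T _ f fun s _ => isRed1_galF (τ s).2 h1
  · have e : W U = ∏ s ∈ T, galF (N * q) ((τ s : H) : Kb ≃ₐ[ℚ] Kb) (W u) := by
      rw [hU, map_prod]
      refine Finset.prod_congr rfl fun s _ => ?_
      exact hgal _ _
    rw [e]
    exact isRed1_prod T _ f' fun s _ => isRed1_galF (τ s).2 h2

end Conj

/-! ### The norm step -/

section NormStep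

variable {N q : ℕ} [NeZero N] [NeZero q] {A : ValuationSubring Kb}

/-- **the norm step**: the transport of the first reduction for the inertia-fixed functions
gives `q ∣ ord_∞ (W̄ f)` for the first reduction `f` of every function `u` with `q ∣ div u`. -/
theorem dvd_order_of_transport (hq : q.Prime) (hqN : ¬ q ∣ N) (hA : A.LiesOverPrime q)
    (W : FF (N * q) ≃ₐ[Kb] FF (N * q))
    (hgal : ∀ (σ : Kb ≃ₐ[ℚ] Kb) (x : FF (N * q)),
      W (arithmeticRingAut (modularFunctionFieldFull (N * q)) σ x)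
        = arithmeticRingAut (modularFunctionFieldFull (N * q)) σ (W x))
    (Wb : FFb A N →+* FFb A N)
    (hI : ∀ U : FF (N * q), IsFixI A (N * q) U → ∀ F : FFb A N, IsRed1 A N q U F →
      IsRed1 A N q (W U) (Wb F))
    (u : FF (N * q)) (f : FFb A N) (hu : u ≠ 0)
    (hdiv : ∀ P : Place Kb (FF (N * q)), (q : ℤ) ∣ P.ord u) (hred : IsRed1 A N q u f) :
    (q : ℤ) ∣ ((Wb f : FFb A N) : LaurentSeries (kA A)).order := by
  have hWu : W u ≠ 0 := (map_ne_zero_iff _ W.injective).2 hu
  obtain ⟨f', hf'⟩ := Fermat.Agent.T8.helper54.exists_isRed1 hq hqN hA hWu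
  have hord' : (q : ℤ) ∣ ((f' : FFb A N) : LaurentSeries (kA A)).order :=
    Fermat.Agent.T8.helper43.dvd_order_of_isRed1 hq hqN hA hWu
      (Fermat.Agent.T8.helper81.dvd_ord_equiv W hdiv) hf'
  obtain ⟨n, U, hn, hfix, hU1, hU2⟩ := exists_norm_isRed1 W hgal hred hf'
  have hU3 := hI U hfix (f ^ n) hU1
  obtain ⟨c, hc, e⟩ := hU3.exists_const hU2
  rw [map_pow] at e
  have e' : ((Wb f : FFb A N) : LaurentSeries (kA A)) ^ n
      = algebraMap (kA A) (LaurentSeries (kA A)) c * ((f' : FFb A N) : LaurentSeries (kA A)) ^ n :=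
    congrArg Subtype.val e
  have hf'0 : ((f' : FFb A N) : LaurentSeries (kA A)) ≠ 0 := hf'.coe_ne_zero
  have hc0 : algebraMap (kA A) (LaurentSeries (kA A)) c ≠ 0 := by
    rw [Ne, map_eq_zero]
    exact hc
  have hWf0 : ((Wb f : FFb A N) : LaurentSeries (kA A)) ≠ 0 := by
    intro h0
    rw [h0, zero_pow hn.ne'] at e'
    exact (mul_ne_zero hc0 (pow_ne_zero n hf'0)) e'.symm
  have h3 := congrArg HahnSeries.order e'
  rw [Fermat.Agent.T2.helper58.order_pow' hWf0, Fermat.Agent.T2.helper58.order_mul' hc0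
    (pow_ne_zero n hf'0), Fermat.Agent.T2.helper58.order_pow' hf'0] at h3
  have h4 : (algebraMap (kA A) (LaurentSeries (kA A)) c).order = 0 := by
    rw [algebraMap_laurentSeries_eq_single]
    exact HahnSeries.order_single hc
  rw [h4, zero_add] at h3
  have hn0 : (n : ℤ) ≠ 0 := by exact_mod_cast hn.ne'
  have h5 := mul_left_cancel₀ hn0 h3
  rw [h5]
  exact hord'

end NormStep

/-! ### The contract -/

section Contract

variable {M p : ℕ} [NeZero M] [NeZero p]

/-- **[CUSP-A], weak form, at a squarefree level.** -/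
theorem cuspAOrd_squarefree (hp : p.Prime) (hpM : ¬ p ∣ M) (hsq : Squarefree M)
    (A : ValuationSubring Kb) (hA : A.LiesOverPrime p) :
    Fermat.Agent.T8.helper43.CuspAOrdStatement A M p := by
  intro D hD
  have hN : M = M / D * D := (Nat.div_mul_cancel hD).symm
  have hsq' : Squarefree (M / D * D) := by
    rw [← hN]
    exact hsq
  have hcop : Nat.Coprime (M / D) D := Nat.coprime_of_squarefree_mul hsq'
  haveI : NeZero D := ⟨fun h => NeZero.ne M (by rw [hN, h, mul_zero])⟩
  refine ⟨wBar hN hcop hp hpM hA, order_wBar_jBar hN hcop hA, fun u f hu hdiv hred => ?_⟩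
  exact dvd_order_of_transport hp hpM hA (atkinD hp hpM (M / D) D hN hcop)
    (cuspAut_atkinD (A := A) (hq := hp) (hqN := hpM) hN hcop).gal
    ((wBar hN hcop hp hpM hA : FFb A M ≃ₐ[kA A] FFb A M) : FFb A M →+* FFb A M)
    (isRed1_atkinD_fix hN hcop hA) u f hu hdiv hred

/-- **[CUSP-A]: the contract `helper95.CuspAOrdAll`.** -/
theorem cuspAOrdAll : Fermat.Agent.T8.helper95.CuspAOrdAll :=
  fun M p _ _ hp hpM hsq A hA => cuspAOrd_squarefree hp hpM hsq A hA

/-- **[CUSP-GAP], route R1, closed.** -/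
theorem cuspGap_R1 :
    Fermat.Agent.T8.helper7.CuspGapStatement Fermat.Agent.T8.helper67.auxPull67 :=
  Fermat.Agent.T8.helper95.cuspGap_of_cuspAOrd cuspAOrdAll

end Contract

end Fermat.Agent.T8.helper48
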