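import Fermat.Agent.T8.helper48_CuspAInst
import Fermat.Agent.P2.helper28_RedEmb
import Fermat.Agent.T2.helper36_AutOfRel
import Fermat.Agent.T2.helper58_ScaleBad

/-!
# T8 (row 38, at risk), [CUSP-GAP], sub-leaf [CUSP-A] (helper48): the induced automorphism `W̄_D`

Level `N q` (`q` prime, `q ∤ N`), `A` over `q`, `N = N₁ D` with `gcd(N₁, D) = 1`,
`W_D = atkinD hq hqN N₁ D hN hcop`.

* `genX d` : the generator `j_d ∈ R⁰`, `d ∣ N`; `red1X_genX`;
* `evX0` : the evaluation `O[X_d : d ∣ N] → R⁰` (`O = A^I`);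
* `rel_atkinD` : every polynomial relation between the `j̄(t^d)` over `k` is preserved by the
  renaming `d ↦ w d` (lift the relation to `O`, apply `CuspAut.red1X_eq_zero`);
* `wBar` : **the automorphism `W̄_D` of the special fibre field** `FFb A N`, a `k`-algebra
  involution with `W̄_D (j̄(t^d)) = j̄(t^(w d))`;
* `wBar_red1X` : **`W̄_D (red₁ g) = red₁ (W_D g)`** for every `g ∈ R⁰`;
* `order_wBar_jBar` : `ord_∞ (W̄_D j̄) = - D`.
-/

set_option autoImplicit false
set_option synthInstance.maxHeartbeats 400000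
set_option maxHeartbeats 1000000
set_option linter.unusedSectionVars false
set_option linter.unusedVariables false
set_option linter.style.haveILetI false
set_option linter.style.longLine false

noncomputable section

open HahnSeries IntermediateField AlgebraicCurve ModularCurve
open Fermat.Agent.S18.helper19 Fermat.Agent.P2.helper29 Fermat.Agent.T2.helper36

namespace Fermat.Agent.T8.helper48

open Fermat.Agent.T3.helper74 (IsFixI)
open Fermat.Agent.T3.helper36 (RhoQ GaussIs)
open Fermat.Agent.T3.helper98 (IsRegJ)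
open Fermat.Agent.T8.helper63 (IsRX)
open Fermat.Agent.T8.helper16 (ringX red1X red2X mem_ringX isRX_model red1X_eq red2X_eq)
open Fermat.Agent.T3.helper84 (k0Ring k0Residue)
open Fermat.Agent.P2.helper28 (genK)

section Gen

variable {N q : ℕ} [NeZero N] [NeZero q] {hq : q.Prime} {hqN : ¬ q ∣ N}
variable {A : ValuationSubring Kb}

/-- a total version of `j(t^d)` -/
def jT (R : Type*) [CommRing R] (d : ℕ) : LaurentSeries R :=
  if h : d = 0 then 0 else haveI : NeZero d := ⟨h⟩; qExpand R d (jqModC R)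

theorem jT_eq (R : Type*) [CommRing R] (d : ℕ) [NeZero d] : jT R d = qExpand R d (jqModC R) := by
  unfold jT
  rw [dif_neg (NeZero.ne d)]

theorem incl_jT (d : ℕ) : incl A (jT A d) = jT Kb d := by
  unfold jT
  split_ifs with h
  · rw [map_zero]
  · haveI : NeZero d := ⟨h⟩
    exact incl_qExpand_jqModC d

theorem red_jT (d : ℕ) : red A (jT A d) = jT (kA A) d := by
  unfold jT
  split_ifs with h
  · rw [map_zero]
  · haveI : NeZero d := ⟨h⟩
    exact red_qExpand_jqModC d

theorem JdT_eq_jT (d : ℕ) : Fermat.Agent.S24.JdT d = jT Kb d := by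
  by_cases h : d = 0
  · subst h
    unfold jT Fermat.Agent.S24.JdT
    rw [dif_pos rfl, dif_pos rfl]
  · haveI : NeZero d := ⟨h⟩
    rw [JdT_eq_qExpand, jT_eq]

theorem genK_eq_jT (k : Type) [Field k] (d : N.divisors) : genK k N d = jT k d.1 := by
  haveI : NeZero d.1 := ⟨(Nat.pos_of_mem_divisors d.2).ne'⟩
  rw [jT_eq]
  rfl

/-- the generators of the function field lie in `R⁰` -/
theorem isRX_genBar (d : (N * q).divisors) :
    IsRX A hq hqN (genBar (N * q) d) (jT A d.1) (jT A (alNat q d.1)) := by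
  refine ⟨fun σ _ => arithmeticRingAut_genBar (N * q) σ d,
    Fermat.Agent.T3.helper98.isRegJ_genBar d, ?_, ?_⟩
  · rw [incl_jT, ← JdT_eq_jT]
    rfl
  · rw [incl_jT, ← JdT_eq_jT, atkinLehner_genBar]
    rfl

/-- divisors of `N` as divisors of `N q` -/
def divUp (N q : ℕ) [NeZero N] [NeZero q] (d : N.divisors) : (N * q).divisors :=
  ⟨d.1, Nat.mem_divisors.2 ⟨(Nat.dvd_of_mem_divisors d.2).mul_right q, NeZero.ne _⟩⟩

/-- the generator `j_d ∈ R⁰`, `d ∣ N` -/
def genX (A : ValuationSubring Kb) (hq : q.Prime) (hqN : ¬ q ∣ N) (d : N.divisors) :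
    ringX A hq hqN :=
  ⟨genBar (N * q) (divUp N q d), _, _, isRX_genBar (divUp N q d)⟩

theorem coe_genX (d : N.divisors) :
    ((genX A hq hqN d : ringX A hq hqN) : FF (N * q)) = genBar (N * q) (divUp N q d) := rfl

theorem red1X_genX (d : N.divisors) : red1X A hq hqN (genX A hq hqN d) = genK (kA A) N d := by
  rw [red1X_eq (isRX_genBar (A := A) (hq := hq) (hqN := hqN) (divUp N q d)), red_jT, genK_eq_jT]
  rfl

/-- the constants of `O = A^I` in `R⁰` -/
def cstX (A : ValuationSubring Kb) (hq : q.Prime) (hqN : ¬ q ∣ N) :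
    k0Ring A →+* ringX A hq hqN where
  toFun a := ⟨algebraMap Kb (FF (N * q)) (a : Kb), Fermat.Agent.T8.helper16.const_mem_ringX a⟩
  map_one' := Subtype.ext (by simp)
  map_mul' a b := Subtype.ext (by simp)
  map_zero' := Subtype.ext (by simp)
  map_add' a b := Subtype.ext (by simp)

theorem coe_cstX (a : k0Ring A) :
    ((cstX A hq hqN a : ringX A hq hqN) : FF (N * q)) = algebraMap Kb (FF (N * q)) (a : Kb) :=
  rfl

theorem red1X_cstX (a : k0Ring A) :
    red1X A hq hqN (cstX A hq hqN a)
      = algebraMap (kA A) (LaurentSeries (kA A)) (k0Residue A a) := by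
  have h : IsRX A hq hqN (algebraMap Kb (FF (N * q)) (a : Kb))
      (HahnSeries.C (⟨(a : Kb), a.2.1⟩ : A)) (HahnSeries.C (⟨(a : Kb), a.2.1⟩ : A)) := by
    refine ⟨?_, Fermat.Agent.T3.helper98.isRegJ_algebraMap _,
      Fermat.Agent.T2.helper22.isRep_algebraMap (⟨(a : Kb), a.2.1⟩ : A)⟩
    intro σ hσ
    have h := arithmeticRingAut_algebraMap (modularFunctionFieldFull (N * q)) σ (a : Kb)
    rw [a.2.2 σ hσ] at h
    exact h
  rw [red1X_eq (g := cstX A hq hqN a) h, Fermat.Agent.T2.helper22.red_C]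
  rfl

/-- the evaluation `O[X_d : d ∣ N] → R⁰`, `X_d ↦ j_(v d)` -/
def evX0 (A : ValuationSubring Kb) (hq : q.Prime) (hqN : ¬ q ∣ N) (v : N.divisors → N.divisors) :
    MvPolynomial N.divisors (k0Ring A) →+* ringX A hq hqN :=
  MvPolynomial.eval₂Hom (cstX A hq hqN) (fun d => genX A hq hqN (v d))

theorem red1X_evX0 (v : N.divisors → N.divisors) (P : MvPolynomial N.divisors (k0Ring A)) :
    red1X A hq hqN (evX0 A hq hqN v P)
      = MvPolynomial.aeval (genK (kA A) N)
          (MvPolynomial.rename v (MvPolynomial.map (k0Residue A) P)) := by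
  have key : (red1X A hq hqN).comp (evX0 A hq hqN v)
      = ((MvPolynomial.aeval (genK (kA A) N) :
          MvPolynomial N.divisors (kA A) →ₐ[kA A] LaurentSeries (kA A)) :
          MvPolynomial N.divisors (kA A) →+* LaurentSeries (kA A)).comp
        (((MvPolynomial.rename v : MvPolynomial N.divisors (kA A) →ₐ[kA A]
            MvPolynomial N.divisors (kA A)) :
          MvPolynomial N.divisors (kA A) →+* MvPolynomial N.divisors (kA A)).comp
          (MvPolynomial.map (k0Residue A))) := by
    apply MvPolynomial.ringHom_ext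
    · intro a
      simp only [RingHom.coe_comp, Function.comp_apply, RingHom.coe_coe, evX0,
        MvPolynomial.coe_eval₂Hom, MvPolynomial.eval₂_C, MvPolynomial.map_C,
        MvPolynomial.rename_C, MvPolynomial.aeval_C]
      exact red1X_cstX a
    · intro d
      simp only [RingHom.coe_comp, Function.comp_apply, RingHom.coe_coe, evX0,
        MvPolynomial.coe_eval₂Hom, MvPolynomial.eval₂_X, MvPolynomial.map_X,
        MvPolynomial.rename_X, MvPolynomial.aeval_X]
      exact red1X_genX (v d)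
  exact congrArg (fun φ : MvPolynomial N.divisors (k0Ring A) →+* LaurentSeries (kA A) => φ P) key

end Gen

/-! ### The automorphism `W̄_D` -/

section WBar

variable {N q : ℕ} [NeZero N] [NeZero q] {hq : q.Prime} {hqN : ¬ q ∣ N}
variable {A : ValuationSubring Kb} {N₁ D : ℕ} (hN : N = N₁ * D) (hcop : Nat.Coprime N₁ D)

/-- the involution `d ↦ (D / gcd(d, D)) · gcd(d, N₁)` of the divisors of `N = N₁ D` -/
def wIdx : N.divisors → N.divisors := Fermat.Agent.T3.helper48.alIdxM hN

theorem coe_wIdx (d : N.divisors) : ((wIdx hN d : N.divisors) : ℕ) = alExact N₁ D d.1 := rfl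

include hcop in
theorem wIdx_wIdx [NeZero D] (d : N.divisors) : wIdx hN (wIdx hN d) = d :=
  Fermat.Agent.T3.helper48.alIdxM_alIdxM hN hcop (NeZero.ne D) d

theorem red1X_mem_FFb (hA : A.LiesOverPrime q) (g : ringX A hq hqN) :
    red1X A hq hqN g ∈ FFb A N := by
  have hg := isRX_model g
  rw [red1X_eq hg]
  refine Fermat.Agent.T2.helper58.red_mem_FFb_bad N q hq hqN A hA ?_
  rw [hg.2.2.1]
  exact (g : FF (N * q)).2

/-- `W_D j_d = j_(w d)` -/
theorem atkinD_genX (hqN : ¬ q ∣ N) (d : N.divisors) :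
    atkinD hq hqN N₁ D hN hcop ((genX A hq hqN d : ringX A hq hqN) : FF (N * q))
      = ((genX A hq hqN (wIdx hN d) : ringX A hq hqN) : FF (N * q)) := by
  rw [coe_genX, coe_genX, atkinD_genBar]
  congr 1
  apply Subtype.ext
  show alExact (N₁ * q) D d.1 = alExact N₁ D d.1
  have hd : d.1 ∣ N := Nat.dvd_of_mem_divisors d.2
  have hqd : Nat.Coprime q d.1 := by
    rw [Nat.Prime.coprime_iff_not_dvd hq]
    exact fun h => hqN (h.trans hd)
  unfold alExact
  congr 1
  exact Nat.Coprime.gcd_mul_right_cancel_right N₁ hqd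

theorem ringHom_evX0 [NeZero D] (hA : A.LiesOverPrime q)
    (P : MvPolynomial N.divisors (k0Ring A)) :
    (cuspAut_atkinD (A := A) (hq := hq) (hqN := hqN) hN hcop).ringHom hA (evX0 A hq hqN id P)
      = evX0 A hq hqN (wIdx hN) P := by
  have key : ((cuspAut_atkinD (A := A) (hq := hq) (hqN := hqN) hN hcop).ringHom hA).comp
      (evX0 A hq hqN id) = evX0 A hq hqN (wIdx hN) := by
    apply MvPolynomial.ringHom_ext
    · intro a
      simp only [RingHom.coe_comp, Function.comp_apply, evX0, MvPolynomial.coe_eval₂Hom,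
        MvPolynomial.eval₂_C]
      apply Subtype.ext
      rw [CuspAut.coe_ringHom, coe_cstX, AlgEquiv.commutes]
    · intro d
      simp only [RingHom.coe_comp, Function.comp_apply, evX0, MvPolynomial.coe_eval₂Hom,
        MvPolynomial.eval₂_X, id]
      apply Subtype.ext
      rw [CuspAut.coe_ringHom]
      exact atkinD_genX hN hcop hqN d
  exact congrArg (fun φ : MvPolynomial N.divisors (k0Ring A) →+* ringX A hq hqN => φ P) key

include hcop in
/-- **the relations between the generators of the special fibre field are preserved by the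
renaming `d ↦ w d`**. -/
theorem rel_atkinD [NeZero D] (hq : q.Prime) (hqN : ¬ q ∣ N) (hA : A.LiesOverPrime q)
    (R : MvPolynomial N.divisors (kA A))
    (h0 : MvPolynomial.aeval (genK (kA A) N) R = 0) :
    MvPolynomial.aeval (genK (kA A) N) (MvPolynomial.rename (wIdx hN) R) = 0 := by
  obtain ⟨P, rfl⟩ := MvPolynomial.map_surjective (k0Residue A)
    (Fermat.Agent.T3.helper84.k0Residue_surjective hq A hA) R
  have h1 := red1X_evX0 (A := A) (hq := hq) (hqN := hqN) id P
  rw [MvPolynomial.rename_id_apply, h0] at h1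
  have h2 := (cuspAut_atkinD (A := A) (hq := hq) (hqN := hqN) hN hcop).red1X_eq_zero hA _ h1
  rw [ringHom_evX0 hN hcop hA, red1X_evX0] at h2
  exact h2

include hcop in
theorem exists_wBar [NeZero D] (hq : q.Prime) (hqN : ¬ q ∣ N) (hA : A.LiesOverPrime q) :
    ∃ Wb : FFb A N ≃ₐ[kA A] FFb A N,
      (∀ (i : N.divisors) (hi : genK (kA A) N i ∈ FFb A N),
        ((Wb ⟨genK (kA A) N i, hi⟩ : FFb A N) : LaurentSeries (kA A))
          = genK (kA A) N (wIdx hN i)) ∧
      ∀ x : FFb A N, Wb (Wb x) = x :=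
  exists_algEquiv_of_eq_adjoin (genK (kA A) N) (wIdx hN) (wIdx_wIdx hN hcop)
    (rel_atkinD hN hcop hq hqN hA) (Fermat.Agent.P2.helper28.fullC_eq_adjoin (kA A) N)

/-- **the automorphism `W̄_D` of the function field of the special fibre** -/
def wBar [NeZero D] (hq : q.Prime) (hqN : ¬ q ∣ N) (hA : A.LiesOverPrime q) :
    FFb A N ≃ₐ[kA A] FFb A N :=
  (exists_wBar hN hcop hq hqN hA).choose

theorem coe_wBar_genK [NeZero D] (hA : A.LiesOverPrime q) (i : N.divisors)
    (hi : genK (kA A) N i ∈ FFb A N) :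
    ((wBar hN hcop hq hqN hA ⟨genK (kA A) N i, hi⟩ : FFb A N) : LaurentSeries (kA A))
      = genK (kA A) N (wIdx hN i) :=
  (exists_wBar hN hcop hq hqN hA).choose_spec.1 i hi

theorem wBar_wBar [NeZero D] (hA : A.LiesOverPrime q) (x : FFb A N) :
    wBar hN hcop hq hqN hA (wBar hN hcop hq hqN hA x) = x :=
  (exists_wBar hN hcop hq hqN hA).choose_spec.2 x

/-- the generators as elements of the special fibre field -/
def genKb (A : ValuationSubring Kb) (N : ℕ) [NeZero N] (i : N.divisors) : FFb A N :=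
  ⟨genK (kA A) N i, by
    have := Fermat.Agent.P2.helper28.aeval_genK_mem (kA A) N (MvPolynomial.X i)
    rwa [MvPolynomial.aeval_X] at this⟩

theorem coe_aeval_genKb (R : MvPolynomial N.divisors (kA A)) :
    ((MvPolynomial.aeval (genKb A N) R : FFb A N) : LaurentSeries (kA A))
      = MvPolynomial.aeval (genK (kA A) N) R := by
  exact MvPolynomial.comp_aeval_apply (R := kA A) (σ := N.divisors) (f := genKb A N)
    (IntermediateField.val (FFb A N)) R

/-- `W̄_D` on the polynomials in the generators -/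
theorem coe_wBar_aeval [NeZero D] (hA : A.LiesOverPrime q)
    (R : MvPolynomial N.divisors (kA A)) :
    ((wBar hN hcop hq hqN hA (MvPolynomial.aeval (genKb A N) R) : FFb A N) :
        LaurentSeries (kA A))
      = MvPolynomial.aeval (genK (kA A) N) (MvPolynomial.rename (wIdx hN) R) := by
  have h1 := MvPolynomial.comp_aeval_apply (f := genKb A N)
    ((wBar hN hcop hq hqN hA : FFb A N ≃ₐ[kA A] FFb A N) : FFb A N →ₐ[kA A] FFb A N) R
  have h2 : (wBar hN hcop hq hqN hA (MvPolynomial.aeval (genKb A N) R) : FFb A N)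
      = MvPolynomial.aeval (fun i => genKb A N (wIdx hN i)) R := by
    refine h1.trans ?_
    congr 2
    funext i
    apply Subtype.ext
    exact coe_wBar_genK hN hcop hA i _
  rw [h2, MvPolynomial.aeval_rename]
  exact MvPolynomial.comp_aeval_apply (R := kA A) (σ := N.divisors)
    (f := fun i => genKb A N (wIdx hN i)) (IntermediateField.val (FFb A N)) R

/-- **`W̄_D (red₁ g) = red₁ (W_D g)`** for `g ∈ R⁰`. -/
theorem wBar_red1X [NeZero D] (hA : A.LiesOverPrime q) (g : ringX A hq hqN) :
    ((wBar hN hcop hq hqN hA ⟨red1X A hq hqN g, red1X_mem_FFb hA g⟩ : FFb A N) :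
        LaurentSeries (kA A))
      = red1X A hq hqN ((cuspAut_atkinD (A := A) (hq := hq) (hqN := hqN) hN hcop).ringHom hA g)
      := by
  set Wb := wBar hN hcop hq hqN hA with hWb
  set y : FFb A N := ⟨red1X A hq hqN g, red1X_mem_FFb hA g⟩ with hy
  obtain ⟨P, Q, hQ0, hPQ⟩ := Fermat.Agent.P2.helper28.exists_frac (kA A) N
    (red1X A hq hqN g) (red1X_mem_FFb hA g)
  obtain ⟨P', rfl⟩ := MvPolynomial.map_surjective (k0Residue A)
    (Fermat.Agent.T3.helper84.k0Residue_surjective hq A hA) P
  obtain ⟨Q', rfl⟩ := MvPolynomial.map_surjective (k0Residue A)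
    (Fermat.Agent.T3.helper84.k0Residue_surjective hq A hA) Q
  set a := evX0 A hq hqN id P' with ha
  set b := evX0 A hq hqN id Q' with hb
  have hra : red1X A hq hqN a = MvPolynomial.aeval (genK (kA A) N)
      (MvPolynomial.map (k0Residue A) P') := by
    rw [ha, red1X_evX0, MvPolynomial.rename_id_apply]
  have hrb : red1X A hq hqN b = MvPolynomial.aeval (genK (kA A) N)
      (MvPolynomial.map (k0Residue A) Q') := by
    rw [hb, red1X_evX0, MvPolynomial.rename_id_apply]
  have h0 : red1X A hq hqN (g * b - a) = 0 := by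
    rw [map_sub, map_mul, hra, hrb, hPQ, sub_self]
  have h1 := (cuspAut_atkinD (A := A) (hq := hq) (hqN := hqN) hN hcop).red1X_eq_zero hA _ h0
  rw [map_sub, map_mul, map_sub, map_mul, ha, hb, ringHom_evX0 hN hcop hA,
    ringHom_evX0 hN hcop hA, red1X_evX0, red1X_evX0, sub_eq_zero] at h1
  -- the same relation for `W̄`
  have hyQ : y * MvPolynomial.aeval (genKb A N) (MvPolynomial.map (k0Residue A) Q')
      = MvPolynomial.aeval (genKb A N) (MvPolynomial.map (k0Residue A) P') := by
    apply Subtype.ext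
    show red1X A hq hqN g * _ = _
    rw [coe_aeval_genKb, coe_aeval_genKb]
    exact hPQ
  have h2 := congrArg (fun z : FFb A N => ((Wb z : FFb A N) : LaurentSeries (kA A))) hyQ
  simp only [map_mul] at h2
  have h3 : ((Wb y * Wb (MvPolynomial.aeval (genKb A N) (MvPolynomial.map (k0Residue A) Q')) :
      FFb A N) : LaurentSeries (kA A))
      = ((Wb y : FFb A N) : LaurentSeries (kA A)) *
        ((Wb (MvPolynomial.aeval (genKb A N) (MvPolynomial.map (k0Residue A) Q')) : FFb A N) :
          LaurentSeries (kA A)) := rfl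
  rw [h3, hWb, coe_wBar_aeval, coe_wBar_aeval, ← hWb] at h2
  have hne : MvPolynomial.aeval (genK (kA A) N)
      (MvPolynomial.rename (wIdx hN) (MvPolynomial.map (k0Residue A) Q')) ≠ 0 := by
    rw [← coe_wBar_aeval (hq := hq) (hqN := hqN) hN hcop hA]
    intro h4
    have h5 : wBar hN hcop hq hqN hA
        (MvPolynomial.aeval (genKb A N) (MvPolynomial.map (k0Residue A) Q')) = 0 :=
      Subtype.ext h4
    rw [map_eq_zero_iff _ (wBar hN hcop hq hqN hA).injective] at h5
    apply hQ0
    rw [← coe_aeval_genKb, h5]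
    rfl
  exact mul_right_cancel₀ hne (h2.trans h1.symm)

/-- **`ord_∞ (W̄_D j̄) = - D`**. -/
theorem order_wBar_jBar [NeZero D] (hA : A.LiesOverPrime q) :
    ((wBar hN hcop hq hqN hA (jBar A N) : FFb A N) : LaurentSeries (kA A)).order
      = -(D : ℤ) := by
  have hone : (1 : ℕ) ∈ N.divisors := Nat.mem_divisors.2 ⟨one_dvd N, NeZero.ne N⟩
  have e : jBar A N = genKb A N ⟨1, hone⟩ := by
    apply Subtype.ext
    show jqModC (kA A) = genK (kA A) N ⟨1, hone⟩
    rw [genK_eq_jT]
    show jqModC (kA A) = jT (kA A) 1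
    rw [jT_eq, qExpand_one_apply]
  have h2 : ((wBar hN hcop hq hqN hA (genKb A N ⟨1, hone⟩) : FFb A N) : LaurentSeries (kA A))
      = genK (kA A) N (wIdx hN ⟨1, hone⟩) := coe_wBar_genK hN hcop hA ⟨1, hone⟩ _
  rw [e, h2, genK_eq_jT, coe_wIdx]
  have h1 : alExact N₁ D 1 = D := by
    unfold alExact
    simp
  show (jT (kA A) (alExact N₁ D 1)).order = _
  rw [h1, jT_eq, Fermat.Agent.T2.helper36.order_qExpand_val,
    Fermat.Agent.T2.helper36.order_jqModC_val]
  ring

end WBar

end Fermat.Agent.T8.helper48
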