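import Fermat.Agent.T8.helper89_PeuShape
import Fermat.Agent.T8.helper29_ConclN
import Fermat.Agent.T7.helper23_GalTwist

/-!
# T8 (row 38), helper89: `PeuShape` is stable under `W`, and the NON-SPLIT wall from [CONCL]

* `ord_apply_W`        : `P.ord (W f) = (W⁻¹ • P).ord f`;
* `isA0One_W`          : `IsA0One` is stable under an involution `W`;
* `stronglySplit_W`    : `StronglySplit` is stable under an involution `W`;
* `peuShape_W`         : **`PeuShape W A p u ⟹ PeuShape W A p (W u)`** for an involution `W` which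
                         commutes with the coefficientwise Galois action `galF`;
* `peuShape_atkinLehner` : the instance `W = atkinLehner N p`;
* `ConclFreyStatement` : the instance contract of [CONCL] at the level of the wall
                         (`helper29.ConclStatementN` at `N = 4 M'`, `p = P.p`, every `ν`);
* `isWallBN2_of_concl` : `ConclStatementN` + `PeuShape u`  ⟹  `helper29.IsWallBN2` (both
                         components) at the class of `u`;
* `nonSplitWall_of_concl` : **`helper47.WMultStatement'` + `ConclFreyStatement` ⟹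
                         `helper38.NonSplitWallStatement π helper29.wallBN`** for every `π`.
-/

set_option autoImplicit false
set_option linter.unusedSectionVars false
set_option linter.unusedVariables false
set_option linter.style.longLine false
set_option linter.style.haveILetI false

noncomputable section

namespace Fermat.Agent.T8.helper89

open HahnSeries IntermediateField AlgebraicCurve ModularCurve
open Fermat.Agent.S18.helper19 Fermat.Agent.P2.helper29 Fermat.Agent.P2.helper93
open Fermat.Agent.T2 Fermat.Agent.T2.helper36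
open Fermat.Agent.T7 Fermat.Agent.T8.helper72 Fermat.Agent.T8.helper38
open Fermat.Agent.T8.helper54 (IsRed1 DvdOff ModEqOff)
open Fermat.Agent.P3.helper94 (IsKummerRep)
open Fermat.Agent.T3.helper16 (IsUnit0)

section Abstract

variable {M : ℕ} [NeZero M]

/-- the order of `W f` at `P` is the order of `f` at `W⁻¹ • P` -/
theorem ord_apply_W (W : FF M ≃ₐ[Kb] FF M) (P : Place Kb (FF M)) (f : FF M) :
    P.ord (W f) = (W⁻¹ • P).ord f := by
  have h := Place.ord_smul W (W⁻¹ • P) f
  rwa [smul_inv_smul] at h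

/-- `W⁻¹` maps the places different from the two cusps to such places -/
theorem not_isInfty_inv_smul (W : FF M ≃ₐ[Kb] FF M) (hWW : ∀ x : FF M, W (W x) = x)
    {P : Place Kb (FF M)} (hPW : ¬ IsInftyW W P) : ¬ IsInfty (W⁻¹ • P) := by
  intro h
  apply hPW
  intro f hf
  have hWf : W f ≠ 0 := (map_ne_zero W).mpr hf
  have h1 := h (W f) hWf
  rw [← ord_apply_W, hWW] at h1
  exact h1

theorem not_isInftyW_inv_smul (W : FF M ≃ₐ[Kb] FF M) (hWW : ∀ x : FF M, W (W x) = x)
    {P : Place Kb (FF M)} (hP : ¬ IsInfty P) : ¬ IsInftyW W (W⁻¹ • P) := by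
  intro h
  apply hP
  intro f hf
  have hWf : W f ≠ 0 := (map_ne_zero W).mpr hf
  have h1 := h (W f) hWf
  rw [← ord_apply_W, hWW] at h1
  exact h1

/-- `IsA0One` is stable under the involution -/
theorem isA0One_W (W : FF M ≃ₐ[Kb] FF M) (hWW : ∀ x : FF M, W (W x) = x)
    {A : ValuationSubring Kb} {H : FF M} (h : IsA0One M W A H) : IsA0One M W A (W H) := by
  obtain ⟨hreg, Y₁, Y₂, h1, h2, r1, r2⟩ := h
  refine ⟨fun P hP hPW => ?_, Y₂, Y₁, h2, ?_, r2, r1⟩
  · rw [ord_apply_W]
    exact hreg _ (not_isInfty_inv_smul W hWW hPW) (not_isInftyW_inv_smul W hWW hP)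
  · rw [hWW]
    exact h1

/-- `StronglySplit` is stable under the involution -/
theorem stronglySplit_W (W : FF M ≃ₐ[Kb] FF M) (hWW : ∀ x : FF M, W (W x) = x)
    {A : ValuationSubring Kb} {p : ℕ} {K : FF M}
    (h : Fermat.Agent.T7.helper27.StronglySplit M W A p K) :
    Fermat.Agent.T7.helper27.StronglySplit M W A p (W K) := by
  obtain ⟨hA, hdiv, Z₁, Z₂, h1, h2, r1, r2⟩ := h
  refine ⟨isA0One_W W hWW hA, fun P => ?_, Z₂, Z₁, h2, ?_, r2, r1⟩
  · rw [ord_apply_W]
    exact hdiv _
  · rw [hWW]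
    exact h1

/-- **`PeuShape` is stable under `W`.** -/
theorem peuShape_W (W : FF M ≃ₐ[Kb] FF M) (hWW : ∀ x : FF M, W (W x) = x)
    (hWgal : ∀ (σ : Kb ≃ₐ[ℚ] Kb) (x : FF M), W (galF M σ x) = galF M σ (W x))
    {A : ValuationSubring Kb} {p : ℕ} {u : FF M}
    (h : Fermat.Agent.T8.helper29.PeuShape W A p u) :
    Fermat.Agent.T8.helper29.PeuShape W A p (W u) := by
  obtain ⟨K, ζ, α, hK, hζ, hα0, hαv, hσ⟩ := h
  refine ⟨W K, ζ, α, stronglySplit_W W hWW hK, hζ, hα0, hαv, fun σ hs => ?_⟩
  obtain ⟨j, c, v, h1, hc, hv, e⟩ := hσ σ hs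
  refine ⟨j, c, W v, h1, hc, (map_ne_zero W).mpr hv, ?_⟩
  rw [← hWgal, e, map_mul, map_mul, map_mul, map_pow, map_pow, AlgEquiv.commutes]

/-- the divisor of `W u` is divisible by `p` when the divisor of `u` is -/
theorem dvd_ord_W (W : FF M ≃ₐ[Kb] FF M) {p : ℕ} {u : FF M}
    (h : ∀ P : Place Kb (FF M), (p : ℤ) ∣ P.ord u) (P : Place Kb (FF M)) :
    (p : ℤ) ∣ P.ord (W u) := by
  rw [ord_apply_W]
  exact h _

end Abstract

section Bad

variable (N p : ℕ) [NeZero N] [NeZero p] (hp : p.Prime) (hpN : ¬ p ∣ N)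

/-- **`PeuShape` is stable under the Atkin-Lehner involution.** -/
theorem peuShape_atkinLehner {A : ValuationSubring Kb} {u : FF (N * p)}
    (h : Fermat.Agent.T8.helper29.PeuShape (atkinLehner N p hp hpN) A p u) :
    Fermat.Agent.T8.helper29.PeuShape (atkinLehner N p hp hpN) A p
      (atkinLehner N p hp hpN u) :=
  peuShape_W (atkinLehner N p hp hpN) (atkinLehner_atkinLehner N p hp hpN)
    (Fermat.Agent.T7.helper23.hWgal_atkinLehner N p hp hpN) h

/-- **[CONCL] in class form, both components.** -/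
theorem isWallBN2_of_concl {A : ValuationSubring Kb} {ν : FFb A N}
    (hC : Fermat.Agent.T8.helper29.ConclStatementN A N p (atkinLehner N p hp hpN) ν)
    {x : JZero (N * p)} {u : FF (N * p)} (hk : IsKummerRep p x u)
    (hpeu : Fermat.Agent.T8.helper29.PeuShape (atkinLehner N p hp hpN) A p u) :
    Fermat.Agent.T8.helper29.IsWallBN2 A N p (atkinLehner N p hp hpN) ν x := by
  obtain ⟨hu0, D, hD, hdiv⟩ := hk
  have hdvd : ∀ P : Place Kb (FF (N * p)), (p : ℤ) ∣ P.ord u := fun P =>
    ⟨(D : Divisor Kb (FF (N * p))) P, (hdiv P).symm⟩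
  obtain ⟨f₁, β₁, a1, a2⟩ := hC u hu0 hdvd hpeu
  obtain ⟨f₂, β₂, b1, b2⟩ := hC (atkinLehner N p hp hpN u)
    ((map_ne_zero (atkinLehner N p hp hpN)).mpr hu0) (dvd_ord_W _ hdvd)
    (peuShape_atkinLehner N p hp hpN hpeu)
  exact ⟨u, f₁, f₂, β₁, β₂, ⟨hu0, D, hD, hdiv⟩, a1, a2, b1, b2⟩

end Bad

/-- **the instance contract of [CONCL] at the level of the wall**: `helper29.ConclStatementN` at
the bad pair `(4 M', p)` of a Frey package, for every first-component reduction `ν` of a
weight-one unit `b₀`. -/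
def ConclFreyStatement : Prop :=
  ∀ (P : FreyPackage) (M' : ℕ) [NeZero M'] (hpN : ¬ P.p ∣ 4 * M')
    (A : ValuationSubring (AlgebraicClosure ℚ)), A.LiesOverPrime P.p →
    ∀ (b0 : FF (4 * M' * P.p)) (B : PowerSeries ℤ) (ε : ℤ), IsUnit0 P.pp hpN b0 B ε →
      ∀ ν : FFb A (4 * M'), IsRed1 A (4 * M') P.p b0 ν →
        Fermat.Agent.T8.helper29.ConclStatementN A (4 * M') P.p
          (atkinLehner (4 * M') P.p P.pp hpN) ν

/-- **the NON-SPLIT case of the wall from [W-MULT] and [CONCL]** (any pull-back `π`), with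
`B := helper29.wallBN`. -/
theorem nonSplitWall_of_concl (π : PullData) (hW : Fermat.Agent.T8.helper47.WMultStatement')
    (hC : ConclFreyStatement) :
    NonSplitWallStatement π Fermat.Agent.T8.helper29.wallBN := by
  intro P W M' _ hpN A V0 ctx x hx τ hτ hτx hpN' b0 B ε hb0 ν hν
  obtain ⟨D, u, hD, H, hu0, hdvd, hpeu⟩ := exists_peuShape_of_ctx hW ctx hx hτ hτx
  exact isWallBN2_of_concl (4 * M') P.p P.pp hpN' (hC P M' hpN' A ctx.liesOver b0 B ε hb0 ν hν)
    ⟨H.1, D, hD, H.2⟩ hpeu

end Fermat.Agent.T8.helper89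

end
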