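import Fermat.Agent.T8.helper29_ConclAsm
import Fermat.Agent.T8.helper89_PeuW
import Fermat.Agent.T7.helper43_NormPair

/-!
# T8 = row 38 via S44, [SLOPE-X'] / [CONCL] (helper4): NEWNESS THREADED THROUGH THE NON-SPLIT WALL

The K1-corollary on the cover (`helper29.SlopeCoverStatement`) contains
`helper29.SheetOrd A N (SheetGood (N p) A D.Z) Q ordS`, i.e. an order function which is
multiplicative on ALL reductions of the sheet field `F(Z₁)`.  The cheap proof is by density
(`helper22` [SHEET-FFB]: the residue field of the sheet is `FFb A N`), which needs the NEWNESS of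
the Kummer function `K` of the cover.  `helper29.PeuShape` forgets that `K` is new; the wall knows
it (`helper89.exists_stronglySplit_of_isT0_new` builds `K` as a Kummer function of the new class
`τ x - x`).  This file threads newness through, WITHOUT editing any file:

* `isNewN_atkinLehner`      : `helper27.IsNewN` is stable under the Atkin-Lehner involution;
* `PeuShapeNew`             : `helper29.PeuShape` + `IsNewN N p K`; `PeuShapeNew.toPeuShape`,
                              `PeuShapeNew.al` (stable under `W`);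
* `exists_peuShapeNew_of_ctx` : the context of the wall gives a Kummer function with
                              `PeuShapeNew`;
* `SlopeCoverNewAll`        : `helper29.SlopeCoverAll` with the extra hypotheses
                              `StronglySplit D.K`, `IsNewN (4 M') p D.K`, `red D.Z₁ = 1`,
                              `red D.Z₂ = 1` in front of `SlopeCoverStatement`;
* `slopeOutN_of_peuShapeNew` : [CONCL] for a Kummer function with `PeuShapeNew`;
* `nonSplitWall_of_slopesNew` : **`SlopeXAll → SlopeCoverNewAll →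
                              helper38.NonSplitWallStatement π wallBN`**.
-/

set_option autoImplicit false
set_option linter.unusedSectionVars false
set_option linter.unusedVariables false
set_option linter.style.longLine false
set_option linter.style.haveILetI false

noncomputable section

namespace Fermat.Agent.T8.helper4

open HahnSeries IntermediateField AlgebraicCurve ModularCurve
open Fermat.Agent.S18.helper19 Fermat.Agent.P2.helper29 Fermat.Agent.P2.helper93
open Fermat.Agent.T2 Fermat.Agent.T2.helper36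
open Fermat.Agent.T7 Fermat.Agent.T8.helper72 Fermat.Agent.T8.helper38
open Fermat.Agent.T8.helper65 Fermat.Agent.T8.helper80
open Fermat.Agent.T8.helper54 (IsRed1 DvdOff ModEqOff)
open Fermat.Agent.P3.helper94 (IsKummerRep)
open Fermat.Agent.T3.helper16 (IsUnit0)
open Fermat.Agent.T8.helper88 (CovData Cov)
open Fermat.Agent.T8.helper86 (IsKummerRoot)
open Fermat.Agent.T8.helper98 (IsIK1)
open Fermat.Agent.T8.helper16 (ordAt)

section Level

variable {N p : ℕ} [NeZero N] [NeZero p] {A : ValuationSubring Kb}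

/-- **newness is stable under the Atkin-Lehner involution** (`N_β = N_α ∘ W`). -/
theorem isNewN_atkinLehner (hp : p.Prime) (hpN : ¬ p ∣ N) {u : FF (N * p)}
    (h : helper27.IsNewN N p u) : helper27.IsNewN N p (atkinLehner N p hp hpN u) := by
  obtain ⟨⟨c₁, v₁, hc₁, hv₁, e₁⟩, ⟨c₂, v₂, hc₂, hv₂, e₂⟩⟩ := h
  refine ⟨⟨c₂, v₂, hc₂, hv₂, ?_⟩, ⟨c₁, v₁, hc₁, hv₁, ?_⟩⟩
  · rw [← helper43.normAlong_beta_eq N p hp hpN]
    exact e₂
  · rw [helper43.normAlong_beta_eq N p hp hpN, atkinLehner_atkinLehner]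
    exact e₁

/-- **the input of [CONCL] with a NEW Kummer function `K`** -/
def PeuShapeNew (N p : ℕ) [NeZero N] [NeZero p] (hp : p.Prime) (hpN : ¬ p ∣ N)
    (A : ValuationSubring Kb) (u : FF (N * p)) : Prop :=
  ∃ (K : FF (N * p)) (ζ α : Kb),
    helper27.StronglySplit (N * p) (atkinLehner N p hp hpN) A p K ∧ helper27.IsNewN N p K ∧
    IsPrimitiveRoot ζ p ∧ α ≠ 0 ∧ A.valuation (α ^ p) = 1 ∧
    ∀ σ : Kb ≃ₐ[ℚ] Kb, IsIK1 A p σ →
      ∃ (j : ℕ) (c : Kb) (v : FF (N * p)), σ α = ζ ^ j * α ∧ c ≠ 0 ∧ v ≠ 0 ∧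
        galF (N * p) σ u = algebraMap Kb (FF (N * p)) c * v ^ p * u * K ^ j

theorem PeuShapeNew.toPeuShape {hp : p.Prime} {hpN : ¬ p ∣ N} {u : FF (N * p)}
    (h : PeuShapeNew N p hp hpN A u) :
    Fermat.Agent.T8.helper29.PeuShape (atkinLehner N p hp hpN) A p u := by
  obtain ⟨K, ζ, α, hK, -, hζ, hα, hv, hσ⟩ := h
  exact ⟨K, ζ, α, hK, hζ, hα, hv, hσ⟩

/-- **`PeuShapeNew` is stable under `W`.** -/
theorem PeuShapeNew.al {hp : p.Prime} {hpN : ¬ p ∣ N} {u : FF (N * p)}
    (h : PeuShapeNew N p hp hpN A u) :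
    PeuShapeNew N p hp hpN A (atkinLehner N p hp hpN u) := by
  obtain ⟨K, ζ, α, hK, hnew, hζ, hα0, hαv, hσ⟩ := h
  refine ⟨atkinLehner N p hp hpN K, ζ, α,
    Fermat.Agent.T8.helper89.stronglySplit_W (atkinLehner N p hp hpN)
      (atkinLehner_atkinLehner N p hp hpN) hK,
    isNewN_atkinLehner hp hpN hnew, hζ, hα0, hαv, fun σ hs => ?_⟩
  obtain ⟨j, c, v, h1, hc, hv, e⟩ := hσ σ hs
  refine ⟨j, c, atkinLehner N p hp hpN v, h1, hc, (map_ne_zero _).mpr hv, ?_⟩
  have h1' : galF (N * p) σ (atkinLehner N p hp hpN u)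
      = atkinLehner N p hp hpN (galF (N * p) σ u) :=
    (atkinLehner_arithmeticRingAut N p hp hpN σ u).symm
  rw [h1', e, map_mul, map_mul, map_mul, map_pow, map_pow, AlgEquiv.commutes]

/-- **[CONCL] for a Kummer function with `PeuShapeNew`**, from the K1-corollary on `X` and the
K1-corollary on the covers of NEW strongly split Kummer functions. -/
theorem slopeOutN_of_peuShapeNew (hp : p.Prime) (hpN : ¬ p ∣ N) (hN : 4 ∣ N ∨ 9 ∣ N)
    (hA : A.LiesOverPrime p) (ν : FFb A N)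
    (hX : ∀ Q : Place (kA A) (FFb A N), 0 ≤ Q.ord (jBar A N) →
      K1CorAt (N * p) (atkinLehner N p hp hpN : FF (N * p) →+* FF (N * p)) A p
        (IsGood A (N * p)) (ordAt Q) (Q.ord ν))
    (hX' : ∀ (D : CovData (N * p) (atkinLehner N p hp hpN) A p)
      (hKum : IsKummerRoot p D.K D.Z) (ζ : Kb) (hζp : ζ ^ p = 1), IsPrimitiveRoot ζ p →
      helper27.StronglySplit (N * p) (atkinLehner N p hp hpN) A p D.K →
      helper27.IsNewN N p D.K → red A D.Z₁ = 1 → red A D.Z₂ = 1 →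
      Fermat.Agent.T8.helper29.SlopeCoverStatement D hKum ζ hζp ν)
    {u : FF (N * p)} (hu : u ≠ 0) (hdiv : ∀ P : Place Kb (FF (N * p)), (p : ℤ) ∣ P.ord u)
    (hpeu : PeuShapeNew N p hp hpN A u) :
    Fermat.Agent.T8.helper29.SlopeOutN A N p ν u := by
  obtain ⟨K, ζ, α, hK, hnew, hζ, hα, hv, hgal⟩ := hpeu
  have hSS := hK
  obtain ⟨hA0, hKdiv, Z₁, Z₂, h1, h2, hr1, hr2⟩ := hK
  have hWgal : ∀ (σ : Kb ≃ₐ[ℚ] Kb) (x : FF (N * p)),
      atkinLehner N p hp hpN (galF (N * p) σ x) = galF (N * p) σ (atkinLehner N p hp hpN x) :=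
    fun σ x => atkinLehner_arithmeticRingAut N p hp hpN σ x
  by_cases hpow : ∃ b : FF (N * p), b ^ p = K
  · -- split case: `K` is a `p`-th power
    obtain ⟨b, hb⟩ := hpow
    have hcl : Fermat.Agent.T8.helper98.ClassFixedBy (N * p)
        (· ∈ Fermat.Agent.T8.helper98.ik1Subgroup A p) p u := by
      intro σ hσ
      obtain ⟨j, c, v, -, -, -, hg⟩ := hgal σ (Fermat.Agent.T8.helper98.mem_ik1Subgroup.1 hσ)
      refine ⟨c, v * b ^ j, ?_⟩
      rw [hg, ← hb]
      ring
    obtain ⟨c₀, G, hc₀, hG, hfix, -⟩ :=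
      Fermat.Agent.T8.helper98.desc_statement (M := N * p)
        (Fermat.Agent.T8.helper98.ik1Subgroup A p) hp.pos u hu hcl
    exact Fermat.Agent.T8.helper29.slopeOutN_of_fixed hp hpN hA (atkinLehner N p hp hpN) hWgal
      hu hc₀ hG hdiv
      (fun σ hσ => hfix σ (Fermat.Agent.T8.helper98.mem_ik1Subgroup.2 hσ)) ν hX
  · -- the cover
    have hK0 : K ≠ 0 := fun h0 => hpow ⟨0, by rw [h0, zero_pow hp.ne_zero]⟩
    let D : CovData (N * p) (atkinLehner N p hp hpN) A p :=
      CovData.ofBad N p hp hpN hN A hA K hA0 Z₁ Z₂ h1 h2 hr1 hr2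
    have hKum : IsKummerRoot p D.K D.Z := ⟨hp, h1, fun b hb => hpow ⟨b, hb⟩⟩
    have hI : Fermat.Agent.T8.helper83.DescInput (N * p) A p K u D.Z ζ α :=
      { root := hKum
        zeta := hζ.pow_eq_one
        alpha := hα
        u_ne := hu
        galZ := by
          intro σ hσ
          obtain ⟨w, -, hw, -⟩ := D.pair σ hσ.1 1 hp.one_lt.le
            (fun z hz => by rw [pow_one]; exact hσ.2 z hz)
          refine ⟨w, ?_⟩
          rw [pow_one] at hw
          exact hw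
        galu := hgal }
    have hD := Fermat.Agent.T8.helper59.descOutput_of_primitive hI hζ
    obtain ⟨E, hE⟩ := Fermat.Agent.T8.helper29.exists_divisor_of_dvd hK0 hKdiv
    exact Fermat.Agent.T8.helper29.slopeOutN_of_descOutput D hKum ζ hζ.pow_eq_one hp hpN hA hζ
      hE hu hdiv hv hD ν (hX' D hKum ζ hζ.pow_eq_one hζ hSS hnew hr1 hr2)

end Level

/-! ### The wall -/

section Wall

variable {π : PullData} {P : FreyPackage} {W : WeierstrassCurve ℤ} {M' : ℕ} [NeZero M']
  {hpN : ¬ P.p ∣ 4 * M'} {A : ValuationSubring (AlgebraicClosure ℚ)}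
  {V0 : AddSubgroup (JZero (M' * P.p))}

/-- **the context of the wall gives a Kummer function with `PeuShapeNew`** (non-split case):
the Kummer function `K` of the class `τ x - x` is new because the class is. -/
theorem exists_peuShapeNew_of_ctx (ctx : WallCtx π P W M' hpN A V0) {x : JZero (4 * M' * P.p)}
    (hx : x ∈ V0.map (π M' P.p)) {τ : AlgebraicClosure ℚ ≃ₐ[ℚ] AlgebraicClosure ℚ}
    (hτ : helper98.IsIK1 A P.p τ) (hτx : τ • x ≠ x) :
    haveI : NeZero P.p := ⟨P.pp.ne_zero⟩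
    ∃ u : FF (4 * M' * P.p), IsKummerRep P.p x u ∧ PeuShapeNew (4 * M') P.p P.pp hpN A u := by
  haveI : NeZero P.p := ⟨P.pp.ne_zero⟩
  obtain ⟨D, u, hD, H⟩ := exists_isRootDiv_of_nsmul_eq_zero (ctx.real.tors x hx)
  obtain ⟨ζ, α, hζ, hα0, hαv, -, hσ⟩ :=
    Fermat.Agent.T8.helper89.exists_peu_alpha Fermat.Agent.T8.helper47.wMult' ctx hx hτ hτx
  have hnew := nonSplit_new ctx hx τ
  obtain ⟨E, K, hE, HK, hK⟩ :=
    Fermat.Agent.T8.helper89.exists_stronglySplit_of_isT0_new (4 * M') P.p P.pp hpN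
      (Or.inl (Dvd.intro M' rfl)) A ctx.liesOver (nonSplit_isT0 ctx hx hτ.1) hnew
  obtain ⟨hα', hβ'⟩ := (helper43.mem_newPart (4 * M') P.p).mp hnew
  have hKnew : helper27.IsNewN (4 * M') P.p K :=
    helper27.isNewN_of_push ⟨HK.1, E, hE, HK.2⟩ hα' hβ'
  refine ⟨u, ⟨H.1, D, hD, H.2⟩, K, ζ, α, hK, hKnew, hζ, hα0, hαv, fun σ hs => ?_⟩
  obtain ⟨j, hj1, hj2⟩ := hσ σ hs
  have HKj : IsRootDiv P.p
      ((j • E : Divisor.degZero (K := Kb) (F := FF (4 * M' * P.p))) :
        Divisor Kb (FF (4 * M' * P.p))) (K ^ j) := by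
    rw [AddSubgroup.coe_nsmul]
    exact HK.pow j
  have hjE : (Pic0.mk (j • E) : JZero (4 * M' * P.p)) = j • (τ • x - x) := by
    have : (Pic0.mk (j • E) : JZero (4 * M' * P.p))
        = j • (Pic0.mk E : JZero (4 * M' * P.p)) := rfl
    rw [this, hE]
  have h : σ • (Pic0.mk D : JZero (4 * M' * P.p)) = Pic0.mk D + Pic0.mk (j • E) := by
    rw [hD, hjE]
    exact hj2
  obtain ⟨c, v, hc, hv, e⟩ := galF_eq_of_smul_eq_add σ H HKj h
  refine ⟨j, c, v, hj1, hc, hv, ?_⟩
  rw [e]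
  ring

/-- **[SLOPE] K1-version on the covers `X'` of NEW Kummer functions**, at every bad pair
`(4 M', p)` of a Frey package and every first-component reduction `ν` of a weight-one unit:
`helper29.SlopeCoverAll` with the hypotheses `StronglySplit D.K`, `IsNewN (4 M') p D.K`,
`red D.Z₁ = 1`, `red D.Z₂ = 1` available to the prover. -/
def SlopeCoverNewAll : Prop :=
  ∀ (P : FreyPackage) (M' : ℕ) [NeZero M'] (hpN : ¬ P.p ∣ 4 * M')
    (A : ValuationSubring Kb), A.LiesOverPrime P.p →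
    ∀ (b0 : FF (4 * M' * P.p)) (B : PowerSeries ℤ) (ε : ℤ), IsUnit0 P.pp hpN b0 B ε →
    ∀ ν : FFb A (4 * M'), IsRed1 A (4 * M') P.p b0 ν →
    ∀ (D : CovData (4 * M' * P.p) (atkinLehner (4 * M') P.p P.pp hpN) A P.p)
      (hKum : IsKummerRoot P.p D.K D.Z) (ζ : Kb) (hζp : ζ ^ P.p = 1), IsPrimitiveRoot ζ P.p →
      helper27.StronglySplit (4 * M' * P.p) (atkinLehner (4 * M') P.p P.pp hpN) A P.p D.K →
      helper27.IsNewN (4 * M') P.p D.K → red A D.Z₁ = 1 → red A D.Z₂ = 1 →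
      Fermat.Agent.T8.helper29.SlopeCoverStatement D hKum ζ hζp ν

/-- the unrestricted contract implies the restricted one -/
theorem slopeCoverNewAll_of_all (h : Fermat.Agent.T8.helper29.SlopeCoverAll) :
    SlopeCoverNewAll :=
  fun P M' _ hpN A hA b0 B ε hb ν hν D hKum ζ hζp hζ _ _ _ _ =>
    h P M' hpN A hA b0 B ε hb ν hν D hKum ζ hζp hζ

/-- **the non-split wall from the two K1-corollaries, the cover one for NEW `K` only** -/
theorem nonSplitWall_of_slopesNew (π : PullData) (hX : Fermat.Agent.T8.helper29.SlopeXAll)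
    (hX' : SlopeCoverNewAll) :
    NonSplitWallStatement π Fermat.Agent.T8.helper29.wallBN := by
  intro P W M' _ hpN A V0 ctx x hx τ hτ hτx hpN' b0 B ε hb ν hν
  haveI : NeZero P.p := ⟨P.pp.ne_zero⟩
  obtain ⟨u, hk, hpeu⟩ := exists_peuShapeNew_of_ctx ctx hx hτ hτx
  obtain ⟨hu0, D, hD, hdiv⟩ := hk
  have hdvd : ∀ Q : Place Kb (FF (4 * M' * P.p)), (P.p : ℤ) ∣ Q.ord u := fun Q =>
    ⟨(D : Divisor Kb (FF (4 * M' * P.p))) Q, (hdiv Q).symm⟩
  have hN4 : 4 ∣ 4 * M' ∨ 9 ∣ 4 * M' := Or.inl (Dvd.intro M' rfl)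
  obtain ⟨f₁, β₁, a1, a2⟩ := slopeOutN_of_peuShapeNew P.pp hpN' hN4 ctx.liesOver ν
    (hX P M' hpN' A ctx.liesOver b0 B ε hb ν hν)
    (hX' P M' hpN' A ctx.liesOver b0 B ε hb ν hν) hu0 hdvd hpeu
  obtain ⟨f₂, β₂, b1, b2⟩ := slopeOutN_of_peuShapeNew P.pp hpN' hN4 ctx.liesOver ν
    (hX P M' hpN' A ctx.liesOver b0 B ε hb ν hν)
    (hX' P M' hpN' A ctx.liesOver b0 B ε hb ν hν)
    ((map_ne_zero (atkinLehner (4 * M') P.p P.pp hpN')).mpr hu0)
    (Fermat.Agent.T8.helper89.dvd_ord_W _ hdvd) hpeu.al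
  exact ⟨u, f₁, f₂, β₁, β₂, ⟨hu0, D, hD, hdiv⟩, a1, a2, b1, b2⟩

end Wall

end Fermat.Agent.T8.helper4

end
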