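import Mathlib
import Fermat.Agent.T8.helper23_CovPtWire2
import Fermat.Agent.T8.helper4_YCaseInst
import Fermat.Agent.T8.helper16_RingXSheet1
import Fermat.Agent.T8.helper97_SheetsRingX
import Fermat.Agent.T8.helper97_SheetsGen
import Fermat.Agent.T8.helper29_CovPtOrd
import Fermat.Agent.T8.helper22_SheetFFb
import Fermat.Agent.T8.helper57_SplitN
import Fermat.Agent.T8.helper9_SlopeCoverInst
import Fermat.Agent.T8.helper65_NormIdx

/-!
# T8 = row 38 via S44, [SLOPE-X'] (helper4): THE COVER INSTANCE `helper29.CovPtFix`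

Assembly of the pieces on main at the local ring `R_Q = helper16.locX Q` of a finite point `Q` of
the special fibre:

* SETUP: `S = R_Q[t] ⊆ Cov` (`t = helper97.tGen D ζ`), monogenic for the image `f` in `R_Q[X]` of
  the polynomial of `helper97.exists_sheets_poly`; `a` a lift of `τ₁ = red (T₁ 0)`
  (`helper22.sheet_red_mem_FFb`, `helper16.exists_redL_eq_of_root`), a simple root of `f` modulo
  `𝔪_Q` (the reduction of `f` is the Artin - Schreier polynomial); `T₀ = S_M`, `M = ptIdeal t a`;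
* sheet 1: `helper9.Sheet1` for `sh1 0`, `ρR = redL` (`helper16_RingXSheet1`);
* sheet 2: `helper4.yCase_locX`;
* wiring: `helper23.covPtHom_locX`, transport `helper9.CovPtHom.toCovPt`;
* order function: `helper22.sheetOrd_cov₁`, `helper57.ordAt_iota_eq`.
-/

set_option autoImplicit false
set_option synthInstance.maxHeartbeats 400000
set_option maxHeartbeats 1000000
set_option linter.unusedSectionVars false
set_option linter.unusedVariables false
set_option linter.style.longLine false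
set_option linter.style.haveILetI false

noncomputable section

open HahnSeries IntermediateField AlgebraicCurve ModularCurve Polynomial
open Fermat.Agent.S18.helper19 Fermat.Agent.P2.helper29 Fermat.Agent.T2.helper36
open Fermat.Agent.S24

namespace Fermat.Agent.T8.helper4

open Fermat.Agent.P2.helper66 (iota)
open Fermat.Agent.T3.helper16 (IsUnit0)
open Fermat.Agent.T3.helper36 (RhoQ GaussIs rhoQ_incl)
open Fermat.Agent.T3.helper98 (IsRegJ)
open Fermat.Agent.T8.helper63 (IsRX KerRedStatement kerRedStatement)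
open Fermat.Agent.T8.helper16
open Fermat.Agent.T8.helper33 (IsMonogenic ptIdeal)
open Fermat.Agent.T8.helper88 (CovData Cov)
open Fermat.Agent.T8.helper86 (IsKummerRoot)
open Fermat.Agent.T8.helper65 (muFix IA cwAct)
open Fermat.Agent.T8.helper97 (tGen SheetsPoly phiX)
open Fermat.Agent.T8.helper54 (IsRed1)
open Fermat.Agent.T8.helper9 (Sheet1 CovPtHom CovPtStatement)

variable {N q : ℕ} [NeZero N] [NeZero q] {A : ValuationSubring Kb} {hq : q.Prime}
  {hqN : ¬ q ∣ N} {b0 : FF (N * q)} {B : PowerSeries ℤ} {ε : ℤ}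

section Setup

variable (D : CovData (N * q) (atkinLehner N q hq hqN) A q)
  [((muFix q ⊓ IA A).subgroupOf (IA A)).FiniteIndex]
  (hKum : IsKummerRoot q D.K D.Z) (ζ : Kb) (hζ : IsPrimitiveRoot ζ q)
  (Q : Place (kA A) (FFb A N))

/-- the tame trace is a root of the polynomial of the sheets over `R_Q` -/
theorem aeval_tGen_locX {f₀ : (ringX A hq hqN)[X]} {c₁ c₂ : LaurentSeries (kA A)}
    (hf : SheetsPoly D hKum ζ hζ f₀ c₁ c₂) :
    aeval (tGen D ζ) (f₀.map (locXIncl Q)) = 0 := by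
  rw [aeval_def, eval₂_map]
  exact hf.eval_tGen

/-- **SETUP**: `R_Q[t]` is monogenic over `R_Q` for the polynomial of the sheets -/
theorem isMonogenic_tGen_locX {f₀ : (ringX A hq hqN)[X]} {c₁ c₂ : LaurentSeries (kA A)}
    (hf : SheetsPoly D hKum ζ hζ f₀ c₁ c₂) (hq3 : 3 ≤ q) (hA : A.LiesOverPrime q)
    (hfix1 : ∀ σ ∈ muFix q ⊓ IA A, cwAct σ (incl A D.Z₁) = incl A D.Z₁)
    (hfix2 : ∀ σ ∈ muFix q ⊓ IA A, cwAct σ (incl A D.Z₂) = incl A D.Z₂)
    (hr1 : red A D.Z₁ = 1) (hr2 : red A D.Z₂ = 1) :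
    IsMonogenic (⟨tGen D ζ, Algebra.self_mem_adjoin_singleton (locX A hq hqN Q) (tGen D ζ)⟩ :
      Algebra.adjoin (locX A hq hqN Q) {tGen D ζ}) (f₀.map (locXIncl Q)) := by
  haveI : IsScalarTower (locX A hq hqN Q) (FF (N * q)) (Cov (N * q) D.Z) :=
    IsScalarTower.of_algebraMap_eq (fun _ => rfl)
  refine IsMonogenic.of_adjoin (tGen D ζ) _ (hf.monic.map _) (aeval_tGen_locX D hKum ζ hζ Q hf)
    (fun g hg hgt => ?_)
  refine Fermat.Agent.T8.helper33.free_of_natDegree_le_minpoly (K := FF (N * q))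
    (fun x y hxy => Subtype.ext hxy) (tGen D ζ) _ ?_ g hg hgt
  rw [Fermat.Agent.T8.helper97.natDegree_minpoly_tGen D hKum ζ hζ hq3 hA hfix1 hfix2 hr1 hr2,
    hf.monic.natDegree_map, hf.natDegree]

end Setup

section Main

variable (D : CovData (N * q) (atkinLehner N q hq hqN) A q)
  [((muFix q ⊓ IA A).subgroupOf (IA A)).FiniteIndex]
  (hKum : IsKummerRoot q D.K D.Z) (ζ : Kb) (hζp : ζ ^ q = 1)

/-- the reduction on the first sheet of the polynomial of the sheets is the Artin - Schreier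
polynomial -/
theorem map_redL_sheetsPoly (hζ : IsPrimitiveRoot ζ q) (hA : A.LiesOverPrime q)
    (Q : Place (kA A) (FFb A N)) (hQ : IsFinitePt Q)
    {f₀ : (ringX A hq hqN)[X]} {c₁ c₂ : LaurentSeries (kA A)}
    (hf : SheetsPoly D hKum ζ hζ f₀ c₁ c₂) :
    (f₀.map (locXIncl Q)).map (redL hA Q hQ) =
      (X ^ q - X - Polynomial.C c₁ : (LaurentSeries (kA A))[X]) := by
  ext m : 1
  rw [coeff_map, coeff_map, redL_incl]
  exact hf.red1 m


section Abs

variable {Q : Place (kA A) (FFb A N)}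
  [IsLocalRing (locX A hq hqN Q)] [IsNoetherianRing (locX A hq hqN Q)]
  {S : Type*} [CommRing S] [IsDomain S] [Algebra (locX A hq hqN Q) S]
  {t : S} {f : (locX A hq hqN Q)[X]} {a : locX A hq hqN Q}

/-- **the point of the cover from the SETUP** (abstract in `S = R_Q[t]`): the local ring is
`T₀ = S_M`, `M = ptIdeal t a`, embedded in the cover by the universal property. -/
theorem covPt_of_setup (h : IsUnit0 hq hqN b0 B ε) (hA : A.LiesOverPrime q)
    (hN : 4 ∣ N ∨ 9 ∣ N) (hQ : IsFinitePt Q)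
    (hζ : IsPrimitiveRoot ζ q) (hq3 : 3 ≤ q)
    (hfix1 : ∀ σ ∈ muFix q ⊓ IA A, cwAct σ (incl A D.Z₁) = incl A D.Z₁)
    (hfix2 : ∀ σ ∈ muFix q ⊓ IA A, cwAct σ (incl A D.Z₂) = incl A D.Z₂)
    (hr1 : red A D.Z₁ = 1) (hr2 : red A D.Z₂ = 1)
    (jS : S →+* Cov (N * q) D.Z) (hjS : Function.Injective jS)
    (hjR : ∀ r : locX A hq hqN Q, jS (algebraMap (locX A hq hqN Q) S r) =
      algebraMap (FF (N * q)) (Cov (N * q) D.Z) (r : FF (N * q)))
    (hjt : jS t = tGen D ζ)
    (hm : IsMonogenic t f) (hdeg : f.natDegree = q)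
    (ha : f.eval a ∈ IsLocalRing.maximalIdeal (locX A hq hqN Q))
    (ha' : f.derivative.eval a ∉ IsLocalRing.maximalIdeal (locX A hq hqN Q))
    {xxR yR : locX A hq hqN Q}
    (hxx : (xxR : FF (N * q)) = atkinLehner N q hq hqN b0) (hyy : (yR : FF (N * q)) = b0)
    (H : Sheet1 (A := A) (Fermat.Agent.T8.helper29.sh1 D hKum ζ hζp 0) jS t a xxR
      (FFb A N).toSubfield (ordAt Q) (redL hA Q hQ)) :
    ∃ (j : ℕ) (T : Subring (Cov (N * q) D.Z)) (xx y : T),
      Fermat.Agent.T8.helper9.CovPt (A := A) (Fermat.Agent.T8.helper23.covSet D)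
        (Fermat.Agent.T8.helper29.sh1 D hKum ζ hζp 0)
        (Fermat.Agent.T8.helper29.sh2 D hKum ζ hζp j) T xx y (FFb A N).toSubfield (ordAt Q)
        (redL hA Q hQ yR) q := by
  have hKer := kerRedStatement h A hA
  have hxxeq : xxR = locXIncl Q (xxX hKer) := Subtype.ext hxx
  have hxxm : xxR ∈ IsLocalRing.maximalIdeal (locX A hq hqN Q) := by
    rw [IsLocalRing.mem_maximalIdeal, mem_nonunits_iff, hxxeq]
    exact not_isUnit_xx hA hKer Q hQ
  haveI hP : (ptIdeal t a).IsPrime := (hm.ptIdeal_isMaximal a ha).isPrime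
  have hunits : ∀ y : (ptIdeal t a).primeCompl, IsUnit (jS y) := by
    intro y
    rw [isUnit_iff_ne_zero]
    intro h0
    have h1 : (y : S) = 0 := hjS (h0.trans (map_zero _).symm)
    exact y.2 (h1 ▸ Ideal.zero_mem _)
  have hι : ∀ s : S, (IsLocalization.lift (M := (ptIdeal t a).primeCompl)
      (S := Localization.AtPrime (ptIdeal t a)) hunits)
        (algebraMap S (Localization.AtPrime (ptIdeal t a)) s) = jS s :=
    fun s => IsLocalization.lift_eq hunits s
  have hmul : ∀ r s : LaurentSeries (kA A), r ∈ (FFb A N).toSubfield →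
      s ∈ (FFb A N).toSubfield → r ≠ 0 → s ≠ 0 → ordAt Q (r * s) = ordAt Q r + ordAt Q s :=
    fun r s hr hs hr0 hs0 => ordAt_mul Q hr hs hr0 hs0
  have hcm : ∀ c : kA A, c ≠ 0 → ∀ r : LaurentSeries (kA A), r ∈ (FFb A N).toSubfield → r ≠ 0 →
      ordAt Q (algebraMap (kA A) (LaurentSeries (kA A)) c * r) = ordAt Q r :=
    fun c hc r hr _ => Fermat.Agent.T8.helper65.ordAt_const_mul Q hc hr
  have hν0 : redL hA Q hQ yR ≠ 0 := by
    rw [redL_yy h hA Q hQ yR hyy]
    exact Fermat.Agent.T8.helper63.nu_ne_zero h A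
  obtain ⟨hdom, hpid⟩ := dvr_quot_xx h hA hN Q hQ xxR hxx
  haveI := hdom
  haveI := hpid
  obtain ⟨j, hj, hy⟩ := yCase_locX D hKum ζ hζp (Localization.AtPrime (ptIdeal t a)) h hA hN hQ
    hζ hq3 hfix1 hfix2 hr1 hr2 jS hjR hjt hm hdeg ha ha'
    (IsLocalization.lift (M := (ptIdeal t a).primeCompl)
      (S := Localization.AtPrime (ptIdeal t a)) hunits) hι yR hyy
  have key := Fermat.Agent.T8.helper23.covPtHom_locX D (Localization.AtPrime (ptIdeal t a))
    h hA hKum ζ hζ hq3 hfix1 hfix2 hr1 hr2 hxx hyy hm ha ha' hxxm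
    (Fermat.Agent.T8.helper29.sh2 D hKum ζ hζp j) hjS hjR hjt
    (IsLocalization.lift (M := (ptIdeal t a).primeCompl)
      (S := Localization.AtPrime (ptIdeal t a)) hunits) hι H hmul hcm hν0 hy
  exact ⟨j, _, _, _, key.toCovPt⟩

end Abs

/-- **the cover instance at one finite point** -/
theorem covPtStatement_inst (h : IsUnit0 hq hqN b0 B ε) (hA : A.LiesOverPrime q)
    (hN : 4 ∣ N ∨ 9 ∣ N) (hζ : IsPrimitiveRoot ζ q) (hq3 : 3 ≤ q)
    (hK : IsRegJ (N * q) D.K)
    (hnew : Fermat.Agent.T7.helper27.IsNewN N q D.K)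
    (hfix1 : ∀ σ ∈ muFix q ⊓ IA A, cwAct σ (incl A D.Z₁) = incl A D.Z₁)
    (hfix2 : ∀ σ ∈ muFix q ⊓ IA A, cwAct σ (incl A D.Z₂) = incl A D.Z₂)
    (hr1 : red A D.Z₁ = 1) (hr2 : red A D.Z₂ = 1)
    (ν : FFb A N) (hν : IsRed1 A N q b0 ν) :
    CovPtStatement D hKum ζ hζp ν := by
  intro Q hQ0
  have hQ : IsFinitePt Q := hQ0
  refine ⟨ordAt Q, Fermat.Agent.T8.helper22.sheetOrd_cov₁ N q hq hqN hA D hnew hr1 Q, ?_⟩
  haveI : IsLocalRing (locX A hq hqN Q) := isLocalRing_locX hA Q hQ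
  haveI : IsNoetherianRing (locX A hq hqN Q) := isNoetherianRing_locX hA Q hQ
  haveI : CharP (kA A) q := Fermat.Agent.P2.helper93.charP_residueField hq hA
  haveI : CharP (LaurentSeries (kA A)) q :=
    charP_of_injective_ringHom
      (f := (HahnSeries.C : kA A →+* LaurentSeries (kA A))) HahnSeries.C_injective q
  obtain ⟨f₀, c₁, c₂, hf⟩ :=
    Fermat.Agent.T8.helper97.exists_sheets_poly D hKum ζ hζ hq3 hA hK hfix1 hfix2 hr1 hr2
  obtain ⟨T₁, T₂, h1, -, -, -⟩ :=
    Fermat.Agent.T8.helper97.exists_sheet_models D hKum ζ hζ hq3 hA hfix1 hfix2 hr1 hr2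
  have hm := isMonogenic_tGen_locX D hKum ζ hζ Q hf hq3 hA hfix1 hfix2 hr1 hr2
  have hdeg : (f₀.map (locXIncl Q)).natDegree = q := by
    rw [hf.monic.natDegree_map, hf.natDegree]
  -- the embedding of `S = R_Q[t]`
  have hjS : Function.Injective
      ((Algebra.adjoin (locX A hq hqN Q) {tGen D ζ}).val :
        Algebra.adjoin (locX A hq hqN Q) {tGen D ζ} →+* Cov (N * q) D.Z) :=
    Subtype.val_injective
  have hjR : ∀ r : locX A hq hqN Q,
      ((Algebra.adjoin (locX A hq hqN Q) {tGen D ζ}).val :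
        Algebra.adjoin (locX A hq hqN Q) {tGen D ζ} →+* Cov (N * q) D.Z)
        (algebraMap (locX A hq hqN Q) (Algebra.adjoin (locX A hq hqN Q) {tGen D ζ}) r) =
      algebraMap (FF (N * q)) (Cov (N * q) D.Z) (r : FF (N * q)) := fun r => rfl
  have hjt : ((Algebra.adjoin (locX A hq hqN Q) {tGen D ζ}).val :
        Algebra.adjoin (locX A hq hqN Q) {tGen D ζ} →+* Cov (N * q) D.Z)
      (⟨tGen D ζ, Algebra.self_mem_adjoin_singleton (locX A hq hqN Q) (tGen D ζ)⟩ :
        Algebra.adjoin (locX A hq hqN Q) {tGen D ζ}) = tGen D ζ := rfl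
  -- the reduction `τ₁` of `t` on the sheet `(1, 0)`
  have hT1 : incl A (T₁ 0) = ((tGen D ζ : Cov (N * q) D.Z) : LaurentSeries Kb) := by
    rw [h1 0, Fermat.Agent.T8.helper97.sh1_zero]
  have hτmem : red A (T₁ 0) ∈ FFb A N :=
    Fermat.Agent.T8.helper22.sheet_red_mem_FFb N q hq hqN A hA hnew D.Z₁ D.h1 hr1
      (Y := T₁ 0) (by rw [hT1]; exact (tGen D ζ).2)
  have e1 : ∀ r : locX A hq hqN Q,
      RhoQ A (((Fermat.Agent.T8.helper29.sh1 D hKum ζ hζp 0).comp
        ((Algebra.adjoin (locX A hq hqN Q) {tGen D ζ}).val :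
          Algebra.adjoin (locX A hq hqN Q) {tGen D ζ} →+* Cov (N * q) D.Z))
        (algebraMap (locX A hq hqN Q) (Algebra.adjoin (locX A hq hqN Q) {tGen D ζ}) r))
        (redL hA Q hQ r) := fun r => rhoQ_redL hA Q hQ r
  have e3 : RhoQ A (((Fermat.Agent.T8.helper29.sh1 D hKum ζ hζp 0).comp
        ((Algebra.adjoin (locX A hq hqN Q) {tGen D ζ}).val :
          Algebra.adjoin (locX A hq hqN Q) {tGen D ζ} →+* Cov (N * q) D.Z))
        (⟨tGen D ζ, Algebra.self_mem_adjoin_singleton (locX A hq hqN Q) (tGen D ζ)⟩ :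
          Algebra.adjoin (locX A hq hqN Q) {tGen D ζ})) (red A (T₁ 0)) := by
    have := rhoQ_incl (A := A) (T₁ 0)
    rw [hT1] at this
    exact this
  have hroot : ((f₀.map (locXIncl Q)).map (redL hA Q hQ)).eval (red A (T₁ 0)) = 0 := by
    have := rhoQ_aeval (A := A) _ (redL hA Q hQ) e1 e3 (f₀.map (locXIncl Q))
    rw [hm.root, map_zero] at this
    exact this.eq_zero
  obtain ⟨a, ha0⟩ := exists_redL_eq_of_root hA hN Q hQ (f₀.map (locXIncl Q)) (hf.monic.map _)
    hτmem hroot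
  -- `xx`, `y`
  have hKer := kerRedStatement h A hA
  have hxx : ((locXIncl Q (xxX hKer) : locX A hq hqN Q) : FF (N * q)) =
      atkinLehner N q hq hqN b0 := rfl
  have hyy : ((locXIncl Q (yyX hKer) : locX A hq hqN Q) : FF (N * q)) = b0 := rfl
  have hxxm : locXIncl Q (xxX hKer) ∈ IsLocalRing.maximalIdeal (locX A hq hqN Q) := by
    rw [IsLocalRing.mem_maximalIdeal, mem_nonunits_iff]
    exact not_isUnit_xx hA hKer Q hQ
  -- `a` is a simple root of `f` modulo the maximal ideal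
  have hAS := map_redL_sheetsPoly D hKum ζ hζ hA Q hQ hf
  have hred_eval : ∀ g : (locX A hq hqN Q)[X],
      redL hA Q hQ (g.eval a) = (g.map (redL hA Q hQ)).eval (red A (T₁ 0)) := by
    intro g
    rw [← ha0, eval_map_apply]
  have ha : (f₀.map (locXIncl Q)).eval a ∈ IsLocalRing.maximalIdeal (locX A hq hqN Q) := by
    have h0 : redL hA Q hQ ((f₀.map (locXIncl Q)).eval a) = 0 := by
      rw [hred_eval, hroot]
    obtain ⟨c, hc⟩ := dvd_of_redL_eq_zero h hA Q hQ (locXIncl Q (xxX hKer)) hxx h0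
    rw [hc]
    exact Ideal.mul_mem_right _ _ hxxm
  have ha' : (f₀.map (locXIncl Q)).derivative.eval a ∉
      IsLocalRing.maximalIdeal (locX A hq hqN Q) := by
    have h0 : redL hA Q hQ ((f₀.map (locXIncl Q)).derivative.eval a) = -1 := by
      rw [hred_eval, ← derivative_map, hAS]
      simp only [derivative_sub, derivative_X_pow, derivative_X, derivative_C, sub_zero,
        eval_sub, eval_mul, eval_pow, eval_X, eval_one, eval_C]
      have hq0 : ((q : ℕ) : LaurentSeries (kA A)) = 0 := CharP.cast_eq_zero _ q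
      rw [hq0, zero_mul, zero_sub]
    have hu : IsUnit ((f₀.map (locXIncl Q)).derivative.eval a) := by
      rw [isUnit_iff_redQ hA Q hQ]
      have h2 : redQ hA Q hQ ((f₀.map (locXIncl Q)).derivative.eval a) = -1 := by
        apply Subtype.ext
        apply Subtype.ext
        exact h0
      rw [h2]
      exact isUnit_one.neg
    rw [IsLocalRing.mem_maximalIdeal, mem_nonunits_iff, not_not]
    exact hu
  have hνy : redL hA Q hQ (locXIncl Q (yyX hKer)) = iota (kA A) B :=
    redL_yy h hA Q hQ (locXIncl Q (yyX hKer)) hyy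
  have H : Sheet1 (A := A) (Fermat.Agent.T8.helper29.sh1 D hKum ζ hζp 0)
      ((Algebra.adjoin (locX A hq hqN Q) {tGen D ζ}).val :
        Algebra.adjoin (locX A hq hqN Q) {tGen D ζ} →+* Cov (N * q) D.Z)
      (⟨tGen D ζ, Algebra.self_mem_adjoin_singleton (locX A hq hqN Q) (tGen D ζ)⟩ :
        Algebra.adjoin (locX A hq hqN Q) {tGen D ζ}) a (locXIncl Q (xxX hKer))
      (FFb A N).toSubfield (ordAt Q) (redL hA Q hQ) :=
    { rho := e1
      mem := fun r => redL_mem_FFb hA Q hQ r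
      nonneg := fun r => ordAt_redL_nonneg hA Q hQ r
      unit := fun r hr => ordAt_redL_of_isUnit hA Q hQ hr
      ker := fun r hr => dvd_of_redL_eq_zero h hA Q hQ (locXIncl Q (xxX hKer)) hxx hr
      xx := redL_xx h hA Q hQ (locXIncl Q (xxX hKer)) hxx
      gen := by rw [ha0]; exact e3 }
  obtain ⟨j, T, xx, y, hpt⟩ := covPt_of_setup D hKum ζ hζp h hA hN hQ hζ hq3 hfix1 hfix2 hr1 hr2
    _ hjS hjR hjt hm hdeg ha ha' hxx hyy H
  refine ⟨0, j, T, xx, y, (FFb A N).toSubfield, redL hA Q hQ (locXIncl Q (yyX hKer)), hpt, ?_⟩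
  rw [hνy]
  exact Fermat.Agent.T8.helper57.ordAt_iota_eq hq hqN h hν Q

end Main

section Final

/-- **THE COVER INSTANCE**: the point contract of [SLOPE-X'] at the covers of the new strongly
split Kummer functions with rational roots, at the bad pairs of the Frey packages. -/
theorem covPtFix4 : Fermat.Agent.T8.helper29.CovPtFix := by
  intro P M' _ hpN A hA hdvd hirr b0 B ε hb ν hν D hKum ζ hζp hζ hK hnew hr1 hr2 hf1 hf2
  haveI : Fact P.p.Prime := ⟨P.pp⟩
  haveI := Fermat.Agent.T8.helper65.finiteIndex_muFix (p := P.p) A hA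
  exact covPtStatement_inst D hKum ζ hζp hb hA (Or.inl (Dvd.intro M' rfl)) hζ
    (le_trans (by norm_num) P.hp5) (Fermat.Agent.T8.helper29.isRegJ_of_isA0One hK.1) hnew
    hf1 hf2 hr1 hr2 ν hν

/-- **the non-split wall, hypothesis-free** -/
theorem nonSplitWall4 (π : Fermat.Agent.T8.helper72.PullData) :
    Fermat.Agent.T8.helper38.NonSplitWallStatement π Fermat.Agent.T8.helper29.wallBN :=
  Fermat.Agent.T8.helper29.nonSplitWall_of_covPtFixFinal π covPtFix4

end Final

end Fermat.Agent.T8.helper4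

end
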