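import Mathlib

/-!
# T8 (row 38, at risk), leaf [COVER-RING] (helper4, owner; second helper48): CONTRACT

The local ring `R'` of the cover `X'` at a point `s'` over a closed point `s` of the special
fibre, with the hypotheses of [UFD2] (`helper6.ufm_of_quotient`, `helper6.slope_abs`), in PURE
COMMUTATIVE ALGEBRA (Mathlib only).  The instance feeds it with

* `F'`   : the cover field (or any field containing it, e.g. Laurent series),
* `R`    : the local ring `R_s` of [RING-X] (inertia-fixed regular integral functions,
           localised at `s`), noetherian, `red : R → D` ONTO the local ring `D` of one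
           component of the special fibre at `s` (a discrete valuation ring:
           `Place.toValuationSubring`), `ker red = y R` (`y = b₀` for the second component,
           `y = W b₀` for the first);
* `t`    : the inertia-fixed generator of the cover (tame average of `(Z₁ / U - 1) / λ`),
           a root of a monic polynomial of degree `n = p` over `R`, so that
           `S = R + R t + ⋯ + R t ^ (n - 1)` is a ring;
* `ρ j`  : the `n = p` sheet reductions `S → D` over the chosen component (all of them extend
           `red`), with nodes `ρ j t = red (c j)`, pairwise differences units of `D`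
           (`= j - j'` in `𝔽_p`).

Output (`CoverRingStatement`): for every sheet `j₀` the subring
`R' := locAt S (ρ j₀) = { a / s : a, s ∈ S, ρ j₀ s a unit of D }` of `F'` is a NOETHERIAN LOCAL
DOMAIN, the reduction extends to `ρ' : R' → D`, ONTO, with `ker ρ' = y R'`, units of `R'` =
elements with unit reduction, `R' ⧸ (y)` is a principal ideal domain, and `R'` is a UFD.

The four abstract statements:

* `CoverRingLocStatement` : the localisation step (any noetherian `S`, kernel hypothesis in
                            sheet form);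
* `CoverKerStatement`     : the kernel on ONE sheet from the kernel on `R` (Vandermonde):
                            `ρ j₀ f = 0 ⟹ y ∣ (∏_{j ≠ j₀} (t - c j)) * f`;
* `SheetMatchStatement`   : [SHEETS] the point of the sheet `(1, i)` over `s` lies on exactly one
                            sheet `(2, j)`: a residue map `ψ₁` of `S` extending the residue map
                            of `R` is one of the `n` residue maps `ψ j` with distinct nodes;
* `CoverRingStatement`    : the combination, in the form consumed by [SLOPE] on `X'`.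

`locAt_eq_of_isUnit_iff` (proved here): two sheet reductions with the same units give the same
local ring - with `SheetMatchStatement` this is "`R'` is the local ring of BOTH sheets through
`s'`", so that `helper6.slope_of_ufm` applies to `ρ'₁` and to `ρ'₂` on the same UFD.
-/

set_option autoImplicit false
set_option linter.unusedSectionVars false
set_option linter.style.longLine false

noncomputable section

namespace Fermat.Agent.T8.helper4

universe u v w

section Defs

variable {F' : Type u} [Field F'] {D : Type v} [CommRing D]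

/-- `locAt S ρ` : the localisation of the subring `S` of the field `F'` at the elements with
unit reduction, as a subring of `F'`: all `f` with `f * s = a`, `a, s ∈ S`, `ρ s` a unit. -/
def locAt (S : Subring F') (ρ : S →+* D) : Subring F' where
  carrier := {f | ∃ a s : S, IsUnit (ρ s) ∧ f * (s : F') = (a : F')}
  mul_mem' := by
    rintro f g ⟨a, s, hs, h⟩ ⟨b, t, ht, h'⟩
    refine ⟨a * b, s * t, by rw [map_mul]; exact hs.mul ht, ?_⟩
    rw [Subring.coe_mul, Subring.coe_mul, ← h, ← h']
    ring
  one_mem' := ⟨1, 1, by rw [map_one]; exact isUnit_one, by simp⟩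
  add_mem' := by
    rintro f g ⟨a, s, hs, h⟩ ⟨b, t, ht, h'⟩
    refine ⟨a * t + b * s, s * t, by rw [map_mul]; exact hs.mul ht, ?_⟩
    rw [Subring.coe_mul, Subring.coe_add, Subring.coe_mul, Subring.coe_mul, ← h, ← h']
    ring
  zero_mem' := ⟨0, 1, by rw [map_one]; exact isUnit_one, by simp⟩
  neg_mem' := by
    rintro f ⟨a, s, hs, h⟩
    exact ⟨-a, s, hs, by rw [Subring.coe_neg, ← h]; ring⟩

theorem mem_locAt {S : Subring F'} {ρ : S →+* D} {f : F'} :
    f ∈ locAt S ρ ↔ ∃ a s : S, IsUnit (ρ s) ∧ f * (s : F') = (a : F') := Iff.rfl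

theorem le_locAt (S : Subring F') (ρ : S →+* D) : S ≤ locAt S ρ := fun f hf =>
  ⟨⟨f, hf⟩, 1, by rw [map_one]; exact isUnit_one, by simp⟩

/-- two reductions with the same units define the same local ring -/
theorem locAt_eq_of_isUnit_iff {D₁ : Type w} [CommRing D₁] (S : Subring F') (ρ : S →+* D)
    (ρ₁ : S →+* D₁) (h : ∀ s : S, IsUnit (ρ s) ↔ IsUnit (ρ₁ s)) : locAt S ρ = locAt S ρ₁ := by
  ext f
  constructor
  · rintro ⟨a, s, hs, e⟩
    exact ⟨a, s, (h s).mp hs, e⟩
  · rintro ⟨a, s, hs, e⟩
    exact ⟨a, s, (h s).mpr hs, e⟩

/-- the conclusions of [COVER-RING] for a subring `R'` of `F'` containing `S`, an element `y`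
and a reduction `ρ` of `S`: `R'` is a noetherian local UFD, `ρ` extends to `ρ' : R' → D`, onto,
with kernel `y R'`, the units of `R'` are the elements with unit reduction, and `R' ⧸ (y)` is a
principal ideal domain. -/
def IsCoverRing (S R' : Subring F') (ρ : S →+* D) (y : S) : Prop :=
  ∃ (hle : S ≤ R') (ρ' : R' →+* D),
    (∀ s : S, ρ' (Subring.inclusion hle s) = ρ s) ∧
    IsNoetherianRing R' ∧ IsLocalRing R' ∧
    (∀ f : R', IsUnit f ↔ IsUnit (ρ' f)) ∧
    Function.Surjective ρ' ∧
    (∀ f : R', ρ' f = 0 ↔ Subring.inclusion hle y ∣ f) ∧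
    ¬ IsUnit (Subring.inclusion hle y) ∧
    IsDomain (R' ⧸ Ideal.span {Subring.inclusion hle y}) ∧
    IsPrincipalIdealRing (R' ⧸ Ideal.span {Subring.inclusion hle y}) ∧
    UniqueFactorizationMonoid R'

end Defs

/-- **[COVER-RING], localisation step.**  `S` a noetherian subring of a field, `ρ : S → D` a
ring homomorphism to a local principal ideal domain, `ρ y = 0`, the kernel of `ρ` is generated
by `y` up to elements with unit reduction, and `ρ` is onto up to elements with unit reduction:
then `locAt S ρ` satisfies `IsCoverRing`. -/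
def CoverRingLocStatement : Prop :=
  ∀ (F' : Type u) [Field F'] (D : Type v) [CommRing D] [IsDomain D] [IsLocalRing D]
    [IsPrincipalIdealRing D] (S : Subring F') [IsNoetherianRing S] (ρ : S →+* D) (y : S),
    ρ y = 0 →
    (∀ a : S, ρ a = 0 → ∃ h g : S, IsUnit (ρ h) ∧ h * a = y * g) →
    (∀ d : D, ∃ a s : S, IsUnit (ρ s) ∧ d * ρ s = ρ a) →
    IsCoverRing S (locAt S ρ) ρ y

/-- **[COVER-RING], the kernel on one sheet (Vandermonde).**  `S = R + R t + ⋯ + R t^(n-1)`,
`n` ring homomorphisms `ρ j : S → D` (`D` a domain) extending `red : R → D`, `ker red = y R`,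
with pairwise distinct nodes `ρ j t = red (c j)`: an element `f` of `S` killed by `ρ j₀` becomes
divisible by `y` after multiplication with `∏_{j ≠ j₀} (t - c j)`. -/
def CoverKerStatement : Prop :=
  ∀ (R : Type w) [CommRing R] (S : Type u) [CommRing S] (D : Type v) [CommRing D] [IsDomain D]
    (ι : R →+* S) (red : R →+* D) (y : R) (t : S) (n : ℕ) (ρ : Fin n → S →+* D)
    (c : Fin n → R),
    (∀ r : R, red r = 0 → ∃ r' : R, r = y * r') →
    (∀ f : S, ∃ a : Fin n → R, f = ∑ k : Fin n, ι (a k) * t ^ (k : ℕ)) →
    (∀ j r, ρ j (ι r) = red r) →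
    (∀ j, ρ j t = red (c j)) →
    Function.Injective (fun j => red (c j)) →
    ∀ (j₀ : Fin n) (f : S), ρ j₀ f = 0 →
      ι y ∣ (∏ j ∈ Finset.univ.erase j₀, (t - ι (c j))) * f

/-- **[SHEETS], abstract form.**  `S = R + R t + ⋯ + R t^(n-1)`, `ψ j : S → k` (`k` a field)
`n` ring homomorphisms extending `φ : R → k` with pairwise distinct values at `t`: every ring
homomorphism `ψ₁ : S → k` extending `φ` is one of them. -/
def SheetMatchStatement : Prop :=
  ∀ (R : Type w) [CommRing R] (S : Type u) [CommRing S] (k : Type v) [Field k]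
    (ι : R →+* S) (t : S) (n : ℕ) (φ : R →+* k) (ψ : Fin n → S →+* k) (ψ₁ : S →+* k),
    (∀ f : S, ∃ a : Fin n → R, f = ∑ k : Fin n, ι (a k) * t ^ (k : ℕ)) →
    (∀ j r, ψ j (ι r) = φ r) → (∀ r, ψ₁ (ι r) = φ r) →
    Function.Injective (fun j => ψ j t) →
    ∃ j, ψ₁ = ψ j

/-- **[COVER-RING]**, the form consumed by [SLOPE] on `X'`.  `R ≤ S` subrings of the field `F'`,
`R` noetherian, `red : R → D` ONTO the local principal ideal domain `D` with `ker red = y R`,
`S = R + R t + ⋯ + R t^(n-1)`, `ρ j : S → D` the `n` sheet reductions extending `red`, with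
nodes `ρ j t = red (c j)` whose pairwise differences are units of `D`.  Then for every sheet
`j₀` the ring `locAt S (ρ j₀)` satisfies `IsCoverRing`. -/
def CoverRingStatement : Prop :=
  ∀ (F' : Type u) [Field F'] (D : Type v) [CommRing D] [IsDomain D] [IsLocalRing D]
    [IsPrincipalIdealRing D] (R S : Subring F') [IsNoetherianRing R] (hRS : R ≤ S)
    (red : R →+* D) (y : R) (t : S) (n : ℕ) (ρ : Fin n → S →+* D) (c : Fin n → R),
    (∀ r : R, red r = 0 ↔ y ∣ r) →
    Function.Surjective red →
    (∀ f : S, ∃ a : Fin n → R, (f : F') = ∑ k : Fin n, (a k : F') * (t : F') ^ (k : ℕ)) →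
    (∀ j (r : R), ρ j (Subring.inclusion hRS r) = red r) →
    (∀ j, ρ j t = red (c j)) →
    (∀ i j, i ≠ j → IsUnit (red (c i) - red (c j))) →
    ∀ j₀ : Fin n, IsCoverRing S (locAt S (ρ j₀)) (ρ j₀) (Subring.inclusion hRS y)

end Fermat.Agent.T8.helper4

end
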