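import Mathlib
import Fermat.Agent.T3.helper36_RhoQ

/-!
# T8 = row 38 via S44, [SLOPE-X'] (helper4): THE POINT OF THE COVER ON A SHEET (`y_case`)

Pure algebra in the `RhoQ` vocabulary (`T3.helper36`), for ANY field `F'` with ring homomorphisms
("sheets") `σ j : F' →+* ℚ̄((q))`.  Nothing about modular curves, no density, no newness.

* `redKer T s hint`        : the ideal of the elements of the subring `T` with reduction `0` on the
                             sheet `s`; it is PRIME (`redKer_isPrime`).
* `exists_sheet_through`   : **matching.**  `S = R + R t + ⋯ + R t^(p-1)`, the sheets `σ j`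
                             (`j < p`) agree on `R`, the reductions `τ j` of `t` on the sheets are
                             pairwise different, `ker (red ∘ σ 0 |_R) = y R`: for every prime
                             ideal `𝔪` of `S` containing `y` there is a sheet `j < p` whose
                             reduction kernel on `S` lies in `𝔪` ("the point lies on the sheet").
* `sheet_int_of_match`     : then every element of a subring `T` of fractions `b / w`
                             (`b, w ∈ S`, `w ∉ 𝔪`) is Gauss-integral on that sheet.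
* `sheet_ker_of_match`     : **kernel.**  If moreover `T` is local, `T ⧸ (y)` is a principal ideal
                             domain and some non-unit of `T` has nonzero reduction on the sheet
                             (at a double point: the vertical prime of the OTHER component), then
                             the reduction kernel of the sheet on `T` is `y T`.

USE (`helper9.CovPt`, fields `y_case` / `red1` / `ker1`): `F' = Cov`, `R = locX Q`,
`S = R[t]` (`helper33.IsMonogenic.exists_rep`), `𝔪 = ptIdeal t a`, `T` its localisation,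
`σ j = sheet₂ ∘ ρ^j` (or `ρ^j` for the first component), `τ j = τ 0 - j`
(`helper97.exists_sheet_models`).
-/

set_option autoImplicit false
set_option linter.unusedSectionVars false
set_option linter.unusedVariables false
set_option linter.style.longLine false
set_option linter.style.haveILetI false

noncomputable section

namespace Fermat.Agent.T8.helper4

open HahnSeries ModularCurve
open Fermat.Agent.S18.helper19 Fermat.Agent.P2.helper29 Fermat.Agent.T2.helper36
open Fermat.Agent.T3.helper36

variable {A : ValuationSubring Kb} {F' : Type*} [Field F']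

/-- the elements of the subring `T` with reduction `0` on the sheet `s` -/
def redKer (A : ValuationSubring Kb) (T : Subring F') (s : F' →+* LaurentSeries Kb)
    (hint : ∀ a : T, ∃ r : LaurentSeries (kA A), RhoQ A (s a) r) : Ideal T where
  carrier := {a | RhoQ A (s a) 0}
  add_mem' := by
    intro a b ha hb
    have h := RhoQ.add ha hb
    rw [add_zero] at h
    show RhoQ A (s ((a + b : T) : F')) 0
    rw [Subring.coe_add, map_add]
    exact h
  zero_mem' := by
    show RhoQ A (s ((0 : T) : F')) 0
    rw [Subring.coe_zero, map_zero]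
    exact rhoQ_zero
  smul_mem' := by
    intro c a ha
    obtain ⟨r, hr⟩ := hint c
    have h := RhoQ.mul hr ha
    rw [mul_zero] at h
    show RhoQ A (s ((c • a : T) : F')) 0
    rw [smul_eq_mul, Subring.coe_mul, map_mul]
    exact h

theorem mem_redKer {T : Subring F'} {s : F' →+* LaurentSeries Kb}
    {hint : ∀ a : T, ∃ r : LaurentSeries (kA A), RhoQ A (s a) r} {a : T} :
    a ∈ redKer A T s hint ↔ RhoQ A (s a) 0 := Iff.rfl

/-- the reduction kernel is a prime ideal -/
theorem redKer_isPrime (T : Subring F') (s : F' →+* LaurentSeries Kb)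
    (hint : ∀ a : T, ∃ r : LaurentSeries (kA A), RhoQ A (s a) r) :
    (redKer A T s hint).IsPrime := by
  refine ⟨?_, ?_⟩
  · intro htop
    have h1 : (1 : T) ∈ redKer A T s hint := by rw [htop]; trivial
    rw [mem_redKer, Subring.coe_one, map_one] at h1
    exact zero_ne_one h1.eq_one
  · intro a b hab
    obtain ⟨ra, ha⟩ := hint a
    obtain ⟨rb, hb⟩ := hint b
    rw [mem_redKer, Subring.coe_mul, map_mul] at hab
    have h0 : ra * rb = 0 := (RhoQ.mul ha hb).unique hab
    rcases mul_eq_zero.mp h0 with h | h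
    · left
      rw [mem_redKer, ← h]
      exact ha
    · right
      rw [mem_redKer, ← h]
      exact hb

/-- **[SHEETS], matching.**  For every prime ideal `𝔪` of `S = R + R t + ⋯ + R t^(p-1)`
containing `y` there is a sheet `j < p` whose reduction kernel on `S` lies in `𝔪`. -/
theorem exists_sheet_through (p : ℕ) (hp : 0 < p) (R S : Subring F') (hRS : R ≤ S) (t : S) (y : R)
    (σ : ℕ → F' →+* LaurentSeries Kb)
    (hrep : ∀ w : S, ∃ g : ℕ → R, (w : F') = ∑ k ∈ Finset.range p, (g k : F') * (t : F') ^ k)
    (hσR : ∀ j (r : R), σ j r = σ 0 r)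
    (hintR : ∀ r : R, ∃ r' : LaurentSeries (kA A), RhoQ A (σ 0 r) r')
    (hker : ∀ r : R, RhoQ A (σ 0 r) 0 → ∃ r' : R, r = y * r')
    (τ : ℕ → LaurentSeries (kA A)) (ht : ∀ j, j < p → RhoQ A (σ j t) (τ j))
    (hτ : ∀ i j, i < p → j < p → i ≠ j → τ i ≠ τ j)
    (𝔪 : Ideal S) [h𝔪 : 𝔪.IsPrime] (hy : (⟨(y : F'), hRS y.2⟩ : S) ∈ 𝔪) :
    ∃ j, j < p ∧ ∀ w : S, RhoQ A (σ j w) 0 → w ∈ 𝔪 := by
  classical
  by_contra hcon
  push Not at hcon
  choose! w hw0 hwm using hcon
  -- integrality of `S` on every sheet, with the reduction as a polynomial in `τ j`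
  choose rb hrb using hintR
  have hSint : ∀ (x : S) (g : ℕ → R),
      (x : F') = ∑ k ∈ Finset.range p, (g k : F') * (t : F') ^ k → ∀ j, j < p →
      RhoQ A (σ j x) (∑ k ∈ Finset.range p, rb (g k) * τ j ^ k) := by
    intro x g hg j hj
    rw [hg, map_sum]
    refine RhoQ.sum _ fun k _ => ?_
    rw [map_mul, map_pow]
    refine RhoQ.mul ?_ ((ht j hj).pow k)
    rw [hσR j (g k)]
    exact hrb (g k)
  have hSint' : ∀ (x : S) j, j < p → ∃ r : LaurentSeries (kA A), RhoQ A (σ j x) r := by
    intro x j hj
    obtain ⟨g, hg⟩ := hrep x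
    exact ⟨_, hSint x g hg j hj⟩
  -- the product of the witnesses
  let W : S := ∏ j ∈ Finset.range p, w j
  have hWm : W ∉ 𝔪 := by
    intro hW
    obtain ⟨j, hj, hjm⟩ := Ideal.IsPrime.prod_mem_iff.mp hW
    exact hwm j (Finset.mem_range.mp hj) hjm
  have hW0 : ∀ j, j < p → RhoQ A (σ j W) 0 := by
    intro j hj
    have e : (W : F') = (w j : F') * ((∏ i ∈ (Finset.range p).erase j, w i : S) : F') := by
      rw [← Subring.coe_mul, Finset.mul_prod_erase _ _ (Finset.mem_range.mpr hj)]
    obtain ⟨r, hr⟩ := hSint' (∏ i ∈ (Finset.range p).erase j, w i) j hj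
    have h := RhoQ.mul (hw0 j hj) hr
    rw [zero_mul] at h
    rw [e, map_mul]
    exact h
  -- the coefficients of `W` reduce to `0`
  obtain ⟨g, hg⟩ := hrep W
  let P : Polynomial (LaurentSeries (kA A)) :=
    ∑ k ∈ Finset.range p, Polynomial.C (rb (g k)) * Polynomial.X ^ k
  have hPdeg : P.natDegree < p := by
    have h1 : P.natDegree ≤ p - 1 :=
      Polynomial.natDegree_sum_le_of_forall_le (Finset.range p) _ (fun k hk =>
        le_trans (Polynomial.natDegree_C_mul_X_pow_le _ _)
          (by have := Finset.mem_range.mp hk; omega))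
    omega
  have hPeval : ∀ j : Fin p, P.eval (τ j) = 0 := by
    intro j
    have h1 := hSint W g hg j j.2
    have h2 := h1.unique (hW0 j j.2)
    simp only [P, Polynomial.eval_finsetSum, Polynomial.eval_mul, Polynomial.eval_C,
      Polynomial.eval_pow, Polynomial.eval_X]
    exact h2
  have hinj : Function.Injective (fun j : Fin p => τ j) := by
    intro i j hij
    by_contra hne
    exact hτ i j i.2 j.2 (fun h => hne (Fin.ext h)) hij
  have hP0 : P = 0 :=
    Polynomial.eq_zero_of_natDegree_lt_card_of_eval_eq_zero P hinj hPeval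
      (by rw [Fintype.card_fin]; exact hPdeg)
  have hcoef : ∀ k, k < p → rb (g k) = 0 := by
    intro k hk
    have h := congrArg (fun Q : Polynomial (LaurentSeries (kA A)) => Q.coeff k) hP0
    simp only [P, Polynomial.finsetSum_coeff, Polynomial.coeff_C_mul, Polynomial.coeff_X_pow,
      Polynomial.coeff_zero] at h
    rw [Finset.sum_eq_single k] at h
    · simpa using h
    · intro b _ hbk
      rw [if_neg (fun h' => hbk h'.symm), mul_zero]
    · intro hk'
      exact absurd (Finset.mem_range.mpr hk) hk'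
  -- so `W ∈ y S ⊆ 𝔪`
  have hdiv : ∀ k, k < p → ∃ r' : R, g k = y * r' := by
    intro k hk
    apply hker
    have := hrb (g k)
    rwa [hcoef k hk] at this
  apply hWm
  have hWeq : W = ∑ k ∈ Finset.range p, (⟨(g k : F'), hRS (g k).2⟩ : S) * t ^ k := by
    apply Subtype.ext
    rw [hg]
    push_cast
    rfl
  rw [hWeq]
  refine Ideal.sum_mem _ fun k hk => ?_
  obtain ⟨r', hr'⟩ := hdiv k (Finset.mem_range.mp hk)
  have e : (⟨(g k : F'), hRS (g k).2⟩ : S) =
      (⟨(y : F'), hRS y.2⟩ : S) * (⟨(r' : F'), hRS r'.2⟩ : S) := by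
    apply Subtype.ext
    show (g k : F') = (y : F') * (r' : F')
    rw [hr']
    rfl
  rw [e, mul_assoc]
  exact Ideal.mul_mem_right _ _ hy

/-- **integrality on the matching sheet**: every fraction `b / w` with `w ∉ 𝔪` is
Gauss-integral on a sheet whose reduction kernel on `S` lies in `𝔪`. -/
theorem sheet_int_of_match (S T : Subring F') (𝔪 : Ideal S) (s : F' →+* LaurentSeries Kb)
    (hintS : ∀ w : S, ∃ r : LaurentSeries (kA A), RhoQ A (s w) r)
    (hmatch : ∀ w : S, RhoQ A (s w) 0 → w ∈ 𝔪)
    (hloc : ∀ a : T, ∃ b w : S, w ∉ 𝔪 ∧ (a : F') * (w : F') = (b : F')) (a : T) :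
    ∃ r : LaurentSeries (kA A), RhoQ A (s a) r := by
  obtain ⟨b, w, hw, e⟩ := hloc a
  obtain ⟨rb, hb⟩ := hintS b
  obtain ⟨rw', hw'⟩ := hintS w
  have hrw : rw' ≠ 0 := by
    rintro rfl
    exact hw (hmatch w hw')
  have hsw : s (w : F') ≠ 0 := hw'.ne_zero hrw
  refine ⟨rb / rw', ?_⟩
  have e' : s (a : F') = s (b : F') / s (w : F') := by
    rw [eq_div_iff hsw, ← map_mul, e]
  rw [e']
  exact hb.div hw' hrw

/-- **the reduction kernel on the local ring of the point is `y T`.** -/
theorem sheet_ker_of_match (T : Subring F') [IsLocalRing T] (y : T)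
    (s : F' →+* LaurentSeries Kb)
    (hint : ∀ a : T, ∃ r : LaurentSeries (kA A), RhoQ A (s a) r)
    (hy : RhoQ A (s y) 0)
    (hdom : IsDomain (T ⧸ Ideal.span {y})) (hpid : IsPrincipalIdealRing (T ⧸ Ideal.span {y}))
    (hxx : ∃ b : T, ¬ IsUnit b ∧ ∃ r : LaurentSeries (kA A), r ≠ 0 ∧ RhoQ A (s b) r)
    (a : T) (ha : RhoQ A (s a) 0) : y ∣ a := by
  classical
  haveI := hdom
  haveI := hpid
  set 𝔓 : Ideal T := redKer A T s hint with h𝔓
  haveI hprime : 𝔓.IsPrime := redKer_isPrime T s hint
  have hy𝔓 : Ideal.span {y} ≤ 𝔓 := by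
    rw [Ideal.span_singleton_le_iff_mem]
    exact hy
  obtain ⟨b, hbu, r, hr, hbr⟩ := hxx
  have hb𝔓 : b ∉ 𝔓 := by
    intro hb
    exact hr (hbr.unique hb)
  have hbm : b ∈ IsLocalRing.maximalIdeal T := (IsLocalRing.mem_maximalIdeal b).mpr hbu
  -- the image of `𝔓` in `T ⧸ (y)`
  let mk := Ideal.Quotient.mk (Ideal.span {y} : Ideal T)
  have hsurj : Function.Surjective mk := Ideal.Quotient.mk_surjective
  have hkermk : RingHom.ker mk ≤ 𝔓 := by
    rw [Ideal.mk_ker]
    exact hy𝔓
  haveI hprime' : (𝔓.map mk).IsPrime := Ideal.map_isPrime_of_surjective hsurj hkermk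
  have hcomap : (𝔓.map mk).comap mk = 𝔓 := by
    rw [Ideal.comap_map_of_surjective' mk hsurj 𝔓, sup_eq_left]
    exact hkermk
  have hbot : 𝔓.map mk = ⊥ := by
    by_contra hne
    have hmax : (𝔓.map mk).IsMaximal := Ring.DimensionLEOne.maximalOfPrime hne hprime'
    have hmax' : 𝔓.IsMaximal := by
      rw [← hcomap]
      exact Ideal.comap_isMaximal_of_surjective mk hsurj
    have h𝔓m : 𝔓 = IsLocalRing.maximalIdeal T := IsLocalRing.eq_maximalIdeal hmax'
    exact hb𝔓 (h𝔓m ▸ hbm)
  have ha𝔓 : a ∈ 𝔓 := ha
  have h1 : mk a ∈ 𝔓.map mk := Ideal.mem_map_of_mem mk ha𝔓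
  rw [hbot, Ideal.mem_bot, Ideal.Quotient.eq_zero_iff_mem, Ideal.mem_span_singleton] at h1
  exact h1

end Fermat.Agent.T8.helper4

end
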