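import Fermat.Agent.T8.helper2_ExitEnd
import Fermat.Agent.T8.helper51_AnnCusp

/-!
# T8 (row 38), [F3-EXIT]: the two contracts of `helper2_ExitEnd` (helper51)

`helper2.modularRepOfLevel_of_mem_annRb` (the end of (F-EXIT)) takes two named contracts:

* `helper2.SatCuspStatement L k`  — PROVED here for every field `k` of positive characteristic
  (`satCuspStatement_of_charP`, `satCuspStatement_kA`), from `helper51.satCusp`;
* `helper2.CuspAnnStatement L A`  — the REDUCED form of [CUSP-ANN]; it follows from the
  characteristic `0` form `helper51.CuspAnnStatement L` (`cuspAnnStatement_red`).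

`modularRepOfLevel_of_mem_annRb_char0` : the end of (F-EXIT) with the characteristic `0` leaf
[CUSP-ANN] as its only hypothesis.
-/

set_option autoImplicit false
set_option synthInstance.maxHeartbeats 400000

open ModularCurve CuspForm CongruenceSubgroup ModularFormClass

noncomputable section

namespace Fermat.Agent.T8.helper51

open HahnSeries
open Fermat.Agent.S18.helper19 Fermat.Agent.P2.helper29 Fermat.Agent.T8.helper74

/-- **[SAT-CUSP]** in the shape of `helper2.SatCuspStatement`, any field of characteristic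
`p`. -/
theorem satCuspStatement_of_charP (L : ℕ) [NeZero L] (p : ℕ) (hp : p.Prime) (k : Type*)
    [Field k] [CharP k p] : Fermat.Agent.T8.helper2.SatCuspStatement L k :=
  satCusp L p hp k

/-- **[SAT-CUSP]** for the residue field of `A`, `A` over a prime. -/
theorem satCuspStatement_of_liesOver (L : ℕ) [NeZero L] {A : ValuationSubring Kb} {p : ℕ}
    (hp : p.Prime) (hA : A.LiesOverPrime p) :
    Fermat.Agent.T8.helper2.SatCuspStatement L (kA A) := by
  have : Fact p.Prime := ⟨hp⟩
  have : CharP (kA A) p := Fermat.Agent.P2.helper81.charP_residueField A hA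
  exact satCusp L p hp (kA A)

/-- **[SAT-CUSP]** for the residue field of `A`, `A` over a prime not dividing the level. -/
theorem satCuspStatement_kA (L : ℕ) [NeZero L] {A : ValuationSubring Kb}
    (hP : PrimeToLevel L A) : Fermat.Agent.T8.helper2.SatCuspStatement L (kA A) := by
  obtain ⟨ℓ, hℓ, -, hA⟩ := hP
  exact satCuspStatement_of_liesOver L hℓ hA

/-- the reduced form of [CUSP-ANN] (`helper2.CuspAnnStatement`) from the characteristic `0`
form. -/
theorem cuspAnnStatement_red {L : ℕ} (A : ValuationSubring Kb) (hC : CuspAnnStatement L) :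
    Fermat.Agent.T8.helper2.CuspAnnStatement L A :=
  fun f z hz => zSeries_mem_annRb (A := A) hC f z hz

/-- **the end of (F-EXIT)** with the characteristic `0` leaf [CUSP-ANN] as only hypothesis. -/
theorem modularRepOfLevel_of_mem_annRb_char0 (P : FreyPackage) {M' : ℕ} [NeZero M']
    {W : WeierstrassCurve ℤ} (hW : W.IsIntegralModelOf P.freyCurve)
    {A : ValuationSubring Kb} (hA : A.LiesOverPrime P.p) (hpM : ¬ P.p ∣ M')
    (hC : CuspAnnStatement M')
    {w : LaurentSeries (kA A)} (hw : w ∈ annRb M' A) (hw0 : w ≠ 0)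
    (heig : ∀ ℓ : Nat.Primes, W.IsGoodPrimeFor (ℓ : ℕ) → (ℓ : ℕ) ≠ 2 → (ℓ : ℕ) ≠ P.p →
      ¬ (ℓ : ℕ) ∣ M' →
      Fermat.Agent.T8.helper47.IsFormalEigen (ℓ : ℕ) (W.apOfModel (ℓ : ℕ))
        (fun m : ℕ => w.coeff (m : ℤ))) :
    P.ModularRepOfLevel M' :=
  Fermat.Agent.T8.helper2.modularRepOfLevel_of_mem_annRb P hW hA hpM
    (cuspAnnStatement_red A hC) (satCuspStatement_of_liesOver M' P.pp hA) hw hw0 heig

end Fermat.Agent.T8.helper51
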