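import Fermat.Agent.T8.helper72_ChainDefs
import Fermat.Agent.T7.helper72_S33Wire
import Fermat.Agent.T3.helper84_K0Ring

/-!
# T8 = row 38 via S44, leaf [G1-END] (helper51, second prover): the wiring

Blueprint `NOTES_helper96_T8_BLUEPRINT`, step (G).  A copy `V` of `E[p]` (Frey curve, `p ∣ a b c`)
inside `J₀(4 M' p)[p]` which lies in `T0_1 ∩ NEW` is impossible:

* by T7 (G1) (`helper72.g1_of_b3_b4`, unconditional on main) every `s` in the inertia group of `A`
  acts on `T0_1 ∩ NEW` through the cyclotomic scalar; the element `s₀` with `s₀ ζ = ζ ^ 2`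
  (`T3.helper84.k0_zeta_trans`) therefore acts on `V`, hence on `E[p]`, as multiplication by `2`;
* curve side (`FreyScalarStatement`): an element of the inertia group at `A` which acts on `E[p]`
  through an integer scalar `k` has `k ≡ 1` modulo `p` (there is a nonzero `p`-torsion point
  outside the kernel of reduction because `p ∣ a b c`; `(s - 1) E[p]` lies in that kernel).

Main statements:

* `FreyScalarStatement`   : the curve-side input (an integer scalar of inertia on `E[p]` is `≡ 1`);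
* `g1_unconditional51`    : T7 (G1) at every bad pair;
* `g1End_of_freyScalar`   : the box (G), for an inertia-equivariant additive bijection `E[p] ≃ V`;
* `G1EndCondStatement`    : the contract (G) of the chain with the hypothesis
                            `P.IsConductorLevel (M' * P.p)`;
* `g1EndCond_of_freyScalar` : `FreyScalarStatement → G1EndCondStatement`.
-/

set_option autoImplicit false
set_option linter.unusedSectionVars false
set_option linter.unusedVariables false
set_option linter.style.longLine false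
set_option linter.style.haveILetI false

noncomputable section

namespace Fermat.Agent.T8.helper51

open ModularCurve WeierstrassCurve WeierstrassCurve.Affine WeierstrassCurve.Affine.Point
open Fermat.Agent.T7 Fermat.Agent.T8.helper72

/-- **[G1-END], curve side**: if an element `s` of the inertia group at a place `A` over `p`
acts on `E[p]` (Frey curve, `p ∣ a b c`) through an integer scalar `k`, then `k ≡ 1` mod `p`. -/
def FreyScalarStatement : Prop :=
  ∀ (P : FreyPackage) (A : ValuationSubring (AlgebraicClosure ℚ)), A.LiesOverPrime P.p →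
    (P.p : ℤ) ∣ P.a * P.b * P.c →
    ∀ s ∈ A.inertiaSubgroupIn ℚ, ∀ k : ℕ,
      (∀ x : FreyTors P, s • x = k • x) → (P.p : ℤ) ∣ (k : ℤ) - 1

/-- T7 (G1), unconditional (B3 + B4 on main). -/
theorem g1_unconditional51 : Fermat.Agent.T7.helper72.S33G1Statement :=
  Fermat.Agent.T7.helper72.g1_of_b3_b4 Fermat.Agent.T7.helper72.s33B3Statement72
    Fermat.Agent.T7.helper72.s33B4Statement72

/-- the prime of a Frey package is odd -/
theorem frey_p_ne_two51 (P : FreyPackage) : P.p ≠ 2 := by
  have := P.hp5; omega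

/-- **[G1-END]**: no inertia-equivariant copy of `E[p]` inside `T0_1 ∩ NEW`. -/
theorem g1End_of_freyScalar (hS : FreyScalarStatement) (P : FreyPackage) (M' : ℕ) [NeZero M']
    (hdiv : (P.p : ℤ) ∣ P.a * P.b * P.c) (hpN : ¬ P.p ∣ 4 * M')
    (A : ValuationSubring (AlgebraicClosure ℚ)) (hA : A.LiesOverPrime P.p)
    (V : AddSubgroup (JZero (4 * M' * P.p))) (e : FreyTors P ≃+ V)
    (he : ∀ σ ∈ A.inertiaSubgroupIn ℚ, ∀ x : FreyTors P,
      ((e (σ • x) : V) : JZero (4 * M' * P.p)) = σ • ((e x : V) : JZero (4 * M' * P.p)))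
    (hnew : V ≤ helper43.newPart (4 * M') P.p) :
    ¬ (∀ x ∈ V, helper2.IsT0 (4 * M') P.p P.pp hpN A P.p x) := by
  intro hT0
  have hp2 : P.p ≠ 2 := frey_p_ne_two51 P
  obtain ⟨ζ, hζ⟩ : ∃ ζ : AlgebraicClosure ℚ, IsPrimitiveRoot ζ P.p :=
    HasEnoughRootsOfUnity.exists_primitiveRoot (AlgebraicClosure ℚ) P.p
  have h2 : ¬ P.p ∣ 2 := fun h' => hp2 ((Nat.prime_dvd_prime_iff_eq P.pp Nat.prime_two).mp h')
  obtain ⟨s₀, hs₀, hs₀ζ⟩ := Fermat.Agent.T3.helper84.k0_zeta_trans P.pp A hA hζ h2
  have hroots : ∀ z : AlgebraicClosure ℚ, z ^ P.p = 1 → s₀ z = z ^ 2 := by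
    intro μ hμ
    obtain ⟨i, -, rfl⟩ := hζ.eq_pow_of_pow_eq_one hμ
    rw [map_pow, hs₀ζ, ← pow_mul, ← pow_mul, mul_comm]
  have h4 : 4 ∣ 4 * M' := Dvd.intro _ rfl
  have hG := g1_unconditional51 P.p P.pp hp2 (4 * M') h4 hpN A hA
  -- `s₀` acts on `V` as multiplication by `2`
  have hV2 : ∀ y ∈ V, s₀ • y = 2 • y := fun y hy =>
    hG y (hT0 y hy) (hnew hy) s₀ hs₀ 2 hroots
  -- hence on `E[p]`
  have hE2 : ∀ x : FreyTors P, s₀ • x = 2 • x := by
    intro x
    apply e.injective
    apply Subtype.ext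
    rw [he s₀ hs₀ x, hV2 _ (e x).2, map_nsmul]
    rfl
  have h := hS P A hA hdiv s₀ hs₀ 2 hE2
  -- `p ∣ 2 - 1 = 1`
  have h1 : (P.p : ℤ) ∣ 1 := by
    have : ((2 : ℕ) : ℤ) - 1 = 1 := by norm_num
    rwa [this] at h
  have h3 : (P.p : ℤ) ≤ 1 := Int.le_of_dvd one_pos h1
  have := P.hp5
  omega

/-- **Contract (G) of the chain, with the hypothesis `P.IsConductorLevel (M' * P.p)`**
(`= helper72.G1EndStatement` + conductor level). -/
def G1EndCondStatement : Prop :=
  ∀ (P : FreyPackage) (W : WeierstrassCurve ℤ) (M' : ℕ) [NeZero M'],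
    W.IsIntegralModelOf P.freyCurve → P.IsConductorLevel (M' * P.p) →
    GaloisRepIsIrreducible (K := AlgebraicClosure ℚ) ℚ P.freyCurve P.p →
    ∀ (hpN : ¬ P.p ∣ 4 * M') (A : ValuationSubring (AlgebraicClosure ℚ)), A.LiesOverPrime P.p →
    ∀ V : AddSubgroup (JZero (4 * M' * P.p)), FreyReal P W (4 * M' * P.p) V →
      V ≤ helper43.newPart (4 * M') P.p →
      ¬ (∀ x ∈ V, helper2.IsT0 (4 * M') P.p P.pp hpN A P.p x)

/-- `p ∣ a b c` from a conductor level divisible by `p` -/
theorem p_dvd_abc_of_cond51 (P : FreyPackage) {M' : ℕ}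
    (hcond : P.IsConductorLevel (M' * P.p)) : (P.p : ℤ) ∣ P.a * P.b * P.c :=
  hcond.support P.p P.pp (Dvd.intro_left _ rfl)

/-- **[G1-END]**: the curve-side statement gives the contract (G) of the chain. -/
theorem g1EndCond_of_freyScalar (hS : FreyScalarStatement) : G1EndCondStatement := by
  intro P W M' _ hW hcond hirr hpN A hA V hV hnew
  obtain ⟨e, he⟩ := hV.iso
  exact g1End_of_freyScalar hS P M' (p_dvd_abc_of_cond51 P hcond) hpN A hA V e
    (fun σ _ x => he σ x) hnew

end Fermat.Agent.T8.helper51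

end
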