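import Fermat.Agent.T8.helper51_G1End
import Fermat.Agent.S13.helper60_AtP

/-!
# T8 = row 38 via S44, leaf [G1-END] (helper51, second prover): reduction of the curve side

`FreyScalarStatement` (an integer scalar of inertia on `E[p]` is `≡ 1` mod `p`) follows from

* `FreyIntegralTorsionStatement` : if `p ∣ a b c`, there is a nonzero `p`-torsion point of the
  Frey curve with `x`-coordinate in `A` (a point OUTSIDE the kernel of reduction), and
* `S13.helper60.exists_submodule_at_p` (on main): `(s - 1) E[p]` lies in the kernel of reduction
  for every `s` in the inertia group at `A`.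

Hence the box (G) of the chain needs only `FreyIntegralTorsionStatement`
(`g1EndCond_of_integralTorsion`).
-/

set_option autoImplicit false
set_option linter.unusedSectionVars false
set_option linter.unusedVariables false
set_option linter.style.longLine false
set_option linter.style.haveILetI false

noncomputable section

namespace Fermat.Agent.T8.helper51

open ModularCurve WeierstrassCurve WeierstrassCurve.Affine WeierstrassCurve.Affine.Point
open Fermat.Agent.T7 Fermat.Agent.T8.helper72

/-- **curve side, point form**: for `p ∣ a b c` there is a nonzero `p`-torsion point of the Frey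
curve whose `x`-coordinate is integral at `A`. -/
def FreyIntegralTorsionStatement : Prop :=
  ∀ (P : FreyPackage) (A : ValuationSubring (AlgebraicClosure ℚ)), A.LiesOverPrime P.p →
    (P.p : ℤ) ∣ P.a * P.b * P.c →
    ∃ (x y : AlgebraicClosure ℚ)
      (h : ((P.freyCurve : Affine ℚ)⁄(AlgebraicClosure ℚ)).Nonsingular x y),
      (P.p : ℤ) • (Point.some x y h : ((P.freyCurve : Affine ℚ)⁄(AlgebraicClosure ℚ)).Point) = 0
        ∧ x ∈ A

/-- the point form gives the scalar form -/
theorem freyScalar_of_integralTorsion (hI : FreyIntegralTorsionStatement) :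
    FreyScalarStatement := by
  intro P A hA hdiv s hs k hk
  by_contra hnd
  obtain ⟨M, hM, hsub⟩ := Fermat.Agent.S13.helper60.exists_submodule_at_p P A hA
  obtain ⟨x, y, h, hT, hx⟩ := hI P A hA hdiv
  -- the torsion point
  set T : FreyTors P := ⟨Point.some x y h, (Submodule.mem_torsionBy_iff _ _).mpr hT⟩ with hTdef
  have hpT : (P.p : ℤ) • T = 0 := by
    apply Subtype.ext
    rw [Submodule.coe_smul]
    exact hT
  -- `(k - 1) T ∈ M`
  have h1 : s • T - T ∈ M := hsub s hs T
  have h2 : s • T - T = ((k : ℤ) - 1) • T := by
    rw [hk T, sub_smul, one_smul, natCast_zsmul]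
  rw [h2] at h1
  -- Bezout
  have hcop : IsCoprime ((k : ℤ) - 1) (P.p : ℤ) := by
    have hpr : Prime (P.p : ℤ) := Nat.prime_iff_prime_int.mp P.pp
    exact (IsCoprime.symm ((Prime.coprime_iff_not_dvd hpr).mpr hnd))
  obtain ⟨u, v, huv⟩ := hcop
  have h3 : T = u • (((k : ℤ) - 1) • T) := by
    have : ((1 : ℤ)) • T = (u * ((k : ℤ) - 1) + v * (P.p : ℤ)) • T := by rw [huv]
    rw [one_smul, add_smul, mul_smul, mul_smul, hpT, smul_zero, add_zero] at this
    exact this
  have h4 : T ∈ M := by
    rw [h3]
    exact M.toAddSubgroup.zsmul_mem h1 u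
  rcases (hM T).mp h4 with h0 | ⟨a, b, hab, hTab, ha⟩
  · exact Point.some_ne_zero h h0
  · have hxa : x = a := by
      have := hTab
      simp only [hTdef] at this
      injection this
    exact ha (hxa ▸ hx)

/-- **[G1-END]** from the point form of the curve side. -/
theorem g1EndCond_of_integralTorsion (hI : FreyIntegralTorsionStatement) : G1EndCondStatement :=
  g1EndCond_of_freyScalar (freyScalar_of_integralTorsion hI)

end Fermat.Agent.T8.helper51

end
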