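import Mathlib
import Fermat.Prelude.Def_FLTPrelim_Ramification

/-!
# T8 (row 38), box [K-RAT], leaf (L1) (helper51): bounded denominators

For a valuation subring `A` of `ℚ̄` over the prime `p`, every `c : ℚ̄` has a multiple
`p ^ n * c` in `A`.

* `mem_of_isIntegral_int51`    : algebraic integers lie in `A`;
* `natCast_inv_mem_of_not_dvd` : `d⁻¹ ∈ A` for a natural number `d` prime to `p`;
* `exists_pow_mul_mem`         : **(L1)** `∃ n, p ^ n * c ∈ A`;
* `exists_pow_mul_mem_finset`  : the same for finitely many elements at once;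
* `exists_pow_mul_mem_nonunits`: `∃ n, p ^ n * c ∈ A.nonunits` (strict form).
-/

set_option autoImplicit false

namespace Fermat.Agent.T8.helper51

/-- algebraic integers lie in every valuation subring -/
theorem mem_of_isIntegral_int51 {K : Type*} [Field K] (A : ValuationSubring K) {x : K}
    (hx : IsIntegral ℤ x) : x ∈ A := by
  have h1 : IsIntegral A x := hx.tower_top
  obtain ⟨y, rfl⟩ := (IsIntegrallyClosed.isIntegral_iff (R := A) (K := K)).mp h1
  exact y.2

/-- a natural number prime to `p` is invertible in a valuation subring over `p` -/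
theorem natCast_inv_mem_of_not_dvd {K : Type*} [Field K] (A : ValuationSubring K) {p : ℕ}
    (hp : p.Prime) (hA : A.LiesOverPrime p) {d : ℕ} (hd : ¬ p ∣ d) : ((d : K))⁻¹ ∈ A := by
  have hcop : IsCoprime (p : ℤ) (d : ℤ) := by
    rw [Int.isCoprime_iff_gcd_eq_one, Int.gcd_natCast_natCast]
    exact (Nat.Prime.coprime_iff_not_dvd hp).mpr hd
  obtain ⟨a, b, hab⟩ := hcop
  have h1 : (a : K) * (p : K) + (b : K) * (d : K) = 1 := by
    have := congrArg (fun z : ℤ => (z : K)) hab
    simpa using this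
  have hpA : (p : K) ∈ A := natCast_mem A p
  have hdA : (d : K) ∈ A := natCast_mem A d
  -- if `d` were a nonunit, `1 = a p + b d` would be a nonunit
  by_contra hinv
  have hdne : (d : K) ≠ 0 := by
    intro h0
    rw [h0, inv_zero] at hinv
    exact hinv (zero_mem A)
  have hdnon : (d : K) ∈ A.nonunits := by
    rw [ValuationSubring.mem_nonunits_iff]
    have hle : A.valuation (d : K) ≤ 1 := (A.valuation_le_one_iff _).mpr hdA
    rcases lt_or_eq_of_le hle with h | h
    · exact h
    · exfalso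
      apply hinv
      rw [← A.valuation_le_one_iff, map_inv₀, h, inv_one]
  have hpnon : (p : K) ∈ A.nonunits := hA
  rw [ValuationSubring.mem_nonunits_iff] at hdnon hpnon
  have h2 : A.valuation ((a : K) * (p : K)) < 1 := by
    rw [map_mul]
    have ha : A.valuation (a : K) ≤ 1 := (A.valuation_le_one_iff _).mpr (intCast_mem A a)
    calc A.valuation (a : K) * A.valuation (p : K) ≤ 1 * A.valuation (p : K) := by gcongr
      _ = A.valuation (p : K) := one_mul _
      _ < 1 := hpnon
  have h3 : A.valuation ((b : K) * (d : K)) < 1 := by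
    rw [map_mul]
    have hb : A.valuation (b : K) ≤ 1 := (A.valuation_le_one_iff _).mpr (intCast_mem A b)
    calc A.valuation (b : K) * A.valuation (d : K) ≤ 1 * A.valuation (d : K) := by gcongr
      _ = A.valuation (d : K) := one_mul _
      _ < 1 := hdnon
  have h4 : A.valuation ((a : K) * (p : K) + (b : K) * (d : K)) < 1 :=
    lt_of_le_of_lt (A.valuation.map_add _ _) (max_lt h2 h3)
  rw [h1, map_one] at h4
  exact lt_irrefl _ h4

/-- **(L1)**: every algebraic number has a multiple `p ^ n * c` in `A`. -/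
theorem exists_pow_mul_mem {p : ℕ} (hp : p.Prime) (A : ValuationSubring (AlgebraicClosure ℚ))
    (hA : A.LiesOverPrime p) (c : AlgebraicClosure ℚ) :
    ∃ n : ℕ, (p : AlgebraicClosure ℚ) ^ n * c ∈ A := by
  have hQ : Algebra.IsAlgebraic ℤ ℚ := IsLocalization.isAlgebraic ℚ (nonZeroDivisors ℤ)
  have hK : Algebra.IsAlgebraic ℚ (AlgebraicClosure ℚ) := by
    have h : (DivisionRing.toRatAlgebra : Algebra ℚ (AlgebraicClosure ℚ)) =
        AlgebraicClosure.instAlgebra ℚ := Subsingleton.elim _ _
    rw [h]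
    infer_instance
  have hZ : Algebra.IsAlgebraic ℤ (AlgebraicClosure ℚ) :=
    @Algebra.IsAlgebraic.trans ℤ ℚ (AlgebraicClosure ℚ) _ _ _ _ _ _ _ _ hQ hK
  have halg : IsAlgebraic ℤ c := hZ.isAlgebraic c
  obtain ⟨y, hy0, hy⟩ := halg.exists_integral_multiple
  have hmem : (y • c) ∈ A := mem_of_isIntegral_int51 A hy
  have hn0 : y.natAbs ≠ 0 := Int.natAbs_ne_zero.mpr hy0
  obtain ⟨k, d, hd, hyd⟩ := Nat.exists_eq_pow_mul_and_not_dvd hn0 p hp.ne_one
  have hdinv := natCast_inv_mem_of_not_dvd A hp hA hd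
  have hd0 : (d : AlgebraicClosure ℚ) ≠ 0 := by
    intro h0
    have : d = 0 := by exact_mod_cast h0
    exact hd (this ▸ dvd_zero p)
  refine ⟨k, ?_⟩
  have habs : ((y.natAbs : ℕ) : AlgebraicClosure ℚ) * c ∈ A := by
    have h1 : (y : AlgebraicClosure ℚ) * c ∈ A := by
      rwa [zsmul_eq_mul] at hmem
    rcases Int.natAbs_eq y with h | h
    · have : ((y.natAbs : ℕ) : AlgebraicClosure ℚ) = (y : AlgebraicClosure ℚ) := by
        conv_rhs => rw [h]
        exact (Int.cast_natCast _).symm
      rwa [this]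
    · have : ((y.natAbs : ℕ) : AlgebraicClosure ℚ) = -(y : AlgebraicClosure ℚ) := by
        conv_rhs => rw [h]
        rw [Int.cast_neg, neg_neg, Int.cast_natCast]
      rw [this, neg_mul]
      exact neg_mem h1
  have hkey : (p : AlgebraicClosure ℚ) ^ k * c =
      (d : AlgebraicClosure ℚ)⁻¹ * (((y.natAbs : ℕ) : AlgebraicClosure ℚ) * c) := by
    rw [hyd]
    push_cast
    field_simp
  rw [hkey]
  exact mul_mem hdinv habs

/-- the exponent may be increased -/
theorem pow_mul_mem_of_le {p : ℕ} (A : ValuationSubring (AlgebraicClosure ℚ))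
    {c : AlgebraicClosure ℚ} {n m : ℕ} (hnm : n ≤ m)
    (h : (p : AlgebraicClosure ℚ) ^ n * c ∈ A) : (p : AlgebraicClosure ℚ) ^ m * c ∈ A := by
  obtain ⟨k, rfl⟩ := Nat.exists_eq_add_of_le hnm
  rw [pow_add, mul_comm ((p : AlgebraicClosure ℚ) ^ n), mul_assoc]
  exact mul_mem (pow_mem (natCast_mem A p) k) h

/-- **(L1), finitely many elements at once.** -/
theorem exists_pow_mul_mem_finset {p : ℕ} (hp : p.Prime)
    (A : ValuationSubring (AlgebraicClosure ℚ)) (hA : A.LiesOverPrime p)
    (s : Finset (AlgebraicClosure ℚ)) :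
    ∃ n : ℕ, ∀ c ∈ s, (p : AlgebraicClosure ℚ) ^ n * c ∈ A := by
  classical
  induction s using Finset.induction_on with
  | empty => exact ⟨0, fun c hc => absurd hc (Finset.notMem_empty c)⟩
  | insert a s _ ih =>
    obtain ⟨n, hn⟩ := ih
    obtain ⟨m, hm⟩ := exists_pow_mul_mem hp A hA a
    refine ⟨max n m, fun c hc => ?_⟩
    rcases Finset.mem_insert.mp hc with rfl | hc
    · exact pow_mul_mem_of_le A (le_max_right n m) hm
    · exact pow_mul_mem_of_le A (le_max_left n m) (hn c hc)

/-- **(L1), strict form**: some `p ^ n * c` is a nonunit of `A`. -/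
theorem exists_pow_mul_mem_nonunits {p : ℕ} (hp : p.Prime)
    (A : ValuationSubring (AlgebraicClosure ℚ)) (hA : A.LiesOverPrime p)
    (c : AlgebraicClosure ℚ) :
    ∃ n : ℕ, (p : AlgebraicClosure ℚ) ^ n * c ∈ A.nonunits := by
  obtain ⟨n, hn⟩ := exists_pow_mul_mem hp A hA c
  refine ⟨n + 1, ?_⟩
  have e : (p : AlgebraicClosure ℚ) ^ (n + 1) * c =
      (p : AlgebraicClosure ℚ) ^ n * c * (p : AlgebraicClosure ℚ) := by ring
  rw [ValuationSubring.mem_nonunits_iff, e, map_mul]
  have h1 : A.valuation ((p : AlgebraicClosure ℚ) ^ n * c) ≤ 1 :=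
    (A.valuation_le_one_iff _).mpr hn
  have h2 : A.valuation (p : AlgebraicClosure ℚ) < 1 :=
    (ValuationSubring.mem_nonunits_iff (A := A)).mp hA
  calc A.valuation ((p : AlgebraicClosure ℚ) ^ n * c) * A.valuation (p : AlgebraicClosure ℚ)
      ≤ 1 * A.valuation (p : AlgebraicClosure ℚ) := by gcongr
    _ = A.valuation (p : AlgebraicClosure ℚ) := one_mul _
    _ < 1 := h2

end Fermat.Agent.T8.helper51
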