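import Mathlib
import Fermat.Agent.T8.helper54_PhiWall
import Fermat.Agent.T8.helper43_PhiE1Red

/-!
# T8 [PHI] (helper54): adapter from the contracts of [PHI-E1] (helper43 / helper12) to [PHI]

* `dvd_ord_congr` : the property "`p ∣ ord_t x` at every place `t` with `0 ≤ ord_t j`" does not
  depend on the name of the intermediate field;
* `phiE1_of_ord` : `helper43.PhiE1OrdStatement (N q) ℓ A q → PhiE1Statement N q A ℓ`
  ([E1-RED] is `helper43.phiE1Red`, the special fibre fields of the levels `N q` and `N` are equal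
  by `T2.helper96.FFb_mul_eq`);
* `PhiE1OrdAllStatement` : [E1-ORD] at all the primes `ℓ ∤ N q`;
* `phiWall_of_ord` : `PhiE1OrdAllStatement → helper38.PhiWallStatement π wallBN wallCN`.
-/

set_option autoImplicit false
set_option synthInstance.maxHeartbeats 400000
set_option maxHeartbeats 1000000
set_option linter.unusedSectionVars false
set_option linter.unusedVariables false
set_option linter.style.longLine false
set_option linter.style.haveILetI false

noncomputable section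

open HahnSeries IntermediateField AlgebraicCurve ModularCurve
open Fermat.Agent.S18.helper19 Fermat.Agent.P2.helper29 Fermat.Agent.T2.helper36

namespace Fermat.Agent.T8.helper54

open Fermat.Agent.T3.helper36 (RhoQ)
open Fermat.Agent.P3.helper94 (IsKummerRep normAlong heckeKummer)
open Fermat.Agent.T8.helper43 (heckeMul heckeMulBar alphaBarC betaBarC PDivOffCusps
  PhiE1OrdStatement PhiE1RedStatement phiE1Red)

/-- the divisibility of the orders off the poles of `j` does not depend on the name of the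
field -/
theorem dvd_ord_congr {k L : Type*} [Field k] [Field L] [Algebra k L]
    {E E' : IntermediateField k L} (h : E = E') (p : ℕ) {j x : L} (hj : j ∈ E) (hx : x ∈ E)
    (hj' : j ∈ E') (hx' : x ∈ E') :
    (∀ t : Place k E, 0 ≤ t.ord (⟨j, hj⟩ : E) → (p : ℤ) ∣ t.ord (⟨x, hx⟩ : E)) ↔
      (∀ t : Place k E', 0 ≤ t.ord (⟨j, hj'⟩ : E') → (p : ℤ) ∣ t.ord (⟨x, hx'⟩ : E')) := by
  subst h
  rfl

section Adapt

variable {N q ℓ : ℕ} [NeZero N] [NeZero q] [NeZero ℓ] {A : ValuationSubring Kb}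

/-- **[PHI-E1] from [E1-ORD]** (and [E1-RED], which is on main). -/
theorem phiE1_of_ord (hq : q.Prime) (hqN : ¬ q ∣ N) (hℓ : ℓ.Prime) (hℓN : ¬ ℓ ∣ N * q)
    (hA : A.LiesOverPrime q) (hOrd : PhiE1OrdStatement (N * q) ℓ A q) :
    PhiE1Statement N q A ℓ := by
  intro u f hf hd
  have hE : FFb A (N * q) = FFb A N := Fermat.Agent.T2.helper96.FFb_mul_eq N A hq hA
  have hfc := hf.coe_ne_zero
  obtain ⟨hf0, κ, hκ, hr⟩ := hf
  have hf1mem : (f : LaurentSeries (kA A)) ∈ FFb A (N * q) := by rw [hE]; exact f.2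
  have hf₁0 : (⟨(f : LaurentSeries (kA A)), hf1mem⟩ : FFb A (N * q)) ≠ 0 :=
    fun h0 => hfc (congrArg Subtype.val h0)
  -- the reduction relation for `κ⁻¹ u`
  have hR : RedM A (N * q) (algebraMap Kb (FF (N * q)) κ⁻¹ * u)
      (⟨(f : LaurentSeries (kA A)), hf1mem⟩ : FFb A (N * q)) := by
    obtain ⟨Y₁, Y₂, h2, h3, h4⟩ := hr
    exact ⟨Y₁, Y₂, h2, h3.symm, h4.symm⟩
  have hN := phiE1Red hq hqN hℓ hℓN A hA _ _ hR
  -- the divisibility
  have hD₁ : PDivOffCusps (N * q) A q (⟨(f : LaurentSeries (kA A)), hf1mem⟩ : FFb A (N * q)) :=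
    (dvd_ord_congr hE q (jqModC_mem_full (kA A) (N * q)) hf1mem
      (jqModC_mem_full (kA A) N) f.2).mpr hd
  have hD₂ := hOrd _ hf₁0 hD₁
  -- the norm does not vanish
  have hg0 : heckeMulBar (N * q) ℓ A (⟨(f : LaurentSeries (kA A)), hf1mem⟩ : FFb A (N * q)) ≠ 0 := by
    unfold heckeMulBar
    rw [normAlong_eq_norm]
    letI := algebraAlong (alphaBarC (N * q) ℓ A)
    have hfr := Fermat.Agent.T8.helper43.finrank_alphaBarC hq hqN hℓ hℓN A hA
    haveI : Module.Finite (FFb A (N * q)) (FFb A (N * q * ℓ)) :=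
      Module.finite_of_finrank_pos (by rw [hfr]; omega)
    rw [Algebra.norm_ne_zero_iff]
    rw [Ne, map_eq_zero]
    exact hf₁0
  set g : FFb A (N * q) :=
    heckeMulBar (N * q) ℓ A (⟨(f : LaurentSeries (kA A)), hf1mem⟩ : FFb A (N * q)) with hg
  have hgmem : (g : LaurentSeries (kA A)) ∈ FFb A N := by rw [← hE]; exact g.2
  refine ⟨⟨(g : LaurentSeries (kA A)), hgmem⟩, ⟨?_, (κ⁻¹ ^ (ℓ + 1))⁻¹, ?_, ?_⟩, ?_⟩
  · intro h0
    have h1 : (g : LaurentSeries (kA A)) = 0 :=
      congrArg (fun z : FFb A N => (z : LaurentSeries (kA A))) h0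
    exact hg0 (Subtype.ext h1)
  · exact inv_ne_zero (pow_ne_zero _ (inv_ne_zero hκ))
  · obtain ⟨Y₁, Y₂, h2, h3, h4⟩ := hN
    refine ⟨Y₁, Y₂, h2, ?_, h4.symm⟩
    have e : heckeMul (N * q) ℓ (algebraMap Kb (FF (N * q)) κ⁻¹ * u)
        = algebraMap Kb (FF (N * q)) (κ⁻¹ ^ (ℓ + 1)) * heckeNormFn (N * q) ℓ u := by
      show heckeNormFn (N * q) ℓ _ = _
      rw [heckeNormFn_mul, heckeNormFn_const hℓ hℓN]
    rw [e] at h3
    rw [inv_inv, ← h3]
    rfl
  · exact (dvd_ord_congr hE q (jqModC_mem_full (kA A) (N * q)) g.2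
      (jqModC_mem_full (kA A) N) hgmem).mp hD₂

end Adapt

section Wall

open Fermat.Agent.T8.helper72 Fermat.Agent.T8.helper38 Fermat.Agent.T8.helper29

/-- **the only open input of [PHI]**: [E1-ORD] at every prime `ℓ ∤ N q` -/
def PhiE1OrdAllStatement : Prop :=
  ∀ (N q : ℕ) [NeZero N] [NeZero q], q.Prime → ¬ q ∣ N → 4 ∣ N → 5 ≤ q →
    ∀ A : ValuationSubring Kb, A.LiesOverPrime q →
    ∀ (ℓ : ℕ) [NeZero ℓ], ℓ.Prime → ¬ ℓ ∣ N * q → PhiE1OrdStatement (N * q) ℓ A q

theorem phiE1All_of_ord (h : PhiE1OrdAllStatement) : PhiE1AllStatement := by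
  intro N q _ _ hq hqN h4 h5 A hA ℓ _ hℓ hℓN
  exact phiE1_of_ord hq hqN hℓ hℓN hA (h N q hq hqN h4 h5 A hA ℓ hℓ hℓN)

/-- **[PHI], class level, from [E1-ORD]**. -/
theorem phiWall_of_ord (π : PullData) (h : PhiE1OrdAllStatement) :
    PhiWallStatement π wallBN wallCN :=
  phiWall_of_phiE1 π (phiE1All_of_ord h)

end Wall

end Fermat.Agent.T8.helper54

end
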