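import Mathlib
import Fermat.Agent.T8.helper54_PhiE1Adapt
import Fermat.Agent.T8.helper12_E1Ord

/-!
# T8 [PHI] (helper54): the box (Φ) of the wall, unconditional

* `phiE1OrdAll` : `PhiE1OrdAllStatement` ([E1-ORD] at every bad pair, from
  `helper12.phiE1Ord_bad`);
* `phiE1AllFinal` : `PhiE1AllStatement`;
* `phiWall` : `helper38.PhiWallStatement π helper29.wallBN helper29.wallCN` for every pull-back
  datum `π`.
-/

set_option autoImplicit false
set_option synthInstance.maxHeartbeats 400000
set_option maxHeartbeats 1000000
set_option linter.unusedSectionVars false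
set_option linter.unusedVariables false
set_option linter.style.longLine false
set_option linter.style.haveILetI false

noncomputable section

open HahnSeries IntermediateField AlgebraicCurve ModularCurve
open Fermat.Agent.S18.helper19 Fermat.Agent.P2.helper29 Fermat.Agent.T2.helper36

namespace Fermat.Agent.T8.helper54

open Fermat.Agent.T8.helper43 Fermat.Agent.T8.helper72 Fermat.Agent.T8.helper38 Fermat.Agent.T8.helper29

/-- [E1-ORD] at every bad pair. -/
theorem phiE1OrdAll : PhiE1OrdAllStatement := by
  intro N q _ _ hq hqN h4 h5 A hA ℓ _ hℓ hℓN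
  have hqℓ : ¬ q ∣ ℓ := by
    intro h
    rcases (Nat.dvd_prime hℓ).1 h with h1 | h1
    · exact hq.one_lt.ne' h1
    · exact hℓN (h1 ▸ Dvd.intro_left N rfl)
  exact Fermat.Agent.T8.helper12.phiE1Ord_bad (A := A) N ℓ hq hA hqN hqℓ q

/-- [PHI-E1] at every bad pair, unconditional. -/
theorem phiE1AllFinal : PhiE1AllStatement := phiE1All_of_ord phiE1OrdAll

/-- The box (Φ) of the wall, unconditional. -/
theorem phiWall (π : PullData) : PhiWallStatement π wallBN wallCN :=
  phiWall_of_ord π phiE1OrdAll

end Fermat.Agent.T8.helper54
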