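/-
T8 / S44, fallback box [W-RAM2] (helper56), part (2a-1): the valuation rules of the node model
in ANY residue characteristic (in particular `2`).

The node model of S05.helper7 is `Mh ^ 2 = 4 X ^ 3 + C2 X ^ 2 + C1h X` with `v 2 = 1`.  Here we
use `M = Mh / 2` and `C1 = C1h / 4`: the three identities of the group law become free of the
constant `4`,

* `J1 : X₁ X₂ X₃ (X₁ - X₂)² = (M₂ X₁ - M₁ X₂)²`,
* `J2 : X₃ (M₁ X₂ + M₂ X₁)² = X₁ X₂ (X₁ X₂ - C1)²`,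
* `J3 : (M₃ X₁ + M₁ X₃)² = (X₃ - X₁)² (X₁ X₂ X₃)`,

and the rules of `S05/helper7_NodeVal` hold with the SAME statements (`Mid`, `SameS`, `OppS` of
helper7 are reused verbatim) without any hypothesis on `v 2`.  Only `v_M_eq`, `sameS_self`,
`OppS.v_sub` and `rule_double_small` see the equation of the curve, now in the form
`(2 M) ^ 2 = 4 X ^ 3 + C2 X ^ 2 + 4 C1 X`.
-/
import Mathlib.RingTheory.Valuation.Basic
import Fermat.Agent.S05.helper7_NodeVal

set_option autoImplicit false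
set_option linter.unusedSimpArgs false
set_option linter.unusedVariables false

namespace Fermat.Agent.T8.helper56

open Fermat.Agent.S05.helper7

variable {K : Type*} [Field K] {Γ₀ : Type*} [LinearOrderedCommGroupWithZero Γ₀]
  {v : Valuation K Γ₀} {C1 C2 : K}

/-- Valuation hypotheses on the node model `(2 M) ^ 2 = 4 X ^ 3 + C2 X ^ 2 + 4 C1 X`
(no hypothesis on `v 2`). -/
structure NodeVal2 (v : Valuation K Γ₀) (C1 C2 : K) : Prop where
  h2 : (2 : K) ≠ 0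
  vC2 : v C2 = 1
  vC1 : v C1 < 1

/-- `(X, M)` is a point of the node model, `M` = half of the `M` of helper7. -/
def IsPt2 (C1 C2 X M : K) : Prop := (2 * M) ^ 2 = 4 * X ^ 3 + C2 * X ^ 2 + 4 * C1 * X

lemma v_two_le_one56 (v : Valuation K Γ₀) : v (2 : K) ≤ 1 := by
  have h : (2 : K) = 1 + 1 := by norm_num
  rw [h]
  exact le_trans (Valuation.map_add _ _ _) (by simp)

lemma v_four_le_one56 (v : Valuation K Γ₀) : v (4 : K) ≤ 1 := by
  have h : (4 : K) = 2 * 2 := by norm_num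
  rw [h, map_mul]
  exact mul_le_one' (v_two_le_one56 v) (v_two_le_one56 v)

/-- The lower order terms `4 X ^ 3 + 4 C1 X` are small compared with `X ^ 2`. -/
lemma v_lower_lt2 {X : K} (hX : Mid v C1 X) :
    v (4 * X ^ 3 + 4 * C1 * X) < v X ^ 2 := by
  have h1 : v (4 * X ^ 3) < v X ^ 2 := by
    rw [map_mul, map_pow, pow_succ]
    calc v 4 * (v X ^ 2 * v X) ≤ 1 * (v X ^ 2 * v X) :=
          mul_le_mul_left (v_four_le_one56 v) _
      _ = v X ^ 2 * v X := one_mul _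
      _ < v X ^ 2 := mul_lt_of_lt_one_right (pow_pos hX.pos 2) hX.2
  have h2 : v (4 * C1 * X) < v X ^ 2 := by
    rw [map_mul, map_mul, pow_two]
    calc v 4 * v C1 * v X ≤ 1 * v C1 * v X := by
          exact mul_le_mul_left (mul_le_mul_left (v_four_le_one56 v) _) _
      _ = v C1 * v X := by rw [one_mul]
      _ < v X * v X := mul_lt_mul_of_pos_right hX.1 hX.pos
  exact lt_of_le_of_lt (Valuation.map_add _ _ _) (max_lt h1 h2)

/-- `v (2 M) = v X` for a point near the node. -/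
lemma v_M_eq2 (hv : NodeVal2 v C1 C2) {X M : K} (hp : IsPt2 C1 C2 X M) (hX : Mid v C1 X) :
    v (2 * M) = v X := by
  have h : v ((2 * M) ^ 2) = v X ^ 2 := by
    have e : (2 * M) ^ 2 = (4 * X ^ 3 + 4 * C1 * X) + C2 * X ^ 2 := by rw [hp]; ring
    rw [e, Valuation.map_add_eq_of_lt_right]
    · rw [map_mul, hv.vC2, one_mul, map_pow]
    · rw [map_mul, hv.vC2, one_mul, map_pow]
      exact v_lower_lt2 hX
  rw [map_pow] at h
  exact pow_left_injective (M := Γ₀) (two_ne_zero) h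

lemma IsPt2.M_ne_zero (hv : NodeVal2 v C1 C2) {X M : K} (hp : IsPt2 C1 C2 X M)
    (hX : Mid v C1 X) : M ≠ 0 := by
  intro h0
  have := v_M_eq2 hv hp hX
  rw [h0, mul_zero, map_zero] at this
  exact hX.ne_zero this.symm

lemma sameS_self2 (hv : NodeVal2 v C1 C2) {X M : K} (hp : IsPt2 C1 C2 X M) (hX : Mid v C1 X) :
    SameS v X M X M := by
  unfold SameS
  have : M * X + M * X = (2 * M) * X := by ring
  rw [this, map_mul v (2 * M) X, v_M_eq2 hv hp hX, map_mul]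

/-- If the signs are opposite then the difference is as large as possible. -/
lemma OppS.v_sub2 (hv : NodeVal2 v C1 C2) {X₁ M₁ X₂ M₂ : K} (hp₂ : IsPt2 C1 C2 X₂ M₂)
    (hX₂ : Mid v C1 X₂) (h : OppS v X₁ M₁ X₂ M₂) :
    v (M₂ * X₁ - M₁ * X₂) = v (X₁ * X₂) := by
  unfold OppS at h
  have e : M₂ * X₁ - M₁ * X₂ = (2 * M₂) * X₁ - (M₁ * X₂ + M₂ * X₁) := by ring
  have h2 : v ((2 * M₂) * X₁) = v (X₁ * X₂) := by
    rw [map_mul v (2 * M₂) X₁, v_M_eq2 hv hp₂ hX₂, map_mul, mul_comm]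
  rw [e, Valuation.map_sub_eq_of_lt_left, h2]
  rw [h2]
  exact h

section Rules

variable {X₁ M₁ X₂ M₂ X₃ M₃ : K}

/-- Same sign, product of valuations above `v C1`: valuations multiply, sign is kept. -/
lemma rule_same_gt2
    (hX₁ : Mid v C1 X₁) (hX₂ : Mid v C1 X₂) (hS : SameS v X₁ M₁ X₂ M₂)
    (J2 : X₃ * (M₁ * X₂ + M₂ * X₁) ^ 2 = X₁ * X₂ * (X₁ * X₂ - C1) ^ 2)
    (J3 : (M₃ * X₁ + M₁ * X₃) ^ 2 = (X₃ - X₁) ^ 2 * (X₁ * X₂ * X₃))
    (J3' : (M₃ * X₂ + M₂ * X₃) ^ 2 = (X₃ - X₂) ^ 2 * (X₁ * X₂ * X₃))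
    (hgt : v C1 < v X₁ * v X₂) :
    v X₃ = v X₁ * v X₂ ∧ SameS v X₃ M₃ X₁ M₁ ∧ SameS v X₃ M₃ X₂ M₂ := by
  have h12 : v X₁ * v X₂ ≠ 0 := mul_ne_zero hX₁.ne_zero hX₂.ne_zero
  have hT : v (X₁ * X₂ - C1) = v X₁ * v X₂ := by
    have : v (X₁ * X₂) = v X₁ * v X₂ := map_mul _ _ _
    rw [Valuation.map_sub_eq_of_lt_left, this]
    rw [this]; exact hgt
  have hX₃ : v X₃ = v X₁ * v X₂ := by
    have := congrArg v J2
    simp only [map_mul, map_pow, hT] at this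
    unfold SameS at hS
    rw [hS, map_mul] at this
    have h3 : v X₃ * (v X₁ * v X₂) ^ 2 = (v X₁ * v X₂) * (v X₁ * v X₂) ^ 2 := this
    exact (mul_left_inj' (pow_ne_zero 2 h12)).mp h3
  have hlt₁ : v X₃ < v X₁ := by
    rw [hX₃]; exact mul_lt_of_lt_one_right hX₁.pos hX₂.2
  have hlt₂ : v X₃ < v X₂ := by
    rw [hX₃]; exact mul_lt_of_lt_one_left hX₂.pos hX₁.2
  refine ⟨hX₃, ?_, ?_⟩
  · unfold SameS
    have := congrArg v J3
    simp only [map_mul, map_pow] at this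
    rw [Valuation.map_sub_eq_of_lt_right _ hlt₁] at this
    have h3 : v (M₃ * X₁ + M₁ * X₃) ^ 2 = (v X₃ * v X₁) ^ 2 := by
      rw [this, hX₃]; simp only [pow_two, mul_assoc, mul_comm, mul_left_comm]
    rw [map_mul]
    exact pow_left_injective (M := Γ₀) (two_ne_zero) h3
  · unfold SameS
    have := congrArg v J3'
    simp only [map_mul, map_pow] at this
    rw [Valuation.map_sub_eq_of_lt_right _ hlt₂] at this
    have h3 : v (M₃ * X₂ + M₂ * X₃) ^ 2 = (v X₃ * v X₂) ^ 2 := by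
      rw [this, hX₃]; simp only [pow_two, mul_assoc, mul_comm, mul_left_comm]
    rw [map_mul]
    exact pow_left_injective (M := Γ₀) (two_ne_zero) h3

/-- Criterion for opposite signs from the identity `J3`. -/
lemma oppS_of_J3 (h₁ : v X₁ ≠ 0) (h₃ : v X₃ ≠ 0)
    (J3 : (M₃ * X₁ + M₁ * X₃) ^ 2 = (X₃ - X₁) ^ 2 * (X₁ * X₂ * X₃))
    (h : v (X₃ - X₁) ^ 2 * v X₂ < v X₁ * v X₃) : OppS v X₃ M₃ X₁ M₁ := by
  unfold OppS
  have := congrArg v J3
  simp only [map_mul, map_pow] at this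
  have h13 : 0 < v X₁ * v X₃ := zero_lt_iff.mpr (mul_ne_zero h₁ h₃)
  have hlt : v (M₃ * X₁ + M₁ * X₃) ^ 2 < (v X₃ * v X₁) ^ 2 := by
    rw [this]
    calc v (X₃ - X₁) ^ 2 * (v X₁ * v X₂ * v X₃)
        = (v (X₃ - X₁) ^ 2 * v X₂) * (v X₁ * v X₃) := by
          simp only [pow_two, mul_assoc, mul_comm, mul_left_comm]
      _ < (v X₁ * v X₃) * (v X₁ * v X₃) := mul_lt_mul_of_pos_right h h13
      _ = (v X₃ * v X₁) ^ 2 := by simp only [pow_two, mul_assoc, mul_comm, mul_left_comm]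
  rw [map_mul]
  by_contra hcon
  rw [not_lt] at hcon
  exact absurd (pow_le_pow_left₀ zero_le hcon 2) (not_le.mpr hlt)

/-- Same sign, product of valuations below `v C1`: the valuation comes back, sign flips. -/
lemma rule_same_lt2
    (hX₁ : Mid v C1 X₁) (hX₂ : Mid v C1 X₂) (hS : SameS v X₁ M₁ X₂ M₂)
    (J2 : X₃ * (M₁ * X₂ + M₂ * X₁) ^ 2 = X₁ * X₂ * (X₁ * X₂ - C1) ^ 2)
    (J3 : (M₃ * X₁ + M₁ * X₃) ^ 2 = (X₃ - X₁) ^ 2 * (X₁ * X₂ * X₃))
    (J3' : (M₃ * X₂ + M₂ * X₃) ^ 2 = (X₃ - X₂) ^ 2 * (X₁ * X₂ * X₃))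
    (hlt : v X₁ * v X₂ < v C1) :
    v X₃ * (v X₁ * v X₂) = v C1 ^ 2 ∧ OppS v X₃ M₃ X₁ M₁ ∧ OppS v X₃ M₃ X₂ M₂ := by
  have h12 : v X₁ * v X₂ ≠ 0 := mul_ne_zero hX₁.ne_zero hX₂.ne_zero
  have hC1 : v C1 ≠ 0 := ne_of_gt (lt_of_le_of_lt zero_le hlt)
  have hT : v (X₁ * X₂ - C1) = v C1 := by
    have : v (X₁ * X₂) = v X₁ * v X₂ := map_mul _ _ _
    rw [Valuation.map_sub_eq_of_lt_right]
    rw [this]; exact hlt
  have hX₃ : v X₃ * (v X₁ * v X₂) = v C1 ^ 2 := by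
    have := congrArg v J2
    simp only [map_mul, map_pow, hT] at this
    unfold SameS at hS
    rw [hS, map_mul] at this
    have h3 : (v X₃ * (v X₁ * v X₂)) * (v X₁ * v X₂) = v C1 ^ 2 * (v X₁ * v X₂) := by
      rw [mul_comm (v C1 ^ 2), ← this]
      simp only [pow_two, mul_assoc, mul_comm, mul_left_comm]
    exact (mul_left_inj' h12).mp h3
  have h3ne : v X₃ ≠ 0 := by
    intro h0
    rw [h0, zero_mul] at hX₃
    exact (pow_ne_zero 2 hC1) hX₃.symm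
  have h3pos : 0 < v X₃ := zero_lt_iff.mpr h3ne
  -- `v X₁ * v X₂ < v X₃`
  have hprod_lt : v X₁ * v X₂ < v X₃ := by
    by_contra hcon
    rw [not_lt] at hcon
    have h1 : v X₃ * (v X₁ * v X₂) ≤ (v X₁ * v X₂) * (v X₁ * v X₂) :=
      mul_le_mul_left hcon _
    have h2 : (v X₁ * v X₂) * (v X₁ * v X₂) < v C1 * v C1 :=
      mul_lt_mul'' hlt hlt zero_le zero_le
    rw [hX₃, pow_two] at h1
    exact absurd h1 (not_le.mpr h2)
  -- the key estimate, symmetric in the two points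
  have key : ∀ (Y₁ Y₂ : K), Mid v C1 Y₁ → Mid v C1 Y₂ → v X₃ * (v Y₁ * v Y₂) = v C1 ^ 2 →
      v Y₁ * v Y₂ < v X₃ → v (X₃ - Y₁) ^ 2 * v Y₂ < v Y₁ * v X₃ := by
    intro Y₁ Y₂ hY₁ hY₂ hprod hpl
    have hle : v (X₃ - Y₁) ≤ max (v X₃) (v Y₁) := Valuation.map_sub _ _ _
    rcases le_total (v X₃) (v Y₁) with h31 | h13
    · rw [max_eq_right h31] at hle
      calc v (X₃ - Y₁) ^ 2 * v Y₂ ≤ v Y₁ ^ 2 * v Y₂ :=
            mul_le_mul_left (pow_le_pow_left₀ zero_le hle 2) _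
        _ = v Y₁ * (v Y₁ * v Y₂) := by simp only [pow_two, mul_assoc]
        _ < v Y₁ * v X₃ := mul_lt_mul_of_pos_left hpl hY₁.pos
    · rw [max_eq_left h13] at hle
      have hlt' : v X₃ * v Y₂ < v Y₁ := by
        have h1 : (v X₃ * v Y₂) * v Y₁ < v Y₁ * v Y₁ := by
          calc (v X₃ * v Y₂) * v Y₁ = v X₃ * (v Y₁ * v Y₂) := by
                simp only [mul_assoc, mul_comm, mul_left_comm]
            _ = v C1 ^ 2 := hprod
            _ = v C1 * v C1 := pow_two _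
            _ < v Y₁ * v Y₁ := mul_lt_mul'' hY₁.1 hY₁.1 zero_le zero_le
        exact lt_of_mul_lt_mul_right' h1
      calc v (X₃ - Y₁) ^ 2 * v Y₂ ≤ v X₃ ^ 2 * v Y₂ :=
            mul_le_mul_left (pow_le_pow_left₀ zero_le hle 2) _
        _ = (v X₃ * v Y₂) * v X₃ := by simp only [pow_two, mul_assoc, mul_comm, mul_left_comm]
        _ < v Y₁ * v X₃ := mul_lt_mul_of_pos_right hlt' h3pos
  refine ⟨hX₃, ?_, ?_⟩
  · exact oppS_of_J3 hX₁.ne_zero h3ne J3 (key X₁ X₂ hX₁ hX₂ hX₃ hprod_lt)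
  · have J3'' : (M₃ * X₂ + M₂ * X₃) ^ 2 = (X₃ - X₂) ^ 2 * (X₂ * X₁ * X₃) := by
      rw [J3']; ring
    refine oppS_of_J3 hX₂.ne_zero h3ne J3'' (key X₂ X₁ hX₂ hX₁ ?_ ?_)
    · rw [mul_comm (v X₂)]; exact hX₃
    · rw [mul_comm (v X₂)]; exact hprod_lt

/-- Same sign, product of valuations equal to `v C1`: the sum is very near the node. -/
lemma rule_same_eq2
    (hX₁ : Mid v C1 X₁) (hX₂ : Mid v C1 X₂) (hS : SameS v X₁ M₁ X₂ M₂)
    (J2 : X₃ * (M₁ * X₂ + M₂ * X₁) ^ 2 = X₁ * X₂ * (X₁ * X₂ - C1) ^ 2)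
    (heq : v X₁ * v X₂ = v C1) :
    v X₃ ≤ v C1 := by
  have h12 : v X₁ * v X₂ ≠ 0 := mul_ne_zero hX₁.ne_zero hX₂.ne_zero
  have hT : v (X₁ * X₂ - C1) ≤ v C1 := by
    have : v (X₁ * X₂) = v C1 := by
      rw [map_mul, heq]
    refine le_trans (Valuation.map_sub _ _ _) ?_
    rw [this, max_self]
  have := congrArg v J2
  simp only [map_mul, map_pow] at this
  unfold SameS at hS
  rw [hS, map_mul, heq] at this
  have hC1 : v C1 ≠ 0 := heq ▸ h12
  have h3 : v X₃ * v C1 ^ 2 ≤ v C1 * v C1 ^ 2 := by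
    rw [this]
    exact mul_le_mul_right (pow_le_pow_left₀ zero_le hT 2) _
  exact le_of_mul_le_mul_right h3 (zero_lt_iff.mpr (pow_ne_zero 2 hC1))

/-- Opposite signs, different valuations: valuations divide, the sign is opposite to the
one of the point further from the node. -/
lemma rule_opp_lt2 (hv : NodeVal2 v C1 C2)
    (hp₂ : IsPt2 C1 C2 X₂ M₂)
    (hX₁ : Mid v C1 X₁) (hX₂ : Mid v C1 X₂) (hO : OppS v X₁ M₁ X₂ M₂)
    (J1 : X₁ * X₂ * X₃ * (X₁ - X₂) ^ 2 = (M₂ * X₁ - M₁ * X₂) ^ 2)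
    (J3 : (M₃ * X₁ + M₁ * X₃) ^ 2 = (X₃ - X₁) ^ 2 * (X₁ * X₂ * X₃))
    (hlt : v X₂ < v X₁) :
    v X₃ * v X₁ = v X₂ ∧ OppS v X₃ M₃ X₁ M₁ := by
  have hD := OppS.v_sub2 hv hp₂ hX₂ hO
  have hd : v (X₁ - X₂) = v X₁ := Valuation.map_sub_eq_of_lt_left _ hlt
  have hX₃ : v X₃ * v X₁ = v X₂ := by
    have := congrArg v J1
    simp only [map_mul, map_pow, hd, hD] at this
    have h3 : (v X₃ * v X₁) * (v X₁ ^ 2 * v X₂) = v X₂ * (v X₁ ^ 2 * v X₂) := by
      calc (v X₃ * v X₁) * (v X₁ ^ 2 * v X₂) = v X₁ * v X₂ * v X₃ * v X₁ ^ 2 := by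
            simp only [pow_two, mul_assoc, mul_comm, mul_left_comm]
        _ = (v X₁ * v X₂) ^ 2 := this
        _ = v X₂ * (v X₁ ^ 2 * v X₂) := by
            simp only [pow_two, mul_assoc, mul_comm, mul_left_comm]
    exact (mul_left_inj' (mul_ne_zero (pow_ne_zero 2 hX₁.ne_zero) hX₂.ne_zero)).mp h3
  have h3ne : v X₃ ≠ 0 := by
    intro h0
    rw [h0, zero_mul] at hX₃
    exact hX₂.ne_zero hX₃.symm
  have h3lt : v X₃ < 1 := by
    by_contra hcon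
    rw [not_lt] at hcon
    have : v X₁ ≤ v X₃ * v X₁ := by
      calc v X₁ = 1 * v X₁ := (one_mul _).symm
        _ ≤ v X₃ * v X₁ := mul_le_mul_left hcon _
    rw [hX₃] at this
    exact absurd this (not_le.mpr hlt)
  refine ⟨hX₃, oppS_of_J3 hX₁.ne_zero h3ne J3 ?_⟩
  have hle : v (X₃ - X₁) < 1 :=
    lt_of_le_of_lt (Valuation.map_sub _ _ _) (max_lt h3lt hX₁.2)
  have hsq : v (X₃ - X₁) ^ 2 < 1 := by
    calc v (X₃ - X₁) ^ 2 ≤ v (X₃ - X₁) := by
          rw [pow_two]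
          exact mul_le_of_le_one_left zero_le hle.le
      _ < 1 := hle
  calc v (X₃ - X₁) ^ 2 * v X₂ < 1 * v X₂ := mul_lt_mul_of_pos_right hsq hX₂.pos
    _ = v X₂ := one_mul _
    _ = v X₁ * v X₃ := by rw [← hX₃, mul_comm]

/-- Opposite signs, equal valuations, different `X`: the sum is not near the node. -/
lemma rule_opp_eq2 (hv : NodeVal2 v C1 C2)
    (hp₂ : IsPt2 C1 C2 X₂ M₂)
    (hX₁ : Mid v C1 X₁) (hX₂ : Mid v C1 X₂) (hO : OppS v X₁ M₁ X₂ M₂)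
    (J1 : X₁ * X₂ * X₃ * (X₁ - X₂) ^ 2 = (M₂ * X₁ - M₁ * X₂) ^ 2)
    (hne : X₁ ≠ X₂) (heq : v X₁ = v X₂) :
    1 ≤ v X₃ := by
  have hD := OppS.v_sub2 hv hp₂ hX₂ hO
  have hd : v (X₁ - X₂) ≤ v X₁ := by
    refine le_trans (Valuation.map_sub _ _ _) ?_
    rw [heq, max_self]
  have hd0 : v (X₁ - X₂) ≠ 0 := (Valuation.ne_zero_iff v).mpr (sub_ne_zero.mpr hne)
  have := congrArg v J1
  simp only [map_mul, map_pow, hD] at this
  by_contra hcon
  rw [not_le] at hcon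
  have h1 : v X₁ * v X₂ * v X₃ * v (X₁ - X₂) ^ 2 < (v X₁ * v X₂) ^ 2 := by
    calc v X₁ * v X₂ * v X₃ * v (X₁ - X₂) ^ 2
        = v X₃ * ((v X₁ * v X₂) * v (X₁ - X₂) ^ 2) := by
          simp only [pow_two, mul_assoc, mul_comm, mul_left_comm]
      _ < 1 * ((v X₁ * v X₂) * v (X₁ - X₂) ^ 2) :=
          mul_lt_mul_of_pos_right hcon (zero_lt_iff.mpr
            (mul_ne_zero (mul_ne_zero hX₁.ne_zero hX₂.ne_zero) (pow_ne_zero 2 hd0)))
      _ = (v X₁ * v X₂) * v (X₁ - X₂) ^ 2 := one_mul _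
      _ ≤ (v X₁ * v X₂) * v X₁ ^ 2 :=
          mul_le_mul_right (pow_le_pow_left₀ zero_le hd 2) _
      _ = (v X₁ * v X₂) ^ 2 := by
          rw [heq]; simp only [pow_two, mul_assoc, mul_comm, mul_left_comm]
  exact absurd this (ne_of_lt h1)

/-- Doubling a point which is very near the node gives a point which is not near the node. -/
lemma rule_double_small2 (hv : NodeVal2 v C1 C2) {X M : K}
    (hp : IsPt2 C1 C2 X M) (hX0 : X ≠ 0) (hM0 : M ≠ 0) (hX : v X ≤ v C1)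
    (J2 : X₃ * (M * X + M * X) ^ 2 = X * X * (X * X - C1) ^ 2) :
    1 ≤ v X₃ := by
  have hXne : v X ≠ 0 := (Valuation.ne_zero_iff v).mpr hX0
  have hM2ne : v (2 * M) ≠ 0 := (Valuation.ne_zero_iff v).mpr (mul_ne_zero hv.h2 hM0)
  have hXpos : 0 < v X := zero_lt_iff.mpr hXne
  have hXlt : v X < 1 := lt_of_le_of_lt hX hv.vC1
  have hsq : v X * v X < v C1 :=
    lt_of_lt_of_le (mul_lt_of_lt_one_left hXpos hXlt) hX
  have hT : v (X * X - C1) = v C1 := by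
    have : v (X * X) = v X * v X := map_mul _ _ _
    rw [Valuation.map_sub_eq_of_lt_right]
    rw [this]; exact hsq
  have hMM : v (M * X + M * X) = v (2 * M) * v X := by
    have : M * X + M * X = (2 * M) * X := by ring
    rw [this, map_mul]
  have hMle : v (2 * M) ^ 2 ≤ v C1 ^ 2 := by
    have e : (2 * M) ^ 2 = X * (4 * X ^ 2 + C2 * X + 4 * C1) := by rw [hp]; ring
    have h1 : v (4 * X ^ 2 + C2 * X + 4 * C1) ≤ v C1 := by
      refine le_trans (Valuation.map_add _ _ _) (max_le ?_ ?_)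
      · refine le_trans (Valuation.map_add _ _ _) (max_le ?_ ?_)
        · rw [map_mul, map_pow, pow_two]
          calc v 4 * (v X * v X) ≤ 1 * (v X * v X) :=
                mul_le_mul_left (v_four_le_one56 v) _
            _ = v X * v X := one_mul _
            _ ≤ v C1 := hsq.le
        · rw [map_mul, hv.vC2, one_mul]
          exact hX
      · rw [map_mul]
        calc v 4 * v C1 ≤ 1 * v C1 := mul_le_mul_left (v_four_le_one56 v) _
          _ = v C1 := one_mul _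
    rw [← map_pow, e, map_mul]
    calc v X * v (4 * X ^ 2 + C2 * X + 4 * C1) ≤ v C1 * v C1 := mul_le_mul' hX h1
      _ = v C1 ^ 2 := (pow_two _).symm
  have := congrArg v J2
  simp only [map_mul, map_pow, hT, hMM] at this
  by_contra hcon
  rw [not_le] at hcon
  have h1 : v X₃ * (v 2 * v M * v X) ^ 2 < v X * v X * v C1 ^ 2 := by
    calc v X₃ * (v 2 * v M * v X) ^ 2 < 1 * (v 2 * v M * v X) ^ 2 := by
          refine mul_lt_mul_of_pos_right hcon (zero_lt_iff.mpr (pow_ne_zero 2 ?_))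
          rw [← map_mul]
          exact mul_ne_zero hM2ne hXne
      _ = v X * v X * (v 2 * v M) ^ 2 := by
          simp only [one_mul, pow_two, mul_assoc, mul_comm, mul_left_comm]
      _ ≤ v X * v X * v C1 ^ 2 := by
          have hMle' : (v 2 * v M) ^ 2 ≤ v C1 ^ 2 := by
            rw [← map_mul]; exact hMle
          exact mul_le_mul_right hMle' _
  exact absurd this (ne_of_lt h1)

end Rules

end Fermat.Agent.T8.helper56
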