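/-
T8 / S44, fallback box [W-RAM2] (helper56), part (2a-2): the "sawtooth" induction in ANY residue
characteristic (in particular `2`).

For a point `P` of odd prime order `p` all of whose nonzero multiples reduce to the node
(`v X < 1`), some multiple `Q0 = k0 • P ≠ 0` has `v (X Q0) ^ p = v C1 ^ 2`, where the node model
is `(2 Mt) ^ 2 = 4 X ^ 3 + C2 X ^ 2 + 4 C1 X`, `v C2 = 1`, `v C1 < 1` (NO hypothesis on `v 2`).
Adapted from `S05/helper7_Sawtooth` (which needs `v 2 = 1`).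
-/
import Mathlib.GroupTheory.OrderOfElement
import Mathlib.Data.Int.GCD
import Mathlib.Order.Interval.Finset.Nat
import Fermat.Agent.S05.helper7_Sawtooth
import Fermat.Agent.T8.helper56_Node2Val

set_option autoImplicit false
set_option linter.unusedSimpArgs false
set_option linter.unusedVariables false
set_option linter.unusedSectionVars false

namespace Fermat.Agent.T8.helper56

open WeierstrassCurve Fermat.Agent.S05.helper7

variable {K : Type*} [Field K] [DecidableEq K] {Γ₀ : Type*} [LinearOrderedCommGroupWithZero Γ₀]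
  {v : Valuation K Γ₀} {W : WeierstrassCurve K} {e C1h C1 C2 : K}

/-- half of the coordinate `M = 2 y + a₁ x + a₃` of helper7 -/
noncomputable def qM (W : WeierstrassCurve K) (Q : W.toAffine.Point) : K := pM W Q / 2

lemma qM_neg (Q : W.toAffine.Point) : qM W (-Q) = - qM W Q := by
  unfold qM
  rw [pM_neg, neg_div]

lemma two_mul_qM (h2 : (2 : K) ≠ 0) (Q : W.toAffine.Point) : 2 * qM W Q = pM W Q := by
  unfold qM
  field_simp

lemma isPt2_of_ne_zero (hm : NodeModel W e C1h C2) (hC : C1h = 4 * C1) (h2 : (2 : K) ≠ 0)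
    {Q : W.toAffine.Point} (hQ : Q ≠ 0) : IsPt2 C1 C2 (pX W e Q) (qM W Q) := by
  have := isPt_of_ne_zero hm hQ
  unfold IsPt at this
  unfold IsPt2
  rw [two_mul_qM h2, this, hC]

/-- The identities for the sum of two nonzero points with nonzero sum, free of the constant
`4`. -/
lemma add_identities2 (hm : NodeModel W e C1h C2) (hC : C1h = 4 * C1) (h2 : (2 : K) ≠ 0)
    {Q₁ Q₂ : W.toAffine.Point} (h₁ : Q₁ ≠ 0) (h₂ : Q₂ ≠ 0) (h₁₂ : Q₁ + Q₂ ≠ 0) :
    pX W e (Q₁ + Q₂) * (qM W Q₁ * pX W e Q₂ + qM W Q₂ * pX W e Q₁) ^ 2 =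
        pX W e Q₁ * pX W e Q₂ * (pX W e Q₁ * pX W e Q₂ - C1) ^ 2 ∧
    (qM W (Q₁ + Q₂) * pX W e Q₁ + qM W Q₁ * pX W e (Q₁ + Q₂)) ^ 2 =
        (pX W e (Q₁ + Q₂) - pX W e Q₁) ^ 2 *
          (pX W e Q₁ * pX W e Q₂ * pX W e (Q₁ + Q₂)) ∧
    (qM W (Q₁ + Q₂) * pX W e Q₂ + qM W Q₂ * pX W e (Q₁ + Q₂)) ^ 2 =
        (pX W e (Q₁ + Q₂) - pX W e Q₂) ^ 2 *
          (pX W e Q₁ * pX W e Q₂ * pX W e (Q₁ + Q₂)) ∧
    (pX W e Q₁ ≠ pX W e Q₂ →
      pX W e Q₁ * pX W e Q₂ * pX W e (Q₁ + Q₂) * (pX W e Q₁ - pX W e Q₂) ^ 2 =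
        (qM W Q₂ * pX W e Q₁ - qM W Q₁ * pX W e Q₂) ^ 2) := by
  obtain ⟨I2, I3, I3', I1⟩ := add_identities hm h₁ h₂ h₁₂
  have h4 : (4 : K) ≠ 0 := by
    have : (4 : K) = 2 * 2 := by norm_num
    rw [this]; exact mul_ne_zero h2 h2
  have h16 : (16 : K) ≠ 0 := by
    have : (16 : K) = 4 * 4 := by norm_num
    rw [this]; exact mul_ne_zero h4 h4
  rw [← two_mul_qM h2 Q₁, ← two_mul_qM h2 Q₂, hC] at I2
  rw [← two_mul_qM h2 Q₁, ← two_mul_qM h2 (Q₁ + Q₂)] at I3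
  rw [← two_mul_qM h2 Q₂, ← two_mul_qM h2 (Q₁ + Q₂)] at I3'
  refine ⟨?_, ?_, ?_, ?_⟩
  · apply mul_left_cancel₀ h16
    linear_combination I2
  · apply mul_left_cancel₀ h4
    linear_combination I3
  · apply mul_left_cancel₀ h4
    linear_combination I3'
  · intro hne
    have := I1 hne
    rw [← two_mul_qM h2 Q₁, ← two_mul_qM h2 Q₂] at this
    apply mul_left_cancel₀ h4
    linear_combination this

/-- A nonzero point near the node whose double is nonzero and also near the node lies in the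
middle region. -/
lemma mid_of_double2 (hm : NodeModel W e C1h C2) (hC : C1h = 4 * C1) (hv : NodeVal2 v C1 C2)
    {Q : W.toAffine.Point}
    (hQ : Q ≠ 0) (hQQ : Q + Q ≠ 0) (h1 : v (pX W e Q) < 1) (h2 : v (pX W e (Q + Q)) < 1) :
    Mid v C1 (pX W e Q) := by
  have h2K := hv.h2
  have hp := isPt2_of_ne_zero hm hC h2K hQ
  have hM0 : pM W Q ≠ 0 := fun h => hQQ (add_self_eq_zero_of_pM_eq_zero h2K hQ h)
  have hqM0 : qM W Q ≠ 0 := by
    intro h
    apply hM0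
    rw [← two_mul_qM h2K, h, mul_zero]
  have hX0 : pX W e Q ≠ 0 := by
    intro h
    apply hqM0
    unfold IsPt2 at hp
    rw [h] at hp
    have h0 : (2 * qM W Q) ^ 2 = 0 := by rw [hp]; ring
    have h1 : 2 * qM W Q = 0 := (pow_eq_zero_iff two_ne_zero).mp h0
    rcases mul_eq_zero.mp h1 with h' | h'
    · exact absurd h' h2K
    · exact h'
  refine ⟨?_, h1⟩
  by_contra hcon
  rw [not_lt] at hcon
  obtain ⟨J2, -, -, -⟩ := add_identities2 hm hC h2K hQ hQ hQQ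
  exact absurd (rule_double_small2 hv hp hX0 hqM0 hcon J2) (not_le.mpr h2)

lemma sawtooth_step2 (hm : NodeModel W e C1h C2) (hC : C1h = 4 * C1) (hv : NodeVal2 v C1 C2)
    {Q0 Q : W.toAffine.Point} (hQ0 : Q0 ≠ 0) (hQ : Q ≠ 0) (hsum : Q0 + Q ≠ 0)
    (hmid0 : Mid v C1 (pX W e Q0)) (hmid : Mid v C1 (pX W e Q))
    (hmidS : Mid v C1 (pX W e (Q0 + Q)))
    (hmax : v (pX W e Q) ≤ v (pX W e Q0)) {m : ℕ}
    (hinv : SawInv v C1 (v (pX W e Q0)) m (pX W e Q) (qM W Q) (pX W e Q0) (qM W Q0)) :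
    SawInv v C1 (v (pX W e Q0)) (m + 1) (pX W e (Q0 + Q)) (qM W (Q0 + Q))
      (pX W e Q0) (qM W Q0) := by
  obtain ⟨J2, J3, J3', J1⟩ := add_identities2 hm hC hv.h2 hQ0 hQ hsum
  have hp0 := isPt2_of_ne_zero hm hC hv.h2 hQ0
  have hpQ := isPt2_of_ne_zero hm hC hv.h2 hQ
  rcases hinv with ⟨hval, hgt, hS⟩ | ⟨hval, hlt, hO⟩
  · -- same sign
    have hprod : v (pX W e Q0) * v (pX W e Q) = v (pX W e Q0) ^ (m + 1) := by
      rw [hval, pow_succ']
    rcases lt_trichotomy (v C1) (v (pX W e Q0) * v (pX W e Q)) with h | h | h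
    · obtain ⟨h3, hS3, -⟩ := rule_same_gt2 hmid0 hmid hS.symm J2 J3 J3' h
      exact Or.inl ⟨by rw [h3, hprod], by rw [← hprod]; exact h, hS3⟩
    · exact absurd (rule_same_eq2 hmid0 hmid hS.symm J2 h.symm) (not_le.mpr hmidS.1)
    · obtain ⟨h3, hO3, -⟩ := rule_same_lt2 hmid0 hmid hS.symm J2 J3 J3' h
      exact Or.inr ⟨by rw [← hprod]; exact h3, by rw [← hprod]; exact h, hO3⟩
  · -- opposite sign
    rcases lt_or_eq_of_le hmax with hlt' | heq
    · have hne : pX W e Q0 ≠ pX W e Q := by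
        intro h
        rw [h] at hlt'
        exact lt_irrefl _ hlt'
      obtain ⟨h3, hO3⟩ := rule_opp_lt2 hv hpQ hmid0 hmid hO.symm (J1 hne) J3 hlt'
      refine Or.inr ⟨?_, ?_, hO3⟩
      · rw [pow_succ', ← mul_assoc, h3, hval]
      · calc v (pX W e Q0) ^ (m + 1) = v (pX W e Q0) ^ m * v (pX W e Q0) := pow_succ _ _
          _ ≤ v (pX W e Q0) ^ m := mul_le_of_le_one_right' hmid0.2.le
          _ < v C1 := hlt
    · by_cases hne : pX W e Q0 = pX W e Q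
      · rcases eq_or_eq_neg_of_pX_eq hm hv.h2 hQ0 hQ hne with h | h
        · rw [← h] at hO
          exact (not_sameS_and_oppS (sameS_self2 hv hp0 hmid0) hO).elim
        · exact absurd (by rw [h]; exact neg_add_cancel Q) hsum
      · exact absurd (rule_opp_eq2 hv hpQ hmid0 hmid hO.symm (J1 hne) hne heq.symm)
          (not_le.mpr hmidS.2)

section Induction

variable {p : ℕ} {Q0 : W.toAffine.Point}

lemma sawtooth_ind2 (hm : NodeModel W e C1h C2) (hC : C1h = 4 * C1) (hv : NodeVal2 v C1 C2)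
    (hp : p.Prime)
    (hpQ : p • Q0 = 0) (hQ0 : Q0 ≠ 0)
    (hMid : ∀ k : ℕ, k • Q0 ≠ 0 → Mid v C1 (pX W e (k • Q0)))
    (hmax : ∀ k : ℕ, k • Q0 ≠ 0 → v (pX W e (k • Q0)) ≤ v (pX W e Q0)) :
    ∀ m : ℕ, 1 ≤ m → m < p →
      SawInv v C1 (v (pX W e Q0)) m (pX W e (m • Q0)) (qM W (m • Q0))
        (pX W e Q0) (qM W Q0) := by
  have hmid0 : Mid v C1 (pX W e Q0) := by
    have := hMid 1 (by rw [one_nsmul]; exact hQ0)
    rwa [one_nsmul] at this
  intro m hm1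
  induction m, hm1 using Nat.le_induction with
  | base =>
    intro _
    rw [one_nsmul]
    exact Or.inl ⟨(pow_one _).symm, by rw [pow_one]; exact hmid0.1,
      sameS_self2 hv (isPt2_of_ne_zero hm hC hv.h2 hQ0) hmid0⟩
  | succ m hm1 ih =>
    intro hlt
    have hmlt : m < p := Nat.lt_of_succ_lt hlt
    have hQm : m • Q0 ≠ 0 := nsmul_ne_zero_of_pos_of_lt hp hpQ hQ0 hm1 hmlt
    have hQm1 : (m + 1) • Q0 ≠ 0 :=
      nsmul_ne_zero_of_pos_of_lt hp hpQ hQ0 (Nat.succ_pos m) hlt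
    have hsum : Q0 + m • Q0 ≠ 0 := by rw [← succ_nsmul']; exact hQm1
    have hmidS : Mid v C1 (pX W e (Q0 + m • Q0)) := by
      rw [← succ_nsmul']; exact hMid (m + 1) hQm1
    have := sawtooth_step2 hm hC hv hQ0 hQm hsum hmid0 (hMid m hQm) hmidS (hmax m hQm) (ih hmlt)
    rw [succ_nsmul']
    exact this

lemma sawtooth_pow_eq2 (hm : NodeModel W e C1h C2) (hC : C1h = 4 * C1) (hv : NodeVal2 v C1 C2)
    (hp : p.Prime)
    (hpQ : p • Q0 = 0) (hQ0 : Q0 ≠ 0)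
    (hMid : ∀ k : ℕ, k • Q0 ≠ 0 → Mid v C1 (pX W e (k • Q0)))
    (hmax : ∀ k : ℕ, k • Q0 ≠ 0 → v (pX W e (k • Q0)) ≤ v (pX W e Q0)) :
    v (pX W e Q0) ^ p = v C1 ^ 2 := by
  have hmid0 : Mid v C1 (pX W e Q0) := by
    have := hMid 1 (by rw [one_nsmul]; exact hQ0)
    rwa [one_nsmul] at this
  have h2 := hp.two_le
  have h1 : 1 ≤ p - 1 := by omega
  have hinv := sawtooth_ind2 hm hC hv hp hpQ hQ0 hMid hmax (p - 1) h1 (by omega)
  have hneg : (p - 1) • Q0 = -Q0 := by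
    have : (p - 1) • Q0 + Q0 = 0 := by
      rw [← succ_nsmul, Nat.sub_add_cancel hp.one_le]
      exact hpQ
    exact eq_neg_of_add_eq_zero_left this
  rw [hneg, pX_neg, qM_neg] at hinv
  rcases hinv with ⟨-, -, hS⟩ | ⟨hval, -, -⟩
  · exfalso
    unfold SameS at hS
    have : -qM W Q0 * pX W e Q0 + qM W Q0 * pX W e Q0 = 0 := by ring
    rw [this, map_zero, map_mul] at hS
    exact (mul_ne_zero hmid0.ne_zero hmid0.ne_zero) hS.symm
  · calc v (pX W e Q0) ^ p = v (pX W e Q0) ^ (p - 1 + 1) := by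
          rw [Nat.sub_add_cancel hp.one_le]
      _ = v (pX W e Q0) * v (pX W e Q0) ^ (p - 1) := pow_succ' _ _
      _ = v C1 ^ 2 := hval

end Induction

/-- All nonzero multiples of a point of odd prime order whose multiples are near the node
lie in the middle region. -/
lemma mid_of_torsion2 (hm : NodeModel W e C1h C2) (hC : C1h = 4 * C1) (hv : NodeVal2 v C1 C2)
    {p : ℕ} (hp : p.Prime)
    (hp2 : p ≠ 2) {P : W.toAffine.Point} (hpP : p • P = 0) (hP : P ≠ 0)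
    (hE0 : ∀ k : ℕ, k • P ≠ 0 → v (pX W e (k • P)) < 1) :
    ∀ k : ℕ, k • P ≠ 0 → Mid v C1 (pX W e (k • P)) := by
  intro k hk
  have hkk' : (k + k) • P ≠ 0 := by
    intro h
    rw [nsmul_eq_zero_iff_of_prime hp hpP hP] at h
    have h2 : p ∣ 2 * k := by rwa [two_mul]
    have : p ∣ k := by
      rcases (Nat.Prime.dvd_mul hp).mp h2 with h' | h'
      · exact absurd ((Nat.prime_dvd_prime_iff_eq hp Nat.prime_two).mp h') hp2
      · exact h'
    exact hk ((nsmul_eq_zero_iff_of_prime hp hpP hP k).mpr this)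
  have hkk : k • P + k • P ≠ 0 := by rw [← add_nsmul]; exact hkk'
  refine mid_of_double2 hm hC hv hk hkk (hE0 k hk) ?_
  rw [← add_nsmul]
  exact hE0 (k + k) hkk'

/-- **The sawtooth theorem in any residue characteristic.**  If `P` has odd prime order `p` and
all its nonzero multiples are near the node, then some nonzero multiple `Q0 = k0 • P` has
`v (X Q0) ^ p = v C1 ^ 2` and `v C1 < v (X Q0) < 1`. -/
theorem sawtooth2 (hm : NodeModel W e C1h C2) (hC : C1h = 4 * C1) (hv : NodeVal2 v C1 C2)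
    {p : ℕ} (hp : p.Prime)
    (hp2 : p ≠ 2) {P : W.toAffine.Point} (hpP : p • P = 0) (hP : P ≠ 0)
    (hE0 : ∀ k : ℕ, k • P ≠ 0 → v (pX W e (k • P)) < 1) :
    ∃ k0 : ℕ, k0 • P ≠ 0 ∧ v (pX W e (k0 • P)) ^ p = v C1 ^ 2 ∧
      Mid v C1 (pX W e (k0 • P)) := by
  have hMidP := mid_of_torsion2 hm hC hv hp hp2 hpP hP hE0
  have h2 := hp.two_le
  obtain ⟨k0, hk0mem, hk0max⟩ := Finset.exists_max_image (Finset.Icc 1 (p - 1))
    (fun k => v (pX W e (k • P))) ⟨1, Finset.mem_Icc.mpr ⟨le_rfl, by omega⟩⟩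
  rw [Finset.mem_Icc] at hk0mem
  have hQ0 : k0 • P ≠ 0 :=
    nsmul_ne_zero_of_pos_of_lt hp hpP hP (by omega) (by omega)
  have hpQ0 : p • (k0 • P) = 0 := by
    rw [smul_comm, hpP, smul_zero]
  have hmult : ∀ k : ℕ, k • (k0 • P) ≠ 0 →
      ∃ i, 1 ≤ i ∧ i ≤ p - 1 ∧ k • (k0 • P) = i • P := by
    intro k hk
    have e1 : k • (k0 • P) = ((k0 * k) % p) • P := by
      rw [nsmul_mod_prime hp hpP hP, mul_nsmul]
    refine ⟨(k0 * k) % p, ?_, ?_, e1⟩
    · rcases Nat.eq_zero_or_pos ((k0 * k) % p) with h0 | h0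
      · exfalso
        apply hk
        rw [e1, h0, zero_nsmul]
      · exact h0
    · have := Nat.mod_lt (k0 * k) hp.pos
      omega
  have hMid : ∀ k : ℕ, k • (k0 • P) ≠ 0 → Mid v C1 (pX W e (k • (k0 • P))) := by
    intro k hk
    obtain ⟨i, -, -, hi⟩ := hmult k hk
    rw [hi]
    exact hMidP i (by rw [← hi]; exact hk)
  have hmax : ∀ k : ℕ, k • (k0 • P) ≠ 0 →
      v (pX W e (k • (k0 • P))) ≤ v (pX W e (k0 • P)) := by
    intro k hk
    obtain ⟨i, hi1, hi2, hi⟩ := hmult k hk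
    rw [hi]
    exact hk0max i (Finset.mem_Icc.mpr ⟨hi1, hi2⟩)
  exact ⟨k0, hQ0, sawtooth_pow_eq2 hm hC hv hp hpQ0 hQ0 hMid hmax, hMidP k0 hQ0⟩

end Fermat.Agent.T8.helper56
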