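import Fermat.Agent.T8.helper67_AuxDef
import Fermat.Agent.T2.helper34_Asm34
import Fermat.Agent.T8.helper72_ChainDefs
import Fermat.Agent.S13.helper38_Adapters

/-!
# T8 / S44, fallback box [W-RAM2] (helper56): the MODULAR half and the contract

The odd case of leaf 7 [DESCENT] of [F3-EXIT] is vacuous: a realisation of `E[p]` (Frey curve)
inside `J₀(N)[p]` forces `2 ∣ N`.

* `pullTo_nine_inj`   : `β_9^* : J₀(N) → J₀(9 N)` is injective on torsion (S37 [PINJ]);
* `inertia_two_fix`   : for `N` odd and `p` an odd prime, the inertia group of a place `A` of `ℚ̄`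
                        over `2` acts trivially on `J₀(N)[p]`
                        (P2-CORE at the good level `9 N`, Galois equivariance of `β_9^*`);
* `WRam2Statement`    : the CONTRACT of the curve half: for a Frey package the inertia group of
                        some (every) place over `2` moves some point of `E[p]`;
* `two_dvd_of_freyReal` : `WRam2Statement → FreyReal P W N V → 2 ∣ N`;
* `two_dvd_of_freyReal_mul` : the same at the level `M' * p` (conclusion `2 ∣ M'`).
-/

set_option autoImplicit false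
set_option linter.unusedSectionVars false
set_option linter.style.longLine false
set_option linter.unusedVariables false
set_option linter.style.haveILetI false

noncomputable section

namespace Fermat.Agent.T8.helper56

open ModularCurve Fermat.Agent.P3 Fermat.Agent.T8.helper72

/-- **`β_9^*` is injective on torsion** -/
theorem pullTo_nine_inj (A C : ℕ) [NeZero A] [NeZero C] (h : A * 9 = C) {m : ℕ} (hm : m ≠ 0)
    {x : JZero A} (hx : m • x = 0) (h0 : helper67.pullTo A 9 C h x = 0) : x = 0 := by
  subst h
  rw [helper67.pullTo_eq_pullPic] at h0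
  exact Fermat.Agent.S37.helper39.pullInj_nine A m hm x hx h0

/-- **inertia at `2` acts trivially on `J₀(N)[p]`**, `N` odd, `p` an odd prime. -/
theorem inertia_two_fix (N : ℕ) [NeZero N] (hN : ¬ 2 ∣ N) {p : ℕ} (hp : p.Prime) (hp2 : p ≠ 2)
    (A : ValuationSubring Qbar) (hA : A.LiesOverPrime 2) (σ : GQ)
    (hσ : σ ∈ A.inertiaSubgroupIn ℚ) (x : JZero N) (hx : p • x = 0) : σ • x = x := by
  haveI : NeZero (N * 9) := ⟨Nat.mul_ne_zero (NeZero.ne N) (by norm_num)⟩
  have hgood : GoodLevel (N * 9) := Or.inr (Dvd.intro_left N rfl)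
  have hcore := Fermat.Agent.T2.helper34.p2Core_goodLevel (N * 9) p hgood hp
  have h2 : ¬ 2 ∣ N * 9 * p := by
    intro h
    rcases (Nat.Prime.dvd_mul Nat.prime_two).mp h with h' | h'
    · rcases (Nat.Prime.dvd_mul Nat.prime_two).mp h' with h'' | h''
      · exact hN h''
      · omega
    · exact hp2 ((Nat.prime_dvd_prime_iff_eq Nat.prime_two hp).mp h').symm
  obtain ⟨hin, -⟩ := hcore 2 Nat.prime_two h2 A hA
  set y := helper67.pullTo N 9 (N * 9) rfl x with hy
  have hpy : p ^ 1 • y = 0 := by
    rw [pow_one, hy, ← map_nsmul, hx, map_zero]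
  have hfix : σ • y = y := hin σ hσ y ⟨1, hpy⟩
  have hd : helper67.pullTo N 9 (N * 9) rfl (σ • x - x) = 0 := by
    rw [map_sub, helper67.pullTo_galois_smul, ← hy, hfix, sub_self]
  have hcomm : p • (σ • x) = σ • (p • x) :=
    (map_nsmul (DistribSMul.toAddMonoidHom (JZero N) σ) p x).symm
  have hpd : p • (σ • x - x) = 0 := by
    rw [nsmul_sub, hcomm, hx]
    have h0 : σ • (0 : JZero N) = 0 :=
      map_zero (DistribSMul.toAddMonoidHom (JZero N) σ)
    rw [h0, sub_zero]
  have := pullTo_nine_inj N (N * 9) rfl hp.ne_zero hpd hd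
  exact sub_eq_zero.mp this

/-- **[W-RAM2], the contract of the curve half**: for a Frey package and a place `A` of `ℚ̄` over
`2`, some element of the inertia group of `A` moves some point of `E[p]`. -/
def WRam2Statement : Prop :=
  ∀ (P : FreyPackage) (A : ValuationSubring Qbar), A.LiesOverPrime 2 →
    ∃ σ ∈ A.inertiaSubgroupIn ℚ, ∃ T : FreyTors P, σ • T ≠ T

/-- **the odd case is vacuous**: a realisation of `E[p]` inside `J₀(N)` forces `2 ∣ N`. -/
theorem two_dvd_of_freyReal (hram : WRam2Statement)
    (P : FreyPackage) (W : WeierstrassCurve ℤ) (N : ℕ) [NeZero N]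
    (V : AddSubgroup (JZero N)) (hV : FreyReal P W N V) : 2 ∣ N := by
  by_contra hN
  obtain ⟨A, hA⟩ := Fermat.Agent.S13.helper38.exists_liesOverPrime Nat.prime_two
  obtain ⟨σ, hσ, T, hT⟩ := hram P A hA
  obtain ⟨e, he⟩ := hV.iso
  apply hT
  have hp2 : P.p ≠ 2 := by have := P.hp5; omega
  have h1 : ((e (σ • T) : V) : JZero N) = ((e T : V) : JZero N) := by
    rw [he σ T]
    exact inertia_two_fix N hN P.pp hp2 A hA σ hσ _ (hV.tors _ (e T).2)
  exact e.injective (Subtype.ext h1)

/-- the consumer form for leaf 7 at the level `M' p` -/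
theorem two_dvd_of_freyReal_mul (hram : WRam2Statement)
    (P : FreyPackage) (W : WeierstrassCurve ℤ) (M' : ℕ) [NeZero M']
    (V : AddSubgroup (JZero (M' * P.p))) (hV : FreyReal P W (M' * P.p) V) : 2 ∣ M' := by
  have h := two_dvd_of_freyReal hram P W (M' * P.p) V hV
  rcases (Nat.Prime.dvd_mul Nat.prime_two).mp h with h' | h'
  · exact h'
  · have hp2 : P.p ≠ 2 := by have := P.hp5; omega
    exact absurd ((Nat.prime_dvd_prime_iff_eq Nat.prime_two P.pp).mp h').symm hp2

end Fermat.Agent.T8.helper56

end
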