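import Fermat.Prelude.Def_FLTPrelim_ModularRep
import Fermat.Prelude.Def_FreyPackage_IsConductorLevel
import Fermat.Agent.S04.Wiring
import Mathlib.NumberTheory.Padics.PadicVal.Basic
import Mathlib.AlgebraicGeometry.EllipticCurve.VariableChange

/-!
# T8 [WIRE] (helper56): the Prelude shapes of statement S44

Statement S44 (row 38, Frey form of the Mazur--Ribet `p`-removal) reads

  `P.IsConductorLevel N → P.p ∣ N → irreducible → P.ModularRepOfLevel N →`
  `∃ M, M ∣ N ∧ ¬ P.p ∣ M ∧ P.ModularRepOfLevel M`.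

This file contains the route independent wiring between these Prelude shapes and the
contract of the chain:

* `bad_of_isIntegralModelOf` : a prime of multiplicative reduction of an integral Weierstrass
  curve `E₀` is a bad prime of EVERY integral model of `E₀ ⊗ ℚ`;
* `two_dvd_Δ_of_isIntegralModelOf`, `not_isGoodPrimeFor_two` : `2` is a bad prime of every
  integral model of the Frey curve (so an auxiliary level `4` is invisible in the congruence set
  of `ModularRepOfLevel`);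
* `isGoodPrimeFor_freyCurveInt` : a good prime of an integral model is a good prime of the
  standard model `P.freyCurveInt`;
* `level_facts` : the arithmetic of `N = p * (N / p)` for a conductor level `N` with `p ∣ N`;
* `p_dvd_abc`, `p_dvd_Δ`, `p_not_dvd_c₄` : multiplicative reduction of `P.freyCurveInt` at `p`;
* `modularRepOfLevel_div` : OUTPUT side, an eigenform of level `N / p` with the congruences at the
  primes `ℓ ≠ 2`, `ℓ ∤ N` gives the conclusion of S44;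
* `CoreStatement`, `s44_of_core` : the frozen statement S44 from the eigenform-level contract.
-/

set_option autoImplicit false

namespace Fermat.Agent.T8.helper56

open WeierstrassCurve CuspForm

/-! ### Bad primes of integral models -/

/-- A prime `q` of multiplicative reduction of the integral curve `E₀` (`q ∣ Δ`, `q ∤ c₄`) divides
the discriminant of every integral model of `E₀ ⊗ ℚ`. -/
theorem bad_of_isIntegralModelOf {E₀ W : WeierstrassCurve ℤ}
    (hW : W.IsIntegralModelOf (E₀.map (Int.castRingHom ℚ))) (hΔ0 : E₀.Δ ≠ 0)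
    {q : ℕ} (hq : q.Prime) (hΔ : (q : ℤ) ∣ E₀.Δ) (hc : ¬ (q : ℤ) ∣ E₀.c₄) :
    (q : ℤ) ∣ W.Δ := by
  have : Fact q.Prime := ⟨hq⟩
  obtain ⟨C, hC⟩ := hW
  set t : ℚ := ((C.u⁻¹ : ℚˣ) : ℚ) with ht
  have ht0 : t ≠ 0 := Units.ne_zero _
  have h1 : ((W.Δ : ℤ) : ℚ) = t ^ 12 * ((E₀.Δ : ℤ) : ℚ) := by
    have := congrArg WeierstrassCurve.Δ hC
    rw [variableChange_Δ, map_Δ, map_Δ] at this
    rw [ht]
    exact this.symm
  have h2 : ((W.c₄ : ℤ) : ℚ) = t ^ 4 * ((E₀.c₄ : ℤ) : ℚ) := by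
    have := congrArg WeierstrassCurve.c₄ hC
    rw [variableChange_c₄, map_c₄, map_c₄] at this
    rw [ht]
    exact this.symm
  have hc0 : E₀.c₄ ≠ 0 := fun h => hc (h ▸ dvd_zero _)
  have hcQ : ((E₀.c₄ : ℤ) : ℚ) ≠ 0 := Int.cast_ne_zero.2 hc0
  have hΔQ : ((E₀.Δ : ℤ) : ℚ) ≠ 0 := Int.cast_ne_zero.2 hΔ0
  -- the valuation of `t` is nonnegative
  have hvc : padicValRat q ((E₀.c₄ : ℤ) : ℚ) = 0 := by
    rw [padicValRat.of_int, padicValInt.eq_zero_of_not_dvd hc]; rfl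
  have hvt : 0 ≤ padicValRat q t := by
    have h3 : padicValRat q ((W.c₄ : ℤ) : ℚ) = 4 * padicValRat q t := by
      rw [h2, padicValRat.mul (pow_ne_zero _ ht0) hcQ, padicValRat.pow, hvc]
      push_cast; ring
    have h4 : 0 ≤ padicValRat q ((W.c₄ : ℤ) : ℚ) := by
      rw [padicValRat.of_int]; exact Int.natCast_nonneg _
    rw [h3] at h4
    omega
  -- the valuation of the discriminant is positive
  have hvΔ0 : 1 ≤ padicValRat q ((E₀.Δ : ℤ) : ℚ) := by
    rw [padicValRat.of_int]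
    have : (q : ℤ) ^ 1 ∣ E₀.Δ := by simpa using hΔ
    have h5 := (padicValInt_dvd_iff (p := q) 1 E₀.Δ).1 this
    rcases h5 with h5 | h5
    · exact absurd h5 hΔ0
    · exact_mod_cast h5
  have hWΔ0 : W.Δ ≠ 0 := by
    intro h
    rw [h, Int.cast_zero] at h1
    exact mul_ne_zero (pow_ne_zero _ ht0) hΔQ h1.symm
  have hvΔ : 1 ≤ padicValRat q ((W.Δ : ℤ) : ℚ) := by
    rw [h1, padicValRat.mul (pow_ne_zero _ ht0) hΔQ, padicValRat.pow]
    push_cast
    nlinarith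
  rw [padicValRat.of_int] at hvΔ
  have h6 : 1 ≤ padicValInt q W.Δ := by exact_mod_cast hvΔ
  have := (padicValInt_dvd_iff (p := q) 1 W.Δ).2 (Or.inr h6)
  simpa using this

variable (P : FreyPackage)

lemma two_dvd_a₄ : (2 : ℤ) ∣ P.freyCurveInt.a₄ := by
  obtain ⟨k, hk⟩ := Fermat.Agent.S04.thirtytwo_dvd_b_pow P
  have h := Fermat.Agent.S04.sixteen_mul_a₄ P
  rw [hk] at h
  have h' : 16 * P.freyCurveInt.a₄ = 16 * (2 * (-(P.a ^ P.p * k))) := by rw [h]; ring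
  exact ⟨_, mul_left_cancel₀ (by norm_num) h'⟩

lemma two_dvd_Δ_freyCurveInt : (2 : ℤ) ∣ P.freyCurveInt.Δ := by
  rw [Fermat.Agent.S04.freyCurveInt_Δ]
  exact Dvd.dvd.mul_right (dvd_pow (two_dvd_a₄ P) two_ne_zero) _

/-- An integral model of the Frey curve is an integral model of `P.freyCurveInt ⊗ ℚ`. -/
lemma isIntegralModelOf_map {W : WeierstrassCurve ℤ} (hW : W.IsIntegralModelOf P.freyCurve) :
    W.IsIntegralModelOf (P.freyCurveInt.map (Int.castRingHom ℚ)) := by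
  rwa [Fermat.Agent.S04.freyCurveInt_map]

/-- A bad prime of the standard integral Frey curve is a bad prime of every integral model of
the Frey curve. -/
theorem dvd_Δ_of_dvd_Δ_freyCurveInt {W : WeierstrassCurve ℤ}
    (hW : W.IsIntegralModelOf P.freyCurve) {q : ℕ} (hq : q.Prime)
    (hΔ : (q : ℤ) ∣ P.freyCurveInt.Δ) : (q : ℤ) ∣ W.Δ :=
  bad_of_isIntegralModelOf (isIntegralModelOf_map P hW)
    (Fermat.Agent.S04.freyCurveInt_Δ_ne_zero P) hq hΔ
    (Fermat.Agent.S04.freyCurveInt_isSemistableModel P q hq hΔ)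

/-- A good prime of an integral model of the Frey curve is a good prime of `P.freyCurveInt`. -/
theorem isGoodPrimeFor_freyCurveInt {W : WeierstrassCurve ℤ}
    (hW : W.IsIntegralModelOf P.freyCurve) {q : ℕ} (hq : q.Prime) (h : W.IsGoodPrimeFor q) :
    P.freyCurveInt.IsGoodPrimeFor q :=
  fun hΔ => h (dvd_Δ_of_dvd_Δ_freyCurveInt P hW hq hΔ)

/-- `2` divides the discriminant of every integral model of the Frey curve. -/
theorem two_dvd_Δ_of_isIntegralModelOf {W : WeierstrassCurve ℤ}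
    (hW : W.IsIntegralModelOf P.freyCurve) : (2 : ℤ) ∣ W.Δ := by
  have := dvd_Δ_of_dvd_Δ_freyCurveInt P hW Nat.prime_two
    (by exact_mod_cast two_dvd_Δ_freyCurveInt P)
  exact_mod_cast this

/-- `2` is a bad prime of every integral model of the Frey curve. -/
theorem not_isGoodPrimeFor_two {W : WeierstrassCurve ℤ}
    (hW : W.IsIntegralModelOf P.freyCurve) : ¬ W.IsGoodPrimeFor 2 := by
  intro h
  exact h (by exact_mod_cast two_dvd_Δ_of_isIntegralModelOf P hW)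

/-- A good prime of an integral model of the Frey curve is odd. -/
theorem ne_two_of_isGoodPrimeFor {W : WeierstrassCurve ℤ}
    (hW : W.IsIntegralModelOf P.freyCurve) {ℓ : ℕ} (h : W.IsGoodPrimeFor ℓ) : ℓ ≠ 2 := by
  rintro rfl
  exact not_isGoodPrimeFor_two P hW h

/-- A good prime of an integral model of the Frey curve does not divide `a * b * c`... in the
form: a prime dividing `a * b * c` is a bad prime of every integral model. -/
theorem dvd_Δ_of_dvd_abc {W : WeierstrassCurve ℤ}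
    (hW : W.IsIntegralModelOf P.freyCurve) {q : ℕ} (hq : q.Prime) (hq2 : q ≠ 2)
    (h : (q : ℤ) ∣ P.a * P.b * P.c) : (q : ℤ) ∣ W.Δ := by
  refine dvd_Δ_of_dvd_Δ_freyCurveInt P hW hq ?_
  have hq' : Prime (q : ℤ) := Nat.prime_iff_prime_int.mp hq
  rw [Fermat.Agent.S04.freyCurveInt_Δ]
  have h16 := Fermat.Agent.S04.sixteen_mul_a₄ P
  have hq16 : ¬ (q : ℤ) ∣ 16 := by
    intro h16'
    have h2 : (q : ℤ) ∣ 2 ^ 4 := by simpa using h16'
    have h3 := hq'.dvd_of_dvd_pow h2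
    have h4 : q ∣ 2 := by exact_mod_cast h3
    exact hq2 ((Nat.prime_dvd_prime_iff_eq hq Nat.prime_two).1 h4)
  rcases hq'.dvd_or_dvd h with hab | hc
  · -- `q ∣ a * b`, so `q ∣ 16 * a₄`, so `q ∣ a₄`
    have hAB : (q : ℤ) ∣ P.a ^ P.p * P.b ^ P.p := by
      rcases hq'.dvd_or_dvd hab with ha | hb
      · exact (dvd_pow ha P.hp0).mul_right _
      · exact (dvd_pow hb P.hp0).mul_left _
    have h1 : (q : ℤ) ∣ 16 * P.freyCurveInt.a₄ := by rw [h16]; exact (dvd_neg.2 hAB)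
    have h2 : (q : ℤ) ∣ P.freyCurveInt.a₄ := (hq'.dvd_or_dvd h1).resolve_left hq16
    exact Dvd.dvd.mul_right (dvd_pow h2 two_ne_zero) _
  · exact Dvd.dvd.mul_left (dvd_pow (dvd_pow hc P.hp0) two_ne_zero) _

/-! ### The level -/

/-- The arithmetic of a conductor level `N` divisible by `p`. -/
theorem level_facts {N : ℕ} (hcond : P.IsConductorLevel N) (hpN : P.p ∣ N) :
    N = P.p * (N / P.p) ∧ 0 < N / P.p ∧ N / P.p ∣ N ∧ ¬ P.p ∣ N / P.p ∧
      Nat.Coprime P.p (N / P.p) ∧ Squarefree (N / P.p) ∧ P.IsConductorLevel (N / P.p) := by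
  have hN : N = P.p * (N / P.p) := (Nat.mul_div_cancel' hpN).symm
  have hpos : 0 < N / P.p := Nat.div_pos (Nat.le_of_dvd hcond.pos hpN) P.hppos
  have hdvd : N / P.p ∣ N := Nat.div_dvd_of_dvd hpN
  have hnot : ¬ P.p ∣ N / P.p := by
    intro h
    obtain ⟨k, hk⟩ := h
    have : P.p ^ 2 ∣ N := ⟨k, by rw [hN, hk]; ring⟩
    exact hcond.sq_not_dvd P.pp this
  exact ⟨hN, hpos, hdvd, hnot, (Nat.Prime.coprime_iff_not_dvd P.pp).2 hnot,
    hcond.squarefree.squarefree_of_dvd hdvd, hcond.of_dvd hdvd hpos⟩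

/-- A prime `ℓ ≠ p` not dividing `N / p` does not divide `N`. -/
theorem not_dvd_level {N : ℕ} (hpN : P.p ∣ N) {ℓ : ℕ} (hℓ : ℓ.Prime)
    (hℓM : ¬ ℓ ∣ N / P.p) (hℓp : ℓ ≠ P.p) : ¬ ℓ ∣ N := by
  intro h
  rw [← Nat.mul_div_cancel' hpN] at h
  rcases (Nat.Prime.dvd_mul hℓ).1 h with h1 | h1
  · exact hℓp ((Nat.prime_dvd_prime_iff_eq hℓ P.pp).1 h1)
  · exact hℓM h1

/-- `p ∣ a * b * c` (the second case) for a conductor level divisible by `p`. -/
theorem p_dvd_abc {N : ℕ} (hcond : P.IsConductorLevel N) (hpN : P.p ∣ N) :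
    (P.p : ℤ) ∣ P.a * P.b * P.c :=
  hcond.p_dvd_abc hpN

/-- `P.freyCurveInt` has bad reduction at `p` when `p ∣ N`. -/
theorem p_dvd_Δ {N : ℕ} (hcond : P.IsConductorLevel N) (hpN : P.p ∣ N) :
    (P.p : ℤ) ∣ P.freyCurveInt.Δ := by
  have h := p_dvd_abc P hcond hpN
  have hp2 : P.p ≠ 2 := by have := P.hp5; omega
  have hI : P.freyCurveInt.IsIntegralModelOf P.freyCurve :=
    ⟨1, by rw [one_smul, Fermat.Agent.S04.freyCurveInt_map]⟩
  exact dvd_Δ_of_dvd_abc P hI P.pp hp2 h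

/-- ... and the reduction is multiplicative. -/
theorem p_not_dvd_c₄ {N : ℕ} (hcond : P.IsConductorLevel N) (hpN : P.p ∣ N) :
    ¬ (P.p : ℤ) ∣ P.freyCurveInt.c₄ :=
  Fermat.Agent.S04.freyCurveInt_isSemistableModel P P.p P.pp (p_dvd_Δ P hcond hpN)

/-! ### The output side -/

/-- OUTPUT WIRING.  An eigenform of level `N / p` which is congruent to the Frey curve at the
good primes `ℓ ≠ 2` not dividing `N` gives the conclusion of S44.  (The primes `2` and `p` are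
bad for every integral model when `p ∣ N`, so nothing is required there.) -/
theorem modularRepOfLevel_div {N : ℕ} (hcond : P.IsConductorLevel N) (hpN : P.p ∣ N)
    {W : WeierstrassCurve ℤ} (hW : W.IsIntegralModelOf P.freyCurve)
    (g : CuspForm (CongruenceSubgroup.Gamma0 (N / P.p)) 2) (𝔪 : Ideal (integralClosure ℤ ℂ))
    (hg : g.IsNormalizedEigenform) (h𝔪 : 𝔪.IsMaximal) (hp𝔪 : (P.p : integralClosure ℤ ℂ) ∈ 𝔪)
    (hcong : ∀ ℓ : ℕ, ℓ.Prime → W.IsGoodPrimeFor ℓ → ℓ ≠ 2 → ℓ ≠ P.p → ¬ ℓ ∣ N →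
      ∃ a : integralClosure ℤ ℂ, (a : ℂ) = ModularFormClass.qCoeff g ℓ ∧
        a - ((W.apOfModel ℓ : ℤ) : integralClosure ℤ ℂ) ∈ 𝔪) :
    ∃ M : ℕ, M ∣ N ∧ ¬ P.p ∣ M ∧ P.ModularRepOfLevel M := by
  obtain ⟨-, -, hdvd, hnot, -, -, -⟩ := level_facts P hcond hpN
  refine ⟨N / P.p, hdvd, hnot, g, W, 𝔪, hg, hW, h𝔪, hp𝔪, ?_⟩
  intro ℓ hℓ hgood hℓM hℓp
  exact hcong ℓ hℓ hgood (ne_two_of_isGoodPrimeFor P hW hgood) hℓp
    (not_dvd_level P hpN hℓ hℓM hℓp)

/-- The same with the congruence set `{ℓ good, ℓ ∤ 4 * N}` (auxiliary level `4`). -/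
theorem modularRepOfLevel_div_four {N : ℕ} (hcond : P.IsConductorLevel N) (hpN : P.p ∣ N)
    {W : WeierstrassCurve ℤ} (hW : W.IsIntegralModelOf P.freyCurve)
    (g : CuspForm (CongruenceSubgroup.Gamma0 (N / P.p)) 2) (𝔪 : Ideal (integralClosure ℤ ℂ))
    (hg : g.IsNormalizedEigenform) (h𝔪 : 𝔪.IsMaximal) (hp𝔪 : (P.p : integralClosure ℤ ℂ) ∈ 𝔪)
    (hcong : ∀ ℓ : ℕ, ℓ.Prime → W.IsGoodPrimeFor ℓ → ¬ ℓ ∣ 4 * N →
      ∃ a : integralClosure ℤ ℂ, (a : ℂ) = ModularFormClass.qCoeff g ℓ ∧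
        a - ((W.apOfModel ℓ : ℤ) : integralClosure ℤ ℂ) ∈ 𝔪) :
    ∃ M : ℕ, M ∣ N ∧ ¬ P.p ∣ M ∧ P.ModularRepOfLevel M := by
  refine modularRepOfLevel_div P hcond hpN hW g 𝔪 hg h𝔪 hp𝔪 ?_
  intro ℓ hℓ hgood hℓ2 _ hℓN
  refine hcong ℓ hℓ hgood ?_
  intro h
  rcases (Nat.Prime.dvd_mul hℓ).1 h with h4 | hN
  · have h2 : ℓ ∣ 2 ^ 2 := by simpa using h4
    exact hℓ2 ((Nat.prime_dvd_prime_iff_eq hℓ Nat.prime_two).1 (hℓ.dvd_of_dvd_pow h2))
  · exact hℓN hN

/-! ### The contract of the chain and the frozen statement -/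

/-- **Contract of the T8 chain in Prelude shapes** (eigenform level): for a Frey package, a
conductor level `N` divisible by `p`, irreducible `E[p]`, an eigenform `f` of level `N` and a
maximal ideal `𝔪 ∣ p` with `a_ℓ(f) ≡ a_ℓ(W)` at the good primes `ℓ ∤ N`, `ℓ ≠ p`, there are an
eigenform `g` of level `N / p` and `𝔪' ∣ p` with `a_ℓ(g) ≡ a_ℓ(W)` at the good primes
`ℓ ∤ 4 * N`. -/
def CoreStatement : Prop :=
  ∀ (P : FreyPackage) (N : ℕ), P.IsConductorLevel N → P.p ∣ N →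
    WeierstrassCurve.Affine.Point.GaloisRepIsIrreducible (K := AlgebraicClosure ℚ) ℚ
      P.freyCurve P.p →
    ∀ (f : CuspForm (CongruenceSubgroup.Gamma0 N) 2) (W : WeierstrassCurve ℤ)
      (𝔪 : Ideal (integralClosure ℤ ℂ)),
      f.IsNormalizedEigenform → W.IsIntegralModelOf P.freyCurve → 𝔪.IsMaximal →
      (P.p : integralClosure ℤ ℂ) ∈ 𝔪 →
      (∀ ℓ : ℕ, ℓ.Prime → W.IsGoodPrimeFor ℓ → ¬ ℓ ∣ N → ℓ ≠ P.p →
        ∃ a : integralClosure ℤ ℂ, (a : ℂ) = ModularFormClass.qCoeff f ℓ ∧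
          a - ((W.apOfModel ℓ : ℤ) : integralClosure ℤ ℂ) ∈ 𝔪) →
      ∃ (g : CuspForm (CongruenceSubgroup.Gamma0 (N / P.p)) 2)
        (𝔪' : Ideal (integralClosure ℤ ℂ)),
        g.IsNormalizedEigenform ∧ 𝔪'.IsMaximal ∧ (P.p : integralClosure ℤ ℂ) ∈ 𝔪' ∧
        ∀ ℓ : ℕ, ℓ.Prime → W.IsGoodPrimeFor ℓ → ¬ ℓ ∣ 4 * N →
          ∃ a : integralClosure ℤ ℂ, (a : ℂ) = ModularFormClass.qCoeff g ℓ ∧
            a - ((W.apOfModel ℓ : ℤ) : integralClosure ℤ ℂ) ∈ 𝔪'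

/-- **The frozen statement S44 from the contract of the chain.** -/
theorem s44_of_core (h : CoreStatement) (P : FreyPackage) {N : ℕ}
    (hcond : P.IsConductorLevel N) (hpN : P.p ∣ N)
    (hirr : WeierstrassCurve.Affine.Point.GaloisRepIsIrreducible (K := AlgebraicClosure ℚ) ℚ
      P.freyCurve P.p)
    (hmod : P.ModularRepOfLevel N) :
    ∃ M : ℕ, M ∣ N ∧ ¬ P.p ∣ M ∧ P.ModularRepOfLevel M := by
  obtain ⟨f, W, 𝔪, hf, hW, h𝔪, hp𝔪, hcong⟩ := hmod
  obtain ⟨g, 𝔪', hg, h𝔪', hp𝔪', hcong'⟩ := h P N hcond hpN hirr f W 𝔪 hf hW h𝔪 hp𝔪 hcong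
  exact modularRepOfLevel_div_four P hcond hpN hW g 𝔪' hg h𝔪' hp𝔪' hcong'

end Fermat.Agent.T8.helper56
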