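import Mathlib

/-!
# T8 [K-RAT] (helper57): the contractive trace, abstract core

`F` a field with a valuation subring `A`, `g : ι → F →+* F` a finite family of ring
endomorphisms (the coset representatives of `H / H₀`), `L` a subfield of `F` (the elements fixed by
`H₀`), `Tr x = ∑ i, g i x`.  If the valuation is `g`-invariant on `L`, the traces of the elements
of `L` are `g`-fixed with DISCRETE valuation (`v (Tr x) = v lam ^ m`) and the valuation of `L` is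
discrete (`v x ^ card ι = v lam ^ m`), then there is `θ ∈ L` with

* `Tr θ = 1`;
* `v (Tr (θ y)) < 1` for every `y ∈ L` with `v y < 1`.

No tameness hypothesis: `card ι` may be divisible by the residue characteristic.

* `exists_contractive_trace` : the statement above;
* `contractive_apply`        : for such a `θ`: `v (Tr (θ c) - 1) < 1` when `v (c - 1) < 1`.
-/

set_option autoImplicit false
set_option linter.unusedSectionVars false
set_option linter.unusedVariables false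
set_option linter.style.longLine false

namespace Fermat.Agent.T8.helper57

section ContractiveTrace

variable {F : Type*} [Field F] (A : ValuationSubring F)
variable {ι : Type*} [Fintype ι]

private theorem krat_zpow_le {Γ : Type*} [LinearOrderedCommGroupWithZero Γ] {γ : Γ}
    (h0 : γ ≠ 0) (h1 : γ < 1) {m n : ℤ} : γ ^ m ≤ γ ^ n ↔ n ≤ m :=
  zpow_le_zpow_iff_right_of_lt_one₀ (zero_lt_iff.2 h0) h1

private theorem krat_zpow_lt_one {Γ : Type*} [LinearOrderedCommGroupWithZero Γ] {γ : Γ}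
    (h0 : γ ≠ 0) (h1 : γ < 1) {n : ℤ} : γ ^ n < 1 ↔ 0 < n :=
  zpow_lt_one_iff_right_of_lt_one₀ (zero_lt_iff.2 h0) h1

/-- **the contractive trace** -/
theorem exists_contractive_trace
    (g : ι → F →+* F) (L : Subfield F) (lam : F)
    (hn : ((Fintype.card ι : ℕ) : F) ≠ 0)
    (hv : ∀ i, ∀ x ∈ L, A.valuation (g i x) = A.valuation x)
    (hlamL : lam ∈ L) (hlam0 : lam ≠ 0) (hlam1 : A.valuation lam < 1)
    (hfixlam : ∀ i, g i lam = lam)
    (hTrL : ∀ x ∈ L, (∑ j, g j x) ∈ L)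
    (hfixTr : ∀ x ∈ L, ∀ i, g i (∑ j, g j x) = ∑ j, g j x)
    (hdiscTr : ∀ x ∈ L, (∑ j, g j x) ≠ 0 →
      ∃ m : ℤ, A.valuation (∑ j, g j x) = A.valuation lam ^ m)
    (hdiscL : ∀ x ∈ L, x ≠ 0 →
      ∃ m : ℤ, A.valuation x ^ (Fintype.card ι) = A.valuation lam ^ m) :
    ∃ θ ∈ L, (∑ i, g i θ) = 1 ∧
      ∀ y ∈ L, A.valuation y < 1 → A.valuation (∑ i, g i (θ * y)) < 1 := by
  classical
  set v := A.valuation with hvdef
  set γ := v lam with hγ
  set n := Fintype.card ι with hndef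
  have hγ0 : γ ≠ 0 := (Valuation.ne_zero_iff v).2 hlam0
  have hn0 : n ≠ 0 := by
    intro h0
    apply hn
    rw [h0]
    exact Nat.cast_zero
  -- pulling a fixed constant out of the trace
  have hpull : ∀ c x : F, (∀ i, g i c = c) → (∑ i, g i (c * x)) = c * ∑ i, g i x := by
    intro c x hc
    rw [Finset.mul_sum]
    refine Finset.sum_congr rfl fun i _ => ?_
    rw [map_mul, hc i]
  have hpull' : ∀ c x : F, (∀ i, g i c = c) → (∑ i, g i (x * c)) = (∑ i, g i x) * c := by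
    intro c x hc
    rw [Finset.sum_mul]
    refine Finset.sum_congr rfl fun i _ => ?_
    rw [map_mul, hc i]
  -- the trace does not increase the valuation
  have hsmall : ∀ x ∈ L, v x < 1 → v (∑ i, g i x) < 1 := by
    intro x hx hx1
    refine Valuation.map_sum_lt v one_ne_zero fun i _ => ?_
    rw [hv i x hx]
    exact hx1
  -- the contractive elements
  set IsC : F → Prop := fun θ => θ ∈ L ∧ θ ≠ 0 ∧
    ∀ y ∈ L, v y < 1 → v (∑ i, g i (θ * y)) < 1 with hIsC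
  have hC1 : IsC 1 := by
    refine ⟨L.one_mem, one_ne_zero, fun y hy hy1 => ?_⟩
    rw [one_mul]
    exact hsmall y hy hy1
  -- the valuation of `card ι`
  have hTr1 : (∑ i, g i (1 : F)) = ((n : ℕ) : F) := by
    simp only [map_one, Finset.sum_const, Finset.card_univ, nsmul_eq_mul, mul_one, hndef]
  obtain ⟨m₁, hm₁⟩ := hdiscTr 1 L.one_mem (by rw [hTr1]; exact hn)
  rw [hTr1] at hm₁
  -- powers of `lam` are fixed
  have hfixz : ∀ (k : ℤ) (i : ι), g i (lam ^ k) = lam ^ k := by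
    intro k i
    rw [map_zpow₀, hfixlam i]
  have hzL : ∀ k : ℤ, lam ^ k ∈ L := fun k => L.zpow_mem hlamL k
  -- a contractive element is bounded
  have hbound : ∀ θ, IsC θ → v θ ≤ γ ^ (-m₁) := by
    intro θ hθ
    by_contra hlt
    push Not at hlt
    obtain ⟨hθL, hθ0, hθc⟩ := hθ
    have hvθ0 : v θ ≠ 0 := (Valuation.ne_zero_iff v).2 hθ0
    set y := lam ^ (-m₁) * θ⁻¹ with hy
    have hyL : y ∈ L := L.mul_mem (hzL _) (L.inv_mem hθL)
    have hy1 : v y < 1 := by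
      rw [hy, map_mul, map_zpow₀, map_inv₀]
      rw [← div_eq_mul_inv]
      exact (div_lt_one₀ (zero_lt_iff.2 hvθ0)).2 hlt
    have h1 := hθc y hyL hy1
    have e : θ * y = lam ^ (-m₁) * 1 := by
      rw [hy, mul_one]
      field_simp
    rw [e, hpull _ _ (hfixz _), hTr1, map_mul, map_zpow₀, hm₁, ← hγ, ← zpow_add₀ hγ0,
      neg_add_cancel, zpow_zero] at h1
    exact lt_irrefl _ h1
  -- the integers attached to the contractive elements
  have hex1 : ∃ lb : ℤ, (∃ θ, IsC θ ∧ v θ ^ n = γ ^ lb) ∧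
      ∀ z : ℤ, (∃ θ, IsC θ ∧ v θ ^ n = γ ^ z) → lb ≤ z := by
    refine Int.exists_least_of_bdd ⟨-m₁ * n, ?_⟩ ⟨0, 1, hC1, ?_⟩
    · rintro z ⟨θ, hθ, hz⟩
      have h1 := hbound θ hθ
      have h2 : v θ ^ n ≤ (γ ^ (-m₁)) ^ n := pow_le_pow_left₀ zero_le h1 n
      rw [hz, ← zpow_natCast (γ ^ (-m₁)) n, ← zpow_mul] at h2
      exact (krat_zpow_le hγ0 hlam1).1 h2
    · rw [map_one, one_pow, zpow_zero]
  obtain ⟨m₀, ⟨θ₀, hθ₀, hθ₀m⟩, hmin⟩ := hex1
  -- a uniformiser of `L`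
  have hex2 : ∃ lb : ℤ, (∃ y ∈ L, y ≠ 0 ∧ v y < 1 ∧ v y ^ n = γ ^ lb) ∧
      ∀ z : ℤ, (∃ y ∈ L, y ≠ 0 ∧ v y < 1 ∧ v y ^ n = γ ^ z) → lb ≤ z := by
    refine Int.exists_least_of_bdd ⟨1, ?_⟩ ⟨n, lam, hlamL, hlam0, hlam1, ?_⟩
    · rintro z ⟨y, hyL, hy0, hy1, hz⟩
      have h1 : v y ^ n < 1 := pow_lt_one₀ zero_le hy1 hn0
      rw [hz] at h1
      have := (krat_zpow_lt_one hγ0 hlam1).1 h1
      omega
    · rw [zpow_natCast]
  obtain ⟨mπ, ⟨π, hπL, hπ0, hπ1, hπm⟩, hπmin⟩ := hex2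
  have hmπ : 0 < mπ := by
    have h1 : v π ^ n < 1 := pow_lt_one₀ zero_le hπ1 hn0
    rw [hπm] at h1
    exact (krat_zpow_lt_one hγ0 hlam1).1 h1
  have hvπ0 : v π ≠ 0 := (Valuation.ne_zero_iff v).2 hπ0
  -- every small element of `L` is divisible by `π`
  have hdivπ : ∀ y ∈ L, y ≠ 0 → v y < 1 → v (y * π⁻¹) ≤ 1 := by
    intro y hyL hy0 hy1
    obtain ⟨my, hmy⟩ := hdiscL y hyL hy0
    have h1 := hπmin my ⟨y, hyL, hy0, hy1, hmy⟩
    have h2 : γ ^ my ≤ γ ^ mπ := (krat_zpow_le hγ0 hlam1).2 h1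
    rw [← hmy, ← hπm] at h2
    have h3 : v y ≤ v π := (pow_le_pow_iff_left₀ zero_le zero_le hn0).1 h2
    rw [map_mul, map_inv₀, ← div_eq_mul_inv]
    exact (div_le_one₀ (zero_lt_iff.2 hvπ0)).2 h3
  -- `θ₀ / π` is not contractive
  obtain ⟨hθ₀L, hθ₀0, hθ₀c⟩ := hθ₀
  set θ₁ := θ₀ * π⁻¹ with hθ₁
  have hθ₁L : θ₁ ∈ L := L.mul_mem hθ₀L (L.inv_mem hπL)
  have hθ₁0 : θ₁ ≠ 0 := mul_ne_zero hθ₀0 (inv_ne_zero hπ0)
  have hθ₁m : v θ₁ ^ n = γ ^ (m₀ - mπ) := by
    rw [hθ₁, map_mul, map_inv₀, mul_pow, inv_pow, hθ₀m, hπm, zpow_sub₀ hγ0, div_eq_mul_inv]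
  have hθ₁C : ¬ IsC θ₁ := by
    intro hC
    have := hmin (m₀ - mπ) ⟨θ₁, hC, hθ₁m⟩
    omega
  have hex3 : ∃ y ∈ L, v y < 1 ∧ ¬ v (∑ i, g i (θ₁ * y)) < 1 := by
    by_contra hcon
    push Not at hcon
    exact hθ₁C ⟨hθ₁L, hθ₁0, hcon⟩
  obtain ⟨y, hyL, hy1, hyt⟩ := hex3
  have hy0 : y ≠ 0 := by
    rintro rfl
    apply hyt
    simp only [mul_zero, map_zero, Finset.sum_const_zero]
    exact zero_lt_one
  set a := y * π⁻¹ with ha
  have haL : a ∈ L := L.mul_mem hyL (L.inv_mem hπL)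
  have ha1 : v a ≤ 1 := hdivπ y hyL hy0 hy1
  have hθa : θ₀ * a = θ₁ * y := by rw [ha, hθ₁]; ring
  set t := ∑ i, g i (θ₀ * a) with ht
  have ht1 : 1 ≤ v t := by
    rw [ht, hθa]
    exact not_lt.1 hyt
  have ht0 : t ≠ 0 := by
    intro h0
    rw [h0, map_zero] at ht1
    exact absurd ht1 (not_le.2 zero_lt_one)
  have hθaL : θ₀ * a ∈ L := L.mul_mem hθ₀L haL
  -- `t` is a unit
  have htu : v t = 1 := by
    refine le_antisymm ?_ ht1
    obtain ⟨m, hm⟩ := hdiscTr (θ₀ * a) hθaL ht0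
    have h1 : v (lam * a) < 1 := by
      rw [map_mul]
      calc v lam * v a ≤ v lam * 1 := mul_le_mul_right ha1 _
        _ = v lam := mul_one _
        _ < 1 := hlam1
    have h2 := hθ₀c (lam * a) (L.mul_mem hlamL haL) h1
    have e : θ₀ * (lam * a) = lam * (θ₀ * a) := by ring
    rw [e, hpull _ _ hfixlam, map_mul] at h2
    change γ * v t < 1 at h2
    rw [← ht] at hm
    rw [hm, ← zpow_one_add₀ hγ0] at h2
    have h3 := (krat_zpow_lt_one hγ0 hlam1).1 h2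
    rw [hm]
    have h4 : (0 : ℤ) ≤ m := by omega
    calc γ ^ m ≤ γ ^ (0 : ℤ) := (krat_zpow_le hγ0 hlam1).2 h4
      _ = 1 := zpow_zero _
  have htfix : ∀ i, g i t⁻¹ = t⁻¹ := by
    intro i
    rw [map_inv₀, hfixTr (θ₀ * a) hθaL i]
  have htL : t ∈ L := hTrL (θ₀ * a) hθaL
  refine ⟨θ₀ * a * t⁻¹, L.mul_mem hθaL (L.inv_mem htL), ?_, fun z hzL hz1 => ?_⟩
  · rw [hpull' _ _ htfix, ← ht, mul_inv_cancel₀ ht0]
  · have e : θ₀ * a * t⁻¹ * z = θ₀ * (a * z) * t⁻¹ := by ring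
    rw [e, hpull' _ _ htfix, map_mul, map_inv₀, htu, inv_one, mul_one]
    refine hθ₀c (a * z) (L.mul_mem haL hzL) ?_
    rw [map_mul]
    calc v a * v z ≤ 1 * v z := mul_le_mul_left ha1 _
      _ = v z := one_mul _
      _ < 1 := hz1

end ContractiveTrace

end Fermat.Agent.T8.helper57
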