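import Fermat.Agent.T8.helper57_KRatAbs
import Fermat.Agent.T8.helper22_CoverValVG
import Fermat.Agent.S05.helper92_Inertia
import Fermat.Agent.T3.helper84_K0Zeta

/-!
# T8 [K-RAT] (helper57): the contractive trace weight `θ` for `I_K1 = muFix p ⊓ I_A`

Instance of `helper57.exists_contractive_trace` (`helper57_KRatAbs.lean`):

* `fixSub H E0`       : the subfield of `ℚ̄` fixed by `H₀ = {σ ∈ H | σ = id on E0}`;
* `exists_perm`       : every `τ ∈ H` permutes a system `g : I → H` of representatives of the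
                        restrictions of `H` to `E0`, compatibly with the action on `fixSub H E0`;
* `thetaStatement57`  : **(KR1), instance**: the body of `helper29.ThetaStatement A (muFix p ⊓ IA A)`
                        (finding #3878), VERBATIM: for every system of representatives `g` there
                        is `θ` fixed by `H₀` with `∑ i, g i θ = 1`, `∑ i, g i (θ x) ∈ A` for the
                        `H₀`-fixed `x ∈ A`, and `v (∑ i, g i (θ x)) < 1` for the `H₀`-fixed `x`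
                        with `v x < 1`.

Inputs on main: `S05.helper92.valuation_apply_of_mem_inertiaSubgroupIn`,
`helper22.val_fixed_muFix` (T3 `k0_disc_zeta`), `T3.helper84.k0_zeta_val_lt`.  No residue field
statement, no tameness.
-/

set_option autoImplicit false
set_option linter.unusedSectionVars false
set_option linter.unusedVariables false
set_option linter.style.longLine false
set_option linter.style.haveILetI false

noncomputable section

namespace Fermat.Agent.T8.helper57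

open Fermat.Agent.S18.helper19
open Fermat.Agent.T8.helper65 (muFix IA)

/-- the subfield of the elements fixed by `H₀ = {σ ∈ H | σ = id on E0}` -/
def fixSub (H : Subgroup (Kb ≃ₐ[ℚ] Kb)) (E0 : IntermediateField ℚ Kb) : Subfield Kb where
  carrier := {x | ∀ σ ∈ H, (∀ e ∈ E0, σ e = e) → σ x = x}
  mul_mem' := fun {a b} ha hb σ hσ h => by rw [map_mul, ha σ hσ h, hb σ hσ h]
  one_mem' := fun σ _ _ => map_one σ
  add_mem' := fun {a b} ha hb σ hσ h => by rw [map_add, ha σ hσ h, hb σ hσ h]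
  zero_mem' := fun σ _ _ => map_zero σ
  neg_mem' := fun {a} ha σ hσ h => by rw [map_neg, ha σ hσ h]
  inv_mem' := fun a ha σ hσ h => by rw [map_inv₀, ha σ hσ h]

theorem mem_fixSub {H : Subgroup (Kb ≃ₐ[ℚ] Kb)} {E0 : IntermediateField ℚ Kb} {x : Kb} :
    x ∈ fixSub H E0 ↔ ∀ σ ∈ H, (∀ e ∈ E0, σ e = e) → σ x = x := Iff.rfl

theorem mem_fixSub_of_fixed {H : Subgroup (Kb ≃ₐ[ℚ] Kb)} {E0 : IntermediateField ℚ Kb} {x : Kb}
    (h : ∀ σ ∈ H, σ x = x) : x ∈ fixSub H E0 := fun σ hσ _ => h σ hσ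

section Perm

variable {H : Subgroup (Kb ≃ₐ[ℚ] Kb)} {E0 : IntermediateField ℚ Kb}
  {I : Type} [Fintype I] {g : I → (Kb ≃ₐ[ℚ] Kb)}

/-- every `τ ∈ H` permutes the representatives -/
theorem exists_perm (hH : ∀ i, g i ∈ H)
    (huniq : ∀ σ ∈ H, ∃! i, ∀ e ∈ E0, σ e = g i e) {τ : Kb ≃ₐ[ℚ] Kb} (hτ : τ ∈ H) :
    ∃ π : I → I, Function.Bijective π ∧ ∀ i, ∀ x ∈ fixSub H E0, τ (g i x) = g (π i) x := by
  classical
  have hex : ∀ i, ∃ j, ∀ e ∈ E0, (τ * g i) e = g j e := fun i =>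
    (huniq (τ * g i) (H.mul_mem hτ (hH i))).exists
  choose π hπ using hex
  have hinj : Function.Injective π := by
    intro i i' hii
    have h1 : ∀ e ∈ E0, g i e = g i' e := by
      intro e he
      have a1 := hπ i e he
      have a2 := hπ i' e he
      rw [hii] at a1
      have a3 : τ (g i e) = τ (g i' e) := by
        have b1 : (τ * g i) e = τ (g i e) := rfl
        have b2 : (τ * g i') e = τ (g i' e) := rfl
        rw [← b1, ← b2, a1, a2]
      exact τ.injective a3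
    obtain ⟨k, -, hk⟩ := huniq (g i) (hH i)
    have e1 := hk i (fun e _ => rfl)
    have e2 := hk i' h1
    rw [e1, e2]
  refine ⟨π, Finite.injective_iff_bijective.1 hinj, fun i x hx => ?_⟩
  set ρ : Kb ≃ₐ[ℚ] Kb := (g (π i))⁻¹ * (τ * g i) with hρ
  have hρH : ρ ∈ H := H.mul_mem (H.inv_mem (hH (π i))) (H.mul_mem hτ (hH i))
  have hρE : ∀ e ∈ E0, ρ e = e := by
    intro e he
    have a1 := hπ i e he
    show (g (π i))⁻¹ ((τ * g i) e) = e
    rw [a1]
    exact (g (π i)).symm_apply_apply e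
  have h2 := hx ρ hρH hρE
  have h3 : g (π i) (ρ x) = τ (g i x) := by
    show g (π i) ((g (π i))⁻¹ ((τ * g i) x)) = τ (g i x)
    rw [show (g (π i))⁻¹ ((τ * g i) x) = (g (π i)).symm ((τ * g i) x) from rfl,
      (g (π i)).apply_symm_apply]
    rfl
  rw [← h3, h2]

/-- the trace of an `H₀`-fixed element is `H`-fixed -/
theorem sum_fixed (hH : ∀ i, g i ∈ H)
    (huniq : ∀ σ ∈ H, ∃! i, ∀ e ∈ E0, σ e = g i e) {x : Kb} (hx : x ∈ fixSub H E0)
    {τ : Kb ≃ₐ[ℚ] Kb} (hτ : τ ∈ H) : τ (∑ i, g i x) = ∑ i, g i x := by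
  obtain ⟨π, hπ, hπx⟩ := exists_perm hH huniq hτ
  rw [map_sum]
  rw [← hπ.sum_comp (fun j => g j x)]
  exact Finset.sum_congr rfl fun i _ => hπx i x hx

/-- the norm of an `H₀`-fixed element is `H`-fixed -/
theorem prod_fixed (hH : ∀ i, g i ∈ H)
    (huniq : ∀ σ ∈ H, ∃! i, ∀ e ∈ E0, σ e = g i e) {x : Kb} (hx : x ∈ fixSub H E0)
    {τ : Kb ≃ₐ[ℚ] Kb} (hτ : τ ∈ H) : τ (∏ i, g i x) = ∏ i, g i x := by
  obtain ⟨π, hπ, hπx⟩ := exists_perm hH huniq hτ
  rw [map_prod]
  rw [← hπ.prod_comp (fun j => g j x)]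
  exact Finset.prod_congr rfl fun i _ => hπx i x hx

end Perm

/-- **(KR1), instance**: the contractive trace weight for `I_K1 = muFix p ⊓ I_A`
(the body of `helper29.ThetaStatement A (muFix p ⊓ IA A)`, verbatim). -/
theorem thetaStatement57 {p : ℕ} (hp : p.Prime) (A : ValuationSubring Kb)
    (hA : A.LiesOverPrime p) :
    ∀ (E0 : IntermediateField ℚ Kb), FiniteDimensional ℚ E0 →
      ∀ (I : Type) [Fintype I] (g : I → (Kb ≃ₐ[ℚ] Kb)),
      (∀ i, g i ∈ muFix p ⊓ IA A) →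
      (∀ σ ∈ muFix p ⊓ IA A, ∃! i, ∀ e ∈ E0, σ e = g i e) →
      ∃ θ : Kb, (∀ σ ∈ muFix p ⊓ IA A, (∀ e ∈ E0, σ e = e) → σ θ = θ) ∧
        (∑ i, g i θ) = 1 ∧
        (∀ x ∈ A, (∀ σ ∈ muFix p ⊓ IA A, (∀ e ∈ E0, σ e = e) → σ x = x) →
          (∑ i, g i (θ * x)) ∈ A) ∧
        (∀ x, A.valuation x < 1 →
          (∀ σ ∈ muFix p ⊓ IA A, (∀ e ∈ E0, σ e = e) → σ x = x) →
          A.valuation (∑ i, g i (θ * x)) < 1) := by
  classical
  intro E0 _ I _ g hH huniq
  haveI : Fact p.Prime := ⟨hp⟩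
  haveI : NeZero (p : Kb) := ⟨by exact_mod_cast hp.ne_zero⟩
  haveI : Algebra.IsAlgebraic ℚ Kb := AlgebraicClosure.isAlgebraic ℚ
  obtain ⟨ζ, hζ⟩ := HasEnoughRootsOfUnity.exists_primitiveRoot Kb p
  set H : Subgroup (Kb ≃ₐ[ℚ] Kb) := muFix p ⊓ IA A with hHdef
  set lam : Kb := 1 - ζ with hlam
  set L : Subfield Kb := fixSub H E0 with hL
  -- `lam` is fixed by `H`
  have hζfix : ∀ σ ∈ H, σ ζ = ζ := fun σ hσ =>
    (Fermat.Agent.T8.helper65.mem_muFix_iff hζ).1 (Subgroup.mem_inf.1 hσ).1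
  have hlamfix : ∀ σ ∈ H, σ lam = lam := by
    intro σ hσ
    rw [hlam, map_sub, map_one, hζfix σ hσ]
  have hlam0 : lam ≠ 0 := by
    intro h0
    have h1 : ζ = 1 := (sub_eq_zero.1 h0).symm
    exact hζ.ne_one hp.one_lt h1
  have hlam1 : A.valuation lam < 1 := Fermat.Agent.T3.helper84.k0_zeta_val_lt hp A hA hζ
  -- the valuation is invariant
  have hval : ∀ σ ∈ H, ∀ x : Kb, A.valuation (σ x) = A.valuation x := fun σ hσ x =>
    Fermat.Agent.S05.helper92.valuation_apply_of_mem_inertiaSubgroupIn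
      (Subgroup.mem_inf.1 hσ).2 x
  -- the index type is not empty
  have hI : Nonempty I := by
    obtain ⟨i, -⟩ := (huniq 1 H.one_mem).exists
    exact ⟨i⟩
  have hn : ((Fintype.card I : ℕ) : Kb) ≠ 0 := by
    have : Fintype.card I ≠ 0 := Fintype.card_ne_zero
    exact_mod_cast this
  -- the family of ring homomorphisms
  set gR : I → Kb →+* Kb := fun i => ((g i : Kb ≃ₐ[ℚ] Kb) : Kb →+* Kb) with hgR
  have hcoe : ∀ i x, gR i x = g i x := fun _ _ => rfl
  have hdisc : ∀ y : Kb, y ≠ 0 → (∀ σ ∈ H, σ y = y) →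
      ∃ m : ℤ, A.valuation y = A.valuation lam ^ m := by
    intro y hy hfix
    obtain ⟨m, hm⟩ := Fermat.Agent.T8.helper22.val_fixed_muFix hp hA hζ y hy hfix
    exact ⟨m, by rw [hm, map_zpow₀]⟩
  have hTrfix : ∀ x ∈ L, ∀ σ ∈ H, σ (∑ j, gR j x) = ∑ j, gR j x := fun x hx σ hσ =>
    sum_fixed hH huniq hx hσ
  obtain ⟨θ, hθL, hθ1, hθc⟩ := exists_contractive_trace A gR L lam hn
    (fun i x _ => hval (g i) (hH i) x)
    (mem_fixSub_of_fixed hlamfix) hlam0 hlam1
    (fun i => hlamfix (g i) (hH i))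
    (fun x hx => mem_fixSub_of_fixed (hTrfix x hx))
    (fun x hx i => hTrfix x hx (g i) (hH i))
    (fun x hx hne => hdisc _ hne (hTrfix x hx))
    (fun x hx hx0 => by
      have hN0 : (∏ i, g i x) ≠ 0 :=
        Finset.prod_ne_zero_iff.2 fun i _ => (map_ne_zero (g i)).2 hx0
      obtain ⟨m, hm⟩ := hdisc _ hN0 (fun σ hσ => prod_fixed hH huniq hx hσ)
      refine ⟨m, ?_⟩
      rw [← hm, map_prod]
      rw [Finset.prod_congr rfl (fun i _ => hval (g i) (hH i) x), Finset.prod_const,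
        Finset.card_univ])
  refine ⟨θ, hθL, hθ1, fun x hxA hxL => ?_, fun x hx1 hxL => hθc x hxL hx1⟩
  -- integrality on `A ∩ L`
  set t : Kb := ∑ i, g i (θ * x) with ht
  by_cases ht0 : t = 0
  · rw [ht0]
    exact A.zero_mem
  have hxL' : x ∈ L := hxL
  have hθxL : θ * x ∈ L := L.mul_mem hθL hxL'
  obtain ⟨m, hm⟩ := hdisc t ht0 (hTrfix (θ * x) hθxL)
  have h1 : A.valuation (lam * x) < 1 := by
    rw [map_mul]
    have hx1 : A.valuation x ≤ 1 := (A.valuation_le_one_iff x).2 hxA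
    calc A.valuation lam * A.valuation x ≤ A.valuation lam * 1 := mul_le_mul_right hx1 _
      _ = A.valuation lam := mul_one _
      _ < 1 := hlam1
  have h2 := hθc (lam * x) (L.mul_mem (mem_fixSub_of_fixed hlamfix) hxL') h1
  have e : (∑ i, gR i (θ * (lam * x))) = lam * t := by
    rw [ht, Finset.mul_sum]
    refine Finset.sum_congr rfl fun i _ => ?_
    rw [hcoe, show θ * (lam * x) = lam * (θ * x) by ring, map_mul, hlamfix (g i) (hH i)]
  rw [e, map_mul, hm] at h2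
  have hγ0 : A.valuation lam ≠ 0 := (Valuation.ne_zero_iff _).2 hlam0
  rw [← zpow_one_add₀ hγ0] at h2
  have h3 : 0 < 1 + m := (zpow_lt_one_iff_right_of_lt_one₀ (zero_lt_iff.2 hγ0) hlam1).1 h2
  have h4 : (0 : ℤ) ≤ m := by omega
  refine (A.valuation_le_one_iff t).1 ?_
  rw [hm]
  calc A.valuation lam ^ m ≤ A.valuation lam ^ (0 : ℤ) :=
        (zpow_le_zpow_iff_right_of_lt_one₀ (zero_lt_iff.2 hγ0) hlam1).2 h4
    _ = 1 := zpow_zero _

end Fermat.Agent.T8.helper57

end
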