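import Fermat.Agent.T3.helper81_CuspNApi
import Fermat.Agent.P2.helper28_CuspBar

/-!
# T8 [CUSP-GAP], route Q, leaf (L4) [CUSP-DICT-p] (helper59): the cusp dictionary in
characteristic `ℓ`, in the vocabulary of `T3.helper81` (`IXN`, `ECb`)

`A` a valuation subring of `ℚ̄` over the prime `ℓ`, `N` ANY level with `ℓ ∤ N` (no good-level
hypothesis).  Source: `P2.helper28.cusp_dictionary_A` (= `helper28.cusp_dictionary` at `S = SA A`).

* `exists_cuspDictP` : the family `W : IXN N → Place (kA A) (FFb A N)`, `d : IXN N → ℕ`: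
  the `W i` are exactly the poles of `j̄`, `W i = W j` iff same `T`-orbit,
  `d i * (size of the orbit) = N`, and `ord_t (ECb i f) = d i * ord_{W i} f`;
* `cuspDictP`        : **(L4)** for every place `Q` of `FFb A N` with `Q.ord (jBar A N) < 0` there
  are `i : IXN N` and `d`, `0 < d`, `d ∣ N`, with `(ECb N A hA hℓN i f).order = d * Q.ord f` for
  all `f ≠ 0`;
* `cuspDictP_coprime`: the same with `Nat.Coprime d ℓ` added;
* `dvd_ord_of_dvd_order` : consumer form: `(ℓ : ℤ) ∣ (ECb i f).order` ⟹ `(ℓ : ℤ) ∣ Q.ord f`.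
-/

set_option autoImplicit false
set_option linter.style.haveILetI false
set_option linter.unusedSectionVars false
set_option linter.unusedVariables false
set_option linter.style.longLine false
set_option synthInstance.maxHeartbeats 400000

open ModularCurve

noncomputable section

namespace Fermat.Agent.T8.helper59

open Fermat.Agent.S24 Fermat.Agent.S28 Fermat.Agent.P2
open AlgebraicCurve Fermat.Agent.S18.helper19 Fermat.Agent.P2.helper29
open Fermat.Agent.T3.helper81

section Dict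

variable (N : ℕ) [NeZero N] (A : ValuationSubring Kb) {ℓ : ℕ} [Fact ℓ.Prime]
  (hA : A.LiesOverPrime ℓ) (hℓN : ¬ ℓ ∣ N)

/-- **the cusp dictionary in characteristic `ℓ`** (family form, `T3.helper81` vocabulary) -/
theorem exists_cuspDictP :
    ∃ (W : IXN N → Place (kA A) (FFb A N)) (d : IXN N → ℕ),
      (∀ i, (W i).ord (jBar A N) < 0) ∧
      (∀ w : Place (kA A) (FFb A N), w.ord (jBar A N) < 0 → ∃ i, W i = w) ∧
      (∀ i j, W i = W j ↔ j ∈ MulAction.orbit (Subgroup.zpowers (permN N)) i) ∧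
      (∀ i, d i * Nat.card (MulAction.orbit (Subgroup.zpowers (permN N)) i) = N) ∧
      (∀ i (f : FFb A N), f ≠ 0 → (ECb N A hA hℓN i f).order = (d i : ℤ) * (W i).ord f) := by
  obtain ⟨W, d, h1, h2, h3, -, h5, h6, -, -⟩ :=
    helper28.cusp_dictionary_A (M := N) (A := A) (Fact.out : ℓ.Prime) hA hℓN
  refine ⟨W, d, h1, h2, h3, h5, fun i f hf => ?_⟩
  have hne : ECb N A hA hℓN i f ≠ 0 := by
    intro h0
    exact hf ((ECb_injective N A hA hℓN i) (h0.trans (map_zero _).symm))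
  have h9 := h6 i f hf
  have h9' : (Valued.v (ECb N A hA hℓN i f) : WithZero (Multiplicative ℤ)) =
      WithZero.exp (-((d i : ℤ) * (W i).ord f)) := h9
  rw [Fermat.Agent.S24.helper80.laurent_valuation_eq_exp_neg_order hne] at h9'
  have h10 := WithZero.exp_injective h9'
  omega

/-- **(L4) [CUSP-DICT-p]**: every pole `Q` of `j̄` on the special fibre of level `N` is seen by a
coset expansion `ECb i`, with `ord_t (ECb i f) = d * ord_Q f`, `0 < d`, `d ∣ N`. -/
theorem cuspDictP (Q : Place (kA A) (FFb A N)) (hQ : Q.ord (jBar A N) < 0) :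
    ∃ (i : IXN N) (d : ℕ), 0 < d ∧ d ∣ N ∧
      ∀ f : FFb A N, f ≠ 0 → (ECb N A hA hℓN i f).order = (d : ℤ) * Q.ord f := by
  obtain ⟨W, d, -, h2, -, h4, h5⟩ := exists_cuspDictP N A hA hℓN
  obtain ⟨i, rfl⟩ := h2 Q hQ
  refine ⟨i, d i, ?_, ⟨_, (h4 i).symm⟩, h5 i⟩
  rcases Nat.eq_zero_or_pos (d i) with h0 | h0
  · exfalso
    have := h4 i
    rw [h0, zero_mul] at this
    exact NeZero.ne N this.symm
  · exact h0

/-- (L4) with coprimality: `d` is prime to `ℓ`. -/
theorem cuspDictP_coprime (Q : Place (kA A) (FFb A N)) (hQ : Q.ord (jBar A N) < 0) :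
    ∃ (i : IXN N) (d : ℕ), 0 < d ∧ d ∣ N ∧ Nat.Coprime d ℓ ∧
      ∀ f : FFb A N, f ≠ 0 → (ECb N A hA hℓN i f).order = (d : ℤ) * Q.ord f := by
  obtain ⟨i, d, hd0, hdN, h⟩ := cuspDictP N A hA hℓN Q hQ
  refine ⟨i, d, hd0, hdN, ?_, h⟩
  have hℓ : ℓ.Prime := Fact.out
  rw [Nat.coprime_comm]
  exact (Nat.Prime.coprime_iff_not_dvd hℓ).mpr (fun hℓd => hℓN (hℓd.trans hdN))

/-- consumer form of (L4): divisibility of the order of the expansion by `ℓ` descends to the
place. -/
theorem dvd_ord_of_dvd_order {i : IXN N} {d : ℕ} (hd : Nat.Coprime d ℓ)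
    {Q : Place (kA A) (FFb A N)} {f : FFb A N}
    (h : (ECb N A hA hℓN i f).order = (d : ℤ) * Q.ord f)
    (hdvd : (ℓ : ℤ) ∣ (ECb N A hA hℓN i f).order) : (ℓ : ℤ) ∣ Q.ord f := by
  rw [h] at hdvd
  have hcop : IsCoprime (ℓ : ℤ) (d : ℤ) := by
    rw [Nat.isCoprime_iff_coprime]
    exact hd.symm
  exact hcop.dvd_of_dvd_mul_left hdvd

end Dict

end Fermat.Agent.T8.helper59
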