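import Fermat.Agent.T8.helper29_ConclFix
import Fermat.Agent.T8.helper29_CovPtOrd
import Fermat.Agent.T8.helper23_CovPtWire2
import Fermat.Agent.T8.helper4_YCaseInst
import Fermat.Agent.T8.helper65_CovOrd
import Fermat.Agent.T8.helper97_SheetsRingX
import Fermat.Agent.T8.helper97_SheetsGen
import Fermat.Agent.T8.helper6_SheetsLocal
import Fermat.Agent.T8.helper22_SheetFFb
import Fermat.Agent.T8.helper16_RingXSheet1

/-!
# T8 = row 38 via S44, [SLOPE-X'] : THE COVER INSTANCE (helper5, twin of the owner)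

`covPtFix5 : helper29.CovPtFix` : at every finite point `Q` of the special fibre the local ring
of the cover at an etale point over `Q` satisfies the point contract `helper9.CovPt`.

Setting: `R = locX Q`, `t = helper97.tGen D ζ` the tame trace, `S = R[t] ⊆ Cov`,
`f = f₀.map (locXIncl Q)` the Artin - Schreier shaped polynomial of `helper97.exists_sheets_poly`,
`a` a lift to `R` of the reduction of `t` on the sheet `(1, 0)` (`helper16.exists_redL_eq_of_root`),
`T₀ = S_M` with `M = ptIdeal t a`.  The contract is `helper23.covPtHom_locX` (= `helper9.covPtHom_loc`)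
with the first sheet `helper9.Sheet1` built from the `redL` API of `helper16`, the second sheet from
`helper4.yCase_locX`, and the order function of `helper65_CovOrd`.
-/

set_option autoImplicit false
set_option synthInstance.maxHeartbeats 400000
set_option maxHeartbeats 8000000
set_option linter.unusedSectionVars false
set_option linter.unusedVariables false
set_option linter.style.longLine false
set_option linter.style.haveILetI false

noncomputable section

open HahnSeries IntermediateField AlgebraicCurve ModularCurve Polynomial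
open Fermat.Agent.S18.helper19 Fermat.Agent.P2.helper29 Fermat.Agent.P2.helper93
open Fermat.Agent.T2.helper36

namespace Fermat.Agent.T8.helper5

open Fermat.Agent.P2.helper66 (iota)
open Fermat.Agent.T3.helper16 (IsUnit0)
open Fermat.Agent.T3.helper36 (RhoQ rhoQ_incl)
open Fermat.Agent.T3.helper98 (IsRegJ)
open Fermat.Agent.T8.helper16 (ringX locX locXIncl redL ordAt IsFinitePt xxX yyX red1X)
open Fermat.Agent.T8.helper33 (IsMonogenic ptIdeal)
open Fermat.Agent.T8.helper88 (CovData Cov)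
open Fermat.Agent.T8.helper86 (IsKummerRoot)
open Fermat.Agent.T8.helper65 (muFix IA cwAct)
open Fermat.Agent.T8.helper97 (tGen)
open Fermat.Agent.T8.helper9 (Sheet1 CovPtHom)

section Abs

variable {A : ValuationSubring Kb}
variable {F' : Type*} [Field F']
variable {R : Type*} [CommRing R]
variable {S : Type*} [CommRing S] [Algebra R S]

/-- the reduction of `g(t)` on a sheet is `ḡ(z)` if `R` reduces by `ρR` and `t` to `z` -/
theorem rhoQ_aeval_inst5 (s : F' →+* LaurentSeries Kb) (jS : S →+* F')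
    (ρR : R →+* LaurentSeries (kA A)) (t : S) (z : LaurentSeries (kA A))
    (hρ : ∀ r : R, RhoQ A (s (jS (algebraMap R S r))) (ρR r))
    (hz : RhoQ A (s (jS t)) z) (g : R[X]) :
    RhoQ A (s (jS (aeval t g))) ((g.map ρR).eval z) := by
  induction g using Polynomial.induction_on' with
  | add g₁ g₂ h₁ h₂ =>
    rw [map_add, map_add, map_add, Polynomial.map_add, eval_add]
    exact h₁.add h₂
  | monomial n r =>
    rw [aeval_monomial, map_mul, map_mul, map_pow, map_pow, Polynomial.map_monomial,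
      eval_monomial]
    exact (hρ r).mul (hz.pow n)

end Abs

section Inst

variable {N p : ℕ} [NeZero N] [NeZero p] {A : ValuationSubring Kb} {hp : p.Prime}
  {hpN : ¬ p ∣ N} {b0 : FF (N * p)} {B : PowerSeries ℤ} {ε : ℤ}

/-- the sheets `(1, i)` on the base field -/
theorem sh1_algebraMap_inst5 (D : CovData (N * p) (atkinLehner N p hp hpN) A p)
    (hKum : IsKummerRoot p D.K D.Z) (ζ : Kb) (hζp : ζ ^ p = 1) (i : ℕ) (x : FF (N * p)) :
    Fermat.Agent.T8.helper29.sh1 D hKum ζ hζp i (algebraMap (FF (N * p)) (Cov (N * p) D.Z) x) =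
      (x : LaurentSeries Kb) := by
  rw [Fermat.Agent.T8.helper29.sh1_apply, AlgEquiv.commutes]
  rfl

/-- **the point contract on one cover** -/
theorem covPtStatement_inst5 (hU : IsUnit0 hp hpN b0 B ε) (hA : A.LiesOverPrime p)
    (hN : 4 ∣ N ∨ 9 ∣ N)
    (D : CovData (N * p) (atkinLehner N p hp hpN) A p) (hKum : IsKummerRoot p D.K D.Z)
    (ζ : Kb) (hζp : ζ ^ p = 1) (hζ : IsPrimitiveRoot ζ p) (hp3 : 3 ≤ p)
    (hreg : IsRegJ (N * p) D.K) (hnew : Fermat.Agent.T7.helper27.IsNewN N p D.K)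
    (hr1 : red A D.Z₁ = 1) (hr2 : red A D.Z₂ = 1)
    (hfix1 : ∀ σ ∈ muFix p ⊓ IA A, cwAct σ (incl A D.Z₁) = incl A D.Z₁)
    (hfix2 : ∀ σ ∈ muFix p ⊓ IA A, cwAct σ (incl A D.Z₂) = incl A D.Z₂)
    (ν : FFb A N) (hν : Fermat.Agent.T8.helper54.IsRed1 A N p b0 ν) :
    Fermat.Agent.T8.helper29.CovPtStatement D hKum ζ hζp ν := by
  classical
  intro Q hQ
  haveI : Fact p.Prime := ⟨hp⟩
  haveI := Fermat.Agent.T8.helper65.finiteIndex_muFix A hA
  haveI := Fermat.Agent.T8.helper16.isLocalRing_locX (hq := hp) (hqN := hpN) hA Q hQ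
  haveI := Fermat.Agent.T8.helper16.isNoetherianRing_locX (hq := hp) (hqN := hpN) hA Q hQ
  refine ⟨ordAt Q, Fermat.Agent.T8.helper22.sheetOrd_cov₁ N p hp hpN hA D hnew hr1 Q, ?_⟩
  -- the vertical elements
  have hK := Fermat.Agent.T8.helper63.kerRedStatement hU A hA
  set xxR : locX A hp hpN Q := locXIncl Q (xxX hK) with hxxR
  set yR : locX A hp hpN Q := locXIncl Q (yyX hK) with hyR
  have hxx : (xxR : FF (N * p)) = atkinLehner N p hp hpN b0 := rfl
  have hyy : (yR : FF (N * p)) = b0 := rfl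
  have hxxm : xxR ∈ IsLocalRing.maximalIdeal (locX A hp hpN Q) := by
    rw [IsLocalRing.mem_maximalIdeal, mem_nonunits_iff]
    exact Fermat.Agent.T8.helper16.not_isUnit_xx hA hK Q hQ
  obtain ⟨hxd, hxp⟩ := Fermat.Agent.T8.helper16.dvr_quot_xx hU hA hN Q hQ xxR hxx
  haveI := hxd
  haveI := hxp
  -- the polynomial and the sheet models
  obtain ⟨f0, c₁, c₂, hf0⟩ :=
    Fermat.Agent.T8.helper97.exists_sheets_poly D hKum ζ hζ hp3 hA hreg hfix1 hfix2 hr1 hr2
  obtain ⟨T₁, T₂, h1, h2, h1', h2'⟩ :=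
    Fermat.Agent.T8.helper97.exists_sheet_models D hKum ζ hζ hp3 hA hfix1 hfix2 hr1 hr2
  have hpD : ((p : ℕ) : LaurentSeries (kA A)) = 0 :=
    Fermat.Agent.T8.helper16.redL_natCast_self hA Q hQ
  have hrootX : aeval (tGen D ζ) (f0.map (locXIncl Q)) = 0 := by
    rw [Fermat.Agent.T8.helper6.aeval_map_eq_eval₂]
    exact hf0.eval_tGen
  obtain ⟨hmono, hder, -⟩ := Fermat.Agent.T8.helper6.sheets_local
    (K := FF (N * p)) (L := Cov (N * p) D.Z)
    (locXIncl Q) (redL hA Q hQ) (red1X A hp hpN)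
    (fun r => Fermat.Agent.T8.helper16.redL_incl hA Q hQ r)
    (fun x y h => Subtype.ext h) (tGen D ζ) f0 p hf0.monic hf0.natDegree hrootX
    (Fermat.Agent.T8.helper97.le_natDegree_minpoly_tGen D hKum ζ hζ hp3 hA hfix1 hfix2 hr1 hr2)
    hpD hf0.red1_one (fun i hi hip => hf0.red1_mid hi hip)
  -- the ring `S = R[t]`
  set tS : Algebra.adjoin (locX A hp hpN Q) {tGen D ζ} :=
    ⟨tGen D ζ, Algebra.self_mem_adjoin_singleton _ _⟩ with htS
  set f : (locX A hp hpN Q)[X] := f0.map (locXIncl Q) with hf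
  set jS : Algebra.adjoin (locX A hp hpN Q) {tGen D ζ} →+* Cov (N * p) D.Z :=
    (Algebra.adjoin (locX A hp hpN Q) {tGen D ζ}).val.toRingHom with hjSdef
  have hjS : Function.Injective jS := Subtype.val_injective
  have hjR : ∀ r : locX A hp hpN Q, jS (algebraMap (locX A hp hpN Q) _ r) =
      algebraMap (FF (N * p)) (Cov (N * p) D.Z) (r : FF (N * p)) := fun r => rfl
  have hjt : jS tS = tGen D ζ := rfl
  have hfm : f.Monic := hf0.monic.map _
  have hfd : f.natDegree = p := (hf0.monic.natDegree_map _).trans hf0.natDegree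
  -- the first sheet
  set s₁ := Fermat.Agent.T8.helper29.sh1 D hKum ζ hζp 0 with hs₁
  have hρ : ∀ r : locX A hp hpN Q,
      RhoQ A (s₁ (jS (algebraMap (locX A hp hpN Q) _ r))) (redL hA Q hQ r) := by
    intro r
    rw [hjR, hs₁, sh1_algebraMap_inst5]
    exact Fermat.Agent.T8.helper16.rhoQ_redL hA Q hQ r
  have hs₁t : s₁ (jS tS) = incl A (T₁ 0) := by
    rw [hjt, h1 0]
    rfl
  have hz : RhoQ A (s₁ (jS tS)) (red A (T₁ 0)) := by
    rw [hs₁t]
    exact rhoQ_incl (T₁ 0)
  have hzF : red A (T₁ 0) ∈ FFb A N := by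
    refine Fermat.Agent.T8.helper22.sheet_red_mem_FFb N p hp hpN A hA hnew D.Z₁ D.h1 hr1 ?_
    rw [h1 0, Fermat.Agent.T8.helper97.sh1_zero]
    exact (tGen D ζ).2
  have hroot : (f.map (redL hA Q hQ)).eval (red A (T₁ 0)) = 0 := by
    have := rhoQ_aeval_inst5 s₁ jS (redL hA Q hQ) tS (red A (T₁ 0)) hρ hz f
    rw [hmono.root, map_zero, map_zero] at this
    exact this.eq_zero
  obtain ⟨a, ha0⟩ :=
    Fermat.Agent.T8.helper16.exists_redL_eq_of_root hA hN Q hQ f hfm hzF hroot
  have ha : f.eval a ∈ IsLocalRing.maximalIdeal (locX A hp hpN Q) := by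
    have h0 : redL hA Q hQ (f.eval a) = 0 := by
      rw [← Polynomial.eval_map_apply, ha0]
      exact hroot
    obtain ⟨c, hc⟩ := Fermat.Agent.T8.helper16.dvd_of_redL_eq_zero hU hA Q hQ xxR hxx h0
    rw [hc]
    exact Ideal.mul_mem_right _ _ hxxm
  have ha' := hder a
  -- the local ring of the cover at the point
  haveI hP : (ptIdeal tS a).IsPrime := (hmono.ptIdeal_isMaximal a ha).isPrime
  have hj0 : ∀ x : Algebra.adjoin (locX A hp hpN Q) {tGen D ζ}, x ∉ ptIdeal tS a →
      jS x ≠ 0 := by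
    intro x hx h0
    apply hx
    have : x = 0 := hjS (h0.trans (map_zero jS).symm)
    rw [this]
    exact Ideal.zero_mem _
  have hjunit : ∀ m : (ptIdeal tS a).primeCompl, IsUnit (jS (m : _)) :=
    fun m => IsUnit.mk0 _ (hj0 m m.2)
  obtain ⟨ι, hι⟩ : ∃ ι : Localization.AtPrime (ptIdeal tS a) →+* Cov (N * p) D.Z,
      ∀ x, ι (algebraMap _ (Localization.AtPrime (ptIdeal tS a)) x) = jS x :=
    ⟨IsLocalization.lift hjunit, fun x => IsLocalization.lift_eq hjunit x⟩
  -- the first sheet at the point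
  have H : Sheet1 (A := A) s₁ jS tS a xxR (Fermat.Agent.T8.helper65.covFb A N) (ordAt Q)
      (redL hA Q hQ) :=
    { rho := hρ
      mem := fun r => Fermat.Agent.T8.helper16.redL_mem_FFb hA Q hQ r
      nonneg := fun r => Fermat.Agent.T8.helper16.ordAt_redL_nonneg hA Q hQ r
      unit := fun r hr => Fermat.Agent.T8.helper16.ordAt_redL_of_isUnit hA Q hQ hr
      ker := fun r hr => Fermat.Agent.T8.helper16.dvd_of_redL_eq_zero hU hA Q hQ xxR hxx hr
      xx := Fermat.Agent.T8.helper16.redL_xx hU hA Q hQ xxR hxx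
      gen := by rw [ha0]; exact hz }
  -- the second sheet at the point
  obtain ⟨j, hj, hy⟩ := Fermat.Agent.T8.helper4.yCase_locX D hKum ζ hζp
    (Localization.AtPrime (ptIdeal tS a)) hU hA hN hQ hζ hp3 hfix1 hfix2 hr1 hr2 jS hjR hjt
    hmono hfd ha ha' ι hι yR hyy
  -- the contract
  have hpt := Fermat.Agent.T8.helper23.covPtHom_locX D (Localization.AtPrime (ptIdeal tS a))
    hU hA hKum ζ hζ hp3 hfix1 hfix2 hr1 hr2 hxx hyy hmono ha ha' hxxm
    (Fermat.Agent.T8.helper29.sh2 D hKum ζ hζp j) hjS hjR hjt ι hι H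
    (Fermat.Agent.T8.helper65.covOrd_mul Q) (Fermat.Agent.T8.helper65.covOrd_const_mul Q)
    (Fermat.Agent.T8.helper65.redL_yy_ne_zero hU hA Q hQ yR hyy) hy
  exact ⟨0, j, ι.range, _, _, Fermat.Agent.T8.helper65.covFb A N, redL hA Q hQ yR,
    hpt.toCovPt, Fermat.Agent.T8.helper65.ordAt_redL_yy hU hA hν Q hQ yR hyy⟩

/-- **the cover instance: the frontier Prop `helper29.CovPtFix`** -/
theorem covPtFix5 : Fermat.Agent.T8.helper29.CovPtFix := by
  intro P M' _ hpN A hA hdvd hirr b0 B ε hb ν hν D hKum ζ hζp hζ hK hnew hr1 hr2 hf1 hf2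
  haveI : NeZero P.p := ⟨P.pp.ne_zero⟩
  exact covPtStatement_inst5 hb hA (Or.inl (Dvd.intro M' rfl)) D hKum ζ hζp hζ
    (le_trans (by norm_num) P.hp5) (Fermat.Agent.T8.helper29.isRegJ_of_isA0One hK.1) hnew hr1 hr2
    hf1 hf2 ν hν

end Inst

end Fermat.Agent.T8.helper5

end
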