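import Fermat.Agent.T8.helper5_PthPow
import Fermat.Agent.T8.helper48_VertInst

/-!
# T8 [SLOPE] on `X` and on the cover `X'`: the ABSTRACT two-expansion slope theorem (helper5)

`R` a unique factorisation domain (the local ring at a closed point of the special fibre: of
`X`, or of the cover `X'` at an etale point), with two ring homomorphisms
`E₁ E₂ : R →+* ℚ̄((q))` (the expansions along the two components through the point; on the cover:
`sheet_(1,i) ∘ ι`, `sheet_(2,j) ∘ ι`), `xx y : R` the two vertical elements, `A` over `q`.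

`SlopeAbs A q E₁ E₂ xx y Fb ordS ν η` :

* `ordS` is additive on the nonzero elements of the subfield `Fb` of `k((q))`;
* `int1` : the first expansions are Gauss-integral with reductions in `Fb` which are regular at
  the point (`0 ≤ ordS`);   `ker1` : `ker red₁ ⊆ xx R`;
* `x1`, `y1` : `red₁ (xx / q) = η ≠ 0`, `red₁ y = ν ≠ 0`, `ordS η = - ordS ν`;
* `vert` : a prime of `R` dividing an integer `m ≠ 0` divides `xx * y`;
* `ycase` : `y` is a unit of `R` (smooth point) OR the second expansions are Gauss-integral,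
  `ker red₂ ⊆ y R`, `w₂ y = v(q)`, `w₂ xx = 0` (double point).

`SlopeAbs.slopeAt` : for `a, b ∈ R` nonzero, series `U₁`, `U₂` with `U_i * E_i b = E_i a`
(the two expansions of `u = a / b`), congruent multiplicities of `a` and `b` modulo `n` at the
primes of `R` not dividing `xx * y` (the horizontal dictionary), `w₁ u = a₁` with reduction
`r₁` of `u / q^a₁`, `w₂ u = a₂`:

  `r₁ ∈ Fb`  and  `n ∣ ordS r₁ + (a₁ - a₂) * ordS ν`.
-/

set_option autoImplicit false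
set_option synthInstance.maxHeartbeats 400000
set_option maxHeartbeats 1000000
set_option linter.unusedSectionVars false
set_option linter.unusedVariables false
set_option linter.style.haveILetI false
set_option linter.style.longLine false

noncomputable section

open HahnSeries IntermediateField AlgebraicCurve ModularCurve
open Fermat.Agent.S18.helper19 Fermat.Agent.P2.helper29 Fermat.Agent.T2.helper36

namespace Fermat.Agent.T8.helper5

open Fermat.Agent.T3.helper36 (RhoQ GaussIs)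

/-- **the abstract setting of [SLOPE] at one closed point** (for `X` and for the cover). -/
structure SlopeAbs (A : ValuationSubring Kb) (q : ℕ) {R : Type*} [CommRing R]
    (E₁ E₂ : R →+* LaurentSeries Kb) (xx y : R) (Fb : Subfield (LaurentSeries (kA A)))
    (ordS : LaurentSeries (kA A) → ℤ) (ν η : LaurentSeries (kA A)) : Prop where
  /-- the order function is additive on `Fb` -/
  ord_mul : ∀ f ∈ Fb, ∀ g ∈ Fb, f ≠ 0 → g ≠ 0 → ordS (f * g) = ordS f + ordS g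
  /-- Gauss-integral first expansions, reductions in `Fb`, regular at the point -/
  int1 : ∀ r : R, ∃ s : LaurentSeries (kA A), RhoQ A (E₁ r) s ∧ s ∈ Fb ∧ 0 ≤ ordS s
  /-- `ker red₁ ⊆ xx R` -/
  ker1 : ∀ r : R, RhoQ A (E₁ r) 0 → xx ∣ r
  /-- `red₁ (xx / q) = η` -/
  x1 : RhoQ A (algebraMap Kb (LaurentSeries Kb) (q : Kb)⁻¹ * E₁ xx) η
  eta_ne : η ≠ 0
  eta_mem : η ∈ Fb
  ord_eta : ordS η = -ordS ν
  /-- `red₁ y = ν` -/
  y1 : RhoQ A (E₁ y) ν
  nu_ne : ν ≠ 0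
  /-- the vertical primes divide `xx * y` -/
  vert : ∀ π : R, Prime π → ∀ m : ℕ, m ≠ 0 → π ∣ (m : R) → π ∣ xx * y
  /-- smooth point or double point -/
  ycase : IsUnit y ∨
    ((∀ r : R, ∃ s : LaurentSeries (kA A), RhoQ A (E₂ r) s) ∧
      (∀ r : R, RhoQ A (E₂ r) 0 → y ∣ r) ∧
      GaussIs A (E₂ y) (q : Kb) ∧ GaussIs A (E₂ xx) 1)

namespace SlopeAbs

variable {A : ValuationSubring Kb} {q : ℕ} {R : Type*} [CommRing R]
  {E₁ E₂ : R →+* LaurentSeries Kb} {xx y : R} {Fb : Subfield (LaurentSeries (kA A))}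
  {ordS : LaurentSeries (kA A) → ℤ} {ν η : LaurentSeries (kA A)}

/-- the first reduction on `R` -/
def rho (S : SlopeAbs A q E₁ E₂ xx y Fb ordS ν η) (r : R) : LaurentSeries (kA A) :=
  (S.int1 r).choose

section Rho

variable (S : SlopeAbs A q E₁ E₂ xx y Fb ordS ν η)

theorem rho_spec (r : R) : RhoQ A (E₁ r) (S.rho r) := (S.int1 r).choose_spec.1

theorem rho_mem (r : R) : S.rho r ∈ Fb := (S.int1 r).choose_spec.2.1

theorem rho_nonneg (r : R) : 0 ≤ ordS (S.rho r) := (S.int1 r).choose_spec.2.2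

theorem rho_eq {r : R} {s : LaurentSeries (kA A)} (h : RhoQ A (E₁ r) s) : S.rho r = s :=
  (S.rho_spec r).unique h

theorem rho_mul (r s : R) : S.rho (r * s) = S.rho r * S.rho s := by
  apply S.rho_eq
  rw [map_mul]
  exact (S.rho_spec r).mul (S.rho_spec s)

theorem rho_one : S.rho 1 = 1 := by
  apply S.rho_eq
  rw [map_one]
  exact Fermat.Agent.T3.helper36.rhoQ_one

include S in
theorem ord_one : ordS 1 = 0 := by
  have := S.ord_mul 1 Fb.one_mem 1 Fb.one_mem one_ne_zero one_ne_zero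
  rw [mul_one] at this
  omega

include S in
theorem ord_pow {f : LaurentSeries (kA A)} (hf : f ∈ Fb) (hf0 : f ≠ 0) (n : ℕ) :
    ordS (f ^ n) = n * ordS f := by
  induction n with
  | zero => simp [S.ord_one]
  | succ n ih =>
    rw [pow_succ, S.ord_mul _ (pow_mem hf n) _ hf (pow_ne_zero _ hf0) hf0, ih]
    push_cast
    ring

/-- the order of the first reduction at the point -/
def phi (r : R) : ℤ := ordS (S.rho r)

theorem phi_mul {r s : R} (hr : S.rho r ≠ 0) (hs : S.rho s ≠ 0) :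
    S.phi (r * s) = S.phi r + S.phi s := by
  unfold phi
  rw [S.rho_mul]
  exact S.ord_mul _ (S.rho_mem r) _ (S.rho_mem s) hr hs

theorem phi_unit (e : Rˣ) : S.phi (e : R) = 0 := by
  have h1 : S.rho (e : R) * S.rho ((e⁻¹ : Rˣ) : R) = 1 := by
    rw [← S.rho_mul, Units.mul_inv, S.rho_one]
  have hr : S.rho (e : R) ≠ 0 := left_ne_zero_of_mul_eq_one h1
  have hs : S.rho ((e⁻¹ : Rˣ) : R) ≠ 0 := right_ne_zero_of_mul_eq_one h1
  have h2 := S.ord_mul _ (S.rho_mem (e : R)) _ (S.rho_mem ((e⁻¹ : Rˣ) : R)) hr hs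
  rw [h1, S.ord_one] at h2
  have h3 := S.rho_nonneg (e : R)
  have h4 := S.rho_nonneg ((e⁻¹ : Rˣ) : R)
  unfold phi
  omega

theorem rho_yy : S.rho y = ν := S.rho_eq S.y1

include S in
theorem nu_mem : ν ∈ Fb := by
  rw [← S.rho_yy]
  exact S.rho_mem y

include S in
theorem yy_ne_zero : y ≠ 0 := by
  rintro rfl
  have h := S.y1
  rw [map_zero] at h
  exact S.nu_ne h.eq_zero

include S in
theorem xx_ne_zero : xx ≠ 0 := by
  rintro rfl
  have h := S.x1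
  rw [map_zero, mul_zero] at h
  exact S.eta_ne h.eq_zero

end Rho

section Unit

variable (S : SlopeAbs A q E₁ E₂ xx y Fb ordS ν η) (hq : q.Prime) (hA : A.LiesOverPrime q)

include S hq hA in
/-- `red₁ xx = 0` -/
theorem rhoQ_xx : RhoQ A (E₁ xx) 0 := by
  have hq0 : (q : Kb) ≠ 0 := Nat.cast_ne_zero.2 hq.ne_zero
  have h1 := (Fermat.Agent.T8.helper48.rhoQ_const_pow_succ hA 0).mul S.x1
  rw [zero_mul, zero_add, pow_one, ← mul_assoc, ← map_mul, mul_inv_cancel₀ hq0, map_one,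
    one_mul] at h1
  exact h1

include hq hA in
theorem rho_xx : S.rho xx = 0 := S.rho_eq (rhoQ_xx S hq hA)

include hq hA in
/-- `red₁ r = 0 ↔ xx ∣ r` -/
theorem rho_eq_zero_iff (r : R) : S.rho r = 0 ↔ xx ∣ r := by
  constructor
  · intro h0
    have hr := S.rho_spec r
    rw [h0] at hr
    exact S.ker1 r hr
  · rintro ⟨c, rfl⟩
    rw [S.rho_mul, rho_xx S hq hA, zero_mul]

include S hq hA in
/-- `xx` is a prime element of `R` -/
theorem prime_xx : Prime xx := by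
  refine ⟨S.xx_ne_zero, ?_, ?_⟩
  · intro hu
    have h1 := (rho_eq_zero_iff S hq hA 1).2 hu.dvd
    rw [S.rho_one] at h1
    exact one_ne_zero h1
  · intro a b hab
    have h1 := (rho_eq_zero_iff S hq hA (a * b)).2 hab
    rw [S.rho_mul] at h1
    rcases mul_eq_zero.1 h1 with h2 | h2
    · exact Or.inl ((rho_eq_zero_iff S hq hA a).1 h2)
    · exact Or.inr ((rho_eq_zero_iff S hq hA b).1 h2)

include S in
/-- the multiplicity of a prime not dividing `xx * y` in `xx^i * y^j * c` -/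
theorem multiplicity_factor [IsDomain R] [UniqueFactorizationMonoid R] {f : R} (hf : Prime f)
    (hfx : ¬ f ∣ xx * y) (i j : ℕ) {c : R} (hc : c ≠ 0) :
    multiplicity f (xx ^ i * y ^ j * c) = multiplicity f c := by
  have hx : ¬ f ∣ xx := fun hd => hfx (hd.mul_right _)
  have hy : ¬ f ∣ y := fun hd => hfx (hd.mul_left _)
  have hxi : xx ^ i ≠ 0 := pow_ne_zero _ S.xx_ne_zero
  have hyj : y ^ j ≠ 0 := pow_ne_zero _ S.yy_ne_zero
  have h1 : multiplicity f (xx ^ i) = 0 :=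
    multiplicity_eq_zero.2 (fun hd => hx (hf.dvd_of_dvd_pow hd))
  have h2 : multiplicity f (y ^ j) = 0 :=
    multiplicity_eq_zero.2 (fun hd => hy (hf.dvd_of_dvd_pow hd))
  rw [multiplicity_mul hf (FiniteMultiplicity.of_prime_left hf
      (mul_ne_zero (mul_ne_zero hxi hyj) hc)),
    multiplicity_mul hf (FiniteMultiplicity.of_prime_left hf (mul_ne_zero hxi hyj)), h1, h2]
  simp

include hq hA in
/-- **the reductions of a factorisation** `u = xx^(α₁-β₁) y^(α₂-β₂) a₂ / b₂`. -/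
theorem red_factor {a2 b2 : R} (ha2 : ¬ xx ∣ a2) (hb2 : ¬ xx ∣ b2) (α₁ β₁ α₂ β₂ : ℕ)
    {U : LaurentSeries Kb}
    (hE : U * E₁ (xx ^ β₁ * y ^ β₂ * b2) = E₁ (xx ^ α₁ * y ^ α₂ * a2))
    {a₁ : ℤ} {r₁ : LaurentSeries (kA A)} (hr₁ : r₁ ≠ 0)
    (h1 : RhoQ A (algebraMap Kb (LaurentSeries Kb) ((q : Kb) ^ a₁)⁻¹ * U) r₁) :
    a₁ = (α₁ : ℤ) - β₁ ∧ r₁ ∈ Fb ∧
      ordS r₁ = -a₁ * ordS ν + ((α₂ : ℤ) - β₂) * ordS ν + S.phi a2 - S.phi b2 := by
  have hq0 : (q : Kb) ≠ 0 := Nat.cast_ne_zero.2 hq.ne_zero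
  set X : LaurentSeries Kb := E₁ xx with hX
  set Y : LaurentSeries Kb := E₁ y with hY
  set A2 : LaurentSeries Kb := E₁ a2 with hA2
  set B2 : LaurentSeries Kb := E₁ b2 with hB2
  have hE' : U * (X ^ β₁ * Y ^ β₂ * B2) = X ^ α₁ * Y ^ α₂ * A2 := by
    simp only [map_mul, map_pow] at hE
    exact hE
  have hρa : S.rho a2 ≠ 0 := fun h0 => ha2 ((rho_eq_zero_iff S hq hA a2).1 h0)
  have hρb : S.rho b2 ≠ 0 := fun h0 => hb2 ((rho_eq_zero_iff S hq hA b2).1 h0)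
  have hν0 : ν ≠ 0 := S.nu_ne
  have hη0 : η ≠ 0 := S.eta_ne
  have rY : RhoQ A Y ν := S.y1
  have rA2 : RhoQ A A2 (S.rho a2) := S.rho_spec a2
  have rB2 : RhoQ A B2 (S.rho b2) := S.rho_spec b2
  have rX : RhoQ A (algebraMap Kb (LaurentSeries Kb) (q : Kb)⁻¹ * X) η := S.x1
  -- Gauss values
  have gX : GaussIs A X (q : Kb) := ⟨hq0, η, hη0, rX⟩
  have gY : GaussIs A Y 1 := Fermat.Agent.T3.helper36.gaussIs_of_rhoQ rY hν0
  have gA2 : GaussIs A A2 1 := Fermat.Agent.T3.helper36.gaussIs_of_rhoQ rA2 hρa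
  have gB2 : GaussIs A B2 1 := Fermat.Agent.T3.helper36.gaussIs_of_rhoQ rB2 hρb
  have gU : GaussIs A U ((q : Kb) ^ a₁) := ⟨zpow_ne_zero _ hq0, r₁, hr₁, h1⟩
  have gL := gU.mul (((gX.pow β₁).mul (gY.pow β₂)).mul gB2)
  have gR := ((gX.pow α₁).mul (gY.pow α₂)).mul gA2
  rw [hE'] at gL
  have c1 : (q : Kb) ^ a₁ * ((q : Kb) ^ β₁ * 1 ^ β₂ * 1) = (q : Kb) ^ (a₁ + (β₁ : ℤ)) := by
    rw [zpow_add₀ hq0, zpow_natCast]
    simp
  have c2 : (q : Kb) ^ α₁ * 1 ^ α₂ * 1 = (q : Kb) ^ ((α₁ : ℕ) : ℤ) := by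
    rw [zpow_natCast]
    simp
  rw [c1] at gL
  rw [c2] at gR
  have hexp : a₁ + (β₁ : ℤ) = (α₁ : ℤ) :=
    Fermat.Agent.T8.helper48.gaussIs_zpow_unique hq hA gL gR
  have ha₁ : a₁ = (α₁ : ℤ) - β₁ := by omega
  -- the reductions
  set T : LaurentSeries Kb :=
    algebraMap Kb (LaurentSeries Kb) ((q : Kb) ^ a₁)⁻¹ * U with hT
  set Xq : LaurentSeries Kb := algebraMap Kb (LaurentSeries Kb) (q : Kb)⁻¹ * X with hXq
  have hconst : algebraMap Kb (LaurentSeries Kb) ((q : Kb) ^ a₁)⁻¹ *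
      (algebraMap Kb (LaurentSeries Kb) (q : Kb)⁻¹) ^ β₁ =
      (algebraMap Kb (LaurentSeries Kb) (q : Kb)⁻¹) ^ α₁ := by
    rw [← map_pow, ← map_pow, ← map_mul]
    congr 1
    have e1 : (q : Kb) ^ a₁ * (q : Kb) ^ β₁ = (q : Kb) ^ α₁ := by
      have := congrArg (fun z : ℤ => (q : Kb) ^ z) hexp
      simp only [zpow_add₀ hq0, zpow_natCast] at this
      exact this
    rw [inv_pow, inv_pow, ← mul_inv, e1]
  have hE2 : T * (Xq ^ β₁ * Y ^ β₂ * B2) = Xq ^ α₁ * Y ^ α₂ * A2 := by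
    rw [hT, hXq, mul_pow, mul_pow]
    calc algebraMap Kb (LaurentSeries Kb) ((q : Kb) ^ a₁)⁻¹ * U *
          ((algebraMap Kb (LaurentSeries Kb) (q : Kb)⁻¹) ^ β₁ * X ^ β₁ * Y ^ β₂ * B2)
        = (algebraMap Kb (LaurentSeries Kb) ((q : Kb) ^ a₁)⁻¹ *
            (algebraMap Kb (LaurentSeries Kb) (q : Kb)⁻¹) ^ β₁) *
            (U * (X ^ β₁ * Y ^ β₂ * B2)) := by ring
      _ = (algebraMap Kb (LaurentSeries Kb) (q : Kb)⁻¹) ^ α₁ * (X ^ α₁ * Y ^ α₂ * A2) := by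
          rw [hconst, hE']
      _ = _ := by ring
  have rL := h1.mul ((((rX.pow β₁).mul (rY.pow β₂))).mul rB2)
  have rR := ((rX.pow α₁).mul (rY.pow α₂)).mul rA2
  rw [hE2] at rL
  have hred : r₁ * (η ^ β₁ * ν ^ β₂ * S.rho b2) = η ^ α₁ * ν ^ α₂ * S.rho a2 := rL.unique rR
  have hνm : ν ∈ Fb := S.nu_mem
  have hηm : η ∈ Fb := S.eta_mem
  have hDm : η ^ β₁ * ν ^ β₂ * S.rho b2 ∈ Fb :=
    Fb.mul_mem (Fb.mul_mem (pow_mem hηm _) (pow_mem hνm _)) (S.rho_mem b2)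
  have hNm : η ^ α₁ * ν ^ α₂ * S.rho a2 ∈ Fb :=
    Fb.mul_mem (Fb.mul_mem (pow_mem hηm _) (pow_mem hνm _)) (S.rho_mem a2)
  have hD0 : η ^ β₁ * ν ^ β₂ * S.rho b2 ≠ 0 :=
    mul_ne_zero (mul_ne_zero (pow_ne_zero _ hη0) (pow_ne_zero _ hν0)) hρb
  have hN0 : η ^ α₁ * ν ^ α₂ * S.rho a2 ≠ 0 :=
    mul_ne_zero (mul_ne_zero (pow_ne_zero _ hη0) (pow_ne_zero _ hν0)) hρa
  have hr₁eq : r₁ = (η ^ α₁ * ν ^ α₂ * S.rho a2) / (η ^ β₁ * ν ^ β₂ * S.rho b2) :=
    eq_div_of_mul_eq hD0 hred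
  have hr₁m : r₁ ∈ Fb := by
    rw [hr₁eq]
    exact Fb.div_mem hNm hDm
  refine ⟨ha₁, hr₁m, ?_⟩
  have o1 := congrArg ordS hred
  have oD : ordS (η ^ β₁ * ν ^ β₂ * S.rho b2) =
      β₁ * ordS η + β₂ * ordS ν + S.phi b2 := by
    rw [S.ord_mul _ (Fb.mul_mem (pow_mem hηm _) (pow_mem hνm _)) _ (S.rho_mem b2)
        (mul_ne_zero (pow_ne_zero _ hη0) (pow_ne_zero _ hν0)) hρb,
      S.ord_mul _ (pow_mem hηm _) _ (pow_mem hνm _) (pow_ne_zero _ hη0) (pow_ne_zero _ hν0),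
      S.ord_pow hηm hη0, S.ord_pow hνm hν0]
    rfl
  have oN : ordS (η ^ α₁ * ν ^ α₂ * S.rho a2) =
      α₁ * ordS η + α₂ * ordS ν + S.phi a2 := by
    rw [S.ord_mul _ (Fb.mul_mem (pow_mem hηm _) (pow_mem hνm _)) _ (S.rho_mem a2)
        (mul_ne_zero (pow_ne_zero _ hη0) (pow_ne_zero _ hν0)) hρa,
      S.ord_mul _ (pow_mem hηm _) _ (pow_mem hνm _) (pow_ne_zero _ hη0) (pow_ne_zero _ hν0),
      S.ord_pow hηm hη0, S.ord_pow hνm hν0]
    rfl
  rw [S.ord_mul _ hr₁m _ hDm hr₁ hD0, oD, oN] at o1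
  have oη : ordS η = -ordS ν := S.ord_eta
  linear_combination o1 + ((α₁ : ℤ) - β₁) * oη + ordS ν * ha₁

end Unit

/-! ### the second component (double points) -/

section Second

variable (S : SlopeAbs A q E₁ E₂ xx y Fb ordS ν η) (hq : q.Prime) (hA : A.LiesOverPrime q)
  (hint2 : ∀ r : R, ∃ s : LaurentSeries (kA A), RhoQ A (E₂ r) s)
  (hker2 : ∀ r : R, RhoQ A (E₂ r) 0 → y ∣ r)
  (hgy : GaussIs A (E₂ y) (q : Kb)) (hgx : GaussIs A (E₂ xx) 1)

include S hq hA hint2 hker2 hgy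

/-- `red₂ r = 0 ↔ y ∣ r` -/
theorem rhoQ2_zero_iff (r : R) : RhoQ A (E₂ r) 0 ↔ y ∣ r := by
  constructor
  · exact hker2 r
  · rintro ⟨c, rfl⟩
    obtain ⟨s, hs⟩ := hint2 c
    have hy0 : RhoQ A (E₂ y) 0 := by
      refine Fermat.Agent.T8.helper48.rhoQ_zero_of_gaussIs_pos hA (m := 1) le_rfl ?_
      rw [zpow_one]
      exact hgy
    have h1 := hy0.mul hs
    rw [zero_mul] at h1
    rw [map_mul]
    exact h1

/-- `y` is a prime element of `R` (double point) -/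
theorem prime_yy : Prime y := by
  refine ⟨S.yy_ne_zero, ?_, ?_⟩
  · intro hu
    have h1 := (rhoQ2_zero_iff S hq hA hint2 hker2 hgy 1).2 hu.dvd
    rw [map_one] at h1
    exact one_ne_zero h1.eq_one.symm
  · intro a b hab
    have h1 := (rhoQ2_zero_iff S hq hA hint2 hker2 hgy (a * b)).2 hab
    obtain ⟨s, hs⟩ := hint2 a
    obtain ⟨t, ht⟩ := hint2 b
    rw [map_mul] at h1
    have h2 := (hs.mul ht).unique h1
    rcases mul_eq_zero.1 h2 with h3 | h3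
    · rw [h3] at hs
      exact Or.inl ((rhoQ2_zero_iff S hq hA hint2 hker2 hgy a).1 hs)
    · rw [h3] at ht
      exact Or.inr ((rhoQ2_zero_iff S hq hA hint2 hker2 hgy b).1 ht)

/-- the Gauss value at the second expansion of an element prime to `y` -/
theorem gaussIs2_of_not_dvd {r : R} (hr : ¬ y ∣ r) : GaussIs A (E₂ r) 1 := by
  obtain ⟨s, hs⟩ := hint2 r
  refine Fermat.Agent.T3.helper36.gaussIs_of_rhoQ hs ?_
  rintro rfl
  exact hr ((rhoQ2_zero_iff S hq hA hint2 hker2 hgy r).1 hs)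

include hgx in
/-- **the second Gauss value of a factorisation**. -/
theorem w2_factor {a2 b2 : R} (ha2 : ¬ y ∣ a2) (hb2 : ¬ y ∣ b2) (α₁ β₁ α₂ β₂ : ℕ)
    {U : LaurentSeries Kb}
    (hE : U * E₂ (xx ^ β₁ * y ^ β₂ * b2) = E₂ (xx ^ α₁ * y ^ α₂ * a2))
    {a₂ : ℤ} (h2 : GaussIs A U ((q : Kb) ^ a₂)) :
    a₂ = (α₂ : ℤ) - β₂ := by
  have hq0 : (q : Kb) ≠ 0 := Nat.cast_ne_zero.2 hq.ne_zero
  set X : LaurentSeries Kb := E₂ xx with hX
  set Y : LaurentSeries Kb := E₂ y with hY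
  set A2 : LaurentSeries Kb := E₂ a2 with hA2
  set B2 : LaurentSeries Kb := E₂ b2 with hB2
  have hE' : U * (X ^ β₁ * Y ^ β₂ * B2) = X ^ α₁ * Y ^ α₂ * A2 := by
    simp only [map_mul, map_pow] at hE
    exact hE
  have gA2 : GaussIs A A2 1 := gaussIs2_of_not_dvd S hq hA hint2 hker2 hgy ha2
  have gB2 : GaussIs A B2 1 := gaussIs2_of_not_dvd S hq hA hint2 hker2 hgy hb2
  have gL := h2.mul (((hgx.pow β₁).mul (hgy.pow β₂)).mul gB2)
  have gR := ((hgx.pow α₁).mul (hgy.pow α₂)).mul gA2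
  rw [hE'] at gL
  have c1 : (q : Kb) ^ a₂ * (1 ^ β₁ * (q : Kb) ^ β₂ * 1) = (q : Kb) ^ (a₂ + (β₂ : ℤ)) := by
    rw [zpow_add₀ hq0, zpow_natCast]
    simp
  have c2 : (1 : Kb) ^ α₁ * (q : Kb) ^ α₂ * 1 = (q : Kb) ^ ((α₂ : ℕ) : ℤ) := by
    rw [zpow_natCast]
    simp
  rw [c1] at gL
  rw [c2] at gR
  have hexp : a₂ + (β₂ : ℤ) = (α₂ : ℤ) :=
    Fermat.Agent.T8.helper48.gaussIs_zpow_unique hq hA gL gR
  omega

end Second

/-! ### the slope -/

section Slope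

variable [IsDomain R] [UniqueFactorizationMonoid R]
  (S : SlopeAbs A q E₁ E₂ xx y Fb ordS ν η) (hq : q.Prime) (hA : A.LiesOverPrime q)

include S hq hA

/-- the slope from a factorisation `a = xx^α₁ y^α₂ a₂`, `b = xx^β₁ y^β₂ b₂`. -/
theorem slope_of_factor (n : ℕ) {a b a2 b2 : R} (ha : a ≠ 0) (hb : b ≠ 0)
    {U₁ : LaurentSeries Kb} (hU₁ : U₁ * E₁ b = E₁ a)
    (hhor : ∀ f : R, Prime f → ¬ f ∣ xx * y →
      (n : ℤ) ∣ (multiplicity f a : ℤ) - (multiplicity f b : ℤ))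
    (α₁ β₁ α₂ β₂ : ℕ) (haf : a = xx ^ α₁ * y ^ α₂ * a2)
    (hbf : b = xx ^ β₁ * y ^ β₂ * b2)
    (hxa : ¬ xx ∣ a2) (hxb : ¬ xx ∣ b2)
    (hy : ∀ f : R, Prime f → f ∣ y → ¬ f ∣ a2 ∧ ¬ f ∣ b2)
    (a₁ a₂ : ℤ) (hm : (a₂ - ((α₂ : ℤ) - β₂)) * ordS ν = 0)
    {r₁ : LaurentSeries (kA A)} (hr₁ : r₁ ≠ 0)
    (h1 : RhoQ A (algebraMap Kb (LaurentSeries Kb) ((q : Kb) ^ a₁)⁻¹ * U₁) r₁) :
    r₁ ∈ Fb ∧ (n : ℤ) ∣ ordS r₁ + (a₁ - a₂) * ordS ν := by
  have px := prime_xx S hq hA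
  have ha20 : a2 ≠ 0 := by
    rintro rfl
    exact hxa (dvd_zero _)
  have hb20 : b2 ≠ 0 := by
    rintro rfl
    exact hxb (dvd_zero _)
  have hρ : ∀ r : R, ¬ xx ∣ r → S.rho r ≠ 0 :=
    fun r hr h0 => hr ((rho_eq_zero_iff S hq hA r).1 h0)
  have hslope : (n : ℤ) ∣ S.phi a2 - S.phi b2 := by
    refine helper5T8.slope_abstract n xx px S.phi
      (fun u v hu hv => S.phi_mul (hρ u hu) (hρ v hv)) (fun e => S.phi_unit e)
      a2 b2 ha20 hb20 hxa hxb ?_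
    intro f hf
    by_cases hfxy : f ∣ xx * y
    · have hnd : ¬ f ∣ a2 ∧ ¬ f ∣ b2 := by
        rcases hf.dvd_or_dvd hfxy with hx | hy'
        · have has := hf.associated_of_dvd px hx
          exact ⟨fun hd => hxa (has.dvd_iff_dvd_left.1 hd),
            fun hd => hxb (has.dvd_iff_dvd_left.1 hd)⟩
        · exact hy f hf hy'
      rw [multiplicity_eq_zero.2 hnd.1, multiplicity_eq_zero.2 hnd.2]
      simp
    · have h3 := hhor f hf hfxy
      rw [haf, hbf, multiplicity_factor S hf hfxy α₁ α₂ ha20,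
        multiplicity_factor S hf hfxy β₁ β₂ hb20] at h3
      exact h3
  have hE : U₁ * E₁ (xx ^ β₁ * y ^ β₂ * b2) = E₁ (xx ^ α₁ * y ^ α₂ * a2) := by
    rw [← haf, ← hbf]
    exact hU₁
  obtain ⟨ha₁, hmem, hord⟩ := red_factor S hq hA hxa hxb α₁ β₁ α₂ β₂ hE hr₁ h1
  refine ⟨hmem, ?_⟩
  have e : ordS r₁ + (a₁ - a₂) * ordS ν = S.phi a2 - S.phi b2 := by
    linear_combination hord - hm
  rw [e]
  exact hslope

/-- **[SLOPE], abstract two-expansion form** (for `X` and for the cover `X'`). -/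
theorem slopeAt (n : ℕ) {a b : R} (ha : a ≠ 0) (hb : b ≠ 0)
    {U₁ U₂ : LaurentSeries Kb} (hU₁ : U₁ * E₁ b = E₁ a) (hU₂ : U₂ * E₂ b = E₂ a)
    (hhor : ∀ f : R, Prime f → ¬ f ∣ xx * y →
      (n : ℤ) ∣ (multiplicity f a : ℤ) - (multiplicity f b : ℤ))
    (a₁ a₂ : ℤ) {r₁ : LaurentSeries (kA A)} (hr₁ : r₁ ≠ 0)
    (h1 : RhoQ A (algebraMap Kb (LaurentSeries Kb) ((q : Kb) ^ a₁)⁻¹ * U₁) r₁)
    (h2 : GaussIs A U₂ ((q : Kb) ^ a₂)) :
    r₁ ∈ Fb ∧ (n : ℤ) ∣ ordS r₁ + (a₁ - a₂) * ordS ν := by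
  have px := prime_xx S hq hA
  obtain ⟨a1, ha1, hxa1⟩ :=
    (FiniteMultiplicity.of_prime_left px ha).exists_eq_pow_mul_and_not_dvd
  obtain ⟨b1, hb1, hxb1⟩ :=
    (FiniteMultiplicity.of_prime_left px hb).exists_eq_pow_mul_and_not_dvd
  rcases S.ycase with hyu | ⟨hint2, hker2, hgy, hgx⟩
  · -- smooth point
    have hm0 : ordS ν = 0 := by
      obtain ⟨e, rfl⟩ := hyu
      have h3 := S.phi_unit e
      unfold phi at h3
      rw [S.rho_yy] at h3
      exact h3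
    refine slope_of_factor S hq hA n ha hb hU₁ hhor (multiplicity xx a) (multiplicity xx b) 0 0
      (by rw [pow_zero, mul_one]; exact ha1) (by rw [pow_zero, mul_one]; exact hb1)
      hxa1 hxb1 ?_ a₁ a₂ (by rw [hm0, mul_zero]) hr₁ h1
    intro f hf hfy
    exact absurd (isUnit_of_dvd_unit hfy hyu) hf.not_isUnit
  · -- double point
    have py := prime_yy S hq hA hint2 hker2 hgy
    have ha10 : a1 ≠ 0 := by
      rintro rfl
      exact hxa1 (dvd_zero _)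
    have hb10 : b1 ≠ 0 := by
      rintro rfl
      exact hxb1 (dvd_zero _)
    obtain ⟨a2, ha2, hya2⟩ :=
      (FiniteMultiplicity.of_prime_left py ha10).exists_eq_pow_mul_and_not_dvd
    obtain ⟨b2, hb2, hyb2⟩ :=
      (FiniteMultiplicity.of_prime_left py hb10).exists_eq_pow_mul_and_not_dvd
    have hxa2 : ¬ xx ∣ a2 := fun hd => hxa1 (by rw [ha2]; exact hd.mul_left _)
    have hxb2 : ¬ xx ∣ b2 := fun hd => hxb1 (by rw [hb2]; exact hd.mul_left _)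
    have haf : a = xx ^ multiplicity xx a * y ^ multiplicity y a1 * a2 := by
      rw [mul_assoc, ← ha2]
      exact ha1
    have hbf : b = xx ^ multiplicity xx b * y ^ multiplicity y b1 * b2 := by
      rw [mul_assoc, ← hb2]
      exact hb1
    have hE : U₂ * E₂ (xx ^ multiplicity xx b * y ^ multiplicity y b1 * b2) =
        E₂ (xx ^ multiplicity xx a * y ^ multiplicity y a1 * a2) := by
      rw [← haf, ← hbf]
      exact hU₂
    have ha₂ := w2_factor S hq hA hint2 hker2 hgy hgx hya2 hyb2 _ _ _ _ hE h2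
    refine slope_of_factor S hq hA n ha hb hU₁ hhor _ _ _ _ haf hbf hxa2 hxb2 ?_ a₁ a₂
      (by rw [ha₂, sub_self, zero_mul]) hr₁ h1
    intro f hf hfy
    have has := hf.associated_of_dvd py hfy
    exact ⟨fun hd => hya2 (has.dvd_iff_dvd_left.1 hd),
      fun hd => hyb2 (has.dvd_iff_dvd_left.1 hd)⟩

end Slope

end SlopeAbs

end Fermat.Agent.T8.helper5

end
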