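import Fermat.Agent.T8.helper16_RingXDefs
import Fermat.Agent.T8.helper23_DictFF
import Fermat.Agent.T8.helper5_PthPow
import Fermat.Agent.T8.helper48_VertInst

/-!
# T8 [SLOPE] / [RING-X], the slope at ONE closed point from the local ring (helper5)

Level `N q`, `W = atkinLehner N q`, `A` over `q`, `b₀` the weight-one unit (`y := b₀`,
`xx := W b₀`, `xx y = ε q`, `ν := red₁ b₀ = iota B`), `Q` a place of the special fibre field
`FFb A N`.

`SlopeLoc A hq hqN b0 Q Rs` : the properties of a subring `Rs` of `FF (N q)` (the local ring at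
the point `Q` of the component `C₁`) used by the slope argument: inertia-fixed functions with
fraction field all inertia-fixed functions, a UFD, first expansions Gauss-integral with
reductions in `FFb A N` regular at `Q`, `ker red₁ ⊆ xx Rs`, `y, xx ∈ Rs`, integers prime to `q`
invertible, the places centred on `Rs` lie over finite values of `j`, and EITHER `1 / y ∈ Rs`
(smooth point of `C₁`) OR the second expansions are Gauss-integral with `ker red₂ ⊆ y Rs`
(double point).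

`slopeAt_of_slopeLoc` : the conclusion of `helper16.SlopeXStatement` at `Q`:
`n ∣ ord_Q r₁ + (a₁ - a₂) ord_Q ν`.
-/

set_option autoImplicit false
set_option synthInstance.maxHeartbeats 400000
set_option maxHeartbeats 1000000
set_option linter.unusedSectionVars false
set_option linter.unusedVariables false
set_option linter.style.haveILetI false
set_option linter.style.longLine false

noncomputable section

open HahnSeries IntermediateField AlgebraicCurve ModularCurve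
open Fermat.Agent.S18.helper19 Fermat.Agent.P2.helper29 Fermat.Agent.T2.helper36

namespace Fermat.Agent.T8.helper5

open Fermat.Agent.P2.helper66 (iota inv1)
open Fermat.Agent.T3.helper16 (IsUnit0)
open Fermat.Agent.T3.helper74 (IsFixI)
open Fermat.Agent.T3.helper36 (RhoQ GaussIs)
open Fermat.Agent.T8.helper16 (ordAt)

section Setting

variable {N q : ℕ} [NeZero N] [NeZero q]

/-- **[RING-X] at one closed point `Q` of `C₁`, consumer form of [SLOPE].** -/
structure SlopeLoc (A : ValuationSubring Kb) (hq : q.Prime) (hqN : ¬ q ∣ N)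
    (b0 : FF (N * q)) (Q : Place (kA A) (FFb A N)) (Rs : Subring (FF (N * q))) : Prop where
  /-- the functions of `Rs` are inertia-fixed -/
  fix : ∀ r ∈ Rs, IsFixI A (N * q) r
  /-- every inertia-fixed function is a quotient of elements of `Rs` -/
  frac : ∀ f : FF (N * q), IsFixI A (N * q) f → ∃ a ∈ Rs, ∃ b ∈ Rs, b ≠ 0 ∧ f * b = a
  /-- [UFD2] -/
  ufm : UniqueFactorizationMonoid Rs
  /-- Gauss-integral at `∞`, the reduction is a function of the special fibre regular at `Q` -/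
  int1 : ∀ r ∈ Rs, ∃ s : LaurentSeries (kA A),
    RhoQ A ((r : FF (N * q)) : LaurentSeries Kb) s ∧ s ∈ FFb A N ∧ 0 ≤ ordAt Q s
  /-- `ker red₁ ⊆ xx Rs` -/
  ker1 : ∀ r ∈ Rs, RhoQ A ((r : FF (N * q)) : LaurentSeries Kb) 0 →
    r * (atkinLehner N q hq hqN b0)⁻¹ ∈ Rs
  mem_y : b0 ∈ Rs
  mem_xx : atkinLehner N q hq hqN b0 ∈ Rs
  /-- the integers prime to `q` are invertible in `Rs` -/
  cop : ∀ m : ℕ, m.Coprime q → ((m : FF (N * q)))⁻¹ ∈ Rs
  /-- the places centred on `Rs` lie over finite values of `j` -/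
  cent : ∀ P : Place Kb (FF (N * q)), (∀ r : Rs, 0 ≤ P.ord (r : FF (N * q))) →
    0 ≤ P.ord (jElt (N * q))
  /-- smooth point (`y` is a unit of `Rs`) or double point (`ker red₂ ⊆ y Rs`) -/
  ycase : b0⁻¹ ∈ Rs ∨
    ((∀ r ∈ Rs, ∃ s : LaurentSeries (kA A),
        RhoQ A ((atkinLehner N q hq hqN r : FF (N * q)) : LaurentSeries Kb) s) ∧
      (∀ r ∈ Rs, RhoQ A ((atkinLehner N q hq hqN r : FF (N * q)) : LaurentSeries Kb) 0 →
        r * b0⁻¹ ∈ Rs))

end Setting

/-! ### the order function on the special fibre field -/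

section Ord

variable {N : ℕ} [NeZero N] {A : ValuationSubring Kb}

theorem ordAt_inv (Q : Place (kA A) (FFb A N)) {x : LaurentSeries (kA A)}
    (hx : x ∈ FFb A N) : ordAt Q x⁻¹ = -ordAt Q x := by
  rw [Fermat.Agent.T8.helper16.ordAt_of_mem Q hx,
    Fermat.Agent.T8.helper16.ordAt_of_mem Q ((FFb A N).inv_mem hx)]
  have e : (⟨x⁻¹, (FFb A N).inv_mem hx⟩ : FFb A N) = (⟨x, hx⟩ : FFb A N)⁻¹ := rfl
  rw [e]
  exact Place.ord_inv Q _

theorem ordAt_div (Q : Place (kA A) (FFb A N)) {x y : LaurentSeries (kA A)}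
    (hx : x ∈ FFb A N) (hy : y ∈ FFb A N) (hx0 : x ≠ 0) (hy0 : y ≠ 0) :
    ordAt Q (x / y) = ordAt Q x - ordAt Q y := by
  rw [div_eq_mul_inv, Fermat.Agent.T8.helper16.ordAt_mul Q hx ((FFb A N).inv_mem hy) hx0
    (inv_ne_zero hy0), ordAt_inv Q hy]
  ring

theorem ordAt_pow (Q : Place (kA A) (FFb A N)) {x : LaurentSeries (kA A)}
    (hx : x ∈ FFb A N) (hx0 : x ≠ 0) (n : ℕ) : ordAt Q (x ^ n) = n * ordAt Q x := by
  induction n with
  | zero => simp [Fermat.Agent.T8.helper16.ordAt_one]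
  | succ n ih =>
    rw [pow_succ, Fermat.Agent.T8.helper16.ordAt_mul Q (pow_mem hx n) hx (pow_ne_zero _ hx0) hx0,
      ih]
    push_cast
    ring

theorem ordAt_zpow (Q : Place (kA A) (FFb A N)) {x : LaurentSeries (kA A)}
    (hx : x ∈ FFb A N) (hx0 : x ≠ 0) (n : ℤ) : ordAt Q (x ^ n) = n * ordAt Q x := by
  cases n with
  | ofNat n =>
    simp only [Int.ofNat_eq_natCast, zpow_natCast]
    exact ordAt_pow Q hx hx0 n
  | negSucc n =>
    rw [zpow_negSucc, ordAt_inv Q (pow_mem hx _), ordAt_pow Q hx hx0]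
    simp only [Int.negSucc_eq]
    push_cast
    ring

/-- the order of a nonzero constant is `0` -/
theorem ordAt_algebraMap (Q : Place (kA A) (FFb A N)) {c : kA A} (hc : c ≠ 0) :
    ordAt Q (algebraMap (kA A) (LaurentSeries (kA A)) c) = 0 := by
  have hm : algebraMap (kA A) (LaurentSeries (kA A)) c ∈ FFb A N := (FFb A N).algebraMap_mem c
  have hm' : algebraMap (kA A) (LaurentSeries (kA A)) c⁻¹ ∈ FFb A N :=
    (FFb A N).algebraMap_mem c⁻¹
  have h1 : 0 ≤ ordAt Q (algebraMap (kA A) (LaurentSeries (kA A)) c) := by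
    rw [Fermat.Agent.T8.helper16.ordAt_of_mem Q hm]
    rw [← Fermat.Agent.S24.helper82.mem_iff_ord_nonneg]
    exact Q.algebraMap_mem' c
  have h2 : 0 ≤ ordAt Q (algebraMap (kA A) (LaurentSeries (kA A)) c⁻¹) := by
    rw [Fermat.Agent.T8.helper16.ordAt_of_mem Q hm']
    rw [← Fermat.Agent.S24.helper82.mem_iff_ord_nonneg]
    exact Q.algebraMap_mem' c⁻¹
  have e : algebraMap (kA A) (LaurentSeries (kA A)) c⁻¹ =
      (algebraMap (kA A) (LaurentSeries (kA A)) c)⁻¹ := map_inv₀ _ c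
  rw [e, ordAt_inv Q hm] at h2
  omega

end Ord

/-! ### the local ring -/

section Core

variable {N q : ℕ} [NeZero N] [NeZero q] {hq : q.Prime} {hqN : ¬ q ∣ N}
variable {A : ValuationSubring Kb} {b0 : FF (N * q)} {B : PowerSeries ℤ} {ε : ℤ}
variable {Q : Place (kA A) (FFb A N)} {Rs : Subring (FF (N * q))}

namespace SlopeLoc

/-- the element `y = b₀` of `Rs` -/
def yy (S : SlopeLoc A hq hqN b0 Q Rs) : Rs := ⟨b0, S.mem_y⟩

/-- the element `xx = W b₀` of `Rs` -/
def xx (S : SlopeLoc A hq hqN b0 Q Rs) : Rs := ⟨atkinLehner N q hq hqN b0, S.mem_xx⟩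

/-- the first reduction on `Rs` -/
def rho (S : SlopeLoc A hq hqN b0 Q Rs) (r : Rs) : LaurentSeries (kA A) :=
  (S.int1 r r.2).choose

section Rho

variable (S : SlopeLoc A hq hqN b0 Q Rs)

theorem rho_spec (r : Rs) : RhoQ A ((r : FF (N * q)) : LaurentSeries Kb) (S.rho r) :=
  (S.int1 r r.2).choose_spec.1

theorem rho_mem (r : Rs) : S.rho r ∈ FFb A N := (S.int1 r r.2).choose_spec.2.1

theorem rho_nonneg (r : Rs) : 0 ≤ ordAt Q (S.rho r) := (S.int1 r r.2).choose_spec.2.2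

theorem rho_eq {r : Rs} {s : LaurentSeries (kA A)}
    (h : RhoQ A ((r : FF (N * q)) : LaurentSeries Kb) s) : S.rho r = s :=
  (S.rho_spec r).unique h

theorem rho_mul (r s : Rs) : S.rho (r * s) = S.rho r * S.rho s := by
  apply S.rho_eq
  have h := (S.rho_spec r).mul (S.rho_spec s)
  exact h

theorem rho_one : S.rho 1 = 1 := by
  apply S.rho_eq
  exact Fermat.Agent.T3.helper36.rhoQ_one

theorem rho_pow (r : Rs) (n : ℕ) : S.rho (r ^ n) = S.rho r ^ n := by
  induction n with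
  | zero => rw [pow_zero, pow_zero, S.rho_one]
  | succ n ih => rw [pow_succ, pow_succ, S.rho_mul, ih]

/-- the order of the first reduction at `Q` -/
def phi (r : Rs) : ℤ := ordAt Q (S.rho r)

theorem phi_mul {r s : Rs} (hr : S.rho r ≠ 0) (hs : S.rho s ≠ 0) :
    S.phi (r * s) = S.phi r + S.phi s := by
  unfold phi
  rw [S.rho_mul]
  exact Fermat.Agent.T8.helper16.ordAt_mul Q (S.rho_mem r) (S.rho_mem s) hr hs

theorem phi_unit (e : Rsˣ) : S.phi (e : Rs) = 0 := by
  have h1 : S.rho (e : Rs) * S.rho ((e⁻¹ : Rsˣ) : Rs) = 1 := by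
    rw [← S.rho_mul, Units.mul_inv, S.rho_one]
  have hr : S.rho (e : Rs) ≠ 0 := left_ne_zero_of_mul_eq_one h1
  have hs : S.rho ((e⁻¹ : Rsˣ) : Rs) ≠ 0 := right_ne_zero_of_mul_eq_one h1
  have h2 := Fermat.Agent.T8.helper16.ordAt_mul Q (S.rho_mem (e : Rs))
    (S.rho_mem ((e⁻¹ : Rsˣ) : Rs)) hr hs
  rw [h1, Fermat.Agent.T8.helper16.ordAt_one] at h2
  have h3 := S.rho_nonneg (e : Rs)
  have h4 := S.rho_nonneg ((e⁻¹ : Rsˣ) : Rs)
  unfold phi
  omega

end Rho

section Unit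

variable (h : IsUnit0 hq hqN b0 B ε) (S : SlopeLoc A hq hqN b0 Q Rs)
  (hA : A.LiesOverPrime q)
include h

theorem xx_coe_ne_zero : atkinLehner N q hq hqN b0 ≠ 0 :=
  (map_ne_zero_iff _ (atkinLehner N q hq hqN).injective).mpr h.ne_zero

theorem yy_ne_zero : S.yy ≠ 0 := fun h0 => h.ne_zero (congrArg Subtype.val h0)

theorem xx_ne_zero : S.xx ≠ 0 := fun h0 => xx_coe_ne_zero h (congrArg Subtype.val h0)

include hA in
/-- `red₁ xx = 0` -/
theorem rhoQ_xx :
    RhoQ A ((atkinLehner N q hq hqN b0 : FF (N * q)) : LaurentSeries Kb) 0 := by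
  obtain ⟨Y₁, Y₂, hR, h1, -⟩ := Fermat.Agent.T8.helper63.isRX_unitW h A hA
  have := Fermat.Agent.T3.helper36.rhoQ_incl (A := A) Y₁
  rwa [hR.2.2.1, h1] at this

include hA in
/-- `red₁ y = ν` -/
theorem rhoQ_yy : RhoQ A ((b0 : FF (N * q)) : LaurentSeries Kb) (iota (kA A) B) := by
  obtain ⟨Y₁, Y₂, hR, h1, -⟩ := Fermat.Agent.T8.helper63.isRX_unit h A hA
  have := Fermat.Agent.T3.helper36.rhoQ_incl (A := A) Y₁
  rwa [hR.2.2.1, h1] at this

include hA in
theorem rho_xx : S.rho S.xx = 0 := S.rho_eq (rhoQ_xx h hA)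

include hA in
theorem rho_yy : S.rho S.yy = iota (kA A) B := S.rho_eq (rhoQ_yy h hA)

include hA in
/-- `red₁ r = 0 ↔ xx ∣ r` -/
theorem rho_eq_zero_iff (r : Rs) : S.rho r = 0 ↔ S.xx ∣ r := by
  constructor
  · intro h0
    have hr := S.rho_spec r
    rw [h0] at hr
    refine ⟨⟨_, S.ker1 r r.2 hr⟩, ?_⟩
    apply Subtype.ext
    show (r : FF (N * q)) = atkinLehner N q hq hqN b0 * ((r : FF (N * q)) *
      (atkinLehner N q hq hqN b0)⁻¹)
    rw [mul_comm (r : FF (N * q)), ← mul_assoc, mul_inv_cancel₀ (xx_coe_ne_zero h), one_mul]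
  · rintro ⟨c, rfl⟩
    rw [S.rho_mul, rho_xx h S hA, zero_mul]

include hA in
/-- `xx` is a prime element of `Rs` -/
theorem prime_xx : Prime S.xx := by
  refine ⟨xx_ne_zero h S, ?_, ?_⟩
  · intro hu
    have h1 := (rho_eq_zero_iff h S hA 1).2 hu.dvd
    rw [S.rho_one] at h1
    exact one_ne_zero h1
  · intro a b hab
    have h1 := (rho_eq_zero_iff h S hA (a * b)).2 hab
    rw [S.rho_mul] at h1
    rcases mul_eq_zero.1 h1 with h2 | h2
    · exact Or.inl ((rho_eq_zero_iff h S hA a).1 h2)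
    · exact Or.inr ((rho_eq_zero_iff h S hA b).1 h2)

/-- `xx * y = ε q` in `Rs` -/
theorem xx_mul_yy : S.xx * S.yy = ((ε : ℤ) : Rs) * ((q : ℕ) : Rs) := by
  apply Subtype.ext
  show atkinLehner N q hq hqN b0 * b0 = (((ε : ℤ) : Rs) : FF (N * q)) *
    (((q : ℕ) : Rs) : FF (N * q))
  rw [h.al, map_mul, map_intCast, map_natCast, Subring.coe_intCast, Subring.coe_natCast]

include S in
/-- the integers prime to `q` are units of `Rs` -/
theorem isUnit_natCast (m : ℕ) (hm : m.Coprime q) : IsUnit ((m : ℕ) : Rs) := by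
  have hm0 : m ≠ 0 := by
    rintro rfl
    rw [Nat.coprime_zero_left] at hm
    exact hq.one_lt.ne' hm
  have hmF : ((m : ℕ) : FF (N * q)) ≠ 0 := Nat.cast_ne_zero.2 hm0
  refine IsUnit.of_mul_eq_one (⟨_, S.cop m hm⟩ : Rs) (Subtype.ext ?_)
  show (((m : ℕ) : Rs) : FF (N * q)) * ((m : ℕ) : FF (N * q))⁻¹ = 1
  rw [Subring.coe_natCast, mul_inv_cancel₀ hmF]

/-- a prime element of `Rs` dividing an integer `m ≠ 0` divides `xx * y` -/
theorem dvd_xx_mul_yy {π : Rs} (hπ : Prime π) {m : ℕ} (hm : m ≠ 0)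
    (hdvd : π ∣ ((m : ℕ) : Rs)) : π ∣ S.xx * S.yy := by
  obtain ⟨k, m', hm', rfl⟩ := Nat.exists_eq_pow_mul_and_not_dvd hm q hq.one_lt.ne'
  have hcop : m'.Coprime q := ((Nat.Prime.coprime_iff_not_dvd hq).2 hm').symm
  have hu := isUnit_natCast h S m' hcop
  rw [Nat.cast_mul, Nat.cast_pow] at hdvd
  have h1 : π ∣ ((q : ℕ) : Rs) ^ k := (hu.dvd_mul_right).1 hdvd
  have h2 : π ∣ ((q : ℕ) : Rs) := hπ.dvd_of_dvd_pow h1
  rw [xx_mul_yy h S]
  exact h2.mul_left _

end Unit

end SlopeLoc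

end Core

end Fermat.Agent.T8.helper5

end
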