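import Fermat.Agent.T8.helper5_SlopeLoc

/-!
# T8 [SLOPE] / [RING-X], the slope at ONE closed point from the local ring, part 2 (helper5)

`SlopeLoc.slopeAt` : for `Rs` with `SlopeLoc A hq hqN b0 Q Rs`, an inertia-fixed function
`u ≠ 0` whose divisor is divisible by `n` where `j` is finite, with Gauss values `w₁ u = a₁`
(reduction `r₁` of `u / q^a₁`), `w₂ u = a₂`:

  `r₁ ∈ FFb A N`  and  `n ∣ ord_Q r₁ + (a₁ - a₂) ord_Q ν`.
-/

set_option autoImplicit false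
set_option synthInstance.maxHeartbeats 400000
set_option maxHeartbeats 1000000
set_option linter.unusedSectionVars false
set_option linter.unusedVariables false
set_option linter.style.haveILetI false
set_option linter.style.longLine false

noncomputable section

open HahnSeries IntermediateField AlgebraicCurve ModularCurve
open Fermat.Agent.S18.helper19 Fermat.Agent.P2.helper29 Fermat.Agent.T2.helper36

namespace Fermat.Agent.T8.helper5

open Fermat.Agent.P2.helper66 (iota inv1)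
open Fermat.Agent.T3.helper16 (IsUnit0)
open Fermat.Agent.T3.helper74 (IsFixI)
open Fermat.Agent.T3.helper36 (RhoQ GaussIs)
open Fermat.Agent.T8.helper16 (ordAt)

section Core

variable {N q : ℕ} [NeZero N] [NeZero q] {hq : q.Prime} {hqN : ¬ q ∣ N}
variable {A : ValuationSubring Kb} {b0 : FF (N * q)} {B : PowerSeries ℤ} {ε : ℤ}
variable {Q : Place (kA A) (FFb A N)} {Rs : Subring (FF (N * q))}

namespace SlopeLoc

/-! ### horizontal primes -/

section Hor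

variable (h : IsUnit0 hq hqN b0 B ε) (S : SlopeLoc A hq hqN b0 Q Rs)
include h

/-- **horizontal primes**: for a prime `f` of `Rs` not dividing `xx * y`, the multiplicities of
`f` in `a` and `b` (`u = a / b`) are congruent modulo `n`. -/
theorem hor_dvd (n : ℕ) {a b : Rs} (ha : a ≠ 0) (hb : b ≠ 0) {u : FF (N * q)}
    (hub : u * (b : FF (N * q)) = (a : FF (N * q)))
    (hdiv : ∀ P : Place Kb (FF (N * q)), 0 ≤ P.ord (jElt (N * q)) → (n : ℤ) ∣ P.ord u)
    {f : Rs} (hf : Prime f) (hfx : ¬ f ∣ S.xx * S.yy) :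
    (n : ℤ) ∣ (multiplicity f a : ℤ) - (multiplicity f b : ℤ) := by
  haveI := S.ufm
  have hu0 : u ≠ 0 := by
    rintro rfl
    rw [zero_mul] at hub
    exact ha (Subtype.ext hub.symm)
  have hb0 : (b : FF (N * q)) ≠ 0 := fun h0 => hb (Subtype.ext h0)
  have hD := Fermat.Agent.T8.helper23.dictModEq_FF (N * q)
    ((A.inertiaSubgroupIn ℚ : Subgroup (Kb ≃ₐ[ℚ] Kb)) : Set (Kb ≃ₐ[ℚ] Kb))
  have hfin : ∀ r : Rs, r ≠ 0 → FiniteMultiplicity f r := fun r hr =>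
    FiniteMultiplicity.of_prime_left hf hr
  have key := hD Rs
    (by
      rintro r hr g ⟨σ, hσ, rfl⟩
      exact S.fix r hr σ hσ)
    (by
      intro f' hf'
      exact S.frac f' (fun σ hσ => hf' _ ⟨σ, hσ, rfl⟩))
    n a b ha hb
    (by
      intro P hP
      have h1 : P.ord (a : FF (N * q)) = P.ord u + P.ord (b : FF (N * q)) := by
        rw [← hub]
        exact Place.ord_mul P hu0 hb0
      have h2 := hdiv P (S.cent P hP)
      rw [h1]
      have : P.ord u + P.ord (b : FF (N * q)) - P.ord (b : FF (N * q)) = P.ord u := by ring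
      rw [this]
      exact h2)
    f hf
    (by
      intro m hm hd
      exact hfx (dvd_xx_mul_yy h S hf hm hd))
    (by
      intro r hr
      obtain ⟨k, hk⟩ := hfin r hr
      exact ⟨k, hk⟩)
    (multiplicity f a) (multiplicity f b) (pow_multiplicity_dvd f a)
    ((hfin a ha).not_pow_dvd_of_multiplicity_lt (Nat.lt_succ_self _))
    (pow_multiplicity_dvd f b)
    ((hfin b hb).not_pow_dvd_of_multiplicity_lt (Nat.lt_succ_self _))
  have h3 := (Nat.modEq_iff_dvd.1 key)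
  have : (multiplicity f a : ℤ) - (multiplicity f b : ℤ) =
      -((multiplicity f b : ℤ) - (multiplicity f a : ℤ)) := by ring
  rw [this]
  exact (dvd_neg).2 h3

include S in
/-- the multiplicity of a prime not dividing `xx * y` in `xx^i * y^j * c` -/
theorem multiplicity_factor {f : Rs} (hf : Prime f) (hfx : ¬ f ∣ S.xx * S.yy) (i j : ℕ)
    {c : Rs} (hc : c ≠ 0) :
    multiplicity f (S.xx ^ i * S.yy ^ j * c) = multiplicity f c := by
  haveI := S.ufm
  have hx : ¬ f ∣ S.xx := fun hd => hfx (hd.mul_right _)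
  have hy : ¬ f ∣ S.yy := fun hd => hfx (hd.mul_left _)
  have hx0 : S.xx ≠ 0 := xx_ne_zero h S
  have hy0 : S.yy ≠ 0 := yy_ne_zero h S
  have hxi : S.xx ^ i ≠ 0 := pow_ne_zero _ hx0
  have hyj : S.yy ^ j ≠ 0 := pow_ne_zero _ hy0
  have h1 : multiplicity f (S.xx ^ i) = 0 :=
    multiplicity_eq_zero.2 (fun hd => hx (hf.dvd_of_dvd_pow hd))
  have h2 : multiplicity f (S.yy ^ j) = 0 :=
    multiplicity_eq_zero.2 (fun hd => hy (hf.dvd_of_dvd_pow hd))
  rw [multiplicity_mul hf (FiniteMultiplicity.of_prime_left hf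
      (mul_ne_zero (mul_ne_zero hxi hyj) hc)),
    multiplicity_mul hf (FiniteMultiplicity.of_prime_left hf (mul_ne_zero hxi hyj)), h1, h2]
  simp

end Hor

/-! ### the reductions of a factorisation -/

section Red

variable (h : IsUnit0 hq hqN b0 B ε) (S : SlopeLoc A hq hqN b0 Q Rs)
  (hA : A.LiesOverPrime q)

/-- the reduction of `xx / q` -/
def etaRed (A : ValuationSubring Kb) (B : PowerSeries ℤ) (ε : ℤ) : LaurentSeries (kA A) :=
  algebraMap (kA A) (LaurentSeries (kA A)) ((ε : ℤ) : kA A) * iota (kA A) (inv1 B)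

include h in
theorem etaRed_ne_zero : etaRed A B ε ≠ 0 :=
  Fermat.Agent.T3.helper16.sgn_mul_iota_ne_zero A h.sign
    (Fermat.Agent.T3.helper16.constantCoeff_inv1 h.const)

include h in
theorem rhoQ_etaRed :
    RhoQ A (algebraMap Kb (LaurentSeries Kb) (q : Kb)⁻¹ *
      ((atkinLehner N q hq hqN b0 : FF (N * q)) : LaurentSeries Kb)) (etaRed A B ε) := by
  have e : algebraMap Kb (LaurentSeries Kb) (q : Kb)⁻¹ *
      ((atkinLehner N q hq hqN b0 : FF (N * q)) : LaurentSeries Kb) =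
      incl A (Fermat.Agent.T3.helper16.sgnModel A ε (inv1 B)) := by
    rw [h.coe_al, h.scale_aux, Fermat.Agent.T3.helper16.incl_sgnModel]
  rw [e]
  have := Fermat.Agent.T3.helper36.rhoQ_incl (A := A)
    (Fermat.Agent.T3.helper16.sgnModel A ε (inv1 B))
  rwa [Fermat.Agent.T3.helper16.red_sgnModel] at this

include h in
theorem inv1_eq_inv : iota (kA A) (inv1 B) = (iota (kA A) B)⁻¹ :=
  eq_inv_of_mul_eq_one_right (Fermat.Agent.T3.helper16.iota_mul_inv1 (kA A) h.const)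

include h S hA in
theorem nu_mem : iota (kA A) B ∈ FFb A N := by
  rw [← rho_yy h S hA]
  exact S.rho_mem _

include h S hA in
theorem etaRed_mem : etaRed A B ε ∈ FFb A N := by
  unfold etaRed
  rw [inv1_eq_inv h]
  exact (FFb A N).mul_mem ((FFb A N).algebraMap_mem _) ((FFb A N).inv_mem (nu_mem h S hA))

include h S hA in
theorem ordAt_etaRed : ordAt Q (etaRed A B ε) = -ordAt Q (iota (kA A) B) := by
  have hε : ((ε : ℤ) : kA A) ≠ 0 := Fermat.Agent.T3.helper16.sgn_ne_zero (kA A) h.sign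
  have hc0 : algebraMap (kA A) (LaurentSeries (kA A)) ((ε : ℤ) : kA A) ≠ 0 :=
    (map_ne_zero_iff _ (algebraMap (kA A) (LaurentSeries (kA A))).injective).2 hε
  unfold etaRed
  rw [inv1_eq_inv h, Fermat.Agent.T8.helper16.ordAt_mul Q ((FFb A N).algebraMap_mem _)
    ((FFb A N).inv_mem (nu_mem h S hA)) hc0
    (inv_ne_zero (Fermat.Agent.T8.helper63.nu_ne_zero h A)),
    ordAt_algebraMap Q hε, ordAt_inv Q (nu_mem h S hA), zero_add]

include h S hA in
/-- **the reductions of a factorisation** `u = xx^(α₁-β₁) y^(α₂-β₂) a₂ / b₂`. -/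
theorem red_factor {a2 b2 : Rs} (ha2 : ¬ S.xx ∣ a2) (hb2 : ¬ S.xx ∣ b2) (α₁ β₁ α₂ β₂ : ℕ)
    {u : FF (N * q)}
    (hub : u * ((S.xx ^ β₁ * S.yy ^ β₂ * b2 : Rs) : FF (N * q)) =
      ((S.xx ^ α₁ * S.yy ^ α₂ * a2 : Rs) : FF (N * q)))
    {a₁ : ℤ} {r₁ : LaurentSeries (kA A)} (hr₁ : r₁ ≠ 0)
    (h1 : RhoQ A (algebraMap Kb (LaurentSeries Kb) ((q : Kb) ^ a₁)⁻¹ * (u : LaurentSeries Kb))
      r₁) :
    a₁ = (α₁ : ℤ) - β₁ ∧ r₁ ∈ FFb A N ∧
      ordAt Q r₁ = -a₁ * ordAt Q (iota (kA A) B) +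
        ((α₂ : ℤ) - β₂) * ordAt Q (iota (kA A) B) + S.phi a2 - S.phi b2 := by
  have hq0 : (q : Kb) ≠ 0 := h.q_ne_zero
  set X : LaurentSeries Kb := ((atkinLehner N q hq hqN b0 : FF (N * q)) : LaurentSeries Kb)
    with hX
  set Y : LaurentSeries Kb := ((b0 : FF (N * q)) : LaurentSeries Kb) with hY
  set A2 : LaurentSeries Kb := ((a2 : FF (N * q)) : LaurentSeries Kb) with hA2
  set B2 : LaurentSeries Kb := ((b2 : FF (N * q)) : LaurentSeries Kb) with hB2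
  set U : LaurentSeries Kb := (u : LaurentSeries Kb) with hU
  set ν : LaurentSeries (kA A) := iota (kA A) B with hν
  set η : LaurentSeries (kA A) := etaRed A B ε with hη
  have hE : U * (X ^ β₁ * Y ^ β₂ * B2) = X ^ α₁ * Y ^ α₂ * A2 := by
    have := congrArg (fun z : FF (N * q) => (z : LaurentSeries Kb)) hub
    exact this
  have hρa : S.rho a2 ≠ 0 := fun h0 => ha2 ((rho_eq_zero_iff h S hA a2).1 h0)
  have hρb : S.rho b2 ≠ 0 := fun h0 => hb2 ((rho_eq_zero_iff h S hA b2).1 h0)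
  have hν0 : ν ≠ 0 := Fermat.Agent.T8.helper63.nu_ne_zero h A
  have hη0 : η ≠ 0 := etaRed_ne_zero h
  have rY : RhoQ A Y ν := rhoQ_yy h hA
  have rA2 : RhoQ A A2 (S.rho a2) := S.rho_spec a2
  have rB2 : RhoQ A B2 (S.rho b2) := S.rho_spec b2
  have rX : RhoQ A (algebraMap Kb (LaurentSeries Kb) (q : Kb)⁻¹ * X) η := rhoQ_etaRed h
  -- Gauss values
  have gX : GaussIs A X (q : Kb) := Fermat.Agent.T8.helper63.gaussIs_unitW h A
  have gY : GaussIs A Y 1 := Fermat.Agent.T3.helper36.gaussIs_of_rhoQ rY hν0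
  have gA2 : GaussIs A A2 1 := Fermat.Agent.T3.helper36.gaussIs_of_rhoQ rA2 hρa
  have gB2 : GaussIs A B2 1 := Fermat.Agent.T3.helper36.gaussIs_of_rhoQ rB2 hρb
  have gU : GaussIs A U ((q : Kb) ^ a₁) := ⟨zpow_ne_zero _ hq0, r₁, hr₁, h1⟩
  have gL := gU.mul (((gX.pow β₁).mul (gY.pow β₂)).mul gB2)
  have gR := ((gX.pow α₁).mul (gY.pow α₂)).mul gA2
  rw [hE] at gL
  have c1 : (q : Kb) ^ a₁ * ((q : Kb) ^ β₁ * 1 ^ β₂ * 1) = (q : Kb) ^ (a₁ + (β₁ : ℤ)) := by
    rw [zpow_add₀ hq0, zpow_natCast]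
    simp
  have c2 : (q : Kb) ^ α₁ * 1 ^ α₂ * 1 = (q : Kb) ^ ((α₁ : ℕ) : ℤ) := by
    rw [zpow_natCast]
    simp
  rw [c1] at gL
  rw [c2] at gR
  have hexp : a₁ + (β₁ : ℤ) = (α₁ : ℤ) :=
    Fermat.Agent.T8.helper48.gaussIs_zpow_unique hq hA gL gR
  have ha₁ : a₁ = (α₁ : ℤ) - β₁ := by omega
  -- the reductions
  set T : LaurentSeries Kb :=
    algebraMap Kb (LaurentSeries Kb) ((q : Kb) ^ a₁)⁻¹ * U with hT
  set Xq : LaurentSeries Kb := algebraMap Kb (LaurentSeries Kb) (q : Kb)⁻¹ * X with hXq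
  have hconst : algebraMap Kb (LaurentSeries Kb) ((q : Kb) ^ a₁)⁻¹ *
      (algebraMap Kb (LaurentSeries Kb) (q : Kb)⁻¹) ^ β₁ =
      (algebraMap Kb (LaurentSeries Kb) (q : Kb)⁻¹) ^ α₁ := by
    rw [← map_pow, ← map_pow, ← map_mul]
    congr 1
    have e1 : (q : Kb) ^ a₁ * (q : Kb) ^ β₁ = (q : Kb) ^ α₁ := by
      have := congrArg (fun z : ℤ => (q : Kb) ^ z) hexp
      simp only [zpow_add₀ hq0, zpow_natCast] at this
      exact this
    rw [inv_pow, inv_pow, ← mul_inv, e1]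
  have hE2 : T * (Xq ^ β₁ * Y ^ β₂ * B2) = Xq ^ α₁ * Y ^ α₂ * A2 := by
    rw [hT, hXq, mul_pow, mul_pow]
    calc algebraMap Kb (LaurentSeries Kb) ((q : Kb) ^ a₁)⁻¹ * U *
          ((algebraMap Kb (LaurentSeries Kb) (q : Kb)⁻¹) ^ β₁ * X ^ β₁ * Y ^ β₂ * B2)
        = (algebraMap Kb (LaurentSeries Kb) ((q : Kb) ^ a₁)⁻¹ *
            (algebraMap Kb (LaurentSeries Kb) (q : Kb)⁻¹) ^ β₁) *
            (U * (X ^ β₁ * Y ^ β₂ * B2)) := by ring
      _ = (algebraMap Kb (LaurentSeries Kb) (q : Kb)⁻¹) ^ α₁ * (X ^ α₁ * Y ^ α₂ * A2) := by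
          rw [hconst, hE]
      _ = _ := by ring
  have rL := h1.mul ((((rX.pow β₁).mul (rY.pow β₂))).mul rB2)
  have rR := ((rX.pow α₁).mul (rY.pow α₂)).mul rA2
  rw [hE2] at rL
  have hred : r₁ * (η ^ β₁ * ν ^ β₂ * S.rho b2) = η ^ α₁ * ν ^ α₂ * S.rho a2 := rL.unique rR
  have hνm : ν ∈ FFb A N := nu_mem h S hA
  have hηm : η ∈ FFb A N := etaRed_mem h S hA
  have hDm : η ^ β₁ * ν ^ β₂ * S.rho b2 ∈ FFb A N :=
    (FFb A N).mul_mem ((FFb A N).mul_mem (pow_mem hηm _) (pow_mem hνm _)) (S.rho_mem b2)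
  have hNm : η ^ α₁ * ν ^ α₂ * S.rho a2 ∈ FFb A N :=
    (FFb A N).mul_mem ((FFb A N).mul_mem (pow_mem hηm _) (pow_mem hνm _)) (S.rho_mem a2)
  have hD0 : η ^ β₁ * ν ^ β₂ * S.rho b2 ≠ 0 :=
    mul_ne_zero (mul_ne_zero (pow_ne_zero _ hη0) (pow_ne_zero _ hν0)) hρb
  have hN0 : η ^ α₁ * ν ^ α₂ * S.rho a2 ≠ 0 :=
    mul_ne_zero (mul_ne_zero (pow_ne_zero _ hη0) (pow_ne_zero _ hν0)) hρa
  have hr₁eq : r₁ = (η ^ α₁ * ν ^ α₂ * S.rho a2) / (η ^ β₁ * ν ^ β₂ * S.rho b2) :=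
    eq_div_of_mul_eq hD0 hred
  have hr₁m : r₁ ∈ FFb A N := by
    rw [hr₁eq]
    exact (FFb A N).div_mem hNm hDm
  refine ⟨ha₁, hr₁m, ?_⟩
  have o1 := congrArg (ordAt Q) hred
  have oD : ordAt Q (η ^ β₁ * ν ^ β₂ * S.rho b2) =
      β₁ * ordAt Q η + β₂ * ordAt Q ν + S.phi b2 := by
    rw [Fermat.Agent.T8.helper16.ordAt_mul Q
        ((FFb A N).mul_mem (pow_mem hηm _) (pow_mem hνm _)) (S.rho_mem b2)
        (mul_ne_zero (pow_ne_zero _ hη0) (pow_ne_zero _ hν0)) hρb,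
      Fermat.Agent.T8.helper16.ordAt_mul Q (pow_mem hηm _) (pow_mem hνm _)
        (pow_ne_zero _ hη0) (pow_ne_zero _ hν0),
      ordAt_pow Q hηm hη0, ordAt_pow Q hνm hν0]
    rfl
  have oN : ordAt Q (η ^ α₁ * ν ^ α₂ * S.rho a2) =
      α₁ * ordAt Q η + α₂ * ordAt Q ν + S.phi a2 := by
    rw [Fermat.Agent.T8.helper16.ordAt_mul Q
        ((FFb A N).mul_mem (pow_mem hηm _) (pow_mem hνm _)) (S.rho_mem a2)
        (mul_ne_zero (pow_ne_zero _ hη0) (pow_ne_zero _ hν0)) hρa,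
      Fermat.Agent.T8.helper16.ordAt_mul Q (pow_mem hηm _) (pow_mem hνm _)
        (pow_ne_zero _ hη0) (pow_ne_zero _ hν0),
      ordAt_pow Q hηm hη0, ordAt_pow Q hνm hν0]
    rfl
  rw [Fermat.Agent.T8.helper16.ordAt_mul Q hr₁m hDm hr₁ hD0, oD, oN] at o1
  have oη : ordAt Q η = -ordAt Q ν := ordAt_etaRed h S hA
  linear_combination o1 + ((α₁ : ℤ) - β₁) * oη + ordAt Q ν * ha₁

end Red

/-! ### the second component (double points) -/

section Second

variable (h : IsUnit0 hq hqN b0 B ε) (S : SlopeLoc A hq hqN b0 Q Rs)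
  (hA : A.LiesOverPrime q)
  (hint2 : ∀ r ∈ Rs, ∃ s : LaurentSeries (kA A),
    RhoQ A ((atkinLehner N q hq hqN r : FF (N * q)) : LaurentSeries Kb) s)
  (hker2 : ∀ r ∈ Rs,
    RhoQ A ((atkinLehner N q hq hqN r : FF (N * q)) : LaurentSeries Kb) 0 → r * b0⁻¹ ∈ Rs)

include h S hA hint2 hker2

/-- `red₂ r = 0 ↔ y ∣ r` -/
theorem rhoQ2_zero_iff (r : Rs) :
    RhoQ A ((atkinLehner N q hq hqN (r : FF (N * q)) : FF (N * q)) : LaurentSeries Kb) 0 ↔
      S.yy ∣ r := by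
  constructor
  · intro h0
    refine ⟨⟨_, hker2 r r.2 h0⟩, ?_⟩
    apply Subtype.ext
    show (r : FF (N * q)) = b0 * ((r : FF (N * q)) * b0⁻¹)
    rw [mul_comm (r : FF (N * q)), ← mul_assoc, mul_inv_cancel₀ h.ne_zero, one_mul]
  · rintro ⟨c, rfl⟩
    obtain ⟨s, hs⟩ := hint2 c c.2
    have h1 := (rhoQ_xx h hA).mul hs
    rw [zero_mul] at h1
    have e : ((atkinLehner N q hq hqN ((S.yy * c : Rs) : FF (N * q)) : FF (N * q)) :
        LaurentSeries Kb) =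
        ((atkinLehner N q hq hqN b0 : FF (N * q)) : LaurentSeries Kb) *
          ((atkinLehner N q hq hqN (c : FF (N * q)) : FF (N * q)) : LaurentSeries Kb) := by
      rw [Subring.coe_mul, map_mul]
      rfl
    rw [e]
    exact h1

/-- `y` is a prime element of `Rs` (double point) -/
theorem prime_yy : Prime S.yy := by
  refine ⟨yy_ne_zero h S, ?_, ?_⟩
  · intro hu
    have h1 := (rhoQ2_zero_iff h S hA hint2 hker2 1).2 hu.dvd
    have e : ((atkinLehner N q hq hqN ((1 : Rs) : FF (N * q)) : FF (N * q)) :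
        LaurentSeries Kb) = 1 := by
      rw [Subring.coe_one, map_one]
      rfl
    rw [e] at h1
    exact one_ne_zero h1.eq_one.symm
  · intro a b hab
    have h1 := (rhoQ2_zero_iff h S hA hint2 hker2 (a * b)).2 hab
    obtain ⟨s, hs⟩ := hint2 a a.2
    obtain ⟨t, ht⟩ := hint2 b b.2
    have e : ((atkinLehner N q hq hqN ((a * b : Rs) : FF (N * q)) : FF (N * q)) :
        LaurentSeries Kb) =
        ((atkinLehner N q hq hqN (a : FF (N * q)) : FF (N * q)) : LaurentSeries Kb) *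
          ((atkinLehner N q hq hqN (b : FF (N * q)) : FF (N * q)) : LaurentSeries Kb) := by
      rw [Subring.coe_mul, map_mul]
      rfl
    rw [e] at h1
    have h2 := (hs.mul ht).unique h1
    rcases mul_eq_zero.1 h2 with h3 | h3
    · rw [h3] at hs
      exact Or.inl ((rhoQ2_zero_iff h S hA hint2 hker2 a).1 hs)
    · rw [h3] at ht
      exact Or.inr ((rhoQ2_zero_iff h S hA hint2 hker2 b).1 ht)

/-- the Gauss value at the second expansion of an element prime to `y` -/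
theorem gaussIs2_of_not_dvd {r : Rs} (hr : ¬ S.yy ∣ r) :
    GaussIs A ((atkinLehner N q hq hqN (r : FF (N * q)) : FF (N * q)) : LaurentSeries Kb) 1 := by
  obtain ⟨s, hs⟩ := hint2 r r.2
  refine Fermat.Agent.T3.helper36.gaussIs_of_rhoQ hs ?_
  rintro rfl
  exact hr ((rhoQ2_zero_iff h S hA hint2 hker2 r).1 hs)

/-- **the second Gauss value of a factorisation**. -/
theorem w2_factor {a2 b2 : Rs} (ha2 : ¬ S.yy ∣ a2) (hb2 : ¬ S.yy ∣ b2) (α₁ β₁ α₂ β₂ : ℕ)
    {u : FF (N * q)}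
    (hub : u * ((S.xx ^ β₁ * S.yy ^ β₂ * b2 : Rs) : FF (N * q)) =
      ((S.xx ^ α₁ * S.yy ^ α₂ * a2 : Rs) : FF (N * q)))
    {a₂ : ℤ}
    (h2 : GaussIs A ((atkinLehner N q hq hqN u : FF (N * q)) : LaurentSeries Kb)
      ((q : Kb) ^ a₂)) :
    a₂ = (α₂ : ℤ) - β₂ := by
  have hq0 : (q : Kb) ≠ 0 := h.q_ne_zero
  set X : LaurentSeries Kb := ((atkinLehner N q hq hqN b0 : FF (N * q)) : LaurentSeries Kb)
    with hX
  set Y : LaurentSeries Kb := ((b0 : FF (N * q)) : LaurentSeries Kb) with hY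
  set A2 : LaurentSeries Kb :=
    ((atkinLehner N q hq hqN (a2 : FF (N * q)) : FF (N * q)) : LaurentSeries Kb) with hA2
  set B2 : LaurentSeries Kb :=
    ((atkinLehner N q hq hqN (b2 : FF (N * q)) : FF (N * q)) : LaurentSeries Kb) with hB2
  set U : LaurentSeries Kb :=
    ((atkinLehner N q hq hqN u : FF (N * q)) : LaurentSeries Kb) with hU
  have hE : U * (Y ^ β₁ * X ^ β₂ * B2) = Y ^ α₁ * X ^ α₂ * A2 := by
    have h0 := congrArg (atkinLehner N q hq hqN) hub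
    have e1 : atkinLehner N q hq hqN ((S.xx : Rs) : FF (N * q)) = b0 :=
      atkinLehner_atkinLehner N q hq hqN b0
    have e2 : ((S.yy : Rs) : FF (N * q)) = b0 := rfl
    simp only [Subring.coe_mul, Subring.coe_pow, map_mul, map_pow, e1, e2] at h0
    have := congrArg (fun z : FF (N * q) => (z : LaurentSeries Kb)) h0
    exact this
  have gX : GaussIs A X (q : Kb) := Fermat.Agent.T8.helper63.gaussIs_unitW h A
  have gY : GaussIs A Y 1 := Fermat.Agent.T3.helper36.gaussIs_of_rhoQ (rhoQ_yy h hA)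
    (Fermat.Agent.T8.helper63.nu_ne_zero h A)
  have gA2 : GaussIs A A2 1 := gaussIs2_of_not_dvd h S hA hint2 hker2 ha2
  have gB2 : GaussIs A B2 1 := gaussIs2_of_not_dvd h S hA hint2 hker2 hb2
  have gL := h2.mul (((gY.pow β₁).mul (gX.pow β₂)).mul gB2)
  have gR := ((gY.pow α₁).mul (gX.pow α₂)).mul gA2
  rw [hE] at gL
  have c1 : (q : Kb) ^ a₂ * (1 ^ β₁ * (q : Kb) ^ β₂ * 1) = (q : Kb) ^ (a₂ + (β₂ : ℤ)) := by
    rw [zpow_add₀ hq0, zpow_natCast]
    simp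
  have c2 : (1 : Kb) ^ α₁ * (q : Kb) ^ α₂ * 1 = (q : Kb) ^ ((α₂ : ℕ) : ℤ) := by
    rw [zpow_natCast]
    simp
  rw [c1] at gL
  rw [c2] at gR
  have hexp : a₂ + (β₂ : ℤ) = (α₂ : ℤ) :=
    Fermat.Agent.T8.helper48.gaussIs_zpow_unique hq hA gL gR
  omega

end Second

/-! ### the slope -/

section Slope

variable (h : IsUnit0 hq hqN b0 B ε) (S : SlopeLoc A hq hqN b0 Q Rs)
  (hA : A.LiesOverPrime q)

include h S hA

/-- the slope from a factorisation `a = xx^α₁ y^α₂ a₂`, `b = xx^β₁ y^β₂ b₂`. -/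
theorem slope_of_factor (n : ℕ) {u : FF (N * q)}
    (hdiv : ∀ P : Place Kb (FF (N * q)), 0 ≤ P.ord (jElt (N * q)) → (n : ℤ) ∣ P.ord u)
    {a b a2 b2 : Rs} (ha : a ≠ 0) (hb : b ≠ 0)
    (hub : u * (b : FF (N * q)) = (a : FF (N * q)))
    (α₁ β₁ α₂ β₂ : ℕ) (haf : a = S.xx ^ α₁ * S.yy ^ α₂ * a2)
    (hbf : b = S.xx ^ β₁ * S.yy ^ β₂ * b2)
    (hxa : ¬ S.xx ∣ a2) (hxb : ¬ S.xx ∣ b2)
    (hy : ∀ f : Rs, Prime f → f ∣ S.yy → ¬ f ∣ a2 ∧ ¬ f ∣ b2)
    (a₁ a₂ : ℤ) (hm : (a₂ - ((α₂ : ℤ) - β₂)) * ordAt Q (iota (kA A) B) = 0)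
    {r₁ : LaurentSeries (kA A)} (hr₁ : r₁ ≠ 0)
    (h1 : RhoQ A (algebraMap Kb (LaurentSeries Kb) ((q : Kb) ^ a₁)⁻¹ * (u : LaurentSeries Kb))
      r₁) :
    r₁ ∈ FFb A N ∧ (n : ℤ) ∣ ordAt Q r₁ + (a₁ - a₂) * ordAt Q (iota (kA A) B) := by
  haveI := S.ufm
  have px := prime_xx h S hA
  have ha20 : a2 ≠ 0 := by
    rintro rfl
    exact hxa (dvd_zero _)
  have hb20 : b2 ≠ 0 := by
    rintro rfl
    exact hxb (dvd_zero _)
  have hρ : ∀ r : Rs, ¬ S.xx ∣ r → S.rho r ≠ 0 :=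
    fun r hr h0 => hr ((rho_eq_zero_iff h S hA r).1 h0)
  have hslope : (n : ℤ) ∣ S.phi a2 - S.phi b2 := by
    refine helper5T8.slope_abstract n S.xx px S.phi
      (fun u v hu hv => S.phi_mul (hρ u hu) (hρ v hv)) (fun e => S.phi_unit e)
      a2 b2 ha20 hb20 hxa hxb ?_
    intro f hf
    by_cases hfxy : f ∣ S.xx * S.yy
    · have hnd : ¬ f ∣ a2 ∧ ¬ f ∣ b2 := by
        rcases hf.dvd_or_dvd hfxy with hx | hy'
        · have has := hf.associated_of_dvd px hx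
          exact ⟨fun hd => hxa (has.dvd_iff_dvd_left.1 hd),
            fun hd => hxb (has.dvd_iff_dvd_left.1 hd)⟩
        · exact hy f hf hy'
      rw [multiplicity_eq_zero.2 hnd.1, multiplicity_eq_zero.2 hnd.2]
      simp
    · have h3 := hor_dvd h S n ha hb hub hdiv hf hfxy
      rw [haf, hbf, multiplicity_factor h S hf hfxy α₁ α₂ ha20,
        multiplicity_factor h S hf hfxy β₁ β₂ hb20] at h3
      exact h3
  have hub' : u * ((S.xx ^ β₁ * S.yy ^ β₂ * b2 : Rs) : FF (N * q)) =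
      ((S.xx ^ α₁ * S.yy ^ α₂ * a2 : Rs) : FF (N * q)) := by
    rw [← haf, ← hbf]
    exact hub
  obtain ⟨ha₁, hmem, hord⟩ := red_factor h S hA hxa hxb α₁ β₁ α₂ β₂ hub' hr₁ h1
  refine ⟨hmem, ?_⟩
  have e : ordAt Q r₁ + (a₁ - a₂) * ordAt Q (iota (kA A) B) = S.phi a2 - S.phi b2 := by
    linear_combination hord - hm
  rw [e]
  exact hslope

/-- **[SLOPE] at the point `Q`**: the conclusion of `helper16.SlopeXStatement`. -/
theorem slopeAt (n : ℕ) {u : FF (N * q)} (hu : u ≠ 0) (hfix : IsFixI A (N * q) u)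
    (hdiv : ∀ P : Place Kb (FF (N * q)), 0 ≤ P.ord (jElt (N * q)) → (n : ℤ) ∣ P.ord u)
    (a₁ a₂ : ℤ) {r₁ : LaurentSeries (kA A)} (hr₁ : r₁ ≠ 0)
    (h1 : RhoQ A (algebraMap Kb (LaurentSeries Kb) ((q : Kb) ^ a₁)⁻¹ * (u : LaurentSeries Kb))
      r₁)
    (h2 : GaussIs A ((atkinLehner N q hq hqN u : FF (N * q)) : LaurentSeries Kb)
      ((q : Kb) ^ a₂)) :
    r₁ ∈ FFb A N ∧ (n : ℤ) ∣ ordAt Q r₁ + (a₁ - a₂) * ordAt Q (iota (kA A) B) := by
  haveI := S.ufm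
  have px := prime_xx h S hA
  obtain ⟨a', ha', b', hb', hb'0, hub⟩ := S.frac u hfix
  set a : Rs := ⟨a', ha'⟩ with hadef
  set b : Rs := ⟨b', hb'⟩ with hbdef
  have hb0 : b ≠ 0 := fun h0 => hb'0 (congrArg Subtype.val h0)
  have ha0 : a ≠ 0 := by
    intro h0
    have h3 : a' = 0 := congrArg Subtype.val h0
    rw [h3] at hub
    rcases mul_eq_zero.1 hub with h4 | h4
    · exact hu h4
    · exact hb'0 h4
  have hub1 : u * (b : FF (N * q)) = (a : FF (N * q)) := hub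
  obtain ⟨a1, ha1, hxa1⟩ :=
    (FiniteMultiplicity.of_prime_left px ha0).exists_eq_pow_mul_and_not_dvd
  obtain ⟨b1, hb1, hxb1⟩ :=
    (FiniteMultiplicity.of_prime_left px hb0).exists_eq_pow_mul_and_not_dvd
  rcases S.ycase with hyinv | ⟨hint2, hker2⟩
  · -- smooth point
    have hν0 : iota (kA A) B ≠ 0 := Fermat.Agent.T8.helper63.nu_ne_zero h A
    have hyu : IsUnit S.yy := by
      refine IsUnit.of_mul_eq_one (⟨_, hyinv⟩ : Rs) (Subtype.ext ?_)
      show b0 * b0⁻¹ = 1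
      exact mul_inv_cancel₀ h.ne_zero
    have hm0 : ordAt Q (iota (kA A) B) = 0 := by
      have h3 : RhoQ A (((⟨b0⁻¹, hyinv⟩ : Rs) : FF (N * q)) : LaurentSeries Kb)
          (iota (kA A) B)⁻¹ := (rhoQ_yy h hA).inv hν0
      have h4 := S.rho_nonneg (⟨b0⁻¹, hyinv⟩ : Rs)
      rw [S.rho_eq h3, ordAt_inv Q (nu_mem h S hA)] at h4
      have h5 := S.rho_nonneg S.yy
      rw [rho_yy h S hA] at h5
      omega
    refine slope_of_factor h S hA n hdiv ha0 hb0 hub1 (multiplicity S.xx a)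
      (multiplicity S.xx b) 0 0
      (by rw [pow_zero, mul_one]; exact ha1) (by rw [pow_zero, mul_one]; exact hb1)
      hxa1 hxb1 ?_ a₁ a₂ (by rw [hm0, mul_zero]) hr₁ h1
    intro f hf hfy
    exact absurd (isUnit_of_dvd_unit hfy hyu) hf.not_isUnit
  · -- double point
    have py := prime_yy h S hA hint2 hker2
    have ha10 : a1 ≠ 0 := by
      rintro rfl
      exact hxa1 (dvd_zero _)
    have hb10 : b1 ≠ 0 := by
      rintro rfl
      exact hxb1 (dvd_zero _)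
    obtain ⟨a2, ha2, hya2⟩ :=
      (FiniteMultiplicity.of_prime_left py ha10).exists_eq_pow_mul_and_not_dvd
    obtain ⟨b2, hb2, hyb2⟩ :=
      (FiniteMultiplicity.of_prime_left py hb10).exists_eq_pow_mul_and_not_dvd
    have hxa2 : ¬ S.xx ∣ a2 := fun hd => hxa1 (by rw [ha2]; exact hd.mul_left _)
    have hxb2 : ¬ S.xx ∣ b2 := fun hd => hxb1 (by rw [hb2]; exact hd.mul_left _)
    have haf : a = S.xx ^ multiplicity S.xx a * S.yy ^ multiplicity S.yy a1 * a2 := by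
      rw [mul_assoc, ← ha2]
      exact ha1
    have hbf : b = S.xx ^ multiplicity S.xx b * S.yy ^ multiplicity S.yy b1 * b2 := by
      rw [mul_assoc, ← hb2]
      exact hb1
    have hub' : u * ((S.xx ^ multiplicity S.xx b * S.yy ^ multiplicity S.yy b1 * b2 : Rs) :
        FF (N * q)) =
        ((S.xx ^ multiplicity S.xx a * S.yy ^ multiplicity S.yy a1 * a2 : Rs) : FF (N * q)) := by
      rw [← haf, ← hbf]
      exact hub1
    have ha₂ := w2_factor h S hA hint2 hker2 hya2 hyb2 _ _ _ _ hub' h2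
    refine slope_of_factor h S hA n hdiv ha0 hb0 hub1 _ _ _ _ haf hbf hxa2 hxb2 ?_ a₁ a₂
      (by rw [ha₂, sub_self, zero_mul]) hr₁ h1
    intro f hf hfy
    have has := hf.associated_of_dvd py hfy
    exact ⟨fun hd => hya2 (has.dvd_iff_dvd_left.1 hd),
      fun hd => hyb2 (has.dvd_iff_dvd_left.1 hd)⟩

end Slope

end SlopeLoc

end Core

end Fermat.Agent.T8.helper5

end
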