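import Mathlib
import Fermat.Agent.T3.helper5_Gauss3CGauss
import Fermat.Agent.T8.helper65_K1Cor
import Fermat.Agent.T8.helper65_NormCover
import Fermat.Agent.T8.helper29_ConclQ
import Fermat.Agent.T8.helper98_SplitKum
import Fermat.Agent.T3.helper23_PlaceTransport
import Fermat.Agent.T2.helper58_ScaleBad
import Fermat.Agent.T8.helper38_WallChain

/-!
# T8 = row 38 via S44, leaf [SPLIT] (helper98, owner): the period formula in the SPLIT case

Vocabulary of T2 / T7 / T8: level `M`, `W : FF M ≃ₐ[Kb] FF M` commuting with the Galois action,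
involutive (`W = atkinLehner N p`, `M = N p`), `A` a valuation subring of `ℚ̄` over `p`,
`I_K1 = muFix p ⊓ I_A` (`helper98.IsIK1`), `ν : FFb A M` (the reduction of the unit `b₀`).

* `ordS Q r`        : the order at the place `Q` of the special fibre of the series `r`
                      (`0` if `r` is not a function of the special fibre);
* `mS ν Q`          : `ord_Q ν` at the non-cuspidal places, `0` at the cuspidal places;
* `K0Statement M W A p ν` : **the input** = the K0-COROLLARY of [SLOPE] (`helper65.K0CorAt`) at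
                      every place `Q ≠ ∞` of the special fibre, with `m_Q = mS ν Q`
                      (non-cuspidal `Q`: UFD2 at the double / smooth point `Q`, vertical primes
                      `xx`, `y`; cuspidal `Q`: vertical prime `p`, no `ν`);
* `exists_val_of_k1Fixed` : the scaling constant `c` of an `I_K1`-fixed function satisfies
                      `v(c ^ (p - 1)) = v(p ^ k)` for some `k : ℤ` (norm to `K0` + T3 discreteness);
* `slopeFormQ_of_k1Fixed` : **[SPLIT], function form**: for an `I_K1`-fixed Kummer function `u`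
                      (`p ∣ div u`) there is `β` with `helper29.SlopeFormQ W A p ν β (-β) u`;
* `splitSlope_class` : **[SPLIT], class form**: a class `x` killed by `p` and fixed by `I_K1` has a
                      Kummer representative `u` (`helper94.IsKummerRep p x u`), `I_K1`-fixed, with
                      leading coefficient `1` and `SlopeFormQ W A p ν β (-β) u`.
-/

set_option autoImplicit false
set_option linter.unusedSectionVars false
set_option linter.unusedVariables false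
set_option linter.style.longLine false
set_option linter.style.haveILetI false

noncomputable section

namespace Fermat.Agent.T8.helper98

open HahnSeries IntermediateField AlgebraicCurve ModularCurve
open Fermat.Agent.S18.helper19 Fermat.Agent.P2.helper29 Fermat.Agent.P2.helper93
open Fermat.Agent.T3.helper36 (RhoQ GaussIs)
open Fermat.Agent.T8.helper65 (HasRed K0CorAt K1CorAt muFix IA IsRedQuot)

variable {M : ℕ} [NeZero M] {A : ValuationSubring Kb} {p : ℕ}

/-! ### Orders of series of the special fibre -/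

/-- the order at the place `Q` of the special fibre of a series `r` (`0` if `r` is not a
function of the special fibre). -/
def ordS (Q : Place (kA A) (FFb A M)) (r : LaurentSeries (kA A)) : ℤ :=
  open Classical in if h : r ∈ FFb A M then Q.ord (⟨r, h⟩ : FFb A M) else 0

theorem ordS_coe (Q : Place (kA A) (FFb A M)) (f : FFb A M) :
    ordS Q (f : LaurentSeries (kA A)) = Q.ord f := by
  unfold ordS
  rw [dif_pos f.2]

theorem ordS_pow (Q : Place (kA A) (FFb A M)) (f : FFb A M) (n : ℕ) :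
    ordS Q ((f : LaurentSeries (kA A)) ^ n) = n * ordS Q (f : LaurentSeries (kA A)) := by
  have e : ((f : LaurentSeries (kA A)) ^ n) = ((f ^ n : FFb A M) : LaurentSeries (kA A)) := rfl
  rw [e, ordS_coe, ordS_coe]
  have := Q.ord_zpow f (n : ℤ)
  rwa [zpow_natCast] at this

/-- a quotient of reductions of good series is a function of the special fibre -/
theorem mem_of_isRedQuot {r : LaurentSeries (kA A)} (h : IsRedQuot (IsGood A M) r) :
    r ∈ FFb A M := by
  obtain ⟨Y₁, Y₂, g₁, g₂, e⟩ := h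
  have e' : r = red A Y₁ / red A Y₂ := by
    rw [← e, mul_div_assoc, div_self g₂.2.2, mul_one]
  rw [e']
  exact (FFb A M).div_mem g₁.2.1 g₂.2.1

theorem ordS_pow_of_isRedQuot (Q : Place (kA A) (FFb A M)) (r : LaurentSeries (kA A)) (n : ℕ)
    (h : IsRedQuot (IsGood A M) r) : ordS Q (r ^ n) = n * ordS Q r :=
  ordS_pow Q ⟨r, mem_of_isRedQuot h⟩ n

/-- `ord_Q ν` at the non-cuspidal places, `0` at the cuspidal places -/
def mS (ν : FFb A M) (Q : Place (kA A) (FFb A M)) : ℤ :=
  open Classical in if 0 ≤ Q.ord (Fermat.Agent.T8.helper29.jbar A M) then Q.ord ν else 0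

theorem mS_of_nonneg {ν : FFb A M} {Q : Place (kA A) (FFb A M)}
    (h : 0 ≤ Q.ord (Fermat.Agent.T8.helper29.jbar A M)) : mS ν Q = Q.ord ν := by
  unfold mS
  rw [if_pos h]

theorem mS_of_neg {ν : FFb A M} {Q : Place (kA A) (FFb A M)}
    (h : Q.ord (Fermat.Agent.T8.helper29.jbar A M) < 0) : mS ν Q = 0 := by
  unfold mS
  rw [if_neg (not_le.mpr h)]

/-! ### The input contract -/

/-- **the K0-COROLLARY of [SLOPE] at every place `≠ ∞` of the special fibre** (input of [SPLIT]):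
`helper65.K0CorAt` with `ordQ = ord_Q` and `m = ord_Q ν` (non-cuspidal `Q`), `m = 0`
(cuspidal `Q`). -/
def K0Statement (M : ℕ) [NeZero M] (W : FF M ≃ₐ[Kb] FF M) (A : ValuationSubring Kb) (p : ℕ)
    (ν : FFb A M) : Prop :=
  ∀ Q : Place (kA A) (FFb A M), ¬ IsInfty Q →
    K0CorAt M (W : FF M →+* FF M) A p (IsGood A M) (ordS Q) (mS ν Q)

/-- the non-cuspidal half of `K0Statement` -/
def K0FinStatement (M : ℕ) [NeZero M] (W : FF M ≃ₐ[Kb] FF M) (A : ValuationSubring Kb) (p : ℕ)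
    (ν : FFb A M) : Prop :=
  ∀ Q : Place (kA A) (FFb A M), 0 ≤ Q.ord (Fermat.Agent.T8.helper29.jbar A M) →
    K0CorAt M (W : FF M →+* FF M) A p (IsGood A M) (ordS Q) (Q.ord ν)

/-- the cuspidal half of `K0Statement` -/
def K0CuspStatement (M : ℕ) [NeZero M] (W : FF M ≃ₐ[Kb] FF M) (A : ValuationSubring Kb)
    (p : ℕ) : Prop :=
  ∀ Q : Place (kA A) (FFb A M), ¬ IsInfty Q →
    Q.ord (Fermat.Agent.T8.helper29.jbar A M) < 0 →
    K0CorAt M (W : FF M →+* FF M) A p (IsGood A M) (ordS Q) 0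

theorem k0Statement_of_fin_cusp {W : FF M ≃ₐ[Kb] FF M} {ν : FFb A M}
    (h1 : K0FinStatement M W A p ν) (h2 : K0CuspStatement M W A p) :
    K0Statement M W A p ν := by
  intro Q hQ
  rcases lt_or_ge (Q.ord (Fermat.Agent.T8.helper29.jbar A M)) 0 with hj | hj
  · rw [mS_of_neg hj]
    exact h2 Q hQ hj
  · rw [mS_of_nonneg hj]
    exact h1 Q hj

/-! ### Valuations of the scaling constants -/

theorem isIK1_iff_mem {σ : Kb ≃ₐ[ℚ] Kb} : IsIK1 A p σ ↔ σ ∈ muFix p ⊓ IA A :=
  ⟨fun h => ⟨h.2, h.1⟩, fun h => ⟨h.2, h.1⟩⟩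

theorem gaussIs_of_hasRed {c : Kb} (hc : c ≠ 0) {g : LaurentSeries Kb}
    {r : LaurentSeries (kA A)} (h : HasRed (IsGood A M) c g r) : GaussIs A g c := by
  obtain ⟨Y₁, Y₂, g₁, g₂, e, er⟩ := h
  exact Fermat.Agent.T3.helper5.gaussIs_of_scaling hc g₁.2.2 g₂.2.2 e

theorem val_eq_of_div_mem {x y : Kb} (hx : x ≠ 0) (hy : y ≠ 0) (h1 : x / y ∈ A)
    (h2 : y / x ∈ A) : A.valuation x = A.valuation y := by
  have m1 : A.valuation (x / y) ≤ 1 := (A.valuation_le_one_iff _).2 h1
  have m2 : A.valuation (y / x) ≤ 1 := (A.valuation_le_one_iff _).2 h2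
  rw [map_div₀] at m1 m2
  have hvx : 0 < A.valuation x := zero_lt_iff.2 ((Valuation.ne_zero_iff _).2 hx)
  have hvy : 0 < A.valuation y := zero_lt_iff.2 ((Valuation.ne_zero_iff _).2 hy)
  rw [div_le_one₀ hvy] at m1
  rw [div_le_one₀ hvx] at m2
  exact le_antisymm m1 m2

theorem div_mem_of_val_eq {x y : Kb} (hy : y ≠ 0) (h : A.valuation x = A.valuation y) :
    x / y ∈ A := by
  rw [← A.valuation_le_one_iff, map_div₀, h, div_self ((Valuation.ne_zero_iff _).2 hy)]

variable [Fact p.Prime]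

/-- **the scaling constant of an `I_K1`-fixed function**: `v(c ^ (p - 1)) = v(p ^ k)`. -/
theorem exists_val_of_k1Fixed (hA : A.LiesOverPrime p) (hSc : ScaleStatement M A) {u : FF M}
    (hu : u ≠ 0) (hfix : ∀ σ ∈ muFix p ⊓ IA A, galF M σ u = u) {c : Kb} (hc : c ≠ 0)
    {r : LaurentSeries (kA A)} (h : HasRed (IsGood A M) c (u : LaurentSeries Kb) r) :
    ∃ k : ℤ, A.valuation (c ^ (p - 1)) = A.valuation ((p : Kb) ^ k) := by
  have hp : p.Prime := Fact.out
  haveI := Fermat.Agent.T8.helper65.finiteIndex_muFix (p := p) A hA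
  have hidx : helper65.idx A (muFix p) = p - 1 := Fermat.Agent.T8.helper65.idx_muFix A hA
  have hU0 : helper65.normF A (muFix p) M u ≠ 0 := Fermat.Agent.T8.helper65.normF_ne_zero hu
  have hUfix : ∀ σ ∈ IA A, galF M σ (helper65.normF A (muFix p) M u) = helper65.normF A (muFix p) M u :=
    fun σ hσ => Fermat.Agent.T8.helper65.galF_normF hfix hσ
  obtain ⟨m, hm⟩ := Fermat.Agent.T3.helper5.gaussIs_fixI hp hA hSc hU0 hUfix
  have hR : HasRed (IsGood A M) (helper65.normC A (muFix p) c)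
      ((helper65.normF A (muFix p) M u : FF M) : LaurentSeries Kb) (r ^ (p - 1)) := by
    rw [Fermat.Agent.T8.helper65.coe_normF, ← hidx]
    exact Fermat.Agent.T8.helper65.hasRed_normCoset
      (Fermat.Agent.T8.helper65.goodClass_isGood M) h
  have hN : helper65.normC A (muFix p) c ≠ 0 := by
    intro h0
    obtain ⟨Y₁, Y₂, g₁, g₂, e, er⟩ := hR
    rw [h0, map_zero, zero_mul] at e
    rcases mul_eq_zero.mp e.symm with h1 | h1
    · exact hU0 (Subtype.ext h1)
    · apply g₂.2.2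
      have hinj : Function.Injective (incl A) := by
        intro a b hab
        refine HahnSeries.ext (funext fun n => ?_)
        have := congrArg (fun s : LaurentSeries Kb => s.coeff n) hab
        simpa [incl] using Subtype.ext this
      have h4 : Y₂ = 0 := hinj (by rw [h1, map_zero])
      rw [h4, map_zero]
  have hG := gaussIs_of_hasRed hN hR
  have hv := hG.valuation_eq hm
  have ha := Fermat.Agent.T8.helper65.normCoset_const_div_mem (A := A) (H := muFix p) hc
  have ha' := Fermat.Agent.T8.helper65.normCoset_const_div_mem' (A := A) (H := muFix p) hc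
  rw [hidx] at ha ha'
  refine ⟨m, ?_⟩
  rw [← hv]
  exact val_eq_of_div_mem (pow_ne_zero _ hc) hN ha' ha

/-! ### The period formula for `I_K1`-fixed Kummer functions -/

/-- a scaling of a nonzero function, in `HasRed` and in `IsRedQ` form -/
theorem exists_hasRed_isRedQ (hSc : ScaleStatement M A) {u : FF M} (hu : u ≠ 0) :
    ∃ (c : Kb) (f : FFb A M), c ≠ 0 ∧
      HasRed (IsGood A M) c (u : LaurentSeries Kb) (f : LaurentSeries (kA A)) ∧
      Fermat.Agent.T8.helper29.IsRedQ A (u : LaurentSeries Kb) f := by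
  obtain ⟨c, Y₁, Y₂, hc, g₁, g₂, e⟩ := hSc (u : LaurentSeries Kb) u.2
    (fun h => hu (Subtype.ext h))
  have hmem : red A Y₁ / red A Y₂ ∈ FFb A M := (FFb A M).div_mem g₁.2.1 g₂.2.1
  have er : red A Y₁ / red A Y₂ * red A Y₂ = red A Y₁ := div_mul_cancel₀ _ g₂.2.2
  exact ⟨c, ⟨_, hmem⟩, hc, ⟨Y₁, Y₂, g₁, g₂, e, er⟩, ⟨c, Y₁, Y₂, hc, g₁, g₂, e, er⟩⟩

/-- **[SPLIT], function form**: the period formula `c(x) = β m` for an `I_K1`-fixed Kummer
function, from the K0-COROLLARY of [SLOPE] at every place `≠ ∞` of the special fibre. -/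
theorem slopeFormQ_of_k1Fixed (hA : A.LiesOverPrime p) (hSc : ScaleStatement M A)
    (W : FF M ≃ₐ[Kb] FF M)
    (hWgal : ∀ (σ : Kb ≃ₐ[ℚ] Kb) (x : FF M), W (galF M σ x) = galF M σ (W x))
    (hW2 : ∀ x : FF M, W (W x) = x) (ν : FFb A M) (hK0 : K0Statement M W A p ν)
    {u : FF M} (hu : u ≠ 0) (hfix : FixedBy M (IsIK1 A p) u)
    (hdiv : ∀ P : Place Kb (FF M), (p : ℤ) ∣ P.ord u) :
    ∃ β : ℤ, Fermat.Agent.T8.helper29.SlopeFormQ W A p ν β (-β) u := by
  have hp : p.Prime := Fact.out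
  have hp0 : (p : Kb) ≠ 0 := by exact_mod_cast hp.ne_zero
  have hfix' : ∀ σ ∈ muFix p ⊓ IA A, galF M σ u = u :=
    fun σ hσ => hfix σ (isIK1_iff_mem.mpr hσ)
  have hWu : W u ≠ 0 := (map_ne_zero_iff W W.injective).mpr hu
  have hfixW : ∀ σ ∈ muFix p ⊓ IA A, galF M σ (W u) = W u :=
    fun σ hσ => by rw [← hWgal, hfix' σ hσ]
  have hdivW : ∀ P : Place Kb (FF M), (p : ℤ) ∣ P.ord (W u) := fun P => by
    rw [← Fermat.Agent.T3.helper23.ord_placeComap W P u]
    exact hdiv _
  obtain ⟨c₁, f₁, hc₁, hr₁, hq₁⟩ := exists_hasRed_isRedQ (A := A) hSc hu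
  obtain ⟨c₂, f₂, hc₂, hr₂, hq₂⟩ := exists_hasRed_isRedQ (A := A) hSc hWu
  obtain ⟨k₁, hk₁⟩ := exists_val_of_k1Fixed hA hSc hu hfix' hc₁ hr₁
  obtain ⟨k₂, hk₂⟩ := exists_val_of_k1Fixed hA hSc hWu hfixW hc₂ hr₂
  -- the constants
  have hv : A.valuation ((c₂ / c₁) ^ (p - 1)) = A.valuation ((p : Kb) ^ (k₂ - k₁)) := by
    rw [div_pow, map_div₀, hk₁, hk₂, ← map_div₀, zpow_sub₀ hp0]
  have hv' : A.valuation ((c₁ / c₂) ^ (p - 1)) = A.valuation ((p : Kb) ^ (-(k₂ - k₁))) := by
    rw [div_pow, map_div₀, hk₁, hk₂, ← map_div₀, neg_sub, zpow_sub₀ hp0]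
  have hpk : ∀ k : ℤ, (p : Kb) ^ k ≠ 0 := fun k => zpow_ne_zero _ hp0
  have hcc : (c₂ / c₁) ^ (p - 1) ≠ 0 := pow_ne_zero _ (div_ne_zero hc₂ hc₁)
  have hcc' : (c₁ / c₂) ^ (p - 1) ≠ 0 := pow_ne_zero _ (div_ne_zero hc₁ hc₂)
  have hr₁' : HasRed (IsGood A M) c₁
      (((W : FF M →+* FF M) ((W : FF M →+* FF M) u) : FF M) : LaurentSeries Kb)
      (f₁ : LaurentSeries (kA A)) := by
    have e : (W : FF M →+* FF M) ((W : FF M →+* FF M) u) = u := hW2 u
    rw [e]
    exact hr₁
  refine ⟨-(k₂ - k₁), f₁, f₂, ⟨hq₁, hq₂⟩, fun Q hQ => ?_⟩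
  have hK1 : K1CorAt M (W : FF M →+* FF M) A p (IsGood A M) (ordS Q) (mS ν Q) :=
    Fermat.Agent.T8.helper65.k1CorAt_of_k0CorAt hA (Fermat.Agent.T8.helper65.goodClass_isGood M)
      (W : FF M →+* FF M) hWgal (ordS Q) (mS ν Q) (fun r n hr => ordS_pow_of_isRedQuot Q r n hr)
      (hK0 Q hQ)
  have h1 := hK1 u hu hfix' hdiv c₁ c₂ (f₁ : LaurentSeries (kA A)) (f₂ : LaurentSeries (kA A))
    (k₂ - k₁) hc₁ hc₂ hr₁ hr₂ (div_mem_of_val_eq (hpk _) hv)
    (div_mem_of_val_eq hcc hv.symm)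
  have h2 := hK1 (W u) hWu hfixW hdivW c₂ c₁ (f₂ : LaurentSeries (kA A))
    (f₁ : LaurentSeries (kA A)) (-(k₂ - k₁)) hc₂ hc₁ hr₂ hr₁' (div_mem_of_val_eq (hpk _) hv')
    (div_mem_of_val_eq hcc' hv'.symm)
  rw [ordS_coe] at h1 h2
  constructor
  · intro hj
    rw [mS_of_nonneg hj] at h1 h2
    constructor
    · have e : Q.ord f₁ - -(k₂ - k₁) * Q.ord ν = Q.ord f₁ + (k₂ - k₁) * Q.ord ν := by ring
      rw [e]
      exact h1
    · have e : Q.ord f₂ - - -(k₂ - k₁) * Q.ord ν = Q.ord f₂ + -(k₂ - k₁) * Q.ord ν := by ring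
      rw [e]
      exact h2
  · intro hj
    rw [mS_of_neg hj] at h1 h2
    constructor
    · simpa using h1
    · simpa using h2

/-! ### Class form -/

/-- the period formula `c(x) = β m` on classes, in the shape of `helper29.IsWallCQ`:
`x` has a Kummer generator `u` (`q • D = div u`, `[D] = x`) with `SlopeFormQ β₁ β₂ u`. -/
def IsWallBQ (N q : ℕ) [NeZero N] [NeZero q] (hq : q.Prime) (hqN : ¬ q ∣ N)
    (A : ValuationSubring Kb) (ν : FFb A (N * q)) (x : JZero (N * q)) : Prop :=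
  ∃ (D : Divisor.degZero (K := Kb) (F := FF (N * q))) (u : FF (N * q)),
    (Pic0.mk D : JZero (N * q)) = x ∧ IsRootDiv q (D : Divisor Kb (FF (N * q))) u ∧
      ∃ β₁ β₂ : ℤ, Fermat.Agent.T8.helper29.SlopeFormQ
        (Fermat.Agent.T2.helper36.atkinLehner N q hq hqN) A q ν β₁ β₂ u

/-- **[SPLIT], class form** (general level `M`, involution `W`): a class killed by `p` and fixed
by `I_K1` has an `I_K1`-fixed Kummer representative, normalised at `∞`, which satisfies the
period formula. -/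
theorem splitSlope_class (hA : A.LiesOverPrime p) (hSc : ScaleStatement M A)
    (W : FF M ≃ₐ[Kb] FF M)
    (hWgal : ∀ (σ : Kb ≃ₐ[ℚ] Kb) (x : FF M), W (galF M σ x) = galF M σ (W x))
    (hW2 : ∀ x : FF M, W (W x) = x) (ν : FFb A M) (hK0 : K0Statement M W A p ν)
    {x : JZero M} (hx : p • x = 0) (hfix : ∀ σ, IsIK1 A p σ → σ • x = x) :
    ∃ u : FF M, Fermat.Agent.P3.helper94.IsKummerRep p x u ∧ FixedBy M (IsIK1 A p) u ∧
      lcF u = 1 ∧ ∃ β : ℤ, Fermat.Agent.T8.helper29.SlopeFormQ W A p ν β (-β) u := by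
  have hp : p.Prime := Fact.out
  obtain ⟨u, h1, h2, h3⟩ := exists_k1_kummerRep (M := M) A hp.pos hx hfix
  refine ⟨u, h1, h2, h3, ?_⟩
  refine slopeFormQ_of_k1Fixed hA hSc W hWgal hW2 ν hK0 h1.ne_zero h2 (fun P => ?_)
  obtain ⟨-, D, -, hD⟩ := h1
  exact ⟨_, (hD P).symm⟩

/-- **[SPLIT], class form at the bad pair `(N, q)`**: `IsWallBQ`. -/
theorem isWallBQ_of_split (N q : ℕ) [NeZero N] [NeZero q] (hq : q.Prime) (hqN : ¬ q ∣ N)
    (A : ValuationSubring Kb) (hA : A.LiesOverPrime q) (ν : FFb A (N * q))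
    (hK0 : K0Statement (N * q) (Fermat.Agent.T2.helper36.atkinLehner N q hq hqN) A q ν)
    {x : JZero (N * q)} (hx : q • x = 0) (hfix : ∀ σ, IsIK1 A q σ → σ • x = x) :
    IsWallBQ N q hq hqN A ν x := by
  haveI : Fact q.Prime := ⟨hq⟩
  obtain ⟨u, ⟨hu0, D, hD, hDu⟩, -, -, β, hβ⟩ := splitSlope_class (M := N * q) hA
    (Fermat.Agent.T2.helper58.scaleStatement_bad N q hq hqN A hA)
    (Fermat.Agent.T2.helper36.atkinLehner N q hq hqN)
    (fun σ y => Fermat.Agent.T2.helper36.atkinLehner_arithmeticRingAut N q hq hqN σ y)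
    (fun y => Fermat.Agent.T2.helper36.atkinLehner_atkinLehner N q hq hqN y) ν hK0 hx hfix
  exact ⟨D, u, hD, ⟨hu0, hDu⟩, β, -β, hβ⟩

/-! ### The split box of the wall (`helper38.SplitWallStatement`) -/

/-- the reduction `ν` of the unit `b₀`, as a datum (fixed by [RING-X] / [CONCL]) -/
abbrev NuData : Type :=
  ∀ (P : FreyPackage) (M' : ℕ) [NeZero M'] (A : ValuationSubring Kb), FFb A (4 * M' * P.p)

/-- the intermediate wall predicate `c(x) = β m` as `helper72.WallData` -/
def wallBQ (ν : NuData) : Fermat.Agent.T8.helper72.WallData := fun P M' _ A x =>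
  ∀ hpN : ¬ P.p ∣ 4 * M', IsWallBQ (4 * M') P.p P.pp hpN A (ν P M' A) x

/-- the K0-COROLLARY at the bad pairs `(4 M', p)` of the Frey packages (input of the split box) -/
def K0WallStatement (ν : NuData) : Prop :=
  ∀ (P : FreyPackage) (M' : ℕ) [NeZero M'] (hpN : ¬ P.p ∣ 4 * M') (A : ValuationSubring Kb),
    A.LiesOverPrime P.p →
    K0Statement (4 * M' * P.p) (Fermat.Agent.T2.helper36.atkinLehner (4 * M') P.p P.pp hpN) A
      P.p (ν P M' A)

/-- **the SPLIT box of the wall**, from the K0-COROLLARY of [SLOPE]. -/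
theorem splitWall_of_k0 (π : Fermat.Agent.T8.helper72.PullData) (ν : NuData)
    (hK0 : K0WallStatement ν) :
    Fermat.Agent.T8.helper38.SplitWallStatement π (wallBQ ν) := by
  intro P W M' _ hpN A V0 ctx x hx hfix hpN'
  exact isWallBQ_of_split (4 * M') P.p P.pp hpN' A ctx.liesOver (ν P M' A)
    (hK0 P M' hpN' A ctx.liesOver) (ctx.real.tors x hx) hfix

end Fermat.Agent.T8.helper98

end
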