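import Mathlib
import Fermat.Agent.T8.helper98_SplitSlope
import Fermat.Agent.T8.helper65_K1SlopeX
import Fermat.Agent.T8.helper29_ConclN
import Fermat.Agent.T8.helper29_ConclOrd

/-!
# T8 = row 38 via S44, leaf [SPLIT] (helper98, owner): the SPLIT box at `B = helper29.wallBN`

The split box of the wall `helper38.SplitWallStatement π helper29.wallBN` (team vocabulary of
`helper29_ConclN`: `FFb A N`, `helper54.IsRed1`, `helper54.ModEqOff`, off the cusps), from the
consumer contract `helper16.SlopeXStatement` of [RING-X]: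

* `isWallBN2_of_split` : bad pair `(N, q)`, `A` over `q`, `b₀` the weight-one unit with expansion
  `B`, `ν` a first-component reduction of `b₀`; a class `x` killed by `q` and fixed by `I_K1` has
  `helper29.IsWallBN2 A N q W ν x` (with `β₂ = - β₁`);
* `SlopeXWallStatement` : `helper16.SlopeXStatement` at the bad pairs `(4 M', p)` of the Frey
  packages (the only hypothesis);
* `splitWallBN` : `SlopeXWallStatement → helper38.SplitWallStatement π helper29.wallBN`.

Route: `exists_k1_kummerRep` (Hilbert 90: an `I_K1`-fixed Kummer representative `u`), scalings of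
`u` and `W u` (T2 `scaleStatement_bad`), `helper65.exists_k1Slope` (norm to `K0` + [RING-X]).
-/

set_option autoImplicit false
set_option linter.unusedSectionVars false
set_option linter.unusedVariables false
set_option linter.style.longLine false
set_option linter.style.haveILetI false

noncomputable section

namespace Fermat.Agent.T8.helper98

open HahnSeries IntermediateField AlgebraicCurve ModularCurve
open Fermat.Agent.S18.helper19 Fermat.Agent.P2.helper29 Fermat.Agent.P2.helper93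
open Fermat.Agent.T3.helper36 (RhoQ GaussIs)
open Fermat.Agent.T8.helper65 (HasRed muFix IA)
open Fermat.Agent.P2.helper66 (iota)
open Fermat.Agent.T8.helper54 (IsRed1 DvdOff ModEqOff)
open Fermat.Agent.T3.helper16 (IsUnit0)
open Fermat.Agent.T8.helper16 (ordAt IsFinitePt SlopeXStatement)

variable {A : ValuationSubring Kb}

/-- the reduction of an integral power series -/
theorem rhoQ_iota98 (B : PowerSeries ℤ) : RhoQ A (iota Kb B) (iota (kA A) B) := by
  have h := Fermat.Agent.T3.helper36.rhoQ_incl (A := A) (iota A B)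
  rwa [show incl A (iota A B) = iota Kb B from Fermat.Agent.P2.helper66.coeffMap_iota _ B,
    show red A (iota A B) = iota (kA A) B from Fermat.Agent.P2.helper66.coeffMap_iota _ B] at h

section Pair

variable {N q : ℕ} [NeZero N] [NeZero q] {hq : q.Prime} {hqN : ¬ q ∣ N}

/-- a first-component reduction of the unit `b₀` is a constant multiple of `iota B` -/
theorem ord_nu_eq {b0 : FF (N * q)} {B : PowerSeries ℤ} {ε : ℤ} (hU : IsUnit0 hq hqN b0 B ε)
    {ν : FFb A N} (hν : IsRed1 A N q b0 ν) (Q : Place (kA A) (FFb A N)) :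
    ordAt Q (iota (kA A) B) = Q.ord ν := by
  obtain ⟨hν0, κ, hκ, hρ⟩ := hν
  have hν0' : (ν : LaurentSeries (kA A)) ≠ 0 := fun h => hν0 (Subtype.ext h)
  have h1 : RhoQ A (algebraMap Kb (LaurentSeries Kb) (1 : Kb)⁻¹ * (b0 : LaurentSeries Kb))
      (iota (kA A) B) := by
    rw [inv_one, map_one, one_mul, hU.coe_eq]
    exact rhoQ_iota98 B
  have hB0 : iota (kA A) B ≠ 0 :=
    Fermat.Agent.T3.helper16.iota_ne_zero_of_coeff (R := kA A) hU.const
  obtain ⟨c, hc, e⟩ := Fermat.Agent.T8.helper29.rhoQ_unique_const (A := A) one_ne_zero hκ hB0 hν0'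
    h1 hρ
  have hmem : iota (kA A) B ∈ FFb A N := by
    have h3 : iota (kA A) B = algebraMap (kA A) (LaurentSeries (kA A)) c⁻¹ *
        (ν : LaurentSeries (kA A)) := by
      rw [e, ← mul_assoc, ← map_mul, inv_mul_cancel₀ hc, map_one, one_mul]
    rw [h3]
    exact (FFb A N).mul_mem ((FFb A N).algebraMap_mem _) ν.2
  have e' : Q.ord ν = ordAt Q (ν : LaurentSeries (kA A)) :=
    (Fermat.Agent.T8.helper16.ordAt_of_mem Q ν.2).symm
  rw [e', e, Fermat.Agent.T8.helper65.ordAt_const_mul Q hc hmem]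

/-- a scaling of a nonzero function of level `N q` with its reduction in `FFb A N` -/
theorem exists_scaling_bad (hq : q.Prime) (hqN : ¬ q ∣ N) (hA : A.LiesOverPrime q)
    {u : FF (N * q)} (hu : u ≠ 0) :
    ∃ (c : Kb) (f : FFb A N), c ≠ 0 ∧
      HasRed (IsGood A (N * q)) c (u : LaurentSeries Kb) (f : LaurentSeries (kA A)) ∧
      IsRed1 A N q u f := by
  obtain ⟨c, f, hc, hr, -⟩ := exists_hasRed_isRedQ (A := A)
    (Fermat.Agent.T2.helper58.scaleStatement_bad N q hq hqN A hA) hu
  have hE : FFb A (N * q) = FFb A N := Fermat.Agent.T2.helper96.FFb_mul_eq N A hq hA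
  have hmem : (f : LaurentSeries (kA A)) ∈ FFb A N := hE ▸ f.2
  obtain ⟨h1, h2⟩ := Fermat.Agent.T8.helper65.HasRed.rhoQ_isGood hc hr
  exact ⟨c, ⟨_, hmem⟩, hc, hr, fun h0 => h2 (congrArg Subtype.val h0), c, hc, h1⟩

/-- **[SPLIT] at the bad pair `(N, q)`, team vocabulary**: a class killed by `q` and fixed by
`I_K1` satisfies the period formula `helper29.IsWallBN2` (with `β₂ = - β₁`). -/
theorem isWallBN2_of_split (hA : A.LiesOverPrime q) {b0 : FF (N * q)} {B : PowerSeries ℤ}
    {ε : ℤ} (hU : IsUnit0 hq hqN b0 B ε) (hS : SlopeXStatement N q hq hqN A B)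
    {ν : FFb A N} (hν : IsRed1 A N q b0 ν)
    {x : JZero (N * q)} (hx : q • x = 0) (hfix : ∀ σ, IsIK1 A q σ → σ • x = x) :
    Fermat.Agent.T8.helper29.IsWallBN2 A N q (Fermat.Agent.T2.helper36.atkinLehner N q hq hqN)
      ν x := by
  obtain ⟨u, hk, hfixu, -⟩ := exists_k1_kummerRep (M := N * q) A hq.pos hx hfix
  have hu : u ≠ 0 := hk.ne_zero
  have hWu : Fermat.Agent.T2.helper36.atkinLehner N q hq hqN u ≠ 0 :=
    (map_ne_zero_iff _ (Fermat.Agent.T2.helper36.atkinLehner N q hq hqN).injective).mpr hu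
  have hdiv : ∀ P : Place Kb (FF (N * q)), (q : ℤ) ∣ P.ord u := fun P => by
    obtain ⟨-, D, -, hD⟩ := hk
    exact ⟨_, (hD P).symm⟩
  have hfix' : ∀ σ ∈ muFix q ⊓ IA A, galF (N * q) σ u = u :=
    fun σ hσ => hfixu σ (isIK1_iff_mem.mpr hσ)
  obtain ⟨c₁, f₁, hc₁, hr₁, hred₁⟩ := exists_scaling_bad hq hqN hA hu
  obtain ⟨c₂, f₂, hc₂, hr₂, hred₂⟩ := exists_scaling_bad hq hqN hA hWu
  obtain ⟨k, -, hQ⟩ := Fermat.Agent.T8.helper65.exists_k1Slope hA hS hu hfix' hdiv hc₁ hc₂ hr₁ hr₂
  refine ⟨u, f₁, f₂, -k, k, hk, hred₁, ?_, hred₂, ?_⟩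
  · intro Q hj
    obtain ⟨h1, -⟩ := hQ Q hj
    rw [ord_nu_eq hU hν Q, Fermat.Agent.T8.helper16.ordAt_of_mem Q f₁.2] at h1
    rw [Int.modEq_iff_dvd]
    have e : -k * Q.ord ν - Q.ord f₁ = -(Q.ord f₁ + k * Q.ord ν) := by ring
    rw [e]
    exact (dvd_neg).mpr h1
  · intro Q hj
    obtain ⟨-, h2⟩ := hQ Q hj
    rw [ord_nu_eq hU hν Q, Fermat.Agent.T8.helper16.ordAt_of_mem Q f₂.2] at h2
    rw [Int.modEq_iff_dvd]
    have e : k * Q.ord ν - Q.ord f₂ = -(Q.ord f₂ - k * Q.ord ν) := by ring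
    rw [e]
    exact (dvd_neg).mpr h2

end Pair

/-! ### The split box of the wall -/

/-- the consumer contract of [RING-X] at the bad pairs `(4 M', p)` of the Frey packages -/
def SlopeXWallStatement : Prop :=
  ∀ (P : FreyPackage) (M' : ℕ) [NeZero M'] (hpN : ¬ P.p ∣ 4 * M') (A : ValuationSubring Kb),
    A.LiesOverPrime P.p →
    ∀ (b0 : FF (4 * M' * P.p)) (B : PowerSeries ℤ) (ε : ℤ), IsUnit0 P.pp hpN b0 B ε →
      SlopeXStatement (4 * M') P.p P.pp hpN A B

/-- **the SPLIT box of the wall at `B = helper29.wallBN`**, from [RING-X]. -/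
theorem splitWallBN (π : Fermat.Agent.T8.helper72.PullData) (hX : SlopeXWallStatement) :
    Fermat.Agent.T8.helper38.SplitWallStatement π Fermat.Agent.T8.helper29.wallBN := by
  intro P W M' _ hpN A V0 ctx x hx hfix hpN' b0 B ε hU ν hν
  exact isWallBN2_of_split ctx.liesOver hU (hX P M' hpN' A ctx.liesOver b0 B ε hU) hν
    (ctx.real.tors x hx) hfix

end Fermat.Agent.T8.helper98

end
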