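import Fermat.Agent.T8.helper5_SlopeX
import Fermat.Agent.T8.helper98_SplitWallBN

/-!
# T8 [SLOPE] / [RING-X] ⟹ the SPLIT box of the wall (helper5)

* `slopeXWall : helper98.SlopeXWallStatement` : `helper16.SlopeXStatement` at the bad pairs
  `(4 M', p)` of the Frey packages (`helper5.slopeX`, `4 ∣ 4 M'`);
* `splitWall π : helper38.SplitWallStatement π helper29.wallBN` : the split box, unconditional.
-/

set_option autoImplicit false
set_option linter.unusedSectionVars false
set_option linter.unusedVariables false
set_option linter.style.longLine false

noncomputable section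

namespace Fermat.Agent.T8.helper5

/-- **[RING-X] at the bad pairs of the Frey packages.** -/
theorem slopeXWall : Fermat.Agent.T8.helper98.SlopeXWallStatement := by
  intro P M' _ hpN A hA b0 B ε h
  exact slopeX h hA (Or.inl (Dvd.intro M' rfl))

/-- **the SPLIT box of the wall**, unconditional. -/
theorem splitWall (π : Fermat.Agent.T8.helper72.PullData) :
    Fermat.Agent.T8.helper38.SplitWallStatement π Fermat.Agent.T8.helper29.wallBN :=
  Fermat.Agent.T8.helper98.splitWallBN π slopeXWall

end Fermat.Agent.T8.helper5

end
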