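import Mathlib

/-!
T8 box [UFD2] (helper5): a noetherian local domain `R` with an element `y` of the maximal ideal
such that `R ⧸ (y)` is a principal ideal domain is a unique factorisation domain; more
precisely every prime ideal not containing `y` is principal.  Mathlib only.
-/

set_option autoImplicit false

namespace helper5T8

open Ideal

variable {R : Type*} [CommRing R]

/-- A prime ideal `Q` of a noetherian local ring not containing `y` is principal as soon as the
quotient `R ⧸ (y)` is a principal ideal ring. -/
theorem isPrincipal_of_notMem_of_quotient_pir [IsNoetherianRing R] [IsLocalRing R]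
    (y : R) (hy : y ∈ IsLocalRing.maximalIdeal R)
    (hpid : IsPrincipalIdealRing (R ⧸ Ideal.span {y}))
    (Q : Ideal R) [hQ : Q.IsPrime] (hyQ : y ∉ Q) : Q.IsPrincipal := by
  classical
  set π := Ideal.Quotient.mk (Ideal.span {y}) with hπ
  have hsurj : Function.Surjective π := Ideal.Quotient.mk_surjective
  -- the image of `Q` is principal
  obtain ⟨fbar, hfbar⟩ := (hpid.principal (Q.map π)).principal
  have hfbar_mem : fbar ∈ Q.map π := by
    rw [hfbar]; exact Submodule.mem_span_singleton_self fbar
  rw [Ideal.mem_map_iff_of_surjective π hsurj] at hfbar_mem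
  obtain ⟨f, hfQ, hf⟩ := hfbar_mem
  refine ⟨⟨f, ?_⟩⟩
  apply le_antisymm
  · -- Nakayama
    have hfg : (Q : Submodule R R).FG := (isNoetherianRing_iff_ideal_fg R).mp inferInstance Q
    have hjac : IsLocalRing.maximalIdeal R ≤ Ideal.jacobson (⊥ : Ideal R) := by
      rw [IsLocalRing.jacobson_eq_maximalIdeal (⊥ : Ideal R) bot_ne_top]
    refine Submodule.le_of_le_smul_of_le_jacobson_bot (N := Submodule.span R {f})
      (I := IsLocalRing.maximalIdeal R) hfg hjac ?_
    intro g hg
    have hgbar : π g ∈ Q.map π := Ideal.mem_map_of_mem π hg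
    rw [hfbar] at hgbar
    obtain ⟨rbar, hrbar⟩ := Submodule.mem_span_singleton.mp hgbar
    obtain ⟨r, rfl⟩ := hsurj rbar
    have hdiff : g - r * f ∈ Ideal.span {y} := by
      rw [← Ideal.Quotient.eq_zero_iff_mem]
      have : π (g - r * f) = π g - π r * π f := by simp
      change π (g - r * f) = 0
      rw [this, hf, ← hrbar]
      simp
    obtain ⟨s, hs⟩ := Ideal.mem_span_singleton'.mp hdiff
    have hsQ : s ∈ Q := by
      have hmem : s * y ∈ Q := by
        rw [hs]
        exact Q.sub_mem hg (Q.mul_mem_left r hfQ)
      rcases hQ.mem_or_mem hmem with h | h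
      · exact h
      · exact absurd h hyQ
    have hg' : g = r * f + s * y := by rw [hs]; ring
    rw [hg']
    refine Submodule.add_mem_sup ?_ ?_
    · exact Submodule.mem_span_singleton.mpr ⟨r, by simp⟩
    · have : s * y = y • s := by simp [mul_comm]
      rw [this]
      exact Submodule.smul_mem_smul hy hsQ
  · change Ideal.span {f} ≤ Q
    rw [Ideal.span_singleton_le_iff_mem]
    exact hfQ

/-- [UFD2] -/
theorem ufd_of_quotient_pir [IsDomain R] [IsNoetherianRing R] [IsLocalRing R]
    (y : R) (hy : y ∈ IsLocalRing.maximalIdeal R) (hy0 : y ≠ 0)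
    (hprime : (Ideal.span {y}).IsPrime)
    (hpid : IsPrincipalIdealRing (R ⧸ Ideal.span {y})) :
    UniqueFactorizationMonoid R := by
  rw [UniqueFactorizationMonoid.iff_exists_prime_mem_of_isPrime]
  intro P hP0 hPprime
  by_cases hyP : y ∈ P
  · exact ⟨y, hyP, (Ideal.span_singleton_prime hy0).mp hprime⟩
  · haveI := hPprime
    obtain ⟨⟨f, hf⟩⟩ := isPrincipal_of_notMem_of_quotient_pir y hy hpid P hyP
    have hf' : P = Ideal.span {f} := hf
    have hf0 : f ≠ 0 := by
      rintro rfl
      apply hP0
      rw [hf']
      simp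
    refine ⟨f, ?_, ?_⟩
    · rw [hf']; exact Ideal.mem_span_singleton_self f
    · rw [← Ideal.span_singleton_prime hf0, ← hf']
      exact hPprime

end helper5T8
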