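import Mathlib
import Fermat.Agent.T8.helper29_ConclFix
import Fermat.Agent.T8.helper97_TameTrace
import Fermat.Agent.T8.helper88_CoverGalInst
import Fermat.Agent.T7.helper60_Gal
import Fermat.Agent.T7.helper22_AttNF

/-!
# T8 = row 38 via S44, box [K-RAT], part (KR2) (helper60)

`helper29.KRatStatement N p hp hpN A` from an ABSTRACT weighted trace
(`WTraceStatement A p`: for every finite set `S₀` of constants a finite family `(s i, c i)`,
`s i ∈ I_K1`, `∑ c i = 1`, such that `Φ x = ∑ c i * s i x` is `I_K1`-fixed and contractive on the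
constants `x` fixed by the fixer of `S₀` in `I_K1`; in the application `Φ x = Tr (θ x)`).

For a strongly split `K` with integral roots `Z₁`, `Z₂` of reduction `1`:

* `Z₁' := ∑ c i • (s i) Z₁ = h Z₁`, `Z₂' := ∑ c i • (s i) Z₂ = (W h) Z₂`,
  `h = ∑ c i w_i ∈ F` (`w_i` from the pair form `helper88.b4_pair_bad` at `a = 1`);
* `Z₁'`, `Z₂'` are `A`-integral, of reduction `1`, coefficientwise fixed by `I_K1`;
* `K' = h ^ p K` is `IsA0One` (regular off the two cusps by `T7.helper60.isA0One_galF`), new.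
-/

set_option autoImplicit false
set_option synthInstance.maxHeartbeats 400000
set_option maxHeartbeats 1000000
set_option linter.unusedSectionVars false
set_option linter.unusedVariables false
set_option linter.style.longLine false
set_option linter.style.haveILetI false

noncomputable section

namespace Fermat.Agent.T8.helper60

open HahnSeries IntermediateField AlgebraicCurve ModularCurve
open Fermat.Agent.S18.helper19 Fermat.Agent.P2.helper29 Fermat.Agent.P2.helper93
open Fermat.Agent.T2 Fermat.Agent.T2.helper36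
open Fermat.Agent.T8.helper65 (muFix IA cwAct)
open Fermat.Agent.T8.helper29 (RootFix KRatStatement KRatAll)

/-! ### The abstract weighted trace -/

/-- **the weighted trace** (interface of (KR1)): for every finite set `S₀` of constants there
is a finite family `(s i, c i)` with `s i ∈ I_K1`, `∑ c i = 1`, such that
`Φ x = ∑ c i * s i x` is `I_K1`-fixed and contractive on the constants `x` fixed by the fixer of
`S₀` in `I_K1`. -/
def WTraceStatement (A : ValuationSubring Kb) (p : ℕ) : Prop :=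
  ∀ S₀ : Finset Kb, ∃ (ι : Type) (_ : Fintype ι) (s : ι → (Kb ≃ₐ[ℚ] Kb)) (c : ι → Kb),
    (∀ i, s i ∈ muFix p ⊓ IA A) ∧ (∑ i, c i = 1) ∧
    ∀ x : Kb, (∀ t ∈ muFix p ⊓ IA A, (∀ y ∈ S₀, t y = y) → t x = x) →
      (∀ t ∈ muFix p ⊓ IA A, t (∑ i, c i * s i x) = ∑ i, c i * s i x) ∧
      (A.valuation x < 1 → A.valuation (∑ i, c i * s i x) < 1)

/-! ### Constants fixed by an automorphism -/

/-- the fixed field of one automorphism -/
def fixF (t : Kb ≃ₐ[ℚ] Kb) : IntermediateField ℚ Kb where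
  carrier := {x | t x = x}
  mul_mem' := by
    intro a b ha hb
    show t (a * b) = a * b
    rw [map_mul, ha, hb]
  one_mem' := map_one t
  add_mem' := by
    intro a b ha hb
    show t (a + b) = a + b
    rw [map_add, ha, hb]
  zero_mem' := map_zero t
  algebraMap_mem' := fun r => t.commutes r
  inv_mem' := by
    intro x hx
    show t x⁻¹ = x⁻¹
    rw [map_inv₀, hx]

theorem mem_fixF {t : Kb ≃ₐ[ℚ] Kb} {x : Kb} : x ∈ fixF t ↔ t x = x := Iff.rfl

variable {M : ℕ} [NeZero M]

/-- a function whose coefficients are controlled by `S` is fixed by every automorphism fixing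
`S` pointwise -/
theorem galF_eq_self_of_fix {K : FF M} {S : Finset Kb}
    (hS : ∀ K₀ : IntermediateField ℚ Kb, (S : Set Kb) ⊆ K₀ →
      ∀ j, (K : LaurentSeries Kb).coeff j ∈ K₀)
    {t : Kb ≃ₐ[ℚ] Kb} (ht : ∀ y ∈ S, t y = y) : galF M t K = K := by
  apply Subtype.ext
  rw [coe_galF]
  ext j
  rw [coeffMap_coeff]
  exact hS (fixF t) (fun y hy => ht y hy) j


/-- a `p`-th root `Z` of a `t`-fixed function is coefficientwise `t`-fixed as soon as `t` fixes
one nonzero coefficient of `Z` -/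
theorem cwAct_root_eq {p : ℕ} (hp : 0 < p) {K : FF M} {Z : LaurentSeries Kb}
    (hZ : Z ^ p = (K : LaurentSeries Kb)) {n : ℤ} (h0 : Z.coeff n ≠ 0)
    {t : Kb ≃ₐ[ℚ] Kb} (hK : galF M t K = K) (ht0 : t (Z.coeff n) = Z.coeff n) :
    cwAct t Z = Z := by
  have hZ0 : Z ≠ 0 := by
    rintro rfl
    exact h0 rfl
  have h1 : (cwAct t Z) ^ p = Z ^ p := by
    unfold cwAct
    rw [← map_pow, hZ, ← coe_galF, hK]
  have h2 : (cwAct t Z * Z⁻¹) ^ p = 1 := by
    rw [mul_pow, h1, inv_pow, mul_inv_cancel₀ (pow_ne_zero _ hZ0)]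
  obtain ⟨ξ, -, hξ⟩ := Fermat.Agent.T7.helper22.exists_const_of_pow_eq_one hp _ h2
  have h3 : cwAct t Z = algebraMap Kb (LaurentSeries Kb) ξ * Z := by
    rw [← hξ, mul_assoc, inv_mul_cancel₀ hZ0, mul_one]
  have h4 : t (Z.coeff n) = ξ * Z.coeff n := by
    have h5 : (cwAct t Z).coeff n = (algebraMap Kb (LaurentSeries Kb) ξ * Z).coeff n := by
      rw [h3]
    rw [Fermat.Agent.P2.helper44.coeff_algebraMap_mul] at h5
    rw [← h5]
    unfold cwAct
    rw [coeffMap_coeff]
    rfl
  have hξ1 : ξ = 1 := by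
    rw [ht0] at h4
    have h6 : (ξ - 1) * Z.coeff n = 0 := by rw [sub_mul, one_mul, ← h4, sub_self]
    rcases mul_eq_zero.mp h6 with h | h
    · exact sub_eq_zero.mp h
    · exact absurd h h0
  rw [h3, hξ1, map_one, one_mul]

/-! ### The weighted sums -/

section WSum

variable {ι : Type} [Fintype ι] (s : ι → (Kb ≃ₐ[ℚ] Kb)) (c : ι → Kb)

/-- the weighted sum on constants -/
def wPhi (x : Kb) : Kb := ∑ i, c i * s i x

/-- the weighted sum on Laurent series -/
def wSum (f : LaurentSeries Kb) : LaurentSeries Kb :=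
  ∑ i, algebraMap Kb (LaurentSeries Kb) (c i) * cwAct (s i) f

theorem wSum_coeff (f : LaurentSeries Kb) (n : ℤ) :
    (wSum s c f).coeff n = wPhi s c (f.coeff n) := by
  unfold wSum wPhi
  rw [HahnSeries.coeff_sum]
  refine Finset.sum_congr rfl fun i _ => ?_
  rw [Fermat.Agent.P2.helper44.coeff_algebraMap_mul]
  unfold cwAct
  rw [coeffMap_coeff]
  rfl

theorem wPhi_add (x y : Kb) : wPhi s c (x + y) = wPhi s c x + wPhi s c y := by
  unfold wPhi
  rw [← Finset.sum_add_distrib]
  refine Finset.sum_congr rfl fun i _ => ?_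
  rw [map_add, mul_add]

theorem wPhi_one (hc : ∑ i, c i = 1) : wPhi s c 1 = 1 := by
  unfold wPhi
  simp only [map_one, mul_one]
  exact hc

theorem wPhi_zero : wPhi s c 0 = 0 := by
  unfold wPhi
  simp only [map_zero, mul_zero, Finset.sum_const_zero]

end WSum


/-! ### Integrality, reduction and rationality of the weighted sum of an integral series -/

section Core

variable {A : ValuationSubring Kb} {p : ℕ}
variable {ι : Type} [Fintype ι] (s : ι → (Kb ≃ₐ[ℚ] Kb)) (c : ι → Kb)

/-- the constants fixed by the fixer of `S₀` in `I_K1` -/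
def fixSet (A : ValuationSubring Kb) (p : ℕ) (S₀ : Finset Kb) : Set Kb :=
  {x | ∀ t ∈ muFix p ⊓ IA A, (∀ y ∈ S₀, t y = y) → t x = x}

theorem fixSet_sub {S₀ : Finset Kb} {x y : Kb} (hx : x ∈ fixSet A p S₀) (hy : y ∈ fixSet A p S₀) :
    x - y ∈ fixSet A p S₀ := fun t ht h => by rw [map_sub, hx t ht h, hy t ht h]

theorem fixSet_one {S₀ : Finset Kb} : (1 : Kb) ∈ fixSet A p S₀ := fun t _ _ => map_one t

theorem fixSet_zero {S₀ : Finset Kb} : (0 : Kb) ∈ fixSet A p S₀ := fun t _ _ => map_zero t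

/-- **the weighted sum of an integral series of reduction `1`** with coefficients in the fixed
field of the fixer of `S₀` is integral, of reduction `1`, and fixed by `I_K1`. -/
theorem exists_wSum_integral {S₀ : Finset Kb} (hc : ∑ i, c i = 1)
    (hΦ : ∀ x : Kb, x ∈ fixSet A p S₀ →
      (∀ t ∈ muFix p ⊓ IA A, t (wPhi s c x) = wPhi s c x) ∧
      (A.valuation x < 1 → A.valuation (wPhi s c x) < 1))
    (Z : LaurentSeries A) (hr : red A Z = 1)
    (hZ : ∀ n : ℤ, (incl A Z).coeff n ∈ fixSet A p S₀) :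
    ∃ Z' : LaurentSeries A, incl A Z' = wSum s c (incl A Z) ∧ red A Z' = 1 ∧ RootFix A p Z' := by
  classical
  -- the coefficients of `Z`
  have hx : ∀ n : ℤ, (incl A Z).coeff n = ((Z.coeff n : A) : Kb) := fun n => by
    rw [coeffMap_coeff]
    rfl
  have hres : ∀ n : ℤ, IsLocalRing.residue A (Z.coeff n) = if n = 0 then 1 else 0 := fun n => by
    have h1 : (red A Z).coeff n = IsLocalRing.residue A (Z.coeff n) := by
      rw [coeffMap_coeff]
    rw [← h1, hr, HahnSeries.coeff_one]
    by_cases h : n = 0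
    · rw [if_pos h, if_pos h]
    · rw [if_neg h, if_neg h]
  -- `δ`
  let δ : ℤ → A := fun n => if n = 0 then 1 else 0
  have hδfix : ∀ n, ((δ n : A) : Kb) ∈ fixSet A p S₀ := by
    intro n
    by_cases h : n = 0
    · simp only [δ, if_pos h]
      exact fixSet_one
    · simp only [δ, if_neg h]
      exact fixSet_zero
  have hδΦ : ∀ n, wPhi s c ((δ n : A) : Kb) = ((δ n : A) : Kb) := by
    intro n
    by_cases h : n = 0
    · simp only [δ, if_pos h]
      exact wPhi_one s c hc
    · simp only [δ, if_neg h]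
      exact wPhi_zero s c
  have hval : ∀ n : ℤ, A.valuation (((Z.coeff n : A) : Kb) - ((δ n : A) : Kb)) < 1 := by
    intro n
    have h1 : IsLocalRing.residue A (Z.coeff n - δ n) = 0 := by
      rw [map_sub, hres n]
      by_cases h : n = 0
      · simp only [δ, if_pos h, map_one, sub_self]
      · simp only [δ, if_neg h, map_zero, sub_self]
    have h2 : Z.coeff n - δ n ∈ IsLocalRing.maximalIdeal A :=
      (IsLocalRing.residue_eq_zero_iff _).mp h1
    have h3 := (A.valuation_lt_one_iff _).mp h2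
    simpa using h3
  -- the coefficients of the weighted sum
  have hΦval : ∀ n : ℤ,
      A.valuation (wPhi s c ((Z.coeff n : A) : Kb) - ((δ n : A) : Kb)) < 1 := by
    intro n
    have hmem : ((Z.coeff n : A) : Kb) - ((δ n : A) : Kb) ∈ fixSet A p S₀ :=
      fixSet_sub (by rw [← hx n]; exact hZ n) (hδfix n)
    have h1 := (hΦ _ hmem).2 (hval n)
    have h2 : wPhi s c (((Z.coeff n : A) : Kb) - ((δ n : A) : Kb))
        = wPhi s c ((Z.coeff n : A) : Kb) - ((δ n : A) : Kb) := by
      have h3 := wPhi_add s c (((Z.coeff n : A) : Kb) - ((δ n : A) : Kb)) ((δ n : A) : Kb)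
      rw [sub_add_cancel, hδΦ n] at h3
      rw [h3, add_sub_cancel_right]
    rwa [h2] at h1
  have hΦmem : ∀ n : ℤ, wPhi s c ((Z.coeff n : A) : Kb) ∈ A := by
    intro n
    have h1 : wPhi s c ((Z.coeff n : A) : Kb) - ((δ n : A) : Kb) ∈ A :=
      (A.valuation_le_one_iff _).mp (hΦval n).le
    have h2 := A.add_mem _ _ h1 (δ n).2
    rwa [sub_add_cancel] at h2
  have hcoef : ∀ n : ℤ, (wSum s c (incl A Z)).coeff n ∈ A := fun n => by
    rw [wSum_coeff, hx n]
    exact hΦmem n
  obtain ⟨Z', hZ'⟩ := Fermat.Agent.T8.helper97.exists_incl_of_coeff_mem A _ hcoef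
  have hZ'c : ∀ n : ℤ, ((Z'.coeff n : A) : Kb) = wPhi s c ((Z.coeff n : A) : Kb) := fun n => by
    have h1 : (incl A Z').coeff n = ((Z'.coeff n : A) : Kb) := by
      rw [coeffMap_coeff]
      rfl
    rw [← h1, hZ', wSum_coeff, hx n]
  refine ⟨Z', hZ', ?_, ?_⟩
  · -- the reduction
    ext n
    rw [coeffMap_coeff, HahnSeries.coeff_one]
    have h1 : Z'.coeff n - δ n ∈ IsLocalRing.maximalIdeal A := by
      rw [A.valuation_lt_one_iff]
      have h2 := hΦval n
      rw [← hZ'c n] at h2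
      simpa using h2
    have h3 := (IsLocalRing.residue_eq_zero_iff _).mpr h1
    rw [map_sub, sub_eq_zero] at h3
    rw [h3]
    by_cases h : n = 0
    · simp only [δ, if_pos h, map_one]
    · simp only [δ, if_neg h, map_zero]
  · -- the rationality
    intro σ hσ
    ext n
    unfold cwAct
    rw [coeffMap_coeff, hZ', wSum_coeff, hx n]
    exact (hΦ _ (by rw [← hx n]; exact hZ n)).1 σ hσ

end Core


/-! ### The twisting function `h = ∑ c i w i` -/

section Twist

variable {ι : Type} [Fintype ι] (s : ι → (Kb ≃ₐ[ℚ] Kb)) (c : ι → Kb)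

/-- the weighted sum of functions -/
def wFun (c : ι → Kb) (w : ι → FF M) : FF M := ∑ i, algebraMap Kb (FF M) (c i) * w i

theorem coe_wFun (w : ι → FF M) :
    ((wFun c w : FF M) : LaurentSeries Kb)
      = ∑ i, algebraMap Kb (LaurentSeries Kb) (c i) * (w i : LaurentSeries Kb) := by
  unfold wFun
  have h := map_sum (algebraMap (FF M) (LaurentSeries Kb))
    (fun i => algebraMap Kb (FF M) (c i) * w i) Finset.univ
  exact h

theorem wSum_eq_mul (w : ι → FF M) (f : LaurentSeries Kb)
    (hw : ∀ i, cwAct (s i) f = (w i : LaurentSeries Kb) * f) :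
    wSum s c f = ((wFun c w : FF M) : LaurentSeries Kb) * f := by
  rw [coe_wFun, Finset.sum_mul]
  unfold wSum
  refine Finset.sum_congr rfl fun i _ => ?_
  rw [hw i, mul_assoc]

theorem map_wFun (W : FF M ≃ₐ[Kb] FF M) (w : ι → FF M) :
    W (wFun c w) = wFun c (fun i => W (w i)) := by
  unfold wFun
  rw [map_sum]
  refine Finset.sum_congr rfl fun i _ => ?_
  rw [map_mul, AlgEquiv.commutes]

/-- the ultrametric inequality in the form used for `h ^ p K` -/
theorem ord_pred_add (P : Place Kb (FF M)) (p : ℕ) (m : ℤ) {f g : FF M}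
    (hf : f = 0 ∨ 0 ≤ (p : ℤ) * P.ord f + m) (hg : g = 0 ∨ 0 ≤ (p : ℤ) * P.ord g + m) :
    f + g = 0 ∨ 0 ≤ (p : ℤ) * P.ord (f + g) + m := by
  rcases eq_or_ne (f + g) 0 with h | h
  · exact Or.inl h
  right
  rcases hf with rfl | hf
  · rcases hg with rfl | hg
    · exact absurd (add_zero _) h
    · rwa [zero_add]
  rcases hg with rfl | hg
  · rwa [add_zero]
  have h1 := Fermat.Agent.P2.helper74.ord_add_ge P h
  have hp0 : (0 : ℤ) ≤ (p : ℤ) := Int.natCast_nonneg p
  rcases le_total (P.ord f) (P.ord g) with hle | hle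
  · rw [min_eq_left hle] at h1
    have := mul_le_mul_of_nonneg_left h1 hp0
    linarith
  · rw [min_eq_right hle] at h1
    have := mul_le_mul_of_nonneg_left h1 hp0
    linarith

theorem ord_pred_sum (P : Place Kb (FF M)) (p : ℕ) (m : ℤ) (f : ι → FF M)
    (hf : ∀ i, f i = 0 ∨ 0 ≤ (p : ℤ) * P.ord (f i) + m) (t : Finset ι) :
    (∑ i ∈ t, f i) = 0 ∨ 0 ≤ (p : ℤ) * P.ord (∑ i ∈ t, f i) + m := by
  classical
  induction t using Finset.induction_on with
  | empty => exact Or.inl Finset.sum_empty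
  | insert a t ha ih =>
    rw [Finset.sum_insert ha]
    exact ord_pred_add P p m (hf a) ih

/-- `h ^ p K` is regular at `P` when every `w i ^ p K` is -/
theorem ord_wFun_pow_mul_nonneg (P : Place Kb (FF M)) {p : ℕ} {K : FF M} (hK : K ≠ 0)
    (w : ι → FF M) (hw0 : ∀ i, w i ≠ 0) (hw : ∀ i, 0 ≤ P.ord (w i ^ p * K))
    (hh : wFun c w ≠ 0) : 0 ≤ P.ord (wFun c w ^ p * K) := by
  have h1 : ∀ i, algebraMap Kb (FF M) (c i) * w i = 0 ∨
      0 ≤ (p : ℤ) * P.ord (algebraMap Kb (FF M) (c i) * w i) + P.ord K := by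
    intro i
    rcases eq_or_ne (c i) 0 with h | h
    · left
      rw [h, map_zero, zero_mul]
    · right
      have hC : algebraMap Kb (FF M) (c i) ≠ 0 := (map_ne_zero _).mpr h
      rw [Place.ord_mul P hC (hw0 i), Fermat.Agent.T6.helper26.ord_const P (c i), zero_add]
      have h2 := hw i
      rwa [Place.ord_mul P (pow_ne_zero _ (hw0 i)) hK, Fermat.Agent.P2.helper18.ord_pow] at h2
  rcases ord_pred_sum P p (P.ord K) _ h1 Finset.univ with h2 | h2
  · exact absurd h2 hh
  · rw [Place.ord_mul P (pow_ne_zero _ hh) hK, Fermat.Agent.P2.helper18.ord_pow]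
    exact h2

end Twist


/-! ### The box [K-RAT] from the weighted trace -/

section Main

variable {N p : ℕ} [NeZero N] [NeZero p] {hp : p.Prime} {hpN : ¬ p ∣ N}
  {A : ValuationSubring Kb}

/-- the coefficient of index `0` of an integral series of reduction `1` is not zero -/
theorem coeff_zero_ne_zero_of_red {Z : LaurentSeries A} (hr : red A Z = 1) :
    (incl A Z).coeff 0 ≠ 0 := by
  intro h0
  have h1 : (incl A Z).coeff 0 = ((Z.coeff 0 : A) : Kb) := by
    rw [coeffMap_coeff]
    rfl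
  have h2 : Z.coeff 0 = 0 := Subtype.ext (by rw [← h1, h0]; rfl)
  have h3 : (red A Z).coeff 0 = IsLocalRing.residue A (Z.coeff 0) := by
    rw [coeffMap_coeff]
  rw [hr, h2, map_zero, HahnSeries.coeff_one, if_pos rfl] at h3
  exact one_ne_zero h3

/-- **[K-RAT] from the weighted trace** at a bad pair. -/
theorem kRat_of_wTrace (hN : 4 ∣ N ∨ 9 ∣ N) (hA : A.LiesOverPrime p)
    (hT : WTraceStatement A p) : KRatStatement N p hp hpN A := by
  classical
  intro K hSS hnew hnp
  obtain ⟨hA0, hdiv, Z₁, Z₂, h1, h2, hr1, hr2⟩ := hSS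
  have hK0 : K ≠ 0 := fun h0 => hnp 0 (by rw [h0, zero_pow hp.ne_zero])
  have hWgal : ∀ (σ : Kb ≃ₐ[ℚ] Kb) (x : FF (N * p)),
      atkinLehner N p hp hpN (galF (N * p) σ x) = galF (N * p) σ (atkinLehner N p hp hpN x) :=
    fun σ x => atkinLehner_arithmeticRingAut N p hp hpN σ x
  -- the finite set of constants
  obtain ⟨S, hS⟩ := Fermat.Agent.T7.helper22.exists_finset_coeff_mem (N * p) A
    (K : LaurentSeries Kb) K.2
  have ha1 := coeff_zero_ne_zero_of_red hr1
  have ha2 := coeff_zero_ne_zero_of_red hr2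
  obtain ⟨ι, _, s, c, hs, hc, hΦ⟩ :=
    hT (insert ((incl A Z₁).coeff 0) (insert ((incl A Z₂).coeff 0) S))
  have hsI : ∀ i, s i ∈ A.inertiaSubgroupIn ℚ := fun i => (Subgroup.mem_inf.mp (hs i)).2
  have hsμ : ∀ i, ∀ z : Kb, z ^ p = 1 → s i z = z := fun i =>
    Fermat.Agent.T8.helper65.mem_muFix.mp (Subgroup.mem_inf.mp (hs i)).1
  -- the coefficients of the roots lie in the fixed field
  have hKfix : ∀ t : Kb ≃ₐ[ℚ] Kb,
      (∀ y ∈ insert ((incl A Z₁).coeff 0) (insert ((incl A Z₂).coeff 0) S), t y = y) →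
      galF (N * p) t K = K := fun t ht =>
    galF_eq_self_of_fix hS fun y hy =>
      ht y (Finset.mem_insert_of_mem (Finset.mem_insert_of_mem hy))
  have hfix1 : ∀ n : ℤ, (incl A Z₁).coeff n ∈
      fixSet A p (insert ((incl A Z₁).coeff 0) (insert ((incl A Z₂).coeff 0) S)) := by
    intro n t _ ht
    have h := cwAct_root_eq hp.pos h1 ha1 (hKfix t ht) (ht _ (Finset.mem_insert_self _ _))
    have h' : (cwAct t (incl A Z₁)).coeff n = (incl A Z₁).coeff n := by rw [h]
    unfold cwAct at h'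
    rw [coeffMap_coeff] at h'
    exact h'
  have hfix2 : ∀ n : ℤ, (incl A Z₂).coeff n ∈
      fixSet A p (insert ((incl A Z₁).coeff 0) (insert ((incl A Z₂).coeff 0) S)) := by
    intro n t _ ht
    have hWK : galF (N * p) t (atkinLehner N p hp hpN K) = atkinLehner N p hp hpN K := by
      rw [← hWgal, hKfix t ht]
    have h := cwAct_root_eq hp.pos h2 ha2 hWK
      (ht _ (Finset.mem_insert_of_mem (Finset.mem_insert_self _ _)))
    have h' : (cwAct t (incl A Z₂)).coeff n = (incl A Z₂).coeff n := by rw [h]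
    unfold cwAct at h'
    rw [coeffMap_coeff] at h'
    exact h'
  -- the weighted sums
  obtain ⟨Z₁', e1, r1', f1'⟩ := exists_wSum_integral s c hc hΦ Z₁ hr1 hfix1
  obtain ⟨Z₂', e2, r2', f2'⟩ := exists_wSum_integral s c hc hΦ Z₂ hr2 hfix2
  -- the pair form
  have hpair : ∀ i, ∃ w : FF (N * p), w ≠ 0 ∧
      cwAct (s i) (incl A Z₁) = (w : LaurentSeries Kb) * incl A Z₁ ∧
      cwAct (s i) (incl A Z₂)
        = ((atkinLehner N p hp hpN w : FF (N * p)) : LaurentSeries Kb) * incl A Z₂ := by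
    intro i
    obtain ⟨w, hw0, hw1, hw2⟩ := Fermat.Agent.T8.helper88.b4_pair_bad N p hp hpN hN A hA K hA0
      Z₁ Z₂ h1 h2 hr1 hr2 (s i) (hsI i) 1 hp.one_lt.le
      (fun z hz => by rw [pow_one]; exact hsμ i z hz)
    rw [pow_one] at hw1 hw2
    exact ⟨w, hw0, hw1, hw2⟩
  choose w hw0 hw1 hw2 using hpair
  have eh1 : incl A Z₁' = ((wFun c w : FF (N * p)) : LaurentSeries Kb) * incl A Z₁ :=
    e1.trans (wSum_eq_mul s c w _ hw1)
  have eh2 : incl A Z₂' = ((atkinLehner N p hp hpN (wFun c w) : FF (N * p)) :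
      LaurentSeries Kb) * incl A Z₂ := by
    rw [map_wFun]
    exact e2.trans (wSum_eq_mul s c (fun i => atkinLehner N p hp hpN (w i)) _ hw2)
  -- `h ≠ 0`
  have hh0 : wFun c w ≠ 0 := by
    intro h0
    rw [h0] at eh1
    have h3 : incl A Z₁' = 0 := by
      rw [eh1]
      exact zero_mul _
    have h4 : Z₁' = 0 := Fermat.Agent.P2.helper29.incl_injective A (h3.trans (map_zero _).symm)
    rw [h4, map_zero] at r1'
    exact zero_ne_one r1'
  -- the relation `galF (s i) K = w i ^ p * K`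
  have hgal : ∀ i, galF (N * p) (s i) K = w i ^ p * K := by
    intro i
    apply Subtype.ext
    rw [coe_galF]
    have h3 : cwAct (s i) (incl A Z₁ ^ p) = ((w i : LaurentSeries Kb) * incl A Z₁) ^ p := by
      unfold cwAct
      rw [map_pow]
      exact congrArg (· ^ p) (hw1 i)
    rw [h1] at h3
    unfold cwAct at h3
    rw [h3, mul_pow, h1]
    rfl
  -- the new function
  have hone : algebraMap Kb (FF (N * p)) 1 * wFun c w ^ p * K = wFun c w ^ p * K := by
    rw [map_one, one_mul]
  refine ⟨1, wFun c w, Z₁', Z₂', one_ne_zero, hh0, ?_, ?_, ?_, ?_, r1', r2', f1', f2'⟩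
  · -- `IsA0One`
    rw [hone]
    refine ⟨fun P hP hPW => ?_, Z₁' ^ p, Z₂' ^ p, ?_, ?_, ?_, ?_⟩
    · refine ord_wFun_pow_mul_nonneg c P hK0 w hw0 (fun i => ?_) hh0
      rw [← hgal i]
      exact (Fermat.Agent.T7.helper60.isA0One_galF hWgal (hsI i) hA0).1 P hP hPW
    · rw [map_pow, eh1, mul_pow, h1]
      rfl
    · rw [map_pow, eh2, mul_pow, h2, map_mul, map_pow]
      rfl
    · rw [map_pow, r1', one_pow]
    · rw [map_pow, r2', one_pow]
  · rw [hone]
    exact Fermat.Agent.T7.helper27.isNewN_mul_pow K (wFun c w) hh0 hnew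
  · rw [hone, eh1, mul_pow, h1]
    rfl
  · rw [hone, eh2, mul_pow, h2, map_mul, map_pow]
    rfl

/-- **[K-RAT] at the bad pairs of the Frey packages**, from the weighted trace. -/
theorem kRatAll_of_wTrace
    (h : ∀ (p : ℕ) (A : ValuationSubring Kb), p.Prime → A.LiesOverPrime p →
      WTraceStatement A p) : KRatAll := by
  intro P M' _ hpN A hA _ _
  exact kRat_of_wTrace (Or.inl (dvd_mul_right 4 M')) hA (h P.p A P.pp hA)

end Main

end Fermat.Agent.T8.helper60

end
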