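import Mathlib
import Fermat.Agent.T8.helper60_OmegaSum
import Fermat.Agent.T8.helper11_OmegaLift
import Fermat.Agent.T8.helper42_ResInf
import Fermat.Agent.T8.helper87_DlogAbs2
import Fermat.Agent.T8.helper74_GapsAnn

/-!
# T8 [F3-EXIT] leaf [OMEGA] (ii), ASSEMBLY (helper60)

At a reduction setting `S : S37.helper16.RedSetting M A` (good level `M`, residue characteristic
`p`): if `fb ≠ 0` is a function of the special fibre with `p ∣ ord_Q fb` at every place
`Q ≠ ∞̄`, then `w := dlogL fb = θ(fb) / fb` lies in the annihilator `helper74.annRb M A` of the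
reductions of the integral functions regular off infinity:

* `omega_one`      : `a₀ (red H · dlogL (red Y)) = - ∑_{Q ≠ ∞̄} ord_Q (red Y) · (red H)(Q)` for an
                     integral `Y ∈ L(n ∞)` with unit leading coefficient;
* `omega_ann`      : `a₀ (red H · dlogL fb) = 0` for every integral `H` regular off infinity;
* `dvd_ord_Qinf`   : `p ∣ ord_∞̄ fb` (degree);
* `dlogL_mem_annRb`: `dlogL fb ∈ helper74.annRb M A`.

Inputs: `helper42.coeff_zero_dlog_ff` (residue theorem in characteristic `0`),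
`helper11.omega_lift` (`fb = red a / red b` with preserved pole orders), `helper60.omegaSum`
(reduction of the finite sum), `helper87.dlogL` calculus.
-/

set_option autoImplicit false
set_option synthInstance.maxHeartbeats 400000
set_option maxHeartbeats 1000000
set_option linter.unusedSectionVars false
set_option linter.unusedVariables false
set_option linter.style.longLine false
set_option linter.style.haveILetI false

noncomputable section

open HahnSeries IntermediateField AlgebraicCurve ModularCurve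

namespace Fermat.Agent.T8.helper60

open Fermat.Agent.T3.helper67 (thetaL thetaL_coeff coeffMap_thetaL)
open Fermat.Agent.T8.helper87 (dlogL)

section Formal

variable {R : Type*} [CommRing R] {F : Type*} [Field F]

/-- the logarithmic derivative of a unit `Y` of `R((q))`, written integrally as `Y⁻¹ · θ Y`, is
compatible with every coefficient map to a field -/
theorem coeffMap_mul_thetaL_of_mul_eq_one (φ : R →+* F) (Y Z : LaurentSeries R)
    (hZ : Z * Y = 1) : coeffMap φ (Z * thetaL Y) = dlogL (coeffMap φ Y) := by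
  have h1 : coeffMap φ Z * coeffMap φ Y = 1 := by rw [← map_mul, hZ, map_one]
  have hY0 : coeffMap φ Y ≠ 0 := right_ne_zero_of_mul_eq_one h1
  rw [map_mul, coeffMap_thetaL, Fermat.Agent.T8.helper87.dlogL_def, eq_div_iff hY0,
    mul_right_comm, h1, one_mul]

end Formal

section Asm

open Fermat.Agent.S18.helper19 Fermat.Agent.P2.helper29
open Fermat.Agent.S37.helper16 Fermat.Agent.P2
open Fermat.Agent.T6.helper26 Fermat.Agent.T6.helper81

variable {M : ℕ} [NeZero M] {A : ValuationSubring Kb}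

/-- shortcut instance (slow to find by synthesis) -/
local instance algebraFFbOmegaAsm : Algebra (kA A) (FFb A M) :=
  SubalgebraClass.toAlgebra (FFb A M)

variable (S : RedSetting M A)

/-- **[OMEGA] (ii) for one integral function**: for `Y ∈ L(n ∞)` integral with unit leading
coefficient and `H` integral, regular off infinity,
`a₀ (red H · dlogL (red Y)) = - ∑_{Q ≠ ∞̄} ord_Q (red Y) · (red H)(Q)`. -/
theorem omega_one {n m : ℤ} {Y H : LaurentSeries A}
    (hY : InL (FF M) n (incl A Y)) (hH : InL (FF M) m (incl A H))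
    (hY0 : red A Y ≠ 0) (hord : (red A Y).order = (incl A Y).order)
    (hunit : IsUnit (Y.coeff (incl A Y).order))
    (Db : Divisor (kA A) (FFb A M))
    (hDb : ∀ Q, Db Q = Q.ord (⟨red A Y, (S.hReg n Y hY).1⟩ : FFb A M)) :
    (red A H * dlogL (red A Y)).coeff 0 =
      - (Db.erase S.Qinf).sum (fun Q k => ((k : ℤ) : kA A) *
          pval Q (⟨red A H, (S.hReg m H hH).1⟩ : FFb A M)) := by
  classical
  have hx : Transcendental Kb (Fermat.Agent.S24.xJ M) :=
    Fermat.Agent.S24.helper77.an_transcendental M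
  haveI : FiniteDimensional Kb⟮Fermat.Agent.S24.xJ M⟯ (FF M) :=
    Fermat.Agent.S24.helper77.an_finiteDimensional M
  have hSF := helper74.riemannSetting_FF M
  have hu0 : (⟨incl A Y, hY.1⟩ : FF M) ≠ 0 := by
    intro h0
    have h1 : incl A Y = 0 := congrArg Subtype.val h0
    have h2 : Y = 0 := coeffMap_subtype_injective (by rw [h1, map_zero])
    exact hY0 (by rw [h2, map_zero])
  obtain ⟨D, hD, -⟩ := hSF.principal.exists_divisor (⟨incl A Y, hY.1⟩ : FF M) hu0
  obtain ⟨s, hs1, hs2⟩ := omegaSum S hY hH hY0 hord D hD Db hDb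
  -- the residue theorem in characteristic zero
  have hres := Fermat.Agent.T8.helper42.coeff_zero_dlog_ff (FF M) (Fermat.Agent.S24.xJ M) hx
    S.Pinf S.hPinf (⟨incl A H, hH.1⟩ : FF M) (⟨incl A Y, hY.1⟩ : FF M) hu0
    (D.erase S.Pinf).support
    (by rw [Finsupp.mem_support_iff, Finsupp.erase_same]; exact fun h => h rfl)
    (fun v hv hne => by
      rw [Finsupp.mem_support_iff, Finsupp.erase_ne hv, hD]
      exact hne)
    (fun v hv => hH.2.1 v fun hinf => hv ((helper22.isInfty_iff_eq S.hPinf v).mp hinf))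
    (fun v => pval v (⟨incl A H, hH.1⟩ : FF M))
    (fun v hv => by
      have hv' : v ≠ S.Pinf := by
        rintro rfl
        rw [Finsupp.mem_support_iff, Finsupp.erase_same] at hv
        exact hv rfl
      exact pval_spec hSF
        (hH.2.1 v fun hinf => hv' ((helper22.isInfty_iff_eq S.hPinf v).mp hinf)))
  -- the sum of the residue theorem is `s`
  have hsum : ∑ v ∈ (D.erase S.Pinf).support,
      ((v.ord (⟨incl A Y, hY.1⟩ : FF M) : ℤ) : Kb) * pval v (⟨incl A H, hH.1⟩ : FF M) =
      (s : Kb) := by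
    rw [hs1, Finsupp.sum]
    refine Finset.sum_congr rfl fun v hv => ?_
    have hv' : v ≠ S.Pinf := by
      rintro rfl
      rw [Finsupp.mem_support_iff, Finsupp.erase_same] at hv
      exact hv rfl
    rw [Finsupp.erase_ne hv', hD]
  rw [hsum] at hres
  -- integrality of the logarithmic derivative
  have hYord : Y.order = (incl A Y).order :=
    (Fermat.Agent.P2.helper44.order_coeffMap_of_injective A.subtype Subtype.val_injective Y).symm
  have hYunit : IsUnit Y := by
    rw [HahnSeries.isUnit_iff, HahnSeries.leadingCoeff_eq, hYord]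
    exact hunit
  obtain ⟨Z, hZ⟩ : ∃ Z : LaurentSeries A, Z * Y = 1 := by
    obtain ⟨u, hu⟩ := hYunit
    exact ⟨((u⁻¹ : (LaurentSeries A)ˣ) : LaurentSeries A), by rw [← hu]; exact u.inv_mul⟩
  have e1 : incl A (Z * thetaL Y) = dlogL (incl A Y) :=
    coeffMap_mul_thetaL_of_mul_eq_one A.subtype Y Z hZ
  have e2 : red A (Z * thetaL Y) = dlogL (red A Y) :=
    coeffMap_mul_thetaL_of_mul_eq_one (IsLocalRing.residue A) Y Z hZ
  -- the constant coefficient in `A`
  have key : (H * (Z * thetaL Y)).coeff 0 = -s := by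
    apply Subtype.ext
    have h1 : (((H * (Z * thetaL Y)).coeff 0 : A) : Kb) =
        (incl A (H * (Z * thetaL Y))).coeff 0 := rfl
    rw [h1, map_mul, e1]
    have h2 : ((-s : A) : Kb) = -(s : Kb) := rfl
    rw [h2, ← hres]
    congr 1
    rw [Fermat.Agent.T8.helper87.dlogL_def, div_eq_mul_inv]
    show incl A H * (thetaL (incl A Y) * (incl A Y)⁻¹) =
      incl A H * (incl A Y)⁻¹ * thetaL (incl A Y)
    ring
  -- reduction
  have h3 : (red A H * dlogL (red A Y)).coeff 0 =
      IsLocalRing.residue A ((H * (Z * thetaL Y)).coeff 0) := by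
    rw [← e2, ← map_mul]
    rfl
  rw [h3, key, map_neg, hs2]

/-- the sum of a finitely supported function over a larger finite set -/
theorem finsupp_sum_eq_sum_of_subset {α N : Type*} [AddCommMonoid N] (D : α →₀ ℤ)
    (g : α → ℤ → N) (hg : ∀ a, g a 0 = 0) (T : Finset α) (hT : D.support ⊆ T) :
    D.sum g = ∑ a ∈ T, g a (D a) :=
  Finsupp.sum_of_support_subset D hT g (fun a _ => hg a)

/-- **[OMEGA] (ii)**: if `p ∣ ord_Q fb` at every place `Q ≠ ∞̄` of the special fibre, then
`a₀ (red H · dlogL fb) = 0` for every integral function `H` regular off infinity. -/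
theorem omega_ann (p : ℕ) [CharP (kA A) p] (fb : FFb A M) (hfb : fb ≠ 0)
    (hp : ∀ Q : Place (kA A) (FFb A M), Q ≠ S.Qinf → (p : ℤ) ∣ Q.ord fb)
    {m : ℤ} {H : LaurentSeries A} (hH : InL (FF M) m (incl A H)) :
    (red A H * dlogL (fb : LaurentSeries (kA A))).coeff 0 = 0 := by
  classical
  obtain ⟨Ya, Yb, na, nb, -, -, hLa, hLb, ha0, hb0, hq, hoa, hob, hia, hib, hua, hub⟩ :=
    Fermat.Agent.T8.helper11.omega_lift S fb hfb 0
  have hfb0 : (fb : LaurentSeries (kA A)) ≠ 0 := fun h => hfb (Subtype.ext h)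
  -- the divisors of the reductions
  have ha0' : (⟨red A Ya, (S.hReg na Ya hLa).1⟩ : FFb A M) ≠ 0 := fun h0 =>
    ha0 (congrArg Subtype.val h0)
  have hb0' : (⟨red A Yb, (S.hReg nb Yb hLb).1⟩ : FFb A M) ≠ 0 := fun h0 =>
    hb0 (congrArg Subtype.val h0)
  obtain ⟨Da, hDa, -⟩ := S.hSb.principal.exists_divisor _ ha0'
  obtain ⟨Db, hDb, -⟩ := S.hSb.principal.exists_divisor _ hb0'
  have hmul : (⟨red A Ya, (S.hReg na Ya hLa).1⟩ : FFb A M) =
      fb * ⟨red A Yb, (S.hReg nb Yb hLb).1⟩ := Subtype.ext hq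
  have hordQ : ∀ Q : Place (kA A) (FFb A M), Da Q = Q.ord fb + Db Q := by
    intro Q
    rw [hDa, hDb, hmul, Q.ord_mul hfb hb0']
  -- the two residue formulas
  have Ea := omega_one S hLa hH ha0 (by rw [hoa, hia]) (by rw [hia]; exact hua) Da hDa
  have Eb := omega_one S hLb hH hb0 (by rw [hob, hib]) (by rw [hib]; exact hub) Db hDb
  -- `dlogL fb = dlogL (red Ya) - dlogL (red Yb)`
  have hdl : dlogL (fb : LaurentSeries (kA A)) = dlogL (red A Ya) - dlogL (red A Yb) := by
    rw [hq, Fermat.Agent.T8.helper87.dlogL_mul hfb0 hb0]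
    ring
  rw [hdl, mul_sub, HahnSeries.coeff_sub, Ea, Eb, neg_sub_neg, sub_eq_zero]
  -- the two sums agree modulo `p`
  set g : Place (kA A) (FFb A M) → ℤ → kA A := fun Q k => ((k : ℤ) : kA A) *
    pval Q (⟨red A H, (S.hReg m H hH).1⟩ : FFb A M) with hg
  have hg0 : ∀ Q, g Q 0 = 0 := fun Q => by simp [hg]
  rw [finsupp_sum_eq_sum_of_subset (Db.erase S.Qinf) g hg0
      ((Da.erase S.Qinf).support ∪ (Db.erase S.Qinf).support) Finset.subset_union_right,
    finsupp_sum_eq_sum_of_subset (Da.erase S.Qinf) g hg0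
      ((Da.erase S.Qinf).support ∪ (Db.erase S.Qinf).support) Finset.subset_union_left]
  refine Finset.sum_congr rfl fun Q _ => ?_
  by_cases hQ : Q = S.Qinf
  · rw [hQ, Finsupp.erase_same, Finsupp.erase_same]
  · rw [Finsupp.erase_ne hQ, Finsupp.erase_ne hQ, hordQ Q]
    obtain ⟨c, hc⟩ := hp Q hQ
    simp only [hg]
    rw [hc]
    push_cast
    rw [CharP.cast_eq_zero, zero_mul, zero_add]

/-- `p ∣ ord_∞̄ fb` (the degree of a principal divisor is zero) -/
theorem dvd_ord_Qinf (p : ℕ) (fb : FFb A M) (hfb : fb ≠ 0)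
    (hp : ∀ Q : Place (kA A) (FFb A M), Q ≠ S.Qinf → (p : ℤ) ∣ Q.ord fb) :
    (p : ℤ) ∣ S.Qinf.ord fb := by
  classical
  obtain ⟨D, hD, hdeg⟩ := S.hSb.principal.exists_divisor fb hfb
  have h1 : Divisor.degree D = (D.erase S.Qinf).sum (fun v k => k * (v.deg : ℤ)) +
      D S.Qinf * (S.Qinf.deg : ℤ) := by
    conv_lhs => rw [← Finsupp.erase_add_single S.Qinf D]
    rw [map_add, Divisor.degree_single, helper74.degree_eq_sum]
  rw [hdeg, S.hSb.deg_one, Nat.cast_one, mul_one] at h1
  have h2 : (p : ℤ) ∣ (D.erase S.Qinf).sum (fun v k => k * (v.deg : ℤ)) := by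
    rw [Finsupp.sum]
    refine Finset.dvd_sum fun Q hQ => ?_
    have hQ' : Q ≠ S.Qinf := by
      rintro rfl
      rw [Finsupp.mem_support_iff, Finsupp.erase_same] at hQ
      exact hQ rfl
    rw [Finsupp.erase_ne hQ', hD]
    exact Dvd.dvd.mul_right (hp Q hQ') _
  rw [← hD]
  have h3 : D S.Qinf = -(D.erase S.Qinf).sum (fun v k => k * (v.deg : ℤ)) := by
    linarith
  rw [h3]
  exact (dvd_neg).mpr h2

/-- **[OMEGA]**: `dlogL fb` lies in the annihilator `annRb M A`. -/
theorem dlogL_mem_annRb (p : ℕ) [CharP (kA A) p] (fb : FFb A M) (hfb : fb ≠ 0)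
    (hp : ∀ Q : Place (kA A) (FFb A M), Q ≠ S.Qinf → (p : ℤ) ∣ Q.ord fb) :
    dlogL (fb : LaurentSeries (kA A)) ∈ Fermat.Agent.T8.helper74.annRb M A := by
  have hfb0 : (fb : LaurentSeries (kA A)) ≠ 0 := fun h => hfb (Subtype.ext h)
  rw [Fermat.Agent.T8.helper74.mem_annRb]
  refine ⟨fun k hk => ?_, fun Y hY => ?_⟩
  · rcases lt_or_eq_of_le hk with hk' | rfl
    · exact Fermat.Agent.T8.helper87.dlogL_coeff_of_neg hfb0 hk'
    · rw [Fermat.Agent.T8.helper87.dlogL_coeff_zero hfb0, ← S.hQinf fb hfb]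
      obtain ⟨c, hc⟩ := dvd_ord_Qinf S p fb hfb hp
      rw [hc]
      push_cast
      rw [CharP.cast_eq_zero, zero_mul]
  · obtain ⟨n, hn⟩ := hY
    exact omega_ann S p fb hfb hp hn

/-- **[OMEGA]** at a good pair (`4 ∣ M` or `9 ∣ M`, `A` over a prime not dividing `M`): if
`p ∣ ord_Q fb` at every place `Q` of the special fibre different from the place at infinity,
then `dlogL fb ∈ annRb M A`. -/
theorem dlogL_mem_annRb_of_goodPair (hG : GoodPair M A) (p : ℕ) [CharP (kA A) p]
    (fb : FFb A M) (hfb : fb ≠ 0)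
    (hp : ∀ Q : Place (kA A) (FFb A M), ¬ IsInfty Q → (p : ℤ) ∣ Q.ord fb) :
    dlogL (fb : LaurentSeries (kA A)) ∈ Fermat.Agent.T8.helper74.annRb M A := by
  obtain ⟨S⟩ := Fermat.Agent.T8.helper11.nonempty_redSetting_goodPair hG
  exact dlogL_mem_annRb S p fb hfb fun Q hQ =>
    hp Q fun hinf => hQ ((helper22.isInfty_iff_eq S.hQinf Q).mp hinf)

end Asm

end Fermat.Agent.T8.helper60
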