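import Mathlib
import Fermat.Agent.T8.helper63_LocQuot
import Fermat.Agent.T8.helper6_UFD2

/-!
# T8 / [RING-X], abstract local core II (helper63): the local rings are UFDs

* `ufm_localization` : `R` a noetherian domain, `ρ : R →+* B` into a Dedekind domain with
  `ker ρ = (y)` and local surjectivity at the prime `𝔪` of `B`: `Localization.AtPrime (ρ⁻¹ 𝔪)`
  is a UFD (`helper63.ufd2_hyps_of_local` + `helper6.ufm_of_quotient`).
* `isLocalization_of_subring` : for subrings `R₀ ≤ L` of a field with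
  `L = {a / s : a, s ∈ R₀, s ∉ 𝔫}`, `L` is the localisation of `R₀` at the prime `𝔫`.
* `ufm_of_subring` : the same conclusion for such an `L` (this is the shape of helper16
  `locX`).
-/

set_option autoImplicit false
set_option linter.unusedSectionVars false
set_option linter.style.haveILetI false
set_option linter.overlappingInstances false

namespace Fermat.Agent.T8.helper63

open Ideal IsLocalRing

section Abs

variable {R B : Type*} [CommRing R] [IsDomain R] [IsNoetherianRing R] [CommRing B] [IsDomain B]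
  [IsDedekindDomain B] (ρ : R →+* B) (y : R) (𝔪 : Ideal B) [h𝔪 : 𝔪.IsPrime]

/-- **[RING-X], abstract**: the local ring `R_𝔫`, `𝔫 = ρ⁻¹ 𝔪`, is a UFD. -/
theorem ufm_localization
    (hsurj : ∀ b : B, ∃ r s : R, ρ s ∉ 𝔪 ∧ b * ρ s = ρ r)
    (hker : RingHom.ker ρ = Ideal.span {y}) :
    UniqueFactorizationMonoid (Localization.AtPrime (𝔪.comap ρ)) := by
  obtain ⟨hy, hdom, hpir⟩ := ufd2_hyps_of_local ρ y 𝔪 hsurj hker
  haveI := hdom
  haveI := hpir
  haveI : IsDomain (Localization.AtPrime (𝔪.comap ρ)) :=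
    IsLocalization.isDomain_localization (𝔪.comap ρ).primeCompl_le_nonZeroDivisors
  haveI : IsNoetherianRing (Localization.AtPrime (𝔪.comap ρ)) :=
    IsLocalization.isNoetherianRing (𝔪.comap ρ).primeCompl _ inferInstance
  exact Fermat.Agent.T8.helper6.ufm_of_quotient hy

end Abs

section Sub

variable {F : Type*} [Field F] (R₀ L : Subring F) (hle : R₀ ≤ L) (𝔫 : Ideal R₀) [h𝔫 : 𝔫.IsPrime]

/-- `L` is the localisation of `R₀` at `𝔫`. -/
theorem isLocalization_of_subring
    (hL : ∀ f : F, f ∈ L ↔ ∃ a s : R₀, s ∉ 𝔫 ∧ f * (s : F) = (a : F)) :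
    @IsLocalization.AtPrime R₀ _ L _ (Subring.inclusion hle).toAlgebra 𝔫 _ := by
  letI : Algebra R₀ L := (Subring.inclusion hle).toAlgebra
  have hmap : ∀ r : R₀, ((algebraMap R₀ L r : L) : F) = (r : F) := fun _ => rfl
  refine ⟨?_, ?_, ?_⟩
  · rintro ⟨s, hs⟩
    have hs' : s ∉ 𝔫 := hs
    have hs0 : (s : F) ≠ 0 := by
      intro h
      apply hs'
      have : s = 0 := Subtype.ext h
      rw [this]
      exact 𝔫.zero_mem
    have hinv : (s : F)⁻¹ ∈ L := (hL _).mpr ⟨1, s, hs', by simp [hs0]⟩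
    refine isUnit_iff_exists_inv.mpr ⟨⟨(s : F)⁻¹, hinv⟩, ?_⟩
    apply Subtype.ext
    show ((algebraMap R₀ L s : L) : F) * (s : F)⁻¹ = 1
    rw [hmap, mul_inv_cancel₀ hs0]
  · intro z
    obtain ⟨a, s, hs, e⟩ := (hL z).mp z.2
    refine ⟨(a, ⟨s, hs⟩), ?_⟩
    apply Subtype.ext
    show (z : F) * ((algebraMap R₀ L s : L) : F) = ((algebraMap R₀ L a : L) : F)
    rw [hmap, hmap, e]
  · intro a b h
    refine ⟨1, ?_⟩
    have h1 : (a : F) = (b : F) := by
      have := congrArg (fun z : L => (z : F)) h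
      simpa [hmap] using this
    have : a = b := Subtype.ext h1
    rw [this]

include hle in
/-- **[RING-X], abstract, subring form**: `R₀` a noetherian subring of a field, `ρ : R₀ →+* B`
into a Dedekind domain, `ker ρ = (y)`, local surjectivity at `𝔪`, and
`L = {a / s : a, s ∈ R₀, ρ s ∉ 𝔪}`: then `L` is a UFD. -/
theorem ufm_of_subring {B : Type*} [CommRing B] [IsDomain B] [IsDedekindDomain B]
    [IsNoetherianRing R₀] (ρ : R₀ →+* B) (y : R₀) (𝔪 : Ideal B) [h𝔪 : 𝔪.IsPrime]
    (hsurj : ∀ b : B, ∃ r s : R₀, ρ s ∉ 𝔪 ∧ b * ρ s = ρ r)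
    (hker : RingHom.ker ρ = Ideal.span {y})
    (hL : ∀ f : F, f ∈ L ↔ ∃ a s : R₀, ρ s ∉ 𝔪 ∧ f * (s : F) = (a : F)) :
    UniqueFactorizationMonoid L := by
  letI : Algebra R₀ L := (Subring.inclusion hle).toAlgebra
  haveI : IsLocalization.AtPrime L (𝔪.comap ρ) :=
    isLocalization_of_subring R₀ L hle (𝔪.comap ρ) hL
  haveI := ufm_localization ρ y 𝔪 hsurj hker
  have e : Localization.AtPrime (𝔪.comap ρ) ≃ₐ[R₀] L :=
    IsLocalization.algEquiv (𝔪.comap ρ).primeCompl _ _
  exact e.toMulEquiv.uniqueFactorizationMonoid inferInstance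

end Sub

end Fermat.Agent.T8.helper63
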