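import Mathlib
import Fermat.Agent.T8.helper16_RingXDefs
import Fermat.Agent.T3.helper98_ResCore
import Fermat.Agent.T3.helper95_BtDed
import Fermat.Agent.T2.helper87_RegRed2
import Fermat.Agent.T2.helper96_ValBase
import Fermat.Agent.T2.helper58_ScaleBad

/-!
# T8 / [RING-X], sub-box (RES-X) (helper63): the reductions of `R⁰` lie in `BtAll`

Level `N q`, `A` over `q`, `R⁰ = helper16.ringX` (`I`-fixed, regular where `j` is finite,
integral pair).  For `g ∈ R⁰` with integral pair `(Y₁, Y₂)`:

* `isIntegralElem_evX_of_isRX` : `g` is integral over `A[j]` (T3 `helper48.isIntegralElem_level_q`);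
* `red_isIntegralElem_of_isRX` : `red Y₁` and `red Y₂` are integral over `k[j̄]`;
* `red_mem_FFb_of_isRX` : `red Y₁, red Y₂ ∈ F̃_N` (T2 scaling statement);
* `red_mem_BtAll_of_isRX` : `red Y₁, red Y₂ ∈ BtAll N A` (regular where `j̄` is finite);
* `red1B`, `red2B : R⁰ →+* BtAll N A` : the reductions as ring homomorphisms into the Dedekind
  domain `BtAll N A`.
-/

set_option autoImplicit false
set_option synthInstance.maxHeartbeats 400000
set_option maxHeartbeats 1000000
set_option linter.unusedSectionVars false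
set_option linter.unusedVariables false
set_option linter.style.haveILetI false
set_option linter.style.longLine false

noncomputable section

open HahnSeries IntermediateField AlgebraicCurve ModularCurve
open Fermat.Agent.S18.helper19 Fermat.Agent.P2.helper29 Fermat.Agent.T2.helper36
open Fermat.Agent.S24

namespace Fermat.Agent.T8.helper63

open Fermat.Agent.T3.helper74 (IsFixI)
open Fermat.Agent.T3.helper98 (IsRegJ evBar)
open Fermat.Agent.T2.helper22 (IsRep)
open Fermat.Agent.T3.helper95 (BtAll mem_BtAll)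
open Fermat.Agent.T8.helper16 (ringX red1X red2X red1X_eq red2X_eq isRX_model)
open Fermat.Agent.P2.helper81 (evX)
open Fermat.Agent.T3.helper48 (evK)

section Res

variable {N q : ℕ} [NeZero N] [NeZero q] {hq : q.Prime} {hqN : ¬ q ∣ N}
variable {A : ValuationSubring Kb}

/-- a function of `R⁰` is integral over `A[j]`. -/
theorem isIntegralElem_evX_of_isRX (hA : A.LiesOverPrime q) {g : FF (N * q)}
    {Y₁ Y₂ : LaurentSeries A} (h : IsRX A hq hqN g Y₁ Y₂) :
    (evX A (N * q)).IsIntegralElem g :=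
  Fermat.Agent.T3.helper48.isIntegralElem_level_q A N q hq hqN hA g ⟨Y₁, h.2.2.1⟩
    ⟨Y₂, h.2.2.2⟩ (Fermat.Agent.T3.helper48.isIntegralElem_evK_of_forall_place (N * q) g h.2.1)

/-- the first expansion, as a ring homomorphism -/
def ex1 (M : ℕ) : FF M →+* LaurentSeries Kb := (FF M).val.toRingHom

/-- the second expansion, as a ring homomorphism -/
def ex2 (N q : ℕ) [NeZero N] [NeZero q] (hq : q.Prime) (hqN : ¬ q ∣ N) :
    FF (N * q) →+* LaurentSeries Kb :=
  (FF (N * q)).val.toRingHom.comp (atkinLehner N q hq hqN).toAlgHom.toRingHom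

theorem ex1_apply (M : ℕ) (f : FF M) : ex1 M f = (f : LaurentSeries Kb) := rfl

theorem ex2_apply (f : FF (N * q)) :
    ex2 N q hq hqN f = ((atkinLehner N q hq hqN f : FF (N * q)) : LaurentSeries Kb) := rfl

theorem coe_atkinLehner_xJ :
    ((atkinLehner N q hq hqN (xJ (N * q)) : FF (N * q)) : LaurentSeries Kb) =
      qExpand Kb q (jqModC Kb) := by
  have e : xJ (N * q) = heckeAlphaBar Kb N q (xJ N) := by
    apply Subtype.ext
    rw [coe_heckeAlphaBar, Fermat.Agent.T3.helper98.coe_xJ', Fermat.Agent.T3.helper98.coe_xJ']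
  rw [e, atkinLehner_heckeAlphaBar, coe_heckeBetaBar, Fermat.Agent.T3.helper98.coe_xJ']

/-- **(RES-X), core**: the reductions of a function of `R⁰` are integral over `k[j̄]`. -/
theorem red_isIntegralElem_of_isRX (hA : A.LiesOverPrime q) {g : FF (N * q)}
    {Y₁ Y₂ : LaurentSeries A} (h : IsRX A hq hqN g Y₁ Y₂) :
    (evBar (jqModC (kA A))).IsIntegralElem (red A Y₁) ∧
      (evBar (jqModC (kA A))).IsIntegralElem (red A Y₂) := by
  have hint := isIntegralElem_evX_of_isRX hA h
  constructor
  · have hj : incl A (jqModC A) = ex1 (N * q) (xJ (N * q)) := by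
      rw [ex1_apply, Fermat.Agent.T3.helper98.coe_xJ', Fermat.Agent.T3.helper98.incl_jqModC]
    have := Fermat.Agent.T3.helper98.isIntegralElem_red_of_isIntegralElem (N * q)
      (ex1 (N * q)) (fun c => rfl) (jqModC A) hj hint Y₁ (by rw [ex1_apply]; exact h.2.2.1)
    rwa [Fermat.Agent.T3.helper98.red_jqModC] at this
  · have hj : incl A (qExpand A q (jqModC A)) = ex2 N q hq hqN (xJ (N * q)) := by
      rw [ex2_apply, coe_atkinLehner_xJ, ← Fermat.Agent.T3.helper98.incl_jqModC (A := A)]
      show coeffMap _ _ = _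
      rw [Fermat.Agent.P2.helper94.coeffMap_qExpand]
    have hE : ∀ c : Kb, ex2 N q hq hqN (algebraMap Kb (FF (N * q)) c) =
        algebraMap Kb (LaurentSeries Kb) c := by
      intro c
      rw [ex2_apply, AlgEquiv.commutes]
      rfl
    have := Fermat.Agent.T3.helper98.isIntegralElem_red_of_isIntegralElem (N * q)
      (ex2 N q hq hqN) hE _ hj hint Y₂ (by rw [ex2_apply]; exact h.2.2.2)
    have e : red A (qExpand A q (jqModC A)) = jqModC (kA A) ^ q := by
      show coeffMap _ _ = _
      rw [Fermat.Agent.P2.helper94.coeffMap_qExpand]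
      have e1 : coeffMap (IsLocalRing.residue A) (jqModC A) = jqModC (kA A) := coeffMap_jqModC _
      rw [e1, Fermat.Agent.T2.helper96.jBar_qExpand A hq hA]
    rw [e] at this
    exact Fermat.Agent.T3.helper98.isIntegralElem_evBar_of_pow _ _ this

/-- the reductions of a function of `R⁰` lie in the special fibre field `F̃_N`. -/
theorem red_mem_FFb_of_isRX (hA : A.LiesOverPrime q) {g : FF (N * q)}
    {Y₁ Y₂ : LaurentSeries A} (h : IsRX A hq hqN g Y₁ Y₂) :
    red A Y₁ ∈ FFb A N ∧ red A Y₂ ∈ FFb A N := by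
  have hSC : ScaleStatement (N * q) A :=
    Fermat.Agent.T2.helper58.scaleStatement_bad N q hq hqN A hA
  have hFF : FFb A (N * q) = FFb A N := Fermat.Agent.T2.helper96.FFb_mul_eq N A hq hA
  constructor
  · rw [← hFF]
    exact Fermat.Agent.T2.helper87.red_mem_of_scale A (N * q) hSC Y₁
      (by rw [h.2.2.1]; exact g.2)
  · rw [← hFF]
    exact Fermat.Agent.T2.helper87.red_mem_of_scale A (N * q) hSC Y₂
      (by rw [h.2.2.2]; exact (atkinLehner N q hq hqN g).2)

/-- an element of `F̃_N` which is integral over `k[j̄]` is regular where `j̄` is finite. -/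
theorem mem_BtAll_of_isIntegralElem {x : LaurentSeries (kA A)} (hx : x ∈ FFb A N)
    (h1 : (evBar (jqModC (kA A))).IsIntegralElem x) : x ∈ BtAll N A := by
  refine mem_BtAll.mpr ⟨hx, fun Q hQ => ?_⟩
  set φ : Polynomial (kA A) →+* FFb A N :=
    Polynomial.eval₂RingHom (algebraMap (kA A) (FFb A N)) (jBar A N) with hφ
  have hcomp : evBar (jqModC (kA A)) =
      ((FFb A N).val : FFb A N →+* LaurentSeries (kA A)).comp φ := by
    apply Polynomial.ringHom_ext
    · intro c
      simp [evBar, hφ]
    · simp only [evBar, hφ, RingHom.comp_apply, Polynomial.coe_eval₂RingHom, Polynomial.eval₂_X]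
      rfl
  have h2 : φ.IsIntegralElem (⟨x, hx⟩ : FFb A N) := by
    obtain ⟨p, hp, hp0⟩ := h1
    refine ⟨p, hp, ?_⟩
    apply Subtype.ext
    have h3 : ((Polynomial.eval₂ φ (⟨x, hx⟩ : FFb A N) p : FFb A N) : LaurentSeries (kA A))
        = Polynomial.eval₂ (((FFb A N).val : FFb A N →+* LaurentSeries (kA A)).comp φ)
            x p :=
      Polynomial.hom_eval₂ p φ ((FFb A N).val : FFb A N →+* LaurentSeries (kA A)) ⟨x, hx⟩
    rw [h3, ← hcomp, hp0]
    rfl
  rw [← helper82.mem_iff_ord_nonneg] at hQ ⊢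
  refine Fermat.Agent.T2.helper87.mem_of_isIntegralElem Q.toValuationSubring φ (fun r => ?_) h2
  induction r using Polynomial.induction_on' with
  | add r s hr hs =>
    rw [map_add]
    exact Q.toValuationSubring.add_mem _ _ hr hs
  | monomial n a =>
    rw [hφ, Polynomial.coe_eval₂RingHom, Polynomial.eval₂_monomial]
    exact Q.toValuationSubring.mul_mem _ _ (Q.algebraMap_mem' a) (pow_mem hQ n)

/-- **(RES-X)**: the reductions of a function of `R⁰` lie in `BtAll N A`. -/
theorem red_mem_BtAll_of_isRX (hA : A.LiesOverPrime q) {g : FF (N * q)}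
    {Y₁ Y₂ : LaurentSeries A} (h : IsRX A hq hqN g Y₁ Y₂) :
    red A Y₁ ∈ BtAll N A ∧ red A Y₂ ∈ BtAll N A :=
  ⟨mem_BtAll_of_isIntegralElem (red_mem_FFb_of_isRX hA h).1 (red_isIntegralElem_of_isRX hA h).1,
    mem_BtAll_of_isIntegralElem (red_mem_FFb_of_isRX hA h).2 (red_isIntegralElem_of_isRX hA h).2⟩

theorem red1X_mem_BtAll (hA : A.LiesOverPrime q) (g : ringX A hq hqN) :
    red1X A hq hqN g ∈ BtAll N A := by
  rw [red1X_eq (isRX_model g)]
  exact (red_mem_BtAll_of_isRX hA (isRX_model g)).1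

theorem red2X_mem_BtAll (hA : A.LiesOverPrime q) (g : ringX A hq hqN) :
    red2X A hq hqN g ∈ BtAll N A := by
  rw [red2X_eq (isRX_model g)]
  exact (red_mem_BtAll_of_isRX hA (isRX_model g)).2

/-- **`red₁ : R⁰ →+* BtAll`** -/
def red1B (hA : A.LiesOverPrime q) : ringX A hq hqN →+* BtAll N A :=
  (red1X A hq hqN).codRestrict (BtAll N A) (red1X_mem_BtAll hA)

/-- **`red₂ : R⁰ →+* BtAll`** -/
def red2B (hA : A.LiesOverPrime q) : ringX A hq hqN →+* BtAll N A :=
  (red2X A hq hqN).codRestrict (BtAll N A) (red2X_mem_BtAll hA)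

theorem coe_red1B (hA : A.LiesOverPrime q) (g : ringX A hq hqN) :
    ((red1B hA g : BtAll N A) : LaurentSeries (kA A)) = red1X A hq hqN g := rfl

theorem coe_red2B (hA : A.LiesOverPrime q) (g : ringX A hq hqN) :
    ((red2B hA g : BtAll N A) : LaurentSeries (kA A)) = red2X A hq hqN g := rfl

end Res

end Fermat.Agent.T8.helper63
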