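import Mathlib
import Fermat.Agent.T8.helper63_ResX
import Fermat.Agent.T8.helper63_LocUfd

/-!
# T8 / [RING-X], (UFD) (helper63): the local rings `R_Q` are UFDs

`ufdX_of` : `helper16.NoethXStatement` + `helper16.LocSurjXStatement` ⟹
`helper16.UfdXStatement`, at every bad pair `(N q, A)` with the T3 unit `b₀`
(`helper16.IsUnit0`; `4 ∣ N` or `9 ∣ N`).

At EVERY closed point `Q` of `C₁` where `j̄` is finite (smooth or double): `ρ = red₁ : R⁰ → BtAll`
(helper63 (RES-X)), `ker ρ = xx R⁰` with `xx = W b₀` (helper63 `kerRed1`), `𝔪_Q` the prime of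
`BtAll` at `Q`, `R_Q = helper16.locX Q` is the localisation of `R⁰` at `ρ⁻¹ 𝔪_Q` and
`R_Q / (xx) ≃ BtAll_{𝔪_Q}` is a discrete valuation ring (helper95: `BtAll` is Dedekind); then
[UFD2] (`helper6.ufm_of_quotient`) via `helper63.ufm_of_subring`.
-/

set_option autoImplicit false
set_option synthInstance.maxHeartbeats 400000
set_option maxHeartbeats 1000000
set_option linter.unusedSectionVars false
set_option linter.unusedVariables false
set_option linter.style.haveILetI false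
set_option linter.style.longLine false

noncomputable section

open HahnSeries IntermediateField AlgebraicCurve ModularCurve
open Fermat.Agent.S18.helper19 Fermat.Agent.P2.helper29 Fermat.Agent.T2.helper36
open Fermat.Agent.S24

namespace Fermat.Agent.T8.helper63

open Fermat.Agent.P2.helper66 (iota)
open Fermat.Agent.T3.helper16 (IsUnit0)
open Fermat.Agent.T3.helper95 (BtAll mem_BtAll)
open Fermat.Agent.T8.helper16 (ringX red1X red2X red1X_eq red2X_eq isRX_model locX mem_locX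
  ringX_le_locX IsUnitAt IsFinitePt ordAt ordAt_of_mem NoethXStatement LocSurjXStatement
  UfdXStatement mem_ringX)

/-! ### the prime of `BtAll` at a finite point -/

section Pt

variable {N : ℕ} [NeZero N] {A : ValuationSubring Kb}

theorem mem_FFb_of_mem_BtAll (b : BtAll N A) : (b : LaurentSeries (kA A)) ∈ FFb A N :=
  (mem_BtAll.mp b.2).1

theorem ord_nonneg_of_mem_BtAll (Q : Place (kA A) (FFb A N)) (hQ : IsFinitePt Q) (b : BtAll N A) :
    0 ≤ Q.ord (⟨(b : LaurentSeries (kA A)), mem_FFb_of_mem_BtAll b⟩ : FFb A N) :=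
  (mem_BtAll.mp b.2).2 Q hQ

/-- `BtAll` maps to the valuation ring of a finite point -/
def toValQ (Q : Place (kA A) (FFb A N)) (hQ : IsFinitePt Q) :
    BtAll N A →+* Q.toValuationSubring where
  toFun b := ⟨⟨(b : LaurentSeries (kA A)), mem_FFb_of_mem_BtAll b⟩,
    (helper82.mem_iff_ord_nonneg Q).mpr (ord_nonneg_of_mem_BtAll Q hQ b)⟩
  map_one' := rfl
  map_mul' _ _ := rfl
  map_zero' := rfl
  map_add' _ _ := rfl

/-- the prime of `BtAll` at the finite point `Q` -/
def ptIdeal (Q : Place (kA A) (FFb A N)) (hQ : IsFinitePt Q) : Ideal (BtAll N A) :=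
  (IsLocalRing.maximalIdeal Q.toValuationSubring).comap (toValQ Q hQ)

instance ptIdeal_isPrime (Q : Place (kA A) (FFb A N)) (hQ : IsFinitePt Q) :
    (ptIdeal Q hQ).IsPrime :=
  Ideal.comap_isPrime _ _

/-- units of the valuation ring of a place: nonzero of order `0` -/
theorem isUnit_val_iff (Q : Place (kA A) (FFb A N)) (y : Q.toValuationSubring) :
    IsUnit y ↔ (y : FFb A N) ≠ 0 ∧ Q.ord (y : FFb A N) = 0 := by
  constructor
  · intro hu
    have hy0 : (y : FFb A N) ≠ 0 := by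
      intro h
      have : y = 0 := Subtype.ext h
      rw [this] at hu
      exact not_isUnit_zero hu
    refine ⟨hy0, ?_⟩
    obtain ⟨z, hz⟩ := isUnit_iff_exists_inv.mp hu
    have hz' : (y : FFb A N) * (z : FFb A N) = 1 := congrArg Subtype.val hz
    have hzinv : (z : FFb A N) = (y : FFb A N)⁻¹ := eq_inv_of_mul_eq_one_right hz'
    have h1 : 0 ≤ Q.ord (y : FFb A N) := (helper82.mem_iff_ord_nonneg Q).mp y.2
    have h2 : 0 ≤ Q.ord (z : FFb A N) := (helper82.mem_iff_ord_nonneg Q).mp z.2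
    rw [hzinv, Place.ord_inv] at h2
    omega
  · rintro ⟨hy0, h0⟩
    have hinv : (y : FFb A N)⁻¹ ∈ Q.toValuationSubring := by
      rw [helper82.mem_iff_ord_nonneg, Place.ord_inv, h0]
      simp
    refine isUnit_iff_exists_inv.mpr ⟨⟨_, hinv⟩, ?_⟩
    apply Subtype.ext
    show (y : FFb A N) * (y : FFb A N)⁻¹ = 1
    exact mul_inv_cancel₀ hy0

theorem notMem_ptIdeal_iff (Q : Place (kA A) (FFb A N)) (hQ : IsFinitePt Q) (b : BtAll N A) :
    b ∉ ptIdeal Q hQ ↔
      (b : LaurentSeries (kA A)) ≠ 0 ∧ ordAt Q (b : LaurentSeries (kA A)) = 0 := by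
  have h1 : b ∉ ptIdeal Q hQ ↔ IsUnit (toValQ Q hQ b) := by
    show ¬ (toValQ Q hQ b ∈ IsLocalRing.maximalIdeal Q.toValuationSubring) ↔ _
    rw [IsLocalRing.mem_maximalIdeal, mem_nonunits_iff, not_not]
  rw [h1, isUnit_val_iff, ordAt_of_mem Q (mem_FFb_of_mem_BtAll b)]
  constructor
  · rintro ⟨h0, h2⟩
    exact ⟨fun h => h0 (Subtype.ext h), h2⟩
  · rintro ⟨h0, h2⟩
    exact ⟨fun h => h0 (congrArg Subtype.val h), h2⟩

end Pt

/-! ### the assembly -/

section Asm

variable {N q : ℕ} [NeZero N] [NeZero q] {hq : q.Prime} {hqN : ¬ q ∣ N}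
variable {b0 : FF (N * q)} {B : PowerSeries ℤ} {ε : ℤ} (h : IsUnit0 hq hqN b0 B ε)
variable {A : ValuationSubring Kb}

theorem isUnitAt_iff (hA : A.LiesOverPrime q) (Q : Place (kA A) (FFb A N)) (hQ : IsFinitePt Q)
    (s : ringX A hq hqN) : IsUnitAt A hq hqN Q s ↔ red1B hA s ∉ ptIdeal Q hQ := by
  rw [notMem_ptIdeal_iff, coe_red1B]
  constructor
  · rintro ⟨-, h1, h2⟩
    exact ⟨h1, h2⟩
  · rintro ⟨h1, h2⟩
    exact ⟨(mem_BtAll.mp (red1X_mem_BtAll hA s)).1, h1, h2⟩

include h in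
/-- `xx = W b₀` as an element of `R⁰` -/
theorem unitW_mem_ringX (hA : A.LiesOverPrime q) :
    atkinLehner N q hq hqN b0 ∈ ringX A hq hqN := by
  obtain ⟨Y₁, Y₂, hR, -, -⟩ := isRX_unitW h A hA
  exact ⟨Y₁, Y₂, hR⟩

include h in
/-- **(KER)** in ideal form: `ker red₁ = xx R⁰`. -/
theorem ker_red1B (hA : A.LiesOverPrime q) :
    RingHom.ker (red1B (hq := hq) (hqN := hqN) hA) =
      Ideal.span {(⟨atkinLehner N q hq hqN b0, unitW_mem_ringX h hA⟩ : ringX A hq hqN)} := by
  apply le_antisymm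
  · intro g hg
    rw [RingHom.mem_ker] at hg
    have hg1 : red1X A hq hqN g = 0 := by
      have := congrArg (fun z : BtAll N A => (z : LaurentSeries (kA A))) hg
      simpa [coe_red1B] using this
    have hm := isRX_model g
    rw [red1X_eq hm] at hg1
    obtain ⟨Z₁, Z₂, hZ, -⟩ := kerRed1 h A hA (g : FF (N * q)) _ _ hm hg1
    rw [Ideal.mem_span_singleton]
    refine ⟨⟨(g : FF (N * q)) * (atkinLehner N q hq hqN b0)⁻¹, ⟨Z₁, Z₂, hZ⟩⟩, ?_⟩
    apply Subtype.ext
    show (g : FF (N * q)) = atkinLehner N q hq hqN b0 *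
      ((g : FF (N * q)) * (atkinLehner N q hq hqN b0)⁻¹)
    have hne : atkinLehner N q hq hqN b0 ≠ 0 :=
      (map_ne_zero_iff _ (atkinLehner N q hq hqN).injective).mpr h.ne_zero
    field_simp
  · rw [Ideal.span_le, Set.singleton_subset_iff, SetLike.mem_coe, RingHom.mem_ker]
    obtain ⟨Y₁, Y₂, hR, h1, -⟩ := isRX_unitW h A hA
    apply Subtype.ext
    rw [coe_red1B]
    have e : red1X A hq hqN ⟨atkinLehner N q hq hqN b0, unitW_mem_ringX h hA⟩ = red A Y₁ :=
      red1X_eq (g := ⟨atkinLehner N q hq hqN b0, unitW_mem_ringX h hA⟩) hR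
    rw [e, h1]
    rfl

include h in
/-- **[RING-X] (UFD)**: the local rings `R_Q` are UFDs, from (NOETH) and (SURJ). -/
theorem ufdX_of (hA : A.LiesOverPrime q) (hNoeth : NoethXStatement N q hq hqN A)
    (hSurj : LocSurjXStatement N q hq hqN A) : UfdXStatement N q hq hqN A := by
  intro Q hQ
  haveI : IsNoetherianRing (ringX A hq hqN) := hNoeth
  haveI : IsDedekindDomain (BtAll N A) := Fermat.Agent.T3.helper95.isDedekindDomain_BtAll N A
  refine ufm_of_subring (ringX A hq hqN) (locX A hq hqN Q) (ringX_le_locX Q) (red1B hA)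
    ⟨atkinLehner N q hq hqN b0, unitW_mem_ringX h hA⟩ (ptIdeal Q hQ) ?_ (ker_red1B h hA) ?_
  · intro b
    obtain ⟨a, s, hs, e⟩ := hSurj Q hQ ⟨(b : LaurentSeries (kA A)), mem_FFb_of_mem_BtAll b⟩
      (ord_nonneg_of_mem_BtAll Q hQ b)
    refine ⟨a, s, (isUnitAt_iff hA Q hQ s).mp hs, ?_⟩
    apply Subtype.ext
    show (b : LaurentSeries (kA A)) * red1X A hq hqN s = red1X A hq hqN a
    exact e
  · intro f
    rw [mem_locX]
    constructor
    · rintro ⟨a, s, hs, e⟩
      exact ⟨a, s, (isUnitAt_iff hA Q hQ s).mp hs, e⟩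
    · rintro ⟨a, s, hs, e⟩
      exact ⟨a, s, (isUnitAt_iff hA Q hQ s).mpr hs, e⟩

end Asm

end Fermat.Agent.T8.helper63
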