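/-
T8 = row 38 via S44, LAST OPEN PROP `helper29.CovPtFix` (helper65, insurance assembler):
THE FINAL ASSEMBLY OF THE COVER INSTANCE.

At every finite point `Q` of the special fibre: `R = R_Q = helper16.locX A hp hpN Q`,
`S = R[t] = Algebra.adjoin R {tGen D ζ}` inside the cover, `f` the polynomial of the tame trace
(`helper97.exists_sheets_poly`), `a` the lift of the reduction of `t` (`helper16.sheet1_cov`),
`T₀ = S_M`, `M = (t - a) + 𝔪 S` (`helper33.ptIdeal`), `ι : T₀ →+* Cov` the extension of the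
inclusion.  The contract `helper9.CovPtHom` is `helper23.covPtHom_locX` (items (i)) with
`helper16.sheet1_cov` (item (ii)), `helper4.yCase_locX` (y_case) and the order function of
item (iv); `helper22.covPtStatement_of_hom` gives `helper9.CovPtStatement`.

* `covPtHom_at` : the point contract at a finite point;
* `covPtFix`    : **`helper29.CovPtFix`**, hypothesis-free.
-/
import Mathlib
import Fermat.Agent.T8.helper23_CovPtWire2
import Fermat.Agent.T8.helper4_YCaseInst
import Fermat.Agent.T8.helper16_CovSheet1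
import Fermat.Agent.T8.helper22_OrdNu
import Fermat.Agent.T8.helper29_CovPtOrd
import Fermat.Agent.T8.helper97_SheetsGen
import Fermat.Agent.T8.helper65_CovOrd

set_option autoImplicit false
set_option synthInstance.maxHeartbeats 400000
set_option maxHeartbeats 1000000
set_option linter.unusedSectionVars false
set_option linter.unusedVariables false
set_option linter.style.haveILetI false
set_option linter.style.longLine false

noncomputable section

namespace Fermat.Agent.T8.helper65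

open HahnSeries IntermediateField AlgebraicCurve ModularCurve Polynomial
open Fermat.Agent.S18.helper19 Fermat.Agent.P2.helper29 Fermat.Agent.P2.helper93
open Fermat.Agent.T2.helper36
open Fermat.Agent.P2.helper66 (iota)
open Fermat.Agent.T3.helper36 (RhoQ GaussIs)
open Fermat.Agent.T3.helper16 (IsUnit0)
open Fermat.Agent.T3.helper98 (IsRegJ)
open Fermat.Agent.T8.helper16 (ordAt IsFinitePt locX redL ringX red1X locXIncl xxX yyX)
open Fermat.Agent.T8.helper54 (IsRed1)
open Fermat.Agent.T8.helper88 (CovData Cov)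
open Fermat.Agent.T8.helper86 (IsKummerRoot)
open Fermat.Agent.T8.helper97 (tGen SheetsPoly phiX)
open Fermat.Agent.T8.helper33 (IsMonogenic ptIdeal)
open Fermat.Agent.T8.helper23 (covSet)
open Fermat.Agent.T8.helper9 (CovPtHom CovPtStatement)

section Point

variable {N p : ℕ} [NeZero N] [NeZero p] {A : ValuationSubring Kb} {hp : p.Prime}
  {hpN : ¬ p ∣ N} {b0 : FF (N * p)} {B : PowerSeries ℤ} {ε : ℤ}
  (D : CovData (N * p) (atkinLehner N p hp hpN) A p)
  [((muFix p ⊓ IA A).subgroupOf (IA A)).FiniteIndex]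
  (hKum : IsKummerRoot p D.K D.Z) (ζ : Kb) (hζ : IsPrimitiveRoot ζ p)

/-- **the point contract from a monogenic model `S = R_Q[t]` of the cover** (abstract in
`S`, `jS`, `t`). -/
theorem covPtHom_of_monogenic (hb : IsUnit0 hp hpN b0 B ε) (hA : A.LiesOverPrime p)
    (hN : 4 ∣ N ∨ 9 ∣ N) (hp3 : 3 ≤ p)
    (hnew : Fermat.Agent.T7.helper27.IsNewN N p D.K)
    (hfix1 : ∀ σ ∈ muFix p ⊓ IA A, cwAct σ (incl A D.Z₁) = incl A D.Z₁)
    (hfix2 : ∀ σ ∈ muFix p ⊓ IA A, cwAct σ (incl A D.Z₂) = incl A D.Z₂)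
    (hr1 : red A D.Z₁ = 1) (hr2 : red A D.Z₂ = 1)
    (Q : Place (kA A) (FFb A N)) (hQ : IsFinitePt Q)
    [IsLocalRing (locX A hp hpN Q)] [IsNoetherianRing (locX A hp hpN Q)]
    {S : Type} [CommRing S] [IsDomain S] [Algebra (locX A hp hpN Q) S]
    (jS : S →+* Cov (N * p) D.Z) (hjS : Function.Injective jS)
    (hjR : ∀ r : locX A hp hpN Q, jS (algebraMap (locX A hp hpN Q) S r) =
      algebraMap (FF (N * p)) (Cov (N * p) D.Z) (r : FF (N * p)))
    (t : S) (hjt : jS t = tGen D ζ)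
    {f₀ : (ringX A hp hpN)[X]} {c₁ c₂ : LaurentSeries (kA A)}
    (hS : SheetsPoly D hKum ζ hζ f₀ c₁ c₂)
    (hm : IsMonogenic t (f₀.map (locXIncl Q)))
    (xxR yR : locX A hp hpN Q)
    (hxx : (xxR : FF (N * p)) = atkinLehner N p hp hpN b0) (hyy : (yR : FF (N * p)) = b0) :
    ∃ (i j : ℕ) (T₀ : Type) (_ : CommRing T₀) (_ : IsDomain T₀)
      (ι : T₀ →+* Cov (N * p) D.Z) (xx y : T₀),
      CovPtHom (covSet D) (Fermat.Agent.T8.helper29.sh1 D hKum ζ hζ.pow_eq_one i)
        (Fermat.Agent.T8.helper29.sh2 D hKum ζ hζ.pow_eq_one j) ι xx y (FFb A N).toSubfield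
        (ordAt Q) (redL hA Q hQ yR) p := by
  have hKR := Fermat.Agent.T8.helper63.kerRedStatement hb A hA
  have hdeg : (f₀.map (locXIncl (A := A) (hq := hp) (hqN := hpN) Q)).natDegree = p := by
    rw [hS.monic.natDegree_map]
    exact hS.natDegree
  -- item (ii): the first sheet and the lift of the root
  obtain ⟨a, H, ha, ha'⟩ := Fermat.Agent.T8.helper16.sheet1_cov D hKum ζ hζ hb hA hN hp3 hnew
    hfix1 hfix2 hr1 hr2 Q hQ jS hjR t hjt hS xxR hxx
  -- the local ring of the cover at the point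
  haveI hP : (ptIdeal t a).IsPrime := (hm.ptIdeal_isMaximal a ha).isPrime
  have hunit : ∀ y : (ptIdeal t a).primeCompl, IsUnit (jS y) := by
    intro y
    have hy0 : (y : S) ≠ 0 := by
      intro h0
      exact y.2 (by rw [h0]; exact (ptIdeal t a).zero_mem)
    exact IsUnit.mk0 _ (fun h0 => hy0 (hjS (h0.trans (map_zero jS).symm)))
  have hι : ∀ s : S, (IsLocalization.lift (M := (ptIdeal t a).primeCompl)
      (S := Localization.AtPrime (ptIdeal t a)) (g := jS) hunit)
        (algebraMap S (Localization.AtPrime (ptIdeal t a)) s) = jS s := fun s =>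
    IsLocalization.lift_eq hunit s
  -- the vertical element `xx`
  have hxxm : xxR ∈ IsLocalRing.maximalIdeal (locX A hp hpN Q) := by
    rw [IsLocalRing.mem_maximalIdeal, mem_nonunits_iff]
    have hx' : xxR = locXIncl Q (xxX hKR) := Subtype.ext hxx
    rw [hx']
    exact Fermat.Agent.T8.helper16.not_isUnit_xx hA hKR Q hQ
  obtain ⟨hdom, hpid⟩ := Fermat.Agent.T8.helper16.dvr_quot_xx hb hA hN Q hQ xxR hxx
  haveI := hdom
  haveI := hpid
  -- y_case
  obtain ⟨j, hj, hy⟩ := Fermat.Agent.T8.helper4.yCase_locX D hKum ζ hζ.pow_eq_one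
    (Localization.AtPrime (ptIdeal t a)) hb hA hN hQ hζ hp3 hfix1 hfix2 hr1 hr2 jS hjR hjt hm
    hdeg ha ha' _ hι yR hyy
  -- the contract
  have hpt := Fermat.Agent.T8.helper23.covPtHom_locX D (Localization.AtPrime (ptIdeal t a))
    hb hA hKum ζ hζ hp3 hfix1 hfix2 hr1 hr2 hxx hyy hm ha ha' hxxm
    (Fermat.Agent.T8.helper29.sh2 D hKum ζ hζ.pow_eq_one j) hjS hjR hjt _ hι H
    (covOrd_mul Q) (covOrd_const_mul Q)
    (redL_yy_ne_zero hb hA Q hQ yR hyy) hy
  exact ⟨0, j, Localization.AtPrime (ptIdeal t a), inferInstance,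
    IsMonogenic.isDomain_loc (t := t) (a := a) _, _, _, _, hpt⟩

/-- **the point contract `helper9.CovPtHom` at a finite point of the special fibre** -/
theorem covPtHom_at (hb : IsUnit0 hp hpN b0 B ε) (hA : A.LiesOverPrime p)
    (hN : 4 ∣ N ∨ 9 ∣ N) (hp3 : 3 ≤ p) (hK : IsRegJ (N * p) D.K)
    (hnew : Fermat.Agent.T7.helper27.IsNewN N p D.K)
    (hfix1 : ∀ σ ∈ muFix p ⊓ IA A, cwAct σ (incl A D.Z₁) = incl A D.Z₁)
    (hfix2 : ∀ σ ∈ muFix p ⊓ IA A, cwAct σ (incl A D.Z₂) = incl A D.Z₂)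
    (hr1 : red A D.Z₁ = 1) (hr2 : red A D.Z₂ = 1)
    (Q : Place (kA A) (FFb A N)) (hQ : 0 ≤ Q.ord (jBar A N)) :
    ∃ (i j : ℕ) (T₀ : Type) (_ : CommRing T₀) (_ : IsDomain T₀)
      (ι : T₀ →+* Cov (N * p) D.Z) (xx y : T₀) (yR : locX A hp hpN Q),
      (yR : FF (N * p)) = b0 ∧
      CovPtHom (covSet D) (Fermat.Agent.T8.helper29.sh1 D hKum ζ hζ.pow_eq_one i)
        (Fermat.Agent.T8.helper29.sh2 D hKum ζ hζ.pow_eq_one j) ι xx y (FFb A N).toSubfield
        (ordAt Q) (redL hA Q hQ yR) p := by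
  have hQ' : IsFinitePt Q := hQ
  haveI : IsLocalRing (locX A hp hpN Q) := Fermat.Agent.T8.helper16.isLocalRing_locX hA Q hQ'
  haveI : IsNoetherianRing (locX A hp hpN Q) :=
    Fermat.Agent.T8.helper16.isNoetherianRing_locX hA Q hQ'
  have hKR := Fermat.Agent.T8.helper63.kerRedStatement hb A hA
  -- the polynomial of the tame trace
  obtain ⟨f₀, c₁, c₂, hS⟩ :=
    Fermat.Agent.T8.helper97.exists_sheets_poly D hKum ζ hζ hp3 hA hK hfix1 hfix2 hr1 hr2
  have hfm : (f₀.map (locXIncl (A := A) (hq := hp) (hqN := hpN) Q)).Monic := hS.monic.map _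
  have hdeg : (f₀.map (locXIncl (A := A) (hq := hp) (hqN := hpN) Q)).natDegree = p := by
    rw [hS.monic.natDegree_map]
    exact hS.natDegree
  have hroot : aeval (tGen D ζ) (f₀.map (locXIncl (A := A) (hq := hp) (hqN := hpN) Q)) = 0 := by
    rw [aeval_def, eval₂_map]
    exact hS.eval_tGen
  have hminp : (minpoly (FF (N * p)) (tGen D ζ)).natDegree = p :=
    Fermat.Agent.T8.helper97.natDegree_minpoly_tGen D hKum ζ hζ hp3 hA hfix1 hfix2 hr1 hr2
  have hinj : Function.Injective (algebraMap (locX A hp hpN Q) (FF (N * p))) :=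
    Subtype.val_injective
  have hfree : ∀ g : (locX A hp hpN Q)[X],
      g.degree < (f₀.map (locXIncl (A := A) (hq := hp) (hqN := hpN) Q)).degree →
      aeval (tGen D ζ) g = 0 → g = 0 := fun g hg hgt =>
    Fermat.Agent.T8.helper33.free_of_natDegree_le_minpoly (K := FF (N * p)) hinj (tGen D ζ) _
      (by rw [hdeg, hminp]) g hg hgt
  have hm := IsMonogenic.of_adjoin (tGen D ζ) _ hfm hroot hfree
  obtain ⟨i, j, T₀, i1, i2, ι, xx, y, hpt⟩ := covPtHom_of_monogenic D hKum ζ hζ hb hA hN hp3 hnew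
    hfix1 hfix2 hr1 hr2 Q hQ'
    (Algebra.adjoin (locX A hp hpN Q) {tGen D ζ}).val.toRingHom Subtype.val_injective
    (fun r => rfl) _ rfl hS hm (locXIncl Q (xxX hKR)) (locXIncl Q (yyX hKR)) rfl rfl
  exact ⟨i, j, T₀, i1, i2, ι, xx, y, locXIncl Q (yyX hKR), rfl, hpt⟩

end Point

/-- **THE LAST OPEN PROP OF S44: `helper29.CovPtFix`, hypothesis-free.** -/
theorem covPtFix : Fermat.Agent.T8.helper29.CovPtFix := by
  intro P M' _ hpN A hA hdvd hirr b0 B ε hb ν hν D hKum ζ hζp hζ hK hnew hr1 hr2 hf1 hf2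
  haveI : NeZero P.p := ⟨P.pp.ne_zero⟩
  haveI : Fact P.p.Prime := ⟨P.pp⟩
  haveI : ((muFix P.p ⊓ IA A).subgroupOf (IA A)).FiniteIndex := finiteIndex_muFix A hA
  refine Fermat.Agent.T8.helper22.covPtStatement_of_hom hA hb hν D hKum ζ hζp hnew hr1
    (fun Q hQ => ?_)
  exact covPtHom_at D hKum ζ hζ hb hA (Or.inl (Dvd.intro M' rfl))
    (le_trans (by norm_num) P.hp5) (Fermat.Agent.T8.helper29.isRegJ_of_isA0One hK.1) hnew
    hf1 hf2 hr1 hr2 Q hQ

end Fermat.Agent.T8.helper65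

end
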