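/-
T8 [SLOPE on X'], helper65: the inertia action PERMUTES THE PLACES of the cover.

Cover `F' = Cov M D.Z` of `helper88.CovData`.  For `σ` in the inertia group, `D.actEquiv σ hσ`
together with `σ` on the constants is a semilinear automorphism of `F' / ℚ̄`
(`AlgebraicCurve.SemilinearAut`), so it acts on the places of `F'` and preserves orders:

* `covSemi D σ hσ : SemilinearAut Kb (Cov M D.Z)`;
* `cov_ord_act`   : `P.ord (D.act σ hσ f) = ((covSemi D σ hσ)⁻¹ • P).ord f`;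
* `CovDiv D n U`  : `U ≠ 0` and `n ∣ ord_P U` at EVERY place `P` of the cover; it is closed under
  `1`, products and the inertia action (`covDiv_one`, `CovDiv.mul`, `CovDiv.act`);
* `k1CorSheet_cov_div` : `helper65.k1CorSheet_cov` with `Loc := CovDiv D p`: if the K0-corollary
  holds at the sheet pair `(i, j)` for every inertia-fixed `U ≠ 0` of the cover with `p ∣ div U`,
  then `helper29.K1CorSheet` holds at `(ρ ^ i u, sheet2 (ρ ^ j u))` for every `u ≠ 0` fixed by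
  `I_K1` with `p ∣ div u`.
-/
import Mathlib
import Fermat.Agent.T8.helper65_K1Sheet

set_option autoImplicit false
set_option linter.unusedSectionVars false
set_option linter.unusedVariables false
set_option linter.style.haveILetI false
set_option linter.style.longLine false

noncomputable section

namespace Fermat.Agent.T8.helper65

open HahnSeries IntermediateField AlgebraicCurve ModularCurve
open Fermat.Agent.S18.helper19 Fermat.Agent.P2.helper29 Fermat.Agent.P2.helper93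
open Fermat.Agent.T8.helper29 (K1CorSheet)
open Fermat.Agent.T8.helper86 Fermat.Agent.T8.helper88

variable {M : ℕ} [NeZero M] {W : FF M ≃ₐ[Kb] FF M} {A : ValuationSubring Kb} {p : ℕ}
  {Good : LaurentSeries A → Prop} (D : CovData M W A p)

/-- on the constants the inertia action is `σ` -/
theorem cov_act_const (σ : Kb ≃ₐ[ℚ] Kb) (hσ : σ ∈ A.inertiaSubgroupIn ℚ) (c : Kb) :
    D.act σ hσ (algebraMap Kb (Cov M D.Z) c) = algebraMap Kb (Cov M D.Z) (σ c) := by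
  apply Subtype.ext
  rw [CovData.coe_act]
  show coeffMap (σ : Kb →+* Kb) (algebraMap Kb (LaurentSeries Kb) c) =
    algebraMap Kb (LaurentSeries Kb) (σ c)
  exact cwAct_algebraMap σ c

/-- the inertia action as a semilinear automorphism of the cover -/
def covSemi (σ : Kb ≃ₐ[ℚ] Kb) (hσ : σ ∈ A.inertiaSubgroupIn ℚ) :
    SemilinearAut Kb (Cov M D.Z) :=
  ⟨(D.actEquiv σ hσ, (σ : Kb ≃+* Kb)), fun c => cov_act_const D σ hσ c⟩

theorem covSemi_smul (σ : Kb ≃ₐ[ℚ] Kb) (hσ : σ ∈ A.inertiaSubgroupIn ℚ) (f : Cov M D.Z) :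
    covSemi D σ hσ • f = D.act σ hσ f := rfl

/-- **the inertia action permutes the places of the cover and preserves the orders** -/
theorem cov_ord_act (σ : Kb ≃ₐ[ℚ] Kb) (hσ : σ ∈ A.inertiaSubgroupIn ℚ)
    (P : Place Kb (Cov M D.Z)) (f : Cov M D.Z) :
    P.ord (D.act σ hσ f) = ((covSemi D σ hσ)⁻¹ • P).ord f := by
  have h := SemilinearAut.ord_smul (covSemi D σ hσ) ((covSemi D σ hσ)⁻¹ • P) f
  rw [smul_inv_smul, covSemi_smul] at h
  exact h

/-- `U ≠ 0` and `n ∣ ord_P U` at every place `P` of the cover -/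
def CovDiv (n : ℕ) (U : Cov M D.Z) : Prop :=
  U ≠ 0 ∧ ∀ P : Place Kb (Cov M D.Z), (n : ℤ) ∣ P.ord U

theorem covDiv_one (n : ℕ) : CovDiv D n 1 :=
  ⟨one_ne_zero, fun P => by rw [Place.ord_one]; exact dvd_zero _⟩

theorem CovDiv.mul {n : ℕ} {U V : Cov M D.Z} (hU : CovDiv D n U) (hV : CovDiv D n V) :
    CovDiv D n (U * V) :=
  ⟨mul_ne_zero hU.1 hV.1, fun P => by
    rw [Place.ord_mul P hU.1 hV.1]
    exact dvd_add (hU.2 P) (hV.2 P)⟩

theorem CovDiv.act {n : ℕ} {U : Cov M D.Z} (hU : CovDiv D n U) (σ : Kb ≃ₐ[ℚ] Kb)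
    (hσ : σ ∈ A.inertiaSubgroupIn ℚ) : CovDiv D n (D.act σ hσ U) :=
  ⟨(map_ne_zero_iff _ (D.actEquiv σ hσ).injective).mpr hU.1, fun P => by
    rw [cov_ord_act]
    exact hU.2 _⟩

/-- **the K1-corollary on the cover from the K0-corollary on the cover**, for the functions
with divisor divisible by `p`. -/
theorem k1CorSheet_cov_div (hKum : IsKummerRoot p D.K D.Z) (ζ₀ : Kb) (hζ₀ : ζ₀ ^ p = 1)
    (i j : ℕ) (hA : A.LiesOverPrime p) (hG : GoodClass A Good)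
    (ordQ : LaurentSeries (kA A) → ℤ) (m : ℤ)
    (hord : ∀ (r : LaurentSeries (kA A)) (n : ℕ), IsRedQuot Good r →
      ordQ (r ^ n) = n * ordQ r)
    (h0 : ∀ U : Cov M D.Z,
      (∀ (σ : Kb ≃ₐ[ℚ] Kb) (hσ : σ ∈ A.inertiaSubgroupIn ℚ), D.act σ hσ U = U) →
      U ≠ 0 → (∀ P : Place Kb (Cov M D.Z), (p : ℤ) ∣ P.ord U) →
      ∀ (c₁ c₂ : Kb) (r₁ r₂ : LaurentSeries (kA A)) (k : ℤ), c₁ ≠ 0 → c₂ ≠ 0 →
        HasRed Good c₁ ((((D.rho hKum ζ₀ hζ₀) ^ i) U : Cov M D.Z) : LaurentSeries Kb) r₁ →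
        HasRed Good c₂ (D.sheet2 hKum (((D.rho hKum ζ₀ hζ₀) ^ j) U)) r₂ →
        c₂ / (c₁ * (p : Kb) ^ k) ∈ A → (c₁ * (p : Kb) ^ k) / c₂ ∈ A →
        (p : ℤ) ∣ ordQ r₁ - k * m)
    {u : Cov M D.Z} (hu : u ≠ 0)
    (hfix : ∀ (σ : Kb ≃ₐ[ℚ] Kb) (hσ : σ ∈ A.inertiaSubgroupIn ℚ),
      (∀ z : Kb, z ^ p = 1 → σ z = z) → D.act σ hσ u = u)
    (hdiv : ∀ P : Place Kb (Cov M D.Z), (p : ℤ) ∣ P.ord u) :
    K1CorSheet A Good p ordQ m
      ((((D.rho hKum ζ₀ hζ₀) ^ i) u : Cov M D.Z) : LaurentSeries Kb)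
      (D.sheet2 hKum (((D.rho hKum ζ₀ hζ₀) ^ j) u)) :=
  k1CorSheet_cov D hKum ζ₀ hζ₀ i j hA hG ordQ m hord (CovDiv D p) (covDiv_one D p)
    (fun _ _ hU hV => hU.mul D hV) (fun σ hσ _ hU => hU.act D σ hσ)
    (fun U hU hL => h0 U hU hL.1 hL.2) hfix ⟨hu, hdiv⟩

end Fermat.Agent.T8.helper65

end
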