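import Mathlib

/-!
# T8 (row 38, at risk), [SLOPE] on the cover, double points (helper6): Mathlib only

**A local ring between a Dedekind domain and its fraction field is a principal ideal ring.**

* `isPrincipalIdealRing_of_between` : `E` a field, `D ≤ B` subrings of `E`, `D` a Dedekind
  domain, `B` local, every element of `B` a quotient of elements of `D`: then `B` is a principal
  ideal ring (a field or a discrete valuation ring: `B = D_𝔭`, `𝔭 = 𝔪_B ∩ D`).
  NO surjectivity onto `D`, no place, no "overrings of Dedekind domains are Dedekind".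
* `isPrincipalIdealRing_range` : the same for the range of a ring homomorphism `ρ : R →+* E`
  from a local ring.
* `quotient_isDomain_and_isPrincipalIdealRing_of_between` : **the quotient form**:
  `R` local, `ρ : R →+* E` into a field with `ρ y = 0` and `ρ r = 0 → y ∣ r`, `D` a Dedekind
  subring of `E` contained in the range of `ρ`, with the range of `ρ` inside the fraction field
  of `D`: then `R ⧸ (y)` is a domain and a principal ideal ring.
  (Application: `R = locX Q` at a double point, `ρ` the second reduction, `y = b₀`,
  `D = Bt A N`: hypotheses of the etale point lemma `helper33.IsMonogenic.quotient_loc` at `y`.)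
-/

set_option autoImplicit false
set_option linter.unusedSectionVars false
set_option linter.unusedVariables false
set_option linter.style.longLine false
set_option linter.style.haveILetI false

namespace Fermat.Agent.T8.helper6

open IsLocalRing

section Between

variable {E : Type*} [Field E]

/-- **A local ring between a Dedekind domain and its fraction field is a principal ideal
ring.** -/
theorem isPrincipalIdealRing_of_between (D B : Subring E) (hle : D ≤ B) [IsDedekindDomain D]
    [IsLocalRing B]
    (hfrac : ∀ b : B, ∃ a s : D, (s : E) ≠ 0 ∧ (b : E) * (s : E) = (a : E)) :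
    IsPrincipalIdealRing B := by
  classical
  set i : D →+* B := Subring.inclusion hle with hi
  have hiE : ∀ d : D, ((i d : B) : E) = (d : E) := fun _ => rfl
  have hi_inj : Function.Injective i := Subring.inclusion_injective hle
  -- the centre of `B` on `D`
  set 𝔭 : Ideal D := (maximalIdeal B).comap i with h𝔭
  haveI h𝔭prime : 𝔭.IsPrime := Ideal.comap_isPrime i (maximalIdeal B)
  have hunit : ∀ d : D, d ∉ 𝔭 → IsUnit (i d) := by
    intro d hd
    by_contra hcon
    exact hd ((IsLocalRing.mem_maximalIdeal (i d)).mpr hcon)
  by_cases h0 : 𝔭 = ⊥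
  · -- `B` is a field
    have hfield : ∀ b : B, b ≠ 0 → IsUnit b := by
      intro b hb
      obtain ⟨a, s, hs, e⟩ := hfrac b
      have ha0 : a ≠ 0 := by
        rintro rfl
        have hbE : (b : E) ≠ 0 := fun h => hb (Subtype.ext h)
        have : (b : E) * (s : E) = 0 := by rw [e]; rfl
        rcases mul_eq_zero.mp this with h | h
        · exact hbE h
        · exact hs h
      have ha𝔭 : a ∉ 𝔭 := by
        rw [h0, Ideal.mem_bot]
        exact ha0
      have hau := hunit a ha𝔭
      have e' : b * i s = i a := Subtype.ext (by
        show (b : E) * ((i s : B) : E) = ((i a : B) : E)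
        rw [hiE, hiE, e])
      exact isUnit_of_mul_isUnit_left (e' ▸ hau)
    refine ⟨fun I => ?_⟩
    by_cases hI : I = ⊥
    · rw [hI]
      exact ⟨⟨0, by simp⟩⟩
    · obtain ⟨x, hxI, hx0⟩ := Submodule.exists_mem_ne_zero_of_ne_bot hI
      have hItop : I = ⊤ := Ideal.eq_top_of_isUnit_mem I hxI (hfield x hx0)
      rw [hItop]
      exact ⟨⟨1, by rw [Ideal.submodule_span_eq, Ideal.span_singleton_one]⟩⟩
  · -- `B` is the discrete valuation ring `D_𝔭`
    haveI : IsDiscreteValuationRing (Localization.AtPrime 𝔭) :=
      IsLocalization.AtPrime.isDiscreteValuationRing_of_dedekind_domain D h0 _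
    set j : Localization.AtPrime 𝔭 →+* B :=
      IsLocalization.lift (M := 𝔭.primeCompl) (g := i) (fun s => hunit s s.2) with hj
    have hjmap : ∀ d : D, j (algebraMap D (Localization.AtPrime 𝔭) d) = i d := fun d =>
      IsLocalization.lift_eq _ d
    -- `j` maps the maximal ideal into the maximal ideal
    have hjmax : ∀ v : Localization.AtPrime 𝔭, ¬ IsUnit v → ¬ IsUnit (j v) := by
      intro v hv hu
      obtain ⟨⟨d, s⟩, hds⟩ := IsLocalization.surj 𝔭.primeCompl v
      have hds' : v * algebraMap D (Localization.AtPrime 𝔭) s =
          algebraMap D (Localization.AtPrime 𝔭) d := hds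
      have hd𝔭 : d ∈ 𝔭 := by
        by_contra hd
        have hud : IsUnit (algebraMap D (Localization.AtPrime 𝔭) d) :=
          (IsLocalization.AtPrime.isUnit_to_map_iff (Localization.AtPrime 𝔭) 𝔭 d).mpr hd
        rw [← hds'] at hud
        exact hv (isUnit_of_mul_isUnit_left hud)
      have h1 : j v * i s = i d := by
        rw [← hjmap, ← hjmap, ← map_mul, hds']
      have h2 : IsUnit (i d) := by
        rw [← h1]
        exact hu.mul (hunit s s.2)
      exact ((IsLocalRing.mem_maximalIdeal (i d)).mp hd𝔭) h2
    have hsurj : Function.Surjective j := by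
      intro b
      obtain ⟨a, s, hs, e⟩ := hfrac b
      have e' : b * i s = i a := Subtype.ext (by
        show (b : E) * ((i s : B) : E) = ((i a : B) : E)
        rw [hiE, hiE, e])
      have hs0 : i s ≠ 0 := by
        intro h
        apply hs
        have := congrArg (fun z : B => (z : E)) h
        simpa [hiE] using this
      rcases ValuationRing.dvd_total (algebraMap D (Localization.AtPrime 𝔭) a)
        (algebraMap D (Localization.AtPrime 𝔭) s) with h | h
      · -- `s = a v`
        obtain ⟨v, hv⟩ := h
        have h1 : i s = i a * j v := by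
          rw [← hjmap, ← hjmap, hv, map_mul]
        have h2 : i s * (b * j v - 1) = 0 := by
          have : i s * (b * j v) = i s := by
            calc i s * (b * j v) = (b * i s) * j v := by ring
              _ = i a * j v := by rw [e']
              _ = i s := h1.symm
          rw [mul_sub, this, mul_one, sub_self]
        have h3 : b * j v = 1 := by
          rcases mul_eq_zero.mp h2 with h | h
          · exact absurd h hs0
          · exact sub_eq_zero.mp h
        have hvu : IsUnit v := by
          by_contra hv'
          exact hjmax v hv' (isUnit_iff_exists_inv'.mpr ⟨b, h3⟩)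
        obtain ⟨u, rfl⟩ := hvu
        refine ⟨((u⁻¹ : (Localization.AtPrime 𝔭)ˣ) : Localization.AtPrime 𝔭), ?_⟩
        have h4 : j (u : Localization.AtPrime 𝔭) *
            j ((u⁻¹ : (Localization.AtPrime 𝔭)ˣ) : Localization.AtPrime 𝔭) = 1 := by
          rw [← map_mul, Units.mul_inv, map_one]
        calc j ((u⁻¹ : (Localization.AtPrime 𝔭)ˣ) : Localization.AtPrime 𝔭)
            = (b * j (u : Localization.AtPrime 𝔭)) *
                j ((u⁻¹ : (Localization.AtPrime 𝔭)ˣ) : Localization.AtPrime 𝔭) := by
              rw [h3, one_mul]
          _ = b * (j (u : Localization.AtPrime 𝔭) *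
                j ((u⁻¹ : (Localization.AtPrime 𝔭)ˣ) : Localization.AtPrime 𝔭)) := by ring
          _ = b := by rw [h4, mul_one]
      · -- `a = s v`
        obtain ⟨v, hv⟩ := h
        refine ⟨v, ?_⟩
        have h1 : i a = i s * j v := by
          rw [← hjmap, ← hjmap, hv, map_mul]
        have h2 : i s * (j v - b) = 0 := by
          rw [mul_sub, ← h1, ← e']
          ring
        rcases mul_eq_zero.mp h2 with h | h
        · exact absurd h hs0
        · exact sub_eq_zero.mp h
    exact IsPrincipalIdealRing.of_surjective j hsurj

end Between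

section Range

variable {R E : Type*} [CommRing R] [IsLocalRing R] [Field E]

/-- the range of a ring homomorphism from a local ring to a field is a local ring -/
theorem isLocalRing_range (ρ : R →+* E) : IsLocalRing ρ.range :=
  IsLocalRing.of_surjective' ρ.rangeRestrict ρ.rangeRestrict_surjective

/-- **The range of a ring homomorphism from a local ring**, lying between a Dedekind domain and
its fraction field, is a principal ideal ring. -/
theorem isPrincipalIdealRing_range (ρ : R →+* E) (D : Subring E) [IsDedekindDomain D]
    (hD : ∀ d : D, ∃ r : R, ρ r = (d : E))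
    (hfrac : ∀ r : R, ∃ a s : D, (s : E) ≠ 0 ∧ ρ r * (s : E) = (a : E)) :
    IsPrincipalIdealRing ρ.range := by
  haveI := isLocalRing_range ρ
  refine isPrincipalIdealRing_of_between D ρ.range ?_ ?_
  · intro d hd
    obtain ⟨r, hr⟩ := hD ⟨d, hd⟩
    exact ⟨r, hr⟩
  · rintro ⟨b, r, rfl⟩
    exact hfrac r

/-- **The quotient form.**  `R` local, `ρ : R →+* E` into a field with kernel `(y)`, `D` a
Dedekind subring of `E` inside the range of `ρ`, the range of `ρ` inside the fraction field of
`D`: then `R ⧸ (y)` is a domain and a principal ideal ring. -/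
theorem quotient_isDomain_and_isPrincipalIdealRing_of_between (ρ : R →+* E) {y : R}
    (hy : ρ y = 0) (hker : ∀ r : R, ρ r = 0 → y ∣ r)
    (D : Subring E) [IsDedekindDomain D]
    (hD : ∀ d : D, ∃ r : R, ρ r = (d : E))
    (hfrac : ∀ r : R, ∃ a s : D, (s : E) ≠ 0 ∧ ρ r * (s : E) = (a : E)) :
    IsDomain (R ⧸ Ideal.span {y}) ∧ IsPrincipalIdealRing (R ⧸ Ideal.span {y}) := by
  have hkerEq : RingHom.ker ρ = Ideal.span {y} := by
    ext r
    rw [RingHom.mem_ker, Ideal.mem_span_singleton]
    constructor
    · exact hker r
    · rintro ⟨c, rfl⟩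
      rw [map_mul, hy, zero_mul]
  have hprime : (Ideal.span {y} : Ideal R).IsPrime := by
    rw [← hkerEq]
    exact RingHom.ker_isPrime ρ
  haveI := hprime
  refine ⟨Ideal.Quotient.isDomain _, ?_⟩
  haveI := isPrincipalIdealRing_range ρ D hD hfrac
  -- `ρ.range ≃ R ⧸ ker ρ = R ⧸ (y)`
  have e : ρ.range ≃+* R ⧸ RingHom.ker ρ := (RingHom.quotientKerEquivRange ρ).symm
  have e' : R ⧸ RingHom.ker ρ ≃+* R ⧸ Ideal.span {y} := Ideal.quotEquivOfEq hkerEq
  exact IsPrincipalIdealRing.of_surjective ((e.trans e').toRingHom) (e.trans e').surjective

end Range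

end Fermat.Agent.T8.helper6
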