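import Mathlib

/-!
# T8 (row 38, at risk), helper6: a DVR criterion without `IsDomain`

`B` a noetherian local ring whose maximal ideal is generated by one element `t` which is not
nilpotent.  Then `B` is a domain and a principal ideal ring (a discrete valuation ring).

Used for `B = T ⧸ (y)`, `T` the local ring of the cover at a point over a double point:
the hypotheses of `helper6.ufm_of_quotient` for `T`.

* `exists_unit_mul_pow` : every nonzero element is `u * t ^ n` with `u` a unit;
* `isDomain_of_maximalIdeal_eq_span` ;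
* `isPrincipalIdealRing_of_maximalIdeal_eq_span`.
-/

set_option autoImplicit false
set_option linter.unusedSectionVars false
set_option linter.style.haveILetI false

namespace Fermat.Agent.T8.helper6

open Ideal IsLocalRing

section DvrCrit

variable {B : Type*} [CommRing B] [IsNoetherianRing B] [IsLocalRing B]

/-- in a noetherian local ring with maximal ideal `(t)`, every nonzero element is a unit times
a power of `t`. -/
theorem exists_unit_mul_pow {t : B} (ht : maximalIdeal B = Ideal.span {t}) {x : B}
    (hx : x ≠ 0) : ∃ (n : ℕ) (u : Bˣ), x = u * t ^ n := by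
  classical
  -- Krull intersection: `x` is not in all powers of the maximal ideal
  have hkrull : (⨅ n : ℕ, maximalIdeal B ^ n) = ⊥ :=
    Ideal.iInf_pow_eq_bot_of_isLocalRing (maximalIdeal B) (maximalIdeal.isMaximal B).ne_top
  have hex : ∃ n : ℕ, x ∉ maximalIdeal B ^ n := by
    by_contra hcon
    have hall : ∀ n : ℕ, x ∈ maximalIdeal B ^ n := fun n => by
      by_contra hn
      exact hcon ⟨n, hn⟩
    have : x ∈ (⨅ n : ℕ, maximalIdeal B ^ n) := (Ideal.mem_iInf).mpr hall
    rw [hkrull] at this
    exact hx ((Ideal.mem_bot).mp this)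
  -- the least such `n` is positive; `x ∈ 𝔪 ^ (n - 1)`
  let n := Nat.find hex
  have hn : x ∉ maximalIdeal B ^ n := Nat.find_spec hex
  have hn0 : n ≠ 0 := by
    intro h0
    rw [h0, pow_zero, Ideal.one_eq_top] at hn
    exact hn Submodule.mem_top
  obtain ⟨m, hm⟩ : ∃ m, n = m + 1 := ⟨n - 1, by omega⟩
  have hmem : x ∈ maximalIdeal B ^ m := by
    by_contra hcon
    have := Nat.find_min' hex hcon
    omega
  rw [ht, Ideal.span_singleton_pow, Ideal.mem_span_singleton'] at hmem
  obtain ⟨u, hu⟩ := hmem
  have huunit : IsUnit u := by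
    by_contra hnu
    have hum : u ∈ maximalIdeal B := (IsLocalRing.mem_maximalIdeal u).mpr hnu
    rw [ht, Ideal.mem_span_singleton'] at hum
    obtain ⟨c, hc⟩ := hum
    apply hn
    rw [hm, ht, Ideal.span_singleton_pow, Ideal.mem_span_singleton']
    refine ⟨c, ?_⟩
    rw [← hu, ← hc, pow_succ]
    ring
  obtain ⟨u', rfl⟩ := huunit
  exact ⟨m, u', hu.symm⟩

/-- **DVR criterion, domain part.** -/
theorem isDomain_of_maximalIdeal_eq_span {t : B} (ht : maximalIdeal B = Ideal.span {t})
    (hnil : ∀ n : ℕ, t ^ n ≠ 0) : IsDomain B := by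
  haveI : NoZeroDivisors B := by
    refine ⟨fun {a b} hab => ?_⟩
    by_contra hcon
    have ha : a ≠ 0 := fun h => hcon (Or.inl h)
    have hb : b ≠ 0 := fun h => hcon (Or.inr h)
    obtain ⟨n, u, rfl⟩ := exists_unit_mul_pow ht ha
    obtain ⟨m, v, rfl⟩ := exists_unit_mul_pow ht hb
    have h1 : ((u * v : Bˣ) : B) * t ^ (n + m) = 0 := by
      rw [Units.val_mul, pow_add]
      calc (u : B) * v * (t ^ n * t ^ m) = (u : B) * t ^ n * ((v : B) * t ^ m) := by ring
        _ = 0 := hab
    exact hnil (n + m) ((Units.mul_right_eq_zero _).mp h1)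
  exact NoZeroDivisors.to_isDomain B

/-- **DVR criterion, principal ideal part.** -/
theorem isPrincipalIdealRing_of_maximalIdeal_eq_span {t : B}
    (ht : maximalIdeal B = Ideal.span {t}) (hnil : ∀ n : ℕ, t ^ n ≠ 0) :
    IsPrincipalIdealRing B := by
  haveI : IsDomain B := isDomain_of_maximalIdeal_eq_span ht hnil
  have h := (tfae_of_isNoetherianRing_of_isLocalRing_of_isDomain (R := B)).out 4 0
  exact h.mp ⟨t, ht⟩

end DvrCrit

end Fermat.Agent.T8.helper6
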