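import Mathlib
import Fermat.Agent.T8.helper33_SheetsAbs2

/-!
# T8 (row 38, at risk), [SLOPE] on the cover, abstract service lemmas (helper6)

For the instance of the slope setting (`helper5.SlopeAbs` / the `CovPt` contract) at an etale
point `T` of the cover over a closed point `R` of the special fibre.  Mathlib only (plus the
vocabulary `helper33.IsMonogenic`, `helper33.ptIdeal` for the last section).

* `dvd_of_map_eq_zero`   : **kernel of a reduction.**  `T` local, `T ⧸ (x)` a domain and a
  principal ideal ring, `ρ : T →+* F` a ring homomorphism to a domain with `ρ x = 0` and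
  `ρ ϖ ≠ 0` for some non-unit `ϖ`.  Then `ρ r = 0 → x ∣ r`  (`ker ρ = (x)`).
* `dvd_of_red_zero`      : the same for a reduction RELATION `Red : T → F → Prop` which is
  total, single valued, additive and multiplicative (e.g. `fun r s => RhoQ A (E r) s`).
* `redHom`               : the ring homomorphism of such a relation.
* `prime_dvd_algebraMap_of_vert` : **vertical primes.**  If every prime of the UFD `R` dividing
  a nonzero integer divides `z`, every prime of an `R`-algebra `T` dividing a nonzero integer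
  divides the image of `z`.
* `isUnit_natCast_of_vert` : an integer prime to all the primes dividing `z` is a unit.
* `exists_red_of_monogenic` : reductions on `S = R[t]` from reductions on `R` and of `t`.
* `IsMonogenic.dvd_of_map_eq_zero_loc` : the kernel statement at the etale point
  `T = S_M` of `helper33` (hypotheses on `R` only).
-/

set_option autoImplicit false
set_option linter.unusedSectionVars false
set_option linter.unusedVariables false
set_option linter.style.longLine false
set_option linter.style.haveILetI false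

namespace Fermat.Agent.T8.helper6

open Polynomial IsLocalRing

section Ker

variable {T : Type*} [CommRing T] [IsLocalRing T]
variable {F : Type*} [CommRing F] [IsDomain F]

/-- **Kernel of a reduction.**  `T` local, `T ⧸ (x)` a domain and a principal ideal ring,
`ρ : T →+* F` a ring homomorphism to a domain killing `x` but not some non-unit `ϖ`: then the
kernel of `ρ` is `(x)`. -/
theorem dvd_of_map_eq_zero (ρ : T →+* F) {x : T} (hx : ρ x = 0)
    [IsDomain (T ⧸ Ideal.span {x})] [IsPrincipalIdealRing (T ⧸ Ideal.span {x})]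
    {ϖ : T} (hϖ : ¬ IsUnit ϖ) (hρϖ : ρ ϖ ≠ 0) {r : T} (hr : ρ r = 0) : x ∣ r := by
  have hle : ∀ a ∈ Ideal.span {x}, ρ a = 0 := by
    intro a ha
    obtain ⟨c, rfl⟩ := Ideal.mem_span_singleton'.mp ha
    rw [map_mul, hx, mul_zero]
  set ρb : T ⧸ Ideal.span {x} →+* F := Ideal.Quotient.lift (Ideal.span {x}) ρ hle with hρb
  have hmk : ∀ a : T, ρb (Ideal.Quotient.mk _ a) = ρ a := fun a => Ideal.Quotient.lift_mk _ _ _
  have hprime : (RingHom.ker ρb).IsPrime := RingHom.ker_isPrime ρb
  have hbot : RingHom.ker ρb = ⊥ := by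
    by_contra hne
    have hmax : (RingHom.ker ρb).IsMaximal := hprime.isMaximal hne
    have hcomap : ((RingHom.ker ρb).comap (Ideal.Quotient.mk (Ideal.span {x}))).IsMaximal :=
      Ideal.comap_isMaximal_of_surjective _ Ideal.Quotient.mk_surjective
    have heq := IsLocalRing.eq_maximalIdeal hcomap
    have hmem : ϖ ∈ (RingHom.ker ρb).comap (Ideal.Quotient.mk (Ideal.span {x})) := by
      rw [heq]
      exact (IsLocalRing.mem_maximalIdeal ϖ).mpr hϖ
    rw [Ideal.mem_comap, RingHom.mem_ker, hmk] at hmem
    exact hρϖ hmem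
  have h0 : Ideal.Quotient.mk (Ideal.span {x}) r ∈ RingHom.ker ρb := by
    rw [RingHom.mem_ker, hmk]
    exact hr
  rw [hbot, Ideal.mem_bot, Ideal.Quotient.eq_zero_iff_mem] at h0
  exact Ideal.mem_span_singleton.mp h0

end Ker

section Rel

variable {T : Type*} [CommRing T]
variable {F : Type*} [CommRing F]

/-- the ring homomorphism of a total, single valued, additive and multiplicative relation -/
noncomputable def redHom (Red : T → F → Prop) (htot : ∀ r, ∃ s, Red r s)
    (huniq : ∀ r s s', Red r s → Red r s' → s = s')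
    (hadd : ∀ r r' s s', Red r s → Red r' s' → Red (r + r') (s + s'))
    (hmul : ∀ r r' s s', Red r s → Red r' s' → Red (r * r') (s * s'))
    (hone : Red 1 1) : T →+* F where
  toFun r := (htot r).choose
  map_one' := huniq 1 _ _ (htot 1).choose_spec hone
  map_mul' r r' := huniq _ _ _ (htot (r * r')).choose_spec
    (hmul r r' _ _ (htot r).choose_spec (htot r').choose_spec)
  map_zero' := by
    have h0 := (htot 0).choose_spec
    have h1 := hadd 0 0 _ _ h0 h0
    rw [add_zero] at h1
    have h2 := huniq 0 _ _ h0 h1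
    exact left_eq_add.mp h2
  map_add' r r' := huniq _ _ _ (htot (r + r')).choose_spec
    (hadd r r' _ _ (htot r).choose_spec (htot r').choose_spec)

theorem redHom_spec (Red : T → F → Prop) (htot : ∀ r, ∃ s, Red r s)
    (huniq : ∀ r s s', Red r s → Red r s' → s = s')
    (hadd : ∀ r r' s s', Red r s → Red r' s' → Red (r + r') (s + s'))
    (hmul : ∀ r r' s s', Red r s → Red r' s' → Red (r * r') (s * s'))
    (hone : Red 1 1) (r : T) : Red r (redHom Red htot huniq hadd hmul hone r) :=
  (htot r).choose_spec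

theorem redHom_eq_iff (Red : T → F → Prop) (htot : ∀ r, ∃ s, Red r s)
    (huniq : ∀ r s s', Red r s → Red r s' → s = s')
    (hadd : ∀ r r' s s', Red r s → Red r' s' → Red (r + r') (s + s'))
    (hmul : ∀ r r' s s', Red r s → Red r' s' → Red (r * r') (s * s'))
    (hone : Red 1 1) (r : T) (s : F) :
    redHom Red htot huniq hadd hmul hone r = s ↔ Red r s := by
  constructor
  · rintro rfl
    exact redHom_spec Red htot huniq hadd hmul hone r
  · intro h
    exact huniq r _ _ (redHom_spec Red htot huniq hadd hmul hone r) h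

/-- **Kernel of a reduction, relation form.**  `Red` a total, single valued, additive and
multiplicative relation on the local ring `T` with values in a domain (for instance
`fun r s => RhoQ A (E r) s`), `Red x 0`, `T ⧸ (x)` a domain and a principal ideal ring, and
some non-unit `ϖ` has nonzero reduction: then `Red r 0 → x ∣ r`. -/
theorem dvd_of_red_zero [IsLocalRing T] [IsDomain F] (Red : T → F → Prop)
    (htot : ∀ r, ∃ s, Red r s)
    (huniq : ∀ r s s', Red r s → Red r s' → s = s')
    (hadd : ∀ r r' s s', Red r s → Red r' s' → Red (r + r') (s + s'))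
    (hmul : ∀ r r' s s', Red r s → Red r' s' → Red (r * r') (s * s'))
    (hone : Red 1 1) {x : T} (hx : Red x 0)
    [IsDomain (T ⧸ Ideal.span {x})] [IsPrincipalIdealRing (T ⧸ Ideal.span {x})]
    {ϖ : T} (hϖ : ¬ IsUnit ϖ) (hρϖ : ¬ Red ϖ 0) {r : T} (hr : Red r 0) : x ∣ r := by
  refine dvd_of_map_eq_zero (redHom Red htot huniq hadd hmul hone) ?_ hϖ ?_ ?_
  · exact (redHom_eq_iff Red htot huniq hadd hmul hone x 0).mpr hx
  · intro h
    exact hρϖ ((redHom_eq_iff Red htot huniq hadd hmul hone ϖ 0).mp h)
  · exact (redHom_eq_iff Red htot huniq hadd hmul hone r 0).mpr hr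

end Rel

section Vert

variable {R : Type*} [CommRing R] [IsDomain R] [UniqueFactorizationMonoid R]
variable {T : Type*} [CommRing T] [Algebra R T]

/-- **Vertical primes.**  If every prime of the UFD `R` dividing a nonzero integer divides `z`,
then every prime of an `R`-algebra `T` dividing a nonzero integer divides the image of `z`. -/
theorem prime_dvd_algebraMap_of_vert {z : R}
    (hvert : ∀ π : R, Prime π → ∀ m : ℕ, m ≠ 0 → π ∣ (m : R) → π ∣ z)
    (hchar : ∀ m : ℕ, m ≠ 0 → (m : R) ≠ 0)
    {π : T} (hπ : Prime π) {m : ℕ} (hm : m ≠ 0) (hdvd : π ∣ (m : T)) :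
    π ∣ algebraMap R T z := by
  obtain ⟨f, hf, hfm⟩ := UniqueFactorizationMonoid.exists_prime_factors (m : R) (hchar m hm)
  obtain ⟨u, hu⟩ := hfm
  have h1 : (m : T) = algebraMap R T (f.prod) * algebraMap R T (u : R) := by
    rw [← map_mul, hu, map_natCast]
  rw [h1] at hdvd
  rcases hπ.dvd_or_dvd hdvd with h | h
  · rw [map_multiset_prod] at h
    obtain ⟨b, hb, hπb⟩ := hπ.exists_mem_multiset_dvd h
    obtain ⟨c, hc, rfl⟩ := Multiset.mem_map.mp hb
    have hcm : c ∣ (m : R) := by
      rw [← hu]
      exact Dvd.dvd.mul_right (Multiset.dvd_prod hc) _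
    exact hπb.trans (map_dvd (algebraMap R T) (hvert c (hf c hc) m hm hcm))
  · exact absurd (isUnit_of_dvd_unit h (u.isUnit.map (algebraMap R T))) hπ.not_isUnit

/-- an integer which is prime to `z` (no prime of `R` divides both) is a unit of `R` -/
theorem isUnit_natCast_of_vert {z : R}
    (hvert : ∀ π : R, Prime π → ∀ m : ℕ, m ≠ 0 → π ∣ (m : R) → π ∣ z)
    (hchar : ∀ m : ℕ, m ≠ 0 → (m : R) ≠ 0)
    {m : ℕ} (hm : m ≠ 0) (hcop : ∀ π : R, Prime π → π ∣ z → ¬ π ∣ (m : R)) :
    IsUnit (m : R) := by
  by_contra hu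
  obtain ⟨π, hπ, hπm⟩ := WfDvdMonoid.exists_irreducible_factor hu (hchar m hm)
  have hπp : Prime π := UniqueFactorizationMonoid.irreducible_iff_prime.mp hπ
  exact hcop π hπp (hvert π hπp m hm hπm) hπm

end Vert

section Mono

variable {R : Type*} [CommRing R] [IsDomain R]
variable {S : Type*} [CommRing S] [IsDomain S] [Algebra R S]
variable {F : Type*} [CommRing F]
variable {t : S} {f : R[X]}

/-- **Reductions on `S = R[t]`** from reductions on `R` and a reduction of `t`. -/
theorem exists_red_of_monogenic (h : helper33.IsMonogenic t f) (Red : S → F → Prop)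
    (hadd : ∀ r r' s s', Red r s → Red r' s' → Red (r + r') (s + s'))
    (hmul : ∀ r r' s s', Red r s → Red r' s' → Red (r * r') (s * s'))
    (hR : ∀ r : R, ∃ s, Red (algebraMap R S r) s) (ht : ∃ τ, Red t τ) (x : S) :
    ∃ σ, Red x σ := by
  obtain ⟨g, rfl⟩ := h.aeval_surjective x
  induction g using Polynomial.induction_on' with
  | add g₁ g₂ h₁ h₂ =>
    obtain ⟨s₁, hs₁⟩ := h₁
    obtain ⟨s₂, hs₂⟩ := h₂
    exact ⟨s₁ + s₂, by rw [map_add]; exact hadd _ _ _ _ hs₁ hs₂⟩
  | monomial n a =>
    obtain ⟨s, hs⟩ := hR a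
    obtain ⟨τ, hτ⟩ := ht
    have hpow : ∀ k : ℕ, ∃ σ, Red (algebraMap R S a * t ^ k) σ := by
      intro k
      induction k with
      | zero => exact ⟨s, by rw [pow_zero, mul_one]; exact hs⟩
      | succ k ih =>
        obtain ⟨σ, hσ⟩ := ih
        exact ⟨σ * τ, by rw [pow_succ, ← mul_assoc]; exact hmul _ _ _ _ hσ hτ⟩
    obtain ⟨σ, hσ⟩ := hpow n
    refine ⟨σ, ?_⟩
    rw [aeval_monomial]
    exact hσ

end Mono

section Loc

variable {R : Type*} [CommRing R] [IsDomain R] [IsLocalRing R]
variable {S : Type*} [CommRing S] [IsDomain S] [Algebra R S]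
variable {t : S} {f : R[X]} {a : R}
variable (T : Type*) [CommRing T] [Algebra S T] [Algebra R T] [IsScalarTower R S T]
variable [hP : (helper33.ptIdeal t a).IsPrime] [IsLocalization.AtPrime T (helper33.ptIdeal t a)]
variable {F : Type*} [CommRing F] [IsDomain F]

include hP in
/-- **Kernel of a reduction at the etale point.**  `T = S_M` the etale point of `helper33`
over `R`, `y ∈ 𝔪` with `R ⧸ (y)` a domain and a principal ideal ring, `ρ : T →+* F` a ring
homomorphism to a domain which kills `y` but not some `ϖ ∈ 𝔪` (hypotheses on `R` only): then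
`ρ r = 0 → y ∣ r` in `T`. -/
theorem dvd_of_map_eq_zero_loc [IsNoetherianRing R] (h : helper33.IsMonogenic t f)
    (ha : f.eval a ∈ maximalIdeal R) (ha' : f.derivative.eval a ∉ maximalIdeal R)
    {y : R} (hy : y ∈ maximalIdeal R)
    [IsDomain (R ⧸ Ideal.span {y})] [IsPrincipalIdealRing (R ⧸ Ideal.span {y})]
    (ρ : T →+* F) (hρy : ρ (algebraMap R T y) = 0)
    {ϖ : R} (hϖ : ϖ ∈ maximalIdeal R) (hρϖ : ρ (algebraMap R T ϖ) ≠ 0)
    {r : T} (hr : ρ r = 0) : algebraMap R T y ∣ r := by
  haveI : IsLocalRing T := helper33.IsMonogenic.isLocalRing_loc (t := t) (a := a) T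
  obtain ⟨hd, hpid⟩ := h.quotient_loc T ha ha' hy
  haveI := hd
  haveI := hpid
  have hϖT : ¬ IsUnit (algebraMap R T ϖ) := by
    rw [← mem_nonunits_iff, ← mem_maximalIdeal, h.maximalIdeal_loc T ha ha']
    exact Ideal.mem_map_of_mem _ hϖ
  exact dvd_of_map_eq_zero ρ hρy hϖT hρϖ hr

include hP in
/-- the relation form of `dvd_of_map_eq_zero_loc` -/
theorem dvd_of_red_zero_loc [IsNoetherianRing R] (h : helper33.IsMonogenic t f)
    (ha : f.eval a ∈ maximalIdeal R) (ha' : f.derivative.eval a ∉ maximalIdeal R)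
    {y : R} (hy : y ∈ maximalIdeal R)
    [IsDomain (R ⧸ Ideal.span {y})] [IsPrincipalIdealRing (R ⧸ Ideal.span {y})]
    (Red : T → F → Prop) (htot : ∀ r, ∃ s, Red r s)
    (huniq : ∀ r s s', Red r s → Red r s' → s = s')
    (hadd : ∀ r r' s s', Red r s → Red r' s' → Red (r + r') (s + s'))
    (hmul : ∀ r r' s s', Red r s → Red r' s' → Red (r * r') (s * s'))
    (hone : Red 1 1) (hρy : Red (algebraMap R T y) 0)
    {ϖ : R} (hϖ : ϖ ∈ maximalIdeal R) (hρϖ : ¬ Red (algebraMap R T ϖ) 0)
    {r : T} (hr : Red r 0) : algebraMap R T y ∣ r := by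
  refine dvd_of_map_eq_zero_loc T h ha ha' hy (redHom Red htot huniq hadd hmul hone) ?_ hϖ ?_ ?_
  · exact (redHom_eq_iff Red htot huniq hadd hmul hone _ 0).mpr hρy
  · intro h0
    exact hρϖ ((redHom_eq_iff Red htot huniq hadd hmul hone _ 0).mp h0)
  · exact (redHom_eq_iff Red htot huniq hadd hmul hone r 0).mpr hr

end Loc

end Fermat.Agent.T8.helper6
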