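import Fermat.Agent.T8.helper6_UFD2
import Fermat.Agent.T8.helper6_DvrCrit

/-!
# T8 (row 38, at risk), helper6: the etale-point lemma ([SHEETS], abstract half, twin of helper33)

`R` a noetherian local domain, `S = R[t]` a domain, `f ∈ R[X]` monic with `f(t) = 0` and no
relation of smaller degree (`hfree`), `a ∈ R` a SIMPLE root of `f` modulo the maximal ideal:
`f(a) ∈ 𝔪`, `f'(a) ∉ 𝔪`.  Put `M = (t - a) + 𝔪 S`.

* `etaleHom` : the ring homomorphism `S → R/𝔪`, `g(t) ↦ g(a) mod 𝔪`;
* `etaleIdeal_eq_ker`, `etaleIdeal_isMaximal` : `M` is its kernel, a maximal ideal;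
* `sub_mem_map_of_isLocalization` : in a localisation `T` of `S` at `M`: `t - a ∈ 𝔪 T`;
* `maximalIdeal_eq_map` : `maximalIdeal T = 𝔪 T`;
* `quotient_isDomain`, `quotient_isPrincipalIdealRing` : for `y ∈ 𝔪` with `R ⧸ (y)` a domain
  and a principal ideal ring, `T ⧸ (y)` is a domain and a principal ideal ring;
* `ufm_of_etalePoint` : `T` is a unique factorisation domain.
-/

set_option autoImplicit false
set_option linter.unusedSectionVars false
set_option linter.unusedVariables false
set_option linter.style.haveILetI false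

noncomputable section

namespace Fermat.Agent.T8.helper6

open Ideal IsLocalRing Polynomial

section Repr

variable {R : Type*} [CommRing R] {S : Type*} [CommRing S] [Algebra R S]
  {t : S} {f : R[X]}

/-- every element of `R[t]` is `g(t)` -/
theorem exists_aeval_eq (hgen : Algebra.adjoin R {t} = ⊤) (s : S) :
    ∃ g : R[X], aeval t g = s := by
  have hs : s ∈ Algebra.adjoin R {t} := by rw [hgen]; exact Algebra.mem_top
  rw [Algebra.adjoin_singleton_eq_range_aeval] at hs
  exact hs

/-- a polynomial vanishing at `t` is a multiple of `f` -/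
theorem dvd_of_aeval_eq_zero [Nontrivial R] (hf : f.Monic) (hroot : aeval t f = 0)
    (hfree : ∀ g : R[X], g.degree < f.degree → aeval t g = 0 → g = 0)
    {g : R[X]} (hg : aeval t g = 0) : f ∣ g := by
  have h1 : g %ₘ f + f * (g /ₘ f) = g := modByMonic_add_div g f
  have h2 : aeval t (g %ₘ f) = 0 := by
    have := congrArg (aeval t) h1
    rw [map_add, map_mul, hroot, zero_mul, add_zero, hg] at this
    exact this
  have h3 : g %ₘ f = 0 := hfree _ (degree_modByMonic_lt g hf) h2
  rw [h3, zero_add] at h1
  exact ⟨g /ₘ f, h1.symm⟩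

/-- every element of `R[t]` is `g(t)` with `deg g < deg f` -/
theorem exists_aeval_eq_of_degree_lt [Nontrivial R] (hgen : Algebra.adjoin R {t} = ⊤)
    (hf : f.Monic) (hroot : aeval t f = 0) (s : S) :
    ∃ g : R[X], g.degree < f.degree ∧ aeval t g = s := by
  obtain ⟨G, rfl⟩ := exists_aeval_eq hgen s
  refine ⟨G %ₘ f, degree_modByMonic_lt G hf, ?_⟩
  have h1 : G %ₘ f + f * (G /ₘ f) = G := modByMonic_add_div G f
  have := congrArg (aeval t) h1
  rw [map_add, map_mul, hroot, zero_mul, add_zero] at this
  exact this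

end Repr

section Hom

variable {R : Type*} [CommRing R] [IsLocalRing R] {S : Type*} [CommRing S] [Algebra R S]
  {t : S} {f : R[X]}

/-- the evaluation `R[X] → R/𝔪` at `a` -/
def evalRes (a : R) : R[X] →+* ResidueField R :=
  (IsLocalRing.residue R).comp (evalRingHom a)

theorem evalRes_apply (a : R) (g : R[X]) : evalRes a g = IsLocalRing.residue R (g.eval a) := rfl

theorem ker_aeval_le (hf : f.Monic) (hroot : aeval t f = 0)
    (hfree : ∀ g : R[X], g.degree < f.degree → aeval t g = 0 → g = 0)
    {a : R} (ha : f.eval a ∈ maximalIdeal R) :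
    RingHom.ker ((aeval t : R[X] →ₐ[R] S) : R[X] →+* S) ≤ RingHom.ker (evalRes a) := by
  intro g hg
  rw [RingHom.mem_ker] at hg ⊢
  obtain ⟨q, rfl⟩ := dvd_of_aeval_eq_zero hf hroot hfree (g := g) hg
  rw [map_mul, evalRes_apply, (IsLocalRing.residue_eq_zero_iff _).mpr ha, zero_mul]

theorem aeval_surjective (hgen : Algebra.adjoin R {t} = ⊤) :
    Function.Surjective ((aeval t : R[X] →ₐ[R] S) : R[X] →+* S) :=
  fun s => exists_aeval_eq hgen s

/-- **the point**: the ring homomorphism `S = R[t] → R/𝔪`, `g(t) ↦ g(a) mod 𝔪`. -/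
def etaleHom (hgen : Algebra.adjoin R {t} = ⊤) (hf : f.Monic) (hroot : aeval t f = 0)
    (hfree : ∀ g : R[X], g.degree < f.degree → aeval t g = 0 → g = 0)
    {a : R} (ha : f.eval a ∈ maximalIdeal R) : S →+* ResidueField R :=
  RingHom.liftOfSurjective ((aeval t : R[X] →ₐ[R] S) : R[X] →+* S) (aeval_surjective hgen)
    ⟨evalRes a, ker_aeval_le hf hroot hfree ha⟩

variable (hgen : Algebra.adjoin R {t} = ⊤) (hf : f.Monic) (hroot : aeval t f = 0)
  (hfree : ∀ g : R[X], g.degree < f.degree → aeval t g = 0 → g = 0)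
  {a : R} (ha : f.eval a ∈ maximalIdeal R)

theorem etaleHom_aeval (g : R[X]) :
    etaleHom hgen hf hroot hfree ha (aeval t g) = IsLocalRing.residue R (g.eval a) :=
  RingHom.liftOfSurjective_comp_apply _ (aeval_surjective hgen) _ g

theorem etaleHom_algebraMap (r : R) :
    etaleHom hgen hf hroot hfree ha (algebraMap R S r) = IsLocalRing.residue R r := by
  have := etaleHom_aeval hgen hf hroot hfree ha (C r)
  rwa [aeval_C, eval_C] at this

theorem etaleHom_gen : etaleHom hgen hf hroot hfree ha t = IsLocalRing.residue R a := by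
  have := etaleHom_aeval hgen hf hroot hfree ha X
  rwa [aeval_X, eval_X] at this

theorem etaleHom_surjective : Function.Surjective (etaleHom hgen hf hroot hfree ha) := by
  intro z
  obtain ⟨r, rfl⟩ := IsLocalRing.residue_surjective z
  exact ⟨algebraMap R S r, etaleHom_algebraMap hgen hf hroot hfree ha r⟩

/-- the ideal `M = (t - a) + 𝔪 S` -/
def etaleIdeal (S : Type*) [CommRing S] [Algebra R S] (t : S) (a : R) : Ideal S :=
  Ideal.span {t - algebraMap R S a} ⊔ (maximalIdeal R).map (algebraMap R S)

theorem etaleIdeal_eq_ker :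
    etaleIdeal S t a = RingHom.ker (etaleHom hgen hf hroot hfree ha) := by
  apply le_antisymm
  · rw [etaleIdeal, sup_le_iff]
    constructor
    · rw [Ideal.span_singleton_le_iff_mem, RingHom.mem_ker, map_sub, etaleHom_gen,
        etaleHom_algebraMap, sub_self]
    · rw [Ideal.map_le_iff_le_comap]
      intro m hm
      rw [Ideal.mem_comap, RingHom.mem_ker, etaleHom_algebraMap]
      exact (IsLocalRing.residue_eq_zero_iff _).mpr hm
  · intro s hs
    rw [RingHom.mem_ker] at hs
    obtain ⟨g, rfl⟩ := exists_aeval_eq hgen s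
    rw [etaleHom_aeval] at hs
    have hga : g.eval a ∈ maximalIdeal R := (IsLocalRing.residue_eq_zero_iff _).mp hs
    have h1 : g %ₘ (X - C a) + (X - C a) * (g /ₘ (X - C a)) = g := modByMonic_add_div g _
    rw [modByMonic_X_sub_C_eq_C_eval] at h1
    have h2 := congrArg (aeval t) h1
    rw [map_add, map_mul, aeval_C, map_sub, aeval_X, aeval_C] at h2
    rw [← h2, etaleIdeal]
    refine Ideal.add_mem _ (Ideal.mem_sup_right (Ideal.mem_map_of_mem _ hga))
      (Ideal.mem_sup_left ?_)
    exact Ideal.mul_mem_right _ _ (Ideal.mem_span_singleton_self _)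

include hgen hf hroot hfree ha in
/-- **(1)** `M = (t - a) + 𝔪 S` is a maximal ideal. -/
theorem etaleIdeal_isMaximal : (etaleIdeal S t a).IsMaximal := by
  rw [etaleIdeal_eq_ker hgen hf hroot hfree ha]
  exact RingHom.ker_isMaximal_of_surjective _ (etaleHom_surjective hgen hf hroot hfree ha)

theorem mem_etaleIdeal_iff (s : S) :
    s ∈ etaleIdeal S t a ↔ etaleHom hgen hf hroot hfree ha s = 0 := by
  rw [etaleIdeal_eq_ker hgen hf hroot hfree ha, RingHom.mem_ker]

end Hom

section Loc

variable {R : Type*} [CommRing R] [IsLocalRing R] {S : Type*} [CommRing S] [Algebra R S]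
  {t : S} {f : R[X]}
  (hgen : Algebra.adjoin R {t} = ⊤) (hf : f.Monic) (hroot : aeval t f = 0)
  (hfree : ∀ g : R[X], g.degree < f.degree → aeval t g = 0 → g = 0)
  {a : R} (ha : f.eval a ∈ maximalIdeal R) (ha' : f.derivative.eval a ∉ maximalIdeal R)

include hgen hf hroot hfree ha ha' in
/-- the cofactor `q = f / (X - a)`: `(t - a) q(t) = - f(a)` and `q(t) ∉ M` -/
theorem exists_cofactor :
    ∃ c : S, c ∉ etaleIdeal S t a ∧
      (t - algebraMap R S a) * c = - algebraMap R S (f.eval a) := by
  set q : R[X] := f /ₘ (X - C a) with hq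
  have h1 : f %ₘ (X - C a) + (X - C a) * q = f := modByMonic_add_div f _
  rw [modByMonic_X_sub_C_eq_C_eval] at h1
  -- `q(a) = f'(a)`
  have hder : q.eval a = f.derivative.eval a := by
    have h2 := congrArg (fun g : R[X] => g.derivative.eval a) h1
    simp only [derivative_add, derivative_C, zero_add, derivative_mul, derivative_sub,
      derivative_X, sub_zero, one_mul, eval_add, eval_mul, eval_sub, eval_X, eval_C, sub_self,
      zero_mul, add_zero] at h2
    exact h2
  refine ⟨aeval t q, ?_, ?_⟩
  · rw [mem_etaleIdeal_iff hgen hf hroot hfree ha, etaleHom_aeval, hder,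
      IsLocalRing.residue_eq_zero_iff]
    exact ha'
  · have h3 := congrArg (aeval t) h1
    rw [map_add, map_mul, aeval_C, map_sub, aeval_X, aeval_C, hroot] at h3
    linear_combination h3

variable (T : Type*) [CommRing T] [Algebra S T] [Algebra R T] [IsScalarTower R S T]
  [hM : (etaleIdeal S t a).IsPrime] [IsLocalization.AtPrime T (etaleIdeal S t a)]

include hgen hf hroot hfree ha ha' in
/-- **(2a)** in the localisation at `M`: `t - a ∈ 𝔪 T`. -/
theorem sub_mem_map_of_isLocalization :
    algebraMap S T (t - algebraMap R S a) ∈ (maximalIdeal R).map (algebraMap R T) := by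
  obtain ⟨c, hc, hmul⟩ := exists_cofactor hgen hf hroot hfree ha ha'
  have hunit : IsUnit (algebraMap S T c) :=
    (IsLocalization.AtPrime.isUnit_to_map_iff T (etaleIdeal S t a) c).mpr hc
  obtain ⟨u, hu⟩ := hunit
  have h1 : algebraMap S T (t - algebraMap R S a) * u =
      - algebraMap R T (f.eval a) := by
    rw [hu, ← map_mul, hmul, map_neg, ← IsScalarTower.algebraMap_apply]
  have h2 : algebraMap S T (t - algebraMap R S a) =
      - algebraMap R T (f.eval a) * ((u⁻¹ : Tˣ) : T) := by
    rw [← h1, mul_assoc, Units.mul_inv, mul_one]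
  rw [h2]
  exact Ideal.mul_mem_right _ _ (neg_mem (Ideal.mem_map_of_mem _ ha))

include hgen hf hroot hfree ha ha' in
/-- **(2b)** the maximal ideal of the localisation at `M` is `𝔪 T`. -/
theorem maximalIdeal_eq_map [IsLocalRing T] :
    maximalIdeal T = (maximalIdeal R).map (algebraMap R T) := by
  rw [← IsLocalization.AtPrime.map_eq_maximalIdeal (etaleIdeal S t a) T, etaleIdeal,
    Ideal.map_sup, Ideal.map_span, Set.image_singleton, Ideal.map_map,
    ← IsScalarTower.algebraMap_eq]
  apply le_antisymm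
  · rw [sup_le_iff]
    refine ⟨?_, le_rfl⟩
    rw [Ideal.span_singleton_le_iff_mem]
    exact sub_mem_map_of_isLocalization hgen hf hroot hfree ha ha' T
  · exact le_sup_right

end Loc

section Gen

variable {R : Type*} [CommRing R] [IsLocalRing R]

/-- if `R ⧸ (y)` is a principal ideal ring, the maximal ideal of `R` is `(x, y)` -/
theorem exists_maximalIdeal_eq_span_sup {y : R}
    [IsPrincipalIdealRing (R ⧸ Ideal.span {y})] (hy : y ∈ maximalIdeal R) :
    ∃ x : R, x ∈ maximalIdeal R ∧ maximalIdeal R = Ideal.span {x} ⊔ Ideal.span {y} := by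
  have hsurj : Function.Surjective (Ideal.Quotient.mk (Ideal.span {y})) :=
    Ideal.Quotient.mk_surjective
  obtain ⟨g, hg⟩ := (IsPrincipalIdealRing.principal
    ((maximalIdeal R).map (Ideal.Quotient.mk (Ideal.span {y})))).principal
  have hgmem : g ∈ (maximalIdeal R).map (Ideal.Quotient.mk (Ideal.span {y})) := by
    rw [hg]; exact Submodule.mem_span_singleton_self g
  obtain ⟨x, hx, rfl⟩ := (Ideal.mem_map_iff_of_surjective _ hsurj).mp hgmem
  refine ⟨x, hx, le_antisymm ?_ ?_⟩
  · intro m hm
    have h1 : Ideal.Quotient.mk (Ideal.span {y}) m ∈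
        (maximalIdeal R).map (Ideal.Quotient.mk (Ideal.span {y})) := Ideal.mem_map_of_mem _ hm
    rw [hg] at h1
    obtain ⟨r', hr'⟩ := Submodule.mem_span_singleton.mp h1
    obtain ⟨r, rfl⟩ := hsurj r'
    have h2 : Ideal.Quotient.mk (Ideal.span {y}) (m - r * x) = 0 := by
      rw [map_sub, map_mul, ← hr', smul_eq_mul, sub_self]
    have h3 : m - r * x ∈ Ideal.span {y} := Ideal.Quotient.eq_zero_iff_mem.mp h2
    refine Submodule.mem_sup.mpr ⟨r * x, ?_, m - r * x, h3, by ring⟩
    exact Ideal.mul_mem_left _ _ (Ideal.mem_span_singleton_self x)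
  · rw [sup_le_iff, Ideal.span_singleton_le_iff_mem, Ideal.span_singleton_le_iff_mem]
    exact ⟨hx, hy⟩

end Gen

section Free

variable {R : Type*} [CommRing R] [IsDomain R] {S : Type*} [CommRing S] [Algebra R S]
  {t : S} {f : R[X]}

/-- **torsion-freeness of `S ⧸ y S` over `R ⧸ (y)`**: if `(y)` is prime, `z ∉ (y)` and
`z w = y s` in `S = R[t]` (free on the powers of `t`), then `w ∈ y S`. -/
theorem exists_eq_mul_of_mul_eq (hgen : Algebra.adjoin R {t} = ⊤) (hf : f.Monic)
    (hroot : aeval t f = 0)
    (hfree : ∀ g : R[X], g.degree < f.degree → aeval t g = 0 → g = 0)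
    {y z : R} (hyp : (Ideal.span {y}).IsPrime) (hz : z ∉ Ideal.span {y}) {w s : S}
    (h : algebraMap R S z * w = algebraMap R S y * s) :
    ∃ w' : S, w = algebraMap R S y * w' := by
  obtain ⟨g, hgdeg, rfl⟩ := exists_aeval_eq_of_degree_lt hgen hf hroot w
  obtain ⟨k, hkdeg, rfl⟩ := exists_aeval_eq_of_degree_lt hgen hf hroot s
  have hCle : ∀ (c : R) (P : R[X]), (C c * P).degree ≤ P.degree := by
    intro c P
    calc (C c * P).degree ≤ (C c).degree + P.degree := degree_mul_le _ _
      _ ≤ 0 + P.degree := by gcongr; exact degree_C_le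
      _ = P.degree := zero_add _
  have h0 : C z * g - C y * k = 0 := by
    apply hfree
    · refine lt_of_le_of_lt (degree_sub_le _ _) (max_lt ?_ ?_)
      · exact lt_of_le_of_lt (hCle _ _) hgdeg
      · exact lt_of_le_of_lt (hCle _ _) hkdeg
    · rw [map_sub, map_mul, map_mul, aeval_C, aeval_C, h, sub_self]
  have h1 : C z * g = C y * k := sub_eq_zero.mp h0
  have hdvd : C y ∣ g := by
    rw [C_dvd_iff_dvd_coeff]
    intro i
    have h2 := congrArg (fun P : R[X] => P.coeff i) h1
    simp only [coeff_C_mul] at h2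
    have h3 : z * g.coeff i ∈ Ideal.span {y} := by
      rw [h2]
      exact Ideal.mul_mem_right _ _ (Ideal.mem_span_singleton_self y)
    have h4 : g.coeff i ∈ Ideal.span {y} := (hyp.mem_or_mem h3).resolve_left hz
    exact Ideal.mem_span_singleton.mp h4
  obtain ⟨g', rfl⟩ := hdvd
  exact ⟨aeval t g', by rw [map_mul, aeval_C]⟩

end Free

section Quot

variable {R : Type*} [CommRing R] [IsDomain R] [IsNoetherianRing R] [IsLocalRing R]
  {S : Type*} [CommRing S] [IsDomain S] [Algebra R S]
  {t : S} {f : R[X]}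
  (hgen : Algebra.adjoin R {t} = ⊤) (hf : f.Monic) (hroot : aeval t f = 0)
  (hfree : ∀ g : R[X], g.degree < f.degree → aeval t g = 0 → g = 0)
  {a : R} (ha : f.eval a ∈ maximalIdeal R) (ha' : f.derivative.eval a ∉ maximalIdeal R)
  (T : Type*) [CommRing T] [Algebra S T] [Algebra R T] [IsScalarTower R S T]
  [hM : (etaleIdeal S t a).IsPrime] [IsLocalization.AtPrime T (etaleIdeal S t a)]

include hgen in
/-- `S = R[t]` is noetherian -/
theorem isNoetherianRing_of_adjoin : IsNoetherianRing S :=
  isNoetherianRing_of_surjective R[X] S ((aeval t : R[X] →ₐ[R] S) : R[X] →+* S)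
    (aeval_surjective hgen)

/-- a localisation of a domain at a prime is a domain -/
theorem isDomain_loc (M : Ideal S) [M.IsPrime] (T : Type*) [CommRing T] [Algebra S T]
    [IsLocalization.AtPrime T M] : IsDomain T :=
  IsLocalization.isDomain_of_le_nonZeroDivisors T (Ideal.primeCompl_le_nonZeroDivisors M)

theorem algebraMap_loc_injective (M : Ideal S) [M.IsPrime] (T : Type*) [CommRing T]
    [Algebra S T] [IsLocalization.AtPrime T M] : Function.Injective (algebraMap S T) :=
  IsLocalization.injective T (Ideal.primeCompl_le_nonZeroDivisors M)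

include hgen hf hroot hfree ha ha' in
/-- **(3b)** the image of `y ∈ 𝔪` lies in the maximal ideal of `T` -/
theorem algebraMap_mem_maximalIdeal [IsLocalRing T] {y : R} (hy : y ∈ maximalIdeal R) :
    algebraMap R T y ∈ maximalIdeal T := by
  rw [maximalIdeal_eq_map hgen hf hroot hfree ha ha' T]
  exact Ideal.mem_map_of_mem _ hy

include hgen hf hroot hfree ha ha' in
/-- **non-nilpotency**: if `(y)` is prime and `x ∉ (y)`, no power of `x` lies in `y T`. -/
theorem pow_notMem_span {x y : R} (hyp : (Ideal.span {y}).IsPrime)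
    (hx : x ∉ Ideal.span {y}) (hy : y ∈ maximalIdeal R) (n : ℕ) :
    algebraMap R T x ^ n ∉ Ideal.span {algebraMap R T y} := by
  intro hmem
  obtain ⟨τ, hτ⟩ := Ideal.mem_span_singleton'.mp hmem
  obtain ⟨s, w, rfl⟩ := IsLocalization.exists_mk'_eq (etaleIdeal S t a).primeCompl τ
  -- clear the denominator
  have h1 : algebraMap S T (algebraMap R S (x ^ n) * (w : S)) =
      algebraMap S T (algebraMap R S y * s) := by
    rw [map_mul, map_mul, ← IsScalarTower.algebraMap_apply, ← IsScalarTower.algebraMap_apply,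
      map_pow, ← hτ]
    have h2 : IsLocalization.mk' T s w * algebraMap S T (w : S) = algebraMap S T s :=
      IsLocalization.mk'_spec T s w
    calc IsLocalization.mk' T s w * algebraMap R T y * algebraMap S T (w : S)
        = algebraMap R T y * (IsLocalization.mk' T s w * algebraMap S T (w : S)) := by ring
      _ = algebraMap R T y * algebraMap S T s := by rw [h2]
  have h3 := algebraMap_loc_injective (etaleIdeal S t a) T h1
  have hxn : x ^ n ∉ Ideal.span {y} := fun h => hx (hyp.mem_of_pow_mem n h)
  obtain ⟨w', hw'⟩ := exists_eq_mul_of_mul_eq hgen hf hroot hfree hyp hxn h3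
  apply w.2
  show (w : S) ∈ etaleIdeal S t a
  rw [hw', etaleIdeal]
  exact Ideal.mem_sup_right (Ideal.mul_mem_right _ _ (Ideal.mem_map_of_mem _ hy))

include hgen hf hroot hfree ha ha' in
/-- **(3)** for `y ∈ 𝔪` with `R ⧸ (y)` a domain and a principal ideal ring, the quotient
`T ⧸ (y)` of the localisation of `S = R[t]` at `M = (t - a) + 𝔪 S` is a domain and a principal
ideal ring. -/
theorem quotient_isDomain_and_isPrincipalIdealRing {y : R} (hy : y ∈ maximalIdeal R)
    [IsDomain (R ⧸ Ideal.span {y})] [IsPrincipalIdealRing (R ⧸ Ideal.span {y})] :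
    IsDomain (T ⧸ Ideal.span {algebraMap R T y}) ∧
      IsPrincipalIdealRing (T ⧸ Ideal.span {algebraMap R T y}) := by
  haveI : IsLocalRing T := IsLocalization.AtPrime.isLocalRing T (etaleIdeal S t a)
  haveI : IsNoetherianRing T :=
    IsLocalization.isNoetherianRing (etaleIdeal S t a).primeCompl T
      (isNoetherianRing_of_adjoin hgen)
  have hyp : (Ideal.span {y}).IsPrime := (Ideal.Quotient.isDomain_iff_prime _).mp inferInstance
  obtain ⟨x, hxm, hxy⟩ := exists_maximalIdeal_eq_span_sup hy
  have hmaxT : maximalIdeal T = Ideal.span {algebraMap R T x} ⊔ Ideal.span {algebraMap R T y} := by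
    rw [maximalIdeal_eq_map hgen hf hroot hfree ha ha' T, hxy, Ideal.map_sup, Ideal.map_span,
      Ideal.map_span, Set.image_singleton, Set.image_singleton]
  have hyT : algebraMap R T y ∈ maximalIdeal T :=
    algebraMap_mem_maximalIdeal hgen hf hroot hfree ha ha' T hy
  set I : Ideal T := Ideal.span {algebraMap R T y} with hI
  have hItop : I ≠ ⊤ := by
    intro htop
    have h1 : (1 : T) ∈ maximalIdeal T := by
      have : I ≤ maximalIdeal T := (Ideal.span_singleton_le_iff_mem _).mpr hyT
      exact this (htop ▸ Submodule.mem_top)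
    exact (Ideal.ne_top_iff_one _).mp (maximalIdeal.isMaximal T).ne_top h1
  haveI : Nontrivial (T ⧸ I) := Ideal.Quotient.nontrivial_iff.mpr hItop
  haveI : IsLocalRing (T ⧸ I) :=
    IsLocalRing.of_surjective' (Ideal.Quotient.mk I) Ideal.Quotient.mk_surjective
  -- the maximal ideal of the quotient is generated by the image of `x`
  have hmaxB : maximalIdeal (T ⧸ I) = Ideal.span {Ideal.Quotient.mk I (algebraMap R T x)} := by
    apply le_antisymm
    · intro b hb
      obtain ⟨τ, rfl⟩ := Ideal.Quotient.mk_surjective b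
      have hτ : τ ∈ maximalIdeal T := by
        rw [IsLocalRing.mem_maximalIdeal, mem_nonunits_iff] at hb ⊢
        intro hu
        exact hb (hu.map (Ideal.Quotient.mk I))
      rw [hmaxT] at hτ
      obtain ⟨b1, hb1, b2, hb2, rfl⟩ := Submodule.mem_sup.mp hτ
      obtain ⟨c, rfl⟩ := Ideal.mem_span_singleton'.mp hb1
      rw [map_add, map_mul, Ideal.Quotient.eq_zero_iff_mem.mpr hb2, add_zero]
      exact Ideal.mul_mem_left _ _ (Ideal.mem_span_singleton_self _)
    · rw [Ideal.span_singleton_le_iff_mem, IsLocalRing.mem_maximalIdeal, mem_nonunits_iff]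
      intro hu
      obtain ⟨v, hv⟩ := hu.exists_right_inv
      obtain ⟨τ, rfl⟩ := Ideal.Quotient.mk_surjective v
      rw [← map_mul, ← map_one (Ideal.Quotient.mk I), Ideal.Quotient.eq] at hv
      have h1 : algebraMap R T x * τ - 1 ∈ maximalIdeal T :=
        ((Ideal.span_singleton_le_iff_mem _).mpr hyT) hv
      have h2 : algebraMap R T x * τ ∈ maximalIdeal T := by
        rw [hmaxT]
        exact Ideal.mul_mem_right _ _ (Ideal.mem_sup_left (Ideal.mem_span_singleton_self _))
      have h3 : (1 : T) ∈ maximalIdeal T := by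
        have h4 := Ideal.sub_mem _ h2 h1
        rwa [sub_sub_cancel] at h4
      exact (Ideal.ne_top_iff_one _).mp (maximalIdeal.isMaximal T).ne_top h3
  by_cases hx : x ∈ Ideal.span {y}
  · -- the quotient is a field
    have hzero : Ideal.Quotient.mk I (algebraMap R T x) = 0 := by
      rw [Ideal.Quotient.eq_zero_iff_mem]
      obtain ⟨c, rfl⟩ := Ideal.mem_span_singleton'.mp hx
      rw [map_mul]
      exact Ideal.mul_mem_left _ _ (Ideal.mem_span_singleton_self _)
    have hbot : maximalIdeal (T ⧸ I) = ⊥ := by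
      rw [hmaxB, hzero]
      exact Ideal.span_singleton_eq_bot.mpr rfl
    have hfield : IsField (T ⧸ I) := IsLocalRing.isField_iff_maximalIdeal_eq.mpr hbot
    letI := hfield.toField
    exact ⟨inferInstance, inferInstance⟩
  · have hnil : ∀ n : ℕ, Ideal.Quotient.mk I (algebraMap R T x) ^ n ≠ 0 := by
      intro n h0
      rw [← map_pow, Ideal.Quotient.eq_zero_iff_mem] at h0
      exact pow_notMem_span hgen hf hroot hfree ha ha' T hyp hx hy n h0
    exact ⟨isDomain_of_maximalIdeal_eq_span hmaxB hnil,
      isPrincipalIdealRing_of_maximalIdeal_eq_span hmaxB hnil⟩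

include hgen hf hroot hfree ha ha' in
/-- **[SHEETS], abstract half**: the local ring `T` of `S = R[t]` at the point
`M = (t - a) + 𝔪 S` over a simple root `a` of `f` modulo `𝔪` is a unique factorisation domain
as soon as `R ⧸ (y)` is a domain and a principal ideal ring for some `y ∈ 𝔪`. -/
theorem ufm_of_etalePoint {y : R} (hy : y ∈ maximalIdeal R)
    [IsDomain (R ⧸ Ideal.span {y})] [IsPrincipalIdealRing (R ⧸ Ideal.span {y})] :
    UniqueFactorizationMonoid T := by
  haveI : IsLocalRing T := IsLocalization.AtPrime.isLocalRing T (etaleIdeal S t a)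
  haveI : IsNoetherianRing T :=
    IsLocalization.isNoetherianRing (etaleIdeal S t a).primeCompl T
      (isNoetherianRing_of_adjoin hgen)
  haveI : IsDomain T := isDomain_loc (etaleIdeal S t a) T
  obtain ⟨h1, h2⟩ := quotient_isDomain_and_isPrincipalIdealRing hgen hf hroot hfree ha ha' T hy
  exact ufm_of_quotient (algebraMap_mem_maximalIdeal hgen hf hroot hfree ha ha' T hy)

end Quot

end Fermat.Agent.T8.helper6
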