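import Fermat.Agent.T8.helper6_EtalePoint

/-!
# T8 (row 38, at risk), helper6: complements to the etale-point lemma

Setting of `helper6_EtalePoint`: `S = R[t]`, `f` monic, `f(t) = 0`, `hfree`.

* `eval_mem_of_hom`, `ker_eq_etaleIdeal` : every point `ev : S →+* R/𝔪` over the closed point of
  `R` is the point `M_a = (t - a) + 𝔪 S`, for any lift `a` of `ev t`, and `f(a) ∈ 𝔪`;
* `derivative_notMem_of_separable` : if `f mod 𝔪` is separable every root mod `𝔪` is simple;
* `etaleIdeal_ne` : different roots mod `𝔪` give different points;
* `etaleIdeal_le_iff` : `𝔪 S ≤ M_a` and `M_a ∩ R = 𝔪`.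
-/

set_option autoImplicit false
set_option linter.unusedSectionVars false
set_option linter.unusedVariables false
set_option linter.style.haveILetI false

noncomputable section

namespace Fermat.Agent.T8.helper6

open Ideal IsLocalRing Polynomial

section Points

variable {R : Type*} [CommRing R] [IsLocalRing R] {S : Type*} [CommRing S] [Algebra R S]
  {t : S} {f : R[X]}

/-- a point of `S` over the closed point of `R` evaluates polynomials in `t` -/
theorem hom_aeval (ev : S →+* ResidueField R)
    (hev : ∀ r : R, ev (algebraMap R S r) = IsLocalRing.residue R r) {a : R}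
    (hat : ev t = IsLocalRing.residue R a) (g : R[X]) :
    ev (aeval t g) = IsLocalRing.residue R (g.eval a) := by
  induction g using Polynomial.induction_on' with
  | add p q hp hq => rw [map_add, map_add, hp, hq, eval_add, map_add]
  | monomial n r =>
    rw [aeval_monomial, map_mul, map_pow, hev, hat, eval_monomial, map_mul, map_pow]

/-- the value of `t` at a point is a root of `f` modulo `𝔪` -/
theorem eval_mem_of_hom (hroot : aeval t f = 0) (ev : S →+* ResidueField R)
    (hev : ∀ r : R, ev (algebraMap R S r) = IsLocalRing.residue R r) {a : R}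
    (hat : ev t = IsLocalRing.residue R a) : f.eval a ∈ maximalIdeal R := by
  rw [← IsLocalRing.residue_eq_zero_iff, ← hom_aeval ev hev hat, hroot, map_zero]

/-- every point over the closed point of `R` is a point `M_a` -/
theorem ker_eq_etaleIdeal (hgen : Algebra.adjoin R {t} = ⊤) (hf : f.Monic)
    (hroot : aeval t f = 0)
    (hfree : ∀ g : R[X], g.degree < f.degree → aeval t g = 0 → g = 0)
    (ev : S →+* ResidueField R)
    (hev : ∀ r : R, ev (algebraMap R S r) = IsLocalRing.residue R r) {a : R}
    (hat : ev t = IsLocalRing.residue R a) :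
    RingHom.ker ev = etaleIdeal S t a := by
  have ha := eval_mem_of_hom hroot ev hev hat
  rw [etaleIdeal_eq_ker hgen hf hroot hfree ha]
  ext s
  obtain ⟨g, rfl⟩ := exists_aeval_eq hgen s
  rw [RingHom.mem_ker, RingHom.mem_ker, hom_aeval ev hev hat, etaleHom_aeval]

/-- if `f mod 𝔪` is separable, every root of `f` modulo `𝔪` is simple -/
theorem derivative_notMem_of_separable
    (hsep : (f.map (IsLocalRing.residue R)).Separable) {a : R}
    (ha : f.eval a ∈ maximalIdeal R) : f.derivative.eval a ∉ maximalIdeal R := by
  intro hd
  have h1 : (f.map (IsLocalRing.residue R)).eval (IsLocalRing.residue R a) = 0 := by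
    rw [eval_map, eval₂_at_apply, (IsLocalRing.residue_eq_zero_iff _).mpr ha]
  have h2 : (derivative (f.map (IsLocalRing.residue R))).eval (IsLocalRing.residue R a) = 0 := by
    rw [derivative_map, eval_map, eval₂_at_apply,
      (IsLocalRing.residue_eq_zero_iff _).mpr hd]
  obtain ⟨u, v, huv⟩ := hsep
  have h3 := congrArg (fun P : (ResidueField R)[X] => P.eval (IsLocalRing.residue R a)) huv
  simp only [eval_add, eval_mul, h1, h2, mul_zero, add_zero, eval_one] at h3
  exact zero_ne_one h3

variable (hgen : Algebra.adjoin R {t} = ⊤) (hf : f.Monic) (hroot : aeval t f = 0)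
  (hfree : ∀ g : R[X], g.degree < f.degree → aeval t g = 0 → g = 0)

include hgen hf hroot hfree in
/-- different roots modulo `𝔪` give different points -/
theorem etaleIdeal_ne {a b : R} (ha : f.eval a ∈ maximalIdeal R)
    (hab : a - b ∉ maximalIdeal R) : etaleIdeal S t a ≠ etaleIdeal S t b := by
  intro h
  have h1 : t - algebraMap R S b ∈ etaleIdeal S t a := by
    rw [h, etaleIdeal]
    exact Ideal.mem_sup_left (Ideal.mem_span_singleton_self _)
  rw [mem_etaleIdeal_iff hgen hf hroot hfree ha, map_sub, etaleHom_gen, etaleHom_algebraMap,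
    ← map_sub, IsLocalRing.residue_eq_zero_iff] at h1
  exact hab h1

include hgen hf hroot hfree in
/-- `M_a` lies over the maximal ideal of `R` -/
theorem algebraMap_mem_etaleIdeal_iff {a : R} (ha : f.eval a ∈ maximalIdeal R) (r : R) :
    algebraMap R S r ∈ etaleIdeal S t a ↔ r ∈ maximalIdeal R := by
  rw [mem_etaleIdeal_iff hgen hf hroot hfree ha, etaleHom_algebraMap,
    IsLocalRing.residue_eq_zero_iff]

end Points

end Fermat.Agent.T8.helper6
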