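import Fermat.Agent.T8.helper6_DedekindBetween
import Fermat.Agent.T8.helper6_EtaleKer
import Fermat.Agent.T8.helper16_RingXLocal
import Fermat.Agent.T8.helper48_VertLocXw
import Fermat.Agent.T8.helper96_LocSurjX
import Fermat.Agent.T8.helper63_ResX
import Fermat.Agent.T3.helper95_BtDed
import Fermat.Agent.T3.helper95_Surj3

/-!
# T8 (row 38, at risk), [SLOPE] on the cover, double points (helper6): the INSTANCE

`R_Q = locX A hq hqN Q` the local ring of [RING-X] at a closed point `Q` of the component `C₁`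
where `j̄` is finite, `xx = W b₀`, `y = b₀` the two vertical elements.

* `red2L`            : the second reduction `R_Q →+* k((t))` at a double point
                       (`rhoQ_red2L` : it is the reduction `RhoQ` of the expansion of `W r`);
* `quotY_locX`       : **at a double point (`0 < ord_Q ν`) `R_Q ⧸ (y)` is a domain and a
                       principal ideal ring** (the second component is unibranch at `Q`);
* `quotXX_locX`      : at every finite point `R_Q ⧸ (xx)` is a domain and a principal ideal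
                       ring.

These are the instance hypotheses `[IsDomain (R ⧸ (y))] [IsPrincipalIdealRing (R ⧸ (y))]` of the
etale point lemma (`helper33.IsMonogenic.quotient_loc`, `prime_algebraMap_loc`,
`helper6.dvd_of_red_zero_loc`).  Proof: `helper6.quotient_isDomain_and_isPrincipalIdealRing_of_between`
with `D = Bt A N` (Dedekind, `T3.helper95`), `Bt ⊆ range` by `helper96.exists_ringX_red2`, and
`range ⊆ FFb = Frac Bt` by `helper63.red2X_mem_BtAll` + `T3.helper95.fracBt`.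
-/

set_option autoImplicit false
set_option synthInstance.maxHeartbeats 400000
set_option maxHeartbeats 1000000
set_option linter.unusedSectionVars false
set_option linter.unusedVariables false
set_option linter.style.haveILetI false
set_option linter.style.longLine false

noncomputable section

open HahnSeries IntermediateField AlgebraicCurve ModularCurve
open Fermat.Agent.S18.helper19 Fermat.Agent.P2.helper29 Fermat.Agent.T2.helper36

namespace Fermat.Agent.T8.helper6

open Fermat.Agent.P2.helper66 (iota)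
open Fermat.Agent.T3.helper16 (IsUnit0)
open Fermat.Agent.T3.helper36 (RhoQ GaussIs)
open Fermat.Agent.T8.helper63 (IsRX)
open Fermat.Agent.T8.helper16 (ringX red1X red2X locX IsUnitAt IsFinitePt ordAt mem_locX
  mem_ringX isRX_model red1X_eq red2X_eq)
open Fermat.Agent.T8.helper48 (xxLoc yyLoc)
open Fermat.Agent.T2.helper22 (Bt)
open Fermat.Agent.T3.helper95 (BtAll)

section QuotY

variable {N q : ℕ} [NeZero N] [NeZero q] {hq : q.Prime} {hqN : ¬ q ∣ N}
variable {A : ValuationSubring Kb} {b0 : FF (N * q)} {B : PowerSeries ℤ} {ε : ℤ}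

/-- the second reduction relation on `locX Q` -/
def Red2 (A : ValuationSubring Kb) (hq : q.Prime) (hqN : ¬ q ∣ N)
    (Q : Place (kA A) (FFb A N)) (r : locX A hq hqN Q) (s : LaurentSeries (kA A)) : Prop :=
  RhoQ A ((atkinLehner N q hq hqN (r : FF (N * q)) : FF (N * q)) : LaurentSeries Kb) s

theorem red2_add {Q : Place (kA A) (FFb A N)} (r r' : locX A hq hqN Q)
    (s s' : LaurentSeries (kA A)) (h : Red2 A hq hqN Q r s) (h' : Red2 A hq hqN Q r' s') :
    Red2 A hq hqN Q (r + r') (s + s') := by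
  unfold Red2 at *
  have e : ((atkinLehner N q hq hqN ((r + r' : locX A hq hqN Q) : FF (N * q)) : FF (N * q)) :
      LaurentSeries Kb) =
      ((atkinLehner N q hq hqN (r : FF (N * q)) : FF (N * q)) : LaurentSeries Kb) +
      ((atkinLehner N q hq hqN (r' : FF (N * q)) : FF (N * q)) : LaurentSeries Kb) := by
    rw [Subring.coe_add, map_add]
    rfl
  rw [e]
  exact h.add h'

theorem red2_mul {Q : Place (kA A) (FFb A N)} (r r' : locX A hq hqN Q)
    (s s' : LaurentSeries (kA A)) (h : Red2 A hq hqN Q r s) (h' : Red2 A hq hqN Q r' s') :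
    Red2 A hq hqN Q (r * r') (s * s') := by
  unfold Red2 at *
  have e : ((atkinLehner N q hq hqN ((r * r' : locX A hq hqN Q) : FF (N * q)) : FF (N * q)) :
      LaurentSeries Kb) =
      ((atkinLehner N q hq hqN (r : FF (N * q)) : FF (N * q)) : LaurentSeries Kb) *
      ((atkinLehner N q hq hqN (r' : FF (N * q)) : FF (N * q)) : LaurentSeries Kb) := by
    rw [Subring.coe_mul, map_mul]
    rfl
  rw [e]
  exact h.mul h'

theorem red2_one {Q : Place (kA A) (FFb A N)} :
    Red2 A hq hqN Q (1 : locX A hq hqN Q) 1 := by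
  unfold Red2
  have e : ((atkinLehner N q hq hqN ((1 : locX A hq hqN Q) : FF (N * q)) : FF (N * q)) :
      LaurentSeries Kb) = 1 := by
    rw [Subring.coe_one, map_one]
    rfl
  rw [e]
  exact Fermat.Agent.T3.helper36.rhoQ_one

theorem red2_unique {Q : Place (kA A) (FFb A N)} (r : locX A hq hqN Q)
    (s s' : LaurentSeries (kA A)) (h : Red2 A hq hqN Q r s) (h' : Red2 A hq hqN Q r s') :
    s = s' :=
  RhoQ.unique h h'

end QuotY

section Main

variable {N q : ℕ} [NeZero N] [NeZero q] {hq : q.Prime} {hqN : ¬ q ∣ N}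
variable {A : ValuationSubring Kb} {b0 : FF (N * q)} {B : PowerSeries ℤ} {ε : ℤ}

/-- at a double point every element of `locX Q` has a second reduction -/
theorem red2_total (h : IsUnit0 hq hqN b0 B ε) (hA : A.LiesOverPrime q)
    {Q : Place (kA A) (FFb A N)} (hQ : IsFinitePt Q) (hν : 0 < ordAt Q (iota (kA A) B))
    (r : locX A hq hqN Q) : ∃ s, Red2 A hq hqN Q r s :=
  (Fermat.Agent.T8.helper48.vertSetting_locX h hA hQ hν).int2 r r.2

/-- **the second reduction `R_Q →+* k((t))` at a double point** -/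
def red2L (h : IsUnit0 hq hqN b0 B ε) (hA : A.LiesOverPrime q)
    {Q : Place (kA A) (FFb A N)} (hQ : IsFinitePt Q) (hν : 0 < ordAt Q (iota (kA A) B)) :
    locX A hq hqN Q →+* LaurentSeries (kA A) :=
  redHom (Red2 A hq hqN Q) (red2_total h hA hQ hν) red2_unique red2_add red2_mul red2_one

theorem red2L_eq_iff (h : IsUnit0 hq hqN b0 B ε) (hA : A.LiesOverPrime q)
    {Q : Place (kA A) (FFb A N)} (hQ : IsFinitePt Q) (hν : 0 < ordAt Q (iota (kA A) B))
    (r : locX A hq hqN Q) (s : LaurentSeries (kA A)) :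
    red2L h hA hQ hν r = s ↔
      RhoQ A ((atkinLehner N q hq hqN (r : FF (N * q)) : FF (N * q)) : LaurentSeries Kb) s :=
  redHom_eq_iff (Red2 A hq hqN Q) (red2_total h hA hQ hν) red2_unique red2_add red2_mul
    red2_one r s

/-- **`red2L` is the reduction of the expansion of `W r`** -/
theorem rhoQ_red2L (h : IsUnit0 hq hqN b0 B ε) (hA : A.LiesOverPrime q)
    {Q : Place (kA A) (FFb A N)} (hQ : IsFinitePt Q) (hν : 0 < ordAt Q (iota (kA A) B))
    (r : locX A hq hqN Q) :
    RhoQ A ((atkinLehner N q hq hqN (r : FF (N * q)) : FF (N * q)) : LaurentSeries Kb)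
      (red2L h hA hQ hν r) :=
  (red2L_eq_iff h hA hQ hν r _).mp rfl

/-- on `R⁰` the second reduction is `red2X` -/
theorem red2L_incl (h : IsUnit0 hq hqN b0 B ε) (hA : A.LiesOverPrime q)
    {Q : Place (kA A) (FFb A N)} (hQ : IsFinitePt Q) (hν : 0 < ordAt Q (iota (kA A) B))
    (a : ringX A hq hqN) :
    red2L h hA hQ hν (Fermat.Agent.T8.helper16.locXIncl Q a) = red2X A hq hqN a := by
  rw [red2L_eq_iff]
  have hm := isRX_model a
  rw [red2X_eq hm]
  have e : incl A (Fermat.Agent.T8.helper16.model2 a) =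
      ((atkinLehner N q hq hqN (a : FF (N * q)) : FF (N * q)) : LaurentSeries Kb) := hm.2.2.2
  show RhoQ A ((atkinLehner N q hq hqN (a : FF (N * q)) : FF (N * q)) : LaurentSeries Kb) _
  rw [← e]
  exact Fermat.Agent.T3.helper36.rhoQ_incl _

end Main

section Quot

variable {N q : ℕ} [NeZero N] [NeZero q] {hq : q.Prime} {hqN : ¬ q ∣ N}
variable {A : ValuationSubring Kb} {b0 : FF (N * q)} {B : PowerSeries ℤ} {ε : ℤ}

/-- every element of `FFb` is a quotient of elements of `Bt` (subring form) -/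
theorem exists_frac_Bt (x : LaurentSeries (kA A)) (hx : x ∈ FFb A N) :
    ∃ a s : (Bt A N).toSubring, (s : LaurentSeries (kA A)) ≠ 0 ∧
      x * (s : LaurentSeries (kA A)) = (a : LaurentSeries (kA A)) := by
  obtain ⟨x', s', hx', hs', hs0, e⟩ := Fermat.Agent.T3.helper95.fracBt N A ⟨x, hx⟩
  refine ⟨⟨(x' : LaurentSeries (kA A)), hx'⟩, ⟨(s' : LaurentSeries (kA A)), hs'⟩, ?_, ?_⟩
  · intro h0
    exact hs0 (Subtype.ext h0)
  · exact congrArg (fun z : FFb A N => (z : LaurentSeries (kA A))) e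

/-- **[SLOPE-X'], (DVR) at a double point**: `R_Q ⧸ (y)` is a domain and a principal ideal
ring (`y = b₀`, `0 < ord_Q ν`). -/
theorem quotY_locX (h : IsUnit0 hq hqN b0 B ε) (hA : A.LiesOverPrime q) (hN : 4 ∣ N ∨ 9 ∣ N)
    {Q : Place (kA A) (FFb A N)} (hQ : IsFinitePt Q) (hν : 0 < ordAt Q (iota (kA A) B)) :
    IsDomain (locX A hq hqN Q ⧸ Ideal.span {yyLoc h hA Q}) ∧
      IsPrincipalIdealRing (locX A hq hqN Q ⧸ Ideal.span {yyLoc h hA Q}) := by
  haveI := Fermat.Agent.T8.helper16.isLocalRing_locX (hq := hq) (hqN := hqN) hA Q hQ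
  haveI : IsDedekindDomain ↥(Bt A N).toSubring :=
    Fermat.Agent.T3.helper95.isDedekindDomain_Bt N A
  have hS := Fermat.Agent.T8.helper48.vertSetting_locX h hA hQ hν
  refine quotient_isDomain_and_isPrincipalIdealRing_of_between (red2L h hA hQ hν) ?_ ?_
    (Bt A N).toSubring ?_ ?_
  · -- `red₂ y = 0`
    rw [red2L_eq_iff]
    obtain ⟨Y₁, Y₂, hR, h1, h2⟩ := Fermat.Agent.T8.helper63.isRX_unit h A hA
    have e : incl A Y₂ =
        ((atkinLehner N q hq hqN b0 : FF (N * q)) : LaurentSeries Kb) := hR.2.2.2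
    show RhoQ A ((atkinLehner N q hq hqN b0 : FF (N * q)) : LaurentSeries Kb) 0
    rw [← e, ← h2]
    exact Fermat.Agent.T3.helper36.rhoQ_incl _
  · -- `ker red₂ = (y)`
    intro r hr
    have hr' := (red2L_eq_iff h hA hQ hν r 0).mp hr
    exact Fermat.Agent.T8.helper48.VertSetting.dvd_of_rho2_zero h hS r hr'
  · -- `Bt ⊆ range red₂`
    rintro ⟨d, hd⟩
    obtain ⟨a, ha, -⟩ := Fermat.Agent.T8.helper96.exists_ringX_red2 N q hq hqN A hA hN hd
    exact ⟨Fermat.Agent.T8.helper16.locXIncl Q a, by rw [red2L_incl]; exact ha⟩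
  · -- `range red₂ ⊆ FFb = Frac Bt`
    intro r
    obtain ⟨a, s, hs, e⟩ := r.2
    have e1 : r * Fermat.Agent.T8.helper16.locXIncl Q s =
        Fermat.Agent.T8.helper16.locXIncl Q a := Subtype.ext e
    have e2 : red2L h hA hQ hν r * red2X A hq hqN s = red2X A hq hqN a := by
      rw [← red2L_incl h hA hQ hν s, ← red2L_incl h hA hQ hν a, ← map_mul, e1]
    have hs0 : red2X A hq hqN s ≠ 0 :=
      Fermat.Agent.T8.helper48.red2X_ne_zero_of_isUnitAt h hA hQ hν hs
    have ha' : red2X A hq hqN a ∈ FFb A N :=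
      (Fermat.Agent.T3.helper95.mem_BtAll.1
        (Fermat.Agent.T8.helper63.red2X_mem_BtAll hA a)).1
    have hs' : red2X A hq hqN s ∈ FFb A N :=
      (Fermat.Agent.T3.helper95.mem_BtAll.1
        (Fermat.Agent.T8.helper63.red2X_mem_BtAll hA s)).1
    have hmem : red2L h hA hQ hν r ∈ FFb A N := by
      have e3 : red2L h hA hQ hν r = red2X A hq hqN a * (red2X A hq hqN s)⁻¹ := by
        rw [← e2, mul_assoc, mul_inv_cancel₀ hs0, mul_one]
      rw [e3]
      exact (FFb A N).mul_mem ha' ((FFb A N).inv_mem hs')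
    exact exists_frac_Bt _ hmem

end Quot

section QuotXX

variable {N q : ℕ} [NeZero N] [NeZero q] {hq : q.Prime} {hqN : ¬ q ∣ N}
variable {A : ValuationSubring Kb} {b0 : FF (N * q)} {B : PowerSeries ℤ} {ε : ℤ}

/-- `ker red₁ = (xx)` on `locX Q`, at every finite point -/
theorem xxLoc_dvd_of_redL_eq_zero (h : IsUnit0 hq hqN b0 B ε) (hA : A.LiesOverPrime q)
    {Q : Place (kA A) (FFb A N)} (hQ : IsFinitePt Q) {r : locX A hq hqN Q}
    (hr : Fermat.Agent.T8.helper16.redL hA Q hQ r = 0) : xxLoc h hA Q ∣ r := by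
  have h0 : RhoQ A (((r : locX A hq hqN Q) : FF (N * q)) : LaurentSeries Kb) 0 := by
    have := Fermat.Agent.T8.helper16.rhoQ_redL hA Q hQ r
    rwa [hr] at this
  rcases eq_or_lt_of_le (Fermat.Agent.T8.helper48.ordAt_nu_nonneg h hA hQ) with hν | hν
  · exact Fermat.Agent.T8.helper48.VertSetting1.dvd_of_rho1_zero h
      (Fermat.Agent.T8.helper48.vertSetting1_locX h hA hν.symm) r h0
  · exact Fermat.Agent.T8.helper48.VertSetting.dvd_of_rho1_zero h
      (Fermat.Agent.T8.helper48.vertSetting_locX h hA hQ hν) r h0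

/-- **[SLOPE-X'], (DVR) at `xx`**: `R_Q ⧸ (xx)` is a domain and a principal ideal ring at
every finite point `Q`. -/
theorem quotXX_locX (h : IsUnit0 hq hqN b0 B ε) (hA : A.LiesOverPrime q) (hN : 4 ∣ N ∨ 9 ∣ N)
    {Q : Place (kA A) (FFb A N)} (hQ : IsFinitePt Q) :
    IsDomain (locX A hq hqN Q ⧸ Ideal.span {xxLoc h hA Q}) ∧
      IsPrincipalIdealRing (locX A hq hqN Q ⧸ Ideal.span {xxLoc h hA Q}) := by
  haveI := Fermat.Agent.T8.helper16.isLocalRing_locX (hq := hq) (hqN := hqN) hA Q hQ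
  haveI : IsDedekindDomain ↥(Bt A N).toSubring :=
    Fermat.Agent.T3.helper95.isDedekindDomain_Bt N A
  refine quotient_isDomain_and_isPrincipalIdealRing_of_between
    (Fermat.Agent.T8.helper16.redL hA Q hQ) ?_ ?_ (Bt A N).toSubring ?_ ?_
  · -- `red₁ xx = 0`
    obtain ⟨Y₁, Y₂, hR, h1, h2⟩ := Fermat.Agent.T8.helper63.isRX_unitW h A hA
    have e : xxLoc h hA Q = Fermat.Agent.T8.helper16.locXIncl Q
        (⟨atkinLehner N q hq hqN b0, Y₁, Y₂, hR⟩ : ringX A hq hqN) := Subtype.ext rfl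
    rw [e, Fermat.Agent.T8.helper16.redL_incl,
      red1X_eq (g := (⟨atkinLehner N q hq hqN b0, Y₁, Y₂, hR⟩ : ringX A hq hqN)) hR, h1]
  · intro r hr
    exact xxLoc_dvd_of_redL_eq_zero h hA hQ hr
  · rintro ⟨d, hd⟩
    obtain ⟨a, ha, -⟩ := Fermat.Agent.T8.helper96.exists_ringX_red1 N q hq hqN A hA hN hd
    exact ⟨Fermat.Agent.T8.helper16.locXIncl Q a, by
      rw [Fermat.Agent.T8.helper16.redL_incl]; exact ha⟩
  · intro r
    exact exists_frac_Bt _ (Fermat.Agent.T8.helper16.redL_mem_FFb hA Q hQ r)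

end QuotXX

section Any

variable {N q : ℕ} [NeZero N] [NeZero q] {hq : q.Prime} {hqN : ¬ q ∣ N}
variable {A : ValuationSubring Kb} {b0 : FF (N * q)} {B : PowerSeries ℤ} {ε : ℤ}

/-- `quotY_locX` for ANY element `y` of `locX Q` with underlying function `b₀` -/
theorem quotY_locX_of_coe (h : IsUnit0 hq hqN b0 B ε) (hA : A.LiesOverPrime q)
    (hN : 4 ∣ N ∨ 9 ∣ N) {Q : Place (kA A) (FFb A N)} (hQ : IsFinitePt Q)
    (hν : 0 < ordAt Q (iota (kA A) B)) (y : locX A hq hqN Q)
    (hy : (y : FF (N * q)) = b0) :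
    IsDomain (locX A hq hqN Q ⧸ Ideal.span {y}) ∧
      IsPrincipalIdealRing (locX A hq hqN Q ⧸ Ideal.span {y}) := by
  have e : y = yyLoc h hA Q := Subtype.ext hy
  rw [e]
  exact quotY_locX h hA hN hQ hν

/-- `quotXX_locX` for ANY element `x` of `locX Q` with underlying function `W b₀` -/
theorem quotXX_locX_of_coe (h : IsUnit0 hq hqN b0 B ε) (hA : A.LiesOverPrime q)
    (hN : 4 ∣ N ∨ 9 ∣ N) {Q : Place (kA A) (FFb A N)} (hQ : IsFinitePt Q)
    (x : locX A hq hqN Q) (hx : (x : FF (N * q)) = atkinLehner N q hq hqN b0) :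
    IsDomain (locX A hq hqN Q ⧸ Ideal.span {x}) ∧
      IsPrincipalIdealRing (locX A hq hqN Q ⧸ Ideal.span {x}) := by
  have e : x = xxLoc h hA Q := Subtype.ext hx
  rw [e]
  exact quotXX_locX h hA hN hQ

/-- at a double point `y` lies in the maximal ideal of `locX Q` -/
theorem yyLoc_mem_maximalIdeal (h : IsUnit0 hq hqN b0 B ε) (hA : A.LiesOverPrime q)
    {Q : Place (kA A) (FFb A N)} (hQ : IsFinitePt Q) (hν : 0 < ordAt Q (iota (kA A) B)) :
    haveI := Fermat.Agent.T8.helper16.isLocalRing_locX (hq := hq) (hqN := hqN) hA Q hQ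
    yyLoc h hA Q ∈ IsLocalRing.maximalIdeal (locX A hq hqN Q) := by
  haveI := Fermat.Agent.T8.helper16.isLocalRing_locX (hq := hq) (hqN := hqN) hA Q hQ
  rw [IsLocalRing.mem_maximalIdeal, mem_nonunits_iff]
  exact (Fermat.Agent.T8.helper48.prime_yy_locX h hA hQ hν).not_isUnit

/-- `xx` lies in the maximal ideal of `locX Q` at every finite point -/
theorem xxLoc_mem_maximalIdeal (h : IsUnit0 hq hqN b0 B ε) (hA : A.LiesOverPrime q)
    {Q : Place (kA A) (FFb A N)} (hQ : IsFinitePt Q) :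
    haveI := Fermat.Agent.T8.helper16.isLocalRing_locX (hq := hq) (hqN := hqN) hA Q hQ
    xxLoc h hA Q ∈ IsLocalRing.maximalIdeal (locX A hq hqN Q) := by
  haveI := Fermat.Agent.T8.helper16.isLocalRing_locX (hq := hq) (hqN := hqN) hA Q hQ
  rw [IsLocalRing.mem_maximalIdeal, mem_nonunits_iff]
  exact (Fermat.Agent.T8.helper48.prime_xx_locX h hA hQ).not_isUnit

/-- the second reduction of `xx` is `ν` -/
theorem red2L_xxLoc (h : IsUnit0 hq hqN b0 B ε) (hA : A.LiesOverPrime q)
    {Q : Place (kA A) (FFb A N)} (hQ : IsFinitePt Q) (hν : 0 < ordAt Q (iota (kA A) B)) :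
    red2L h hA hQ hν (xxLoc h hA Q) = iota (kA A) B := by
  obtain ⟨Y₁, Y₂, hR, h1, h2⟩ := Fermat.Agent.T8.helper63.isRX_unitW h A hA
  have e : xxLoc h hA Q = Fermat.Agent.T8.helper16.locXIncl Q
      (⟨atkinLehner N q hq hqN b0, Y₁, Y₂, hR⟩ : ringX A hq hqN) := Subtype.ext rfl
  rw [e, red2L_incl,
    red2X_eq (g := (⟨atkinLehner N q hq hqN b0, Y₁, Y₂, hR⟩ : ringX A hq hqN)) hR, h2]

/-- the second reduction of `y` is `0` -/
theorem red2L_yyLoc (h : IsUnit0 hq hqN b0 B ε) (hA : A.LiesOverPrime q)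
    {Q : Place (kA A) (FFb A N)} (hQ : IsFinitePt Q) (hν : 0 < ordAt Q (iota (kA A) B)) :
    red2L h hA hQ hν (yyLoc h hA Q) = 0 := by
  obtain ⟨Y₁, Y₂, hR, h1, h2⟩ := Fermat.Agent.T8.helper63.isRX_unit h A hA
  have e : yyLoc h hA Q = Fermat.Agent.T8.helper16.locXIncl Q
      (⟨b0, Y₁, Y₂, hR⟩ : ringX A hq hqN) := Subtype.ext rfl
  rw [e, red2L_incl, red2X_eq (g := (⟨b0, Y₁, Y₂, hR⟩ : ringX A hq hqN)) hR, h2]

/-- `ker red₂ = (y)` on `locX Q` at a double point -/
theorem yyLoc_dvd_of_red2L_eq_zero (h : IsUnit0 hq hqN b0 B ε) (hA : A.LiesOverPrime q)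
    {Q : Place (kA A) (FFb A N)} (hQ : IsFinitePt Q) (hν : 0 < ordAt Q (iota (kA A) B))
    {r : locX A hq hqN Q} (hr : red2L h hA hQ hν r = 0) : yyLoc h hA Q ∣ r :=
  Fermat.Agent.T8.helper48.VertSetting.dvd_of_rho2_zero h
    (Fermat.Agent.T8.helper48.vertSetting_locX h hA hQ hν) r
    ((red2L_eq_iff h hA hQ hν r 0).mp hr)

end Any

end Fermat.Agent.T8.helper6
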