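import Fermat.Agent.T8.helper72_ChainDefs2
import Fermat.Agent.T8.helper51_G1End

/-!
# T8 / S44 (helper72, assembler): adapter for the box (G) [G1-END]

`g1End2_of_freyScalar` : the curve-side statement `helper51.FreyScalarStatement` (an element of
the inertia group at `p` acting on `E[p]` through a scalar `k` has `k ≡ 1` mod `p`) implies the
contract (G) of the chain, `G1EndStatement2` (via `helper51.g1EndCond_of_freyScalar`: T7 (G1)).
-/

set_option autoImplicit false
set_option linter.unusedSectionVars false
set_option linter.style.longLine false
set_option linter.unusedVariables false
set_option linter.style.haveILetI false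

noncomputable section

namespace Fermat.Agent.T8.helper72

open ModularCurve WeierstrassCurve WeierstrassCurve.Affine WeierstrassCurve.Affine.Point
open Fermat.Agent.T7

/-- (G), version 2, from the conditional form of helper51 -/
theorem g1End2_of_cond (h : Fermat.Agent.T8.helper51.G1EndCondStatement) : G1EndStatement2 :=
  fun P W M' _ hc hpN A hA V hV hVnew => h P W M' hc.model hc.cond hc.irr hpN A hA V hV hVnew

/-- **(G) from the curve-side statement.** -/
theorem g1End2_of_freyScalar (h : Fermat.Agent.T8.helper51.FreyScalarStatement) :
    G1EndStatement2 :=
  g1End2_of_cond (Fermat.Agent.T8.helper51.g1EndCond_of_freyScalar h)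

end Fermat.Agent.T8.helper72

end
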