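import Fermat.Agent.T8.helper72_ChainDefs2
import Fermat.Agent.T8.helper78_OldLift
import Fermat.Agent.T8.helper32_LiftCore8

/-!
# T8 / S44 (helper72, assembler): the box (C) [OLD-LIFT], closed

`oldLiftStatement2_72 : OldLiftStatement2`, unconditional: `helper78.oldLiftStatement_of_liftJ`
([OLD]: Hecke equivariance of `α_*`, `β_*` on torsion classes) applied to `helper32.liftJ`
((S) + (L): every eigenclass of `J₀(M)[p]` lifts to a normalised eigenform of level `M`).
-/

set_option autoImplicit false
set_option linter.unusedSectionVars false
set_option linter.style.longLine false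
set_option linter.unusedVariables false
set_option linter.style.haveILetI false

noncomputable section

namespace Fermat.Agent.T8.helper72

open ModularCurve WeierstrassCurve WeierstrassCurve.Affine WeierstrassCurve.Affine.Point
open Fermat.Agent.T7

/-- (L) in the shape of helper78, from (L) in the shape of helper32 -/
theorem liftJ78_72 : Fermat.Agent.T8.helper78.LiftJStatement :=
  fun M p _ hp G a hG x hx0 hxp hx =>
    Fermat.Agent.T8.helper32.liftJ M p hp G a
      (fun ℓ hℓ h => hG ℓ hℓ (Dvd.dvd.mul_left h p)) x hx0 hxp hx

/-- **(C) [OLD-LIFT]**, version 1, unconditional. -/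
theorem oldLiftStatement72 : OldLiftStatement :=
  Fermat.Agent.T8.helper78.oldLiftStatement_of_liftJ liftJ78_72

/-- **(C) [OLD-LIFT]**, version 2, unconditional. -/
theorem oldLiftStatement2_72 : OldLiftStatement2 :=
  oldLift2_of_oldLift oldLiftStatement72

end Fermat.Agent.T8.helper72

end
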