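import Fermat.Agent.T8.helper72_ChainDefs2
import Fermat.Agent.T7.helper43_NewNorm

/-!
# T8 / S44, box (D) [AUX] (helper72): the pull-back `π^* : J₀(M' p) → J₀(4 M' p)`

For `M₁ ∣ M₂` the function field of level `M₁` is contained in the function field of level `M₂`
(as fields of Laurent series).  `pullDvd h : J₀(M₁) → J₀(M₂)` is the pull-back of divisor classes
along this inclusion; for `M₂ = M₁ * r` it is `helper43.alphaPull M₁ r` (`pullDvd_eq_alphaPull`),
and no cast between levels is ever needed.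

* `le_of_dvd72`, `inclFF`, `coe_inclFF` : the inclusion;
* `pullDvd`, `pullDvd_eq_alphaPull`;
* `isKummerRep_pullDvd` : a Kummer representative of `pullDvd h x` is THE SAME Laurent series;
* `pullDvd_galois_smul` : Galois equivariance;
* `auxPull : PullData` : the pull-back data of the chain, `auxPull M' p = pullDvd (M' p ∣ 4 M' p)`.
-/

set_option autoImplicit false
set_option linter.unusedSectionVars false
set_option linter.style.longLine false
set_option linter.unusedVariables false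
set_option linter.style.haveILetI false

noncomputable section

namespace Fermat.Agent.T8.helper72

open ModularCurve AlgebraicCurve IntermediateField
open Fermat.Agent.T7 Fermat.Agent.P3.helper94 Fermat.Agent.S24

/-- the function field of level `M₁` is contained in the function field of level `M₂`,
`M₁ ∣ M₂` -/
theorem le_of_dvd72 {M₁ M₂ : ℕ} [NeZero M₁] [NeZero M₂] (h : M₁ ∣ M₂) :
    modularFunctionFieldBar M₁ ≤ modularFunctionFieldBar M₂ := by
  obtain ⟨r, rfl⟩ := h
  haveI : NeZero r := ⟨fun h0 => NeZero.ne (M₁ * r) (by rw [h0, mul_zero])⟩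
  intro x hx
  have := (heckeAlphaBar Kbar M₁ r ⟨x, hx⟩).2
  rwa [coe_heckeAlphaBar] at this

/-- the inclusion of the function fields -/
def inclFF {M₁ M₂ : ℕ} [NeZero M₁] [NeZero M₂] (h : M₁ ∣ M₂) :
    modularFunctionFieldBar M₁ →ₐ[Kbar] modularFunctionFieldBar M₂ :=
  IntermediateField.inclusion (le_of_dvd72 h)

@[simp]
theorem coe_inclFF {M₁ M₂ : ℕ} [NeZero M₁] [NeZero M₂] (h : M₁ ∣ M₂)
    (x : modularFunctionFieldBar M₁) :
    (inclFF h x : LaurentSeries Kbar) = (x : LaurentSeries Kbar) :=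
  IntermediateField.coe_inclusion _ x

theorem inclFF_eq_alpha (N r : ℕ) [NeZero N] [NeZero r] :
    inclFF (Dvd.intro r rfl : N ∣ N * r) = heckeAlphaBar Kbar N r :=
  rfl

theorem inclFF_isIntegral {M₁ M₂ : ℕ} [NeZero M₁] [NeZero M₂] (h : M₁ ∣ M₂) :
    (inclFF h).toRingHom.IsIntegral := by
  obtain ⟨r, rfl⟩ := h
  haveI : NeZero r := ⟨fun h0 => NeZero.ne (M₁ * r) (by rw [h0, mul_zero])⟩
  exact helper43.alpha_isIntegral M₁ r

theorem hasPD72 (M : ℕ) [NeZero M] : HasPrincipalDivisors Kbar (modularFunctionFieldBar M) :=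
  Fermat.Agent.S18.helper19.hasPD M

theorem inclFF_fundamentalIdentity {M₁ M₂ : ℕ} [NeZero M₁] [NeZero M₂] (h : M₁ ∣ M₂) :
    haveI := hasPD72 M₂
    FundamentalIdentityAlong Kbar (inclFF h) (inclFF_isIntegral h) := by
  obtain ⟨r, rfl⟩ := h
  haveI : NeZero r := ⟨fun h0 => NeZero.ne (M₁ * r) (by rw [h0, mul_zero])⟩
  exact helper43.alpha_fundamentalIdentity M₁ r

/-- **the pull-back `J₀(M₁) → J₀(M₂)` along the inclusion of the function fields**, `M₁ ∣ M₂` -/
def pullDvd {M₁ M₂ : ℕ} [NeZero M₁] [NeZero M₂] (h : M₁ ∣ M₂) : JZero M₁ →+ JZero M₂ :=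
  haveI := hasPD72 M₂
  helper43.pullPic (inclFF h) (inclFF_isIntegral h) (inclFF_fundamentalIdentity h)

theorem pullDvd_eq_alphaPull (N r : ℕ) [NeZero N] [NeZero r] :
    pullDvd (Dvd.intro r rfl : N ∣ N * r) = helper43.alphaPull N r :=
  rfl

/-- a Kummer representative of the pull-back is the same Laurent series -/
theorem isKummerRep_pullDvd {M₁ M₂ : ℕ} [NeZero M₁] [NeZero M₂] (h : M₁ ∣ M₂) {n : ℕ}
    {x : JZero M₁} {u : modularFunctionFieldBar M₁} (H : IsKummerRep n x u) :
    IsKummerRep n (pullDvd h x) (inclFF h u) := by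
  haveI := hasPD72 M₂
  exact helper43.isKummerRep_pullPic _ _ _ H

/-- the pull-back commutes with the Galois action -/
theorem pullDvd_galois_smul {M₁ M₂ : ℕ} [NeZero M₁] [NeZero M₂] (h : M₁ ∣ M₂)
    (σ : Kbar ≃ₐ[ℚ] Kbar) (x : JZero M₁) :
    pullDvd h (σ • x) = σ • pullDvd h x := by
  obtain ⟨r, rfl⟩ := h
  haveI : NeZero r := ⟨fun h0 => NeZero.ne (M₁ * r) (by rw [h0, mul_zero])⟩
  exact helper43.alphaPull_galois_smul M₁ r σ x

/-- `M' p ∣ 4 M' p` -/
theorem dvd_four_mul72 (M' p : ℕ) : M' * p ∣ 4 * M' * p :=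
  ⟨4, by ring⟩

/-- **the pull-back data of the chain**: `π^* : J₀(M' p) → J₀(4 M' p)`. -/
def auxPull : PullData := fun M' p _ _ => pullDvd (dvd_four_mul72 M' p)

theorem auxPull_apply (M' p : ℕ) [NeZero M'] [NeZero p] (x : JZero (M' * p)) :
    auxPull M' p x = pullDvd (dvd_four_mul72 M' p) x :=
  rfl

end Fermat.Agent.T8.helper72

end
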