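import Fermat.Agent.T8.helper72_ChainDefs
import Fermat.Agent.S54.helper91_Frobenius

/-!
# T8 / S44 (helper72, assembler): the top chain

`s44_of_boxes` : the frozen statement S44 from the six contracts of `helper72_ChainDefs.lean`
(`RealStatement`, `OldLiftStatement`, `AuxStatement π`, `WallStatement π C`,
`DHeckeStatement π C`, `G1EndStatement`), for ANY choice of the pull-back data `π` and of the wall
predicate `C`.  The level of the conclusion is `M = N / p`.
-/

set_option autoImplicit false
set_option linter.unusedSectionVars false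
set_option linter.style.longLine false
set_option linter.unusedVariables false
set_option linter.style.haveILetI false

noncomputable section

namespace Fermat.Agent.T8.helper72

open ModularCurve WeierstrassCurve WeierstrassCurve.Affine WeierstrassCurve.Affine.Point
open Fermat.Agent.T7

/-- the prime of a Frey package does not divide `4` -/
theorem not_p_dvd_four72 (P : FreyPackage) : ¬ P.p ∣ 4 := by
  intro h
  have h1 : P.p ≤ 4 := Nat.le_of_dvd (by norm_num) h
  have h2 := P.hp5
  omega

/-- `p ∤ M'` if `M' p` is squarefree -/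
theorem not_p_dvd_of_squarefree72 {p M' : ℕ} (hp : p.Prime) (h : Squarefree (M' * p)) :
    ¬ p ∣ M' := by
  rintro ⟨k, rfl⟩
  have h1 : p * p ∣ p * k * p := ⟨k, by ring⟩
  exact hp.not_isUnit (h p h1)

/-- `p ∤ 4 M'` -/
theorem not_p_dvd_four_mul72 (P : FreyPackage) {M' : ℕ} (h : ¬ P.p ∣ M') : ¬ P.p ∣ 4 * M' := by
  intro h1
  rcases (Nat.Prime.dvd_mul P.pp).mp h1 with h2 | h2
  · exact not_p_dvd_four72 P h2
  · exact h h2

/-- **The top chain, level `M' p` form.** -/
theorem modularRepOfLevel_of_boxes (π : PullData) (C : WallData)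
    (hReal : RealStatement) (hOL : OldLiftStatement) (hAux : AuxStatement π)
    (hWall : WallStatement π C) (hDH : DHeckeStatement π C) (hG1 : G1EndStatement)
    (P : FreyPackage) (M' : ℕ) [NeZero M'] (hcond : P.IsConductorLevel (M' * P.p))
    (hirr : GaloisRepIsIrreducible (K := AlgebraicClosure ℚ) ℚ P.freyCurve P.p)
    (hmod : P.ModularRepOfLevel (M' * P.p)) : P.ModularRepOfLevel M' := by
  obtain ⟨W, V0, hW, hV0⟩ := hReal P M' hcond hirr hmod
  by_cases hnew : V0 ≤ helper43.newPart M' P.p
  · have hpM : ¬ P.p ∣ M' := not_p_dvd_of_squarefree72 P.pp hcond.squarefree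
    have hpN : ¬ P.p ∣ 4 * M' := not_p_dvd_four_mul72 P hpM
    obtain ⟨A, hA⟩ := Fermat.Agent.S54.helper91.exists_valuationSubring_liesOver P.pp
    obtain ⟨hV, hVnew⟩ := hAux P W M' hW hcond hirr V0 hV0 hnew
    have hnot := hG1 P W M' hW hirr hpN A hA _ hV hVnew
    have hC := hWall P W M' hW hcond hirr hpN A hA V0 hV0 hnew hV hVnew hnot
    rcases hDH P W M' hW hcond hirr hpN A hA V0 hV0 hnew hV hVnew hC with h | h
    · exact h
    · exact (hnot h).elim
  · exact hOL P W M' hW hcond hirr V0 hV0 hnew

/-- **The top chain: the frozen statement S44 from the six contracts.** -/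
theorem s44_of_boxes (π : PullData) (C : WallData)
    (hReal : RealStatement) (hOL : OldLiftStatement) (hAux : AuxStatement π)
    (hWall : WallStatement π C) (hDH : DHeckeStatement π C) (hG1 : G1EndStatement)
    (P : FreyPackage) {N : ℕ} (hcond : P.IsConductorLevel N) (hpN : P.p ∣ N)
    (hirr : GaloisRepIsIrreducible (K := AlgebraicClosure ℚ) ℚ P.freyCurve P.p)
    (hmod : P.ModularRepOfLevel N) :
    ∃ M : ℕ, M ∣ N ∧ ¬ P.p ∣ M ∧ P.ModularRepOfLevel M := by
  obtain ⟨M', rfl⟩ : ∃ M', N = M' * P.p := by
    obtain ⟨k, hk⟩ := hpN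
    exact ⟨k, by rw [hk, mul_comm]⟩
  haveI : NeZero M' := ⟨by
    rintro rfl
    have := hcond.pos
    simp at this⟩
  exact ⟨M', Dvd.intro _ rfl, not_p_dvd_of_squarefree72 P.pp hcond.squarefree,
    modularRepOfLevel_of_boxes π C hReal hOL hAux hWall hDH hG1 P M' hcond hirr hmod⟩

end Fermat.Agent.T8.helper72

end
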