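import Fermat.Agent.T8.helper72_ChainDefs2
import Fermat.Agent.S54.helper91_Frobenius

/-!
# T8 / S44 (helper72, assembler): the top chain, version 2

`s44_of_boxes2` : the frozen statement S44 from the six version-2 contracts of
`helper72_ChainDefs2.lean`, for ANY choice of the pull-back data `π` and of the wall predicate
`C`.  The level of the conclusion is `M = N / p`.
-/

set_option autoImplicit false
set_option linter.unusedSectionVars false
set_option linter.style.longLine false
set_option linter.unusedVariables false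
set_option linter.style.haveILetI false

noncomputable section

namespace Fermat.Agent.T8.helper72

open ModularCurve WeierstrassCurve WeierstrassCurve.Affine WeierstrassCurve.Affine.Point
open Fermat.Agent.T7

/-- **The top chain, level `M' p` form, in the standing context.** -/
theorem modularRepOfLevel_of_boxes2 (π : PullData) (C : WallData)
    (hReal : RealStatement2) (hOL : OldLiftStatement2) (hAux : AuxStatement2 π)
    (hWall : WallStatement2 π C) (hDH : DHeckeStatement2 π C) (hG1 : G1EndStatement2)
    (P : FreyPackage) (W : WeierstrassCurve ℤ) (M' : ℕ) [NeZero M'] (hc : ChainCtx P M' W) :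
    P.ModularRepOfLevel M' := by
  obtain ⟨V0, hV0⟩ := hReal P W M' hc
  by_cases hnew : V0 ≤ helper43.newPart M' P.p
  · have hpN : ¬ P.p ∣ 4 * M' := hc.not_p_dvd_four_mul
    obtain ⟨A, hA⟩ := Fermat.Agent.S54.helper91.exists_valuationSubring_liesOver P.pp
    obtain ⟨hV, hVnew⟩ := hAux P W M' hc V0 hV0 hnew
    have hnot := hG1 P W M' hc hpN A hA _ hV hVnew
    have hC := hWall P W M' hc hpN A hA V0 hV0 hnew hV hVnew hnot
    rcases hDH P W M' hc hpN A hA V0 hV0 hnew hV hVnew hC with h | h
    · exact h
    · exact (hnot h).elim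
  · exact hOL P W M' hc V0 hV0 hnew

/-- **The top chain, version 2: the frozen statement S44 from the six contracts.** -/
theorem s44_of_boxes2 (π : PullData) (C : WallData)
    (hReal : RealStatement2) (hOL : OldLiftStatement2) (hAux : AuxStatement2 π)
    (hWall : WallStatement2 π C) (hDH : DHeckeStatement2 π C) (hG1 : G1EndStatement2)
    (P : FreyPackage) {N : ℕ} (hcond : P.IsConductorLevel N) (hpN : P.p ∣ N)
    (hirr : GaloisRepIsIrreducible (K := AlgebraicClosure ℚ) ℚ P.freyCurve P.p)
    (hmod : P.ModularRepOfLevel N) :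
    ∃ M : ℕ, M ∣ N ∧ ¬ P.p ∣ M ∧ P.ModularRepOfLevel M := by
  obtain ⟨M', rfl⟩ : ∃ M', N = M' * P.p := by
    obtain ⟨k, hk⟩ := hpN
    exact ⟨k, by rw [hk, mul_comm]⟩
  haveI : NeZero M' := ⟨by
    rintro rfl
    have := hcond.pos
    simp at this⟩
  obtain ⟨f, W, 𝔪, hf, hW, hmax, hp, hcong⟩ := hmod
  have hc : ChainCtx P M' W := ⟨hcond, hirr, hW, f, 𝔪, hf, hmax, hp, hcong⟩
  exact ⟨M', Dvd.intro _ rfl, hc.not_p_dvd,
    modularRepOfLevel_of_boxes2 π C hReal hOL hAux hWall hDH hG1 P W M' hc⟩

end Fermat.Agent.T8.helper72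

end
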