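import Fermat.Agent.T8.helper7_RealDefs
import Fermat.Agent.T8.helper72_ChainDefs2
import Fermat.Agent.T8.helper10_RealChebDefs
import Fermat.Agent.P6.helper31_NChebE
import Fermat.Agent.S04.Wiring

/-!
# T8 [REAL] (helper7, owner): the assembly in the shape of the landed sub-box contracts

`realStatement_of_occ_cheb : OccStatement → helper10.RealChebStatement → helper72.RealStatement`
`realStatement2_of_occ_cheb : OccStatement → helper10.RealChebStatement → helper72.RealStatement2`

(`OccStatement` = [REAL-OCC], `helper10.RealChebStatement` = [REAL-CHEB] + [REAL-BLR];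
the Eichler - Shimura input `ESRelOn` of [REAL-CHEB] on the eigenspace is [REAL-ES],
`esRelOn_eigenSub`.)
-/

set_option autoImplicit false
set_option linter.unusedSectionVars false
set_option linter.style.longLine false
set_option linter.unusedVariables false
set_option linter.style.haveILetI false

noncomputable section

namespace Fermat.Agent.T8.helper7

open ModularCurve WeierstrassCurve WeierstrassCurve.Affine WeierstrassCurve.Affine.Point
open Fermat.Agent.P3 Fermat.Agent.T8.helper72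

/-- the discriminant of an integral model of a curve with non-zero discriminant is non-zero -/
theorem Δ_ne_zero_of_model {E : WeierstrassCurve ℚ} (hE : E.Δ ≠ 0) {W : WeierstrassCurve ℤ}
    (hW : W.IsIntegralModelOf E) : W.Δ ≠ 0 := by
  obtain ⟨C, hC⟩ := hW
  intro h0
  have h1 : (C • E).Δ = 0 := by rw [hC, WeierstrassCurve.map_Δ, h0, _root_.map_zero]
  rw [WeierstrassCurve.variableChange_Δ] at h1
  have h3 : ((C.u⁻¹ : ℚˣ) : ℚ) ^ 12 ≠ 0 := pow_ne_zero _ (Units.ne_zero _)
  exact (mul_ne_zero h3 hE) h1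

/-- the discriminant of the Frey curve is non-zero -/
theorem freyCurve_Δ_ne_zero_real (P : FreyPackage) : P.freyCurve.Δ ≠ 0 := by
  rw [← Fermat.Agent.S04.freyCurveInt_map, WeierstrassCurve.map_Δ]
  simpa using Fermat.Agent.S04.freyCurveInt_Δ_ne_zero P

/-- the finite set of primes excluded in the Eichler - Shimura relation on the eigenspace -/
def badSet (P : FreyPackage) (W : WeierstrassCurve ℤ) (M : ℕ) : Finset ℕ :=
  (M * P.p).primeFactors ∪ W.Δ.natAbs.primeFactors

/-- **[REAL-ES]**, consumer form: the Eichler - Shimura relation of `W` on the eigenspace. -/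
theorem esRelOn_eigenSub (P : FreyPackage) {W : WeierstrassCurve ℤ} (hΔ : W.Δ ≠ 0)
    (M : ℕ) [NeZero M] :
    Fermat.Agent.T8.helper10.ESRelOn W M (eigenSub P W M) (badSet P W M) := by
  intro ℓ hℓ hℓS A hA φ hφ x hx
  have hMp : M * P.p ≠ 0 := mul_ne_zero (NeZero.ne M) P.pp.ne_zero
  have h1 : ¬ ℓ ∣ M * P.p := fun h =>
    hℓS (Finset.mem_union_left _ (Nat.mem_primeFactors.2 ⟨hℓ, h, hMp⟩))
  have h2 : W.IsGoodPrimeFor ℓ :=
    Fermat.Agent.P6.helper31.isGoodPrimeFor_of_notMem_primeFactors hℓ hΔ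
      (fun h => hℓS (Finset.mem_union_right _ h))
  have h3 := frob_quad_eigenSub hℓ h2 h1 hA hφ hx
  rw [← natCast_zsmul x ℓ] at h3
  exact h3

/-- **[REAL-ASM]**, core: a realisation of `E[p]` for a GIVEN integral model `W` congruent to an
eigenform of level `M`. -/
theorem exists_freyReal_of_occ_cheb (hOcc : OccStatement)
    (hCheb : Fermat.Agent.T8.helper10.RealChebStatement)
    (P : FreyPackage) (M : ℕ) [NeZero M] (W : WeierstrassCurve ℤ)
    (hW : W.IsIntegralModelOf P.freyCurve)
    (hirr : GaloisRepIsIrreducible (K := AlgebraicClosure ℚ) ℚ P.freyCurve P.p)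
    (hres : W.IsResiduallyModularOfLevel P.p M) :
    ∃ V0 : AddSubgroup (JZero M), V0 ≤ eigenSub P W M ∧ FreyReal P W M V0 := by
  obtain ⟨x, hx, hx0⟩ := hOcc P M W hW hres
  have hX : eigenSub P W M ≠ ⊥ := by
    intro h
    rw [h, AddSubgroup.mem_bot] at hx
    exact hx0 hx
  exact Fermat.Agent.T8.helper10.freyReal_of_realCheb hCheb P W hW hirr
    M (eigenSub P W M) (badSet P W M) hX
    (fun x hx => hx.1) (fun σ x hx => smul_mem_eigenSub σ hx)
    (esRelOn_eigenSub P (Δ_ne_zero_of_model (freyCurve_Δ_ne_zero_real P) hW) M)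
    (fun x hx => hx.2)

/-- **[REAL-ASM]**, version 2 of the contract (the integral model `W` is GIVEN). -/
theorem realStatement2_of_occ_cheb (hOcc : OccStatement)
    (hCheb : Fermat.Agent.T8.helper10.RealChebStatement) : RealStatement2 := by
  intro P W M' _ hctx
  obtain ⟨f, 𝔪, hf, h𝔪, hp𝔪, hcong⟩ := hctx.modular
  obtain ⟨V0, -, hV0⟩ := exists_freyReal_of_occ_cheb hOcc hCheb P (M' * P.p) W hctx.model
    hctx.irr ⟨f, 𝔪, hf, h𝔪, hp𝔪, hcong⟩
  exact ⟨V0, hV0⟩

/-- **[REAL-ASM]**: contract (A) of the top chain from [REAL-OCC] and [REAL-CHEB]. -/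
theorem realStatement_of_occ_cheb (hOcc : OccStatement)
    (hCheb : Fermat.Agent.T8.helper10.RealChebStatement) : RealStatement := by
  intro P M' _ hcond hirr hmod
  obtain ⟨f, W, 𝔪, hf, hW, h𝔪, hp𝔪, hcong⟩ := hmod
  have hres : W.IsResiduallyModularOfLevel P.p (M' * P.p) := ⟨f, 𝔪, hf, h𝔪, hp𝔪, hcong⟩
  obtain ⟨x, hx, hx0⟩ := hOcc P (M' * P.p) W hW hres
  have hX : eigenSub P W (M' * P.p) ≠ ⊥ := by
    intro h
    rw [h, AddSubgroup.mem_bot] at hx
    exact hx0 hx
  obtain ⟨V0, -, hV0⟩ := Fermat.Agent.T8.helper10.freyReal_of_realCheb hCheb P W hW hirr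
    (M' * P.p) (eigenSub P W (M' * P.p)) (badSet P W (M' * P.p)) hX
    (fun x hx => hx.1) (fun σ x hx => smul_mem_eigenSub σ hx)
    (esRelOn_eigenSub P (Δ_ne_zero_of_model (freyCurve_Δ_ne_zero_real P) hW) (M' * P.p))
    (fun x hx => hx.2)
  exact ⟨W, V0, hW, hV0⟩

end Fermat.Agent.T8.helper7

end
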