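import Fermat.Agent.T8.helper72_Chain3
import Fermat.Agent.T8.helper72_AdOldLift

/-!
# T8 / S44 (helper72, assembler): the frontier of the chain, state 4

`s44_of_frontier4` : the frozen statement S44 from the OPEN boxes only.  Closed and plugged in:

* (G) [G1-END]   : `helper27.g1End72`;
* (C) [OLD-LIFT] : `oldLiftStatement2_72` (`helper78` [OLD] + `helper32` (S) + (L));
* (A) [REAL]     : `helper7.realStatement2_of_occ_cheb` (from [REAL-OCC] and [REAL-CHEB]);
* (E) [WALL]     : `helper38.wall_of_boxes` (from the split / non-split / [PHI] wall statements).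

Open: `helper7.OccStatement`, `helper10.RealChebStatement`, `AuxStatement2 π`,
`helper38.SplitWallStatement π B`, `helper38.NonSplitWallStatement π B`,
`helper38.PhiWallStatement π B C`, `DHeckeStatement2 π C`; the data `π`, `B`, `C` are free.
-/

set_option autoImplicit false
set_option linter.unusedSectionVars false
set_option linter.style.longLine false
set_option linter.unusedVariables false
set_option linter.style.haveILetI false

noncomputable section

namespace Fermat.Agent.T8.helper72

open ModularCurve WeierstrassCurve WeierstrassCurve.Affine WeierstrassCurve.Affine.Point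
open Fermat.Agent.T7

/-- **The frontier, state 4.** -/
theorem s44_of_frontier4 (π : PullData) (B C : WallData)
    (hOcc : Fermat.Agent.T8.helper7.OccStatement)
    (hCheb : Fermat.Agent.T8.helper10.RealChebStatement)
    (hAux : AuxStatement2 π)
    (hS : Fermat.Agent.T8.helper38.SplitWallStatement π B)
    (hNS : Fermat.Agent.T8.helper38.NonSplitWallStatement π B)
    (hPhi : Fermat.Agent.T8.helper38.PhiWallStatement π B C)
    (hDH : DHeckeStatement2 π C)
    (P : FreyPackage) {N : ℕ} (hcond : P.IsConductorLevel N) (hpN : P.p ∣ N)
    (hirr : GaloisRepIsIrreducible (K := AlgebraicClosure ℚ) ℚ P.freyCurve P.p)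
    (hmod : P.ModularRepOfLevel N) :
    ∃ M : ℕ, M ∣ N ∧ ¬ P.p ∣ M ∧ P.ModularRepOfLevel M :=
  s44_of_frontier3 π B C hOcc hCheb oldLiftStatement2_72 hAux hS hNS hPhi hDH P hcond hpN
    hirr hmod

end Fermat.Agent.T8.helper72

end
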