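import Fermat.Agent.T8.helper85_RealSurj
import Fermat.Agent.T8.helper79_BLR
import Fermat.Agent.T8.helper10_RealChebDefs
import Fermat.Agent.T8.helper7_RealAsm
import Fermat.Agent.P3.helper26_Cyclo
import Fermat.Agent.P6.helper78_TorsionCard

/-!
# T8 / S44, box [REAL-CHEB], instance and assembly (helper85, second of the box)

* `rhoE P` : the action of `G_ℚ` on `E[p]` (Frey curve) as `G_ℚ →* End_{𝔽_p} E[p]`;
  `finrank_freyTors` (`= 2`), `isIrr_rhoE` (from `GaloisRepIsIrreducible`).
* `CommonQuadStatement` : **contract [COMMON-QUAD]** (Chebotarev + Dickson): for a mod `p`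
  cyclotomic character `d` and every `σ ∈ G_ℚ` there are integers `t`, `D ≡ d σ` with
  `σ² - t σ + D = 0` on `E[p]` AND on `X` (the same `t`).
* `realCheb_of_commonQuad : CommonQuadStatement → helper10.RealChebStatement`, by
  `helper85.span_range_eq_top` / `quad_trace_det` (no Weil pairing) and the
  Boston - Lenstra - Ribet lemma `helper79.exists_injective_equivariant`.
-/

set_option autoImplicit false
set_option linter.unusedSectionVars false
set_option linter.unusedVariables false
set_option linter.style.longLine false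
set_option linter.style.haveILetI false
set_option warn.classDefReducibility false

noncomputable section

namespace Fermat.Agent.T8.helper85

open ModularCurve WeierstrassCurve WeierstrassCurve.Affine WeierstrassCurve.Affine.Point
open Fermat.Agent.P3 Fermat.Agent.T8.helper72 Module

/-- the prime of a Frey package, as a fact -/
instance factPrime85 (P : FreyPackage) : Fact P.p.Prime := ⟨P.pp⟩

/-- the action of `G_ℚ` on `E[p]` -/
def rhoE (P : FreyPackage) : GQ →* Module.End (ZMod P.p) (FreyTors P) where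
  toFun σ := Fermat.Agent.T8.helper7.freyLin P σ
  map_one' := LinearMap.ext fun y => one_smul GQ y
  map_mul' σ τ := LinearMap.ext fun y => mul_smul σ τ y

@[simp] theorem rhoE_apply (P : FreyPackage) (σ : GQ) (y : FreyTors P) : rhoE P σ y = σ • y := rfl

/-- `E[p]` has `p ^ 2` elements -/
theorem card_freyTors (P : FreyPackage) : Nat.card (FreyTors P) = P.p ^ 2 :=
  Fermat.Agent.P6.helper78.card_torsionBy_Qbar P.freyCurve
    (Fermat.Agent.T8.helper7.freyCurve_Δ_ne_zero_real P) P.pp.one_lt.le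

/-- `E[p]` is finite -/
instance finite_freyTors (P : FreyPackage) : Finite (FreyTors P) := by
  have h := card_freyTors P
  have hpos : 0 < Nat.card (FreyTors P) := by rw [h]; exact pow_pos P.pp.pos 2
  exact (Nat.card_pos_iff.mp hpos).2

/-- `E[p]` has dimension `2` over `𝔽_p` -/
theorem finrank_freyTors (P : FreyPackage) : finrank (ZMod P.p) (FreyTors P) = 2 := by
  have h1 := Module.natCard_eq_pow_finrank (K := ZMod P.p) (V := FreyTors P)
  rw [card_freyTors, Nat.card_zmod] at h1
  exact (Nat.pow_right_injective P.pp.two_le h1).symm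

/-- irreducibility in the shape of `helper85.IsIrr` -/
theorem isIrr_rhoE (P : FreyPackage)
    (hirr : GaloisRepIsIrreducible (K := AlgebraicClosure ℚ) ℚ P.freyCurve P.p) :
    IsIrr (rhoE P) := fun N hN => hirr.2 N (fun σ x hx => hN σ x hx)

/-- `2 ≠ 0` in `𝔽_p` -/
theorem two_ne_zero85 (P : FreyPackage) : (2 : ZMod P.p) ≠ 0 := by
  intro h
  have h1 : ((2 : ℕ) : ZMod P.p) = 0 := by exact_mod_cast h
  rw [ZMod.natCast_eq_zero_iff] at h1
  have h2 := Nat.le_of_dvd (by norm_num) h1
  have h3 := P.hp5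
  omega

/-- **Contract [COMMON-QUAD]** (Chebotarev + Dickson). -/
def CommonQuadStatement : Prop :=
  ∀ (P : FreyPackage) (W : WeierstrassCurve ℤ), W.IsIntegralModelOf P.freyCurve →
    ∀ (M : ℕ) [NeZero M] (X : AddSubgroup (JZero M)) (S : Finset ℕ),
      (∀ x ∈ X, P.p • x = 0) → (∀ σ : GQ, ∀ x ∈ X, σ • x ∈ X) →
      Fermat.Agent.T8.helper10.ESRelOn W M X S →
      ∀ (d : GQ →* (ZMod P.p)ˣ), IsAdicContinuousChar d →
        (∀ ℓ : ℕ, ℓ.Prime → ℓ ≠ P.p → ∀ A : ValuationSubring Qbar, A.LiesOverPrime ℓ →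
          ∀ φ : GQ, A.IsFrobeniusAt φ ℓ → ((d φ : (ZMod P.p)ˣ) : ZMod P.p) = (ℓ : ZMod P.p)) →
        ∀ σ : GQ, ∃ t D : ℤ, (D : ZMod P.p) = ((d σ : (ZMod P.p)ˣ) : ZMod P.p) ∧
          (∀ y : FreyTors P, σ • σ • y - t • (σ • y) + D • y = 0) ∧
          ∀ x ∈ X, σ • σ • x - t • (σ • x) + D • x = 0

section Asm

variable {P : FreyPackage} {M : ℕ} [NeZero M] (X : AddSubgroup (JZero M))

/-- the `𝔽_p`-module structure of a subgroup killed by `p` -/
def zmodX (hp : ∀ x ∈ X, P.p • x = 0) : Module (ZMod P.p) X :=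
  AddCommGroup.zmodModule (fun x => Subtype.ext (by
    rw [AddSubgroup.coe_nsmul]
    exact hp x.1 x.2))

/-- the action of `G_ℚ` on a stable subgroup, additive form -/
def actX (hst : ∀ σ : GQ, ∀ x ∈ X, σ • x ∈ X) (σ : GQ) : X →+ X where
  toFun x := ⟨σ • (x : JZero M), hst σ x.1 x.2⟩
  map_zero' := Subtype.ext (smul_zero σ)
  map_add' a b := Subtype.ext (smul_add σ (a : JZero M) (b : JZero M))

end Asm

/-- **[REAL-CHEB] from [COMMON-QUAD]**. -/
theorem realCheb_of_commonQuad (h : CommonQuadStatement) :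
    Fermat.Agent.T8.helper10.RealChebStatement := by
  intro P W hW hirr M _ X S hX hp hst hES
  have hpm : ((P.p : ℕ) : ZMod P.p) ∈ IsLocalRing.maximalIdeal (ZMod P.p) := by
    rw [ZMod.natCast_self]
    exact Ideal.zero_mem _
  obtain ⟨d, -, hcont, hfrob, c, hcc, hdc⟩ :=
    Fermat.Agent.P3.helper26.cycloStatement P.p (ZMod P.p) hpm
  have hCQ := h P W hW M X S hp hst hES d hcont
    (fun ℓ hℓ hℓp A hA φ hφ => (hfrob ℓ hℓ hℓp A hA).2 φ hφ)
  -- the data on `E[p]`
  set χ : GQ → ZMod P.p := fun σ => ((d σ : (ZMod P.p)ˣ) : ZMod P.p) with hχ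
  have hχmul : ∀ g g' : GQ, χ (g * g') = χ g * χ g' := by
    intro g g'
    simp only [hχ, map_mul, Units.val_mul]
  have h2 := finrank_freyTors P
  have htwo := two_ne_zero85 P
  have hI := isIrr_rhoE P hirr
  -- the module `X`
  letI : Module (ZMod P.p) X := zmodX X hp
  let π : GQ →* Module.End (ZMod P.p) X :=
    { toFun := fun σ => (actX X hst σ).toZModLinearMap P.p
      map_one' := LinearMap.ext fun x => Subtype.ext (one_smul GQ (x : JZero M))
      map_mul' := fun σ τ => LinearMap.ext fun x => Subtype.ext (mul_smul σ τ (x : JZero M)) }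
  have hπ : ∀ (σ : GQ) (x : X), ((π σ x : X) : JZero M) = σ • (x : JZero M) := fun σ x => rfl
  -- the common relations, over `𝔽_p`
  have hq : ∀ g : GQ, ∃ t : ZMod P.p,
      (∀ y : FreyTors P, rhoE P g (rhoE P g y) - t • rhoE P g y + χ g • y = 0) ∧
        ∀ x : X, π g (π g x) - t • π g x + χ g • x = 0 := by
    intro g
    obtain ⟨t, D, hD, hE, hXr⟩ := hCQ g
    refine ⟨(t : ZMod P.p), fun y => ?_, fun x => ?_⟩
    · rw [rhoE_apply, rhoE_apply, hχ]
      simp only
      rw [← hD, Int.cast_smul_eq_zsmul, Int.cast_smul_eq_zsmul]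
      exact hE y
    · apply Subtype.ext
      rw [hχ]
      simp only
      rw [← hD, Int.cast_smul_eq_zsmul, Int.cast_smul_eq_zsmul]
      have h3 := hXr x.1 x.2
      rw [AddSubgroup.coe_add, AddSubgroup.coe_sub, AddSubgroup.coe_zsmul, AddSubgroup.coe_zsmul,
        hπ, hπ]
      exact h3
  have hquad : HasQuad (rhoE P) χ := fun g => by
    obtain ⟨t, ht, -⟩ := hq g
    exact ⟨t, ht⟩
  have hspan := span_range_eq_top (rhoE P) χ c h2 htwo hI hχmul hcc hdc hquad
  have hsurj := Fermat.Agent.T8.helper79.surjective_rA_of_span (rhoE P) hspan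
  have hQR : Fermat.Agent.T8.helper79.QuadRel (rhoE P) π := by
    intro g
    apply LinearMap.ext
    intro x
    have h3 := quad_trace_det (rhoE P) χ c π h2 htwo hI hχmul hcc hdc hq g x
    simpa using h3
  haveI : Nontrivial X := by
    rw [AddSubgroup.nontrivial_iff_ne_bot]
    exact hX
  obtain ⟨φ, hinj, heq⟩ :=
    Fermat.Agent.T8.helper79.exists_injective_equivariant htwo h2 (rhoE P) π hsurj hQR
  -- the realisation
  let j : FreyTors P →+ JZero M := X.subtype.comp φ.toAddMonoidHom
  have hjinj : Function.Injective j := fun a b hab => hinj (Subtype.ext hab)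
  refine ⟨j.range, ?_, AddEquiv.ofBijective j.rangeRestrict
    ⟨fun a b hab => hjinj (congrArg (fun z : j.range => (z : JZero M)) hab),
      j.rangeRestrict_surjective⟩, ?_⟩
  · rintro _ ⟨y, rfl⟩
    exact (φ y).2
  · intro σ x
    show ((φ (σ • x) : X) : JZero M) = σ • ((φ x : X) : JZero M)
    have h3 := heq σ x
    rw [rhoE_apply] at h3
    rw [h3]
    rfl

end Fermat.Agent.T8.helper85

end
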