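import Fermat.Agent.T8.helper72_Chain4
import Fermat.Agent.T8.helper67_Aux
import Fermat.Agent.T8.helper85_RealInst

/-!
# T8 / S44 (helper72, assembler): the frontier of the chain, state 5

`s44_of_frontier5` : the frozen statement S44 from the OPEN boxes only, with the pull-back data
fixed: `π = helper67.auxPull67` (`β_4^*`).  Closed and plugged in:

* (G) [G1-END]   : `helper27.g1End72`;
* (C) [OLD-LIFT] : `oldLiftStatement2_72` (`helper78` [OLD] + `helper32` (S) + (L));
* (D) [AUX]      : `helper67.auxStatement67`;
* (A) [REAL]     : `helper7.realStatement2_of_occ_cheb` + `helper85.realCheb_of_commonQuad`;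
* (E) [WALL]     : `helper38.wall_of_boxes`.

Open: `helper7.OccStatement`, `helper85.CommonQuadStatement`,
`helper38.SplitWallStatement π B`, `helper38.NonSplitWallStatement π B`,
`helper38.PhiWallStatement π B C`, `DHeckeStatement2 π C`; the predicates `B`, `C` are free.
-/

set_option autoImplicit false
set_option linter.unusedSectionVars false
set_option linter.style.longLine false
set_option linter.unusedVariables false
set_option linter.style.haveILetI false

noncomputable section

namespace Fermat.Agent.T8.helper72

open ModularCurve WeierstrassCurve WeierstrassCurve.Affine WeierstrassCurve.Affine.Point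
open Fermat.Agent.T7

/-- the pull-back data of the chain -/
abbrev pi72 : PullData := Fermat.Agent.T8.helper67.auxPull67

/-- **(D) [AUX]**, version 2, unconditional. -/
theorem auxStatement2_72 : AuxStatement2 pi72 :=
  aux2_of_aux Fermat.Agent.T8.helper67.auxStatement67

/-- **The frontier, state 5.** -/
theorem s44_of_frontier5 (B C : WallData)
    (hOcc : Fermat.Agent.T8.helper7.OccStatement)
    (hCQ : Fermat.Agent.T8.helper85.CommonQuadStatement)
    (hS : Fermat.Agent.T8.helper38.SplitWallStatement pi72 B)
    (hNS : Fermat.Agent.T8.helper38.NonSplitWallStatement pi72 B)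
    (hPhi : Fermat.Agent.T8.helper38.PhiWallStatement pi72 B C)
    (hDH : DHeckeStatement2 pi72 C)
    (P : FreyPackage) {N : ℕ} (hcond : P.IsConductorLevel N) (hpN : P.p ∣ N)
    (hirr : GaloisRepIsIrreducible (K := AlgebraicClosure ℚ) ℚ P.freyCurve P.p)
    (hmod : P.ModularRepOfLevel N) :
    ∃ M : ℕ, M ∣ N ∧ ¬ P.p ∣ M ∧ P.ModularRepOfLevel M :=
  s44_of_frontier4 pi72 B C hOcc (Fermat.Agent.T8.helper85.realCheb_of_commonQuad hCQ)
    auxStatement2_72 hS hNS hPhi hDH P hcond hpN hirr hmod

end Fermat.Agent.T8.helper72

end
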