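import Fermat.Agent.T8.helper7_Occ
import Fermat.Agent.T8.helper10_RealCheb

/-!
# T8 [REAL] (helper7, owner): box (A) of the top chain, UNCONDITIONAL

* `realStatement2 : helper72.RealStatement2` (contract (A), version 2, of `helper72_ChainDefs2`);
* `realStatement : helper72.RealStatement` (version 1).

Inputs: `occStatement` ([REAL-OCC], `helper7_Occ`), `helper10.realCheb` ([REAL-CHEB] + [REAL-BLR]),
`realStatement2_of_occ_cheb` ([REAL-ES] + [REAL-ASM], `helper7_RealAsm`).
-/

set_option autoImplicit false

noncomputable section

namespace Fermat.Agent.T8.helper7

/-- **box (A) [REAL]**, contract version 2, unconditional -/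
theorem realStatement2 : Fermat.Agent.T8.helper72.RealStatement2 :=
  realStatement2_of_occ_cheb occStatement Fermat.Agent.T8.helper10.realCheb

/-- **box (A) [REAL]**, contract version 1, unconditional -/
theorem realStatement : Fermat.Agent.T8.helper72.RealStatement :=
  realStatement_of_occ_cheb occStatement Fermat.Agent.T8.helper10.realCheb

end Fermat.Agent.T8.helper7

end
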