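import Fermat.Agent.T8.helper72_Chain2
import Fermat.Agent.T8.helper7_RealFinal
import Fermat.Agent.T8.helper72_AdOldLift
import Fermat.Agent.T8.helper67_Aux
import Fermat.Agent.T8.helper27_G1End
import Fermat.Agent.T8.helper5_SlopeXWall
import Fermat.Agent.T8.helper89_NonSplit
import Fermat.Agent.T8.helper54_PhiFinal
import Fermat.Agent.T8.helper44_DHeckeAsm

/-!
# T8 / S44 (helper72, assembler): the frontier of the chain, state 6

`s44_of_frontier6` : the frozen statement S44 from the TWO open Props of the chain,

* `helper89.ConclFreyStatement`                 : [CONCL] (non-split case of the wall);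
* `helper44.F3ExitStatement helper67.auxPull67` : [F3-EXIT] (exit of [D-HECKE]).

The data of the chain are fixed: pull-back `π = helper67.auxPull67` (`β_4^*`), wall predicates
`B = helper29.wallBN`, `C = helper29.wallCN`.  Closed and plugged in (ONE file per box):

* (A) [REAL]     : `helper7.realStatement2`                    (`helper7_RealFinal`);
* (C) [OLD-LIFT] : `oldLiftStatement2_72`                      (`helper72_AdOldLift`);
* (D) [AUX]      : `helper67.auxStatement67`                   (`helper67_Aux`);
* (G) [G1-END]   : `helper27.g1End72`                          (`helper27_G1End`);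
* (E) [WALL]     : `helper38.wall_of_boxes` with
    - split     : `helper5.splitWall`                          ([SPLIT], [RING-X], [SLOPE]),
    - non-split : `helper89.nonSplitWall_of_conclFrey`         ([W-MULT] discharged; [CONCL] OPEN),
    - [PHI]     : `helper54.phiWall`                           ([PHI-E1], [PHI-E2]);
* (F) [D-HECKE]  : `helper44.dHecke2_of_f3Exit`                ((F4) discharged; [F3-EXIT] OPEN).

The file is independent of `helper72_Chain3.lean` - `helper72_Chain5.lean` (smaller closure).
-/

set_option autoImplicit false
set_option linter.unusedSectionVars false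
set_option linter.style.longLine false
set_option linter.unusedVariables false
set_option linter.style.haveILetI false

noncomputable section

namespace Fermat.Agent.T8.helper72

open ModularCurve WeierstrassCurve WeierstrassCurve.Affine WeierstrassCurve.Affine.Point
open Fermat.Agent.T7

/-- **(E) [WALL]** at `C = wallCN`, from [CONCL]. -/
theorem wall2_of_concl6 (π : PullData) (hConcl : Fermat.Agent.T8.helper89.ConclFreyStatement) :
    WallStatement2 π Fermat.Agent.T8.helper29.wallCN :=
  wall2_of_wall (Fermat.Agent.T8.helper38.wall_of_boxes π Fermat.Agent.T8.helper29.wallBN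
    Fermat.Agent.T8.helper29.wallCN (Fermat.Agent.T8.helper5.splitWall π)
    (Fermat.Agent.T8.helper89.nonSplitWall_of_conclFrey π hConcl)
    (Fermat.Agent.T8.helper54.phiWall π))

/-- **The frontier, state 6**: the frozen statement S44 from [CONCL] and [F3-EXIT]. -/
theorem s44_of_frontier6
    (hConcl : Fermat.Agent.T8.helper89.ConclFreyStatement)
    (hF3 : Fermat.Agent.T8.helper44.F3ExitStatement Fermat.Agent.T8.helper67.auxPull67)
    (P : FreyPackage) {N : ℕ} (hcond : P.IsConductorLevel N) (hpN : P.p ∣ N)
    (hirr : GaloisRepIsIrreducible (K := AlgebraicClosure ℚ) ℚ P.freyCurve P.p)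
    (hmod : P.ModularRepOfLevel N) :
    ∃ M : ℕ, M ∣ N ∧ ¬ P.p ∣ M ∧ P.ModularRepOfLevel M :=
  s44_of_boxes2 Fermat.Agent.T8.helper67.auxPull67 Fermat.Agent.T8.helper29.wallCN
    Fermat.Agent.T8.helper7.realStatement2 oldLiftStatement2_72
    (aux2_of_aux Fermat.Agent.T8.helper67.auxStatement67)
    (wall2_of_concl6 Fermat.Agent.T8.helper67.auxPull67 hConcl)
    (Fermat.Agent.T8.helper44.dHecke2_of_f3Exit Fermat.Agent.T8.helper67.auxPull67 hF3)
    (g1End2_of_g1End Fermat.Agent.T8.helper27.g1End72)
    P hcond hpN hirr hmod

end Fermat.Agent.T8.helper72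

end
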