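import Fermat.Agent.T8.helper72_Chain2
import Fermat.Agent.T8.helper7_RealFinal
import Fermat.Agent.T8.helper72_AdOldLift
import Fermat.Agent.T8.helper67_Aux
import Fermat.Agent.T8.helper27_G1End
import Fermat.Agent.T8.helper5_SlopeXWall
import Fermat.Agent.T8.helper54_PhiFinal
import Fermat.Agent.T8.helper44_DHeckeAsm

/-!
# T8 / S44 (helper72, assembler): the frontier of the chain, state 7 (route-free form)

`s44_of_frontier7` : the frozen statement S44 from the TWO open boxes of the chain, each in its
class-level (route-independent) form, at the fixed data `π = helper67.auxPull67`,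
`B = helper29.wallBN`, `C = helper29.wallCN`:

* `helper38.NonSplitWallStatement helper67.auxPull67 helper29.wallBN` : the NON-SPLIT case of the
  wall ([CONCL] on the cover; the whole context of the wall, newness included, is available in
  `helper38.WallCtx`);
* `helper44.F3ExitStatement helper67.auxPull67` : the exit of [D-HECKE] ([F3-EXIT]).

Closed and plugged in (ONE file per box): (A) `helper7.realStatement2`, (C)
`oldLiftStatement2_72`, (D) `helper67.auxStatement67`, (G) `helper27.g1End72`, (E) split case
`helper5.splitWall`, (E) [PHI] `helper54.phiWall`, (F) `helper44.dHecke2_of_f3Exit`.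

The file is independent of `helper72_Chain3.lean` - `helper72_Chain6.lean`.
-/

set_option autoImplicit false
set_option linter.unusedSectionVars false
set_option linter.style.longLine false
set_option linter.unusedVariables false
set_option linter.style.haveILetI false

noncomputable section

namespace Fermat.Agent.T8.helper72

open ModularCurve WeierstrassCurve WeierstrassCurve.Affine WeierstrassCurve.Affine.Point
open Fermat.Agent.T7

/-- **(E) [WALL]** at `C = wallCN`, from its non-split case. -/
theorem wall2_of_nonSplit7 (π : PullData)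
    (hNS : Fermat.Agent.T8.helper38.NonSplitWallStatement π Fermat.Agent.T8.helper29.wallBN) :
    WallStatement2 π Fermat.Agent.T8.helper29.wallCN :=
  wall2_of_wall (Fermat.Agent.T8.helper38.wall_of_boxes π Fermat.Agent.T8.helper29.wallBN
    Fermat.Agent.T8.helper29.wallCN (Fermat.Agent.T8.helper5.splitWall π) hNS
    (Fermat.Agent.T8.helper54.phiWall π))

/-- **The top chain with every closed box plugged in**: `P.ModularRepOfLevel M'` from the
standing context of the chain and the two open boxes. -/
theorem modularRepOfLevel_of_frontier7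
    (hNS : Fermat.Agent.T8.helper38.NonSplitWallStatement Fermat.Agent.T8.helper67.auxPull67
      Fermat.Agent.T8.helper29.wallBN)
    (hF3 : Fermat.Agent.T8.helper44.F3ExitStatement Fermat.Agent.T8.helper67.auxPull67)
    (P : FreyPackage) (W : WeierstrassCurve ℤ) (M' : ℕ) [NeZero M'] (hc : ChainCtx P M' W) :
    P.ModularRepOfLevel M' :=
  modularRepOfLevel_of_boxes2 Fermat.Agent.T8.helper67.auxPull67 Fermat.Agent.T8.helper29.wallCN
    Fermat.Agent.T8.helper7.realStatement2 oldLiftStatement2_72
    (aux2_of_aux Fermat.Agent.T8.helper67.auxStatement67)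
    (wall2_of_nonSplit7 Fermat.Agent.T8.helper67.auxPull67 hNS)
    (Fermat.Agent.T8.helper44.dHecke2_of_f3Exit Fermat.Agent.T8.helper67.auxPull67 hF3)
    (g1End2_of_g1End Fermat.Agent.T8.helper27.g1End72) P W M' hc

/-- **The frontier, state 7**: the frozen statement S44 from the two open boxes. -/
theorem s44_of_frontier7
    (hNS : Fermat.Agent.T8.helper38.NonSplitWallStatement Fermat.Agent.T8.helper67.auxPull67
      Fermat.Agent.T8.helper29.wallBN)
    (hF3 : Fermat.Agent.T8.helper44.F3ExitStatement Fermat.Agent.T8.helper67.auxPull67)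
    (P : FreyPackage) {N : ℕ} (hcond : P.IsConductorLevel N) (hpN : P.p ∣ N)
    (hirr : GaloisRepIsIrreducible (K := AlgebraicClosure ℚ) ℚ P.freyCurve P.p)
    (hmod : P.ModularRepOfLevel N) :
    ∃ M : ℕ, M ∣ N ∧ ¬ P.p ∣ M ∧ P.ModularRepOfLevel M :=
  s44_of_boxes2 Fermat.Agent.T8.helper67.auxPull67 Fermat.Agent.T8.helper29.wallCN
    Fermat.Agent.T8.helper7.realStatement2 oldLiftStatement2_72
    (aux2_of_aux Fermat.Agent.T8.helper67.auxStatement67)
    (wall2_of_nonSplit7 Fermat.Agent.T8.helper67.auxPull67 hNS)
    (Fermat.Agent.T8.helper44.dHecke2_of_f3Exit Fermat.Agent.T8.helper67.auxPull67 hF3)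
    (g1End2_of_g1End Fermat.Agent.T8.helper27.g1End72)
    P hcond hpN hirr hmod

end Fermat.Agent.T8.helper72

end
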