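import Fermat.Agent.T8.helper72_Chain7
import Fermat.Agent.T8.helper13_ExitFinal
import Fermat.Agent.T8.helper32_CuspAnnChain
import Fermat.Agent.T8.helper48_CuspANorm

/-!
# T8 / S44 (helper72, assembler): the frontier of the chain, state 8 (ONE open box)

Box (F) [D-HECKE] is closed: `f3Exit8 : helper44.F3ExitStatement helper67.auxPull67` from the
leaves `helper48.cuspGap_R1` ([CUSP-GAP], route R1, with [CUSP-A], [CUSP-COUNT], [CUSP-4],
[CUSP-OO]), `helper27.omegaChain` ([OMEGA]), `helper87.heckeChain` ([HECKE]),
`helper78.descentChain` ([DESCENT], with [W-RAM2]), `helper32.cuspAnnChain` ([CUSP-ANN]),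
through the receiver `helper13.f3Exit_of_gapFin`.

`s44_of_frontier8` : the frozen statement S44 from the ONE open box of the chain,

* `helper38.NonSplitWallStatement helper67.auxPull67 helper29.wallBN` : the NON-SPLIT case of the
  wall ([CONCL] / [SLOPE-X'] on the cover).

Everything else is plugged in `helper72_Chain7.lean` (`s44_of_frontier7`).
-/

set_option autoImplicit false
set_option linter.unusedSectionVars false
set_option linter.style.longLine false
set_option linter.unusedVariables false
set_option linter.style.haveILetI false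

noncomputable section

namespace Fermat.Agent.T8.helper72

open ModularCurve WeierstrassCurve WeierstrassCurve.Affine WeierstrassCurve.Affine.Point
open Fermat.Agent.T7

/-- **[F3-EXIT]**, unconditional. -/
theorem f3Exit8 :
    Fermat.Agent.T8.helper44.F3ExitStatement Fermat.Agent.T8.helper67.auxPull67 :=
  Fermat.Agent.T8.helper13.f3Exit_of_gapFin Fermat.Agent.T8.helper67.auxPull67
    (Fermat.Agent.T8.helper13.gapFin_of_class Fermat.Agent.T8.helper67.auxPull67
      Fermat.Agent.T8.helper48.cuspGap_R1)
    Fermat.Agent.T8.helper27.omegaChain Fermat.Agent.T8.helper87.heckeChain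
    Fermat.Agent.T8.helper78.descentChain Fermat.Agent.T8.helper32.cuspAnnChain

/-- **box (F) [D-HECKE]**, unconditional, at `π = helper67.auxPull67`, `C = helper29.wallCN`. -/
theorem dHecke2_8 :
    DHeckeStatement2 Fermat.Agent.T8.helper67.auxPull67 Fermat.Agent.T8.helper29.wallCN :=
  Fermat.Agent.T8.helper44.dHecke2_of_f3Exit Fermat.Agent.T8.helper67.auxPull67 f3Exit8

/-- **The frontier, state 8**: the frozen statement S44 from the non-split case of the wall. -/
theorem s44_of_frontier8
    (hNS : Fermat.Agent.T8.helper38.NonSplitWallStatement Fermat.Agent.T8.helper67.auxPull67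
      Fermat.Agent.T8.helper29.wallBN)
    (P : FreyPackage) {N : ℕ} (hcond : P.IsConductorLevel N) (hpN : P.p ∣ N)
    (hirr : GaloisRepIsIrreducible (K := AlgebraicClosure ℚ) ℚ P.freyCurve P.p)
    (hmod : P.ModularRepOfLevel N) :
    ∃ M : ℕ, M ∣ N ∧ ¬ P.p ∣ M ∧ P.ModularRepOfLevel M :=
  s44_of_frontier7 hNS f3Exit8 P hcond hpN hirr hmod

end Fermat.Agent.T8.helper72

end
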