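import Fermat.Agent.T8.helper72_Chain8
import Fermat.Agent.T8.helper29_KRatFinal

/-!
# T8 / S44 (helper72, assembler): the frontier of the chain, state 9 (ONE open Prop)

`s44_of_frontier9` : the frozen statement S44 from the ONE open Prop of the chain,

* `helper29.CovPtFix` : [SLOPE-X'] = the local rings at the finite points of the NEW covers with
  rational roots (`helper9.CovPt` at every finite place `Q`).

Plugged in here: [K-RAT] (`helper29.kRatAll`) through
`helper29.nonSplitWall_of_covPtFixFinal`.  Everything else is plugged in
`helper72_Chain8.lean` (`s44_of_frontier8`).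
-/

set_option autoImplicit false
set_option linter.unusedSectionVars false
set_option linter.style.longLine false
set_option linter.unusedVariables false
set_option linter.style.haveILetI false

noncomputable section

namespace Fermat.Agent.T8.helper72

open ModularCurve WeierstrassCurve WeierstrassCurve.Affine WeierstrassCurve.Affine.Point
open Fermat.Agent.T7

/-- **The top chain from the cover instance**: `P.ModularRepOfLevel M'` in the standing context
of the chain. -/
theorem modularRepOfLevel_of_frontier9 (h : Fermat.Agent.T8.helper29.CovPtFix)
    (P : FreyPackage) (W : WeierstrassCurve ℤ) (M' : ℕ) [NeZero M'] (hc : ChainCtx P M' W) :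
    P.ModularRepOfLevel M' :=
  modularRepOfLevel_of_frontier7
    (Fermat.Agent.T8.helper29.nonSplitWall_of_covPtFixFinal Fermat.Agent.T8.helper67.auxPull67 h)
    f3Exit8 P W M' hc

/-- **The frontier, state 9**: the frozen statement S44 from the cover instance. -/
theorem s44_of_frontier9 (h : Fermat.Agent.T8.helper29.CovPtFix)
    (P : FreyPackage) {N : ℕ} (hcond : P.IsConductorLevel N) (hpN : P.p ∣ N)
    (hirr : GaloisRepIsIrreducible (K := AlgebraicClosure ℚ) ℚ P.freyCurve P.p)
    (hmod : P.ModularRepOfLevel N) :
    ∃ M : ℕ, M ∣ N ∧ ¬ P.p ∣ M ∧ P.ModularRepOfLevel M :=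
  s44_of_frontier8
    (Fermat.Agent.T8.helper29.nonSplitWall_of_covPtFixFinal Fermat.Agent.T8.helper67.auxPull67 h)
    P hcond hpN hirr hmod

end Fermat.Agent.T8.helper72

end
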