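import Mathlib
import Fermat.Agent.T8.helper74_GapsAnn
import Fermat.Agent.S20

/-!
# T8 [F3-EXIT], annihilator count on coefficient sequences (helper74)

The count of `helper74_GapsAnn` in the vocabulary of `helper47.IsRedCusp` (sequences `ℕ → k`).

* `seqSer R w`              : the Laurent series `∑ w m q^m`;
* `annSeq L A`              : the sequences `w` with `w 0 = 0` and `a₀(h̄ · ∑ w m q^m) = 0` for every
                              reduction `h̄` of an integral function of level `L` regular off
                              infinity;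
* `finrank_annSeq_le_cusp`  : `dim annSeq L A ≤ dim_ℂ S₂(Γ₀(L))`;
* `int_mem_annSeq`          : reduction adapter - an integral sequence which annihilates the
                              integral functions regular off infinity in characteristic `0` lies
                              in `annSeq L A`.
-/

set_option autoImplicit false
set_option synthInstance.maxHeartbeats 400000
set_option linter.unusedSectionVars false

noncomputable section

namespace Fermat.Agent.T8.helper74

open HahnSeries IntermediateField AlgebraicCurve ModularCurve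
open Fermat.Agent.S18.helper19 Fermat.Agent.P2.helper29 Fermat.Agent.P2

section Series

variable {R S : Type*} [CommRing R] [CommRing S]

/-- the Laurent series `∑ w m q^m` of a coefficient sequence -/
def seqSer (R : Type*) [CommRing R] (w : ℕ → R) : LaurentSeries R :=
  HahnSeries.ofPowerSeries ℤ R (PowerSeries.mk w)

theorem seqSer_coeff (w : ℕ → R) (i : ℤ) :
    (seqSer R w).coeff i = if i < 0 then 0 else w i.natAbs := by
  unfold seqSer
  rw [PowerSeries.coeff_coe, PowerSeries.coeff_mk]

theorem seqSer_coeff_nat (w : ℕ → R) (m : ℕ) : (seqSer R w).coeff (m : ℤ) = w m := by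
  rw [seqSer_coeff, if_neg (by omega), Int.natAbs_natCast]

theorem seqSer_coeff_neg (w : ℕ → R) {i : ℤ} (hi : i < 0) : (seqSer R w).coeff i = 0 := by
  rw [seqSer_coeff, if_pos hi]

theorem coeffMap_seqSer (φ : R →+* S) (w : ℕ → R) :
    coeffMap φ (seqSer R w) = seqSer S (fun m => φ (w m)) := by
  ext i
  rw [coeffMap_coeff, seqSer_coeff, seqSer_coeff]
  split_ifs
  · exact map_zero φ
  · rfl

theorem seqSer_injective : Function.Injective (seqSer R) := by
  intro w w' h
  funext m
  have := congrArg (fun x : LaurentSeries R => x.coeff (m : ℤ)) h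
  simpa [seqSer_coeff_nat] using this

/-- `seqSer` as a linear map -/
def seqLin (k : Type*) [Field k] : (ℕ → k) →ₗ[k] LaurentSeries k where
  toFun := seqSer k
  map_add' w w' := by
    ext i
    rw [HahnSeries.coeff_add, seqSer_coeff, seqSer_coeff, seqSer_coeff]
    split_ifs
    · rw [add_zero]
    · rfl
  map_smul' c w := by
    ext i
    rw [RingHom.id_apply, HahnSeries.coeff_smul, seqSer_coeff, seqSer_coeff]
    split_ifs
    · rw [smul_zero]
    · rfl

theorem seqLin_apply {k : Type*} [Field k] (w : ℕ → k) : seqLin k w = seqSer k w := rfl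

end Series

/-- the annihilator of `Rb(L)` on coefficient sequences -/
def annSeq (L : ℕ) (A : ValuationSubring Kb) : Submodule (kA A) (ℕ → kA A) :=
  (annRb L A).comap (seqLin (kA A))

theorem mem_annSeq {L : ℕ} {A : ValuationSubring Kb} {w : ℕ → kA A} :
    w ∈ annSeq L A ↔ w 0 = 0 ∧
      ∀ Y : LaurentSeries A, IsRinf L A Y → (red A Y * seqSer (kA A) w).coeff 0 = 0 := by
  unfold annSeq
  rw [Submodule.mem_comap, mem_annRb, seqLin_apply]
  constructor
  · rintro ⟨h1, h2⟩
    refine ⟨?_, h2⟩
    have := h1 0 le_rfl
    rwa [← Int.natCast_zero, seqSer_coeff_nat] at this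
  · rintro ⟨h1, h2⟩
    refine ⟨fun m hm => ?_, h2⟩
    rcases lt_or_eq_of_le hm with h | h
    · exact seqSer_coeff_neg w h
    · subst h
      rw [← Int.natCast_zero, seqSer_coeff_nat]
      exact h1

section Proof

variable {L : ℕ} [NeZero L] {A : ValuationSubring Kb}

/-- the restriction of `seqLin` to the annihilators -/
def annSeqToRb (L : ℕ) (A : ValuationSubring Kb) : annSeq L A →ₗ[kA A] annRb L A :=
  (seqLin (kA A)).restrict (p := annSeq L A) (q := annRb L A) (fun _ hw => hw)

theorem annSeqToRb_injective : Function.Injective (annSeqToRb L A) := by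
  intro w w' h
  apply Subtype.ext
  apply seqSer_injective
  exact congrArg Subtype.val h

theorem finiteDimensional_annSeq (hP : PrimeToLevel L A) :
    FiniteDimensional (kA A) (annSeq L A) := by
  have := finiteDimensional_annRb (A := A) (L := L) hP
  exact FiniteDimensional.of_injective (annSeqToRb L A) annSeqToRb_injective

/-- `dim annSeq L A ≤ g` for the Riemann genus `g` of `FF L` -/
theorem finrank_annSeq_le (hP : PrimeToLevel L A) (g : ℕ) (hg : HasRiemannGenus Kb (FF L) g) :
    Module.finrank (kA A) (annSeq L A) ≤ g := by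
  have := finiteDimensional_annRb (A := A) (L := L) hP
  exact (LinearMap.finrank_le_finrank_of_injective annSeqToRb_injective).trans
    (finrank_annRb_le hP g hg)

/-- the Riemann genus of `FF L` is the dimension of `S₂(Γ₀(L))` -/
theorem exists_riemannGenus_eq_finrank :
    HasRiemannGenus Kb (FF L)
      (Module.finrank ℂ (CuspForm (CongruenceSubgroup.Gamma0 L) 2)) := by
  obtain ⟨g, hg⟩ := Fermat.Agent.P2.helper74.riemannStatement L
  have h1 := Fermat.Agent.P2.helper77.genusFormulaStatement L g hg
  have h2 := Fermat.Agent.S20.result L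
  have h3 : g = Module.finrank ℂ (CuspForm (CongruenceSubgroup.Gamma0 L) 2) := by
    have : (g : ℚ) = (Module.finrank ℂ (CuspForm (CongruenceSubgroup.Gamma0 L) 2) : ℚ) := by
      rw [h1, h2]
    exact_mod_cast this
  rw [← h3]
  exact hg

/-- **annihilator count**: `dim annSeq L A ≤ dim_ℂ S₂(Γ₀(L))` -/
theorem finrank_annSeq_le_cusp (hP : PrimeToLevel L A) :
    Module.finrank (kA A) (annSeq L A) ≤
      Module.finrank ℂ (CuspForm (CongruenceSubgroup.Gamma0 L) 2) :=
  finrank_annSeq_le hP _ exists_riemannGenus_eq_finrank

omit [NeZero L] in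
/-- **reduction adapter**: an integral sequence which annihilates the integral functions regular
off infinity in characteristic `0` lies in `annSeq L A`. -/
theorem int_mem_annSeq (z : ℕ → ℤ) (hz0 : z 0 = 0)
    (h : ∀ Y : LaurentSeries A, IsRinf L A Y →
      (incl A Y * seqSer Kb (fun m => ((z m : ℤ) : Kb))).coeff 0 = 0) :
    (fun m => ((z m : ℤ) : kA A)) ∈ annSeq L A := by
  rw [mem_annSeq]
  refine ⟨by rw [hz0, Int.cast_zero], fun Y hY => ?_⟩
  have h1 : seqSer Kb (fun m => ((z m : ℤ) : Kb)) =
      incl A (seqSer A (fun m => ((z m : ℤ) : A))) := by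
    rw [coeffMap_seqSer]
    simp only [map_intCast]
  have h2 : seqSer (kA A) (fun m => ((z m : ℤ) : kA A)) =
      red A (seqSer A (fun m => ((z m : ℤ) : A))) := by
    rw [coeffMap_seqSer]
    simp only [map_intCast]
  have h3 := h Y hY
  rw [h1, ← map_mul, coeffMap_coeff] at h3
  have h4 : (Y * seqSer A (fun m => ((z m : ℤ) : A))).coeff 0 = 0 :=
    A.subtype_injective (by rw [h3, map_zero])
  rw [h2, ← map_mul, coeffMap_coeff, h4, map_zero]

end Proof

end Fermat.Agent.T8.helper74

end
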