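import Fermat.Agent.T8.helper77_CuspAnnCore
import Fermat.Agent.T8.helper51_AnnCusp
import Fermat.Agent.S24.helper17_Bridge

/-!
# T8 [F3-EXIT] leaf 3 [CUSP-ANN]: ASSEMBLY (helper77)

`cuspAnnStatement_of_real : CuspAnnRealStatement L → helper51.CuspAnnStatement L`: the
characteristic `0` leaf [CUSP-ANN] in helper51's target shape follows from the analytic core
`cuspAnn_core` and the dictionary side (analytic realisation of the functions regular off
infinity), stated here as `CuspAnnRealStatement L` in the shape announced by helper37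
(`exists_holo_of_inL`).
-/

set_option autoImplicit false

noncomputable section

open UpperHalfPlane ModularForm CongruenceSubgroup Function Filter ModularCurve
open scoped MatrixGroups Manifold Topology

namespace Fermat.Agent.T8.helper77

open Fermat.Agent.S18.helper19 Fermat.Agent.P2.helper29 Fermat.Agent.S24.helper17
open ModularFormClass

/-- **[CUSP-ANN], dictionary side**: every function of level `L` which is regular off infinity
is the `q`-expansion of a holomorphic `Γ₀(L)`-invariant function on `ℍ` which is bounded at the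
cusps different from `∞`. -/
def CuspAnnRealStatement (L : ℕ) : Prop :=
  ∀ (n : ℤ) (h : LaurentSeries Kb), InL (FF L) n h →
    ∃ H : ℍ → ℂ, MDiff H ∧ (∀ γ ∈ Gamma0 L, ∀ τ : ℍ, H (γ • τ) = H τ) ∧
      IsQExp (toC h) H ∧
      ∀ γ : SL(2, ℤ), γ ∉ Gamma0 L → IsBoundedAtImInfty (fun τ : ℍ => H (γ • τ))

theorem slash_zero_eq_comp (H : ℍ → ℂ) (γ : SL(2, ℤ)) :
    H ∣[(0 : ℤ)] γ = fun τ : ℍ => H (γ • τ) := by
  funext τ
  rw [SL_slash_apply]
  simp

/-- the `q`-expansion of a `q`-integral cusp form is the series of its integer coefficients -/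
theorem toC_zSeries_eq {L : ℕ} (f : CuspForm (Gamma0 L) 2) (z : ℕ → ℤ)
    (hz : ∀ m, ((z m : ℤ) : ℂ) = qCoeff ⇑f m) :
    toC (Fermat.Agent.T8.helper51.zSeries Kb z)
      = HahnSeries.ofPowerSeries ℤ ℂ (qExpansion 1 f) := by
  have h1 : toC (Fermat.Agent.T8.helper51.zSeries Kb z)
      = Fermat.Agent.T8.helper51.zSeries ℂ z :=
    Fermat.Agent.T8.helper51.coeffMap_zSeries z _
  rw [h1]
  unfold Fermat.Agent.T8.helper51.zSeries
  congr 1
  ext m
  rw [PowerSeries.coeff_mk, hz m]
  rfl

/-- **[CUSP-ANN]** in helper51's shape, from the dictionary side. -/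
theorem cuspAnnStatement_of_real (L : ℕ) [NeZero L] (hR : CuspAnnRealStatement L) :
    Fermat.Agent.T8.helper51.CuspAnnStatement L := by
  intro f z hz n h hh
  obtain ⟨H, hH, hinv, hexp, hbdd⟩ := hR n h hh
  have key := cuspAnn_core f H (toC h) hH
    (fun γ hγ => by rw [slash_zero_eq_comp]; funext τ; exact hinv γ hγ τ)
    (fun γ hγ => by rw [slash_zero_eq_comp]; exact hbdd γ hγ) hexp
  rw [← toC_zSeries_eq f z hz, ← map_mul, toC_coeff] at key
  exact (map_eq_zero_iff _ (Fermat.Agent.S24.iotaC : Kb →+* ℂ).injective).mp key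

end Fermat.Agent.T8.helper77
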