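import Mathlib
import Fermat.Agent.S20.Defs
import Fermat.Agent.S21.Primitive
import Fermat.Agent.S22.Primitive
import Fermat.Agent.S24.helper17_QExp
import Fermat.Prelude.Thm_CongruenceSubgroup_one_mem_strictPeriods_Gamma0

/-!
# T8 [F3-EXIT] leaf 3 [CUSP-ANN], ANALYTIC CORE (helper77)

`cuspAnn_core`: let `H` be holomorphic on `ℍ`, invariant under `Γ₀(L)`, with `H ∘ γ` bounded at
`i∞` for every `γ ∉ Γ₀(L)` (regular at the cusps different from `∞`), and with `q`-expansion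
`hq` at `∞` (`S24.helper17.IsQExp hq H`, a pole of finite order is allowed).  Then for every
cusp form `g` of weight `2` on `Γ₀(L)` the constant term of `hq * g(q)` vanishes.

Route: the trace `F = ∑_x (H g) ∣[2] x` to level one is holomorphic of weight `2` for
`SL(2,ℤ)`, and `F = H g + r` with `r → 0` at `i∞`.  A primitive `Φ` of `F` on `ℍ`
(`S22.exists_primitive_upper`) satisfies `Φ ∘ γ = Φ + c(γ)` with `c` a homomorphism, so `c`
kills `S` and `S T` (finite order) and hence `T`: `Φ` is `1`-periodic and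
`∫₀¹ F(u + i t) du = 0`.  By Mathlib's `qExpansion_coeff_eq_intervalIntegral` this integral is
the coefficient of `q ^ m` in `q ^ m F`.

No Kähler differentials, no residue theorem, no elliptic points.

* Part A `intervalIntegral_eq_zero_of_levelOne`
* Part B `coeff_eq_zero_of_levelOne`
* Part C `cuspAnn_core`
-/

set_option autoImplicit false

noncomputable section

open UpperHalfPlane ModularForm CongruenceSubgroup Function Filter
open scoped MatrixGroups Manifold Topology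

namespace Fermat.Agent.T8.helper77

local notation "𝕢" => Periodic.qParam

/-! ## Part A: periods of a weight two function of level one -/

/-- a holomorphic function on `ℍ` has a primitive on `ℍ` -/
theorem exists_primitive_upperHalfPlane {F : ℍ → ℂ} (hF : MDiff F) :
    ∃ Φ : ℍ → ℂ, ∀ τ : ℍ, HasDerivAt (Φ ∘ ofComplex) (F τ) ↑τ := by
  have h1 : DifferentiableOn ℂ (F ∘ ofComplex) upperHalfPlaneSet :=
    UpperHalfPlane.mdifferentiable_iff.mp hF
  obtain ⟨G, hG⟩ := Fermat.Agent.S22.exists_primitive_upper h1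
  refine ⟨fun τ => G τ, fun τ => ?_⟩
  have h2 := hG τ τ.im_pos
  simp only [comp_apply, ofComplex_apply] at h2
  refine h2.congr_of_eventuallyEq ?_
  filter_upwards [isOpen_upperHalfPlaneSet.mem_nhds τ.im_pos] with z hz
  simp only [comp_apply]
  rw [ofComplex_apply_of_im_pos hz]

theorem S_pow_four : (ModularGroup.S : SL(2, ℤ)) ^ 4 = 1 := by
  decide

theorem ST_pow_six : ((ModularGroup.S : SL(2, ℤ)) * ModularGroup.T) ^ 6 = 1 := by
  decide

/-- the period of a primitive of a weight two invariant function along `γ` -/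
theorem period_const {F Φ : ℍ → ℂ} (hΦ : ∀ τ : ℍ, HasDerivAt (Φ ∘ ofComplex) (F τ) ↑τ)
    (hinv : ∀ γ : SL(2, ℤ), F ∣[(2 : ℤ)] γ = F) (γ : SL(2, ℤ)) (τ : ℍ) :
    Φ (γ • τ) = Φ τ + (Φ (γ • UpperHalfPlane.I) - Φ UpperHalfPlane.I) := by
  have h1 : ∀ τ : ℍ, HasDerivAt ((fun w : ℍ => Φ (γ • w)) ∘ ofComplex) (F τ) ↑τ := fun τ => by
    have := Fermat.Agent.S21.hasDerivAt_comp_smul hΦ γ τ
    rwa [hinv γ] at this
  obtain ⟨c, hc⟩ := Fermat.Agent.S21.exists_eq_add_const_of_hasDerivAt h1 hΦ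
  have hI : Φ (γ • UpperHalfPlane.I) = Φ UpperHalfPlane.I + c := hc UpperHalfPlane.I
  have hτ : Φ (γ • τ) = Φ τ + c := hc τ
  rw [hτ, hI]
  ring

/-- the periods form a homomorphism, hence vanish on elements of finite order -/
theorem period_eq_zero_of_pow {F Φ : ℍ → ℂ}
    (hΦ : ∀ τ : ℍ, HasDerivAt (Φ ∘ ofComplex) (F τ) ↑τ)
    (hinv : ∀ γ : SL(2, ℤ), F ∣[(2 : ℤ)] γ = F) (γ : SL(2, ℤ)) (n : ℕ) (hn : 0 < n)
    (hγ : γ ^ n = 1) : Φ (γ • UpperHalfPlane.I) - Φ UpperHalfPlane.I = 0 := by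
  set c : ℂ := Φ (γ • UpperHalfPlane.I) - Φ UpperHalfPlane.I with hc
  have key : ∀ k : ℕ, ∀ τ : ℍ, Φ ((γ ^ k) • τ) = Φ τ + k * c := by
    intro k
    induction k with
    | zero => intro τ; simp
    | succ k ih =>
      intro τ
      rw [pow_succ, mul_smul, ih, period_const hΦ hinv γ τ]
      push_cast
      ring
  have h := key n UpperHalfPlane.I
  rw [hγ, one_smul] at h
  have hn0 : (n : ℂ) ≠ 0 := by exact_mod_cast hn.ne'
  have : (n : ℂ) * c = 0 := by linear_combination -h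
  exact (mul_eq_zero.mp this).resolve_left hn0

/-- a primitive of a weight two function of level one is `1`-periodic -/
theorem primitive_T_smul {F Φ : ℍ → ℂ} (hΦ : ∀ τ : ℍ, HasDerivAt (Φ ∘ ofComplex) (F τ) ↑τ)
    (hinv : ∀ γ : SL(2, ℤ), F ∣[(2 : ℤ)] γ = F) (τ : ℍ) :
    Φ ((ModularGroup.T : SL(2, ℤ)) • τ) = Φ τ := by
  have hS := period_eq_zero_of_pow hΦ hinv ModularGroup.S 4 (by norm_num) S_pow_four
  have hST := period_eq_zero_of_pow hΦ hinv (ModularGroup.S * ModularGroup.T) 6 (by norm_num)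
    ST_pow_six
  have h1 := period_const hΦ hinv (ModularGroup.S * ModularGroup.T) τ
  rw [hST, add_zero, mul_smul] at h1
  have h2 := period_const hΦ hinv ModularGroup.S ((ModularGroup.T : SL(2, ℤ)) • τ)
  rw [hS, add_zero] at h2
  rw [← h2, h1]

/-- **Part A.** The integral of a holomorphic weight two function of level one over a
horizontal segment of length one vanishes. -/
theorem intervalIntegral_eq_zero_of_levelOne {F : ℍ → ℂ} (hF : MDiff F)
    (hinv : ∀ γ : SL(2, ℤ), F ∣[(2 : ℤ)] γ = F) {t : ℝ} (ht : 0 < t) :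
    ∫ u in (0 : ℝ)..1, F ⟨u + t * Complex.I, by simpa using ht⟩ = 0 := by
  obtain ⟨Φ, hΦ⟩ := exists_primitive_upperHalfPlane hF
  have him : ∀ u : ℝ, 0 < ((u : ℂ) + t * Complex.I).im := fun u => by simpa using ht
  have hderiv : ∀ u ∈ Set.uIcc (0 : ℝ) 1,
      HasDerivAt (fun x : ℝ => (Φ ∘ ofComplex) ((x : ℂ) + t * Complex.I))
        (F ⟨u + t * Complex.I, him u⟩) u := by
    intro u _
    have h1 := hΦ ⟨u + t * Complex.I, him u⟩
    have h2 : HasDerivAt (fun z : ℂ => (Φ ∘ ofComplex) (z + t * Complex.I))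
        (F ⟨u + t * Complex.I, him u⟩) (u : ℂ) := by
      have := HasDerivAt.comp_add_const (u : ℂ) (t * Complex.I) h1
      exact this
    exact h2.comp_ofReal
  have hcont : Continuous fun u : ℝ => F ⟨u + t * Complex.I, him u⟩ := by
    have h1 : DifferentiableOn ℂ (F ∘ ofComplex) upperHalfPlaneSet :=
      UpperHalfPlane.mdifferentiable_iff.mp hF
    have h2 : Continuous fun u : ℝ => (F ∘ ofComplex) ((u : ℂ) + t * Complex.I) :=
      h1.continuousOn.comp_continuous (by fun_prop) (fun u => him u)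
    refine h2.congr fun u => ?_
    simp only [comp_apply]
    rw [ofComplex_apply_of_im_pos (him u)]
  have hint := intervalIntegral.integral_eq_sub_of_hasDerivAt hderiv
    (hcont.intervalIntegrable 0 1)
  rw [hint]
  simp only [comp_apply]
  rw [ofComplex_apply_of_im_pos (him 1), ofComplex_apply_of_im_pos (him 0)]
  have hT := primitive_T_smul hΦ hinv ⟨(0 : ℝ) + t * Complex.I, him 0⟩
  have e : (ModularGroup.T : SL(2, ℤ)) • (⟨(0 : ℝ) + t * Complex.I, him 0⟩ : ℍ)
      = ⟨(1 : ℝ) + t * Complex.I, him 1⟩ := by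
    rw [UpperHalfPlane.modular_T_smul]
    ext
    simp [UpperHalfPlane.coe_vadd]
  rw [e] at hT
  rw [hT, sub_self]

/-! ## Part B: the `q`-expansion of a weakly holomorphic weight two function of level one -/

open Fermat.Agent.S24.helper17 in
/-- **Part B.** If `F` is holomorphic of weight two for `SL(2,ℤ)` and `q ^ m * F` is bounded at
`i∞`, the coefficient of `q ^ m` in `q ^ m * F` (the constant term of `F`) vanishes. -/
theorem coeff_eq_zero_of_levelOne {F : ℍ → ℂ} (hF : MDiff F)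
    (hinv : ∀ γ : SL(2, ℤ), F ∣[(2 : ℤ)] γ = F) (m : ℕ)
    (hn : IsNice (fun τ : ℍ => 𝕢 1 τ ^ m * F τ)) :
    (qExpansion 1 (fun τ : ℍ => 𝕢 1 τ ^ m * F τ)).coeff m = 0 := by
  rw [qExpansion_coeff_eq_intervalIntegral one_pos hn.periodic hn.mdiff hn.bdd m one_pos]
  have h0 := intervalIntegral_eq_zero_of_levelOne hF hinv (t := 1) one_pos
  refine mul_eq_zero_of_right _ ?_
  rw [← h0]
  refine intervalIntegral.integral_congr fun u _ => ?_
  have him : 0 < ((u : ℂ) + (1 : ℝ) * Complex.I).im := by simp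
  have hq : 𝕢 1 ((u : ℂ) + (1 : ℝ) * Complex.I) ≠ 0 := Complex.exp_ne_zero _
  show 1 / 𝕢 1 ((u : ℂ) + (1 : ℝ) * Complex.I) ^ m *
      (𝕢 1 ((u : ℂ) + (1 : ℝ) * Complex.I) ^ m * F ⟨(u : ℂ) + (1 : ℝ) * Complex.I, him⟩)
    = F ⟨(u : ℂ) + (1 : ℝ) * Complex.I, him⟩
  field_simp

/-! ## Part C: the trace to level one -/

section trace

open Fermat.Agent.S20 Fermat.Agent.S24.helper17

/-- slashing with `T` is translation by `1` -/
theorem slash_T_apply77 (g : ℍ → ℂ) (k : ℤ) (τ : ℍ) :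
    (g ∣[k] (ModularGroup.T : SL(2, ℤ))) τ = g ((1 : ℝ) +ᵥ τ) := by
  have h : (g ∣[k] ((ModularGroup.T : SL(2, ℤ)) ^ (1 : ℤ))) τ = g (((1 : ℤ) : ℝ) +ᵥ τ) := by
    rw [SL_slash_apply, modular_T_zpow_smul, ModularGroup.denom_apply, ModularGroup.coe_T_zpow]
    simp
  simpa using h

/-- a function on `ℍ` invariant under `τ ↦ 1 + τ` gives a `1`-periodic function on `ℂ` -/
theorem periodic_of_vadd_one {g : ℍ → ℂ} (hg : ∀ τ : ℍ, g ((1 : ℝ) +ᵥ τ) = g τ) :
    Function.Periodic (g ∘ ofComplex) 1 := by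
  intro w
  by_cases hw : 0 < Complex.im w
  · have hw' : 0 < Complex.im (w + 1) := by simp [hw]
    simp only [Function.comp_apply, ofComplex_apply_of_im_pos hw', ofComplex_apply_of_im_pos hw]
    rw [← hg ⟨w, hw⟩]
    congr 1
    ext
    simp [add_comm]
  · have hw0 : Complex.im w ≤ 0 := not_lt.mp hw
    have hw' : Complex.im (w + 1) ≤ 0 := by simpa using hw0
    simp [ofComplex_apply_of_im_nonpos hw', ofComplex_apply_of_im_nonpos hw0]

theorem T_mem_Gamma0 (L : ℕ) : (ModularGroup.T : SL(2, ℤ)) ∈ Gamma0 L := by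
  rw [Gamma0_mem]
  simp [ModularGroup.T]

/-- bounded times zero at `i∞` is zero at `i∞` -/
theorem isZeroAtImInfty_bdd_mul {a b : ℍ → ℂ} (ha : IsBoundedAtImInfty a)
    (hb : IsZeroAtImInfty b) : IsZeroAtImInfty (a * b) := by
  have h1 : a =O[atImInfty] (fun _ => (1 : ℝ)) := ha
  have h2 : b =o[atImInfty] (fun _ => (1 : ℝ)) := (Asymptotics.isLittleO_one_iff ℝ).mpr hb
  have h3 := h1.mul_isLittleO h2
  simp only [mul_one] at h3
  exact (Asymptotics.isLittleO_one_iff ℝ).mp h3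

variable {L : ℕ} [NeZero L]

/-- **[CUSP-ANN], analytic core.**  Let `H` be holomorphic on `ℍ`, invariant under `Γ₀(L)`,
bounded at every cusp different from `∞` (`H ∘ γ` is bounded at `i∞` for `γ ∉ Γ₀(L)`), with
`q`-expansion `hq` at `∞` (a pole of finite order is allowed).  Then for every cusp form `g` of
weight `2` on `Γ₀(L)` the constant term of `hq * g(q)` vanishes. -/
theorem cuspAnn_core (g : CuspForm (Gamma0 L) 2) (H : ℍ → ℂ) (hq : LaurentSeries ℂ)
    (hH : MDiff H) (hinv : ∀ γ ∈ Gamma0 L, H ∣[(0 : ℤ)] γ = H)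
    (hbdd : ∀ γ : SL(2, ℤ), γ ∉ Gamma0 L → IsBoundedAtImInfty (H ∣[(0 : ℤ)] γ))
    (hexp : IsQExp hq H) :
    (hq * HahnSeries.ofPowerSeries ℤ ℂ (qExpansion 1 g)).coeff 0 = 0 := by
  classical
  have hg : IsCF L 2 ⇑g := isCF_coe g
  have hmulslash : ∀ γ : SL(2, ℤ),
      (H * ⇑g) ∣[(2 : ℤ)] γ = (H ∣[(0 : ℤ)] γ) * (⇑g ∣[(2 : ℤ)] γ) := by
    intro γ
    have := mul_slash_SL2 0 2 γ H ⇑g
    rwa [zero_add] at this
  set f : ℍ → ℂ := H * ⇑g with hf
  have hfslash : ∀ γ ∈ Gamma0 L, f ∣[(2 : ℤ)] γ = f := by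
    intro γ hγ
    rw [hf, hmulslash γ, hinv γ hγ, hg.slash γ hγ]
  have hfhol : MDiff f := hH.mul hg.holo
  -- the trace
  set F : ℍ → ℂ := ∑ x : X0 L, cj L 2 f x with hFdef
  have hFinv : ∀ γ : SL(2, ℤ), F ∣[(2 : ℤ)] γ = F := by
    intro γ
    rw [hFdef, SlashAction.sum_slash]
    simp only [cj_slash hfslash]
    exact Equiv.sum_comp (MulAction.toPerm (γ⁻¹ : SL(2, ℤ))) (fun x : X0 L => cj L 2 f x)
  have hcjhol : ∀ x : X0 L, MDiff (cj L 2 f x) := fun x => by
    unfold cj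
    rw [SL_slash]
    exact hfhol.slash 2 _
  have hFhol : MDiff F := MDifferentiable.sum (fun x _ => hcjhol x)
  -- the identity coset
  set x0 : X0 L := QuotientGroup.mk 1 with hx0def
  have hx0 : cj L 2 f x0 = f := by
    rw [hx0def, cj_mk hfslash, inv_one, SlashAction.slash_one]
  set r : ℍ → ℂ := ∑ x ∈ Finset.univ.erase x0, cj L 2 f x with hrdef
  have hFr : F = f + r := by
    have h := (Finset.add_sum_erase Finset.univ (fun x => cj L 2 f x) (Finset.mem_univ x0)).symm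
    rw [hx0] at h
    exact h
  -- `r` vanishes at infinity
  have hterm : ∀ x ∈ Finset.univ.erase x0, IsZeroAtImInfty (cj L 2 f x) := by
    intro x hx
    have hxne : x ≠ x0 := (Finset.mem_erase.mp hx).1
    have hnot : (Quotient.out x : SL(2, ℤ))⁻¹ ∉ Gamma0 L := by
      intro hmem
      apply hxne
      have h1 : (Quotient.out x : SL(2, ℤ)) ∈ Gamma0 L := by simpa using inv_mem hmem
      rw [← QuotientGroup.out_eq' x, hx0def]
      exact QuotientGroup.eq.mpr (by simpa using hmem)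
    have e : cj L 2 f x = (H ∣[(0 : ℤ)] (Quotient.out x)⁻¹) *
        (⇑g ∣[(2 : ℤ)] (Quotient.out x)⁻¹) := by
      unfold cj
      exact hmulslash _
    rw [e]
    exact isZeroAtImInfty_bdd_mul (hbdd _ hnot) (hg.zero _)
  have hrzero : IsZeroAtImInfty r := by
    have h1 : Tendsto (fun τ : ℍ => ∑ x ∈ Finset.univ.erase x0, cj L 2 f x τ) atImInfty
        (𝓝 (∑ _x ∈ Finset.univ.erase x0, (0 : ℂ))) :=
      tendsto_finsetSum _ fun x hx => hterm x hx
    rw [Finset.sum_const_zero] at h1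
    have e : r = fun τ : ℍ => ∑ x ∈ Finset.univ.erase x0, cj L 2 f x τ := by
      funext τ
      rw [hrdef, Finset.sum_apply]
    rw [e]
    exact h1
  have hrhol : MDiff r := MDifferentiable.sum (fun x _ => hcjhol x)
  -- periodicity
  have hFper : ∀ τ : ℍ, F ((1 : ℝ) +ᵥ τ) = F τ := fun τ => by
    rw [← slash_T_apply77 F 2 τ, hFinv]
  have hfper : ∀ τ : ℍ, f ((1 : ℝ) +ᵥ τ) = f τ := fun τ => by
    rw [← slash_T_apply77 f 2 τ, hfslash _ (T_mem_Gamma0 L)]
  have hrper : ∀ τ : ℍ, r ((1 : ℝ) +ᵥ τ) = r τ := fun τ => by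
    have e : r = F - f := by rw [hFr]; simp
    rw [e]
    simp only [Pi.sub_apply]
    rw [hFper, hfper]
  -- nice functions
  obtain ⟨M₀, hM⟩ := hexp.eventually
  obtain ⟨hnH, heH⟩ := hM M₀ le_rfl
  have hng : IsNice ⇑g :=
    { periodic := by
        simpa using SlashInvariantFormClass.periodic_comp_ofComplex g
          (CongruenceSubgroup.one_mem_strictPeriods_Gamma0 L)
      mdiff := ModularFormClass.holo g
      bdd := ModularFormClass.bdd_at_infty g }
  have hnr : IsNice r :=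
    { periodic := periodic_of_vadd_one hrper
      mdiff := hrhol
      bdd := hrzero.isBoundedAtImInfty }
  have hnq := isNice_qParam_pow M₀
  have e1 : (fun τ : ℍ => 𝕢 1 τ ^ M₀ * F τ)
      = (fun τ : ℍ => 𝕢 1 τ ^ M₀ * H τ) * ⇑g + (fun τ : ℍ => 𝕢 1 τ ^ M₀) * r := by
    funext τ
    simp only [hFr, hf, Pi.add_apply, Pi.mul_apply]
    ring
  have hnF : IsNice (fun τ : ℍ => 𝕢 1 τ ^ M₀ * F τ) := by
    rw [e1]
    exact (hnH.mul hng).add (hnq.mul hnr)
  have hB := coeff_eq_zero_of_levelOne hFhol hFinv M₀ hnF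
  rw [e1, (hnH.mul hng).qExpansion_add (hnq.mul hnr), hnH.qExpansion_mul hng,
    hnq.qExpansion_mul hnr, qExpansion_qParam_pow, map_add] at hB
  have hr0 : (qExpansion 1 r).coeff 0 = 0 := by
    rw [qExpansion_coeff_zero one_pos hnr.analyticAt hnr.periodic]
    exact hrzero.valueAtInfty_eq_zero
  have hB2 : (PowerSeries.X ^ M₀ * qExpansion 1 r).coeff M₀ = 0 := by
    have := PowerSeries.coeff_X_pow_mul (qExpansion 1 r) M₀ 0
    rw [zero_add] at this
    rw [this, hr0]
  rw [hB2, add_zero] at hB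
  -- back to Laurent series
  have h1 : HahnSeries.single (M₀ : ℤ) (1 : ℂ) *
      (hq * HahnSeries.ofPowerSeries ℤ ℂ (qExpansion 1 g))
      = HahnSeries.ofPowerSeries ℤ ℂ
          (qExpansion 1 (fun τ : ℍ => 𝕢 1 τ ^ M₀ * H τ) * qExpansion 1 g) := by
    rw [map_mul, heH, mul_assoc]
  have h2 := HahnSeries.coeff_single_mul_add (r := (1 : ℂ))
    (x := hq * HahnSeries.ofPowerSeries ℤ ℂ (qExpansion 1 g)) (a := (0 : ℤ)) (b := (M₀ : ℤ))
  rw [one_mul, zero_add, h1, HahnSeries.ofPowerSeries_apply_coeff] at h2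
  rw [← h2]
  exact hB

end trace

end Fermat.Agent.T8.helper77
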