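import Mathlib
import Fermat.Agent.T8.helper23_CovPtWire2
import Fermat.Agent.T8.helper16_CovSheet1
import Fermat.Agent.T8.helper4_YCaseInst
import Fermat.Agent.T8.helper22_OrdNu
import Fermat.Agent.T8.helper6_SheetsLocal
import Fermat.Agent.T8.helper6_QuotYInst
import Fermat.Agent.T8.helper65_NormIdx
import Fermat.Agent.T8.helper65_CovOrd
import Fermat.Agent.T8.helper29_CovPtOrd
import Fermat.Agent.T8.helper97_SheetsRingX

/-!
# T8 = row 38 via S44, [SLOPE-X'] cover instance: the final assembly (helper78, spare twin)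

* `exists_covPtHom_abs` : the point contract `helper9.CovPtHom` at a finite point `Q`, for an
  ABSTRACT monogenic ring `S = R_Q[t]` embedded in the cover with `t ↦ tGen D ζ`;
* `exists_covPtHom_cov` : the same with `S = Algebra.adjoin R_Q {tGen D ζ}`;
* `covPtStatement_cov`  : `helper9.CovPtStatement D hKum ζ _ ν`;
* `covPtFix78`          : `helper29.CovPtFix`.
-/

set_option autoImplicit false
set_option synthInstance.maxHeartbeats 400000
set_option maxHeartbeats 1000000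
set_option linter.unusedSectionVars false
set_option linter.unusedVariables false
set_option linter.style.longLine false
set_option linter.style.haveILetI false

noncomputable section

namespace Fermat.Agent.T8.helper78

open HahnSeries IntermediateField AlgebraicCurve ModularCurve Polynomial IsLocalRing
open Fermat.Agent.S18.helper19 Fermat.Agent.P2.helper29 Fermat.Agent.P2.helper93
open Fermat.Agent.T2.helper36
open Fermat.Agent.P2.helper66 (iota)
open Fermat.Agent.T3.helper36 (RhoQ GaussIs)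
open Fermat.Agent.T3.helper16 (IsUnit0)
open Fermat.Agent.T3.helper98 (IsRegJ)
open Fermat.Agent.T8.helper16 (ordAt IsFinitePt locX redL ringX locXIncl ringX_le_locX)
open Fermat.Agent.T8.helper54 (IsRed1)
open Fermat.Agent.T8.helper88 (CovData Cov)
open Fermat.Agent.T8.helper86 (IsKummerRoot)
open Fermat.Agent.T8.helper65 (muFix IA cwAct)
open Fermat.Agent.T8.helper97 (tGen SheetsPoly phiX)
open Fermat.Agent.T8.helper33 (IsMonogenic ptIdeal)
open Fermat.Agent.T8.helper9 (Sheet1 CovPtHom covPtHom_loc)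
open Fermat.Agent.T8.helper23 (covSet)
open Fermat.Agent.T8.helper48 (xxLoc yyLoc)

section Abs

variable {N p : ℕ} [NeZero N] [NeZero p] {hp : p.Prime} {hpN : ¬ p ∣ N}
  {A : ValuationSubring Kb} {b0 : FF (N * p)} {B : PowerSeries ℤ} {ε : ℤ}
  (D : CovData (N * p) (atkinLehner N p hp hpN) A p)
  [((muFix p ⊓ IA A).subgroupOf (IA A)).FiniteIndex]
  (hKum : IsKummerRoot p D.K D.Z) (ζ : Kb) (hζ : IsPrimitiveRoot ζ p)
  {Q : Place (kA A) (FFb A N)}
  {S : Type} [CommRing S] [IsDomain S] [Algebra (locX A hp hpN Q) S]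

/-- **the point contract at a finite point**, abstract monogenic ring -/
theorem exists_covPtHom_abs (hb : IsUnit0 hp hpN b0 B ε) (hA : A.LiesOverPrime p)
    (hN : 4 ∣ N ∨ 9 ∣ N) (hp3 : 3 ≤ p)
    (hnew : Fermat.Agent.T7.helper27.IsNewN N p D.K)
    (hfix1 : ∀ σ ∈ muFix p ⊓ IA A, cwAct σ (incl A D.Z₁) = incl A D.Z₁)
    (hfix2 : ∀ σ ∈ muFix p ⊓ IA A, cwAct σ (incl A D.Z₂) = incl A D.Z₂)
    (hr1 : red A D.Z₁ = 1) (hr2 : red A D.Z₂ = 1)
    (hQ : IsFinitePt Q)
    (jS : S →+* Cov (N * p) D.Z) (hjS : Function.Injective jS)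
    (hjR : ∀ r : locX A hp hpN Q, jS (algebraMap (locX A hp hpN Q) S r) =
      algebraMap (FF (N * p)) (Cov (N * p) D.Z) (r : FF (N * p)))
    (t : S) (hjt : jS t = tGen D ζ)
    {f : Polynomial (ringX A hp hpN)} {c₁ c₂ : LaurentSeries (kA A)}
    (hf : SheetsPoly D hKum ζ hζ f c₁ c₂)
    (hm : IsMonogenic t (f.map (locXIncl Q))) :
    ∃ (i j : ℕ) (T₀ : Type) (_ : CommRing T₀) (_ : IsDomain T₀)
      (ι : T₀ →+* Cov (N * p) D.Z) (xx y : T₀) (yR : locX A hp hpN Q),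
      (yR : FF (N * p)) = b0 ∧
      CovPtHom (covSet D) (Fermat.Agent.T8.helper29.sh1 D hKum ζ hζ.pow_eq_one i)
        (Fermat.Agent.T8.helper29.sh2 D hKum ζ hζ.pow_eq_one j) ι xx y (FFb A N).toSubfield
        (ordAt Q) (redL hA Q hQ yR) p := by
  haveI : IsLocalRing (locX A hp hpN Q) := Fermat.Agent.T8.helper16.isLocalRing_locX hA Q hQ
  haveI : IsNoetherianRing (locX A hp hpN Q) :=
    Fermat.Agent.T8.helper16.isNoetherianRing_locX hA Q hQ
  obtain ⟨a, H, ha, ha'⟩ := Fermat.Agent.T8.helper16.sheet1_cov D hKum ζ hζ hb hA hN hp3 hnew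
    hfix1 hfix2 hr1 hr2 Q hQ jS hjR t hjt hf (xxLoc hb hA Q) rfl
  haveI hP : (ptIdeal t a).IsPrime := (hm.ptIdeal_isMaximal a ha).isPrime
  have hunit : ∀ y : (ptIdeal t a).primeCompl, IsUnit (jS y) := fun y =>
    IsUnit.mk0 _ (fun h0 => y.2 (by
      have e : (y : S) = 0 := hjS (h0.trans (map_zero jS).symm)
      rw [e]
      exact zero_mem _))
  have hι : ∀ s : S, (IsLocalization.lift (S := Localization.AtPrime (ptIdeal t a)) hunit)
      (algebraMap S (Localization.AtPrime (ptIdeal t a)) s) = jS s :=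
    fun s => IsLocalization.lift_eq hunit s
  obtain ⟨hdom, hpid⟩ := Fermat.Agent.T8.helper6.quotXX_locX (hq := hp) (hqN := hpN) hb hA hN hQ
  haveI := hdom
  haveI := hpid
  have hxxm : xxLoc hb hA Q ∈ maximalIdeal (locX A hp hpN Q) :=
    Fermat.Agent.T8.helper6.xxLoc_mem_maximalIdeal hb hA hQ
  have hdeg : (f.map (locXIncl Q)).natDegree = p := by
    rw [hf.monic.natDegree_map]
    exact hf.natDegree
  obtain ⟨j, hj, hy⟩ := Fermat.Agent.T8.helper4.yCase_locX D hKum ζ hζ.pow_eq_one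
    (Localization.AtPrime (ptIdeal t a)) hb hA hN hQ hζ hp3 hfix1 hfix2 hr1 hr2 jS hjR hjt hm hdeg
    ha ha' (IsLocalization.lift (S := Localization.AtPrime (ptIdeal t a)) hunit) hι
    (yyLoc hb hA Q) rfl
  have key := Fermat.Agent.T8.helper23.covPtHom_locX D (Localization.AtPrime (ptIdeal t a))
    (Fb := (FFb A N).toSubfield) (ordS := ordAt Q) (ρR := redL hA Q hQ)
    hb hA hKum ζ hζ hp3 hfix1 hfix2 hr1 hr2
    (xxR := xxLoc hb hA Q) (yR := yyLoc hb hA Q) rfl rfl hm ha ha' hxxm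
    (Fermat.Agent.T8.helper29.sh2 D hKum ζ hζ.pow_eq_one j) hjS hjR hjt
    (IsLocalization.lift (S := Localization.AtPrime (ptIdeal t a)) hunit) hι H
    (Fermat.Agent.T8.helper65.covOrd_mul Q) (Fermat.Agent.T8.helper65.covOrd_const_mul Q)
    (Fermat.Agent.T8.helper65.redL_yy_ne_zero hb hA Q hQ (yyLoc hb hA Q) rfl) hy
  exact ⟨0, j, Localization.AtPrime (ptIdeal t a), inferInstance,
    IsMonogenic.isDomain_loc (t := t) (a := a) (Localization.AtPrime (ptIdeal t a)),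
    _, _, _, yyLoc hb hA Q, rfl, key⟩

end Abs

section Cov

variable {N p : ℕ} [NeZero N] [NeZero p] {hp : p.Prime} {hpN : ¬ p ∣ N}
  {A : ValuationSubring Kb} {b0 : FF (N * p)} {B : PowerSeries ℤ} {ε : ℤ}
  (D : CovData (N * p) (atkinLehner N p hp hpN) A p)
  [((muFix p ⊓ IA A).subgroupOf (IA A)).FiniteIndex]
  (hKum : IsKummerRoot p D.K D.Z) (ζ : Kb) (hζ : IsPrimitiveRoot ζ p)
  {Q : Place (kA A) (FFb A N)}

/-- the monogenic ring `R_Q[t] ⊆ Cov`, `t = tGen D ζ` -/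
theorem isMonogenic_tGen (hA : A.LiesOverPrime p) (hp3 : 3 ≤ p)
    (hfix1 : ∀ σ ∈ muFix p ⊓ IA A, cwAct σ (incl A D.Z₁) = incl A D.Z₁)
    (hfix2 : ∀ σ ∈ muFix p ⊓ IA A, cwAct σ (incl A D.Z₂) = incl A D.Z₂)
    (hr1 : red A D.Z₁ = 1) (hr2 : red A D.Z₂ = 1)
    {f : Polynomial (ringX A hp hpN)} {c₁ c₂ : LaurentSeries (kA A)}
    (hf : SheetsPoly D hKum ζ hζ f c₁ c₂) :
    IsMonogenic
      (⟨tGen D ζ, Algebra.self_mem_adjoin_singleton (locX A hp hpN Q) (tGen D ζ)⟩ :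
        Algebra.adjoin (locX A hp hpN Q) {tGen D ζ}) (f.map (locXIncl Q)) := by
  refine Fermat.Agent.T8.helper6.isMonogenic_of_base_finrank (K := FF (N * p)) (locXIncl Q)
    Subtype.val_injective (tGen D ζ) f hf.monic ?_ ?_
  · rw [Fermat.Agent.T8.helper6.aeval_map_eq_eval₂]
    exact hf.eval_tGen
  · rw [Fermat.Agent.T8.helper23.adjoin_tGen D hKum ζ hζ hp3 hA hfix1 hfix2 hr1 hr2,
      IntermediateField.finrank_top', hf.natDegree]
    exact (hKum.finrank_eq).ge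

/-- **the point contract at a finite point of the cover** -/
theorem exists_covPtHom_cov (hb : IsUnit0 hp hpN b0 B ε) (hA : A.LiesOverPrime p)
    (hN : 4 ∣ N ∨ 9 ∣ N) (hp3 : 3 ≤ p)
    (hnew : Fermat.Agent.T7.helper27.IsNewN N p D.K)
    (hfix1 : ∀ σ ∈ muFix p ⊓ IA A, cwAct σ (incl A D.Z₁) = incl A D.Z₁)
    (hfix2 : ∀ σ ∈ muFix p ⊓ IA A, cwAct σ (incl A D.Z₂) = incl A D.Z₂)
    (hr1 : red A D.Z₁ = 1) (hr2 : red A D.Z₂ = 1)
    (hQ : IsFinitePt Q)
    {f : Polynomial (ringX A hp hpN)} {c₁ c₂ : LaurentSeries (kA A)}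
    (hf : SheetsPoly D hKum ζ hζ f c₁ c₂) :
    ∃ (i j : ℕ) (T₀ : Type) (_ : CommRing T₀) (_ : IsDomain T₀)
      (ι : T₀ →+* Cov (N * p) D.Z) (xx y : T₀) (yR : locX A hp hpN Q),
      (yR : FF (N * p)) = b0 ∧
      CovPtHom (covSet D) (Fermat.Agent.T8.helper29.sh1 D hKum ζ hζ.pow_eq_one i)
        (Fermat.Agent.T8.helper29.sh2 D hKum ζ hζ.pow_eq_one j) ι xx y (FFb A N).toSubfield
        (ordAt Q) (redL hA Q hQ yR) p :=
  exists_covPtHom_abs D hKum ζ hζ (S := Algebra.adjoin (locX A hp hpN Q) {tGen D ζ})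
    hb hA hN hp3 hnew hfix1 hfix2 hr1 hr2 hQ
    (Algebra.adjoin (locX A hp hpN Q) {tGen D ζ}).val.toRingHom Subtype.val_injective
    (fun _ => rfl)
    ⟨tGen D ζ, Algebra.self_mem_adjoin_singleton (locX A hp hpN Q) (tGen D ζ)⟩ rfl hf
    (isMonogenic_tGen D hKum ζ hζ hA hp3 hfix1 hfix2 hr1 hr2 hf)

/-- **`helper9.CovPtStatement` at a cover datum with new Kummer function and rational roots** -/
theorem covPtStatement_cov (hb : IsUnit0 hp hpN b0 B ε) (hA : A.LiesOverPrime p)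
    (hN : 4 ∣ N ∨ 9 ∣ N) (hp3 : 3 ≤ p)
    {ν : FFb A N} (hν : IsRed1 A N p b0 ν)
    (hK : IsRegJ (N * p) D.K)
    (hnew : Fermat.Agent.T7.helper27.IsNewN N p D.K)
    (hfix1 : ∀ σ ∈ muFix p ⊓ IA A, cwAct σ (incl A D.Z₁) = incl A D.Z₁)
    (hfix2 : ∀ σ ∈ muFix p ⊓ IA A, cwAct σ (incl A D.Z₂) = incl A D.Z₂)
    (hr1 : red A D.Z₁ = 1) (hr2 : red A D.Z₂ = 1) :
    Fermat.Agent.T8.helper9.CovPtStatement D hKum ζ hζ.pow_eq_one ν := by
  obtain ⟨f, c₁, c₂, hf⟩ := Fermat.Agent.T8.helper97.exists_sheets_poly D hKum ζ hζ hp3 hA hK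
    hfix1 hfix2 hr1 hr2
  exact Fermat.Agent.T8.helper22.covPtStatement_of_hom hA hb hν D hKum ζ hζ.pow_eq_one hnew hr1
    (fun Q hQ => exists_covPtHom_cov D hKum ζ hζ hb hA hN hp3 hnew hfix1 hfix2 hr1 hr2 hQ hf)

end Cov

section Final

/-- **the frontier Prop of S44**: the point contract at the covers of the new strongly split
Kummer functions with rational roots, at the bad pairs of the Frey packages. -/
theorem covPtFix78 : Fermat.Agent.T8.helper29.CovPtFix := by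
  intro P M' _ hpN A hA hdvd hirr b0 B ε hb ν hν D hKum ζ hζp hζ hK hnew hr1 hr2 hf1 hf2
  haveI : NeZero P.p := ⟨P.pp.ne_zero⟩
  haveI : Fact P.p.Prime := ⟨P.pp⟩
  haveI := Fermat.Agent.T8.helper65.finiteIndex_muFix (p := P.p) A hA
  have h := covPtStatement_cov D hKum ζ hζ hb hA (Or.inl (Dvd.intro M' rfl))
    (le_trans (by norm_num) P.hp5) hν (Fermat.Agent.T8.helper29.isRegJ_of_isA0One hK.1) hnew
    hf1 hf2 hr1 hr2
  exact h

end Final

end Fermat.Agent.T8.helper78
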