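/-
T8 (S44, at risk), helper78 (owner of box (C) [OLD-LIFT]): **box (C) is closed**.

* `liftJStatement` : the contract (L) in helper78's shape, from `helper32.liftJ`;
* `oldLiftStatement : helper72.OldLiftStatement` and
  `oldLiftStatement2 : helper72.OldLiftStatement2` : a realisation of `E[p]` at level `M' p` which
  is not `p`-new gives a congruent eigenform of level `M'`.  UNCONDITIONAL.
-/
import Fermat.Agent.T8.helper78_OldLift
import Fermat.Agent.T8.helper32_LiftCore8
import Fermat.Agent.T8.helper72_ChainDefs2

set_option autoImplicit false
set_option linter.unusedSectionVars false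
set_option linter.unusedVariables false
set_option linter.style.haveILetI false
set_option linter.style.longLine false

noncomputable section

namespace Fermat.Agent.T8.helper78

/-- the contract (L), from `helper32.liftJ` -/
theorem liftJStatement : LiftJStatement := by
  intro M p _ hp G a hG x hx0 hxp hx
  exact Fermat.Agent.T8.helper32.liftJ M p hp G a
    (fun ℓ hℓ h => hG ℓ hℓ (h.mul_left p)) x hx0 hxp hx

/-- **Box (C) [OLD-LIFT]**, version 1 of the contract. -/
theorem oldLiftStatement : Fermat.Agent.T8.helper72.OldLiftStatement :=
  oldLiftStatement_of_liftJ liftJStatement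

/-- **Box (C) [OLD-LIFT]**, version 2 of the contract. -/
theorem oldLiftStatement2 : Fermat.Agent.T8.helper72.OldLiftStatement2 :=
  Fermat.Agent.T8.helper72.oldLift2_of_oldLift oldLiftStatement

end Fermat.Agent.T8.helper78

end
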