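import Mathlib
import Fermat.Agent.P3.helper48_AN1Rep
import Fermat.Agent.T4.helper77_QExpDiv
import Fermat.Agent.T3.helper67_MidCore

/-!
# T8 [F3-EXIT] leaf 3 [CUSP-ANN], sub-leaf (S1) (helper79): the weight `2` form `θ j`

* `dTau g := (2πi)⁻¹ dg/dτ` and `isQExp_dTau : IsQExp f g → IsQExp (thetaL f) (dTau g)`
  (the `q`-expansion of the derivative is `θ = q d/dq` of the `q`-expansion);
* `dTau_slash` : the derivative of a `γ`-invariant function has weight `2` under `γ`;
* `thetaJ := dTau jfun`, `isQExp_thetaJ`, `thetaJ_slash`, `isWeakForm_thetaJ`, `thetaJ_ne_zero`;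
* `ratio_thetaJ_mem_FC`, `represents_ratio_thetaJ` : for a weakly holomorphic form `G` of weight
  `2` on `Γ₀(N)` the quotient `G_q / θ(J)` lies in `F_ℂ` and is represented by `G / θ j`;
* `isWeakForm_of_cuspForm`, `isQExp_of_cuspForm`, `cuspRatio G`, `cuspRatio_mul_theta`,
  `represents_cuspRatio` : the case of a cusp form.

Consumer: the Kähler differential `ω_G := cuspRatio G • D (xJC N)` has `q`-expansion `G_q`
(`cuspRatio_mul_theta`); its regularity at the places `≠ ∞` is the local computation of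
`helper79_CuspAnnLoc.lean`.
-/

set_option autoImplicit false
set_option linter.unusedSectionVars false
set_option linter.style.longLine false
set_option linter.unusedVariables false

noncomputable section

namespace Fermat.Agent.T8.helper79

open UpperHalfPlane hiding I
open Complex Filter Topology Function ModularForm ModularCurve
open scoped Real MatrixGroups Manifold
open Fermat.Agent.S24 Fermat.Agent.S24.helper17 Fermat.Agent.S24.helper77
open Fermat.Agent.T3.helper67

local notation "𝕢" => Periodic.qParam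

/-- every iterated derivative of a function differentiable on an open set is differentiable
there -/
theorem differentiableAt_iteratedDeriv_of_open {c : ℂ → ℂ} {s : Set ℂ} (hs : IsOpen s)
    (hc : DifferentiableOn ℂ c s) (k : ℕ) {q : ℂ} (hq : q ∈ s) :
    DifferentiableAt ℂ (iteratedDeriv k c) q := by
  have hca : AnalyticOnNhd ℂ c s := hc.analyticOnNhd hs
  have := hca.iterated_deriv k
  rw [← iteratedDeriv_eq_iterate] at this
  exact (this q hq).differentiableAt

/-- **Taylor coefficients of `q c'(q) - a c(q)`**. -/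
theorem iteratedDeriv_id_mul_deriv_sub {c : ℂ → ℂ} {s : Set ℂ} (hs : IsOpen s)
    (hc : DifferentiableOn ℂ c s) (a : ℂ) (m : ℕ) :
    ∀ q ∈ s, iteratedDeriv m (fun q => q * deriv c q - a * c q) q
      = q * iteratedDeriv (m + 1) c q + (m - a) * iteratedDeriv m c q := by
  induction m with
  | zero =>
    intro q _
    simp [iteratedDeriv_zero, iteratedDeriv_one]
    ring
  | succ m ih =>
    intro q hq
    rw [iteratedDeriv_succ]
    have hev : iteratedDeriv m (fun q => q * deriv c q - a * c q) =ᶠ[𝓝 q]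
        fun q => q * iteratedDeriv (m + 1) c q + (m - a) * iteratedDeriv m c q := by
      filter_upwards [hs.mem_nhds hq] with q' hq' using ih q' hq'
    rw [hev.deriv_eq]
    have h1 : HasDerivAt (iteratedDeriv (m + 1) c) (iteratedDeriv (m + 2) c q) q := by
      have := (differentiableAt_iteratedDeriv_of_open hs hc (m + 1) hq).hasDerivAt
      rwa [← iteratedDeriv_succ] at this
    have h0 : HasDerivAt (iteratedDeriv m c) (iteratedDeriv (m + 1) c q) q := by
      have := (differentiableAt_iteratedDeriv_of_open hs hc m hq).hasDerivAt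
      rwa [← iteratedDeriv_succ] at this
    have h2 : HasDerivAt
        (fun q => q * iteratedDeriv (m + 1) c q + ((m : ℂ) - a) * iteratedDeriv m c q)
        (1 * iteratedDeriv (m + 1) c q + q * iteratedDeriv (m + 2) c q
          + ((m : ℂ) - a) * iteratedDeriv (m + 1) c q) q :=
      ((hasDerivAt_id q).mul h1).add (h0.const_mul ((m : ℂ) - a))
    rw [h2.deriv]
    push_cast
    ring

/-- the normalised derivative `(2πi)⁻¹ d/dτ` of a function on the upper half plane -/
def dTau (g : ℍ → ℂ) (τ : ℍ) : ℂ := (2 * π * I)⁻¹ * deriv (g ∘ ofComplex) (τ : ℂ)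

theorem hasDerivAt_qParam_one (z : ℂ) : HasDerivAt (𝕢 1) (2 * π * I * 𝕢 1 z) z := by
  have h : HasDerivAt (fun z : ℂ => 2 * π * I * z / ((1 : ℝ) : ℂ))
      (2 * π * I * 1 / ((1 : ℝ) : ℂ)) z :=
    ((hasDerivAt_id' z).const_mul (2 * π * I)).div_const _
  have h2 := h.cexp
  have e : 2 * π * I * 𝕢 1 z
      = cexp (2 * π * I * z / ((1 : ℝ) : ℂ)) * (2 * π * I * 1 / ((1 : ℝ) : ℂ)) := by
    simp only [Periodic.qParam, Complex.ofReal_one, div_one, mul_one]
    ring
  rw [e]
  exact h2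

/-- the function `E_M(z) = exp(-2πi M z) = q^(-M)` -/
def expNeg (M : ℕ) (z : ℂ) : ℂ := cexp (-(2 * π * I * M * z))

theorem qParam_pow_mul_expNeg (M : ℕ) (z : ℂ) : 𝕢 1 z ^ M * expNeg M z = 1 := by
  unfold Periodic.qParam expNeg
  rw [← Complex.exp_nat_mul, ← Complex.exp_add]
  have : (M : ℂ) * (2 * π * I * z / ((1 : ℝ) : ℂ)) + -(2 * π * I * M * z) = 0 := by
    simp; ring
  rw [this, Complex.exp_zero]

theorem hasDerivAt_expNeg (M : ℕ) (z : ℂ) :
    HasDerivAt (expNeg M) (-(2 * π * I * M) * expNeg M z) z := by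
  have h : HasDerivAt (fun z : ℂ => -(2 * π * I * M * z)) (-(2 * π * I * M * 1)) z :=
    ((hasDerivAt_id' z).const_mul (2 * π * I * (M : ℂ))).neg
  have h2 := h.cexp
  have e : -(2 * π * I * M) * expNeg M z
      = cexp (-(2 * π * I * M * z)) * (-(2 * π * I * M * 1)) := by
    simp only [expNeg, mul_one]
    ring
  rw [e]
  exact h2

/-- the cusp function of the numerator of a function with a `q`-expansion, and the derivative
in terms of it -/
theorem dTau_eq_of_isNice {g : ℍ → ℂ} {M : ℕ} (hn : IsNice (fun τ => 𝕢 1 τ ^ M * g τ)) (τ : ℍ) :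
    𝕢 1 τ ^ M * dTau g τ
      = 𝕢 1 τ * deriv (cuspFunction 1 (fun τ => 𝕢 1 τ ^ M * g τ)) (𝕢 1 τ)
        - M * cuspFunction 1 (fun τ => 𝕢 1 τ ^ M * g τ) (𝕢 1 τ) := by
  set n : ℍ → ℂ := fun τ => 𝕢 1 τ ^ M * g τ with hndef
  set c := cuspFunction 1 n with hcdef
  have hc : DifferentiableOn ℂ c (Metric.ball 0 1) :=
    differentiableOn_cuspFunction_ball one_pos hn.periodic hn.mdiff hn.bdd
  have hceq : ∀ z : ℂ, 0 < z.im → c (𝕢 1 z) = 𝕢 1 z ^ M * g (ofComplex z) := by
    intro z hz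
    have := eq_cuspFunction (h := 1) (f := n) ⟨z, hz⟩ one_ne_zero hn.periodic
    simp only [hndef] at this
    rw [ofComplex_apply_of_im_pos hz]
    exact this
  have hg : ∀ z : ℂ, 0 < z.im → g (ofComplex z) = c (𝕢 1 z) * expNeg M z := by
    intro z hz
    rw [hceq z hz, mul_comm (𝕢 1 z ^ M), mul_assoc, qParam_pow_mul_expNeg, mul_one]
  have hev : (g ∘ ofComplex) =ᶠ[𝓝 (τ : ℂ)] fun z => c (𝕢 1 z) * expNeg M z := by
    filter_upwards [isOpen_upperHalfPlaneSet.mem_nhds τ.im_pos] with z hz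
    exact hg z hz
  have hqτ : 𝕢 1 (τ : ℂ) ∈ Metric.ball (0 : ℂ) 1 := by
    rw [mem_ball_zero_iff]
    exact Periodic.norm_qParam_lt_one one_pos τ.im_pos
  have hcd : HasDerivAt c (deriv c (𝕢 1 (τ : ℂ))) (𝕢 1 (τ : ℂ)) :=
    (hc.differentiableAt (Metric.isOpen_ball.mem_nhds hqτ)).hasDerivAt
  have h1 : HasDerivAt (fun z => c (𝕢 1 z)) (deriv c (𝕢 1 (τ : ℂ)) * (2 * π * I * 𝕢 1 (τ : ℂ)))
      (τ : ℂ) := HasDerivAt.comp (τ : ℂ) hcd (hasDerivAt_qParam_one (τ : ℂ))
  have h2 := h1.mul (hasDerivAt_expNeg M (τ : ℂ))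
  have h3 : deriv (g ∘ ofComplex) (τ : ℂ)
      = deriv c (𝕢 1 (τ : ℂ)) * (2 * π * I * 𝕢 1 (τ : ℂ)) * expNeg M (τ : ℂ)
        + c (𝕢 1 (τ : ℂ)) * (-(2 * π * I * M) * expNeg M (τ : ℂ)) := by
    rw [hev.deriv_eq]
    exact h2.deriv
  unfold dTau
  rw [h3]
  have hpi : (2 * π * I : ℂ) ≠ 0 := two_pi_I_ne_zero
  have hE := qParam_pow_mul_expNeg M (τ : ℂ)
  calc 𝕢 1 (τ : ℂ) ^ M * ((2 * π * I)⁻¹ *
        (deriv c (𝕢 1 (τ : ℂ)) * (2 * π * I * 𝕢 1 (τ : ℂ)) * expNeg M (τ : ℂ)
          + c (𝕢 1 (τ : ℂ)) * (-(2 * π * I * M) * expNeg M (τ : ℂ))))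
      = (𝕢 1 (τ : ℂ) ^ M * expNeg M (τ : ℂ)) * ((2 * π * I)⁻¹ * (2 * π * I))
          * (𝕢 1 (τ : ℂ) * deriv c (𝕢 1 (τ : ℂ)) - M * c (𝕢 1 (τ : ℂ))) := by ring
    _ = _ := by rw [hE, inv_mul_cancel₀ hpi]; ring

/-- **the `q`-expansion of the derivative**: if `f` is the `q`-expansion of `g`, then
`θ f = q d/dq f` is the `q`-expansion of `(2πi)⁻¹ dg/dτ`. -/
theorem isQExp_dTau {f : LaurentSeries ℂ} {g : ℍ → ℂ} (h : IsQExp f g) :
    IsQExp (thetaL f) (dTau g) := by
  obtain ⟨M, hn, hq⟩ := h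
  set n : ℍ → ℂ := fun τ => 𝕢 1 τ ^ M * g τ with hndef
  set c := cuspFunction 1 n with hcdef
  have hc : DifferentiableOn ℂ c (Metric.ball 0 1) :=
    differentiableOn_cuspFunction_ball one_pos hn.periodic hn.mdiff hn.bdd
  set C₂ : ℂ → ℂ := fun q => q * deriv c q - M * c q with hC2
  have hC2d : DifferentiableOn ℂ C₂ (Metric.ball 0 1) := by
    have hd : DifferentiableOn ℂ (deriv c) (Metric.ball 0 1) := hc.deriv Metric.isOpen_ball
    exact (differentiableOn_id.mul hd).sub (hc.const_mul _)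
  have hn2 : ∀ τ : ℍ, 𝕢 1 τ ^ M * dTau g τ = C₂ (𝕢 1 τ) := fun τ => dTau_eq_of_isNice hn τ
  have hball : ∀ z : ℂ, 0 < z.im → 𝕢 1 z ∈ Metric.ball (0 : ℂ) 1 := fun z hz => by
    rw [mem_ball_zero_iff]
    exact Periodic.norm_qParam_lt_one one_pos hz
  have hnice : IsNice (fun τ : ℍ => 𝕢 1 τ ^ M * dTau g τ) := by
    have hG : IsNice (fun τ : ℍ => C₂ (𝕢 1 τ)) :=
      { periodic := Fermat.Agent.P3.helper48.periodic_comp_ofComplex fun τ => by
          have hq1 : 𝕢 1 (((1 : ℝ) +ᵥ τ : ℍ) : ℂ) = 𝕢 1 (τ : ℂ) := by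
            rw [UpperHalfPlane.coe_vadd]
            have := qParam_add_one (τ : ℂ)
            rw [add_comm] at this
            simpa using this
          show C₂ (𝕢 1 (((1 : ℝ) +ᵥ τ : ℍ) : ℂ)) = C₂ (𝕢 1 (τ : ℂ))
          rw [hq1]
        mdiff := by
          refine mdiff_of_complex (fun z => C₂ (𝕢 1 z)) fun z hz => ?_
          have h1 : DifferentiableAt ℂ C₂ (𝕢 1 z) :=
            hC2d.differentiableAt (Metric.isOpen_ball.mem_nhds (hball z hz))
          have h2 : DifferentiableAt ℂ (𝕢 1) z := (hasDerivAt_qParam_one z).differentiableAt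
          exact (h1.comp z h2).differentiableWithinAt
        bdd := by
          have hcont : ContinuousAt C₂ 0 :=
            (hC2d.differentiableAt (Metric.isOpen_ball.mem_nhds (by simp))).continuousAt
          have ht : Tendsto (fun τ : ℍ => C₂ (𝕢 1 τ)) atImInfty (𝓝 (C₂ 0)) :=
            hcont.tendsto.comp (qParam_tendsto_atImInfty one_pos)
          exact ht.isBigO_one ℝ }
    exact hG.congr fun τ => (hn2 τ).symm
  refine ⟨M, hnice, ?_⟩
  have hP : qExpansion 1 (fun τ : ℍ => 𝕢 1 τ ^ M * dTau g τ)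
      = PowerSeries.mk fun m => ((m : ℂ) - M) * (qExpansion 1 n).coeff m := by
    refine hnice.qExpansion_eq_of_hasSum _ fun τ => ?_
    rw [hn2 τ]
    have hT := hasSum_taylorSeries_on_ball hC2d (hball _ τ.im_pos)
    have key : ∀ m : ℕ, iteratedDeriv m C₂ 0 = ((m : ℂ) - M) * iteratedDeriv m c 0 :=
      fun m => by
        have := iteratedDeriv_id_mul_deriv_sub Metric.isOpen_ball hc (M : ℂ) m 0 (by simp)
        rw [this]
        ring
    have hfun : (fun m : ℕ => (PowerSeries.coeff m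
          (PowerSeries.mk fun m => ((m : ℂ) - M) * (qExpansion 1 n).coeff m)) • 𝕢 1 (τ : ℂ) ^ m)
        = fun m : ℕ => ((m.factorial : ℂ))⁻¹ • (𝕢 1 (τ : ℂ) - 0) ^ m • iteratedDeriv m C₂ 0 := by
      funext m
      rw [PowerSeries.coeff_mk, qExpansion_coeff, key m, sub_zero]
      simp only [smul_eq_mul]
      ring
    rw [hfun]
    exact hT
  rw [hP]
  ext k
  rw [HahnSeries.coeff_single_mul, one_mul, thetaL_coeff]
  have hk : f.coeff (k - M) = (HahnSeries.ofPowerSeries ℤ ℂ (qExpansion 1 n)).coeff k := by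
    rw [hq, HahnSeries.coeff_single_mul, one_mul]
  rw [hk]
  have e1 := PowerSeries.coeff_coe (R := ℂ)
    (PowerSeries.mk fun m : ℕ => ((m : ℂ) - M) * (qExpansion 1 n).coeff m) k
  have e2 := PowerSeries.coeff_coe (R := ℂ) (qExpansion 1 n) k
  change (HahnSeries.ofPowerSeries ℤ ℂ
    (PowerSeries.mk fun m : ℕ => ((m : ℂ) - M) * (qExpansion 1 n).coeff m)).coeff k = _ at e1
  change (HahnSeries.ofPowerSeries ℤ ℂ (qExpansion 1 n)).coeff k = _ at e2
  rw [e1, e2]
  split_ifs with hneg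
  · simp
  · rw [PowerSeries.coeff_mk]
    have h0 : 0 ≤ k := not_lt.mp hneg
    have hcast : ((k.natAbs : ℕ) : ℂ) = (k : ℂ) := by
      obtain ⟨j, rfl⟩ := Int.eq_ofNat_of_zero_le h0
      simp
    rw [hcast]
    push_cast
    ring

/-! ### weight `2` -/

open Fermat.Agent.S24.helper48 in
/-- the derivative of a function invariant under `γ` is invariant of weight `2` under `γ` -/
theorem dTau_slash {g : ℍ → ℂ} (hg : MDiff g) (γ : SL(2, ℤ)) (hγ : ∀ τ, g (γ • τ) = g τ) :
    (dTau g) ∣[(2 : ℤ)] γ = dTau g := by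
  funext τ
  rw [ModularForm.SL_slash_apply]
  unfold dTau
  have hcomp : (g ∘ ofComplex) ∘ chartSL γ = g ∘ ofComplex := by
    rw [comp_ofComplex_comp_chartSL]
    funext z
    simp only [comp_apply, hγ]
  have hd : DifferentiableAt ℂ (g ∘ ofComplex) ((γ • τ : ℍ) : ℂ) :=
    UpperHalfPlane.mdifferentiableAt_iff.mp (hg (γ • τ))
  have h1 : HasDerivAt (g ∘ ofComplex) (deriv (g ∘ ofComplex) ((γ • τ : ℍ) : ℂ))
      (chartSL γ (τ : ℂ)) := by
    rw [chartSL_coe]
    exact hd.hasDerivAt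
  have h2 := HasDerivAt.comp (τ : ℂ) h1 (hasDerivAt_chartSL γ τ)
  rw [hcomp] at h2
  rw [h2.deriv]
  have hden : denom γ τ ≠ 0 := denom_ne_zero γ τ
  rw [zpow_neg]
  field_simp

/-- **`θ j`**, the normalised derivative of the `j`-function -/
def thetaJ : ℍ → ℂ := dTau jfun

/-- the `q`-expansion of `θ j` is `θ` of the formal `j`-series -/
theorem isQExp_thetaJ : IsQExp (thetaL (jqModC ℂ)) thetaJ := isQExp_dTau isQExp_jfun

/-- `θ j` has weight `2` for the full modular group -/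
theorem thetaJ_slash (γ : SL(2, ℤ)) : thetaJ ∣[(2 : ℤ)] γ = thetaJ :=
  dTau_slash mdiff_jfun γ (Fermat.Agent.S24.helper24.jfun_smul γ)

/-- `θ j` is a weakly holomorphic modular form of weight `2` on every `Γ₀(N)` -/
theorem isWeakForm_thetaJ (N : ℕ) : Fermat.Agent.P3.helper48.IsWeakForm N 2 thetaJ where
  slash_eq γ _ := thetaJ_slash γ
  slash_mem δ := by
    rw [thetaJ_slash]
    exact Fermat.Agent.T4.helper77.mem_holoExp_of_isQExp isQExp_thetaJ

theorem thetaL_jq_ne_zero : thetaL (jqModC ℂ) ≠ 0 := by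
  intro h
  have h1 := congrArg (fun x : LaurentSeries ℂ => x.coeff (-1)) h
  simp only [thetaL_coeff, Fermat.Agent.P3.helper48.coeff_jqModC_neg_one,
    HahnSeries.coeff_zero] at h1
  norm_num at h1

theorem thetaJ_ne_zero : thetaJ ≠ 0 := fun h =>
  thetaL_jq_ne_zero ((isQExp_thetaJ.eq_zero_iff).mpr h)

/-! ### the quotient of a weight `2` form by `θ j` -/

/-- **the quotient `G / θ j` lies in the function field** -/
theorem ratio_thetaJ_mem_FC (N : ℕ) [NeZero N] {G : ℍ → ℂ}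
    (hG : Fermat.Agent.P3.helper48.IsWeakForm N 2 G) {Gq : LaurentSeries ℂ} (hGq : IsQExp Gq G) :
    Gq / thetaL (jqModC ℂ) ∈ Fermat.Agent.P3.helper80.FCfield N :=
  Fermat.Agent.P3.helper48.ratio_mem_FC N hG (isWeakForm_thetaJ N) hGq isQExp_thetaJ

/-- **the quotient `G / θ j` is represented by the function `G / θ j`** -/
theorem represents_ratio_thetaJ (N : ℕ) [NeZero N] {G : ℍ → ℂ} {Gq : LaurentSeries ℂ}
    (hGq : IsQExp Gq G) (x : Fermat.Agent.P3.helper80.FC N)
    (hx : (x : LaurentSeries ℂ) = Gq / thetaL (jqModC ℂ)) :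
    Fermat.Agent.P3.helper80.Represents N x
      (fun w => G (ofComplex w) / thetaJ (ofComplex w)) :=
  Fermat.Agent.P3.helper48.represents_of_isQExp_ratio hGq isQExp_thetaJ thetaL_jq_ne_zero x hx

/-! ### cusp forms -/

/-- a cusp form of weight `k` on `Γ₀(N)` is a weakly holomorphic modular form -/
theorem isWeakForm_of_cuspForm {N : ℕ} [NeZero N] {k : ℤ}
    (G : CuspForm (CongruenceSubgroup.Gamma0 N) k) :
    Fermat.Agent.P3.helper48.IsWeakForm N k G :=
  Fermat.Agent.P3.helper48.IsWeakForm.of_bdd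
    (fun γ hγ => by
      rw [SL_slash]
      exact SlashInvariantForm.slash_action_eqn G _ (Subgroup.mem_map_of_mem _ hγ))
    G.holo' (fun δ => ModularFormClass.bdd_at_infty_slash G δ)

/-- the `q`-expansion of a cusp form -/
theorem isQExp_of_cuspForm {N : ℕ} [NeZero N] {k : ℤ}
    (G : CuspForm (CongruenceSubgroup.Gamma0 N) k) :
    IsQExp (HahnSeries.ofPowerSeries ℤ ℂ (qExpansion 1 G)) G :=
  IsQExp.of_isNice (Fermat.Agent.P3.helper48.isNice_of_slash
    (isWeakForm_of_cuspForm G).slash_eq G.holo'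
    (by simpa using ModularFormClass.bdd_at_infty_slash G 1))

/-- the `q`-series `G_q / θ(J)` of a weight `2` cusp form `G` -/
def cuspRatio {N : ℕ} [NeZero N] (G : CuspForm (CongruenceSubgroup.Gamma0 N) 2) :
    Fermat.Agent.P3.helper80.FC N :=
  ⟨HahnSeries.ofPowerSeries ℤ ℂ (qExpansion 1 G) / thetaL (jqModC ℂ),
    ratio_thetaJ_mem_FC N (isWeakForm_of_cuspForm G) (isQExp_of_cuspForm G)⟩

theorem coe_cuspRatio {N : ℕ} [NeZero N] (G : CuspForm (CongruenceSubgroup.Gamma0 N) 2) :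
    ((cuspRatio G : Fermat.Agent.P3.helper80.FC N) : LaurentSeries ℂ)
      = HahnSeries.ofPowerSeries ℤ ℂ (qExpansion 1 G) / thetaL (jqModC ℂ) := rfl

/-- `r θ(J) = G_q` -/
theorem cuspRatio_mul_theta {N : ℕ} [NeZero N] (G : CuspForm (CongruenceSubgroup.Gamma0 N) 2) :
    ((cuspRatio G : Fermat.Agent.P3.helper80.FC N) : LaurentSeries ℂ) * thetaL (jqModC ℂ)
      = HahnSeries.ofPowerSeries ℤ ℂ (qExpansion 1 G) := by
  rw [coe_cuspRatio, div_mul_cancel₀ _ thetaL_jq_ne_zero]

/-- the function of `cuspRatio G` is `G / θ j` -/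
theorem represents_cuspRatio {N : ℕ} [NeZero N] (G : CuspForm (CongruenceSubgroup.Gamma0 N) 2) :
    Fermat.Agent.P3.helper80.Represents N (cuspRatio G)
      (fun w => G (ofComplex w) / thetaJ (ofComplex w)) :=
  represents_ratio_thetaJ N (isQExp_of_cuspForm G) _ (coe_cuspRatio G)

end Fermat.Agent.T8.helper79

end
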