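import Fermat.Agent.T8.helper7_CuspGap
import Fermat.Agent.T8.helper43_CuspCount
import Fermat.Agent.T8.helper35_Cusp4Stmt

/-!
# T8 [CUSP-GAP], route (R1) (helper7, owner of [CUSP-ASM]): the wiring of the landed leaves

* [CUSP-4] = `helper35.cusp4Statement : Cusp4Statement` (unconditional, on main);
* [CUSP-COUNT] + [CUSP-OO] = `helper43.dvdPoles_of_cuspAOrd` (unconditional, on main);
* [CUSP-A] = `helper43.CuspAOrdStatement A M p` (weak form) / `helper43.CuspAStatement A M p`
  (strong form) at the squarefree levels: the ONLY open input, `CuspAOrdAllStatement` /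
  `CuspAAllStatement`.

`cuspGap_of_cuspAOrd : CuspAOrdAllStatement → CuspGapStatement auxPull67`,
`cuspGap_of_cuspA : CuspAAllStatement → CuspGapStatement auxPull67`.
-/

set_option autoImplicit false
set_option synthInstance.maxHeartbeats 400000
set_option maxHeartbeats 1600000
set_option linter.unusedSectionVars false
set_option linter.unusedVariables false
set_option linter.style.longLine false

noncomputable section

namespace Fermat.Agent.T8.helper7

open HahnSeries IntermediateField AlgebraicCurve ModularCurve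
open Fermat.Agent.S18.helper19 Fermat.Agent.P2.helper29 Fermat.Agent.P2.helper93
open Fermat.Agent.T2 Fermat.Agent.T2.helper36
open Fermat.Agent.T8.helper54 (IsRed1 DvdOff)
open Fermat.Agent.P3.helper94 (IsKummerRep)
open Fermat.Agent.T7 Fermat.Agent.T8.helper72 Fermat.Agent.T8.helper67

/-- **[CUSP-A], weak form, at the squarefree levels** (the only open input of route (R1)) -/
def CuspAOrdAllStatement : Prop :=
  ∀ (M p : ℕ) [NeZero M] [NeZero p], p.Prime → ¬ p ∣ M → Squarefree M →
    ∀ A : ValuationSubring Kb, A.LiesOverPrime p →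
      Fermat.Agent.T8.helper43.CuspAOrdStatement A M p

/-- **[CUSP-A], strong form, at the squarefree levels** -/
def CuspAAllStatement : Prop :=
  ∀ (M p : ℕ) [NeZero M] [NeZero p], p.Prime → ¬ p ∣ M → Squarefree M →
    ∀ A : ValuationSubring Kb, A.LiesOverPrime p →
      Fermat.Agent.T8.helper43.CuspAStatement A M p

theorem cuspAOrdAll_of_cuspAAll (h : CuspAAllStatement) : CuspAOrdAllStatement :=
  fun M p _ _ hp hpM hM A hA =>
    Fermat.Agent.T8.helper43.cuspAOrd_of_cuspA hp hpM hA (h M p hp hpM hM A hA)

/-- leaf [CUSP-SQF] from [CUSP-A] (weak form) -/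
theorem cuspSqf_of_cuspAOrd (h : CuspAOrdAllStatement) : CuspSqfStatement :=
  fun M p _ _ hp hpM hM A hA u f hu hdiv hred Q hQ =>
    Fermat.Agent.T8.helper43.dvdPoles_of_cuspAOrd hM hp hpM hA (h M p hp hpM hM A hA)
      u f hu hdiv hred Q hQ

/-- **route (R1)**: the contract [CUSP-GAP] from [CUSP-A] (weak form) alone -/
theorem cuspGap_of_cuspAOrd (h : CuspAOrdAllStatement) : CuspGapStatement auxPull67 :=
  cuspGap_of_leaves (cuspSqf_of_cuspAOrd h) Fermat.Agent.T8.helper35.cusp4Statement

/-- **route (R1)**: the contract [CUSP-GAP] from [CUSP-A] (strong form) alone -/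
theorem cuspGap_of_cuspA (h : CuspAAllStatement) : CuspGapStatement auxPull67 :=
  cuspGap_of_cuspAOrd (cuspAOrdAll_of_cuspAAll h)

end Fermat.Agent.T8.helper7

end
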