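import Mathlib

/-!
# T8 (row 38 via S44), box [K-RAT] (helper7): the weighted trace with integral values

Abstract lemma (pure Mathlib).  `K` a field, `A` a valuation subring, `t i : K →+* K` a finite
family of valuation preserving endomorphisms, `L ≤ E` subfields of `K` such that the `t i` fix
`L`, the trace `y ↦ ∑ i, t i y` and the norm `y ↦ ∏ i, t i y` map `E` into `L`, the value group
of `L` is generated by `v(lam)`, `lam ∈ L`, `v(lam) < 1`, and `A ∩ E = A ∩ L + m_A ∩ E`.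

* `exists_theta_trace` : there is `θ ∈ E` with `∑ i, t i θ = 1`,
  `∑ i, t i (θ * x) ∈ A` for `x ∈ A ∩ E` and `v (∑ i, t i (θ * x)) < 1` for `x ∈ E`, `v x < 1`.

(`θ` generates `lam ϖ⁻¹` times the inverse different, `ϖ` a uniformiser of `E`.)
-/

set_option autoImplicit false
set_option linter.unusedSectionVars false
set_option linter.unusedVariables false
set_option linter.style.longLine false

namespace Fermat.Agent.T8.helper7

section KRatProj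

variable {K : Type*} [Field K] (A : ValuationSubring K)
variable {ι : Type*} [Fintype ι]

/-- the value of a norm -/
theorem val_prod_eq_pow (t : ι → K →+* K)
    (hval : ∀ i x, A.valuation (t i x) = A.valuation x) (y : K) :
    A.valuation (∏ i, t i y) = A.valuation y ^ Fintype.card ι := by
  rw [map_prod]
  simp only [hval]
  rw [Finset.prod_const, Finset.card_univ]

/-- the trace of an integral element is integral -/
theorem sum_mem_of_mem (t : ι → K →+* K)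
    (hval : ∀ i x, A.valuation (t i x) = A.valuation x) {y : K} (hy : y ∈ A) :
    ∑ i, t i y ∈ A := by
  refine sum_mem fun i _ => ?_
  rw [← A.valuation_le_one_iff, hval]
  exact (A.valuation_le_one_iff y).2 hy

/-- the trace is linear over the fixed field -/
theorem sum_mul_fixed (t : ι → K →+* K) (L : Subfield K) (hlin : ∀ i, ∀ c ∈ L, t i c = c)
    {c : K} (hc : c ∈ L) (y : K) : ∑ i, t i (c * y) = c * ∑ i, t i y := by
  rw [Finset.mul_sum]
  refine Finset.sum_congr rfl fun i _ => ?_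
  rw [map_mul, hlin i c hc]

/-- **[K-RAT] core: the weighted trace.** -/
theorem exists_theta_trace (t : ι → K →+* K) (E L : Subfield K) (hLE : L ≤ E)
    (hval : ∀ i x, A.valuation (t i x) = A.valuation x)
    (hlin : ∀ i, ∀ c ∈ L, t i c = c)
    (htr : ∀ y ∈ E, ∑ i, t i y ∈ L)
    (hnorm : ∀ y ∈ E, ∏ i, t i y ∈ L)
    (hn : (Fintype.card ι : K) ≠ 0)
    (lam : K) (hlamL : lam ∈ L) (hlam0 : lam ≠ 0) (hlam1 : A.valuation lam < 1)
    (hVG : ∀ x ∈ L, x ≠ 0 → ∃ m : ℤ, A.valuation x = A.valuation lam ^ m)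
    (hres : ∀ x ∈ E, x ∈ A → ∃ y ∈ L, y ∈ A ∧ A.valuation (x - y) < 1) :
    ∃ θ ∈ E, ∑ i, t i θ = 1 ∧ (∀ x ∈ E, x ∈ A → ∑ i, t i (θ * x) ∈ A) ∧
      (∀ x ∈ E, A.valuation x < 1 → A.valuation (∑ i, t i (θ * x)) < 1) := by
  classical
  set v := A.valuation with hv
  set g := v lam with hg
  set n := Fintype.card ι with hncard
  have hn0 : n ≠ 0 := by
    intro h
    apply hn
    rw [h, Nat.cast_zero]
  have hg0 : 0 < g := zero_lt_iff.2 ((Valuation.ne_zero_iff _).2 hlam0)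
  have hg1 : g < 1 := hlam1
  have hmemA : ∀ x : K, x ∈ A ↔ v x ≤ 1 := fun x => (A.valuation_le_one_iff x).symm
  -- Step 1: the value group of `E`
  have hdisc : ∀ y ∈ E, y ≠ 0 → ∃ m : ℤ, v y ^ n = g ^ m := by
    intro y hy hy0
    have hN0 : ∏ i, t i y ≠ 0 :=
      Finset.prod_ne_zero_iff.2 fun i _ => (map_ne_zero (t i)).2 hy0
    obtain ⟨m, hm⟩ := hVG _ (hnorm y hy) hN0
    exact ⟨m, by rw [← hm, val_prod_eq_pow A t hval]⟩
  -- Step 2: a uniformiser of `E`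
  have hP : ∃ m : ℕ, 0 < m ∧ ∃ y ∈ E, v y ^ n = g ^ m :=
    ⟨n, Nat.pos_of_ne_zero hn0, lam, hLE hlamL, rfl⟩
  obtain ⟨hm₀, ϖ, hϖE, hϖ⟩ := Nat.find_spec hP
  set m₀ := Nat.find hP with hm₀def
  have hϖmin : ∀ y ∈ E, v y < 1 → v y ≤ v ϖ := by
    intro y hy hy1
    by_cases hy0 : y = 0
    · rw [hy0, map_zero]; exact zero_le
    obtain ⟨m, hm⟩ := hdisc y hy hy0
    have h1 : v y ^ n < 1 := pow_lt_one₀ zero_le hy1 hn0
    rw [hm] at h1
    have hmpos : 0 < m := (zpow_lt_one_iff_right_of_lt_one₀ hg0 hg1).1 h1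
    have hmnat : ((m.toNat : ℕ) : ℤ) = m := Int.toNat_of_nonneg hmpos.le
    have hyn : v y ^ n = g ^ m.toNat := by
      calc v y ^ n = g ^ m := hm
        _ = g ^ ((m.toNat : ℕ) : ℤ) := by rw [hmnat]
        _ = g ^ m.toNat := zpow_natCast _ _
    have hP' : 0 < m.toNat ∧ ∃ y ∈ E, v y ^ n = g ^ m.toNat :=
      ⟨by omega, y, hy, hyn⟩
    have hle : m₀ ≤ m.toNat := Nat.find_min' hP hP'
    have h2 : g ^ m.toNat ≤ g ^ m₀ := pow_le_pow_of_le_one zero_le hg1.le hle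
    have h3 : v y ^ n ≤ v ϖ ^ n := by
      rw [hϖ, hyn]
      exact h2
    exact (pow_le_pow_iff_left₀ zero_le zero_le hn0).1 h3
  have hϖ0 : ϖ ≠ 0 := by
    intro h
    rw [h, map_zero, zero_pow hn0] at hϖ
    exact (pow_pos hg0 m₀).ne hϖ
  have hvϖ0 : v ϖ ≠ 0 := (Valuation.ne_zero_iff _).2 hϖ0
  have hgϖ : g ≤ v ϖ := hϖmin lam (hLE hlamL) hlam1
  -- the archimedean property
  have harch : ∀ x ∈ E, x ≠ 0 → ∃ k : ℕ, v (ϖ ^ k * x) ≤ 1 := by
    intro x hx hx0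
    obtain ⟨m, hm⟩ := hdisc x hx hx0
    refine ⟨m.natAbs, ?_⟩
    have h1 : v (ϖ ^ m.natAbs * x) ^ n = g ^ ((m₀ * m.natAbs : ℕ) + m : ℤ) := by
      rw [map_mul, map_pow, mul_pow, ← pow_mul, mul_comm m.natAbs n, pow_mul, hϖ, hm,
        zpow_add₀ hg0.ne', zpow_natCast, ← pow_mul]
    have h2 : (0 : ℤ) ≤ (m₀ * m.natAbs : ℕ) + m := by
      have h3 : (m.natAbs : ℤ) ≤ ((m₀ * m.natAbs : ℕ) : ℤ) := by
        exact_mod_cast Nat.le_mul_of_pos_left _ hm₀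
      have h4 : -(m.natAbs : ℤ) ≤ m := by omega
      omega
    have h5 : v (ϖ ^ m.natAbs * x) ^ n ≤ 1 := by
      rw [h1]
      exact (zpow_le_one_iff_right_of_lt_one₀ hg0 hg1).2 h2
    exact (pow_le_one_iff_of_nonneg zero_le hn0).1 h5
  -- Step 3: the module `S`
  let inS : K → Prop := fun θ => ∀ x ∈ E, x ∈ A → ∑ i, t i (θ * x) ∈ A
  have hS1 : inS 1 := by
    intro x _ hxA
    rw [one_mul]
    exact sum_mem_of_mem A t hval hxA
  have hSmul : ∀ θ b : K, inS θ → b ∈ E → b ∈ A → inS (θ * b) := by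
    intro θ b hθ hbE hbA x hxE hxA
    rw [mul_assoc]
    exact hθ (b * x) (E.mul_mem hbE hxE) (A.mul_mem _ _ hbA hxA)
  have hnL : (n : K) ∈ L := natCast_mem L n
  set c : K := ((n : K) * lam)⁻¹ with hc
  have hcL : c ∈ L := L.inv_mem (L.mul_mem hnL hlamL)
  have hc0 : c ≠ 0 := inv_ne_zero (mul_ne_zero hn hlam0)
  have hcS : ¬ inS c := by
    intro h
    have h1 := h 1 E.one_mem A.one_mem
    have h0 : ∑ i, t i (c * 1) = lam⁻¹ := by
      rw [sum_mul_fixed t L hlin hcL]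
      simp only [map_one]
      rw [Finset.sum_const, Finset.card_univ, nsmul_eq_mul, mul_one, hc, mul_inv, mul_comm,
        ← mul_assoc, mul_inv_cancel₀ hn, one_mul]
    rw [h0, hmemA, map_inv₀] at h1
    have h2 : 1 < g⁻¹ := (one_lt_inv₀ hg0).2 hg1
    exact absurd h1 (not_le.2 h2)
  have hQ : ∃ k : ℕ, ¬ inS (ϖ⁻¹ ^ k) := by
    obtain ⟨k, hk⟩ := harch c (hLE hcL) hc0
    refine ⟨k, fun h => hcS ?_⟩
    have h1 := hSmul _ (ϖ ^ k * c) h (E.mul_mem (E.pow_mem hϖE k) (hLE hcL)) ((hmemA _).2 hk)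
    have h2 : ϖ⁻¹ ^ k * (ϖ ^ k * c) = c := by
      rw [← mul_assoc, ← mul_pow, inv_mul_cancel₀ hϖ0, one_pow, one_mul]
    rwa [h2] at h1
  have hk₀ : Nat.find hQ ≠ 0 := by
    intro h
    have h1 := Nat.find_spec hQ
    rw [h, pow_zero] at h1
    exact h1 hS1
  set k₀ := Nat.find hQ with hk₀def
  set θ₀ : K := ϖ⁻¹ ^ (k₀ - 1) with hθ₀
  have hθ₀E : θ₀ ∈ E := E.pow_mem (E.inv_mem hϖE) _
  have hθ₀S : inS θ₀ := by
    by_contra h
    have := Nat.find_min' hQ h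
    omega
  have hθ₀' : ¬ inS (ϖ⁻¹ * θ₀) := by
    have h1 := Nat.find_spec hQ
    have h2 : ϖ⁻¹ * θ₀ = ϖ⁻¹ ^ k₀ := by
      rw [hθ₀, ← pow_succ', Nat.sub_add_cancel (Nat.one_le_iff_ne_zero.2 hk₀)]
    rwa [h2]
  -- Step 4
  have hex : ∃ b, b ∈ E ∧ b ∈ A ∧ ∑ i, t i (ϖ⁻¹ * θ₀ * b) ∉ A := by
    by_contra h
    refine hθ₀' fun x hxE hxA => ?_
    by_contra h'
    exact h ⟨x, hxE, hxA, by rwa [mul_assoc] at h' ⊢⟩
  obtain ⟨b, hbE, hbA, hb⟩ := hex
  set r : K := ∑ i, t i (ϖ⁻¹ * θ₀ * b) with hr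
  have hyE : ϖ⁻¹ * θ₀ * b ∈ E := E.mul_mem (E.mul_mem (E.inv_mem hϖE) hθ₀E) hbE
  have hrL : r ∈ L := htr _ hyE
  have hr0 : r ≠ 0 := fun h => hb (by rw [h]; exact A.zero_mem)
  have hlϖ : v (lam * ϖ⁻¹) ≤ 1 := by
    rw [map_mul, map_inv₀]
    exact (mul_inv_le_iff₀ (zero_lt_iff.2 hvϖ0)).2 (by rw [one_mul]; exact hgϖ)
  have hlr : lam * r ∈ A := by
    have h1 : lam * r = ∑ i, t i (θ₀ * (lam * ϖ⁻¹ * b)) := by
      rw [hr, ← sum_mul_fixed t L hlin hlamL]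
      refine Finset.sum_congr rfl fun i _ => ?_
      refine congrArg (t i) ?_
      ring
    rw [h1]
    refine hθ₀S _ (E.mul_mem (E.mul_mem (hLE hlamL) (E.inv_mem hϖE)) hbE) ?_
    exact A.mul_mem _ _ ((hmemA _).2 hlϖ) hbA
  obtain ⟨m, hm⟩ := hVG r hrL hr0
  have hvr : 1 < v r := not_le.1 fun h => hb ((hmemA _).2 h)
  have hm1 : m < 0 := by
    rw [hm] at hvr
    exact (one_lt_zpow_iff_right_of_lt_one₀ hg0 hg1).1 hvr
  have hm2 : 0 ≤ m + 1 := by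
    have h1 : v (lam * r) ≤ 1 := (hmemA _).1 hlr
    rw [map_mul, hm, ← zpow_one_add₀ hg0.ne'] at h1
    have := (zpow_le_one_iff_right_of_lt_one₀ hg0 hg1).1 h1
    omega
  have hm3 : m = -1 := by omega
  set u : K := lam * r with hu
  have hu0 : u ≠ 0 := mul_ne_zero hlam0 hr0
  have huL : u ∈ L := L.mul_mem hlamL hrL
  have hvu : v u = 1 := by
    rw [hu, map_mul, hm, hm3, zpow_neg_one]
    exact mul_inv_cancel₀ hg0.ne'
  have huiL : u⁻¹ ∈ L := L.inv_mem huL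
  set θ : K := u⁻¹ * (lam * (ϖ⁻¹ * θ₀ * b)) with hθ
  have hθE : θ ∈ E := E.mul_mem (hLE huiL) (E.mul_mem (hLE hlamL) hyE)
  have hform : ∀ x : K, ∑ i, t i (θ * x) = u⁻¹ * (lam * ∑ i, t i (ϖ⁻¹ * θ₀ * b * x)) := by
    intro x
    rw [← sum_mul_fixed t L hlin hlamL, ← sum_mul_fixed t L hlin huiL]
    refine Finset.sum_congr rfl fun i _ => ?_
    refine congrArg (t i) ?_
    rw [hθ]
    ring
  have hsmall : ∀ x ∈ E, v x < 1 → v (∑ i, t i (θ * x)) < 1 := by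
    intro x hxE hx1
    have hxϖ : v (x * ϖ⁻¹) ≤ 1 := by
      rw [map_mul, map_inv₀]
      exact (mul_inv_le_iff₀ (zero_lt_iff.2 hvϖ0)).2 (by rw [one_mul]; exact hϖmin x hxE hx1)
    have h1 : ∑ i, t i (ϖ⁻¹ * θ₀ * b * x) = ∑ i, t i (θ₀ * (b * (x * ϖ⁻¹))) := by
      refine Finset.sum_congr rfl fun i _ => ?_
      refine congrArg (t i) ?_
      ring
    have h2 : ∑ i, t i (θ₀ * (b * (x * ϖ⁻¹))) ∈ A :=
      hθ₀S _ (E.mul_mem hbE (E.mul_mem hxE (E.inv_mem hϖE)))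
        (A.mul_mem _ _ hbA ((hmemA _).2 hxϖ))
    rw [hform, h1, map_mul, map_mul, map_inv₀, hvu, inv_one, one_mul]
    calc v lam * v (∑ i, t i (θ₀ * (b * (x * ϖ⁻¹)))) ≤ v lam * 1 :=
          mul_le_mul' (le_refl _) ((hmemA _).1 h2)
      _ = g := mul_one _
      _ < 1 := hg1
  have hone : ∑ i, t i θ = 1 := by
    have h1 := hform 1
    rw [mul_one] at h1
    rw [h1]
    have h2 : ∑ i, t i (ϖ⁻¹ * θ₀ * b * 1) = r := by rw [mul_one]
    rw [h2, ← hu, inv_mul_cancel₀ hu0]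
  refine ⟨θ, hθE, hone, ?_, hsmall⟩
  intro x hxE hxA
  obtain ⟨y, hyL, hyA, hxy⟩ := hres x hxE hxA
  have h2 : ∑ i, t i (θ * y) = y := by
    have h3 : ∑ i, t i (θ * y) = ∑ i, t i (y * θ) :=
      Finset.sum_congr rfl fun i _ => by rw [mul_comm]
    rw [h3, sum_mul_fixed t L hlin hyL, hone, mul_one]
  have h1 : ∑ i, t i (θ * x) = ∑ i, t i (θ * y) + ∑ i, t i (θ * (x - y)) := by
    rw [← Finset.sum_add_distrib]
    refine Finset.sum_congr rfl fun i _ => ?_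
    rw [← map_add]
    refine congrArg (t i) ?_
    ring
  rw [h1, h2]
  refine A.add_mem _ _ hyA ((hmemA _).2 ?_)
  exact (hsmall (x - y) (E.sub_mem hxE (hLE hyL)) hxy).le

end KRatProj

end Fermat.Agent.T8.helper7
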