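import Fermat.Agent.T8.helper7_KRatTheta

/-!
# T8 (row 38 via S44), box [K-RAT], service for (KR2) (helper7): the trace of an integral root

`H` a subgroup of `Gal(ℚ̄/ℚ)`, `H₀ = {σ ∈ H : σ = id on E0}`, `g : I → H` representatives of
`H / H₀`, `θ` a weight as in `helper29.ThetaStatement` (`helper7.thetaStatement`).  For an
integral series `Z` with `red A Z = 1` whose coefficients are fixed by `H₀`:

* `coeff_traceSeries`    : `coeff_n (∑ i, C (g i θ) * cwAct (g i) Z) = ∑ i, g i (θ * coeff_n Z)`;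
* `exists_incl_of_coeff_mem` : a series with coefficients in `A` is `incl A Y`;
* `exists_root_of_theta` : **`∑ i, C (g i θ) * cwAct (g i) (incl A Z) = incl A Y` with
  `red A Y = 1` and `Y` coefficientwise fixed by `H`** (for `H = muFix p ⊓ IA A` the last clause
  is `helper29.RootFix A p Y`).
-/

set_option autoImplicit false
set_option linter.unusedSectionVars false
set_option linter.unusedVariables false
set_option linter.style.longLine false
set_option linter.style.haveILetI false

noncomputable section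

namespace Fermat.Agent.T8.helper7

open ModularCurve
open Fermat.Agent.S18.helper19 Fermat.Agent.P2.helper29
open Fermat.Agent.T8.helper65 (cwAct)

/-- the weighted trace of a series -/
def traceSeries {I : Type} [Fintype I] (g : I → (Kb ≃ₐ[ℚ] Kb)) (θ : Kb)
    (F : LaurentSeries Kb) : LaurentSeries Kb :=
  ∑ i, HahnSeries.C (g i θ) * cwAct (g i) F

theorem coeff_traceSeries {I : Type} [Fintype I] (g : I → (Kb ≃ₐ[ℚ] Kb)) (θ : Kb)
    (F : LaurentSeries Kb) (n : ℤ) :
    (traceSeries g θ F).coeff n = ∑ i, g i (θ * F.coeff n) := by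
  unfold traceSeries
  rw [HahnSeries.coeff_sum]
  refine Finset.sum_congr rfl fun i _ => ?_
  rw [HahnSeries.C_mul_eq_smul, HahnSeries.coeff_smul, smul_eq_mul, map_mul]
  rfl

/-- a series with coefficients in `A` is integral -/
theorem exists_incl_of_coeff_mem (A : ValuationSubring Kb) (f : LaurentSeries Kb)
    (hf : ∀ n, f.coeff n ∈ A) :
    ∃ Y : LaurentSeries A, incl A Y = f ∧ ∀ n, ((Y.coeff n : A) : Kb) = f.coeff n := by
  refine ⟨⟨fun n => ⟨f.coeff n, hf n⟩, ?_⟩, ?_, fun n => rfl⟩
  · refine f.isPWO_support.mono ?_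
    intro n hn
    rw [Function.mem_support] at hn
    rw [HahnSeries.mem_support]
    intro h0
    exact hn (Subtype.ext h0)
  · ext n
    rfl

/-- **the trace of an integral root of reduction `1`** -/
theorem exists_root_of_theta (A : ValuationSubring Kb) (H : Subgroup (Kb ≃ₐ[ℚ] Kb))
    (E0 : IntermediateField ℚ Kb) {I : Type} [Fintype I] (g : I → (Kb ≃ₐ[ℚ] Kb))
    (hg : ∀ i, g i ∈ H) (huniq : ∀ σ ∈ H, ∃! i, ∀ e ∈ E0, σ e = g i e)
    (θ : Kb) (hθ : ∀ σ ∈ H, (∀ e ∈ E0, σ e = e) → σ θ = θ) (h1 : ∑ i, g i θ = 1)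
    (h3 : ∀ x, A.valuation x < 1 → (∀ σ ∈ H, (∀ e ∈ E0, σ e = e) → σ x = x) →
      A.valuation (∑ i, g i (θ * x)) < 1)
    (Z : LaurentSeries A) (hr : red A Z = 1)
    (hZ : ∀ σ ∈ H, (∀ e ∈ E0, σ e = e) → cwAct σ (incl A Z) = incl A Z) :
    ∃ Y : LaurentSeries A, incl A Y = ∑ i, HahnSeries.C (g i θ) * cwAct (g i) (incl A Z) ∧
      red A Y = 1 ∧ ∀ σ ∈ H, cwAct σ (incl A Y) = incl A Y := by
  classical
  -- the coefficients of `Z`
  have hzfix : ∀ n : ℤ, ((Z.coeff n : A) : Kb) ∈ fixOver H E0 := by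
    intro n σ hσ hσE
    have h := congrArg (fun F : LaurentSeries Kb => F.coeff n) (hZ σ hσ hσE)
    exact h
  have hzres : ∀ n : ℤ, IsLocalRing.residue A (Z.coeff n) = (1 : LaurentSeries (kA A)).coeff n := by
    intro n
    have h := congrArg (fun F : LaurentSeries (kA A) => F.coeff n) hr
    exact h
  have hθE : θ ∈ fixOver H E0 := hθ
  have hsmall : ∀ n : ℤ, n ≠ 0 → A.valuation ((Z.coeff n : A) : Kb) < 1 := by
    intro n hn
    have h := hzres n
    rw [HahnSeries.coeff_one, if_neg hn, IsLocalRing.residue_eq_zero_iff,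
      A.valuation_lt_one_iff] at h
    exact h
  have hzero : A.valuation (((Z.coeff 0 : A) : Kb) - 1) < 1 := by
    have h := hzres 0
    rw [HahnSeries.coeff_one, if_pos rfl, ← sub_eq_zero, ← map_one (IsLocalRing.residue A),
      ← map_sub, IsLocalRing.residue_eq_zero_iff, A.valuation_lt_one_iff] at h
    exact h
  -- the coefficients of the trace
  set T : LaurentSeries Kb := traceSeries g θ (incl A Z) with hT
  have hTc : ∀ n : ℤ, T.coeff n = ∑ i, g i (θ * ((Z.coeff n : A) : Kb)) := fun n =>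
    coeff_traceSeries g θ (incl A Z) n
  have hTsmall : ∀ n : ℤ, n ≠ 0 → A.valuation (T.coeff n) < 1 := by
    intro n hn
    rw [hTc]
    exact h3 _ (hsmall n hn) (hzfix n)
  have hTzero : A.valuation (T.coeff 0 - 1) < 1 := by
    have e : T.coeff 0 - 1 = ∑ i, g i (θ * (((Z.coeff 0 : A) : Kb) - 1)) := by
      have e1 : ∑ i, g i (θ * (((Z.coeff 0 : A) : Kb) - 1)) =
          ∑ i, g i (θ * ((Z.coeff 0 : A) : Kb)) - ∑ i, g i θ := by
        rw [← Finset.sum_sub_distrib]
        refine Finset.sum_congr rfl fun i _ => ?_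
        rw [← map_sub]
        refine congrArg (g i) ?_
        ring
      rw [e1, h1, hTc]
    rw [e]
    exact h3 _ hzero ((fixOver H E0).sub_mem (hzfix 0) (fixOver H E0).one_mem)
  have hTmem : ∀ n : ℤ, T.coeff n ∈ A := by
    intro n
    by_cases hn : n = 0
    · have h : T.coeff n = (T.coeff 0 - 1) + 1 := by rw [hn]; ring
      rw [h]
      exact A.add_mem _ _ ((A.valuation_le_one_iff _).1 hTzero.le) A.one_mem
    · exact (A.valuation_le_one_iff _).1 (hTsmall n hn).le
  obtain ⟨Y, hY, hYc⟩ := exists_incl_of_coeff_mem A T hTmem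
  refine ⟨Y, hY, ?_, ?_⟩
  · ext n
    show IsLocalRing.residue A (Y.coeff n) = (1 : LaurentSeries (kA A)).coeff n
    rw [HahnSeries.coeff_one]
    by_cases hn : n = 0
    · rw [if_pos hn, ← sub_eq_zero, ← map_one (IsLocalRing.residue A), ← map_sub,
        IsLocalRing.residue_eq_zero_iff, A.valuation_lt_one_iff]
      have e : (((Y.coeff n - 1 : A)) : Kb) = T.coeff 0 - 1 := by
        rw [← hn, ← hYc n]
        rfl
      rw [e]
      exact hTzero
    · rw [if_neg hn, IsLocalRing.residue_eq_zero_iff, A.valuation_lt_one_iff, hYc n]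
      exact hTsmall n hn
  · intro σ hσ
    rw [hY]
    ext n
    show σ (T.coeff n) = T.coeff n
    rw [hTc]
    exact sum_mem_fixAll hg huniq ((fixOver H E0).mul_mem hθE (hzfix n)) σ hσ

end Fermat.Agent.T8.helper7

end
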