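import Mathlib

/-!
# T8 [REAL-OCC] (helper7): the algebra core (Mathlib only)

* `exists_ne_zero_forall_smul_eq_zero` : a finite module `V` over a commutative ring with
  `I V ≠ V` contains a nonzero element killed by `I`.
* `exists_notMem_forall_smul_mem` : the same for `V = X ⧸ N`.
* `smul_top_ne_top_of_faithful` : Nakayama, `I X ≠ X` for a finite module on which no element of
  `1 + I` acts as zero.
* `eq_zero_of_forall_pow_smul` : `⋂ pⁿ X = 0` in a finite free `ℤ`-module.
-/

set_option autoImplicit false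
set_option linter.style.haveILetI false
set_option linter.deprecated false

namespace Fermat.Agent.T8.helper7

/-- **finite-length lemma**: a finite module `V` with `I V ≠ V` contains a nonzero element
killed by `I`. -/
theorem exists_ne_zero_forall_smul_eq_zero {R V : Type*} [CommRing R] [AddCommGroup V]
    [Module R V] [Finite V] (I : Ideal R) (hI : I • (⊤ : Submodule R V) ≠ ⊤) :
    ∃ v : V, v ≠ 0 ∧ ∀ r ∈ I, r • v = 0 := by
  haveI : IsArtinian R V := isArtinian_of_finite
  haveI : IsNoetherian R V := isNoetherian_of_finite R V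
  let f : ℕ →o (Submodule R V)ᵒᵈ :=
    ⟨fun k => OrderDual.toDual (I ^ k • (⊤ : Submodule R V)), fun a b hab =>
      OrderDual.toDual_le_toDual.mpr (Submodule.smul_mono_left (Ideal.pow_le_pow_right hab))⟩
  obtain ⟨n, hn⟩ := IsArtinian.monotone_stabilizes f
  have hst : I ^ n • (⊤ : Submodule R V) = I ^ (n + 1) • (⊤ : Submodule R V) :=
    congrArg OrderDual.ofDual (hn (n + 1) (Nat.le_succ n))
  have hle : I ^ n • (⊤ : Submodule R V) ≤ I • (I ^ n • (⊤ : Submodule R V)) := by
    rw [← Submodule.mul_smul, ← pow_succ']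
    exact hst.le
  obtain ⟨r, hr1, hr2⟩ := Submodule.exists_sub_one_mem_and_smul_eq_zero_of_fg_of_le_smul I
    (I ^ n • (⊤ : Submodule R V)) (IsNoetherian.noetherian _) hle
  -- `r` does not kill `V`
  have hv0 : ∃ v₀ : V, r • v₀ ≠ 0 := by
    by_contra hcon
    simp only [not_exists, ne_eq, not_not] at hcon
    apply hI
    rw [eq_top_iff]
    intro v _
    have h1 : v = -((r - 1) • v) := by
      rw [sub_smul, hcon v, one_smul, zero_sub, neg_neg]
    rw [h1]
    exact Submodule.neg_mem _ (Submodule.smul_mem_smul hr1 Submodule.mem_top)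
  obtain ⟨v₀, hv₀⟩ := hv0
  have hex : ∃ k : ℕ, ¬ ∃ a ∈ I ^ k, a • r • v₀ ≠ 0 := by
    refine ⟨n, ?_⟩
    rintro ⟨a, ha, hne⟩
    apply hne
    rw [smul_comm]
    exact hr2 _ (Submodule.smul_mem_smul ha Submodule.mem_top)
  classical
  have h0 : Nat.find hex ≠ 0 := by
    intro h0
    have := Nat.find_spec hex
    rw [h0] at this
    exact this ⟨1, by rw [pow_zero, Ideal.one_eq_top]; exact Submodule.mem_top, by rwa [one_smul]⟩
  obtain ⟨j, hj⟩ := Nat.exists_eq_succ_of_ne_zero h0
  have hQj : ∃ a ∈ I ^ j, a • r • v₀ ≠ 0 := by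
    have := Nat.find_min hex (m := j) (by rw [hj]; exact Nat.lt_succ_self j)
    exact not_not.mp this
  obtain ⟨a, ha, hne⟩ := hQj
  refine ⟨a • r • v₀, hne, fun b hb => ?_⟩
  by_contra hcon
  have := Nat.find_spec hex
  rw [hj] at this
  apply this
  refine ⟨b * a, ?_, ?_⟩
  · rw [Nat.succ_eq_add_one, pow_succ']
    exact Ideal.mul_mem_mul hb ha
  · rwa [mul_smul]

/-- the finite-length lemma for a quotient `X ⧸ N` -/
theorem exists_notMem_forall_smul_mem {R X : Type*} [CommRing R] [AddCommGroup X]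
    [Module R X] (N : Submodule R X) [Finite (X ⧸ N)] (I : Ideal R)
    (hI : I • (⊤ : Submodule R X) ⊔ N ≠ ⊤) :
    ∃ x : X, x ∉ N ∧ ∀ r ∈ I, r • x ∈ N := by
  have h1 : I • (⊤ : Submodule R (X ⧸ N)) ≠ ⊤ := by
    intro h
    apply hI
    have h2 : Submodule.map N.mkQ (I • (⊤ : Submodule R X)) = ⊤ := by
      rw [Submodule.map_smul'', Submodule.map_top, Submodule.range_mkQ, h]
    have h3 := congrArg (Submodule.comap N.mkQ) h2
    rw [Submodule.comap_map_eq, Submodule.ker_mkQ, Submodule.comap_top] at h3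
    exact h3
  obtain ⟨v, hv, hv'⟩ := exists_ne_zero_forall_smul_eq_zero I h1
  obtain ⟨x, rfl⟩ := N.mkQ_surjective v
  refine ⟨x, fun hx => hv ((Submodule.Quotient.mk_eq_zero N).mpr hx), fun r hr => ?_⟩
  have := hv' r hr
  rw [← map_smul] at this
  exact (Submodule.Quotient.mk_eq_zero N).mp this

/-- **Nakayama**: `I X ≠ X` for a finite module on which no element of `1 + I` acts as zero. -/
theorem smul_top_ne_top_of_faithful {R X : Type*} [CommRing R] [AddCommGroup X]
    [Module R X] [Module.Finite R X] (I : Ideal R)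
    (h : ∀ r : R, r - 1 ∈ I → (∀ x : X, r • x = 0) → False) :
    I • (⊤ : Submodule R X) ≠ ⊤ := by
  intro hI
  obtain ⟨r, hr1, hr2⟩ := Submodule.exists_sub_one_mem_and_smul_eq_zero_of_fg_of_le_smul I
    (⊤ : Submodule R X) Module.Finite.fg_top hI.ge
  exact h r hr1 fun x => hr2 x Submodule.mem_top

/-- `⋂ pⁿ X = 0` in a finite free `ℤ`-module -/
theorem eq_zero_of_forall_pow_smul {X : Type*} [AddCommGroup X] [Module.Free ℤ X]
    [Module.Finite ℤ X] {p : ℕ} (hp : 2 ≤ p) (y : X)
    (h : ∀ n : ℕ, ∃ z : X, y = p ^ n • z) : y = 0 := by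
  let e := Module.Free.chooseBasis ℤ X
  refine e.repr.injective ?_
  rw [map_zero]
  ext i
  rw [Finsupp.zero_apply]
  by_contra hne
  obtain ⟨z, hz⟩ := h (e.repr y i).natAbs
  have h1 : e.repr y i = (p : ℤ) ^ (e.repr y i).natAbs * e.repr z i := by
    conv_lhs => rw [hz]
    rw [map_nsmul, Finsupp.smul_apply, nsmul_eq_mul]
    push_cast
    rfl
  have h2 : ((p : ℤ) ^ (e.repr y i).natAbs).natAbs ∣ (e.repr y i).natAbs :=
    Int.natAbs_dvd_natAbs.mpr ⟨_, h1⟩
  rw [Int.natAbs_pow, Int.natAbs_natCast] at h2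
  have h3 : (e.repr y i).natAbs < p ^ (e.repr y i).natAbs := Nat.lt_pow_self hp
  exact absurd (Nat.le_of_dvd (Int.natAbs_pos.mpr hne) h2) (not_le.mpr h3)

end Fermat.Agent.T8.helper7
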