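import Mathlib
import Fermat.Agent.T8.helper7_OccAlg

set_option autoImplicit false
set_option linter.style.haveILetI false
set_option linter.unusedSectionVars false
set_option linter.unusedVariables false
set_option linter.deprecated false

noncomputable section

namespace Fermat.Agent.T8.helper7

section Core

variable {L : Type} {X : Type} [AddCommGroup X] [Module.Finite ℤ X]
  {𝕋 : Type} [CommRing 𝕋]

/-- the evaluation of word combinations at the operators `τ` -/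
def psiE (τ : L → Module.End ℤ X) : MonoidAlgebra ℤ (FreeMonoid L) →ₐ[ℤ] Module.End ℤ X :=
  MonoidAlgebra.lift ℤ (Module.End ℤ X) (FreeMonoid L) (FreeMonoid.lift τ)

/-- the evaluation of word combinations at the elements `t` -/
def psiT (t : L → 𝕋) : MonoidAlgebra ℤ (FreeMonoid L) →ₐ[ℤ] 𝕋 :=
  MonoidAlgebra.lift ℤ 𝕋 (FreeMonoid L) (FreeMonoid.lift t)

theorem psiE_apply (τ : L → Module.End ℤ X) (γ : MonoidAlgebra ℤ (FreeMonoid L)) (x : X) :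
    psiE τ γ x = Finsupp.sum (γ.coeff : List L →₀ ℤ)
      (fun (w : List L) (a : ℤ) => a • (List.map τ w).prod x) := by
  rw [psiE, MonoidAlgebra.lift_apply, Finsupp.sum, LinearMap.sum_apply, Finsupp.sum]
  refine Finset.sum_congr rfl fun w _ => ?_
  rw [LinearMap.smul_apply, FreeMonoid.lift_apply]
  rfl

theorem psiT_apply (t : L → 𝕋) (γ : MonoidAlgebra ℤ (FreeMonoid L)) :
    psiT t γ = Finsupp.sum (γ.coeff : List L →₀ ℤ)
      (fun (w : List L) (a : ℤ) => a • (List.map t w).prod) := by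
  rw [psiT, MonoidAlgebra.lift_apply, Finsupp.sum, Finsupp.sum]
  refine Finset.sum_congr rfl fun w _ => ?_
  rw [FreeMonoid.lift_apply]
  rfl

theorem psiE_of (τ : L → Module.End ℤ X) (ℓ : L) :
    psiE τ (MonoidAlgebra.of ℤ (FreeMonoid L) (FreeMonoid.of ℓ)) = τ ℓ := by
  rw [psiE, MonoidAlgebra.lift_of, FreeMonoid.lift_eval_of]

theorem psiT_of (t : L → 𝕋) (ℓ : L) :
    psiT t (MonoidAlgebra.of ℤ (FreeMonoid L) (FreeMonoid.of ℓ)) = t ℓ := by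
  rw [psiT, MonoidAlgebra.lift_of, FreeMonoid.lift_eval_of]

/-- every element of the ring generated by the pairs `(τ ℓ, t ℓ)` is the value of a word
combination -/
theorem exists_psi_of_mem_closure (τ : L → Module.End ℤ X) (t : L → 𝕋)
    (r : Module.End ℤ X × 𝕋) (hr : r ∈ Subring.closure (Set.range fun ℓ : L => (τ ℓ, t ℓ))) :
    ∃ γ : MonoidAlgebra ℤ (FreeMonoid L), r.1 = psiE τ γ ∧ r.2 = psiT t γ := by
  induction hr using Subring.closure_induction with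
  | mem x hx =>
    obtain ⟨ℓ, rfl⟩ := hx
    exact ⟨MonoidAlgebra.of ℤ (FreeMonoid L) (FreeMonoid.of ℓ), (psiE_of τ ℓ).symm,
      (psiT_of t ℓ).symm⟩
  | zero => exact ⟨0, by rw [map_zero]; rfl, by rw [map_zero]; rfl⟩
  | one => exact ⟨1, by rw [map_one]; rfl, by rw [map_one]; rfl⟩
  | add x y _ _ hx hy =>
    obtain ⟨γ, h1, h2⟩ := hx
    obtain ⟨γ', h1', h2'⟩ := hy
    exact ⟨γ + γ', by rw [map_add, ← h1, ← h1']; rfl, by rw [map_add, ← h2, ← h2']; rfl⟩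
  | neg x _ hx =>
    obtain ⟨γ, h1, h2⟩ := hx
    exact ⟨-γ, by rw [map_neg, ← h1]; rfl, by rw [map_neg, ← h2]; rfl⟩
  | mul x y _ _ hx hy =>
    obtain ⟨γ, h1, h2⟩ := hx
    obtain ⟨γ', h1', h2'⟩ := hy
    exact ⟨γ * γ', by rw [map_mul, ← h1, ← h1']; rfl, by rw [map_mul, ← h2, ← h2']; rfl⟩

/-- **[REAL-OCC], abstract core**: a common eigenvector modulo `p`. -/
theorem exists_eigen_mod_p (p : ℕ) (hp : 0 < p)
    (τ : L → Module.End ℤ X) (hcomm : ∀ a b : L, τ a * τ b = τ b * τ a) (t : L → 𝕋)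
    (hfaith : ∀ c : List L →₀ ℤ, (∀ x : X, (c.sum fun w a => a • (w.map τ).prod x) = 0) →
      (c.sum fun w a => a • (w.map t).prod) = 0)
    {Z : Type} [CommRing Z] (χ : 𝕋 →+* Z) (𝔪 : Ideal Z) (h𝔪 : 𝔪 ≠ ⊤) (hp𝔪 : (p : Z) ∈ 𝔪)
    (a : L → ℤ) (ha : ∀ ℓ, χ (t ℓ) - (a ℓ : Z) ∈ 𝔪) :
    ∃ x : X, (¬ ∃ y : X, x = p • y) ∧ ∀ ℓ, ∃ y : X, τ ℓ x - a ℓ • x = p • y := by
  classical
  have hs : ∀ u ∈ (Set.range fun ℓ : L => (τ ℓ, t ℓ)), ∀ v ∈ (Set.range fun ℓ : L => (τ ℓ, t ℓ)),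
      u * v = v * u := by
    rintro _ ⟨ℓ, rfl⟩ _ ⟨ℓ', rfl⟩
    exact Prod.ext (hcomm ℓ ℓ') (mul_comm _ _)
  letI : CommRing (Subring.closure (Set.range fun ℓ : L => (τ ℓ, t ℓ))) :=
    Subring.closureCommRingOfComm hs
  let 𝔸 := Subring.closure (Set.range fun ℓ : L => (τ ℓ, t ℓ))
  let φ : 𝔸 →+* Module.End ℤ X := (RingHom.fst (Module.End ℤ X) 𝕋).comp 𝔸.subtype
  letI : Module 𝔸 X := Module.compHom X φ
  have hsmul : ∀ (r : 𝔸) (x : X), r • x = r.1.1 x := fun r x => rfl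
  haveI : Module.Finite 𝔸 X := Module.Finite.of_restrictScalars_finite ℤ 𝔸 X
  let χ' : 𝔸 →+* Z := χ.comp ((RingHom.snd (Module.End ℤ X) 𝕋).comp 𝔸.subtype)
  have hχ' : ∀ r : 𝔸, χ' r = χ r.1.2 := fun r => rfl
  let 𝔫 : Ideal 𝔸 := Ideal.comap χ' 𝔪
  have h1𝔪 : (1 : Z) ∉ 𝔪 := fun h => h𝔪 ((Ideal.eq_top_iff_one 𝔪).mpr h)
  -- Nakayama
  have hnak : 𝔫 • (⊤ : Submodule 𝔸 X) ≠ ⊤ := by
    refine smul_top_ne_top_of_faithful 𝔫 fun r hr1 hr2 => ?_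
    obtain ⟨γ, hγ1, hγ2⟩ := exists_psi_of_mem_closure τ t r.1 r.2
    have h0 : ∀ x : X, (Finsupp.sum (γ.coeff : List L →₀ ℤ)
        (fun (w : List L) (a : ℤ) => a • (List.map τ w).prod x)) = 0 := by
      intro x
      rw [← psiE_apply, ← hγ1, ← hsmul, hr2 x]
    have h2' := hfaith _ h0
    have h2 : r.1.2 = 0 := hγ2.trans ((psiT_apply t γ).trans h2')
    have h3 : χ' (r - 1) ∈ 𝔪 := hr1
    rw [map_sub, map_one, hχ', h2, map_zero, zero_sub] at h3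
    exact h1𝔪 (by simpa using 𝔪.neg_mem h3)
  -- the submodule `p X`
  let N : Submodule 𝔸 X :=
    { carrier := {x | ∃ y : X, x = p • y}
      add_mem' := by
        rintro _ _ ⟨y, rfl⟩ ⟨y', rfl⟩
        exact ⟨y + y', (nsmul_add y y' p).symm⟩
      zero_mem' := ⟨0, (nsmul_zero p).symm⟩
      smul_mem' := by
        rintro r _ ⟨y, rfl⟩
        exact ⟨r • y, by rw [hsmul, hsmul, map_nsmul]⟩ }
  have hN : ∀ x : X, x ∈ N ↔ ∃ y : X, x = p • y := fun x => Iff.rfl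
  have hp𝔫 : (p : 𝔸) ∈ 𝔫 := by
    show χ' (p : 𝔸) ∈ 𝔪
    rw [map_natCast]
    exact hp𝔪
  have hNle : N ≤ 𝔫 • (⊤ : Submodule 𝔸 X) := by
    rintro _ ⟨y, rfl⟩
    rw [← Nat.cast_smul_eq_nsmul 𝔸 p y]
    exact Submodule.smul_mem_smul hp𝔫 Submodule.mem_top
  haveI : Finite (X ⧸ N) := by
    haveI : Module.Finite ℤ (X ⧸ N) :=
      Module.Finite.of_surjective (N.mkQ.toAddMonoidHom.toIntLinearMap) N.mkQ_surjective
    haveI : AddGroup.FG (X ⧸ N) := Module.Finite.iff_addGroup_fg.mp inferInstance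
    refine AddCommGroup.finite_of_fg_torsion _ fun v => ?_
    obtain ⟨x, rfl⟩ := N.mkQ_surjective v
    rw [isOfFinAddOrder_iff_nsmul_eq_zero]
    refine ⟨p, hp, ?_⟩
    rw [← map_nsmul]
    exact (Submodule.Quotient.mk_eq_zero N).mpr ⟨x, rfl⟩
  obtain ⟨x, hx1, hx2⟩ := exists_notMem_forall_smul_mem N 𝔫
    (by rw [sup_eq_left.mpr hNle]; exact hnak)
  refine ⟨x, hx1, fun ℓ => ?_⟩
  let g : 𝔸 := ⟨(τ ℓ, t ℓ), Subring.subset_closure ⟨ℓ, rfl⟩⟩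
  have hg : g - (a ℓ : 𝔸) ∈ 𝔫 := by
    show χ' (g - (a ℓ : 𝔸)) ∈ 𝔪
    rw [map_sub, map_intCast]
    exact ha ℓ
  have h4 := hx2 _ hg
  rw [sub_smul, Int.cast_smul_eq_zsmul] at h4
  exact h4

end Core

end Fermat.Agent.T8.helper7

end
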