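import Fermat.Agent.T8.helper7_RealAsm
import Fermat.Agent.T8.helper7_OccCore
import Fermat.Agent.P3.helper16_AnUncond
import Fermat.Agent.P3.helper54_EigenChar
import Fermat.Agent.P3.helper1_TateGeom

/-!
# T8 [REAL-OCC] (helper7): the eigensystem of `W` mod `p` occurs in `J₀(M)[p]`

`occStatement : OccStatement` (unconditional), from P3 [KAPPA] (`helper16.kappaStatement`, every
level), the eigen-character (`helper54.eigenCharStatement`), the commutation of the Hecke
operators on `p`-power torsion (`helper1.hecke_comm_of_isPTors` + `p2Core_all`) and the abstract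
core `exists_eigen_mod_p` (Nakayama + finite length).
-/

set_option autoImplicit false
set_option linter.unusedSectionVars false
set_option linter.style.longLine false
set_option linter.unusedVariables false
set_option linter.style.haveILetI false

noncomputable section

namespace Fermat.Agent.T8.helper7

open ModularCurve WeierstrassCurve WeierstrassCurve.Affine WeierstrassCurve.Affine.Point
open Fermat.Agent.P3 Fermat.Agent.T8.helper72

/-- words of operators as products in `Module.End ℤ X` -/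
theorem wordEnd_eq_prod {X : Type} [AddCommGroup X] {L : Type} (T : Nat.Primes → X →+ X)
    (u : L → Nat.Primes) (w : List L) (x : X) :
    wordEnd T (w.map u) x = (List.map (fun ℓ => (T (u ℓ)).toIntLinearMap) w).prod x := by
  induction w generalizing x with
  | nil => rfl
  | cons ℓ w ih =>
    rw [List.map_cons, List.map_cons, List.prod_cons]
    show T (u ℓ) (wordEnd T (w.map u) x) = _
    rw [ih]
    rfl

/-- **[REAL-OCC]**: the eigensystem of `W` mod `p` occurs in `J₀(M)[p]`. -/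
theorem occStatement : OccStatement := by
  intro P M _ W hW hres
  obtain ⟨f, 𝔪, hf, h𝔪, hp𝔪, hcong⟩ := hres
  have hΔ : W.Δ ≠ 0 := Δ_ne_zero_of_model (freyCurve_Δ_ne_zero_real P) hW
  have hMp : M * P.p ≠ 0 := mul_ne_zero (NeZero.ne M) P.pp.ne_zero
  have hS : ∀ q : ℕ, q.Prime → q ∣ M → q ∈ badSet P W M := fun q hq hqM =>
    Finset.mem_union_left _ (Nat.mem_primeFactors.2 ⟨hq, Dvd.dvd.mul_right hqM _, hMp⟩)
  obtain ⟨χ, hχ⟩ := Fermat.Agent.P3.helper54.eigenCharStatement M (badSet P W M) hS f hf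
  obtain ⟨X, iX1, iX2, iX3, Tst, κ, h1, h2, h3, h4, h5⟩ :=
    Fermat.Agent.P3.helper16.kappaStatement M P.p M (badSet P W M) (dvd_refl M) P.pp.pos
  letI := iX1
  haveI := iX2
  haveI := iX3
  let τ : GoodPrime P.p M (badSet P W M) → Module.End ℤ X :=
    fun ℓ => (Tst ℓ.toPrimes).toIntLinearMap
  have hcomm : ∀ a b : GoodPrime P.p M (badSet P W M), τ a * τ b = τ b * τ a := by
    intro a b
    refine LinearMap.ext fun x => ?_
    show Tst a.toPrimes (Tst b.toPrimes x) = Tst b.toPrimes (Tst a.toPrimes x)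
    rw [← sub_eq_zero]
    refine eq_zero_of_forall_pow_smul P.pp.two_le _ fun n => ?_
    refine h2 n _ ?_
    rw [_root_.map_sub, h4 n a, h4 n b, h4 n b, h4 n a, sub_eq_zero]
    exact (Fermat.Agent.P3.helper1.hecke_comm_of_isPTors (p2Core_all M P.p)
      (Fermat.Agent.P3.helper10.galHeckeComm M) b.2.1 b.2.2.1 a.toPrimes (κ n x)
      ⟨n, h1 n x⟩)
  have hfaith : ∀ c : List (GoodPrime P.p M (badSet P W M)) →₀ ℤ,
      (∀ x : X, (c.sum fun w a => a • (w.map τ).prod x) = 0) →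
      (c.sum fun w a => a • (w.map (goodT (dvd_refl M))).prod) = 0 := by
    intro c hc
    refine h5 c fun x => ?_
    rw [← hc x]
    refine Finset.sum_congr rfl fun w _ => ?_
    show c w • wordEnd Tst (w.map GoodPrime.toPrimes) x = c w • (w.map τ).prod x
    rw [wordEnd_eq_prod]
  have hgood : ∀ ℓ : GoodPrime P.p M (badSet P W M), W.IsGoodPrimeFor ℓ.1 := fun ℓ =>
    Fermat.Agent.P6.helper31.isGoodPrimeFor_of_notMem_primeFactors ℓ.2.1 hΔ
      (fun h => ℓ.2.2.2 (Finset.mem_union_right _ h))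
  have ha : ∀ ℓ : GoodPrime P.p M (badSet P W M),
      χ (goodT (dvd_refl M) ℓ) - ((W.apOfModel ℓ.1 : ℤ) : integralClosure ℤ ℂ) ∈ 𝔪 := by
    intro ℓ
    have hℓM : ¬ ℓ.1 ∣ M := fun h => ℓ.2.2.1 (Dvd.dvd.mul_right h _)
    have hℓp : ℓ.1 ≠ P.p := by
      intro h
      apply ℓ.2.2.1
      rw [h]
      exact Dvd.intro_left M rfl
    obtain ⟨a, ha1, ha2⟩ := hcong ℓ.1 ℓ.2.1 (hgood ℓ) hℓM hℓp
    have h6 : χ (goodT (dvd_refl M) ℓ) = a :=
      Subtype.ext ((hχ ℓ.1 ℓ.2.1 hℓM (fun h => ℓ.2.2.2 (Finset.mem_coe.mp h))).trans ha1.symm)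
    rw [h6]
    exact ha2
  obtain ⟨x, hx1, hx2⟩ := exists_eigen_mod_p P.p P.pp.pos τ hcomm (goodT (dvd_refl M)) hfaith
    χ 𝔪 h𝔪.ne_top hp𝔪 (fun ℓ => W.apOfModel ℓ.1) ha
  refine ⟨κ 1 x, ⟨?_, ?_⟩, ?_⟩
  · have := h1 1 x
    rwa [pow_one] at this
  · intro ℓ hgd hℓM hℓp
    have hℓMp : ¬ (ℓ : ℕ) ∣ M * P.p := fun h =>
      (ℓ.2.dvd_mul.mp h).elim hℓM fun h' => hℓp ((Nat.prime_dvd_prime_iff_eq ℓ.2 P.pp).mp h')
    have hℓS : (ℓ : ℕ) ∉ badSet P W M := by
      intro h
      rcases Finset.mem_union.mp h with h | h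
      · exact hℓMp (Nat.dvd_of_mem_primeFactors h)
      · exact hgd (Int.natCast_dvd.mpr (Nat.dvd_of_mem_primeFactors h))
    obtain ⟨y, hy⟩ := hx2 ⟨ℓ.1, ℓ.2, hℓMp, hℓS⟩
    have h7 := h4 1 ⟨ℓ.1, ℓ.2, hℓMp, hℓS⟩ x
    have h8 : Tst ℓ x = W.apOfModel (ℓ : ℕ) • x + P.p • y := by
      rw [← hy]
      show Tst ℓ x = W.apOfModel (ℓ : ℕ) • x + (Tst ℓ x - W.apOfModel (ℓ : ℕ) • x)
      abel
    have h9 : κ 1 (Tst ℓ x) = heckeOperatorBar M ℓ (κ 1 x) := h7
    rw [← h9, h8, _root_.map_add, map_zsmul, map_nsmul]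
    have := h1 1 y
    rw [pow_one] at this
    rw [this, add_zero]
  · intro h0
    obtain ⟨y, hy⟩ := h2 1 x h0
    exact hx1 ⟨y, by rwa [pow_one] at hy⟩

end Fermat.Agent.T8.helper7

end
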