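import Mathlib
import Fermat.Prelude.Def_AlgebraicCurve_DivisorClassGroup

/-!
# T8 [CONCL], abstract core (helper80).  Mathlib + the prelude `Place` only.

Period-formula bookkeeping of the cover route (NOTES_helper16_T8_cover, section 4).

* `sheet_modEq_of_step`, `sheet_const_of_step` : the sheet valuations `A i` with
  `A (i + 1) = A i + δ` mod `p` are `A 0 + i δ`; they are constant mod `p` in the peu ramifie
  case `p ∣ δ`.
* `ord_modEq_of_slope` : at ONE closed point `Q` of the special fibre: from the divisibility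
  `p ∣ ord_Q (F₀ * ν ^ (A - B))` (the slope lemma for the norm `U₀ xx^(-A) y^(-B)`),
  `F₀ = c f^(p-1)` (norm over the tame field) and `f g^p = c' f_x` (descent `u' = u_x / h^p`):
  `ord_Q f_x = (A - B) ord_Q ν` mod `p`.  Smooth points are the case `ord_Q ν = 0`.
* `ord_modEq_of_slope_smooth` : the same at a point with `ord_Q ν = 0`.
* `concl_uniform` : all points at once, sheets depending on the point, peu ramifie case:
  one `β` with `ord_Q f_x = β ord_Q ν` mod `p` for all `Q` in a given set.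
* `ord_modEq_of_class` : a function `f_u = c f_x^b g^p` (class `a l₀ + b x`) has
  `ord_Q f_u = b β ord_Q ν`.
* `beta_eq_zero_of_eigen` : the arithmetic of the Eisenstein step.
-/

set_option autoImplicit false

namespace Fermat.Agent.T8.helper80

open AlgebraicCurve

section Sheets

variable {p : ℕ} [NeZero p]

/-- `A (i + 1) = A i + δ` mod `p` on `ZMod p` gives `A i = A 0 + i δ` mod `p`. -/
theorem sheet_modEq_of_step (A : ZMod p → ℤ) (δ : ℤ)
    (hstep : ∀ i : ZMod p, A (i + 1) ≡ A i + δ [ZMOD p]) (i : ZMod p) :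
    A i ≡ A 0 + (i.val : ℤ) * δ [ZMOD p] := by
  have key : ∀ n : ℕ, A ((n : ℕ) : ZMod p) ≡ A 0 + (n : ℤ) * δ [ZMOD p] := by
    intro n
    induction n with
    | zero => simp [Int.ModEq.refl]
    | succ n ih =>
      have h1 := hstep ((n : ℕ) : ZMod p)
      have h2 : (((n + 1 : ℕ) : ZMod p)) = ((n : ℕ) : ZMod p) + 1 := by push_cast; rfl
      rw [h2]
      refine h1.trans ?_
      have h3 : A 0 + ((n + 1 : ℕ) : ℤ) * δ = (A 0 + (n : ℤ) * δ) + δ := by push_cast; ring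
      rw [h3]
      exact ih.add_right δ
  have h := key i.val
  rwa [ZMod.natCast_zmod_val] at h

/-- peu ramifie case: the sheet valuations are constant mod `p`. -/
theorem sheet_const_of_step (A : ZMod p → ℤ) (δ : ℤ)
    (hstep : ∀ i : ZMod p, A (i + 1) ≡ A i + δ [ZMOD p]) (hδ : (p : ℤ) ∣ δ) (i : ZMod p) :
    A i ≡ A 0 [ZMOD p] := by
  refine (sheet_modEq_of_step A δ hstep i).trans ?_
  have h0 : (i.val : ℤ) * δ ≡ 0 [ZMOD p] :=
    (Int.modEq_zero_iff_dvd).mpr (Dvd.dvd.mul_left hδ _)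
  simpa using (Int.ModEq.refl (A 0)).add h0

/-- the same for a step in the other direction `A (i + 1) = A i - δ`. -/
theorem sheet_const_of_step_neg (A : ZMod p → ℤ) (δ : ℤ)
    (hstep : ∀ i : ZMod p, A (i + 1) ≡ A i - δ [ZMOD p]) (hδ : (p : ℤ) ∣ δ) (i : ZMod p) :
    A i ≡ A 0 [ZMOD p] := by
  refine sheet_const_of_step A (-δ) (fun j => ?_) ((dvd_neg).mpr hδ) i
  simpa [sub_eq_add_neg] using hstep j

/-- both families at once: the difference `A i - B j` is constant mod `p`. -/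
theorem sheet_diff_const (A B : ZMod p → ℤ) (δ δ' : ℤ)
    (hA : ∀ i : ZMod p, A (i + 1) ≡ A i + δ [ZMOD p])
    (hB : ∀ j : ZMod p, B (j + 1) ≡ B j + δ' [ZMOD p])
    (hδ : (p : ℤ) ∣ δ) (hδ' : (p : ℤ) ∣ δ') (i j : ZMod p) :
    A i - B j ≡ A 0 - B 0 [ZMOD p] :=
  (sheet_const_of_step A δ hA hδ i).sub (sheet_const_of_step B δ' hB hδ' j)

end Sheets

section OnePoint

variable {k F : Type*} [Field k] [Field F] [Algebra k F] (Q : Place k F)

theorem ord_pow' (f : F) (m : ℕ) : Q.ord (f ^ m) = (m : ℤ) * Q.ord f := by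
  have h := Q.ord_zpow f (m : ℤ)
  rwa [zpow_natCast] at h

/-- **slope bookkeeping at one closed point.**  `F₀` = reduction of the normalised norm,
`f` = reduction of the normalised `u'`, `f_x` = reduction of the normalised `u_x`,
`g` = reduction of the normalised `h`, `ν` = reduction of `b₀`. -/
theorem ord_modEq_of_slope {p : ℕ} (hp : 0 < p) {F₀ f fx g ν c c' : F} (A B : ℤ)
    (hf : f ≠ 0) (hfx : fx ≠ 0) (hg : g ≠ 0) (hν : ν ≠ 0) (hc : c ≠ 0) (hc' : c' ≠ 0)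
    (hordc : Q.ord c = 0) (hordc' : Q.ord c' = 0)
    (hF₀ : F₀ = c * f ^ (p - 1)) (hfg : f * g ^ p = c' * fx)
    (hslope : (p : ℤ) ∣ Q.ord (F₀ * ν ^ (A - B))) :
    Q.ord fx ≡ (A - B) * Q.ord ν [ZMOD p] := by
  have hfp : f ^ (p - 1) ≠ 0 := pow_ne_zero _ hf
  have hgp : g ^ p ≠ 0 := pow_ne_zero _ hg
  have hF₀ne : F₀ ≠ 0 := by rw [hF₀]; exact mul_ne_zero hc hfp
  have hνz : ν ^ (A - B) ≠ 0 := zpow_ne_zero _ hν
  have e1 : Q.ord (F₀ * ν ^ (A - B)) = ((p - 1 : ℕ) : ℤ) * Q.ord f + (A - B) * Q.ord ν := by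
    rw [Q.ord_mul hF₀ne hνz, hF₀, Q.ord_mul hc hfp, hordc, zero_add, ord_pow', Q.ord_zpow]
  have e2 : Q.ord f + (p : ℤ) * Q.ord g = Q.ord fx := by
    have h := congrArg Q.ord hfg
    rw [Q.ord_mul hf hgp, ord_pow', Q.ord_mul hc' hfx, hordc', zero_add] at h
    exact h
  have hp1 : ((p - 1 : ℕ) : ℤ) = (p : ℤ) - 1 := by
    rw [Nat.cast_sub hp]; simp
  rw [e1, hp1] at hslope
  -- (p - 1) ord f + (A - B) ord ν ≡ 0, ord f ≡ ord fx
  have h3 : (p : ℤ) ∣ (A - B) * Q.ord ν - Q.ord fx := by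
    have h4 : (A - B) * Q.ord ν - Q.ord fx
        = (((p : ℤ) - 1) * Q.ord f + (A - B) * Q.ord ν) - (p : ℤ) * (Q.ord f + Q.ord g) := by
      rw [← e2]; ring
    rw [h4]
    exact dvd_sub hslope (dvd_mul_right _ _)
  exact (Int.modEq_iff_dvd).mpr h3

/-- the same at a point where `ν` is a unit (smooth point of the component). -/
theorem ord_modEq_of_slope_smooth {p : ℕ} (hp : 0 < p) {F₀ f fx g c c' : F}
    (hf : f ≠ 0) (hfx : fx ≠ 0) (hg : g ≠ 0) (hc : c ≠ 0) (hc' : c' ≠ 0)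
    (hordc : Q.ord c = 0) (hordc' : Q.ord c' = 0)
    (hF₀ : F₀ = c * f ^ (p - 1)) (hfg : f * g ^ p = c' * fx)
    (hslope : (p : ℤ) ∣ Q.ord F₀) :
    (p : ℤ) ∣ Q.ord fx := by
  have h := ord_modEq_of_slope Q hp (ν := 1) (A := 0) (B := 0) hf hfx hg one_ne_zero hc hc'
    hordc hordc' hF₀ hfg (by simpa using hslope)
  simpa [Int.modEq_zero_iff_dvd] using h

/-- a Kummer function of the class `a l₀ + b x`: `f_u = c f_x ^ b g ^ p`. -/
theorem ord_modEq_of_class {p : ℕ} {fu fx g c : F} (b : ℕ) (β m : ℤ)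
    (hfx : fx ≠ 0) (hg : g ≠ 0) (hc : c ≠ 0) (hordc : Q.ord c = 0)
    (hfu : fu = c * fx ^ b * g ^ p)
    (hx : Q.ord fx ≡ β * m [ZMOD p]) :
    Q.ord fu ≡ (b : ℤ) * β * m [ZMOD p] := by
  have hfxb : fx ^ b ≠ 0 := pow_ne_zero _ hfx
  have hgp : g ^ p ≠ 0 := pow_ne_zero _ hg
  have e : Q.ord fu = (b : ℤ) * Q.ord fx + (p : ℤ) * Q.ord g := by
    rw [hfu, Q.ord_mul (mul_ne_zero hc hfxb) hgp, Q.ord_mul hc hfxb, hordc, zero_add,
      ord_pow', ord_pow']
  rw [e]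
  have h1 : (b : ℤ) * Q.ord fx ≡ (b : ℤ) * (β * m) [ZMOD p] := hx.mul_left _
  have h2 : (p : ℤ) * Q.ord g ≡ 0 [ZMOD p] :=
    (Int.modEq_zero_iff_dvd).mpr (dvd_mul_right _ _)
  have h3 := h1.add h2
  rw [add_zero, ← mul_assoc] at h3
  exact h3

end OnePoint

section Uniform

variable {k F : Type*} [Field k] [Field F] [Algebra k F]

/-- **[CONCL], abstract form.**  For every point `Q` of a set `S` of places (the closed points
off the cusps) the slope lemma holds on some pair of sheets `(i, j)`; the sheet valuations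
satisfy `(*)` with `p ∣ δ` (peu ramifie).  Then `ord_Q f_x = β ord_Q ν` mod `p` for all `Q ∈ S`
with ONE `β = A 0 - B 0`. -/
theorem concl_uniform {p : ℕ} [NeZero p] (S : Set (Place k F)) {fx ν : F}
    (hfx : fx ≠ 0) (hν : ν ≠ 0) (A B : ZMod p → ℤ) (δ δ' : ℤ)
    (hA : ∀ i : ZMod p, A (i + 1) ≡ A i + δ [ZMOD p])
    (hB : ∀ j : ZMod p, B (j + 1) ≡ B j + δ' [ZMOD p])
    (hδ : (p : ℤ) ∣ δ) (hδ' : (p : ℤ) ∣ δ')
    (hpt : ∀ Q ∈ S, ∃ (i j : ZMod p) (F₀ f g c c' : F), f ≠ 0 ∧ g ≠ 0 ∧ c ≠ 0 ∧ c' ≠ 0 ∧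
      Q.ord c = 0 ∧ Q.ord c' = 0 ∧ F₀ = c * f ^ (p - 1) ∧ f * g ^ p = c' * fx ∧
      (p : ℤ) ∣ Q.ord (F₀ * ν ^ (A i - B j))) :
    ∀ Q ∈ S, Q.ord fx ≡ (A 0 - B 0) * Q.ord ν [ZMOD p] := by
  intro Q hQ
  obtain ⟨i, j, F₀, f, g, c, c', hf, hg, hc, hc', hoc, hoc', hF₀, hfg, hsl⟩ := hpt Q hQ
  have h1 := ord_modEq_of_slope Q (Nat.pos_of_ne_zero (NeZero.ne p)) (A i) (B j)
    hf hfx hg hν hc hc' hoc hoc' hF₀ hfg hsl
  exact h1.trans ((sheet_diff_const A B δ δ' hA hB hδ hδ' i j).mul_right _)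

end Uniform

section Eisenstein

/-- arithmetic of the Eisenstein step: `c(T x) = a c(x)`, `c(x) = β m`, `T m = (l + 1) m` at
one point with `m_s` prime to `p`, and `a ≠ l + 1` mod `p` give `β = 0` mod `p`. -/
theorem beta_eq_zero_of_eigen {p : ℕ} (hp : p.Prime) {β a l ms : ℤ}
    (hms : ¬ (p : ℤ) ∣ ms) (hal : ¬ (p : ℤ) ∣ a - (l + 1))
    (h : a * (β * ms) ≡ β * ((l + 1) * ms) [ZMOD p]) :
    (p : ℤ) ∣ β := by
  have hp' : Prime (p : ℤ) := Nat.prime_iff_prime_int.mp hp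
  have h1 : (p : ℤ) ∣ (a - (l + 1)) * (β * ms) := by
    have h2 := (Int.modEq_iff_dvd).mp h.symm
    have h3 : (a - (l + 1)) * (β * ms) = a * (β * ms) - β * ((l + 1) * ms) := by ring
    rw [h3]; exact h2
  rcases hp'.dvd_or_dvd h1 with h4 | h4
  · exact absurd h4 hal
  · rcases hp'.dvd_or_dvd h4 with h5 | h5
    · exact h5
    · exact absurd h5 hms

end Eisenstein

end Fermat.Agent.T8.helper80
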