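import Mathlib
import Fermat.Agent.T8.helper23_CovPtWire2
import Fermat.Agent.T8.helper4_YCaseInst
import Fermat.Agent.T8.helper65_CovOrd
import Fermat.Agent.T8.helper29_CovPtOrd
import Fermat.Agent.T8.helper16_CovSheet1
import Fermat.Agent.T8.helper97_SheetsGen
import Fermat.Agent.T8.helper6_SheetsLocal

/-!
# T8 = row 38 via S44, [SLOPE-X'] COVER INSTANCE, final assembly (helper80)

`covPtFix80 : helper29.CovPtFix` - the local ring of the cover at every finite point of the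
special fibre: `R = locX Q`, `S = R[t]` (`t` the tame trace), `T₀ = S_M` at the etale point
`M = ptIdeal t a` over `Q` on the sheet `(1, 0)`.

Inputs (all on main): `helper97.exists_sheets_poly` (the polynomial of `t`),
`helper6.isMonogenic_of_base_eval₂`, `helper16.sheet1_cov` (item (ii)), `helper4.yCase_locX`
(item (iii)), `helper23.covPtHom_locX` (item (i)), `helper65.covOrd_mul` .. (item (iv)),
`helper16.dvr_quot_xx`, `helper9.CovPtHom.toCovPt`, `helper22.sheetOrd_cov₁`.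
-/

set_option autoImplicit false
set_option synthInstance.maxHeartbeats 400000
set_option maxHeartbeats 1000000
set_option linter.unusedSectionVars false
set_option linter.unusedVariables false
set_option linter.style.longLine false
set_option linter.style.haveILetI false

noncomputable section

open HahnSeries IntermediateField AlgebraicCurve ModularCurve Polynomial IsLocalRing
open Fermat.Agent.S18.helper19 Fermat.Agent.P2.helper29 Fermat.Agent.P2.helper93
open Fermat.Agent.T2.helper36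

namespace Fermat.Agent.T8.helper80

open Fermat.Agent.P2.helper66 (iota)
open Fermat.Agent.T3.helper16 (IsUnit0)
open Fermat.Agent.T3.helper36 (RhoQ GaussIs)
open Fermat.Agent.T3.helper98 (IsRegJ)
open Fermat.Agent.T8.helper16 (ringX locX ringX_le_locX locXIncl redL ordAt IsFinitePt)
open Fermat.Agent.T8.helper88 (CovData Cov)
open Fermat.Agent.T8.helper86 (IsKummerRoot)
open Fermat.Agent.T8.helper65 (muFix IA cwAct)
open Fermat.Agent.T8.helper97 (tGen SheetsPoly phiX)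
open Fermat.Agent.T8.helper33 (IsMonogenic ptIdeal)
open Fermat.Agent.T8.helper9 (Sheet1 CovPtHom covPtHom_loc CovPt)
open Fermat.Agent.T8.helper23 (covSet)

section Local

variable {N p : ℕ} [NeZero N] [NeZero p] {hp : p.Prime} {hpN : ¬ p ∣ N}
  {A : ValuationSubring Kb} {b0 : FF (N * p)} {B : PowerSeries ℤ} {ε : ℤ}
  (D : CovData (N * p) (atkinLehner N p hp hpN) A p)
  [((muFix p ⊓ IA A).subgroupOf (IA A)).FiniteIndex]
  (hKum : IsKummerRoot p D.K D.Z) (ζ : Kb) (hζ : IsPrimitiveRoot ζ p)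

section Abs

variable {S : Type*} [CommRing S] [IsDomain S] {Q : Place (kA A) (FFb A N)}
  [Algebra (locX A hp hpN Q) S] [IsLocalRing (locX A hp hpN Q)]
  [IsNoetherianRing (locX A hp hpN Q)]
  {t : S} {f : (locX A hp hpN Q)[X]} {a : locX A hp hpN Q}
  (T₀ : Type*) [CommRing T₀] [Algebra S T₀] [Algebra (locX A hp hpN Q) T₀]
  [IsScalarTower (locX A hp hpN Q) S T₀]
  [hP : (ptIdeal t a).IsPrime] [IsLocalization.AtPrime T₀ (ptIdeal t a)]

include hP in
/-- the point of the cover, abstract in `(S, T₀)` -/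
theorem covPt_loc80 (h : IsUnit0 hp hpN b0 B ε) (hA : A.LiesOverPrime p) (hN : 4 ∣ N ∨ 9 ∣ N)
    (hp3 : 3 ≤ p) (hQ : IsFinitePt Q)
    (hfix1 : ∀ σ ∈ muFix p ⊓ IA A, cwAct σ (incl A D.Z₁) = incl A D.Z₁)
    (hfix2 : ∀ σ ∈ muFix p ⊓ IA A, cwAct σ (incl A D.Z₂) = incl A D.Z₂)
    (hr1 : red A D.Z₁ = 1) (hr2 : red A D.Z₂ = 1)
    (jS : S →+* Cov (N * p) D.Z) (hjSinj : Function.Injective jS)
    (hjR : ∀ r : locX A hp hpN Q, jS (algebraMap (locX A hp hpN Q) S r) =
      algebraMap (FF (N * p)) (Cov (N * p) D.Z) (r : FF (N * p)))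
    (hjt : jS t = tGen D ζ)
    (hm : IsMonogenic t f) (hdeg : f.natDegree = p)
    (ha : f.eval a ∈ maximalIdeal (locX A hp hpN Q))
    (ha' : f.derivative.eval a ∉ maximalIdeal (locX A hp hpN Q))
    (ι : T₀ →+* Cov (N * p) D.Z) (hι : ∀ s : S, ι (algebraMap S T₀ s) = jS s)
    (xxR yR : locX A hp hpN Q)
    (hxx : (xxR : FF (N * p)) = atkinLehner N p hp hpN b0) (hyy : (yR : FF (N * p)) = b0)
    (H : Sheet1 (A := A) (Fermat.Agent.T8.helper29.sh1 D hKum ζ hζ.pow_eq_one 0) jS t a xxR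
      (FFb A N).toSubfield (ordAt Q) (redL hA Q hQ)) :
    ∃ (j : ℕ) (T : Subring (Cov (N * p) D.Z)) (xx y : T),
      CovPt (A := A) (covSet D) (Fermat.Agent.T8.helper29.sh1 D hKum ζ hζ.pow_eq_one 0)
        (Fermat.Agent.T8.helper29.sh2 D hKum ζ hζ.pow_eq_one j) T xx y (FFb A N).toSubfield
        (ordAt Q) (iota (kA A) B) p := by
  have hKer := Fermat.Agent.T8.helper63.kerRedStatement h A hA
  -- the second sheet
  obtain ⟨j, hj, hy⟩ := Fermat.Agent.T8.helper4.yCase_locX D hKum ζ hζ.pow_eq_one T₀ h hA hN hQ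
    hζ hp3 hfix1 hfix2 hr1 hr2 jS hjR hjt hm hdeg ha ha' ι hι yR hyy
  -- the quotient by `xx`
  obtain ⟨hdom, hpid⟩ := Fermat.Agent.T8.helper16.dvr_quot_xx h hA hN Q hQ xxR hxx
  haveI := hdom
  haveI := hpid
  have hxxm : xxR ∈ maximalIdeal (locX A hp hpN Q) := by
    rw [IsLocalRing.mem_maximalIdeal, mem_nonunits_iff]
    have e : xxR = locXIncl Q (Fermat.Agent.T8.helper16.xxX hKer) := Subtype.ext hxx
    rw [e]
    exact Fermat.Agent.T8.helper16.not_isUnit_xx hA hKer Q hQ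
  haveI : IsDomain T₀ := IsMonogenic.isDomain_loc (t := t) (a := a) T₀
  have key := Fermat.Agent.T8.helper23.covPtHom_locX D T₀ h hA hKum ζ hζ hp3 hfix1 hfix2 hr1 hr2
    hxx hyy hm ha ha' hxxm (Fermat.Agent.T8.helper29.sh2 D hKum ζ hζ.pow_eq_one j) hjSinj hjR hjt
    ι hι H (Fermat.Agent.T8.helper65.covOrd_mul Q) (Fermat.Agent.T8.helper65.covOrd_const_mul Q)
    (Fermat.Agent.T8.helper65.redL_yy_ne_zero h hA Q hQ yR hyy) hy
  rw [Fermat.Agent.T8.helper16.redL_yy h hA Q hQ yR hyy] at key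
  exact ⟨j, ι.range, _, _, key.toCovPt⟩

end Abs

section AbsS

variable {S : Type*} [CommRing S] [IsDomain S] {Q : Place (kA A) (FFb A N)}
  [Algebra (locX A hp hpN Q) S] [IsLocalRing (locX A hp hpN Q)]
  [IsNoetherianRing (locX A hp hpN Q)]
  {t : S} {f : (locX A hp hpN Q)[X]} {a : locX A hp hpN Q}

/-- the point of the cover, abstract in `S`: `T₀` is the localization of `S` at the point -/
theorem covPt_S80 (h : IsUnit0 hp hpN b0 B ε) (hA : A.LiesOverPrime p) (hN : 4 ∣ N ∨ 9 ∣ N)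
    (hp3 : 3 ≤ p) (hQ : IsFinitePt Q)
    (hfix1 : ∀ σ ∈ muFix p ⊓ IA A, cwAct σ (incl A D.Z₁) = incl A D.Z₁)
    (hfix2 : ∀ σ ∈ muFix p ⊓ IA A, cwAct σ (incl A D.Z₂) = incl A D.Z₂)
    (hr1 : red A D.Z₁ = 1) (hr2 : red A D.Z₂ = 1)
    (jS : S →+* Cov (N * p) D.Z) (hjSinj : Function.Injective jS)
    (hjR : ∀ r : locX A hp hpN Q, jS (algebraMap (locX A hp hpN Q) S r) =
      algebraMap (FF (N * p)) (Cov (N * p) D.Z) (r : FF (N * p)))
    (hjt : jS t = tGen D ζ)
    (hm : IsMonogenic t f) (hdeg : f.natDegree = p)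
    (ha : f.eval a ∈ maximalIdeal (locX A hp hpN Q))
    (ha' : f.derivative.eval a ∉ maximalIdeal (locX A hp hpN Q))
    (xxR yR : locX A hp hpN Q)
    (hxx : (xxR : FF (N * p)) = atkinLehner N p hp hpN b0) (hyy : (yR : FF (N * p)) = b0)
    (H : Sheet1 (A := A) (Fermat.Agent.T8.helper29.sh1 D hKum ζ hζ.pow_eq_one 0) jS t a xxR
      (FFb A N).toSubfield (ordAt Q) (redL hA Q hQ)) :
    ∃ (j : ℕ) (T : Subring (Cov (N * p) D.Z)) (xx y : T),
      CovPt (A := A) (covSet D) (Fermat.Agent.T8.helper29.sh1 D hKum ζ hζ.pow_eq_one 0)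
        (Fermat.Agent.T8.helper29.sh2 D hKum ζ hζ.pow_eq_one j) T xx y (FFb A N).toSubfield
        (ordAt Q) (iota (kA A) B) p := by
  haveI hP : (ptIdeal t a).IsPrime := (hm.ptIdeal_isMaximal a ha).isPrime
  have hunits : ∀ y : (ptIdeal t a).primeCompl, IsUnit (jS (y : S)) := by
    intro y
    refine IsUnit.mk0 _ (fun h0 => y.2 ?_)
    have h1 : (y : S) = 0 := hjSinj (h0.trans (map_zero jS).symm)
    rw [h1]
    exact (ptIdeal t a).zero_mem
  exact covPt_loc80 D hKum ζ hζ (Localization.AtPrime (ptIdeal t a)) h hA hN hp3 hQ hfix1 hfix2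
    hr1 hr2 jS hjSinj hjR hjt hm hdeg ha ha'
    (IsLocalization.lift (M := (ptIdeal t a).primeCompl) hunits)
    (fun s => IsLocalization.lift_eq hunits s) xxR yR hxx hyy H

end AbsS

/-- **the point of the cover over a finite point `Q`** -/
theorem covPt_at80 (h : IsUnit0 hp hpN b0 B ε) (hA : A.LiesOverPrime p) (hN : 4 ∣ N ∨ 9 ∣ N)
    (hp3 : 3 ≤ p) (hK : IsRegJ (N * p) D.K)
    (hnew : Fermat.Agent.T7.helper27.IsNewN N p D.K)
    (hfix1 : ∀ σ ∈ muFix p ⊓ IA A, cwAct σ (incl A D.Z₁) = incl A D.Z₁)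
    (hfix2 : ∀ σ ∈ muFix p ⊓ IA A, cwAct σ (incl A D.Z₂) = incl A D.Z₂)
    (hr1 : red A D.Z₁ = 1) (hr2 : red A D.Z₂ = 1)
    (Q : Place (kA A) (FFb A N)) (hQ : IsFinitePt Q) :
    ∃ (j : ℕ) (T : Subring (Cov (N * p) D.Z)) (xx y : T),
      CovPt (A := A) (covSet D) (Fermat.Agent.T8.helper29.sh1 D hKum ζ hζ.pow_eq_one 0)
        (Fermat.Agent.T8.helper29.sh2 D hKum ζ hζ.pow_eq_one j) T xx y (FFb A N).toSubfield
        (ordAt Q) (iota (kA A) B) p := by
  -- the base ring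
  haveI : IsLocalRing (locX A hp hpN Q) := Fermat.Agent.T8.helper16.isLocalRing_locX hA Q hQ
  haveI : IsNoetherianRing (locX A hp hpN Q) :=
    Fermat.Agent.T8.helper16.isNoetherianRing_locX hA Q hQ
  -- the polynomial of the tame trace
  obtain ⟨f, c₁, c₂, hf⟩ :=
    Fermat.Agent.T8.helper97.exists_sheets_poly D hKum ζ hζ hp3 hA hK hfix1 hfix2 hr1 hr2
  -- `S = R[t]` is monogenic
  have hmin := Fermat.Agent.T8.helper97.natDegree_minpoly_tGen D hKum ζ hζ hp3 hA hfix1 hfix2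
    hr1 hr2
  have hm : IsMonogenic
      (⟨tGen D ζ, Algebra.self_mem_adjoin_singleton (locX A hp hpN Q) (tGen D ζ)⟩ :
        Algebra.adjoin (locX A hp hpN Q) {(tGen D ζ : Cov (N * p) D.Z)})
      (f.map (locXIncl Q)) := by
    refine Fermat.Agent.T8.helper6.isMonogenic_of_base_eval₂ (K := FF (N * p))
      (L := Cov (N * p) D.Z) (locXIncl Q) Subtype.val_injective (tGen D ζ) f hf.monic ?_ ?_
    · have e : (algebraMap (locX A hp hpN Q) (Cov (N * p) D.Z)).comp (locXIncl Q) = phiX D :=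
        RingHom.ext (fun r => rfl)
      rw [e]
      exact hf.eval_tGen
    · rw [hf.natDegree, hmin]
  have hdeg : (f.map (locXIncl Q)).natDegree = p := by
    rw [hf.monic.natDegree_map, hf.natDegree]
  -- the vertical elements
  have hKer := Fermat.Agent.T8.helper63.kerRedStatement h A hA
  have hxx : ((locXIncl Q (Fermat.Agent.T8.helper16.xxX hKer) : locX A hp hpN Q) : FF (N * p)) =
      atkinLehner N p hp hpN b0 := rfl
  have hyy : ((locXIncl Q (Fermat.Agent.T8.helper16.yyX hKer) : locX A hp hpN Q) : FF (N * p)) =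
      b0 := rfl
  have hjR : ∀ r : locX A hp hpN Q,
      (Algebra.adjoin (locX A hp hpN Q) {(tGen D ζ : Cov (N * p) D.Z)}).val.toRingHom
        (algebraMap (locX A hp hpN Q)
          (Algebra.adjoin (locX A hp hpN Q) {(tGen D ζ : Cov (N * p) D.Z)}) r) =
      algebraMap (FF (N * p)) (Cov (N * p) D.Z) (r : FF (N * p)) := fun r => rfl
  -- the first sheet and the lift of the reduction of `t`
  obtain ⟨a, H, ha, ha'⟩ := Fermat.Agent.T8.helper16.sheet1_cov D hKum ζ hζ h hA hN hp3 hnew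
    hfix1 hfix2 hr1 hr2 Q hQ
    (Algebra.adjoin (locX A hp hpN Q) {(tGen D ζ : Cov (N * p) D.Z)}).val.toRingHom hjR
    ⟨tGen D ζ, Algebra.self_mem_adjoin_singleton (locX A hp hpN Q) (tGen D ζ)⟩ rfl hf
    (locXIncl Q (Fermat.Agent.T8.helper16.xxX hKer)) hxx
  exact covPt_S80 D hKum ζ hζ h hA hN hp3 hQ hfix1 hfix2 hr1 hr2
    (Algebra.adjoin (locX A hp hpN Q) {(tGen D ζ : Cov (N * p) D.Z)}).val.toRingHom
    Subtype.val_injective hjR rfl hm hdeg ha ha' _ _ hxx hyy H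

end Local

section Frontier

/-- **THE COVER INSTANCE**: the frontier Prop `helper29.CovPtFix` of S44. -/
theorem covPtFix80 : Fermat.Agent.T8.helper29.CovPtFix := by
  intro P M' _ hpN A hA hdvd hirr b0 B ε hb ν hν D hKum ζ hζp hζ hK hnew hr1 hr2 hf1 hf2 Q hQ
  haveI : NeZero P.p := ⟨P.pp.ne_zero⟩
  haveI : Fact P.p.Prime := ⟨P.pp⟩
  haveI := Fermat.Agent.T8.helper65.finiteIndex_muFix (p := P.p) A hA
  obtain ⟨j, T, xx, y, hpt⟩ := covPt_at80 D hKum ζ hζ hb hA (Or.inl (Dvd.intro M' rfl))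
    (le_trans (by norm_num) P.hp5) (Fermat.Agent.T8.helper29.isRegJ_of_isA0One hK.1) hnew
    hf1 hf2 hr1 hr2 Q hQ
  exact ⟨ordAt Q, Fermat.Agent.T8.helper22.sheetOrd_cov₁ (4 * M') P.p P.pp hpN hA D hnew hr1 Q,
    0, j, T, xx, y, (FFb A (4 * M')).toSubfield, iota (kA A) B, hpt,
    Fermat.Agent.T8.helper65.ordAt_iota_eq hb hν Q⟩

/-- **the non-split wall, UNCONDITIONAL** -/
theorem nonSplitWall80 (π : Fermat.Agent.T8.helper72.PullData) :
    Fermat.Agent.T8.helper38.NonSplitWallStatement π Fermat.Agent.T8.helper29.wallBN :=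
  Fermat.Agent.T8.helper29.nonSplitWall_of_covPtFixFinal π covPtFix80

end Frontier

end Fermat.Agent.T8.helper80

end
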