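/-
T8 = row 38 via S44, box [K-RAT] (helper80): ABSTRACT PART, Mathlib only.

`E` a vector space over a valued field `K` (valuation subring `A`) with a separating family of
coordinate functionals `c i : E →ₗ[K] K`, and a family of coordinatewise semilinear maps
`act σ : E → E` (`c i (act σ u) = ρ σ (c i u)`) for `σ` in a set `G`.

* `HasPivot A c u`     : the content of `u` is attained (some coordinate divides all the others);
* `IsPivotSys`         : an integral "dual basis" of the span of `S` at a finite set of pivots;
* `exists_pivotSys`    : Gaussian elimination: it exists if every nonzero element of the span of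
                         the finite set `S` has attained content;
* `exists_fixed_approx`: **rational approximation**: if moreover `S` is stable under `G` and every
                         residue class has a `G`-fixed lift, then every integral `z` in the span
                         of `S` is congruent, coordinate by coordinate modulo the maximal ideal,
                         to an integral `G`-FIXED element `m` of the span of `S`.
-/
import Mathlib

set_option autoImplicit false
set_option linter.unusedSectionVars false
set_option linter.unusedVariables false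
set_option linter.style.longLine false

noncomputable section

namespace Fermat.Agent.T8.helper80

open Submodule

section PivotAbs

variable {K : Type*} [Field K] {E : Type*} [AddCommGroup E] [Module K E] {P : Type*}
  (A : ValuationSubring K) (c : P → E →ₗ[K] K)

/-- the content of `u` is attained at a coordinate -/
def HasPivot (u : E) : Prop := ∃ i₀ : P, c i₀ u ≠ 0 ∧ ∀ i, c i u / c i₀ u ∈ A

/-- an integral dual basis of the span of `S` at the finite set of pivots `P₀` -/
structure IsPivotSys (S : Set E) (P₀ : Finset P) (f : P → E) : Prop where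
  mem : ∀ i ∈ P₀, f i ∈ span K S
  delta_eq : ∀ i ∈ P₀, c i (f i) = 1
  delta_ne : ∀ i ∈ P₀, ∀ j ∈ P₀, i ≠ j → c j (f i) = 0
  int : ∀ i ∈ P₀, ∀ j, c j (f i) ∈ A
  repr : ∀ s ∈ S, s = ∑ i ∈ P₀, c i s • f i

variable {A c}

theorem IsPivotSys.repr_span {S : Set E} {P₀ : Finset P} {f : P → E}
    (h : IsPivotSys A c S P₀ f) {u : E} (hu : u ∈ span K S) :
    u = ∑ i ∈ P₀, c i u • f i := by
  induction hu using Submodule.span_induction with
  | mem x hx => exact h.repr x hx
  | zero => simp
  | add x y _ _ hx hy =>
    conv_lhs => rw [hx, hy]
    rw [← Finset.sum_add_distrib]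
    refine Finset.sum_congr rfl fun i _ => ?_
    rw [map_add, add_smul]
  | smul a x _ hx =>
    conv_lhs => rw [hx]
    rw [Finset.smul_sum]
    refine Finset.sum_congr rfl fun i _ => ?_
    rw [map_smul, smul_eq_mul, mul_smul]

/-- **Gaussian elimination** -/
theorem exists_pivotSys (S : Finset E)
    (hpiv : ∀ u ∈ span K (S : Set E), u ≠ 0 → HasPivot A c u) :
    ∃ (P₀ : Finset P) (f : P → E), IsPivotSys A c (S : Set E) P₀ f := by
  classical
  induction S using Finset.induction_on with
  | empty =>
    refine ⟨∅, fun _ => 0, ⟨?_, ?_, ?_, ?_, ?_⟩⟩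
    · intro i hi; simp at hi
    · intro i hi; simp at hi
    · intro i hi; simp at hi
    · intro i hi; simp at hi
    · intro s hs; simp at hs
  | insert s S' hs ih =>
    have hle : span K (S' : Set E) ≤ span K ((insert s S' : Finset E) : Set E) := by
      apply Submodule.span_mono
      intro x hx
      simp only [Finset.coe_insert, Set.mem_insert_iff]
      exact Or.inr hx
    obtain ⟨P₀, f, hf⟩ := ih (fun u hu hu0 => hpiv u (hle hu) hu0)
    have hsmem : s ∈ span K ((insert s S' : Finset E) : Set E) :=
      Submodule.subset_span (by simp)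
    set s' : E := s - ∑ i ∈ P₀, c i s • f i with hs'
    have hs'mem : s' ∈ span K ((insert s S' : Finset E) : Set E) := by
      refine Submodule.sub_mem _ hsmem (Submodule.sum_mem _ fun i hi => ?_)
      exact Submodule.smul_mem _ _ (hle (hf.mem i hi))
    have hcs' : ∀ j ∈ P₀, c j s' = 0 := by
      intro j hj
      rw [hs', map_sub, map_sum]
      have : ∑ i ∈ P₀, c j (c i s • f i) = c j s := by
        rw [Finset.sum_eq_single j]
        · rw [map_smul, hf.delta_eq j hj, smul_eq_mul, mul_one]
        · intro i hi hij
          rw [map_smul, hf.delta_ne i hi j hj hij, smul_zero]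
        · intro h; exact absurd hj h
      rw [this, sub_self]
    by_cases h0 : s' = 0
    · refine ⟨P₀, f, ⟨fun i hi => hle (hf.mem i hi), hf.delta_eq, hf.delta_ne, hf.int, ?_⟩⟩
      intro t ht
      rw [Finset.coe_insert, Set.mem_insert_iff] at ht
      rcases ht with rfl | ht
      · have := sub_eq_zero.mp h0
        exact this
      · exact hf.repr t ht
    · obtain ⟨i₀, hi₀, hint⟩ := hpiv s' hs'mem h0
      have hi₀P : i₀ ∉ P₀ := fun h => hi₀ (hcs' i₀ h)
      set e : E := (c i₀ s')⁻¹ • s' with he
      have hce : ∀ j, c j e = c j s' / c i₀ s' := by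
        intro j
        rw [he, map_smul, smul_eq_mul, div_eq_inv_mul]
      have hce0 : c i₀ e = 1 := by rw [hce, div_self hi₀]
      have hceP : ∀ j ∈ P₀, c j e = 0 := by
        intro j hj
        rw [hce, hcs' j hj, zero_div]
      have hemem : e ∈ span K ((insert s S' : Finset E) : Set E) :=
        Submodule.smul_mem _ _ hs'mem
      have hes' : c i₀ s' • e = s' := by
        rw [he, smul_smul, mul_inv_cancel₀ hi₀, one_smul]
      refine ⟨insert i₀ P₀, fun i => if i = i₀ then e else f i - c i₀ (f i) • e,
        ⟨?_, ?_, ?_, ?_, ?_⟩⟩
      · intro i hi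
        rw [Finset.mem_insert] at hi
        by_cases hii : i = i₀
        · simp only [hii, if_true]
          exact hemem
        · simp only [hii, if_false]
          have hiP : i ∈ P₀ := hi.resolve_left hii
          exact Submodule.sub_mem _ (hle (hf.mem i hiP)) (Submodule.smul_mem _ _ hemem)
      · intro i hi
        rw [Finset.mem_insert] at hi
        by_cases hii : i = i₀
        · simp only [hii, if_true]
          exact hce0
        · simp only [hii, if_false]
          have hiP : i ∈ P₀ := hi.resolve_left hii
          rw [map_sub, map_smul, hceP i hiP, smul_zero, sub_zero]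
          exact hf.delta_eq i hiP
      · intro i hi j hj hij
        rw [Finset.mem_insert] at hi hj
        by_cases hii : i = i₀
        · simp only [hii, if_true]
          have hjj : j ≠ i₀ := fun h => hij (hii.trans h.symm)
          exact hceP j (hj.resolve_left hjj)
        · simp only [hii, if_false]
          have hiP : i ∈ P₀ := hi.resolve_left hii
          by_cases hjj : j = i₀
          · rw [hjj, map_sub, map_smul, hce0, smul_eq_mul, mul_one, sub_self]
          · have hjP : j ∈ P₀ := hj.resolve_left hjj
            rw [map_sub, map_smul, hceP j hjP, smul_zero, sub_zero]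
            exact hf.delta_ne i hiP j hjP hij
      · intro i hi j
        rw [Finset.mem_insert] at hi
        by_cases hii : i = i₀
        · simp only [hii, if_true]
          rw [hce]
          exact hint j
        · simp only [hii, if_false]
          have hiP : i ∈ P₀ := hi.resolve_left hii
          rw [map_sub, map_smul, smul_eq_mul]
          refine A.sub_mem (hf.int i hiP j) (A.mul_mem _ _ (hf.int i hiP i₀) ?_)
          rw [hce]
          exact hint j
      · -- the representation
        have key : ∀ t : E, ∑ i ∈ insert i₀ P₀,
            c i t • (if i = i₀ then e else f i - c i₀ (f i) • e) =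
            ∑ i ∈ P₀, c i t • f i + c i₀ (t - ∑ i ∈ P₀, c i t • f i) • e := by
          intro t
          rw [Finset.sum_insert hi₀P, if_pos rfl]
          have h1 : ∑ i ∈ P₀, c i t • (if i = i₀ then e else f i - c i₀ (f i) • e) =
              ∑ i ∈ P₀, (c i t • f i - (c i t * c i₀ (f i)) • e) := by
            refine Finset.sum_congr rfl fun i hi => ?_
            have hii : i ≠ i₀ := fun h => hi₀P (h ▸ hi)
            rw [if_neg hii, smul_sub, smul_smul]
          rw [h1, Finset.sum_sub_distrib, map_sub, map_sum, sub_smul, ← Finset.sum_smul]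
          have h2 : ∑ i ∈ P₀, c i₀ (c i t • f i) = ∑ i ∈ P₀, c i t * c i₀ (f i) := by
            refine Finset.sum_congr rfl fun i _ => ?_
            rw [map_smul, smul_eq_mul]
          rw [h2]
          abel
        intro t ht
        rw [Finset.coe_insert, Set.mem_insert_iff] at ht
        rw [key]
        rcases ht with rfl | ht
        · have h3 : t - ∑ i ∈ P₀, c i t • f i = s' := rfl
          rw [h3, hes']
          rw [hs']
          abel
        · rw [← hf.repr t ht, sub_self, map_zero, zero_smul, add_zero]

end PivotAbs

section Approx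

variable {K : Type*} [Field K] {E : Type*} [AddCommGroup E] [Module K E] {P : Type*}
  {A : ValuationSubring K} {c : P → E →ₗ[K] K} {Γ : Type*}

/-- **rational approximation** -/
theorem exists_fixed_approx (G : Γ → Prop) (ρ : Γ → K →+* K) (act : Γ → E → E)
    (hact : ∀ σ, G σ → ∀ (u : E) (i : P), c i (act σ u) = ρ σ (c i u))
    (hsep : ∀ u : E, (∀ i, c i u = 0) → u = 0)
    (S : Finset E) (hS : ∀ σ, G σ → ∀ s ∈ S, act σ s ∈ S)
    (hpiv : ∀ u ∈ span K (S : Set E), u ≠ 0 → HasPivot A c u)
    (hres : ∀ a ∈ A, ∃ b ∈ A, (∀ σ, G σ → ρ σ b = b) ∧ A.valuation (a - b) < 1)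
    (z : E) (hz : z ∈ span K (S : Set E)) (hzint : ∀ i, c i z ∈ A) :
    ∃ m ∈ span K (S : Set E), (∀ σ, G σ → act σ m = m) ∧ (∀ i, c i m ∈ A) ∧
      ∀ i, A.valuation (c i z - c i m) < 1 := by
  classical
  obtain ⟨P₀, f, hf⟩ := exists_pivotSys (A := A) (c := c) S hpiv
  have hext : ∀ u v : E, (∀ i, c i u = c i v) → u = v := by
    intro u v h
    have := hsep (u - v) (fun i => by rw [map_sub, h i, sub_self])
    exact sub_eq_zero.mp this
  -- the span is stable
  have hstab : ∀ σ, G σ → ∀ u ∈ span K (S : Set E), act σ u ∈ span K (S : Set E) := by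
    intro σ hσ u hu
    induction hu using Submodule.span_induction with
    | mem x hx => exact Submodule.subset_span (hS σ hσ x hx)
    | zero =>
      have : act σ 0 = 0 := hext _ _ (fun i => by rw [hact σ hσ, map_zero, map_zero])
      rw [this]
      exact Submodule.zero_mem _
    | add x y _ _ hx hy =>
      have : act σ (x + y) = act σ x + act σ y := hext _ _ (fun i => by
        rw [hact σ hσ, map_add, map_add, map_add, hact σ hσ, hact σ hσ])
      rw [this]
      exact Submodule.add_mem _ hx hy
    | smul a x _ hx =>
      have : act σ (a • x) = ρ σ a • act σ x := hext _ _ (fun i => by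
        rw [hact σ hσ, LinearMap.map_smul, LinearMap.map_smul, smul_eq_mul, smul_eq_mul,
          map_mul, hact σ hσ])
      rw [this]
      exact Submodule.smul_mem _ _ hx
  -- the pivot elements are fixed
  have hfix : ∀ σ, G σ → ∀ i ∈ P₀, act σ (f i) = f i := by
    intro σ hσ i hi
    have h1 := hf.repr_span (hstab σ hσ _ (hf.mem i hi))
    have h2 := hf.repr_span (hf.mem i hi)
    rw [h1]
    conv_rhs => rw [h2]
    refine Finset.sum_congr rfl fun j hj => ?_
    rw [hact σ hσ]
    by_cases hij : i = j
    · subst hij
      rw [hf.delta_eq i hi, map_one]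
    · rw [hf.delta_ne i hi j hj hij, map_zero]
  -- the lifts
  have hb : ∀ i : P, ∃ b ∈ A, (∀ σ, G σ → ρ σ b = b) ∧ A.valuation (c i z - b) < 1 :=
    fun i => hres _ (hzint i)
  choose b hbA hbfix hblt using hb
  have hcm : ∀ j, c j (∑ i ∈ P₀, b i • f i) = ∑ i ∈ P₀, b i * c j (f i) := by
    intro j
    rw [map_sum]
    refine Finset.sum_congr rfl fun i _ => ?_
    rw [map_smul, smul_eq_mul]
  refine ⟨∑ i ∈ P₀, b i • f i, ?_, ?_, ?_, ?_⟩
  · exact Submodule.sum_mem _ fun i hi => Submodule.smul_mem _ _ (hf.mem i hi)
  · intro σ hσ
    apply hext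
    intro j
    rw [hact σ hσ, hcm, map_sum]
    refine Finset.sum_congr rfl fun i hi => ?_
    rw [map_mul, hbfix i σ hσ, ← hact σ hσ, hfix σ hσ i hi]
  · intro j
    rw [hcm]
    exact A.toSubring.sum_mem fun i hi => A.mul_mem _ _ (hbA i) (hf.int i hi j)
  · intro j
    have h1 : c j z = ∑ i ∈ P₀, c i z * c j (f i) := by
      conv_lhs => rw [hf.repr_span hz]
      rw [map_sum]
      refine Finset.sum_congr rfl fun i _ => ?_
      rw [map_smul, smul_eq_mul]
    rw [hcm, h1, ← Finset.sum_sub_distrib]
    apply Valuation.map_sum_lt _ one_ne_zero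
    intro i hi
    rw [← sub_mul, map_mul]
    have h2 : A.valuation (c j (f i)) ≤ 1 := (A.valuation_le_one_iff _).mpr (hf.int i hi j)
    calc A.valuation (c i z - b i) * A.valuation (c j (f i))
        ≤ A.valuation (c i z - b i) * 1 := by gcongr
      _ = A.valuation (c i z - b i) := mul_one _
      _ < 1 := hblt i

end Approx

end Fermat.Agent.T8.helper80

end
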