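/-
T8 = row 38 via S44, box [K-RAT] (helper80), route PV (pivots): INSTANCE.

`kRatStatement80 : helper29.KRatStatement N p hp hpN A` at every bad pair (`4 ∣ N ∨ 9 ∣ N`,
`A` over `p`): a strongly split Kummer function `K` has a multiple `G ^ p * K` (`c₀ = 1`), again
regular off the two cusps, with integral roots of reduction `1` at both cusps which are
coefficientwise FIXED by `I_K1`.

Route: the span `V` of the (finite) `I_K1`-orbit of the pair of roots `z = (Z₁, Z₂)`; every
nonzero element of `V` has attained content (number field + principal ideal ring,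
`T7.helper22.exists_smul_of_coeff_mem`); `helper80.exists_fixed_approx` (pivot basis, fixed by
uniqueness of the dual basis) gives a fixed integral `m ∈ V` congruent to `z`; `m = (G Z₁, W G Z₂)`.
-/
import Mathlib
import Fermat.Agent.T8.helper80_KRatAbs
import Fermat.Agent.T8.helper29_ConclFix
import Fermat.Agent.T8.helper23_KRatLeaves
import Fermat.Agent.T8.helper97_TameTrace

set_option autoImplicit false
set_option linter.unusedSectionVars false
set_option linter.unusedVariables false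
set_option linter.style.longLine false
set_option linter.style.haveILetI false

noncomputable section

namespace Fermat.Agent.T8.helper80

open HahnSeries IntermediateField AlgebraicCurve ModularCurve Submodule
open Fermat.Agent.S18.helper19 Fermat.Agent.P2.helper29 Fermat.Agent.P2.helper93
open Fermat.Agent.P2.helper22 (famMap coeffLinFam)
open Fermat.Agent.T2 Fermat.Agent.T2.helper36
open Fermat.Agent.T8.helper98 (IsIK1)

variable {A : ValuationSubring Kb}

/-! ### Content of a pair with coefficients in a number field -/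

theorem exists_incl_of_coeff_mem80 (f : LaurentSeries Kb) (hf : ∀ n, f.coeff n ∈ A) :
    ∃ Y : LaurentSeries A, incl A Y = f := by
  have hsupp : Function.support (fun n => (⟨f.coeff n, hf n⟩ : A)) ⊆ f.support := by
    intro n hn
    rw [HahnSeries.mem_support]
    intro h0
    apply hn
    exact Subtype.ext h0
  refine ⟨⟨fun n => ⟨f.coeff n, hf n⟩, f.isPWO_support.mono hsupp⟩, ?_⟩
  ext n
  rw [coeffMap_coeff]
  rfl

/-- **content**: a nonzero pair with coefficients in a number field and bounded denominators has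
attained content. -/
theorem hasPivot_of_numberField {p : ℕ} (u : Fin 2 → LaurentSeries Kb) (hu : u ≠ 0) (n : ℕ)
    (hp0 : (p : Kb) ≠ 0)
    (hint : ∀ i j, (p : Kb) ^ n * (u i).coeff j ∈ A)
    (K₂ : IntermediateField ℚ Kb) [FiniteDimensional ℚ K₂]
    (hK : ∀ i j, (u i).coeff j ∈ K₂) :
    HasPivot A (coeffLinFam (L := Kb) (ι := Fin 2)) u := by
  classical
  have hY : ∀ i, ∃ Y : LaurentSeries A, incl A Y = (p : Kb) ^ n • u i := by
    intro i
    apply exists_incl_of_coeff_mem80
    intro j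
    rw [HahnSeries.coeff_smul, smul_eq_mul]
    exact hint i j
  choose Y hYe using hY
  have hcoef : ∀ i j, (((Y i).coeff j : A) : Kb) = (p : Kb) ^ n * (u i).coeff j := by
    intro i j
    have := congrArg (fun f : LaurentSeries Kb => f.coeff j) (hYe i)
    simp only [coeffMap_coeff, HahnSeries.coeff_smul, smul_eq_mul] at this
    exact this
  have hpn : (p : Kb) ^ n ≠ 0 := pow_ne_zero _ hp0
  have hY0 : Y ≠ 0 := by
    intro h0
    apply hu
    funext i
    ext j
    have h1 := hcoef i j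
    rw [h0] at h1
    simp only [Pi.zero_apply, HahnSeries.coeff_zero, ZeroMemClass.coe_zero] at h1
    rcases mul_eq_zero.mp h1.symm with h2 | h2
    · exact absurd h2 hpn
    · simpa using h2
  have hYK : ∀ i j, (((Y i).coeff j : A) : Kb) ∈ K₂ := by
    intro i j
    rw [hcoef]
    exact K₂.mul_mem (pow_mem (IntermediateField.natCast_mem K₂ p) n) (hK i j)
  obtain ⟨g, Y', hg, hYY', hred⟩ :=
    Fermat.Agent.T7.helper22.exists_smul_of_coeff_mem A (IsLocalRing.residue A) K₂ Y hY0 hYK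
  -- a unit coefficient of `Y'`
  obtain ⟨i₀, n₀, h₀⟩ : ∃ i₀ n₀, IsLocalRing.residue A ((Y' i₀).coeff n₀) ≠ 0 := by
    by_contra hcon
    push Not at hcon
    apply hred
    funext i
    ext j
    rw [Fermat.Agent.P2.helper22.famMap_apply, coeffMap_coeff]
    simp only [Pi.zero_apply, HahnSeries.coeff_zero]
    exact hcon i j
  have hunit : IsUnit ((Y' i₀).coeff n₀) := by
    by_contra hnu
    exact h₀ ((IsLocalRing.residue_eq_zero_iff _).mpr ((IsLocalRing.mem_maximalIdeal _).mpr hnu))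
  have hcoef' : ∀ i j, (p : Kb) ^ n * (u i).coeff j = (g : Kb) * (((Y' i).coeff j : A) : Kb) := by
    intro i j
    rw [← hcoef, hYY']
    simp
  have hg0 : (g : Kb) ≠ 0 := fun h => hg (Subtype.ext h)
  have hy0 : (((Y' i₀).coeff n₀ : A) : Kb) ≠ 0 := by
    intro h
    have : (Y' i₀).coeff n₀ = 0 := Subtype.ext h
    rw [this] at hunit
    exact not_isUnit_zero hunit
  obtain ⟨y, hy⟩ := hunit
  have hyinv : (((Y' i₀).coeff n₀ : A) : Kb)⁻¹ ∈ A := by
    have h1 : (((y⁻¹ : Aˣ) : A) : Kb) = (((Y' i₀).coeff n₀ : A) : Kb)⁻¹ := by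
      rw [← hy]
      have h2 : ((y : A) : Kb) * (((y⁻¹ : Aˣ) : A) : Kb) = 1 := by
        have h5 : ((y : A) * ((y⁻¹ : Aˣ) : A)) = 1 := by
          rw [← Units.val_mul, mul_inv_cancel, Units.val_one]
        have h6 := congrArg (Subtype.val) h5
        rw [MulMemClass.coe_mul] at h6
        exact h6
      exact eq_inv_of_mul_eq_one_right h2
    rw [← h1]
    exact ((y⁻¹ : Aˣ) : A).2
  refine ⟨(i₀, n₀), ?_, ?_⟩
  · rw [Fermat.Agent.P2.helper22.coeffLinFam_apply]
    intro h
    have := hcoef' i₀ n₀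
    rw [h, mul_zero] at this
    exact (mul_ne_zero hg0 hy0) this.symm
  · rintro ⟨i, j⟩
    rw [Fermat.Agent.P2.helper22.coeffLinFam_apply, Fermat.Agent.P2.helper22.coeffLinFam_apply]
    have e : (u i).coeff j / (u i₀).coeff n₀ =
        (((Y' i).coeff j : A) : Kb) * (((Y' i₀).coeff n₀ : A) : Kb)⁻¹ := by
      have h1 := hcoef' i j
      have h2 := hcoef' i₀ n₀
      have h3 : (u i).coeff j = ((p : Kb) ^ n)⁻¹ * ((g : Kb) * (((Y' i).coeff j : A) : Kb)) := by
        rw [← h1, ← mul_assoc, inv_mul_cancel₀ hpn, one_mul]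
      have h4 : (u i₀).coeff n₀ = ((p : Kb) ^ n)⁻¹ * ((g : Kb) * (((Y' i₀).coeff n₀ : A) : Kb)) := by
        rw [← h2, ← mul_assoc, inv_mul_cancel₀ hpn, one_mul]
      rw [h3, h4]
      field_simp
    rw [e]
    exact A.mul_mem _ _ ((Y' i).coeff j).2 hyinv


/-! ### The orbit of the pair of roots -/

theorem finite_orbitP {p : ℕ} (hp : 0 < p) {M : ℕ} [NeZero M] (K K' : FF M)
    (Z Z' : LaurentSeries Kb) (h : Z ^ p = (K : LaurentSeries Kb))
    (h' : Z' ^ p = (K' : LaurentSeries Kb)) :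
    {y : Fin 2 → LaurentSeries Kb | ∃ σ : Kb ≃ₐ[ℚ] Kb, IsIK1 A p σ ∧
      y = famMap ((σ : Kb ≃ₐ[ℚ] Kb) : Kb →+* Kb) ![Z, Z']}.Finite := by
  have f1 := Fermat.Agent.T8.helper23.finite_orbit_of_pow_eq hp
    (Fermat.Agent.T8.helper98.ik1Subgroup A p) K Z h
  have f2 := Fermat.Agent.T8.helper23.finite_orbit_of_pow_eq hp
    (Fermat.Agent.T8.helper98.ik1Subgroup A p) K' Z' h'
  refine (Set.Finite.image2 (fun a b : LaurentSeries Kb => ![a, b]) f1 f2).subset ?_
  rintro y ⟨σ, hσ, rfl⟩
  refine ⟨coeffMap ((σ : Kb ≃ₐ[ℚ] Kb) : Kb →+* Kb) Z, ⟨⟨σ, hσ⟩, rfl⟩,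
    coeffMap ((σ : Kb ≃ₐ[ℚ] Kb) : Kb →+* Kb) Z', ⟨⟨σ, hσ⟩, rfl⟩, ?_⟩
  funext i
  fin_cases i <;> rfl

section Main

variable (N p : ℕ) [NeZero N] [NeZero p] (hp : p.Prime) (hpN : ¬ p ∣ N)

/-- **[K-RAT], core**: the rational normalisation of a strongly split Kummer function. -/
theorem exists_rat_roots (hN : 4 ∣ N ∨ 9 ∣ N) (hA : A.LiesOverPrime p) {K : FF (N * p)}
    (hK : Fermat.Agent.T7.helper27.StronglySplit (N * p) (atkinLehner N p hp hpN) A p K) :
    ∃ (G : FF (N * p)) (Z₁ Z₂ : LaurentSeries A), G ≠ 0 ∧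
      Fermat.Agent.T2.IsA0One (N * p) (atkinLehner N p hp hpN) A (G ^ p * K) ∧
      incl A Z₁ ^ p = ((G ^ p * K : FF (N * p)) : LaurentSeries Kb) ∧
      incl A Z₂ ^ p = ((atkinLehner N p hp hpN (G ^ p * K) : FF (N * p)) : LaurentSeries Kb) ∧
      red A Z₁ = 1 ∧ red A Z₂ = 1 ∧ Fermat.Agent.T8.helper29.RootFix A p Z₁ ∧
      Fermat.Agent.T8.helper29.RootFix A p Z₂ := by
  classical
  obtain ⟨hA0, hdiv, Z₁, Z₂, h1, h2, hr1, hr2⟩ := hK
  have hWgal : ∀ (σ : Kb ≃ₐ[ℚ] Kb) (x : FF (N * p)),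
      atkinLehner N p hp hpN (galF (N * p) σ x) = galF (N * p) σ (atkinLehner N p hp hpN x) :=
    fun σ x => atkinLehner_arithmeticRingAut N p hp hpN σ x
  have hp0 : (p : Kb) ≠ 0 := Nat.cast_ne_zero.mpr hp.ne_zero
  -- the pair form
  have hpair : ∀ σ : Kb ≃ₐ[ℚ] Kb, IsIK1 A p σ → ∃ w : FF (N * p), w ≠ 0 ∧
      coeffMap ((σ : Kb ≃ₐ[ℚ] Kb) : Kb →+* Kb) (incl A Z₁) = (w : LaurentSeries Kb) * incl A Z₁ ∧
      coeffMap ((σ : Kb ≃ₐ[ℚ] Kb) : Kb →+* Kb) (incl A Z₂) =
        ((atkinLehner N p hp hpN w : FF (N * p)) : LaurentSeries Kb) * incl A Z₂ := by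
    intro σ hσ
    obtain ⟨w, hw, e1, e2⟩ :=
      (Fermat.Agent.T8.helper88.CovData.ofBad N p hp hpN hN A hA K hA0 Z₁ Z₂ h1 h2 hr1 hr2).pair
        σ hσ.1 1 hp.one_lt.le (fun z hz => by rw [pow_one]; exact hσ.2 z hz)
    refine ⟨w, hw, ?_, ?_⟩
    · rw [pow_one] at e1
      exact e1
    · rw [pow_one] at e2
      exact e2
  -- the orbit
  set z : Fin 2 → LaurentSeries Kb := ![incl A Z₁, incl A Z₂] with hz
  have hOfin := finite_orbitP (A := A) hp.pos K (atkinLehner N p hp hpN K) (incl A Z₁)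
    (incl A Z₂) h1 h2
  set S : Finset (Fin 2 → LaurentSeries Kb) := hOfin.toFinset with hSdef
  have hSmem : ∀ y, y ∈ S ↔ ∃ σ : Kb ≃ₐ[ℚ] Kb, IsIK1 A p σ ∧
      y = famMap ((σ : Kb ≃ₐ[ℚ] Kb) : Kb →+* Kb) z := by
    intro y
    rw [hSdef, Set.Finite.mem_toFinset]
    rfl
  have hone : IsIK1 A p 1 := (Fermat.Agent.T8.helper98.ik1Subgroup A p).one_mem
  have hzS : z ∈ S := by
    rw [hSmem]
    refine ⟨1, hone, ?_⟩
    funext i
    ext j
    rw [Fermat.Agent.P2.helper22.famMap_apply, coeffMap_coeff]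
    rfl
  have hzcoef : ∀ i j, (z i).coeff j ∈ A := by
    intro i j
    fin_cases i
    · show (incl A Z₁).coeff j ∈ A
      rw [coeffMap_coeff]
      exact (Z₁.coeff j).2
    · show (incl A Z₂).coeff j ∈ A
      rw [coeffMap_coeff]
      exact (Z₂.coeff j).2
  have hScoef : ∀ y ∈ S, ∀ i j, (y i).coeff j ∈ A := by
    intro y hy i j
    obtain ⟨σ, hσ, rfl⟩ := (hSmem y).1 hy
    rw [Fermat.Agent.P2.helper22.famMap_apply, coeffMap_coeff]
    exact Fermat.Agent.T8.helper97.apply_mem_of_mem_IA A hσ.1 (hzcoef i j)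
  -- number fields
  have hSnf : ∀ y : Fin 2 → LaurentSeries Kb, ∃ T : Finset Kb, y ∈ S →
      ∀ K₀ : IntermediateField ℚ Kb, (T : Set Kb) ⊆ K₀ → ∀ i j, (y i).coeff j ∈ K₀ := by
    intro y
    by_cases hy : y ∈ S
    · obtain ⟨σ, hσ, rfl⟩ := (hSmem y).1 hy
      have e1 : coeffMap ((σ : Kb ≃ₐ[ℚ] Kb) : Kb →+* Kb) (incl A Z₁) ^ p =
          ((galF (N * p) σ K : FF (N * p)) : LaurentSeries Kb) := by
        rw [← map_pow, h1, coe_galF]
      have e2 : coeffMap ((σ : Kb ≃ₐ[ℚ] Kb) : Kb →+* Kb) (incl A Z₂) ^ p =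
          ((galF (N * p) σ (atkinLehner N p hp hpN K) : FF (N * p)) : LaurentSeries Kb) := by
        rw [← map_pow, h2, coe_galF]
      obtain ⟨T₁, hT₁⟩ := Fermat.Agent.T8.helper23.coeff_mem_adjoin_of_pow_eq hp.pos _ _ e1
      obtain ⟨T₂, hT₂⟩ := Fermat.Agent.T8.helper23.coeff_mem_adjoin_of_pow_eq hp.pos _ _ e2
      refine ⟨T₁ ∪ T₂, fun _ K₀ hK₀ i j => ?_⟩
      have hsub1 : (T₁ : Set Kb) ⊆ K₀ := fun x hx => hK₀ (by
        rw [Finset.coe_union]; exact Or.inl hx)
      have hsub2 : (T₂ : Set Kb) ⊆ K₀ := fun x hx => hK₀ (by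
        rw [Finset.coe_union]; exact Or.inr hx)
      fin_cases i
      · exact (hT₁ K₀ hsub1).1 j
      · exact (hT₂ K₀ hsub2).1 j
    · exact ⟨∅, fun h => absurd h hy⟩
  choose T hT using hSnf
  -- the approximation
  obtain ⟨m, hm_mem, hm_fix, hm_int, hm_cong⟩ :=
    exists_fixed_approx (A := A) (c := coeffLinFam (L := Kb) (ι := Fin 2))
      (fun σ : Kb ≃ₐ[ℚ] Kb => IsIK1 A p σ)
      (fun σ : Kb ≃ₐ[ℚ] Kb => ((σ : Kb ≃ₐ[ℚ] Kb) : Kb →+* Kb))
      (fun (σ : Kb ≃ₐ[ℚ] Kb) u => famMap ((σ : Kb ≃ₐ[ℚ] Kb) : Kb →+* Kb) u)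
      (by
        intro σ _ u i
        rw [Fermat.Agent.P2.helper22.coeffLinFam_apply,
          Fermat.Agent.P2.helper22.coeffLinFam_apply, Fermat.Agent.P2.helper22.famMap_apply,
          coeffMap_coeff])
      (by
        intro u h
        funext i
        ext j
        exact h (i, j))
      S
      (by
        intro σ hσ s hs
        obtain ⟨τ, hτ, rfl⟩ := (hSmem s).1 hs
        rw [hSmem]
        refine ⟨σ * τ, (Fermat.Agent.T8.helper98.ik1Subgroup A p).mul_mem hσ hτ, ?_⟩
        funext i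
        ext j
        simp only [Fermat.Agent.P2.helper22.famMap_apply, coeffMap_coeff]
        rfl)
      (by
        intro u hu hu0
        obtain ⟨f, -, hf⟩ := Submodule.mem_span_finset.mp hu
        obtain ⟨n, hn⟩ := Fermat.Agent.T8.helper23.exists_pow_mul_mem_finset hp hA S f
        have hucoef : ∀ i j, (u i).coeff j = ∑ a ∈ S, f a * (a i).coeff j := by
          intro i j
          rw [← hf]
          simp [Finset.sum_apply, HahnSeries.coeff_sum]
        have hfd : FiniteDimensional ℚ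
            (IntermediateField.adjoin ℚ ((S.biUnion T ∪ S.image f : Finset Kb) : Set Kb)) :=
          Fermat.Agent.T7.helper22.finiteDimensional_adjoin_finset' _
        refine hasPivot_of_numberField (p := p) u hu0 n hp0 ?_
          (IntermediateField.adjoin ℚ ((S.biUnion T ∪ S.image f : Finset Kb) : Set Kb)) ?_
        · intro i j
          rw [hucoef, Finset.mul_sum]
          refine A.toSubring.sum_mem fun a ha => ?_
          rw [← mul_assoc]
          exact A.mul_mem _ _ (hn a ha) (hScoef a ha i j)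
        · intro i j
          rw [hucoef]
          refine IntermediateField.sum_mem _ fun a ha => ?_
          refine IntermediateField.mul_mem _ ?_ ?_
          · apply IntermediateField.subset_adjoin
            rw [Finset.coe_union]
            exact Or.inr (by
              rw [Finset.coe_image]
              exact ⟨a, ha, rfl⟩)
          · refine hT a ha _ ?_ i j
            intro x hx
            apply IntermediateField.subset_adjoin
            rw [Finset.coe_union]
            exact Or.inl (by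
              rw [Finset.coe_biUnion]
              exact Set.mem_biUnion ha hx))
      (by
        intro a ha
        obtain ⟨b, hb, hfix, hlt⟩ := Fermat.Agent.T3.helper84.k0_res hp A hA ha
        exact ⟨b, hb, fun σ hσ => hfix σ hσ.1, hlt⟩)
      z (Submodule.subset_span hzS)
      (by
        rintro ⟨i, j⟩
        exact hzcoef i j)
  -- the elements of the span are multiples of `z` by functions
  have hQ : ∀ u ∈ span Kb (S : Set (Fin 2 → LaurentSeries Kb)), ∃ g : FF (N * p),
      u 0 = (g : LaurentSeries Kb) * incl A Z₁ ∧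
      u 1 = ((atkinLehner N p hp hpN g : FF (N * p)) : LaurentSeries Kb) * incl A Z₂ ∧
      ∀ P : Place Kb (FF (N * p)), ¬ IsInfty P → ¬ IsInftyW (atkinLehner N p hp hpN) P →
        g ^ p * K ∈ P.toValuationSubring := by
    intro u hu
    induction hu using Submodule.span_induction with
    | mem y hy =>
      obtain ⟨σ, hσ, rfl⟩ := (hSmem y).1 hy
      obtain ⟨w, hw, e1, e2⟩ := hpair σ hσ
      refine ⟨w, e1, e2, fun P hP1 hP2 => ?_⟩
      have hwK : w ^ p * K = galF (N * p) σ K := by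
        apply Subtype.ext
        have h3 : ((w ^ p * K : FF (N * p)) : LaurentSeries Kb) =
            (w : LaurentSeries Kb) ^ p * (K : LaurentSeries Kb) := rfl
        rw [h3, ← h1, ← mul_pow, ← e1, ← map_pow, h1, coe_galF]
      rw [hwK]
      exact (Fermat.Agent.S24.helper82.mem_iff_ord_nonneg P).mpr
        (Fermat.Agent.T7.helper88.regOff2_galF hWgal σ hA0.1 P hP1 hP2)
    | zero =>
      refine ⟨0, ?_, ?_, fun P _ _ => ?_⟩
      · simp
      · simp
      · rw [zero_pow hp.ne_zero, zero_mul]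
        exact P.toValuationSubring.zero_mem
    | add x y _ _ hx hy =>
      obtain ⟨g₁, a1, a2, a3⟩ := hx
      obtain ⟨g₂, b1, b2, b3⟩ := hy
      refine ⟨g₁ + g₂, ?_, ?_, fun P hP1 hP2 => ?_⟩
      · rw [Pi.add_apply, a1, b1]
        have h3 : ((g₁ + g₂ : FF (N * p)) : LaurentSeries Kb) =
            (g₁ : LaurentSeries Kb) + (g₂ : LaurentSeries Kb) := rfl
        rw [h3, add_mul]
      · rw [Pi.add_apply, a2, b2, map_add]
        have h3 : ((atkinLehner N p hp hpN g₁ + atkinLehner N p hp hpN g₂ : FF (N * p)) :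
            LaurentSeries Kb) = ((atkinLehner N p hp hpN g₁ : FF (N * p)) : LaurentSeries Kb) +
              ((atkinLehner N p hp hpN g₂ : FF (N * p)) : LaurentSeries Kb) := rfl
        rw [h3, add_mul]
      · have ha := a3 P hP1 hP2
        have hb := b3 P hP1 hP2
        by_cases hg1 : g₁ = 0
        · rw [hg1, zero_add]
          exact hb
        by_cases hg2 : g₂ = 0
        · rw [hg2, add_zero]
          exact ha
        rcases P.toValuationSubring.mem_or_inv_mem (g₂ / g₁) with h | h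
        · have e0 : g₁ + g₂ = (1 + g₂ / g₁) * g₁ := by
            field_simp
          have e : (g₁ + g₂) ^ p * K = (1 + g₂ / g₁) ^ p * (g₁ ^ p * K) := by
            rw [e0, mul_pow]
            ring
          rw [e]
          exact mul_mem (pow_mem (add_mem (one_mem _) h) p) ha
        · have e0 : g₁ + g₂ = ((g₂ / g₁)⁻¹ + 1) * g₂ := by
            field_simp
          have e : (g₁ + g₂) ^ p * K = ((g₂ / g₁)⁻¹ + 1) ^ p * (g₂ ^ p * K) := by
            rw [e0, mul_pow]
            ring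
          rw [e]
          exact mul_mem (pow_mem (add_mem h (one_mem _)) p) hb
    | smul a x _ hx =>
      obtain ⟨g, a1, a2, a3⟩ := hx
      have key : ∀ f : LaurentSeries Kb, a • f = algebraMap Kb (LaurentSeries Kb) a * f := by
        intro f
        ext j
        rw [HahnSeries.coeff_smul, smul_eq_mul, Fermat.Agent.P2.helper44.coeff_algebraMap_mul]
      refine ⟨algebraMap Kb (FF (N * p)) a * g, ?_, ?_, fun P hP1 hP2 => ?_⟩
      · rw [Pi.smul_apply, a1, key, ← mul_assoc]
        rfl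
      · rw [Pi.smul_apply, a2, map_mul, AlgEquiv.commutes, key, ← mul_assoc]
        rfl
      · have e : (algebraMap Kb (FF (N * p)) a * g) ^ p * K =
            algebraMap Kb (FF (N * p)) (a ^ p) * (g ^ p * K) := by
          rw [mul_pow, map_pow]
          ring
        rw [e]
        exact mul_mem (P.algebraMap_mem' _) (a3 P hP1 hP2)
  obtain ⟨G, e0, e1, hreg⟩ := hQ m hm_mem
  obtain ⟨Y₁, hY₁⟩ := exists_incl_of_coeff_mem80 (A := A) (m 0) (fun j => hm_int (0, j))
  obtain ⟨Y₂, hY₂⟩ := exists_incl_of_coeff_mem80 (A := A) (m 1) (fun j => hm_int (1, j))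
  have hredeq : ∀ Z Y : LaurentSeries A,
      (∀ j, A.valuation ((incl A Z).coeff j - (incl A Y).coeff j) < 1) → red A Y = red A Z := by
    intro Z Y h
    ext j
    rw [coeffMap_coeff, coeffMap_coeff]
    have h4 := h j
    rw [coeffMap_coeff, coeffMap_coeff] at h4
    have h5 : Z.coeff j - Y.coeff j ∈ IsLocalRing.maximalIdeal A := by
      rw [A.valuation_lt_one_iff]
      exact h4
    have h6 := (IsLocalRing.residue_eq_zero_iff _).mpr h5
    rw [map_sub, sub_eq_zero] at h6
    exact h6.symm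
  have hrY₁ : red A Y₁ = 1 := by
    rw [hredeq Z₁ Y₁ (fun j => by rw [hY₁]; exact hm_cong (0, j)), hr1]
  have hrY₂ : red A Y₂ = 1 := by
    rw [hredeq Z₂ Y₂ (fun j => by rw [hY₂]; exact hm_cong (1, j)), hr2]
  have hG0 : G ≠ 0 := by
    rintro rfl
    have h3 : incl A Y₁ = 0 := by
      rw [hY₁, e0]
      simp
    have h4 : Y₁ = 0 := by
      apply Fermat.Agent.P2.helper74.coeffMap_subtype_injective A
      rw [h3, map_zero]
    rw [h4, map_zero] at hrY₁
    exact zero_ne_one hrY₁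
  have hp1 : incl A Y₁ ^ p = ((G ^ p * K : FF (N * p)) : LaurentSeries Kb) := by
    rw [hY₁, e0, mul_pow, h1]
    rfl
  have hp2 : incl A Y₂ ^ p =
      ((atkinLehner N p hp hpN (G ^ p * K) : FF (N * p)) : LaurentSeries Kb) := by
    rw [hY₂, e1, mul_pow, h2, map_mul, map_pow]
    rfl
  refine ⟨G, Y₁, Y₂, hG0, ⟨fun P hP1 hP2 =>
      (Fermat.Agent.S24.helper82.mem_iff_ord_nonneg P).mp (hreg P hP1 hP2), Y₁ ^ p, Y₂ ^ p,
      by rw [map_pow]; exact hp1, by rw [map_pow]; exact hp2,
      by rw [map_pow, hrY₁, one_pow], by rw [map_pow, hrY₂, one_pow]⟩,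
    hp1, hp2, hrY₁, hrY₂, ?_, ?_⟩
  · intro σ hσ
    have hσ' : IsIK1 A p σ := Fermat.Agent.T8.helper29.isIK1_iff_mem.mp hσ
    have h3 := congrFun (hm_fix σ hσ') 0
    show coeffMap ((σ : Kb ≃ₐ[ℚ] Kb) : Kb →+* Kb) (incl A Y₁) = incl A Y₁
    rw [hY₁]
    exact h3
  · intro σ hσ
    have hσ' : IsIK1 A p σ := Fermat.Agent.T8.helper29.isIK1_iff_mem.mp hσ
    have h3 := congrFun (hm_fix σ hσ') 1
    show coeffMap ((σ : Kb ≃ₐ[ℚ] Kb) : Kb →+* Kb) (incl A Y₂) = incl A Y₂
    rw [hY₂]
    exact h3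

/-- **[K-RAT] at a bad pair**: `helper29.KRatStatement`, verbatim. -/
theorem kRatStatement80 (hN : 4 ∣ N ∨ 9 ∣ N) (A : ValuationSubring Kb)
    (hA : A.LiesOverPrime p) : Fermat.Agent.T8.helper29.KRatStatement N p hp hpN A := by
  intro K hK hnew _
  obtain ⟨G, Z₁, Z₂, hG, hA0, h1, h2, hr1, hr2, hf1, hf2⟩ :=
    exists_rat_roots N p hp hpN hN hA hK
  have e : algebraMap Kb (FF (N * p)) 1 * G ^ p * K = G ^ p * K := by
    rw [map_one, one_mul]
  refine ⟨1, G, Z₁, Z₂, one_ne_zero, hG, ?_, ?_, ?_, ?_, hr1, hr2, hf1, hf2⟩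
  · rw [e]; exact hA0
  · rw [e]; exact Fermat.Agent.T7.helper27.isNewN_mul_pow K G hG hnew
  · rw [e]; exact h1
  · rw [e]; exact h2

end Main

/-- **the box [K-RAT] at all the bad pairs of the Frey packages: CLOSED, UNCONDITIONAL.** -/
theorem kRatAll80 : Fermat.Agent.T8.helper29.KRatAll := by
  intro P M' _ hpN A hA _ _
  haveI : NeZero P.p := ⟨P.pp.ne_zero⟩
  exact kRatStatement80 (4 * M') P.p P.pp hpN (Or.inl (Dvd.intro M' rfl)) A hA

/-- the non-split wall from the cover instance with rational roots alone (point form) -/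
theorem nonSplitWall_of_covPtFix80 (π : Fermat.Agent.T8.helper72.PullData)
    (h : Fermat.Agent.T8.helper29.CovPtFix) :
    Fermat.Agent.T8.helper38.NonSplitWallStatement π Fermat.Agent.T8.helper29.wallBN :=
  Fermat.Agent.T8.helper29.nonSplitWall_of_covPtFix π kRatAll80 h

/-- the non-split wall from the cover instance with rational roots alone (K0 form) -/
theorem nonSplitWall_of_k0CoverFix80 (π : Fermat.Agent.T8.helper72.PullData)
    (h : Fermat.Agent.T8.helper29.K0CoverFix) :
    Fermat.Agent.T8.helper38.NonSplitWallStatement π Fermat.Agent.T8.helper29.wallBN :=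
  Fermat.Agent.T8.helper29.nonSplitWall_of_k0CoverFix π kRatAll80 h

end Fermat.Agent.T8.helper80

end
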