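/-
T8 = row 38 via S44, leaf [CONCL] (helper80, second): the two inputs of
`helper29.conclAll_of_slopes` / `helper29.walls_of_slopes`.

* `slopeXAll : helper29.SlopeXAll` : **UNCONDITIONAL** - the K1-corollary on `X` at every bad pair
  `(4 M', p)` of a Frey package (`helper5.slopeX` + `helper65.k1CorAt_of_slopeX` +
  `helper57.ordAt_iota_eq`);
* `splitWall80 π : helper38.SplitWallStatement π helper29.wallBN` : **UNCONDITIONAL** (box 4 of the
  frontier), by `helper29.splitWall_of_slopeX`;
* `K0CoverAll` : the K0-corollary on the covers at all bad pairs (`helper80.K0CoverStatement`);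
* `slopeCoverAll_of_k0 : K0CoverAll → helper29.SlopeCoverAll`;
* `conclAll_of_k0Cover : K0CoverAll → helper29.ConclAll`;
* `nonSplitWall_of_k0Cover π : K0CoverAll → helper38.NonSplitWallStatement π helper29.wallBN`;
* `walls_of_k0Cover π : K0CoverAll → both walls`.
-/
import Mathlib
import Fermat.Agent.T8.helper29_SplitWall
import Fermat.Agent.T8.helper5_SlopeX
import Fermat.Agent.T8.helper65_K1SlopeX
import Fermat.Agent.T8.helper57_SplitN
import Fermat.Agent.T8.helper80_SlopeCoverK0

set_option autoImplicit false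
set_option linter.unusedSectionVars false
set_option linter.unusedVariables false
set_option linter.style.longLine false
set_option linter.style.haveILetI false

noncomputable section

namespace Fermat.Agent.T8.helper80

open HahnSeries IntermediateField AlgebraicCurve ModularCurve
open Fermat.Agent.S18.helper19 Fermat.Agent.P2.helper29 Fermat.Agent.P2.helper93
open Fermat.Agent.T2 Fermat.Agent.T2.helper36
open Fermat.Agent.T8.helper65
open Fermat.Agent.T8.helper54 (IsRed1)
open Fermat.Agent.T8.helper88 (CovData Cov)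
open Fermat.Agent.T8.helper86 (IsKummerRoot)
open Fermat.Agent.T3.helper16 (IsUnit0)

/-- **[SLOPE] K1-version on `X` at all bad pairs: UNCONDITIONAL.** -/
theorem slopeXAll : Fermat.Agent.T8.helper29.SlopeXAll := by
  intro P M' _ hpN A hA b0 B ε hb ν hν Q hQ
  have hS := Fermat.Agent.T8.helper5.slopeX hb hA (Or.inl (Dvd.intro M' rfl))
  have h := k1CorAt_of_slopeX (q := P.p) hA hS Q hQ
  rw [Fermat.Agent.T8.helper57.ordAt_iota_eq P.pp hpN hb hν Q] at h
  exact h

/-- **box 4 of the frontier (the split wall): UNCONDITIONAL.** -/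
theorem splitWall80 (π : Fermat.Agent.T8.helper72.PullData) :
    Fermat.Agent.T8.helper38.SplitWallStatement π Fermat.Agent.T8.helper29.wallBN :=
  Fermat.Agent.T8.helper29.splitWall_of_slopeX π slopeXAll

/-- **the K0-corollary on the covers**, at every bad pair `(4 M', p)` of a Frey package and every
first-component reduction `ν` of a weight-one unit. -/
def K0CoverAll : Prop :=
  ∀ (P : FreyPackage) (M' : ℕ) [NeZero M'] (hpN : ¬ P.p ∣ 4 * M')
    (A : ValuationSubring Kb), A.LiesOverPrime P.p →
    ∀ (b0 : FF (4 * M' * P.p)) (B : PowerSeries ℤ) (ε : ℤ), IsUnit0 P.pp hpN b0 B ε →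
    ∀ ν : FFb A (4 * M'), IsRed1 A (4 * M') P.p b0 ν →
    ∀ (D : CovData (4 * M' * P.p) (atkinLehner (4 * M') P.p P.pp hpN) A P.p)
      (hKum : IsKummerRoot P.p D.K D.Z) (ζ : Kb) (hζp : ζ ^ P.p = 1), IsPrimitiveRoot ζ P.p →
      K0CoverStatement D hKum ζ hζp ν

theorem slopeCoverAll_of_k0 (h : K0CoverAll) : Fermat.Agent.T8.helper29.SlopeCoverAll := by
  intro P M' _ hpN A hA b0 B ε hb ν hν D hKum ζ hζp hζ
  exact slopeCoverStatement_of_k0 D hKum ζ hζp hA ν (h P M' hpN A hA b0 B ε hb ν hν D hKum ζ hζp hζ)

/-- **box 5 of the frontier from the K0-corollary on the covers alone** -/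
theorem conclAll_of_k0Cover (h : K0CoverAll) : Fermat.Agent.T8.helper29.ConclAll :=
  Fermat.Agent.T8.helper29.conclAll_of_slopes slopeXAll (slopeCoverAll_of_k0 h)

/-- **the non-split wall from the K0-corollary on the covers alone** -/
theorem nonSplitWall_of_k0Cover (π : Fermat.Agent.T8.helper72.PullData) (h : K0CoverAll) :
    Fermat.Agent.T8.helper38.NonSplitWallStatement π Fermat.Agent.T8.helper29.wallBN :=
  Fermat.Agent.T8.helper29.nonSplitWall_of_slopes π slopeXAll (slopeCoverAll_of_k0 h)

/-- **both walls from the K0-corollary on the covers alone** -/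
theorem walls_of_k0Cover (π : Fermat.Agent.T8.helper72.PullData) (h : K0CoverAll) :
    Fermat.Agent.T8.helper38.SplitWallStatement π Fermat.Agent.T8.helper29.wallBN ∧
      Fermat.Agent.T8.helper38.NonSplitWallStatement π Fermat.Agent.T8.helper29.wallBN :=
  ⟨splitWall80 π, nonSplitWall_of_k0Cover π h⟩

end Fermat.Agent.T8.helper80

end
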