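import Mathlib
import Fermat.Agent.T8.helper83_DescContract
import Fermat.Agent.T8.helper88_CoverGalInst
import Fermat.Agent.T8.helper22_CoverValVG
import Fermat.Agent.T8.helper29_ConclSheet

/-!
# T8 = row 38 via S44, [CONCL] wiring (helper83): from [DESC] to the sheet families

Input: the cover data `C : helper88.CovData M W A p` with `hKum : IsKummerRoot p C.K C.Z`, a
primitive `p`-th root of unity `ζ`, `α` with `α ^ p` a unit of `A`, and the conclusion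
`helper83.DescOutput` of [DESC] (for instance from `helper86.peuShape_cases_bad`).

Output (`exists_sheetPack`): elements `uu`, `g`, `h` of the cover (`uu = u'`, `g = g₁⁻¹`,
`h = (the h of [DESC])⁻¹`) and a constant `c₀ ≠ 0` with

* `uu`, `g` fixed by `I_K1`, `ρ uu * (α ^ p * g ^ p) = uu`, `uu * h ^ p = c₀ * u`;
* the two sheet families `helper29.SheetFam` of the cover:
  `U₁ i = ρ ^ i uu`, `G₁ i = ρ ^ i g` read in `ℚ̄((q))` (sheets `(1, i)`, sheet field `F(Z₁)`),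
  `U₂ j = ι₂ (ρ ^ j uu)`, `G₂ j = ι₂ (ρ ^ j g)` (sheets `(2, j)`, sheet field `F(Z₂)`);
  the scalings of the `G i` with constants of tame valuation come from [COVER-VAL]
  (`helper22.sheetAtt`, `helper22.sheetVG_muFix`) and `v(1 - ζ) ^ (p - 1) = v(p)`;
* the scalings of `U₁ 0`, `U₂ 0` (tame valuation) and of `h` on the base sheets.

These are exactly the inputs `hF₁ hF₂ h₁ h₂ hv₁ hv₂ hh hrel` of
`helper29.slopeOutN_of_sheetOrd2`; its last input `hS` (the K1-corollary on the cover at one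
sheet pair per point) is about `V = uu`.
-/

set_option autoImplicit false
set_option linter.unusedSectionVars false
set_option linter.unusedVariables false
set_option linter.style.longLine false
set_option synthInstance.maxHeartbeats 400000

noncomputable section

namespace Fermat.Agent.T8.helper83

open HahnSeries IntermediateField ModularCurve
open Fermat.Agent.S18.helper19 Fermat.Agent.P2.helper29 Fermat.Agent.P2.helper93
open Fermat.Agent.T8.helper65 Fermat.Agent.T8.helper80 Fermat.Agent.T8.helper22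
open Fermat.Agent.T8.helper88 Fermat.Agent.T8.helper86
open Fermat.Agent.T8.helper29 (SheetFam)

variable {M : ℕ} [NeZero M] {W : FF M ≃ₐ[Kb] FF M} {A : ValuationSubring Kb} {p : ℕ}

/-! ### Tame valuation of the scaling constants -/

/-- a constant whose value is the value of `(1 - ζ) ^ m` has tame valuation with exponent `m` -/
theorem isVal_of_zpow (hp : p.Prime) {ζ : Kb} (hζ : IsPrimitiveRoot ζ p) {c : Kb} (hc : c ≠ 0)
    {m : ℤ} (h1 : c / (1 - ζ) ^ m ∈ A) (h2 : (1 - ζ) ^ m / c ∈ A) : IsVal A p c m := by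
  have hπ0 : (1 - ζ) ≠ 0 := sub_ne_zero.2 (fun h => hζ.ne_one hp.one_lt h.symm)
  have hπm : (1 - ζ) ^ m ≠ 0 := zpow_ne_zero _ hπ0
  have hp0 : (p : Kb) ≠ 0 := Nat.cast_ne_zero.2 hp.ne_zero
  have hv1 : A.valuation (c / (1 - ζ) ^ m) ≤ 1 := (A.valuation_le_one_iff _).2 h1
  have hv2 : A.valuation ((1 - ζ) ^ m / c) ≤ 1 := (A.valuation_le_one_iff _).2 h2
  have hx0 : A.valuation (c / (1 - ζ) ^ m) ≠ 0 :=
    (Valuation.ne_zero_iff _).2 (div_ne_zero hc hπm)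
  have hv : A.valuation (c / (1 - ζ) ^ m) = 1 := by
    refine le_antisymm hv1 ?_
    have e : (1 - ζ) ^ m / c = (c / (1 - ζ) ^ m)⁻¹ := by rw [inv_div]
    rw [e, map_inv₀] at hv2
    by_contra hlt
    rw [not_le] at hlt
    have h3 : 1 < (A.valuation (c / (1 - ζ) ^ m))⁻¹ :=
      (one_lt_inv₀ (zero_lt_iff.2 hx0)).2 hlt
    exact absurd hv2 (not_le.2 h3)
  have hzv := Fermat.Agent.T3.helper84.k0_zeta_val hp A hζ
  have key : c ^ (p - 1) / (p : Kb) ^ m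
      = (c / (1 - ζ) ^ m) ^ (p - 1) * (((1 - ζ) ^ (p - 1)) ^ m / (p : Kb) ^ m) := by
    have e1 : ((1 - ζ) ^ m) ^ (p - 1) = ((1 - ζ) ^ (p - 1)) ^ m := by
      rw [← zpow_natCast, ← zpow_mul, ← zpow_natCast, ← zpow_mul, mul_comm]
    rw [div_pow, e1]
    have h4 : ((1 - ζ) ^ (p - 1)) ^ m ≠ 0 := zpow_ne_zero _ (pow_ne_zero _ hπ0)
    have h5 : (p : Kb) ^ m ≠ 0 := zpow_ne_zero _ hp0
    field_simp
  unfold IsVal IsU
  rw [key, map_mul, map_pow, hv, one_pow, one_mul, map_div₀, map_zpow₀, map_zpow₀, map_pow,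
    hzv]
  exact div_self (zpow_ne_zero _ ((Valuation.ne_zero_iff _).2 hp0))

/-! ### The sheets of the cover -/

section Sheets

variable (C : CovData M W A p) (hKum : IsKummerRoot p C.K C.Z)

/-- constants of the cover -/
def cstC (c : Kb) : Cov M C.Z := algebraMap (FF M) (Cov M C.Z) (algebraMap Kb (FF M) c)

theorem coe_cstC (c : Kb) :
    ((cstC C c : Cov M C.Z) : LaurentSeries Kb) = algebraMap Kb (LaurentSeries Kb) c := rfl

theorem sheet2_cstC (c : Kb) :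
    C.sheet2 hKum (cstC C c) = algebraMap Kb (LaurentSeries Kb) c := by
  unfold cstC
  rw [C.sheet2_algebraMap, W.commutes]
  rfl

/-- the second embedding maps the cover into the second sheet field `F(Z₂)` -/
theorem sheet2_mem (x : Cov M C.Z) : C.sheet2 hKum x ∈ (FF M)⟮C.Z'⟯ := by
  obtain ⟨c, rfl⟩ := hKum.exists_sum_pow x
  rw [map_sum]
  refine sum_mem fun i _ => ?_
  rw [map_mul, map_pow, C.sheet2_algebraMap]
  have h1 : C.sheet2 hKum (AdjoinSimple.gen (FF M) C.Z) = C.Z' := C.sheet2_gen hKum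
  rw [h1]
  exact mul_mem (coe_mem_sheet C.Z' _) (pow_mem (gen_mem_sheet C.Z') i)

/-- the first sheets land in the first sheet field `F(Z₁)` -/
theorem sheet1_mem (x : Cov M C.Z) : ((x : Cov M C.Z) : LaurentSeries Kb) ∈ (FF M)⟮C.Z⟯ := x.2

theorem isIK1_of_mem {σ : Kb ≃ₐ[ℚ] Kb} (hσ : σ ∈ muFix p ⊓ IA A) :
    Fermat.Agent.T8.helper98.IsIK1 A p σ :=
  ⟨(Subgroup.mem_inf.1 hσ).2, (Subgroup.mem_inf.1 hσ).1⟩

/-- an element of the cover whose expansion is fixed by `I_K1` is fixed by the action -/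
theorem act_eq_of_fixed {x : Cov M C.Z}
    (hx : ∀ σ : Kb ≃ₐ[ℚ] Kb, Fermat.Agent.T8.helper98.IsIK1 A p σ →
      coeffMap (σ : Kb →+* Kb) (x : LaurentSeries Kb) = (x : LaurentSeries Kb))
    {σ : Kb ≃ₐ[ℚ] Kb} (hσ : σ ∈ muFix p ⊓ IA A) :
    C.act σ (Subgroup.mem_inf.1 hσ).2 x = x :=
  Subtype.ext (hx σ (isIK1_of_mem hσ))

/-- the images of an `I_K1`-fixed element on the sheets `(1, i)` are `I_K1`-fixed -/
theorem sheet1_fixed (ζ : Kb) (hζ : ζ ^ p = 1) {x : Cov M C.Z}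
    (hx : ∀ σ : Kb ≃ₐ[ℚ] Kb, Fermat.Agent.T8.helper98.IsIK1 A p σ →
      coeffMap (σ : Kb →+* Kb) (x : LaurentSeries Kb) = (x : LaurentSeries Kb))
    (i : ℕ) (σ : Kb ≃ₐ[ℚ] Kb) (hσ : σ ∈ muFix p ⊓ IA A) :
    cwAct σ ((((C.rho hKum ζ hζ) ^ i) x : Cov M C.Z) : LaurentSeries Kb)
      = ((((C.rho hKum ζ hζ) ^ i) x : Cov M C.Z) : LaurentSeries Kb) := by
  have h1 := C.sheet1_pow_act hKum ζ hζ σ (Subgroup.mem_inf.1 hσ).2 i x
  rw [act_eq_of_fixed C hx hσ] at h1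
  exact h1.symm

/-- the images of an `I_K1`-fixed element on the sheets `(2, j)` are `I_K1`-fixed -/
theorem sheet2_fixed (ζ : Kb) (hζ : ζ ^ p = 1) {x : Cov M C.Z}
    (hx : ∀ σ : Kb ≃ₐ[ℚ] Kb, Fermat.Agent.T8.helper98.IsIK1 A p σ →
      coeffMap (σ : Kb →+* Kb) (x : LaurentSeries Kb) = (x : LaurentSeries Kb))
    (j : ℕ) (σ : Kb ≃ₐ[ℚ] Kb) (hσ : σ ∈ muFix p ⊓ IA A) :
    cwAct σ (C.sheet2 hKum (((C.rho hKum ζ hζ) ^ j) x))
      = C.sheet2 hKum (((C.rho hKum ζ hζ) ^ j) x) := by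
  have h1 := C.sheet2_pow_act hKum ζ hζ σ (Subgroup.mem_inf.1 hσ).2 j x
  rw [act_eq_of_fixed C hx hσ] at h1
  exact h1.symm

/-- **scaling with tame valuation** of an `I_K1`-fixed nonzero element of a sheet field -/
theorem exists_scaling_isVal (hp : p.Prime) (hA : A.LiesOverPrime p) (hSc : ScaleStatement M A)
    {ζ : Kb} (hζ : IsPrimitiveRoot ζ p) (Z : LaurentSeries A) (hZ : incl A Z ^ p ∈ FF M)
    {G : LaurentSeries Kb} (hG : G ∈ (FF M)⟮incl A Z⟯) (hG0 : G ≠ 0)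
    (hfix : ∀ σ ∈ muFix p ⊓ IA A, cwAct σ G = G) :
    ∃ (γ : Kb) (rg : LaurentSeries (kA A)) (eg : ℤ), γ ≠ 0 ∧ rg ≠ 0 ∧
      HasRed (SheetGood M A (incl A Z)) γ G rg ∧ IsVal A p γ eg := by
  obtain ⟨γ, rg, hγ, hrg, hred⟩ := sheetAtt hSc hp.ne_zero Z hZ G hG hG0
  obtain ⟨m, h1, h2⟩ := sheetVG_muFix hp hA hζ hp.ne_zero (incl A Z) hZ G γ rg hγ hred hfix
  exact ⟨γ, rg, m, hγ, hrg, hred, isVal_of_zpow hp hζ hγ h1 h2⟩

end Sheets

/-! ### The package -/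

section Pack

/-- **the sheet package of [DESC]**: everything [CONCL] needs from the descent, on the `2 p`
sheets of the cover. -/
structure IsSheetPack (C : CovData M W A p) (hKum : IsKummerRoot p C.K C.Z) (ζ : Kb)
    (hζ : ζ ^ p = 1) (α : Kb) (u : FF M) (c₀ : Kb) (uu g h : Cov M C.Z) : Prop where
  c0_ne : c₀ ≠ 0
  uu_ne : uu ≠ 0
  g_ne : g ≠ 0
  h_ne : h ≠ 0
  /-- `uu` is `K1`-rational -/
  fix_uu : ∀ σ : Kb ≃ₐ[ℚ] Kb, Fermat.Agent.T8.helper98.IsIK1 A p σ →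
    coeffMap (σ : Kb →+* Kb) (uu : LaurentSeries Kb) = (uu : LaurentSeries Kb)
  /-- `g` is `K1`-rational -/
  fix_g : ∀ σ : Kb ≃ₐ[ℚ] Kb, Fermat.Agent.T8.helper98.IsIK1 A p σ →
    coeffMap (σ : Kb →+* Kb) (g : LaurentSeries Kb) = (g : LaurentSeries Kb)
  /-- (D3) on the cover -/
  deck_rel : C.rho hKum ζ hζ uu * (cstC C (α ^ p) * g ^ p) = uu
  /-- (D2) on the cover -/
  desc_rel : uu * h ^ p = cstC C c₀ * algebraMap (FF M) (Cov M C.Z) u
  /-- the sheets `(1, i)` -/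
  fam1 : SheetFam A (SheetGood M A C.Z) p (α ^ p)
    (fun i => ((((C.rho hKum ζ hζ) ^ i) uu : Cov M C.Z) : LaurentSeries Kb))
    (fun i => ((((C.rho hKum ζ hζ) ^ i) g : Cov M C.Z) : LaurentSeries Kb))
  /-- the sheets `(2, j)` -/
  fam2 : SheetFam A (SheetGood M A C.Z') p (α ^ p)
    (fun j => C.sheet2 hKum (((C.rho hKum ζ hζ) ^ j) uu))
    (fun j => C.sheet2 hKum (((C.rho hKum ζ hζ) ^ j) g))
  /-- the scaling of `uu` on the base sheet `(1, 0)` -/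
  base1 : ∃ (c₁ : Kb) (r₁ : LaurentSeries (kA A)) (e₁ : ℤ), c₁ ≠ 0 ∧ r₁ ≠ 0 ∧
    HasRed (SheetGood M A C.Z) c₁
      ((((C.rho hKum ζ hζ) ^ 0) uu : Cov M C.Z) : LaurentSeries Kb) r₁ ∧ IsVal A p c₁ e₁
  /-- the scaling of `uu` on the base sheet `(2, 0)` -/
  base2 : ∃ (c₂ : Kb) (r₂ : LaurentSeries (kA A)) (e₂ : ℤ), c₂ ≠ 0 ∧ r₂ ≠ 0 ∧
    HasRed (SheetGood M A C.Z') c₂ (C.sheet2 hKum (((C.rho hKum ζ hζ) ^ 0) uu)) r₂ ∧
      IsVal A p c₂ e₂
  /-- the scaling of `h` on the base sheet `(1, 0)` -/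
  baseH : ∃ (ch : Kb) (rh : LaurentSeries (kA A)), ch ≠ 0 ∧ rh ≠ 0 ∧
    HasRed (SheetGood M A C.Z) ch (h : LaurentSeries Kb) rh
  /-- (D2) read on the base sheet -/
  relL : ((((C.rho hKum ζ hζ) ^ 0) uu : Cov M C.Z) : LaurentSeries Kb)
      * (h : LaurentSeries Kb) ^ p
    = algebraMap Kb (LaurentSeries Kb) c₀ * (u : LaurentSeries Kb)

variable (C : CovData M W A p) (hKum : IsKummerRoot p C.K C.Z)

/-- (D3) on every sheet of the cover -/
theorem deck_rel_pow (ζ : Kb) (hζ : ζ ^ p = 1) {a : Kb} {uu g : Cov M C.Z}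
    (h : C.rho hKum ζ hζ uu * (cstC C a * g ^ p) = uu) (i : ℕ) :
    ((C.rho hKum ζ hζ) ^ (i + 1)) uu * (cstC C a * (((C.rho hKum ζ hζ) ^ i) g) ^ p)
      = ((C.rho hKum ζ hζ) ^ i) uu := by
  have h1 := congrArg (fun x => ((C.rho hKum ζ hζ) ^ i) x) h
  simp only [map_mul, map_pow] at h1
  have h2 : ((C.rho hKum ζ hζ) ^ i) (cstC C a) = cstC C a :=
    ((C.rho hKum ζ hζ) ^ i).commutes _
  have h3 : ((C.rho hKum ζ hζ) ^ i) (C.rho hKum ζ hζ uu) = ((C.rho hKum ζ hζ) ^ (i + 1)) uu := by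
    rw [pow_succ, AlgEquiv.mul_apply]
  rw [h2, h3] at h1
  exact h1

/-- **[DESC] on the sheets**: the package from the conclusion of [DESC]. -/
theorem exists_sheetPack (hA : A.LiesOverPrime p) (hSc : ScaleStatement M A)
    {ζ α : Kb} (hζ : IsPrimitiveRoot ζ p) {u : FF M} (hu : u ≠ 0)
    (hO : DescOutput hKum hζ.pow_eq_one A u α) :
    ∃ (c₀ : Kb) (uu g h : Cov M C.Z), IsSheetPack C hKum ζ hζ.pow_eq_one α u c₀ uu g h := by
  have hp : p.Prime := C.hp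
  obtain ⟨c₀, h₀, g₁, u', hc₀, hh₀, hg₁, hu'def, hfixu, hfixg, hrel⟩ := hO
  have hZ1 : incl A C.Z₁ ^ p ∈ FF M := by
    rw [C.h1]
    exact C.K.2
  have hZ2 : incl A C.Z₂ ^ p ∈ FF M := by
    rw [C.h2]
    exact (W C.K).2
  have hcu : algebraMap (FF M) (Cov M C.Z) (algebraMap Kb (FF M) c₀ * u) ≠ 0 :=
    (map_ne_zero _).2 (mul_ne_zero ((map_ne_zero _).2 hc₀) hu)
  have hu'0 : u' ≠ 0 := by
    rw [hu'def]
    exact mul_ne_zero (pow_ne_zero _ hh₀) hcu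
  have hg0 : g₁⁻¹ ≠ 0 := inv_ne_zero hg₁
  have hh0 : h₀⁻¹ ≠ 0 := inv_ne_zero hh₀
  have hfixg' : ∀ σ : Kb ≃ₐ[ℚ] Kb, Fermat.Agent.T8.helper98.IsIK1 A p σ →
      coeffMap (σ : Kb →+* Kb) ((g₁⁻¹ : Cov M C.Z) : LaurentSeries Kb)
        = ((g₁⁻¹ : Cov M C.Z) : LaurentSeries Kb) := by
    intro σ hσ
    have e : ((g₁⁻¹ : Cov M C.Z) : LaurentSeries Kb) = ((g₁ : Cov M C.Z) : LaurentSeries Kb)⁻¹ :=
      rfl
    rw [e, map_inv₀, hfixg σ hσ]
  have hdeck : C.rho hKum ζ hζ.pow_eq_one u' * (cstC C (α ^ p) * (g₁⁻¹) ^ p) = u' := by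
    have h1 : C.rho hKum ζ hζ.pow_eq_one u' * cstC C (α ^ p) = g₁ ^ p * u' := hrel
    rw [← mul_assoc, h1, inv_pow]
    field_simp
  have hdesc : u' * (h₀⁻¹) ^ p = cstC C c₀ * algebraMap (FF M) (Cov M C.Z) u := by
    rw [hu'def, inv_pow, map_mul]
    unfold cstC
    field_simp
  -- the families
  have hrel1 : ∀ i, ((((C.rho hKum ζ hζ.pow_eq_one) ^ (i + 1)) u' : Cov M C.Z) : LaurentSeries Kb)
      * (algebraMap Kb (LaurentSeries Kb) (α ^ p)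
        * ((((C.rho hKum ζ hζ.pow_eq_one) ^ i) g₁⁻¹ : Cov M C.Z) : LaurentSeries Kb) ^ p)
      = ((((C.rho hKum ζ hζ.pow_eq_one) ^ i) u' : Cov M C.Z) : LaurentSeries Kb) := by
    intro i
    have h1 := deck_rel_pow C hKum ζ hζ.pow_eq_one hdeck i
    exact congrArg (fun x : Cov M C.Z => (x : LaurentSeries Kb)) h1
  have hrel2 : ∀ j, C.sheet2 hKum (((C.rho hKum ζ hζ.pow_eq_one) ^ (j + 1)) u')
      * (algebraMap Kb (LaurentSeries Kb) (α ^ p)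
        * (C.sheet2 hKum (((C.rho hKum ζ hζ.pow_eq_one) ^ j) g₁⁻¹)) ^ p)
      = C.sheet2 hKum (((C.rho hKum ζ hζ.pow_eq_one) ^ j) u') := by
    intro j
    have h1 := congrArg (C.sheet2 hKum) (deck_rel_pow C hKum ζ hζ.pow_eq_one hdeck j)
    rw [map_mul, map_mul, map_pow, sheet2_cstC] at h1
    exact h1
  have hne1 : ∀ (x : Cov M C.Z), x ≠ 0 → ∀ i,
      ((((C.rho hKum ζ hζ.pow_eq_one) ^ i) x : Cov M C.Z) : LaurentSeries Kb) ≠ 0 := by
    intro x hx i h0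
    have h1 : ((C.rho hKum ζ hζ.pow_eq_one) ^ i) x = 0 := Subtype.ext h0
    exact hx ((map_eq_zero_iff _ ((C.rho hKum ζ hζ.pow_eq_one) ^ i).injective).1 h1)
  have hne2 : ∀ (x : Cov M C.Z), x ≠ 0 → ∀ j,
      C.sheet2 hKum (((C.rho hKum ζ hζ.pow_eq_one) ^ j) x) ≠ 0 := by
    intro x hx j h0
    have h1 : ((C.rho hKum ζ hζ.pow_eq_one) ^ j) x = 0 :=
      (map_eq_zero_iff _ (C.sheet2 hKum).injective).1 h0
    exact hx ((map_eq_zero_iff _ ((C.rho hKum ζ hζ.pow_eq_one) ^ j).injective).1 h1)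
  have hsc1 : ∀ (x : Cov M C.Z), x ≠ 0 →
      (∀ σ : Kb ≃ₐ[ℚ] Kb, Fermat.Agent.T8.helper98.IsIK1 A p σ →
        coeffMap (σ : Kb →+* Kb) (x : LaurentSeries Kb) = (x : LaurentSeries Kb)) → ∀ i,
      ∃ (γ : Kb) (rg : LaurentSeries (kA A)) (eg : ℤ), γ ≠ 0 ∧ rg ≠ 0 ∧
        HasRed (SheetGood M A C.Z) γ
          ((((C.rho hKum ζ hζ.pow_eq_one) ^ i) x : Cov M C.Z) : LaurentSeries Kb) rg ∧
        IsVal A p γ eg := fun x hx hfix i =>
    exists_scaling_isVal hp hA hSc hζ C.Z₁ hZ1 (sheet1_mem C _) (hne1 x hx i)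
      (fun σ hσ => sheet1_fixed C hKum ζ hζ.pow_eq_one hfix i σ hσ)
  have hsc2 : ∀ (x : Cov M C.Z), x ≠ 0 →
      (∀ σ : Kb ≃ₐ[ℚ] Kb, Fermat.Agent.T8.helper98.IsIK1 A p σ →
        coeffMap (σ : Kb →+* Kb) (x : LaurentSeries Kb) = (x : LaurentSeries Kb)) → ∀ j,
      ∃ (γ : Kb) (rg : LaurentSeries (kA A)) (eg : ℤ), γ ≠ 0 ∧ rg ≠ 0 ∧
        HasRed (SheetGood M A C.Z') γ
          (C.sheet2 hKum (((C.rho hKum ζ hζ.pow_eq_one) ^ j) x)) rg ∧
        IsVal A p γ eg := fun x hx hfix j =>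
    exists_scaling_isVal hp hA hSc hζ C.Z₂ hZ2 (sheet2_mem C hKum _) (hne2 x hx j)
      (fun σ hσ => sheet2_fixed C hKum ζ hζ.pow_eq_one hfix j σ hσ)
  refine ⟨c₀, u', g₁⁻¹, h₀⁻¹,
    { c0_ne := hc₀
      uu_ne := hu'0
      g_ne := hg0
      h_ne := hh0
      fix_uu := hfixu
      fix_g := hfixg'
      deck_rel := hdeck
      desc_rel := hdesc
      fam1 := ⟨hrel1, hne1 _ hg0, hsc1 _ hg0 hfixg'⟩
      fam2 := ⟨hrel2, hne2 _ hg0, hsc2 _ hg0 hfixg'⟩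
      base1 := hsc1 _ hu'0 hfixu 0
      base2 := hsc2 _ hu'0 hfixu 0
      baseH := ?_
      relL := ?_ }⟩
  · obtain ⟨ch, rh, hch, hrh, hred⟩ :=
      sheetAtt hSc hp.ne_zero C.Z₁ hZ1 _ (sheet1_mem C (h₀⁻¹)) (fun h0 => hh0 (Subtype.ext h0))
    exact ⟨ch, rh, hch, hrh, hred⟩
  · have h1 := congrArg (fun x : Cov M C.Z => (x : LaurentSeries Kb)) hdesc
    exact h1

end Pack

end Fermat.Agent.T8.helper83

end
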