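import Mathlib
import Fermat.Agent.T8.helper97_TameTrace
import Fermat.Agent.S05.helper4_Inertia

/-!
# T8 (row 38), box [K-RAT] (helper83): the integral projector `L' → K1`

`A` a valuation subring of `ℚ̄` over `p`, `G = I_K1 = muFix p ⊓ IA A`, `N ≤ G` a subgroup of
finite index, `L' = ℚ̄ ^ N`, `K1 = ℚ̄ ^ G`, `T = Tr_{G / N}` (`helper97.traceCoset`).

* `trK`, `nmK`               : trace and norm over `G / N` on constants;
* `exists_unif_fixed`        : the valuation is discrete on `L'`: the maximal ideal of `A ∩ L'`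
                               is generated by one element `ϖ'`;
* `exists_theta`             : **there is `θ ∈ L'` with `T θ = 1` and `T (θ m) ∈ 𝔪` for every
                               `m ∈ 𝔪 ∩ L'`** (an element of the inverse different; in the wild
                               case it is not integral);
* `trK_theta_mem`, `trK_theta_sub` : `pr a := T (θ a)` maps `A ∩ L'` into `A ∩ K1` and
                               `pr a ≡ a` modulo the maximal ideal;
* `exists_proj_series`       : the same coefficientwise on integral Laurent series: the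
                               projection of an `N`-fixed integral series `Z` is an integral
                               series with the same reduction, fixed by `G`.
-/

set_option autoImplicit false
set_option linter.unusedSectionVars false
set_option linter.unusedVariables false
set_option linter.style.longLine false
set_option linter.style.haveILetI false

noncomputable section

namespace Fermat.Agent.T8.helper83

open HahnSeries ModularCurve
open Fermat.Agent.S18.helper19 Fermat.Agent.P2.helper29 Fermat.Agent.P2.helper93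
open Fermat.Agent.T8.helper65 Fermat.Agent.T8.helper97

section Core

variable (p : ℕ) (A : ValuationSubring Kb) (N : Subgroup (Kb ≃ₐ[ℚ] Kb))
  [(N.subgroupOf (muFix p ⊓ IA A)).FiniteIndex]

/-- the trace over `G / N` on constants -/
def trK (x : Kb) : Kb := traceCoset cAct (muFix p ⊓ IA A) N x

/-- the norm over `G / N` on constants -/
def nmK (x : Kb) : Kb := normCoset cAct (muFix p ⊓ IA A) N x

/-- the index `[G : N]` -/
def idxK : ℕ := (N.subgroupOf (muFix p ⊓ IA A)).index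

theorem idxK_ne_zero : idxK p A N ≠ 0 := Subgroup.FiniteIndex.index_ne_zero

variable {p A N}

theorem val_apply_IA {σ : Kb ≃ₐ[ℚ] Kb} (hσ : σ ∈ IA A) (x : Kb) :
    A.valuation (σ x) = A.valuation x :=
  Fermat.Agent.S05.helper4.valuation_apply hσ ((AlgebraicClosure.isAlgebraic ℚ).isAlgebraic x)

theorem trK_add (x y : Kb) : trK p A N (x + y) = trK p A N x + trK p A N y :=
  traceCoset_add isAddActFam_cAct x y

theorem trK_mul_left {b : Kb} (hb : ∀ σ ∈ muFix p ⊓ IA A, σ b = b) (x : Kb) :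
    trK p A N (b * x) = b * trK p A N x := by
  classical
  letI : Fintype ((muFix p ⊓ IA A : Subgroup _) ⧸ N.subgroupOf (muFix p ⊓ IA A)) :=
    Subgroup.fintypeQuotientOfFiniteIndex
  unfold trK traceCoset
  rw [Finset.mul_sum]
  refine Finset.sum_congr rfl fun c _ => ?_
  show (Quotient.out c : (muFix p ⊓ IA A : Subgroup _)).1 (b * x) = _
  rw [map_mul, hb _ (Quotient.out c).2]
  rfl

theorem trK_one : trK p A N 1 = (idxK p A N : Kb) := by
  classical
  letI : Fintype ((muFix p ⊓ IA A : Subgroup _) ⧸ N.subgroupOf (muFix p ⊓ IA A)) :=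
    Subgroup.fintypeQuotientOfFiniteIndex
  unfold trK traceCoset idxK
  have h1 : ∀ c : (muFix p ⊓ IA A : Subgroup _) ⧸ N.subgroupOf (muFix p ⊓ IA A),
      cAct ((Quotient.out c : (muFix p ⊓ IA A : Subgroup _)) : Kb ≃ₐ[ℚ] Kb) (1 : Kb) = 1 :=
    fun c => map_one _
  simp only [h1, Finset.sum_const, Finset.card_univ, nsmul_eq_mul, mul_one]
  rw [Subgroup.index_eq_card, Nat.card_eq_fintype_card]

theorem trK_fixed {x : Kb} (hx : ∀ σ ∈ N, σ x = x) {τ : Kb ≃ₐ[ℚ] Kb}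
    (hτ : τ ∈ muFix p ⊓ IA A) : τ (trK p A N x) = trK p A N x :=
  act_traceCoset isAddActFam_cAct hx hτ

theorem val_trK_le (x : Kb) : A.valuation (trK p A N x) ≤ A.valuation x := by
  classical
  letI : Fintype ((muFix p ⊓ IA A : Subgroup _) ⧸ N.subgroupOf (muFix p ⊓ IA A)) :=
    Subgroup.fintypeQuotientOfFiniteIndex
  unfold trK traceCoset
  refine Valuation.map_sum_le _ fun c _ => ?_
  show A.valuation ((Quotient.out c : (muFix p ⊓ IA A : Subgroup _)).1 x) ≤ _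
  rw [val_apply_IA (Quotient.out c).2.2]

theorem nmK_fixed {x : Kb} (hx : ∀ σ ∈ N, σ x = x) {τ : Kb ≃ₐ[ℚ] Kb}
    (hτ : τ ∈ muFix p ⊓ IA A) : τ (nmK p A N x) = nmK p A N x :=
  act_normCoset isActFam_cAct hx hτ

theorem val_nmK (x : Kb) : A.valuation (nmK p A N x) = A.valuation x ^ idxK p A N := by
  classical
  letI : Fintype ((muFix p ⊓ IA A : Subgroup _) ⧸ N.subgroupOf (muFix p ⊓ IA A)) :=
    Subgroup.fintypeQuotientOfFiniteIndex
  unfold nmK normCoset idxK
  rw [map_prod]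
  have h1 : ∀ c : (muFix p ⊓ IA A : Subgroup _) ⧸ N.subgroupOf (muFix p ⊓ IA A),
      A.valuation (cAct ((Quotient.out c : (muFix p ⊓ IA A : Subgroup _)) : Kb ≃ₐ[ℚ] Kb) x)
        = A.valuation x := fun c => val_apply_IA (Quotient.out c).2.2 x
  simp only [h1, Finset.prod_const, Finset.card_univ]
  rw [Subgroup.index_eq_card, Nat.card_eq_fintype_card]

end Core

section Theta

variable {p : ℕ} {A : ValuationSubring Kb} {N : Subgroup (Kb ≃ₐ[ℚ] Kb)}
  [(N.subgroupOf (muFix p ⊓ IA A)).FiniteIndex]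

/-- discreteness of the valuation on `K1 = ℚ̄ ^ G` -/
theorem exists_zpow_of_fixed (hp : p.Prime) (hA : A.LiesOverPrime p) {ζ : Kb}
    (hζ : IsPrimitiveRoot ζ p) {x : Kb} (hx : x ≠ 0)
    (hfix : ∀ σ ∈ muFix p ⊓ IA A, σ x = x) :
    ∃ m : ℤ, A.valuation x = A.valuation (1 - ζ) ^ m := by
  haveI : Fact p.Prime := ⟨hp⟩
  obtain ⟨m, hm⟩ := Fermat.Agent.T3.helper84.k0_disc_zeta hp A hA hζ hx
    (fun σ hσ hσζ => hfix σ ⟨(mem_muFix_iff hζ).mpr hσζ, hσ⟩)
  exact ⟨m, by rw [hm, map_zpow₀]⟩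

theorem one_sub_zeta_fixed {ζ : Kb} (hζ : IsPrimitiveRoot ζ p) :
    ∀ σ ∈ muFix p ⊓ IA A, σ (1 - ζ) = 1 - ζ := by
  intro σ hσ
  rw [map_sub, map_one, hσ.1 ζ hζ.pow_eq_one]

/-- **the valuation is discrete on `L' = ℚ̄ ^ N`**: a generator of the maximal ideal -/
theorem exists_unif_fixed (hp : p.Prime) (hA : A.LiesOverPrime p)
    (hNG : N ≤ muFix p ⊓ IA A) {ζ : Kb} (hζ : IsPrimitiveRoot ζ p) :
    ∃ ϖ : Kb, ϖ ≠ 0 ∧ (∀ σ ∈ N, σ ϖ = ϖ) ∧ A.valuation ϖ < 1 ∧
      (∃ j : ℕ, 0 < j ∧ A.valuation ϖ ^ idxK p A N = A.valuation (1 - ζ) ^ j) ∧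
      ∀ m : Kb, (∀ σ ∈ N, σ m = m) → A.valuation m < 1 →
        A.valuation m ≤ A.valuation ϖ := by
  classical
  have hw1 : A.valuation (1 - ζ) < 1 := Fermat.Agent.T3.helper84.k0_zeta_val_lt hp A hA hζ
  have hw0 : A.valuation (1 - ζ) ≠ 0 := Fermat.Agent.T3.helper84.k0_zeta_val_ne_zero hp A hζ
  have hwpos : 0 < A.valuation (1 - ζ) := zero_lt_iff.mpr hw0
  have hn0 : idxK p A N ≠ 0 := idxK_ne_zero p A N
  have hζfix := one_sub_zeta_fixed (A := A) hζ
  have hζ1 : (1 : Kb) - ζ ≠ 0 := sub_ne_zero.mpr (hζ.ne_one hp.one_lt).symm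
  have hex : ∃ j : ℕ, 0 < j ∧ ∃ x : Kb, x ≠ 0 ∧ (∀ σ ∈ N, σ x = x) ∧
      A.valuation x ^ idxK p A N = A.valuation (1 - ζ) ^ j :=
    ⟨idxK p A N, Nat.pos_of_ne_zero hn0, 1 - ζ, hζ1, fun σ hσ => hζfix σ (hNG hσ), rfl⟩
  obtain ⟨hj0, ϖ, hϖ0, hϖfix, hϖv⟩ := Nat.find_spec hex
  have hϖ1 : A.valuation ϖ < 1 := by
    by_contra hcon
    have hcon' : 1 ≤ A.valuation ϖ := not_lt.mp hcon
    have h1 : 1 ≤ A.valuation ϖ ^ idxK p A N := one_le_pow₀ hcon'
    rw [hϖv] at h1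
    have h2 : A.valuation (1 - ζ) ^ Nat.find hex < 1 := pow_lt_one₀ zero_le hw1 hj0.ne'
    exact absurd h1 (not_le.mpr h2)
  refine ⟨ϖ, hϖ0, hϖfix, hϖ1, ⟨Nat.find hex, hj0, hϖv⟩, fun m hm hm1 => ?_⟩
  by_cases hm0 : m = 0
  · rw [hm0, map_zero]
    exact zero_le
  have hvm0 : A.valuation m ≠ 0 := (Valuation.ne_zero_iff _).mpr hm0
  have hnm0 : nmK p A N m ≠ 0 := by
    intro h
    have h1 := val_nmK (p := p) (A := A) (N := N) m
    rw [h, map_zero] at h1
    exact pow_ne_zero _ hvm0 h1.symm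
  obtain ⟨j, hj⟩ := exists_zpow_of_fixed hp hA hζ hnm0 (fun σ hσ => nmK_fixed hm hσ)
  rw [val_nmK] at hj
  have hlt : A.valuation m ^ idxK p A N < 1 := pow_lt_one₀ zero_le hm1 hn0
  have hjpos : 0 < j := by
    by_contra hcon
    have hcon' : j ≤ 0 := not_lt.mp hcon
    have h1 : (1 : A.ValueGroup) ≤ A.valuation (1 - ζ) ^ j := by
      have h2 : A.valuation (1 - ζ) ^ (0 : ℤ) ≤ A.valuation (1 - ζ) ^ j :=
        zpow_le_zpow_right_of_le_one₀ hwpos hw1.le hcon'
      rwa [zpow_zero] at h2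
    rw [← hj] at h1
    exact absurd h1 (not_le.mpr hlt)
  lift j to ℕ using hjpos.le
  rw [zpow_natCast] at hj
  have hle : Nat.find hex ≤ j :=
    Nat.find_min' hex ⟨by exact_mod_cast hjpos, m, hm0, hm, hj⟩
  have h3 : A.valuation m ^ idxK p A N ≤ A.valuation ϖ ^ idxK p A N := by
    rw [hj, hϖv]
    exact pow_le_pow_of_le_one zero_le hw1.le hle
  exact (pow_le_pow_iff_left₀ zero_le zero_le hn0).mp h3

/-- **the element of the inverse different**: `θ ∈ L'` with `T θ = 1` and `T (θ 𝔪') ⊆ 𝔪`. -/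
theorem exists_theta (hp : p.Prime) (hA : A.LiesOverPrime p) (hNG : N ≤ muFix p ⊓ IA A) :
    ∃ θ : Kb, (∀ σ ∈ N, σ θ = θ) ∧ trK p A N θ = 1 ∧
      ∀ m : Kb, (∀ σ ∈ N, σ m = m) → A.valuation m < 1 →
        A.valuation (trK p A N (θ * m)) < 1 := by
  classical
  haveI : Fact p.Prime := ⟨hp⟩
  obtain ⟨ζ, hζ⟩ := exists_primitiveRoot_Kb (p := p)
  obtain ⟨ϖ, hϖ0, hϖfix, hϖ1, ⟨j₀, hj₀, hϖv⟩, hϖmax⟩ := exists_unif_fixed hp hA hNG hζ
  have hw1 : A.valuation (1 - ζ) < 1 := Fermat.Agent.T3.helper84.k0_zeta_val_lt hp A hA hζ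
  have hw0 : A.valuation (1 - ζ) ≠ 0 := Fermat.Agent.T3.helper84.k0_zeta_val_ne_zero hp A hζ
  have hwpos : 0 < A.valuation (1 - ζ) := zero_lt_iff.mpr hw0
  have hn0 : idxK p A N ≠ 0 := idxK_ne_zero p A N
  have hnK : (idxK p A N : Kb) ≠ 0 := Nat.cast_ne_zero.mpr hn0
  have hζfix := one_sub_zeta_fixed (A := A) hζ
  have hζ1 : (1 : Kb) - ζ ≠ 0 := sub_ne_zero.mpr (hζ.ne_one hp.one_lt).symm
  have hvϖ0 : A.valuation ϖ ≠ 0 := (Valuation.ne_zero_iff _).mpr hϖ0
  obtain ⟨θk, hθk⟩ : ∃ θk : ℕ → Kb, ∀ k, θk k = (1 - ζ) * (ϖ⁻¹) ^ k := ⟨_, fun _ => rfl⟩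
  have hθfix : ∀ k, ∀ σ ∈ N, σ (θk k) = θk k := by
    intro k σ hσ
    rw [hθk, map_mul, map_pow, map_inv₀, hϖfix σ hσ, hζfix σ (hNG hσ)]
  obtain ⟨P, hPdef⟩ : ∃ P : ℕ → Prop, ∀ k, P k ↔ ∀ m : Kb, (∀ σ ∈ N, σ m = m) →
      A.valuation m < 1 → A.valuation (trK p A N (θk k * m)) < 1 := ⟨_, fun _ => Iff.rfl⟩
  have hP0 : P 0 := by
    rw [hPdef]
    intro m hm hm1
    rw [hθk, pow_zero, mul_one, trK_mul_left hζfix, map_mul]
    have h1 : A.valuation (trK p A N m) ≤ 1 := (val_trK_le m).trans hm1.le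
    calc A.valuation (1 - ζ) * A.valuation (trK p A N m)
        ≤ A.valuation (1 - ζ) * 1 := mul_le_mul' le_rfl h1
      _ = A.valuation (1 - ζ) := mul_one _
      _ < 1 := hw1
  have hfail : ∃ k, ¬ P k := by
    have hc0 : (1 - ζ) * (idxK p A N : Kb) ≠ 0 := mul_ne_zero hζ1 hnK
    have hcfix : ∀ σ ∈ muFix p ⊓ IA A,
        σ ((1 - ζ) * (idxK p A N : Kb)) = (1 - ζ) * (idxK p A N : Kb) := by
      intro σ hσ
      rw [map_mul, hζfix σ hσ, map_natCast]
    obtain ⟨jc, hjc⟩ := exists_zpow_of_fixed hp hA hζ hc0 hcfix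
    refine ⟨idxK p A N * (jc.toNat + 1), fun hP => ?_⟩
    rw [hPdef] at hP
    obtain ⟨m, hmdef⟩ : ∃ m : Kb, m = ϖ ^ (idxK p A N * (jc.toNat + 1)) *
        ((1 - ζ) * (idxK p A N : Kb))⁻¹ := ⟨_, rfl⟩
    have hmfix : ∀ σ ∈ N, σ m = m := by
      intro σ hσ
      rw [hmdef, map_mul, map_pow, map_inv₀, hϖfix σ hσ, hcfix σ (hNG hσ)]
    have hcpos : 0 < A.valuation (1 - ζ) ^ jc := zpow_pos hwpos jc
    have hmval : A.valuation m < 1 := by
      rw [hmdef, map_mul, map_pow, map_inv₀, hjc, pow_mul, hϖv, ← pow_mul]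
      have h1 : A.valuation (1 - ζ) ^ (j₀ * (jc.toNat + 1))
          ≤ A.valuation (1 - ζ) ^ (jc.toNat + 1) :=
        pow_le_pow_of_le_one zero_le hw1.le (Nat.le_mul_of_pos_left _ hj₀)
      have h2 : A.valuation (1 - ζ) ^ (jc.toNat + 1) < A.valuation (1 - ζ) ^ jc := by
        have h3 : jc < ((jc.toNat + 1 : ℕ) : ℤ) := by
          have := Int.self_le_toNat jc
          push_cast
          omega
        have h4 := zpow_lt_zpow_right_of_lt_one₀ hwpos hw1 h3
        rwa [zpow_natCast] at h4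
      calc A.valuation (1 - ζ) ^ (j₀ * (jc.toNat + 1)) * (A.valuation (1 - ζ) ^ jc)⁻¹
          < A.valuation (1 - ζ) ^ jc * (A.valuation (1 - ζ) ^ jc)⁻¹ :=
            mul_lt_mul_of_pos_right (lt_of_le_of_lt h1 h2) (inv_pos.mpr hcpos)
        _ = 1 := mul_inv_cancel₀ hcpos.ne'
    have h1 := hP m hmfix hmval
    have h2 : θk (idxK p A N * (jc.toNat + 1)) * m = (idxK p A N : Kb)⁻¹ := by
      rw [hθk, hmdef, inv_pow]
      field_simp
    have h3 : trK p A N ((idxK p A N : Kb)⁻¹) = 1 := by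
      have h4 := trK_mul_left (p := p) (A := A) (N := N) (b := (idxK p A N : Kb)⁻¹)
        (fun σ _ => by rw [map_inv₀, map_natCast]) 1
      rw [mul_one] at h4
      rw [h4, trK_one, inv_mul_cancel₀ hnK]
    rw [h2, h3, map_one] at h1
    exact lt_irrefl _ h1
  obtain ⟨k, hPk, hPk1⟩ : ∃ k, P k ∧ ¬ P (k + 1) := by
    by_contra hcon
    obtain ⟨k₁, hk₁⟩ := hfail
    apply hk₁
    have hstep : ∀ k, P k → P (k + 1) := by
      intro k hk
      by_contra h
      exact hcon ⟨k, hk, h⟩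
    exact Nat.rec hP0 (fun k ih => hstep k ih) k₁
  rw [hPdef] at hPk hPk1
  obtain ⟨m, hmfix, hm1, hmT⟩ : ∃ m : Kb, (∀ σ ∈ N, σ m = m) ∧ A.valuation m < 1 ∧
      1 ≤ A.valuation (trK p A N (θk (k + 1) * m)) := by
    by_contra hcon
    apply hPk1
    intro m hm hm1
    by_contra h
    exact hcon ⟨m, hm, hm1, not_lt.mp h⟩
  obtain ⟨a, ha⟩ : ∃ a : Kb, a = m * ϖ⁻¹ := ⟨_, rfl⟩
  have hafix : ∀ σ ∈ N, σ a = a := by
    intro σ hσ
    rw [ha, map_mul, map_inv₀, hmfix σ hσ, hϖfix σ hσ]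
  have haA : A.valuation a ≤ 1 := by
    rw [ha, map_mul, map_inv₀]
    calc A.valuation m * (A.valuation ϖ)⁻¹
        ≤ A.valuation ϖ * (A.valuation ϖ)⁻¹ := mul_le_mul' (hϖmax m hmfix hm1) le_rfl
      _ = 1 := mul_inv_cancel₀ hvϖ0
  have hθa : θk (k + 1) * m = θk k * a := by
    rw [hθk, hθk, ha, pow_succ]
    ring
  rw [hθa] at hmT
  obtain ⟨b, hbA, hbfix, hab⟩ :=
    Fermat.Agent.T3.helper84.k0_res hp A hA ((A.valuation_le_one_iff a).mp haA)
  have hbG : ∀ σ ∈ muFix p ⊓ IA A, σ b = b := fun σ hσ => hbfix σ hσ.2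
  have hm'fix : ∀ σ ∈ N, σ (a - b) = a - b := fun σ hσ => by
    rw [map_sub, hafix σ hσ, hbG σ (hNG hσ)]
  have hsplit : trK p A N (θk k * a)
      = b * trK p A N (θk k) + trK p A N (θk k * (a - b)) := by
    rw [← trK_mul_left hbG, ← trK_add]
    congr 1
    ring
  have hsmall := hPk (a - b) hm'fix hab
  have hu : 1 ≤ A.valuation (trK p A N (θk k)) := by
    by_contra hcon
    have hcon' : A.valuation (trK p A N (θk k)) < 1 := not_le.mp hcon
    have h1 : A.valuation (b * trK p A N (θk k)) < 1 := by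
      rw [map_mul]
      calc A.valuation b * A.valuation (trK p A N (θk k))
          ≤ 1 * A.valuation (trK p A N (θk k)) :=
            mul_le_mul' ((A.valuation_le_one_iff b).mpr hbA) le_rfl
        _ = A.valuation (trK p A N (θk k)) := one_mul _
        _ < 1 := hcon'
    have h2 : A.valuation (trK p A N (θk k * a)) < 1 := by
      rw [hsplit]
      exact lt_of_le_of_lt (Valuation.map_add _ _ _) (max_lt h1 hsmall)
    exact absurd hmT (not_le.mpr h2)
  have hu0 : trK p A N (θk k) ≠ 0 := by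
    intro h
    rw [h, map_zero] at hu
    exact absurd hu (not_le.mpr zero_lt_one)
  have hufix : ∀ σ ∈ muFix p ⊓ IA A, σ (trK p A N (θk k))⁻¹ = (trK p A N (θk k))⁻¹ := by
    intro σ hσ
    rw [map_inv₀, trK_fixed (hθfix k) hσ]
  refine ⟨(trK p A N (θk k))⁻¹ * θk k, ?_, ?_, ?_⟩
  · intro σ hσ
    rw [map_mul, hufix σ (hNG hσ), hθfix k σ hσ]
  · rw [trK_mul_left hufix]
    exact inv_mul_cancel₀ hu0
  · intro m hm hm1
    rw [mul_assoc, trK_mul_left hufix, map_mul, map_inv₀]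
    calc (A.valuation (trK p A N (θk k)))⁻¹ * A.valuation (trK p A N (θk k * m))
        ≤ 1 * A.valuation (trK p A N (θk k * m)) :=
          mul_le_mul' (inv_le_one_of_one_le₀ hu) le_rfl
      _ = A.valuation (trK p A N (θk k * m)) := one_mul _
      _ < 1 := hPk m hm hm1

/-- `pr a := T (θ a)` is congruent to `a` modulo the maximal ideal -/
theorem trK_theta_sub (hp : p.Prime) (hA : A.LiesOverPrime p) (hNG : N ≤ muFix p ⊓ IA A)
    {θ : Kb} (hθ1 : trK p A N θ = 1)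
    (hθm : ∀ m : Kb, (∀ σ ∈ N, σ m = m) → A.valuation m < 1 →
      A.valuation (trK p A N (θ * m)) < 1)
    {a : Kb} (haA : a ∈ A) (hafix : ∀ σ ∈ N, σ a = a) :
    A.valuation (trK p A N (θ * a) - a) < 1 := by
  obtain ⟨b, hbA, hbfix, hab⟩ := Fermat.Agent.T3.helper84.k0_res hp A hA haA
  have hbG : ∀ σ ∈ muFix p ⊓ IA A, σ b = b := fun σ hσ => hbfix σ hσ.2
  have hm'fix : ∀ σ ∈ N, σ (a - b) = a - b := fun σ hσ => by
    rw [map_sub, hafix σ hσ, hbG σ (hNG hσ)]
  have hsplit : trK p A N (θ * a) = b + trK p A N (θ * (a - b)) := by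
    have h1 : θ * a = b * θ + θ * (a - b) := by ring
    rw [h1, trK_add, trK_mul_left hbG, hθ1, mul_one]
  have h2 : trK p A N (θ * a) - a = trK p A N (θ * (a - b)) - (a - b) := by
    rw [hsplit]
    ring
  rw [h2]
  exact lt_of_le_of_lt (Valuation.map_sub _ _ _) (max_lt (hθm _ hm'fix hab) hab)

/-- `pr a := T (θ a)` is integral -/
theorem trK_theta_mem (hp : p.Prime) (hA : A.LiesOverPrime p) (hNG : N ≤ muFix p ⊓ IA A)
    {θ : Kb} (hθ1 : trK p A N θ = 1)
    (hθm : ∀ m : Kb, (∀ σ ∈ N, σ m = m) → A.valuation m < 1 →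
      A.valuation (trK p A N (θ * m)) < 1)
    {a : Kb} (haA : a ∈ A) (hafix : ∀ σ ∈ N, σ a = a) :
    trK p A N (θ * a) ∈ A := by
  have h := trK_theta_sub hp hA hNG hθ1 hθm haA hafix
  have h1 : trK p A N (θ * a) = (trK p A N (θ * a) - a) + a := by ring
  rw [h1]
  exact A.add_mem _ _ ((A.valuation_le_one_iff _).mp h.le) haA

end Theta

section Series

variable (p : ℕ) (A : ValuationSubring Kb) (N : Subgroup (Kb ≃ₐ[ℚ] Kb))
  [(N.subgroupOf (muFix p ⊓ IA A)).FiniteIndex]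

/-- the trace over `G / N` on Laurent series (coefficientwise) -/
def trS (f : LaurentSeries Kb) : LaurentSeries Kb :=
  traceCoset cwAct (muFix p ⊓ IA A) N f

theorem trS_coeff (f : LaurentSeries Kb) (n : ℤ) :
    (trS p A N f).coeff n = trK p A N (f.coeff n) :=
  traceCoset_map (act' := cwAct) (act := cAct) (HahnSeries.coeff.addMonoidHom n)
    (fun σ _ u => rfl) f

variable {p A N}

theorem cwAct_algebraMap_mul (σ : Kb ≃ₐ[ℚ] Kb) (c : Kb) (f : LaurentSeries Kb) :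
    cwAct σ (algebraMap Kb (LaurentSeries Kb) c * f)
      = algebraMap Kb (LaurentSeries Kb) (σ c) * cwAct σ f := by
  unfold cwAct
  rw [map_mul, algebraMap_laurentSeries_eq_single, algebraMap_laurentSeries_eq_single]
  congr 1
  exact coeffMap_single _ _ _

/-- **the projection of an integral `N`-fixed series**: integral, same reduction, fixed by
`G = I_K1`. -/
theorem exists_proj_series (hp : p.Prime) (hA : A.LiesOverPrime p)
    (hNG : N ≤ muFix p ⊓ IA A) {θ : Kb} (hθfix : ∀ σ ∈ N, σ θ = θ)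
    (hθ1 : trK p A N θ = 1)
    (hθm : ∀ m : Kb, (∀ σ ∈ N, σ m = m) → A.valuation m < 1 →
      A.valuation (trK p A N (θ * m)) < 1)
    (Z : LaurentSeries A) (hZ : ∀ σ ∈ N, cwAct σ (incl A Z) = incl A Z) :
    ∃ Z' : LaurentSeries A,
      incl A Z' = trS p A N (algebraMap Kb (LaurentSeries Kb) θ * incl A Z) ∧
      red A Z' = red A Z ∧ ∀ τ ∈ muFix p ⊓ IA A, cwAct τ (incl A Z') = incl A Z' := by
  have hcfix : ∀ (n : ℤ), ∀ σ ∈ N, σ ((Z.coeff n : A) : Kb) = ((Z.coeff n : A) : Kb) := by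
    intro n σ hσ
    have h1 := congrArg (fun f : LaurentSeries Kb => f.coeff n) (hZ σ hσ)
    exact h1
  have hcoeff : ∀ n : ℤ,
      (trS p A N (algebraMap Kb (LaurentSeries Kb) θ * incl A Z)).coeff n
        = trK p A N (θ * ((Z.coeff n : A) : Kb)) := by
    intro n
    rw [trS_coeff, coeff_algebraMap_mul, coeffMap_coeff]
    rfl
  obtain ⟨Z', hZ'⟩ := exists_incl_of_coeff_mem A
    (trS p A N (algebraMap Kb (LaurentSeries Kb) θ * incl A Z)) (fun n => by
      rw [hcoeff]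
      exact trK_theta_mem hp hA hNG hθ1 hθm (Z.coeff n).2 (hcfix n))
  refine ⟨Z', hZ', ?_, fun τ hτ => ?_⟩
  · ext n
    rw [coeffMap_coeff, coeffMap_coeff]
    have h1 : ((Z'.coeff n : A) : Kb) = trK p A N (θ * ((Z.coeff n : A) : Kb)) := by
      rw [← hcoeff, ← hZ', coeffMap_coeff]
      rfl
    have h2 : (Z'.coeff n - Z.coeff n : A) ∈ IsLocalRing.maximalIdeal A := by
      rw [A.valuation_lt_one_iff]
      have e : (((Z'.coeff n - Z.coeff n : A) : A) : Kb)
          = ((Z'.coeff n : A) : Kb) - ((Z.coeff n : A) : Kb) := rfl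
      rw [e, h1]
      exact trK_theta_sub hp hA hNG hθ1 hθm (Z.coeff n).2 (hcfix n)
    have h3 := (IsLocalRing.residue_eq_zero_iff _).mpr h2
    rw [map_sub, sub_eq_zero] at h3
    exact h3
  · rw [hZ']
    refine act_traceCoset isAddActFam_cwAct (fun σ hσ => ?_) hτ
    rw [cwAct_algebraMap_mul, hθfix σ hσ, hZ σ hσ]

end Series


end Fermat.Agent.T8.helper83

end
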