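import Mathlib
import Fermat.Agent.T8.helper83_KRatCore
import Fermat.Agent.T8.helper83_DescInst
import Fermat.Agent.T8.helper88_CoverGal
import Fermat.Agent.T7.helper60_Gal
import Fermat.Agent.T7.helper27_G1Asm
import Fermat.Agent.T7.helper23_GalTwist

/-!
# T8 (row 38), box [K-RAT] (helper83): a RATIONAL strongly split Kummer function

`K` strongly split at `(M, W, A, p)` with roots `Z₁, Z₂` (reduction `1`), pair form of the
inertia action (`helper88.CoverGalPairStatement`).  `G = I_K1 = muFix p ⊓ IA A`,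
`N = Stab_G (Z₁, Z₂)` (finite index), `θ` the element of `helper83.exists_theta`,
`pr = T (θ ·) = ∑_c σ_c θ · σ_c`.

* `RatRoots W A p K`          : every `p`-th root of the expansions of `K` and of `W K` is
                                coefficientwise fixed by `I_K1`;
* `exists_rat_of_pair`        : **there is `H ≠ 0` in `F` with `H ^ p * K` strongly split and
                                `RatRoots W A p (H ^ p * K)`** (`pr Z₁ = H Z₁`,
                                `pr Z₂ = (W H) Z₂`);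
* `exists_rat_stronglySplit`  : the same at the bad pair `(N p, atkinLehner)`, `4 ∣ N` or
                                `9 ∣ N`, unconditional.
-/

set_option autoImplicit false
set_option linter.unusedSectionVars false
set_option linter.unusedVariables false
set_option linter.style.longLine false
set_option linter.style.haveILetI false

noncomputable section

namespace Fermat.Agent.T8.helper83

open HahnSeries IntermediateField AlgebraicCurve ModularCurve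
open Fermat.Agent.S18.helper19 Fermat.Agent.P2.helper29 Fermat.Agent.P2.helper93
open Fermat.Agent.T2 Fermat.Agent.T2.helper74 Fermat.Agent.T2.helper36
open Fermat.Agent.T8.helper65 Fermat.Agent.T8.helper97
open Fermat.Agent.T7.helper27 (StronglySplit)

/-! ### The stabiliser of the pair of roots -/

section Stab

variable (p : ℕ) (A : ValuationSubring Kb) (Z₁ Z₂ : LaurentSeries Kb)

theorem cwAct_one_eq (f : LaurentSeries Kb) : cwAct 1 f = f := by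
  unfold cwAct
  exact coeffMap_id _

theorem cwAct_inv_of_fixed {σ : Kb ≃ₐ[ℚ] Kb} {f : LaurentSeries Kb} (h : cwAct σ f = f) :
    cwAct σ⁻¹ f = f := by
  calc cwAct σ⁻¹ f = cwAct σ⁻¹ (cwAct σ f) := by rw [h]
    _ = cwAct (σ⁻¹ * σ) f := (isActFam_cwAct.mul σ⁻¹ σ f).symm
    _ = f := by rw [inv_mul_cancel, cwAct_one_eq]

/-- the stabiliser of the pair `(Z₁, Z₂)` in `I_K1` -/
def stabK : Subgroup (Kb ≃ₐ[ℚ] Kb) where
  carrier := {σ | σ ∈ muFix p ⊓ IA A ∧ cwAct σ Z₁ = Z₁ ∧ cwAct σ Z₂ = Z₂}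
  one_mem' := ⟨one_mem _, cwAct_one_eq Z₁, cwAct_one_eq Z₂⟩
  mul_mem' := by
    rintro σ τ ⟨hσ, a1, a2⟩ ⟨hτ, b1, b2⟩
    refine ⟨mul_mem hσ hτ, ?_, ?_⟩
    · rw [isActFam_cwAct.mul, b1, a1]
    · rw [isActFam_cwAct.mul, b2, a2]
  inv_mem' := by
    rintro σ ⟨hσ, a1, a2⟩
    exact ⟨inv_mem hσ, cwAct_inv_of_fixed a1, cwAct_inv_of_fixed a2⟩

theorem stabK_le : stabK p A Z₁ Z₂ ≤ muFix p ⊓ IA A := fun σ hσ => hσ.1

variable {p A Z₁ Z₂}

theorem finiteIndex_stabK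
    (hfin : (Set.range fun σ : Kb ≃ₐ[ℚ] Kb => (cwAct σ Z₁, cwAct σ Z₂)).Finite) :
    ((stabK p A Z₁ Z₂).subgroupOf (muFix p ⊓ IA A)).FiniteIndex := by
  classical
  haveI : Finite (Set.range fun σ : Kb ≃ₐ[ℚ] Kb => (cwAct σ Z₁, cwAct σ Z₂)) :=
    hfin.to_subtype
  have hwd : ∀ a b : (muFix p ⊓ IA A : Subgroup (Kb ≃ₐ[ℚ] Kb)),
      (QuotientGroup.mk a : (muFix p ⊓ IA A : Subgroup (Kb ≃ₐ[ℚ] Kb)) ⧸
        (stabK p A Z₁ Z₂).subgroupOf (muFix p ⊓ IA A)) = QuotientGroup.mk b ↔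
        (cwAct (a : Kb ≃ₐ[ℚ] Kb) Z₁, cwAct (a : Kb ≃ₐ[ℚ] Kb) Z₂)
          = (cwAct (b : Kb ≃ₐ[ℚ] Kb) Z₁, cwAct (b : Kb ≃ₐ[ℚ] Kb) Z₂) := by
    intro a b
    rw [QuotientGroup.eq, Subgroup.mem_subgroupOf, Prod.mk.injEq]
    have hcoe : (((a⁻¹ * b : (muFix p ⊓ IA A : Subgroup (Kb ≃ₐ[ℚ] Kb))) :
        (muFix p ⊓ IA A : Subgroup (Kb ≃ₐ[ℚ] Kb))) : Kb ≃ₐ[ℚ] Kb)
        = (a : Kb ≃ₐ[ℚ] Kb)⁻¹ * (b : Kb ≃ₐ[ℚ] Kb) := rfl
    rw [hcoe]
    have key : ∀ Z : LaurentSeries Kb,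
        cwAct ((a : Kb ≃ₐ[ℚ] Kb)⁻¹ * (b : Kb ≃ₐ[ℚ] Kb)) Z = Z ↔
          cwAct (a : Kb ≃ₐ[ℚ] Kb) Z = cwAct (b : Kb ≃ₐ[ℚ] Kb) Z := by
      intro Z
      constructor
      · intro h
        have h1 := congrArg (cwAct (a : Kb ≃ₐ[ℚ] Kb)) h
        rw [← isActFam_cwAct.mul, mul_inv_cancel_left] at h1
        exact h1.symm
      · intro h
        rw [isActFam_cwAct.mul, ← h, ← isActFam_cwAct.mul, inv_mul_cancel, cwAct_one_eq]
    constructor
    · rintro ⟨-, e1, e2⟩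
      exact ⟨(key Z₁).mp e1, (key Z₂).mp e2⟩
    · rintro ⟨e1, e2⟩
      exact ⟨mul_mem (inv_mem a.2) b.2, (key Z₁).mpr e1, (key Z₂).mpr e2⟩
  let f : ((muFix p ⊓ IA A : Subgroup (Kb ≃ₐ[ℚ] Kb)) ⧸
      (stabK p A Z₁ Z₂).subgroupOf (muFix p ⊓ IA A)) →
      Set.range (fun σ : Kb ≃ₐ[ℚ] Kb => (cwAct σ Z₁, cwAct σ Z₂)) :=
    fun c => ⟨(cwAct ((Quotient.out c : (muFix p ⊓ IA A : Subgroup (Kb ≃ₐ[ℚ] Kb))) :
      Kb ≃ₐ[ℚ] Kb) Z₁, cwAct ((Quotient.out c : (muFix p ⊓ IA A : Subgroup (Kb ≃ₐ[ℚ] Kb))) :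
      Kb ≃ₐ[ℚ] Kb) Z₂), ⟨_, rfl⟩⟩
  have hf : Function.Injective f := by
    intro c d hcd
    have h1 := congrArg Subtype.val hcd
    have h2 := (hwd (Quotient.out c) (Quotient.out d)).mpr h1
    rwa [QuotientGroup.out_eq', QuotientGroup.out_eq'] at h2
  haveI : Finite ((muFix p ⊓ IA A : Subgroup (Kb ≃ₐ[ℚ] Kb)) ⧸
      (stabK p A Z₁ Z₂).subgroupOf (muFix p ⊓ IA A)) := Finite.of_injective f hf
  exact Subgroup.finiteIndex_of_finite_quotient

end Stab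

/-! ### Roots -/

section Roots

variable {M : ℕ} [NeZero M] {A : ValuationSubring Kb} {p : ℕ}

/-- the Galois orbit of a `p`-th root of a modular function is finite -/
theorem finite_range_root (hp : 0 < p) (K : FF M) (Z : LaurentSeries Kb)
    (hZ : Z ^ p = (K : LaurentSeries Kb)) :
    (Set.range fun σ : Kb ≃ₐ[ℚ] Kb => cwAct σ Z).Finite := by
  classical
  have h1 := finite_range_galF K
  have h2 : (⋃ f ∈ (Set.range fun σ : Kb ≃ₐ[ℚ] Kb => galF M σ K),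
      {x : LaurentSeries Kb | x ^ p = (f : LaurentSeries Kb)}).Finite := by
    refine Set.Finite.biUnion h1 fun f _ => ?_
    refine (Polynomial.nthRoots p (f : LaurentSeries Kb)).toFinset.finite_toSet.subset ?_
    intro x hx
    simp only [Finset.mem_coe, Multiset.mem_toFinset]
    exact (Polynomial.mem_nthRoots hp).mpr hx
  refine h2.subset ?_
  rintro _ ⟨σ, rfl⟩
  simp only [Set.mem_iUnion, Set.mem_ofPred_eq]
  refine ⟨galF M σ K, ⟨σ, rfl⟩, ?_⟩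
  show (cwAct σ Z) ^ p = _
  rw [coe_galF, ← hZ]
  unfold cwAct
  rw [map_pow]

/-- if ONE `p`-th root is fixed by `σ ∈ I_K1`, then every `p`-th root is -/
theorem cwAct_root_of_root (hp : p.Prime) {Z Z' : LaurentSeries Kb} (hZ0 : Z ≠ 0)
    (h : Z' ^ p = Z ^ p) {σ : Kb ≃ₐ[ℚ] Kb} (hσ : σ ∈ muFix p ⊓ IA A)
    (hZ : cwAct σ Z = Z) : cwAct σ Z' = Z' := by
  haveI : Fact p.Prime := ⟨hp⟩
  haveI : NeZero p := ⟨hp.ne_zero⟩
  obtain ⟨ζ, hζ⟩ := exists_primitiveRoot_Kb (p := p)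
  have hζL : IsPrimitiveRoot (algebraMap Kb (LaurentSeries Kb) ζ) p :=
    hζ.map_of_injective (algebraMap Kb (LaurentSeries Kb)).injective
  have h1 : (Z' / Z) ^ p = 1 := by
    rw [div_pow, h, div_self (pow_ne_zero _ hZ0)]
  obtain ⟨i, -, hi⟩ := hζL.eq_pow_of_pow_eq_one h1
  have h2 : Z' = algebraMap Kb (LaurentSeries Kb) (ζ ^ i) * Z := by
    rw [map_pow, hi, div_mul_cancel₀ _ hZ0]
  rw [h2, cwAct_algebraMap_mul, hZ, map_pow, hσ.1 ζ hζ.pow_eq_one]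

end Roots

/-! ### The rational strongly split function -/

section Main

variable {M : ℕ} [NeZero M] {W : FF M ≃ₐ[Kb] FF M} {A : ValuationSubring Kb} {p : ℕ}

/-- **rationality of the roots**: every `p`-th root of the expansion of `K` at `∞` and at `∞₂`
is coefficientwise fixed by `I_K1 = muFix p ⊓ IA A`. -/
def RatRoots (W : FF M ≃ₐ[Kb] FF M) (A : ValuationSubring Kb) (p : ℕ) (K : FF M) : Prop :=
  ∀ Z : LaurentSeries Kb,
    (Z ^ p = (K : LaurentSeries Kb) ∨ Z ^ p = ((W K : FF M) : LaurentSeries Kb)) →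
      ∀ σ ∈ muFix p ⊓ IA A, cwAct σ Z = Z

theorem incl_ne_zero_of_red {Z : LaurentSeries A} (h : red A Z = 1) : incl A Z ≠ 0 := by
  intro h0
  have h1 : Z = 0 := by
    ext n
    have h2 := congrArg (fun f : LaurentSeries Kb => f.coeff n) h0
    simp only [coeffMap_coeff, HahnSeries.coeff_zero] at h2
    have h3 : ((Z.coeff n : A) : Kb) = ((0 : A) : Kb) := h2
    show ((Z.coeff n : A) : Kb) = (((0 : LaurentSeries A).coeff n : A) : Kb)
    rw [HahnSeries.coeff_zero]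
    exact h3
  rw [h1, map_zero] at h
  exact zero_ne_one h

/-- the additive class `{f | f ^ p * K is regular at P}` -/
theorem ord_sum_class (P : Place Kb (FF M)) (K : FF M) (p : ℕ) {ι : Type*} (s : Finset ι)
    (c : ι → Kb) (w : ι → FF M)
    (hw : ∀ i ∈ s, w i ≠ 0 → 0 ≤ (p : ℤ) * P.ord (w i) + P.ord K)
    (h0 : ∑ i ∈ s, algebraMap Kb (FF M) (c i) * w i ≠ 0) :
    0 ≤ (p : ℤ) * P.ord (∑ i ∈ s, algebraMap Kb (FF M) (c i) * w i) + P.ord K := by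
  classical
  induction s using Finset.induction_on with
  | empty => simp at h0
  | insert a s ha ih =>
    rw [Finset.sum_insert ha] at h0 ⊢
    have hterm : algebraMap Kb (FF M) (c a) * w a ≠ 0 →
        0 ≤ (p : ℤ) * P.ord (algebraMap Kb (FF M) (c a) * w a) + P.ord K := by
      intro hne
      have hc : algebraMap Kb (FF M) (c a) ≠ 0 := left_ne_zero_of_mul hne
      have hwa : w a ≠ 0 := right_ne_zero_of_mul hne
      rw [P.ord_mul hc hwa, Fermat.Agent.S24.helper82.ord_algebraMap, zero_add]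
      exact hw a (Finset.mem_insert_self a s) hwa
    have hrest : ∑ i ∈ s, algebraMap Kb (FF M) (c i) * w i ≠ 0 →
        0 ≤ (p : ℤ) * P.ord (∑ i ∈ s, algebraMap Kb (FF M) (c i) * w i) + P.ord K :=
      fun hne => ih (fun i hi => hw i (Finset.mem_insert_of_mem hi)) hne
    rcases eq_or_ne (algebraMap Kb (FF M) (c a) * w a) 0 with e1 | e1
    · rw [e1, zero_add] at h0 ⊢
      exact hrest h0
    rcases eq_or_ne (∑ i ∈ s, algebraMap Kb (FF M) (c i) * w i) 0 with e2 | e2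
    · rw [e2, add_zero] at h0 ⊢
      exact hterm e1
    have h1 := Fermat.Agent.P2.helper74.ord_add_ge P h0
    have h2 := hterm e1
    have h3 := hrest e2
    have hp0 : (0 : ℤ) ≤ (p : ℤ) := Int.natCast_nonneg p
    rcases min_le_iff.mp h1 with h4 | h4
    · nlinarith [mul_le_mul_of_nonneg_left h4 hp0]
    · nlinarith [mul_le_mul_of_nonneg_left h4 hp0]

/-- **[K-RAT]**: a strongly split function can be multiplied by a `p`-th power such that it
stays strongly split and all the roots of its two expansions become `I_K1`-rational. -/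
theorem exists_rat_of_pair (hp : p.Prime) (hA : A.LiesOverPrime p)
    (hWgal : ∀ (σ : Kb ≃ₐ[ℚ] Kb) (x : FF M), W (galF M σ x) = galF M σ (W x))
    (hpair : Fermat.Agent.T8.helper88.CoverGalPairStatement M W A p)
    {K : FF M} (hK : StronglySplit M W A p K) :
    ∃ H : FF M, H ≠ 0 ∧ StronglySplit M W A p (H ^ p * K) ∧ RatRoots W A p (H ^ p * K) := by
  classical
  obtain ⟨hA0, hdiv, Z₁, Z₂, h1, h2, hr1, hr2⟩ := hK
  have hZ10 : incl A Z₁ ≠ 0 := incl_ne_zero_of_red hr1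
  have hZ20 : incl A Z₂ ≠ 0 := incl_ne_zero_of_red hr2
  have hK0 : K ≠ 0 := by
    rintro rfl
    have h3 : incl A Z₁ ^ p = 0 := h1
    exact hZ10 (pow_eq_zero_iff hp.ne_zero |>.mp h3)
  -- the pair form on `I_K1`
  have hpr : ∀ σ ∈ muFix p ⊓ IA A, ∃ w : FF M, w ≠ 0 ∧
      cwAct σ (incl A Z₁) = (w : LaurentSeries Kb) * incl A Z₁ ∧
      cwAct σ (incl A Z₂) = ((W w : FF M) : LaurentSeries Kb) * incl A Z₂ := by
    intro σ hσ
    obtain ⟨w, hw0, e1, e2⟩ := hpair K hA0 Z₁ Z₂ h1 h2 hr1 hr2 σ hσ.2 1 hp.one_lt.le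
      (fun z hz => by rw [pow_one]; exact hσ.1 z hz)
    rw [pow_one] at e1 e2
    exact ⟨w, hw0, e1, e2⟩
  -- the stabiliser has finite index
  have hfin : (Set.range fun σ : Kb ≃ₐ[ℚ] Kb =>
      (cwAct σ (incl A Z₁), cwAct σ (incl A Z₂))).Finite := by
    refine ((finite_range_root hp.pos K _ h1).prod
      (finite_range_root hp.pos (W K) _ h2)).subset ?_
    rintro _ ⟨σ, rfl⟩
    exact ⟨⟨σ, rfl⟩, ⟨σ, rfl⟩⟩
  haveI := finiteIndex_stabK (p := p) (A := A) hfin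
  obtain ⟨N, hNdef⟩ : ∃ N : Subgroup (Kb ≃ₐ[ℚ] Kb), N = stabK p A (incl A Z₁) (incl A Z₂) :=
    ⟨_, rfl⟩
  haveI : (N.subgroupOf (muFix p ⊓ IA A)).FiniteIndex := by
    rw [hNdef]
    infer_instance
  have hNG : N ≤ muFix p ⊓ IA A := by
    rw [hNdef]
    exact stabK_le p A _ _
  have hNZ1 : ∀ σ ∈ N, cwAct σ (incl A Z₁) = incl A Z₁ := by
    intro σ hσ
    rw [hNdef] at hσ
    exact hσ.2.1
  have hNZ2 : ∀ σ ∈ N, cwAct σ (incl A Z₂) = incl A Z₂ := by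
    intro σ hσ
    rw [hNdef] at hσ
    exact hσ.2.2
  obtain ⟨θ, hθfix, hθ1, hθm⟩ := exists_theta (N := N) hp hA hNG
  obtain ⟨Z₁', hZ₁', hr1', hfix1⟩ :=
    exists_proj_series hp hA hNG hθfix hθ1 hθm Z₁ hNZ1
  obtain ⟨Z₂', hZ₂', hr2', hfix2⟩ :=
    exists_proj_series hp hA hNG hθfix hθ1 hθm Z₂ hNZ2
  -- the multiplier
  letI : Fintype ((muFix p ⊓ IA A : Subgroup (Kb ≃ₐ[ℚ] Kb)) ⧸
      N.subgroupOf (muFix p ⊓ IA A)) := Subgroup.fintypeQuotientOfFiniteIndex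
  choose w hw0 hw1 hw2 using fun c : (muFix p ⊓ IA A : Subgroup (Kb ≃ₐ[ℚ] Kb)) ⧸
      N.subgroupOf (muFix p ⊓ IA A) =>
    hpr ((Quotient.out c : (muFix p ⊓ IA A : Subgroup (Kb ≃ₐ[ℚ] Kb))) : Kb ≃ₐ[ℚ] Kb)
      (Quotient.out c).2
  obtain ⟨H, hHdef⟩ : ∃ H : FF M, H = ∑ c : (muFix p ⊓ IA A : Subgroup (Kb ≃ₐ[ℚ] Kb)) ⧸
      N.subgroupOf (muFix p ⊓ IA A), algebraMap Kb (FF M)
        (((Quotient.out c : (muFix p ⊓ IA A : Subgroup (Kb ≃ₐ[ℚ] Kb))) : Kb ≃ₐ[ℚ] Kb) θ) *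
        w c := ⟨_, rfl⟩
  have hH1 : (H : LaurentSeries Kb) * incl A Z₁ = incl A Z₁' := by
    rw [hZ₁', hHdef]
    unfold trS traceCoset
    have hcoe : ((∑ c : (muFix p ⊓ IA A : Subgroup (Kb ≃ₐ[ℚ] Kb)) ⧸
        N.subgroupOf (muFix p ⊓ IA A), algebraMap Kb (FF M)
          (((Quotient.out c : (muFix p ⊓ IA A : Subgroup (Kb ≃ₐ[ℚ] Kb))) : Kb ≃ₐ[ℚ] Kb) θ) *
          w c : FF M) : LaurentSeries Kb)
        = ∑ c : (muFix p ⊓ IA A : Subgroup (Kb ≃ₐ[ℚ] Kb)) ⧸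
          N.subgroupOf (muFix p ⊓ IA A), algebraMap Kb (LaurentSeries Kb)
            (((Quotient.out c : (muFix p ⊓ IA A : Subgroup (Kb ≃ₐ[ℚ] Kb))) : Kb ≃ₐ[ℚ] Kb) θ) *
            (w c : LaurentSeries Kb) :=
      map_sum (algebraMap (FF M) (LaurentSeries Kb)) _ _
    rw [hcoe, Finset.sum_mul]
    refine Finset.sum_congr rfl fun c _ => ?_
    rw [cwAct_algebraMap_mul, hw1 c, mul_assoc]
  have hH2 : ((W H : FF M) : LaurentSeries Kb) * incl A Z₂ = incl A Z₂' := by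
    rw [hZ₂', hHdef, map_sum]
    unfold trS traceCoset
    have hcoe : ((∑ c : (muFix p ⊓ IA A : Subgroup (Kb ≃ₐ[ℚ] Kb)) ⧸
        N.subgroupOf (muFix p ⊓ IA A), W (algebraMap Kb (FF M)
          (((Quotient.out c : (muFix p ⊓ IA A : Subgroup (Kb ≃ₐ[ℚ] Kb))) : Kb ≃ₐ[ℚ] Kb) θ) *
          w c) : FF M) : LaurentSeries Kb)
        = ∑ c : (muFix p ⊓ IA A : Subgroup (Kb ≃ₐ[ℚ] Kb)) ⧸
          N.subgroupOf (muFix p ⊓ IA A), algebraMap Kb (LaurentSeries Kb)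
            (((Quotient.out c : (muFix p ⊓ IA A : Subgroup (Kb ≃ₐ[ℚ] Kb))) : Kb ≃ₐ[ℚ] Kb) θ) *
            ((W (w c) : FF M) : LaurentSeries Kb) := by
      refine (map_sum (algebraMap (FF M) (LaurentSeries Kb)) _ _).trans
        (Finset.sum_congr rfl fun c _ => ?_)
      rw [map_mul W, AlgEquiv.commutes, map_mul]
      rfl
    rw [hcoe, Finset.sum_mul]
    refine Finset.sum_congr rfl fun c _ => ?_
    rw [cwAct_algebraMap_mul, hw2 c, mul_assoc]
  have hZ1'0 : incl A Z₁' ≠ 0 := incl_ne_zero_of_red (hr1'.trans hr1)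
  have hZ2'0 : incl A Z₂' ≠ 0 := incl_ne_zero_of_red (hr2'.trans hr2)
  have hH0 : H ≠ 0 := by
    rintro rfl
    apply hZ1'0
    rw [← hH1]
    exact zero_mul _
  have hK1' : incl A Z₁' ^ p = ((H ^ p * K : FF M) : LaurentSeries Kb) := by
    rw [← hH1, mul_pow, h1]
    rfl
  have hK2' : incl A Z₂' ^ p = ((W (H ^ p * K) : FF M) : LaurentSeries Kb) := by
    rw [← hH2, mul_pow, h2, map_mul, map_pow]
    rfl
  -- regularity off the two cusps
  have hwK : ∀ c, w c ^ p * K = galF M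
      ((Quotient.out c : (muFix p ⊓ IA A : Subgroup (Kb ≃ₐ[ℚ] Kb))) : Kb ≃ₐ[ℚ] Kb) K := by
    intro c
    apply Subtype.ext
    calc ((w c ^ p * K : FF M) : LaurentSeries Kb)
        = (w c : LaurentSeries Kb) ^ p * (K : LaurentSeries Kb) := rfl
      _ = ((w c : LaurentSeries Kb) * incl A Z₁) ^ p := by rw [mul_pow, h1]
      _ = (cwAct ((Quotient.out c : (muFix p ⊓ IA A : Subgroup (Kb ≃ₐ[ℚ] Kb))) :
            Kb ≃ₐ[ℚ] Kb) (incl A Z₁)) ^ p := by rw [hw1 c]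
      _ = cwAct ((Quotient.out c : (muFix p ⊓ IA A : Subgroup (Kb ≃ₐ[ℚ] Kb))) :
            Kb ≃ₐ[ℚ] Kb) (incl A Z₁ ^ p) := by
          unfold cwAct
          rw [map_pow]
      _ = cwAct ((Quotient.out c : (muFix p ⊓ IA A : Subgroup (Kb ≃ₐ[ℚ] Kb))) :
            Kb ≃ₐ[ℚ] Kb) (K : LaurentSeries Kb) := by rw [h1]
      _ = _ := rfl
  have hreg : RegOff2 W (H ^ p * K) := by
    intro P hP1 hP2
    have hKP : 0 ≤ P.ord K := hA0.1 P hP1 hP2
    have hcl : 0 ≤ (p : ℤ) * P.ord H + P.ord K := by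
      rw [hHdef]
      refine ord_sum_class P K p Finset.univ _ w (fun c _ hwc => ?_) (hHdef ▸ hH0)
      have h3 : 0 ≤ P.ord (galF M
          ((Quotient.out c : (muFix p ⊓ IA A : Subgroup (Kb ≃ₐ[ℚ] Kb))) : Kb ≃ₐ[ℚ] Kb) K) :=
        Fermat.Agent.T7.helper60.regOff2_galF hWgal _ hA0.1 P hP1 hP2
      rw [← hwK c, P.ord_mul (pow_ne_zero _ hwc) hK0] at h3
      have h4 : P.ord (w c ^ p) = (p : ℤ) * P.ord (w c) := by
        have := P.ord_zpow (w c) (p : ℤ)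
        rwa [zpow_natCast] at this
      rwa [h4] at h3
    rw [P.ord_mul (pow_ne_zero _ hH0) hK0]
    have h4 : P.ord (H ^ p) = (p : ℤ) * P.ord H := by
      have := P.ord_zpow H (p : ℤ)
      rwa [zpow_natCast] at this
    rwa [h4]
  have hdiv' : ∀ P : Place Kb (FF M), (p : ℤ) ∣ P.ord (H ^ p * K) := by
    intro P
    rw [P.ord_mul (pow_ne_zero _ hH0) hK0]
    have h4 : P.ord (H ^ p) = (p : ℤ) * P.ord H := by
      have := P.ord_zpow H (p : ℤ)
      rwa [zpow_natCast] at this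
    rw [h4]
    exact dvd_add (Dvd.intro _ rfl) (hdiv P)
  refine ⟨H, hH0, ⟨⟨hreg, Z₁' ^ p, Z₂' ^ p, ?_, ?_, ?_, ?_⟩, hdiv', Z₁', Z₂', hK1', hK2',
    hr1'.trans hr1, hr2'.trans hr2⟩, ?_⟩
  · rw [map_pow, hK1']
  · rw [map_pow, hK2']
  · rw [map_pow, hr1', hr1, one_pow]
  · rw [map_pow, hr2', hr2, one_pow]
  · rintro Z (hZ | hZ) σ hσ
    · exact cwAct_root_of_root hp hZ1'0 (hZ.trans hK1'.symm) hσ (hfix1 σ hσ)
    · exact cwAct_root_of_root hp hZ2'0 (hZ.trans hK2'.symm) hσ (hfix2 σ hσ)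

end Main

/-! ### The bad pair -/

section Bad

/-- **[K-RAT] at the bad pair**, unconditional. -/
theorem exists_rat_stronglySplit (N p : ℕ) [NeZero N] [NeZero p] (hp : p.Prime)
    (hpN : ¬ p ∣ N) (hN : 4 ∣ N ∨ 9 ∣ N) (A : ValuationSubring Kb) (hA : A.LiesOverPrime p)
    {K : FF (N * p)} (hK : StronglySplit (N * p) (atkinLehner N p hp hpN) A p K) :
    ∃ H : FF (N * p), H ≠ 0 ∧ StronglySplit (N * p) (atkinLehner N p hp hpN) A p (H ^ p * K) ∧
      RatRoots (atkinLehner N p hp hpN) A p (H ^ p * K) :=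
  exists_rat_of_pair hp hA
    (fun σ x => Fermat.Agent.T7.helper23.hWgal_atkinLehner N p hp hpN σ x)
    (Fermat.Agent.T8.helper88.coverGalPair_bad N p hp hpN hN A hA) hK

end Bad

end Fermat.Agent.T8.helper83

end
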