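import Fermat.Agent.T8.helper85_RealInst
import Fermat.Agent.S58.helper7_EcFrob
import Fermat.Agent.S58.helper7_EcTors
import Fermat.Agent.P6.helper78_VC
import Fermat.Agent.P3.helper40_Cheb
import Fermat.Agent.T6.helper85_ContT6
import Fermat.Agent.T6.helper85_FinT6

/-!
# T8 / S44, box [REAL-CHEB], the common quadratic relation (helper85)

`commonQuad : CommonQuadStatement` : for every `σ ∈ G_ℚ` there are integers `t`, `D ≡ χ_p(σ)`
with `σ² - t σ + D = 0` on `E[p]` (Frey curve) AND on a Galois-stable subgroup `X ⊆ J₀(M)[p]`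
which satisfies the Eichler - Shimura relation of the integral model `W` at the Frobenius lifts
outside a finite set.

Proof: weak Chebotarev (`P3.helper40.chebStatement`) on the compositum of the fields of
definition of `W[p]`, of the points of `X` (a finite set: `T6.helper85`) and of the character,
the Frobenius relation on `W[p]` (`S58.helper7.ecFrob`), the Dickson recursion
(`P3.helper64.unit_pow_add_eq_dickson`) and the change of variables `P6.helper78.vcTors`.

`realChebStatement : helper10.RealChebStatement` is the consequence (box [REAL-CHEB]).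
-/

set_option autoImplicit false
set_option linter.unusedSectionVars false
set_option linter.unusedVariables false
set_option linter.style.longLine false
set_option linter.style.haveILetI false

noncomputable section

namespace Fermat.Agent.T8.helper85

open ModularCurve WeierstrassCurve WeierstrassCurve.Affine WeierstrassCurve.Affine.Point
open Fermat.Agent.P3 Fermat.Agent.T8.helper72 Module Polynomial

/-! ## the Dickson recursion for a group acting on an abelian group -/

section Dickson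

variable {G : Type*} [Group G] {Y : Type*} [AddCommGroup Y]

/-- the Dickson relation for the powers of an element acting on an abelian group -/
theorem pow_dickson_of_hom (T : G →* Module.End ℤ Y) (φ : G) (a b : ℤ)
    (h : ∀ y : Y, T φ (T φ y) - a • T φ y + b • y = 0) (j : ℕ) (y : Y) :
    T (φ ^ j) (T (φ ^ j) y) - (dickson 1 b j).eval a • T (φ ^ j) y + b ^ j • y = 0 := by
  set x : (Module.End ℤ Y)ˣ := Units.map T (toUnits φ) with hx
  have hxc : ((x : (Module.End ℤ Y)ˣ) : Module.End ℤ Y) = T φ := rfl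
  have hrel : ((x : (Module.End ℤ Y)ˣ) : Module.End ℤ Y) * x -
      algebraMap ℤ (Module.End ℤ Y) a * x + algebraMap ℤ (Module.End ℤ Y) b = 0 := by
    apply LinearMap.ext
    intro z
    rw [LinearMap.add_apply, LinearMap.sub_apply, Module.End.mul_apply, Module.End.mul_apply,
      Module.algebraMap_end_apply, Module.algebraMap_end_apply, LinearMap.zero_apply, hxc]
    exact h z
  have hcomm : Commute (algebraMap ℤ (Module.End ℤ Y) a)
      ((x : (Module.End ℤ Y)ˣ) : Module.End ℤ Y) :=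
    Algebra.commute_algebraMap_left a _
  have hD := Fermat.Agent.P3.helper64.unit_pow_add_eq_dickson x
    (algebraMap ℤ (Module.End ℤ Y) a) b hcomm hrel j
  rw [Polynomial.aeval_algebraMap_apply] at hD
  have hxj : ((x : (Module.End ℤ Y)ˣ) : Module.End ℤ Y) ^ j = T (φ ^ j) := by
    rw [hxc, map_pow]
  have hxinv : (((x⁻¹ : (Module.End ℤ Y)ˣ)) : Module.End ℤ Y) ^ j * T (φ ^ j) = 1 := by
    rw [← hxj, ← Units.val_pow_eq_pow_val, ← Units.val_pow_eq_pow_val, ← Units.val_mul,
      inv_pow, inv_mul_cancel, Units.val_one]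
  have h2 := congrArg (fun f : Module.End ℤ Y => f (T (φ ^ j) y)) hD
  simp only [LinearMap.add_apply, Module.End.mul_apply, Module.algebraMap_end_apply] at h2
  rw [hxj] at h2
  have h3 : ((((x⁻¹ : (Module.End ℤ Y)ˣ)) : Module.End ℤ Y) ^ j) (T (φ ^ j) y) = y := by
    have := congrArg (fun f : Module.End ℤ Y => f y) hxinv
    simpa only [Module.End.mul_apply, Module.End.one_apply] using this
  rw [h3, Polynomial.coe_aeval_eq_eval] at h2
  rw [← h2]
  abel

end Dickson

/-! ## the two actions -/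

/-- the action of `G_ℚ` on `E[p]`, `ℤ`-linear form -/
def actEZ (P : FreyPackage) : GQ →* Module.End ℤ (FreyTors P) where
  toFun σ := (DistribSMul.toAddMonoidHom (FreyTors P) σ).toIntLinearMap
  map_one' := LinearMap.ext fun y => one_smul GQ y
  map_mul' σ τ := LinearMap.ext fun y => mul_smul σ τ y

@[simp] theorem actEZ_apply (P : FreyPackage) (σ : GQ) (y : FreyTors P) :
    actEZ P σ y = σ • y := rfl

/-- the action of `G_ℚ` on a stable subgroup of `J₀(M)`, `ℤ`-linear form -/
def actXZ {M : ℕ} [NeZero M] (X : AddSubgroup (JZero M))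
    (hst : ∀ σ : GQ, ∀ x ∈ X, σ • x ∈ X) : GQ →* Module.End ℤ X where
  toFun σ := (actX X hst σ).toIntLinearMap
  map_one' := LinearMap.ext fun x => Subtype.ext (one_smul GQ (x : JZero M))
  map_mul' σ τ := LinearMap.ext fun x => Subtype.ext (mul_smul σ τ (x : JZero M))

theorem actXZ_coe {M : ℕ} [NeZero M] (X : AddSubgroup (JZero M))
    (hst : ∀ σ : GQ, ∀ x ∈ X, σ • x ∈ X) (σ : GQ) (x : X) :
    ((actXZ X hst σ x : X) : JZero M) = σ • (x : JZero M) := rfl

/-! ## the statement -/

/-- a subgroup of `J₀(M)` killed by `p` is finite -/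
theorem finite_of_killed {M : ℕ} [NeZero M] (p : ℕ) [Fact p.Prime] (X : AddSubgroup (JZero M))
    (hp : ∀ x ∈ X, p • x = 0) : (X : Set (JZero M)).Finite := by
  haveI := Fermat.Agent.T6.helper85.finite_torsionBy_jZero M p 1
  have hfin : ((Submodule.torsionBy ℤ (JZero M) ((p : ℤ) ^ 1) : Submodule ℤ (JZero M)) :
      Set (JZero M)).Finite := Set.toFinite _
  refine hfin.subset ?_
  intro x hx
  rw [SetLike.mem_coe, Submodule.mem_torsionBy_iff, pow_one, natCast_zsmul]
  exact hp x hx

/-- **[COMMON-QUAD]**. -/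
theorem commonQuad : CommonQuadStatement := by
  intro P W hW M _ X S hp hst hES d hcont hfrob σ
  obtain ⟨C, hC⟩ := hW
  have hΔ : W.Δ ≠ 0 := Fermat.Agent.T8.helper7.Δ_ne_zero_of_model
    (Fermat.Agent.T8.helper7.freyCurve_Δ_ne_zero_real P) ⟨C, hC⟩
  -- the three fields
  obtain ⟨L₂, hL₂, h₂⟩ := Fermat.Agent.S58.helper7.ecFieldAt W hΔ P.pp.pos
  obtain ⟨L₃, hL₃, h₃⟩ := hcont 1
  obtain ⟨L₄, hL₄, -, -, h₄⟩ := Fermat.Agent.T6.helper85.exists_galois_fixing M
    (X : Set (JZero M)) (finite_of_killed P.p X hp) ∅ Set.finite_empty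
  haveI := hL₂
  haveI := hL₃
  haveI := hL₄
  obtain ⟨ℓ, hℓ, hℓBad, A, hA, φ, hφ, j, hj⟩ :=
    Fermat.Agent.P3.helper40.chebStatement (L₂ ⊔ L₃ ⊔ L₄) inferInstance σ
      (S ∪ {P.p} ∪ W.Δ.natAbs.primeFactors)
  have hℓS : ℓ ∉ S := fun h =>
    hℓBad (Finset.mem_union_left _ (Finset.mem_union_left _ h))
  have hℓp : ℓ ≠ P.p := fun h =>
    hℓBad (Finset.mem_union_left _ (Finset.mem_union_right _ (Finset.mem_singleton.mpr h)))
  have hgood : W.IsGoodPrimeFor ℓ :=
    Fermat.Agent.P6.helper31.isGoodPrimeFor_of_notMem_primeFactors hℓ hΔ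
      (fun h => hℓBad (Finset.mem_union_right _ h))
  have hℓnp : ¬ ℓ ∣ P.p := fun h => hℓp ((Nat.prime_dvd_prime_iff_eq hℓ P.pp).1 h)
  set g : GQ := φ ^ j with hgdef
  set h : GQ := g⁻¹ * σ with hhdef
  have hs : σ = g * h := by rw [hhdef, mul_inv_cancel_left]
  have hfix : ∀ x ∈ L₂ ⊔ L₃ ⊔ L₄, h x = x := by
    intro x hx
    rw [hhdef, AlgEquiv.mul_apply, ← hj x hx]
    exact AlgEquiv.symm_apply_apply g x
  have hle₂ : L₂ ≤ L₂ ⊔ L₃ ⊔ L₄ := le_sup_left.trans le_sup_left
  have hle₃ : L₃ ≤ L₂ ⊔ L₃ ⊔ L₄ := le_sup_right.trans le_sup_left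
  have hle₄ : L₄ ≤ L₂ ⊔ L₃ ⊔ L₄ := le_sup_right
  refine ⟨(dickson 1 ((ℓ : ℕ) : ℤ) j).eval (W.apOfModel ℓ), ((ℓ : ℕ) : ℤ) ^ j, ?_, ?_, ?_⟩
  · -- the character
    have hdh : ((d h : (ZMod P.p)ˣ) : ZMod P.p) = 1 := by
      have h1 := h₃ h (fun x hx => hfix x (hle₃ hx))
      have hbot : IsLocalRing.maximalIdeal (ZMod P.p) = ⊥ :=
        IsLocalRing.isField_iff_maximalIdeal_eq.mp (Field.toIsField (ZMod P.p))
      rw [pow_one, hbot, Ideal.mem_bot] at h1
      exact sub_eq_zero.1 h1
    have hdg : ((d g : (ZMod P.p)ˣ) : ZMod P.p) = ((ℓ : ℕ) : ZMod P.p) ^ j := by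
      rw [hgdef, map_pow, Units.val_pow_eq_pow_val, hfrob ℓ hℓ hℓp A hA φ hφ]
    rw [hs, map_mul, Units.val_mul, hdg, hdh, mul_one]
    push_cast
    rfl
  · -- `E[p]`
    intro y
    obtain ⟨Q, rfl⟩ := Fermat.Agent.P6.helper78.vcTors_surjective hC P.p y
    have hφrel : ∀ z : FreyTors P, actEZ P φ (actEZ P φ z) - W.apOfModel ℓ • actEZ P φ z +
        ((ℓ : ℕ) : ℤ) • z = 0 := by
      intro z
      obtain ⟨R, rfl⟩ := Fermat.Agent.P6.helper78.vcTors_surjective hC P.p z
      have e := Fermat.Agent.S58.helper7.ecFrob W hℓ hgood hℓnp A hA φ hφ R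
      have e' := congrArg (Fermat.Agent.P6.helper78.vcTors hC P.p) e
      rw [_root_.map_zero, _root_.map_add, _root_.map_sub, _root_.map_zsmul, _root_.map_zsmul,
        Fermat.Agent.P6.helper78.vcTors_smul, Fermat.Agent.P6.helper78.vcTors_smul] at e'
      exact e'
    have hD := pow_dickson_of_hom (actEZ P) φ (W.apOfModel ℓ) ((ℓ : ℕ) : ℤ) hφrel j
      (Fermat.Agent.P6.helper78.vcTors hC P.p Q)
    have hsy : ∀ z : FreyTors P, σ • z = g • z := by
      intro z
      obtain ⟨R, rfl⟩ := Fermat.Agent.P6.helper78.vcTors_surjective hC P.p z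
      rw [hs, mul_smul, ← Fermat.Agent.P6.helper78.vcTors_smul hC P.p h R,
        h₂ h (fun x hx => hfix x (hle₂ hx)) R]
    rw [hsy, hsy]
    exact hD
  · -- `X`
    intro x hx
    have hφrel : ∀ z : X, actXZ X hst φ (actXZ X hst φ z) - W.apOfModel ℓ • actXZ X hst φ z +
        ((ℓ : ℕ) : ℤ) • z = 0 := by
      intro z
      apply Subtype.ext
      rw [AddSubgroup.coe_add, AddSubgroup.coe_sub, AddSubgroup.coe_zsmul,
        AddSubgroup.coe_zsmul, actXZ_coe, actXZ_coe]
      exact hES ℓ hℓ hℓS A hA φ hφ z.1 z.2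
    have hD := pow_dickson_of_hom (actXZ X hst) φ (W.apOfModel ℓ) ((ℓ : ℕ) : ℤ) hφrel j ⟨x, hx⟩
    have hD' := congrArg (fun z : X => (z : JZero M)) hD
    simp only [AddSubgroup.coe_add, AddSubgroup.coe_sub, AddSubgroup.coe_zsmul, actXZ_coe,
      AddSubgroup.coe_zero] at hD'
    have hsx : ∀ z ∈ X, σ • z = g • z := by
      intro z hz
      rw [hs, mul_smul, h₄ h (fun x hx => hfix x (hle₄ hx)) z hz]
    rw [hsx x hx, hsx (g • x) (hst g x hx)]
    exact hD'

/-- **[REAL-CHEB]**: the contract of the box. -/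
theorem realChebStatement : Fermat.Agent.T8.helper10.RealChebStatement :=
  realCheb_of_commonQuad commonQuad

end Fermat.Agent.T8.helper85

end
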