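import Fermat.Agent.S13.helper5_NodeTwo

/-!
# T8 [W-RAM2] (helper85), part 2: `E₀` is a subgroup at a node in any residue characteristic

Short model `η² = x³ + a x² + b x` with `Fermat.Agent.S13.helper5.NodeHyp` (the model of the Frey
curve at `2`).  From the component bookkeeping `NodeHyp.St_add` / `NodeHyp.add_Z_N`:

* `nodeHyp_inE0_add85`  : `E₀ = {0} ∪ {1 ≤ v x}` is closed under addition (given one point of the
                          node region, e.g. over an algebraically closed field);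
* `nodeHyp_not_odd_torsion_H85` : no point of odd order in `T + E₀ = {v x ≤ v b}`.
-/

set_option autoImplicit false
set_option linter.unusedSectionVars false
set_option linter.unusedVariables false
set_option linter.style.longLine false

namespace Fermat.Agent.T8.helper85

open WeierstrassCurve WeierstrassCurve.Affine
open Fermat.Agent.S05 Fermat.Agent.S13.helper5

variable {K : Type*} [Field K] [DecidableEq K]
variable {Γ₀ : Type*} [LinearOrderedCommGroupWithZero Γ₀]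
variable {v : Valuation K Γ₀} {W : Affine K}

/-- the points of `E₀`: the origin and the points with `1 ≤ v x` -/
def InE085 (v : Valuation K Γ₀) (Q : W.Point) : Prop :=
  Q = 0 ∨ ∃ x y, ∃ h : W.Nonsingular x y, Q = Point.some x y h ∧ 1 ≤ v x

section arith

theorem arith_node85 {β ξ : Γ₀} (hβ0 : 0 < β) (hβ1 : β < 1) (hξl : β < ξ) (hξu : ξ < 1)
    (i j : ℕ) : ξ * β ^ (2 * i) ≠ β ^ (2 * j) := by
  intro h
  have hpos : ∀ n : ℕ, 0 < β ^ n := fun n => pow_pos hβ0 n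
  rcases le_or_gt i j with hij | hij
  · obtain ⟨k, rfl⟩ := Nat.exists_eq_add_of_le hij
    have e : β ^ (2 * (i + k)) = β ^ (2 * k) * β ^ (2 * i) := by
      rw [← pow_add]; congr 1; ring
    rw [e] at h
    have h1 : ξ = β ^ (2 * k) := mul_right_cancel₀ (hpos _).ne' h
    rcases Nat.eq_zero_or_pos k with rfl | hk
    · rw [mul_zero, pow_zero] at h1
      exact absurd h1 hξu.ne
    · have h2 : β ^ (2 * k) ≤ β ^ 1 :=
        (pow_le_pow_iff_right_of_lt_one₀ hβ0 hβ1).mpr (by omega)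
      rw [pow_one] at h2
      rw [h1] at hξl
      exact absurd hξl (not_lt.mpr h2)
  · have h1 : ξ * β ^ (2 * i) < 1 * β ^ (2 * i) := mul_lt_mul_of_pos_right hξu (hpos _)
    rw [one_mul] at h1
    have h2 : β ^ (2 * i) ≤ β ^ (2 * j) :=
      (pow_le_pow_iff_right_of_lt_one₀ hβ0 hβ1).mpr (by omega)
    rw [h] at h1
    exact absurd h1 (not_lt.mpr h2)

theorem arith_parity85 {β : Γ₀} (hβ0 : 0 < β) (hβ1 : β < 1) (i j : ℕ) :
    β ^ (2 * i) ≠ β ^ (2 * j + 1) := by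
  intro h
  have := pow_right_injective₀ hβ0 hβ1.ne h
  omega

end arith

/-- a point in the state `γ = 1` lies in `E₀` -/
theorem inE0_of_St_one85 (hβ0 : 0 < v W.a₄) (hβ1 : v W.a₄ < 1) {α₀ : K} {Q : W.Point}
    (h : St v α₀ Q 1) : InE085 v Q := by
  rcases h with ⟨hQ, -⟩ | ⟨x, y, hxy, -, hl, hu, -, i, j, hij⟩ |
    ⟨x, y, hxy, -, hl, hu, -, i, j, hij⟩ | ⟨-, i, j, hij⟩
  · exact hQ
  · rw [one_mul] at hij
    exact absurd hij (arith_node85 hβ0 hβ1 hl hu i j)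
  · rw [mul_one] at hij
    exact absurd hij (arith_node85 hβ0 hβ1 hl hu i j)
  · rw [one_mul] at hij
    exact absurd hij (arith_parity85 hβ0 hβ1 i j)

/-- adding a point of `E₀` to a point of the node region -/
theorem nodeHyp_add_E0_N85 (hN : NodeHyp v W) {Q : W.Point} (hQ : InE085 v Q) {x y : K}
    (h : W.Nonsingular x y) (hl : v W.a₄ < v x) (hu : v x < 1) :
    ∃ x' y', ∃ h' : W.Nonsingular x' y', Q + Point.some x y h = Point.some x' y' h' ∧
      v x' = v x ∧ v (y' / x' - y / x) < 1 := by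
  rcases hQ with rfl | ⟨x₁, y₁, h₁, rfl, hx₁⟩
  · refine ⟨x, y, h, zero_add _, rfl, ?_⟩
    rw [sub_self, map_zero]
    exact zero_lt_one
  · exact hN.add_Z_N h₁ h hx₁ hl hu

/-- **`E₀` is closed under addition** (given one point of the node region). -/
theorem nodeHyp_inE0_add85 (hN : NodeHyp v W) {x₀ y₀ : K} (h₀ : W.Nonsingular x₀ y₀)
    (hl : v W.a₄ < v x₀) (hu : v x₀ < 1) {Q₁ Q₂ : W.Point} (h₁ : InE085 v Q₁)
    (h₂ : InE085 v Q₂) : InE085 v (Q₁ + Q₂) := by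
  have hW := hN.nf
  have hβ0 : 0 < v W.a₄ := val_pos v hN.b0
  have hβ1 : v W.a₄ < 1 := hN.b
  have hx₀0 : v x₀ ≠ 0 := (lt_trans hβ0 hl).ne'
  obtain ⟨x₁, y₁, hh₁, e₁, hv₁, hα₁⟩ := nodeHyp_add_E0_N85 hN h₁ h₀ hl hu
  obtain ⟨x₂, y₂, hh₂, e₂, hv₂, hα₂⟩ := nodeHyp_add_E0_N85 hN h₂ hh₁ (hv₁ ▸ hl) (hv₁ ▸ hu)
  obtain ⟨h₀', hneg⟩ := hW.neg_some h₀
  have hα : v (y₂ / x₂ - y₀ / x₀) < 1 := by
    have : y₂ / x₂ - y₀ / x₀ = (y₂ / x₂ - y₁ / x₁) + (y₁ / x₁ - y₀ / x₀) := by ring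
    rw [this]
    exact v.map_add_lt hα₂ hα₁
  have hv₂' : v x₂ = v x₀ := hv₂.trans hv₁
  have hTM : St v ((-y₀) / x₀) (Point.some x₂ y₂ hh₂) (v x₀)⁻¹ := by
    refine Or.inr (Or.inr (Or.inl ⟨x₂, y₂, hh₂, rfl, hv₂' ▸ hl, hv₂' ▸ hu, ?_, 0, 0, ?_⟩))
    · have : y₂ / x₂ + (-y₀) / x₀ = y₂ / x₂ - y₀ / x₀ := by ring
      rw [this]
      exact hα
    · rw [hv₂', mul_zero, pow_zero, mul_one, mul_inv_cancel₀ hx₀0]
  have hbase : v ((-y₀) / x₀ - (-y₀) / x₀) < 1 := by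
    rw [sub_self, map_zero]
    exact zero_lt_one
  have hSt := hN.St_add h₀' hl hu hbase hTM
  rw [inv_mul_cancel₀ hx₀0] at hSt
  have hsum : Point.some x₂ y₂ hh₂ + Point.some x₀ (-y₀) h₀' = Q₁ + Q₂ := by
    rw [← hneg, ← e₂, ← e₁]
    abel
  rw [hsum] at hSt
  exact inE0_of_St_one85 hβ0 hβ1 hSt

/-- `E₀` is closed under multiples -/
theorem nodeHyp_inE0_nsmul85 (hN : NodeHyp v W) {x₀ y₀ : K} (h₀ : W.Nonsingular x₀ y₀)
    (hl : v W.a₄ < v x₀) (hu : v x₀ < 1) {Q : W.Point} (hQ : InE085 v Q) (n : ℕ) :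
    InE085 v (n • Q) := by
  induction n with
  | zero => rw [zero_smul]; exact Or.inl rfl
  | succ n ih => rw [succ_nsmul]; exact nodeHyp_inE0_add85 hN h₀ hl hu ih hQ

/-- the `2`-torsion point `(0, 0)` is not in `E₀` -/
theorem not_inE0_T85 (hW : IsTwoNF W) (hb0 : W.a₄ ≠ 0) :
    ¬ InE085 v (Point.some 0 0 (hW.nonsingular_zero hb0)) := by
  rintro (h0 | ⟨x, y, h, e, hx⟩)
  · exact Point.some_ne_zero _ h0
  · rw [Point.some.injEq] at e
    obtain ⟨rfl, rfl⟩ := e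
    rw [map_zero] at hx
    exact absurd hx (not_le.mpr zero_lt_one)

/-- odd multiples of the `2`-torsion point `T = (0, 0)` -/
theorem odd_nsmul_T85 (hW : IsTwoNF W) (hb0 : W.a₄ ≠ 0) {n : ℕ} (hn : Odd n) :
    n • Point.some 0 0 (hW.nonsingular_zero hb0) = Point.some 0 0 (hW.nonsingular_zero hb0) := by
  obtain ⟨k, rfl⟩ := hn
  have h2 : 2 • Point.some 0 0 (hW.nonsingular_zero hb0) = 0 := by
    rw [two_nsmul]; exact hW.T_add_T hb0
  rw [add_smul, mul_smul, one_smul, smul_comm, h2, smul_zero, zero_add]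

/-- **no point of odd order in `T + E₀`** -/
theorem nodeHyp_not_odd_torsion_H85 (hN : NodeHyp v W) {x₀ y₀ : K} (h₀ : W.Nonsingular x₀ y₀)
    (hl : v W.a₄ < v x₀) (hu : v x₀ < 1) {x y : K} (h : W.Nonsingular x y)
    (hx : v x ≤ v W.a₄) {n : ℕ} (hn : Odd n) (hT : n • Point.some x y h = 0) : False := by
  have hW := hN.nf
  have hb0 := hN.b0
  have hβ0 : 0 < v W.a₄ := val_pos v hb0
  by_cases hx0 : x = 0
  · subst hx0
    have hy : y = 0 := by
      have := hW.eq_of_nonsingular h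
      simpa using this
    subst hy
    rw [odd_nsmul_T85 hW hb0 hn] at hT
    exact Point.some_ne_zero _ hT
  · obtain ⟨h', hadd⟩ := hW.add_T hb0 h hx0
    have hQ : InE085 v (Point.some x y h + Point.some 0 0 (hW.nonsingular_zero hb0)) := by
      rw [hadd]
      refine Or.inr ⟨_, _, h', rfl, ?_⟩
      rw [map_div₀, le_div_iff₀ (val_pos v hx0), one_mul]
      exact hx
    have hnQ := nodeHyp_inE0_nsmul85 hN h₀ hl hu hQ n
    rw [smul_add, hT, zero_add, odd_nsmul_T85 hW hb0 hn] at hnQ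
    exact not_inE0_T85 hW hb0 hnQ

end Fermat.Agent.T8.helper85
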