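import Fermat.Agent.T8.helper85_Ram2Poly
import Fermat.Agent.T8.helper85_Ram2E0
import Fermat.Agent.T3.helper84_K0Disc

/-!
# T8 [W-RAM2] (helper85), part 3: the `p`-torsion of the Frey curve is RAMIFIED at `2`

* `exists_torsion_node85` : over an algebraically closed field, at a place `A` over `2`, the Frey
  curve has a point of order `p` strictly inside the node region `v a₄ < v x < 1`
  (constant term of the torsion polynomial is even + `E₀` is a group);
* `frey_moved_two85`      : for every valuation subring `A` of `ℚ̄` over `2` some element of the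
  inertia group of `A` moves some point of `E[p]` (`S13.helper5.frey_not_node_two_of_val`: the
  valuation of the `x`-coordinate of such a point is not in the value group of `ℚ`, and
  `T3.helper84.k0_disc`: the value group of the inertia field is that of `ℚ`);
* `frey_ramified_two85`   : `¬ P.GaloisRepUnramifiedAt 2`.
-/

set_option autoImplicit false
set_option linter.unusedSectionVars false
set_option linter.unusedVariables false
set_option linter.style.longLine false

namespace Fermat.Agent.T8.helper85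

open WeierstrassCurve WeierstrassCurve.Affine Polynomial
open Fermat.Agent.S05 Fermat.Agent.S05.helper92 Fermat.Agent.S13.helper5
open Fermat.Agent.S13.helper64

section partA

variable {K : Type*} [Field K] [DecidableEq K] [Algebra ℚ K] [CharZero K] [IsAlgClosed K]

/-- **a point of order `p` strictly inside the node region at `2`** -/
theorem exists_torsion_node85 (P : FreyPackage) (A : ValuationSubring K)
    (hA : A.LiesOverPrime 2) :
    ∃ x y, ∃ h : (freyK P K).Nonsingular x y, P.p • Point.some x y h = 0 ∧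
      A.valuation (freyK P K).a₄ < A.valuation x ∧ A.valuation x < 1 := by
  obtain ⟨ht0, ht1, κ, m, hκ, hκ0, hβ, hN⟩ := frey_two_data P A hA
  have hΔ : (freyK P K).Δ ≠ 0 := by
    rw [freyK_eq_map_int, WeierstrassCurve.map_Δ]
    intro h
    apply Fermat.Agent.S04.freyCurveInt_Δ_ne_zero P
    have h' : ((P.freyCurveInt.Δ : ℤ) : K) = 0 := h
    exact_mod_cast h'
  obtain ⟨n, hn⟩ := P.hp_odd
  have hn1 : 1 ≤ n := by have := P.hp5; omega
  have hvp : A.valuation ((P.p : ℕ) : K) = 1 := by
    have hnd : ¬ ((2 : ℕ) : ℤ) ∣ ((P.p : ℕ) : ℤ) := by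
      rw [Int.natCast_dvd_natCast]
      intro hdvd
      have := (Nat.prime_dvd_prime_iff_eq Nat.prime_two P.pp).1 hdvd
      have := P.hp5
      omega
    have := valuation_intCast_eq_one_of_not_dvd (L := K) Nat.prime_two hA hnd
    simpa using this
  have hpK : ((2 * n + 1 : ℕ) : K) ≠ 0 := by
    rw [← hn]
    exact_mod_cast P.pp.ne_zero
  -- the torsion polynomial
  have hmap : torsPoly (freyK P K) n = (torsPoly P.freyCurveInt n).map (Int.castRingHom K) := by
    rw [torsPoly_map, ← freyK_eq_map_int]
  obtain ⟨k, hk⟩ := two_dvd_torsPoly_frey85 P hn1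
  have hev : (torsPoly (freyK P K) n).eval 0 = 2 * (k : K) := by
    rw [hmap]
    have h1 := Polynomial.eval_map_apply (Int.castRingHom K) (p := torsPoly P.freyCurveInt n)
      (0 : ℤ)
    rw [map_zero] at h1
    rw [h1, hk]
    simp
  have hlt : A.valuation ((torsPoly (freyK P K) n).eval 0) <
      A.valuation (torsPoly (freyK P K) n).leadingCoeff := by
    rw [hev, leadingCoeff_torsPoly _ n hpK, map_mul, Valuation.map_neg]
    have e : (2 * (n : K) + 1) = ((P.p : ℕ) : K) := by
      rw [hn]; push_cast; ring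
    rw [e, hvp]
    have hk1 : A.valuation ((k : ℤ) : K) ≤ 1 :=
      (A.valuation_le_one_iff _).mpr (intCast_mem A k)
    calc A.valuation (2 : K) * A.valuation ((k : ℤ) : K) ≤ A.valuation (2 : K) * 1 := by gcongr
      _ = A.valuation (2 : K) := mul_one _
      _ < 1 := ht1
  obtain ⟨r, hr, hr1⟩ := exists_root_val_lt_one85 A.valuation _ hlt
  obtain ⟨y, hy⟩ := exists_equation' (freyK P K) r
  have hns : (freyK P K).Nonsingular r y := (equation_iff_nonsingular_of_Δ_ne_zero hΔ).mp hy
  have hT : P.p • Point.some r y hns = 0 := by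
    rw [hn]
    exact (nsmul_eq_zero_iff_eval_torsPoly (freyK P K) hΔ n hns).mpr hr
  by_cases hcase : A.valuation (freyK P K).a₄ < A.valuation r
  · exact ⟨r, y, hns, hT, hcase, hr1⟩
  · exfalso
    rw [not_lt] at hcase
    have hsh := isShift_ab P K
    have hb0 : (freyK P K).a₄ ≠ 0 := by
      rw [freyK_a₄_eq_short]; exact hN.b0
    have hβ0 : 0 < A.valuation (freyK P K).a₄ := Fermat.Agent.S05.val_pos _ hb0
    have hβ1 : A.valuation (freyK P K).a₄ < 1 := by
      rw [freyK_a₄_eq_short]; exact hN.b
    -- a base point in the node region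
    obtain ⟨x₀, hx₀⟩ : ∃ x₀ : K, x₀ ^ 2 = (freyK P K).a₄ :=
      IsAlgClosed.exists_pow_nat_eq _ (by norm_num)
    obtain ⟨y₀, hy₀⟩ := exists_equation' (freyK P K) x₀
    have hns₀ : (freyK P K).Nonsingular x₀ y₀ :=
      (equation_iff_nonsingular_of_Δ_ne_zero hΔ).mp hy₀
    have hvx₀ : A.valuation x₀ ^ 2 = A.valuation (freyK P K).a₄ := by
      rw [← map_pow, hx₀]
    have hx₀1 : A.valuation x₀ < 1 := by
      apply Fermat.Agent.S05.lt_one_of_sq_lt_one
      rw [hvx₀]; exact hβ1
    have hx₀0 : 0 < A.valuation x₀ := by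
      rcases (zero_le (a := A.valuation x₀)).lt_or_eq with h | h
      · exact h
      · rw [← h] at hvx₀
        rw [← hvx₀] at hβ0
        simp at hβ0
    have hx₀l : A.valuation (freyK P K).a₄ < A.valuation x₀ := by
      rw [← hvx₀, pow_two]
      calc A.valuation x₀ * A.valuation x₀ < A.valuation x₀ * 1 :=
            mul_lt_mul_of_pos_left hx₀1 hx₀0
        _ = A.valuation x₀ := mul_one _
    have hpT : P.p • hsh.hom (Point.some r y hns) = 0 := by
      rw [← map_nsmul, hT, map_zero]
    rw [IsShift.hom_some] at hpT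
    refine nodeHyp_not_odd_torsion_H85 hN (hsh.nonsingular hns₀) ?_ ?_ (hsh.nonsingular hns) ?_
      P.hp_odd hpT
    · rw [sub_zero, ← freyK_a₄_eq_short]; exact hx₀l
    · rw [sub_zero]; exact hx₀1
    · rw [sub_zero, ← freyK_a₄_eq_short]; exact hcase

end partA

section partB

local notation "Qb" => AlgebraicClosure ℚ

/-- **inertia at `2` moves `E[p]`** -/
theorem frey_moved_two85 (P : FreyPackage) (A : ValuationSubring Qb)
    (hA : A.LiesOverPrime 2) :
    ∃ σ ∈ A.inertiaSubgroupIn ℚ, ∃ T : (freyK P Qb).Point, (P.p : ℤ) • T = 0 ∧ σ • T ≠ T := by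
  obtain ⟨x, y, h, hT, hl, hu⟩ := exists_torsion_node85 P A hA
  have hx0 : x ≠ 0 := by
    rintro rfl
    rw [map_zero] at hl
    exact absurd hl (not_lt.mpr zero_le)
  by_contra hcon
  push Not at hcon
  have hfix : ∀ σ ∈ A.inertiaSubgroupIn ℚ, σ x = x := by
    intro σ hσ
    have h1 := hcon σ hσ (Point.some x y h) (by rw [natCast_zsmul]; exact hT)
    rw [smul_some] at h1
    rw [Point.some.injEq] at h1
    exact h1.1
  obtain ⟨m, hm⟩ := Fermat.Agent.T3.helper84.k0_disc Nat.prime_two A hA hx0 hfix
  obtain ⟨ht0, ht1, -⟩ := frey_two_data P A hA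
  rw [map_zpow₀] at hm
  have h2 : (((2 : ℕ) : Qb)) = 2 := by norm_num
  rw [h2] at hm
  have hmpos : 0 < m := by
    by_contra hneg
    rw [not_lt] at hneg
    have : (1 : A.ValueGroup) ≤ A.valuation (2 : Qb) ^ m := by
      have := (zpow_le_zpow_iff_right_of_lt_one₀ ht0 ht1 (m := 0) (n := m)).mpr hneg
      simpa using this
    rw [← hm] at this
    exact absurd hu (not_lt.mpr this)
  refine frey_not_node_two_of_val P A hA h hT ⟨m.toNat, 0, ?_⟩ hl hu
  rw [pow_zero, mul_one, hm]
  conv_lhs => rw [← Int.toNat_of_nonneg hmpos.le]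
  rw [zpow_natCast]

/-- **[W-RAM2]**: the mod `p` representation of the Frey curve is RAMIFIED at `2`. -/
theorem frey_ramified_two85 (P : FreyPackage) : ¬ P.GaloisRepUnramifiedAt 2 := by
  intro hunr
  unfold FreyPackage.GaloisRepUnramifiedAt at hunr
  rw [galoisRepUnramifiedAt_iff] at hunr
  obtain ⟨A, hA⟩ : ∃ A : ValuationSubring Qb, A.LiesOverPrime 2 :=
    Fermat.Agent.S54.helper91.exists_valuationSubring_liesOver Nat.prime_two
  obtain ⟨σ, hσ, T, hT, hne⟩ := frey_moved_two85 P A hA
  exact hne (hunr A hA σ hσ T hT)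

end partB

end Fermat.Agent.T8.helper85
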