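import Fermat.Agent.S13.helper64_TorsionCount
import Fermat.Prelude.Def_FLTPrelim_FreyPackage

/-!
# T8 [W-RAM2] (helper85), part 1: a torsion point of the Frey curve near the node at `2`

* `lad_node85`        : on a nodal cubic (`b₄ = b₆ = b₈ = 0`) the Montgomery ladder at `x = 0`
                        stays at the node: `X_n = 0` for `n ≥ 1`;
* `torsPoly_eval_zero_of_node85` : hence the constant term of the torsion polynomial vanishes;
* `two_dvd_torsPoly_frey85`      : the constant term of the torsion polynomial of the integral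
                        Frey curve is even;
* `exists_root_val_lt_one85`     : a polynomial over an algebraically closed valued field whose
                        constant term is smaller than its leading coefficient has a root of
                        valuation `< 1`.
-/

set_option autoImplicit false
set_option linter.unusedSectionVars false
set_option linter.unusedVariables false
set_option linter.style.longLine false

open Polynomial

namespace Fermat.Agent.T8.helper85

open Fermat.Agent.S13.helper64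

section node

variable {A : Type*} [CommRing A]

/-- on a nodal cubic the ladder at the node stays at the node -/
theorem lad_node85 (b₂ : A) (n : ℕ) :
    (lad b₂ 0 0 0 0 n).X' = 0 ∧ (1 ≤ n → (lad b₂ 0 0 0 0 n).X = 0) := by
  refine lad_induction b₂ 0 0 0 0 (motive := fun n s => s.X' = 0 ∧ (1 ≤ n → s.X = 0)) ?_ ?_ ?_ n
  · exact ⟨rfl, fun h => absurd h (by norm_num)⟩
  · rintro n s ⟨h1, h2⟩
    refine ⟨?_, fun h => ?_⟩
    · simp [evenStep, oddX, sumNum, oddT, h1]
    · have h3 := h2 (by omega)
      simp [evenStep, dblX, h3]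
  · rintro n s ⟨h1, h2⟩
    refine ⟨?_, fun _ => ?_⟩
    · simp [oddStep, dblX, h1]
    · simp [oddStep, oddX, sumNum, oddT, h1]

/-- the constant term of the torsion polynomial of a nodal cubic vanishes -/
theorem torsPoly_eval_zero_of_node85 {R : Type*} [CommRing R] (W : WeierstrassCurve R)
    (h4 : W.b₄ = 0) (h6 : W.b₆ = 0) (h8 : W.b₈ = 0) {n : ℕ} (hn : 1 ≤ n) :
    (torsPoly W n).eval 0 = 0 := by
  rw [torsPoly_eval, h4, h6, h8]
  obtain ⟨h1, h2⟩ := lad_node85 W.b₂ n
  simp [oddT, h1, h2 hn]

end node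

section frey

/-- `16 ∣ a ^ p * b ^ p` and more: the coefficient `a₄` of the integral Frey curve is even -/
theorem two_dvd_freyCurveInt_a₄85 (P : FreyPackage) : (2 : ℤ) ∣ P.freyCurveInt.a₄ := by
  have h2b : (2 : ℤ) ∣ P.b := (ZMod.intCast_zmod_eq_zero_iff_dvd P.b 2).1 P.hb2
  obtain ⟨k, hk⟩ := h2b
  have hp5 := P.hp5
  obtain ⟨m, hm⟩ : ∃ m, P.p = m + 5 := ⟨P.p - 5, by omega⟩
  show (2 : ℤ) ∣ -(P.a ^ P.p) * (P.b ^ P.p) / 16
  have e : -(P.a ^ P.p) * (P.b ^ P.p) = 16 * (2 * (-(P.a ^ P.p) * (2 ^ m * k ^ P.p))) := by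
    rw [hk, mul_pow, hm]
    ring
  rw [e, Int.mul_ediv_cancel_left _ (by norm_num : (16 : ℤ) ≠ 0)]
  exact Dvd.intro _ rfl

/-- the constant term of the torsion polynomial of the integral Frey curve is even -/
theorem two_dvd_torsPoly_frey85 (P : FreyPackage) {n : ℕ} (hn : 1 ≤ n) :
    (2 : ℤ) ∣ (torsPoly P.freyCurveInt n).eval 0 := by
  have h3 : P.freyCurveInt.a₃ = 0 := rfl
  have h6 : P.freyCurveInt.a₆ = 0 := rfl
  obtain ⟨k, hk⟩ := two_dvd_freyCurveInt_a₄85 P
  set f : ℤ →+* ZMod 2 := Int.castRingHom (ZMod 2) with hf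
  have h2 : f 2 = 0 := by
    have : ((2 : ℤ) : ZMod 2) = 0 := by decide
    simpa [hf] using this
  have hb4 : (P.freyCurveInt.map f).b₄ = 0 := by
    rw [WeierstrassCurve.map_b₄, WeierstrassCurve.b₄, h3, mul_zero, add_zero, map_mul, h2,
      zero_mul]
  have hb6 : (P.freyCurveInt.map f).b₆ = 0 := by
    rw [WeierstrassCurve.map_b₆, WeierstrassCurve.b₆, h3, h6]
    simp
  have hb8 : (P.freyCurveInt.map f).b₈ = 0 := by
    rw [WeierstrassCurve.map_b₈, WeierstrassCurve.b₈, h3, h6, hk]
    have : P.freyCurveInt.a₁ ^ 2 * 0 + 4 * P.freyCurveInt.a₂ * 0 - P.freyCurveInt.a₁ * 0 * (2 * k)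
        + P.freyCurveInt.a₂ * 0 ^ 2 - (2 * k) ^ 2 = 2 * (-(2 * k ^ 2)) := by ring
    rw [this, map_mul, h2, zero_mul]
  have h0 := torsPoly_eval_zero_of_node85 (P.freyCurveInt.map f) hb4 hb6 hb8 hn
  rw [← torsPoly_map] at h0
  have h1 : f ((torsPoly P.freyCurveInt n).eval 0) = 0 := by
    rw [← Polynomial.eval_map_apply, map_zero]
    exact h0
  exact (ZMod.intCast_zmod_eq_zero_iff_dvd _ 2).1 h1

end frey

section root

variable {K : Type*} [Field K] [IsAlgClosed K]
variable {Γ₀ : Type*} [LinearOrderedCommGroupWithZero Γ₀]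

/-- a product of elements of valuation `≥ 1` has valuation `≥ 1` -/
theorem one_le_val_multiset_prod85 (v : Valuation K Γ₀) (s : Multiset K)
    (h : ∀ r ∈ s, 1 ≤ v r) : 1 ≤ v s.prod := by
  induction s using Multiset.induction_on with
  | empty => simp
  | cons a s ih =>
    rw [Multiset.prod_cons, map_mul]
    have h1 : 1 ≤ v a := h a (Multiset.mem_cons_self a s)
    have h2 : 1 ≤ v s.prod := ih (fun r hr => h r (Multiset.mem_cons_of_mem hr))
    calc (1 : Γ₀) = 1 * 1 := (one_mul 1).symm
      _ ≤ v a * v s.prod := mul_le_mul' h1 h2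

/-- a polynomial over an algebraically closed valued field whose constant term is smaller than
its leading coefficient has a root of valuation `< 1` -/
theorem exists_root_val_lt_one85 (v : Valuation K Γ₀) (f : K[X])
    (h : v (f.eval 0) < v f.leadingCoeff) : ∃ r, f.eval r = 0 ∧ v r < 1 := by
  by_contra hcon
  push Not at hcon
  have hsp : f.Splits := IsAlgClosed.splits f
  have h1 := hsp.eval_eq_prod_roots 0
  have hf0 : f ≠ 0 := by
    rintro rfl
    simp at h
  have h2 : 1 ≤ v (f.roots.map (fun r => 0 - r)).prod := by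
    apply one_le_val_multiset_prod85
    intro r hr
    obtain ⟨s, hs, rfl⟩ := Multiset.mem_map.mp hr
    rw [zero_sub, Valuation.map_neg]
    exact hcon s ((Polynomial.mem_roots hf0).mp hs)
  rw [h1, map_mul] at h
  have h3 : v f.leadingCoeff * 1 ≤ v f.leadingCoeff * v (f.roots.map (fun r => 0 - r)).prod :=
    mul_le_mul_right h2 _
  rw [mul_one] at h3
  exact absurd h (not_lt.mpr h3)

end root

end Fermat.Agent.T8.helper85
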