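import Fermat.Agent.T8.helper85_Ram2
import Fermat.Agent.T8.helper7_RealDefs
import Fermat.Agent.T8.helper72_ChainDefs2

/-!
# T8 [W-RAM2] (helper85), part 4: a realisation of `E[p]` in `J₀(M)` forces `2 ∣ M`

`E[p]` of the Frey curve is ramified at `2` (`frey_moved_two85`), while the `p`-torsion of
`J₀(M)` is unramified at `2` as soon as `2 ∤ M p` (`T8.helper7.p2Core_all`).  Hence:

* `not_freyReal_of_odd85`        : `FreyReal P W M V → ¬ 2 ∣ M → False`;
* `two_dvd_of_freyReal85`        : `FreyReal P W M V → 2 ∣ M`;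
* `two_dvd_level_of_freyReal85`  : `FreyReal P W (M' * P.p) V0 → 2 ∣ M'`
  (so in every box of the chain with a realisation in its context, `M'` is EVEN);
* `two_dvd_of_real2_85`          : `RealStatement2 → ChainCtx P M' W → 2 ∣ M'`;
* `oddVacuous85`                 : `RealStatement →` (S44 context at `N = M' p` odd) `→ False`.
-/

set_option autoImplicit false
set_option linter.unusedSectionVars false
set_option linter.unusedVariables false
set_option linter.style.longLine false
set_option linter.style.haveILetI false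

namespace Fermat.Agent.T8.helper85

open ModularCurve WeierstrassCurve WeierstrassCurve.Affine WeierstrassCurve.Affine.Point
open Fermat.Agent.T8.helper72

/-- **a realisation of `E[p]` inside `J₀(M)` with `M` odd does not exist** -/
theorem not_freyReal_of_odd85 (P : FreyPackage) (W : WeierstrassCurve ℤ) (M : ℕ) [NeZero M]
    (V : AddSubgroup (JZero M)) (hV : FreyReal P W M V) (hodd : ¬ 2 ∣ M) : False := by
  obtain ⟨e, he⟩ := hV.iso
  obtain ⟨A, hA⟩ : ∃ A : ValuationSubring (AlgebraicClosure ℚ), A.LiesOverPrime 2 :=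
    Fermat.Agent.S54.helper91.exists_valuationSubring_liesOver Nat.prime_two
  obtain ⟨σ, hσ, T, hT, hne⟩ := frey_moved_two85 P A hA
  have hTmem : T ∈ Submodule.torsionBy ℤ
      ((P.freyCurve : Affine ℚ)⁄(AlgebraicClosure ℚ)).Point (P.p : ℤ) :=
    (Submodule.mem_torsionBy_iff _ _).mpr hT
  have h2 : ¬ 2 ∣ M * P.p := by
    intro h
    rcases (Nat.Prime.dvd_mul Nat.prime_two).mp h with h | h
    · exact hodd h
    · have h3 := (Nat.prime_dvd_prime_iff_eq Nat.prime_two P.pp).1 h
      have h4 := P.hp5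
      omega
  have hfix := (Fermat.Agent.T8.helper7.p2Core_all M P.p 2 Nat.prime_two h2 A hA).1 σ hσ
    ((e ⟨T, hTmem⟩ : V) : JZero M) ⟨1, by rw [pow_one]; exact hV.tors _ (e ⟨T, hTmem⟩).2⟩
  have h3 : e (σ • (⟨T, hTmem⟩ : FreyTors P)) = e ⟨T, hTmem⟩ :=
    Subtype.ext ((he σ ⟨T, hTmem⟩).trans hfix)
  have h4 : σ • (⟨T, hTmem⟩ : FreyTors P) = ⟨T, hTmem⟩ := e.injective h3
  exact hne (congrArg Subtype.val h4)

/-- a realisation of `E[p]` inside `J₀(M)` forces `2 ∣ M` -/
theorem two_dvd_of_freyReal85 (P : FreyPackage) (W : WeierstrassCurve ℤ) (M : ℕ) [NeZero M]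
    (V : AddSubgroup (JZero M)) (hV : FreyReal P W M V) : 2 ∣ M := by
  by_contra h
  exact not_freyReal_of_odd85 P W M V hV h

/-- a realisation of `E[p]` inside `J₀(M' p)` forces `2 ∣ M'` -/
theorem two_dvd_level_of_freyReal85 (P : FreyPackage) (W : WeierstrassCurve ℤ) (M' : ℕ)
    [NeZero M'] (V0 : AddSubgroup (JZero (M' * P.p))) (hV : FreyReal P W (M' * P.p) V0) :
    2 ∣ M' := by
  have h := two_dvd_of_freyReal85 P W (M' * P.p) V0 hV
  rcases (Nat.Prime.dvd_mul Nat.prime_two).mp h with h | h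
  · exact h
  · have h3 := (Nat.prime_dvd_prime_iff_eq Nat.prime_two P.pp).1 h
    have h4 := P.hp5
    omega

/-- with [REAL] (version 2), the level `M'` of a chain context is even -/
theorem two_dvd_of_real2_85 (hReal : RealStatement2) (P : FreyPackage) (W : WeierstrassCurve ℤ)
    (M' : ℕ) [NeZero M'] (hc : ChainCtx P M' W) : 2 ∣ M' := by
  obtain ⟨V0, hV0⟩ := hReal P W M' hc
  exact two_dvd_level_of_freyReal85 P W M' V0 hV0

/-- **S44 is vacuous at odd levels**: with [REAL], the hypotheses of S44 at an odd level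
`N = M' p` are contradictory. -/
theorem oddVacuous85 (hReal : RealStatement) (P : FreyPackage) (M' : ℕ) [NeZero M']
    (hcond : P.IsConductorLevel (M' * P.p))
    (hirr : GaloisRepIsIrreducible (K := AlgebraicClosure ℚ) ℚ P.freyCurve P.p)
    (hmod : P.ModularRepOfLevel (M' * P.p)) (hodd : ¬ 2 ∣ M' * P.p) : False := by
  obtain ⟨W, V0, -, hV0⟩ := hReal P M' hcond hirr hmod
  exact not_freyReal_of_odd85 P W (M' * P.p) V0 hV0 hodd

end Fermat.Agent.T8.helper85
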