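import Mathlib

/-!
# T8 / S44, box [REAL-SURJ] (helper85): surjectivity of `k[G] → End E`, determinant and trace

Abstract, Mathlib only.  `k` a field with `2 ≠ 0`, `E` a `k`-vector space of dimension `2`,
`ρ : G →* End_k E` irreducible, `d : G → k` multiplicative, `c ∈ G` with `c * c = 1` and
`d c = -1`, and for every `g` SOME `t` with `ρ(g)² - t ρ(g) + d(g) = 0` (`HasQuad`).  Then

* `not_scalar_c`     : `ρ c` is not a scalar;
* `exists_eigen`     : `ρ c` has eigenvectors for `1` and for `-1`;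
* `span_range_eq_top`: the `k`-span of `ρ(G)` is `End_k E`;
* `det_eq`           : `d g = det (ρ g)` for all `g`;
* `trace_eq`         : any `t` with `ρ(g)² - t ρ(g) + d(g) = 0` is `tr (ρ g)`.

No Weil pairing is used: the determinant is recovered from the quadratic relations.
-/

set_option autoImplicit false
set_option linter.unusedSectionVars false
set_option linter.unusedVariables false
set_option linter.style.longLine false
set_option linter.style.haveILetI false

noncomputable section

namespace Fermat.Agent.T8.helper85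

open Module

variable {k : Type*} [Field k] {E : Type*} [AddCommGroup E] [Module k E]
  {G : Type*} [Group G]

/-- irreducibility of `ρ` -/
def IsIrr (ρ : G →* Module.End k E) : Prop :=
  ∀ N : Submodule k E, (∀ g : G, ∀ x ∈ N, ρ g x ∈ N) → N = ⊥ ∨ N = ⊤

/-- the quadratic relations: for every `g` there is `t` with `ρ(g)² - t ρ(g) + d(g) = 0` -/
def HasQuad (ρ : G →* Module.End k E) (d : G → k) : Prop :=
  ∀ g : G, ∃ t : k, ∀ x : E, ρ g (ρ g x) - t • ρ g x + d g • x = 0

/-- `g` acts as a scalar -/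
def IsScalar (ρ : G →* Module.End k E) (g : G) : Prop :=
  ∃ s : k, ∀ x : E, ρ g x = s • x

section Basic

variable (ρ : G →* Module.End k E)

theorem rho_mul_apply (g h : G) (x : E) : ρ (g * h) x = ρ g (ρ h x) := by
  rw [map_mul]; rfl

theorem rho_one_apply (x : E) : ρ 1 x = x := by
  rw [map_one]; rfl

/-- in dimension `2`, an irreducible `ρ` has a non-scalar element -/
theorem exists_not_isScalar (h2 : finrank k E = 2) (hirr : IsIrr ρ) :
    ∃ g : G, ¬ IsScalar ρ g := by
  by_contra hcon
  push Not at hcon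
  haveI : FiniteDimensional k E := FiniteDimensional.of_finrank_pos (by omega)
  haveI : Nontrivial E := Module.nontrivial_of_finrank_pos (R := k) (by omega)
  obtain ⟨v, hv⟩ := exists_ne (0 : E)
  have hst : ∀ g : G, ∀ x ∈ Submodule.span k {v}, ρ g x ∈ Submodule.span k {v} := by
    intro g x hx
    obtain ⟨s, hs⟩ := hcon g
    rw [hs]
    exact Submodule.smul_mem _ _ hx
  rcases hirr _ hst with h | h
  · exact hv ((Submodule.span_singleton_eq_bot).1 h)
  · have h1 : finrank k (Submodule.span k {v}) = 1 := finrank_span_singleton hv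
    rw [h, finrank_top, h2] at h1
    omega

end Basic

section Conj

variable (ρ : G →* Module.End k E) (d : G → k) (c : G)

/-- `d` does not vanish -/
theorem d_ne_zero (hd : ∀ g h, d (g * h) = d g * d h) (hcc : c * c = 1) (hdc : d c = -1)
    (g : G) : d g ≠ 0 := by
  have h1 : d 1 = 1 := by
    rw [← hcc, hd, hdc]; ring
  intro h
  have h2 := hd g g⁻¹
  rw [mul_inv_cancel, h1, h, zero_mul] at h2
  exact one_ne_zero h2

/-- **(a)** the involution `c` with `d c = -1` is not a scalar -/
theorem not_scalar_c (h2 : finrank k E = 2) (htwo : (2 : k) ≠ 0) (hirr : IsIrr ρ)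
    (hd : ∀ g h, d (g * h) = d g * d h) (hcc : c * c = 1) (hdc : d c = -1)
    (hq : HasQuad ρ d) : ¬ IsScalar ρ c := by
  rintro ⟨ε, hε⟩
  haveI : Nontrivial E := Module.nontrivial_of_finrank_pos (R := k) (by omega)
  obtain ⟨v, hv⟩ := exists_ne (0 : E)
  have hεε : ε * ε = 1 := by
    have h1 : ρ (c * c) v = v := by rw [hcc, rho_one_apply]
    rw [rho_mul_apply, hε, hε, smul_smul] at h1
    have h3 : (ε * ε - 1) • v = 0 := by rw [sub_smul, h1, one_smul, sub_self]
    rcases smul_eq_zero.1 h3 with h4 | h4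
    · exact sub_eq_zero.1 h4
    · exact (hv h4).elim
  obtain ⟨g, hg⟩ := exists_not_isScalar ρ h2 hirr
  apply hg
  obtain ⟨t, ht⟩ := hq g
  obtain ⟨t', ht'⟩ := hq (g * c)
  have hdg := d_ne_zero d c hd hcc hdc g
  have key : ∀ x : E, (t' * ε - t) • ρ g x + (2 * d g) • x = 0 := by
    intro x
    have e1 := ht x
    have e2 := ht' x
    have hgc : ∀ y : E, ρ (g * c) y = ε • ρ g y := by
      intro y
      rw [rho_mul_apply, hε, map_smul]
    rw [hgc, hgc, map_smul, smul_smul, hεε, one_smul, hd, hdc, smul_smul] at e2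
    have e3 : (t' * ε - t) • ρ g x + (2 * d g) • x =
        (ρ g (ρ g x) - t • ρ g x + d g • x) -
          (ρ g (ρ g x) - (t' * ε) • ρ g x + (d g * -1) • x) := by
      simp only [sub_smul, mul_smul, two_smul, mul_neg, mul_one, neg_smul]
      abel
    rw [e3, e1, e2, sub_zero]
  have hu : t' * ε - t ≠ 0 := by
    intro h
    have h1 := key v
    rw [h, zero_smul, zero_add] at h1
    rcases smul_eq_zero.1 h1 with h4 | h4
    · exact (mul_ne_zero htwo hdg) h4
    · exact hv h4
  refine ⟨-(2 * d g) / (t' * ε - t), fun x => ?_⟩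
  have h1 := key x
  have h2' : (t' * ε - t) • ρ g x = (-(2 * d g)) • x := by
    rw [neg_smul]
    exact eq_neg_of_add_eq_zero_left h1
  calc ρ g x = (t' * ε - t)⁻¹ • ((t' * ε - t) • ρ g x) := by
        rw [smul_smul, inv_mul_cancel₀ hu, one_smul]
    _ = (-(2 * d g) / (t' * ε - t)) • x := by
        rw [h2', smul_smul]
        congr 1
        field_simp

/-- **(a')** eigenvectors of `c` for the eigenvalues `1` and `-1` -/
theorem exists_eigen (h2 : finrank k E = 2) (htwo : (2 : k) ≠ 0) (hirr : IsIrr ρ)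
    (hd : ∀ g h, d (g * h) = d g * d h) (hcc : c * c = 1) (hdc : d c = -1)
    (hq : HasQuad ρ d) :
    ∃ v w : E, v ≠ 0 ∧ w ≠ 0 ∧ ρ c v = v ∧ ρ c w = -w := by
  have hns := not_scalar_c ρ d c h2 htwo hirr hd hcc hdc hq
  have hcc' : ∀ x : E, ρ c (ρ c x) = x := by
    intro x
    rw [← rho_mul_apply, hcc, rho_one_apply]
  have h1 : ∃ x : E, x + ρ c x ≠ 0 := by
    by_contra h
    push Not at h
    exact hns ⟨-1, fun x => by rw [neg_one_smul]; exact (eq_neg_of_add_eq_zero_right (h x))⟩
  have h3 : ∃ x : E, x - ρ c x ≠ 0 := by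
    by_contra h
    push Not at h
    exact hns ⟨1, fun x => by rw [one_smul]; exact (sub_eq_zero.1 (h x)).symm⟩
  obtain ⟨x, hx⟩ := h1
  obtain ⟨y, hy⟩ := h3
  refine ⟨x + ρ c x, y - ρ c y, hx, hy, ?_, ?_⟩
  · rw [map_add, hcc', add_comm]
  · rw [map_sub, hcc', neg_sub]

end Conj

section Span

variable (ρ : G →* Module.End k E) (d : G → k) (c : G)

/-- coordinates in a basis indexed by `Fin 2` -/
theorem repr_fin_two (b : Basis (Fin 2) k E) (x : E) :
    x = b.repr x 0 • b 0 + b.repr x 1 • b 1 := by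
  conv_lhs => rw [← b.sum_repr x]
  rw [Fin.sum_univ_two]

/-- the eigenvectors of `c` form a basis -/
theorem exists_eigenbasis (h2 : finrank k E = 2) (htwo : (2 : k) ≠ 0) (hirr : IsIrr ρ)
    (hd : ∀ g h, d (g * h) = d g * d h) (hcc : c * c = 1) (hdc : d c = -1)
    (hq : HasQuad ρ d) :
    ∃ b : Basis (Fin 2) k E, ρ c (b 0) = b 0 ∧ ρ c (b 1) = -b 1 := by
  obtain ⟨v, w, hv, hw, hcv, hcw⟩ := exists_eigen ρ d c h2 htwo hirr hd hcc hdc hq
  have hli : LinearIndependent k ![v, w] := by
    rw [LinearIndependent.pair_iff]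
    intro s t hst
    have h1 : ρ c (s • v + t • w) = 0 := by rw [hst, map_zero]
    rw [map_add, map_smul, map_smul, hcv, hcw, smul_neg] at h1
    have h3 : (2 * s) • v = 0 := by
      have : (2 * s) • v = (s • v + t • w) + (s • v + -(t • w)) := by
        rw [mul_smul, two_smul]; abel
      rw [this, hst, h1, add_zero]
    have h4 : (2 * t) • w = 0 := by
      have : (2 * t) • w = (s • v + t • w) - (s • v + -(t • w)) := by
        rw [mul_smul, two_smul]; abel
      rw [this, hst, h1, sub_zero]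
    constructor
    · rcases smul_eq_zero.1 h3 with h | h
      · rcases mul_eq_zero.1 h with h' | h'
        · exact (htwo h').elim
        · exact h'
      · exact (hv h).elim
    · rcases smul_eq_zero.1 h4 with h | h
      · rcases mul_eq_zero.1 h with h' | h'
        · exact (htwo h').elim
        · exact h'
      · exact (hw h).elim
  have hcard : Fintype.card (Fin 2) = finrank k E := by rw [h2, Fintype.card_fin]
  refine ⟨basisOfLinearIndependentOfCardEqFinrank hli hcard, ?_, ?_⟩
  · rw [coe_basisOfLinearIndependentOfCardEqFinrank]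
    exact hcv
  · rw [coe_basisOfLinearIndependentOfCardEqFinrank]
    exact hcw

/-- a line is not stable under an irreducible `ρ` in dimension `2` -/
theorem exists_not_mem_span (h2 : finrank k E = 2) (hirr : IsIrr ρ) {v : E} (hv : v ≠ 0) :
    ∃ g : G, ρ g v ∉ Submodule.span k {v} := by
  by_contra hcon
  push Not at hcon
  have hst : ∀ g : G, ∀ x ∈ Submodule.span k {v}, ρ g x ∈ Submodule.span k {v} := by
    intro g x hx
    obtain ⟨s, rfl⟩ := Submodule.mem_span_singleton.1 hx
    rw [map_smul]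
    exact Submodule.smul_mem _ _ (hcon g)
  rcases hirr _ hst with h | h
  · exact hv ((Submodule.span_singleton_eq_bot).1 h)
  · have h1 : finrank k (Submodule.span k {v}) = 1 := finrank_span_singleton hv
    rw [h, finrank_top, h2] at h1
    omega

/-- **(b)** the subalgebra generated by `ρ(G)` is everything -/
theorem adjoin_range_eq_top (h2 : finrank k E = 2) (htwo : (2 : k) ≠ 0) (hirr : IsIrr ρ)
    (hd : ∀ g h, d (g * h) = d g * d h) (hcc : c * c = 1) (hdc : d c = -1)
    (hq : HasQuad ρ d) :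
    Algebra.adjoin k (Set.range ρ) = ⊤ := by
  obtain ⟨b, hb0, hb1⟩ := exists_eigenbasis ρ d c h2 htwo hirr hd hcc hdc hq
  set 𝒜 := Algebra.adjoin k (Set.range ρ) with h𝒜
  have hmem : ∀ g : G, ρ g ∈ 𝒜 := fun g => Algebra.subset_adjoin ⟨g, rfl⟩
  -- the idempotents
  set ep : Module.End k E := (2 : k)⁻¹ • (1 + ρ c) with hep
  set em : Module.End k E := (2 : k)⁻¹ • (1 - ρ c) with hem
  have hepA : ep ∈ 𝒜 := 𝒜.smul_mem (𝒜.add_mem 𝒜.one_mem (hmem c)) _
  have hemA : em ∈ 𝒜 := 𝒜.smul_mem (𝒜.sub_mem 𝒜.one_mem (hmem c)) _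
  have hep0 : ep (b 0) = b 0 := by
    rw [hep, LinearMap.smul_apply, LinearMap.add_apply, Module.End.one_apply, hb0, ← two_smul k (b 0),
      smul_smul, inv_mul_cancel₀ htwo, one_smul]
  have hep1 : ep (b 1) = 0 := by
    rw [hep, LinearMap.smul_apply, LinearMap.add_apply, Module.End.one_apply, hb1, add_neg_cancel,
      smul_zero]
  have hem0 : em (b 0) = 0 := by
    rw [hem, LinearMap.smul_apply, LinearMap.sub_apply, Module.End.one_apply, hb0, sub_self,
      smul_zero]
  have hem1 : em (b 1) = b 1 := by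
    rw [hem, LinearMap.smul_apply, LinearMap.sub_apply, Module.End.one_apply, hb1, sub_neg_eq_add,
      ← two_smul k (b 1), smul_smul, inv_mul_cancel₀ htwo, one_smul]
  have hb0ne : b 0 ≠ 0 := b.ne_zero 0
  have hb1ne : b 1 ≠ 0 := b.ne_zero 1
  -- the off-diagonal elements
  obtain ⟨g, hg⟩ := exists_not_mem_span ρ h2 hirr hb0ne
  obtain ⟨g', hg'⟩ := exists_not_mem_span ρ h2 hirr hb1ne
  set γ : k := b.repr (ρ g (b 0)) 1 with hγ
  set β : k := b.repr (ρ g' (b 1)) 0 with hβ
  have hγ0 : γ ≠ 0 := by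
    intro h
    apply hg
    have h1 := repr_fin_two b (ρ g (b 0))
    rw [← hγ, h, zero_smul, add_zero] at h1
    rw [h1]
    exact Submodule.smul_mem _ _ (Submodule.mem_span_singleton_self _)
  have hβ0 : β ≠ 0 := by
    intro h
    apply hg'
    have h1 := repr_fin_two b (ρ g' (b 1))
    rw [← hβ, h, zero_smul, zero_add] at h1
    rw [h1]
    exact Submodule.smul_mem _ _ (Submodule.mem_span_singleton_self _)
  set n : Module.End k E := em * ρ g * ep with hn
  set m : Module.End k E := ep * ρ g' * em with hm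
  have hnA : n ∈ 𝒜 := 𝒜.mul_mem (𝒜.mul_mem hemA (hmem g)) hepA
  have hmA : m ∈ 𝒜 := 𝒜.mul_mem (𝒜.mul_mem hepA (hmem g')) hemA
  have hn0 : n (b 0) = γ • b 1 := by
    rw [hn, Module.End.mul_apply, Module.End.mul_apply, hep0]
    conv_lhs => rw [repr_fin_two b (ρ g (b 0))]
    rw [map_add, map_smul, map_smul, hem0, hem1, smul_zero, zero_add]
  have hn1 : n (b 1) = 0 := by
    rw [hn, Module.End.mul_apply, Module.End.mul_apply, hep1, map_zero, map_zero]
  have hm1 : m (b 1) = β • b 0 := by
    rw [hm, Module.End.mul_apply, Module.End.mul_apply, hem1]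
    conv_lhs => rw [repr_fin_two b (ρ g' (b 1))]
    rw [map_add, map_smul, map_smul, hep0, hep1, smul_zero, add_zero]
  have hm0 : m (b 0) = 0 := by
    rw [hm, Module.End.mul_apply, Module.End.mul_apply, hem0, map_zero, map_zero]
  -- every endomorphism is a combination
  rw [eq_top_iff]
  intro f _
  have hf : f = b.repr (f (b 0)) 0 • ep + (b.repr (f (b 0)) 1 * γ⁻¹) • n +
      (b.repr (f (b 1)) 0 * β⁻¹) • m + b.repr (f (b 1)) 1 • em := by
    apply b.ext
    intro i
    fin_cases i
    · simp only [Fin.zero_eta, LinearMap.add_apply, LinearMap.smul_apply, hep0, hn0, hm0, hem0,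
        smul_zero, add_zero, smul_smul, inv_mul_cancel_right₀ hγ0]
      exact repr_fin_two b (f (b 0))
    · simp only [Fin.mk_one, LinearMap.add_apply, LinearMap.smul_apply, hep1, hn1, hm1, hem1,
        smul_zero, add_zero, zero_add, smul_smul, inv_mul_cancel_right₀ hβ0]
      exact repr_fin_two b (f (b 1))
  rw [hf]
  exact 𝒜.add_mem (𝒜.add_mem (𝒜.add_mem (𝒜.smul_mem hepA _) (𝒜.smul_mem hnA _))
    (𝒜.smul_mem hmA _)) (𝒜.smul_mem hemA _)

/-- **(b)**, span form: the `k`-span of `ρ(G)` is `End_k E` -/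
theorem span_range_eq_top (h2 : finrank k E = 2) (htwo : (2 : k) ≠ 0) (hirr : IsIrr ρ)
    (hd : ∀ g h, d (g * h) = d g * d h) (hcc : c * c = 1) (hdc : d c = -1)
    (hq : HasQuad ρ d) :
    Submodule.span k (Set.range ρ) = ⊤ := by
  have h1 := adjoin_range_eq_top ρ d c h2 htwo hirr hd hcc hdc hq
  have h3 : Submonoid.closure (Set.range ρ) = MonoidHom.mrange ρ := by
    rw [← MonoidHom.coe_mrange, Submonoid.closure_eq]
  have h4 := Algebra.adjoin_eq_span (R := k) (Set.range ρ)
  rw [h1, h3, MonoidHom.coe_mrange] at h4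
  rw [← h4]
  rfl

end Span

section DetTrace

variable (ρ : G →* Module.End k E) (d : G → k) (c : G)

/-- Cayley-Hamilton for `2 × 2` matrices -/
theorem matrix_ch (M : Matrix (Fin 2) (Fin 2) k) :
    M * M - M.trace • M + M.det • (1 : Matrix (Fin 2) (Fin 2) k) = 0 := by
  ext i j
  fin_cases i <;> fin_cases j <;>
    simp [Matrix.mul_apply, Fin.sum_univ_two, Matrix.trace_fin_two, Matrix.det_fin_two] <;> ring

/-- a non-scalar `2 × 2` matrix satisfies only one monic quadratic equation -/
theorem matrix_quad (M : Matrix (Fin 2) (Fin 2) k) (t δ : k)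
    (h : M * M - t • M + δ • (1 : Matrix (Fin 2) (Fin 2) k) = 0)
    (hns : ¬ ∃ s : k, M = s • (1 : Matrix (Fin 2) (Fin 2) k)) :
    t = M.trace ∧ δ = M.det := by
  have hch := matrix_ch M
  have e : (M.trace - t) • M = (M.det - δ) • (1 : Matrix (Fin 2) (Fin 2) k) := by
    have h1 : (M.trace - t) • M - (M.det - δ) • (1 : Matrix (Fin 2) (Fin 2) k) =
        (M * M - t • M + δ • (1 : Matrix (Fin 2) (Fin 2) k)) -
          (M * M - M.trace • M + M.det • (1 : Matrix (Fin 2) (Fin 2) k)) := by
      simp only [sub_smul]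
      abel
    rw [h, hch, sub_zero] at h1
    exact sub_eq_zero.1 h1
  have ht : M.trace = t := by
    by_contra hne
    apply hns
    have hu : M.trace - t ≠ 0 := sub_ne_zero.2 hne
    refine ⟨(M.trace - t)⁻¹ * (M.det - δ), ?_⟩
    calc M = (M.trace - t)⁻¹ • ((M.trace - t) • M) := by
          rw [smul_smul, inv_mul_cancel₀ hu, one_smul]
      _ = ((M.trace - t)⁻¹ * (M.det - δ)) • (1 : Matrix (Fin 2) (Fin 2) k) := by
          rw [e, smul_smul]
  refine ⟨ht.symm, ?_⟩
  rw [ht, sub_self, zero_smul] at e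
  have h1 := congrFun (congrFun e 0) 0
  simp only [Matrix.zero_apply, Matrix.smul_apply, Matrix.one_apply_eq, smul_eq_mul,
    mul_one] at h1
  exact (sub_eq_zero.1 h1.symm).symm

/-- a non-scalar endomorphism in dimension `2` satisfies only one monic quadratic equation -/
theorem end_quad (h2 : finrank k E = 2) (f : Module.End k E) (t δ : k)
    (h : ∀ x : E, f (f x) - t • f x + δ • x = 0)
    (hns : ¬ ∃ s : k, ∀ x : E, f x = s • x) :
    t = LinearMap.trace k E f ∧ δ = LinearMap.det f := by
  haveI : FiniteDimensional k E := FiniteDimensional.of_finrank_pos (by omega)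
  let b : Basis (Fin 2) k E := Module.finBasisOfFinrankEq k E h2
  have hrel : f * f - t • f + δ • (1 : Module.End k E) = 0 := by
    apply LinearMap.ext
    intro x
    simpa using h x
  have hM := congrArg (LinearMap.toMatrix b b) hrel
  rw [map_add, map_sub, map_smul, map_smul, LinearMap.toMatrix_mul, LinearMap.toMatrix_one,
    map_zero] at hM
  have hnsM : ¬ ∃ s : k, LinearMap.toMatrix b b f = s • (1 : Matrix (Fin 2) (Fin 2) k) := by
    rintro ⟨s, hs⟩
    apply hns
    refine ⟨s, fun x => ?_⟩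
    have h1 : LinearMap.toMatrix b b f = LinearMap.toMatrix b b (s • (1 : Module.End k E)) := by
      rw [map_smul, LinearMap.toMatrix_one, hs]
    have h3 := (LinearMap.toMatrix b b).injective h1
    rw [h3]
    rfl
  obtain ⟨h3, h4⟩ := matrix_quad _ t δ hM hnsM
  refine ⟨?_, ?_⟩
  · rw [h3, LinearMap.trace_eq_matrix_trace k b f]
  · rw [h4, LinearMap.det_toMatrix b f]

/-- a scalar element is a non-zero scalar -/
theorem scalar_ne_zero [Nontrivial E] (g : G) (s : k) (hs : ∀ x : E, ρ g x = s • x) : s ≠ 0 := by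
  rintro rfl
  obtain ⟨v, hv⟩ := exists_ne (0 : E)
  have h1 : ρ (g⁻¹ * g) v = v := by rw [inv_mul_cancel, rho_one_apply]
  rw [rho_mul_apply, hs, zero_smul, map_zero] at h1
  exact hv h1.symm

/-- **(c)** `d` is the determinant -/
theorem det_eq (h2 : finrank k E = 2) (htwo : (2 : k) ≠ 0) (hirr : IsIrr ρ)
    (hd : ∀ g h, d (g * h) = d g * d h) (hcc : c * c = 1) (hdc : d c = -1)
    (hq : HasQuad ρ d) (g : G) : d g = LinearMap.det (ρ g) := by
  haveI : Nontrivial E := Module.nontrivial_of_finrank_pos (R := k) (by omega)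
  have hns : ∀ g : G, ¬ IsScalar ρ g → d g = LinearMap.det (ρ g) := by
    intro g hg
    obtain ⟨t, ht⟩ := hq g
    exact (end_quad h2 (ρ g) t (d g) ht hg).2
  by_cases hg : IsScalar ρ g
  · obtain ⟨s, hs⟩ := hg
    have hs0 := scalar_ne_zero ρ g s hs
    have hc := not_scalar_c ρ d c h2 htwo hirr hd hcc hdc hq
    have hgc : ¬ IsScalar ρ (g * c) := by
      rintro ⟨s', hs'⟩
      apply hc
      refine ⟨s⁻¹ * s', fun x => ?_⟩
      have h1 := hs' x
      rw [rho_mul_apply, hs] at h1
      rw [mul_smul, ← h1, smul_smul, inv_mul_cancel₀ hs0, one_smul]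
    have h1 := hns (g * c) hgc
    have h3 := hns c hc
    rw [map_mul, map_mul, hd, ← h3, hdc] at h1
    have h4 : d g * -1 = LinearMap.det (ρ g) * -1 := h1
    have := mul_right_cancel₀ (neg_ne_zero.2 one_ne_zero) h4
    exact this
  · exact hns g hg

/-- **(c)** every `t` of a quadratic relation is the trace -/
theorem trace_eq (h2 : finrank k E = 2) (htwo : (2 : k) ≠ 0) (hirr : IsIrr ρ)
    (hd : ∀ g h, d (g * h) = d g * d h) (hcc : c * c = 1) (hdc : d c = -1)
    (hq : HasQuad ρ d) (g : G) (t : k)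
    (ht : ∀ x : E, ρ g (ρ g x) - t • ρ g x + d g • x = 0) :
    t = LinearMap.trace k E (ρ g) := by
  haveI : Nontrivial E := Module.nontrivial_of_finrank_pos (R := k) (by omega)
  haveI : FiniteDimensional k E := FiniteDimensional.of_finrank_pos (by omega)
  by_cases hg : IsScalar ρ g
  · obtain ⟨s, hs⟩ := hg
    have hs0 := scalar_ne_zero ρ g s hs
    have hdet := det_eq ρ d c h2 htwo hirr hd hcc hdc hq g
    have hρ : ρ g = s • (1 : Module.End k E) := by
      apply LinearMap.ext
      intro x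
      rw [hs]
      rfl
    have hdet2 : LinearMap.det (ρ g) = s ^ 2 := by
      rw [hρ, LinearMap.det_smul, h2, map_one, mul_one]
    have htr : LinearMap.trace k E (ρ g) = s * 2 := by
      rw [hρ, map_smul, LinearMap.trace_one, h2, smul_eq_mul]
      norm_num
    obtain ⟨v, hv⟩ := exists_ne (0 : E)
    have h1 := ht v
    rw [hs, hs, hdet, hdet2, smul_smul, smul_smul, ← sub_smul, ← add_smul] at h1
    rcases smul_eq_zero.1 h1 with h3 | h3
    · rw [htr]
      have h4 : s * (s * 2 - t) = 0 := by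
        have : s * (s * 2 - t) = s * s - t * s + s ^ 2 := by ring
        rw [this, h3]
      rcases mul_eq_zero.1 h4 with h5 | h5
      · exact (hs0 h5).elim
      · exact (sub_eq_zero.1 h5).symm
    · exact (hv h3).elim
  · exact (end_quad h2 (ρ g) t (d g) ht hg).1

/-- **(c)**, Cayley-Hamilton form: the relation with trace and determinant on any module `V`
which satisfies the same quadratic relations as `E` -/
theorem quad_trace_det {V : Type*} [AddCommGroup V] [Module k V] (π : G →* Module.End k V)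
    (h2 : finrank k E = 2) (htwo : (2 : k) ≠ 0) (hirr : IsIrr ρ)
    (hd : ∀ g h, d (g * h) = d g * d h) (hcc : c * c = 1) (hdc : d c = -1)
    (hq : ∀ g : G, ∃ t : k, (∀ x : E, ρ g (ρ g x) - t • ρ g x + d g • x = 0) ∧
      ∀ y : V, π g (π g y) - t • π g y + d g • y = 0) (g : G) (y : V) :
    π g (π g y) - LinearMap.trace k E (ρ g) • π g y + LinearMap.det (ρ g) • y = 0 := by
  have hq' : HasQuad ρ d := fun g => by
    obtain ⟨t, ht, -⟩ := hq g
    exact ⟨t, ht⟩
  obtain ⟨t, ht, hV⟩ := hq g
  rw [← det_eq ρ d c h2 htwo hirr hd hcc hdc hq' g,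
    ← trace_eq ρ d c h2 htwo hirr hd hcc hdc hq' g t ht]
  exact hV y

end DetTrace

end Fermat.Agent.T8.helper85

end
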