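import Fermat.Agent.T8.helper86_CoverAlg
import Fermat.Agent.T7.helper72_S33Wire

/-!
# T8 [COVER-FIELD] instance (helper86, second): the cover datum of a nonzero new class of `T0`

Kummer-dictionary side of the cyclic cover.

Abstract part (any function field `F / K`): a Kummer function `u` (`n • D = div u`,
`P2.helper93.IsRootDiv n D u`) of a NONZERO class `[D] ∈ Pic⁰` is not an `n`-th power; hence for
a prime `p` every `p`-th root `Z` of `u` in an ambient field `Ω ⊇ F` is a Kummer root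
(`helper86.IsKummerRoot p u Z`), and `F⟮Z⟯` is the cyclic cover of degree `p` (algebra layer
`helper86_CoverAlg`, place layer `helper9_CoverField`).

Instance at the bad pair `(N p, atkinLehner N p, A)`, `4 ∣ N`, `p ∤ N` odd, `A` over `p`
(`exists_coverDatum`): a nonzero `p`-new class `y` of the kernel of reduction `T0` at exponent
`p` (in the T8 chain: `y = l₀ = τ • x - x`) has a Kummer function `K`, `p • D = div K`, `[D] = y`,
which is STRONGLY SPLIT (T7 [T0-REP] + [B3]): `K = Z₁ ^ p`, `W K = Z₂ ^ p` with integral series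
`Z₁, Z₂` of reduction `1`, and both `Z₁` (over `K`) and `Z₂` (over `W K`) are Kummer roots over
`FF (N p)`.  So `F' := (FF (N p))⟮Z₁⟯` is the cover of the blueprint and
`coverLift _ (W-expansion) (ζ ^ j • Z₂)` are its expansions on the sheets `(2, j)`.
-/

set_option autoImplicit false
set_option linter.unusedSectionVars false
set_option linter.style.longLine false

noncomputable section

namespace Fermat.Agent.T8.helper86

open IntermediateField AlgebraicCurve Fermat.Agent.P2.helper93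

section Abstract

variable {K F : Type*} [Field K] [Field F] [Algebra K F]

/-- if the Kummer function `u` of `D` (`n • D = div u`) is an `n`-th power, then `[D] = 0`. -/
theorem mk_eq_zero_of_pow {n : ℕ} (hn : 0 < n) {D : Divisor.degZero (K := K) (F := F)} {u : F}
    (H : IsRootDiv n (D : Divisor K F) u) {g : F} (hg : g ^ n = u) : Pic0.mk D = 0 := by
  have hg0 : g ≠ 0 := by
    rintro rfl
    rw [zero_pow hn.ne'] at hg
    exact H.1 hg.symm
  refine kum_mk_eq_zero_of_ord hg0 fun P => ?_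
  have h1 := H.2 P
  rw [← hg] at h1
  have h2 : P.ord (g ^ n) = (n : ℤ) * P.ord g := by
    have := P.ord_zpow g (n : ℤ)
    rwa [zpow_natCast] at this
  rw [h2] at h1
  exact mul_left_cancel₀ (by exact_mod_cast hn.ne') h1

/-- the Kummer function of a nonzero class is not an `n`-th power. -/
theorem not_pow_of_mk_ne_zero {n : ℕ} (hn : 0 < n) {D : Divisor.degZero (K := K) (F := F)}
    {u : F} (H : IsRootDiv n (D : Divisor K F) u) (hD : Pic0.mk D ≠ 0) :
    ∀ g : F, g ^ n ≠ u :=
  fun _ hg => hD (mk_eq_zero_of_pow hn H hg)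

variable {Ω : Type*} [Field Ω] [Algebra F Ω]

/-- **the Kummer root of a nonzero class**. -/
theorem isKummerRoot_of_mk_ne_zero {p : ℕ} (hp : p.Prime)
    {D : Divisor.degZero (K := K) (F := F)} {u : F} (H : IsRootDiv p (D : Divisor K F) u)
    (hD : Pic0.mk D ≠ 0) {Z : Ω} (hZ : Z ^ p = algebraMap F Ω u) : IsKummerRoot p u Z :=
  ⟨hp, hZ, not_pow_of_mk_ne_zero hp.pos H hD⟩

/-- a Kummer root is transported by an automorphism of `F`: if `Z₂ ^ p = W u` and `u` is not
a `p`-th power, then `Z₂` is a Kummer root over `W u`. -/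
theorem isKummerRoot_map {p : ℕ} (hp : p.Prime) {u : F} (hu : ∀ g : F, g ^ p ≠ u)
    (W : F ≃+* F) {Z : Ω} (hZ : Z ^ p = algebraMap F Ω (W u)) : IsKummerRoot p (W u) Z := by
  refine ⟨hp, hZ, fun b hb => hu (W.symm b) ?_⟩
  rw [← map_pow, hb, RingEquiv.symm_apply_apply]

end Abstract

/-! ### The bad pair -/

section Bad

open Fermat.Agent.S18.helper19 ModularCurve Fermat.Agent.P3.helper94
open Fermat.Agent.T2 Fermat.Agent.T2.helper36 Fermat.Agent.P2.helper29 Fermat.Agent.T7

variable (N p : ℕ) [NeZero N] [NeZero p] (hp : p.Prime) (hpN : ¬ p ∣ N)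
  (A : ValuationSubring Kb)

/-- **the cover datum** of a nonzero `p`-new class of `T0` at exponent `p`: a strongly split
Kummer function `K` of the class, its two formal roots `Z₁`, `Z₂`, and the Kummer-root property
of both. -/
theorem exists_coverDatum (hp2 : p ≠ 2) (h4 : 4 ∣ N) (hA : A.LiesOverPrime p)
    {y : JZero (N * p)} (hy : helper2.IsT0 N p hp hpN A p y)
    (hnew : y ∈ helper43.newPart N p) (hy0 : y ≠ 0) :
    ∃ (D : Divisor.degZero (K := Kb) (F := FF (N * p))) (K : FF (N * p))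
      (Z₁ Z₂ : LaurentSeries A),
      (Pic0.mk D : JZero (N * p)) = y ∧
      IsRootDiv p (D : Divisor Kb (FF (N * p))) K ∧
      helper27.StronglySplit (N * p) (atkinLehner N p hp hpN) A p K ∧
      incl A Z₁ ^ p = (K : LaurentSeries Kb) ∧
      incl A Z₂ ^ p = ((atkinLehner N p hp hpN K : FF (N * p)) : LaurentSeries Kb) ∧
      red A Z₁ = 1 ∧ red A Z₂ = 1 ∧
      IsKummerRoot (F := FF (N * p)) (Ω := LaurentSeries Kb) p K (incl A Z₁) ∧
      IsKummerRoot (F := FF (N * p)) (Ω := LaurentSeries Kb) p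
        (atkinLehner N p hp hpN K) (incl A Z₂) := by
  obtain ⟨D, u, rfl, H, r1, r2⟩ := hy
  obtain ⟨hα, hβ⟩ := (helper43.mem_newPart N p).mp hnew
  have hKR : IsKummerRep p (Pic0.mk D : JZero (N * p)) u := ⟨H.1, D, rfl, H.2⟩
  have hnewu : helper27.IsNewN N p u := helper27.isNewN_of_push hKR hα hβ
  have hdiv : ∀ P : Place Kb (FF (N * p)), (p : ℤ) ∣ P.ord u := fun P => ⟨_, (H.2 P).symm⟩
  obtain ⟨G, hG0, hK⟩ :=
    helper27.t0RepStatement_bad N p hp hpN (Or.inl h4) A hA u H.1 hdiv r1 r2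
  have hnewK : helper27.IsNewN N p (G ^ p * u) := helper27.isNewN_mul_pow u G hG0 hnewu
  have : HasPrincipalDivisors Kb (FF (N * p)) := hasPD (N * p)
  obtain ⟨DG, hDG, hdeg⟩ := HasPrincipalDivisors.exists_divisor (K := Kb) G hG0
  let DG0 : Divisor.degZero (K := Kb) (F := FF (N * p)) := ⟨DG, hdeg⟩
  have hpowG : ∀ P : Place Kb (FF (N * p)), P.ord (G ^ p) = (p : ℤ) * P.ord G := by
    intro P
    have := P.ord_zpow G (p : ℤ)
    rwa [zpow_natCast] at this
  have hK0 : G ^ p * u ≠ 0 := mul_ne_zero (pow_ne_zero _ hG0) H.1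
  have HK : IsRootDiv p ((D + DG0 : Divisor.degZero (K := Kb) (F := FF (N * p))) :
      Divisor Kb (FF (N * p))) (G ^ p * u) := by
    refine ⟨hK0, fun P => ?_⟩
    rw [AddSubgroup.coe_add, Finsupp.add_apply, mul_add, H.2 P,
      P.ord_mul (pow_ne_zero _ hG0) H.1, hpowG P]
    have : ((DG0 : Divisor.degZero (K := Kb) (F := FF (N * p))) : Divisor Kb (FF (N * p))) P
        = P.ord G := hDG P
    rw [this]
    ring
  have hDG0 : (Pic0.mk DG0 : JZero (N * p)) = 0 := kum_mk_eq_zero_of_ord hG0 hDG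
  have hclass : (Pic0.mk (D + DG0) : JZero (N * p)) = Pic0.mk D := by
    rw [Pic0.mk_add, hDG0, add_zero]
  have hdivK : ∀ P : Place Kb (FF (N * p)), (p : ℤ) ∣ P.ord (G ^ p * u) :=
    fun P => ⟨_, (HK.2 P).symm⟩
  have hSS : helper27.StronglySplit (N * p) (atkinLehner N p hp hpN) A p (G ^ p * u) :=
    helper72.s33B3Statement72 p hp hp2 N h4 hpN A hA (G ^ p * u) hK hdivK hnewK
  obtain ⟨Z₁, Z₂, e1, e2, rd1, rd2⟩ := hSS.2.2
  have hne : (Pic0.mk (D + DG0) : JZero (N * p)) ≠ 0 := by rwa [hclass]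
  have hnp : ∀ g : FF (N * p), g ^ p ≠ G ^ p * u := not_pow_of_mk_ne_zero hp.pos HK hne
  refine ⟨D + DG0, G ^ p * u, Z₁, Z₂, hclass, HK, hSS, e1, e2, rd1, rd2, ⟨hp, e1, hnp⟩, ?_⟩
  exact isKummerRoot_map hp hnp (atkinLehner N p hp hpN).toRingEquiv e2

end Bad

end Fermat.Agent.T8.helper86
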