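import Fermat.Agent.T8.helper86_CoverInst
import Fermat.Agent.T8.helper88_CoverGalInst
import Fermat.Agent.T8.helper9_CoverField

/-!
# T8 [COVER-FIELD] instance, bundled (helper86, second)

The cover datum of a nonzero `p`-new class `y` of `T0` (`helper86.exists_coverDatum`) in the
shape of the consumers:

* `exists_covData` : a `helper88.CovData (N * p) W A p` (`C.K`, `C.Z₁`, `C.Z₂`, pair form of the
  inertia action) together with the class identity `[D] = y`, the divisor identity
  `ord_v K = p * D v` (the hypothesis `hD` of `helper9`), `StronglySplit`, the reductions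
  `red Z_i = 1` and the two Kummer-root facts `IsKummerRoot p C.K C.Z` (the hypothesis `hKum` of
  `helper88`, `H` of `helper9`, `root` of `helper83.DescInput`) and
  `IsKummerRoot p (W C.K) C.Z'`;
* `finiteDimensional_cov`, `ord_algebraMap_cov`, `dvd_ord_cov`, `ord_gen_cov` : `helper9`'s
  unramifiedness facts restated for the bundled cover `helper88.Cov M C.Z`:
  `ord_w f = ord_{w ∩ F} f`, `n ∣ div_F u ⟹ n ∣ div_{F'} u`, `ord_w Z = D (w ∩ F)`.
-/

set_option autoImplicit false
set_option linter.unusedSectionVars false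
set_option linter.unusedVariables false
set_option linter.style.longLine false
set_option synthInstance.maxHeartbeats 400000

noncomputable section

namespace Fermat.Agent.T8.helper86

open IntermediateField AlgebraicCurve Fermat.Agent.P2.helper93
open Fermat.Agent.S18.helper19 ModularCurve Fermat.Agent.P3.helper94
open Fermat.Agent.T2 Fermat.Agent.T2.helper36 Fermat.Agent.P2.helper29 Fermat.Agent.T7

variable (N p : ℕ) [NeZero N] [NeZero p] (hp : p.Prime) (hpN : ¬ p ∣ N)
  (A : ValuationSubring Kb)

/-- **the bundled cover datum** of a nonzero `p`-new class of `T0` at exponent `p`. -/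
theorem exists_covData (hp2 : p ≠ 2) (h4 : 4 ∣ N) (hA : A.LiesOverPrime p)
    {y : JZero (N * p)} (hy : helper2.IsT0 N p hp hpN A p y)
    (hnew : y ∈ helper43.newPart N p) (hy0 : y ≠ 0) :
    ∃ (D : Divisor.degZero (K := Kb) (F := FF (N * p)))
      (C : helper88.CovData (N * p) (atkinLehner N p hp hpN) A p),
      (Pic0.mk D : JZero (N * p)) = y ∧
      IsRootDiv p (D : Divisor Kb (FF (N * p))) C.K ∧
      (∀ v : Place Kb (FF (N * p)),
        v.ord C.K = (p : ℤ) * (D : Divisor Kb (FF (N * p))) v) ∧
      helper27.StronglySplit (N * p) (atkinLehner N p hp hpN) A p C.K ∧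
      red A C.Z₁ = 1 ∧ red A C.Z₂ = 1 ∧
      IsKummerRoot (F := FF (N * p)) (Ω := LaurentSeries Kb) p C.K C.Z ∧
      IsKummerRoot (F := FF (N * p)) (Ω := LaurentSeries Kb) p
        (atkinLehner N p hp hpN C.K) C.Z' := by
  obtain ⟨D, K, Z₁, Z₂, hD, HK, hSS, e1, e2, r1, r2, k1, k2⟩ :=
    exists_coverDatum N p hp hpN A hp2 h4 hA hy hnew hy0
  exact ⟨D, helper88.CovData.ofBad N p hp hpN (Or.inl h4) A hA K hSS.1 Z₁ Z₂ e1 e2 r1 r2,
    hD, HK, fun v => (HK.2 v).symm, hSS, r1, r2, k1, k2⟩

/-! ### `helper9`'s place theory on the bundled cover -/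

section Cov

variable {M : ℕ} [NeZero M] {W : FF M ≃ₐ[Kb] FF M} {A : ValuationSubring Kb} {p : ℕ}
  (C : helper88.CovData M W A p)

theorem finiteDimensional_cov (H : IsKummerRoot p C.K C.Z) :
    FiniteDimensional (FF M) (helper88.Cov M C.Z) :=
  helper9.finiteDimensional_cover H

variable [FiniteDimensional (FF M) (helper88.Cov M C.Z)]

/-- the bundled cover is unramified over `X₀(M)` (instance argument: get it by
`haveI := finiteDimensional_cov C H`) -/
theorem ord_algebraMap_cov (H : IsKummerRoot p C.K C.Z) {D : Divisor Kb (FF M)}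
    (hD : ∀ v : Place Kb (FF M), v.ord C.K = p * D v)
    (w : Place Kb (helper88.Cov M C.Z)) (f : FF M) :
    w.ord (algebraMap (FF M) (helper88.Cov M C.Z) f) = (w.restrict (FF M)).ord f :=
  helper9.ord_algebraMap_coverFF M H hD w f

/-- `n ∣ div u` on `X₀(M)` implies `n ∣ div u` on the bundled cover -/
theorem dvd_ord_cov (H : IsKummerRoot p C.K C.Z) {D : Divisor Kb (FF M)}
    (hD : ∀ v : Place Kb (FF M), v.ord C.K = p * D v) {n : ℤ} {u : FF M}
    (hu : ∀ v : Place Kb (FF M), n ∣ v.ord u) (w : Place Kb (helper88.Cov M C.Z)) :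
    n ∣ w.ord (algebraMap (FF M) (helper88.Cov M C.Z) u) :=
  helper9.dvd_ord_coverFF M H hD hu w

/-- the order of the generator on the bundled cover -/
theorem ord_gen_cov (H : IsKummerRoot p C.K C.Z) {D : Divisor Kb (FF M)}
    (hD : ∀ v : Place Kb (FF M), v.ord C.K = p * D v) (w : Place Kb (helper88.Cov M C.Z)) :
    w.ord C.gen = D (w.restrict (FF M)) :=
  helper9.ord_gen_coverFF M H hD w

omit [FiniteDimensional (FF M) (helper88.Cov M C.Z)] in
/-- the Kummer function is a `p`-th power on the cover -/
theorem gen_pow_cov : C.gen ^ p = algebraMap (FF M) (helper88.Cov M C.Z) C.K :=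
  Subtype.ext C.Z_pow

end Cov

end Fermat.Agent.T8.helper86
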