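import Fermat.Agent.T7.helper27_G1Asm
import Fermat.Agent.T7.helper27_NewQ
import Fermat.Agent.T8.helper65_NormIdx

/-!
# T8 (row 38 via S44), box [K-RAT] (helper86): the contract

The regular model of the cyclic cover `F(K^(1/p))` lives over the unramified base, so the cover
instance of [SLOPE-X'] needs the two integral roots `Z₁`, `Z₂` of the strongly split Kummer
function `K` to be coefficientwise FIXED by `I_K1 = muFix p ⊓ I_A` (`hfix1`, `hfix2` of
`helper97`).  This is false for a general strongly split `K`, but every strongly split `K` can be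
multiplied by a `p`-th power `h ^ p` such that it becomes true.

* `RatRoots W A p K`      : EVERY `p`-th root of the expansion of `K`, and of the expansion of
                            `W K`, is coefficientwise fixed by `I_K1`;
* `RatRoots.hfix1/hfix2`  : the two hypotheses of `helper97`, for any pair of roots;
* `KRatStatement`         : **the contract [K-RAT]**: at a bad pair every strongly split `K` has a
                            multiple `h ^ p * K`, `h ≠ 0`, which is strongly split with `RatRoots`;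
* `not_pow_mul_pow`, `galu_mul_pow` : "not a `p`-th power" and the Galois clause of `PeuShape`
                            pass from `K` to `h ^ p * K`.
-/

set_option autoImplicit false
set_option linter.unusedSectionVars false
set_option linter.unusedVariables false
set_option linter.style.longLine false

noncomputable section

namespace Fermat.Agent.T8.helper86

open HahnSeries IntermediateField AlgebraicCurve ModularCurve
open Fermat.Agent.S18.helper19 Fermat.Agent.P2.helper29 Fermat.Agent.P2.helper93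
open Fermat.Agent.T2 Fermat.Agent.T2.helper36
open Fermat.Agent.T8.helper65

section Defs

variable {M : ℕ} [NeZero M]

/-- **rational roots**: every `p`-th root of the expansion of `K` at `∞`, and of the expansion of
`W K`, is coefficientwise fixed by `I_K1 = muFix p ⊓ I_A`. -/
def RatRoots (W : FF M ≃ₐ[Kb] FF M) (A : ValuationSubring Kb) (p : ℕ) (K : FF M) : Prop :=
  (∀ Z : LaurentSeries Kb, Z ^ p = (K : LaurentSeries Kb) →
      ∀ σ ∈ muFix p ⊓ IA A, cwAct σ Z = Z) ∧
    ∀ Z : LaurentSeries Kb, Z ^ p = ((W K : FF M) : LaurentSeries Kb) →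
      ∀ σ ∈ muFix p ⊓ IA A, cwAct σ Z = Z

variable {W : FF M ≃ₐ[Kb] FF M} {A : ValuationSubring Kb} {p : ℕ} {K : FF M}

/-- the hypothesis `hfix1` of `helper97`, for any integral root of `K` -/
theorem RatRoots.hfix1 (h : RatRoots W A p K) {Z₁ : LaurentSeries A}
    (h1 : incl A Z₁ ^ p = (K : LaurentSeries Kb)) :
    ∀ σ ∈ muFix p ⊓ IA A, cwAct σ (incl A Z₁) = incl A Z₁ :=
  h.1 _ h1

/-- the hypothesis `hfix2` of `helper97`, for any integral root of `W K` -/
theorem RatRoots.hfix2 (h : RatRoots W A p K) {Z₂ : LaurentSeries A}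
    (h2 : incl A Z₂ ^ p = ((W K : FF M) : LaurentSeries Kb)) :
    ∀ σ ∈ muFix p ⊓ IA A, cwAct σ (incl A Z₂) = incl A Z₂ :=
  h.2 _ h2

/-- "not a `p`-th power" passes from `K` to `h ^ p * K` -/
theorem not_pow_mul_pow {h : FF M} (hh : h ≠ 0) (hnp : ∀ g : FF M, g ^ p ≠ K) :
    ∀ g : FF M, g ^ p ≠ h ^ p * K := by
  intro g hg
  apply hnp (g * h⁻¹)
  rw [mul_pow, hg, inv_pow, mul_comm (h ^ p) K, mul_assoc, mul_inv_cancel₀ (pow_ne_zero p hh),
    mul_one]

/-- the Galois clause of `PeuShape` passes from `K` to `h ^ p * K` -/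
theorem galu_mul_pow {h : FF M} (hh : h ≠ 0) {u : FF M} {σ : Kb ≃ₐ[ℚ] Kb} {ζ α : Kb}
    (hgal : ∃ (j : ℕ) (c : Kb) (v : FF M), σ α = ζ ^ j * α ∧ c ≠ 0 ∧ v ≠ 0 ∧
      galF M σ u = algebraMap Kb (FF M) c * v ^ p * u * K ^ j) :
    ∃ (j : ℕ) (c : Kb) (v : FF M), σ α = ζ ^ j * α ∧ c ≠ 0 ∧ v ≠ 0 ∧
      galF M σ u = algebraMap Kb (FF M) c * v ^ p * u * (h ^ p * K) ^ j := by
  obtain ⟨j, c, v, h1, hc, hv, e⟩ := hgal
  refine ⟨j, c, v * (h⁻¹) ^ j, h1, hc, mul_ne_zero hv (pow_ne_zero _ (inv_ne_zero hh)), ?_⟩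
  have hhp : (h⁻¹ ^ j) ^ p * (h ^ p) ^ j = 1 := by
    rw [← pow_mul, ← pow_mul, mul_comm p j, ← mul_pow, inv_mul_cancel₀ hh, one_pow]
  rw [e, mul_pow v, mul_pow (h ^ p)]
  calc algebraMap Kb (FF M) c * v ^ p * u * K ^ j
      = algebraMap Kb (FF M) c * v ^ p * u * K ^ j * ((h⁻¹ ^ j) ^ p * (h ^ p) ^ j) := by
        rw [hhp, mul_one]
    _ = algebraMap Kb (FF M) c * (v ^ p * (h⁻¹ ^ j) ^ p) * u * ((h ^ p) ^ j * K ^ j) := by ring

end Defs

/-- **the contract [K-RAT]**: at a bad pair, every strongly split function has a multiple by a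
nonzero `p`-th power which is strongly split with all roots fixed by `I_K1`. -/
def KRatStatement : Prop :=
  ∀ (N p : ℕ) [NeZero N] [NeZero p] (hp : p.Prime) (hpN : ¬ p ∣ N), (4 ∣ N ∨ 9 ∣ N) →
    ∀ A : ValuationSubring Kb, A.LiesOverPrime p → ∀ K : FF (N * p),
      Fermat.Agent.T7.helper27.StronglySplit (N * p) (atkinLehner N p hp hpN) A p K →
      ∃ h : FF (N * p), h ≠ 0 ∧
        Fermat.Agent.T7.helper27.StronglySplit (N * p) (atkinLehner N p hp hpN) A p (h ^ p * K) ∧
        RatRoots (atkinLehner N p hp hpN) A p (h ^ p * K)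

/-- the output of [K-RAT] for a NEW strongly split function which is not a `p`-th power -/
theorem exists_ratRoots_new (hK : KRatStatement) (N p : ℕ) [NeZero N] [NeZero p] (hp : p.Prime)
    (hpN : ¬ p ∣ N) (hN : 4 ∣ N ∨ 9 ∣ N) (A : ValuationSubring Kb) (hA : A.LiesOverPrime p)
    {K : FF (N * p)}
    (hS : Fermat.Agent.T7.helper27.StronglySplit (N * p) (atkinLehner N p hp hpN) A p K)
    (hnew : Fermat.Agent.T7.helper27.IsNewN N p K) :
    ∃ h : FF (N * p), h ≠ 0 ∧
      Fermat.Agent.T7.helper27.StronglySplit (N * p) (atkinLehner N p hp hpN) A p (h ^ p * K) ∧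
      RatRoots (atkinLehner N p hp hpN) A p (h ^ p * K) ∧
      Fermat.Agent.T7.helper27.IsNewN N p (h ^ p * K) ∧
      ((∀ g : FF (N * p), g ^ p ≠ K) → ∀ g : FF (N * p), g ^ p ≠ h ^ p * K) := by
  obtain ⟨h, hh, hS', hR⟩ := hK N p hp hpN hN A hA K hS
  exact ⟨h, hh, hS', hR, Fermat.Agent.T7.helper27.isNewN_mul_pow K h hh hnew,
    fun hnp => not_pow_mul_pow hh hnp⟩

end Fermat.Agent.T8.helper86

end
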