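import Mathlib

/-!
# T8 [COVER-GAL], abstract core (helper87)

Definition-free algebra for the Galois action on the cyclic cover `F' = F(Z)` inside an ambient
field `E` (in the application `E = LaurentSeries Kb`, `F₀` the image of `FF M`, `φ` the
coefficientwise action of an element of the inertia group).

* `ringHom_ext_of_gen`   : ring homomorphisms on a subfield generated by `S` are determined by `S`;
* `map_mem_of_gen`       : **[STABLE]** an endomorphism of `E` mapping the generators into `F'`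
                           maps `F'` into `F'`;
* `restrictHom`, `restrictEquiv` : the induced endomorphism / automorphism of `F'`;
* `deck_comm`            : **[DECK]** the induced map commutes with a deck map `ρ`
                           (`ρ = id` on `F₀`, `ρ Z = ζ Z`) when `φ Z = w Z ^ a`, `φ ζ = ζ ^ a`;
* `sheet_comm`           : **[SHEETS]** equivariance of a second embedding `ι₂ : F' → E`;
* `sheet_comm_pow`       : the same for `ι₂ ∘ ρ ^ j`;
* `normFix`, `smul_normFix` : **[K0-NORM]** the product over the cosets of a subgroup `H` of finite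
                           index of the translates of an `H`-fixed element is `G`-fixed;
* `normFix_mul`, `normFix_one`;
* `index_ker_dvd`        : the index of the kernel of a character with values in `(ZMod p)ˣ`
                           divides `p - 1`, hence is prime to `p`.
-/

set_option autoImplicit false
set_option linter.style.haveILetI false
set_option linter.unusedSectionVars false

noncomputable section

namespace Fermat.Agent.T8.helper87

/-! ### Generation -/

section Gen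

variable {E T : Type*} [Field E] [Field T]

/-- ring homomorphisms on a subfield generated by `S` are determined by their values on `S`. -/
theorem ringHom_ext_of_gen (F' : Subfield E) (S : Set E) (hS : S ⊆ F')
    (hgen : (F' : Set E) ⊆ Subfield.closure S) {α β : F' →+* T}
    (h : ∀ (s : E) (hs : s ∈ S), α ⟨s, hS hs⟩ = β ⟨s, hS hs⟩) : α = β := by
  ext x
  have hle : Subfield.closure S ≤ (RingHom.eqLocusField α β).map F'.subtype := by
    rw [Subfield.closure_le]
    intro s hs
    exact ⟨⟨s, hS hs⟩, h s hs, rfl⟩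
  obtain ⟨e, he, hex⟩ := hle (hgen x.2)
  have : e = x := Subtype.ext hex
  rw [← this]
  exact he

/-- **[STABLE]** an endomorphism of `E` mapping the generators of `F'` into `F'` maps `F'` into
`F'`. -/
theorem map_mem_of_gen (F' : Subfield E) (S : Set E)
    (hgen : (F' : Set E) ⊆ Subfield.closure S) (φ : E →+* E) (h : ∀ s ∈ S, φ s ∈ F') :
    ∀ x ∈ F', φ x ∈ F' := by
  intro x hx
  have hle : Subfield.closure S ≤ F'.comap φ := by
    rw [Subfield.closure_le]
    intro s hs
    exact h s hs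
  exact hle (hgen hx)

/-- the endomorphism of `F'` induced by an endomorphism of `E` preserving `F'`. -/
def restrictHom (F' : Subfield E) (φ : E →+* E) (h : ∀ x ∈ F', φ x ∈ F') : F' →+* F' :=
  (φ.comp F'.subtype).codRestrict F' (fun x => h x x.2)

@[simp]
theorem coe_restrictHom (F' : Subfield E) (φ : E →+* E) (h : ∀ x ∈ F', φ x ∈ F') (x : F') :
    ((restrictHom F' φ h x : F') : E) = φ (x : E) := rfl

/-- the automorphism of `F'` induced by a pair of mutually inverse endomorphisms of `E`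
preserving `F'`. -/
def restrictEquiv (F' : Subfield E) (φ ψ : E →+* E) (h : ∀ x ∈ F', φ x ∈ F')
    (h' : ∀ x ∈ F', ψ x ∈ F') (hψφ : ∀ x, ψ (φ x) = x) (hφψ : ∀ x, φ (ψ x) = x) :
    F' ≃+* F' where
  toFun := restrictHom F' φ h
  invFun := restrictHom F' ψ h'
  left_inv x := Subtype.ext (hψφ x)
  right_inv x := Subtype.ext (hφψ x)
  map_mul' x y := map_mul (restrictHom F' φ h) x y
  map_add' x y := map_add (restrictHom F' φ h) x y

@[simp]
theorem coe_restrictEquiv (F' : Subfield E) (φ ψ : E →+* E) (h : ∀ x ∈ F', φ x ∈ F')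
    (h' : ∀ x ∈ F', ψ x ∈ F') (hψφ : ∀ x, ψ (φ x) = x) (hφψ : ∀ x, φ (ψ x) = x) (x : F') :
    ((restrictEquiv F' φ ψ h h' hψφ hφψ x : F') : E) = φ (x : E) := rfl

end Gen

/-! ### The deck map and the second embedding -/

section Deck

variable {E : Type*} [Field E]

/-- **[DECK]** Let `F' ⊆ E` be generated by the subfield `F₀` and `Z`, let `φ` be an
endomorphism of `E` with `φ F₀ ⊆ F₀`, `φ Z = w Z ^ a` (`w ∈ F₀`) and `φ ζ = ζ ^ a`, and let `ρ` be
an endomorphism of `F'` which is the identity on `F₀` and has `ρ Z = ζ Z`.  Then `ρ` commutes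
with the endomorphism of `F'` induced by `φ`. -/
theorem deck_comm (F₀ F' : Subfield E) (Z ζ w : E) (a : ℕ) (hF₀ : F₀ ≤ F') (hZ : Z ∈ F')
    (hgen : (F' : Set E) ⊆ Subfield.closure ((F₀ : Set E) ∪ {Z}))
    (hζ : ζ ∈ F₀) (hw : w ∈ F₀)
    (φ : E →+* E) (hφ₀ : ∀ f ∈ F₀, φ f ∈ F₀) (hφZ : φ Z = w * Z ^ a) (hφζ : φ ζ = ζ ^ a)
    (hφ : ∀ x ∈ F', φ x ∈ F')
    (ρ : F' →+* F') (hρ₀ : ∀ (f : E) (hf : f ∈ F₀), ρ ⟨f, hF₀ hf⟩ = ⟨f, hF₀ hf⟩)
    (hρZ : ((ρ ⟨Z, hZ⟩ : F') : E) = ζ * Z) (g : F') :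
    ρ (restrictHom F' φ hφ g) = restrictHom F' φ hφ (ρ g) := by
  have hS : ((F₀ : Set E) ∪ {Z}) ⊆ F' := by
    rintro s (hs | hs)
    · exact hF₀ hs
    · rw [Set.mem_singleton_iff] at hs
      rw [hs]; exact hZ
  have key : ρ.comp (restrictHom F' φ hφ) = (restrictHom F' φ hφ).comp ρ := by
    refine ringHom_ext_of_gen F' _ hS hgen ?_
    rintro s (hs | hs)
    · -- on `F₀`
      show ρ (restrictHom F' φ hφ ⟨s, _⟩) = restrictHom F' φ hφ (ρ ⟨s, _⟩)
      have h1 : restrictHom F' φ hφ ⟨s, hF₀ hs⟩ = ⟨φ s, hF₀ (hφ₀ s hs)⟩ := Subtype.ext rfl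
      rw [h1, hρ₀ (φ s) (hφ₀ s hs), hρ₀ s hs, h1]
    · -- on `Z`
      rw [Set.mem_singleton_iff] at hs
      subst hs
      show ρ (restrictHom F' φ hφ ⟨s, _⟩) = restrictHom F' φ hφ (ρ ⟨s, _⟩)
      have hwF : w ∈ F' := hF₀ hw
      have h1 : restrictHom F' φ hφ ⟨s, hZ⟩ = (⟨w, hwF⟩ : F') * (⟨s, hZ⟩ : F') ^ a :=
        Subtype.ext (by
          rw [coe_restrictHom]
          simpa using hφZ)
      have h2 : ρ ⟨s, hZ⟩ = (⟨ζ, hF₀ hζ⟩ : F') * (⟨s, hZ⟩ : F') :=
        Subtype.ext (by simpa using hρZ)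
      apply Subtype.ext
      rw [h1, map_mul, map_pow, hρ₀ w hw, h2, coe_restrictHom]
      push_cast
      rw [map_mul, hφζ, hφZ]
      ring
  exact congrArg (fun f => f g) key

/-- iterate of **[DECK]** -/
theorem deck_comm_pow (F' : Subfield E) (φ' ρ : F' →+* F')
    (h : ∀ g, ρ (φ' g) = φ' (ρ g)) (j : ℕ) (g : F') :
    (ρ ^ j) (φ' g) = φ' ((ρ ^ j) g) := by
  induction j generalizing g with
  | zero => rfl
  | succ n ih =>
    rw [pow_succ]
    show (ρ ^ n) (ρ (φ' g)) = φ' ((ρ ^ n) (ρ g))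
    rw [h, ih]

/-- **[SHEETS]** equivariance of a second embedding `ι₂ : F' → E` from its equivariance on the
generators: on `F₀` (in the application: `W` commutes with the Galois action) and on `Z` (in the
application: the PAIR FORM `φ Z₂ = (W w) Z₂ ^ a`). -/
theorem sheet_comm (F₀ F' : Subfield E) (Z : E) (hF₀ : F₀ ≤ F') (hZ : Z ∈ F')
    (hgen : (F' : Set E) ⊆ Subfield.closure ((F₀ : Set E) ∪ {Z}))
    (φ : E →+* E) (hφ : ∀ x ∈ F', φ x ∈ F') (ι₂ : F' →+* E)
    (h₀ : ∀ (f : E) (hf : f ∈ F₀), ι₂ (restrictHom F' φ hφ ⟨f, hF₀ hf⟩) = φ (ι₂ ⟨f, hF₀ hf⟩))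
    (hZ₂ : ι₂ (restrictHom F' φ hφ ⟨Z, hZ⟩) = φ (ι₂ ⟨Z, hZ⟩)) (g : F') :
    ι₂ (restrictHom F' φ hφ g) = φ (ι₂ g) := by
  have hS : ((F₀ : Set E) ∪ {Z}) ⊆ F' := by
    rintro s (hs | hs)
    · exact hF₀ hs
    · rw [Set.mem_singleton_iff] at hs
      rw [hs]; exact hZ
  have key : ι₂.comp (restrictHom F' φ hφ) = φ.comp ι₂ := by
    refine ringHom_ext_of_gen F' _ hS hgen ?_
    rintro s (hs | hs)
    · exact h₀ s hs
    · rw [Set.mem_singleton_iff] at hs
      subst hs
      exact hZ₂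
  exact congrArg (fun f => f g) key

/-- the pair form gives the hypothesis `hZ₂` of `sheet_comm`. -/
theorem sheet_comm_of_pair (F₀ F' : Subfield E) (Z Z₂ w w₂ : E) (a : ℕ) (hF₀ : F₀ ≤ F')
    (hZ : Z ∈ F') (hw : w ∈ F₀)
    (φ : E →+* E) (hφ : ∀ x ∈ F', φ x ∈ F') (ι₂ : F' →+* E)
    (hφZ : φ Z = w * Z ^ a) (hφZ₂ : φ Z₂ = w₂ * Z₂ ^ a)
    (hιZ : ι₂ ⟨Z, hZ⟩ = Z₂) (hιw : ι₂ ⟨w, hF₀ hw⟩ = w₂) :
    ι₂ (restrictHom F' φ hφ ⟨Z, hZ⟩) = φ (ι₂ ⟨Z, hZ⟩) := by
  have h1 : restrictHom F' φ hφ ⟨Z, hZ⟩ = (⟨w, hF₀ hw⟩ : F') * (⟨Z, hZ⟩ : F') ^ a :=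
    Subtype.ext (by
      rw [coe_restrictHom]
      simpa using hφZ)
  rw [h1, map_mul, map_pow, hιZ, hιw, hφZ₂]

/-- **[SHEETS]** for the embeddings `ι₂ ∘ ρ ^ j`. -/
theorem sheet_comm_pow (F' : Subfield E) (φ : E →+* E) (φ' ρ : F' →+* F') (ι₂ : F' →+* E)
    (hρ : ∀ g, ρ (φ' g) = φ' (ρ g)) (hι : ∀ g, ι₂ (φ' g) = φ (ι₂ g)) (j : ℕ) (g : F') :
    ι₂ ((ρ ^ j) (φ' g)) = φ (ι₂ ((ρ ^ j) g)) := by
  rw [deck_comm_pow F' φ' ρ hρ j g, hι]

end Deck

/-! ### The norm to the fixed field of a group -/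

section Norm

variable {G R : Type*} [Group G] [CommMonoid R] [MulDistribMulAction G R]

/-- **[K0-NORM]** the product of the translates of `x` over the left cosets of a subgroup of
finite index. -/
def normFix (H : Subgroup G) [H.FiniteIndex] (x : R) : R :=
  letI := Subgroup.fintypeQuotientOfFiniteIndex (H := H)
  ∏ q : G ⧸ H, (Quotient.out q : G) • x

theorem smul_out_eq (H : Subgroup G) {x : R} (hx : ∀ h ∈ H, h • x = x) (τ : G) (q : G ⧸ H) :
    (τ * (Quotient.out q : G)) • x = (Quotient.out (τ • q) : G) • x := by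
  have h1 : ((Quotient.out (τ • q) : G) : G ⧸ H) = ((τ * Quotient.out q : G) : G ⧸ H) := by
    rw [QuotientGroup.out_eq']
    show τ • q = _
    conv_lhs => rw [← QuotientGroup.out_eq' q]
    rfl
  have h2 : (Quotient.out (τ • q) : G)⁻¹ * (τ * Quotient.out q) ∈ H :=
    QuotientGroup.eq.mp h1
  have h3 := hx _ h2
  calc (τ * (Quotient.out q : G)) • x
      = ((Quotient.out (τ • q) : G) * ((Quotient.out (τ • q) : G)⁻¹ * (τ * Quotient.out q))) • x := by
        rw [mul_inv_cancel_left]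
    _ = (Quotient.out (τ • q) : G) • x := by rw [mul_smul, h3]

/-- **[K0-NORM]** the norm of an `H`-fixed element is `G`-fixed. -/
theorem smul_normFix (H : Subgroup G) [H.FiniteIndex] {x : R} (hx : ∀ h ∈ H, h • x = x)
    (τ : G) : τ • normFix H x = normFix H x := by
  classical
  letI := Subgroup.fintypeQuotientOfFiniteIndex (H := H)
  unfold normFix
  rw [Finset.smul_prod']
  have h1 : ∀ q : G ⧸ H, τ • ((Quotient.out q : G) • x) = (Quotient.out (τ • q) : G) • x := by
    intro q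
    rw [← mul_smul]
    exact smul_out_eq H hx τ q
  simp_rw [h1]
  exact Fintype.prod_equiv (MulAction.toPerm τ) _ _ (fun q => rfl)

theorem normFix_one (H : Subgroup G) [H.FiniteIndex] : normFix H (1 : R) = 1 := by
  classical
  letI := Subgroup.fintypeQuotientOfFiniteIndex (H := H)
  unfold normFix
  simp

theorem normFix_mul (H : Subgroup G) [H.FiniteIndex] (x y : R) :
    normFix H (x * y) = normFix H x * normFix H y := by
  classical
  letI := Subgroup.fintypeQuotientOfFiniteIndex (H := H)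
  unfold normFix
  simp_rw [smul_mul']
  exact Finset.prod_mul_distrib

/-- the number of factors of the norm -/
theorem normFix_card (H : Subgroup G) [H.FiniteIndex] :
    (letI := Subgroup.fintypeQuotientOfFiniteIndex (H := H); Fintype.card (G ⧸ H)) = H.index := by
  classical
  letI := Subgroup.fintypeQuotientOfFiniteIndex (H := H)
  rw [Subgroup.index_eq_card, Nat.card_eq_fintype_card]

end Norm

/-! ### The index of the kernel of the cyclotomic character -/

section Index

variable {G : Type*} [Group G]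

/-- the kernel of a character with values in `(ZMod p)ˣ` has index dividing `p - 1`. -/
theorem index_ker_dvd (p : ℕ) [Fact p.Prime] (χ : G →* (ZMod p)ˣ) : χ.ker.index ∣ p - 1 := by
  rw [Subgroup.index_ker]
  have h : Nat.card (χ.range) ∣ Nat.card (ZMod p)ˣ := Subgroup.card_subgroup_dvd_card _
  rwa [Nat.card_eq_fintype_card (α := (ZMod p)ˣ), ZMod.card_units] at h

/-- the index of the kernel of a character with values in `(ZMod p)ˣ` is prime to `p`. -/
theorem index_ker_coprime (p : ℕ) [Fact p.Prime] (χ : G →* (ZMod p)ˣ) :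
    Nat.Coprime χ.ker.index p := by
  have hp : p.Prime := Fact.out
  have h := index_ker_dvd p χ
  have h0 : χ.ker.index ≠ 0 := by
    intro h0
    rw [h0] at h
    have := Nat.eq_zero_of_zero_dvd h
    have := hp.two_le
    omega
  rw [Nat.coprime_comm, Nat.Prime.coprime_iff_not_dvd hp]
  intro hdvd
  have h1 : p ≤ p - 1 := Nat.le_of_dvd (by have := hp.two_le; omega) (dvd_trans hdvd h)
  have := hp.two_le
  omega

instance finiteIndex_ker (p : ℕ) [Fact p.Prime] (χ : G →* (ZMod p)ˣ) : χ.ker.FiniteIndex := by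
  have hp : p.Prime := Fact.out
  refine ⟨fun h0 => ?_⟩
  have h := index_ker_dvd p χ
  rw [h0] at h
  have := Nat.eq_zero_of_zero_dvd h
  have := hp.two_le
  omega

end Index

end Fermat.Agent.T8.helper87
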