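import Mathlib
import Fermat.Agent.T7.helper73_B4Bad
import Fermat.Agent.T8.helper87_CoverGalAbs

/-!
# T8 [COVER-GAL], instance at the bad pair (helper87): the PAIR FORM

`N` a good level (`4 ∣ N ∨ 9 ∣ N`), `p ∤ N` a prime, `W = atkinLehner N p`, `A` a valuation
subring of `ℚ̄` over `p`, `K` a function regular off the two cusps whose two expansions are
`p`-th powers of integral series `Z₁`, `Z₂` of reduction `1` (the strongly split class `l₀`),
`σ` in the inertia group with `σ ζ = ζ ^ a` on the `p`-th roots of unity.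

* `pairForm_bad` : ONE function `v` with `v = σ(Z₁) Z₁ ^ (p - a)` at `∞` AND
  `W v = σ(Z₂) Z₂ ^ (p - a)` at `0`, `v ^ p = σ(K) K ^ (p - a)`
  (the proof of `helper73.b4Statement_bad`, keeping the pair of expansions);
* `pairForm_w`   : ONE function `w = v / K` with `σ(Z₁) = w Z₁ ^ a` and `σ(Z₂) = (W w) Z₂ ^ a`
  = the hypotheses `hφZ`, `hφZ₂` of `deck_comm` / `sheet_comm_of_pair`: the coefficientwise
  action of the inertia group on `F(Z₁)` fixes the sheets on the `W` side as well.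
-/

set_option autoImplicit false
set_option synthInstance.maxHeartbeats 400000
set_option linter.unusedSectionVars false
set_option linter.unusedVariables false
set_option linter.style.haveILetI false

noncomputable section

open HahnSeries IntermediateField AlgebraicCurve ModularCurve
open Fermat.Agent.S18.helper19 Fermat.Agent.P2.helper29 Fermat.Agent.P2.helper93
open Fermat.Agent.P2.helper22 Fermat.Agent.P2.helper74
open Fermat.Agent.T2 Fermat.Agent.T2.helper74 Fermat.Agent.T2.helper36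

namespace Fermat.Agent.T8.helper87

open Fermat.Agent.T7.helper73 (mem_valSub_of_pow_eq_one twist_component regOff2_galF regOff2_pow)

section Bad

variable (N p : ℕ) [NeZero N] [NeZero p] (hp : p.Prime) (hpN : ¬ p ∣ N)

/-- **PAIR FORM** at the bad pair: the pair `σ(Z_i) Z_i ^ (p - a)` is the pair of expansions of
ONE function `v`, and `v ^ p = σ(K) K ^ (p - a)`. -/
theorem pairForm_bad (hN : 4 ∣ N ∨ 9 ∣ N) (A : ValuationSubring Kb)
    (hA : A.LiesOverPrime p) (K : FF (N * p)) (hKreg : RegOff2 (atkinLehner N p hp hpN) K)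
    (Z₁ Z₂ : LaurentSeries A) (h1 : incl A Z₁ ^ p = (K : LaurentSeries Kb))
    (h2 : incl A Z₂ ^ p = ((atkinLehner N p hp hpN K : FF (N * p)) : LaurentSeries Kb))
    (hr1 : red A Z₁ = 1) (hr2 : red A Z₂ = 1)
    (σ : Kb ≃ₐ[ℚ] Kb) (hσ : σ ∈ A.inertiaSubgroupIn ℚ) (a : ℕ) (hap : a ≤ p)
    (hza : ∀ z : Kb, z ^ p = 1 → σ z = z ^ a) :
    ∃ v : FF (N * p), RegOff2 (atkinLehner N p hp hpN) v ∧
      (v : LaurentSeries Kb)
        = coeffMap (σ : Kb →+* Kb) (incl A Z₁) * incl A Z₁ ^ (p - a) ∧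
      ((atkinLehner N p hp hpN v : FF (N * p)) : LaurentSeries Kb)
        = coeffMap (σ : Kb →+* Kb) (incl A Z₂) * incl A Z₂ ^ (p - a) ∧
      v ^ p = galF (N * p) σ K * K ^ (p - a) := by
  classical
  have hWW : ∀ f, atkinLehner N p hp hpN (atkinLehner N p hp hpN f) = f :=
    atkinLehner_atkinLehner N p hp hpN
  have hWgal : ∀ (σ : Kb ≃ₐ[ℚ] Kb) (x : FF (N * p)),
      atkinLehner N p hp hpN (galF (N * p) σ x) = galF (N * p) σ (atkinLehner N p hp hpN x) :=
    fun σ x => atkinLehner_arithmeticRingAut N p hp hpN σ x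
  haveI : Fact p.Prime := ⟨hp⟩
  haveI hchar : CharP (kA A) p := charP_residueField hp hA
  have hpk : ((p : ℕ) : kA A) = 0 := CharP.cast_eq_zero (kA A) p
  obtain ⟨hσd, -⟩ := decK_eq_id_of_mem_inertia hσ
  -- the root of unity
  obtain ⟨ζ, hζ⟩ := HasEnoughRootsOfUnity.exists_primitiveRoot Kb p
  have hζA : ζ ∈ A := mem_valSub_of_pow_eq_one A hp.pos hζ.pow_eq_one
  obtain ⟨z, hz⟩ : ∃ z : A, (z : Kb) = ζ := ⟨⟨ζ, hζA⟩, rfl⟩
  have hzp : z ^ p = 1 := by
    apply Subtype.ext
    rw [SubmonoidClass.coe_pow, hz, hζ.pow_eq_one]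
    rfl
  have hzsum : ∑ i ∈ Finset.range p, z ^ i = 0 := by
    have h0 : A.subtype (∑ i ∈ Finset.range p, z ^ i) = 0 := by
      rw [map_sum]
      simp only [map_pow]
      have : A.subtype z = ζ := hz
      rw [this]
      exact hζ.geom_sum_eq_zero hp.one_lt
    exact Subtype.ext h0
  have hπz : IsLocalRing.residue A z = 1 := by
    have h : (IsLocalRing.residue A z - 1) ^ p = 0 := by
      rw [sub_pow_char, one_pow, ← map_pow, hzp, map_one, sub_self]
    exact sub_eq_zero.mp ((pow_eq_zero_iff hp.ne_zero).mp h)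
  obtain ⟨l, hl⟩ : ∃ l : A, l = z - 1 := ⟨_, rfl⟩
  have hπl : IsLocalRing.residue A l = 0 := by rw [hl, map_sub, hπz, map_one, sub_self]
  obtain ⟨m, hm⟩ := Fermat.Agent.T7.helper84.ppow_lambda_rel hp hzsum
  rw [← hl] at hm
  have hu : IsUnit (1 + l * m) := Fermat.Agent.P2.helper96.isUnit_of_residue_ne_zero _ (by
    rw [map_add, map_mul, hπl, zero_mul, add_zero, map_one]
    exact one_ne_zero)
  obtain ⟨u, hu'⟩ := hu
  have huinv : (1 + l * m) * ((u⁻¹ : Aˣ) : A) = 1 := by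
    rw [← hu', ← Units.val_mul, mul_inv_cancel, Units.val_one]
  have hl1 : ((p : ℕ) : A) = l ^ (p - 1) * (-((u⁻¹ : Aˣ) : A)) := by
    calc ((p : ℕ) : A) = ((p : ℕ) : A) * ((1 + l * m) * ((u⁻¹ : Aˣ) : A)) := by
          rw [huinv, mul_one]
      _ = (((p : ℕ) : A) * (1 + l * m)) * ((u⁻¹ : Aˣ) : A) := by ring
      _ = l ^ (p - 1) * (-((u⁻¹ : Aˣ) : A)) := by rw [hm]; ring
  have hl2 : l ^ (p - 1) = ((p : ℕ) : A) * (-(1 + l * m)) := by
    linear_combination hm
  -- the action of `σ` on `l`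
  have hsz : decA σ hσd z = z ^ a := by
    apply Subtype.ext
    rw [SubmonoidClass.coe_pow, hz]
    have h3 : ((decA σ hσd z : A) : Kb) = σ (z : Kb) := rfl
    rw [h3, hz]
    exact hza ζ hζ.pow_eq_one
  obtain ⟨e, he⟩ := Fermat.Agent.T7.helper84.ppow_sigma_lambda z a
  rw [← hl] at he
  have hsl : decA σ hσd l = l * ((a : A) + l * e) := by
    rw [hl, map_sub, map_one, hsz, ← hl]
    linear_combination he
  -- (L1)
  have hπ : ∀ x : A, IsLocalRing.residue A x ≠ 0 → IsUnit x := fun x hx =>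
    Fermat.Agent.P2.helper96.isUnit_of_residue_ne_zero x hx
  have hatt : ∀ u : FF (N * p), RegOff2 (atkinLehner N p hp hpN) u →
      famMap A.subtype ![Z₁, Z₂] - pairLin (atkinLehner N p hp hpN) u ≠ 0 →
      ContentAttainedFam A (IsLocalRing.residue A)
        (famMap A.subtype ![Z₁, Z₂] - pairLin (atkinLehner N p hp hpN) u) := by
    intro u hu hne
    refine Fermat.Agent.T7.helper22.contentAttained_sub_of_roots (N * p) A
      (IsLocalRing.residue A) hπ hp.pos ![Z₁, Z₂] ?_ (pairLin (atkinLehner N p hp hpN) u) ?_ ?_ hne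
    · intro i
      fin_cases i
      · show incl A Z₁ ^ p ∈ FF (N * p)
        rw [h1]
        exact K.2
      · show incl A Z₂ ^ p ∈ FF (N * p)
        rw [h2]
        exact (atkinLehner N p hp hpN K).2
    · intro i
      fin_cases i
      · exact u.2
      · exact (atkinLehner N p hp hpN u).2
    · intro hu0
      have hune : u ≠ 0 := by
        rintro rfl
        exact hu0 (map_zero _)
      exact contentAttained_pair hWW (pairNorm_bad N p hp hpN A hA)
        (Fermat.Agent.T2.helper45.integrality2Statement N p hp hpN A) u hune hu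
  obtain ⟨U, U₁, U₂, E₁, E₂, hUreg, hUrep, hU1, hU2, hZU1, hZU2⟩ :=
    Fermat.Agent.T7.helper88.exists_close_bad N p hp hpN hN A hA l _ hl1 K hKreg Z₁ Z₂ h1 h2
      hr1 hr2 hatt
  -- the twist
  obtain ⟨E₁', hE₁', hE₁r⟩ := twist_component hσ hσd hap hpk l e hπl hsl Z₁ U₁ E₁ hZU1 hU1
  obtain ⟨E₂', hE₂', hE₂r⟩ := twist_component hσ hσd hap hpk l e hπl hsl Z₂ U₂ E₂ hZU2 hU2
  -- the data of (L2')
  have hHreg : RegOff2 (atkinLehner N p hp hpN) (galF (N * p) σ K * K ^ (p - a)) :=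
    RegOff2.mul _ (regOff2_galF hWgal σ hKreg) (regOff2_pow hKreg _)
  have hvreg : RegOff2 (atkinLehner N p hp hpN) (galF (N * p) σ U * U ^ (p - a)) :=
    RegOff2.mul _ (regOff2_galF hWgal σ hUreg) (regOff2_pow hUreg _)
  have hVrep : Fermat.Agent.T2.helper22.IsRep A (atkinLehner N p hp hpN)
      (galF (N * p) σ U * U ^ (p - a)) (actA σ hσd U₁ * U₁ ^ (p - a))
      (actA σ hσd U₂ * U₂ ^ (p - a)) :=
    (Fermat.Agent.T2.helper22.IsRep.gal hWgal hσd hUrep).mul (hUrep.pow _)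
  have key : ∀ (F : FF (N * p)) (Z : LaurentSeries A), incl A Z ^ p = (F : LaurentSeries Kb) →
      incl A (actA σ hσd Z * Z ^ (p - a)) ^ p
        = ((galF (N * p) σ F * F ^ (p - a) : FF (N * p)) : LaurentSeries Kb) := by
    intro F Z hZ
    have e1 : incl A (actA σ hσd Z) = coeffMap (σ : Kb →+* Kb) (incl A Z) :=
      coeffMap_subtype_actA σ hσd Z
    have e2 : ((galF (N * p) σ F * F ^ (p - a) : FF (N * p)) : LaurentSeries Kb)
        = coeffMap (σ : Kb →+* Kb) (F : LaurentSeries Kb) * (F : LaurentSeries Kb) ^ (p - a) :=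
      rfl
    rw [e2, ← hZ, map_mul, map_pow, e1, mul_pow, map_pow, ← pow_mul, ← pow_mul, mul_comm p (p - a)]
  have h1' := key K Z₁ h1
  have h2' : incl A (actA σ hσd Z₂ * Z₂ ^ (p - a)) ^ p
      = ((atkinLehner N p hp hpN (galF (N * p) σ K * K ^ (p - a)) : FF (N * p)) :
          LaurentSeries Kb) := by
    have e3 : atkinLehner N p hp hpN (galF (N * p) σ K * K ^ (p - a))
        = galF (N * p) σ (atkinLehner N p hp hpN K) * (atkinLehner N p hp hpN K) ^ (p - a) := by
      rw [map_mul, map_pow, hWgal]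
    rw [e3]
    exact key (atkinLehner N p hp hpN K) Z₂ h2
  have hr1' : red A (actA σ hσd Z₁ * Z₁ ^ (p - a)) = 1 := by
    rw [map_mul, map_pow, Fermat.Agent.T2.helper20.red_actA_of_mem_inertia hσ hσd, hr1, one_pow,
      one_mul]
  have hr2' : red A (actA σ hσd Z₂ * Z₂ ^ (p - a)) = 1 := by
    rw [map_mul, map_pow, Fermat.Agent.T2.helper20.red_actA_of_mem_inertia hσ hσd, hr2, one_pow,
      one_mul]
  obtain ⟨v, hvr, hv1, hv2, hv⟩ := Fermat.Agent.T7.helper88.pivot_crit_bad N p hp hpN hN A hA l _ hl2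
    (galF (N * p) σ K * K ^ (p - a)) hHreg _ _ h1' h2' hr1' hr2'
    (galF (N * p) σ U * U ^ (p - a)) hvreg _ _ E₁' E₂' hVrep hE₁' hE₂' hE₁r hE₂r
  have e1 : ∀ Z : LaurentSeries A, incl A (actA σ hσd Z * Z ^ (p - a))
      = coeffMap (σ : Kb →+* Kb) (incl A Z) * incl A Z ^ (p - a) := by
    intro Z
    rw [map_mul, map_pow]
    exact congrArg (· * incl A Z ^ (p - a)) (coeffMap_subtype_actA σ hσd Z)
  refine ⟨v, hvr, ?_, ?_, hv⟩
  · rw [hv1, e1]
  · rw [hv2, e1]

/-- **PAIR FORM, shape of the cover**: ONE function `w` with `σ(Z₁) = w Z₁ ^ a` at `∞` and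
`σ(Z₂) = (W w) Z₂ ^ a` at `0`. -/
theorem pairForm_w (hN : 4 ∣ N ∨ 9 ∣ N) (A : ValuationSubring Kb)
    (hA : A.LiesOverPrime p) (K : FF (N * p)) (hKreg : RegOff2 (atkinLehner N p hp hpN) K)
    (Z₁ Z₂ : LaurentSeries A) (h1 : incl A Z₁ ^ p = (K : LaurentSeries Kb))
    (h2 : incl A Z₂ ^ p = ((atkinLehner N p hp hpN K : FF (N * p)) : LaurentSeries Kb))
    (hr1 : red A Z₁ = 1) (hr2 : red A Z₂ = 1)
    (σ : Kb ≃ₐ[ℚ] Kb) (hσ : σ ∈ A.inertiaSubgroupIn ℚ) (a : ℕ) (hap : a ≤ p)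
    (hza : ∀ z : Kb, z ^ p = 1 → σ z = z ^ a) :
    ∃ w : FF (N * p),
      coeffMap (σ : Kb →+* Kb) (incl A Z₁) = (w : LaurentSeries Kb) * incl A Z₁ ^ a ∧
      coeffMap (σ : Kb →+* Kb) (incl A Z₂)
        = ((atkinLehner N p hp hpN w : FF (N * p)) : LaurentSeries Kb) * incl A Z₂ ^ a := by
  obtain ⟨v, -, hv1, hv2, -⟩ :=
    pairForm_bad N p hp hpN hN A hA K hKreg Z₁ Z₂ h1 h2 hr1 hr2 σ hσ a hap hza
  have hZ1ne : incl A Z₁ ≠ 0 := by
    intro h0
    have : red A Z₁ = 0 := by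
      have hZ0 : Z₁ = 0 := by
        refine HahnSeries.ext (funext fun j => ?_)
        have := congrArg (fun x : LaurentSeries Kb => x.coeff j) h0
        exact Subtype.ext this
      rw [hZ0, map_zero]
    rw [hr1] at this
    exact one_ne_zero this
  have hZ2ne : incl A Z₂ ≠ 0 := by
    intro h0
    have : red A Z₂ = 0 := by
      have hZ0 : Z₂ = 0 := by
        refine HahnSeries.ext (funext fun j => ?_)
        have := congrArg (fun x : LaurentSeries Kb => x.coeff j) h0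
        exact Subtype.ext this
      rw [hZ0, map_zero]
    rw [hr2] at this
    exact one_ne_zero this
  have hKne : (K : LaurentSeries Kb) ≠ 0 := by
    rw [← h1]
    exact pow_ne_zero _ hZ1ne
  have hWKne : ((atkinLehner N p hp hpN K : FF (N * p)) : LaurentSeries Kb) ≠ 0 := by
    rw [← h2]
    exact pow_ne_zero _ hZ2ne
  have hpa : p - a + a = p := by omega
  refine ⟨v * K⁻¹, ?_, ?_⟩
  · have e : ((v * K⁻¹ : FF (N * p)) : LaurentSeries Kb)
        = (v : LaurentSeries Kb) * ((K : LaurentSeries Kb))⁻¹ := rfl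
    rw [e, hv1, ← h1]
    field_simp
    rw [mul_assoc, ← _root_.pow_add, hpa]
  · have e : ((atkinLehner N p hp hpN (v * K⁻¹) : FF (N * p)) : LaurentSeries Kb)
        = ((atkinLehner N p hp hpN v : FF (N * p)) : LaurentSeries Kb)
          * (((atkinLehner N p hp hpN K : FF (N * p)) : LaurentSeries Kb))⁻¹ := by
      rw [map_mul, map_inv₀]
      rfl
    rw [e, hv2, ← h2]
    field_simp
    rw [mul_assoc, ← _root_.pow_add, hpa]

end Bad

end Fermat.Agent.T8.helper87
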