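import Mathlib

/-!
# T8 [COVER-GAL], abstract core II (helper87): the `K₀`-form by a Vandermonde descent

A group `G` acts on a field `F'` by ring automorphisms; `ζ : F'` has a stabiliser `H` of finite
index (in the application `G` = inertia group, `ζ = ζ_p`, `H = I₁ = I ∩ G_{K₁}`).

* `traceFix H x`, `smul_traceFix` : the sum of the translates of an `H`-fixed element over the
  cosets `G ⧸ H` is `G`-fixed;
* `mem_closure_of_fixed_stabilizer` : **[GEN]** every element `t` fixed by the stabiliser of `ζ`
  lies in the subfield generated by the orbit of `ζ` and the `G`-fixed elements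
  (`t = ∑ c_j T_j`, `T_j = Tr (ζ ^ j t)` fixed, `c_j` in the field of the orbit of `ζ`:
  inverse Vandermonde matrix).  No Galois theory, no surjectivity of the cyclotomic character.
* `gen_of_gens` : if a generating set of `F'` consists of elements of this closure, every
  element of `F'` lies in it (the field `gen` of `helper23.DictSetting` for the cover).
-/

set_option autoImplicit false
set_option linter.style.haveILetI false
set_option linter.unusedSectionVars false

noncomputable section

namespace Fermat.Agent.T8.helper87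

section Trace

variable {G R : Type*} [Group G] [AddCommMonoid R] [DistribMulAction G R]

/-- the sum of the translates of `x` over the left cosets of a subgroup of finite index. -/
def traceFix (H : Subgroup G) [H.FiniteIndex] (x : R) : R :=
  letI := Subgroup.fintypeQuotientOfFiniteIndex (H := H)
  ∑ q : G ⧸ H, (Quotient.out q : G) • x

theorem smul_out_eq_add (H : Subgroup G) {x : R} (hx : ∀ h ∈ H, h • x = x) (τ : G)
    (q : G ⧸ H) : (τ * (Quotient.out q : G)) • x = (Quotient.out (τ • q) : G) • x := by
  have h1 : ((Quotient.out (τ • q) : G) : G ⧸ H) = ((τ * Quotient.out q : G) : G ⧸ H) := by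
    rw [QuotientGroup.out_eq']
    show τ • q = _
    conv_lhs => rw [← QuotientGroup.out_eq' q]
    rfl
  have h2 : (Quotient.out (τ • q) : G)⁻¹ * (τ * Quotient.out q) ∈ H :=
    QuotientGroup.eq.mp h1
  have h3 := hx _ h2
  calc (τ * (Quotient.out q : G)) • x
      = ((Quotient.out (τ • q) : G) * ((Quotient.out (τ • q) : G)⁻¹ * (τ * Quotient.out q))) • x := by
        rw [mul_inv_cancel_left]
    _ = (Quotient.out (τ • q) : G) • x := by rw [mul_smul, h3]

/-- the trace of an `H`-fixed element is `G`-fixed. -/
theorem smul_traceFix (H : Subgroup G) [H.FiniteIndex] {x : R} (hx : ∀ h ∈ H, h • x = x)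
    (τ : G) : τ • traceFix H x = traceFix H x := by
  classical
  letI := Subgroup.fintypeQuotientOfFiniteIndex (H := H)
  unfold traceFix
  rw [Finset.smul_sum]
  have h1 : ∀ q : G ⧸ H, τ • ((Quotient.out q : G) • x) = (Quotient.out (τ • q) : G) • x := by
    intro q
    rw [← mul_smul]
    exact smul_out_eq_add H hx τ q
  simp_rw [h1]
  exact Fintype.sum_equiv (MulAction.toPerm τ) _ _ (fun q => rfl)

end Trace

section Gen

variable {G F' : Type*} [Group G] [Field F'] [MulSemiringAction G F']

/-- **[GEN]** Vandermonde descent: an element fixed by the stabiliser of `ζ` (of finite index)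
lies in the subfield generated by the orbit of `ζ` and the `G`-fixed elements. -/
theorem mem_closure_of_fixed_stabilizer (ζ t : F') [(MulAction.stabilizer G ζ).FiniteIndex]
    (ht : ∀ h ∈ MulAction.stabilizer G ζ, h • t = t) :
    t ∈ Subfield.closure (MulAction.orbit G ζ ∪ {x : F' | ∀ g : G, g • x = x}) := by
  classical
  set H := MulAction.stabilizer G ζ with hH
  letI := Subgroup.fintypeQuotientOfFiniteIndex (H := H)
  set S := Subfield.closure (MulAction.orbit G ζ ∪ {x : F' | ∀ g : G, g • x = x}) with hS
  set n := Fintype.card (G ⧸ H) with hn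
  let e : Fin n ≃ G ⧸ H := (Fintype.equivFin (G ⧸ H)).symm
  -- the nodes and the translates
  let v : Fin n → F' := fun i => (Quotient.out (e i) : G) • ζ
  let τ : Fin n → F' := fun i => (Quotient.out (e i) : G) • t
  have hvS : ∀ i, v i ∈ S := fun i =>
    Subfield.subset_closure (Or.inl ⟨_, rfl⟩)
  have hvinj : Function.Injective v := by
    intro i j hij
    apply e.injective
    have hij' : (Quotient.out (e i) : G) • ζ = (Quotient.out (e j) : G) • ζ := hij
    have h1 : ((Quotient.out (e i) : G)⁻¹ * Quotient.out (e j)) • ζ = ζ := by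
      rw [mul_smul, ← hij', ← mul_smul, inv_mul_cancel, one_smul]
    have h2 : (Quotient.out (e i) : G)⁻¹ * Quotient.out (e j) ∈ H := h1
    have h3 : ((Quotient.out (e i) : G) : G ⧸ H) = ((Quotient.out (e j) : G) : G ⧸ H) :=
      QuotientGroup.eq.mpr h2
    rwa [QuotientGroup.out_eq', QuotientGroup.out_eq'] at h3
  -- the traces
  have hζj : ∀ j : ℕ, ∀ h ∈ H, h • (ζ ^ j * t) = ζ ^ j * t := by
    intro j h hh
    have h1 : h • ζ = ζ := hh
    rw [smul_mul', smul_pow', h1, ht h hh]
  have hT : ∀ j : Fin n, traceFix H (ζ ^ (j : ℕ) * t) ∈ S := fun j =>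
    Subfield.subset_closure (Or.inr (fun g => smul_traceFix H (hζj j) g))
  have hTsum : ∀ j : Fin n, traceFix H (ζ ^ (j : ℕ) * t) = ∑ i : Fin n, v i ^ (j : ℕ) * τ i := by
    intro j
    unfold traceFix
    rw [← Equiv.sum_comp e]
    refine Finset.sum_congr rfl (fun i _ => ?_)
    rw [smul_mul', smul_pow']
  -- the Vandermonde system over `S`
  let vS : Fin n → S := fun i => ⟨v i, hvS i⟩
  have hvSinj : Function.Injective vS := fun i j hij => hvinj (congrArg Subtype.val hij)
  let V : Matrix (Fin n) (Fin n) S := Matrix.vandermonde vS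
  have hdet : V.det ≠ 0 := Matrix.det_vandermonde_ne_zero_iff.mpr hvSinj
  have hunit : IsUnit V.det := isUnit_iff_ne_zero.mpr hdet
  let TS : Fin n → S := fun j => ⟨traceFix H (ζ ^ (j : ℕ) * t), hT j⟩
  -- solve `Vᵀ x = T` over `S`
  let x : Fin n → S := (V.transpose)⁻¹.mulVec TS
  have hx : V.transpose.mulVec x = TS := by
    show V.transpose.mulVec ((V.transpose)⁻¹.mulVec TS) = TS
    rw [Matrix.mulVec_mulVec, Matrix.mul_nonsing_inv _ (by rwa [Matrix.det_transpose]),
      Matrix.one_mulVec]
  -- the same system over `F'` has the solution `τ`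
  let VF : Matrix (Fin n) (Fin n) F' := Matrix.vandermonde v
  have hdetF : VF.det ≠ 0 := Matrix.det_vandermonde_ne_zero_iff.mpr hvinj
  have hτ : VF.transpose.mulVec τ = fun j : Fin n => traceFix H (ζ ^ (j : ℕ) * t) := by
    funext j
    rw [hTsum j]
    show ∑ i, VF.transpose j i * τ i = _
    rfl
  have hxF : VF.transpose.mulVec (fun i => ((x i : S) : F'))
      = fun j : Fin n => traceFix H (ζ ^ (j : ℕ) * t) := by
    funext j
    have h1 := congrFun hx j
    have h2 : ((V.transpose.mulVec x j : S) : F') = ((TS j : S) : F') := congrArg Subtype.val h1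
    rw [← show ((TS j : S) : F') = traceFix H (ζ ^ (j : ℕ) * t) from rfl, ← h2]
    show ∑ i, VF.transpose j i * ((x i : S) : F') = ((∑ i, V.transpose j i * x i : S) : F')
    push_cast
    rfl
  have heq : τ = fun i => ((x i : S) : F') := by
    have hinj : Function.Injective VF.transpose.mulVec :=
      Matrix.mulVec_injective_iff_isUnit.mpr
        ((Matrix.isUnit_iff_isUnit_det _).mpr (by
          rw [Matrix.det_transpose]; exact isUnit_iff_ne_zero.mpr hdetF))
    exact hinj (hτ.trans hxF.symm)
  -- the coset of `1`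
  let i₀ : Fin n := e.symm ((1 : G) : G ⧸ H)
  have hi₀ : τ i₀ = t := by
    show (Quotient.out (e i₀) : G) • t = t
    have h1 : e i₀ = ((1 : G) : G ⧸ H) := e.apply_symm_apply _
    rw [h1]
    apply ht
    have h2 : ((Quotient.out ((1 : G) : G ⧸ H) : G) : G ⧸ H) = ((1 : G) : G ⧸ H) :=
      QuotientGroup.out_eq' _
    have h3 := QuotientGroup.eq.mp h2
    have h4 : (Quotient.out ((1 : G) : G ⧸ H) : G)⁻¹ ∈ H := by simpa using h3
    simpa using H.inv_mem h4
  rw [← hi₀, heq]
  exact (x i₀).2

/-- if the generators of `F'` lie in a subfield, so does every element. -/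
theorem gen_of_gens (S₀ : Set F') (T : Subfield F') (hgen : ∀ t : F', t ∈ Subfield.closure S₀)
    (h : S₀ ⊆ T) (t : F') : t ∈ T :=
  (Subfield.closure_le.mpr h) (hgen t)

end Gen

end Fermat.Agent.T8.helper87
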