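import Mathlib
import Fermat.Agent.T8.helper87_DlogAbs3

/-!
# T8 [F3-EXIT], leaf [HECKE], formal core IV (helper87): descent of the Hecke relation for `dlogL`

* `heckeUL_natCast_mul`, `heckeUL_add` : `U_l` is additive and commutes with integer constants;
* `hecke_descent_dlog` : the Hecke relation for `dlogL (qExpand n f₀)` (`f₀(q ^ n)`, e.g. the
  pull-back along `β₄`, `n = 4`) gives the Hecke relation for `dlogL f₀`, if `n` is prime to `l`
  and invertible in `K`;
* `wSeq_qExpand` : `wSeq (qExpand n f₀) (n m) = n wSeq f₀ m`.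
-/

set_option autoImplicit false
set_option linter.unusedSectionVars false
set_option linter.unusedVariables false
set_option linter.style.haveILetI false

noncomputable section

open HahnSeries ModularCurve

namespace Fermat.Agent.T8.helper87

section Descent2

variable {K : Type*} [Field K]

theorem heckeUL_add (l : ℕ) [NeZero l] (w w' : LaurentSeries K) :
    heckeUL l (w + w') = heckeUL l w + heckeUL l w' := by
  ext k
  simp only [heckeUL_coeff, HahnSeries.coeff_add]

theorem heckeUL_natCast_mul (l : ℕ) [NeZero l] (n : ℕ) (w : LaurentSeries K) :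
    heckeUL l ((n : LaurentSeries K) * w) = (n : LaurentSeries K) * heckeUL l w := by
  ext k
  simp only [heckeUL_coeff, natCast_mul_coeff]

theorem heckeUL_intCast_mul (l : ℕ) [NeZero l] (n : ℤ) (w : LaurentSeries K) :
    heckeUL l ((n : LaurentSeries K) * w) = (n : LaurentSeries K) * heckeUL l w := by
  ext k
  simp only [heckeUL_coeff, intCast_mul_coeff]

/-- **formal descent for `dlogL`**: the Hecke relation for `dlogL (f₀(q ^ n))` gives the Hecke
relation for `dlogL f₀`. -/
theorem hecke_descent_dlog {l n : ℕ} [NeZero l] [NeZero n] (hln : Nat.Coprime l n)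
    (hn : (n : K) ≠ 0) {f₀ : LaurentSeries K} (a : ℤ)
    (hT : heckeUL l (dlogL (qExpand K n f₀))
        + (l : LaurentSeries K) * qExpand K l (dlogL (qExpand K n f₀))
      = (a : LaurentSeries K) * dlogL (qExpand K n f₀)) :
    heckeUL l (dlogL f₀) + (l : LaurentSeries K) * qExpand K l (dlogL f₀)
      = (a : LaurentSeries K) * dlogL f₀ := by
  have hn' : (n : LaurentSeries K) ≠ 0 := by
    rw [← map_natCast (HahnSeries.C : K →+* LaurentSeries K) n]
    exact (map_ne_zero (HahnSeries.C : K →+* LaurentSeries K)).mpr hn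
  rw [dlogL_qExpand, heckeUL_natCast_mul, map_mul, map_natCast] at hT
  apply hecke_descent_int hln a
  apply mul_left_cancel₀ hn'
  linear_combination hT

theorem wSeq_qExpand (n : ℕ) [NeZero n] (f₀ : LaurentSeries K) (m : ℕ) :
    wSeq (qExpand K n f₀) (n * m) = (n : K) * wSeq f₀ m := by
  rw [wSeq_apply, wSeq_apply, dlogL_qExpand, natCast_mul_coeff]
  congr 1
  have : ((n * m : ℕ) : ℤ) = (n : ℤ) * (m : ℤ) := by push_cast; ring
  rw [this, qExpand_coeff_mul]

end Descent2

end Fermat.Agent.T8.helper87
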