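import Mathlib
import Fermat.Agent.T2.helper20_Kum
import Fermat.Agent.P2.helper29_Assembly

/-!
# T8 [COVER-GAL] (helper87): the root `Z₁` of the cover is fixed by `I₁`

`A` a valuation subring of `ℚ̄` over `p`, `ζ` a primitive `p`-th root of unity, `l = ζ - 1`.

* `pow_eq_one_of_crit` : if `Z = 1 + l E` is integral at the critical depth, `σ` lies in the
  inertia group, `σ ζ = ζ` and `σ Z = ζ ^ e Z`, then `ζ ^ e = 1`
  (`σ E - ζ ^ e E = 1 + ζ + ⋯ + ζ ^ (e - 1)`, and the reduction of the left side is `0`).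
* `root_fixed` : if moreover `Z ^ p = K` for a function `K` with `σ K = K`, then `σ Z = Z`
  (coefficientwise).  So for a Kummer function `K` of `l₀` which is fixed by
  `I₁ = {σ ∈ I : σ ζ = ζ}` and put at the critical depth, `Z₁` is fixed by `I₁`, and
  `helper87.mem_closure_of_fixed_stabilizer` gives the `K₀`-form of the cover.
-/

set_option autoImplicit false
set_option linter.unusedSectionVars false
set_option linter.unusedVariables false
set_option linter.style.haveILetI false

noncomputable section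

open HahnSeries IntermediateField AlgebraicCurve ModularCurve
open Fermat.Agent.S18.helper19 Fermat.Agent.P2.helper29 Fermat.Agent.P2.helper93

namespace Fermat.Agent.T8.helper87

variable {A : ValuationSubring Kb}

theorem coeffMap_C {R S : Type*} [CommRing R] [CommRing S] (f : R →+* S) (r : R) :
    coeffMap f (HahnSeries.C r : LaurentSeries R) = HahnSeries.C (f r) := by
  rw [HahnSeries.C_apply, coeffMap_single, HahnSeries.C_apply]

/-- **critical depth**: `σ Z = ζ ^ e Z` with `Z = 1 + (ζ - 1) E` integral forces `ζ ^ e = 1`. -/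
theorem pow_eq_one_of_crit {p : ℕ} [Fact p.Prime] [CharP (kA A) p]
    {σ : Kb ≃ₐ[ℚ] Kb} (hσ : σ ∈ A.inertiaSubgroupIn ℚ) (hσd : σ ∈ A.decompositionSubgroup ℚ)
    (z : A) (hπz : IsLocalRing.residue A z = 1) (hz1 : z ≠ 1) (hzp : z ^ p = 1)
    (hσz : decA σ hσd z = z)
    (Z E : LaurentSeries A) (hZ : Z = 1 + HahnSeries.C (z - 1) * E) (e : ℕ)
    (hσZ : actA σ hσd Z = HahnSeries.C (z ^ e) * Z) : z ^ e = 1 := by
  have hl : decA σ hσd (z - 1) = z - 1 := by rw [map_sub, map_one, hσz]
  have h1 : actA σ hσd Z = 1 + HahnSeries.C (z - 1) * actA σ hσd E := by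
    rw [hZ, map_add, map_one, map_mul]
    congr 2
    show coeffMap (decA σ hσd) (HahnSeries.C (z - 1)) = _
    rw [coeffMap_C, hl]
  have hgeom : z ^ e - 1 = (z - 1) * ∑ i ∈ Finset.range e, z ^ i := (mul_geom_sum z e).symm
  have h2 : (HahnSeries.C (z - 1) : LaurentSeries A)
        * (actA σ hσd E - HahnSeries.C (z ^ e) * E)
      = HahnSeries.C (z - 1) * HahnSeries.C (∑ i ∈ Finset.range e, z ^ i) := by
    have h3 : (1 : LaurentSeries A) + HahnSeries.C (z - 1) * actA σ hσd E
        = HahnSeries.C (z ^ e) * (1 + HahnSeries.C (z - 1) * E) := by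
      rw [← h1, hσZ, hZ]
    have h4 : (HahnSeries.C (z - 1) : LaurentSeries A)
          * HahnSeries.C (∑ i ∈ Finset.range e, z ^ i)
        = HahnSeries.C (z ^ e) - 1 := by
      rw [← map_mul, ← hgeom, map_sub, map_one]
    rw [h4]
    linear_combination h3
  have hC0 : (HahnSeries.C (z - 1) : LaurentSeries A) ≠ 0 := by
    intro h0
    have : (z - 1 : A) = 0 := by
      have h5 := congrArg (fun x : LaurentSeries A => x.coeff 0) h0
      simpa [HahnSeries.C_apply] using h5
    exact hz1 (sub_eq_zero.mp this)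
  have h5 : actA σ hσd E - HahnSeries.C (z ^ e) * E
      = HahnSeries.C (∑ i ∈ Finset.range e, z ^ i) := mul_left_cancel₀ hC0 h2
  have h6 := congrArg (red A) h5
  rw [map_sub, map_mul, Fermat.Agent.T2.helper20.red_actA_of_mem_inertia hσ hσd] at h6
  have h7 : red A (HahnSeries.C (z ^ e) : LaurentSeries A) = 1 := by
    show coeffMap (IsLocalRing.residue A) (HahnSeries.C (z ^ e)) = 1
    rw [coeffMap_C, map_pow, hπz, one_pow, map_one]
  have h8 : red A (HahnSeries.C (∑ i ∈ Finset.range e, z ^ i) : LaurentSeries A)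
      = HahnSeries.C ((e : ℕ) : kA A) := by
    show coeffMap (IsLocalRing.residue A) (HahnSeries.C (∑ i ∈ Finset.range e, z ^ i)) = _
    rw [coeffMap_C, map_sum]
    simp only [map_pow, hπz, one_pow, Finset.sum_const, Finset.card_range, nsmul_eq_mul, mul_one]
  rw [h7, one_mul, sub_self, h8] at h6
  have h9 : ((e : ℕ) : kA A) = 0 := by
    have h10 : (HahnSeries.C ((e : ℕ) : kA A) : LaurentSeries (kA A)).coeff 0 = 0 := by
      rw [← h6]; rfl
    rwa [HahnSeries.C_apply, HahnSeries.coeff_single_same] at h10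
  obtain ⟨k, rfl⟩ := (CharP.cast_eq_zero_iff (kA A) p e).mp h9
  rw [pow_mul, hzp, one_pow]

/-- **[Z1-FIX]** the integral root `Z` at the critical depth of a function fixed by `σ`
(`σ` in the inertia group, `σ ζ = ζ`) is fixed by `σ`, coefficientwise. -/
theorem root_fixed {p : ℕ} (hp : p.Prime) (hA : A.LiesOverPrime p) {M : ℕ} [NeZero M]
    (K : FF M) {σ : Kb ≃ₐ[ℚ] Kb} (hσ : σ ∈ A.inertiaSubgroupIn ℚ)
    (hσζ : ∀ z : Kb, z ^ p = 1 → σ z = z) (hK : galF M σ K = K)
    (z : A) (hz : IsPrimitiveRoot (z : Kb) p)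
    (Z E : LaurentSeries A) (h1 : incl A Z ^ p = (K : LaurentSeries Kb))
    (hZ : Z = 1 + HahnSeries.C (z - 1) * E) :
    coeffMap (σ : Kb →+* Kb) (incl A Z) = incl A Z := by
  classical
  haveI : Fact p.Prime := ⟨hp⟩
  haveI hchar : CharP (kA A) p := charP_residueField hp hA
  obtain ⟨hσd, -⟩ := decK_eq_id_of_mem_inertia hσ
  have hzp : z ^ p = 1 := by
    apply Subtype.ext
    rw [SubmonoidClass.coe_pow, hz.pow_eq_one]
    rfl
  have hπz : IsLocalRing.residue A z = 1 := by
    have h : (IsLocalRing.residue A z - 1) ^ p = 0 := by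
      rw [sub_pow_char, one_pow, ← map_pow, hzp, map_one, sub_self]
    exact sub_eq_zero.mp ((pow_eq_zero_iff hp.ne_zero).mp h)
  have hz1 : z ≠ 1 := by
    intro h
    have h2 : (z : Kb) = 1 := by rw [h]; rfl
    exact hz.ne_one hp.one_lt h2
  have hσz : decA σ hσd z = z := by
    apply Subtype.ext
    show σ (z : Kb) = (z : Kb)
    exact hσζ _ hz.pow_eq_one
  -- `Z ≠ 0`
  have hπl : IsLocalRing.residue A (z - 1) = 0 := by rw [map_sub, hπz, map_one, sub_self]
  have hredZ : red A Z = 1 := by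
    rw [hZ, map_add, map_one, map_mul]
    have : red A (HahnSeries.C (z - 1) : LaurentSeries A) = 0 := by
      show coeffMap (IsLocalRing.residue A) (HahnSeries.C (z - 1)) = 0
      rw [coeffMap_C, hπl, map_zero]
    rw [this, zero_mul, add_zero]
  have hZne : incl A Z ≠ 0 := by
    intro h0
    have hZ0 : Z = 0 := Fermat.Agent.P2.helper29.incl_injective A (h0.trans (map_zero _).symm)
    rw [hZ0, map_zero] at hredZ
    exact zero_ne_one hredZ
  -- the quotient is a root of unity
  have e1 : incl A (actA σ hσd Z) = coeffMap (σ : Kb →+* Kb) (incl A Z) :=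
    coeffMap_subtype_actA σ hσd Z
  have hpow : (coeffMap (σ : Kb →+* Kb) (incl A Z)) ^ p = incl A Z ^ p := by
    rw [← map_pow, h1]
    have : coeffMap (σ : Kb →+* Kb) (K : LaurentSeries Kb) = ((galF M σ K : FF M) : LaurentSeries Kb) :=
      rfl
    rw [this, hK]
  have hq : (coeffMap (σ : Kb →+* Kb) (incl A Z) / incl A Z) ^ p = 1 := by
    rw [div_pow, hpow, div_self (pow_ne_zero _ hZne)]
  have hζ' : IsPrimitiveRoot (algebraMap Kb (LaurentSeries Kb) (z : Kb)) p :=
    hz.map_of_injective (algebraMap Kb (LaurentSeries Kb)).injective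
  haveI : NeZero p := ⟨hp.ne_zero⟩
  obtain ⟨e, -, he⟩ := hζ'.eq_pow_of_pow_eq_one hq
  have hC : ∀ c : A, incl A (HahnSeries.C c : LaurentSeries A)
      = algebraMap Kb (LaurentSeries Kb) (c : Kb) := by
    intro c
    show coeffMap A.subtype (HahnSeries.C c) = _
    rw [coeffMap_C, algebraMap_laurentSeries_eq_single, HahnSeries.C_apply]
    rfl
  have hσZ : actA σ hσd Z = HahnSeries.C (z ^ e) * Z := by
    apply Fermat.Agent.P2.helper29.incl_injective A
    rw [e1, map_mul, hC]
    have h3 : ((z ^ e : A) : Kb) = (z : Kb) ^ e := rfl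
    rw [h3, map_pow, he, div_mul_cancel₀ _ hZne]
  have hze := pow_eq_one_of_crit hσ hσd z hπz hz1 hzp hσz Z E hZ e hσZ
  rw [← e1, hσZ, hze, map_one, one_mul]

end Fermat.Agent.T8.helper87
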