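/-
T8 (row 38), helper88: **[B4] in SHEET form** (input of [COVER]: the inertia action on
`F' = F(Z₁)` and "inertia fixes every sheet").

The landed `helper27.B4Statement` only says `σ K * K ^ (p - a) = v ^ p`.  Its proof
(`T7/helper88_B4Asm.b4_of`) shows more: the SAME function `v` has the pair of expansions
`(σ Z₁ * Z₁ ^ (p - a), σ Z₂ * Z₂ ^ (p - a))`, where `(Z₁, Z₂)` is the pair of integral `p`-th
roots of the pair of expansions `(K, W K)`.  So the root of unity relating `σ Z₁` to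
`v Z₁ ^ a / K` at `∞` and the one relating `σ Z₂` to `W v Z₂ ^ a / W K` at `∞₂` are both `1`.

* `b4_rep_of`   : generic level and involution, from `PivotInst`;
* `b4_rep_bad`  : the bad pair `(N * p, atkinLehner N p)`, unconditional;
* `b4_sheet_bad`: the same in coefficientwise form
                  `σ (Z₁) * Z₁ ^ (p - a) = v`, `σ (Z₂) * Z₂ ^ (p - a) = W v` in `Kb((q))`.

New file; imports landed T7 files only.
-/
import Mathlib
import Fermat.Agent.T7.helper88_B4Asm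

set_option autoImplicit false
set_option synthInstance.maxHeartbeats 400000
set_option linter.unusedSectionVars false
set_option linter.unusedVariables false
set_option linter.style.haveILetI false

noncomputable section

open HahnSeries IntermediateField AlgebraicCurve ModularCurve
open Fermat.Agent.S18.helper19 Fermat.Agent.P2.helper29
open Fermat.Agent.P2.helper22 Fermat.Agent.P2.helper74 Fermat.Agent.P2.helper93
open Fermat.Agent.T2.helper74 Fermat.Agent.T2.helper36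
open Fermat.Agent.T7.helper88

namespace Fermat.Agent.T8.helper88

section Asm

variable {M : ℕ} [NeZero M] {W : FF M ≃ₐ[Kb] FF M} {A : ValuationSubring Kb}

/-- **[B4] with the representative**: for `K` with `IsA0One` whose pair of expansions is the
`p`-th power of the integral pair `(Z₁, Z₂)` of reduction `(1, 1)`, and `σ` in inertia acting
on `μ_p` by `z ↦ z ^ a`, the twisted pair `(σ Z₁ * Z₁ ^ (p - a), σ Z₂ * Z₂ ^ (p - a))` is the
pair of expansions of ONE function `v`, regular off the two cusps, and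
`σ K * K ^ (p - a) = v ^ p`. -/
theorem b4_rep_of (hWW : ∀ f, W (W f) = f) (hne : inftyBar M ≠ W • inftyBar M)
    (hWgal : ∀ (σ : Kb ≃ₐ[ℚ] Kb) (x : FF M), W (galF M σ x) = galF M σ (W x))
    {p : ℕ} (hp : p.Prime) (hA : A.LiesOverPrime p)
    (hI : ∃ N₀ : ℤ, ∀ N : ℤ, N₀ ≤ N → PivotInst W A p N)
    (K : FF M) (hK : Fermat.Agent.T2.IsA0One M W A K) (Z₁ Z₂ : LaurentSeries A)
    (h1 : incl A Z₁ ^ p = (K : LaurentSeries Kb))
    (h2 : incl A Z₂ ^ p = ((W K : FF M) : LaurentSeries Kb))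
    (hr1 : red A Z₁ = 1) (hr2 : red A Z₂ = 1)
    (σ : Kb ≃ₐ[ℚ] Kb) (hσ : σ ∈ A.inertiaSubgroupIn ℚ)
    (hσ' : σ ∈ A.decompositionSubgroup ℚ) (a : ℕ) (hap : a ≤ p)
    (hζ : ∀ z : Kb, z ^ p = 1 → σ z = z ^ a) :
    ∃ v : FF M, RegOff2 W v ∧
      Fermat.Agent.T2.helper22.IsRep A W v (actA σ hσ' Z₁ * Z₁ ^ (p - a))
        (actA σ hσ' Z₂ * Z₂ ^ (p - a)) ∧
      galF M σ K * K ^ (p - a) = v ^ p := by
  obtain ⟨l, τ, s, r, hl, hls, hπl, hsl⟩ := exists_cyclo_data A hp hA σ hσ' a hζ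
  obtain ⟨N₀, hN₀⟩ := hI
  have hKreg : RegOff2 W K := hK.1
  -- the pole bounds
  obtain ⟨N, hN⟩ : ∃ N : ℤ, N = max N₀ (max (-(Z₁.order)) (-(Z₂.order))) := ⟨_, rfl⟩
  have hN1 : N₀ ≤ N := by rw [hN]; exact le_max_left _ _
  have hN3 : -N ≤ Z₁.order := by
    have := le_trans (le_max_left (-(Z₁.order)) (-(Z₂.order))) (le_max_right N₀ _)
    rw [← hN] at this
    omega
  have hN4 : -N ≤ Z₂.order := by
    have := le_trans (le_max_right (-(Z₁.order)) (-(Z₂.order))) (le_max_right N₀ _)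
    rw [← hN] at this
    omega
  have hI1 := hN₀ N hN1
  have hN0 : 0 ≤ N := hI1.nonneg
  obtain ⟨N₂, hN₂⟩ : ∃ N₂ : ℤ, N₂ = N + ((p - a : ℕ) : ℤ) * N := ⟨_, rfl⟩
  have hN₂N : N ≤ N₂ := by
    have hm0 : (0 : ℤ) ≤ ((p - a : ℕ) : ℤ) := Int.natCast_nonneg _
    rw [hN₂]
    nlinarith
  have hI2 := hN₀ N₂ (le_trans hN1 hN₂N)
  haveI : CharP (kA A) p := charP_residueField hp hA
  have hpk : ((p : ℕ) : kA A) = 0 := CharP.cast_eq_zero (kA A) p
  -- the twisted function and the twisted family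
  obtain ⟨K', hK'⟩ : ∃ K' : FF M, K' = galF M σ K * K ^ (p - a) := ⟨_, rfl⟩
  obtain ⟨Y₁, hY₁⟩ : ∃ Y₁ : LaurentSeries A, Y₁ = actA σ hσ' Z₁ * Z₁ ^ (p - a) := ⟨_, rfl⟩
  obtain ⟨Y₂, hY₂⟩ : ∃ Y₂ : LaurentSeries A, Y₂ = actA σ hσ' Z₂ * Z₂ ^ (p - a) := ⟨_, rfl⟩
  have hfam : famMap (decA σ hσ') ![Z₁, Z₂] * ![Z₁, Z₂] ^ (p - a) = ![Y₁, Y₂] := by
    funext i
    fin_cases i
    · exact hY₁.symm
    · exact hY₂.symm
  have hK'reg : RegOff2 W K' := by
    rw [hK']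
    exact RegOff2.mul W (regOff2_galF hWgal σ hKreg) (regOff2_pow hKreg _)
  have hY1 : incl A Y₁ ^ p = (K' : LaurentSeries Kb) := by
    have e1 : incl A (actA σ hσ' Z₁) = coeffMap (σ : Kb →+* Kb) (incl A Z₁) :=
      coeffMap_subtype_actA σ hσ' Z₁
    have e2 : (K' : LaurentSeries Kb) = coeffMap (σ : Kb →+* Kb) (K : LaurentSeries Kb) *
        (K : LaurentSeries Kb) ^ (p - a) := by
      rw [hK']
      rfl
    rw [e2, ← h1, map_pow, hY₁, map_mul, map_pow, e1]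
    ring
  have hY2 : incl A Y₂ ^ p = ((W K' : FF M) : LaurentSeries Kb) := by
    have e1 : incl A (actA σ hσ' Z₂) = coeffMap (σ : Kb →+* Kb) (incl A Z₂) :=
      coeffMap_subtype_actA σ hσ' Z₂
    have e2 : ((W K' : FF M) : LaurentSeries Kb) =
        coeffMap (σ : Kb →+* Kb) ((W K : FF M) : LaurentSeries Kb) *
        ((W K : FF M) : LaurentSeries Kb) ^ (p - a) := by
      rw [hK', map_mul, map_pow, hWgal]
      rfl
    rw [e2, ← h2, map_pow, hY₂, map_mul, map_pow, e1]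
    ring
  have hY₁ord : -N₂ ≤ Y₁.order := by
    rw [hY₁, hN₂]
    exact order_twist_ge hσ' Z₁ hN0 hN3 _
  have hY₂ord : -N₂ ≤ Y₂.order := by
    rw [hY₂, hN₂]
    exact order_twist_ge hσ' Z₂ hN0 hN4 _
  -- attained content
  have hatt : ∀ u ∈ VN W N, famMap A.subtype ![Z₁, Z₂] - u ≠ 0 →
      ContentAttainedFam A (IsLocalRing.residue A) (famMap A.subtype ![Z₁, Z₂] - u) := by
    intro u hu hne'
    refine Fermat.Agent.T7.helper22.contentAttained_sub_of_roots M A (IsLocalRing.residue A)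
      residue_ne_zero_isUnit hp.pos ![Z₁, Z₂] ?_ u ?_ (hI1.att u hu) hne'
    · intro i
      fin_cases i
      · show incl A Z₁ ^ p ∈ FF M
        rw [h1]
        exact K.2
      · show incl A Z₂ ^ p ∈ FF M
        rw [h2]
        exact (W K).2
    · intro i
      obtain ⟨f, hf, rfl⟩ := Submodule.mem_map.mp hu
      fin_cases i
      · exact f.2
      · exact (W f).2
  -- the monoid trick
  have key := Fermat.Agent.T7.helper96.mem_of_twist A (IsLocalRing.residue A)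
    residue_ne_zero_isUnit IsLocalRing.residue_surjective
    (Fermat.Agent.P2.helper74.arch_algebraicClosure A p hp hA) p hp
    (Nat.cast_ne_zero.mpr hp.ne_zero) hpk l τ s r hl hls hπl (decA σ hσ')
    (fun x => residue_decA_of_mem_inertia hσ hσ' x) a hap hsl
    (VN W N) (VN W ((p : ℤ) * N)) (fun _ => N) hI1.att hI1.ord hI1.pow hI1.one hI1.fc
    (VN W N₂) (VN W ((p : ℤ) * N₂)) (fun _ => N₂) (fun _ => hI2.nonneg) hI2.att hI2.att'
    hI2.ord hI2.pow hI2.red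
    (fun U hU => gal_mem_VN hWW hne hWgal hσ' U hU)
    (fun u v hu hv => by
      rw [hN₂]
      exact pairLin_mul_mem_VN hWW hne hu (pow_VN hWW hne N (p - a) v hv))
    ![Z₁, Z₂] (pow_pair_mem_VN hWW hne p K hKreg Z₁ Z₂ h1 h2 hN3 hN4)
    (pair_red_eq_one Z₁ Z₂ hr1 hr2) (pair_ord Z₁ Z₂ hN3 hN4) hatt
    (by
      rw [hfam]
      exact pow_pair_mem_VN hWW hne p K' hK'reg Y₁ Y₂ hY1 hY2 hY₁ord hY₂ord)
    (by
      rw [hfam]
      exact pair_ord Y₁ Y₂ hY₁ord hY₂ord)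
  rw [hfam] at key
  obtain ⟨v, hv, hrep⟩ := exists_L2_of_mem_VN key
  have hrep' : Fermat.Agent.T2.helper22.IsRep A W v Y₁ Y₂ := hrep
  refine ⟨v, ((mem_L2_iff W hWW hne _ _).mp hv).1, ?_, ?_⟩
  · rw [← hY₁, ← hY₂]
    exact hrep'
  · rw [← hK']
    apply Subtype.ext
    show (K' : LaurentSeries Kb) = ((v : LaurentSeries Kb)) ^ p
    rw [← hY1]
    exact congrArg (· ^ p) hrep'.1

/-- the function `v` of `b4_rep_of` is again `IsA0One` (reduction `(1, 1)`) -/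
theorem isA0One_of_twist_rep {v : FF M} (hreg : RegOff2 W v) {Z₁ Z₂ : LaurentSeries A}
    (hr1 : red A Z₁ = 1) (hr2 : red A Z₂ = 1)
    {σ : Kb ≃ₐ[ℚ] Kb} (hσ : σ ∈ A.inertiaSubgroupIn ℚ)
    (hσ' : σ ∈ A.decompositionSubgroup ℚ) (m : ℕ)
    (hrep : Fermat.Agent.T2.helper22.IsRep A W v (actA σ hσ' Z₁ * Z₁ ^ m)
      (actA σ hσ' Z₂ * Z₂ ^ m)) :
    Fermat.Agent.T2.IsA0One M W A v := by
  refine ⟨hreg, _, _, hrep.1, hrep.2, ?_, ?_⟩
  · rw [map_mul, map_pow, Fermat.Agent.T2.helper20.red_actA_of_mem_inertia hσ hσ', hr1,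
      one_pow, one_mul]
  · rw [map_mul, map_pow, Fermat.Agent.T2.helper20.red_actA_of_mem_inertia hσ hσ', hr2,
      one_pow, one_mul]

end Asm

/-! ### The bad pair -/

section Bad

variable (N p : ℕ) [NeZero N] [NeZero p] (hp : p.Prime) (hpN : ¬ p ∣ N)

/-- **[B4] with the representative, at the bad pair**, unconditional. -/
theorem b4_rep_bad (hN : 4 ∣ N ∨ 9 ∣ N) (A : ValuationSubring Kb)
    (hA : A.LiesOverPrime p)
    (K : FF (N * p)) (hK : Fermat.Agent.T2.IsA0One (N * p) (atkinLehner N p hp hpN) A K)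
    (Z₁ Z₂ : LaurentSeries A)
    (h1 : incl A Z₁ ^ p = (K : LaurentSeries Kb))
    (h2 : incl A Z₂ ^ p = ((atkinLehner N p hp hpN K : FF (N * p)) : LaurentSeries Kb))
    (hr1 : red A Z₁ = 1) (hr2 : red A Z₂ = 1)
    (σ : Kb ≃ₐ[ℚ] Kb) (hσ : σ ∈ A.inertiaSubgroupIn ℚ)
    (hσ' : σ ∈ A.decompositionSubgroup ℚ) (a : ℕ) (hap : a ≤ p)
    (hζ : ∀ z : Kb, z ^ p = 1 → σ z = z ^ a) :
    ∃ v : FF (N * p), RegOff2 (atkinLehner N p hp hpN) v ∧
      Fermat.Agent.T2.helper22.IsRep A (atkinLehner N p hp hpN) v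
        (actA σ hσ' Z₁ * Z₁ ^ (p - a)) (actA σ hσ' Z₂ * Z₂ ^ (p - a)) ∧
      galF (N * p) σ K * K ^ (p - a) = v ^ p :=
  b4_rep_of (atkinLehner_atkinLehner N p hp hpN) (inftyBar_ne_smul N p hp hpN)
    (fun σ x => atkinLehner_arithmeticRingAut N p hp hpN σ x) hp hA
    (pivotInst_bad N p hp hpN hN A hA) K hK Z₁ Z₂ h1 h2 hr1 hr2 σ hσ hσ' a hap hζ

/-- **Sheet form**: coefficientwise, in `Kb((q))`: `σ(Z₁) Z₁ ^ (p - a) = v` and
`σ(Z₂) Z₂ ^ (p - a) = W v` with the SAME `v`. -/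
theorem b4_sheet_bad (hN : 4 ∣ N ∨ 9 ∣ N) (A : ValuationSubring Kb)
    (hA : A.LiesOverPrime p)
    (K : FF (N * p)) (hK : Fermat.Agent.T2.IsA0One (N * p) (atkinLehner N p hp hpN) A K)
    (Z₁ Z₂ : LaurentSeries A)
    (h1 : incl A Z₁ ^ p = (K : LaurentSeries Kb))
    (h2 : incl A Z₂ ^ p = ((atkinLehner N p hp hpN K : FF (N * p)) : LaurentSeries Kb))
    (hr1 : red A Z₁ = 1) (hr2 : red A Z₂ = 1)
    (σ : Kb ≃ₐ[ℚ] Kb) (hσ : σ ∈ A.inertiaSubgroupIn ℚ) (a : ℕ) (hap : a ≤ p)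
    (hζ : ∀ z : Kb, z ^ p = 1 → σ z = z ^ a) :
    ∃ v : FF (N * p), RegOff2 (atkinLehner N p hp hpN) v ∧
      coeffMap (σ : Kb →+* Kb) (incl A Z₁) * incl A Z₁ ^ (p - a) = (v : LaurentSeries Kb) ∧
      coeffMap (σ : Kb →+* Kb) (incl A Z₂) * incl A Z₂ ^ (p - a) =
        ((atkinLehner N p hp hpN v : FF (N * p)) : LaurentSeries Kb) ∧
      galF (N * p) σ K * K ^ (p - a) = v ^ p := by
  obtain ⟨hσ', -⟩ := decK_eq_id_of_mem_inertia hσ
  obtain ⟨v, hreg, hrep, hv⟩ :=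
    b4_rep_bad N p hp hpN hN A hA K hK Z₁ Z₂ h1 h2 hr1 hr2 σ hσ hσ' a hap hζ
  refine ⟨v, hreg, ?_, ?_, hv⟩
  · rw [← hrep.1, map_mul, map_pow, coeffMap_subtype_actA σ hσ' Z₁]
  · rw [← hrep.2, map_mul, map_pow, coeffMap_subtype_actA σ hσ' Z₂]

/-- **Pair form** (input of [COVER-GAL]): `σ Z₁ = w Z₁ ^ a` at `∞` and
`σ Z₂ = (W w) Z₂ ^ a` at `∞₂` with ONE function `w` of the level `N * p`
(`w = v / K` with `v` of `b4_sheet_bad`). -/
theorem b4_pair_bad (hN : 4 ∣ N ∨ 9 ∣ N) (A : ValuationSubring Kb)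
    (hA : A.LiesOverPrime p)
    (K : FF (N * p)) (hK : Fermat.Agent.T2.IsA0One (N * p) (atkinLehner N p hp hpN) A K)
    (Z₁ Z₂ : LaurentSeries A)
    (h1 : incl A Z₁ ^ p = (K : LaurentSeries Kb))
    (h2 : incl A Z₂ ^ p = ((atkinLehner N p hp hpN K : FF (N * p)) : LaurentSeries Kb))
    (hr1 : red A Z₁ = 1) (hr2 : red A Z₂ = 1)
    (σ : Kb ≃ₐ[ℚ] Kb) (hσ : σ ∈ A.inertiaSubgroupIn ℚ) (a : ℕ) (hap : a ≤ p)
    (hζ : ∀ z : Kb, z ^ p = 1 → σ z = z ^ a) :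
    ∃ w : FF (N * p), w ≠ 0 ∧
      coeffMap (σ : Kb →+* Kb) (incl A Z₁) = (w : LaurentSeries Kb) * incl A Z₁ ^ a ∧
      coeffMap (σ : Kb →+* Kb) (incl A Z₂) =
        ((atkinLehner N p hp hpN w : FF (N * p)) : LaurentSeries Kb) * incl A Z₂ ^ a := by
  obtain ⟨v, -, hv1, hv2, hv⟩ :=
    b4_sheet_bad N p hp hpN hN A hA K hK Z₁ Z₂ h1 h2 hr1 hr2 σ hσ a hap hζ
  have hpne : p ≠ 0 := hp.ne_zero
  have hinj : Function.Injective (incl A) := Fermat.Agent.P2.helper29.incl_injective A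
  -- nonvanishing
  have hZ1 : incl A Z₁ ≠ 0 := by
    intro h
    have h6 : Z₁ = 0 := hinj (by rw [h, map_zero])
    rw [h6, map_zero] at hr1
    exact zero_ne_one hr1
  have hZ2 : incl A Z₂ ≠ 0 := by
    intro h
    have h6 : Z₂ = 0 := hinj (by rw [h, map_zero])
    rw [h6, map_zero] at hr2
    exact zero_ne_one hr2
  have hKc : (K : LaurentSeries Kb) ≠ 0 := by
    rw [← h1]
    exact pow_ne_zero _ hZ1
  have hK0 : K ≠ 0 := fun h => hKc (by rw [h]; rfl)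
  have hsplit : p - a + a = p := Nat.sub_add_cancel hap
  have hσZ1 : coeffMap (σ : Kb →+* Kb) (incl A Z₁) ≠ 0 := by
    intro h
    have hinj' : Function.Injective (coeffMap (σ : Kb →+* Kb)) :=
      Fermat.Agent.P2.helper44.coeffMap_injective_of_inj _ (σ : Kb →+* Kb).injective
    exact hZ1 (hinj' (by rw [h, map_zero]))
  have hvc : (v : LaurentSeries Kb) ≠ 0 := by
    rw [← hv1]
    exact mul_ne_zero hσZ1 (pow_ne_zero _ hZ1)
  have hv0 : v ≠ 0 := fun h => hvc (by rw [h]; rfl)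
  have key : ∀ (S Z : LaurentSeries Kb), Z ≠ 0 → S = S * Z ^ (p - a) * (Z ^ p)⁻¹ * Z ^ a := by
    intro S Z hZ
    have hZp : Z ^ p ≠ 0 := pow_ne_zero _ hZ
    have h3 : Z ^ (p - a) * Z ^ a = Z ^ p := by rw [← _root_.pow_add, hsplit]
    calc S = S * (Z ^ p) * (Z ^ p)⁻¹ := by rw [mul_inv_cancel_right₀ hZp]
      _ = S * (Z ^ (p - a) * Z ^ a) * (Z ^ p)⁻¹ := by rw [h3]
      _ = S * Z ^ (p - a) * (Z ^ p)⁻¹ * Z ^ a := by ring
  refine ⟨v * K⁻¹, mul_ne_zero hv0 (inv_ne_zero hK0), ?_, ?_⟩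
  · have e : ((v * K⁻¹ : FF (N * p)) : LaurentSeries Kb)
        = (v : LaurentSeries Kb) * ((K : LaurentSeries Kb))⁻¹ := rfl
    rw [e, ← hv1, ← h1]
    exact key _ _ hZ1
  · have e : ((atkinLehner N p hp hpN (v * K⁻¹) : FF (N * p)) : LaurentSeries Kb)
        = ((atkinLehner N p hp hpN v : FF (N * p)) : LaurentSeries Kb) *
          (((atkinLehner N p hp hpN K : FF (N * p)) : LaurentSeries Kb))⁻¹ := by
      rw [map_mul, map_inv₀]
      rfl
    rw [e, ← hv2, ← h2]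
    exact key _ _ hZ2

end Bad

end Fermat.Agent.T8.helper88

end
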