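/-
T8 (row 38), leaf [COVER-GAL], K0-form, abstract core (helper88), Mathlib only.

**Galois descent by Lagrange interpolation.**  `E / k` a field extension, `Φ` a set of ring
endomorphisms of `E` acting on the constants `k`, `O` a finite set of constants, `X : k → E` a
family indexed by `O` which is `Φ`-equivariant (`g (X b) = X (π b)` where `π` is the action
of `g` on the constants, `π O ⊆ O`).  Then every `X c`, `c ∈ O`, lies in the subfield generated
by the constants and the `Φ`-fixed elements:

  `X c = ∑_n l_n * y_n`,  `y_n := ∑_{b ∈ O} b ^ n * X b` (`Φ`-fixed),  `∑ l_n T ^ n` the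
  Lagrange basis polynomial of the node `c`.

* `lagrangeSum`, `lagrangeSum_fixed`, `lagrangeSum_mem`, `mem_closure_of_equivariant`.
-/
import Mathlib

set_option autoImplicit false
set_option linter.unusedSectionVars false
set_option linter.unusedVariables false

noncomputable section

namespace Fermat.Agent.T8.helper88

open Polynomial

section Lagrange

variable {k E : Type*} [Field k] [Field E] [Algebra k E]

/-- the twisted trace `∑_{b ∈ O} P(b) * X b` -/
def lagrangeSum (O : Finset k) (X : k → E) (P : k[X]) : E :=
  ∑ b ∈ O, algebraMap k E (P.eval b) * X b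

theorem lagrangeSum_add (O : Finset k) (X : k → E) (P Q : k[X]) :
    lagrangeSum O X (P + Q) = lagrangeSum O X P + lagrangeSum O X Q := by
  unfold lagrangeSum
  rw [← Finset.sum_add_distrib]
  refine Finset.sum_congr rfl (fun b _ => ?_)
  rw [eval_add, map_add, add_mul]

theorem lagrangeSum_monomial (O : Finset k) (X : k → E) (n : ℕ) (a : k) :
    lagrangeSum O X (monomial n a)
      = algebraMap k E a * lagrangeSum O X (Polynomial.X ^ n) := by
  unfold lagrangeSum
  rw [Finset.mul_sum]
  refine Finset.sum_congr rfl (fun b _ => ?_)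
  rw [eval_monomial, eval_pow, eval_X, map_mul, mul_assoc]

/-- the power sums are fixed by an equivariant endomorphism -/
theorem lagrangeSum_fixed (O : Finset k) (X : k → E) (g : E →+* E) (π : k → k)
    (hπ : ∀ b : k, g (algebraMap k E b) = algebraMap k E (π b))
    (hO : ∀ b ∈ O, π b ∈ O) (hX : ∀ b ∈ O, g (X b) = X (π b)) (n : ℕ) :
    g (lagrangeSum O X (Polynomial.X ^ n)) = lagrangeSum O X (Polynomial.X ^ n) := by
  classical
  have hinj : Function.Injective π := by
    intro a b hab
    have h1 : g (algebraMap k E a) = g (algebraMap k E b) := by rw [hπ, hπ, hab]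
    exact (algebraMap k E).injective (g.injective h1)
  have himg : O.image π = O := by
    apply Finset.eq_of_subset_of_card_le
    · intro b hb
      obtain ⟨a, ha, rfl⟩ := Finset.mem_image.mp hb
      exact hO a ha
    · rw [Finset.card_image_of_injective O hinj]
  unfold lagrangeSum
  rw [map_sum]
  have h2 : ∀ b ∈ O, g (algebraMap k E ((Polynomial.X ^ n : k[X]).eval b) * X b)
      = algebraMap k E ((Polynomial.X ^ n : k[X]).eval (π b)) * X (π b) := by
    intro b hb
    rw [map_mul, hX b hb, eval_pow, eval_X, eval_pow, eval_X, map_pow (algebraMap k E),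
      map_pow g, hπ, map_pow (algebraMap k E)]
  rw [Finset.sum_congr rfl h2]
  conv_rhs => rw [← himg]
  rw [Finset.sum_image (fun a _ b _ hab => hinj hab)]

/-- every twisted trace lies in the subfield generated by the constants and the fixed
elements -/
theorem lagrangeSum_mem (Φ : Set (E →+* E)) (O : Finset k) (X : k → E)
    (h : ∀ g ∈ Φ, ∃ π : k → k, (∀ b : k, g (algebraMap k E b) = algebraMap k E (π b)) ∧
      (∀ b ∈ O, π b ∈ O) ∧ ∀ b ∈ O, g (X b) = X (π b)) (P : k[X]) :
    lagrangeSum O X P ∈ Subfield.closure
      (Set.range (algebraMap k E) ∪ {f : E | ∀ g ∈ Φ, g f = f}) := by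
  induction P using Polynomial.induction_on' with
  | add P Q hP hQ =>
    rw [lagrangeSum_add]
    exact add_mem hP hQ
  | monomial n a =>
    rw [lagrangeSum_monomial]
    refine mul_mem (Subfield.subset_closure (Or.inl ⟨a, rfl⟩))
      (Subfield.subset_closure (Or.inr ?_))
    intro g hg
    obtain ⟨π, hπ, hO, hX⟩ := h g hg
    exact lagrangeSum_fixed O X g π hπ hO hX n

/-- **Descent by Lagrange interpolation**: the members of a finite equivariant family lie in
the subfield generated by the constants and the fixed elements. -/
theorem mem_closure_of_equivariant (Φ : Set (E →+* E)) (O : Finset k) (X : k → E)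
    (h : ∀ g ∈ Φ, ∃ π : k → k, (∀ b : k, g (algebraMap k E b) = algebraMap k E (π b)) ∧
      (∀ b ∈ O, π b ∈ O) ∧ ∀ b ∈ O, g (X b) = X (π b)) {c : k} (hc : c ∈ O) :
    X c ∈ Subfield.closure
      (Set.range (algebraMap k E) ∪ {f : E | ∀ g ∈ Φ, g f = f}) := by
  classical
  have key : lagrangeSum O X (Lagrange.basis O id c) = X c := by
    unfold lagrangeSum
    rw [Finset.sum_eq_single c]
    · have h1 : (Lagrange.basis O id c).eval (id c) = 1 :=
        Lagrange.eval_basis_self (v := id) (fun a _ b _ hab => hab) hc
      rw [id] at h1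
      rw [h1, map_one, one_mul]
    · intro b hb hbc
      have h0 : (Lagrange.basis O id c).eval (id b) = 0 :=
        Lagrange.eval_basis_of_ne (v := id) hbc.symm hb
      rw [id] at h0
      rw [h0, map_zero, zero_mul]
    · intro hc'
      exact absurd hc hc'
  rw [← key]
  exact lagrangeSum_mem Φ O X h _

end Lagrange

end Fermat.Agent.T8.helper88

end
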