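/-
T8 (row 38), leaf [COVER-GAL], **K0-form** (helper88 owner): the cover `F' = F⟮Z⟯` is generated,
as a field, by the constants `ℚ̄` and the functions FIXED by the inertia group, and the inertia
group has finite orbits on the constants.  These are the fields `orbit` and `gen` of
`helper23.DictSetting Kb F' Φ` for `Φ = {D.actEquiv σ | σ ∈ I}` (dictionary on `X'`).

* `fixedByOpen_root`  : `Z` is fixed by the automorphisms fixing a number field;
* `exists_const_stab` : a constant `c` whose stabiliser fixes `Z`;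
* `covOrbit`          : `orbit`;
* `gen_mem_closure`   : `Z` lies in the closure of constants and fixed elements
                        (`mem_closure_of_equivariant`, Lagrange interpolation);
* `base_mem_closure`  : the same for the elements of `F`;
* `covGen`            : `gen`.
-/
import Mathlib
import Fermat.Agent.T8.helper88_CoverGalInst
import Fermat.Agent.T8.helper88_LagrangeGen
import Fermat.Agent.T3.helper58_Desc

set_option autoImplicit false
set_option synthInstance.maxHeartbeats 400000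
set_option linter.unusedSectionVars false
set_option linter.unusedVariables false
set_option linter.style.haveILetI false

noncomputable section

open HahnSeries IntermediateField AlgebraicCurve ModularCurve
open Fermat.Agent.S18.helper19 Fermat.Agent.P2.helper29
open Fermat.Agent.P2.helper22 Fermat.Agent.P2.helper74 Fermat.Agent.P2.helper93
open Fermat.Agent.T2.helper74 Fermat.Agent.T2.helper36
open Fermat.Agent.T8.helper86

namespace Fermat.Agent.T8.helper88

namespace CovData

variable {M : ℕ} [NeZero M] {W : FF M ≃ₐ[Kb] FF M} {A : ValuationSubring Kb} {p : ℕ}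
  (D : CovData M W A p)

/-- `Z` is fixed by every automorphism fixing a suitable number field -/
theorem fixedByOpen_root :
    ∃ L : IntermediateField ℚ Kb, FiniteDimensional ℚ L ∧
      ∀ g : Kb ≃ₐ[ℚ] Kb, (∀ y ∈ L, g y = y) → coeffMap (g : Kb →+* Kb) D.Z = D.Z := by
  obtain ⟨K₁, hfd, hK₁⟩ :=
    Fermat.Agent.P3.helper85.exists_numberField_fixing (modularFunctionFieldFull M) D.K
  haveI := hfd
  have hint : IsIntegral ℚ D.Z.leadingCoeff :=
    (AlgebraicClosure.isAlgebraic ℚ).isIntegral.isIntegral _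
  haveI : FiniteDimensional ℚ ℚ⟮D.Z.leadingCoeff⟯ :=
    IntermediateField.adjoin.finiteDimensional hint
  refine ⟨K₁ ⊔ ℚ⟮D.Z.leadingCoeff⟯, IntermediateField.finiteDimensional_sup _ _, fun g hg => ?_⟩
  by_cases hZ : D.Z = 0
  · rw [hZ, map_zero]
  have hgK : coeffMap (g : Kb →+* Kb) (D.K : LaurentSeries Kb) = (D.K : LaurentSeries Kb) := by
    have := hK₁ g (fun y hy => hg y ((le_sup_left : K₁ ≤ K₁ ⊔ ℚ⟮D.Z.leadingCoeff⟯) hy))
    exact congrArg Subtype.val this
  have hglc : g D.Z.leadingCoeff = D.Z.leadingCoeff :=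
    hg _ ((le_sup_right : ℚ⟮D.Z.leadingCoeff⟯ ≤ K₁ ⊔ ℚ⟮D.Z.leadingCoeff⟯)
      (mem_adjoin_simple_self ℚ _))
  have hlc0 : D.Z.leadingCoeff ≠ 0 := fun h => hZ (HahnSeries.leadingCoeff_eq_zero.mp h)
  have hpow : (coeffMap (g : Kb →+* Kb) D.Z * D.Z⁻¹) ^ p = 1 := by
    have e : D.Z ^ p = (D.K : LaurentSeries Kb) := D.h1
    rw [mul_pow, ← map_pow, inv_pow, e, hgK]
    exact mul_inv_cancel₀ (by rw [← e]; exact pow_ne_zero _ hZ)
  have hlcinv : (D.Z⁻¹).leadingCoeff = (D.Z.leadingCoeff)⁻¹ := by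
    have h1 : D.Z.leadingCoeff * (D.Z⁻¹).leadingCoeff = 1 := by
      rw [← HahnSeries.leadingCoeff_mul, mul_inv_cancel₀ hZ]
      exact HahnSeries.leadingCoeff_one
    exact eq_inv_of_mul_eq_one_right h1
  have hlc : (coeffMap (g : Kb →+* Kb) D.Z * D.Z⁻¹).leadingCoeff = 1 := by
    rw [HahnSeries.leadingCoeff_mul,
      Fermat.Agent.T3.helper58.leadingCoeff_coeffMap_inj _ (g : Kb ≃ₐ[ℚ] Kb).injective,
      hlcinv]
    show g D.Z.leadingCoeff * (D.Z.leadingCoeff)⁻¹ = 1
    rw [hglc]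
    exact mul_inv_cancel₀ hlc0
  have hone := Fermat.Agent.T3.helper58.eq_one_of_pow_eq_one D.hp.ne_zero hpow hlc
  calc coeffMap (g : Kb →+* Kb) D.Z
      = (coeffMap (g : Kb →+* Kb) D.Z * D.Z⁻¹) * D.Z := by
        rw [mul_assoc, inv_mul_cancel₀ hZ, mul_one]
    _ = D.Z := by rw [hone, one_mul]

/-- a constant whose stabiliser fixes `Z` -/
theorem exists_const_stab :
    ∃ c : Kb, ∀ g : Kb ≃ₐ[ℚ] Kb, g c = c → coeffMap (g : Kb →+* Kb) D.Z = D.Z := by
  obtain ⟨L, hfd, hL⟩ := D.fixedByOpen_root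
  haveI := hfd
  obtain ⟨α, hα⟩ := Field.exists_primitive_element ℚ L
  refine ⟨(α : Kb), fun g hg => hL g (fun y hy => ?_)⟩
  have key : ∀ z ∈ ℚ⟮α⟯, g ((z : L) : Kb) = ((z : L) : Kb) := by
    intro z hz
    induction hz using IntermediateField.adjoin_induction with
    | mem x hx =>
      rw [Set.mem_singleton_iff] at hx
      rw [hx]
      exact hg
    | algebraMap r =>
      exact g.commutes r
    | add x y _ _ hx hy =>
      show g (((x : L) : Kb) + ((y : L) : Kb)) = ((x : L) : Kb) + ((y : L) : Kb)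
      rw [map_add, hx, hy]
    | inv x _ hx =>
      show g (((x : L) : Kb)⁻¹) = ((x : L) : Kb)⁻¹
      rw [map_inv₀, hx]
    | mul x y _ _ hx hy =>
      show g (((x : L) : Kb) * ((y : L) : Kb)) = ((x : L) : Kb) * ((y : L) : Kb)
      rw [map_mul, hx, hy]
  have h1 : (⟨y, hy⟩ : L) ∈ ℚ⟮α⟯ := by
    rw [hα]
    trivial
  exact key ⟨y, hy⟩ h1

/-! ### The set of endomorphisms and the orbits of constants -/

/-- the inertia action on the cover, as a set of ring endomorphisms -/
def actSet : Set (Cov M D.Z →+* Cov M D.Z) :=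
  {g | ∃ σ : Kb ≃ₐ[ℚ] Kb, ∃ hσ : σ ∈ A.inertiaSubgroupIn ℚ, g = D.act σ hσ}

/-- the inertia action on the cover, as a set of ring automorphisms -/
def actEquivSet : Set (Cov M D.Z ≃+* Cov M D.Z) :=
  {g | ∃ σ : Kb ≃ₐ[ℚ] Kb, ∃ hσ : σ ∈ A.inertiaSubgroupIn ℚ, g = D.actEquiv σ hσ}

theorem act_algebraMap_const (σ : Kb ≃ₐ[ℚ] Kb) (hσ : σ ∈ A.inertiaSubgroupIn ℚ) (c : Kb) :
    D.act σ hσ (algebraMap Kb (Cov M D.Z) c) = algebraMap Kb (Cov M D.Z) (σ c) :=
  D.act_const σ hσ c

/-- the orbit of a constant under the inertia group is finite -/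
theorem orbit_finite (c : Kb) :
    {b : Kb | ∃ σ : Kb ≃ₐ[ℚ] Kb, σ ∈ A.inertiaSubgroupIn ℚ ∧ σ c = b}.Finite := by
  have hint : IsIntegral ℚ c := (AlgebraicClosure.isAlgebraic ℚ).isIntegral.isIntegral c
  refine Set.Finite.subset ((minpoly ℚ c).rootSet_finite Kb) ?_
  rintro b ⟨σ, -, rfl⟩
  rw [Polynomial.mem_rootSet]
  refine ⟨minpoly.ne_zero hint, ?_⟩
  rw [Polynomial.aeval_algHom_apply, minpoly.aeval, map_zero]

/-- the orbit of a constant, as a finite set -/
def orbitFinset (c : Kb) : Finset Kb := (orbit_finite (A := A) c).toFinset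

theorem mem_orbitFinset {c b : Kb} :
    b ∈ orbitFinset (A := A) c ↔ ∃ σ : Kb ≃ₐ[ℚ] Kb, σ ∈ A.inertiaSubgroupIn ℚ ∧ σ c = b := by
  unfold orbitFinset
  rw [Set.Finite.mem_toFinset]
  rfl

theorem self_mem_orbitFinset (c : Kb) : c ∈ orbitFinset (A := A) c :=
  mem_orbitFinset.mpr ⟨1, one_mem _, rfl⟩

theorem smul_mem_orbitFinset {c b : Kb} (hb : b ∈ orbitFinset (A := A) c)
    (τ : Kb ≃ₐ[ℚ] Kb) (hτ : τ ∈ A.inertiaSubgroupIn ℚ) : τ b ∈ orbitFinset (A := A) c := by
  obtain ⟨σ, hσ, rfl⟩ := mem_orbitFinset.mp hb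
  exact mem_orbitFinset.mpr ⟨τ * σ, mul_mem hτ hσ, rfl⟩

/-- **(orbit)** every constant lies in a finite set of constants stable under the inertia
action on the cover -/
theorem covOrbit (c : Kb) : ∃ S : Finset Kb, c ∈ S ∧
    ∀ g ∈ D.actEquivSet, ∀ b ∈ S, ∃ b' ∈ S,
      g (algebraMap Kb (Cov M D.Z) b) = algebraMap Kb (Cov M D.Z) b' := by
  refine ⟨orbitFinset (A := A) c, self_mem_orbitFinset c, ?_⟩
  rintro g ⟨σ, hσ, rfl⟩ b hb
  exact ⟨σ b, smul_mem_orbitFinset hb σ hσ, D.act_algebraMap_const σ hσ b⟩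

/-! ### The generator lies in the closure of constants and fixed elements -/

/-- the conjugates of the generator, indexed by the orbit of the constant `c` -/
def conjFam (c : Kb) (b : Kb) : Cov M D.Z := by
  classical
  exact if h : ∃ σ : Kb ≃ₐ[ℚ] Kb, σ ∈ A.inertiaSubgroupIn ℚ ∧ σ c = b then
    D.act h.choose h.choose_spec.1 D.gen else 0

theorem conjFam_apply {c : Kb}
    (hc : ∀ g : Kb ≃ₐ[ℚ] Kb, g c = c → coeffMap (g : Kb →+* Kb) D.Z = D.Z)
    (σ : Kb ≃ₐ[ℚ] Kb) (hσ : σ ∈ A.inertiaSubgroupIn ℚ) :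
    D.conjFam c (σ c) = D.act σ hσ D.gen := by
  classical
  have h : ∃ σ' : Kb ≃ₐ[ℚ] Kb, σ' ∈ A.inertiaSubgroupIn ℚ ∧ σ' c = σ c := ⟨σ, hσ, rfl⟩
  unfold conjFam
  rw [dif_pos h]
  apply Subtype.ext
  rw [coe_act, coe_act]
  show coeffMap (h.choose : Kb →+* Kb) D.Z = coeffMap (σ : Kb →+* Kb) D.Z
  have h2 : (σ⁻¹ * h.choose) c = c := by
    show σ⁻¹ (h.choose c) = c
    rw [h.choose_spec.2]
    exact σ.symm_apply_apply c
  have h3 := hc _ h2
  have h4 : coeffMap (σ : Kb →+* Kb) (coeffMap ((σ⁻¹ * h.choose : Kb ≃ₐ[ℚ] Kb) : Kb →+* Kb) D.Z)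
      = coeffMap (h.choose : Kb →+* Kb) D.Z := by
    rw [coeffMap_coeffMap]
    refine coeffMap_congr (RingHom.ext fun x => ?_) _
    show σ (σ⁻¹ (h.choose x)) = h.choose x
    exact σ.apply_symm_apply _
  rw [← h4, h3]

/-- **the generator of the cover lies in the subfield generated by the constants and the
functions fixed by the inertia group** -/
theorem gen_mem_closure :
    D.gen ∈ Subfield.closure (Set.range (algebraMap Kb (Cov M D.Z)) ∪
      {f : Cov M D.Z | ∀ g ∈ D.actSet, g f = f}) := by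
  obtain ⟨c, hc⟩ := D.exists_const_stab
  have key := mem_closure_of_equivariant (k := Kb) (E := Cov M D.Z) D.actSet
    (orbitFinset (A := A) c) (D.conjFam c) (by
      rintro g ⟨τ, hτ, rfl⟩
      refine ⟨fun b => τ b, fun b => D.act_algebraMap_const τ hτ b,
        fun b hb => smul_mem_orbitFinset hb τ hτ, fun b hb => ?_⟩
      obtain ⟨σ, hσ, rfl⟩ := mem_orbitFinset.mp hb
      rw [D.conjFam_apply hc σ hσ]
      show D.act τ hτ (D.act σ hσ D.gen) = D.conjFam c ((τ * σ) c)
      rw [D.conjFam_apply hc (τ * σ) (mul_mem hτ hσ), D.act_mul τ σ hτ hσ])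
    (self_mem_orbitFinset c)
  have e1 : D.conjFam c c = D.gen := by
    have := D.conjFam_apply hc 1 (one_mem _)
    rw [show (1 : Kb ≃ₐ[ℚ] Kb) c = c from rfl] at this
    rw [this, D.act_one]
  rw [← e1]
  exact key

/-- the elements of `F` lie in the subfield generated by the constants and the functions fixed
by the inertia group -/
theorem base_mem_closure (f : FF M) :
    algebraMap (FF M) (Cov M D.Z) f ∈ Subfield.closure
      (Set.range (algebraMap Kb (Cov M D.Z)) ∪ {f : Cov M D.Z | ∀ g ∈ D.actSet, g f = f}) := by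
  have hf : (f : LaurentSeries Kb) ∈ laurentBaseChange Kb (modularFunctionFieldFull M) := f.2
  rw [mem_laurentBaseChange_iff] at hf
  have hle : Subfield.closure
      (Set.range (algebraMap Kb (LaurentSeries Kb)) ∪
        (⇑(coeffEmb Kb) '' ((modularFunctionFieldFull M : IntermediateField ℚ (LaurentSeries ℚ)) :
          Set (LaurentSeries ℚ)))) ≤
      (Subfield.closure (Set.range (algebraMap Kb (Cov M D.Z)) ∪
          {f : Cov M D.Z | ∀ g ∈ D.actSet, g f = f})).map
        (algebraMap (Cov M D.Z) (LaurentSeries Kb)) := by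
    rw [Subfield.closure_le]
    rintro y (⟨a, rfl⟩ | ⟨z, hz, rfl⟩)
    · exact ⟨algebraMap Kb (Cov M D.Z) a, Subfield.subset_closure (Or.inl ⟨a, rfl⟩), rfl⟩
    · have hmem : coeffEmb Kb z ∈ FF M := coeffEmb_mem_laurentBaseChange Kb hz
      refine ⟨algebraMap (FF M) (Cov M D.Z) ⟨_, hmem⟩,
        Subfield.subset_closure (Or.inr ?_), rfl⟩
      rintro g ⟨σ, hσ, rfl⟩
      apply Subtype.ext
      rw [coe_act]
      exact coeffMap_coeffEmb σ z
  obtain ⟨t, ht, hte⟩ := hle hf
  have e : t = algebraMap (FF M) (Cov M D.Z) f := Subtype.ext hte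
  rw [← e]
  exact ht

/-- **(gen)** the cover is generated, as a field, by the constants and the functions fixed by
the inertia group -/
theorem mem_closure (t : Cov M D.Z) :
    t ∈ Subfield.closure (Set.range (algebraMap Kb (Cov M D.Z)) ∪
      {f : Cov M D.Z | ∀ g ∈ D.actSet, g f = f}) := by
  obtain ⟨q, rfl⟩ := exists_aeval_gen D.isIntegral t
  induction q using Polynomial.induction_on' with
  | add a b ha hb =>
    rw [map_add]
    exact add_mem ha hb
  | monomial n a =>
    rw [← Polynomial.C_mul_X_pow_eq_monomial, map_mul, map_pow, Polynomial.aeval_C,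
      Polynomial.aeval_X]
    exact mul_mem (D.base_mem_closure a) (pow_mem D.gen_mem_closure n)

/-- **(gen)**, in the shape of `helper23.DictSetting.gen` (set of ring automorphisms) -/
theorem covGen (t : Cov M D.Z) :
    t ∈ Subfield.closure (Set.range (algebraMap Kb (Cov M D.Z)) ∪
      {f : Cov M D.Z | ∀ g ∈ D.actEquivSet, g f = f}) := by
  have h : {f : Cov M D.Z | ∀ g ∈ D.actSet, g f = f}
      = {f : Cov M D.Z | ∀ g ∈ D.actEquivSet, g f = f} := by
    ext f
    constructor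
    · rintro hf g ⟨σ, hσ, rfl⟩
      exact hf _ ⟨σ, hσ, rfl⟩
    · rintro hf g ⟨σ, hσ, rfl⟩
      exact hf _ ⟨σ, hσ, rfl⟩
  rw [← h]
  exact D.mem_closure t

end CovData

end Fermat.Agent.T8.helper88

end
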