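/-
T8 (row 38 via S44), gap [K-RAT] / hfix (helper88): the ORBIT POLYNOMIAL, abstract part.

`orbPoly O = ∏_{x ∈ O} (X - x)` for a finite set `O` of a commutative ring.

* `orbPoly_map_of_perm`, `coeff_orbPoly_fixed` : a ring endomorphism which permutes `O` fixes the
  coefficients of `orbPoly O`;
* `exists_model_coeff` : if every `s x`, `x ∈ O`, has an integral model with the SAME reduction
  `ybar`, then `s` of every coefficient has an integral model with reduction the coefficient of
  `(X - ybar) ^ |O|`;
* `coeff_X_sub_C_pow_char` : in characteristic `p` the coefficient of `X ^ (p ^ k (m - 1))` of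
  `(X - c) ^ (p ^ k m)` is `- m c ^ (p ^ k)`.

Mathlib only.
-/
import Mathlib

set_option autoImplicit false
set_option linter.unusedSectionVars false
set_option linter.unusedVariables false
set_option linter.style.longLine false

noncomputable section

namespace Fermat.Agent.T8.helper88

open Polynomial

section Orbit

variable {R : Type*} [CommRing R]

/-- the orbit polynomial `∏_{x ∈ O} (X - x)` -/
def orbPoly (O : Finset R) : R[X] := ∏ x ∈ O, (X - C x)

theorem orbPoly_map {S : Type*} [CommRing S] (O : Finset R) (g : R →+* S) :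
    (orbPoly O).map g = ∏ x ∈ O, (X - C (g x)) := by
  unfold orbPoly
  rw [Polynomial.map_prod]
  refine Finset.prod_congr rfl fun x _ => ?_
  rw [Polynomial.map_sub, Polynomial.map_X, Polynomial.map_C]

theorem orbPoly_map_of_perm (O : Finset R) (g : R →+* R)
    (hinj : Set.InjOn g (O : Set R)) (hmaps : ∀ x ∈ O, g x ∈ O) :
    (orbPoly O).map g = orbPoly O := by
  classical
  have himg : O.image g = O := by
    refine Finset.eq_of_subset_of_card_le (Finset.image_subset_iff.mpr hmaps) ?_
    rw [Finset.card_image_of_injOn hinj]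
  rw [orbPoly_map]
  conv_rhs => rw [orbPoly, ← himg]
  rw [Finset.prod_image fun x hx y hy h => hinj hx hy h]

/-- a ring endomorphism permuting `O` fixes the coefficients of the orbit polynomial -/
theorem coeff_orbPoly_fixed (O : Finset R) (g : R →+* R)
    (hinj : Set.InjOn g (O : Set R)) (hmaps : ∀ x ∈ O, g x ∈ O) (r : ℕ) :
    g ((orbPoly O).coeff r) = (orbPoly O).coeff r := by
  have h := congrArg (fun P : R[X] => P.coeff r) (orbPoly_map_of_perm O g hinj hmaps)
  simp only [Polynomial.coeff_map] at h
  exact h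

/-- the coefficients of the orbit polynomial lie in every subring containing `O` -/
theorem coeff_orbPoly_mem (O : Finset R) (S₀ : Subring R) (h : ∀ x ∈ O, x ∈ S₀) (r : ℕ) :
    (orbPoly O).coeff r ∈ S₀ := by
  classical
  have e : orbPoly O = (∏ x ∈ O.attach, (X - C (⟨x.1, h x.1 x.2⟩ : S₀))).map S₀.subtype := by
    rw [Polynomial.map_prod, orbPoly, ← Finset.prod_attach]
    refine Finset.prod_congr rfl fun x _ => ?_
    rw [Polynomial.map_sub, Polynomial.map_X, Polynomial.map_C]
    rfl
  rw [e, Polynomial.coeff_map]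
  exact SetLike.coe_mem _

end Orbit

section Models

variable {R SA SK Sk : Type*} [CommRing R] [CommRing SA] [CommRing SK] [CommRing Sk]

/-- **models of the coefficients**: if every `s x`, `x ∈ O`, is `incl Y` with `red Y = ybar`,
then `s (coeff)` is `incl T` with `red T` the coefficient of `(X - ybar) ^ |O|`. -/
theorem exists_model_coeff (incl : SA →+* SK) (red : SA →+* Sk) (s : R →+* SK)
    (O : Finset R) (ybar : Sk) (h : ∀ x ∈ O, ∃ Y : SA, incl Y = s x ∧ red Y = ybar) (r : ℕ) :
    ∃ T : SA, incl T = s ((orbPoly O).coeff r) ∧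
      red T = ((X - C ybar) ^ O.card).coeff r := by
  classical
  choose! Yf hYf using h
  refine ⟨(∏ x ∈ O, (X - C (Yf x))).coeff r, ?_, ?_⟩
  · rw [← Polynomial.coeff_map, ← Polynomial.coeff_map, orbPoly_map, Polynomial.map_prod]
    congr 1
    refine Finset.prod_congr rfl fun x hx => ?_
    rw [Polynomial.map_sub, Polynomial.map_X, Polynomial.map_C, (hYf x hx).1]
  · rw [← Polynomial.coeff_map, Polynomial.map_prod]
    congr 1
    rw [← Finset.prod_const]
    refine Finset.prod_congr rfl fun x hx => ?_
    rw [Polynomial.map_sub, Polynomial.map_X, Polynomial.map_C, (hYf x hx).2]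

end Models

section CharP

variable {Sk : Type*} [CommRing Sk]

/-- in characteristic `p`: the coefficient of `X ^ (p ^ k (m - 1))` of `(X - c) ^ (p ^ k m)` -/
theorem coeff_X_sub_C_pow_char (p : ℕ) [Fact p.Prime] [CharP Sk p] (k m : ℕ) (hm : 0 < m)
    (c : Sk) :
    ((X - C c : Sk[X]) ^ (p ^ k * m)).coeff (p ^ k * (m - 1)) = -(m : Sk) * c ^ (p ^ k) := by
  have hpk : 0 < p ^ k := pow_pos (Fact.out : p.Prime).pos k
  have e1 : (X - C c : Sk[X]) ^ (p ^ k) = expand Sk (p ^ k) (X - C (c ^ (p ^ k))) := by
    rw [sub_pow_char_pow, map_sub, expand_X, expand_C, ← C_pow]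
  have e2 : (X - C (c ^ (p ^ k)) : Sk[X]) = X + C (-(c ^ (p ^ k))) := by
    rw [C_neg, sub_eq_add_neg]
  rw [pow_mul, e1, ← map_pow, Polynomial.coeff_expand_mul' hpk, e2,
    Polynomial.coeff_X_add_C_pow]
  obtain ⟨m', rfl⟩ : ∃ m', m = m' + 1 := ⟨m - 1, by omega⟩
  rw [Nat.add_sub_cancel, Nat.add_sub_cancel_left, pow_one, Nat.choose_succ_self_right]
  ring

/-- Frobenius powers of `e + j`, `j` a natural number -/
theorem add_natCast_pow_char (p : ℕ) [Fact p.Prime] [CharP Sk p] (k : ℕ) (e : Sk) (j : ℕ) :
    (e + (j : Sk)) ^ (p ^ k) = e ^ (p ^ k) + (j : Sk) := by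
  rw [add_pow_char_pow]
  congr 1
  have h := map_natCast (iterateFrobenius Sk p k) j
  rwa [iterateFrobenius_def] at h

end CharP

end Fermat.Agent.T8.helper88

end
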