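/-
T8 (row 38 via S44), gap [K-RAT] / hfix (helper88): the hfix-FREE inertia-fixed integral
generator of the cover.

`D : CovData M W A p`, `ζ` a primitive `p`-th root of unity, `U` a function with
`Z₁ - U₁ = l E₁`, `Z₂ - U₂ = l E₂`, `l = ζ - 1` (the critical form of T7).

* `eCrit D U ζ = (gen - U) / (ζ - 1)` in the cover;
* `sh1_eCrit_model`, `sh2_eCrit_model` : on the sheet `(i, j)` it is integral with reduction
  `red E_i + j`;
* `orbE` : the (finite) orbit of `eCrit` under the inertia group; `orbE_image` : the inertia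
  group permutes it;
* `exists_orbit_gen` : there is `t` in the cover, FIXED by the whole inertia group, integral on
  all `2 p` sheets, with `red (T_i j) = red (T_i 0) - j`, and `t` lies in every subring containing
  the conjugates of `eCrit`.   NO hypothesis "`Z_i` fixed by `I_K1`".
-/
import Mathlib
import Fermat.Agent.T8.helper88_OrbitPoly
import Fermat.Agent.T8.helper97_SheetsInst
import Fermat.Agent.T8.helper22_CoverValVG

set_option autoImplicit false
set_option synthInstance.maxHeartbeats 400000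
set_option linter.unusedSectionVars false
set_option linter.unusedVariables false
set_option linter.style.longLine false
set_option linter.style.haveILetI false

noncomputable section

open HahnSeries IntermediateField AlgebraicCurve ModularCurve
open Fermat.Agent.S18.helper19 Fermat.Agent.P2.helper29
open Fermat.Agent.P2.helper93
open Fermat.Agent.T8.helper86 Fermat.Agent.T8.helper65
open Fermat.Agent.T8.helper97 (sh1 sh2 sh1_apply sh2_apply sh1_act sh2_act cst coe_cst
  rho_pow_cst rho_pow_gen sheet2_cst)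

namespace Fermat.Agent.T8.helper88

variable {M : ℕ} [NeZero M] {W : FF M ≃ₐ[Kb] FF M} {A : ValuationSubring Kb} {p : ℕ}
  (D : CovData M W A p)

/-- the critical element `(gen - U) / (ζ - 1)` of the cover -/
def eCrit (U : FF M) (ζ : Kb) : Cov M D.Z :=
  cst D (ζ - 1)⁻¹ * (D.gen - algebraMap (FF M) (Cov M D.Z) U)

variable [((muFix p ⊓ IA A).subgroupOf (IA A)).FiniteIndex]
variable (hKum : IsKummerRoot p D.K D.Z) (ζ : Kb) (hζ : IsPrimitiveRoot ζ p)

theorem sh1_eCrit (U : FF M) (j : ℕ) :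
    sh1 D hKum ζ hζ j (eCrit D U ζ) =
      algebraMap Kb (LaurentSeries Kb) (ζ - 1)⁻¹ *
        (algebraMap Kb (LaurentSeries Kb) (ζ ^ j) * incl A D.Z₁ - (U : LaurentSeries Kb)) := by
  rw [sh1_apply]
  unfold eCrit
  rw [map_mul, map_sub, rho_pow_cst D hKum ζ hζ, rho_pow_gen D hKum ζ hζ,
    AlgEquiv.commutes]
  rfl

theorem sh2_eCrit (U : FF M) (j : ℕ) :
    sh2 D hKum ζ hζ j (eCrit D U ζ) =
      algebraMap Kb (LaurentSeries Kb) (ζ - 1)⁻¹ *
        (algebraMap Kb (LaurentSeries Kb) (ζ ^ j) * incl A D.Z₂ -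
          ((W U : FF M) : LaurentSeries Kb)) := by
  rw [sh2_apply]
  unfold eCrit
  rw [map_mul, map_sub, rho_pow_cst D hKum ζ hζ, rho_pow_gen D hKum ζ hζ,
    AlgEquiv.commutes, map_mul, map_sub, map_mul, sheet2_cst, sheet2_cst, D.sheet2_gen,
    D.sheet2_algebraMap]
  rfl


/-! ### Integral models of the critical element on the sheets -/

theorem red_single_zero' (a : A) :
    red A (HahnSeries.single 0 a) =
      algebraMap (kA A) (LaurentSeries (kA A)) (IsLocalRing.residue A a) := by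
  rw [algebraMap_laurentSeries_eq_single]
  exact coeffMap_single _ _ _

theorem smul_eq_single_mul (l : A) (Es : LaurentSeries A) :
    l • Es = HahnSeries.single 0 l * Es := by
  rw [← HahnSeries.C_apply, HahnSeries.C_mul_eq_smul]

include hζ in
/-- the model of the critical element on the sheet `j` -/
theorem exists_model_crit (hp : p.Prime) (hA : A.LiesOverPrime p)
    (Zs Us Es : LaurentSeries A) (l : A) (hl : (l : Kb) = ζ - 1)
    (hZU : Zs - Us = l • Es) (hr : red A Zs = 1) (j : ℕ) :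
    ∃ Y : LaurentSeries A,
      incl A Y = algebraMap Kb (LaurentSeries Kb) (ζ - 1)⁻¹ *
        (algebraMap Kb (LaurentSeries Kb) (ζ ^ j) * incl A Zs - incl A Us) ∧
      red A Y = red A Es + (j : LaurentSeries (kA A)) := by
  have hζ1 : ζ - 1 ≠ 0 := sub_ne_zero.mpr (hζ.ne_one hp.one_lt)
  obtain ⟨z, hz⟩ : ∃ z : A, (z : Kb) = ζ := ⟨⟨ζ, Fermat.Agent.T8.helper97.zeta_mem p A hp hζ⟩, rfl⟩
  have hzres : IsLocalRing.residue A z = 1 := by
    have h := Fermat.Agent.T8.helper97.residue_zeta p A hp hA hζ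
    have e : z = ⟨ζ, Fermat.Agent.T8.helper97.zeta_mem p A hp hζ⟩ := Subtype.ext hz
    rw [e]
    exact h
  obtain ⟨c, hc⟩ : ∃ c : A, c = ∑ i ∈ Finset.range j, z ^ i := ⟨_, rfl⟩
  have hcK : (c : Kb) = ∑ i ∈ Finset.range j, ζ ^ i := by
    have h0 : A.subtype c = ∑ i ∈ Finset.range j, ζ ^ i := by
      rw [hc, map_sum]
      refine Finset.sum_congr rfl fun i _ => ?_
      rw [map_pow]
      exact congrArg (· ^ i) hz
    exact h0
  have hcres : IsLocalRing.residue A c = (j : kA A) := by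
    rw [hc, map_sum]
    simp only [map_pow, hzres, one_pow, Finset.sum_const, Finset.card_range, nsmul_eq_mul,
      mul_one]
  refine ⟨Es + HahnSeries.single 0 c * Zs, ?_, ?_⟩
  · have h1 : incl A Zs - incl A Us =
        algebraMap Kb (LaurentSeries Kb) (ζ - 1) * incl A Es := by
      rw [← map_sub, hZU, smul_eq_single_mul, map_mul,
        Fermat.Agent.T8.helper22.incl_single_zero, hl]
    have h2 : algebraMap Kb (LaurentSeries Kb) (ζ - 1)⁻¹ *
        algebraMap Kb (LaurentSeries Kb) (ζ - 1) = 1 := by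
      rw [← map_mul, inv_mul_cancel₀ hζ1, map_one]
    have h3 : algebraMap Kb (LaurentSeries Kb) (ζ ^ j) - 1 =
        algebraMap Kb (LaurentSeries Kb) (ζ - 1) * algebraMap Kb (LaurentSeries Kb) (c : Kb) := by
      rw [← map_mul, hcK, mul_geom_sum, map_sub, map_one]
    rw [map_add, map_mul, Fermat.Agent.T8.helper22.incl_single_zero]
    linear_combination (-(algebraMap Kb (LaurentSeries Kb) (ζ - 1)⁻¹)) * h1 -
      (algebraMap Kb (LaurentSeries Kb) (ζ - 1)⁻¹ * incl A Zs) * h3 -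
      (incl A Es + algebraMap Kb (LaurentSeries Kb) (c : Kb) * incl A Zs) * h2
  · rw [map_add, map_mul, red_single_zero', hcres, hr, mul_one, map_natCast]


/-! ### The orbit of an element of the cover under the inertia group -/

omit [((muFix p ⊓ IA A).subgroupOf (IA A)).FiniteIndex] in
/-- the orbit of an element of the cover under the inertia group is finite -/
theorem orbit_cov_finite (E : Cov M D.Z) :
    {x : Cov M D.Z | ∃ σ, ∃ hσ : σ ∈ IA A, x = D.act σ hσ E}.Finite := by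
  have hZ : D.Z ^ p ∈ FF M := by
    rw [D.Z_pow]
    exact D.K.2
  have hnf : Fermat.Agent.T7.helper82.CoeffNF ((E : Cov M D.Z) : LaurentSeries Kb) :=
    Fermat.Agent.T8.helper22.coeffNF_of_mem_sheet (M := M) D.hp.ne_zero hZ E.2
  have hfin := Fermat.Agent.T8.helper22.finite_orbit hnf
  refine Set.Finite.of_finite_image (f := fun x : Cov M D.Z => (x : LaurentSeries Kb))
    (hfin.subset ?_) Subtype.val_injective.injOn
  rintro _ ⟨x, ⟨σ, hσ, rfl⟩, rfl⟩
  exact ⟨σ, rfl⟩

omit [((muFix p ⊓ IA A).subgroupOf (IA A)).FiniteIndex] in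
/-- the orbit as a finset, permuted by the inertia group -/
theorem exists_orbFinset (E : Cov M D.Z) :
    ∃ O : Finset (Cov M D.Z), E ∈ O ∧
      (∀ x ∈ O, ∃ σ, ∃ hσ : σ ∈ IA A, x = D.act σ hσ E) ∧
      ∀ τ (hτ : τ ∈ IA A), ∀ x ∈ O, D.act τ hτ x ∈ O := by
  classical
  have hfin := orbit_cov_finite D E
  have hmem : ∀ x, x ∈ hfin.toFinset ↔ ∃ σ, ∃ hσ : σ ∈ IA A, x = D.act σ hσ E := fun x => by
    rw [Set.Finite.mem_toFinset]
    rfl
  refine ⟨hfin.toFinset, (hmem E).mpr ⟨1, one_mem _, (D.act_one E).symm⟩,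
    fun x hx => (hmem x).mp hx, fun τ hτ x hx => ?_⟩
  obtain ⟨σ, hσ, rfl⟩ := (hmem x).mp hx
  exact (hmem _).mpr ⟨τ * σ, mul_mem hτ hσ, (D.act_mul τ σ hτ hσ E).symm⟩

/-! ### The generator -/

omit [((muFix p ⊓ IA A).subgroupOf (IA A)).FiniteIndex] in
/-- **the orbit coefficient**: for ANY element `E` of the cover there is an inertia-fixed `t` in
the subring generated by the conjugates of `E` such that on every equivariant sheet `s` on which
`E` has an integral model `Y`, `t` has an integral model with reduction `- (red Y) ^ (p ^ k)`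
(`k` independent of the sheet). -/
theorem exists_orbit_coeff (hA : A.LiesOverPrime p) (E : Cov M D.Z) :
    ∃ (t : Cov M D.Z) (k : ℕ), (∀ σ (hσ : σ ∈ IA A), D.act σ hσ t = t) ∧
      (∀ S₀ : Subring (Cov M D.Z), (∀ σ (hσ : σ ∈ IA A), D.act σ hσ E ∈ S₀) → t ∈ S₀) ∧
      ∀ (s : Cov M D.Z →+* LaurentSeries Kb),
        (∀ σ (hσ : σ ∈ IA A) (x : Cov M D.Z), s (D.act σ hσ x) = cwAct σ (s x)) →
        ∀ Y : LaurentSeries A, incl A Y = s E →
          ∃ T : LaurentSeries A, incl A T = s t ∧ red A T = -(red A Y) ^ (p ^ k) := by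
  classical
  have hp : p.Prime := D.hp
  haveI : Fact p.Prime := ⟨hp⟩
  haveI : CharP (kA A) p := charP_residueField hp hA
  haveI : CharP (LaurentSeries (kA A)) p :=
    charP_of_injective_ringHom (f := (HahnSeries.C : kA A →+* LaurentSeries (kA A)))
      HahnSeries.C_injective p
  obtain ⟨O, hEO, hO, hperm⟩ := exists_orbFinset D E
  have hn : O.card ≠ 0 := Finset.card_ne_zero.mpr ⟨E, hEO⟩
  obtain ⟨k, m, hm, hnk⟩ := Nat.exists_eq_pow_mul_and_not_dvd hn p hp.ne_one
  have hm0 : 0 < m := by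
    rcases Nat.eq_zero_or_pos m with h | h
    · exact absurd (h ▸ dvd_zero p) hm
    · exact h
  obtain ⟨d, -, hd⟩ := Nat.exists_mul_mod_eq_one_of_coprime
    ((Nat.Prime.coprime_iff_not_dvd hp).mpr hm).symm hp.one_lt
  have hdm : ((d : ℕ) : LaurentSeries (kA A)) * ((m : ℕ) : LaurentSeries (kA A)) = 1 := by
    rw [← Nat.cast_mul, mul_comm d m, CharP.natCast_eq_natCast_mod (LaurentSeries (kA A)) p, hd,
      Nat.cast_one]
  refine ⟨((d : ℕ) : Cov M D.Z) * (orbPoly O).coeff (p ^ k * (m - 1)), k, ?_, ?_, ?_⟩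
  · intro σ hσ
    rw [map_mul, map_natCast,
      coeff_orbPoly_fixed O (D.act σ hσ) (D.act σ hσ).injective.injOn (hperm σ hσ)]
  · intro S₀ hS₀
    refine mul_mem (natCast_mem S₀ d) (coeff_orbPoly_mem O S₀ ?_ _)
    intro x hx
    obtain ⟨σ, hσ, rfl⟩ := hO x hx
    exact hS₀ σ hσ
  · intro s hs Y hY
    have hmod : ∀ x ∈ O, ∃ Yx : LaurentSeries A, incl A Yx = s x ∧ red A Yx = red A Y := by
      intro x hx
      obtain ⟨σ, hσ, rfl⟩ := hO x hx
      obtain ⟨hσd, -⟩ := decK_eq_id_of_mem_inertia hσ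
      refine ⟨actA σ hσd Y, ?_, Fermat.Agent.T2.helper20.red_actA_of_mem_inertia hσ hσd Y⟩
      rw [hs σ hσ E, ← hY]
      exact coeffMap_subtype_actA σ hσd Y
    obtain ⟨T₀, hT₀, hT₀r⟩ :=
      exists_model_coeff (incl A) (red A) s O (red A Y) hmod (p ^ k * (m - 1))
    rw [hnk, coeff_X_sub_C_pow_char p k m hm0] at hT₀r
    refine ⟨((d : ℕ) : LaurentSeries A) * T₀, ?_, ?_⟩
    · rw [map_mul, map_mul, map_natCast, map_natCast, hT₀]
    · rw [map_mul, map_natCast, hT₀r]
      linear_combination (-(red A Y) ^ (p ^ k)) * hdm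

include hζ in
/-- **the hfix-free generator**: from the critical form `Z_i - U_i = l E_i` (`l = ζ - 1`, ONE
function `U`) an element `t` of the cover which is fixed by the whole inertia group, lies in
every subring containing the conjugates of `eCrit D U ζ`, and is integral on all `2 p` sheets
with `red (T_i j) = red (T_i 0) - j`.  (Same conclusions as `helper97.act_tGen` +
`helper97.exists_sheet_models`, WITHOUT the hypothesis that `Z_i` is fixed by `I_K1`.) -/
theorem exists_orbit_gen (hA : A.LiesOverPrime p)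
    (U : FF M) (U₁ U₂ E₁ E₂ : LaurentSeries A) (l : A) (hl : (l : Kb) = ζ - 1)
    (hU1 : incl A U₁ = (U : LaurentSeries Kb))
    (hU2 : incl A U₂ = ((W U : FF M) : LaurentSeries Kb))
    (hZU1 : D.Z₁ - U₁ = l • E₁) (hZU2 : D.Z₂ - U₂ = l • E₂)
    (hr1 : red A D.Z₁ = 1) (hr2 : red A D.Z₂ = 1) :
    ∃ t : Cov M D.Z, (∀ σ (hσ : σ ∈ IA A), D.act σ hσ t = t) ∧
      (∀ S₀ : Subring (Cov M D.Z),
        (∀ σ (hσ : σ ∈ IA A), D.act σ hσ (eCrit D U ζ) ∈ S₀) → t ∈ S₀) ∧
      ∃ T₁ T₂ : ℕ → LaurentSeries A,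
        (∀ j, incl A (T₁ j) = sh1 D hKum ζ hζ j t) ∧
        (∀ j, incl A (T₂ j) = sh2 D hKum ζ hζ j t) ∧
        (∀ j, red A (T₁ j) = red A (T₁ 0) - (j : LaurentSeries (kA A))) ∧
        (∀ j, red A (T₂ j) = red A (T₂ 0) - (j : LaurentSeries (kA A))) := by
  have hp : p.Prime := D.hp
  haveI : Fact p.Prime := ⟨hp⟩
  haveI : CharP (kA A) p := charP_residueField hp hA
  haveI : CharP (LaurentSeries (kA A)) p :=
    charP_of_injective_ringHom (f := (HahnSeries.C : kA A →+* LaurentSeries (kA A)))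
      HahnSeries.C_injective p
  obtain ⟨t, k, hfix, hsub, hsheet⟩ := exists_orbit_coeff D hA (eCrit D U ζ)
  have h1 : ∀ j : ℕ, ∃ T : LaurentSeries A, incl A T = sh1 D hKum ζ hζ j t ∧
      red A T = -((red A E₁) ^ (p ^ k) + (j : LaurentSeries (kA A))) := by
    intro j
    obtain ⟨Y, hY, hYr⟩ := exists_model_crit ζ hζ hp hA D.Z₁ U₁ E₁ l hl hZU1 hr1 j
    obtain ⟨T, hT, hTr⟩ := hsheet (sh1 D hKum ζ hζ j) (sh1_act D hKum ζ hζ j) Y (by
      rw [hY, sh1_eCrit, hU1])
    refine ⟨T, hT, ?_⟩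
    rw [hTr, hYr, add_natCast_pow_char]
  have h2 : ∀ j : ℕ, ∃ T : LaurentSeries A, incl A T = sh2 D hKum ζ hζ j t ∧
      red A T = -((red A E₂) ^ (p ^ k) + (j : LaurentSeries (kA A))) := by
    intro j
    obtain ⟨Y, hY, hYr⟩ := exists_model_crit ζ hζ hp hA D.Z₂ U₂ E₂ l hl hZU2 hr2 j
    obtain ⟨T, hT, hTr⟩ := hsheet (sh2 D hKum ζ hζ j) (sh2_act D hKum ζ hζ j) Y (by
      rw [hY, sh2_eCrit, hU2])
    refine ⟨T, hT, ?_⟩
    rw [hTr, hYr, add_natCast_pow_char]
  choose T₁ hT₁ hT₁r using h1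
  choose T₂ hT₂ hT₂r using h2
  refine ⟨t, hfix, hsub, T₁, T₂, hT₁, hT₂, fun j => ?_, fun j => ?_⟩
  · rw [hT₁r j, hT₁r 0, Nat.cast_zero]
    ring
  · rw [hT₂r j, hT₂r 0, Nat.cast_zero]
    ring

end Fermat.Agent.T8.helper88

end
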