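import Fermat.Agent.T8.helper89_TresOrbit
import Fermat.Agent.T7.helper84_PPow

/-!
# T8 (row 38), helper89: [W-MULT] consumer adapter - from the curve contract to "peu ramifiee"

`G = Gal(Ω / F)` acts on an additive group `V` (the `p`-torsion points), `H ≤ G` fixes `ζ = ζ_p`,
`K1` is the fixed field of `H`, `τ ∈ H`, `x, Q ∈ V` with

  `τ • x = x + Q`,  `σ • Q = Q` and `σ • x ∈ x + ℕ Q` for all `σ ∈ H`,  `p • Q = 0`.

Curve contract (helper47 #3485): an integral `z` fixed by the stabiliser of `x` in `H` with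
`(τ z - z) ^ (p - 1) ∉ p * (non-units of A)`.

* `pow_points_smul`            : `τ ^ n • x = x + n • Q`;
* `depth_of_pow_depth`         : the `p`-power form of the depth condition implies the
                                 `(ζ - 1)`-form;
* `exists_unit_kummer_of_points` : **"peu ramifiee" in Kummer form**: there is `α ≠ 0` with
  `α ^ p ∈ K1` a UNIT of `A` and `σ α = ζ ^ j * α` whenever `σ ∈ H`, `σ • x = x + j • Q`;
* `exists_unit_kummer_of_points_pow` : the same from the `p`-power form of the depth.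
-/

set_option autoImplicit false

open Finset

namespace Fermat.Agent.T8.helper89

section Points

variable {F Ω : Type*} [Field F] [Field Ω] [Algebra F Ω]

/-- the `p`-power form of "depth at most `v (ζ - 1)`" implies the `(ζ - 1)`-form -/
theorem depth_of_pow_depth (A : ValuationSubring Ω) {p : ℕ} (hp : p.Prime) {ζ : Ω}
    (hζ : IsPrimitiveRoot ζ p) {d : Ω} (h : ¬ ∃ w ∈ A.nonunits, d ^ (p - 1) = (p : Ω) * w) :
    ¬ ∃ y ∈ A.nonunits, d = (ζ - 1) * y := by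
  rintro ⟨y, hy, hd⟩
  apply h
  have hζA : ζ ∈ A := mem_of_pow_eq_one hp.pos hζ.pow_eq_one
  have hsum : ∑ i ∈ range p, (⟨ζ, hζA⟩ : A) ^ i = 0 := by
    apply Subtype.ext
    have h1 := hζ.geom_sum_eq_zero hp.one_lt
    simpa using h1
  obtain ⟨m, hm⟩ := Fermat.Agent.T7.helper84.ppow_lambda_rel hp hsum
  have hm' : (p : Ω) * (1 + (ζ - 1) * (m : Ω)) = -(ζ - 1) ^ (p - 1) := by
    have := congrArg (fun a : A => (a : Ω)) hm
    simpa using this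
  refine ⟨-(1 + (ζ - 1) * (m : Ω)) * y ^ (p - 1), ?_, ?_⟩
  · rw [ValuationSubring.mem_nonunits_iff, map_mul, Valuation.map_neg, map_pow]
    have h1 : A.valuation (1 + (ζ - 1) * (m : Ω)) ≤ 1 :=
      (A.valuation_le_one_iff _).mpr
        (A.add_mem _ _ A.one_mem (A.mul_mem _ _ (A.toSubring.sub_mem hζA A.one_mem) m.2))
    have h2 : A.valuation y < 1 := (ValuationSubring.mem_nonunits_iff A).mp hy
    have h3 : A.valuation y ^ (p - 1) < 1 :=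
      pow_lt_one₀ zero_le h2 (by have := hp.two_le; omega)
    exact mul_lt_one_of_nonneg_of_lt_one_right h1 zero_le h3
  · rw [hd, mul_pow]
    linear_combination (y ^ (p - 1)) * hm'

variable {V : Type*} [AddCommGroup V] [DistribMulAction (Ω ≃ₐ[F] Ω) V]

theorem pow_points_smul {τ : Ω ≃ₐ[F] Ω} {x Q : V} (hτx : τ • x = x + Q) (hτQ : τ • Q = Q)
    (n : ℕ) : (τ ^ n) • x = x + n • Q := by
  induction n with
  | zero => simp
  | succ n ih =>
    rw [pow_succ', mul_smul, ih, smul_add, hτx, smul_comm τ n Q, hτQ, succ_nsmul]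
    abel

variable {H : Subgroup (Ω ≃ₐ[F] Ω)}

/-- **"peu ramifiee" in Kummer form from the curve contract.** -/
theorem exists_unit_kummer_of_points (A : ValuationSubring Ω) {K1 : Subfield Ω}
    (hK1 : ∀ x : Ω, x ∈ K1 ↔ ∀ σ ∈ H, σ x = x) {p : ℕ}
    (hp : p.Prime) (hpΩ : (p : Ω) ≠ 0) {ζ : Ω} (hζ : IsPrimitiveRoot ζ p)
    (hζH : ∀ σ ∈ H, σ ζ = ζ) {τ : Ω ≃ₐ[F] Ω} (hτ : τ ∈ H) (x Q : V)
    (hτx : τ • x = x + Q) (hQ : ∀ σ ∈ H, σ • Q = Q) (hpQ : p • Q = 0)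
    (hx : ∀ σ ∈ H, ∃ j : ℕ, σ • x = x + j • Q) (z : Ω) (hzA : z ∈ A)
    (hz : ∀ κ ∈ H, κ • x = x → κ z = z)
    (hdepth : ¬ ∃ y ∈ A.nonunits, τ z - z = (ζ - 1) * y) :
    ∃ α : Ω, α ≠ 0 ∧ τ α = ζ * α ∧ α ^ p ∈ K1 ∧ A.valuation (α ^ p) = 1 ∧
      ∀ σ ∈ H, ∀ j : ℕ, σ • x = x + j • Q → σ α = ζ ^ j * α := by
  have hpow : ∀ n : ℕ, (τ ^ n) • x = x + n • Q := pow_points_smul hτx (hQ τ hτ)
  -- shifts on points give shifts on `z`
  have hshift : ∀ σ ∈ H, ∀ j : ℕ, σ • x = x + j • Q →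
      ∀ n : ℕ, σ ((τ ^ n) z) = (τ ^ (n + j)) z := by
    intro σ hσ j hj n
    have hκ : (τ ^ (n + j))⁻¹ * σ * τ ^ n ∈ H :=
      H.mul_mem (H.mul_mem (H.inv_mem (H.pow_mem hτ _)) hσ) (H.pow_mem hτ _)
    have hκx : ((τ ^ (n + j))⁻¹ * σ * τ ^ n) • x = x := by
      rw [mul_smul, mul_smul, hpow n, smul_add, hj, smul_comm σ n Q, hQ σ hσ,
        inv_smul_eq_iff, hpow (n + j), add_nsmul]
      abel
    have h1 := hz _ hκ hκx
    rw [AlgEquiv.mul_apply, AlgEquiv.mul_apply] at h1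
    have h2 := congrArg (τ ^ (n + j)) h1
    rw [show (τ ^ (n + j)) ((τ ^ (n + j))⁻¹ (σ ((τ ^ n) z))) = σ ((τ ^ n) z) from
      (τ ^ (n + j)).apply_symm_apply _] at h2
    exact h2
  have hτp : (τ ^ p) z = z := by
    refine hz _ (H.pow_mem hτ p) ?_
    rw [hpow p, hpQ, add_zero]
  obtain ⟨α, hα0, hτα, hαK, hαv, hα⟩ := exists_unit_kummer_of_orbit A hK1 hp hpΩ hζ hζH hτ z hzA
    hτp (fun σ hσ => by
      obtain ⟨j, hj⟩ := hx σ hσ
      exact ⟨j, hshift σ hσ j hj⟩) hdepth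
  exact ⟨α, hα0, hτα, hαK, hαv, fun σ hσ j hj => hα σ hσ j (hshift σ hσ j hj)⟩

/-- the same from the `p`-power form of the depth condition (contract of helper47 #3485). -/
theorem exists_unit_kummer_of_points_pow (A : ValuationSubring Ω) {K1 : Subfield Ω}
    (hK1 : ∀ x : Ω, x ∈ K1 ↔ ∀ σ ∈ H, σ x = x) {p : ℕ}
    (hp : p.Prime) (hpΩ : (p : Ω) ≠ 0) {ζ : Ω} (hζ : IsPrimitiveRoot ζ p)
    (hζH : ∀ σ ∈ H, σ ζ = ζ) {τ : Ω ≃ₐ[F] Ω} (hτ : τ ∈ H) (x Q : V)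
    (hτx : τ • x = x + Q) (hQ : ∀ σ ∈ H, σ • Q = Q) (hpQ : p • Q = 0)
    (hx : ∀ σ ∈ H, ∃ j : ℕ, σ • x = x + j • Q) (z : Ω) (hzA : z ∈ A)
    (hz : ∀ κ ∈ H, κ • x = x → κ z = z)
    (hdepth : ¬ ∃ w ∈ A.nonunits, (τ z - z) ^ (p - 1) = (p : Ω) * w) :
    ∃ α : Ω, α ≠ 0 ∧ τ α = ζ * α ∧ α ^ p ∈ K1 ∧ A.valuation (α ^ p) = 1 ∧
      ∀ σ ∈ H, ∀ j : ℕ, σ • x = x + j • Q → σ α = ζ ^ j * α :=
  exists_unit_kummer_of_points A hK1 hp hpΩ hζ hζH hτ x Q hτx hQ hpQ hx z hzA hz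
    (depth_of_pow_depth A hp hζ hdepth)

end Points

end Fermat.Agent.T8.helper89
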