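import Fermat.Agent.T8.helper38_WallData
import Fermat.Agent.T8.helper47_WMultContract
import Fermat.Agent.T8.helper89_TresPoints
import Fermat.Agent.S13.helper38_Abstract
import Fermat.Agent.S13.helper64_TorsionSmall

/-!
# T8 (row 38), helper89: [W-MULT] ⟹ the `α` of `PeuShape`, at class level (non-split case)

Context of the wall (`helper38.WallCtx`): `V = π^* V0 ⊆ J₀(4 M' p)[p]` a `p`-new realisation of
`E[p]` (Frey curve, `p ∣ a b c`) not contained in `T0`, `x ∈ V`, `τ ∈ I_K1` with `τ • x ≠ x`,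
`l₀ := τ • x - x`.

* `ik1 A p`                 : `I_K1` as a subgroup of `Gal(ℚ̄/ℚ)`;
* `exists_nsmul_eq_of_proper` : a proper subgroup of a group of exponent `p` with at most `p ^ 2`
                              elements is generated by each of its nonzero elements;
* `exists_shift_of_ctx`     : every `σ ∈ I_K1` satisfies `σ • x = x + j • l₀` for some `j`;
* `exists_peu_alpha`        : **from the curve contract `helper47.WMultStatement'`**: there are
  `ζ` primitive and `α ≠ 0` with `α ^ p` a UNIT of `A`, `τ α = ζ α`, and for every `σ ∈ I_K1` a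
  `j` with `σ α = ζ ^ j * α` and `σ • x = x + j • l₀`.

This is the class-level half of `helper29.PeuShape`; the function-level half is
`helper38.galF_eq_of_smul_eq_add`.
-/

set_option autoImplicit false
set_option linter.unusedSectionVars false
set_option linter.unusedVariables false
set_option linter.style.longLine false
set_option linter.style.haveILetI false

noncomputable section

namespace Fermat.Agent.T8.helper89

open ModularCurve WeierstrassCurve WeierstrassCurve.Affine WeierstrassCurve.Affine.Point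
open Fermat.Agent.T7 Fermat.Agent.T8.helper72 Fermat.Agent.T8.helper38

/-- `I_K1`: the elements of the inertia group of `A` which fix the `p`-th roots of unity -/
def ik1 (A : ValuationSubring (AlgebraicClosure ℚ)) (p : ℕ) :
    Subgroup (AlgebraicClosure ℚ ≃ₐ[ℚ] AlgebraicClosure ℚ) where
  carrier := {σ | helper98.IsIK1 A p σ}
  mul_mem' := by
    rintro σ τ ⟨h1, h2⟩ ⟨h3, h4⟩
    exact ⟨Subgroup.mul_mem _ h1 h3, fun z hz => by
      rw [AlgEquiv.mul_apply, h4 z hz, h2 z hz]⟩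
  one_mem' := ⟨Subgroup.one_mem _, fun z _ => rfl⟩
  inv_mem' := by
    rintro σ ⟨h1, h2⟩
    refine ⟨Subgroup.inv_mem _ h1, fun z hz => ?_⟩
    have h3 := h2 z hz
    calc σ⁻¹ z = σ⁻¹ (σ z) := by rw [h3]
      _ = z := σ.symm_apply_apply z

theorem mem_ik1 {A : ValuationSubring (AlgebraicClosure ℚ)} {p : ℕ}
    {σ : AlgebraicClosure ℚ ≃ₐ[ℚ] AlgebraicClosure ℚ} : σ ∈ ik1 A p ↔ helper98.IsIK1 A p σ :=
  Iff.rfl

/-- a proper subgroup of a group of exponent `p` with at most `p ^ 2` elements is generated by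
each of its nonzero elements -/
theorem exists_nsmul_eq_of_proper {p : ℕ} (hp : p.Prime) {J : Type*} [AddCommGroup J]
    (V S : AddSubgroup J) (hV : ∀ v ∈ V, p • v = 0) (hfin : Finite V)
    (hcard : Nat.card V ≤ p ^ 2) (hS : ∃ v ∈ V, v ∉ S) {Q : J} (hQV : Q ∈ V) (hQS : Q ∈ S)
    (hQ0 : Q ≠ 0) {y : J} (hyV : y ∈ V) (hyS : y ∈ S) : ∃ j : ℕ, y = j • Q := by
  haveI : Fact p.Prime := ⟨hp⟩
  letI : Module (ZMod p) V := AddCommGroup.zmodModule (n := p) fun v => Subtype.ext (hV v v.2)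
  let N : Submodule (ZMod p) V := AddSubgroup.toZModSubmodule p (S.comap V.subtype)
  have hN : N ≠ ⊤ := by
    obtain ⟨v, hv, hvS⟩ := hS
    intro h
    have h1 : (⟨v, hv⟩ : V) ∈ N := by rw [h]; exact Submodule.mem_top
    exact hvS h1
  have hQN : (⟨Q, hQV⟩ : V) ∈ N := hQS
  have hyN : (⟨y, hyV⟩ : V) ∈ N := hyS
  have hQ0' : (⟨Q, hQV⟩ : V) ≠ 0 := fun h => hQ0 (congrArg Subtype.val h)
  obtain ⟨c, hc⟩ := Fermat.Agent.S13.helper38.exists_smul_eq_of_mem hcard N hN hQN hQ0' hyN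
  refine ⟨c.val, ?_⟩
  have h2 : c • (⟨Q, hQV⟩ : V) = c.val • (⟨Q, hQV⟩ : V) := by
    conv_lhs => rw [← ZMod.natCast_zmod_val c]
    exact Nat.cast_smul_eq_nsmul (ZMod p) c.val _
  rw [h2] at hc
  have h3 := congrArg Subtype.val hc
  simpa using h3.symm

variable {π : PullData} {P : FreyPackage} {W : WeierstrassCurve ℤ} {M' : ℕ} [NeZero M']
  {hpN : ¬ P.p ∣ 4 * M'} {A : ValuationSubring (AlgebraicClosure ℚ)}
  {V0 : AddSubgroup (JZero (M' * P.p))}

/-- the realisation has at most `p ^ 2` elements -/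
theorem card_real_le {M : ℕ} [NeZero M] {V : AddSubgroup (JZero M)} (h : FreyReal P W M V) :
    Finite V ∧ Nat.card V ≤ P.p ^ 2 := by
  obtain ⟨e, -⟩ := h.iso
  obtain ⟨-, hfin, hcard⟩ := Fermat.Agent.S13.helper64.frey_torsionSmall P
  haveI : Finite (FreyTors P) := hfin
  refine ⟨Finite.of_equiv _ e.toEquiv, ?_⟩
  rw [← Nat.card_congr e.toEquiv]
  exact hcard

/-- every `σ ∈ I_K1` moves `x` by a multiple of `l₀ = τ • x - x`. -/
theorem exists_shift_of_ctx (ctx : WallCtx π P W M' hpN A V0) {x : JZero (4 * M' * P.p)}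
    (hx : x ∈ V0.map (π M' P.p)) {τ : AlgebraicClosure ℚ ≃ₐ[ℚ] AlgebraicClosure ℚ}
    (hτ : helper98.IsIK1 A P.p τ) (hτx : τ • x ≠ x)
    {σ : AlgebraicClosure ℚ ≃ₐ[ℚ] AlgebraicClosure ℚ} (hσ : helper98.IsIK1 A P.p σ) :
    ∃ j : ℕ, σ • x = x + j • (τ • x - x) := by
  obtain ⟨hfin, hcard⟩ := card_real_le ctx.real
  have hS : ∃ v ∈ V0.map (π M' P.p), v ∉ helper2.t0 (4 * M') P.p P.pp hpN A P.p := by
    by_contra hcon
    apply ctx.notT0
    intro v hv
    by_contra hv'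
    exact hcon ⟨v, hv, hv'⟩
  obtain ⟨j, hj⟩ := exists_nsmul_eq_of_proper P.pp (V0.map (π M' P.p))
    (helper2.t0 (4 * M') P.p P.pp hpN A P.p) ctx.real.tors hfin hcard hS
    (nonSplit_mem ctx hx τ) (nonSplit_isT0 ctx hx hτ.1) (sub_ne_zero.mpr hτx)
    (nonSplit_mem ctx hx σ) (nonSplit_isT0 ctx hx hσ.1)
  exact ⟨j, by rw [← hj]; abel⟩

/-- **[W-MULT] ⟹ the `α` of `PeuShape`** (class level, non-split case). -/
theorem exists_peu_alpha (hW : Fermat.Agent.T8.helper47.WMultStatement')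
    (ctx : WallCtx π P W M' hpN A V0) {x : JZero (4 * M' * P.p)}
    (hx : x ∈ V0.map (π M' P.p)) {τ : AlgebraicClosure ℚ ≃ₐ[ℚ] AlgebraicClosure ℚ}
    (hτ : helper98.IsIK1 A P.p τ) (hτx : τ • x ≠ x) :
    ∃ ζ α : AlgebraicClosure ℚ, IsPrimitiveRoot ζ P.p ∧ α ≠ 0 ∧ A.valuation (α ^ P.p) = 1 ∧
      τ α = ζ * α ∧
      ∀ σ : AlgebraicClosure ℚ ≃ₐ[ℚ] AlgebraicClosure ℚ, helper98.IsIK1 A P.p σ →
        ∃ j : ℕ, σ α = ζ ^ j * α ∧ σ • x = x + j • (τ • x - x) := by
  haveI : NeZero P.p := ⟨P.pp.ne_zero⟩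
  obtain ⟨ζ, hζ⟩ : ∃ ζ : AlgebraicClosure ℚ, IsPrimitiveRoot ζ P.p :=
    HasEnoughRootsOfUnity.exists_primitiveRoot (AlgebraicClosure ℚ) P.p
  have hpΩ : ((P.p : ℕ) : AlgebraicClosure ℚ) ≠ 0 := by
    exact_mod_cast P.pp.ne_zero
  -- the point of the Frey curve
  obtain ⟨e, he⟩ := ctx.real.iso
  set t : FreyTors P := e.symm ⟨x, hx⟩ with ht
  have het : ((e t : V0.map (π M' P.p)) : JZero (4 * M' * P.p)) = x := by
    rw [ht, AddEquiv.apply_symm_apply]
  have hfixiff : ∀ σ : AlgebraicClosure ℚ ≃ₐ[ℚ] AlgebraicClosure ℚ,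
      σ • x = x → σ • (t : ((P.freyCurve : Affine ℚ)⁄(AlgebraicClosure ℚ)).Point) = t := by
    intro σ hσx
    have h1 := he σ t
    rw [het, hσx, ← het] at h1
    have h2 : e (σ • t) = e t := Subtype.ext h1
    have h3 : σ • t = t := e.injective h2
    exact congrArg Subtype.val h3
  have htT : (P.p : ℤ) • (t : ((P.freyCurve : Affine ℚ)⁄(AlgebraicClosure ℚ)).Point) = 0 :=
    (Submodule.mem_torsionBy_iff _ _).mp t.2
  have hτT : τ • (t : ((P.freyCurve : Affine ℚ)⁄(AlgebraicClosure ℚ)).Point) ≠ t := by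
    intro h
    apply hτx
    have h3 : τ • t = t := Subtype.ext h
    have h1 := he τ t
    rw [h3, het] at h1
    exact h1.symm
  have hdiv : (P.p : ℤ) ∣ P.a * P.b * P.c := ctx.cond.p_dvd_abc (Dvd.intro_left M' rfl)
  obtain ⟨z, hzA, hzfix, hdepth⟩ := hW P A ctx.liesOver hdiv _ htT τ hτ.1 hτT
  -- the abstract adapter
  have hK1 : ∀ y : AlgebraicClosure ℚ,
      y ∈ (IntermediateField.fixedField (ik1 A P.p)).toSubfield ↔
        ∀ σ ∈ ik1 A P.p, σ y = y := fun y => IntermediateField.mem_fixedField_iff (ik1 A P.p) y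
  obtain ⟨α, hα0, hτα, -, hαv, hα⟩ := exists_unit_kummer_of_points_pow (H := ik1 A P.p) A hK1
    P.pp hpΩ hζ (fun σ hσ => hσ.2 ζ hζ.pow_eq_one) (τ := τ) hτ x (τ • x - x) (by abel)
    (fun σ hσ => nonSplit_fixed ctx hx hτ.1 hσ) (nonSplit_tors ctx hx τ)
    (fun σ hσ => exists_shift_of_ctx ctx hx hτ hτx hσ) z hzA
    (fun κ _ hκx => hzfix κ (hfixiff κ hκx)) hdepth
  refine ⟨ζ, α, hζ, hα0, hαv, hτα, fun σ hσ => ?_⟩
  obtain ⟨j, hj⟩ := exists_shift_of_ctx ctx hx hτ hτx hσ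
  exact ⟨j, hα σ hσ j hj, hj⟩

end Fermat.Agent.T8.helper89

end
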