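import Mathlib

/-!
# T8 (row 38), helper89: depth of a very ramified Kummer extension (valuation half of [W-ORD])

`A` a valuation subring of a field `Ω`, `K1` a subfield, `p` a prime, `α ≠ 0` with `α ^ p ∈ K1`.

`Tres A K1 p α` : the Kummer class of `a = α ^ p` over `K1` is VERY RAMIFIED: `a * b ^ p` is not
a unit of `A` for any `b ≠ 0` in `K1`.

* `valuation_twist_ne_one` : `c * α ^ d` (`c ∈ K1`, `c ≠ 0`, `p ∤ d`) is never a unit of `A`;
* `tres_components`        : if `z = ∑_{m < p} c m * α ^ m` (`c m ∈ K1`) is integral then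
                             `c 0 ∈ A` and every `c m * α ^ m`, `1 ≤ m < p`, is a NON-UNIT of `A`
                             (the values of the components are pairwise distinct);
* `tres_depth`             : hence for every ring endomorphism `σ` of `Ω` fixing `K1` with
                             `σ α = ζ ^ j * α` :  `σ z - z = (ζ - 1) * y` with `y` a non-unit,
                             i.e. `v (σ z - z) > v (ζ - 1)`;
* `kummer_components`      : the Kummer decomposition `z = ∑ e m`, `τ (e m) = ζ ^ m * e m` of an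
                             element fixed by `τ ^ p` (`τ ζ = ζ`).

Mathlib only.
-/

set_option autoImplicit false

open Finset

namespace Fermat.Agent.T8.helper89

section Abs

variable {Ω : Type*} [Field Ω] (A : ValuationSubring Ω)

/-- the Kummer class of `α ^ p` over `K1` is very ramified at `A` -/
def Tres (K1 : Subfield Ω) (p : ℕ) (α : Ω) : Prop :=
  ∀ b ∈ K1, b ≠ 0 → A.valuation (α ^ p * b ^ p) ≠ 1

variable {A}

theorem valuation_twist_ne_one {K1 : Subfield Ω} {p : ℕ} (hp : p.Prime) {α : Ω}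
    (haK : α ^ p ∈ K1) (htres : Tres A K1 p α) {d : ℕ} (hd : ¬ p ∣ d) {c : Ω} (hc : c ∈ K1)
    (hc0 : c ≠ 0) (hα : α ≠ 0) : A.valuation (c * α ^ d) ≠ 1 := by
  have hcop : Nat.Coprime d p := ((Nat.Prime.coprime_iff_not_dvd hp).mpr hd).symm
  obtain ⟨r, -, hr⟩ := Nat.exists_mul_mod_eq_one_of_coprime hcop hp.one_lt
  obtain ⟨s, hs⟩ : ∃ s : ℕ, d * r = 1 + p * s := by
    refine ⟨d * r / p, ?_⟩
    have := Nat.div_add_mod (d * r) p
    rw [hr] at this
    omega
  intro h
  have h1 : (c * α ^ d) ^ (p * r) = α ^ p * (c ^ r * (α ^ p) ^ s) ^ p := by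
    have e1 : d * (p * r) = p + p * s * p := by
      calc d * (p * r) = p * (d * r) := by ring
        _ = p * (1 + p * s) := by rw [hs]
        _ = p + p * s * p := by ring
    rw [mul_pow, ← pow_mul, e1, pow_add, mul_pow, ← pow_mul, ← pow_mul, ← pow_mul]
    ring
  have h2 : A.valuation ((c * α ^ d) ^ (p * r)) = 1 := by rw [map_pow, h, one_pow]
  rw [h1] at h2
  refine htres _ (K1.mul_mem (K1.pow_mem hc r) (K1.pow_mem haK s)) ?_ h2
  exact mul_ne_zero (pow_ne_zero _ hc0) (pow_ne_zero _ (pow_ne_zero _ hα))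

/-- **the values of the Kummer components are pairwise distinct**: an integral element of a very
ramified Kummer extension has integral constant component and non-unit higher components. -/
theorem tres_components {K1 : Subfield Ω} {p : ℕ} (hp : p.Prime) {α : Ω} (hα : α ≠ 0)
    (haK : α ^ p ∈ K1) (htres : Tres A K1 p α) (c : ℕ → Ω) (hc : ∀ m, c m ∈ K1)
    (hz : ∑ m ∈ range p, c m * α ^ m ∈ A) :
    c 0 ∈ A ∧ ∀ m, 1 ≤ m → m < p → c m * α ^ m ∈ A.nonunits := by
  classical
  set v := A.valuation with hv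
  set e : ℕ → Ω := fun m => c m * α ^ m with he
  have hem : ∀ m, e m = c m * α ^ m := fun _ => rfl
  have hem0 : ∀ m, e m ≠ 0 → c m ≠ 0 := by
    intro m h h0
    apply h
    rw [hem, h0, zero_mul]
  -- the components of positive index are not units
  have hnu : ∀ m, 1 ≤ m → m < p → e m ≠ 0 → v (e m) ≠ 1 := by
    intro m h1 h2 h0
    have hd : ¬ p ∣ m := fun h => by
      have := Nat.le_of_dvd (by omega) h
      omega
    exact valuation_twist_ne_one hp haK htres hd (hc m) (hem0 m h0) hα
  -- the values are pairwise distinct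
  have hdist : ∀ m m', m' < m → m < p → e m ≠ 0 → e m' ≠ 0 → v (e m) ≠ v (e m') := by
    intro m m' h1 h2 h0 h0' h
    have hd : ¬ p ∣ (m - m') := fun hdv => by
      have := Nat.le_of_dvd (by omega) hdv
      omega
    have hq : e m = (c m / c m' * α ^ (m - m')) * e m' := by
      rw [hem, hem]
      have : α ^ m = α ^ (m - m') * α ^ m' := by
        rw [← pow_add]
        congr 1
        omega
      rw [this]
      field_simp [hem0 m' h0']
    have h3 := valuation_twist_ne_one hp haK htres hd (K1.div_mem (hc m) (hc m'))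
      (div_ne_zero (hem0 m h0) (hem0 m' h0')) hα
    apply h3
    have h4 : v (e m) = v (c m / c m' * α ^ (m - m')) * v (e m') := by
      conv_lhs => rw [hq]
      rw [map_mul]
    rw [h] at h4
    have h5 : v (e m') ≠ 0 := (Valuation.ne_zero_iff v).mpr h0'
    have h6 : v (c m / c m' * α ^ (m - m')) * v (e m') = 1 * v (e m') := by
      rw [one_mul]
      exact h4.symm
    exact mul_right_cancel₀ h5 h6
  have hdist' : ∀ m m', m ≠ m' → m < p → m' < p → e m ≠ 0 → e m' ≠ 0 → v (e m) ≠ v (e m') := by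
    intro m m' hne h1 h2 h0 h0'
    rcases Nat.lt_or_gt_of_ne hne with h | h
    · exact fun hh => hdist m' m h h2 h0' h0 hh.symm
    · exact hdist m m' h h1 h0 h0'
  -- all components are integral
  have hint : ∀ m, m < p → v (e m) ≤ 1 := by
    by_cases hS : ((range p).filter fun m => e m ≠ 0).Nonempty
    · obtain ⟨m₀, hm₀, hmax⟩ := Finset.exists_max_image _ (fun m => v (e m)) hS
      rw [Finset.mem_filter, Finset.mem_range] at hm₀
      have hv0 : v (e m₀) ≠ 0 := (Valuation.ne_zero_iff v).mpr hm₀.2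
      have hlt : ∀ m ∈ (range p).erase m₀, v (e m) < v (e m₀) := by
        intro m hm
        rw [Finset.mem_erase, Finset.mem_range] at hm
        by_cases h0 : e m = 0
        · rw [h0, map_zero]
          exact zero_lt_iff.mpr hv0
        · have hle := hmax m (by rw [Finset.mem_filter, Finset.mem_range]; exact ⟨hm.2, h0⟩)
          exact lt_of_le_of_ne hle (hdist' m m₀ hm.1 hm.2 hm₀.1 h0 hm₀.2)
      have hsum : v (∑ m ∈ (range p).erase m₀, e m) < v (e m₀) :=
        Valuation.map_sum_lt v hv0 hlt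
      have hz' : v (e m₀ + ∑ m ∈ (range p).erase m₀, e m) = v (e m₀) :=
        Valuation.map_add_eq_of_lt_left v hsum
      rw [Finset.add_sum_erase _ _ (Finset.mem_range.mpr hm₀.1)] at hz'
      have hz1 : v (∑ m ∈ range p, e m) ≤ 1 := (A.valuation_le_one_iff _).mpr hz
      rw [hz'] at hz1
      intro m hm
      by_cases hmm : m = m₀
      · rw [hmm]
        exact hz1
      · exact le_trans (le_of_lt (hlt m (by
          rw [Finset.mem_erase, Finset.mem_range]
          exact ⟨hmm, hm⟩))) hz1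
    · intro m hm
      have h0 : e m = 0 := by
        by_contra h
        exact hS ⟨m, by rw [Finset.mem_filter, Finset.mem_range]; exact ⟨hm, h⟩⟩
      rw [h0, map_zero]
      exact zero_le_one
  refine ⟨?_, ?_⟩
  · have h0 := hint 0 hp.pos
    rw [hem, pow_zero, mul_one] at h0
    exact (A.valuation_le_one_iff _).mp h0
  · intro m h1 h2
    rw [ValuationSubring.mem_nonunits_iff]
    by_cases h0 : e m = 0
    · have : c m * α ^ m = 0 := h0
      rw [this, map_zero]
      exact zero_lt_one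
    · exact lt_of_le_of_ne (hint m h2) (hnu m h1 h2 h0)

/-- a root of unity is integral -/
theorem mem_of_pow_eq_one {ζ : Ω} {n : ℕ} (hn : 0 < n) (hζ : ζ ^ n = 1) : ζ ∈ A := by
  rcases A.mem_or_inv_mem ζ with h | h
  · exact h
  · have h1 : ζ = ζ⁻¹ ^ (n - 1) := by
      have hζ0 : ζ ≠ 0 := by
        intro h0
        rw [h0, zero_pow hn.ne'] at hζ
        exact zero_ne_one hζ
      have h2 : ζ * ζ ^ (n - 1) = 1 := by
        rw [← pow_succ']
        have : n - 1 + 1 = n := by omega
        rw [this, hζ]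
      rw [inv_pow]
      exact eq_inv_of_mul_eq_one_left h2
    rw [h1]
    exact A.pow_mem h _

/-- **depth of a very ramified Kummer extension**: every integral `z = ∑ c m * α ^ m` satisfies
`σ z - z ∈ (ζ - 1) * (non-units)` for every `σ` fixing `K1` with `σ α = ζ ^ j * α`. -/
theorem tres_depth {K1 : Subfield Ω} {p : ℕ} (hp : p.Prime) {ζ : Ω} (hζ : ζ ^ p = 1) {α : Ω}
    (hα : α ≠ 0) (haK : α ^ p ∈ K1) (htres : Tres A K1 p α) (σ : Ω →+* Ω)
    (hσK : ∀ x ∈ K1, σ x = x) (j : ℕ) (hσα : σ α = ζ ^ j * α) (c : ℕ → Ω)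
    (hc : ∀ m, c m ∈ K1) (hz : ∑ m ∈ range p, c m * α ^ m ∈ A) :
    ∃ y ∈ A.nonunits,
      σ (∑ m ∈ range p, c m * α ^ m) - ∑ m ∈ range p, c m * α ^ m = (ζ - 1) * y := by
  obtain ⟨-, h2⟩ := tres_components hp hα haK htres c hc hz
  have hζA : ζ ∈ A := mem_of_pow_eq_one hp.pos hζ
  refine ⟨∑ m ∈ range p, (∑ t ∈ range (j * m), ζ ^ t) * (c m * α ^ m), ?_, ?_⟩
  · rw [ValuationSubring.mem_nonunits_iff]
    refine Valuation.map_sum_lt _ one_ne_zero ?_
    intro m hm
    rw [Finset.mem_range] at hm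
    rcases Nat.eq_zero_or_pos m with h0 | h0
    · rw [h0, mul_zero, Finset.range_zero, Finset.sum_empty, zero_mul, map_zero]
      exact zero_lt_one
    · have h3 : A.valuation (∑ t ∈ range (j * m), ζ ^ t) ≤ 1 :=
        (A.valuation_le_one_iff _).mpr (A.toSubring.sum_mem fun t _ => A.pow_mem hζA t)
      have h4 := (ValuationSubring.mem_nonunits_iff A).mp (h2 m h0 hm)
      rw [map_mul]
      exact mul_lt_one_of_nonneg_of_lt_one_right h3 zero_le h4
  · rw [map_sum, ← Finset.sum_sub_distrib, Finset.mul_sum]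
    refine Finset.sum_congr rfl fun m _ => ?_
    rw [map_mul, map_pow, hσK _ (hc m), hσα, mul_pow, ← pow_mul, ← mul_assoc (ζ - 1),
      mul_geom_sum]
    ring

end Abs

section Kummer

variable {Ω : Type*} [Field Ω]

/-- **Kummer decomposition**: an element fixed by `τ ^ p` is the sum of its `p` eigencomponents
`e m = p⁻¹ ∑_{i < p} ζ ^ (-(i m)) τ^i z`, and `τ (e m) = ζ ^ m * e m`. -/
theorem kummer_components {p : ℕ} (hp : p.Prime) (hpΩ : (p : Ω) ≠ 0) {ζ : Ω}
    (hζ : IsPrimitiveRoot ζ p) (τ : Ω →+* Ω) (hτζ : τ ζ = ζ) (z : Ω) (hz : τ^[p] z = z) :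
    ∃ e : ℕ → Ω, (∑ m ∈ range p, e m = z) ∧ (∀ m, τ (e m) = ζ ^ m * e m) ∧
      ∀ m, e m = (p : Ω)⁻¹ * ∑ i ∈ range p, (ζ⁻¹) ^ (i * m) * τ^[i] z := by
  have hζ0 : ζ ≠ 0 := hζ.ne_zero hp.ne_zero
  have hζp : ζ ^ p = 1 := hζ.pow_eq_one
  have hτinv : τ ζ⁻¹ = ζ⁻¹ := by rw [map_inv₀, hτζ]
  refine ⟨fun m => (p : Ω)⁻¹ * ∑ i ∈ range p, (ζ⁻¹) ^ (i * m) * τ^[i] z, ?_, ?_, fun _ => rfl⟩
  · -- orthogonality
    rw [← Finset.mul_sum, Finset.sum_comm]
    have key : ∀ i ∈ range p, ∑ m ∈ range p, (ζ⁻¹) ^ (i * m) * τ^[i] z =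
        if i = 0 then (p : Ω) * z else 0 := by
      intro i hi
      rw [Finset.mem_range] at hi
      rw [← Finset.sum_mul]
      split_ifs with h0
      · subst h0
        simp
      · have hne : (ζ⁻¹) ^ i ≠ 1 := by
          intro h
          rw [inv_pow, inv_eq_one] at h
          have := (hζ.pow_eq_one_iff_dvd i).mp h
          have := Nat.le_of_dvd (Nat.pos_of_ne_zero h0) this
          omega
        have hsum : ∑ m ∈ range p, (ζ⁻¹) ^ (i * m) = 0 := by
          have h1 : ∀ m, (ζ⁻¹) ^ (i * m) = ((ζ⁻¹) ^ i) ^ m := fun m => pow_mul _ _ _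
          simp only [h1]
          have h2 := mul_geom_sum ((ζ⁻¹) ^ i) p
          have h3 : ((ζ⁻¹) ^ i) ^ p = 1 := by
            rw [← pow_mul, mul_comm, pow_mul, inv_pow, hζp, inv_one, one_pow]
          rw [h3, sub_self] at h2
          rcases mul_eq_zero.mp h2 with h | h
          · exact absurd (sub_eq_zero.mp h) hne
          · exact h
        rw [hsum, zero_mul]
    rw [Finset.sum_congr rfl key, Finset.sum_ite_eq' (range p) 0 fun _ => (p : Ω) * z]
    rw [if_pos (Finset.mem_range.mpr hp.pos), ← mul_assoc, inv_mul_cancel₀ hpΩ, one_mul]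
  · intro m
    set f : ℕ → Ω := fun i => (ζ⁻¹) ^ (i * m) * τ^[i] z with hf
    have hfp : f p = f 0 := by
      simp only [hf]
      rw [zero_mul, pow_zero, Function.iterate_zero, id_eq, hz, pow_mul, inv_pow, hζp, inv_one,
        one_pow]
    have hshift : ∑ i ∈ range p, f (i + 1) = ∑ i ∈ range p, f i := by
      have h1 := Finset.sum_range_succ f p
      have h2 := Finset.sum_range_succ' f p
      rw [h1, hfp] at h2
      exact (add_right_cancel h2).symm
    have h1 : ∀ i ∈ range p, τ (f i) = ζ ^ m * f (i + 1) := by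
      intro i _
      have hm1 : ζ ^ m * (ζ⁻¹) ^ m = 1 := by rw [← mul_pow, mul_inv_cancel₀ hζ0, one_pow]
      simp only [hf]
      rw [map_mul, map_pow, hτinv, Function.iterate_succ_apply', add_mul, one_mul, pow_add]
      linear_combination (-((ζ⁻¹) ^ (i * m) * τ (τ^[i] z))) * hm1
    show τ ((p : Ω)⁻¹ * ∑ i ∈ range p, f i) = ζ ^ m * ((p : Ω)⁻¹ * ∑ i ∈ range p, f i)
    rw [map_mul, map_inv₀, map_natCast, map_sum, Finset.sum_congr rfl h1, ← Finset.mul_sum,
      hshift]
    ring

end Kummer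

end Fermat.Agent.T8.helper89
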