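import Fermat.Agent.T8.helper89_TresDepth

/-!
# T8 (row 38), helper89: the Galois adapter of the very-ramified test

`H` a group of automorphisms of a field `Ω` (in the application: the elements of the inertia
group of a place `A` over `p` which fix `ζ_p`), `K1` its fixed field, `α ≠ 0` with
`σ α = ζ ^ j * α` for all `σ ∈ H`, `τ ∈ H` with `τ α = ζ * α`.

* `exists_kummer_coeffs` : every `z` fixed by the stabiliser of `α` in `H` is
                           `∑_{m < p} c m * α ^ m` with `c m ∈ K1`;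
* `tres_depth_galois`    : if the class of `α ^ p` is very ramified, every such integral `z`
                           satisfies `σ z - z ∈ (ζ - 1) * (non-units of A)` for all `σ ∈ H`;
* `exists_unit_class_of_depth` : **the test**: ONE integral `z` fixed by the stabiliser of `α`
                           and ONE `σ ∈ H` with `σ z - z ∉ (ζ - 1) * (non-units)` give
                           `α' = α * b`, `b ∈ K1`, with the same transformation law and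
                           `α' ^ p` a UNIT of `A` (the class is "peu ramifiee").
-/

set_option autoImplicit false

open Finset

namespace Fermat.Agent.T8.helper89

section Galois

variable {F Ω : Type*} [Field F] [Field Ω] [Algebra F Ω]

theorem algEquiv_pow_smul_eig (τ : Ω ≃ₐ[F] Ω) {ζ α : Ω} (hτζ : τ ζ = ζ) (hτα : τ α = ζ * α)
    (n : ℕ) : (τ ^ n) α = ζ ^ n * α := by
  induction n with
  | zero => simp
  | succ n ih =>
    rw [pow_succ', AlgEquiv.mul_apply, ih, map_mul, map_pow, hτζ, hτα, pow_succ]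
    ring

theorem algEquiv_pow_eig (τ : Ω ≃ₐ[F] Ω) {c e : Ω} (hτe : τ e = c * e) (hτc : τ c = c)
    (n : ℕ) : (τ ^ n) e = c ^ n * e := by
  induction n with
  | zero => simp
  | succ n ih =>
    rw [pow_succ', AlgEquiv.mul_apply, ih, map_mul, map_pow, hτc, hτe, pow_succ]
    ring

variable (H : Subgroup (Ω ≃ₐ[F] Ω)) (K1 : Subfield Ω)

/-- **Kummer decomposition over the fixed field**. -/
theorem exists_kummer_coeffs (hK1 : ∀ x : Ω, (∀ σ ∈ H, σ x = x) → x ∈ K1) {p : ℕ}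
    (hp : p.Prime) (hpΩ : (p : Ω) ≠ 0) {ζ : Ω} (hζ : IsPrimitiveRoot ζ p)
    (hζH : ∀ σ ∈ H, σ ζ = ζ) {α : Ω} (hα : α ≠ 0)
    (hαH : ∀ σ ∈ H, ∃ j : ℕ, σ α = ζ ^ j * α) {τ : Ω ≃ₐ[F] Ω} (hτ : τ ∈ H)
    (hτα : τ α = ζ * α) (z : Ω) (hz : ∀ σ ∈ H, σ α = α → σ z = z) :
    ∃ c : ℕ → Ω, (∀ m, c m ∈ K1) ∧ z = ∑ m ∈ range p, c m * α ^ m := by
  have hζp : ζ ^ p = 1 := hζ.pow_eq_one
  have hζ0 : ζ ≠ 0 := hζ.ne_zero hp.ne_zero
  -- `τ ^ p` fixes `z`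
  have hτp : (τ ^ p) z = z := by
    refine hz _ (H.pow_mem hτ p) ?_
    rw [algEquiv_pow_smul_eig τ (hζH τ hτ) hτα, hζp, one_mul]
  have hτp' : (τ.toRingEquiv.toRingHom)^[p] z = z := by
    have : (τ.toRingEquiv.toRingHom : Ω → Ω) = ⇑τ := rfl
    rw [this, ← AlgEquiv.coe_pow]
    exact hτp
  obtain ⟨e, hsum, heig, hform⟩ :=
    kummer_components hp hpΩ hζ τ.toRingEquiv.toRingHom (hζH τ hτ) z hτp'
  have heig' : ∀ m, τ (e m) = ζ ^ m * e m := heig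
  -- the stabiliser of `α` fixes every `τ^i z`
  have hstab : ∀ κ ∈ H, κ α = α → ∀ i : ℕ, κ ((τ ^ i) z) = (τ ^ i) z := by
    intro κ hκ hκα i
    have h1 : ((τ ^ i)⁻¹ * κ * τ ^ i) z = z := by
      refine hz _ (H.mul_mem (H.mul_mem (H.inv_mem (H.pow_mem hτ i)) hκ) (H.pow_mem hτ i)) ?_
      rw [AlgEquiv.mul_apply, AlgEquiv.mul_apply, algEquiv_pow_smul_eig τ (hζH τ hτ) hτα,
        map_mul, map_pow, hζH κ hκ, hκα, ← algEquiv_pow_smul_eig τ (hζH τ hτ) hτα i]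
      exact (τ ^ i).symm_apply_apply α
    have h2 : (τ ^ i) (((τ ^ i)⁻¹ * κ * τ ^ i) z) = κ ((τ ^ i) z) := by
      rw [AlgEquiv.mul_apply, AlgEquiv.mul_apply]
      exact (τ ^ i).apply_symm_apply _
    rw [← h2, h1]
  have hstab_e : ∀ κ ∈ H, κ α = α → ∀ m, κ (e m) = e m := by
    intro κ hκ hκα m
    rw [hform m, map_mul, map_inv₀, map_natCast, map_sum]
    congr 1
    refine Finset.sum_congr rfl fun i _ => ?_
    have h3 : (τ.toRingEquiv.toRingHom)^[i] z = (τ ^ i) z := by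
      have : (τ.toRingEquiv.toRingHom : Ω → Ω) = ⇑τ := rfl
      rw [this, ← AlgEquiv.coe_pow]
    rw [map_mul, map_pow, map_inv₀, hζH κ hκ, h3, hstab κ hκ hκα i]
  -- every `σ ∈ H` acts on `e m` through the same character as on `α ^ m`
  have hall : ∀ σ ∈ H, ∀ j : ℕ, σ α = ζ ^ j * α → ∀ m, σ (e m) = (ζ ^ j) ^ m * e m := by
    intro σ hσ j hj m
    have hκ : σ * (τ ^ j)⁻¹ ∈ H := H.mul_mem hσ (H.inv_mem (H.pow_mem hτ j))
    have hκα : (σ * (τ ^ j)⁻¹) α = α := by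
      have h4 : (τ ^ j)⁻¹ α = (ζ ^ j)⁻¹ * α := by
        have h5 : (τ ^ j) ((ζ ^ j)⁻¹ * α) = α := by
          rw [map_mul, map_inv₀, map_pow, AlgEquiv.coe_pow, Function.iterate_fixed (hζH τ hτ),
            ← AlgEquiv.coe_pow, algEquiv_pow_smul_eig τ (hζH τ hτ) hτα, ← mul_assoc,
            inv_mul_cancel₀ (pow_ne_zero _ hζ0), one_mul]
        refine (τ ^ j).injective ?_
        rw [h5]
        exact (τ ^ j).apply_symm_apply α
      rw [AlgEquiv.mul_apply, h4, map_mul, map_inv₀, map_pow, hζH σ hσ, hj, ← mul_assoc,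
        inv_mul_cancel₀ (pow_ne_zero _ hζ0), one_mul]
    have h6 : σ (e m) = (σ * (τ ^ j)⁻¹) ((τ ^ j) (e m)) := by
      rw [AlgEquiv.mul_apply]
      congr 1
      exact ((τ ^ j).symm_apply_apply _).symm
    have hζm : τ (ζ ^ m) = ζ ^ m := by rw [map_pow, hζH τ hτ]
    rw [h6, algEquiv_pow_eig τ (heig' m) hζm j, map_mul, map_pow, map_pow,
      hζH _ hκ, hstab_e _ hκ hκα m, ← pow_mul, ← pow_mul, mul_comm j m]
  refine ⟨fun m => e m / α ^ m, fun m => hK1 _ fun σ hσ => ?_, ?_⟩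
  · obtain ⟨j, hj⟩ := hαH σ hσ
    rw [map_div₀, map_pow, hall σ hσ j hj m, hj, mul_pow]
    field_simp
  · rw [← hsum]
    refine Finset.sum_congr rfl fun m _ => ?_
    field_simp

variable {H K1}

/-- **depth of a very ramified Kummer class, Galois form**. -/
theorem tres_depth_galois (A : ValuationSubring Ω)
    (hK1 : ∀ x : Ω, x ∈ K1 ↔ ∀ σ ∈ H, σ x = x) {p : ℕ}
    (hp : p.Prime) (hpΩ : (p : Ω) ≠ 0) {ζ : Ω} (hζ : IsPrimitiveRoot ζ p)
    (hζH : ∀ σ ∈ H, σ ζ = ζ) {α : Ω} (hα : α ≠ 0)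
    (hαH : ∀ σ ∈ H, ∃ j : ℕ, σ α = ζ ^ j * α) {τ : Ω ≃ₐ[F] Ω} (hτ : τ ∈ H)
    (hτα : τ α = ζ * α) (htres : Tres A K1 p α) (z : Ω)
    (hz : ∀ σ ∈ H, σ α = α → σ z = z) (hzA : z ∈ A) :
    ∀ σ ∈ H, ∃ y ∈ A.nonunits, σ z - z = (ζ - 1) * y := by
  intro σ hσ
  have hζp : ζ ^ p = 1 := hζ.pow_eq_one
  have haK : α ^ p ∈ K1 := by
    rw [hK1]
    intro ρ hρ
    obtain ⟨j, hj⟩ := hαH ρ hρ
    rw [map_pow, hj, mul_pow, ← pow_mul, mul_comm j p, pow_mul, hζp, one_pow, one_mul]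
  obtain ⟨c, hc, hzc⟩ := exists_kummer_coeffs H K1 (fun x hx => (hK1 x).mpr hx) hp hpΩ hζ hζH hα
    hαH hτ hτα z hz
  obtain ⟨j, hj⟩ := hαH σ hσ
  have h := tres_depth (A := A) hp hζp hα haK htres σ.toRingEquiv.toRingHom
    (fun x hx => (hK1 x).mp hx σ hσ) j hj c hc (hzc ▸ hzA)
  rw [← hzc] at h
  exact h

/-- **the test for "peu ramifiee"**: one integral element of the Kummer extension which is moved
by some `σ ∈ H` to depth at most `v (ζ - 1)` forces the class of `α ^ p` to be a unit class. -/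
theorem exists_unit_class_of_depth (A : ValuationSubring Ω)
    (hK1 : ∀ x : Ω, x ∈ K1 ↔ ∀ σ ∈ H, σ x = x) {p : ℕ}
    (hp : p.Prime) (hpΩ : (p : Ω) ≠ 0) {ζ : Ω} (hζ : IsPrimitiveRoot ζ p)
    (hζH : ∀ σ ∈ H, σ ζ = ζ) {α : Ω} (hα : α ≠ 0)
    (hαH : ∀ σ ∈ H, ∃ j : ℕ, σ α = ζ ^ j * α) {τ : Ω ≃ₐ[F] Ω} (hτ : τ ∈ H)
    (hτα : τ α = ζ * α) (z : Ω) (hz : ∀ σ ∈ H, σ α = α → σ z = z) (hzA : z ∈ A)
    {σ : Ω ≃ₐ[F] Ω} (hσ : σ ∈ H) (hdepth : ¬ ∃ y ∈ A.nonunits, σ z - z = (ζ - 1) * y) :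
    ∃ α' : Ω, α' ≠ 0 ∧ (∀ ρ ∈ H, ∀ j : ℕ, ρ α = ζ ^ j * α → ρ α' = ζ ^ j * α') ∧
      α' ^ p ∈ K1 ∧ A.valuation (α' ^ p) = 1 ∧ ∃ b ∈ K1, b ≠ 0 ∧ α' = α * b := by
  have hnot : ¬ Tres A K1 p α := fun htres =>
    hdepth (tres_depth_galois A hK1 hp hpΩ hζ hζH hα hαH hτ hτα htres z hz hzA σ hσ)
  obtain ⟨b, hb, hb0, hv⟩ : ∃ b ∈ K1, b ≠ 0 ∧ A.valuation (α ^ p * b ^ p) = 1 := by
    by_contra hcon
    exact hnot fun b hb hb0 hv => hcon ⟨b, hb, hb0, hv⟩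
  have hζp : ζ ^ p = 1 := hζ.pow_eq_one
  have haK : α ^ p ∈ K1 := by
    rw [hK1]
    intro ρ hρ
    obtain ⟨j, hj⟩ := hαH ρ hρ
    rw [map_pow, hj, mul_pow, ← pow_mul, mul_comm j p, pow_mul, hζp, one_pow, one_mul]
  refine ⟨α * b, mul_ne_zero hα hb0, ?_, ?_, ?_, b, hb, hb0, rfl⟩
  · intro ρ hρ j hj
    rw [map_mul, hj, (hK1 b).mp hb ρ hρ, mul_assoc]
  · rw [mul_pow]
    exact K1.mul_mem haK (K1.pow_mem hb p)
  · rw [mul_pow]
    exact hv

end Galois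

end Fermat.Agent.T8.helper89
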