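import Fermat.Agent.T8.helper89_TresGalois

/-!
# T8 (row 38), helper89: from ONE integral coordinate to a unit Kummer generator

`H` a group of automorphisms of a field `Ω` fixing `ζ = ζ_p`, `K1` its fixed field, `τ ∈ H`,
`w ∈ Ω` with `τ ^ p w = w`, and `H` acts on the `τ`-orbit of `w` by SHIFTS:
for every `σ ∈ H` there is `j` with `σ (τ ^ n w) = τ ^ (n + j) w` for all `n`
(in the application: `w` a coordinate of a `p`-torsion point `P`, `σ P = P + j (τ P - P)`).

* `exists_resolvent`     : if `τ w ≠ w` there is `α ≠ 0` (a Lagrange resolvent of a power of `w`)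
                           with `σ α = ζ ^ j * α` whenever `σ` shifts by `j`;
* `exists_unit_kummer_of_orbit` : **[W-MULT], abstract end**: if moreover `w` is integral at `A`
                           and `τ w - w ∉ (ζ - 1) * (non-units of A)` (depth at most `v (ζ - 1)`),
                           then `α` can be chosen with `α ^ p ∈ K1` a UNIT of `A`: the Kummer
                           class of the extension is "peu ramifiee".
-/

set_option autoImplicit false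

open Finset

namespace Fermat.Agent.T8.helper89

section Orbit

variable {F Ω : Type*} [Field F] [Field Ω] [Algebra F Ω]

/-- a sum over a full period does not change under shifts -/
theorem sum_range_shift {p : ℕ} (G : ℕ → Ω) (hG : ∀ i, G (i + p) = G i) (j : ℕ) :
    ∑ i ∈ range p, G (i + j) = ∑ i ∈ range p, G i := by
  induction j with
  | zero => simp
  | succ j ih =>
    have h1 := Finset.sum_range_succ (fun i => G (i + j)) p
    have h2 := Finset.sum_range_succ' (fun i => G (i + j)) p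
    have h3 : G (p + j) = G (0 + j) := by rw [add_comm p j, hG, zero_add]
    rw [h1, h3] at h2
    have h4 : ∀ i, G (i + (j + 1)) = G (i + 1 + j) := fun i => by
      congr 1
      omega
    simp only [h4]
    rw [← ih]
    exact (add_right_cancel h2).symm

theorem algEquiv_pow_mul_fixed (τ : Ω ≃ₐ[F] Ω) {p : ℕ} {w : Ω} (hτp : (τ ^ p) w = w) (n k : ℕ) :
    (τ ^ (n + p * k)) w = (τ ^ n) w := by
  induction k with
  | zero => simp
  | succ k ih =>
    have : n + p * (k + 1) = (n + p * k) + p := by ring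
    rw [this, pow_add, AlgEquiv.mul_apply, hτp, ih]

/-- the `τ`-orbit of `w` has `p` distinct elements -/
theorem orbit_injective (τ : Ω ≃ₐ[F] Ω) {p : ℕ} (hp : p.Prime) {w : Ω} (hτp : (τ ^ p) w = w)
    (hτw : τ w ≠ w) : Function.Injective fun i : Fin p => (τ ^ (i : ℕ)) w := by
  -- `τ ^ d w = w` with `0 < d < p` is impossible
  have key : ∀ d : ℕ, 0 < d → d < p → (τ ^ d) w ≠ w := by
    intro d hd0 hdp hd
    have hcop : Nat.Coprime d p :=
      ((Nat.Prime.coprime_iff_not_dvd hp).mpr fun h => by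
        have := Nat.le_of_dvd hd0 h
        omega).symm
    obtain ⟨r, -, hr⟩ := Nat.exists_mul_mod_eq_one_of_coprime hcop hp.one_lt
    obtain ⟨s, hs⟩ : ∃ s : ℕ, d * r = 1 + p * s := by
      refine ⟨d * r / p, ?_⟩
      have := Nat.div_add_mod (d * r) p
      rw [hr] at this
      omega
    have h1 : ∀ r : ℕ, (τ ^ (d * r)) w = w := by
      intro r
      induction r with
      | zero => simp
      | succ r ih =>
        have : d * (r + 1) = d * r + d := by ring
        rw [this, pow_add, AlgEquiv.mul_apply, hd, ih]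
    have h2 := h1 r
    rw [hs, algEquiv_pow_mul_fixed τ hτp 1 s, pow_one] at h2
    exact hτw h2
  intro i i' h
  simp only at h
  by_contra hne
  have hne' : (i : ℕ) ≠ (i' : ℕ) := fun h' => hne (Fin.ext h')
  rcases Nat.lt_or_gt_of_ne hne' with hlt | hlt
  · refine key (i' - i) (by omega) (by have := i'.2; omega) ?_
    have h3 : (τ ^ (i : ℕ)) ((τ ^ ((i' : ℕ) - i)) w) = (τ ^ (i : ℕ)) w := by
      rw [← AlgEquiv.mul_apply, ← pow_add]
      have : (i : ℕ) + (i' - i) = i' := by omega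
      rw [this]
      exact h.symm
    exact (τ ^ (i : ℕ)).injective h3
  · refine key (i - i') (by omega) (by have := i.2; omega) ?_
    have h3 : (τ ^ (i' : ℕ)) ((τ ^ ((i : ℕ) - i')) w) = (τ ^ (i' : ℕ)) w := by
      rw [← AlgEquiv.mul_apply, ← pow_add]
      have : (i' : ℕ) + (i - i') = i := by omega
      rw [this]
      exact h
    exact (τ ^ (i' : ℕ)).injective h3

variable (H : Subgroup (Ω ≃ₐ[F] Ω))

/-- **Lagrange resolvent**: a nonzero `α` on which every `σ ∈ H` shifting the orbit of `w` by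
`j` acts through `ζ ^ j`. -/
theorem exists_resolvent {p : ℕ} (hp : p.Prime) {ζ : Ω} (hζ : IsPrimitiveRoot ζ p)
    (hζH : ∀ σ ∈ H, σ ζ = ζ) {τ : Ω ≃ₐ[F] Ω} (w : Ω) (hτp : (τ ^ p) w = w) (hτw : τ w ≠ w) :
    ∃ α : Ω, α ≠ 0 ∧ ∀ σ ∈ H, ∀ j : ℕ, (∀ n : ℕ, σ ((τ ^ n) w) = (τ ^ (n + j)) w) →
      σ α = ζ ^ j * α := by
  classical
  have hζp : ζ ^ p = 1 := hζ.pow_eq_one
  have hζ0 : ζ ≠ 0 := hζ.ne_zero hp.ne_zero
  have hne0 : NeZero p := ⟨hp.ne_zero⟩
  -- some resolvent is nonzero (Vandermonde)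
  obtain ⟨k, hk⟩ : ∃ k : Fin p, ∑ i : Fin p, (ζ⁻¹) ^ (i : ℕ) * ((τ ^ (i : ℕ)) w) ^ (k : ℕ) ≠ 0 := by
    by_contra hcon
    have hall : ∀ k : Fin p, ∑ i : Fin p, (ζ⁻¹) ^ (i : ℕ) * ((τ ^ (i : ℕ)) w) ^ (k : ℕ) = 0 := by
      intro k
      by_contra h
      exact hcon ⟨k, h⟩
    have hdet : (Matrix.vandermonde fun i : Fin p => (τ ^ (i : ℕ)) w).det ≠ 0 :=
      Matrix.det_vandermonde_ne_zero_iff.mpr (orbit_injective τ hp hτp hτw)
    have hv : Matrix.vecMul (fun i : Fin p => (ζ⁻¹) ^ (i : ℕ))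
        (Matrix.vandermonde fun i : Fin p => (τ ^ (i : ℕ)) w) = 0 := by
      funext k
      rw [Matrix.vecMul, dotProduct]
      simp only [Matrix.vandermonde_apply, Pi.zero_apply]
      exact hall k
    have h0 := Matrix.eq_zero_of_vecMul_eq_zero hdet hv
    have h1 := congrFun h0 (0 : Fin p)
    simp at h1
  set G : ℕ → Ω := fun i => (ζ⁻¹) ^ i * ((τ ^ i) w) ^ (k : ℕ) with hG
  have hGper : ∀ i, G (i + p) = G i := by
    intro i
    simp only [hG]
    have h1 := algEquiv_pow_mul_fixed τ hτp i 1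
    rw [mul_one] at h1
    rw [h1, pow_add, inv_pow ζ p, hζp, inv_one, mul_one]
  have hsum : ∑ i : Fin p, (ζ⁻¹) ^ (i : ℕ) * ((τ ^ (i : ℕ)) w) ^ (k : ℕ) = ∑ i ∈ range p, G i :=
    Fin.sum_univ_eq_sum_range G p
  refine ⟨∑ i ∈ range p, G i, hsum ▸ hk, ?_⟩
  intro σ hσ j hj
  have h1 : ∀ i ∈ range p, σ (G i) = ζ ^ j * G (i + j) := by
    intro i _
    have hz1 : (ζ⁻¹) ^ i = ζ ^ j * (ζ⁻¹) ^ (i + j) := by
      rw [pow_add, mul_left_comm, ← mul_pow, mul_inv_cancel₀ hζ0, one_pow, mul_one]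
    simp only [hG]
    rw [map_mul, map_pow, map_inv₀, hζH σ hσ, map_pow, hj i, hz1, mul_assoc]
  rw [map_sum, Finset.sum_congr rfl h1, ← Finset.mul_sum, sum_range_shift G hGper j]

variable {H}

/-- **[W-MULT], abstract end**: an integral `w` whose `τ`-orbit is permuted by `H` through
shifts and with `τ w - w` of depth at most `v (ζ - 1)` gives a Kummer generator `α` of the
extension with `α ^ p` a unit of `A` lying in `K1`. -/
theorem exists_unit_kummer_of_orbit (A : ValuationSubring Ω) {K1 : Subfield Ω}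
    (hK1 : ∀ x : Ω, x ∈ K1 ↔ ∀ σ ∈ H, σ x = x) {p : ℕ}
    (hp : p.Prime) (hpΩ : (p : Ω) ≠ 0) {ζ : Ω} (hζ : IsPrimitiveRoot ζ p)
    (hζH : ∀ σ ∈ H, σ ζ = ζ) {τ : Ω ≃ₐ[F] Ω} (hτ : τ ∈ H) (w : Ω) (hwA : w ∈ A)
    (hτp : (τ ^ p) w = w)
    (hshift : ∀ σ ∈ H, ∃ j : ℕ, ∀ n : ℕ, σ ((τ ^ n) w) = (τ ^ (n + j)) w)
    (hdepth : ¬ ∃ y ∈ A.nonunits, τ w - w = (ζ - 1) * y) :
    ∃ α : Ω, α ≠ 0 ∧ τ α = ζ * α ∧ α ^ p ∈ K1 ∧ A.valuation (α ^ p) = 1 ∧
      ∀ σ ∈ H, ∀ j : ℕ, (∀ n : ℕ, σ ((τ ^ n) w) = (τ ^ (n + j)) w) → σ α = ζ ^ j * α := by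
  have hζp : ζ ^ p = 1 := hζ.pow_eq_one
  have hτw : τ w ≠ w := by
    intro h
    refine hdepth ⟨0, ?_, ?_⟩
    · rw [ValuationSubring.mem_nonunits_iff, map_zero]
      exact zero_lt_one
    · rw [h, sub_self, mul_zero]
  obtain ⟨α, hα0, hα⟩ := exists_resolvent H hp hζ hζH w hτp hτw
  have hτshift : ∀ n : ℕ, τ ((τ ^ n) w) = (τ ^ (n + 1)) w := by
    intro n
    rw [pow_succ', AlgEquiv.mul_apply]
  have hτα : τ α = ζ * α := by
    have := hα τ hτ 1 hτshift
    rwa [pow_one] at this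
  have hαH : ∀ σ ∈ H, ∃ j : ℕ, σ α = ζ ^ j * α := by
    intro σ hσ
    obtain ⟨j, hj⟩ := hshift σ hσ
    exact ⟨j, hα σ hσ j hj⟩
  -- the stabiliser of `α` fixes `w`
  have hz : ∀ σ ∈ H, σ α = α → σ w = w := by
    intro σ hσ hσα
    obtain ⟨j, hj⟩ := hshift σ hσ
    have h1 := hα σ hσ j hj
    rw [hσα] at h1
    have h2 : ζ ^ j = 1 := by
      have h3 : (ζ ^ j - 1) * α = 0 := by
        rw [sub_mul, one_mul, ← h1, sub_self]
      rcases mul_eq_zero.mp h3 with h | h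
      · exact sub_eq_zero.mp h
      · exact absurd h hα0
    obtain ⟨t, rfl⟩ := (hζ.pow_eq_one_iff_dvd j).mp h2
    have h4 := hj 0
    rw [pow_zero, AlgEquiv.one_apply, algEquiv_pow_mul_fixed τ hτp 0 t, pow_zero,
      AlgEquiv.one_apply] at h4
    exact h4
  obtain ⟨α', hα'0, hα'law, hα'K, hα'v, b, hb, hb0, hα'eq⟩ :=
    exists_unit_class_of_depth A hK1 hp hpΩ hζ hζH hα0 hαH hτ hτα w hz hwA hτ hdepth
  refine ⟨α', hα'0, ?_, hα'K, hα'v, ?_⟩
  · have := hα'law τ hτ 1 (by rw [pow_one]; exact hτα)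
    rwa [pow_one] at this
  · intro σ hσ j hj
    exact hα'law σ hσ j (hα σ hσ j hj)

end Orbit

end Fermat.Agent.T8.helper89
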