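import Mathlib

/-!
# T8 / [F3-EXIT], leaf [ANN-ABS] (helper91): the annihilator of a space of Laurent series

`k` a field, `R` a `k`-subspace of `k((q))` (in the application: the functions of a curve which
are regular off the point `∞`, expanded at `∞`).  The residue pairing is
`(h, ω) ↦ a₀(h ω)` (constant coefficient).

* `ann R` : the series `ω ∈ q k[[q]]` with `a₀(h ω) = 0` for all `h ∈ R`
  (the expansions of the regular differentials `ω dq / q`);
* `coeff_zero_mul_eq_sum` : `a₀(h ω) = ∑_{1 ≤ j ≤ n} h₋ⱼ ωⱼ` when `h` has pole order `≤ n` and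
  `ω ∈ q k[[q]]`;
* `HasPoleOrd R n` : the pole order `n` is attained by an element of `R`;
* `eq_zero_of_coeff_gaps` : an element of `ann R` whose coefficients vanish at the gaps
  (the non-attained pole orders) is zero;
* `finrank_ann_le_card` : if the gaps lie in a finite set `S` then `ann R` is finite dimensional
  of dimension `≤ #S`;
* `eq_ann_of_le_of_card_le` : a subspace of `ann R` of dimension `≥ #S` is `ann R`.
-/

set_option autoImplicit false
set_option linter.style.haveILetI false

noncomputable section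

namespace Fermat.Agent.T8.helper91

open HahnSeries

variable {k : Type*} [Field k]

/-- constant coefficient of `h * ω` when `h` has pole order `≤ n` and `ω` has no terms of
exponent `≤ 0`. -/
theorem coeff_zero_mul_eq_sum (h ω : LaurentSeries k) (n : ℕ)
    (hh : ∀ m : ℤ, m < -(n : ℤ) → h.coeff m = 0) (hω : ∀ m : ℤ, m ≤ 0 → ω.coeff m = 0) :
    (h * ω).coeff 0 = ∑ j ∈ Finset.Icc 1 n, h.coeff (-(j : ℤ)) * ω.coeff (j : ℤ) := by
  rw [HahnSeries.coeff_mul]
  refine Finset.sum_bij_ne_zero (fun ij _ _ => ij.2.toNat) ?_ ?_ ?_ ?_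
  · intro ij hij hne
    rw [Finset.mem_antidiagonal] at hij
    obtain ⟨-, -, hsum⟩ := hij
    have h1 : h.coeff ij.1 ≠ 0 := left_ne_zero_of_mul hne
    have h2 : ω.coeff ij.2 ≠ 0 := right_ne_zero_of_mul hne
    have h3 : -(n : ℤ) ≤ ij.1 := by
      by_contra hc
      exact h1 (hh _ (not_le.mp hc))
    have h4 : 0 < ij.2 := by
      by_contra hc
      exact h2 (hω _ (not_lt.mp hc))
    rw [Finset.mem_Icc]
    omega
  · intro ij hij hne ij' hij' hne' he
    rw [Finset.mem_antidiagonal] at hij hij'
    have h2 : ω.coeff ij.2 ≠ 0 := right_ne_zero_of_mul hne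
    have h2' : ω.coeff ij'.2 ≠ 0 := right_ne_zero_of_mul hne'
    have h4 : 0 < ij.2 := by
      by_contra hc
      exact h2 (hω _ (not_lt.mp hc))
    have h4' : 0 < ij'.2 := by
      by_contra hc
      exact h2' (hω _ (not_lt.mp hc))
    have e2 : ij.2 = ij'.2 := by omega
    have e1 : ij.1 = ij'.1 := by
      have := hij.2.2
      have := hij'.2.2
      omega
    exact Prod.ext e1 e2
  · intro j hj hne
    have h1 : h.coeff (-(j : ℤ)) ≠ 0 := left_ne_zero_of_mul hne
    have h2 : ω.coeff (j : ℤ) ≠ 0 := right_ne_zero_of_mul hne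
    refine ⟨(-(j : ℤ), (j : ℤ)), ?_, ?_, ?_⟩
    · rw [Finset.mem_antidiagonal]
      exact ⟨h1, h2, by simp⟩
    · exact hne
    · simp
  · intro ij hij hne
    rw [Finset.mem_antidiagonal] at hij
    have h2 : ω.coeff ij.2 ≠ 0 := right_ne_zero_of_mul hne
    have h4 : 0 < ij.2 := by
      by_contra hc
      exact h2 (hω _ (not_lt.mp hc))
    have e2 : ((ij.2.toNat : ℕ) : ℤ) = ij.2 := Int.toNat_of_nonneg h4.le
    have e1 : -((ij.2.toNat : ℕ) : ℤ) = ij.1 := by
      have := hij.2.2
      omega
    rw [e1, e2]

/-- the annihilator of `R` in `q k[[q]]` for the residue pairing `(h, ω) ↦ a₀(h ω)`. -/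
def ann (R : Submodule k (LaurentSeries k)) : Submodule k (LaurentSeries k) where
  carrier := {ω | (∀ m : ℤ, m ≤ 0 → ω.coeff m = 0) ∧ ∀ h ∈ R, (h * ω).coeff 0 = 0}
  zero_mem' := ⟨fun _ _ => rfl, fun h _ => by simp⟩
  add_mem' := by
    rintro a b ⟨ha, ha'⟩ ⟨hb, hb'⟩
    refine ⟨fun m hm => ?_, fun h hh => ?_⟩
    · rw [HahnSeries.coeff_add, ha m hm, hb m hm, add_zero]
    · rw [mul_add, HahnSeries.coeff_add, ha' h hh, hb' h hh, add_zero]
  smul_mem' := by
    rintro c a ⟨ha, ha'⟩
    refine ⟨fun m hm => ?_, fun h hh => ?_⟩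
    · rw [HahnSeries.coeff_smul, ha m hm, smul_zero]
    · have e : h * c • a = c • (h * a) := by
        rw [← HahnSeries.C_mul_eq_smul, ← HahnSeries.C_mul_eq_smul, mul_left_comm]
      rw [e, HahnSeries.coeff_smul, ha' h hh, smul_zero]

theorem mem_ann {R : Submodule k (LaurentSeries k)} {ω : LaurentSeries k} :
    ω ∈ ann R ↔ (∀ m : ℤ, m ≤ 0 → ω.coeff m = 0) ∧ ∀ h ∈ R, (h * ω).coeff 0 = 0 :=
  Iff.rfl

/-- the pole order `n` is attained by an element of `R`. -/
def HasPoleOrd (R : Submodule k (LaurentSeries k)) (n : ℕ) : Prop :=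
  ∃ h ∈ R, h.coeff (-(n : ℤ)) ≠ 0 ∧ ∀ m : ℤ, m < -(n : ℤ) → h.coeff m = 0

/-- an element of the annihilator whose coefficients vanish at all gaps is zero. -/
theorem eq_zero_of_coeff_gaps (R : Submodule k (LaurentSeries k)) (S : Set ℕ)
    (hS : ∀ n : ℕ, 1 ≤ n → n ∉ S → HasPoleOrd R n) {ω : LaurentSeries k} (hω : ω ∈ ann R)
    (h0 : ∀ n ∈ S, ω.coeff (n : ℤ) = 0) : ω = 0 := by
  have key : ∀ n : ℕ, ω.coeff (n : ℤ) = 0 := by
    intro n
    induction n using Nat.strong_induction_on with
    | _ n ih =>
      rcases Nat.eq_zero_or_pos n with rfl | hn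
      · exact hω.1 _ (by simp)
      · by_cases hnS : n ∈ S
        · exact h0 n hnS
        · obtain ⟨h, hR, hne, hlow⟩ := hS n hn hnS
          have e := coeff_zero_mul_eq_sum h ω n hlow hω.1
          rw [hω.2 h hR] at e
          have e2 : ∑ j ∈ Finset.Icc 1 n, h.coeff (-(j : ℤ)) * ω.coeff (j : ℤ)
              = h.coeff (-(n : ℤ)) * ω.coeff (n : ℤ) := by
            refine Finset.sum_eq_single n (fun j hj hjn => ?_) (fun hn' => ?_)
            · rw [Finset.mem_Icc] at hj
              rw [ih j (lt_of_le_of_ne hj.2 hjn), mul_zero]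
            · exact absurd (Finset.mem_Icc.mpr ⟨hn, le_rfl⟩) hn'
          rw [e2] at e
          exact (mul_eq_zero.mp e.symm).resolve_left hne
  ext m
  rw [HahnSeries.coeff_zero]
  rcases le_or_gt m 0 with hm | hm
  · exact hω.1 m hm
  · have := key m.toNat
    rwa [Int.toNat_of_nonneg hm.le] at this

/-- the coefficients of an element of the annihilator at the places of a finite set. -/
def annCoeffMap (R : Submodule k (LaurentSeries k)) (S : Finset ℕ) : ann R →ₗ[k] (S → k) where
  toFun ω := fun n => (ω : LaurentSeries k).coeff ((n : ℕ) : ℤ)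
  map_add' a b := by
    funext n
    simp [HahnSeries.coeff_add]
  map_smul' c a := by
    funext n
    simp [HahnSeries.coeff_smul]

theorem annCoeffMap_injective (R : Submodule k (LaurentSeries k)) (S : Finset ℕ)
    (hS : ∀ n : ℕ, 1 ≤ n → n ∉ S → HasPoleOrd R n) : Function.Injective (annCoeffMap R S) := by
  rw [← LinearMap.ker_eq_bot, LinearMap.ker_eq_bot']
  intro ω hω
  apply Subtype.ext
  refine eq_zero_of_coeff_gaps R (S : Set ℕ) (fun n hn hnS => hS n hn (by simpa using hnS)) ω.2
    (fun n hn => ?_)
  have := congrFun hω ⟨n, by simpa using hn⟩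
  simpa [annCoeffMap] using this

/-- **[ANN-ABS]**, gap form: if all pole orders outside the finite set `S` are attained by `R`,
the annihilator of `R` is finite dimensional of dimension `≤ #S`. -/
theorem finrank_ann_le_card (R : Submodule k (LaurentSeries k)) (S : Finset ℕ)
    (hS : ∀ n : ℕ, 1 ≤ n → n ∉ S → HasPoleOrd R n) :
    Module.Finite k (ann R) ∧ Module.finrank k (ann R) ≤ S.card := by
  have hinj := annCoeffMap_injective R S hS
  haveI : Module.Finite k (ann R) := Module.Finite.of_injective (annCoeffMap R S) hinj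
  refine ⟨inferInstance, ?_⟩
  have := LinearMap.finrank_le_finrank_of_injective hinj
  simpa using this

/-- consumer form: a subspace of the annihilator of dimension `≥ #S` is the annihilator. -/
theorem eq_ann_of_le_of_card_le (R : Submodule k (LaurentSeries k)) (S : Finset ℕ)
    (hS : ∀ n : ℕ, 1 ≤ n → n ∉ S → HasPoleOrd R n) (T : Submodule k (LaurentSeries k))
    (hT : T ≤ ann R) (hcard : S.card ≤ Module.finrank k T) : T = ann R := by
  obtain ⟨hfin, hle⟩ := finrank_ann_le_card R S hS
  haveI := hfin
  exact Submodule.eq_of_le_of_finrank_le hT (hle.trans hcard)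

/-! ### The dimension form -/

/-- the principal part of a Laurent series, truncated at pole order `n`. -/
def ppMap (n : ℕ) : LaurentSeries k →ₗ[k] (Fin n → k) where
  toFun h := fun j => h.coeff (-(((j : ℕ) : ℤ) + 1))
  map_add' a b := by
    funext j
    simp [HahnSeries.coeff_add]
  map_smul' c a := by
    funext j
    simp [HahnSeries.coeff_smul]

/-- the coefficients `1, …, n` of a Laurent series. -/
def trMap (n : ℕ) : LaurentSeries k →ₗ[k] (Fin n → k) where
  toFun ω := fun j => ω.coeff (((j : ℕ) : ℤ) + 1)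
  map_add' a b := by
    funext j
    simp [HahnSeries.coeff_add]
  map_smul' c a := by
    funext j
    simp [HahnSeries.coeff_smul]

@[simp] theorem ppMap_apply (n : ℕ) (h : LaurentSeries k) (j : Fin n) :
    ppMap n h j = h.coeff (-(((j : ℕ) : ℤ) + 1)) := rfl

@[simp] theorem trMap_apply (n : ℕ) (ω : LaurentSeries k) (j : Fin n) :
    trMap n ω j = ω.coeff (((j : ℕ) : ℤ) + 1) := rfl

/-- the residue pairing as a dot product of the principal part and the coefficients. -/
theorem coeff_zero_mul_eq_dot (h ω : LaurentSeries k) (n : ℕ)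
    (hh : ∀ m : ℤ, m < -(n : ℤ) → h.coeff m = 0) (hω : ∀ m : ℤ, m ≤ 0 → ω.coeff m = 0) :
    (h * ω).coeff 0 = ∑ j : Fin n, ppMap n h j * trMap n ω j := by
  rw [coeff_zero_mul_eq_sum h ω n hh hω]
  have e1 : (∑ j : Fin n, ppMap n h j * trMap n ω j)
      = ∑ j ∈ Finset.range n, h.coeff (-((j : ℤ) + 1)) * ω.coeff ((j : ℤ) + 1) :=
    Fin.sum_univ_eq_sum_range
      (fun j : ℕ => h.coeff (-((j : ℤ) + 1)) * ω.coeff ((j : ℤ) + 1)) n
  rw [e1]
  refine Finset.sum_bij' (fun j _ => j - 1) (fun j _ => j + 1) ?_ ?_ ?_ ?_ ?_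
  · intro j hj
    rw [Finset.mem_Icc] at hj
    rw [Finset.mem_range]
    omega
  · intro j hj
    rw [Finset.mem_range] at hj
    rw [Finset.mem_Icc]
    omega
  · intro j hj
    rw [Finset.mem_Icc] at hj
    omega
  · intro j hj
    omega
  · intro j hj
    rw [Finset.mem_Icc] at hj
    have e : ((j - 1 : ℕ) : ℤ) + 1 = (j : ℤ) := by omega
    rw [e]

/-- two subspaces of `kⁿ` which are orthogonal for the dot product have dimensions adding up to
at most `n`. -/
theorem finrank_add_le_of_dot_zero {n : ℕ} (U W : Submodule k (Fin n → k))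
    (h : ∀ u ∈ U, ∀ w ∈ W, ∑ j, u j * w j = 0) :
    Module.finrank k U + Module.finrank k W ≤ n := by
  let φ : (Fin n → k) →ₗ[k] Module.Dual k (Fin n → k) :=
    { toFun := fun w =>
        { toFun := fun u => ∑ j, u j * w j
          map_add' := fun a b => by simp [add_mul, Finset.sum_add_distrib]
          map_smul' := fun c a => by simp [Finset.mul_sum, mul_assoc] }
      map_add' := fun a b => by
        ext u
        simp [mul_add, Finset.sum_add_distrib]
      map_smul' := fun c a => by
        ext u
        simp [Finset.mul_sum, mul_left_comm] }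
  have hφ : Function.Injective φ := by
    rw [← LinearMap.ker_eq_bot, LinearMap.ker_eq_bot']
    intro w hw
    funext i
    have := LinearMap.congr_fun hw (Pi.single i 1)
    simpa [φ, Pi.single_apply] using this
  have hle : W.map φ ≤ U.dualAnnihilator := by
    rintro _ ⟨w, hw, rfl⟩
    rw [Submodule.mem_dualAnnihilator]
    intro u hu
    exact h u hu w hw
  have e1 : Module.finrank k (W.map φ) = Module.finrank k W :=
    (Submodule.equivMapOfInjective φ hφ W).finrank_eq.symm
  have e2 := Subspace.finrank_add_finrank_dualAnnihilator_eq U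
  rw [Module.finrank_fintype_fun_eq_card, Fintype.card_fin] at e2
  have e3 : Module.finrank k (W.map φ) ≤ Module.finrank k U.dualAnnihilator :=
    Submodule.finrank_mono hle
  omega

/-- the truncations of the annihilator are small: if `U ≤ R` has pole order `≤ n` then
`dim pp(U) + dim tr(V) ≤ n` for every subspace `V` of the annihilator. -/
theorem finrank_pp_add_finrank_tr_le (R U V : Submodule k (LaurentSeries k)) (n : ℕ)
    (hUR : U ≤ R) (hU : ∀ h ∈ U, ∀ m : ℤ, m < -(n : ℤ) → h.coeff m = 0) (hV : V ≤ ann R) :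
    Module.finrank k (U.map (ppMap n)) + Module.finrank k (V.map (trMap n)) ≤ n := by
  refine finrank_add_le_of_dot_zero _ _ ?_
  rintro _ ⟨h, hh, rfl⟩ _ ⟨ω, hω, rfl⟩
  rw [← coeff_zero_mul_eq_dot h ω n (hU h hh) (hV hω).1]
  exact (hV hω).2 h (hUR hh)

/-- on a finite dimensional subspace of `q k[[q]]` the truncation at a large index is
injective. -/
theorem exists_trMap_injOn (V : Submodule k (LaurentSeries k)) [Module.Finite k V]
    (hV : ∀ ω ∈ V, ∀ m : ℤ, m ≤ 0 → ω.coeff m = 0) :
    ∃ n₀ : ℕ, ∀ n : ℕ, n₀ ≤ n → ∀ ω ∈ V, trMap n ω = 0 → ω = 0 := by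
  classical
  -- the kernels of the truncations form a decreasing chain of subspaces of `V`
  let K : ℕ → Submodule k V := fun n => LinearMap.ker ((trMap n).domRestrict V)
  have hK : ∀ n (ω : V), ω ∈ K n ↔ ∀ j : ℕ, j < n → (ω : LaurentSeries k).coeff ((j : ℤ) + 1) = 0 := by
    intro n ω
    simp only [K, LinearMap.mem_ker, LinearMap.domRestrict_apply]
    constructor
    · intro h j hj
      have := congrFun h ⟨j, hj⟩
      simpa using this
    · intro h
      funext j
      simpa using h j j.2
  have hmono : ∀ {m n : ℕ}, m ≤ n → K n ≤ K m := by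
    intro m n hmn ω hω
    rw [hK] at hω ⊢
    exact fun j hj => hω j (lt_of_lt_of_le hj hmn)
  -- choose `n₀` with minimal dimension of the kernel
  obtain ⟨n₀, hn₀⟩ : ∃ n₀ : ℕ, ∀ n : ℕ,
      Module.finrank k (K n₀) ≤ Module.finrank k (K n) := by
    have hne : (Set.range fun n => Module.finrank k (K n)).Nonempty := ⟨_, ⟨0, rfl⟩⟩
    obtain ⟨n₀, hn₀⟩ := Nat.sInf_mem hne
    have hn₀' : Module.finrank k (K n₀)
        = sInf (Set.range fun n => Module.finrank k (K n)) := hn₀
    refine ⟨n₀, fun n => ?_⟩
    rw [hn₀']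
    exact Nat.sInf_le ⟨n, rfl⟩
  refine ⟨n₀, fun n hn ω hω h0 => ?_⟩
  -- all the kernels beyond `n₀` coincide with `K n₀`
  have heq : ∀ m : ℕ, n₀ ≤ m → K m = K n₀ := fun m hm =>
    Submodule.eq_of_le_of_finrank_le (hmono hm) (hn₀ m)
  have hmem : (⟨ω, hω⟩ : V) ∈ K n := by
    simp only [K, LinearMap.mem_ker, LinearMap.domRestrict_apply]
    exact h0
  have hall : ∀ j : ℕ, ω.coeff ((j : ℤ) + 1) = 0 := by
    intro j
    have h1 : (⟨ω, hω⟩ : V) ∈ K (max n (j + 1)) := by
      rw [heq _ (le_trans hn (le_max_left _ _)), ← heq n hn]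
      exact hmem
    rw [hK] at h1
    exact h1 j (lt_of_lt_of_le (Nat.lt_succ_self j) (le_max_right _ _))
  ext m
  rw [HahnSeries.coeff_zero]
  rcases le_or_gt m 0 with hm | hm
  · exact hV ω hω m hm
  · have := hall (m - 1).toNat
    have e : (((m - 1).toNat : ℕ) : ℤ) + 1 = m := by
      rw [Int.toNat_of_nonneg (by omega)]
      ring
    rwa [e] at this

/-- **[ANN-ABS]**, dimension form: if for arbitrarily large `n` there is a subspace `U ≤ R` of
pole order `≤ n` whose principal parts span a space of dimension `≥ n - g`, then the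
annihilator of `R` is finite dimensional of dimension `≤ g`. -/
theorem finrank_ann_le_of_pp (R : Submodule k (LaurentSeries k)) (g : ℕ)
    (hR : ∀ n₀ : ℕ, ∃ n : ℕ, n₀ ≤ n ∧ ∃ U : Submodule k (LaurentSeries k), U ≤ R ∧
      (∀ h ∈ U, ∀ m : ℤ, m < -(n : ℤ) → h.coeff m = 0) ∧
      n ≤ Module.finrank k (U.map (ppMap n)) + g) :
    Module.Finite k (ann R) ∧ Module.finrank k (ann R) ≤ g := by
  classical
  -- every finite dimensional subspace of the annihilator has dimension `≤ g`
  have key : ∀ V : Submodule k (LaurentSeries k), V ≤ ann R → Module.Finite k V →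
      Module.finrank k V ≤ g := by
    intro V hV hfin
    obtain ⟨n₀, hn₀⟩ := exists_trMap_injOn V (fun ω hω => (hV hω).1)
    obtain ⟨n, hn, U, hUR, hU, hdim⟩ := hR n₀
    have h1 := finrank_pp_add_finrank_tr_le R U V n hUR hU hV
    have hinj : Function.Injective ((trMap n).domRestrict V) := by
      rw [← LinearMap.ker_eq_bot, LinearMap.ker_eq_bot']
      intro ω hω
      exact Subtype.ext (hn₀ n hn ω ω.2 hω)
    have h2 : Module.finrank k V ≤ Module.finrank k (V.map (trMap n)) := by
      have e : V.map (trMap n) = LinearMap.range ((trMap n).domRestrict V) := by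
        ext x
        simp [Submodule.mem_map]
      rw [e, LinearMap.finrank_range_of_inj hinj]
    omega
  have hrank : Module.rank k (ann R) ≤ g := by
    refine rank_le (fun s hs => ?_)
    -- the span of `s`, as a subspace of the Laurent series
    let V : Submodule k (LaurentSeries k) :=
      (Submodule.span k (s : Set (ann R))).map (ann R).subtype
    have hVle : V ≤ ann R := by
      rintro _ ⟨x, -, rfl⟩
      exact x.2
    have hfin : Module.Finite k V := by
      haveI : Module.Finite k (Submodule.span k (s : Set (ann R))) :=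
        FiniteDimensional.span_finset k s
      exact Module.Finite.map _ _
    have hdimV : Module.finrank k V = s.card := by
      have e1 : Module.finrank k V = Module.finrank k (Submodule.span k (s : Set (ann R))) :=
        (Submodule.equivMapOfInjective (ann R).subtype (Submodule.injective_subtype _)
          (Submodule.span k (s : Set (ann R)))).finrank_eq.symm
      rw [e1, finrank_span_finset_eq_card hs]
    rw [← hdimV]
    exact key V hVle hfin
  have hfin : Module.Finite k (ann R) :=
    Module.rank_lt_aleph0_iff.mp (lt_of_le_of_lt hrank Cardinal.natCast_lt_aleph0)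
  exact ⟨hfin, Module.finrank_le_of_rank_le hrank⟩

/-- principal parts of a space of functions whose only elements regular at the point are the
constants: `dim pp(U) ≥ dim U - 1`. -/
theorem finrank_le_finrank_pp_add_one (U : Submodule k (LaurentSeries k)) [Module.Finite k U]
    (n : ℕ) (hU : ∀ h ∈ U, ∀ m : ℤ, m < -(n : ℤ) → h.coeff m = 0)
    (hconst : ∀ h ∈ U, (∀ m : ℤ, m < 0 → h.coeff m = 0) → ∃ c : k, h = HahnSeries.C c) :
    Module.finrank k U ≤ Module.finrank k (U.map (ppMap n)) + 1 := by
  classical
  let f : U →ₗ[k] (Fin n → k) := (ppMap n).domRestrict U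
  have e : U.map (ppMap n) = LinearMap.range f := by
    ext x
    simp [f, Submodule.mem_map]
  have hrn := LinearMap.finrank_range_add_finrank_ker f
  -- the kernel of `f` consists of constants
  have hker : Module.finrank k (LinearMap.ker f) ≤ 1 := by
    let c0 : LinearMap.ker f →ₗ[k] k :=
      { toFun := fun h => ((h : U) : LaurentSeries k).coeff 0
        map_add' := fun a b => by simp [HahnSeries.coeff_add]
        map_smul' := fun c a => by simp [HahnSeries.coeff_smul] }
    have hz : ∀ h : LinearMap.ker f, c0 h = 0 → h = 0 := by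
      intro h hh
      have hmem : ((h : U) : LaurentSeries k) ∈ U := (h : U).2
      have hneg : ∀ m : ℤ, m < 0 → ((h : U) : LaurentSeries k).coeff m = 0 := by
        intro m hm
        rcases lt_or_ge m (-(n : ℤ)) with h1 | h1
        · exact hU _ hmem m h1
        · have hk : f (h : U) = 0 := h.2
          have := congrFun hk ⟨(-m - 1).toNat, by omega⟩
          simp only [f, LinearMap.domRestrict_apply, ppMap_apply, Pi.zero_apply] at this
          have e' : -((((-m - 1).toNat : ℕ) : ℤ) + 1) = m := by
            rw [Int.toNat_of_nonneg (by omega)]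
            ring
          rwa [e'] at this
      obtain ⟨c, hc⟩ := hconst _ hmem hneg
      have hc0 : c = 0 := by
        have : ((h : U) : LaurentSeries k).coeff 0 = 0 := hh
        rw [hc] at this
        simpa using this
      apply Subtype.ext
      apply Subtype.ext
      rw [hc, hc0]
      simp
    have hinj : Function.Injective c0 := by
      intro a b hab
      have h1 : c0 (a - b) = 0 := by
        have hab' : ((a : U) : LaurentSeries k).coeff 0 = ((b : U) : LaurentSeries k).coeff 0 :=
          hab
        show (((a - b : LinearMap.ker f) : U) : LaurentSeries k).coeff 0 = 0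
        rw [Submodule.coe_sub, Submodule.coe_sub, HahnSeries.coeff_sub, hab', sub_self]
      exact sub_eq_zero.mp (hz _ h1)
    have := LinearMap.finrank_le_finrank_of_injective hinj
    simpa using this
  rw [e]
  omega

end Fermat.Agent.T8.helper91

end
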