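import Fermat.Agent.T8.helper4_CoverRing

/-!
# T8 / row 38, leaf [SHEETS] (helper92, second prover): `helper4.SheetMatchStatement`

`S = R + R t + ⋯ + R t^(n-1)`, `ψ j : S → k` (`k` a field) `n` ring homomorphisms extending
`φ : R → k` with pairwise distinct values at `t`: every ring homomorphism `ψ₁ : S → k` extending
`φ` is one of them.

Proof: `t ^ n` is an `R`-combination of `1, …, t ^ (n - 1)`, so `t` is a root of a monic
polynomial of degree `n` over `R`; its image over `k` has the `n` distinct roots `ψ j t`, and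
`ψ₁ t` is a root.
-/

set_option autoImplicit false
set_option linter.unusedSectionVars false
set_option linter.unusedVariables false
set_option linter.style.longLine false

namespace Fermat.Agent.T8.helper92

open Polynomial

universe u v w

/-- two ring homomorphisms extending `φ` and agreeing at `t` agree on `R + R t + ⋯` -/
theorem ringHom_ext_of_span {R : Type w} [CommRing R] {S : Type u} [CommRing S] {k : Type v}
    [CommRing k] (ι : R →+* S) (t : S) (n : ℕ) (φ : R →+* k) (ψ ψ' : S →+* k)
    (hspan : ∀ f : S, ∃ a : Fin n → R, f = ∑ k : Fin n, ι (a k) * t ^ (k : ℕ))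
    (h : ∀ r, ψ (ι r) = φ r) (h' : ∀ r, ψ' (ι r) = φ r) (ht : ψ t = ψ' t) : ψ = ψ' := by
  ext f
  obtain ⟨a, rfl⟩ := hspan f
  simp only [map_sum, map_mul, map_pow, h, h', ht]

/-- the monic polynomial `X ^ n - ∑ c i X ^ i` -/
noncomputable def relPoly {k : Type v} [CommRing k] (n : ℕ) (c : Fin n → k) : k[X] :=
  X ^ n - ∑ i : Fin n, C (c i) * X ^ (i : ℕ)

theorem relPoly_coeff {k : Type v} [CommRing k] (n : ℕ) (c : Fin n → k) :
    (relPoly n c).coeff n = 1 := by
  rw [relPoly, coeff_sub, coeff_X_pow, if_pos rfl, finsetSum_coeff]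
  have : ∀ i : Fin n, (C (c i) * X ^ (i : ℕ) : k[X]).coeff n = 0 := by
    intro i
    rw [coeff_C_mul, coeff_X_pow, if_neg (ne_of_gt i.2), mul_zero]
  simp [this]

theorem relPoly_ne_zero {k : Type v} [CommRing k] [Nontrivial k] (n : ℕ) (c : Fin n → k) :
    relPoly n c ≠ 0 := by
  intro h
  have := relPoly_coeff n c
  rw [h, coeff_zero] at this
  exact zero_ne_one this

theorem relPoly_natDegree_le {k : Type v} [CommRing k] (n : ℕ) (c : Fin n → k) :
    (relPoly n c).natDegree ≤ n := by
  rw [relPoly]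
  apply (natDegree_sub_le _ _).trans
  apply max_le (natDegree_X_pow_le n)
  apply natDegree_sum_le_of_forall_le
  intro i _
  exact (natDegree_C_mul_X_pow_le _ _).trans i.2.le

theorem relPoly_eval {k : Type v} [CommRing k] (n : ℕ) (c : Fin n → k) (x : k) :
    (relPoly n c).eval x = x ^ n - ∑ i : Fin n, c i * x ^ (i : ℕ) := by
  simp [relPoly, eval_finsetSum]

/-- **[SHEETS], abstract form** (`helper4.SheetMatchStatement`). -/
theorem sheetMatch : Fermat.Agent.T8.helper4.SheetMatchStatement.{u, v, w} := by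
  intro R _ S _ k _ ι t n φ ψ ψ₁ hspan hψ hψ₁ hinj
  classical
  obtain ⟨a, ha⟩ := hspan (t ^ n)
  obtain ⟨P, hP⟩ : ∃ P, P = relPoly n (fun i => φ (a i)) := ⟨_, rfl⟩
  have hP0 : P ≠ 0 := by rw [hP]; exact relPoly_ne_zero _ _
  have hPdeg : P.natDegree ≤ n := by rw [hP]; exact relPoly_natDegree_le _ _
  -- every homomorphism extending `φ` sends `t` to a root of `P`
  have hroot : ∀ χ : S →+* k, (∀ r, χ (ι r) = φ r) → P.IsRoot (χ t) := by
    intro χ hχ
    rw [IsRoot, hP, relPoly_eval]
    have := congrArg χ ha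
    simp only [map_sum, map_mul, map_pow, hχ] at this
    rw [this, sub_self]
  by_contra hne
  rw [not_exists] at hne
  have hnot : ∀ j, ψ₁ t ≠ ψ j t := fun j hj =>
    hne j (ringHom_ext_of_span ι t n φ ψ₁ (ψ j) hspan hψ₁ (hψ j) hj)
  -- `n + 1` distinct roots
  let Z : Finset k := insert (ψ₁ t) (Finset.univ.image fun j => ψ j t)
  have hZcard : Z.card = n + 1 := by
    rw [Finset.card_insert_of_notMem, Finset.card_image_of_injective _ hinj, Finset.card_univ,
      Fintype.card_fin]
    intro hmem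
    obtain ⟨j, -, hj⟩ := Finset.mem_image.mp hmem
    exact hnot j hj.symm
  have hZ : Z.val ⊆ P.roots := by
    intro x hx
    rw [Finset.mem_val, Finset.mem_insert] at hx
    rw [mem_roots hP0]
    rcases hx with rfl | hx
    · exact hroot ψ₁ hψ₁
    · obtain ⟨j, -, rfl⟩ := Finset.mem_image.mp hx
      exact hroot (ψ j) (hψ j)
  have := card_le_degree_of_subset_roots hZ
  omega

/-- **[COVER-RING], the kernel on one sheet (Vandermonde)** (`helper4.CoverKerStatement`). -/
theorem coverKer : Fermat.Agent.T8.helper4.CoverKerStatement.{u, v, w} := by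
  intro R _ S _ D _ _ ι red y t n ρ c hker hspan hρ hρt hinj j₀ f hf
  classical
  obtain ⟨g, hg⟩ : ∃ g, g = (∏ j ∈ Finset.univ.erase j₀, (t - ι (c j))) * f := ⟨_, rfl⟩
  rw [← hg]
  -- `g` vanishes on every sheet
  have hvan : ∀ j, ρ j g = 0 := by
    intro j
    rw [hg, map_mul]
    by_cases hj : j = j₀
    · rw [hj, hf, mul_zero]
    · have : ρ j (∏ j ∈ Finset.univ.erase j₀, (t - ι (c j))) = 0 := by
        rw [map_prod]
        apply Finset.prod_eq_zero (Finset.mem_erase.mpr ⟨hj, Finset.mem_univ j⟩)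
        rw [map_sub, hρt, hρ, sub_self]
      rw [this, zero_mul]
  obtain ⟨a, ha⟩ := hspan g
  -- Vandermonde
  have hsum : ∀ j, (∑ i : Fin n, red (a i) * red (c j) ^ (i : ℕ)) = 0 := by
    intro j
    have := hvan j
    rw [ha] at this
    simpa only [map_sum, map_mul, map_pow, hρ, hρt] using this
  have hzero : (fun i => red (a i)) = 0 :=
    Matrix.eq_zero_of_forall_index_sum_mul_pow_eq_zero (f := fun j => red (c j)) hinj hsum
  have hzero' : ∀ i, red (a i) = 0 := fun i => congrFun hzero i
  choose a' ha' using fun i => hker (a i) (hzero' i)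
  refine ⟨∑ i : Fin n, ι (a' i) * t ^ (i : ℕ), ?_⟩
  rw [ha, Finset.mul_sum]
  apply Finset.sum_congr rfl
  intro i _
  rw [ha' i, map_mul]
  ring

end Fermat.Agent.T8.helper92
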