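import Fermat.Agent.T8.helper4_CoverRing
import Fermat.Agent.T8.helper63_LocUfd
import Fermat.Agent.T8.helper92_SheetMatch

/-!
# T8 / row 38, leaf [COVER-RING] (helper92, second prover): the localisation step and the
combination

* `coverRingLoc : helper4.CoverRingLocStatement` : `S` a noetherian subring of a field,
  `ρ : S → D` a ring homomorphism to a local principal ideal domain, `ρ y = 0`, kernel generated
  by `y` up to elements with unit reduction, onto up to elements with unit reduction: then
  `locAt S ρ` is a noetherian local UFD, `ρ` extends to `ρ' : locAt S ρ → D`, onto, with kernel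
  `(y)`, units = elements with unit reduction, `R' ⧸ (y) ≃ D` a principal ideal domain.
* `coverRing : helper4.CoverRingStatement` : the combination with `coverKer` (Vandermonde) for
  `S = R + R t + ⋯ + R t ^ (n - 1)` and `n` sheet reductions with unit node differences.

Proof of the localisation step: `locAt S ρ` is the localisation of `S` at the prime
`ρ⁻¹ (𝔪_D)` (`helper63.isLocalization_of_subring`), `ρ'` is `IsLocalization.lift`, the quotient
by `y` is `D` by the first isomorphism theorem, and [UFD2] (`helper6.ufm_of_quotient`).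
-/

set_option autoImplicit false
set_option linter.unusedSectionVars false
set_option linter.unusedVariables false
set_option linter.style.longLine false
set_option linter.style.haveILetI false

namespace Fermat.Agent.T8.helper92

open Fermat.Agent.T8.helper4 IsLocalRing

universe u v w

section Loc

variable {F' : Type u} [Field F'] {D : Type v} [CommRing D] [IsDomain D] [IsLocalRing D]
  (S : Subring F') (ρ : S →+* D)

/-- the prime of `S` at which `locAt S ρ` is the localisation -/
def locPrime : Ideal S := (maximalIdeal D).comap ρ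

theorem locPrime_isPrime : (locPrime S ρ).IsPrime :=
  Ideal.comap_isPrime ρ (maximalIdeal D)

theorem notMem_locPrime_iff (s : S) : s ∉ locPrime S ρ ↔ IsUnit (ρ s) := by
  unfold locPrime
  rw [Ideal.mem_comap, IsLocalRing.mem_maximalIdeal, mem_nonunits_iff, not_not]

theorem mem_locAt_iff_locPrime (f : F') :
    f ∈ locAt S ρ ↔ ∃ a s : S, s ∉ locPrime S ρ ∧ f * (s : F') = (a : F') := by
  constructor
  · rintro ⟨a, s, hs, e⟩
    exact ⟨a, s, (notMem_locPrime_iff S ρ s).mpr hs, e⟩
  · rintro ⟨a, s, hs, e⟩
    exact ⟨a, s, (notMem_locPrime_iff S ρ s).mp hs, e⟩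

end Loc

/-- **[COVER-RING], localisation step.** -/
theorem coverRingLoc : Fermat.Agent.T8.helper4.CoverRingLocStatement.{u, v} := by
  intro F' _ D _ _ _ _ S _ ρ y hy hker hsurj
  -- notation
  have hle : S ≤ locAt S ρ := le_locAt S ρ
  haveI hP : (locPrime S ρ).IsPrime := locPrime_isPrime S ρ
  letI alg : Algebra S (locAt S ρ) := (Subring.inclusion hle).toAlgebra
  haveI hloc : IsLocalization.AtPrime (locAt S ρ) (locPrime S ρ) :=
    Fermat.Agent.T8.helper63.isLocalization_of_subring S (locAt S ρ) hle (locPrime S ρ)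
      (mem_locAt_iff_locPrime S ρ)
  have halg : ∀ s : S, algebraMap S (locAt S ρ) s = Subring.inclusion hle s := fun _ => rfl
  -- the reduction
  have hg : ∀ s : (locPrime S ρ).primeCompl, IsUnit (ρ s) := fun s =>
    (notMem_locPrime_iff S ρ s).mp s.2
  let ρ' : locAt S ρ →+* D :=
    IsLocalization.lift (M := (locPrime S ρ).primeCompl) (S := locAt S ρ) (g := ρ) hg
  have hρ' : ∀ s : S, ρ' (Subring.inclusion hle s) = ρ s := fun s => by
    rw [← halg]
    exact IsLocalization.lift_eq hg s
  -- fractions
  have hfrac : ∀ f : locAt S ρ, ∃ a s : S, IsUnit (ρ s) ∧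
      f * Subring.inclusion hle s = Subring.inclusion hle a := by
    rintro ⟨f, a, s, hs, e⟩
    exact ⟨a, s, hs, Subtype.ext e⟩
  -- elements of `S` with unit reduction are units
  have hunitS : ∀ s : S, IsUnit (ρ s) → IsUnit (Subring.inclusion hle s) := fun s hs => by
    rw [← halg]
    exact IsLocalization.map_units (locAt S ρ)
      (⟨s, (notMem_locPrime_iff S ρ s).mpr hs⟩ : (locPrime S ρ).primeCompl)
  haveI hnoeth : IsNoetherianRing (locAt S ρ) :=
    IsLocalization.isNoetherianRing (locPrime S ρ).primeCompl _ inferInstance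
  haveI hlocal : IsLocalRing (locAt S ρ) :=
    IsLocalization.AtPrime.isLocalRing (locAt S ρ) (locPrime S ρ)
  -- units
  have hunits : ∀ f : locAt S ρ, IsUnit f ↔ IsUnit (ρ' f) := by
    intro f
    constructor
    · intro hf
      exact hf.map ρ'
    · intro hf
      obtain ⟨a, s, hs, e⟩ := hfrac f
      have h1 : ρ' f * ρ s = ρ a := by
        rw [← hρ' s, ← hρ' a, ← map_mul, e]
      have ha : IsUnit (ρ a) := by
        rw [← h1]
        exact hf.mul hs
      have h2 : IsUnit (f * Subring.inclusion hle s) := by
        rw [e]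
        exact hunitS a ha
      exact isUnit_of_mul_isUnit_left h2
  -- onto
  have hsurj' : Function.Surjective ρ' := by
    intro d
    obtain ⟨a, s, hs, e⟩ := hsurj d
    obtain ⟨u, hu⟩ := hunitS s hs
    refine ⟨Subring.inclusion hle a * ((u⁻¹ : (locAt S ρ)ˣ) : locAt S ρ), ?_⟩
    have h1 : ρ' (Subring.inclusion hle a * ((u⁻¹ : (locAt S ρ)ˣ) : locAt S ρ)) * ρ s =
        ρ a := by
      rw [← hρ' s, ← map_mul, ← hu, mul_assoc, Units.inv_mul, mul_one, hρ']
    exact hs.mul_right_cancel (h1.trans e.symm)
  -- the kernel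
  have hker' : ∀ f : locAt S ρ, ρ' f = 0 ↔ Subring.inclusion hle y ∣ f := by
    intro f
    constructor
    · intro hf
      obtain ⟨a, s, hs, e⟩ := hfrac f
      have ha : ρ a = 0 := by
        rw [← hρ' a, ← e, map_mul, hf, zero_mul]
      obtain ⟨h, g, hh, e'⟩ := hker a ha
      obtain ⟨us, hus⟩ := hunitS s hs
      obtain ⟨uh, huh⟩ := hunitS h hh
      have e'' : Subring.inclusion hle h * Subring.inclusion hle a =
          Subring.inclusion hle y * Subring.inclusion hle g := by
        rw [← map_mul, ← map_mul, e']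
      refine ⟨Subring.inclusion hle g * ((uh⁻¹ : (locAt S ρ)ˣ) : locAt S ρ) *
        ((us⁻¹ : (locAt S ρ)ˣ) : locAt S ρ), ?_⟩
      have h3 : f * (us : locAt S ρ) * (uh : locAt S ρ) =
          Subring.inclusion hle y * Subring.inclusion hle g := by
        rw [hus, huh, e, mul_comm, e'']
      calc f = f * (us : locAt S ρ) * (uh : locAt S ρ) *
            (((uh⁻¹ : (locAt S ρ)ˣ) : locAt S ρ) * ((us⁻¹ : (locAt S ρ)ˣ) : locAt S ρ)) := by
              rw [mul_assoc, ← mul_assoc (uh : locAt S ρ), Units.mul_inv, one_mul, mul_assoc,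
                Units.mul_inv, mul_one]
        _ = _ := by rw [h3]; ring
    · rintro ⟨g, rfl⟩
      rw [map_mul, hρ', hy, zero_mul]
  -- `y` is not a unit
  have hynu : ¬ IsUnit (Subring.inclusion hle y) := by
    intro h
    have := (hunits _).mp h
    rw [hρ', hy] at this
    exact not_isUnit_zero this
  -- the quotient
  have hkerI : RingHom.ker ρ' = Ideal.span {Subring.inclusion hle y} := by
    ext f
    rw [RingHom.mem_ker, hker', Ideal.mem_span_singleton]
  let e : (locAt S ρ ⧸ Ideal.span {Subring.inclusion hle y}) ≃+* D :=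
    (Ideal.quotEquivOfEq hkerI.symm).trans (RingHom.quotientKerEquivOfSurjective hsurj')
  haveI hdom : IsDomain (locAt S ρ ⧸ Ideal.span {Subring.inclusion hle y}) :=
    e.toMulEquiv.isDomain D
  haveI hpir : IsPrincipalIdealRing (locAt S ρ ⧸ Ideal.span {Subring.inclusion hle y}) :=
    IsPrincipalIdealRing.of_surjective e.symm.toRingHom e.symm.surjective
  have hym : Subring.inclusion hle y ∈ maximalIdeal (locAt S ρ) := by
    rw [IsLocalRing.mem_maximalIdeal, mem_nonunits_iff]
    exact hynu
  exact ⟨hle, ρ', hρ', hnoeth, hlocal, hunits, hsurj', hker', hynu, hdom, hpir,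
    Fermat.Agent.T8.helper6.ufm_of_quotient hym⟩

/-- **[COVER-RING]**, the form consumed by [SLOPE] on `X'`: the combination of the Vandermonde
kernel `coverKer` with the localisation step `coverRingLoc`. -/
theorem coverRing : Fermat.Agent.T8.helper4.CoverRingStatement.{u, v} := by
  intro F' _ D _ _ _ _ R S _ hRS red y t n ρ c hker hsurj hspan hext hnode hunit j₀
  -- the span hypothesis inside `S`
  have hspan' : ∀ f : S, ∃ a : Fin n → R,
      f = ∑ k : Fin n, Subring.inclusion hRS (a k) * t ^ (k : ℕ) := by
    intro f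
    obtain ⟨a, ha⟩ := hspan f
    refine ⟨a, Subtype.ext ?_⟩
    rw [ha, AddSubmonoidClass.coe_finsetSum]
    rfl
  -- `S` is noetherian
  letI algRS : Algebra R S := (Subring.inclusion hRS).toAlgebra
  have halg : ∀ r : R, algebraMap R S r = Subring.inclusion hRS r := fun _ => rfl
  haveI hfin : Module.Finite R S := by
    classical
    refine ⟨⟨Finset.univ.image (fun k : Fin n => t ^ (k : ℕ)), ?_⟩⟩
    rw [eq_top_iff]
    rintro f -
    obtain ⟨a, rfl⟩ := hspan' f
    refine Submodule.sum_mem _ (fun k _ => ?_)
    rw [← halg, ← Algebra.smul_def]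
    refine Submodule.smul_mem _ _ (Submodule.subset_span ?_)
    rw [Finset.coe_image]
    exact ⟨k, Finset.mem_coe.mpr (Finset.mem_univ k), rfl⟩
  haveI hnRS : IsNoetherian R S := isNoetherian_of_isNoetherianRing_of_finite R S
  haveI hnS : IsNoetherianRing S := isNoetherian_of_tower R hnRS
  -- the nodes are distinct
  have hinj : Function.Injective (fun j => red (c j)) := by
    intro i j hij
    by_contra hne
    have h := hunit i j hne
    have h0 : red (c i) - red (c j) = 0 := sub_eq_zero.mpr hij
    rw [h0] at h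
    exact not_isUnit_zero h
  refine coverRingLoc.{u, v} F' D S (ρ j₀) (Subring.inclusion hRS y) ?_ ?_ ?_
  · rw [hext, hker]
  · intro a ha
    obtain ⟨g, hg⟩ := coverKer.{u, v, u} R S D (Subring.inclusion hRS) red y t n ρ c
      (fun r hr => (hker r).mp hr) hspan' hext hnode hinj j₀ a ha
    refine ⟨∏ j ∈ Finset.univ.erase j₀, (t - Subring.inclusion hRS (c j)), g, ?_, hg⟩
    rw [map_prod]
    refine Finset.prod_induction _ IsUnit (fun _ _ => IsUnit.mul) isUnit_one (fun j hj => ?_)
    rw [map_sub, hnode, hext]
    exact hunit j₀ j (Finset.ne_of_mem_erase hj).symm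
  · intro d
    obtain ⟨r, rfl⟩ := hsurj d
    refine ⟨Subring.inclusion hRS r, 1, ?_, ?_⟩
    · rw [map_one]
      exact isUnit_one
    · rw [map_one, mul_one, hext]

end Fermat.Agent.T8.helper92
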