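import Fermat.Agent.S05.Formal

/-!
# T8 / row 38, box [W-MULT] (b) DEPTH (helper92, second prover)

For a curve `y² = x³ + a₂ x² + a₄ x` over a valued field (`β² = a₂`, `|β| = |2| = 1`,
`|a₄| ≤ |p|`, `|n| = 1` for `0 < n < p`), a point `Q = (x, y)` in the kernel of reduction
(`1 < |x|`) with `p • Q = 0` satisfies `|p| ≤ |x / y| ^ (p - 1)`
(additively: `v(t(Q)) ≤ v(p) / (p - 1)`).

Elementary proof, no formal groups: `H(P) := (α - β) / (α + β)`, `α = y / x`, is multiplicative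
on the kernel of reduction up to `|a₄| |t|³`, and `|H(Q) - 1| = |t|`.

* `step_identity`, `alpha_three`, `delta_identity` : the algebra of one addition step;
* `val_pow_sub_one`    : `|H ^ n - 1| = |H - 1|` for `0 < n < p`;
* `val_pow_prime_sub_one` : `|H ^ p - 1| = |p| |H - 1|` if `|H - 1| ^ (p - 1) < |p|`;
* `depth_of_torsion`   : the depth bound.
-/

set_option autoImplicit false
set_option linter.unusedSectionVars false
set_option linter.unusedVariables false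
set_option linter.style.longLine false

namespace Fermat.Agent.T8.helper92

open WeierstrassCurve WeierstrassCurve.Affine Fermat.Agent.S05

variable {K : Type*} [Field K]

/-- pure ring identity behind `h₃ - h₁ h₂` -/
lemma step_ring (α₁ α₂ α₃ β : K) :
    (α₃ - β) * ((α₁ + β) * (α₂ + β)) - (α₁ - β) * (α₂ - β) * (α₃ + β) =
      2 * β * ((α₁ + α₂) * α₃ - α₁ * α₂ - β ^ 2) := by
  ring

/-- the defect of multiplicativity of `H = (α - β) / (α + β)` -/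
lemma step_identity (α₁ α₂ α₃ β : K) (h1 : α₁ + β ≠ 0) (h2 : α₂ + β ≠ 0) (h3 : α₃ + β ≠ 0) :
    (α₃ - β) / (α₃ + β) - (α₁ - β) / (α₁ + β) * ((α₂ - β) / (α₂ + β)) =
      2 * β * ((α₁ + α₂) * α₃ - α₁ * α₂ - β ^ 2) / ((α₃ + β) * ((α₁ + β) * (α₂ + β))) := by
  rw [← step_ring]
  field_simp

/-- `α₃ = y₃ / x₃` for the sum in `(s, d)` form -/
lemma alpha_three (x₁ x₂ α₁ s d x₃ y₃ : K) (hx₁ : x₁ ≠ 0) (hx₂ : x₂ ≠ 0) (hs0 : s ≠ 0)
    (hd0 : d ≠ 0) (hx₃ : x₃ * (x₁ * x₂ * s ^ 2) = d ^ 2)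
    (hy₃ : y₃ = -((α₁ + d / (x₁ * s)) * x₃) + d / s) :
    y₃ / x₃ = -α₁ - d / (x₁ * s) + x₁ * x₂ * s / d := by
  have hx₃0 : x₃ ≠ 0 := by
    rintro rfl
    rw [zero_mul] at hx₃
    exact hd0 (pow_eq_zero_iff (by norm_num) |>.mp hx₃.symm)
  have hx₃' : x₃ = d ^ 2 / (x₁ * x₂ * s ^ 2) := by
    field_simp
    linear_combination hx₃
  rw [hy₃, hx₃']
  field_simp
  ring

/-- `s α₃ - α₁ α₂ - a = b (s² / d + (x₁ + x₂) / (x₁ x₂))` -/
lemma delta_identity (x₁ x₂ α₁ α₂ a b s d α₃ : K)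
    (e₁ : α₁ ^ 2 * x₁ = x₁ ^ 2 + a * x₁ + b)
    (e₂ : α₂ ^ 2 * x₂ = x₂ ^ 2 + a * x₂ + b)
    (hx₁ : x₁ ≠ 0) (hx₂ : x₂ ≠ 0) (hs0 : s ≠ 0) (hs : s = α₁ + α₂) (hd : d = x₁ * x₂ - b)
    (hd0 : d ≠ 0) (hα₃ : α₃ = -α₁ - d / (x₁ * s) + x₁ * x₂ * s / d) :
    s * α₃ - α₁ * α₂ - a = b * (s ^ 2 / d + (x₁ + x₂) / (x₁ * x₂)) := by
  have e₁' : α₁ ^ 2 = x₁ + a + b / x₁ := by
    field_simp
    linear_combination e₁
  have e₂' : α₂ ^ 2 = x₂ + a + b / x₂ := by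
    field_simp
    linear_combination e₂
  have hs2 : s ^ 2 = x₁ + x₂ + 2 * a + b / x₁ + b / x₂ + 2 * (α₁ * α₂) := by
    rw [hs]; linear_combination e₁' + e₂'
  have h1 : s * α₃ = -(α₁ * s) - d / x₁ + x₁ * x₂ * s ^ 2 / d := by
    rw [hα₃]; field_simp
  have h2 : α₁ * s = x₁ + a + b / x₁ + α₁ * α₂ := by
    rw [hs]; linear_combination e₁'
  have h3 : d / x₁ = x₂ - b / x₁ := by
    rw [hd]; field_simp
  have h4 : x₁ * x₂ * s ^ 2 / d = s ^ 2 + b * (s ^ 2 / d) := by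
    have : x₁ * x₂ = d + b := by rw [hd]; ring
    rw [this]; field_simp
  have h5 : b * ((x₁ + x₂) / (x₁ * x₂)) = b / x₁ + b / x₂ := by
    field_simp; ring
  rw [h1, h2, h3, h4, mul_add, h5, hs2]
  ring

section Val

variable {Γ₀ : Type*} [LinearOrderedCommGroupWithZero Γ₀] (v : Valuation K Γ₀)

/-- `|H ^ k - 1| ≤ |H - 1|` for `|H| ≤ 1` -/
lemma val_pow_sub_one_le {H : K} (hH : v H ≤ 1) (k : ℕ) : v (H ^ k - 1) ≤ v (H - 1) := by
  rw [← geom_sum_mul, map_mul]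
  have h1 : v (∑ i ∈ Finset.range k, H ^ i) ≤ 1 := by
    apply Valuation.map_sum_le
    intro i _
    rw [map_pow]
    exact pow_le_one₀ zero_le hH
  calc v (∑ i ∈ Finset.range k, H ^ i) * v (H - 1) ≤ 1 * v (H - 1) := by gcongr
    _ = v (H - 1) := one_mul _

/-- a `1`-unit has valuation one -/
lemma val_eq_one_of_sub_one_lt {H : K} (hH : v (H - 1) < 1) : v H = 1 := by
  have : H = 1 + (H - 1) := by ring
  rw [this]
  exact val_add_eq_one v (by simp) hH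

/-- `|H ^ n - 1| = |H - 1|` for a `1`-unit `H` and `|n| = 1` -/
lemma val_pow_sub_one {H : K} (hH : v (H - 1) < 1) {n : ℕ} (hn : v (n : K) = 1) :
    v (H ^ n - 1) = v (H - 1) := by
  have hH1 : v H = 1 := val_eq_one_of_sub_one_lt v hH
  rw [← geom_sum_mul, map_mul]
  have h1 : v (∑ i ∈ Finset.range n, H ^ i) = 1 := by
    have e : ∑ i ∈ Finset.range n, H ^ i = (n : K) + ∑ i ∈ Finset.range n, (H ^ i - 1) := by
      rw [Finset.sum_sub_distrib]
      simp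
    rw [e]
    apply val_add_eq_one v hn
    apply Valuation.map_sum_lt v one_ne_zero
    intro i _
    exact lt_of_le_of_lt (val_pow_sub_one_le v hH1.le i) hH
  rw [h1, one_mul]

/-- `|H ^ p - 1| = |p| |H - 1|` if `|H - 1| ^ (p - 1) < |p|` -/
lemma val_pow_prime_sub_one {p : ℕ} (hp : p.Prime) {H : K} (hH : v (H - 1) < 1)
    (hd : v (H - 1) ^ (p - 1) < v (p : K)) :
    v (H ^ p - 1) = v (p : K) * v (H - 1) := by
  obtain ⟨η, hη⟩ : ∃ η, η = H - 1 := ⟨_, rfl⟩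
  rw [← hη] at hH hd ⊢
  have hHη : H = η + 1 := by rw [hη]; ring
  by_cases h0 : η = 0
  · rw [hHη, h0]; simp
  have hvη : 0 < v η := val_pos v h0
  have hp2 : 2 ≤ p := hp.two_le
  -- binomial expansion
  have hbin : H ^ p - 1 = (p : K) * η +
      (∑ m ∈ Finset.Ico 2 p, η ^ m * (p.choose m : K) + η ^ p) := by
    rw [hHη, add_pow]
    have hr : Finset.range (p + 1) = insert 0 (insert 1 (insert p (Finset.Ico 2 p))) := by
      ext m
      simp only [Finset.mem_range, Finset.mem_insert, Finset.mem_Ico]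
      omega
    rw [hr, Finset.sum_insert (by simp; omega), Finset.sum_insert (by simp; omega),
      Finset.sum_insert (by simp)]
    simp only [one_pow, mul_one, pow_zero, Nat.choose_zero_right, Nat.cast_one, pow_one,
      Nat.choose_one_right, Nat.choose_self]
    ring
  have hR : v (∑ m ∈ Finset.Ico 2 p, η ^ m * (p.choose m : K)) ≤ v η ^ 2 * v (p : K) := by
    apply Valuation.map_sum_le
    intro m hm
    rw [Finset.mem_Ico] at hm
    rw [map_mul, map_pow]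
    have h1 : v η ^ m ≤ v η ^ 2 := pow_le_pow_of_le_one zero_le hH.le hm.1
    have h2 : v (p.choose m : K) ≤ v (p : K) := by
      obtain ⟨c, hc⟩ := hp.dvd_choose_self (by omega) hm.2
      rw [hc, Nat.cast_mul, map_mul]
      calc v (p : K) * v (c : K) ≤ v (p : K) * 1 := by gcongr; exact val_natCast_le_one v c
        _ = v (p : K) := mul_one _
    exact mul_le_mul' h1 h2
  have hvp : 0 < v (p : K) := lt_of_le_of_lt zero_le hd
  have hmain : v (∑ m ∈ Finset.Ico 2 p, η ^ m * (p.choose m : K) + η ^ p) < v ((p : K) * η) := by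
    rw [map_mul]
    apply lt_of_le_of_lt (v.map_add _ _)
    apply max_lt
    · apply lt_of_le_of_lt hR
      calc v η ^ 2 * v (p : K) = v η * (v (p : K) * v η) := by
            rw [pow_two, mul_assoc, mul_comm (v η) (v (p : K))]
        _ < 1 * (v (p : K) * v η) := by
          apply mul_lt_mul_of_pos_right hH (mul_pos hvp hvη)
        _ = v (p : K) * v η := one_mul _
    · rw [map_pow]
      have : v η ^ p = v η ^ (p - 1) * v η := by
        rw [← pow_succ]; congr 1; omega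
      rw [this]
      exact mul_lt_mul_of_pos_right hd hvη
  rw [hbin, v.map_add_eq_of_lt_left hmain, map_mul]

end Val

section Main

variable [DecidableEq K] {Γ₀ : Type*} [LinearOrderedCommGroupWithZero Γ₀] (v : Valuation K Γ₀)
  {W : Affine K}

/-- basic valuations at a point of the kernel of reduction -/
lemma E1_basic (hW : IsTwoNF W) (ha : v W.a₂ ≤ 1) (hb : v W.a₄ ≤ 1) {β : K} (hβ : v β ≤ 1)
    {x y : K} (h : W.Nonsingular x y) (hx : 1 < v x) :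
    x ≠ 0 ∧ 1 < v (y / x) ∧ v (y / x) ^ 2 = v x ∧ v (y / x + β) = v (y / x) ∧
      v (y / x - β) = v (y / x) := by
  have hx0 : x ≠ 0 := ne_zero_of_one_lt_val v hx
  have hsq := hW.val_alpha_sq_of_one_lt v ha hb h hx
  have h1 : 1 < v (y / x) := one_lt_of_one_lt_sq (by rw [hsq]; exact hx)
  have hβlt : v β < v (y / x) := lt_of_le_of_lt hβ h1
  exact ⟨hx0, h1, hsq, v.map_add_eq_of_lt_left hβlt, v.map_sub_eq_of_lt_left hβlt⟩

/-- `|H - 1| = 1 / |α|` -/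
lemma val_H_sub_one {α β : K} (h2β : v (2 * β) = 1) (hαβ : v (α + β) = v α) (hα : 1 < v α) :
    v ((α - β) / (α + β) - 1) = (v α)⁻¹ := by
  have hne : α + β ≠ 0 := by
    intro h0
    rw [h0, map_zero] at hαβ
    rw [← hαβ] at hα
    exact absurd hα (by simp)
  have e : (α - β) / (α + β) - 1 = -(2 * β) / (α + β) := by
    field_simp
    ring
  rw [e, map_div₀, Valuation.map_neg, h2β, hαβ, one_div]

/-- squares determine the valuation -/
lemma val_eq_of_sq_eq {g g' : Γ₀} (h : g ^ 2 = g' ^ 2) : g = g' := by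
  rcases lt_trichotomy g g' with h1 | h1 | h1
  · exact absurd h (ne_of_lt (pow_lt_pow_left₀ h1 zero_le (by norm_num)))
  · exact h1
  · exact absurd h (ne_of_gt (pow_lt_pow_left₀ h1 zero_le (by norm_num)))

/-- **one addition step** in the kernel of reduction: the sum stays at the same depth and `H` is
multiplicative up to `|a₄| / |α| ^ 3`. -/
lemma step_val (hW : IsTwoNF W) {β : K} (hβ2 : β ^ 2 = W.a₂) (hβ : v β = 1) (h2 : v (2 : K) = 1)
    (hb : v W.a₄ ≤ 1)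
    {x y x₁ y₁ : K} (h : W.Nonsingular x y) (h₁ : W.Nonsingular x₁ y₁)
    (hx : 1 < v x) (hx₁ : v x₁ = v x)
    (hs : v (y₁ / x₁ + y / x) = v (y / x)) :
    ∃ x₃ y₃ h₃, Point.some x₁ y₁ h₁ + Point.some x y h = Point.some x₃ y₃ h₃ ∧
      v x₃ = v x ∧
      v ((y₃ / x₃ - β) / (y₃ / x₃ + β) -
          (y₁ / x₁ - β) / (y₁ / x₁ + β) * ((y / x - β) / (y / x + β))) ≤
        v W.a₄ / v (y / x) ^ 3 := by
  have ha : v W.a₂ ≤ 1 := by rw [← hβ2, map_pow, hβ, one_pow]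
  obtain ⟨hx0, hα1, hαsq, hαp, hαm⟩ := E1_basic v hW ha hb hβ.le h hx
  have hx₁' : 1 < v x₁ := by rw [hx₁]; exact hx
  obtain ⟨hx₁0, hα₁1, hα₁sq, hα₁p, hα₁m⟩ := E1_basic v hW ha hb hβ.le h₁ hx₁'
  obtain ⟨T, hT⟩ : ∃ T, T = v (y / x) := ⟨_, rfl⟩
  rw [← hT] at hα1 hαsq hαp hαm hs ⊢
  have hT0 : T ≠ 0 := by rintro rfl; simp at hα1
  have hTpos : 0 < T := lt_trans zero_lt_one hα1
  have hα₁T : v (y₁ / x₁) = T := val_eq_of_sq_eq (by rw [hα₁sq, hx₁, hαsq])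
  rw [hα₁T] at hα₁p hα₁m
  have hvx : v x = T ^ 2 := hαsq.symm
  have hvx₁ : v x₁ = T ^ 2 := by rw [hx₁, hvx]
  have hs0 : y₁ / x₁ + y / x ≠ 0 := by
    intro h0; rw [h0, map_zero] at hs; exact hT0 hs.symm
  obtain ⟨x₃, y₃, h₃, hadd, hx₃, hy₃⟩ := hW.add_sd h₁ h hx₁0 hx0 hs0
  refine ⟨x₃, y₃, h₃, hadd, ?_⟩
  obtain ⟨α₁, hα₁⟩ : ∃ α₁, α₁ = y₁ / x₁ := ⟨_, rfl⟩
  obtain ⟨α, hα⟩ : ∃ α, α = y / x := ⟨_, rfl⟩
  obtain ⟨s, hs'⟩ : ∃ s, s = α₁ + α := ⟨_, rfl⟩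
  obtain ⟨d, hd'⟩ : ∃ d, d = x₁ * x - W.a₄ := ⟨_, rfl⟩
  rw [← hα₁, ← hα] at hs hs0 hx₃ hy₃ ⊢
  rw [← hα₁] at hα₁T hα₁p hα₁m
  rw [← hα] at hT hαp hαm
  rw [← hs'] at hs hs0 hx₃ hy₃
  rw [← hd'] at hx₃ hy₃
  have e₁ : α₁ ^ 2 * x₁ = x₁ ^ 2 + W.a₂ * x₁ + W.a₄ := by
    rw [hα₁]; exact hW.alpha_sq h₁ hx₁0
  have e : α ^ 2 * x = x ^ 2 + W.a₂ * x + W.a₄ := by
    rw [hα]; exact hW.alpha_sq h hx0
  -- valuation of d
  have hT21 : 1 < T ^ 2 := one_lt_pow₀ hα1 (by norm_num)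
  have hT41 : 1 < T ^ 2 * T ^ 2 := one_lt_mul_of_lt_of_le hT21 hT21.le
  have hvd : v d = T ^ 2 * T ^ 2 := by
    rw [hd']
    have : v W.a₄ < v (x₁ * x) := by
      rw [map_mul, hvx₁, hvx]; exact lt_of_le_of_lt hb hT41
    rw [v.map_sub_eq_of_lt_left this, map_mul, hvx₁, hvx]
  have hd0 : d ≠ 0 := by
    intro h0; rw [h0, map_zero] at hvd
    exact absurd hvd.symm (ne_of_gt (lt_trans zero_lt_one hT41))
  -- valuation of x₃
  have hvx₃ : v x₃ = T ^ 2 := by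
    have h1 := congrArg v hx₃
    rw [map_mul, map_mul, map_mul, map_pow, map_pow, hvx₁, hvx, hs, hvd] at h1
    have h2' : v x₃ * (T ^ 2 * T ^ 2 * T ^ 2) = T ^ 2 * (T ^ 2 * T ^ 2 * T ^ 2) := by
      rw [h1]
      simp only [← pow_add, ← pow_mul, Nat.reduceAdd, Nat.reduceMul]
    exact mul_right_cancel₀
      (mul_ne_zero (mul_ne_zero (pow_ne_zero 2 hT0) (pow_ne_zero 2 hT0)) (pow_ne_zero 2 hT0)) h2'
  have hx₃1 : 1 < v x₃ := by rw [hvx₃]; exact hT21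
  obtain ⟨hx₃0, hα₃1, hα₃sq, hα₃p, hα₃m⟩ := E1_basic v hW ha hb hβ.le h₃ hx₃1
  have hα₃T : v (y₃ / x₃) = T := val_eq_of_sq_eq (by rw [hα₃sq, hvx₃])
  rw [hα₃T] at hα₃p
  refine ⟨by rw [hvx₃, hvx], ?_⟩
  -- the identities
  have hα₃ := alpha_three x₁ x α₁ s d x₃ y₃ hx₁0 hx0 hs0 hd0 hx₃ hy₃
  have hδ := delta_identity x₁ x α₁ α W.a₂ W.a₄ s d (y₃ / x₃) e₁ e hx₁0 hx0 hs0 hs' hd' hd0 hα₃
  have hne₁ : α₁ + β ≠ 0 := by
    intro h0; rw [h0, map_zero] at hα₁p; exact hT0 hα₁p.symm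
  have hne : α + β ≠ 0 := by
    intro h0; rw [h0, map_zero] at hαp; exact hT0 hαp.symm
  have hne₃ : y₃ / x₃ + β ≠ 0 := by
    intro h0; rw [h0, map_zero] at hα₃p; exact hT0 hα₃p.symm
  have hstep := step_identity α₁ α (y₃ / x₃) β hne₁ hne hne₃
  rw [← hs', hβ2, hδ] at hstep
  rw [hstep]
  simp only [map_div₀, map_mul]
  rw [hα₃p, hα₁p, hαp, h2, hβ, one_mul, one_mul]
  -- the bracket is integral
  have hΘ : v (s ^ 2 / d + (x₁ + x) / (x₁ * x)) ≤ 1 := by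
    apply v.map_add_le
    · rw [map_div₀, map_pow, hs, hvd, div_le_one₀ (lt_trans zero_lt_one hT41)]
      calc T ^ 2 = T ^ 2 * 1 := (mul_one _).symm
        _ ≤ T ^ 2 * T ^ 2 := by gcongr
    · rw [map_div₀, map_mul, hvx₁, hvx, div_le_one₀ (lt_trans zero_lt_one hT41)]
      calc v (x₁ + x) ≤ T ^ 2 := v.map_add_le hvx₁.le hvx.le
        _ = T ^ 2 * 1 := (mul_one _).symm
        _ ≤ T ^ 2 * T ^ 2 := by gcongr
  have hden : T * (T * T) = T ^ 3 := by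
    simp only [pow_succ, pow_zero, one_mul, mul_assoc]
  rw [hden]
  have hnum : v W.a₄ * v (s ^ 2 / d + (x₁ + x) / (x₁ * x)) ≤ v W.a₄ := by
    calc v W.a₄ * v (s ^ 2 / d + (x₁ + x) / (x₁ * x)) ≤ v W.a₄ * 1 := by gcongr
      _ = v W.a₄ := mul_one _
  rw [div_eq_mul_inv _ (T ^ 3), div_eq_mul_inv _ (T ^ 3)]
  exact mul_le_mul_left hnum _

/-- `2 β (α₁ + α) = (1 - H₁ H) (α₁ + β) (α + β)` -/
lemma s_identity (α₁ α β : K) (h1 : α₁ + β ≠ 0) (h : α + β ≠ 0) :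
    2 * β * (α₁ + α) =
      (1 - (α₁ - β) / (α₁ + β) * ((α - β) / (α + β))) * ((α₁ + β) * (α + β)) := by
  field_simp
  ring

/-- **multiplicativity of `H` along the multiples of a point of the kernel of reduction** -/
lemma mult_val (hW : IsTwoNF W) {p : ℕ} {β : K} (hβ2 : β ^ 2 = W.a₂) (hβ : v β = 1)
    (h2 : v (2 : K) = 1) (hunits : ∀ n : ℕ, 0 < n → n < p → v (n : K) = 1)
    (hb : v W.a₄ ≤ 1) {x y : K} (h : W.Nonsingular x y) (hx : 1 < v x) :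
    ∀ j : ℕ, 0 < j → j < p →
      ∃ xj yj hj, j • Point.some x y h = Point.some xj yj hj ∧ v xj = v x ∧
        v ((yj / xj - β) / (yj / xj + β) - ((y / x - β) / (y / x + β)) ^ j) ≤
          v W.a₄ / v (y / x) ^ 3 := by
  have ha : v W.a₂ ≤ 1 := by rw [← hβ2, map_pow, hβ, one_pow]
  obtain ⟨hx0, hα1, hαsq, hαp, hαm⟩ := E1_basic v hW ha hb hβ.le h hx
  have h2β : v (2 * β) = 1 := by rw [map_mul, h2, hβ, one_mul]
  have hH1 := val_H_sub_one v h2β hαp hα1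
  obtain ⟨H, hH⟩ : ∃ H, H = (y / x - β) / (y / x + β) := ⟨_, rfl⟩
  obtain ⟨T, hT⟩ : ∃ T, T = v (y / x) := ⟨_, rfl⟩
  rw [← hH, ← hT] at hH1
  rw [← hT] at hα1 hαsq hαp hαm
  simp only [← hH, ← hT]
  have hT0 : T ≠ 0 := by rintro rfl; simp at hα1
  have hTpos : 0 < T := lt_trans zero_lt_one hα1
  have hTinv : T⁻¹ < 1 := inv_lt_one_of_one_lt₀ hα1
  have hHlt : v (H - 1) < 1 := by rw [hH1]; exact hTinv
  have hvH : v H = 1 := val_eq_one_of_sub_one_lt v hHlt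
  have hne : y / x + β ≠ 0 := by
    intro h0; rw [h0, map_zero] at hαp; exact hT0 hαp.symm
  -- the bound is smaller than `1 / T`
  have hB : v W.a₄ / T ^ 3 < T⁻¹ := by
    rw [div_eq_mul_inv]
    calc v W.a₄ * (T ^ 3)⁻¹ ≤ 1 * (T ^ 3)⁻¹ := mul_le_mul_left hb _
      _ = (T ^ 3)⁻¹ := one_mul _
      _ < T⁻¹ := by
        rw [inv_lt_inv₀ (pow_pos hTpos 3) hTpos]
        calc T = T ^ 1 := (pow_one T).symm
          _ < T ^ 3 := pow_lt_pow_right₀ hα1 (by norm_num)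
  intro j hj
  induction j, hj using Nat.le_induction with
  | base =>
    intro _
    refine ⟨x, y, h, one_nsmul _, rfl, ?_⟩
    rw [pow_one, ← hH, sub_self, map_zero]
    exact zero_le
  | succ j hj ih =>
    intro hjp
    obtain ⟨xj, yj, hj', hsm, hvxj, hbd⟩ := ih (by omega)
    have hxj1 : 1 < v xj := by rw [hvxj]; exact hx
    obtain ⟨hxj0, hαj1, hαjsq, hαjp, hαjm⟩ := E1_basic v hW ha hb hβ.le hj' hxj1
    have hαjT : v (yj / xj) = T := val_eq_of_sq_eq (by rw [hαjsq, hvxj, hαsq])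
    rw [hαjT] at hαjp
    have hnej : yj / xj + β ≠ 0 := by
      intro h0; rw [h0, map_zero] at hαjp; exact hT0 hαjp.symm
    obtain ⟨Hj, hHj⟩ : ∃ Hj, Hj = (yj / xj - β) / (yj / xj + β) := ⟨_, rfl⟩
    rw [← hHj] at hbd
    -- `|1 - Hj H| = 1 / T`
    have h1 : v (1 - Hj * H) = T⁻¹ := by
      have e : 1 - Hj * H = -(H ^ (j + 1) - 1) - (Hj - H ^ j) * H := by ring
      have e1 : v (H ^ (j + 1) - 1) = T⁻¹ := by
        rw [val_pow_sub_one v hHlt (hunits (j + 1) (by omega) hjp), hH1]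
      have e2 : v ((Hj - H ^ j) * H) < v (-(H ^ (j + 1) - 1)) := by
        rw [Valuation.map_neg, e1, map_mul, hvH, mul_one]
        exact lt_of_le_of_lt hbd hB
      rw [e, v.map_sub_eq_of_lt_left e2, Valuation.map_neg, e1]
    have hs : v (yj / xj + y / x) = v (y / x) := by
      have e := congrArg v (s_identity (yj / xj) (y / x) β hnej hne)
      rw [← hHj, ← hH] at e
      simp only [map_mul] at e
      rw [h2, hβ, one_mul, one_mul, h1, hαjp, hαp] at e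
      rw [e, ← hT, ← mul_assoc, inv_mul_cancel₀ hT0, one_mul]
    obtain ⟨x₃, y₃, h₃, hadd, hvx₃, hbd₃⟩ := step_val v hW hβ2 hβ h2 hb h hj' hx hvxj hs
    rw [← hHj, ← hH, ← hT] at hbd₃
    refine ⟨x₃, y₃, h₃, ?_, hvx₃, ?_⟩
    · rw [succ_nsmul, hsm, hadd]
    · have e : (y₃ / x₃ - β) / (y₃ / x₃ + β) - H ^ (j + 1) =
          ((y₃ / x₃ - β) / (y₃ / x₃ + β) - Hj * H) + (Hj - H ^ j) * H := by ring
      rw [e]
      apply v.map_add_le hbd₃
      rw [map_mul, hvH, mul_one]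
      exact hbd

/-- **[W-MULT] (b), DEPTH.**  On `y² = x³ + a₂ x² + a₄ x` with `a₂ = β²`, `|β| = 1`,
`|a₄| ≤ |p|`, `p` odd, `|n| = 1` for `0 < n < p`: a point `Q = (x, y)` of the kernel of reduction
(`1 < |x|`) with `p • Q = 0` satisfies `|p| ≤ |x / y| ^ (p - 1)`. -/
theorem depth_of_torsion (hW : IsTwoNF W) {p : ℕ} (hp : p.Prime) (hp2 : p ≠ 2) {β : K}
    (hβ2 : β ^ 2 = W.a₂) (hβ : v β = 1) (hunits : ∀ n : ℕ, 0 < n → n < p → v (n : K) = 1)
    (hb : v W.a₄ ≤ v (p : K)) {x y : K} (h : W.Nonsingular x y) (hx : 1 < v x)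
    (hQ : p • Point.some x y h = 0) :
    v (p : K) ≤ v (x / y) ^ (p - 1) := by
  by_contra hlt
  rw [not_le] at hlt
  have hp3 : 3 ≤ p := by
    have := hp.two_le
    omega
  have h2 : v (2 : K) = 1 := by
    have := hunits 2 (by norm_num) (by omega)
    simpa using this
  have hb1 : v W.a₄ ≤ 1 := le_trans hb (val_natCast_le_one v p)
  have ha : v W.a₂ ≤ 1 := by rw [← hβ2, map_pow, hβ, one_pow]
  obtain ⟨hx0, hα1, hαsq, hαp, hαm⟩ := E1_basic v hW ha hb1 hβ.le h hx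
  have h2β : v (2 * β) = 1 := by rw [map_mul, h2, hβ, one_mul]
  have hH1 := val_H_sub_one v h2β hαp hα1
  -- the multiple `(p - 1) • Q = -Q`
  obtain ⟨x', y', h', hsm, hvx', hbd⟩ :=
    mult_val v hW hβ2 hβ h2 hunits hb1 h hx (p - 1) (by omega) (by omega)
  have hneg : (p - 1) • Point.some x y h = -Point.some x y h := by
    have e : p • Point.some x y h = (p - 1) • Point.some x y h + Point.some x y h := by
      rw [← succ_nsmul]; congr 1; omega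
    rw [e] at hQ
    exact eq_neg_of_add_eq_zero_left hQ
  obtain ⟨h'', hneg'⟩ := hW.neg_some h
  rw [hneg, hneg', Point.some.injEq] at hsm
  obtain ⟨rfl, rfl⟩ := hsm
  obtain ⟨H, hH⟩ : ∃ H, H = (y / x - β) / (y / x + β) := ⟨_, rfl⟩
  obtain ⟨T, hT⟩ : ∃ T, T = v (y / x) := ⟨_, rfl⟩
  rw [← hH, ← hT] at hH1 hbd
  rw [← hT] at hα1 hαp hαm
  have hT0 : T ≠ 0 := by rintro rfl; simp at hα1
  have hTpos : 0 < T := lt_trans zero_lt_one hα1
  have hTinv : T⁻¹ < 1 := inv_lt_one_of_one_lt₀ hα1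
  have hHlt : v (H - 1) < 1 := by rw [hH1]; exact hTinv
  have hvH : v H = 1 := val_eq_one_of_sub_one_lt v hHlt
  have hne : y / x + β ≠ 0 := by
    intro h0; rw [h0, map_zero] at hαp; exact hT0 hαp.symm
  have hne' : y / x - β ≠ 0 := by
    intro h0; rw [h0, map_zero] at hαm; exact hT0 hαm.symm
  have hHinv : (-y / x - β) / (-y / x + β) = H⁻¹ := by
    rw [hH, inv_div]
    have e1 : -y / x - β = -(y / x + β) := by ring
    have e2 : -y / x + β = -(y / x - β) := by ring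
    rw [e1, e2, neg_div_neg_eq]
  rw [hHinv] at hbd
  have hH0 : H ≠ 0 := by
    intro h0; rw [h0, map_zero] at hvH; exact zero_ne_one hvH
  -- `|H ^ p - 1| ≤ |a₄| / T ^ 3`
  have hup : v (H ^ p - 1) ≤ v W.a₄ / T ^ 3 := by
    have e : H ^ p - 1 = -((H⁻¹ - H ^ (p - 1)) * H) := by
      have : H ^ p = H ^ (p - 1) * H := by rw [← pow_succ]; congr 1; omega
      rw [this, sub_mul, inv_mul_cancel₀ hH0]; ring
    rw [e, Valuation.map_neg, map_mul, hvH, mul_one]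
    exact hbd
  -- `|H ^ p - 1| = |p| / T`
  have hxy : v (x / y) = T⁻¹ := by
    rw [hT, ← map_inv₀, inv_div]
  rw [hxy] at hlt
  have hlow : v (H ^ p - 1) = v (p : K) * T⁻¹ := by
    rw [val_pow_prime_sub_one v hp hHlt (by rw [hH1]; exact hlt), hH1]
  have hvp : 0 < v (p : K) := lt_of_le_of_lt zero_le hlt
  rw [hlow] at hup
  have h3 : v (p : K) * T⁻¹ ≤ v (p : K) * (T ^ 3)⁻¹ := by
    calc v (p : K) * T⁻¹ ≤ v W.a₄ / T ^ 3 := hup
      _ = v W.a₄ * (T ^ 3)⁻¹ := div_eq_mul_inv _ _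
      _ ≤ v (p : K) * (T ^ 3)⁻¹ := mul_le_mul_left hb _
  have h4 : T⁻¹ ≤ (T ^ 3)⁻¹ := by
    rw [mul_comm (v (p : K)), mul_comm (v (p : K))] at h3
    exact le_of_mul_le_mul_right h3 hvp
  rw [inv_le_inv₀ hTpos (pow_pos hTpos 3)] at h4
  have h5 : T < T ^ 3 := by
    calc T = T ^ 1 := (pow_one T).symm
      _ < T ^ 3 := pow_lt_pow_right₀ hα1 (by norm_num)
  exact absurd h4 (not_le.mpr h5)

end Main

end Fermat.Agent.T8.helper92
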