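import Fermat.Agent.T8.helper92_Depth

/-!
# T8 / row 38, box [W-MULT] (b) DEPTH, exact form (helper92)

The shape consumed by the owner of [W-MULT] (finding #3541, shape of #3511):

`IsTwoNF W`, `v 2 = 1`, `v a₂ = 1`, `a₂ = s0²`, `v a₄ < v p`, `p` an odd prime, `Q` in the kernel
of reduction (`S05.InE1`), `Q ≠ 0`, `p • Q = 0`  ⟹  `v (tC Q) ^ (p - 1) = v p`.

* `val_natCast_eq_one_of_lt` : `|p| < 1` ⟹ `|n| = 1` for `0 < n < p`;
* `val_pow_prime_sub_one'`   : `|H ^ p - 1| = |H - 1| ^ p` if `|p| < |H - 1| ^ (p - 1)`;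
* `depth_le_of_torsion`      : the reverse inequality `|x / y| ^ (p - 1) ≤ |p|`;
* `depth_eq`, `depth_eq'`    : the exact depth, in `InE1` / `tC` vocabulary.
-/

set_option autoImplicit false
set_option linter.unusedSectionVars false
set_option linter.unusedVariables false
set_option linter.style.longLine false

namespace Fermat.Agent.T8.helper92

open WeierstrassCurve WeierstrassCurve.Affine Fermat.Agent.S05

variable {K : Type*} [Field K]
variable {Γ₀ : Type*} [LinearOrderedCommGroupWithZero Γ₀] (v : Valuation K Γ₀)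

/-- integers are integral -/
lemma val_intCast_le_one (z : ℤ) : v (z : K) ≤ 1 := by
  rcases Int.natAbs_eq z with h | h
  · rw [h, Int.cast_natCast]; exact val_natCast_le_one v _
  · rw [h, Int.cast_neg, Int.cast_natCast, Valuation.map_neg]; exact val_natCast_le_one v _

/-- residue characteristic `p`: the integers `0 < n < p` are units -/
lemma val_natCast_eq_one_of_lt {p : ℕ} (hp : p.Prime) (hvp : v (p : K) < 1) {n : ℕ}
    (hn : 0 < n) (hnp : n < p) : v (n : K) = 1 := by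
  have hcop : Nat.Coprime n p :=
    Nat.coprime_comm.mp ((Nat.Prime.coprime_iff_not_dvd hp).mpr (Nat.not_dvd_of_pos_of_lt hn hnp))
  have hb := Nat.gcd_eq_gcd_ab n p
  rw [hcop] at hb
  have e : ((n : ℤ) : K) * ((n.gcdA p : ℤ) : K) = 1 - ((p : ℤ) : K) * ((n.gcdB p : ℤ) : K) := by
    have := congrArg (fun z : ℤ => (z : K)) hb
    simp only [Nat.cast_one, Int.cast_one, Int.cast_add, Int.cast_mul] at this
    linear_combination -this
  have h1 : v (((n : ℤ) : K) * ((n.gcdA p : ℤ) : K)) = 1 := by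
    rw [e]
    apply val_sub_eq_one v (by simp)
    rw [map_mul, Int.cast_natCast]
    calc v (p : K) * v ((n.gcdB p : ℤ) : K) ≤ v (p : K) * 1 := by
          gcongr; exact val_intCast_le_one v _
      _ = v (p : K) := mul_one _
      _ < 1 := hvp
  rw [map_mul, Int.cast_natCast] at h1
  apply le_antisymm (val_natCast_le_one v n)
  by_contra hlt
  rw [not_le] at hlt
  have : v (n : K) * v ((n.gcdA p : ℤ) : K) < 1 := by
    calc v (n : K) * v ((n.gcdA p : ℤ) : K) ≤ v (n : K) * 1 := by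
          gcongr; exact val_intCast_le_one v _
      _ = v (n : K) := mul_one _
      _ < 1 := hlt
  rw [h1] at this
  exact lt_irrefl _ this

/-- binomial expansion of `(η + 1) ^ p - 1` -/
lemma binom_sub_one {p : ℕ} (hp2 : 2 ≤ p) (η : K) :
    (η + 1) ^ p - 1 = (p : K) * η +
      (∑ m ∈ Finset.Ico 2 p, η ^ m * (p.choose m : K) + η ^ p) := by
  rw [add_pow]
  have hr : Finset.range (p + 1) = insert 0 (insert 1 (insert p (Finset.Ico 2 p))) := by
    ext m
    simp only [Finset.mem_range, Finset.mem_insert, Finset.mem_Ico]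
    omega
  rw [hr, Finset.sum_insert (by simp; omega), Finset.sum_insert (by simp; omega),
    Finset.sum_insert (by simp)]
  simp only [one_pow, mul_one, pow_zero, Nat.choose_zero_right, Nat.cast_one, pow_one,
    Nat.choose_one_right, Nat.choose_self]
  ring

/-- the middle binomial terms are divisible by `p η²` -/
lemma val_binom_mid {p : ℕ} (hp : p.Prime) {η : K} (hη : v η ≤ 1) :
    v (∑ m ∈ Finset.Ico 2 p, η ^ m * (p.choose m : K)) ≤ v η ^ 2 * v (p : K) := by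
  apply Valuation.map_sum_le
  intro m hm
  rw [Finset.mem_Ico] at hm
  rw [map_mul, map_pow]
  have h1 : v η ^ m ≤ v η ^ 2 := pow_le_pow_of_le_one zero_le hη hm.1
  have h2 : v (p.choose m : K) ≤ v (p : K) := by
    obtain ⟨c, hc⟩ := hp.dvd_choose_self (by omega) hm.2
    rw [hc, Nat.cast_mul, map_mul]
    calc v (p : K) * v (c : K) ≤ v (p : K) * 1 := by gcongr; exact val_natCast_le_one v c
      _ = v (p : K) := mul_one _
  exact mul_le_mul' h1 h2

/-- `|H ^ p - 1| = |H - 1| ^ p` if `|p| < |H - 1| ^ (p - 1)` -/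
lemma val_pow_prime_sub_one' {p : ℕ} (hp : p.Prime) {H : K} (hH : v (H - 1) < 1)
    (hd : v (p : K) < v (H - 1) ^ (p - 1)) :
    v (H ^ p - 1) = v (H - 1) ^ p := by
  obtain ⟨η, hη⟩ : ∃ η, η = H - 1 := ⟨_, rfl⟩
  rw [← hη] at hH hd ⊢
  have hHη : H = η + 1 := by rw [hη]; ring
  have hp2 : 2 ≤ p := hp.two_le
  have h0 : η ≠ 0 := by
    rintro rfl
    rw [map_zero, zero_pow (by omega)] at hd
    exact absurd hd (not_lt.mpr zero_le)
  have hvη : 0 < v η := val_pos v h0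
  have hpow : v η ^ p = v η ^ (p - 1) * v η := by
    rw [← pow_succ]; congr 1; omega
  have e : H ^ p - 1 = η ^ p + ((p : K) * η + ∑ m ∈ Finset.Ico 2 p, η ^ m * (p.choose m : K)) := by
    rw [hHη, binom_sub_one hp2]; ring
  have h1 : v ((p : K) * η) < v (η ^ p) := by
    rw [map_mul, map_pow, hpow]
    exact mul_lt_mul_of_pos_right hd hvη
  have h2 : v (∑ m ∈ Finset.Ico 2 p, η ^ m * (p.choose m : K)) < v (η ^ p) := by
    apply lt_of_le_of_lt (val_binom_mid v hp hH.le)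
    rw [map_pow, hpow]
    calc v η ^ 2 * v (p : K) = v η * (v (p : K) * v η) := by
          rw [pow_two, mul_assoc, mul_comm (v η) (v (p : K))]
      _ ≤ 1 * (v (p : K) * v η) := by gcongr
      _ = v (p : K) * v η := one_mul _
      _ < v η ^ (p - 1) * v η := mul_lt_mul_of_pos_right hd hvη
  have h3 : v ((p : K) * η + ∑ m ∈ Finset.Ico 2 p, η ^ m * (p.choose m : K)) < v (η ^ p) :=
    lt_of_le_of_lt (v.map_add _ _) (max_lt h1 h2)
  rw [e, v.map_add_eq_of_lt_left h3, map_pow]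

section Main

variable [DecidableEq K] {W : Affine K}

/-- `|H(Q) ^ p - 1| ≤ |a₄| / |y / x| ^ 3` for a `p`-torsion point of the kernel of reduction -/
lemma val_H_pow_sub_one_le (hW : IsTwoNF W) {p : ℕ} (hp : p.Prime) (hp2 : p ≠ 2) {β : K}
    (hβ2 : β ^ 2 = W.a₂) (hβ : v β = 1) (hunits : ∀ n : ℕ, 0 < n → n < p → v (n : K) = 1)
    (hb1 : v W.a₄ ≤ 1) {x y : K} (h : W.Nonsingular x y) (hx : 1 < v x)
    (hQ : p • Point.some x y h = 0) :
    v (((y / x - β) / (y / x + β)) ^ p - 1) ≤ v W.a₄ / v (y / x) ^ 3 ∧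
      v ((y / x - β) / (y / x + β) - 1) = (v (y / x))⁻¹ ∧ 1 < v (y / x) := by
  have hp3 : 3 ≤ p := by
    have := hp.two_le
    omega
  have h2 : v (2 : K) = 1 := by
    have := hunits 2 (by norm_num) (by omega)
    simpa using this
  have ha : v W.a₂ ≤ 1 := by rw [← hβ2, map_pow, hβ, one_pow]
  obtain ⟨hx0, hα1, hαsq, hαp, hαm⟩ := E1_basic v hW ha hb1 hβ.le h hx
  have h2β : v (2 * β) = 1 := by rw [map_mul, h2, hβ, one_mul]
  have hH1 := val_H_sub_one v h2β hαp hα1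
  refine ⟨?_, hH1, hα1⟩
  obtain ⟨x', y', h', hsm, hvx', hbd⟩ :=
    mult_val v hW hβ2 hβ h2 hunits hb1 h hx (p - 1) (by omega) (by omega)
  have hneg : (p - 1) • Point.some x y h = -Point.some x y h := by
    have e : p • Point.some x y h = (p - 1) • Point.some x y h + Point.some x y h := by
      rw [← succ_nsmul]; congr 1; omega
    rw [e] at hQ
    exact eq_neg_of_add_eq_zero_left hQ
  obtain ⟨h'', hneg'⟩ := hW.neg_some h
  rw [hneg, hneg', Point.some.injEq] at hsm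
  obtain ⟨rfl, rfl⟩ := hsm
  obtain ⟨H, hH⟩ : ∃ H, H = (y / x - β) / (y / x + β) := ⟨_, rfl⟩
  obtain ⟨T, hT⟩ : ∃ T, T = v (y / x) := ⟨_, rfl⟩
  rw [← hH, ← hT] at hH1 hbd
  rw [← hH, ← hT]
  rw [← hT] at hα1 hαp hαm
  have hT0 : T ≠ 0 := by rintro rfl; simp at hα1
  have hTinv : T⁻¹ < 1 := inv_lt_one_of_one_lt₀ hα1
  have hHlt : v (H - 1) < 1 := by rw [hH1]; exact hTinv
  have hvH : v H = 1 := val_eq_one_of_sub_one_lt v hHlt
  have hne : y / x + β ≠ 0 := by
    intro h0; rw [h0, map_zero] at hαp; exact hT0 hαp.symm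
  have hne' : y / x - β ≠ 0 := by
    intro h0; rw [h0, map_zero] at hαm; exact hT0 hαm.symm
  have hHinv : (-y / x - β) / (-y / x + β) = H⁻¹ := by
    rw [hH, inv_div]
    have e1 : -y / x - β = -(y / x + β) := by ring
    have e2 : -y / x + β = -(y / x - β) := by ring
    rw [e1, e2, neg_div_neg_eq]
  rw [hHinv] at hbd
  have hH0 : H ≠ 0 := by
    intro h0; rw [h0, map_zero] at hvH; exact zero_ne_one hvH
  have e : H ^ p - 1 = -((H⁻¹ - H ^ (p - 1)) * H) := by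
    have : H ^ p = H ^ (p - 1) * H := by rw [← pow_succ]; congr 1; omega
    rw [this, sub_mul, inv_mul_cancel₀ hH0]; ring
  rw [e, Valuation.map_neg, map_mul, hvH, mul_one]
  exact hbd

/-- the reverse inequality: a `p`-torsion point of the kernel of reduction is not shallower than
`ζ_p - 1`. -/
theorem depth_le_of_torsion (hW : IsTwoNF W) {p : ℕ} (hp : p.Prime) (hp2 : p ≠ 2) {β : K}
    (hβ2 : β ^ 2 = W.a₂) (hβ : v β = 1) (hunits : ∀ n : ℕ, 0 < n → n < p → v (n : K) = 1)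
    (hb : v W.a₄ ≤ v (p : K)) {x y : K} (h : W.Nonsingular x y) (hx : 1 < v x)
    (hQ : p • Point.some x y h = 0) :
    v (x / y) ^ (p - 1) ≤ v (p : K) := by
  by_contra hlt
  rw [not_le] at hlt
  have hb1 : v W.a₄ ≤ 1 := le_trans hb (val_natCast_le_one v p)
  obtain ⟨hup, hH1, hα1⟩ := val_H_pow_sub_one_le v hW hp hp2 hβ2 hβ hunits hb1 h hx hQ
  obtain ⟨H, hH⟩ : ∃ H, H = (y / x - β) / (y / x + β) := ⟨_, rfl⟩
  obtain ⟨T, hT⟩ : ∃ T, T = v (y / x) := ⟨_, rfl⟩
  rw [← hH, ← hT] at hup hH1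
  rw [← hT] at hα1
  have hT0 : T ≠ 0 := by rintro rfl; simp at hα1
  have hTpos : 0 < T := lt_trans zero_lt_one hα1
  have hTinv : T⁻¹ < 1 := inv_lt_one_of_one_lt₀ hα1
  have hTinvpos : 0 < T⁻¹ := inv_pos.mpr hTpos
  have hHlt : v (H - 1) < 1 := by rw [hH1]; exact hTinv
  have hxy : v (x / y) = T⁻¹ := by
    rw [hT, ← map_inv₀, inv_div]
  rw [hxy] at hlt
  have hlow : v (H ^ p - 1) = T⁻¹ ^ p := by
    rw [val_pow_prime_sub_one' v hp hHlt (by rw [hH1]; exact hlt), hH1]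
  rw [hlow] at hup
  have hp2' : 2 ≤ p := hp.two_le
  -- `T⁻¹ ^ p ≤ |p| / T ^ 3 < T⁻¹ ^ (p - 1) * T⁻¹ ^ 3`
  have h1 : T⁻¹ ^ p < T⁻¹ ^ (p - 1) * T⁻¹ ^ 3 := by
    calc T⁻¹ ^ p ≤ v W.a₄ / T ^ 3 := hup
      _ = v W.a₄ * T⁻¹ ^ 3 := by rw [div_eq_mul_inv, inv_pow]
      _ ≤ v (p : K) * T⁻¹ ^ 3 := mul_le_mul_left hb _
      _ < T⁻¹ ^ (p - 1) * T⁻¹ ^ 3 := mul_lt_mul_of_pos_right hlt (pow_pos hTinvpos 3)
  have h2 : T⁻¹ ^ (p - 1) * T⁻¹ ^ 3 ≤ T⁻¹ ^ p := by
    rw [← pow_add]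
    exact pow_le_pow_of_le_one zero_le hTinv.le (by omega)
  exact absurd h1 (not_lt.mpr h2)

/-- **[W-MULT] (b), exact depth**, in the vocabulary of S05 (`InE1`, `tC`): shape of findings
#3511 / #3541. -/
theorem depth_eq (hW : IsTwoNF W) {p : ℕ} (hp : p.Prime) (hp2 : p ≠ 2) (ha2 : v W.a₂ = 1)
    {s0 : K} (hs0 : W.a₂ = s0 ^ 2) (ha4 : v W.a₄ < v (p : K))
    {Q : W.Point} (hQ : InE1 v Q) (hQ0 : Q ≠ 0) (hpQ : p • Q = 0) :
    v (tC Q) ^ (p - 1) = v (p : K) := by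
  rcases hQ with rfl | ⟨x, y, h, rfl, hx⟩
  · exact absurd rfl hQ0
  have hb1 : v W.a₄ ≤ 1 := le_trans ha4.le (val_natCast_le_one v p)
  have hvp : v (p : K) < 1 := by
    rcases lt_or_eq_of_le (val_natCast_le_one v p) with h1 | h1
    · exact h1
    · exact absurd hpQ (hW.E1_torsion_free v ha2.le hb1 h hx p h1)
  have hunits : ∀ n : ℕ, 0 < n → n < p → v (n : K) = 1 :=
    fun n hn hnp => val_natCast_eq_one_of_lt v hp hvp hn hnp
  have hβ : v s0 = 1 := by
    apply eq_one_of_sq_eq_one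
    rw [← map_pow, ← hs0, ha2]
  rw [tC_some]
  exact le_antisymm
    (depth_le_of_torsion v hW hp hp2 hs0.symm hβ hunits ha4.le h hx hpQ)
    (depth_of_torsion v hW hp hp2 hs0.symm hβ hunits ha4.le h hx hpQ)

/-- the same with `v 2 = 1` as an (unused) hypothesis, verbatim shape of #3511 -/
theorem depth_eq' (hW : IsTwoNF W) {p : ℕ} (hp : p.Prime) (hp2 : p ≠ 2) (h2 : v (2 : K) = 1)
    (ha2 : v W.a₂ = 1) {s0 : K} (hs0 : W.a₂ = s0 ^ 2) (ha4 : v W.a₄ < v (p : K))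
    (Q : W.Point) (hQ : InE1 v Q) (hQ0 : Q ≠ 0) (hpQ : p • Q = 0) :
    v (tC Q) ^ (p - 1) = v (p : K) :=
  depth_eq v hW hp hp2 ha2 hs0 ha4 hQ hQ0 hpQ

end Main

end Fermat.Agent.T8.helper92
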