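import Mathlib

/-!
# T8 / row 38, leaf [SHEETS], abstract piece (helper92, second prover)

"The image of `ρ j` lies in `D`" (request of the owner, finding #3568).

`D` an integrally closed domain (e.g. a discrete valuation ring) with fraction field `k`,
`R → S` an integral ring extension, `red : R →+* D`, `ρ : S →+* k` with
`ρ (algebraMap R S r) = algebraMap D k (red r)`.  Then `ρ` takes its values in `D`:

* `map_mem_range_of_isIntegral` : `ρ s` lies in the range of `algebraMap D k` for every `s`
  integral over `R`;
* `exists_lift_of_isIntegral`   : a ring homomorphism `ρ' : S →+* D` with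
  `algebraMap D k (ρ' s) = ρ s`, `ρ' (algebraMap R S r) = red r`, and `ρ'` is onto if `red` is;
* `exists_lift_subring`         : the same for a subring `S` of a field `F'` whose elements are
  integral over the image of `R`.
-/

set_option autoImplicit false
set_option linter.unusedSectionVars false
set_option linter.unusedVariables false
set_option linter.style.haveILetI false

namespace Fermat.Agent.T8.helper92

open Polynomial

variable {R S D k : Type*} [CommRing R] [CommRing S] [Algebra R S]
  [CommRing D] [IsDomain D] [IsIntegrallyClosed D] [Field k] [Algebra D k] [IsFractionRing D k]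

/-- the value of `ρ` at an element integral over `R` is integral over `D` -/
theorem isIntegral_map_of_isIntegral (red : R →+* D) (ρ : S →+* k)
    (hcomp : ∀ r, ρ (algebraMap R S r) = algebraMap D k (red r)) {s : S}
    (hs : IsIntegral R s) : IsIntegral D (ρ s) := by
  obtain ⟨f, hf, hroot⟩ := hs
  refine ⟨f.map red, hf.map red, ?_⟩
  have h1 : ρ (eval₂ (algebraMap R S) s f) = 0 := by rw [hroot, map_zero]
  rw [hom_eval₂] at h1
  rw [eval₂_map]
  have h2 : ρ.comp (algebraMap R S) = (algebraMap D k).comp red := by
    ext r
    exact hcomp r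
  rw [h2] at h1
  exact h1

/-- the value of `ρ` at an element integral over `R` lies in `D` -/
theorem map_mem_range_of_isIntegral (red : R →+* D) (ρ : S →+* k)
    (hcomp : ∀ r, ρ (algebraMap R S r) = algebraMap D k (red r)) {s : S}
    (hs : IsIntegral R s) : ∃ d : D, algebraMap D k d = ρ s :=
  (IsIntegrallyClosed.isIntegral_iff (R := D) (K := k)).mp
    (isIntegral_map_of_isIntegral red ρ hcomp hs)

/-- **the sheet reduction takes its values in `D`** -/
theorem exists_lift_of_isIntegral (red : R →+* D) (ρ : S →+* k)
    (hcomp : ∀ r, ρ (algebraMap R S r) = algebraMap D k (red r))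
    (hint : ∀ s : S, IsIntegral R s) :
    ∃ ρ' : S →+* D, (∀ s, algebraMap D k (ρ' s) = ρ s) ∧
      (∀ r, ρ' (algebraMap R S r) = red r) ∧
      (Function.Surjective red → Function.Surjective ρ') := by
  classical
  have hinj : Function.Injective (algebraMap D k) := IsFractionRing.injective D k
  choose g hg using fun s : S => map_mem_range_of_isIntegral red ρ hcomp (hint s)
  have hg' : ∀ s d, algebraMap D k d = ρ s → g s = d := fun s d hd =>
    hinj ((hg s).trans hd.symm)
  let ρ' : S →+* D :=
    { toFun := g
      map_one' := hg' 1 1 (by rw [map_one, map_one])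
      map_mul' := fun a b => hg' (a * b) (g a * g b) (by rw [map_mul, map_mul, hg, hg])
      map_zero' := hg' 0 0 (by rw [map_zero, map_zero])
      map_add' := fun a b => hg' (a + b) (g a + g b) (by rw [map_add, map_add, hg, hg]) }
  have hρ' : ∀ s, algebraMap D k (ρ' s) = ρ s := hg
  have hred : ∀ r, ρ' (algebraMap R S r) = red r := fun r => hg' _ _ (hcomp r).symm
  refine ⟨ρ', hρ', hred, fun hsurj d => ?_⟩
  obtain ⟨r, rfl⟩ := hsurj d
  exact ⟨algebraMap R S r, hred r⟩

/-- the same for a subring `S` of a ring `F'`, with `R` mapping into `S` by `φ` -/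
theorem exists_lift_subring {F' : Type*} [CommRing F'] (S : Subring F') (φ : R →+* S)
    (red : R →+* D) (ρ : S →+* k) (hcomp : ∀ r, ρ (φ r) = algebraMap D k (red r))
    (hint : ∀ s : S, ∃ f : R[X], f.Monic ∧ eval₂ φ s f = 0) :
    ∃ ρ' : S →+* D, (∀ s, algebraMap D k (ρ' s) = ρ s) ∧ (∀ r, ρ' (φ r) = red r) ∧
      (Function.Surjective red → Function.Surjective ρ') := by
  letI : Algebra R S := φ.toAlgebra
  exact exists_lift_of_isIntegral (R := R) (S := S) red ρ hcomp hint

end Fermat.Agent.T8.helper92
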