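import Mathlib
import Fermat.Agent.T8.helper97_SheetsInst
import Fermat.Agent.T8.helper33_SheetsConj
import Fermat.Agent.T3.helper98_NormRegJ
import Fermat.Agent.T3.helper49_TorBox

/-!
# T8 (row 38, at risk), leaf [SHEETS], SUB-LEAF A (helper92, second; owner helper97)

The coefficients of the conjugate polynomial `f = ∏_{j < p} (X - ρ ^ j t)` of the tame trace
`t = tGen D ζ` are functions of `F = FF M` which are REGULAR WHERE `j` IS FINITE
(`helper98.IsRegJ`), i.e. `f ∈ regJRing[X]`.

Integrality over `regJRing M` of an element `x` of the cover is stated for the EXPLICIT structure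
map `regCov D : regJRing M → FF M → Cov M D.Z` (`IsIntRegJ D x := (regCov D).IsIntegralElem x`),
because the instance `Algebra (regJRing M) (Cov M D.Z)` is not found within the default
instance budget; `isIntegral_iff_isIntRegJ` is the bridge to `IsIntegral (regJRing M) x`.

* `isRegJ_of_isIntegral`      : `regJRing M` is integrally closed in `FF M`
                                (intersection of valuation rings);
* `isRegJ_of_isIntegral_map`  : a function `g` of `FF M` whose image in an extension `E` of
                                `FF M` is integral over `regJRing M` is `IsRegJ`;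
* `isRegJ_of_isIntRegJ`       : **(A1)** the same for the cover, `IsIntRegJ` form;
* `isIntRegJ_act`             : the inertia action on the cover preserves integrality over
                                `regJRing M` (`galF σ` preserves `IsRegJ`: T3
                                `helper49.isRegJ_galF`);
* `isIntRegJ_gen`, `isIntRegJ_cst`, `isIntRegJ_u0` : the generator `Z` (`Z ^ p = K`,
                                `K` regular where `j` is finite), the constants, `Z / (ζ - 1)`;
* `isIntRegJ_tGen`            : **(A2)** the tame trace `t = tGen D ζ` is integral over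
                                `regJRing M`;
* `isIntRegJ_rho_pow_tGen`    : so are its deck conjugates;
* `isRegJ_of_conjPoly_coeff`  : **(A)** every function `g` of `FF M` whose image in the cover
                                is a coefficient of `helper33.conjPoly ρ n t`, `ρ` any ring
                                endomorphism of the cover fixing `FF M`, `t` integral over
                                `regJRing M`, is `IsRegJ`;
* `isRegJ_coeff_tGen`         : the instance `t = tGen D ζ`, `ρ = D.rho hKum ζ hζ`.
-/

set_option autoImplicit false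
set_option synthInstance.maxHeartbeats 400000
set_option linter.unusedSectionVars false
set_option linter.unusedVariables false
set_option linter.style.longLine false
set_option linter.style.haveILetI false

noncomputable section

open HahnSeries IntermediateField AlgebraicCurve ModularCurve
open Fermat.Agent.S18.helper19 Fermat.Agent.P2.helper29
open Fermat.Agent.P2.helper22 Fermat.Agent.P2.helper74 Fermat.Agent.P2.helper93
open Fermat.Agent.T2.helper74 Fermat.Agent.T2.helper36
open Fermat.Agent.T8.helper86 Fermat.Agent.T8.helper88 Fermat.Agent.T8.helper65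
open Fermat.Agent.T3.helper98 (IsRegJ regJRing isRegJ_iff_mem isRegJ_algebraMap mem_regJRing)

namespace Fermat.Agent.T8.helper92

section Closed

variable {M : ℕ} [NeZero M]

/-- **normality**: `regJRing M` is integrally closed in `FF M`. -/
theorem isRegJ_of_isIntegral {g : FF M} (hg : IsIntegral (regJRing M) g) : IsRegJ M g := by
  rw [isRegJ_iff_mem]
  intro P hP
  set V : ValuationSubring (FF M) := P.toValuationSubring with hV
  have hle : ∀ x : regJRing M, (x : FF M) ∈ V := fun x =>
    isRegJ_iff_mem.mp (mem_regJRing.mp x.2) P hP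
  let φ : regJRing M →+* V :=
    RingHom.codRestrict (regJRing M).subtype V.toSubring (fun x => hle x)
  have h1 : IsIntegral V g :=
    IsIntegral.map_of_comp_eq φ (RingHom.id (FF M)) (RingHom.ext fun x => rfl) hg
  obtain ⟨y, hy⟩ := (IsIntegrallyClosed.isIntegral_iff (R := V) (K := FF M)).mp h1
  rw [← hy]
  exact y.2

/-- **(A1)** a function whose image in an extension of `FF M` is integral over `regJRing M` is
regular where `j` is finite. -/
theorem isRegJ_of_isIntegral_map {E : Type*} [CommRing E] [Nontrivial E] [Algebra (FF M) E]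
    {g : FF M} (hg : IsIntegral (regJRing M) (algebraMap (FF M) E g)) : IsRegJ M g :=
  isRegJ_of_isIntegral
    ((isIntegral_algebraMap_iff (algebraMap (FF M) E).injective).mp hg)

/-- the algebra map of an `FF M`-algebra over `regJRing M` is the composition -/
theorem algebraMap_regJRing {E : Type*} [CommRing E] [Algebra (FF M) E] :
    algebraMap (regJRing M) E = (algebraMap (FF M) E).comp (regJRing M).subtype := rfl

/-- **(A1)**, `RingHom.IsIntegralElem` form. -/
theorem isRegJ_of_isIntegralElem_map {E : Type*} [CommRing E] [Nontrivial E] [Algebra (FF M) E]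
    {g : FF M}
    (hg : ((algebraMap (FF M) E).comp (regJRing M).subtype).IsIntegralElem
      (algebraMap (FF M) E g)) : IsRegJ M g :=
  isRegJ_of_isIntegral_map (E := E) hg

end Closed

section Abs

/-! ### Abstract integrality lemmas in `RingHom.IsIntegralElem` form -/

variable {R E : Type*} [CommRing R] [CommRing E] (f : R →+* E)

/-- a ring endomorphism `ψ` of `E` which is semilinear over an endomorphism `φ` of `R`
preserves integrality -/
theorem isIntegralElem_semilinear (φ : R →+* R) (ψ : E →+* E)
    (h : ∀ r, ψ (f r) = f (φ r)) {x : E} (hx : f.IsIntegralElem x) :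
    f.IsIntegralElem (ψ x) := by
  obtain ⟨P, hP, hx⟩ := hx
  refine ⟨P.map φ, hP.map φ, ?_⟩
  have e : f.comp φ = ψ.comp f := RingHom.ext fun r => (h r).symm
  rw [Polynomial.eval₂_map, e, ← Polynomial.hom_eval₂, hx, map_zero]

theorem isIntegralElem_of_pow {x : E} {n : ℕ} (hn : 0 < n) (h : f.IsIntegralElem (x ^ n)) :
    f.IsIntegralElem x := by
  letI := f.toAlgebra
  exact IsIntegral.of_pow (R := R) hn h

/-- pull-back of integrality along an injective ring homomorphism -/
theorem isIntegralElem_of_comp {F : Type*} [CommRing F] (i : R →+* F) (j : F →+* E)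
    (hj : Function.Injective j) {g : F} (hg : (j.comp i).IsIntegralElem (j g)) :
    i.IsIntegralElem g := by
  obtain ⟨P, hP, hx⟩ := hg
  refine ⟨P, hP, hj ?_⟩
  rw [Polynomial.hom_eval₂, hx, map_zero]

/-- the coefficients of the conjugate polynomial of an integral element are integral -/
theorem conjPoly_coeff_isIntegralElem {R E : Type*} [CommRing R] [IsDomain R] [Field E]
    (f : R →+* E) (ρ : E →+* E) (hρ : ∀ r, ρ (f r) = f r) (n : ℕ) {t : E}
    (ht : f.IsIntegralElem t) (m : ℕ) :
    f.IsIntegralElem ((Fermat.Agent.T8.helper33.conjPoly ρ n t).coeff m) := by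
  letI := f.toAlgebra
  exact Fermat.Agent.T8.helper33.conjPoly_coeff_isIntegral (R := R) ρ hρ n ht m

end Abs

section Cover

variable {M : ℕ} [NeZero M] {W : FF M ≃ₐ[Kb] FF M} {A : ValuationSubring Kb} {p : ℕ}
  (D : CovData M W A p)

/-- the structure map `regJRing M → FF M → Cov M D.Z` -/
def regCov : regJRing M →+* Cov M D.Z :=
  (algebraMap (FF M) (Cov M D.Z)).comp (regJRing M).subtype

theorem regCov_apply (r : regJRing M) :
    regCov D r = algebraMap (FF M) (Cov M D.Z) (r : FF M) := rfl

/-- `x` is integral over the ring of the functions regular where `j` is finite -/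
def IsIntRegJ (x : Cov M D.Z) : Prop := (regCov D).IsIntegralElem x

/-- the restriction of `galF M σ` to the functions regular where `j` is finite -/
def galRegJ (σ : Kb ≃ₐ[ℚ] Kb) : regJRing M →+* regJRing M :=
  RingHom.codRestrict (((galF M σ : FF M ≃+* FF M) : FF M →+* FF M).comp (regJRing M).subtype)
    (regJRing M) (fun x => Fermat.Agent.T3.helper49.isRegJ_galF σ (mem_regJRing.mp x.2))

theorem IsIntRegJ.add {x y : Cov M D.Z} (hx : IsIntRegJ D x) (hy : IsIntRegJ D y) :
    IsIntRegJ D (x + y) :=
  RingHom.IsIntegralElem.add (regCov D) hx hy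

theorem IsIntRegJ.mul {x y : Cov M D.Z} (hx : IsIntRegJ D x) (hy : IsIntRegJ D y) :
    IsIntRegJ D (x * y) :=
  RingHom.IsIntegralElem.mul (regCov D) hx hy

theorem isIntRegJ_zero : IsIntRegJ D 0 :=
  (regCov D).isIntegralElem_zero

/-- **(A1)** a function whose image in the cover is integral over `regJRing M` is regular where
`j` is finite. -/
theorem isRegJ_of_isIntRegJ {g : FF M}
    (hg : IsIntRegJ D (algebraMap (FF M) (Cov M D.Z) g)) : IsRegJ M g := by
  apply isRegJ_of_isIntegral
  exact isIntegralElem_of_comp (regJRing M).subtype (algebraMap (FF M) (Cov M D.Z))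
    (algebraMap (FF M) (Cov M D.Z)).injective hg

/-- the image of a function regular where `j` is finite is integral -/
theorem isIntRegJ_algebraMap {g : FF M} (hg : IsRegJ M g) :
    IsIntRegJ D (algebraMap (FF M) (Cov M D.Z) g) :=
  (regCov D).isIntegralElem_map (x := ⟨g, mem_regJRing.mpr hg⟩)

/-- **the inertia action preserves integrality over `regJRing M`** -/
theorem isIntRegJ_act (σ : Kb ≃ₐ[ℚ] Kb) (hσ : σ ∈ IA A) {x : Cov M D.Z}
    (hx : IsIntRegJ D x) : IsIntRegJ D (D.act σ hσ x) :=
  isIntegralElem_semilinear (regCov D) (galRegJ (M := M) σ) (D.act σ hσ)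
    (fun r => D.act_algebraMap σ hσ (r : FF M)) hx

theorem isIntRegJ_covAct (σ : Kb ≃ₐ[ℚ] Kb) (hσ : σ ∈ IA A) {x : Cov M D.Z}
    (hx : IsIntRegJ D x) : IsIntRegJ D (Fermat.Agent.T8.helper97.covAct D σ x) := by
  rw [Fermat.Agent.T8.helper97.covAct_of_mem D hσ]
  exact isIntRegJ_act D σ hσ hx

/-- the constants of the cover are integral -/
theorem isIntRegJ_cst (c : Kb) : IsIntRegJ D (Fermat.Agent.T8.helper97.cst D c) :=
  isIntRegJ_algebraMap D (isRegJ_algebraMap c)

theorem gen_pow : D.gen ^ p = algebraMap (FF M) (Cov M D.Z) D.K :=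
  Subtype.ext D.Z_pow

/-- the generator `Z` of the cover is integral (`Z ^ p = K`) -/
theorem isIntRegJ_gen (hK : IsRegJ M D.K) : IsIntRegJ D D.gen := by
  refine isIntegralElem_of_pow (regCov D) D.hp.pos ?_
  rw [gen_pow]
  exact isIntRegJ_algebraMap D hK

/-- `Z / (ζ - 1)` is integral -/
theorem isIntRegJ_u0 (hK : IsRegJ M D.K) (ζ : Kb) :
    IsIntRegJ D (Fermat.Agent.T8.helper97.u0 D ζ) :=
  (isIntRegJ_cst D _).mul D (isIntRegJ_gen D hK)

/-- a ring endomorphism of the cover fixing `FF M` preserves integrality over `regJRing M` -/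
theorem isIntRegJ_map_of_fix (ρ : Cov M D.Z →+* Cov M D.Z)
    (hρ : ∀ x : FF M, ρ (algebraMap (FF M) (Cov M D.Z) x) = algebraMap (FF M) (Cov M D.Z) x)
    {x : Cov M D.Z} (hx : IsIntRegJ D x) : IsIntRegJ D (ρ x) :=
  isIntegralElem_semilinear (regCov D) (RingHom.id _) ρ (fun r => hρ (r : FF M)) hx

/-- **(A)** a function of `FF M` whose image in the cover is a coefficient of the conjugate
polynomial `∏_{j < n} (X - ρ^[j] t)` of an integral element `t` is regular where `j` is
finite. -/
theorem isRegJ_of_conjPoly_coeff (ρ : Cov M D.Z →+* Cov M D.Z)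
    (hρ : ∀ x : FF M, ρ (algebraMap (FF M) (Cov M D.Z) x) = algebraMap (FF M) (Cov M D.Z) x)
    (n : ℕ) {t : Cov M D.Z} (ht : IsIntRegJ D t) (m : ℕ) {g : FF M}
    (hg : algebraMap (FF M) (Cov M D.Z) g =
      (Fermat.Agent.T8.helper33.conjPoly ρ n t).coeff m) : IsRegJ M g := by
  apply isRegJ_of_isIntRegJ D
  rw [hg]
  exact conjPoly_coeff_isIntegralElem (regCov D) ρ (fun r => hρ (r : FF M)) n ht m

/-- the bridge to `IsIntegral` for the canonical algebra structure of the cover over
`regJRing M` -/
theorem isIntegral_iff_isIntRegJ (x : Cov M D.Z) :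
    IsIntegral (regJRing M) x ↔ IsIntRegJ D x := Iff.rfl

variable [((muFix p ⊓ IA A).subgroupOf (IA A)).FiniteIndex]

/-- **(A2)** the tame trace `t = tGen D ζ` is integral over the ring of the functions regular
where `j` is finite. -/
theorem isIntRegJ_tGen (hK : IsRegJ M D.K) (ζ : Kb) :
    IsIntRegJ D (Fermat.Agent.T8.helper97.tGen D ζ) :=
  Fermat.Agent.T8.helper97.prop_traceCoset (act := Fermat.Agent.T8.helper97.covAct D)
    (I := IA A) (H := muFix p ⊓ IA A) (IsIntRegJ D)
    (fun u v hu hv => hu.add D hv) (isIntRegJ_zero D)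
    (fun σ hσ u hu => isIntRegJ_covAct D σ hσ hu) (isIntRegJ_u0 D hK ζ)

/-- the deck conjugates of the tame trace are integral -/
theorem isIntRegJ_rho_pow_tGen (hK : IsRegJ M D.K) (hKum : IsKummerRoot p D.K D.Z) (ζ : Kb)
    (hζ : ζ ^ p = 1) (j : ℕ) :
    IsIntRegJ D (((D.rho hKum ζ hζ) ^ j) (Fermat.Agent.T8.helper97.tGen D ζ)) :=
  isIntRegJ_map_of_fix D (RingHomClass.toRingHom ((D.rho hKum ζ hζ) ^ j))
    (fun x => ((D.rho hKum ζ hζ) ^ j).commutes x) (isIntRegJ_tGen D hK ζ)

/-- **(A), instance**: the coefficients of the conjugate polynomial of the tame trace are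
regular where `j` is finite. -/
theorem isRegJ_coeff_tGen (hK : IsRegJ M D.K) (hKum : IsKummerRoot p D.K D.Z) (ζ : Kb)
    (hζ : ζ ^ p = 1) (n m : ℕ) {g : FF M}
    (hg : algebraMap (FF M) (Cov M D.Z) g =
      (Fermat.Agent.T8.helper33.conjPoly (RingHomClass.toRingHom (D.rho hKum ζ hζ)) n
        (Fermat.Agent.T8.helper97.tGen D ζ)).coeff m) : IsRegJ M g :=
  isRegJ_of_conjPoly_coeff D (RingHomClass.toRingHom (D.rho hKum ζ hζ))
    (fun x => (D.rho hKum ζ hζ).commutes x) n (isIntRegJ_tGen D hK ζ) m hg

end Cover

end Fermat.Agent.T8.helper92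

end
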