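import Mathlib
import Fermat.Agent.T3.helper23_DiscGenEmb
import Fermat.Agent.T3.helper36_RhoQ
import Fermat.Agent.T2.helper45_Integrality
import Fermat.Agent.T8.helper14_CuspInf

/-!
# T8 [CUSP-GAP], route Q, leaf (L1) [DISC-ORD] (helper93)

The DISC step at a cusp of ANY width, in ORDER form and with the reduction given in the quotient
form `RhoQ` (no membership clause on the witnesses):

`disc_ord` : for an expansion map `E : F_M → ℚ̄((t))` all of whose values are ratios over the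
rings `A ∩ K₀` (`IsRatioEv`), with `E j` `A`-integral with unit leading coefficient, and a
function `H ≠ 0` with `m ∣ div H`, regular where `j` is finite, whose expansion `E H` is
Gauss-integral with reduction `r ≠ 0` (`RhoQ A (E H) r`): `m ∣ ord_t r`.

Proof: `E H = φ a / φ b` over the discrete valuation ring `R₀ = A ∩ K₀`; dividing by the contents
and using `RhoQ` (which pins the scaling) `a`, `b` may be taken with a unit coefficient, so no
vertical prime of `R₀⟦X⟧` divides them; the multiplicity claim `T3.helper23.mult_claim_gen` and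
`P2.helper9.exists_unit_mul_pow_mul` give `E H · X^{m n} = u · Z^m` with `u` a unit of `R₀⟦X⟧`;
reduce (`T8.helper14.dvd_order_sub_of_factor`).
-/

set_option autoImplicit false
set_option linter.unusedSectionVars false
set_option linter.unusedVariables false
set_option linter.style.longLine false
set_option linter.style.haveILetI false

noncomputable section

open HahnSeries IntermediateField AlgebraicCurve ModularCurve


namespace Fermat.Agent.T8.helper93

open Fermat.Agent.P2.helper23 Fermat.Agent.P2.helper73 Fermat.Agent.T3.helper23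
open Fermat.Agent.T3.helper36 (RhoQ)

/-! ### The content of a power series over a local principal ideal domain -/

/-- a nonzero power series over a local principal ideal domain is a nonzero constant times a
power series with a unit coefficient -/
theorem exists_content_unit {R : Type*} [CommRing R] [IsDomain R] [IsPrincipalIdealRing R]
    [IsLocalRing R] {G : PowerSeries R} (hG : G ≠ 0) :
    ∃ (d : R) (G' : PowerSeries R) (n : ℕ), d ≠ 0 ∧ G = PowerSeries.C d * G' ∧
      IsUnit (PowerSeries.coeff n G') := by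
  classical
  set I : Ideal R := Ideal.span (Set.range fun n => PowerSeries.coeff n G) with hI
  obtain ⟨d, hd⟩ := (IsPrincipalIdealRing.principal I).principal
  have hd' : I = Ideal.span {d} := hd
  have hmem : ∀ n, ∃ c, PowerSeries.coeff n G = d * c := fun n => by
    have h1 : PowerSeries.coeff n G ∈ I := Ideal.subset_span ⟨n, rfl⟩
    rw [hd', Ideal.mem_span_singleton'] at h1
    obtain ⟨c, hc⟩ := h1
    exact ⟨c, by rw [← hc, mul_comm]⟩
  choose c hc using hmem
  have hd0 : d ≠ 0 := by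
    rintro rfl
    apply hG
    ext n
    rw [hc n, zero_mul, map_zero]
  have hG' : G = PowerSeries.C d * PowerSeries.mk c := by
    ext n
    rw [PowerSeries.coeff_C_mul, PowerSeries.coeff_mk, hc n]
  by_cases hex : ∃ n, IsUnit (c n)
  · obtain ⟨n, hn⟩ := hex
    exact ⟨d, PowerSeries.mk c, n, hd0, hG', by rwa [PowerSeries.coeff_mk]⟩
  · exfalso
    have hnu : ∀ n, c n ∈ IsLocalRing.maximalIdeal R := fun n => by
      rw [IsLocalRing.mem_maximalIdeal, mem_nonunits_iff]
      exact fun h => hex ⟨n, h⟩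
    have hle : I ≤ Ideal.span {d} * IsLocalRing.maximalIdeal R := by
      rw [hI, Ideal.span_le]
      rintro _ ⟨n, rfl⟩
      show PowerSeries.coeff n G ∈ _
      rw [hc n]
      exact Ideal.mul_mem_mul (Ideal.mem_span_singleton_self d) (hnu n)
    have hdI : d ∈ I := by
      rw [hd']
      exact Ideal.mem_span_singleton_self d
    obtain ⟨s, hs, hds⟩ := Ideal.mem_span_singleton_mul.mp (hle hdI)
    have h1 : s = 1 := by
      have h2 : d * s = d * 1 := by rw [hds, mul_one]
      exact mul_left_cancel₀ hd0 h2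
    rw [h1] at hs
    exact (IsLocalRing.maximalIdeal.isMaximal R).ne_top ((Ideal.eq_top_iff_one _).mpr hs)

/-! ### Primitive ratios -/

section Ratio

variable (A : ValuationSubring Kb) (K₀ : IntermediateField ℚ Kb)

theorem phi_C8 (d : capSubring A K₀) :
    phi (capSubring A K₀) (PowerSeries.C d) = algebraMap Kb (LaurentSeries Kb) (d : Kb) := by
  rw [algebraMap_laurentSeries_eq_single, phi_apply, PowerSeries.map_C,
    HahnSeries.ofPowerSeries_C]
  rfl

/-- a power series over `A ∩ K₀` with a unit coefficient has a nonzero reduction -/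
theorem rhoQ_phi_of_unit (G : PowerSeries (capSubring A K₀)) :
    RhoQ A (phi (capSubring A K₀) G)
      (coeffMap (IsLocalRing.residue A) (Fermat.Agent.T2.helper45.phiA A K₀ G)) := by
  have := Fermat.Agent.T3.helper36.rhoQ_incl (A := A) (Fermat.Agent.T2.helper45.phiA A K₀ G)
  rwa [show Fermat.Agent.P2.helper29.incl A (Fermat.Agent.T2.helper45.phiA A K₀ G)
    = phi (capSubring A K₀) G from Fermat.Agent.T2.helper45.incl_phiA A K₀ G] at this

theorem red_phiA_ne_zero_of_unit {G : PowerSeries (capSubring A K₀)} {n : ℕ}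
    (hn : IsUnit (PowerSeries.coeff n G)) :
    coeffMap (IsLocalRing.residue A) (Fermat.Agent.T2.helper45.phiA A K₀ G) ≠ 0 := by
  intro h
  exact (Fermat.Agent.T2.helper45.red_phiA_eq_zero_iff A K₀ G).mp h n hn

/-- **primitive ratio**: a Gauss unit which is a ratio over `R₀ = A ∩ K₀` (a number field `K₀`)
is a ratio of two power series over `R₀` with a unit coefficient. -/
theorem exists_primitive_ratio [FiniteDimensional ℚ K₀] {Hs : LaurentSeries Kb}
    (hR : IsRatio (capSubring A K₀) Hs) {r : LaurentSeries (IsLocalRing.ResidueField A)} (hr : r ≠ 0)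
    (hρ : RhoQ A Hs r) :
    ∃ (a b : PowerSeries (capSubring A K₀)) (n₁ n₂ : ℕ),
      IsUnit (PowerSeries.coeff n₁ a) ∧ IsUnit (PowerSeries.coeff n₂ b) ∧
        Hs * phi (capSubring A K₀) b = phi (capSubring A K₀) a := by
  haveI : IsPrincipalIdealRing (capSubring A K₀) :=
    Fermat.Agent.P2.helper89.isPrincipalIdealRing_capSubring A K₀
  haveI : IsLocalRing (capSubring A K₀) := Fermat.Agent.T2.helper45.isLocalRing_capSubring A K₀
  obtain ⟨G₁, G₂, hG₂, h⟩ := hR
  have hHs : Hs ≠ 0 := hρ.ne_zero hr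
  have hG₁ : G₁ ≠ 0 := by
    rintro rfl
    rw [map_zero] at h
    exact mul_ne_zero hHs (phi_ne_zero _ hG₂) h
  obtain ⟨d₁, a', n₁, hd₁, rfl, hn₁⟩ := exists_content_unit hG₁
  obtain ⟨d₂, b', n₂, hd₂, rfl, hn₂⟩ := exists_content_unit hG₂
  rw [map_mul, map_mul, phi_C8, phi_C8] at h
  have hd₁K : ((d₁ : capSubring A K₀) : Kb) ≠ 0 := fun h0 => hd₁ (Subtype.ext h0)
  have hd₂K : ((d₂ : capSubring A K₀) : Kb) ≠ 0 := fun h0 => hd₂ (Subtype.ext h0)
  have hb' : phi (capSubring A K₀) b' ≠ 0 := by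
    apply phi_ne_zero
    rintro rfl
    simp at hn₂
  have ha'r := red_phiA_ne_zero_of_unit A K₀ hn₁
  have hb'r := red_phiA_ne_zero_of_unit A K₀ hn₂
  -- the quotient `φ a' / φ b'` is a Gauss unit
  have hq : RhoQ A (phi (capSubring A K₀) a' / phi (capSubring A K₀) b')
      (coeffMap (IsLocalRing.residue A) (Fermat.Agent.T2.helper45.phiA A K₀ a') /
        coeffMap (IsLocalRing.residue A) (Fermat.Agent.T2.helper45.phiA A K₀ b')) :=
    (rhoQ_phi_of_unit A K₀ a').div (rhoQ_phi_of_unit A K₀ b') hb'r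
  set c : Kb := (d₂ : Kb) / (d₁ : Kb) with hc
  have hcq : algebraMap Kb (LaurentSeries Kb) c * Hs
      = phi (capSubring A K₀) a' / phi (capSubring A K₀) b' := by
    rw [eq_div_iff hb', hc, map_div₀]
    have hd₁L : algebraMap Kb (LaurentSeries Kb) ((d₁ : capSubring A K₀) : Kb) ≠ 0 :=
      (map_ne_zero _).mpr hd₁K
    field_simp
    linear_combination h
  have hval : A.valuation c = 1 :=
    Fermat.Agent.T3.helper36.valuation_eq_one_of_rhoQ hr (div_ne_zero ha'r hb'r) hρ
      (by rw [hcq]; exact hq)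
  -- `c⁻¹` is a unit of `A ∩ K₀`
  have hc0 : c ≠ 0 := div_ne_zero hd₂K hd₁K
  have hciA : c⁻¹ ∈ A := (A.valuation_le_one_iff c⁻¹).1 (by rw [map_inv₀, hval, inv_one])
  have hcA : c ∈ A := (A.valuation_le_one_iff c).1 hval.le
  have hcK : c ∈ K₀ := div_mem (mem_capSubring.1 d₂.2).2 (mem_capSubring.1 d₁.2).2
  set cu : capSubring A K₀ := ⟨c⁻¹, mem_capSubring.2 ⟨hciA, inv_mem hcK⟩⟩ with hcu
  have hcuU : IsUnit cu := by
    refine IsUnit.of_mul_eq_one (⟨c, mem_capSubring.2 ⟨hcA, hcK⟩⟩ : capSubring A K₀) ?_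
    apply Subtype.ext
    show c⁻¹ * c = 1
    exact inv_mul_cancel₀ hc0
  refine ⟨PowerSeries.C cu * a', b', n₁, n₂, ?_, hn₂, ?_⟩
  · rw [PowerSeries.coeff_C_mul]
    exact hcuU.mul hn₁
  · rw [map_mul, phi_C8]
    have h1 : Hs * phi (capSubring A K₀) b'
        = algebraMap Kb (LaurentSeries Kb) c⁻¹ *
          (algebraMap Kb (LaurentSeries Kb) c * Hs * phi (capSubring A K₀) b') := by
      rw [← mul_assoc, ← mul_assoc, ← map_mul, inv_mul_cancel₀ hc0, map_one, one_mul]
    rw [h1, hcq, div_mul_cancel₀ _ hb']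

end Ratio

/-! ### The core -/

/-- **[DISC-ORD], core**: for a subfield `F ⊆ ℚ̄((t))`, a function `xF` with value `0` at the
horizontal primes, and `H` regular where `xF` is finite with `m ∣ div H`: the reduction `r ≠ 0`
of `H` (quotient form) has order divisible by `m`. -/
theorem dvd_order_core (F : IntermediateField Kb (LaurentSeries Kb))
    (A : ValuationSubring Kb)
    (hD5 : ∀ V : ValuationSubring F, (∀ a : Kb, algebraMap Kb F a ∈ V) → V ≠ ⊤ →
      ∃ 𝔓 : Place Kb F, 𝔓.toValuationSubring = V)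
    (hD4 : ∀ f : F, ∃ S : Finset Kb, ∀ K₀ : IntermediateField ℚ Kb, (S : Set Kb) ⊆ K₀ →
      IsRatio (capSubring A K₀) (f : LaurentSeries Kb))
    (xF : F)
    (hxv : ∃ Sx : Finset Kb, ∀ K₀ : IntermediateField ℚ Kb, (Sx : Set Kb) ⊆ K₀ →
      ∀ P : PowerSeries (capSubring A K₀), Prime P → ¬ P ∣ PowerSeries.X →
        HasVal P (xF : LaurentSeries Kb) 0)
    (m : ℕ) (hm0 : m ≠ 0) (H : F) (hH : H ≠ 0)
    (hfin : {𝔓 : Place Kb F | 𝔓.ord H ≠ 0}.Finite)
    (hord : (m : ℤ) ∣ (H : LaurentSeries Kb).order)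
    (hdiv : ∀ 𝔓 : Place Kb F, 0 ≤ 𝔓.ord xF → (m : ℤ) ∣ 𝔓.ord H)
    (hreg : ∀ 𝔓 : Place Kb F, 0 ≤ 𝔓.ord xF → 0 ≤ 𝔓.ord H)
    {r : LaurentSeries (IsLocalRing.ResidueField A)} (hr : r ≠ 0)
    (hρ : RhoQ A (H : LaurentSeries Kb) r) :
    (m : ℤ) ∣ r.order := by
  classical
  have hH' : (H : LaurentSeries Kb) ≠ 0 := fun h => hH (Subtype.ext h)
  -- the number field `K₀`
  choose t ht using fun 𝔓 : Place Kb F => exists_uniformizer 𝔓
  choose St hSt using fun 𝔓 : Place Kb F => hD4 (t 𝔓)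
  obtain ⟨S₁, hS₁⟩ := hD4 H
  obtain ⟨Sx, hSx⟩ := hxv
  set S : Finset Kb := Sx ∪ (S₁ ∪ hfin.toFinset.biUnion St) with hS
  set K₀ : IntermediateField ℚ Kb := IntermediateField.adjoin ℚ (S : Set Kb) with hK₀
  have hSK : (S : Set Kb) ⊆ K₀ := IntermediateField.subset_adjoin ℚ _
  haveI hfd : FiniteDimensional ℚ K₀ := finiteDimensional_adjoin_finset S
  haveI : IsPrincipalIdealRing (capSubring A K₀) :=
    Fermat.Agent.P2.helper89.isPrincipalIdealRing_capSubring A K₀
  have hSxK : (Sx : Set Kb) ⊆ K₀ := fun x hx => hSK (by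
    rw [hS]
    simp only [Finset.coe_union, Set.mem_union, Finset.mem_coe]
    exact Or.inl hx)
  have hS₁K : (S₁ : Set Kb) ⊆ K₀ := fun x hx => hSK (by
    rw [hS]
    simp only [Finset.coe_union, Set.mem_union, Finset.mem_coe]
    exact Or.inr (Or.inl hx))
  have hStK : ∀ 𝔓 : Place Kb F, 𝔓.ord H ≠ 0 → ((St 𝔓 : Finset Kb) : Set Kb) ⊆ K₀ := by
    intro 𝔓 h𝔓 x hx
    refine hSK ?_
    rw [hS]
    simp only [Finset.coe_union, Set.mem_union, Finset.mem_coe, Finset.mem_biUnion,
      Set.Finite.mem_toFinset, Set.mem_ofPred_eq]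
    exact Or.inr (Or.inr ⟨𝔓, h𝔓, hx⟩)
  -- primitive numerator and denominator
  obtain ⟨a, b, n₁, n₂, hn₁, hn₂, hab⟩ := exists_primitive_ratio A K₀ (hS₁ K₀ hS₁K) hr hρ
  have ha : a ≠ 0 := by
    rintro rfl
    simp at hn₁
  have hb : b ≠ 0 := by
    rintro rfl
    simp at hn₂
  have hXk : ∀ k : ℕ, (PowerSeries.X : PowerSeries (capSubring A K₀)) ^ k ≠ 0 :=
    fun k => pow_ne_zero _ PowerSeries.X_ne_zero
  have hconst : ∀ P : PowerSeries (capSubring A K₀), Prime P →
      (∃ r : capSubring A K₀, r ≠ 0 ∧ P ∣ PowerSeries.C r) →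
      ¬ P ∣ PowerSeries.X → ¬ P ∣ a ∧ ¬ P ∣ b := by
    rintro P hP ⟨r, hr, hPr⟩ hX
    exact ⟨Fermat.Agent.P2.helper13.not_dvd_of_dvd_C hP hr hPr hn₁,
      Fermat.Agent.P2.helper13.not_dvd_of_dvd_C hP hr hPr hn₂⟩
  have hunif : ∀ 𝔓 : Place Kb F, 𝔓.ord H ≠ 0 →
      ∃ t : F, 𝔓.ord t = 1 ∧ IsRatio (capSubring A K₀) (t : LaurentSeries Kb) :=
    fun 𝔓 h𝔓 => ⟨t 𝔓, ht 𝔓, hSt 𝔓 K₀ (hStK 𝔓 h𝔓)⟩
  have hmult := mult_claim_gen F hD5 xF (hSx K₀ hSxK) m hm0 H hH hord hdiv hreg hunif a b ha hb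
    hab hconst
  obtain ⟨u, Z0, hU3⟩ := Fermat.Agent.P2.helper9.exists_unit_mul_pow_mul m hm0 _ _
    (mul_ne_zero ha (hXk _)) hb hmult
  have hkey := root_eq_of_unit_eq (H : LaurentSeries Kb) a b hb hab m _ u Z0 hU3
  -- reduce
  obtain ⟨Y₁, Y₂, h2, h3, h4⟩ := hρ
  have hne₁ : coeffMap (IsLocalRing.residue A) Y₁ ≠ 0 := by
    have h5 : coeffMap (IsLocalRing.residue A) Y₁ = r * coeffMap (IsLocalRing.residue A) Y₂ := h4
    rw [h5]
    exact mul_ne_zero hr h2
  have hfin' := Fermat.Agent.T8.helper14.dvd_order_sub_of_factor A K₀ hm0 _ u Z0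
    (H : LaurentSeries Kb) Y₁ Y₂ h3 hne₁ h2 hkey
  have h5 : coeffMap (IsLocalRing.residue A) Y₁ = r * coeffMap (IsLocalRing.residue A) Y₂ := h4
  rw [h5, HahnSeries.order_mul hr h2, add_sub_cancel_right] at hfin'
  exact hfin'

/-! ### The expansion at a cusp of any width -/

section Emb

variable {M : ℕ} [NeZero M] (E : FF M →ₐ[Kb] LaurentSeries Kb)

/-- **(L1) [DISC-ORD]**: for an expansion map `E` of `F_M` (cusp of any width) with values in
the ratios over `A`, a function `x` whose expansion is `A`-integral with unit leading coefficient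
(`x = j`), and `H ≠ 0` with `m ∣ div H`, regular where `x` is finite: if `E H` is Gauss-integral
with reduction `r ≠ 0` then `m ∣ ord r`. -/
theorem disc_ord_gen (A : ValuationSubring Kb)
    (hratio : ∀ y : FF M, IsRatioEv A (E y))
    (x : FF M) (Yx : LaurentSeries A) (hYx : coeffMap A.subtype Yx = E x)
    (hu : IsUnit (Yx.coeff Yx.order))
    (m : ℕ) (hm0 : m ≠ 0) (H : FF M) (hH : H ≠ 0)
    (hdiv : ∀ P : Place Kb (FF M), (m : ℤ) ∣ P.ord H)
    (hreg : ∀ P : Place Kb (FF M), 0 ≤ P.ord x → 0 ≤ P.ord H)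
    {r : LaurentSeries (IsLocalRing.ResidueField A)} (hr : r ≠ 0) (hρ : RhoQ A (E H) r) :
    (m : ℤ) ∣ r.order := by
  set e := toRange E with he
  have hD5 : ∀ V : ValuationSubring E.fieldRange,
      (∀ a : Kb, algebraMap Kb E.fieldRange a ∈ V) → V ≠ ⊤ →
      ∃ 𝔓 : Place Kb E.fieldRange, 𝔓.toValuationSubring = V := by
    intro V hK hV
    have hK' : ∀ a : Kb, algebraMap Kb (FF M) a ∈ V.comap (e : FF M →+* E.fieldRange) := by
      intro a
      rw [ValuationSubring.mem_comap]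
      have h : (e : FF M →+* E.fieldRange) (algebraMap Kb (FF M) a)
          = algebraMap Kb E.fieldRange a := e.commutes a
      rw [h]
      exact hK a
    have hV' : V.comap (e : FF M →+* E.fieldRange) ≠ ⊤ := by
      intro h
      apply hV
      refine SetLike.ext fun y => ⟨fun _ => ValuationSubring.mem_top y, fun _ => ?_⟩
      have h1 : e.symm y ∈ V.comap (e : FF M →+* E.fieldRange) := by
        rw [h]
        exact ValuationSubring.mem_top _
      rw [ValuationSubring.mem_comap] at h1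
      have h2 : (e : FF M →+* E.fieldRange) (e.symm y) = y := e.apply_symm_apply _
      rwa [h2] at h1
    obtain ⟨P, hP⟩ := exists_place_of_valuationSubring_FF M _ hK' hV'
    refine ⟨placeComap e.symm P, ?_⟩
    apply SetLike.ext
    intro y
    rw [mem_placeComap, hP, ValuationSubring.mem_comap]
    have h2 : (e : FF M →+* E.fieldRange) (e.symm y) = y := e.apply_symm_apply _
    rw [h2]
  have hD4 : ∀ f : E.fieldRange, ∃ S : Finset Kb, ∀ K₀ : IntermediateField ℚ Kb,
      (S : Set Kb) ⊆ K₀ → IsRatio (capSubring A K₀) (f : LaurentSeries Kb) := by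
    intro f
    have h := hratio (e.symm f)
    have h2 : E (e.symm f) = (f : LaurentSeries Kb) := by
      rw [← coe_toRange]
      exact congrArg Subtype.val (e.apply_symm_apply f)
    rw [h2] at h
    exact h
  have hfin : {𝔓 : Place Kb E.fieldRange | 𝔓.ord (e H) ≠ 0}.Finite := by
    have h1 : {𝔓 : Place Kb E.fieldRange | 𝔓.ord (e H) ≠ 0}
        = (placeComap e) ⁻¹' {P : Place Kb (FF M) | P.ord H ≠ 0} := by
      ext 𝔓
      simp only [Set.mem_ofPred_eq, Set.mem_preimage, ord_placeComap]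
    rw [h1]
    exact Set.Finite.preimage (placeComap_injective e).injOn (finite_ord_ne_zero M H hH)
  have heH : e H ≠ 0 := (EmbeddingLike.map_ne_zero_iff).mpr hH
  have hord : (m : ℤ) ∣ ((e H : E.fieldRange) : LaurentSeries Kb).order := by
    refine dvd_order_of_dvd_ord E.fieldRange hD5 m (e H) heH fun 𝔓 => ?_
    rw [← ord_placeComap]
    exact hdiv _
  have hxv : ∃ Sx : Finset Kb, ∀ K₀ : IntermediateField ℚ Kb, (Sx : Set Kb) ⊆ K₀ →
      ∀ P : PowerSeries (capSubring A K₀), Prime P → ¬ P ∣ PowerSeries.X →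
        HasVal P ((e x : E.fieldRange) : LaurentSeries Kb) 0 := by
    obtain ⟨Sx, hSx⟩ := hratio x
    refine ⟨Sx, fun K₀ hK₀ P hP hX => ?_⟩
    have h1 := hSx K₀ hK₀
    rw [← hYx] at h1
    have h2 : ((e x : E.fieldRange) : LaurentSeries Kb) = coeffMap A.subtype Yx := by
      rw [coe_toRange, hYx]
    rw [h2]
    exact hasVal_zero_of_unit_lead A K₀ Yx hu h1 P hP hX
  have hdiv' : ∀ 𝔓 : Place Kb E.fieldRange, 0 ≤ 𝔓.ord (e x) → (m : ℤ) ∣ 𝔓.ord (e H) := by
    intro 𝔓 _
    rw [← ord_placeComap]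
    exact hdiv _
  have hreg' : ∀ 𝔓 : Place Kb E.fieldRange, 0 ≤ 𝔓.ord (e x) → 0 ≤ 𝔓.ord (e H) := by
    intro 𝔓 h
    rw [← ord_placeComap] at h ⊢
    exact hreg _ h
  exact dvd_order_core E.fieldRange A hD5 hD4 (e x) hxv m hm0 (e H) heH hfin hord hdiv' hreg'
    hr (by rw [coe_toRange]; exact hρ)

/-- **(L1) [DISC-ORD]**, with `x = j` (interface of route Q of [CUSP-GAP]). -/
theorem disc_ord (A : ValuationSubring Kb)
    (hratio : ∀ y : FF M, IsRatioEv A (E y))
    (Yx : LaurentSeries A)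
    (hYx : coeffMap A.subtype Yx = E (Fermat.Agent.P2.helper29.jElt M))
    (hu : IsUnit (Yx.coeff Yx.order))
    (m : ℕ) (hm0 : m ≠ 0) (H : FF M) (hH : H ≠ 0)
    (hdiv : ∀ P : Place Kb (FF M), (m : ℤ) ∣ P.ord H)
    (hreg : ∀ P : Place Kb (FF M), 0 ≤ P.ord (Fermat.Agent.P2.helper29.jElt M) → 0 ≤ P.ord H)
    {r : LaurentSeries (IsLocalRing.ResidueField A)} (hr : r ≠ 0) (hρ : RhoQ A (E H) r) :
    (m : ℤ) ∣ r.order :=
  disc_ord_gen E A hratio (Fermat.Agent.P2.helper29.jElt M) Yx hYx hu m hm0 H hH hdiv hreg hr hρ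

end Emb

end Fermat.Agent.T8.helper93

end
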