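import Mathlib
import Fermat.Agent.T8.helper93_HeckeInst
import Fermat.Agent.T8.helper87_DlogAbs3
import Fermat.Agent.T8.helper47_LiftQ
import Fermat.Agent.T2.helper49_Frob

/-!
# T8 [F3-EXIT] leaf 5 [HECKE], the EXIT shape (helper93)

For a function `u` of level `N p` satisfying the eigen-relation of `T_ℓ` with eigenvalue `a`
(`helper54.IsEigenFn`; e.g. a Kummer function of a Hecke eigenclass `T_ℓ x = a x`, `ℓ ∤ N p`
prime) and a first-component reduction `f` of `u` (`helper54.IsRed1`), the logarithmic derivative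
`w = θ f / f` of the reduction is an eigenvector of the formal Hecke operator `U_ℓ + ℓ V_ℓ` of
weight `2` with eigenvalue `a`:

* `hecke_shape_of_eigenFn`   : reduced norm formula + reduced eigen-relation (function level);
* `hecke_dlog_of_eigenFn`    : `U_ℓ w + ℓ V_ℓ w = a w` in `k((q))`;
* `isFormalEigen_of_eigenFn` : `helper47.IsFormalEigen ℓ a (helper87.wSeq f)`;
* `hecke_dlog_of_eigen`, `isFormalEigen_of_eigen` : the same for a Kummer function of an
  eigenclass.

Glue of the reduced norm formula (`helper93_HeckeInst`) and the formal core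
`helper87.hecke_dlog_zpow`.
-/

set_option autoImplicit false
set_option synthInstance.maxHeartbeats 400000
set_option maxHeartbeats 1000000
set_option linter.unusedSectionVars false
set_option linter.unusedVariables false
set_option linter.style.longLine false
set_option linter.style.haveILetI false

noncomputable section

open HahnSeries IntermediateField AlgebraicCurve ModularCurve
open Fermat.Agent.S18.helper19 Fermat.Agent.P2.helper29 Fermat.Agent.T2.helper36

namespace Fermat.Agent.T8.helper93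

open Fermat.Agent.T3.helper36 (RhoQ GaussIs)
open Fermat.Agent.P3.helper94 (IsKummerRep normAlong)
open Fermat.Agent.P2.helper93 (twistL twistL_coeff rootUnit)

variable {N p l : ℕ} [NeZero N] [NeZero p] [NeZero l]

/-- a prime `l ≠ p` is nonzero in the residue field of a valuation ring over `p` -/
theorem natCast_kA_ne_zero (A : ValuationSubring Kb) (hp : p.Prime) (hA : A.LiesOverPrime p)
    (hl : l.Prime) (hlp : l ≠ p) : ((l : ℕ) : kA A) ≠ 0 := by
  haveI : Fact p.Prime := ⟨hp⟩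
  have hu : IsUnit ((l : ℕ) : ↥A) :=
    Fermat.Agent.P2.helper81.isUnit_natCast_of_not_dvd A hA l
      (fun h => hlp ((Nat.prime_dvd_prime_iff_eq hp hl).mp h).symm)
  have := hu.map (IsLocalRing.residue ↥A)
  rw [map_natCast] at this
  exact this.ne_zero

/-- **[HECKE], the instance, FUNCTION level**: the reduced norm formula and the reduced
eigen-relation for a function `u` of level `N p` satisfying the eigen-relation
`Norm_α (β u) = u ^ a (c₀ g₀ ^ p)` (= `helper54.IsEigenFn N p l a u`, unfolded). -/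
theorem hecke_shape_of_eigenFn (hp : p.Prime) (hpN : ¬ p ∣ N) (A : ValuationSubring Kb)
    (hA : A.LiesOverPrime p) (hl : l.Prime) (hlN : ¬ l ∣ N * p) {ζ : Kb}
    (hζ : IsPrimitiveRoot ζ l) {a : ℤ} {u : FF (N * p)} {f : FFb A N}
    (he : ∃ (c₀ : Kb) (g₀ : FF (N * p)), c₀ ≠ 0 ∧ g₀ ≠ 0 ∧
      Fermat.Agent.T8.helper54.heckeNormFn (N * p) l u
        = u ^ a * (algebraMap Kb (FF (N * p)) c₀ * g₀ ^ p))
    (hf : Fermat.Agent.T8.helper54.IsRed1 A N p u f) :
    ∃ (Nm g : LaurentSeries (kA A)) (c : kA A), c ≠ 0 ∧ g ≠ 0 ∧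
      ModularCurve.qExpand (kA A) l Nm
        = ModularCurve.qExpand (kA A) (l * l) (f : LaurentSeries (kA A)) *
          ∏ k ∈ Finset.range l, twistL (zetaBar A hζ.pow_eq_one ^ k) (f : LaurentSeries (kA A)) ∧
      Nm = algebraMap (kA A) (LaurentSeries (kA A)) c * g ^ p * (f : LaurentSeries (kA A)) ^ a := by
  obtain ⟨hf0, κ, hκ, R1⟩ := hf
  have hfL : (f : LaurentSeries (kA A)) ≠ 0 := fun h => hf0 (Subtype.ext h)
  obtain ⟨c₀, g₀, hc₀, hg₀, e⟩ := he
  -- the eigen-relation of `q`-expansions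
  set U : LaurentSeries Kb := (u : LaurentSeries Kb) with hU
  set G₀ : LaurentSeries Kb := (g₀ : LaurentSeries Kb) with hG₀
  set NmK : LaurentSeries Kb :=
    ((Fermat.Agent.T8.helper54.heckeNormFn (N * p) l u : FF (N * p)) : LaurentSeries Kb) with hNmK
  have eL : NmK = U ^ a * (algebraMap Kb (LaurentSeries Kb) c₀ * G₀ ^ p) := by
    have h1 := congrArg ((FF (N * p)).val) e
    rw [map_mul, map_mul, map_zpow₀, map_pow, AlgHom.commutes] at h1
    exact h1
  have hG₀ne : G₀ ≠ 0 := fun h => hg₀ (Subtype.ext h)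
  -- the norm formula
  have key : ModularCurve.qExpand Kb l NmK = hshape l ζ U :=
    Fermat.Agent.P2.helper93.es_norm (N * p) l hl hlN ζ hζ u
  -- scaling of `g₀`
  obtain ⟨γ, hγ, gb, hgb, R2⟩ := Fermat.Agent.T3.helper36.gaussIs_of_scale
    (Fermat.Agent.T2.helper58.scaleStatement_bad N p hp hpN A hA) g₀.2 hG₀ne
  -- the two reductions
  have R5 := rhoQ_hshape l (rootUnit A (NeZero.ne l) hζ.pow_eq_one) R1
  have R4 := ((R1.zpow hfL a).mul (R2.pow p)).qExpand l
  set X : LaurentSeries Kb := ModularCurve.qExpand Kb l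
    ((algebraMap Kb (LaurentSeries Kb) κ⁻¹ * U) ^ a *
      (algebraMap Kb (LaurentSeries Kb) γ⁻¹ * G₀) ^ p) with hX
  set e₁ : Kb := κ⁻¹ ^ a * γ⁻¹ ^ p * c₀⁻¹ with he₁
  have he₁0 : e₁ ≠ 0 :=
    mul_ne_zero (mul_ne_zero (zpow_ne_zero _ (inv_ne_zero hκ)) (pow_ne_zero _ (inv_ne_zero hγ)))
      (inv_ne_zero hc₀)
  have hXe : X = algebraMap Kb (LaurentSeries Kb) e₁ * ModularCurve.qExpand Kb l NmK := by
    rw [hX, ← qExpand_algebraMap8 l e₁, ← map_mul]
    congr 1
    rw [eL, he₁, mul_zpow, mul_pow, map_mul, map_mul, map_zpow₀, map_pow]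
    have h34 : algebraMap Kb (LaurentSeries Kb) c₀⁻¹ * algebraMap Kb (LaurentSeries Kb) c₀ = 1 := by
      rw [← map_mul, inv_mul_cancel₀ hc₀, map_one]
    linear_combination (-(algebraMap Kb (LaurentSeries Kb) κ⁻¹ ^ a * U ^ a *
      algebraMap Kb (LaurentSeries Kb) γ⁻¹ ^ p * G₀ ^ p)) * h34
  set d : Kb := κ⁻¹ ^ (l + 1) * e₁⁻¹ with hd
  have hdX : hshape l ζ (algebraMap Kb (LaurentSeries Kb) κ⁻¹ * U)
      = algebraMap Kb (LaurentSeries Kb) d * X := by
    rw [hshape_mul l (hζ.ne_zero (NeZero.ne l)), hshape_algebraMap, ← key, hXe, hd, map_mul,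
      mul_assoc, ← mul_assoc (algebraMap Kb (LaurentSeries Kb) e₁⁻¹), ← map_mul,
      inv_mul_cancel₀ he₁0, map_one, one_mul]
  have R5' : RhoQ A (algebraMap Kb (LaurentSeries Kb) d * X)
      (hshape l (zetaBar A hζ.pow_eq_one) (f : LaurentSeries (kA A))) := by
    rw [← hdX]
    exact R5
  have hr : ModularCurve.qExpand (kA A) l ((f : LaurentSeries (kA A)) ^ a * gb ^ p) ≠ 0 := by
    intro h0
    exact (mul_ne_zero (zpow_ne_zero _ hfL) (pow_ne_zero _ hgb))
      (Fermat.Agent.P2.helper94.qExpand_injective l (h0.trans (map_zero _).symm))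
  have hs : hshape l (zetaBar A hζ.pow_eq_one) (f : LaurentSeries (kA A)) ≠ 0 :=
    hshape_ne_zero l (zetaBar_ne_zero A hζ.pow_eq_one) hfL
  have hval : A.valuation d = 1 :=
    Fermat.Agent.T3.helper36.valuation_eq_one_of_rhoQ hr hs R4 R5'
  have hdA : d ∈ A := (A.valuation_le_one_iff d).1 hval.le
  have R6 := Fermat.Agent.T3.helper36.rhoQ_algebraMap (A := A) (⟨d, hdA⟩ : ↥A)
  have hc : IsLocalRing.residue ↥A (⟨d, hdA⟩ : ↥A) ≠ 0 := by
    intro h1
    rw [IsLocalRing.residue_eq_zero_iff] at h1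
    have h3 : A.valuation (((⟨d, hdA⟩ : ↥A)) : Kb) < 1 :=
      (A.valuation_lt_one_iff (⟨d, hdA⟩ : ↥A)).1 h1
    exact (ne_of_lt h3) hval
  have huniq := R5'.unique (R6.mul R4)
  refine ⟨algebraMap (kA A) (LaurentSeries (kA A)) (IsLocalRing.residue ↥A (⟨d, hdA⟩ : ↥A)) *
    gb ^ p * (f : LaurentSeries (kA A)) ^ a, gb, _, hc, hgb, ?_, rfl⟩
  rw [map_mul, map_mul, qExpand_algebraMap8, mul_assoc, ← map_mul, mul_comm (gb ^ p), ← huniq]
  rfl


/-- **[HECKE], series form, function level**: `U_ℓ w + ℓ V_ℓ w = a w` for `w = θ f / f`. -/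
theorem hecke_dlog_of_eigenFn (hp : p.Prime) (hpN : ¬ p ∣ N) (A : ValuationSubring Kb)
    (hA : A.LiesOverPrime p) (hl : l.Prime) (hlN : ¬ l ∣ N * p)
    {a : ℤ} {u : FF (N * p)} {f : FFb A N}
    (he : ∃ (c₀ : Kb) (g₀ : FF (N * p)), c₀ ≠ 0 ∧ g₀ ≠ 0 ∧
      Fermat.Agent.T8.helper54.heckeNormFn (N * p) l u
        = u ^ a * (algebraMap Kb (FF (N * p)) c₀ * g₀ ^ p))
    (hf : Fermat.Agent.T8.helper54.IsRed1 A N p u f) :
    Fermat.Agent.T8.helper87.heckeUL l
          (Fermat.Agent.T8.helper87.dlogL (f : LaurentSeries (kA A)))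
        + (l : LaurentSeries (kA A)) *
          ModularCurve.qExpand (kA A) l
            (Fermat.Agent.T8.helper87.dlogL (f : LaurentSeries (kA A)))
      = (a : LaurentSeries (kA A)) *
          Fermat.Agent.T8.helper87.dlogL (f : LaurentSeries (kA A)) := by
  obtain ⟨ζ, hζ⟩ : ∃ ζ : Kb, IsPrimitiveRoot ζ l :=
    HasEnoughRootsOfUnity.exists_primitiveRoot Kb l
  have hlp : l ≠ p := fun h => hlN (h ▸ Dvd.intro_left N rfl)
  obtain ⟨Nm, g, c, hc, hg, h1, h2⟩ := hecke_shape_of_eigenFn hp hpN A hA hl hlN hζ he hf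
  have hfL : (f : LaurentSeries (kA A)) ≠ 0 := fun h => hf.1 (Subtype.ext h)
  haveI : CharP (kA A) p := Fermat.Agent.T2.helper49.fb_charP hp hA
  refine Fermat.Agent.T8.helper87.hecke_dlog_zpow p (natCast_kA_ne_zero A hp hA hl hlp)
    (isPrimitiveRoot_zetaBar A hp hA hl hlp hζ) hfL hc one_ne_zero a ?_ ?_ (g := g) (Nm := Nm)
  · rw [h1, map_one, one_mul]
  · have e : (HahnSeries.C c : LaurentSeries (kA A))
        = algebraMap (kA A) (LaurentSeries (kA A)) c := by
      rw [algebraMap_laurentSeries_eq_single]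
      rfl
    rw [h2, e]
    ring

/-- **[HECKE], exit shape, function level**: the coefficients of `θ f / f` are a formal Hecke
eigenvector. -/
theorem isFormalEigen_of_eigenFn (hp : p.Prime) (hpN : ¬ p ∣ N) (A : ValuationSubring Kb)
    (hA : A.LiesOverPrime p) (hl : l.Prime) (hlN : ¬ l ∣ N * p)
    {a : ℤ} {u : FF (N * p)} {f : FFb A N}
    (he : ∃ (c₀ : Kb) (g₀ : FF (N * p)), c₀ ≠ 0 ∧ g₀ ≠ 0 ∧
      Fermat.Agent.T8.helper54.heckeNormFn (N * p) l u
        = u ^ a * (algebraMap Kb (FF (N * p)) c₀ * g₀ ^ p))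
    (hf : Fermat.Agent.T8.helper54.IsRed1 A N p u f) :
    Fermat.Agent.T8.helper47.IsFormalEigen l a
      (Fermat.Agent.T8.helper87.wSeq (f : LaurentSeries (kA A))) :=
  fun m => Fermat.Agent.T8.helper87.isFormalEigen_wSeq a
    (hecke_dlog_of_eigenFn hp hpN A hA hl hlN he hf) m

/-- **[HECKE], series form**: `U_ℓ w + ℓ V_ℓ w = a w` for `w = θ f / f`. -/
theorem hecke_dlog_of_eigen (hp : p.Prime) (hpN : ¬ p ∣ N) (A : ValuationSubring Kb)
    (hA : A.LiesOverPrime p) (hl : l.Prime) (hlN : ¬ l ∣ N * p)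
    {x : JZero (N * p)} {a : ℤ}
    (hx : heckeOperatorAlong Kb (N * p) l x = a • x) {u : FF (N * p)} {f : FFb A N}
    (hu : IsKummerRep p x u) (hf : Fermat.Agent.T8.helper54.IsRed1 A N p u f) :
    Fermat.Agent.T8.helper87.heckeUL l
          (Fermat.Agent.T8.helper87.dlogL (f : LaurentSeries (kA A)))
        + (l : LaurentSeries (kA A)) *
          ModularCurve.qExpand (kA A) l
            (Fermat.Agent.T8.helper87.dlogL (f : LaurentSeries (kA A)))
      = (a : LaurentSeries (kA A)) *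
          Fermat.Agent.T8.helper87.dlogL (f : LaurentSeries (kA A)) :=
  hecke_dlog_of_eigenFn hp hpN A hA hl hlN (heckeMul_eq_of_eigen (l := l) hx hu) hf

/-- **[HECKE], exit shape**: the coefficients of `θ f / f` are a formal Hecke eigenvector. -/
theorem isFormalEigen_of_eigen (hp : p.Prime) (hpN : ¬ p ∣ N) (A : ValuationSubring Kb)
    (hA : A.LiesOverPrime p) (hl : l.Prime) (hlN : ¬ l ∣ N * p)
    {x : JZero (N * p)} {a : ℤ}
    (hx : heckeOperatorAlong Kb (N * p) l x = a • x) {u : FF (N * p)} {f : FFb A N}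
    (hu : IsKummerRep p x u) (hf : Fermat.Agent.T8.helper54.IsRed1 A N p u f) :
    Fermat.Agent.T8.helper47.IsFormalEigen l a
      (Fermat.Agent.T8.helper87.wSeq (f : LaurentSeries (kA A))) :=
  isFormalEigen_of_eigenFn hp hpN A hA hl hlN (heckeMul_eq_of_eigen (l := l) hx hu) hf

end Fermat.Agent.T8.helper93

end
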