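import Mathlib
import Fermat.Agent.T8.helper13_ExitMid
import Fermat.Agent.T8.helper93_HeckeEigen
import Fermat.Agent.T8.helper54_PhiWall

/-!
# T8 [F3-EXIT] leaf 5 [HECKE]: the consumer form `helper13.HeckeChainStatement` (helper93)

`heckeChain : helper13.HeckeChainStatement`, UNCONDITIONAL: for a `T_ℓ`-eigenclass `x` of level
`N p` (`ℓ ∤ N p`), a Kummer function `u` of `x` and a reduction `f` of `u` or of `W u`
(`helper13.IsRedComp`), the coefficients of `θ f / f` are a formal `T_ℓ`-eigenvector with the same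
eigenvalue.
-/

set_option autoImplicit false
set_option synthInstance.maxHeartbeats 400000
set_option maxHeartbeats 1000000
set_option linter.unusedSectionVars false
set_option linter.unusedVariables false
set_option linter.style.longLine false
set_option linter.style.haveILetI false

noncomputable section

open HahnSeries IntermediateField AlgebraicCurve ModularCurve
open Fermat.Agent.S18.helper19 Fermat.Agent.P2.helper29 Fermat.Agent.T2.helper36

namespace Fermat.Agent.T8.helper93

open Fermat.Agent.P3.helper94 (IsKummerRep)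

/-- **[HECKE], consumer form** (leaf 5 of [F3-EXIT]). -/
theorem heckeChain : Fermat.Agent.T8.helper13.HeckeChainStatement := by
  intro N p _ _ hp hpN A hA ℓ hℓN a x u f hu hx hcomp
  haveI : NeZero ((ℓ : Nat.Primes) : ℕ) := ⟨ℓ.2.ne_zero⟩
  have hx' : heckeOperatorAlong Kb (N * p) ((ℓ : Nat.Primes) : ℕ) x = a • x := hx
  have hE : Fermat.Agent.T8.helper54.IsEigenFn N p ((ℓ : Nat.Primes) : ℕ) a u :=
    Fermat.Agent.T8.helper54.isEigenFn_of_kummer hu hx'
  have hlp : ¬ p ∣ ((ℓ : Nat.Primes) : ℕ) := by
    intro h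
    have : p = ((ℓ : Nat.Primes) : ℕ) := (Nat.prime_dvd_prime_iff_eq hp ℓ.2).mp h
    exact hℓN (this ▸ Dvd.intro_left N rfl)
  rcases hcomp with hf | hf
  · exact isFormalEigen_of_eigenFn hp hpN A hA ℓ.2 hℓN hE hf
  · exact isFormalEigen_of_eigenFn hp hpN A hA ℓ.2 hℓN (hE.al (hq := hp) (hqN := hpN) hlp) hf

end Fermat.Agent.T8.helper93

end
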