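import Fermat.Agent.T8.helper13_ExitMid
import Fermat.Agent.T8.helper7_CuspGapDefs

/-!
# T8 = row 38 via S44, box (F) [D-HECKE]: [F3-EXIT] from its leaves, class form of [CUSP-GAP]

`helper13.f3Exit_of_leaves` consumes the FUNCTION form `helper81.CuspGapChainStatement` of the
leaf [CUSP-GAP] (every function of level `4 M' p` with divisor divisible by `p`).  Route (R1)
(Atkin-Lehner at the squarefree level `M' p` + transfer along `β₄`) proves the CLASS form
`helper7.CuspGapStatement π` (Kummer functions of the classes of `π V0`, both components).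
This file is the same assembly against the class form:

* `cuspGapComp_of_cuspGap` : the class form gives `helper81.DvdCusp` for a reduction of `u`
                             or of `W u` (`helper13.IsRedComp`);
* `f3Exit_of_leavesCG`     : `helper44.F3ExitStatement π` from the five leaves;
* `dHecke2_of_leavesCG`    : box (F) against `helper29.wallCN`.
-/

set_option autoImplicit false
set_option synthInstance.maxHeartbeats 400000
set_option maxHeartbeats 1600000
set_option linter.unusedSectionVars false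
set_option linter.unusedVariables false
set_option linter.style.longLine false

noncomputable section

namespace Fermat.Agent.T8.helper96

open HahnSeries IntermediateField AlgebraicCurve ModularCurve
open Fermat.Agent.S18.helper19 Fermat.Agent.P2.helper29 Fermat.Agent.P2.helper93
open Fermat.Agent.T2 Fermat.Agent.T2.helper36
open Fermat.Agent.T8.helper54 (IsRed1 DvdOff)
open Fermat.Agent.P3.helper94 (IsKummerRep)
open Fermat.Agent.T8.helper81 (DvdFin)
open Fermat.Agent.T8.helper74 (annRb mem_annRb)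
open Fermat.Agent.T8.helper87 (dlogL)
open Fermat.Agent.T8.helper44 (IsPthPow F3ExitStatement)
open Fermat.Agent.T8.helper13 (IsRedComp OmegaChainStatement HeckeChainStatement
  DescentChainStatement CuspAnnChainStatement)
open Fermat.Agent.T7 Fermat.Agent.T8.helper72 Fermat.Agent.T8.helper29

/-- the class form of [CUSP-GAP] gives the cuspidal divisibility for BOTH first-component
reductions (of `u` and of `W u`), at the cuspidal places `≠ ∞`. -/
theorem dvdCusp81_of_cuspGap {π : PullData} (hCG : Fermat.Agent.T8.helper7.CuspGapStatement π)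
    (P : FreyPackage) (W : WeierstrassCurve ℤ) (M' : ℕ) [NeZero M'] (hc : ChainCtx P M' W)
    (hpN : ¬ P.p ∣ 4 * M') (A : ValuationSubring (AlgebraicClosure ℚ))
    (hA : A.LiesOverPrime P.p)
    (V0 : AddSubgroup (JZero (M' * P.p))) (hV0 : FreyReal P W (M' * P.p) V0)
    {x : JZero (4 * M' * P.p)} (hx : x ∈ V0.map (π M' P.p))
    {u : FF (4 * M' * P.p)} {f₁ f₂ : FFb A (4 * M')} (hk : IsKummerRep P.p x u)
    (h1 : IsRed1 A (4 * M') P.p u f₁)
    (h2 : IsRed1 A (4 * M') P.p (atkinLehner (4 * M') P.p P.pp hpN u) f₂) :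
    Fermat.Agent.T8.helper81.DvdCusp A (4 * M') P.p f₁ ∧
      Fermat.Agent.T8.helper81.DvdCusp A (4 * M') P.p f₂ := by
  obtain ⟨c1, c2⟩ := hCG P W M' hc hpN A hA V0 hV0 x hx u f₁ f₂ hk h1 h2
  exact ⟨fun Q hQ _ => c1 Q hQ, fun Q hQ _ => c2 Q hQ⟩

/-- **[F3-EXIT] from its leaves, class form of [CUSP-GAP].** -/
theorem f3Exit_of_leavesCG (π : PullData) (hCG : Fermat.Agent.T8.helper7.CuspGapStatement π)
    (hO : OmegaChainStatement) (hH : HeckeChainStatement) (hD : DescentChainStatement π)
    (hCA : CuspAnnChainStatement) : F3ExitStatement π := by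
  intro P W M' _ hc hpN A hA V0 hV0 hnew hV hVnew x hx u f₁ f₂ hk h1 d1 h2 d2 hnot
  have hCharP : CharP (kA A) P.p := Fermat.Agent.P2.helper93.charP_residueField P.pp hA
  -- both reductions are divisible by `p` at every place `≠ ∞`
  obtain ⟨c1, c2⟩ := dvdCusp81_of_cuspGap hCG P W M' hc hpN A hA V0 hV0 hx hk h1 h2
  have D1 : DvdFin A (4 * M') P.p f₁ := Fermat.Agent.T8.helper81.dvdFin_of_off_cusp d1 c1
  have D2 : DvdFin A (4 * M') P.p f₂ := Fermat.Agent.T8.helper81.dvdFin_of_off_cusp d2 c2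
  -- the class comes from level `M' p`
  obtain ⟨x0, hx0, rfl⟩ := AddSubgroup.mem_map.1 hx
  -- the main step, for one component `f` which is not a `p`-th power
  have main : ∀ f : FFb A (4 * M'), IsRedComp (4 * M') P.p P.pp hpN A u f →
      DvdFin A (4 * M') P.p f → (f : LaurentSeries (kA A)) ≠ 0 →
      ¬ IsPthPow P.p (f : LaurentSeries (kA A)) → P.ModularRepOfLevel M' := by
    intro f hcomp hD' hf0 hnp
    set w : LaurentSeries (kA A) := dlogL (f : LaurentSeries (kA A)) with hw
    have hwAnn : w ∈ annRb (4 * M') A := hO M' P.p P.pp hpN A hA _ u f hk hcomp hD'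
    have hw0 : w ≠ 0 := Fermat.Agent.T8.helper13.dlogL_ne_zero_of_not_pthPow P.pp hA hf0 hnp
    obtain ⟨w0, c, hw0Ann, hc0, h4, hoff⟩ :=
      hD P W M' hc hpN A hA V0 hV0 hnew x0 hx0 u f hk hcomp hwAnn
    -- `w₀` is a reduction of cusp forms of level `M'`
    have hPL : PrimeToLevel M' A := ⟨P.p, P.pp, hc.not_p_dvd, hA⟩
    have hred : Fermat.Agent.T8.helper47.IsRedCusp M' (kA A) (fun m => w0.coeff (m : ℤ)) :=
      Fermat.Agent.T8.helper13.isRedCusp_of_mem_annRb hPL P.p P.pp (hCA M' A hPL) hw0Ann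
    -- `w₀ ≠ 0`
    have hne : ∃ m : ℕ, w0.coeff (m : ℤ) ≠ 0 :=
      Fermat.Agent.T8.helper13.exists_coeff_ne_zero_of_mul_four h4 hoff
        ((mem_annRb.1 hw0Ann).1) hw0
    -- `w₀` is an eigenvector
    have heig : ∀ ℓ ∈ Fermat.Agent.T8.helper13.goodPrimes W,
        Fermat.Agent.T8.helper47.IsFormalEigen
        ((ℓ : Nat.Primes) : ℕ) (Fermat.Agent.T8.helper13.apSeq W ℓ)
        (fun m => w0.coeff (m : ℤ)) := by
      intro ℓ hℓ
      have hgood : W.IsGoodPrimeFor ((ℓ : Nat.Primes) : ℕ) := hℓ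
      have hℓ2 : ((ℓ : Nat.Primes) : ℕ) ≠ 2 :=
        Fermat.Agent.T8.helper56.ne_two_of_isGoodPrimeFor P hc.model hgood
      have hℓN : ¬ ((ℓ : Nat.Primes) : ℕ) ∣ 4 * M' * P.p := by
        have := Fermat.Agent.T8.helper56.good_not_dvd_level P hc.cond hc.model ℓ.2 hgood
        rwa [← mul_assoc] at this
      have hℓp : ((ℓ : Nat.Primes) : ℕ) ≠ P.p := fun h =>
        hℓN (h ▸ Dvd.intro_left (4 * M') rfl)
      have hxe : heckeOperatorBar (4 * M' * P.p) ℓ (π M' P.p x0)
          = W.apOfModel ((ℓ : Nat.Primes) : ℕ) • (π M' P.p x0) :=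
        hV.eigen _ hx ℓ hgood hℓN hℓp
      have hwe := hH (4 * M') P.p P.pp hpN A hA ℓ hℓN (W.apOfModel ((ℓ : Nat.Primes) : ℕ))
        (π M' P.p x0) u f hk hxe hcomp
      exact Fermat.Agent.T8.helper13.formalEigen_of_mul_four hc0 h4 ℓ.2 hℓ2 _ hwe
    exact Fermat.Agent.T8.helper13.modularRepOfLevel_of_redCusp hc (kA A) _ hred hne heig
  -- choose the component
  by_cases hp1 : IsPthPow P.p (f₁ : LaurentSeries (kA A))
  · have hp2 : ¬ IsPthPow P.p (f₂ : LaurentSeries (kA A)) := fun h => hnot ⟨hp1, h⟩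
    exact main f₂ (Or.inr h2) D2 (fun h0 => h2.1 (Subtype.ext h0)) hp2
  · exact main f₁ (Or.inl h1) D1 (fun h0 => h1.1 (Subtype.ext h0)) hp1

/-- **box (F) = [D-HECKE] from the leaves of [F3-EXIT], class form of [CUSP-GAP].** -/
theorem dHecke2_of_leavesCG (π : PullData) (hCG : Fermat.Agent.T8.helper7.CuspGapStatement π)
    (hO : OmegaChainStatement) (hH : HeckeChainStatement) (hD : DescentChainStatement π)
    (hCA : CuspAnnChainStatement) : DHeckeStatement2 π wallCN :=
  Fermat.Agent.T8.helper44.dHecke2_of_f3Exit π (f3Exit_of_leavesCG π hCG hO hH hD hCA)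

end Fermat.Agent.T8.helper96

end
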