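import Fermat.Agent.T8.helper96_ExitCG
import Fermat.Agent.T8.helper48_CuspANorm
import Fermat.Agent.T8.helper27_OmegaChain
import Fermat.Agent.T8.helper87_HeckeChain
import Fermat.Agent.T8.helper78_DescChain
import Fermat.Agent.T8.helper32_CuspAnnChain

/-!
# T8 = row 38 via S44, box (F) [D-HECKE]: [F3-EXIT] CLOSED (helper96, receiver)

All five leaves of `[F3-EXIT]` are theorems on main:

* [CUSP-GAP]  `helper48.cuspGap_R1`     (route R1: Atkin-Lehner at the squarefree level + `β₄`);
* [OMEGA]     `helper27.omegaChain`;
* [HECKE]     `helper87.heckeChain`;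
* [DESCENT]   `helper78.descentChain`   (even case + `helper10.odd_level_false'`);
* [CUSP-ANN]  `helper32.cuspAnnChain`.

Hence `f3ExitFinal : helper44.F3ExitStatement helper67.auxPull67` and box (F)
`dHecke2Final : helper72.DHeckeStatement2 helper67.auxPull67 helper29.wallCN`, unconditionally.
-/

set_option autoImplicit false
set_option linter.style.longLine false

namespace Fermat.Agent.T8.helper96

/-- **[F3-EXIT], unconditional.** -/
theorem f3ExitFinal :
    Fermat.Agent.T8.helper44.F3ExitStatement Fermat.Agent.T8.helper67.auxPull67 :=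
  f3Exit_of_leavesCG Fermat.Agent.T8.helper67.auxPull67
    Fermat.Agent.T8.helper48.cuspGap_R1
    Fermat.Agent.T8.helper27.omegaChain
    Fermat.Agent.T8.helper87.heckeChain
    Fermat.Agent.T8.helper78.descentChain
    Fermat.Agent.T8.helper32.cuspAnnChain

/-- **box (F) = [D-HECKE], unconditional**, against `helper29.wallCN`. -/
theorem dHecke2Final :
    Fermat.Agent.T8.helper72.DHeckeStatement2 Fermat.Agent.T8.helper67.auxPull67
      Fermat.Agent.T8.helper29.wallCN :=
  Fermat.Agent.T8.helper44.dHecke2_of_f3Exit Fermat.Agent.T8.helper67.auxPull67 f3ExitFinal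

end Fermat.Agent.T8.helper96
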