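import Mathlib
import Fermat.Agent.T8.helper65_NormIdx

/-!
# T8 (row 38), box [K-RAT] (helper97): the contract

`KRat A p K` : every `p`-th root (in `ℚ̄((q))`) of the expansion of the function `K` is fixed,
coefficientwise, by `I_K1 = muFix p ⊓ I_A` (the elements of the inertia group of `A` fixing the
`p`-th roots of unity).

For a cover datum `D : helper88.CovData M W A p` this gives the two hypotheses `hfix1`, `hfix2`
of the [SHEETS] instance (`helper97.exists_sheets_poly`, `act_tGen`, `tGen_fixed_covSet`):
`hfix1 := h _ D.h1` for `h : KRat A p D.K` and `hfix2 := h' _ D.h2` for `h' : KRat A p (W D.K)`.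

* `KRat` : the contract (producer: `helper97_KRat.lean`).
-/

set_option autoImplicit false
set_option linter.unusedSectionVars false
set_option linter.unusedVariables false
set_option linter.style.longLine false

noncomputable section

namespace Fermat.Agent.T8.helper97

open HahnSeries IntermediateField ModularCurve
open Fermat.Agent.S18.helper19 Fermat.Agent.P2.helper93
open Fermat.Agent.T8.helper65 (IA muFix cwAct)

/-- **[K-RAT]**: all `p`-th roots of the expansion of `K` are fixed by `I_K1`. -/
def KRat {M : ℕ} (A : ValuationSubring Kb) (p : ℕ) (K : FF M) : Prop :=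
  ∀ Z : LaurentSeries Kb, Z ^ p = (K : LaurentSeries Kb) →
    ∀ σ ∈ muFix p ⊓ IA A, cwAct σ Z = Z

end Fermat.Agent.T8.helper97

end
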