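import Mathlib

/-!
# T8 (row 38), box [K-RAT] (helper97): the abstract PIVOT lemma (Mathlib only)

`K` a field with a valuation `v`, `S` a set of ring endomorphisms of `K` (the Galois group),
`E` a set of positions, vectors `x : E → K` with the coordinatewise action.  Assume that the
value group of the fixed field is generated by `v π` (`hdisc`) and that every integral element is
congruent to a fixed one (`hres`).

* `exists_max_coord`   : a fixed bounded vector has a coordinate of maximal value;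
* `exists_dual_system` : a finite-dimensional `S`-stable space `V` of bounded vectors has an
                         INTEGRAL dual system of FIXED vectors: positions `s` and `b k ∈ V`
                         (`k ∈ s`), fixed, integral, `b k j = δ_{jk}`, separating the points of `V`
                         (the reduced echelon basis is unique, hence fixed; the pivot is put at
                         a coordinate of maximal value);
* `exists_fixed_approx`: every integral `z ∈ V` is congruent, coordinatewise modulo the maximal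
                         ideal, to a FIXED vector `y ∈ V`.
-/

set_option autoImplicit false
set_option linter.unusedSectionVars false
set_option linter.unusedVariables false
set_option linter.style.longLine false
set_option linter.style.haveILetI false

noncomputable section

namespace Fermat.Agent.T8.helper97

section Pivot

open Classical

variable {K : Type*} [Field K] {Γ₀ : Type*} [LinearOrderedCommGroupWithZero Γ₀]
  (v : Valuation K Γ₀) {E : Type*} (S : Set (K →+* K))

/-- a vector is fixed by the coordinatewise action -/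
def IsCwFixed (x : E → K) : Prop := ∀ σ ∈ S, ∀ e, σ (x e) = x e

/-- the largest coordinate of a fixed bounded vector with a nonzero coordinate -/
theorem exists_max_coord (π : K) (hπ0 : π ≠ 0) (hπ1 : v π < 1)
    (hdisc : ∀ c : K, c ≠ 0 → (∀ σ ∈ S, σ c = c) → ∃ n : ℤ, v c = v π ^ n)
    (x : E → K) (hfix : IsCwFixed S x) (n : ℕ) (hn : ∀ e, v (π ^ n * x e) ≤ 1)
    (e : E) (he : x e ≠ 0) :
    ∃ e₀, x e₀ ≠ 0 ∧ ∀ e', v (x e') ≤ v (x e₀) := by
  have hvπ0 : 0 < v π := zero_lt_iff.mpr ((Valuation.ne_zero_iff v).mpr hπ0)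
  have key : ∀ e', x e' ≠ 0 → ∃ m : ℤ, v (x e') = v π ^ m := fun e' h =>
    hdisc (x e') h (fun σ hσ => hfix σ hσ e')
  have hbdd : ∃ b : ℤ, ∀ m : ℤ, (∃ e', x e' ≠ 0 ∧ v (x e') = v π ^ m) → b ≤ m := by
    refine ⟨-(n : ℤ), ?_⟩
    rintro m ⟨e', h, hm⟩
    have h1 := hn e'
    rw [map_mul, map_pow, hm, ← zpow_natCast, ← zpow_add₀ hvπ0.ne'] at h1
    by_contra hcon
    have h2 : (n : ℤ) + m < 0 := by omega
    have h3 : v π ^ (0 : ℤ) < v π ^ ((n : ℤ) + m) :=
      (zpow_lt_zpow_iff_right_of_lt_one₀ hvπ0 hπ1).mpr h2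
    rw [zpow_zero] at h3
    exact absurd h1 (not_le.mpr h3)
  have hinh : ∃ m : ℤ, ∃ e', x e' ≠ 0 ∧ v (x e') = v π ^ m := by
    obtain ⟨m, hm⟩ := key e he
    exact ⟨m, e, he, hm⟩
  obtain ⟨m₀, ⟨e₀, he₀, hm₀⟩, hmin⟩ := Int.exists_least_of_bdd hbdd hinh
  refine ⟨e₀, he₀, fun e' => ?_⟩
  by_cases h : x e' = 0
  · rw [h, map_zero]
    exact zero_le
  · obtain ⟨m, hm⟩ := key e' h
    rw [hm, hm₀]
    exact zpow_le_zpow_right_of_le_one₀ hvπ0 hπ1.le (hmin m ⟨e', h, hm⟩)

/-- **the integral dual system of fixed vectors** -/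
theorem exists_dual_system (π : K) (hπ0 : π ≠ 0) (hπ1 : v π < 1)
    (hdisc : ∀ c : K, c ≠ 0 → (∀ σ ∈ S, σ c = c) → ∃ n : ℤ, v c = v π ^ n) :
    ∀ (n : ℕ) (V : Submodule K (E → K)), FiniteDimensional K V → Module.finrank K V ≤ n →
      (∀ σ ∈ S, ∀ x ∈ V, (fun e => σ (x e)) ∈ V) →
      (∀ x ∈ V, ∃ m : ℕ, ∀ e, v (π ^ m * x e) ≤ 1) →
      ∃ (s : Finset E) (b : E → E → K),
        (∀ k ∈ s, b k ∈ V) ∧ (∀ k ∈ s, IsCwFixed S (b k)) ∧
        (∀ k ∈ s, ∀ e, v (b k e) ≤ 1) ∧
        (∀ k ∈ s, ∀ j ∈ s, b k j = if j = k then 1 else 0) ∧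
        (∀ x ∈ V, (∀ j ∈ s, x j = 0) → x = 0) := by
  classical
  have hbase : ∀ V : Submodule K (E → K), V = ⊥ →
      ∃ (s : Finset E) (b : E → E → K),
        (∀ k ∈ s, b k ∈ V) ∧ (∀ k ∈ s, IsCwFixed S (b k)) ∧
        (∀ k ∈ s, ∀ e, v (b k e) ≤ 1) ∧
        (∀ k ∈ s, ∀ j ∈ s, b k j = if j = k then 1 else 0) ∧
        (∀ x ∈ V, (∀ j ∈ s, x j = 0) → x = 0) := by
    intro V hbot
    refine ⟨∅, fun _ _ => 0, by simp, by simp, by simp, by simp, fun x hx _ => ?_⟩
    rw [hbot] at hx
    exact (Submodule.mem_bot K).mp hx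
  intro n
  induction n with
  | zero =>
    intro V hfd hV hstab hbdd
    haveI := hfd
    exact hbase V (Submodule.finrank_eq_zero.mp (Nat.le_zero.mp hV))
  | succ n ih =>
    intro V hfd hV hstab hbdd
    haveI := hfd
    by_cases hbot : V = ⊥
    · exact hbase V hbot
    obtain ⟨x, hxV, hx0⟩ := Submodule.exists_mem_ne_zero_of_ne_bot hbot
    obtain ⟨e, he⟩ : ∃ e, x e ≠ 0 := by
      by_contra h
      push Not at h
      exact hx0 (funext h)
    set V' : Submodule K (E → K) :=
      V ⊓ LinearMap.ker (LinearMap.proj e : (E → K) →ₗ[K] K) with hV'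
    have hmemV' : ∀ y, y ∈ V' ↔ y ∈ V ∧ y e = 0 := by
      intro y
      rw [hV', Submodule.mem_inf, LinearMap.mem_ker]
      rfl
    have hlt : V' < V := by
      refine lt_of_le_of_ne inf_le_left (fun h => ?_)
      have h1 : x ∈ V' := by rw [h]; exact hxV
      exact he ((hmemV' x).mp h1).2
    have hfd' : FiniteDimensional K V' := Submodule.finiteDimensional_of_le inf_le_left
    have hrank : Module.finrank K V' ≤ n := by
      have := Submodule.finrank_lt_finrank_of_lt hlt
      omega
    have hstab' : ∀ σ ∈ S, ∀ y ∈ V', (fun e' => σ (y e')) ∈ V' := by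
      intro σ hσ y hy
      obtain ⟨hy1, hy2⟩ := (hmemV' y).mp hy
      refine (hmemV' _).mpr ⟨hstab σ hσ y hy1, ?_⟩
      show σ (y e) = 0
      rw [hy2, map_zero]
    have hbdd' : ∀ y ∈ V', ∃ m : ℕ, ∀ e', v (π ^ m * y e') ≤ 1 :=
      fun y hy => hbdd y ((hmemV' y).mp hy).1
    obtain ⟨s', b', hb'V, hb'fix, hb'int, hb'dual, hb'sep⟩ := ih V' hfd' hrank hstab' hbdd'
    -- the normalised vector
    set x' : E → K := (x e)⁻¹ • x with hx'
    have hx'V : x' ∈ V := V.smul_mem _ hxV
    have hx'e : x' e = 1 := by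
      show (x e)⁻¹ * x e = 1
      exact inv_mul_cancel₀ he
    set x₀ : E → K := x' - ∑ j ∈ s', x' j • b' j with hx₀
    have hb'e : ∀ j ∈ s', b' j e = 0 := fun j hj => ((hmemV' _).mp (hb'V j hj)).2
    have hx₀V : x₀ ∈ V :=
      V.sub_mem hx'V (V.sum_mem fun j hj => V.smul_mem _ ((hmemV' _).mp (hb'V j hj)).1)
    have hx₀apply : ∀ e', x₀ e' = x' e' - ∑ j ∈ s', x' j * b' j e' := by
      intro e'
      rw [hx₀, Pi.sub_apply, Finset.sum_apply]
      rfl
    have hx₀e : x₀ e = 1 := by
      rw [hx₀apply, hx'e, Finset.sum_eq_zero, sub_zero]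
      intro j hj
      rw [hb'e j hj, mul_zero]
    have hx₀s : ∀ i ∈ s', x₀ i = 0 := by
      intro i hi
      rw [hx₀apply]
      have : ∑ j ∈ s', x' j * b' j i = x' i := by
        rw [Finset.sum_eq_single i]
        · rw [hb'dual i hi i hi, if_pos rfl, mul_one]
        · intro j hj hji
          rw [hb'dual j hj i hi, if_neg (Ne.symm hji), mul_zero]
        · intro h
          exact absurd hi h
      rw [this, sub_self]
    -- `x₀` is fixed
    have hx₀fix : IsCwFixed S x₀ := by
      intro σ hσ e'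
      have hd : (fun e'' => σ (x₀ e'')) - x₀ ∈ V' := by
        refine (hmemV' _).mpr ⟨V.sub_mem (hstab σ hσ x₀ hx₀V) hx₀V, ?_⟩
        show σ (x₀ e) - x₀ e = 0
        rw [hx₀e, map_one, sub_self]
      have h0 := hb'sep _ hd (fun i hi => by
        show σ (x₀ i) - x₀ i = 0
        rw [hx₀s i hi, map_zero, sub_self])
      have h1 := congrFun h0 e'
      exact sub_eq_zero.mp h1
    -- the pivot
    obtain ⟨m, hm⟩ := hbdd x₀ hx₀V
    obtain ⟨e₀, he₀, hmax⟩ := exists_max_coord v S π hπ0 hπ1 hdisc x₀ hx₀fix m hm e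
      (by rw [hx₀e]; exact one_ne_zero)
    have he₀s : e₀ ∉ s' := fun h => he₀ (hx₀s e₀ h)
    set x₁ : E → K := (x₀ e₀)⁻¹ • x₀ with hx₁
    have hx₁apply : ∀ e', x₁ e' = (x₀ e₀)⁻¹ * x₀ e' := fun e' => rfl
    have hx₁V : x₁ ∈ V := V.smul_mem _ hx₀V
    have hx₁e₀ : x₁ e₀ = 1 := by rw [hx₁apply]; exact inv_mul_cancel₀ he₀
    have hx₁s : ∀ i ∈ s', x₁ i = 0 := fun i hi => by rw [hx₁apply, hx₀s i hi, mul_zero]
    have hx₁fix : IsCwFixed S x₁ := by
      intro σ hσ e'
      rw [hx₁apply, map_mul, map_inv₀, hx₀fix σ hσ, hx₀fix σ hσ]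
    have hv0 : v (x₀ e₀) ≠ 0 := (Valuation.ne_zero_iff v).mpr he₀
    have hx₁int : ∀ e', v (x₁ e') ≤ 1 := by
      intro e'
      rw [hx₁apply, map_mul, map_inv₀, inv_mul_le_iff₀ (zero_lt_iff.mpr hv0), mul_one]
      exact hmax e'
    -- the new system
    refine ⟨insert e₀ s', fun k => if k = e₀ then x₁ else b' k - b' k e₀ • x₁, ?_, ?_, ?_, ?_, ?_⟩
    · intro k hk
      by_cases hke : k = e₀
      · simp only [hke, if_true]
        exact hx₁V
      · simp only [hke, if_false]
        have hks : k ∈ s' := (Finset.mem_insert.mp hk).resolve_left hke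
        exact V.sub_mem ((hmemV' _).mp (hb'V k hks)).1 (V.smul_mem _ hx₁V)
    · intro k hk
      by_cases hke : k = e₀
      · simp only [hke, if_true]
        exact hx₁fix
      · simp only [hke, if_false]
        have hks : k ∈ s' := (Finset.mem_insert.mp hk).resolve_left hke
        intro σ hσ e'
        show σ (b' k e' - b' k e₀ * x₁ e') = b' k e' - b' k e₀ * x₁ e'
        rw [map_sub, map_mul, hb'fix k hks σ hσ, hb'fix k hks σ hσ, hx₁fix σ hσ]
    · intro k hk e'
      by_cases hke : k = e₀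
      · simp only [hke, if_true]
        exact hx₁int e'
      · simp only [hke, if_false]
        have hks : k ∈ s' := (Finset.mem_insert.mp hk).resolve_left hke
        show v (b' k e' - b' k e₀ * x₁ e') ≤ 1
        refine le_trans (Valuation.map_sub v _ _) (max_le (hb'int k hks e') ?_)
        rw [map_mul]
        exact mul_le_one' (hb'int k hks e₀) (hx₁int e')
    · intro k hk j hj
      by_cases hke : k = e₀
      · simp only [hke, if_true]
        by_cases hje : j = e₀
        · rw [hje, if_pos rfl, hx₁e₀]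
        · have hjs : j ∈ s' := (Finset.mem_insert.mp hj).resolve_left hje
          rw [if_neg hje, hx₁s j hjs]
      · simp only [hke, if_false]
        have hks : k ∈ s' := (Finset.mem_insert.mp hk).resolve_left hke
        show b' k j - b' k e₀ * x₁ j = _
        by_cases hje : j = e₀
        · rw [hje, hx₁e₀, mul_one, sub_self, if_neg (Ne.symm hke)]
        · have hjs : j ∈ s' := (Finset.mem_insert.mp hj).resolve_left hje
          rw [hx₁s j hjs, mul_zero, sub_zero, hb'dual k hks j hjs]
    · intro y hyV hy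
      have hye₀ : y e₀ = 0 := hy e₀ (Finset.mem_insert_self _ _)
      have hys : ∀ i ∈ s', y i = 0 := fun i hi => hy i (Finset.mem_insert_of_mem hi)
      have hd : y - y e • x₀ ∈ V' := by
        refine (hmemV' _).mpr ⟨V.sub_mem hyV (V.smul_mem _ hx₀V), ?_⟩
        show y e - y e * x₀ e = 0
        rw [hx₀e, mul_one, sub_self]
      have h0 := hb'sep _ hd (fun i hi => by
        show y i - y e * x₀ i = 0
        rw [hys i hi, hx₀s i hi, mul_zero, sub_self])
      have h1 : y = y e • x₀ := sub_eq_zero.mp h0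
      have h2 : y e * x₀ e₀ = 0 := by
        have := congrFun h1 e₀
        rw [hye₀] at this
        exact this.symm
      have h3 : y e = 0 := (mul_eq_zero.mp h2).resolve_right he₀
      rw [h1, h3, zero_smul]

/-- **approximation by fixed vectors**: every integral vector of a finite-dimensional stable
space of bounded vectors is congruent modulo the maximal ideal, coordinatewise, to a FIXED
vector of the space. -/
theorem exists_fixed_approx (π : K) (hπ0 : π ≠ 0) (hπ1 : v π < 1)
    (hdisc : ∀ c : K, c ≠ 0 → (∀ σ ∈ S, σ c = c) → ∃ n : ℤ, v c = v π ^ n)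
    (hres : ∀ a : K, v a ≤ 1 → ∃ b : K, v b ≤ 1 ∧ (∀ σ ∈ S, σ b = b) ∧ v (a - b) < 1)
    (V : Submodule K (E → K)) [FiniteDimensional K V]
    (hstab : ∀ σ ∈ S, ∀ x ∈ V, (fun e => σ (x e)) ∈ V)
    (hbdd : ∀ x ∈ V, ∃ m : ℕ, ∀ e, v (π ^ m * x e) ≤ 1)
    (z : E → K) (hz : z ∈ V) (hzint : ∀ e, v (z e) ≤ 1) :
    ∃ y ∈ V, IsCwFixed S y ∧ ∀ e, v (y e - z e) < 1 := by
  classical
  obtain ⟨s, b, hbV, hbfix, hbint, hbdual, hbsep⟩ :=
    exists_dual_system v S π hπ0 hπ1 hdisc (Module.finrank K V) V inferInstance le_rfl hstab hbdd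
  choose a ha1 hafix halt using fun k : E => hres (z k) (hzint k)
  have hsum : ∀ (c : E → K) (e : E), (∑ k ∈ s, c k • b k) e = ∑ k ∈ s, c k * b k e := by
    intro c e
    rw [Finset.sum_apply]
    rfl
  -- the expansion of `z`
  have hzexp : z = ∑ k ∈ s, z k • b k := by
    have hd : z - ∑ k ∈ s, z k • b k ∈ V :=
      V.sub_mem hz (V.sum_mem fun k hk => V.smul_mem _ (hbV k hk))
    refine sub_eq_zero.mp (hbsep _ hd fun j hj => ?_)
    rw [Pi.sub_apply, hsum, Finset.sum_eq_single j]
    · rw [hbdual j hj j hj, if_pos rfl, mul_one, sub_self]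
    · intro k hk hkj
      rw [hbdual k hk j hj, if_neg (Ne.symm hkj), mul_zero]
    · intro h
      exact absurd hj h
  refine ⟨∑ k ∈ s, a k • b k, V.sum_mem fun k hk => V.smul_mem _ (hbV k hk), ?_, fun e => ?_⟩
  · intro σ hσ e
    rw [hsum, map_sum]
    refine Finset.sum_congr rfl fun k hk => ?_
    rw [map_mul, hafix k σ hσ, hbfix k hk σ hσ]
  · have h1 : (∑ k ∈ s, a k • b k) e - z e = ∑ k ∈ s, (a k - z k) * b k e := by
      conv_lhs => rw [hzexp]
      rw [hsum, hsum, ← Finset.sum_sub_distrib]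
      refine Finset.sum_congr rfl fun k _ => ?_
      ring
    rw [h1]
    refine Valuation.map_sum_lt v one_ne_zero fun k hk => ?_
    rw [map_mul]
    have h2 : v (a k - z k) < 1 := by
      rw [← Valuation.map_neg, neg_sub]
      exact halt k
    calc v (a k - z k) * v (b k e) ≤ v (a k - z k) * 1 := by
          gcongr
          exact hbint k hk e
      _ = v (a k - z k) := mul_one _
      _ < 1 := h2

end Pivot

end Fermat.Agent.T8.helper97

end
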