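import Mathlib
import Fermat.Agent.T3.helper84_K0Disc
import Fermat.Agent.T3.helper84_K0Zeta
import Fermat.Agent.T8.helper65_NormIdx
import Fermat.Agent.T8.helper97_Pivot

/-!
# T8 (row 38), box [K-RAT] (helper97): the valuation input of the pivot lemma

`A` a valuation subring of `ℚ̄` over `p`, `ζ` a primitive `p`-th root of unity, `π = 1 - ζ`,
`I_K1 = muFix p ⊓ I_A`.

* `galSet A p`        : the set of ring endomorphisms of `ℚ̄` given by the elements of `I_K1`;
* `exists_pow_mul_le` : every `c ∈ ℚ̄` is bounded by a power of `π`: `v(π ^ k c) ≤ 1`;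
* `disc_galSet`       : the value group of the fixed field of `I_K1` is generated by `v π`
                        (`T3.helper84.k0_disc_zeta`);
* `res_galSet`        : every element of `A` is congruent modulo the maximal ideal to a fixed
                        element of `A` (`T3.helper84.k0_res`).
-/

set_option autoImplicit false
set_option linter.unusedSectionVars false
set_option linter.unusedVariables false
set_option linter.style.longLine false
set_option linter.style.haveILetI false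

noncomputable section

namespace Fermat.Agent.T8.helper97

open Fermat.Agent.S18.helper19 Fermat.Agent.P2.helper93
open Fermat.Agent.T8.helper65 (IA muFix)

variable (A : ValuationSubring Kb) (p : ℕ)

/-- the elements of `I_K1`, as ring endomorphisms of `ℚ̄` -/
def galSet : Set (Kb →+* Kb) := {f | ∃ σ ∈ muFix p ⊓ IA A, f = ((σ : Kb ≃ₐ[ℚ] Kb) : Kb →+* Kb)}

variable {A p}

theorem mem_galSet {σ : Kb ≃ₐ[ℚ] Kb} (hσ : σ ∈ muFix p ⊓ IA A) :
    ((σ : Kb ≃ₐ[ℚ] Kb) : Kb →+* Kb) ∈ galSet A p := ⟨σ, hσ, rfl⟩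

theorem fixed_of_galSet {c : Kb} (h : ∀ f ∈ galSet A p, f c = c) {σ : Kb ≃ₐ[ℚ] Kb}
    (hσ : σ ∈ muFix p ⊓ IA A) : σ c = c := h _ (mem_galSet hσ)

section Val

variable (hp : p.Prime) (hA : A.LiesOverPrime p) {ζ : Kb} (hζ : IsPrimitiveRoot ζ p)

include hp hA in
/-- every element of `ℚ̄` is bounded by a power of `p` -/
theorem exists_natPow_mul_le (c : Kb) : ∃ k : ℕ, A.valuation (((p : ℕ) : Kb) ^ k * c) ≤ 1 := by
  have halg : IsAlgebraic ℚ c := (AlgebraicClosure.isAlgebraic ℚ).isAlgebraic c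
  have halgZ : IsAlgebraic ℤ c := (IsFractionRing.isAlgebraic_iff ℤ ℚ Kb).mpr halg
  obtain ⟨y, hy0, hy⟩ := halgZ.exists_integral_multiple
  have hmem : y • c ∈ A := Fermat.Agent.S54.helper91.mem_valuationSubring_of_isIntegral A hy
  have hval : A.valuation (y • c) ≤ 1 := (A.valuation_le_one_iff _).mpr hmem
  have hn0 : y.natAbs ≠ 0 := Int.natAbs_ne_zero.mpr hy0
  obtain ⟨e, he⟩ := Fermat.Agent.T3.helper84.k0_valuation_natCast hp A hA hn0
  have hyv : A.valuation ((y : ℤ) : Kb) = A.valuation ((p : ℕ) : Kb) ^ e := by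
    rw [← he]
    rcases Int.natAbs_eq y with h | h
    · conv_lhs => rw [h]
      simp
    · conv_lhs => rw [h]
      simp
  refine ⟨e, ?_⟩
  rw [map_mul, map_pow, ← hyv, ← map_mul]
  have : ((y : ℤ) : Kb) * c = y • c := by
    rw [zsmul_eq_mul]
  rw [this]
  exact hval

include hp hA hζ in
/-- **every element of `ℚ̄` is bounded by a power of `π = 1 - ζ`** -/
theorem exists_pow_mul_le (c : Kb) : ∃ k : ℕ, A.valuation ((1 - ζ) ^ k * c) ≤ 1 := by
  obtain ⟨k, hk⟩ := exists_natPow_mul_le hp hA c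
  refine ⟨(p - 1) * k, ?_⟩
  rw [map_mul, map_pow, pow_mul, Fermat.Agent.T3.helper84.k0_zeta_val hp A hζ, ← map_pow,
    ← map_mul]
  exact hk

include hp hA hζ in
/-- `v π < 1` -/
theorem val_pi_lt : A.valuation (1 - ζ) < 1 :=
  Fermat.Agent.T3.helper84.k0_zeta_val_lt hp A hA hζ

include hp hζ in
theorem pi_ne_zero : (1 : Kb) - ζ ≠ 0 :=
  sub_ne_zero.mpr fun h => hζ.ne_one hp.one_lt h.symm

include hp hA hζ in
/-- **(DISC)** for the fixed field of `I_K1` -/
theorem disc_galSet (c : Kb) (hc : c ≠ 0) (hfix : ∀ f ∈ galSet A p, f c = c) :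
    ∃ n : ℤ, A.valuation c = A.valuation (1 - ζ) ^ n := by
  haveI : Fact p.Prime := ⟨hp⟩
  obtain ⟨m, hm⟩ := Fermat.Agent.T3.helper84.k0_disc_zeta hp A hA hζ hc (fun σ hσ hσζ =>
    fixed_of_galSet hfix (Subgroup.mem_inf.mpr ⟨(Fermat.Agent.T8.helper65.mem_muFix_iff hζ).mpr hσζ, hσ⟩))
  exact ⟨m, by rw [hm, map_zpow₀]⟩

include hp hA in
/-- **(RES)** for the fixed field of `I_K1` -/
theorem res_galSet (a : Kb) (ha : A.valuation a ≤ 1) :
    ∃ b : Kb, A.valuation b ≤ 1 ∧ (∀ f ∈ galSet A p, f b = b) ∧ A.valuation (a - b) < 1 := by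
  obtain ⟨b, hb, hfix, hlt⟩ :=
    Fermat.Agent.T3.helper84.k0_res hp A hA ((A.valuation_le_one_iff a).mp ha)
  refine ⟨b, (A.valuation_le_one_iff b).mpr hb, ?_, hlt⟩
  rintro f ⟨σ, hσ, rfl⟩
  exact hfix σ (Subgroup.mem_inf.mp hσ).2

end Val

end Fermat.Agent.T8.helper97

end
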