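import Mathlib
import Fermat.Agent.T8.helper97_KRatDef
import Fermat.Agent.T8.helper97_KRatVal
import Fermat.Agent.T8.helper97_TameTrace
import Fermat.Agent.T7.helper22_AttNF
import Fermat.Agent.P3.helper85_Cont

/-!
# T8 (row 38), box [K-RAT] (helper97): the orbit of a pair of roots

* `vec X₁ X₂`          : the coefficient vector `ℤ ⊕ ℤ → ℚ̄` of a pair of Laurent series;
* `root_fixed_of_coeff`: a `p`-th root `Z` of a function fixed by `g`, with a nonzero coefficient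
                         fixed by `g`, is fixed by `g`;
* `fixedByOpen_root`   : a nonzero `p`-th root of a function is fixed by an open subgroup;
* `finite_orbit`       : the orbit of a pair of series fixed by an open subgroup is finite;
* `kRat_of_root`       : `KRat` from ONE fixed nonzero root.
-/

set_option autoImplicit false
set_option linter.unusedSectionVars false
set_option linter.unusedVariables false
set_option linter.style.longLine false
set_option linter.style.haveILetI false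

noncomputable section

namespace Fermat.Agent.T8.helper97

open HahnSeries IntermediateField AlgebraicCurve ModularCurve
open Fermat.Agent.S18.helper19 Fermat.Agent.P2.helper29 Fermat.Agent.P2.helper93
open Fermat.Agent.T8.helper65 (IA muFix cwAct)

/-! ### coefficient vectors -/

/-- the coefficient vector of a pair of Laurent series -/
def vec (X₁ X₂ : LaurentSeries Kb) : ℤ ⊕ ℤ → Kb := Sum.elim X₁.coeff X₂.coeff

theorem vec_inl (X₁ X₂ : LaurentSeries Kb) (n : ℤ) : vec X₁ X₂ (Sum.inl n) = X₁.coeff n := rfl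

theorem vec_inr (X₁ X₂ : LaurentSeries Kb) (n : ℤ) : vec X₁ X₂ (Sum.inr n) = X₂.coeff n := rfl

theorem vec_zero : vec 0 0 = 0 := by
  funext e
  cases e <;> rfl

theorem vec_add (X₁ X₂ Y₁ Y₂ : LaurentSeries Kb) :
    vec (X₁ + Y₁) (X₂ + Y₂) = vec X₁ X₂ + vec Y₁ Y₂ := by
  funext e
  cases e <;> rfl

theorem vec_smul (c : Kb) (X₁ X₂ : LaurentSeries Kb) :
    vec (algebraMap Kb (LaurentSeries Kb) c * X₁) (algebraMap Kb (LaurentSeries Kb) c * X₂)
      = c • vec X₁ X₂ := by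
  funext e
  cases e with
  | inl n => exact coeff_algebraMap_mul c X₁ n
  | inr n => exact coeff_algebraMap_mul c X₂ n

theorem vec_map (σ : Kb →+* Kb) (X₁ X₂ : LaurentSeries Kb) :
    (fun e => σ (vec X₁ X₂ e)) = vec (coeffMap σ X₁) (coeffMap σ X₂) := by
  funext e
  cases e with
  | inl n => exact (coeffMap_coeff σ X₁ n).symm
  | inr n => exact (coeffMap_coeff σ X₂ n).symm

theorem vec_inj {X₁ X₂ Y₁ Y₂ : LaurentSeries Kb} (h : vec X₁ X₂ = vec Y₁ Y₂) :
    X₁ = Y₁ ∧ X₂ = Y₂ := by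
  constructor
  · ext n
    exact congrFun h (Sum.inl n)
  · ext n
    exact congrFun h (Sum.inr n)

/-! ### roots are fixed by an open subgroup -/

section Root

variable {M : ℕ} [NeZero M]

/-- a `p`-th root of a function fixed by `g`, one of whose nonzero coefficients is fixed by `g`,
is fixed by `g` -/
theorem root_fixed_of_coeff {p : ℕ} (hp : 0 < p) {K : FF M} {Z : LaurentSeries Kb}
    (hZ : Z ^ p = (K : LaurentSeries Kb)) {n : ℤ} (hn : Z.coeff n ≠ 0)
    (g : Kb ≃ₐ[ℚ] Kb) (hgK : coeffMap (g : Kb →+* Kb) (K : LaurentSeries Kb) = K)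
    (hgn : g (Z.coeff n) = Z.coeff n) : coeffMap (g : Kb →+* Kb) Z = Z := by
  have hZ0 : Z ≠ 0 := by
    rintro rfl
    exact hn rfl
  have h1 : (coeffMap (g : Kb →+* Kb) Z) ^ p = Z ^ p := by
    rw [← map_pow, hZ, hgK]
  have h2 : (coeffMap (g : Kb →+* Kb) Z * Z⁻¹) ^ p = 1 := by
    rw [mul_pow, h1, inv_pow, mul_inv_cancel₀ (pow_ne_zero _ hZ0)]
  obtain ⟨μ, -, hμ⟩ := Fermat.Agent.T7.helper22.exists_const_of_pow_eq_one hp _ h2
  have h3 : coeffMap (g : Kb →+* Kb) Z = algebraMap Kb (LaurentSeries Kb) μ * Z := by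
    rw [← hμ, mul_assoc, inv_mul_cancel₀ hZ0, mul_one]
  have h4 := congrArg (fun x : LaurentSeries Kb => x.coeff n) h3
  simp only [coeffMap_coeff, coeff_algebraMap_mul] at h4
  have h5 : μ = 1 := by
    have h6 : μ * Z.coeff n = 1 * Z.coeff n := by
      rw [one_mul, ← h4]
      exact hgn
    exact mul_right_cancel₀ hn h6
  rw [h3, h5, map_one, one_mul]

/-- **a nonzero `p`-th root of a function is fixed by an open subgroup** -/
theorem fixedByOpen_root {p : ℕ} (hp : 0 < p) {K : FF M} {Z : LaurentSeries Kb}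
    (hZ : Z ^ p = (K : LaurentSeries Kb)) (hZ0 : Z ≠ 0) :
    Fermat.Agent.P3.helper85.FixedByOpen Z := by
  obtain ⟨n, hn⟩ : ∃ n, Z.coeff n ≠ 0 := by
    by_contra h
    push Not at h
    exact hZ0 (HahnSeries.ext (funext h))
  obtain ⟨E₁, hE₁, hfix⟩ :=
    Fermat.Agent.P3.helper85.exists_numberField_fixing_series (modularFunctionFieldFull M) K.2
  have hint : IsIntegral ℚ (Z.coeff n) :=
    (AlgebraicClosure.isAlgebraic ℚ).isIntegral.isIntegral _
  haveI := hE₁
  haveI : FiniteDimensional ℚ ℚ⟮Z.coeff n⟯ := IntermediateField.adjoin.finiteDimensional hint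
  refine ⟨E₁ ⊔ ℚ⟮Z.coeff n⟯, IntermediateField.finiteDimensional_sup E₁ ℚ⟮Z.coeff n⟯,
    fun g hg => ?_⟩
  refine root_fixed_of_coeff hp hZ hn g ?_ ?_
  · exact hfix g fun y hy => hg y ((le_sup_left : E₁ ≤ E₁ ⊔ ℚ⟮Z.coeff n⟯) hy)
  · exact hg _ ((le_sup_right : ℚ⟮Z.coeff n⟯ ≤ E₁ ⊔ ℚ⟮Z.coeff n⟯)
      (IntermediateField.mem_adjoin_simple_self ℚ _))

end Root

/-! ### finite orbits -/

/-- the fixing subgroup of a number field has finite index -/
theorem finiteIndex_fixing (E : IntermediateField ℚ Kb) (hE : FiniteDimensional ℚ E) :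
    E.fixingSubgroup.FiniteIndex := by
  have hA : Algebra.IsAlgebraic ℚ (AlgebraicClosure ℚ) := AlgebraicClosure.isAlgebraic ℚ
  have hC : IsAlgClosure ℚ (AlgebraicClosure ℚ) := ⟨inferInstance, hA⟩
  have hNo : Normal ℚ (AlgebraicClosure ℚ) := IsAlgClosure.normal ℚ (AlgebraicClosure ℚ)
  have hG : IsGalois ℚ (AlgebraicClosure ℚ) := ⟨⟩
  have hE' : @FiniteDimensional ℚ E _ _ E.module' := hE
  refine ⟨?_⟩
  rw [← IntermediateField.finrank_eq_fixingSubgroup_index]
  exact (@Module.finrank_pos ℚ E _ _ E.module' _ _ _ _).ne'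

/-- **the orbit of a pair of series fixed by an open subgroup is finite** -/
theorem finite_orbit {Z Z' : LaurentSeries Kb} (hZ : Fermat.Agent.P3.helper85.FixedByOpen Z)
    (hZ' : Fermat.Agent.P3.helper85.FixedByOpen Z') :
    (Set.range fun σ : Kb ≃ₐ[ℚ] Kb =>
      vec (coeffMap (σ : Kb →+* Kb) Z) (coeffMap (σ : Kb →+* Kb) Z')).Finite := by
  obtain ⟨E, hE, hfix⟩ := Fermat.Agent.P3.helper85.fixedByOpen_sup hZ hZ'
  haveI := finiteIndex_fixing E hE
  haveI : Finite ((Kb ≃ₐ[ℚ] Kb) ⧸ E.fixingSubgroup) := Subgroup.finite_quotient_of_finiteIndex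
  set φ : (Kb ≃ₐ[ℚ] Kb) → (ℤ ⊕ ℤ → Kb) := fun σ =>
    vec (coeffMap (σ : Kb →+* Kb) Z) (coeffMap (σ : Kb →+* Kb) Z') with hφ
  have hconst : ∀ a b : Kb ≃ₐ[ℚ] Kb, a⁻¹ * b ∈ E.fixingSubgroup → φ a = φ b := by
    intro a b hab
    have hh := hfix (a⁻¹ * b) (fun y hy =>
      (IntermediateField.mem_fixingSubgroup_iff E _).mp hab y hy)
    have hb : b = a * (a⁻¹ * b) := by group
    have key : ∀ X : LaurentSeries Kb, coeffMap ((a⁻¹ * b : Kb ≃ₐ[ℚ] Kb) : Kb →+* Kb) X = X →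
        coeffMap ((b : Kb ≃ₐ[ℚ] Kb) : Kb →+* Kb) X = coeffMap ((a : Kb ≃ₐ[ℚ] Kb) : Kb →+* Kb) X := by
      intro X hX
      conv_lhs => rw [hb]
      conv_rhs => rw [← hX]
      rw [coeffMap_coeffMap]
      rfl
    show vec _ _ = vec _ _
    rw [key Z hh.1, key Z' hh.2]
  let ψ : ((Kb ≃ₐ[ℚ] Kb) ⧸ E.fixingSubgroup) → (ℤ ⊕ ℤ → Kb) :=
    Quotient.lift φ (fun a b hab => hconst a b (QuotientGroup.leftRel_apply.mp hab))
  have hsub : Set.range φ ⊆ Set.range ψ := by
    rintro _ ⟨σ, rfl⟩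
    exact ⟨QuotientGroup.mk σ, rfl⟩
  exact (Set.finite_range ψ).subset hsub

/-! ### `KRat` from one fixed root -/

/-- **`KRat` from ONE fixed nonzero root** -/
theorem kRat_of_root {M : ℕ} {A : ValuationSubring Kb} {p : ℕ} (hp : 0 < p) {K : FF M}
    {Z₀ : LaurentSeries Kb} (hZ₀ : Z₀ ^ p = (K : LaurentSeries Kb)) (h0 : Z₀ ≠ 0)
    (hfix : ∀ σ ∈ muFix p ⊓ IA A, cwAct σ Z₀ = Z₀) : KRat A p K := by
  intro Z hZ σ hσ
  have h2 : (Z * Z₀⁻¹) ^ p = 1 := by
    rw [mul_pow, hZ, ← hZ₀, inv_pow, mul_inv_cancel₀ (pow_ne_zero _ h0)]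
  obtain ⟨μ, hμp, hμ⟩ := Fermat.Agent.T7.helper22.exists_const_of_pow_eq_one hp _ h2
  have h3 : Z = algebraMap Kb (LaurentSeries Kb) μ * Z₀ := by
    rw [← hμ, mul_assoc, inv_mul_cancel₀ h0, mul_one]
  have hσμ : σ μ = μ := (Subgroup.mem_inf.mp hσ).1 μ hμp
  rw [h3]
  show coeffMap (σ : Kb →+* Kb) (algebraMap Kb (LaurentSeries Kb) μ * Z₀) = _
  rw [map_mul]
  have h4 : coeffMap (σ : Kb →+* Kb) Z₀ = Z₀ := hfix σ hσ
  have h5 : coeffMap (σ : Kb →+* Kb) (algebraMap Kb (LaurentSeries Kb) μ)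
      = algebraMap Kb (LaurentSeries Kb) μ := by
    have := Fermat.Agent.T8.helper65.cwAct_algebraMap σ μ
    unfold Fermat.Agent.T8.helper65.cwAct Fermat.Agent.T8.helper65.cAct at this
    rw [this, hσμ]
  rw [h4, h5]

end Fermat.Agent.T8.helper97

end
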