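import Mathlib
import Fermat.Agent.T8.helper97_KRatOrbit
import Fermat.Agent.T8.helper88_B4Sheet
import Fermat.Agent.T7.helper27_G1Asm
import Fermat.Agent.P2.helper74_Riemann

/-!
# T8 (row 38), box [K-RAT] (helper97): a strongly split function has a RATIONAL twist

`(N, p)` a bad pair (`4 ∣ N` or `9 ∣ N`), `W` the Atkin-Lehner involution, `A` a valuation
subring of `ℚ̄` over `p`, `I_K1 = muFix p ⊓ I_A`.

* `GoodMult W p K g`   : `p * ord_P (g K) ≥ (p - 1) * ord_P K` off the two cusps (or `g = 0`);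
                         a `ℚ̄`-subspace; for `g ≠ 0` it gives `g ^ p K` regular off the cusps;
* `orbit_twist`        : every conjugate of the pair of roots `(Z₁, Z₂)` of a strongly split `K`
                         under `τ ∈ I_K1` is `(w Z₁, (W w) Z₂)` with `w` a good multiplier
                         (`helper88.b4_sheet_bad`);
* `exists_rat_twist`   : **[K-RAT]** every strongly split `K` has a twist `g ^ p K`, `g ≠ 0`, again
                         strongly split, with `KRat A p (g ^ p K)` and `KRat A p (W (g ^ p K))`: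
                         ALL `p`-th roots of its two expansions are fixed by `I_K1`.

Proof: the `ℚ̄`-span `V` of the orbit of the coefficient vector of `(Z₁, Z₂)` is finite-dimensional
(the orbit is finite), stable and consists of bounded vectors; the abstract pivot lemma
(`helper97.exists_fixed_approx`, with `T3.helper84.k0_disc_zeta` and `k0_res`) gives a FIXED
vector `y ∈ V` congruent to `(Z₁, Z₂)` modulo the maximal ideal; `y = (g Z₁, (W g) Z₂)` with `g` a
good multiplier.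
-/

set_option autoImplicit false
set_option linter.unusedSectionVars false
set_option linter.unusedVariables false
set_option linter.style.longLine false
set_option linter.style.haveILetI false
set_option synthInstance.maxHeartbeats 400000

noncomputable section

namespace Fermat.Agent.T8.helper97

open HahnSeries IntermediateField AlgebraicCurve ModularCurve
open Fermat.Agent.S18.helper19 Fermat.Agent.P2.helper29 Fermat.Agent.P2.helper93
open Fermat.Agent.T2 Fermat.Agent.T2.helper36 Fermat.Agent.T2.helper74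
open Fermat.Agent.T8.helper65 (IA muFix cwAct)

/-! ### good multipliers -/

section Good

variable {M : ℕ} [NeZero M] (W : FF M ≃ₐ[Kb] FF M) (p : ℕ) (K : FF M)

/-- the multipliers `g` with `p * ord_P (g K) ≥ (p - 1) * ord_P K` off the two cusps -/
def GoodMult (g : FF M) : Prop :=
  g = 0 ∨ ∀ P : Place Kb (FF M), ¬ IsInfty P → ¬ IsInftyW W P →
    ((p : ℤ) - 1) * P.ord K ≤ (p : ℤ) * P.ord (g * K)

variable {W p K}

theorem goodMult_zero : GoodMult W p K 0 := Or.inl rfl

theorem GoodMult.add (hK : K ≠ 0) {g₁ g₂ : FF M} (h₁ : GoodMult W p K g₁)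
    (h₂ : GoodMult W p K g₂) : GoodMult W p K (g₁ + g₂) := by
  rcases h₁ with rfl | h₁
  · rwa [zero_add]
  rcases h₂ with rfl | h₂
  · rw [add_zero]
    exact Or.inr h₁
  by_cases h0 : g₁ + g₂ = 0
  · exact Or.inl h0
  refine Or.inr fun P hP hP2 => ?_
  have hne : g₁ * K + g₂ * K ≠ 0 := by
    rw [← add_mul]
    exact mul_ne_zero h0 hK
  have h := Fermat.Agent.P2.helper74.ord_add_ge P hne
  rw [add_mul]
  have a1 := h₁ P hP hP2
  have a2 := h₂ P hP hP2
  have hp0 : (0 : ℤ) ≤ (p : ℤ) := Int.natCast_nonneg p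
  rcases min_le_iff.mp h with h' | h'
  · exact le_trans a1 (mul_le_mul_of_nonneg_left h' hp0)
  · exact le_trans a2 (mul_le_mul_of_nonneg_left h' hp0)

theorem GoodMult.smul (hK : K ≠ 0) (c : Kb) {g : FF M} (h : GoodMult W p K g) :
    GoodMult W p K (algebraMap Kb (FF M) c * g) := by
  rcases h with rfl | h
  · rw [mul_zero]
    exact Or.inl rfl
  by_cases hc : c = 0
  · rw [hc, map_zero, zero_mul]
    exact Or.inl rfl
  by_cases hg : g = 0
  · rw [hg, mul_zero]
    exact Or.inl rfl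
  refine Or.inr fun P hP hP2 => ?_
  have hc' : algebraMap Kb (FF M) c ≠ 0 := (map_ne_zero _).mpr hc
  rw [mul_assoc, P.ord_mul hc' (mul_ne_zero hg hK), Fermat.Agent.S24.helper82.ord_algebraMap,
    zero_add]
  exact h P hP hP2

theorem ord_npow (P : Place Kb (FF M)) (f : FF M) (n : ℕ) : P.ord (f ^ n) = n * P.ord f := by
  have := P.ord_zpow f (n : ℤ)
  rwa [zpow_natCast] at this

/-- for a good multiplier `g ≠ 0` the function `g ^ p K` is regular off the two cusps -/
theorem GoodMult.regular (hp : 0 < p) (hK : K ≠ 0) {g : FF M} (hg : g ≠ 0)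
    (h : GoodMult W p K g) : RegOff2 W (g ^ p * K) := by
  rcases h with h | h
  · exact absurd h hg
  intro P hP hP2
  have h1 := h P hP hP2
  have hgp : g ^ p * K ≠ 0 := mul_ne_zero (pow_ne_zero _ hg) hK
  have hKp : K ^ (p - 1) ≠ 0 := pow_ne_zero _ hK
  have e : (g * K) ^ p = g ^ p * K * K ^ (p - 1) := by
    rw [mul_pow, mul_assoc, ← pow_succ', Nat.sub_add_cancel hp]
  have h2 : (p : ℤ) * P.ord (g * K) = P.ord (g ^ p * K) + ((p : ℤ) - 1) * P.ord K := by
    rw [← ord_npow P (g * K) p, e, P.ord_mul hgp hKp, ord_npow P K (p - 1)]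
    congr 2
    have : ((p - 1 : ℕ) : ℤ) = (p : ℤ) - 1 := by
      rw [Nat.cast_sub hp]
      rfl
    exact this
  omega

end Good

/-! ### the bad pair -/

section Bad

variable (N p : ℕ) [NeZero N] [NeZero p] (hp : p.Prime) (hpN : ¬ p ∣ N)

/-- **the conjugates of the pair of roots** -/
theorem orbit_twist (hN : 4 ∣ N ∨ 9 ∣ N) (A : ValuationSubring Kb) (hA : A.LiesOverPrime p)
    (K : FF (N * p)) (hK : IsA0One (N * p) (atkinLehner N p hp hpN) A K)
    (Z₁ Z₂ : LaurentSeries A) (h1 : incl A Z₁ ^ p = (K : LaurentSeries Kb))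
    (h2 : incl A Z₂ ^ p = ((atkinLehner N p hp hpN K : FF (N * p)) : LaurentSeries Kb))
    (hr1 : red A Z₁ = 1) (hr2 : red A Z₂ = 1)
    (τ : Kb ≃ₐ[ℚ] Kb) (hτ : τ ∈ muFix p ⊓ IA A) :
    ∃ w : FF (N * p), GoodMult (atkinLehner N p hp hpN) p K w ∧
      coeffMap (τ : Kb →+* Kb) (incl A Z₁) = (w : LaurentSeries Kb) * incl A Z₁ ∧
      coeffMap (τ : Kb →+* Kb) (incl A Z₂)
        = ((atkinLehner N p hp hpN w : FF (N * p)) : LaurentSeries Kb) * incl A Z₂ := by
  obtain ⟨hτμ, hτI⟩ := Subgroup.mem_inf.mp hτ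
  obtain ⟨v, hv, hv1, hv2, hvp⟩ := Fermat.Agent.T8.helper88.b4_sheet_bad N p hp hpN hN A hA K hK
    Z₁ Z₂ h1 h2 hr1 hr2 τ hτI 1 hp.one_lt.le (fun z hz => by rw [pow_one]; exact hτμ z hz)
  have hinj : Function.Injective (incl A) := Fermat.Agent.P2.helper29.incl_injective A
  have hZ1 : incl A Z₁ ≠ 0 := by
    intro h
    have h6 : Z₁ = 0 := hinj (by rw [h, map_zero])
    rw [h6, map_zero] at hr1
    exact zero_ne_one hr1
  have hZ2 : incl A Z₂ ≠ 0 := by
    intro h
    have h6 : Z₂ = 0 := hinj (by rw [h, map_zero])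
    rw [h6, map_zero] at hr2
    exact zero_ne_one hr2
  have hKc : (K : LaurentSeries Kb) ≠ 0 := by
    rw [← h1]
    exact pow_ne_zero _ hZ1
  have hK0 : K ≠ 0 := fun h => hKc (by rw [h]; rfl)
  have hWK0 : atkinLehner N p hp hpN K ≠ 0 := (map_ne_zero _).mpr hK0
  have hsplit : p - 1 + 1 = p := Nat.sub_add_cancel hp.pos
  refine ⟨v * K⁻¹, ?_, ?_, ?_⟩
  · -- good
    by_cases hv0 : v = 0
    · rw [hv0, zero_mul]
      exact Or.inl rfl
    refine Or.inr fun P hP hP2 => ?_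
    have e1 : v * K⁻¹ * K = v := by rw [mul_assoc, inv_mul_cancel₀ hK0, mul_one]
    rw [e1]
    have hgK : galF (N * p) τ K ≠ 0 := (map_ne_zero _).mpr hK0
    have h3 : (p : ℤ) * P.ord v = P.ord (galF (N * p) τ K) + ((p : ℤ) - 1) * P.ord K := by
      rw [← ord_npow P v p, ← hvp, P.ord_mul hgK (pow_ne_zero _ hK0), ord_npow P K (p - 1)]
      congr 2
      have : ((p - 1 : ℕ) : ℤ) = (p : ℤ) - 1 := by
        rw [Nat.cast_sub hp.pos]
        rfl
      exact this
    have h4 : 0 ≤ P.ord (galF (N * p) τ K) :=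
      Fermat.Agent.T7.helper88.regOff2_galF
        (fun σ x => atkinLehner_arithmeticRingAut N p hp hpN σ x) τ hK.1 P hP hP2
    omega
  · have e : ((v * K⁻¹ : FF (N * p)) : LaurentSeries Kb)
        = (v : LaurentSeries Kb) * (K : LaurentSeries Kb)⁻¹ := rfl
    rw [e, ← hv1, ← h1]
    have h5 : incl A Z₁ ^ (p - 1) * incl A Z₁ = incl A Z₁ ^ p := by
      rw [← pow_succ, hsplit]
    have hp0 : incl A Z₁ ^ p ≠ 0 := pow_ne_zero _ hZ1
    calc coeffMap (τ : Kb →+* Kb) (incl A Z₁)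
        = coeffMap (τ : Kb →+* Kb) (incl A Z₁) * (incl A Z₁ ^ p * (incl A Z₁ ^ p)⁻¹) := by
          rw [mul_inv_cancel₀ hp0, mul_one]
      _ = coeffMap (τ : Kb →+* Kb) (incl A Z₁) * incl A Z₁ ^ (p - 1 ) * (incl A Z₁ ^ p)⁻¹
            * incl A Z₁ := by
          rw [← h5]
          ring
  · have e : ((atkinLehner N p hp hpN (v * K⁻¹) : FF (N * p)) : LaurentSeries Kb)
        = ((atkinLehner N p hp hpN v : FF (N * p)) : LaurentSeries Kb)
          * ((atkinLehner N p hp hpN K : FF (N * p)) : LaurentSeries Kb)⁻¹ := by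
      rw [map_mul, map_inv₀]
      rfl
    rw [e, ← hv2, ← h2]
    have h5 : incl A Z₂ ^ (p - 1) * incl A Z₂ = incl A Z₂ ^ p := by
      rw [← pow_succ, hsplit]
    have hp0 : incl A Z₂ ^ p ≠ 0 := pow_ne_zero _ hZ2
    calc coeffMap (τ : Kb →+* Kb) (incl A Z₂)
        = coeffMap (τ : Kb →+* Kb) (incl A Z₂) * (incl A Z₂ ^ p * (incl A Z₂ ^ p)⁻¹) := by
          rw [mul_inv_cancel₀ hp0, mul_one]
      _ = coeffMap (τ : Kb →+* Kb) (incl A Z₂) * incl A Z₂ ^ (p - 1) * (incl A Z₂ ^ p)⁻¹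
            * incl A Z₂ := by
          rw [← h5]
          ring

/-- the coefficients of an integral series, conjugated by an element of the inertia group, are
integral -/
theorem val_coeffMap_incl_le {A : ValuationSubring Kb} {τ : Kb ≃ₐ[ℚ] Kb} (hτ : τ ∈ IA A)
    (Y : LaurentSeries A) (n : ℤ) :
    A.valuation ((coeffMap (τ : Kb →+* Kb) (incl A Y)).coeff n) ≤ 1 := by
  rw [coeffMap_coeff, coeffMap_coeff]
  exact (A.valuation_le_one_iff _).mpr (apply_mem_of_mem_IA A hτ (Y.coeff n).2)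

/-- **[K-RAT]**: every strongly split function at a bad pair has a twist `g ^ p K`, again
strongly split, all of whose `p`-th roots (at both cusps) are fixed by `I_K1`. -/
theorem exists_rat_twist (hN : 4 ∣ N ∨ 9 ∣ N) (A : ValuationSubring Kb) (hA : A.LiesOverPrime p)
    {K : FF (N * p)}
    (hK : Fermat.Agent.T7.helper27.StronglySplit (N * p) (atkinLehner N p hp hpN) A p K) :
    ∃ g : FF (N * p), g ≠ 0 ∧
      Fermat.Agent.T7.helper27.StronglySplit (N * p) (atkinLehner N p hp hpN) A p (g ^ p * K) ∧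
      KRat A p (g ^ p * K) ∧ KRat A p (atkinLehner N p hp hpN (g ^ p * K)) := by
  classical
  obtain ⟨hA0, hdiv, Z₁, Z₂, h1, h2, hr1, hr2⟩ := hK
  haveI : Fact p.Prime := ⟨hp⟩
  obtain ⟨ζ, hζ⟩ := Fermat.Agent.T8.helper65.exists_primitiveRoot_Kb (p := p)
  have hinj : Function.Injective (incl A) := Fermat.Agent.P2.helper29.incl_injective A
  have hZ1 : incl A Z₁ ≠ 0 := by
    intro h
    have h6 : Z₁ = 0 := hinj (by rw [h, map_zero])
    rw [h6, map_zero] at hr1
    exact zero_ne_one hr1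
  have hZ2 : incl A Z₂ ≠ 0 := by
    intro h
    have h6 : Z₂ = 0 := hinj (by rw [h, map_zero])
    rw [h6, map_zero] at hr2
    exact zero_ne_one hr2
  have hKc : (K : LaurentSeries Kb) ≠ 0 := by
    rw [← h1]
    exact pow_ne_zero _ hZ1
  have hK0 : K ≠ 0 := fun h => hKc (by rw [h]; rfl)
  -- the orbit and its span
  set O : Set (ℤ ⊕ ℤ → Kb) := {x | ∃ σ ∈ muFix p ⊓ IA A,
    x = vec (coeffMap (σ : Kb →+* Kb) (incl A Z₁)) (coeffMap (σ : Kb →+* Kb) (incl A Z₂))} with hO
  have hOfin : O.Finite :=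
    (finite_orbit (fixedByOpen_root hp.pos h1 hZ1) (fixedByOpen_root hp.pos h2 hZ2)).subset (by
      rintro x ⟨σ, -, rfl⟩
      exact ⟨σ, rfl⟩)
  set V : Submodule Kb (ℤ ⊕ ℤ → Kb) := Submodule.span Kb O with hV
  haveI : FiniteDimensional Kb V := FiniteDimensional.span_of_finite Kb hOfin
  -- stability
  have hstab : ∀ f ∈ galSet A p, ∀ x ∈ V, (fun e => f (x e)) ∈ V := by
    rintro f ⟨σ, hσ, rfl⟩ x hx
    induction hx using Submodule.span_induction with
    | mem x hx =>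
      obtain ⟨τ, hτ, rfl⟩ := hx
      rw [vec_map, coeffMap_coeffMap, coeffMap_coeffMap]
      exact Submodule.subset_span ⟨σ * τ, mul_mem hσ hτ, rfl⟩
    | zero =>
      have : (fun e : ℤ ⊕ ℤ => ((σ : Kb ≃ₐ[ℚ] Kb) : Kb →+* Kb) ((0 : ℤ ⊕ ℤ → Kb) e))
          = (0 : ℤ ⊕ ℤ → Kb) := by
        funext e
        simp
      rw [this]
      exact V.zero_mem
    | add x y _ _ ihx ihy =>
      have : (fun e : ℤ ⊕ ℤ => ((σ : Kb ≃ₐ[ℚ] Kb) : Kb →+* Kb) ((x + y) e))
          = (fun e => ((σ : Kb ≃ₐ[ℚ] Kb) : Kb →+* Kb) (x e))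
            + (fun e => ((σ : Kb ≃ₐ[ℚ] Kb) : Kb →+* Kb) (y e)) := by
        funext e
        simp
      rw [this]
      exact V.add_mem ihx ihy
    | smul c x _ ih =>
      have : (fun e : ℤ ⊕ ℤ => ((σ : Kb ≃ₐ[ℚ] Kb) : Kb →+* Kb) ((c • x) e))
          = σ c • (fun e => ((σ : Kb ≃ₐ[ℚ] Kb) : Kb →+* Kb) (x e)) := by
        funext e
        simp
      rw [this]
      exact V.smul_mem _ ih
  -- boundedness
  have hπ1 : A.valuation (1 - ζ) ≤ 1 := (val_pi_lt hp hA hζ).le
  have hπpow : ∀ m : ℕ, A.valuation ((1 - ζ) ^ m) ≤ 1 := fun m => by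
    rw [map_pow]
    exact pow_le_one₀ zero_le hπ1
  have hbdd : ∀ x ∈ V, ∃ m : ℕ, ∀ e, A.valuation ((1 - ζ) ^ m * x e) ≤ 1 := by
    intro x hx
    induction hx using Submodule.span_induction with
    | mem x hx =>
      obtain ⟨τ, hτ, rfl⟩ := hx
      refine ⟨0, fun e => ?_⟩
      rw [pow_zero, one_mul]
      cases e with
      | inl n => exact val_coeffMap_incl_le (Subgroup.mem_inf.mp hτ).2 Z₁ n
      | inr n => exact val_coeffMap_incl_le (Subgroup.mem_inf.mp hτ).2 Z₂ n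
    | zero =>
      refine ⟨0, fun e => ?_⟩
      simp
    | add x y _ _ ihx ihy =>
      obtain ⟨m₁, h₁⟩ := ihx
      obtain ⟨m₂, h₂⟩ := ihy
      refine ⟨m₁ + m₂, fun e => ?_⟩
      have e1 : (1 - ζ) ^ (m₁ + m₂) * (x + y) e
          = (1 - ζ) ^ m₂ * ((1 - ζ) ^ m₁ * x e) + (1 - ζ) ^ m₁ * ((1 - ζ) ^ m₂ * y e) := by
        rw [Pi.add_apply, _root_.pow_add]
        ring
      rw [e1]
      refine le_trans (Valuation.map_add _ _ _) (max_le ?_ ?_)
      · rw [map_mul]
        exact mul_le_one' (hπpow m₂) (h₁ e)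
      · rw [map_mul]
        exact mul_le_one' (hπpow m₁) (h₂ e)
    | smul c x _ ih =>
      obtain ⟨m, hm⟩ := ih
      obtain ⟨k, hk⟩ := exists_pow_mul_le hp hA hζ c
      refine ⟨k + m, fun e => ?_⟩
      have e1 : (1 - ζ) ^ (k + m) * (c • x) e = ((1 - ζ) ^ k * c) * ((1 - ζ) ^ m * x e) := by
        rw [Pi.smul_apply, smul_eq_mul, _root_.pow_add]
        ring
      rw [e1, map_mul]
      exact mul_le_one' hk (hm e)
  -- twist form
  have htw : ∀ x ∈ V, ∃ g : FF (N * p), GoodMult (atkinLehner N p hp hpN) p K g ∧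
      x = vec ((g : LaurentSeries Kb) * incl A Z₁)
        (((atkinLehner N p hp hpN g : FF (N * p)) : LaurentSeries Kb) * incl A Z₂) := by
    intro x hx
    induction hx using Submodule.span_induction with
    | mem x hx =>
      obtain ⟨τ, hτ, rfl⟩ := hx
      obtain ⟨w, hw, e1, e2⟩ := orbit_twist N p hp hpN hN A hA K hA0 Z₁ Z₂ h1 h2 hr1 hr2 τ hτ
      exact ⟨w, hw, by rw [e1, e2]⟩
    | zero =>
      refine ⟨0, goodMult_zero, ?_⟩
      rw [map_zero]
      have : ((0 : FF (N * p)) : LaurentSeries Kb) = 0 := rfl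
      rw [this, zero_mul, zero_mul, vec_zero]
    | add x y _ _ ihx ihy =>
      obtain ⟨g₁, hg₁, rfl⟩ := ihx
      obtain ⟨g₂, hg₂, rfl⟩ := ihy
      refine ⟨g₁ + g₂, hg₁.add hK0 hg₂, ?_⟩
      rw [← vec_add, map_add]
      have a1 : ((g₁ + g₂ : FF (N * p)) : LaurentSeries Kb)
          = (g₁ : LaurentSeries Kb) + (g₂ : LaurentSeries Kb) := rfl
      have a2 : ((atkinLehner N p hp hpN g₁ + atkinLehner N p hp hpN g₂ : FF (N * p)) :
          LaurentSeries Kb) = ((atkinLehner N p hp hpN g₁ : FF (N * p)) : LaurentSeries Kb)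
            + ((atkinLehner N p hp hpN g₂ : FF (N * p)) : LaurentSeries Kb) := rfl
      rw [a1, a2, add_mul, add_mul]
    | smul c x _ ih =>
      obtain ⟨g, hg, rfl⟩ := ih
      refine ⟨algebraMap Kb (FF (N * p)) c * g, hg.smul hK0 c, ?_⟩
      rw [← vec_smul, map_mul, AlgEquiv.commutes]
      have a1 : ((algebraMap Kb (FF (N * p)) c * g : FF (N * p)) : LaurentSeries Kb)
          = algebraMap Kb (LaurentSeries Kb) c * (g : LaurentSeries Kb) := rfl
      have a2 : ((algebraMap Kb (FF (N * p)) c * atkinLehner N p hp hpN g : FF (N * p)) :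
          LaurentSeries Kb) = algebraMap Kb (LaurentSeries Kb) c
            * ((atkinLehner N p hp hpN g : FF (N * p)) : LaurentSeries Kb) := rfl
      rw [a1, a2, mul_assoc, mul_assoc]
  -- the vector of the pair of roots
  have hzV : vec (incl A Z₁) (incl A Z₂) ∈ V := by
    refine Submodule.subset_span ⟨1, one_mem _, ?_⟩
    have h1' : ∀ X : LaurentSeries Kb,
        coeffMap (((1 : Kb ≃ₐ[ℚ] Kb) : Kb ≃ₐ[ℚ] Kb) : Kb →+* Kb) X = X := by
      intro X
      ext n
      rw [coeffMap_coeff]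
      rfl
    rw [h1', h1']
  have hzint : ∀ e, A.valuation (vec (incl A Z₁) (incl A Z₂) e) ≤ 1 := by
    intro e
    cases e with
    | inl n =>
      rw [vec_inl, coeffMap_coeff]
      exact (A.valuation_le_one_iff _).mpr (Z₁.coeff n).2
    | inr n =>
      rw [vec_inr, coeffMap_coeff]
      exact (A.valuation_le_one_iff _).mpr (Z₂.coeff n).2
  obtain ⟨y, hyV, hyfix, hyz⟩ := exists_fixed_approx A.valuation (galSet A p) (1 - ζ)
    (pi_ne_zero hp hζ) (val_pi_lt hp hA hζ) (disc_galSet hp hA hζ) (res_galSet hp hA) V hstab hbdd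
    (vec (incl A Z₁) (incl A Z₂)) hzV hzint
  obtain ⟨g, hg, rfl⟩ := htw y hyV
  -- the new roots
  set Y₁ : LaurentSeries Kb := (g : LaurentSeries Kb) * incl A Z₁ with hY₁
  set Y₂ : LaurentSeries Kb :=
    ((atkinLehner N p hp hpN g : FF (N * p)) : LaurentSeries Kb) * incl A Z₂ with hY₂
  have hclose1 : ∀ n, A.valuation (Y₁.coeff n - (incl A Z₁).coeff n) < 1 :=
    fun n => hyz (Sum.inl n)
  have hclose2 : ∀ n, A.valuation (Y₂.coeff n - (incl A Z₂).coeff n) < 1 :=
    fun n => hyz (Sum.inr n)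
  have hint : ∀ (Y : LaurentSeries Kb) (Z₀ : LaurentSeries A),
      (∀ n, A.valuation (Y.coeff n - (incl A Z₀).coeff n) < 1) → red A Z₀ = 1 →
      ∃ Z' : LaurentSeries A, incl A Z' = Y ∧ red A Z' = 1 := by
    intro Y Z₀ hcl hr
    have hmem : ∀ n, Y.coeff n ∈ A := by
      intro n
      have h3 : Y.coeff n = (Y.coeff n - (incl A Z₀).coeff n) + (incl A Z₀).coeff n := by ring
      rw [h3]
      refine A.add_mem _ _ ((A.valuation_le_one_iff _).mp (hcl n).le) ?_
      rw [coeffMap_coeff]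
      exact (Z₀.coeff n).2
    obtain ⟨Z', hZ'⟩ := exists_incl_of_coeff_mem A Y hmem
    refine ⟨Z', hZ', ?_⟩
    rw [← hr]
    ext n
    rw [coeffMap_coeff, coeffMap_coeff]
    have h4 : ((Z'.coeff n : A) : Kb) = Y.coeff n := by
      rw [← hZ', coeffMap_coeff]
      rfl
    have h5 : A.valuation (((Z'.coeff n - Z₀.coeff n : A)) : Kb) < 1 := by
      have := hcl n
      rw [← h4, coeffMap_coeff] at this
      exact this
    have h6 : Z'.coeff n - Z₀.coeff n ∈ IsLocalRing.maximalIdeal A :=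
      (A.valuation_lt_one_iff _).mpr h5
    exact (Ideal.Quotient.eq).mpr h6
  obtain ⟨Z₁', hZ₁', hr1'⟩ := hint Y₁ Z₁ hclose1 hr1
  obtain ⟨Z₂', hZ₂', hr2'⟩ := hint Y₂ Z₂ hclose2 hr2
  have hY1ne : Y₁ ≠ 0 := by
    intro h
    have h6 : Z₁' = 0 := hinj (by rw [hZ₁', h, map_zero])
    rw [h6, map_zero] at hr1'
    exact zero_ne_one hr1'
  have hY2ne : Y₂ ≠ 0 := by
    intro h
    have h6 : Z₂' = 0 := hinj (by rw [hZ₂', h, map_zero])
    rw [h6, map_zero] at hr2'
    exact zero_ne_one hr2'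
  have hg0 : g ≠ 0 := by
    rintro rfl
    apply hY1ne
    rw [hY₁]
    have : ((0 : FF (N * p)) : LaurentSeries Kb) = 0 := rfl
    rw [this, zero_mul]
  -- the powers
  have hpow1 : Y₁ ^ p = ((g ^ p * K : FF (N * p)) : LaurentSeries Kb) := by
    rw [hY₁, mul_pow, h1]
    rfl
  have hpow2 : Y₂ ^ p
      = ((atkinLehner N p hp hpN (g ^ p * K) : FF (N * p)) : LaurentSeries Kb) := by
    rw [hY₂, mul_pow, h2, map_mul, map_pow]
    rfl
  -- fixedness
  have hfixY : ∀ σ ∈ muFix p ⊓ IA A, cwAct σ Y₁ = Y₁ ∧ cwAct σ Y₂ = Y₂ := by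
    intro σ hσ
    have h7 := hyfix _ (mem_galSet hσ)
    constructor
    · ext n
      show (coeffMap (σ : Kb →+* Kb) Y₁).coeff n = _
      rw [coeffMap_coeff]
      exact h7 (Sum.inl n)
    · ext n
      show (coeffMap (σ : Kb →+* Kb) Y₂).coeff n = _
      rw [coeffMap_coeff]
      exact h7 (Sum.inr n)
  refine ⟨g, hg0, ⟨⟨hg.regular hp.pos hK0 hg0, Z₁' ^ p, Z₂' ^ p, ?_, ?_, ?_, ?_⟩, ?_,
    Z₁', Z₂', ?_, ?_, hr1', hr2'⟩, ?_, ?_⟩
  · rw [map_pow, hZ₁', hpow1]
  · rw [map_pow, hZ₂', hpow2]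
  · rw [map_pow, hr1', one_pow]
  · rw [map_pow, hr2', one_pow]
  · intro P
    rw [P.ord_mul (pow_ne_zero _ hg0) hK0, ord_npow]
    exact dvd_add (Dvd.intro _ rfl) (hdiv P)
  · rw [hZ₁', hpow1]
  · rw [hZ₂', hpow2]
  · exact kRat_of_root hp.pos hpow1 hY1ne (fun σ hσ => (hfixY σ hσ).1)
  · exact kRat_of_root hp.pos hpow2 hY2ne (fun σ hσ => (hfixY σ hσ).2)

end Bad

end Fermat.Agent.T8.helper97

end
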