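import Mathlib

/-!
# T8 [SHEETS] (helper97, owner): sheet separation over a double point, abstract form

Setting (all abstract, Mathlib only).  `R` is the local ring at a double point `s` of the
`I`-fixed integral regular functions, `red : R →+* D` the reduction onto the local ring `D` of
one component at `s` (a discrete valuation ring in the application), `y ∈ R` the generator of
its kernel.  `S` is the normalisation of `R` in the `I`-fixed part of the function field of the
cover, and `ρ j : S →+* D` (`j : ι`, `ι` finite, in the application `ι = ZMod p`) are the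
reductions on the sheets of the cover over that component.

`SheetData red y ρ` collects what the instance has to provide:

* `comp`    : `ρ j` extends `red`;
* `red_y`   : `red y = 0`;
* `ker`     : an element of `S` vanishing on every sheet is divisible by `y` in `S`;
* `sep`     : there is `t : S` whose values on two different sheets differ by a unit of `D`
              (in the application the tame trace of `Y = (Z - 1) / λ`, values `E + j`).

Results:

* `sheetMax ρ j`            : the maximal ideal of `S` cut out by the sheet `j`;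
* `sheetMax_injective`      : different sheets give different maximal ideals;
* `exists_eq_sheetMax`      : every maximal ideal of `S` containing `y` is a `sheetMax ρ j`
                              (so there are exactly `card ι` of them over the double point);
* `locRed`                  : the reduction on the localisation at `sheetMax ρ j`;
* `ker_locRed`              : its kernel is the principal ideal generated by `y`;
* `quotEquiv`               : `S_(m_j) ⧸ (y) ≃+* D`;
* `isDomain_quot`, `isPrincipalIdealRing_quot` : the hypotheses of [UFD2] at `sheetMax ρ j`.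
-/

set_option autoImplicit false
set_option linter.unusedSectionVars false

namespace Fermat.Agent.T8.helper97

open Ideal IsLocalRing

section Sheets

variable {R S D ι : Type*} [CommRing R] [CommRing S] [CommRing D] [Algebra R S]
  [IsLocalRing D]

/-- the data of the sheets of the cover over one component through a double point -/
structure SheetData (red : R →+* D) (y : R) (ρ : ι → S →+* D) : Prop where
  red_surj : Function.Surjective red
  comp : ∀ (j : ι) (r : R), ρ j (algebraMap R S r) = red r
  red_y : red y = 0
  ker : ∀ g : S, (∀ j, ρ j g = 0) → ∃ s : S, g = algebraMap R S y * s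
  sep : ∃ t : S, ∀ j j' : ι, j ≠ j' → IsUnit (ρ j t - ρ j' t)

/-- the maximal ideal of `S` cut out by the sheet `j` -/
def sheetMax (ρ : ι → S →+* D) (j : ι) : Ideal S := (maximalIdeal D).comap (ρ j)

variable {red : R →+* D} {y : R} {ρ : ι → S →+* D}

theorem mem_sheetMax {j : ι} {g : S} : g ∈ sheetMax ρ j ↔ ¬ IsUnit (ρ j g) := by
  rw [sheetMax, Ideal.mem_comap, mem_maximalIdeal, mem_nonunits_iff]

namespace SheetData

variable (h : SheetData red y ρ)
include h

theorem surj (j : ι) : Function.Surjective (ρ j) := by
  intro d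
  obtain ⟨r, rfl⟩ := h.red_surj d
  exact ⟨algebraMap R S r, h.comp j r⟩

theorem sheetMax_isMaximal (j : ι) : (sheetMax ρ j).IsMaximal :=
  Ideal.comap_isMaximal_of_surjective (ρ j) (h.surj j)

theorem ker_le_sheetMax (j : ι) : RingHom.ker (ρ j) ≤ sheetMax ρ j := by
  intro g hg
  rw [mem_sheetMax, RingHom.mem_ker.mp hg]
  exact not_isUnit_zero

theorem map_y (j : ι) : ρ j (algebraMap R S y) = 0 := by rw [h.comp, h.red_y]

theorem y_mem_sheetMax (j : ι) : algebraMap R S y ∈ sheetMax ρ j :=
  h.ker_le_sheetMax j (RingHom.mem_ker.mpr (h.map_y j))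

/-- an element of the sheet prime `j'` which is a unit at the point of the sheet `j ≠ j'` -/
theorem exists_mem_ker_isUnit {j j' : ι} (hjj' : j ≠ j') :
    ∃ g : S, ρ j' g = 0 ∧ IsUnit (ρ j g) := by
  obtain ⟨t, ht⟩ := h.sep
  obtain ⟨r, hr⟩ := h.red_surj (ρ j' t)
  refine ⟨t - algebraMap R S r, ?_, ?_⟩
  · rw [map_sub, h.comp, hr, sub_self]
  · rw [map_sub, h.comp, hr]
    exact ht j j' hjj'

/-- the sheet prime `j'` is not contained in the maximal ideal of another sheet `j` -/
theorem not_ker_le_sheetMax {j j' : ι} (hjj' : j ≠ j') :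
    ¬ RingHom.ker (ρ j') ≤ sheetMax ρ j := by
  intro hle
  obtain ⟨g, hg0, hgu⟩ := h.exists_mem_ker_isUnit hjj'
  exact mem_sheetMax.mp (hle (RingHom.mem_ker.mpr hg0)) hgu

/-- different sheets give different maximal ideals -/
theorem sheetMax_injective : Function.Injective (sheetMax ρ) := by
  intro j j' hjj
  by_contra hne
  apply h.not_ker_le_sheetMax hne
  rw [hjj]
  exact h.ker_le_sheetMax j'

/-- a maximal ideal containing a sheet prime is the maximal ideal of that sheet -/
theorem eq_sheetMax_of_ker_le {m : Ideal S} [hm : m.IsMaximal] {j : ι}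
    (hle : RingHom.ker (ρ j) ≤ m) : m = sheetMax ρ j := by
  have hmax := h.sheetMax_isMaximal j
  refine (hm.eq_of_le hmax.ne_top ?_)
  intro g hg
  rw [mem_sheetMax]
  intro hu
  obtain ⟨d, hd⟩ := hu.exists_right_inv
  obtain ⟨g', rfl⟩ := h.surj j d
  have h1 : g * g' - 1 ∈ RingHom.ker (ρ j) := by
    rw [RingHom.mem_ker, map_sub, map_mul, hd, map_one, sub_self]
  have h2 : g * g' - 1 ∈ m := hle h1
  have h3 : g * g' ∈ m := m.mul_mem_right g' hg
  have h4 : (1 : S) ∈ m := by
    have := m.sub_mem h3 h2
    simpa using this
  exact hm.ne_top ((Ideal.eq_top_iff_one m).mpr h4)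

/-- every maximal ideal of `S` containing `y` is the maximal ideal of a sheet -/
theorem exists_eq_sheetMax [Finite ι] (m : Ideal S) [hm : m.IsMaximal]
    (hy : algebraMap R S y ∈ m) : ∃ j, m = sheetMax ρ j := by
  classical
  cases nonempty_fintype ι
  by_contra hcon
  push Not at hcon
  have hex : ∀ j, ∃ g : S, ρ j g = 0 ∧ g ∉ m := by
    intro j
    by_contra hj
    push Not at hj
    exact hcon j (h.eq_sheetMax_of_ker_le (fun g hg => hj g (RingHom.mem_ker.mp hg)))
  choose g hg0 hgm using hex
  have hprod : ∀ k, ρ k (∏ j, g j) = 0 := by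
    intro k
    rw [map_prod]
    exact Finset.prod_eq_zero (Finset.mem_univ k) (hg0 k)
  obtain ⟨s, hs⟩ := h.ker _ hprod
  have hmem : (∏ j, g j) ∈ m := by
    rw [hs]
    exact m.mul_mem_right s hy
  obtain ⟨j, -, hj⟩ := (hm.isPrime.prod_mem_iff).mp hmem
  exact hgm j hj

/-! ### The localisation at the point of a sheet -/

section Loc

variable (j : ι) {T : Type*} [CommRing T] [Algebra S T] [hP : (sheetMax ρ j).IsPrime]
  [IsLocalization.AtPrime T (sheetMax ρ j)]

theorem isUnit_of_primeCompl (x : (sheetMax ρ j).primeCompl) : IsUnit (ρ j x) := by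
  by_contra hx
  exact x.2 (mem_sheetMax.mpr hx)

/-- the reduction on the localisation at the point of the sheet `j` -/
noncomputable def locRed : T →+* D :=
  IsLocalization.lift (M := (sheetMax ρ j).primeCompl) (S := T) (g := ρ j)
    (fun x => h.isUnit_of_primeCompl j x)

@[simp] theorem locRed_algebraMap (g : S) : h.locRed j (T := T) (algebraMap S T g) = ρ j g :=
  IsLocalization.lift_eq _ g

theorem locRed_surjective : Function.Surjective (h.locRed j (T := T)) := by
  intro d
  obtain ⟨g, rfl⟩ := h.surj j d
  exact ⟨algebraMap S T g, h.locRed_algebraMap j g⟩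

/-- the generator `y` in the localisation -/
def yLoc (_h : SheetData red y ρ) (T : Type*) [CommRing T] [Algebra S T] : T :=
  algebraMap S T (algebraMap R S y)

theorem locRed_yLoc : h.locRed j (T := T) (yLoc h T) = 0 := by
  rw [yLoc, locRed_algebraMap, h.map_y]

/-- **sheet separation, local principality**: the kernel of the reduction on the localisation at
the point of the sheet `j` is generated by `y`. -/
theorem ker_locRed [Finite ι] :
    RingHom.ker (h.locRed j (T := T)) = Ideal.span {yLoc h T} := by
  classical
  cases nonempty_fintype ι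
  apply le_antisymm
  · intro z hz
    rw [RingHom.mem_ker] at hz
    obtain ⟨a, b, rfl⟩ := IsLocalization.exists_mk'_eq (sheetMax ρ j).primeCompl z
    have hb : IsUnit (algebraMap S T (b : S)) := IsLocalization.map_units T b
    have ha : ρ j a = 0 := by
      have h1 : h.locRed j (T := T) (IsLocalization.mk' T a b) * ρ j b = ρ j a := by
        rw [← h.locRed_algebraMap j (T := T) (b : S), ← map_mul, IsLocalization.mk'_spec,
          locRed_algebraMap]
      rw [hz, zero_mul] at h1
      exact h1.symm
    -- the multiplier vanishing on the other sheets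
    have hex : ∀ j' : ι, ∃ g : S, (j' ≠ j → ρ j' g = 0) ∧ IsUnit (ρ j g) := by
      intro j'
      by_cases hjj : j' = j
      · exact ⟨1, fun hne => absurd hjj hne, by rw [map_one]; exact isUnit_one⟩
      · obtain ⟨g, hg0, hgu⟩ := h.exists_mem_ker_isUnit (j := j) (j' := j') (Ne.symm hjj)
        exact ⟨g, fun _ => hg0, hgu⟩
    choose g hg0 hgu using hex
    set hh : S := ∏ j', g j' with hhdef
    have hhu : IsUnit (ρ j hh) := by
      rw [hhdef, map_prod]
      exact IsUnit.prod_univ_iff.mpr (fun j' => hgu j')
    have hvan : ∀ k, ρ k (a * hh) = 0 := by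
      intro k
      by_cases hk : k = j
      · rw [hk, map_mul, ha, zero_mul]
      · rw [map_mul, hhdef, map_prod, Finset.prod_eq_zero (Finset.mem_univ k) (hg0 k hk),
          mul_zero]
    obtain ⟨s, hs⟩ := h.ker _ hvan
    have hhm : hh ∈ (sheetMax ρ j).primeCompl := fun hmem => (mem_sheetMax.mp hmem) hhu
    have hhT : IsUnit (algebraMap S T hh) := IsLocalization.map_units T ⟨hh, hhm⟩
    rw [Ideal.mem_span_singleton']
    obtain ⟨ub, hub⟩ := hb
    obtain ⟨uh, huh⟩ := hhT
    refine ⟨algebraMap S T s * ((ub⁻¹ : Tˣ) : T) * ((uh⁻¹ : Tˣ) : T), ?_⟩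
    have h2 : algebraMap S T a * algebraMap S T hh = yLoc h T * algebraMap S T s := by
      rw [← map_mul, hs, map_mul, yLoc]
    have h3 : IsLocalization.mk' T a b * algebraMap S T (b : S) = algebraMap S T a :=
      IsLocalization.mk'_spec T a b
    have h4 : IsLocalization.mk' T a b = algebraMap S T a * ((ub⁻¹ : Tˣ) : T) := by
      rw [← h3, ← hub, mul_assoc, Units.mul_inv, mul_one]
    rw [h4]
    have h5 : algebraMap S T a = yLoc h T * algebraMap S T s * ((uh⁻¹ : Tˣ) : T) := by
      rw [← h2, ← huh, mul_assoc, Units.mul_inv, mul_one]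
    rw [h5]
    ring
  · rw [Ideal.span_le, Set.singleton_subset_iff]
    exact RingHom.mem_ker.mpr (h.locRed_yLoc j)

/-- `S_(m_j) ⧸ (y) ≃+* D` -/
noncomputable def quotEquiv [Finite ι] : (T ⧸ Ideal.span {yLoc h T}) ≃+* D :=
  (Ideal.quotEquivOfEq (h.ker_locRed j (T := T)).symm).trans
    (RingHom.quotientKerEquivOfSurjective (h.locRed_surjective j (T := T)))

/-- [UFD2] hypothesis at the point of the sheet `j`: the quotient by `y` is a domain -/
theorem isDomain_quot [Finite ι] [IsDomain D] (j : ι) (T : Type*) [CommRing T] [Algebra S T]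
    [(sheetMax ρ j).IsPrime] [IsLocalization.AtPrime T (sheetMax ρ j)] :
    IsDomain (T ⧸ Ideal.span {yLoc h T}) :=
  (h.quotEquiv j (T := T)).toMulEquiv.isDomain D

/-- [UFD2] hypothesis at the point of the sheet `j`: the quotient by `y` is principal -/
theorem isPrincipalIdealRing_quot [Finite ι] [IsPrincipalIdealRing D] (j : ι) (T : Type*)
    [CommRing T] [Algebra S T] [(sheetMax ρ j).IsPrime]
    [IsLocalization.AtPrime T (sheetMax ρ j)] :
    IsPrincipalIdealRing (T ⧸ Ideal.span {yLoc h T}) :=
  IsPrincipalIdealRing.of_surjective (h.quotEquiv j (T := T)).symm.toRingHom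
    (h.quotEquiv j (T := T)).symm.surjective

/-- `y` lies in the maximal ideal of the localisation -/
theorem yLoc_mem_maximalIdeal (j : ι) (T : Type*) [CommRing T] [Algebra S T]
    [(sheetMax ρ j).IsPrime] [IsLocalization.AtPrime T (sheetMax ρ j)] [IsLocalRing T] :
    yLoc h T ∈ maximalIdeal T := by
  rw [mem_maximalIdeal, mem_nonunits_iff]
  intro hu
  have := hu.map (h.locRed j (T := T))
  rw [h.locRed_yLoc j] at this
  exact not_isUnit_zero this

end Loc

end SheetData

end Sheets

/-! ### Incidence of the two families of sheets through a double point -/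

section Incidence

variable {R S D₁ D₂ ι₁ ι₂ : Type*} [CommRing R] [CommRing S] [CommRing D₁] [CommRing D₂]
  [Algebra R S] [IsLocalRing D₁] [IsLocalRing D₂]
  {red₁ : R →+* D₁} {red₂ : R →+* D₂} {x y : R} {ρ₁ : ι₁ → S →+* D₁} {ρ₂ : ι₂ → S →+* D₂}

/-- At a double point (`red₁ y` is not a unit) the point of every sheet over the first component
lies on exactly one sheet over the second component. -/
theorem exists_unique_sheetMax_eq [Finite ι₂] (h₁ : SheetData red₁ x ρ₁)
    (h₂ : SheetData red₂ y ρ₂) (hy : ¬ IsUnit (red₁ y)) (i : ι₁) :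
    ∃! j : ι₂, sheetMax ρ₁ i = sheetMax ρ₂ j := by
  haveI := h₁.sheetMax_isMaximal i
  have hmem : algebraMap R S y ∈ sheetMax ρ₁ i := by
    rw [mem_sheetMax, h₁.comp]
    exact hy
  obtain ⟨j, hj⟩ := h₂.exists_eq_sheetMax (sheetMax ρ₁ i) hmem
  refine ⟨j, hj, fun j' hj' => ?_⟩
  exact h₂.sheetMax_injective (hj'.symm.trans hj)

end Incidence

end Fermat.Agent.T8.helper97
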