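import Fermat.Agent.T8.helper97_SheetsAbs
import Fermat.Agent.T8.helper6_SlopeAbs

/-!
# T8 [SHEETS] (helper97): wiring of the sheet data into [UFD2] / [SLOPE]

`S` a noetherian domain (the normalisation of `R_s` in the `I`-fixed part of the function field
of the cover), `h₂ : SheetData red₂ y ρ₂` the sheets over the component `C₂` with `D₂` a
principal ideal domain (the local ring of `C₂` at `s`).  Then the localisation `T` of `S` at the
point of the sheet `j` satisfies the hypotheses of `helper6.slope_abs`: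

* `slope_at_sheet`  : [SLOPE] at the point of the sheet `j`, for an arbitrary reduction
  `red' : T →+* E`;
* `locRedOf`        : the reduction `T →+* D₁` on the sheet `(1, i)` through the same point
  (`sheetMax ρ₁ i = sheetMax ρ₂ j`);
* `slope_double`    : [SLOPE] at a double point of the cover: elements `a, b` of `S`, reduced on
  the sheet `(1, i)`, with congruent prime multiplicities in `T`.
-/

set_option autoImplicit false
set_option linter.unusedSectionVars false
set_option linter.style.haveILetI false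

namespace Fermat.Agent.T8.helper97

open Ideal IsLocalRing

section Slope

variable {R S D₂ ι₂ : Type*} [CommRing R] [CommRing S] [CommRing D₂] [Algebra R S]
  [IsLocalRing D₂] [IsDomain D₂] [IsPrincipalIdealRing D₂] [IsDomain S] [IsNoetherianRing S]
  [Finite ι₂] {red₂ : R →+* D₂} {y : R} {ρ₂ : ι₂ → S →+* D₂}

/-- **[SLOPE] at the point of a sheet.** -/
theorem slope_at_sheet (h₂ : SheetData red₂ y ρ₂) (j : ι₂) (T : Type*) [CommRing T]
    [Algebra S T] [hP : (sheetMax ρ₂ j).IsPrime] [IsLocalization.AtPrime T (sheetMax ρ₂ j)]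
    {E : Type*} [CommRing E] [IsDomain E] (red' : T →+* E) (ord : E → ℤ)
    (hmul : ∀ u v : E, u ≠ 0 → v ≠ 0 → ord (u * v) = ord u + ord v)
    (hunit : ∀ u : Tˣ, ord (red' u) = 0)
    (n : ℕ) (hn : 0 < n) {a b : T} (ha : red' a ≠ 0) (hb : red' b ≠ 0)
    (hm : ∀ π : T, Prime π → ∀ k l : ℕ, π ^ k ∣ a → ¬ π ^ (k + 1) ∣ a →
      π ^ l ∣ b → ¬ π ^ (l + 1) ∣ b → k ≡ l [MOD n]) :
    (n : ℤ) ∣ ord (red' a) - ord (red' b) := by
  haveI : IsLocalRing T := IsLocalization.AtPrime.isLocalRing T (sheetMax ρ₂ j)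
  haveI : IsDomain T :=
    IsLocalization.isDomain_of_le_nonZeroDivisors (R := S) (M := (sheetMax ρ₂ j).primeCompl) T
      (Ideal.primeCompl_le_nonZeroDivisors _)
  haveI : IsNoetherianRing T :=
    IsLocalization.isNoetherianRing (sheetMax ρ₂ j).primeCompl T inferInstance
  haveI : IsDomain (T ⧸ Ideal.span {SheetData.yLoc h₂ T}) := h₂.isDomain_quot j T
  haveI : IsPrincipalIdealRing (T ⧸ Ideal.span {SheetData.yLoc h₂ T}) :=
    h₂.isPrincipalIdealRing_quot j T
  exact Fermat.Agent.T8.helper6.slope_abs (h₂.yLoc_mem_maximalIdeal j T) red' ord hmul hunit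
    n hn ha hb hm

end Slope

section Double

variable {R S D₁ D₂ ι₁ ι₂ : Type*} [CommRing R] [CommRing S] [CommRing D₁] [CommRing D₂]
  [Algebra R S] [IsLocalRing D₁] [IsLocalRing D₂]
  {red₁ : R →+* D₁} {red₂ : R →+* D₂} {x y : R} {ρ₁ : ι₁ → S →+* D₁} {ρ₂ : ι₂ → S →+* D₂}

/-- the reduction on the sheet `(1, i)` of the localisation at the point of the sheet `(2, j)`,
when the two points agree -/
noncomputable def locRedOf {i : ι₁} {j : ι₂} (hij : sheetMax ρ₁ i = sheetMax ρ₂ j)
    (T : Type*) [CommRing T] [Algebra S T] [hP : (sheetMax ρ₂ j).IsPrime]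
    [IsLocalization.AtPrime T (sheetMax ρ₂ j)] : T →+* D₁ :=
  IsLocalization.lift (M := (sheetMax ρ₂ j).primeCompl) (S := T) (g := ρ₁ i)
    (fun u => by
      by_contra hu
      have hmem : (u : S) ∈ sheetMax ρ₁ i := mem_sheetMax.mpr hu
      have hle : sheetMax ρ₁ i ≤ sheetMax ρ₂ j := le_of_eq hij
      exact u.2 (hle hmem))

@[simp] theorem locRedOf_algebraMap {i : ι₁} {j : ι₂} (hij : sheetMax ρ₁ i = sheetMax ρ₂ j)
    (T : Type*) [CommRing T] [Algebra S T] [hP : (sheetMax ρ₂ j).IsPrime]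
    [IsLocalization.AtPrime T (sheetMax ρ₂ j)] (g : S) :
    locRedOf hij T (algebraMap S T g) = ρ₁ i g :=
  IsLocalization.lift_eq _ g

variable [IsDomain D₁] [IsDomain D₂] [IsPrincipalIdealRing D₂] [IsDomain S]
  [IsNoetherianRing S] [Finite ι₂]

/-- **[SLOPE] at a double point of the cover.**  `a, b ∈ S` with nonzero reductions on the sheet
`(1, i)` and congruent prime multiplicities in the local ring `T` at the point: the orders of
the reductions are congruent modulo `n`. -/
theorem slope_double (h₂ : SheetData red₂ y ρ₂) {i : ι₁} {j : ι₂}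
    (hij : sheetMax ρ₁ i = sheetMax ρ₂ j)
    (T : Type*) [CommRing T] [Algebra S T] [hP : (sheetMax ρ₂ j).IsPrime]
    [IsLocalization.AtPrime T (sheetMax ρ₂ j)]
    (ord : D₁ → ℤ) (hmul : ∀ u v : D₁, u ≠ 0 → v ≠ 0 → ord (u * v) = ord u + ord v)
    (hunit : ∀ u : D₁ˣ, ord u = 0)
    (n : ℕ) (hn : 0 < n) {a b : S} (ha : ρ₁ i a ≠ 0) (hb : ρ₁ i b ≠ 0)
    (hm : ∀ π : T, Prime π → ∀ k l : ℕ, π ^ k ∣ algebraMap S T a →
      ¬ π ^ (k + 1) ∣ algebraMap S T a → π ^ l ∣ algebraMap S T b →
      ¬ π ^ (l + 1) ∣ algebraMap S T b → k ≡ l [MOD n]) :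
    (n : ℤ) ∣ ord (ρ₁ i a) - ord (ρ₁ i b) := by
  have key := slope_at_sheet h₂ j T (locRedOf hij T) ord hmul
    (fun u => hunit (Units.map (locRedOf hij T).toMonoidHom u)) n hn
    (a := algebraMap S T a) (b := algebraMap S T b)
    (by rw [locRedOf_algebraMap]; exact ha) (by rw [locRedOf_algebraMap]; exact hb) hm
  rwa [locRedOf_algebraMap, locRedOf_algebraMap] at key

end Double

end Fermat.Agent.T8.helper97
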