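import Fermat.Agent.T8.helper29_KRat
import Fermat.Agent.T8.helper57_KRatTheta

/-!
# T8 = row 38 via S44, box [K-RAT]: CLOSED (helper98, assembly only)

* `thetaAll : helper29.ThetaAll`   : the box (KR1) at every prime (`helper57.thetaStatement57`);
* `kRatAll  : helper29.KRatAll`    : the box [K-RAT] at the bad pairs of the Frey packages
                                     (`helper29.kRatAll_of_theta`), UNCONDITIONAL;
* `nonSplitWall_of_covPtFix`, `nonSplitWall_of_k0CoverFix` : the non-split wall from the cover
  instance ALONE (`helper29.CovPtFix` resp. `helper29.K0CoverFix`).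
-/

set_option autoImplicit false
set_option linter.unusedVariables false

namespace Fermat.Agent.T8.helper98

/-- **the box (KR1)** at every prime -/
theorem thetaAll : Fermat.Agent.T8.helper29.ThetaAll :=
  fun _ A hp hA => Fermat.Agent.T8.helper57.thetaStatement57 hp A hA

/-- **the box [K-RAT]**, unconditional -/
theorem kRatAll : Fermat.Agent.T8.helper29.KRatAll :=
  Fermat.Agent.T8.helper29.kRatAll_of_theta thetaAll

/-- **the non-split wall from the local rings of the covers with rational roots** -/
theorem nonSplitWall_of_covPtFix (π : Fermat.Agent.T8.helper72.PullData)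
    (h : Fermat.Agent.T8.helper29.CovPtFix) :
    Fermat.Agent.T8.helper38.NonSplitWallStatement π Fermat.Agent.T8.helper29.wallBN :=
  Fermat.Agent.T8.helper29.nonSplitWall_of_covPtFix π kRatAll h

/-- **the non-split wall from the K0-corollary on the covers with rational roots** -/
theorem nonSplitWall_of_k0CoverFix (π : Fermat.Agent.T8.helper72.PullData)
    (h : Fermat.Agent.T8.helper29.K0CoverFix) :
    Fermat.Agent.T8.helper38.NonSplitWallStatement π Fermat.Agent.T8.helper29.wallBN :=
  Fermat.Agent.T8.helper29.nonSplitWall_of_k0CoverFix π kRatAll h

end Fermat.Agent.T8.helper98
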