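import Mathlib
import Fermat.Agent.T8.helper98_SplitSlope
import Fermat.Agent.T8.helper16_RingXDefs
import Fermat.Agent.T2.helper96_ValBase

/-!
# T8 = row 38 via S44, leaf [SPLIT] (helper98, owner): bridge [RING-X] ⟹ input of [SPLIT]

* `placeOfEq`, `ord_placeOfEq` : transport of places along an equality of intermediate fields
  (used for `FFb A (N q) = FFb A N`, T2 `helper96.FFb_mul_eq`);
* `k0Fin_of_slopeX` : the consumer statement `helper16.SlopeXStatement N q hq hqN A B` of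
  [RING-X] gives the non-cuspidal half `K0FinStatement` of the input of [SPLIT]
  (`ν` = the element of `FFb A (N q)` with expansion `iota B`).
-/

set_option autoImplicit false
set_option linter.unusedSectionVars false
set_option linter.unusedVariables false
set_option linter.style.longLine false
set_option linter.style.haveILetI false

noncomputable section

namespace Fermat.Agent.T8.helper98

open HahnSeries IntermediateField AlgebraicCurve ModularCurve
open Fermat.Agent.S18.helper19 Fermat.Agent.P2.helper29 Fermat.Agent.P2.helper93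
open Fermat.Agent.T3.helper36 (RhoQ GaussIs)
open Fermat.Agent.T8.helper65 (HasRed K0CorAt K1CorAt muFix IA IsRedQuot)
open Fermat.Agent.P2.helper66 (iota)

/-! ### Transport of places along an equality of intermediate fields -/

section Transfer

variable {k : Type*} [Field k] {L : Type*} [Field L] [Algebra k L]

/-- transport of a place along an equality of intermediate fields -/
def placeOfEq {E E' : IntermediateField k L} (h : E = E') (Q : Place k E) : Place k E' :=
  Fermat.Agent.T3.helper23.placeComap (IntermediateField.equivOfEq h.symm) Q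

theorem ord_placeOfEq {E E' : IntermediateField k L} (h : E = E') (Q : Place k E) (x : L)
    (hx : x ∈ E') (hx' : x ∈ E) :
    (placeOfEq h Q).ord (⟨x, hx⟩ : E') = Q.ord (⟨x, hx'⟩ : E) := by
  subst h
  unfold placeOfEq
  rw [Fermat.Agent.T3.helper23.ord_placeComap]
  rfl

end Transfer

variable {A : ValuationSubring Kb}

theorem ordAt_placeOfEq {M M' : ℕ} [NeZero M] [NeZero M'] (h : FFb A M = FFb A M')
    (Q : Place (kA A) (FFb A M)) (x : LaurentSeries (kA A)) :
    Fermat.Agent.T8.helper16.ordAt (placeOfEq h Q) x = ordS Q x := by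
  unfold Fermat.Agent.T8.helper16.ordAt ordS
  by_cases hx : x ∈ FFb A M'
  · have hx' : x ∈ FFb A M := h ▸ hx
    rw [dif_pos hx, dif_pos hx']
    exact ord_placeOfEq h Q x hx hx'
  · have hx' : x ∉ FFb A M := fun h' => hx (h ▸ h')
    rw [dif_neg hx, dif_neg hx']

theorem ordS_const_mul {M : ℕ} [NeZero M] (Q : Place (kA A) (FFb A M)) {s : kA A} (hs : s ≠ 0)
    {r : LaurentSeries (kA A)} (hr : r ∈ FFb A M) (hr0 : r ≠ 0) :
    ordS Q (algebraMap (kA A) (LaurentSeries (kA A)) s * r) = ordS Q r := by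
  have e : algebraMap (kA A) (LaurentSeries (kA A)) s * r =
      ((algebraMap (kA A) (FFb A M) s * (⟨r, hr⟩ : FFb A M) : FFb A M) :
        LaurentSeries (kA A)) := rfl
  have e' : r = ((⟨r, hr⟩ : FFb A M) : LaurentSeries (kA A)) := rfl
  rw [e, ordS_coe]
  conv_rhs => rw [e', ordS_coe]
  have hs' : algebraMap (kA A) (FFb A M) s ≠ 0 := by
    rw [Ne, map_eq_zero_iff _ (algebraMap (kA A) (FFb A M)).injective]
    exact hs
  have hr' : (⟨r, hr⟩ : FFb A M) ≠ 0 := fun h => hr0 (congrArg Subtype.val h)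
  rw [Q.ord_mul hs' hr', Fermat.Agent.P3.helper94.ord_algebraMap_eq_zero, zero_add]

theorem HasRed.mono' {Good Good' : LaurentSeries A → Prop} (hGG : ∀ Y, Good Y → Good' Y) {c : Kb}
    {f : LaurentSeries Kb} {r : LaurentSeries (kA A)} (h : HasRed Good c f r) :
    HasRed Good' c f r := by
  obtain ⟨Y₁, Y₂, g₁, g₂, e, er⟩ := h
  exact ⟨Y₁, Y₂, hGG _ g₁, hGG _ g₂, e, er⟩

/-! ### The bridge -/

/-- **[RING-X] ⟹ the non-cuspidal half of the input of [SPLIT].** -/
theorem k0Fin_of_slopeX (N q : ℕ) [NeZero N] [NeZero q] (hq : q.Prime) (hqN : ¬ q ∣ N)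
    (A : ValuationSubring Kb) (hA : A.LiesOverPrime q) (B : PowerSeries ℤ)
    (ν : FFb A (N * q)) (hν : (ν : LaurentSeries (kA A)) = iota (kA A) B)
    (h : Fermat.Agent.T8.helper16.SlopeXStatement N q hq hqN A B) :
    K0FinStatement (N * q) (Fermat.Agent.T2.helper36.atkinLehner N q hq hqN) A q ν := by
  intro Q' hQ' u hu hfix hdiv c₁ c₂ r₁ r₂ k hc₁ hc₂ hr₁ hr₂ hk hk'
  have hE : FFb A (N * q) = FFb A N := Fermat.Agent.T2.helper96.FFb_mul_eq N A hq hA
  have hSc := Fermat.Agent.T2.helper58.scaleStatement_bad N q hq hqN A hA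
  have hq0 : (q : Kb) ≠ 0 := by exact_mod_cast hq.ne_zero
  have hqk : ∀ n : ℤ, (q : Kb) ^ n ≠ 0 := fun n => zpow_ne_zero _ hq0
  -- Gauss values
  obtain ⟨a₁, ha₁⟩ := Fermat.Agent.T3.helper5.gaussIs_fixI hq hA hSc hu hfix
  have hG₁ : GaussIs A (u : LaurentSeries Kb) c₁ := gaussIs_of_hasRed hc₁ hr₁
  have hv₁ : A.valuation c₁ = A.valuation ((q : Kb) ^ a₁) := hG₁.valuation_eq ha₁
  have hG₂ := gaussIs_of_hasRed hc₂ hr₂
  have hv₂ : A.valuation c₂ = A.valuation ((q : Kb) ^ (a₁ + k)) := by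
    have h1 : A.valuation c₂ = A.valuation (c₁ * (q : Kb) ^ k) :=
      val_eq_of_div_mem hc₂ (mul_ne_zero hc₁ (hqk k)) hk hk'
    rw [h1, map_mul, hv₁, ← map_mul, ← zpow_add₀ hq0]
  have hG₂' := hG₂.congr_val (hqk (a₁ + k)) hv₂
  -- the reduction of `q ^ (-a₁) u`
  have hev : A.valuation (c₁ / (q : Kb) ^ a₁) = 1 := by
    rw [map_div₀, hv₁, div_self ((Valuation.ne_zero_iff _).2 (hqk a₁))]
  have heA : c₁ / (q : Kb) ^ a₁ ∈ A := (A.valuation_le_one_iff _).1 hev.le
  have hs : IsLocalRing.residue A (⟨c₁ / (q : Kb) ^ a₁, heA⟩ : A) ≠ 0 := by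
    intro h1
    rw [IsLocalRing.residue_eq_zero_iff] at h1
    have h3 : A.valuation (((⟨c₁ / (q : Kb) ^ a₁, heA⟩ : A) : A) : Kb) < 1 :=
      (A.valuation_lt_one_iff (⟨c₁ / (q : Kb) ^ a₁, heA⟩ : A)).1 h1
    exact (ne_of_lt h3) hev
  have hρ₁ := (Fermat.Agent.T8.helper65.hasRed_redNe_iff hc₁).mp
    (HasRed.mono' (Good' := fun Y : LaurentSeries A => red A Y ≠ 0) (fun Y hY => hY.2.2) hr₁)
  have hρ := (Fermat.Agent.T3.helper36.rhoQ_algebraMap (⟨c₁ / (q : Kb) ^ a₁, heA⟩ : A)).mul hρ₁.1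
  have e1 : algebraMap Kb (LaurentSeries Kb) (((⟨c₁ / (q : Kb) ^ a₁, heA⟩ : A) : A) : Kb) *
      (algebraMap Kb (LaurentSeries Kb) c₁⁻¹ * (u : LaurentSeries Kb)) =
      algebraMap Kb (LaurentSeries Kb) ((q : Kb) ^ a₁)⁻¹ * (u : LaurentSeries Kb) := by
    rw [← mul_assoc, ← map_mul]
    congr 2
    show c₁ / (q : Kb) ^ a₁ * c₁⁻¹ = ((q : Kb) ^ a₁)⁻¹
    field_simp
  rw [e1] at hρ
  have hr₁mem : r₁ ∈ FFb A (N * q) := mem_of_isRedQuot hr₁.isRedQuot
  have hsr : algebraMap (kA A) (LaurentSeries (kA A))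
      (IsLocalRing.residue A (⟨c₁ / (q : Kb) ^ a₁, heA⟩ : A)) * r₁ ≠ 0 := by
    refine mul_ne_zero ?_ hρ₁.2
    rw [Ne, map_eq_zero_iff _ (algebraMap (kA A) (LaurentSeries (kA A))).injective]
    exact hs
  obtain ⟨-, hQ⟩ := h q hq.pos u hu hfix (fun P _ => hdiv P) a₁ (a₁ + k) _ hsr hρ hG₂'
  have hfin : Fermat.Agent.T8.helper16.IsFinitePt (placeOfEq hE Q') := by
    unfold Fermat.Agent.T8.helper16.IsFinitePt
    have e2 : (placeOfEq hE Q').ord (jBar A N) = Q'.ord (Fermat.Agent.T8.helper29.jbar A (N * q)) :=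
      ord_placeOfEq hE Q' _ _ _
    rw [e2]
    exact hQ'
  have key := hQ (placeOfEq hE Q') hfin
  rw [ordAt_placeOfEq, ordAt_placeOfEq, ordS_const_mul Q' hs hr₁mem hρ₁.2, ← hν, ordS_coe] at key
  have e3 : ordS Q' r₁ + (a₁ - (a₁ + k)) * Q'.ord ν = ordS Q' r₁ - k * Q'.ord ν := by ring
  rw [← e3]
  exact key

end Fermat.Agent.T8.helper98

end
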